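import Mathlib

/-!
# S36, step (2) of (KILL) (route #3001): the VERTICAL PART  (helper1013)

Mathlib-only, geometry-free.

* `vert_arith`        (V1) the arithmetic modulo `n` behind "after `x ↦ (q+1) x` the vertical
                      orders are `s • (1, q-1, 1)`".
* `IsOrd`             an abstract normalised discrete order function `F → ℤ` on a field
                      (multiplicative, ultrametric; its value at `0` is irrelevant).
* `exists_ord_eq`     (V2) weak approximation for orders: finitely many pairwise independent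
                      surjective order functions take prescribed values on one element.
* `exists_unit_twist` (V3) consumer form: `ord_i u ≡ s * e_i [ZMOD n]`, `ord_i π = e_i`
                      `⟹ ∃ w ≠ 0, u * π^(-s) * w^(-n)` has order `0` everywhere.
* `vertical_part`     (V4) step (2) itself for three order functions `v_∞, v_mid, v_0`
                      (indices `0, 1, 2`) with `ord π = (1, q-1, 1)`.
* `vertical_part_of_norms` (V4') the same with the four congruences derived from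
                      `Nα u = c * w ^ n`, `Nβ u = c' * w' ^ n` and the order-of-a-norm formulas.
* `dvrOrd`, `isOrd_dvrOrd`, `dvr_not_le`, `exists_prescribed_dvr`, `exists_unit_twist_dvr`
                      (V5) the same for discrete valuation subrings (`ValuationSubring F`).
* `UnitOf`, `IsUnifOf`, `unifOrd`, `isOrd_unifOrd`, `unif_not_le`, `exists_prescribed_unif`,
  `exists_unit_twist_unif`, `vertical_part_unif`
                      (V6) the same for a `ValuationSubring F` with a uniformiser given as a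
                      hypothesis (no `IsDiscreteValuationRing` instance needed).
-/

set_option autoImplicit false

namespace Fermat.Agent.S36.helper1013

/-! ## (V1) arithmetic -/

/-- **(V1)**: if `a + b ≡ t`, `q c ≡ t`, `q a ≡ t'`, `b + c ≡ t'` modulo `n`
(orders `a, b, c` of the Kummer function along the components `∞, mid, 0`; the two pairs of
congruences come from the norms along the two degeneracy maps), then
`(q+1) • (a, b, c) ≡ s • (1, q-1, 1)` with `s = (q+1) c`. -/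
theorem vert_arith (n q a b c t t' : ℤ)
    (h1 : a + b ≡ t [ZMOD n]) (h2 : q * c ≡ t [ZMOD n])
    (h3 : q * a ≡ t' [ZMOD n]) (h4 : b + c ≡ t' [ZMOD n]) :
    (q + 1) * a ≡ ((q + 1) * c) * 1 [ZMOD n] ∧
    (q + 1) * b ≡ ((q + 1) * c) * (q - 1) [ZMOD n] ∧
    (q + 1) * c ≡ ((q + 1) * c) * 1 [ZMOD n] := by
  obtain ⟨k1, hk1⟩ := (Int.modEq_iff_dvd).mp h1
  obtain ⟨k2, hk2⟩ := (Int.modEq_iff_dvd).mp h2
  obtain ⟨k3, hk3⟩ := (Int.modEq_iff_dvd).mp h3
  obtain ⟨k4, hk4⟩ := (Int.modEq_iff_dvd).mp h4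
  refine ⟨?_, ?_, ?_⟩
  · rw [Int.modEq_iff_dvd]
    exact ⟨k1 - k2 + k3 - k4, by linear_combination hk1 - hk2 + hk3 - hk4⟩
  · rw [Int.modEq_iff_dvd]
    exact ⟨q * (k1 - k2) + k4 - k3, by linear_combination q * hk1 - q * hk2 - hk3 + hk4⟩
  · rw [mul_one]

/-! ## Abstract order functions -/

/-- An abstract normalised discrete order function on a field: multiplicative on nonzero
elements and ultrametric.  (The value at `0` is irrelevant.) -/
structure IsOrd {F : Type*} [Field F] (ord : F → ℤ) : Prop where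
  map_mul : ∀ x y : F, x ≠ 0 → y ≠ 0 → ord (x * y) = ord x + ord y
  map_add : ∀ x y : F, x ≠ 0 → y ≠ 0 → x + y ≠ 0 → min (ord x) (ord y) ≤ ord (x + y)

namespace IsOrd

variable {F : Type*} [Field F] {ord : F → ℤ}

theorem map_one (h : IsOrd ord) : ord 1 = 0 := by
  have := h.map_mul 1 1 one_ne_zero one_ne_zero
  rw [mul_one] at this
  omega

theorem map_inv (h : IsOrd ord) {x : F} (hx : x ≠ 0) : ord x⁻¹ = - ord x := by
  have := h.map_mul x x⁻¹ hx (inv_ne_zero hx)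
  rw [mul_inv_cancel₀ hx, h.map_one] at this
  omega

theorem map_div (h : IsOrd ord) {x y : F} (hx : x ≠ 0) (hy : y ≠ 0) :
    ord (x / y) = ord x - ord y := by
  rw [div_eq_mul_inv, h.map_mul x y⁻¹ hx (inv_ne_zero hy), h.map_inv hy]
  ring

theorem map_neg_one (h : IsOrd ord) : ord (-1) = 0 := by
  have := h.map_mul (-1) (-1) (neg_ne_zero.mpr one_ne_zero) (neg_ne_zero.mpr one_ne_zero)
  rw [neg_one_mul, neg_neg, h.map_one] at this
  omega

theorem map_neg (h : IsOrd ord) {x : F} (hx : x ≠ 0) : ord (-x) = ord x := by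
  have := h.map_mul (-1) x (neg_ne_zero.mpr one_ne_zero) hx
  rw [neg_one_mul, h.map_neg_one] at this
  omega

theorem map_pow (h : IsOrd ord) {x : F} (hx : x ≠ 0) (k : ℕ) : ord (x ^ k) = k * ord x := by
  induction k with
  | zero => simp [h.map_one]
  | succ k ih =>
    rw [pow_succ, h.map_mul _ _ (pow_ne_zero k hx) hx, ih]
    push_cast
    ring

theorem map_zpow (h : IsOrd ord) {x : F} (hx : x ≠ 0) (k : ℤ) : ord (x ^ k) = k * ord x := by
  obtain ⟨m, rfl | rfl⟩ := Int.eq_nat_or_neg k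
  · rw [zpow_natCast]
    exact h.map_pow hx m
  · rw [zpow_neg, zpow_natCast, h.map_inv (pow_ne_zero _ hx), h.map_pow hx]
    ring

/-- The strict ultrametric equality. -/
theorem map_add_of_lt (h : IsOrd ord) {x y : F} (hx : x ≠ 0) (hy : y ≠ 0)
    (hlt : ord x < ord y) : x + y ≠ 0 ∧ ord (x + y) = ord x := by
  have hne : x + y ≠ 0 := by
    intro h0
    have hxy : x = -y := eq_neg_of_add_eq_zero_left h0
    rw [hxy, h.map_neg hy] at hlt
    exact lt_irrefl _ hlt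
  refine ⟨hne, le_antisymm ?_ ?_⟩
  · have h1 := h.map_add (x + y) (-y) hne (neg_ne_zero.mpr hy) (by simpa using hx)
    rw [add_neg_cancel_right, h.map_neg hy] at h1
    rcases min_le_iff.mp h1 with h2 | h2
    · exact h2
    · exact absurd h2 (not_le.mpr hlt)
  · have h1 := h.map_add x y hx hy hne
    rwa [min_eq_left hlt.le] at h1

theorem one_add_of_neg (h : IsOrd ord) {x : F} (hx : x ≠ 0) (hneg : ord x < 0) :
    1 + x ≠ 0 ∧ ord (1 + x) = ord x := by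
  have h1 := h.map_add_of_lt hx one_ne_zero (by rw [h.map_one]; exact hneg)
  rwa [add_comm] at h1

theorem one_add_of_pos (h : IsOrd ord) {x : F} (hx : x ≠ 0) (hpos : 0 < ord x) :
    1 + x ≠ 0 ∧ ord (1 + x) = 0 := by
  have h1 := h.map_add_of_lt one_ne_zero hx (by rw [h.map_one]; exact hpos)
  rwa [h.map_one] at h1

end IsOrd

/-! ## (V2) weak approximation for orders -/

/-- A large exponent: finitely many positive integers `f j`, arbitrary integers `g j`. -/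
theorem exists_large {ι : Type*} (s : Finset ι) (f g : ι → ℤ) (hf : ∀ j ∈ s, 0 < f j) (c : ℕ) :
    ∃ N : ℕ, c ≤ N ∧ ∀ j ∈ s, 0 < (N : ℤ) * f j + g j := by
  refine ⟨(∑ j ∈ s, (g j).natAbs) + c + 1, by omega, fun j hj => ?_⟩
  have h1 : (g j).natAbs ≤ ∑ j ∈ s, (g j).natAbs :=
    Finset.single_le_sum (f := fun j => (g j).natAbs) (fun _ _ => Nat.zero_le _) hj
  generalize (∑ j ∈ s, (g j).natAbs) = M at h1 ⊢
  have h2 : (1 : ℤ) ≤ f j := hf j hj
  have h3 : -(M : ℤ) ≤ g j := by omega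
  have h4 : ((M : ℤ) + c + 1) * 1 ≤ ((M : ℤ) + c + 1) * f j :=
    mul_le_mul_of_nonneg_left h2 (by positivity)
  push_cast
  linarith


section Family

variable {F : Type*} [Field F] {ι : Type*} (ord : ι → F → ℤ)

/-- Two independent order functions are separated by one element. -/
theorem exists_sep_pair (hord : ∀ i, IsOrd (ord i))
    (hind : ∀ i j, i ≠ j → ∃ x : F, x ≠ 0 ∧ 0 ≤ ord i x ∧ ord j x < 0)
    {i j : ι} (hij : i ≠ j) : ∃ θ : F, θ ≠ 0 ∧ ord i θ < 0 ∧ 0 < ord j θ := by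
  obtain ⟨a, ha, hai, haj⟩ := hind i j hij
  obtain ⟨b, hb, hbj, hbi⟩ := hind j i (Ne.symm hij)
  refine ⟨b / a, div_ne_zero hb ha, ?_, ?_⟩
  · rw [(hord i).map_div hb ha]
    omega
  · rw [(hord j).map_div hb ha]
    omega

/-- One order function is separated from finitely many others by one element
(Artin--Whaples induction). -/
theorem exists_sep_finset [DecidableEq ι] (hord : ∀ i, IsOrd (ord i))
    (hsurj : ∀ i, ∃ x : F, x ≠ 0 ∧ ord i x = 1)
    (hind : ∀ i j, i ≠ j → ∃ x : F, x ≠ 0 ∧ 0 ≤ ord i x ∧ ord j x < 0)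
    (i : ι) (s : Finset ι) (his : i ∉ s) :
    ∃ θ : F, θ ≠ 0 ∧ ord i θ < 0 ∧ ∀ j ∈ s, 0 < ord j θ := by
  induction s using Finset.induction_on with
  | empty =>
    obtain ⟨x, hx, hx1⟩ := hsurj i
    refine ⟨x⁻¹, inv_ne_zero hx, ?_, by simp⟩
    rw [(hord i).map_inv hx, hx1]
    norm_num
  | insert r s hrs ih =>
    have hir : i ≠ r := fun h => his (h ▸ Finset.mem_insert_self _ _)
    have his' : i ∉ s := fun h => his (Finset.mem_insert_of_mem h)
    obtain ⟨θ, hθ, hθi, hθs⟩ := ih his'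
    obtain ⟨ψ, hψ, hψi, hψr⟩ := exists_sep_pair ord hord hind hir
    obtain ⟨N, hN1, hN⟩ : ∃ N : ℕ, 0 < N ∧ ∀ j ∈ s, 0 < (N : ℤ) * ord j θ + ord j ψ := by
      obtain ⟨N, hN1, hN⟩ := exists_large s (fun j => ord j θ) (fun j => ord j ψ) hθs 1
      exact ⟨N, hN1, hN⟩
    have hT : θ ^ N ≠ 0 := pow_ne_zero N hθ
    have hTord : ∀ k, ord k (θ ^ N) = (N : ℤ) * ord k θ := fun k => (hord k).map_pow hθ N
    have hNpos : (0 : ℤ) < N := by exact_mod_cast hN1
    rcases lt_trichotomy (ord r θ) 0 with hr | hr | hr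
    · -- `ψ * (θ^N / (1 + θ^N))`
      have hi1 := (hord i).one_add_of_neg hT (by rw [hTord]; exact mul_neg_of_pos_of_neg hNpos hθi)
      have hr1 := (hord r).one_add_of_neg hT (by rw [hTord]; exact mul_neg_of_pos_of_neg hNpos hr)
      have h1T : (1 : F) + θ ^ N ≠ 0 := hi1.1
      have hδ : θ ^ N / (1 + θ ^ N) ≠ 0 := div_ne_zero hT h1T
      refine ⟨ψ * (θ ^ N / (1 + θ ^ N)), mul_ne_zero hψ hδ, ?_, fun j hj => ?_⟩
      · rw [(hord i).map_mul _ _ hψ hδ, (hord i).map_div hT h1T, hi1.2]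
        omega
      · rcases Finset.mem_insert.mp hj with rfl | hj
        · rw [(hord j).map_mul _ _ hψ hδ, (hord j).map_div hT h1T, hr1.2]
          omega
        · have hj1 := (hord j).one_add_of_pos hT (by rw [hTord]; exact mul_pos hNpos (hθs j hj))
          rw [(hord j).map_mul _ _ hψ hδ, (hord j).map_div hT h1T, hj1.2, hTord]
          have := hN j hj
          omega
    · -- `θ^N * ψ`
      refine ⟨θ ^ N * ψ, mul_ne_zero hT hψ, ?_, fun j hj => ?_⟩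
      · rw [(hord i).map_mul _ _ hT hψ, hTord]
        have := mul_neg_of_pos_of_neg hNpos hθi
        omega
      · rcases Finset.mem_insert.mp hj with rfl | hj
        · rw [(hord j).map_mul _ _ hT hψ, hTord, hr]
          omega
        · rw [(hord j).map_mul _ _ hT hψ, hTord]
          exact hN j hj
    · exact ⟨θ, hθ, hθi, fun j hj => by
        rcases Finset.mem_insert.mp hj with rfl | hj
        · exact hr
        · exact hθs j hj⟩

/-- Simultaneous uniformisers: order `1` at `i`, order `0` at all other indices. -/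
theorem exists_unif [Fintype ι] [DecidableEq ι] (hord : ∀ i, IsOrd (ord i))
    (hsurj : ∀ i, ∃ x : F, x ≠ 0 ∧ ord i x = 1)
    (hind : ∀ i j, i ≠ j → ∃ x : F, x ≠ 0 ∧ 0 ≤ ord i x ∧ ord j x < 0)
    (i : ι) : ∃ π : F, π ≠ 0 ∧ ord i π = 1 ∧ ∀ j, j ≠ i → ord j π = 0 := by
  obtain ⟨t, ht, hti⟩ := hsurj i
  obtain ⟨θ, hθ, hθi, hθs⟩ := exists_sep_finset ord hord hsurj hind i (Finset.univ.erase i)
    (Finset.notMem_erase i _)
  have hθj : ∀ j, j ≠ i → 0 < ord j θ := fun j hj =>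
    hθs j (Finset.mem_erase.mpr ⟨hj, Finset.mem_univ j⟩)
  obtain ⟨N, hN2, hN⟩ : ∃ N : ℕ, 2 ≤ N ∧ ∀ j, j ≠ i → 0 < (N : ℤ) * ord j θ + ord j t := by
    obtain ⟨N, hN1, hN⟩ := exists_large (Finset.univ.erase i) (fun j => ord j θ)
      (fun j => ord j t) hθs 2
    exact ⟨N, hN1, fun j hj => hN j (Finset.mem_erase.mpr ⟨hj, Finset.mem_univ j⟩)⟩
  have hT : θ ^ N ≠ 0 := pow_ne_zero N hθ
  have htT : t * θ ^ N ≠ 0 := mul_ne_zero ht hT
  have hTord : ∀ k, ord k (θ ^ N) = (N : ℤ) * ord k θ := fun k => (hord k).map_pow hθ N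
  have htTord : ∀ k, ord k (t * θ ^ N) = ord k t + (N : ℤ) * ord k θ := fun k => by
    rw [(hord k).map_mul _ _ ht hT, hTord]
  have hN2' : (2 : ℤ) ≤ N := by exact_mod_cast hN2
  have hNθi : (N : ℤ) * ord i θ ≤ -2 := by nlinarith
  have hi1 := (hord i).one_add_of_neg hT (by rw [hTord]; omega)
  have hi2 := (hord i).one_add_of_neg htT (by rw [htTord, hti]; omega)
  refine ⟨(1 + t * θ ^ N) / (1 + θ ^ N), div_ne_zero hi2.1 hi1.1, ?_, fun j hj => ?_⟩
  · rw [(hord i).map_div hi2.1 hi1.1, hi1.2, hi2.2, htTord, hTord, hti]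
    ring
  · have hj1 := (hord j).one_add_of_pos hT (by
      rw [hTord]; exact mul_pos (by omega) (hθj j hj))
    have hj2 := (hord j).one_add_of_pos htT (by
      rw [htTord]; have := hN j hj; omega)
    rw [(hord j).map_div hj2.1 hj1.1, hj1.2, hj2.2]
    ring

/-- **(V2) Weak approximation for orders.**  Finitely many order functions `ord i` on a field
which are surjective (`∃ x, ord i x = 1`) and pairwise independent (for `i ≠ j` some `x` has
`ord i x ≥ 0 > ord j x`, i.e. the valuation rings are not contained in each other) take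
arbitrary prescribed values on one nonzero element. -/
theorem exists_ord_eq [Finite ι] (hord : ∀ i, IsOrd (ord i))
    (hsurj : ∀ i, ∃ x : F, x ≠ 0 ∧ ord i x = 1)
    (hind : ∀ i j, i ≠ j → ∃ x : F, x ≠ 0 ∧ 0 ≤ ord i x ∧ ord j x < 0)
    (a : ι → ℤ) : ∃ w : F, w ≠ 0 ∧ ∀ i, ord i w = a i := by
  classical
  cases nonempty_fintype ι
  choose π hπ0 hπi hπj using exists_unif ord hord hsurj hind
  have hne : ∀ s : Finset ι, ∏ i ∈ s, π i ^ a i ≠ 0 := fun s =>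
    Finset.prod_ne_zero_iff.mpr fun i _ => zpow_ne_zero _ (hπ0 i)
  refine ⟨∏ i, π i ^ a i, hne _, fun k => ?_⟩
  have key : ∀ s : Finset ι, ord k (∏ i ∈ s, π i ^ a i) = ∑ i ∈ s, a i * ord k (π i) := by
    intro s
    induction s using Finset.induction_on with
    | empty => simp [(hord k).map_one]
    | insert r s hrs ih =>
      rw [Finset.prod_insert hrs, Finset.sum_insert hrs,
        (hord k).map_mul _ _ (zpow_ne_zero _ (hπ0 r)) (hne s), ih, (hord k).map_zpow (hπ0 r)]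
  rw [key, Finset.sum_eq_single k]
  · rw [hπi, mul_one]
  · intro j _ hjk
    rw [hπj j k (Ne.symm hjk), mul_zero]
  · intro hk
    exact absurd (Finset.mem_univ k) hk

/-- **(V3)** consumer form: if the orders of `u` are congruent modulo `n` to `s` times the orders
of `π`, then `u * π^(-s) * w^(-n)` has order `0` everywhere for a suitable `w ≠ 0`. -/
theorem exists_unit_twist [Finite ι] (hord : ∀ i, IsOrd (ord i))
    (hsurj : ∀ i, ∃ x : F, x ≠ 0 ∧ ord i x = 1)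
    (hind : ∀ i j, i ≠ j → ∃ x : F, x ≠ 0 ∧ 0 ≤ ord i x ∧ ord j x < 0)
    (n s : ℤ) (e : ι → ℤ) (u π : F) (hu : u ≠ 0) (hπ : π ≠ 0)
    (hπe : ∀ i, ord i π = e i) (hcong : ∀ i, ord i u ≡ s * e i [ZMOD n]) :
    ∃ w : F, w ≠ 0 ∧ ∀ i, ord i (u * π ^ (-s) * w ^ (-n)) = 0 := by
  have hdvd : ∀ i, ∃ k : ℤ, s * e i - ord i u = n * k := fun i =>
    (Int.modEq_iff_dvd).mp (hcong i)
  choose k hk using hdvd
  obtain ⟨w, hw, hwk⟩ := exists_ord_eq ord hord hsurj hind (fun i => - k i)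
  refine ⟨w, hw, fun i => ?_⟩
  rw [(hord i).map_mul _ _ (mul_ne_zero hu (zpow_ne_zero _ hπ)) (zpow_ne_zero _ hw),
    (hord i).map_mul _ _ hu (zpow_ne_zero _ hπ), (hord i).map_zpow hπ, (hord i).map_zpow hw,
    hwk, hπe]
  have := hk i
  linarith

end Family

/-! ## (V4) step (2) of (KILL) -/

/-- **(V4) The vertical part** (step (2) of (KILL), route #3001).  Three independent order
functions `ord 0 = v_∞`, `ord 1 = v_mid`, `ord 2 = v_0` on a field, an element `π` (the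
uniformiser `q` of the base) with orders `(1, q-1, 1)`, and a nonzero `u` whose orders satisfy
the two pairs of congruences coming from the norms along the two degeneracy maps
(`ord_∞ + ord_mid ≡ t ≡ q ord_0` and `q ord_∞ ≡ t' ≡ ord_mid + ord_0` modulo `n`).
Then `u^(q+1)` is, up to a power of `π` and an `n`-th power, a unit at all three. -/
theorem vertical_part {F : Type*} [Field F] (ord : Fin 3 → F → ℤ) (hord : ∀ i, IsOrd (ord i))
    (hsurj : ∀ i, ∃ x : F, x ≠ 0 ∧ ord i x = 1)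
    (hind : ∀ i j, i ≠ j → ∃ x : F, x ≠ 0 ∧ 0 ≤ ord i x ∧ ord j x < 0)
    (n : ℤ) (q : ℕ) (u π : F) (hu : u ≠ 0) (hπ : π ≠ 0)
    (hπ0 : ord 0 π = 1) (hπ1 : ord 1 π = (q : ℤ) - 1) (hπ2 : ord 2 π = 1)
    (t t' : ℤ)
    (h1 : ord 0 u + ord 1 u ≡ t [ZMOD n]) (h2 : (q : ℤ) * ord 2 u ≡ t [ZMOD n])
    (h3 : (q : ℤ) * ord 0 u ≡ t' [ZMOD n]) (h4 : ord 1 u + ord 2 u ≡ t' [ZMOD n]) :
    ∃ (s : ℤ) (w : F), w ≠ 0 ∧
      ∀ i, ord i (u ^ (q + 1) * π ^ (-s) * w ^ (-n)) = 0 := by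
  obtain ⟨e0, e1, e2⟩ := vert_arith n q (ord 0 u) (ord 1 u) (ord 2 u) t t' h1 h2 h3 h4
  have hu' : u ^ (q + 1) ≠ 0 := pow_ne_zero _ hu
  refine ⟨((q : ℤ) + 1) * ord 2 u, ?_⟩
  refine exists_unit_twist ord hord hsurj hind n (((q : ℤ) + 1) * ord 2 u)
    ![1, (q : ℤ) - 1, 1] (u ^ (q + 1)) π hu' hπ ?_ ?_
  · intro i
    fin_cases i
    · simpa using hπ0
    · simpa using hπ1
    · simpa using hπ2
  · intro i
    rw [(hord i).map_pow hu]
    fin_cases i
    · simpa using e0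
    · simpa using e1
    · simp

/-- **(V4'), norm form of step (2).**  The four congruences of `vertical_part` in the form in
which they arise: `Nα, Nβ : F → F'` (the norms along the two degeneracy maps), two order
functions `ordInf', ordZero'` on `F'` (the two Gauss valuations one level down), the order-of-a-norm
formulas with the `e/f` tables of the two maps as hypotheses, and `Nα u = c * w ^ n`,
`Nβ u = c' * w' ^ n` with "constants" `c, c'` (elements on which the two order functions of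
`F'` agree). -/
theorem vertical_part_of_norms {F F' : Type*} [Field F] [Field F'] (ord : Fin 3 → F → ℤ)
    (hord : ∀ i, IsOrd (ord i))
    (hsurj : ∀ i, ∃ x : F, x ≠ 0 ∧ ord i x = 1)
    (hind : ∀ i j, i ≠ j → ∃ x : F, x ≠ 0 ∧ 0 ≤ ord i x ∧ ord j x < 0)
    (ordInf' ordZero' : F' → ℤ) (hInf : IsOrd ordInf') (h0 : IsOrd ordZero')
    (n q : ℕ) (Nα Nβ : F → F') (u π : F) (hu : u ≠ 0) (hπ : π ≠ 0)
    (hπ0 : ord 0 π = 1) (hπ1 : ord 1 π = (q : ℤ) - 1) (hπ2 : ord 2 π = 1)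
    (hαInf : ordInf' (Nα u) = ord 0 u + ord 1 u) (hα0 : ordZero' (Nα u) = (q : ℤ) * ord 2 u)
    (hβInf : ordInf' (Nβ u) = (q : ℤ) * ord 0 u) (hβ0 : ordZero' (Nβ u) = ord 1 u + ord 2 u)
    (c w c' w' : F') (hc : c ≠ 0) (hw : w ≠ 0) (hc' : c' ≠ 0) (hw' : w' ≠ 0)
    (hcc : ordInf' c = ordZero' c) (hcc' : ordInf' c' = ordZero' c')
    (hNα : Nα u = c * w ^ n) (hNβ : Nβ u = c' * w' ^ n) :
    ∃ (s : ℤ) (z : F), z ≠ 0 ∧
      ∀ i, ord i (u ^ (q + 1) * π ^ (-s) * z ^ (-(n : ℤ))) = 0 := by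
  have key : ∀ (o : F' → ℤ) (_ : IsOrd o) (c w : F'), c ≠ 0 → w ≠ 0 →
      o (c * w ^ n) ≡ o c [ZMOD (n : ℤ)] := by
    intro o ho c w hc hw
    rw [ho.map_mul _ _ hc (pow_ne_zero n hw), ho.map_pow hw, Int.modEq_iff_dvd]
    exact ⟨-(o w), by ring⟩
  refine vertical_part ord hord hsurj hind (n : ℤ) q u π hu hπ hπ0 hπ1 hπ2
    (ordInf' c) (ordInf' c') ?_ ?_ ?_ ?_
  · rw [← hαInf, hNα]
    exact key ordInf' hInf c w hc hw
  · rw [← hα0, hNα, hcc]
    exact key ordZero' h0 c w hc hw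
  · rw [← hβInf, hNβ]
    exact key ordInf' hInf c' w' hc' hw'
  · rw [← hβ0, hNβ, hcc']
    exact key ordZero' h0 c' w' hc' hw'

/-! ## (V5) discrete valuation subrings of a field -/

section DVR

variable {F : Type*} [Field F]

/-- Every nonzero element of the field is `ϖ^k * unit` for a uniformiser `ϖ` of a discrete
valuation subring. -/
theorem exists_zpow_mul_unit (A : ValuationSubring F) [IsDiscreteValuationRing A] {ϖ : A}
    (hϖ : Irreducible ϖ) {x : F} (hx : x ≠ 0) :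
    ∃ (k : ℤ) (ε : Aˣ), x = (ϖ : F) ^ k * ((ε : A) : F) := by
  rcases A.mem_or_inv_mem x with hxA | hxA
  · have hy : (⟨x, hxA⟩ : A) ≠ 0 := fun h => hx (congrArg Subtype.val h)
    obtain ⟨m, u, hu⟩ := IsDiscreteValuationRing.eq_unit_mul_pow_irreducible hy hϖ
    refine ⟨m, u, ?_⟩
    have := congrArg (Subtype.val : A → F) hu
    simp only [MulMemClass.coe_mul, SubmonoidClass.coe_pow] at this
    rw [zpow_natCast, mul_comm]
    exact this
  · have hy : (⟨x⁻¹, hxA⟩ : A) ≠ 0 := fun h => inv_ne_zero hx (congrArg Subtype.val h)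
    obtain ⟨m, u, hu⟩ := IsDiscreteValuationRing.eq_unit_mul_pow_irreducible hy hϖ
    refine ⟨-m, u⁻¹, ?_⟩
    have h1 := congrArg (Subtype.val : A → F) hu
    simp only [MulMemClass.coe_mul, SubmonoidClass.coe_pow] at h1
    have h2 : ((u : A) : F) * (((u⁻¹ : Aˣ) : A) : F) = 1 := by
      rw [← MulMemClass.coe_mul, Units.mul_inv]
      rfl
    have hu0 : ((u : A) : F) ≠ 0 := left_ne_zero_of_mul_eq_one h2
    have hϖ0 : (ϖ : F) ≠ 0 := fun h => hϖ.ne_zero (Subtype.ext h)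
    have h3 : (((u⁻¹ : Aˣ) : A) : F) = ((u : A) : F)⁻¹ := eq_inv_of_mul_eq_one_right h2
    rw [zpow_neg, zpow_natCast, h3, ← mul_inv, mul_comm, ← h1, inv_inv]

/-- The exponent in `x = ϖ^k * unit` is unique. -/
theorem zpow_mul_unit_unique (A : ValuationSubring F) [IsDiscreteValuationRing A] {ϖ : A}
    (hϖ : Irreducible ϖ) {k l : ℤ} {ε η : Aˣ}
    (h : (ϖ : F) ^ k * ((ε : A) : F) = (ϖ : F) ^ l * ((η : A) : F)) : k = l := by
  have hϖ0 : (ϖ : F) ≠ 0 := fun h => hϖ.ne_zero (Subtype.ext h)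
  -- it suffices to treat `k ≤ l`
  have key : ∀ (k l : ℤ) (ε η : Aˣ), k ≤ l →
      (ϖ : F) ^ k * ((ε : A) : F) = (ϖ : F) ^ l * ((η : A) : F) → k = l := by
    intro k l ε η hkl h
    obtain ⟨m, hm⟩ := Int.le.dest hkl
    have hη : ((η : A) : F) * (((η⁻¹ : Aˣ) : A) : F) = 1 := by
      rw [← MulMemClass.coe_mul, Units.mul_inv]
      rfl
    -- `ϖ^m = ε * η⁻¹` in `A`
    have h1 : (ϖ : F) ^ m = ((ε : A) : F) * (((η⁻¹ : Aˣ) : A) : F) := by
      have h2 : (ϖ : F) ^ l = (ϖ : F) ^ k * (ϖ : F) ^ m := by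
        rw [← hm, zpow_add₀ hϖ0, zpow_natCast]
      rw [h2] at h
      have h3 : (ϖ : F) ^ k ≠ 0 := zpow_ne_zero _ hϖ0
      have h4 : ((ε : A) : F) = (ϖ : F) ^ m * ((η : A) : F) := by
        apply mul_left_cancel₀ h3
        rw [h, mul_assoc]
      rw [h4, mul_assoc, hη, mul_one]
    have h5 : ϖ ^ m = (ε : A) * ((η⁻¹ : Aˣ) : A) := by
      apply Subtype.ext
      simpa using h1
    have h6 : IsUnit (ϖ ^ m) := by
      rw [h5]
      exact (ε * η⁻¹).isUnit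
    by_cases hm0 : m = 0
    · subst hm0
      simpa using hm
    · exact absurd ((isUnit_pow_iff hm0).mp h6) hϖ.not_isUnit
  rcases le_total k l with hkl | hkl
  · exact key k l ε η hkl h
  · exact (key l k η ε hkl h.symm).symm

open Classical in
/-- The normalised order function of a discrete valuation subring `A` of a field, with respect
to a uniformiser `ϖ` (junk value `0` at `0`). -/
noncomputable def dvrOrd (A : ValuationSubring F) (ϖ : A) (x : F) : ℤ :=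
  if h : ∃ (k : ℤ) (ε : Aˣ), x = (ϖ : F) ^ k * ((ε : A) : F) then h.choose else 0

theorem dvrOrd_eq (A : ValuationSubring F) [IsDiscreteValuationRing A] {ϖ : A}
    (hϖ : Irreducible ϖ) {x : F} {k : ℤ} {ε : Aˣ} (h : x = (ϖ : F) ^ k * ((ε : A) : F)) :
    dvrOrd A ϖ x = k := by
  have hex : ∃ (k : ℤ) (ε : Aˣ), x = (ϖ : F) ^ k * ((ε : A) : F) := ⟨k, ε, h⟩
  unfold dvrOrd
  rw [dif_pos hex]
  obtain ⟨ε', hε'⟩ := hex.choose_spec
  exact zpow_mul_unit_unique A hϖ (hε'.symm.trans h)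

theorem dvrOrd_spec (A : ValuationSubring F) [IsDiscreteValuationRing A] {ϖ : A}
    (hϖ : Irreducible ϖ) {x : F} (hx : x ≠ 0) :
    ∃ ε : Aˣ, x = (ϖ : F) ^ dvrOrd A ϖ x * ((ε : A) : F) := by
  obtain ⟨k, ε, h⟩ := exists_zpow_mul_unit A hϖ hx
  exact ⟨ε, by rw [dvrOrd_eq A hϖ h]; exact h⟩

theorem dvrOrd_unif (A : ValuationSubring F) [IsDiscreteValuationRing A] {ϖ : A}
    (hϖ : Irreducible ϖ) : dvrOrd A ϖ (ϖ : F) = 1 :=
  dvrOrd_eq A hϖ (ε := 1) (by simp)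

/-- Nonzero elements of `A` are exactly the nonzero elements of nonnegative order. -/
theorem mem_iff_dvrOrd_nonneg (A : ValuationSubring F) [IsDiscreteValuationRing A] {ϖ : A}
    (hϖ : Irreducible ϖ) {x : F} (hx : x ≠ 0) : x ∈ A ↔ 0 ≤ dvrOrd A ϖ x := by
  constructor
  · intro hxA
    have hy : (⟨x, hxA⟩ : A) ≠ 0 := fun h => hx (congrArg Subtype.val h)
    obtain ⟨m, u, hu⟩ := IsDiscreteValuationRing.eq_unit_mul_pow_irreducible hy hϖ
    have h1 := congrArg (Subtype.val : A → F) hu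
    simp only [MulMemClass.coe_mul, SubmonoidClass.coe_pow] at h1
    have h2 : x = (ϖ : F) ^ (m : ℤ) * ((u : A) : F) := by
      rw [zpow_natCast, mul_comm]
      exact h1
    rw [dvrOrd_eq A hϖ h2]
    exact Int.natCast_nonneg m
  · intro h0
    obtain ⟨ε, hε⟩ := dvrOrd_spec A hϖ hx
    obtain ⟨m, hm⟩ := Int.eq_ofNat_of_zero_le h0
    rw [hm, zpow_natCast] at hε
    rw [hε]
    exact A.mul_mem _ _ (pow_mem ϖ.2 m) (ε : A).2

/-- Elements of order `0` are exactly the units of `A`. -/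
theorem dvrOrd_eq_zero_iff (A : ValuationSubring F) [IsDiscreteValuationRing A] {ϖ : A}
    (hϖ : Irreducible ϖ) {x : F} (hx : x ≠ 0) :
    dvrOrd A ϖ x = 0 ↔ ∃ ε : Aˣ, x = ((ε : A) : F) := by
  constructor
  · intro h0
    obtain ⟨ε, hε⟩ := dvrOrd_spec A hϖ hx
    exact ⟨ε, by rw [hε, h0, zpow_zero, one_mul]⟩
  · rintro ⟨ε, hε⟩
    exact dvrOrd_eq A hϖ (k := 0) (ε := ε) (by rw [zpow_zero, one_mul]; exact hε)

/-- The order function of a discrete valuation subring is an abstract order function. -/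
theorem isOrd_dvrOrd (A : ValuationSubring F) [IsDiscreteValuationRing A] {ϖ : A}
    (hϖ : Irreducible ϖ) : IsOrd (dvrOrd A ϖ) := by
  have hϖ0 : (ϖ : F) ≠ 0 := fun h => hϖ.ne_zero (Subtype.ext h)
  -- the ultrametric inequality when `ord x ≤ ord y`
  have key : ∀ x y : F, x ≠ 0 → y ≠ 0 → x + y ≠ 0 → dvrOrd A ϖ x ≤ dvrOrd A ϖ y →
      dvrOrd A ϖ x ≤ dvrOrd A ϖ (x + y) := by
    intro x y hx hy hxy hle
    obtain ⟨ε, hε⟩ := dvrOrd_spec A hϖ hx
    obtain ⟨η, hη⟩ := dvrOrd_spec A hϖ hy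
    obtain ⟨m, hm⟩ := Int.le.dest hle
    set k := dvrOrd A ϖ x with hk
    -- `z = ε + ϖ^m η ∈ A`, `x + y = ϖ^k z`
    have hz : x + y = (ϖ : F) ^ k * (((ε : A) + ϖ ^ m * (η : A) : A) : F) := by
      have h2 : (ϖ : F) ^ dvrOrd A ϖ y = (ϖ : F) ^ k * (ϖ : F) ^ m := by
        rw [← hm, zpow_add₀ hϖ0, zpow_natCast]
      conv_lhs => rw [hε, hη, h2]
      push_cast
      ring
    have hz0 : ((ε : A) + ϖ ^ m * (η : A) : A) ≠ 0 := by
      intro h0
      apply hxy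
      rw [hz, h0]
      simp
    obtain ⟨j, θ, hθ⟩ := IsDiscreteValuationRing.eq_unit_mul_pow_irreducible hz0 hϖ
    have h3 : x + y = (ϖ : F) ^ (k + (j : ℤ)) * ((θ : A) : F) := by
      rw [hz, hθ, zpow_add₀ hϖ0, zpow_natCast]
      push_cast
      ring
    rw [dvrOrd_eq A hϖ h3]
    have := Int.natCast_nonneg j
    omega
  refine ⟨fun x y hx hy => ?_, fun x y hx hy hxy => ?_⟩
  · obtain ⟨ε, hε⟩ := dvrOrd_spec A hϖ hx
    obtain ⟨η, hη⟩ := dvrOrd_spec A hϖ hy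
    refine dvrOrd_eq A hϖ (ε := ε * η) ?_
    conv_lhs => rw [hε, hη]
    rw [zpow_add₀ hϖ0]
    push_cast
    ring
  · rcases le_total (dvrOrd A ϖ x) (dvrOrd A ϖ y) with hle | hle
    · rw [min_eq_left hle]
      exact key x y hx hy hxy hle
    · rw [min_eq_right hle, add_comm]
      exact key y x hy hx (by rwa [add_comm]) hle

/-- Distinct discrete valuation subrings of a field are not contained in each other. -/
theorem dvr_not_le {A B : ValuationSubring F} [IsDiscreteValuationRing A]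
    [IsDiscreteValuationRing B] (hAB : A ≠ B) : ¬ A ≤ B := by
  intro hle
  apply hAB
  refine le_antisymm hle fun x hxB => ?_
  by_contra hxA
  obtain ⟨ϖ, hϖ⟩ := IsDiscreteValuationRing.exists_irreducible A
  obtain ⟨ϖB, hϖB⟩ := IsDiscreteValuationRing.exists_irreducible B
  have hϖ0 : (ϖ : F) ≠ 0 := fun h => hϖ.ne_zero (Subtype.ext h)
  have hx0 : x ≠ 0 := fun h => hxA (h ▸ A.zero_mem)
  -- `x = ϖ^k ε` with `k < 0`
  obtain ⟨ε, hε⟩ := dvrOrd_spec A hϖ hx0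
  have hk : dvrOrd A ϖ x < 0 := by
    by_contra hk
    exact hxA ((mem_iff_dvrOrd_nonneg A hϖ hx0).mpr (not_lt.mp hk))
  -- `ϖ⁻¹ ∈ B`
  have hεinv : ((ε : A) : F) * (((ε⁻¹ : Aˣ) : A) : F) = 1 := by
    rw [← MulMemClass.coe_mul, Units.mul_inv]
    rfl
  obtain ⟨m, hm⟩ : ∃ m : ℕ, dvrOrd A ϖ x = -((m : ℤ) + 1) :=
    ⟨(-(dvrOrd A ϖ x) - 1).toNat, by omega⟩
  have hϖinv : (ϖ : F)⁻¹ ∈ B := by
    have hx' : x = (ϖ : F) ^ (-((m : ℤ) + 1)) * ((ε : A) : F) := by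
      rw [← hm]
      exact hε
    have h1 : (ϖ : F)⁻¹ = (ϖ : F) ^ m * (x * (((ε⁻¹ : Aˣ) : A) : F)) := by
      have h2 : x * (((ε⁻¹ : Aˣ) : A) : F) = (ϖ : F) ^ (-((m : ℤ) + 1)) := by
        rw [hx', mul_assoc, hεinv, mul_one]
      rw [h2, ← zpow_natCast, ← zpow_add₀ hϖ0, show (m : ℤ) + -((m : ℤ) + 1) = -1 by ring,
        zpow_neg_one]
    rw [h1]
    exact B.mul_mem _ _ (pow_mem (hle ϖ.2) m) (B.mul_mem _ _ hxB (hle ((ε⁻¹ : Aˣ) : A).2))
  -- hence `B = ⊤`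
  have htop : ∀ z : F, z ∈ B := by
    intro z
    by_cases hz : z = 0
    · rw [hz]; exact B.zero_mem
    · obtain ⟨η, hη⟩ := dvrOrd_spec A hϖ hz
      rw [hη]
      refine B.mul_mem _ _ ?_ (hle (η : A).2)
      obtain ⟨j, hj | hj⟩ := Int.eq_nat_or_neg (dvrOrd A ϖ z)
      · rw [hj, zpow_natCast]
        exact pow_mem (hle ϖ.2) j
      · rw [hj, zpow_neg, zpow_natCast, ← inv_pow]
        exact pow_mem hϖinv j
  have hϖB0 : (ϖB : F) ≠ 0 := fun h => hϖB.ne_zero (Subtype.ext h)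
  apply hϖB.not_isUnit
  refine IsUnit.of_mul_eq_one (⟨(ϖB : F)⁻¹, htop _⟩ : B) ?_
  apply Subtype.ext
  simp [hϖB0]

/-- **(V2), valuation-subring form.**  Finitely many pairwise distinct discrete valuation
subrings `A i` of a field with uniformisers `ϖ i`: there is `w ≠ 0` with
`w = ϖ_i ^ (a i) * unit of A i` for all `i`. -/
theorem exists_prescribed_dvr {ι : Type*} [Finite ι] (A : ι → ValuationSubring F)
    [∀ i, IsDiscreteValuationRing (A i)] (hA : Function.Injective A)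
    (ϖ : ∀ i, A i) (hϖ : ∀ i, Irreducible (ϖ i)) (a : ι → ℤ) :
    ∃ w : F, w ≠ 0 ∧ ∀ i, ∃ ε : (A i)ˣ, w = ((ϖ i : A i) : F) ^ a i * ((ε : A i) : F) := by
  have hind : ∀ i j, i ≠ j → ∃ x : F, x ≠ 0 ∧ 0 ≤ dvrOrd (A i) (ϖ i) x ∧
      dvrOrd (A j) (ϖ j) x < 0 := by
    intro i j hij
    have hnle : ¬ A i ≤ A j := dvr_not_le fun h => hij (hA h)
    obtain ⟨x, hxi, hxj⟩ := SetLike.not_le_iff_exists.mp hnle
    have hx0 : x ≠ 0 := fun h => hxj (h ▸ (A j).zero_mem)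
    refine ⟨x, hx0, (mem_iff_dvrOrd_nonneg (A i) (hϖ i) hx0).mp hxi, ?_⟩
    by_contra hneg
    exact hxj ((mem_iff_dvrOrd_nonneg (A j) (hϖ j) hx0).mpr (not_lt.mp hneg))
  obtain ⟨w, hw, hwa⟩ := exists_ord_eq (fun i => dvrOrd (A i) (ϖ i))
    (fun i => isOrd_dvrOrd (A i) (hϖ i))
    (fun i => ⟨(ϖ i : F), fun h => (hϖ i).ne_zero (Subtype.ext h), dvrOrd_unif (A i) (hϖ i)⟩)
    hind a
  refine ⟨w, hw, fun i => ?_⟩
  obtain ⟨ε, hε⟩ := dvrOrd_spec (A i) (hϖ i) hw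
  exact ⟨ε, by rw [← hwa i]; exact hε⟩

/-- **(V3), valuation-subring form.**  `u = ϖ_i^(m i) * unit`, `π = ϖ_i^(e i) * unit` at every
`A i` and `m i ≡ s * e i [ZMOD n]`  `⟹`  for a suitable `w ≠ 0` the element
`u * π^(-s) * w^(-n)` is a unit of every `A i`. -/
theorem exists_unit_twist_dvr {ι : Type*} [Finite ι] (A : ι → ValuationSubring F)
    [∀ i, IsDiscreteValuationRing (A i)] (hA : Function.Injective A)
    (ϖ : ∀ i, A i) (hϖ : ∀ i, Irreducible (ϖ i))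
    (n s : ℤ) (e m : ι → ℤ) (u π : F)
    (hu : ∀ i, ∃ ε : (A i)ˣ, u = ((ϖ i : A i) : F) ^ m i * ((ε : A i) : F))
    (hπ : ∀ i, ∃ ε : (A i)ˣ, π = ((ϖ i : A i) : F) ^ e i * ((ε : A i) : F))
    (hcong : ∀ i, m i ≡ s * e i [ZMOD n]) :
    ∃ w : F, w ≠ 0 ∧ ∀ i, ∃ ε : (A i)ˣ, u * π ^ (-s) * w ^ (-n) = ((ε : A i) : F) := by
  cases isEmpty_or_nonempty ι with
  | inl hι => exact ⟨1, one_ne_zero, fun i => (IsEmpty.false i).elim⟩
  | inr hι =>
    obtain ⟨i₀⟩ := hι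
    have hne : ∀ (i : ι) (k : ℤ) (ε : (A i)ˣ), ((ϖ i : A i) : F) ^ k * ((ε : A i) : F) ≠ 0 := by
      intro i k ε
      refine mul_ne_zero (zpow_ne_zero _ fun h => (hϖ i).ne_zero (Subtype.ext h)) ?_
      intro h
      exact ε.ne_zero (Subtype.ext h)
    have hu0 : u ≠ 0 := by
      obtain ⟨ε, hε⟩ := hu i₀
      rw [hε]
      exact hne _ _ _
    have hπ0 : π ≠ 0 := by
      obtain ⟨ε, hε⟩ := hπ i₀
      rw [hε]
      exact hne _ _ _
    have hind : ∀ i j, i ≠ j → ∃ x : F, x ≠ 0 ∧ 0 ≤ dvrOrd (A i) (ϖ i) x ∧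
        dvrOrd (A j) (ϖ j) x < 0 := by
      intro i j hij
      have hnle : ¬ A i ≤ A j := dvr_not_le fun h => hij (hA h)
      obtain ⟨x, hxi, hxj⟩ := SetLike.not_le_iff_exists.mp hnle
      have hx0 : x ≠ 0 := fun h => hxj (h ▸ (A j).zero_mem)
      refine ⟨x, hx0, (mem_iff_dvrOrd_nonneg (A i) (hϖ i) hx0).mp hxi, ?_⟩
      by_contra hneg
      exact hxj ((mem_iff_dvrOrd_nonneg (A j) (hϖ j) hx0).mpr (not_lt.mp hneg))
    obtain ⟨w, hw, hwu⟩ := exists_unit_twist (fun i => dvrOrd (A i) (ϖ i))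
      (fun i => isOrd_dvrOrd (A i) (hϖ i))
      (fun i => ⟨(ϖ i : F), fun h => (hϖ i).ne_zero (Subtype.ext h), dvrOrd_unif (A i) (hϖ i)⟩)
      hind n s e u π hu0 hπ0
      (fun i => by
        obtain ⟨ε, hε⟩ := hπ i
        exact dvrOrd_eq (A i) (hϖ i) hε)
      (fun i => by
        obtain ⟨ε, hε⟩ := hu i
        rw [dvrOrd_eq (A i) (hϖ i) hε]
        exact hcong i)
    refine ⟨w, hw, fun i => ?_⟩
    exact (dvrOrd_eq_zero_iff (A i) (hϖ i)
      (mul_ne_zero (mul_ne_zero hu0 (zpow_ne_zero _ hπ0)) (zpow_ne_zero _ hw))).mp (hwu i)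

end DVR

/-! ## (V6) valuation subrings with a uniformiser (no `IsDiscreteValuationRing` instance)

For kits that hand over a valuation as a `ValuationSubring F` together with an element `ϖ`
such that every nonzero `x` is `ϖ ^ k` times a unit of the subring (Gauss valuations over a
discretely valued base, pulled-back Gauss valuations, ...). -/

section Unif

variable {F : Type*} [Field F]

/-- `y` is a unit of the valuation subring `A` (membership form). -/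
def UnitOf (A : ValuationSubring F) (y : F) : Prop := y ≠ 0 ∧ y ∈ A ∧ y⁻¹ ∈ A

theorem UnitOf.mul {A : ValuationSubring F} {x y : F} (hx : UnitOf A x) (hy : UnitOf A y) :
    UnitOf A (x * y) :=
  ⟨mul_ne_zero hx.1 hy.1, A.mul_mem _ _ hx.2.1 hy.2.1, by
    rw [mul_inv]; exact A.mul_mem _ _ hx.2.2 hy.2.2⟩

theorem UnitOf.inv {A : ValuationSubring F} {x : F} (hx : UnitOf A x) : UnitOf A x⁻¹ :=
  ⟨inv_ne_zero hx.1, hx.2.2, by rw [inv_inv]; exact hx.2.1⟩

/-- `ϖ` is a uniformiser of the valuation subring `A`: `ϖ ∈ A`, `ϖ⁻¹ ∉ A`, and every nonzero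
element of the field is `ϖ ^ k` times a unit of `A`. -/
def IsUnifOf (A : ValuationSubring F) (ϖ : F) : Prop :=
  ϖ ∈ A ∧ ϖ⁻¹ ∉ A ∧ ∀ x : F, x ≠ 0 → ∃ k : ℤ, UnitOf A (x * ϖ ^ (-k))

theorem IsUnifOf.ne_zero {A : ValuationSubring F} {ϖ : F} (h : IsUnifOf A ϖ) : ϖ ≠ 0 := by
  rintro rfl
  exact h.2.1 (by rw [inv_zero]; exact A.zero_mem)

theorem IsUnifOf.zpow_mem {A : ValuationSubring F} {ϖ : F} (h : IsUnifOf A ϖ) {j : ℤ}
    (hj : 0 ≤ j) : ϖ ^ j ∈ A := by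
  obtain ⟨m, rfl⟩ := Int.eq_ofNat_of_zero_le hj
  rw [zpow_natCast]
  exact pow_mem h.1 m

theorem IsUnifOf.eq_zero_of_inv_zpow_mem {A : ValuationSubring F} {ϖ : F} (h : IsUnifOf A ϖ)
    {j : ℤ} (hj : 0 ≤ j) (hmem : (ϖ ^ j)⁻¹ ∈ A) : j = 0 := by
  by_contra hne
  have hj1 : 0 ≤ j - 1 := by omega
  apply h.2.1
  have e : ϖ⁻¹ = ϖ ^ (j - 1) * (ϖ ^ j)⁻¹ := by
    rw [← zpow_neg, ← zpow_add₀ h.ne_zero, show j - 1 + -j = -1 by ring, zpow_neg_one]
  rw [e]
  exact A.mul_mem _ _ (h.zpow_mem hj1) hmem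

theorem IsUnifOf.exponent_unique {A : ValuationSubring F} {ϖ : F} (h : IsUnifOf A ϖ) {x : F}
    {k l : ℤ} (hk : UnitOf A (x * ϖ ^ (-k))) (hl : UnitOf A (x * ϖ ^ (-l))) : k = l := by
  have hϖ := h.ne_zero
  have hx : x ≠ 0 := left_ne_zero_of_mul hk.1
  have e1 : ϖ ^ (l - k) = (x * ϖ ^ (-k)) * (x * ϖ ^ (-l))⁻¹ := by
    rw [mul_inv, ← zpow_neg, neg_neg, mul_mul_mul_comm, mul_inv_cancel₀ hx, one_mul,
      ← zpow_add₀ hϖ]
    congr 1
    ring
  have e2 : ϖ ^ (k - l) = (x * ϖ ^ (-l)) * (x * ϖ ^ (-k))⁻¹ := by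
    rw [mul_inv, ← zpow_neg, neg_neg, mul_mul_mul_comm, mul_inv_cancel₀ hx, one_mul,
      ← zpow_add₀ hϖ]
    congr 1
    ring
  rcases le_total k l with hkl | hkl
  · have h0 := h.eq_zero_of_inv_zpow_mem (j := l - k) (by omega) (by
      rw [← zpow_neg, neg_sub, e2]
      exact A.mul_mem _ _ hl.2.1 hk.2.2)
    omega
  · have h0 := h.eq_zero_of_inv_zpow_mem (j := k - l) (by omega) (by
      rw [← zpow_neg, neg_sub, e1]
      exact A.mul_mem _ _ hk.2.1 hl.2.2)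
    omega

open Classical in
/-- The order function of a valuation subring with respect to a uniformiser
(junk value `0` at `0`). -/
noncomputable def unifOrd (A : ValuationSubring F) (ϖ : F) (x : F) : ℤ :=
  if h : ∃ k : ℤ, UnitOf A (x * ϖ ^ (-k)) then h.choose else 0

theorem unifOrd_eq {A : ValuationSubring F} {ϖ : F} (h : IsUnifOf A ϖ) {x : F} {k : ℤ}
    (hk : UnitOf A (x * ϖ ^ (-k))) : unifOrd A ϖ x = k := by
  have hex : ∃ k : ℤ, UnitOf A (x * ϖ ^ (-k)) := ⟨k, hk⟩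
  unfold unifOrd
  rw [dif_pos hex]
  exact h.exponent_unique hex.choose_spec hk

theorem unifOrd_spec {A : ValuationSubring F} {ϖ : F} (h : IsUnifOf A ϖ) {x : F} (hx : x ≠ 0) :
    UnitOf A (x * ϖ ^ (-(unifOrd A ϖ x))) := by
  obtain ⟨k, hk⟩ := h.2.2 x hx
  rw [unifOrd_eq h hk]
  exact hk

theorem unifOrd_unif {A : ValuationSubring F} {ϖ : F} (h : IsUnifOf A ϖ) :
    unifOrd A ϖ ϖ = 1 := by
  have e : ϖ * ϖ ^ (-(1 : ℤ)) = 1 := by rw [zpow_neg_one, mul_inv_cancel₀ h.ne_zero]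
  exact unifOrd_eq h (k := 1)
    ⟨by rw [e]; exact one_ne_zero, by rw [e]; exact A.one_mem, by rw [e, inv_one]; exact A.one_mem⟩

theorem unifOrd_nonneg_of_mem {A : ValuationSubring F} {ϖ : F} (h : IsUnifOf A ϖ) {z : F}
    (hz : z ≠ 0) (hzA : z ∈ A) : 0 ≤ unifOrd A ϖ z := by
  by_contra hneg
  have hu := unifOrd_spec h hz
  apply h.2.1
  have e : ϖ⁻¹ = z * ϖ ^ (-(unifOrd A ϖ z) - 1) * (z * ϖ ^ (-(unifOrd A ϖ z)))⁻¹ := by
    rw [mul_inv, ← zpow_neg, neg_neg, mul_mul_mul_comm, mul_inv_cancel₀ hz, one_mul,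
      ← zpow_add₀ h.ne_zero,
      show -(unifOrd A ϖ z) - 1 + unifOrd A ϖ z = -1 by ring, zpow_neg_one]
  rw [e]
  exact A.mul_mem _ _ (A.mul_mem _ _ hzA (h.zpow_mem (by omega))) hu.2.2

/-- Nonzero elements of `A` are exactly the nonzero elements of nonnegative order. -/
theorem mem_iff_unifOrd_nonneg {A : ValuationSubring F} {ϖ : F} (h : IsUnifOf A ϖ) {x : F}
    (hx : x ≠ 0) : x ∈ A ↔ 0 ≤ unifOrd A ϖ x := by
  constructor
  · exact unifOrd_nonneg_of_mem h hx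
  · intro h0
    have hu := unifOrd_spec h hx
    have e : x * ϖ ^ (-(unifOrd A ϖ x)) * ϖ ^ (unifOrd A ϖ x) = x := by
      rw [mul_assoc, ← zpow_add₀ h.ne_zero, neg_add_cancel, zpow_zero, mul_one]
    rw [← e]
    exact A.mul_mem _ _ hu.2.1 (h.zpow_mem h0)

/-- Elements of order `0` are exactly the units of `A`. -/
theorem unifOrd_eq_zero_iff {A : ValuationSubring F} {ϖ : F} (h : IsUnifOf A ϖ) {x : F}
    (hx : x ≠ 0) : unifOrd A ϖ x = 0 ↔ UnitOf A x := by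
  constructor
  · intro h0
    have hu := unifOrd_spec h hx
    rwa [h0, neg_zero, zpow_zero, mul_one] at hu
  · intro hu
    exact unifOrd_eq h (k := 0) (by rwa [neg_zero, zpow_zero, mul_one])

/-- The order function of a valuation subring with a uniformiser is an abstract order
function. -/
theorem isOrd_unifOrd {A : ValuationSubring F} {ϖ : F} (h : IsUnifOf A ϖ) :
    IsOrd (unifOrd A ϖ) := by
  have hϖ := h.ne_zero
  have key : ∀ x y : F, x ≠ 0 → y ≠ 0 → x + y ≠ 0 → unifOrd A ϖ x ≤ unifOrd A ϖ y →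
      unifOrd A ϖ x ≤ unifOrd A ϖ (x + y) := by
    intro x y hx hy hxy hle
    have hux := unifOrd_spec h hx
    have huy := unifOrd_spec h hy
    have hz : (x + y) * ϖ ^ (-(unifOrd A ϖ x))
        = x * ϖ ^ (-(unifOrd A ϖ x))
          + y * ϖ ^ (-(unifOrd A ϖ y)) * ϖ ^ (unifOrd A ϖ y - unifOrd A ϖ x) := by
      rw [add_mul, mul_assoc y, ← zpow_add₀ hϖ,
        show -(unifOrd A ϖ y) + (unifOrd A ϖ y - unifOrd A ϖ x) = -(unifOrd A ϖ x) by ring]
    have hzA : (x + y) * ϖ ^ (-(unifOrd A ϖ x)) ∈ A := by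
      rw [hz]
      exact A.add_mem _ _ hux.2.1 (A.mul_mem _ _ huy.2.1 (h.zpow_mem (by omega)))
    have hz0 : (x + y) * ϖ ^ (-(unifOrd A ϖ x)) ≠ 0 := mul_ne_zero hxy (zpow_ne_zero _ hϖ)
    have hj := unifOrd_nonneg_of_mem h hz0 hzA
    have huz := unifOrd_spec h hz0
    have hsum : unifOrd A ϖ (x + y)
        = unifOrd A ϖ x + unifOrd A ϖ ((x + y) * ϖ ^ (-(unifOrd A ϖ x))) := by
      apply unifOrd_eq h
      have e : (x + y) * ϖ ^ (-(unifOrd A ϖ x
            + unifOrd A ϖ ((x + y) * ϖ ^ (-(unifOrd A ϖ x)))))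
          = (x + y) * ϖ ^ (-(unifOrd A ϖ x))
            * ϖ ^ (-(unifOrd A ϖ ((x + y) * ϖ ^ (-(unifOrd A ϖ x))))) := by
        rw [mul_assoc, ← zpow_add₀ hϖ, neg_add]
      rw [e]
      exact huz
    omega
  refine ⟨fun x y hx hy => ?_, fun x y hx hy hxy => ?_⟩
  · apply unifOrd_eq h
    have hux := unifOrd_spec h hx
    have huy := unifOrd_spec h hy
    have e : x * y * ϖ ^ (-(unifOrd A ϖ x + unifOrd A ϖ y))
        = (x * ϖ ^ (-(unifOrd A ϖ x))) * (y * ϖ ^ (-(unifOrd A ϖ y))) := by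
      rw [neg_add, zpow_add₀ hϖ]
      ring
    rw [e]
    exact hux.mul huy
  · rcases le_total (unifOrd A ϖ x) (unifOrd A ϖ y) with hle | hle
    · rw [min_eq_left hle]
      exact key x y hx hy hxy hle
    · rw [min_eq_right hle, add_comm]
      exact key y x hy hx (by rwa [add_comm]) hle

/-- Distinct valuation subrings with uniformisers are not contained in each other. -/
theorem unif_not_le {A B : ValuationSubring F} {ϖA ϖB : F} (hA : IsUnifOf A ϖA)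
    (hB : IsUnifOf B ϖB) (hAB : A ≠ B) : ¬ A ≤ B := by
  intro hle
  apply hAB
  refine le_antisymm hle fun x hxB => ?_
  by_contra hxA
  have hx0 : x ≠ 0 := fun h => hxA (h ▸ A.zero_mem)
  have hu := unifOrd_spec hA hx0
  have hk : unifOrd A ϖA x < 0 := by
    by_contra hk
    exact hxA ((mem_iff_unifOrd_nonneg hA hx0).mpr (not_lt.mp hk))
  obtain ⟨m, hm⟩ : ∃ m : ℕ, unifOrd A ϖA x = -((m : ℤ) + 1) :=
    ⟨(-(unifOrd A ϖA x) - 1).toNat, by omega⟩
  rw [hm, neg_neg] at hu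
  have hϖinv : ϖA⁻¹ ∈ B := by
    have e : ϖA⁻¹ = ϖA ^ (m : ℤ) * x * (x * ϖA ^ ((m : ℤ) + 1))⁻¹ := by
      rw [mul_inv, mul_comm (ϖA ^ (m : ℤ)) x, mul_mul_mul_comm, mul_inv_cancel₀ hx0, one_mul,
        ← zpow_neg, ← zpow_add₀ hA.ne_zero, show (m : ℤ) + -((m : ℤ) + 1) = -1 by ring,
        zpow_neg_one]
    rw [e]
    exact B.mul_mem _ _ (B.mul_mem _ _ (hle (hA.zpow_mem (Int.natCast_nonneg m))) hxB)
      (hle hu.2.2)
  have htop : ∀ z : F, z ∈ B := by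
    intro z
    by_cases hz : z = 0
    · rw [hz]
      exact B.zero_mem
    · have huz := unifOrd_spec hA hz
      have e : z * ϖA ^ (-(unifOrd A ϖA z)) * ϖA ^ (unifOrd A ϖA z) = z := by
        rw [mul_assoc, ← zpow_add₀ hA.ne_zero, neg_add_cancel, zpow_zero, mul_one]
      rw [← e]
      refine B.mul_mem _ _ (hle huz.2.1) ?_
      obtain ⟨j, hj | hj⟩ := Int.eq_nat_or_neg (unifOrd A ϖA z)
      · rw [hj, zpow_natCast]
        exact pow_mem (hle hA.1) j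
      · rw [hj, zpow_neg, zpow_natCast, ← inv_pow]
        exact pow_mem hϖinv j
  exact hB.2.1 (htop _)

/-- Independence of the order functions of pairwise distinct valuation subrings with
uniformisers. -/
theorem unif_hind {ι : Type*} (A : ι → ValuationSubring F) (hA : Function.Injective A)
    (ϖ : ι → F) (hϖ : ∀ i, IsUnifOf (A i) (ϖ i)) :
    ∀ i j, i ≠ j → ∃ x : F, x ≠ 0 ∧ 0 ≤ unifOrd (A i) (ϖ i) x ∧ unifOrd (A j) (ϖ j) x < 0 := by
  intro i j hij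
  have hnle : ¬ A i ≤ A j := unif_not_le (hϖ i) (hϖ j) fun h => hij (hA h)
  obtain ⟨x, hxi, hxj⟩ := SetLike.not_le_iff_exists.mp hnle
  have hx0 : x ≠ 0 := fun h => hxj (h ▸ (A j).zero_mem)
  refine ⟨x, hx0, (mem_iff_unifOrd_nonneg (hϖ i) hx0).mp hxi, ?_⟩
  by_contra hneg
  exact hxj ((mem_iff_unifOrd_nonneg (hϖ j) hx0).mpr (not_lt.mp hneg))

/-- **(V2), uniformiser form.**  Finitely many pairwise distinct valuation subrings `A i` of a
field with uniformisers `ϖ i`: there is `w ≠ 0` with `w * ϖ_i ^ (-(a i))` a unit of `A i` for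
all `i`. -/
theorem exists_prescribed_unif {ι : Type*} [Finite ι] (A : ι → ValuationSubring F)
    (hA : Function.Injective A) (ϖ : ι → F) (hϖ : ∀ i, IsUnifOf (A i) (ϖ i)) (a : ι → ℤ) :
    ∃ w : F, w ≠ 0 ∧ ∀ i, UnitOf (A i) (w * ϖ i ^ (-(a i))) := by
  obtain ⟨w, hw, hwa⟩ := exists_ord_eq (fun i => unifOrd (A i) (ϖ i))
    (fun i => isOrd_unifOrd (hϖ i))
    (fun i => ⟨ϖ i, (hϖ i).ne_zero, unifOrd_unif (hϖ i)⟩)
    (unif_hind A hA ϖ hϖ) a
  refine ⟨w, hw, fun i => ?_⟩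
  have h := unifOrd_spec (hϖ i) hw
  rwa [hwa i] at h

/-- **(V3), uniformiser form.**  `u * ϖ_i^(-(m i))` and `π * ϖ_i^(-(e i))` units of `A i` for
all `i`, and `m i ≡ s * e i [ZMOD n]`  `⟹`  for a suitable `w ≠ 0` the element
`u * π^(-s) * w^(-n)` is a unit of every `A i`. -/
theorem exists_unit_twist_unif {ι : Type*} [Finite ι] (A : ι → ValuationSubring F)
    (hA : Function.Injective A) (ϖ : ι → F) (hϖ : ∀ i, IsUnifOf (A i) (ϖ i))
    (n s : ℤ) (e m : ι → ℤ) (u π : F) (hu0 : u ≠ 0) (hπ0 : π ≠ 0)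
    (hu : ∀ i, UnitOf (A i) (u * ϖ i ^ (-(m i))))
    (hπ : ∀ i, UnitOf (A i) (π * ϖ i ^ (-(e i))))
    (hcong : ∀ i, m i ≡ s * e i [ZMOD n]) :
    ∃ w : F, w ≠ 0 ∧ ∀ i, UnitOf (A i) (u * π ^ (-s) * w ^ (-n)) := by
  obtain ⟨w, hw, hwu⟩ := exists_unit_twist (fun i => unifOrd (A i) (ϖ i))
    (fun i => isOrd_unifOrd (hϖ i))
    (fun i => ⟨ϖ i, (hϖ i).ne_zero, unifOrd_unif (hϖ i)⟩)
    (unif_hind A hA ϖ hϖ) n s e u π hu0 hπ0
    (fun i => unifOrd_eq (hϖ i) (hπ i))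
    (fun i => by rw [unifOrd_eq (hϖ i) (hu i)]; exact hcong i)
  exact ⟨w, hw, fun i => (unifOrd_eq_zero_iff (hϖ i)
    (mul_ne_zero (mul_ne_zero hu0 (zpow_ne_zero _ hπ0)) (zpow_ne_zero _ hw))).mp (hwu i)⟩

/-- **(V4), uniformiser form: the vertical part** for three pairwise distinct valuation
subrings `A 0 = V_∞`, `A 1 = V_mid`, `A 2 = V_0` with uniformisers `ϖ i`, where `π` has orders
`(1, q-1, 1)` and `u` has orders `m i` satisfying the four congruences of step (2). -/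
theorem vertical_part_unif (A : Fin 3 → ValuationSubring F) (hA : Function.Injective A)
    (ϖ : Fin 3 → F) (hϖ : ∀ i, IsUnifOf (A i) (ϖ i))
    (n : ℤ) (q : ℕ) (u π : F) (hu0 : u ≠ 0) (hπ0 : π ≠ 0) (m : Fin 3 → ℤ)
    (hu : ∀ i, UnitOf (A i) (u * ϖ i ^ (-(m i))))
    (hπ0' : UnitOf (A 0) (π * ϖ 0 ^ (-(1 : ℤ))))
    (hπ1' : UnitOf (A 1) (π * ϖ 1 ^ (-((q : ℤ) - 1))))
    (hπ2' : UnitOf (A 2) (π * ϖ 2 ^ (-(1 : ℤ))))
    (t t' : ℤ)
    (h1 : m 0 + m 1 ≡ t [ZMOD n]) (h2 : (q : ℤ) * m 2 ≡ t [ZMOD n])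
    (h3 : (q : ℤ) * m 0 ≡ t' [ZMOD n]) (h4 : m 1 + m 2 ≡ t' [ZMOD n]) :
    ∃ (s : ℤ) (w : F), w ≠ 0 ∧ ∀ i, UnitOf (A i) (u ^ (q + 1) * π ^ (-s) * w ^ (-n)) := by
  have hord : ∀ i, unifOrd (A i) (ϖ i) u = m i := fun i => unifOrd_eq (hϖ i) (hu i)
  obtain ⟨s, w, hw, hwu⟩ := vertical_part (fun i => unifOrd (A i) (ϖ i))
    (fun i => isOrd_unifOrd (hϖ i))
    (fun i => ⟨ϖ i, (hϖ i).ne_zero, unifOrd_unif (hϖ i)⟩)
    (unif_hind A hA ϖ hϖ) n q u π hu0 hπ0
    (unifOrd_eq (hϖ 0) hπ0') (unifOrd_eq (hϖ 1) hπ1') (unifOrd_eq (hϖ 2) hπ2') t t'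
    (by rw [hord 0, hord 1]; exact h1) (by rw [hord 2]; exact h2)
    (by rw [hord 0]; exact h3) (by rw [hord 1, hord 2]; exact h4)
  exact ⟨s, w, hw, fun i => (unifOrd_eq_zero_iff (hϖ i)
    (mul_ne_zero (mul_ne_zero (pow_ne_zero _ hu0) (zpow_ne_zero _ hπ0))
      (zpow_ne_zero _ hw))).mp (hwu i)⟩

/-- A discrete valuation subring with an irreducible element `ϖ` has `ϖ` as a uniformiser in
the sense of `IsUnifOf`. -/
theorem isUnifOf_of_irreducible (A : ValuationSubring F) [IsDiscreteValuationRing A] {ϖ : A}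
    (hϖ : Irreducible ϖ) : IsUnifOf A (ϖ : F) := by
  have hϖ0 : (ϖ : F) ≠ 0 := fun h => hϖ.ne_zero (Subtype.ext h)
  refine ⟨ϖ.2, fun hinv => ?_, fun x hx => ?_⟩
  · apply hϖ.not_isUnit
    refine IsUnit.of_mul_eq_one (⟨(ϖ : F)⁻¹, hinv⟩ : A) ?_
    apply Subtype.ext
    simp [hϖ0]
  · obtain ⟨k, ε, hε⟩ := exists_zpow_mul_unit A hϖ hx
    have hεinv : ((ε : A) : F) * (((ε⁻¹ : Aˣ) : A) : F) = 1 := by
      rw [← MulMemClass.coe_mul, Units.mul_inv]
      rfl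
    have e : x * (ϖ : F) ^ (-k) = ((ε : A) : F) := by
      rw [hε, mul_comm ((ϖ : F) ^ k), mul_assoc, ← zpow_add₀ hϖ0, add_neg_cancel, zpow_zero,
        mul_one]
    refine ⟨k, ?_, ?_, ?_⟩
    · rw [e]
      exact left_ne_zero_of_mul_eq_one hεinv
    · rw [e]
      exact (ε : A).2
    · rw [e, ← eq_inv_of_mul_eq_one_right hεinv]
      exact ((ε⁻¹ : Aˣ) : A).2

end Unif

/-! ## (V7) valuation shape

The same statements for a family of arbitrary valuations `v i : Valuation F (Γ i)` (value groups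
may differ), with uniformisers in the shape `v x = v ϖ ^ k`; in particular for
`v i = (A i).valuation`, `A i` valuation subrings. -/

section Val

variable {F : Type*} [Field F]

theorem unitOf_valuationSubring_iff {Γ : Type*} [LinearOrderedCommGroupWithZero Γ]
    (v : Valuation F Γ) (y : F) : UnitOf v.valuationSubring y ↔ v y = 1 := by
  unfold UnitOf
  rw [Valuation.mem_valuationSubring_iff, Valuation.mem_valuationSubring_iff]
  constructor
  · rintro ⟨hy, h1, h2⟩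
    rw [map_inv₀] at h2
    have hvy : v y ≠ 0 := (Valuation.ne_zero_iff v).mpr hy
    exact le_antisymm h1 ((inv_le_one₀ (zero_lt_iff.mpr hvy)).mp h2)
  · intro h
    have hy : y ≠ 0 := by
      rintro rfl
      simp at h
    refine ⟨hy, h.le, ?_⟩
    rw [map_inv₀, h, inv_one]

theorem unitOf_mul_zpow_iff {Γ : Type*} [LinearOrderedCommGroupWithZero Γ]
    (v : Valuation F Γ) {ϖ : F} (hϖ : ϖ ≠ 0) (x : F) (k : ℤ) :
    UnitOf v.valuationSubring (x * ϖ ^ (-k)) ↔ v x = v ϖ ^ k := by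
  have hvϖ : v ϖ ≠ 0 := (Valuation.ne_zero_iff v).mpr hϖ
  rw [unitOf_valuationSubring_iff, map_mul, map_zpow₀, zpow_neg,
    mul_inv_eq_one₀ (zpow_ne_zero _ hvϖ)]

/-- A uniformiser in valuation shape is a uniformiser in the sense of `IsUnifOf`. -/
theorem isUnifOf_of_valuation {Γ : Type*} [LinearOrderedCommGroupWithZero Γ]
    (v : Valuation F Γ) {ϖ : F} (hϖ : ϖ ≠ 0) (hlt : v ϖ < 1)
    (hdisc : ∀ x : F, x ≠ 0 → ∃ k : ℤ, v x = v ϖ ^ k) : IsUnifOf v.valuationSubring ϖ := by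
  have hvϖ : v ϖ ≠ 0 := (Valuation.ne_zero_iff v).mpr hϖ
  refine ⟨hlt.le, fun hinv => ?_, fun x hx => ?_⟩
  · rw [Valuation.mem_valuationSubring_iff, map_inv₀,
      inv_le_one₀ (zero_lt_iff.mpr hvϖ)] at hinv
    exact absurd hlt (not_lt.mpr hinv)
  · obtain ⟨k, hk⟩ := hdisc x hx
    exact ⟨k, (unitOf_mul_zpow_iff v hϖ x k).mpr hk⟩

/-- **(V2), valuation shape.**  Finitely many pairwise inequivalent valuations with
uniformisers: there is `w ≠ 0` with `v i w = v i (ϖ i) ^ a i` for all `i`. -/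
theorem exists_prescribed_val {ι : Type*} [Finite ι] {Γ : ι → Type*}
    [∀ i, LinearOrderedCommGroupWithZero (Γ i)] (v : ∀ i, Valuation F (Γ i))
    (hne : ∀ i j, i ≠ j → ¬ (v i).IsEquiv (v j))
    (ϖ : ι → F) (hϖ : ∀ i, ϖ i ≠ 0) (hlt : ∀ i, v i (ϖ i) < 1)
    (hdisc : ∀ i (x : F), x ≠ 0 → ∃ k : ℤ, v i x = v i (ϖ i) ^ k) (a : ι → ℤ) :
    ∃ w : F, w ≠ 0 ∧ ∀ i, v i w = v i (ϖ i) ^ a i := by
  have hA : Function.Injective fun i => (v i).valuationSubring := by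
    intro i j hij
    by_contra h
    exact hne i j h ((Valuation.isEquiv_iff_valuationSubring _ _).mpr hij)
  obtain ⟨w, hw, hwa⟩ := exists_prescribed_unif (fun i => (v i).valuationSubring) hA ϖ
    (fun i => isUnifOf_of_valuation (v i) (hϖ i) (hlt i) (hdisc i)) a
  exact ⟨w, hw, fun i => (unitOf_mul_zpow_iff (v i) (hϖ i) w (a i)).mp (hwa i)⟩

/-- **(V3), valuation shape.** -/
theorem exists_unit_twist_val {ι : Type*} [Finite ι] {Γ : ι → Type*}
    [∀ i, LinearOrderedCommGroupWithZero (Γ i)] (v : ∀ i, Valuation F (Γ i))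
    (hne : ∀ i j, i ≠ j → ¬ (v i).IsEquiv (v j))
    (ϖ : ι → F) (hϖ : ∀ i, ϖ i ≠ 0) (hlt : ∀ i, v i (ϖ i) < 1)
    (hdisc : ∀ i (x : F), x ≠ 0 → ∃ k : ℤ, v i x = v i (ϖ i) ^ k)
    (n s : ℤ) (e m : ι → ℤ) (u π : F) (hu0 : u ≠ 0) (hπ0 : π ≠ 0)
    (hu : ∀ i, v i u = v i (ϖ i) ^ m i) (hπ : ∀ i, v i π = v i (ϖ i) ^ e i)
    (hcong : ∀ i, m i ≡ s * e i [ZMOD n]) :
    ∃ w : F, w ≠ 0 ∧ ∀ i, v i (u * π ^ (-s) * w ^ (-n)) = 1 := by
  have hA : Function.Injective fun i => (v i).valuationSubring := by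
    intro i j hij
    by_contra h
    exact hne i j h ((Valuation.isEquiv_iff_valuationSubring _ _).mpr hij)
  obtain ⟨w, hw, hwu⟩ := exists_unit_twist_unif (fun i => (v i).valuationSubring) hA ϖ
    (fun i => isUnifOf_of_valuation (v i) (hϖ i) (hlt i) (hdisc i)) n s e m u π hu0 hπ0
    (fun i => (unitOf_mul_zpow_iff (v i) (hϖ i) u (m i)).mpr (hu i))
    (fun i => (unitOf_mul_zpow_iff (v i) (hϖ i) π (e i)).mpr (hπ i)) hcong
  exact ⟨w, hw, fun i => (unitOf_valuationSubring_iff (v i) _).mp (hwu i)⟩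

/-- **(V4), valuation shape: the vertical part** for three pairwise inequivalent valuations
`v 0 = v_∞`, `v 1 = v_mid`, `v 2 = v_0` with uniformisers `ϖ i`; `π` has orders `(1, q-1, 1)`
(natural exponents, as in an `e`-table) and `u` has orders `m i` satisfying the four
congruences of step (2). -/
theorem vertical_part_val {Γ : Fin 3 → Type*}
    [∀ i, LinearOrderedCommGroupWithZero (Γ i)] (v : ∀ i, Valuation F (Γ i))
    (hne : ∀ i j, i ≠ j → ¬ (v i).IsEquiv (v j))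
    (ϖ : Fin 3 → F) (hϖ : ∀ i, ϖ i ≠ 0) (hlt : ∀ i, v i (ϖ i) < 1)
    (hdisc : ∀ i (x : F), x ≠ 0 → ∃ k : ℤ, v i x = v i (ϖ i) ^ k)
    (n : ℤ) (q : ℕ) (hq : 1 ≤ q) (u π : F) (hu0 : u ≠ 0) (hπ0 : π ≠ 0) (m : Fin 3 → ℤ)
    (hu : ∀ i, v i u = v i (ϖ i) ^ m i)
    (hπ0' : v 0 π = v 0 (ϖ 0)) (hπ1' : v 1 π = v 1 (ϖ 1) ^ (q - 1)) (hπ2' : v 2 π = v 2 (ϖ 2))
    (t t' : ℤ)
    (h1 : m 0 + m 1 ≡ t [ZMOD n]) (h2 : (q : ℤ) * m 2 ≡ t [ZMOD n])
    (h3 : (q : ℤ) * m 0 ≡ t' [ZMOD n]) (h4 : m 1 + m 2 ≡ t' [ZMOD n]) :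
    ∃ (s : ℤ) (w : F), w ≠ 0 ∧ ∀ i, v i (u ^ (q + 1) * π ^ (-s) * w ^ (-n)) = 1 := by
  have hA : Function.Injective fun i => (v i).valuationSubring := by
    intro i j hij
    by_contra h
    exact hne i j h ((Valuation.isEquiv_iff_valuationSubring _ _).mpr hij)
  obtain ⟨s, w, hw, hwu⟩ := vertical_part_unif (fun i => (v i).valuationSubring) hA ϖ
    (fun i => isUnifOf_of_valuation (v i) (hϖ i) (hlt i) (hdisc i)) n q u π hu0 hπ0 m
    (fun i => (unitOf_mul_zpow_iff (v i) (hϖ i) u (m i)).mpr (hu i))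
    ((unitOf_mul_zpow_iff (v 0) (hϖ 0) π 1).mpr (by rw [zpow_one]; exact hπ0'))
    ((unitOf_mul_zpow_iff (v 1) (hϖ 1) π ((q : ℤ) - 1)).mpr (by
      rw [hπ1', ← zpow_natCast, Nat.cast_sub hq, Nat.cast_one]))
    ((unitOf_mul_zpow_iff (v 2) (hϖ 2) π 1).mpr (by rw [zpow_one]; exact hπ2'))
    t t' h1 h2 h3 h4
  exact ⟨s, w, hw, fun i => (unitOf_valuationSubring_iff (v i) _).mp (hwu i)⟩

/-- Distinct valuation subrings have inequivalent valuations (to feed `hne` of the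
valuation-shape statements with `v i = (A i).valuation`). -/
theorem not_isEquiv_valuation_of_injective {ι : Type*} (A : ι → ValuationSubring F)
    (hA : Function.Injective A) (i j : ι) (hij : i ≠ j) :
    ¬ ((A i).valuation).IsEquiv ((A j).valuation) := by
  intro h
  apply hij
  apply hA
  have := (Valuation.isEquiv_iff_valuationSubring _ _).mp h
  rwa [ValuationSubring.valuationSubring_valuation,
    ValuationSubring.valuationSubring_valuation] at this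

/-- Exponent bookkeeping at one discrete valuation: if `c * w ^ n` has exponent `a` and `c` has
exponent `tc`, then `a ≡ tc [ZMOD n]`. -/
theorem exponent_modEq_of_mul_pow {F' : Type*} [Field F'] {Γ' : Type*}
    [LinearOrderedCommGroupWithZero Γ'] (v' : Valuation F' Γ')
    (ϖ' : F') (hϖ' : ϖ' ≠ 0) (hlt' : v' ϖ' < 1)
    (hdisc' : ∀ x : F', x ≠ 0 → ∃ k : ℤ, v' x = v' ϖ' ^ k) (n : ℕ)
    (c w : F') (hw : w ≠ 0) (a tc : ℤ) (ha : v' (c * w ^ n) = v' ϖ' ^ a)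
    (htc : v' c = v' ϖ' ^ tc) : a ≡ tc [ZMOD (n : ℤ)] := by
  obtain ⟨k, hk⟩ := hdisc' w hw
  have hvϖ : v' ϖ' ≠ 0 := (Valuation.ne_zero_iff v').mpr hϖ'
  have hpos : 0 < v' ϖ' := zero_lt_iff.mpr hvϖ
  rw [map_mul, map_pow, htc, hk, ← zpow_natCast, ← zpow_mul, ← zpow_add₀ hvϖ] at ha
  have hinj := (zpow_right_inj₀ hpos hlt'.ne).mp ha
  rw [Int.modEq_iff_dvd]
  exact ⟨-k, by rw [← hinj]; ring⟩

/-- **(V4'), valuation shape with the norm relations** (one call for step (2) of (KILL)).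
Upstairs three pairwise inequivalent valuations `v 0 = v_∞`, `v 1 = v_mid`, `v 2 = v_0` of `F`
with uniformisers; downstairs two valuations `vInf', vZero'` of `F'` with uniformisers
`ϖInf', ϖZero'`.  The order-of-a-norm formulas are hypotheses about the exponents
`aαInf, aαZero, aβInf, aβZero` of `Nα u`, `Nβ u` (output shape of an (ORDNORM) lemma), and
`Nα u = c * w ^ n`, `Nβ u = c' * w' ^ n` with `c, c'` of the same exponent at the two lower
valuations (constants). -/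
theorem vertical_part_val_of_norms {F' : Type*} [Field F'] {Γ : Fin 3 → Type*}
    [∀ i, LinearOrderedCommGroupWithZero (Γ i)] (v : ∀ i, Valuation F (Γ i))
    (hne : ∀ i j, i ≠ j → ¬ (v i).IsEquiv (v j))
    (ϖ : Fin 3 → F) (hϖ : ∀ i, ϖ i ≠ 0) (hlt : ∀ i, v i (ϖ i) < 1)
    (hdisc : ∀ i (x : F), x ≠ 0 → ∃ k : ℤ, v i x = v i (ϖ i) ^ k)
    {ΓInf ΓZero : Type*} [LinearOrderedCommGroupWithZero ΓInf]
    [LinearOrderedCommGroupWithZero ΓZero]
    (vInf' : Valuation F' ΓInf) (vZero' : Valuation F' ΓZero) (ϖInf' ϖZero' : F')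
    (hϖInf : ϖInf' ≠ 0) (hϖZero : ϖZero' ≠ 0)
    (hltInf : vInf' ϖInf' < 1) (hltZero : vZero' ϖZero' < 1)
    (hdiscInf : ∀ x : F', x ≠ 0 → ∃ k : ℤ, vInf' x = vInf' ϖInf' ^ k)
    (hdiscZero : ∀ x : F', x ≠ 0 → ∃ k : ℤ, vZero' x = vZero' ϖZero' ^ k)
    (n q : ℕ) (hq : 1 ≤ q) (Nα Nβ : F → F') (u π : F) (hu0 : u ≠ 0) (hπ0 : π ≠ 0)
    (m : Fin 3 → ℤ) (hu : ∀ i, v i u = v i (ϖ i) ^ m i)
    (hπ0' : v 0 π = v 0 (ϖ 0)) (hπ1' : v 1 π = v 1 (ϖ 1) ^ (q - 1)) (hπ2' : v 2 π = v 2 (ϖ 2))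
    (aαInf aαZero aβInf aβZero : ℤ)
    (hαInf : vInf' (Nα u) = vInf' ϖInf' ^ aαInf) (hαZero : vZero' (Nα u) = vZero' ϖZero' ^ aαZero)
    (hβInf : vInf' (Nβ u) = vInf' ϖInf' ^ aβInf) (hβZero : vZero' (Nβ u) = vZero' ϖZero' ^ aβZero)
    (eαInf : aαInf = m 0 + m 1) (eαZero : aαZero = (q : ℤ) * m 2)
    (eβInf : aβInf = (q : ℤ) * m 0) (eβZero : aβZero = m 1 + m 2)
    (c w c' w' : F') (hw : w ≠ 0) (hw' : w' ≠ 0) (tc tc' : ℤ)
    (hcInf : vInf' c = vInf' ϖInf' ^ tc) (hcZero : vZero' c = vZero' ϖZero' ^ tc)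
    (hc'Inf : vInf' c' = vInf' ϖInf' ^ tc') (hc'Zero : vZero' c' = vZero' ϖZero' ^ tc')
    (hNα : Nα u = c * w ^ n) (hNβ : Nβ u = c' * w' ^ n) :
    ∃ (s : ℤ) (z : F), z ≠ 0 ∧ ∀ i, v i (u ^ (q + 1) * π ^ (-s) * z ^ (-(n : ℤ))) = 1 := by
  refine vertical_part_val v hne ϖ hϖ hlt hdisc (n : ℤ) q hq u π hu0 hπ0 m hu hπ0' hπ1' hπ2'
    tc tc' ?_ ?_ ?_ ?_
  · rw [← eαInf]
    exact exponent_modEq_of_mul_pow vInf' ϖInf' hϖInf hltInf hdiscInf n c w hw aαInf tc (hNα ▸ hαInf) hcInf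
  · rw [← eαZero]
    exact exponent_modEq_of_mul_pow vZero' ϖZero' hϖZero hltZero hdiscZero n c w hw aαZero tc (hNα ▸ hαZero) hcZero
  · rw [← eβInf]
    exact exponent_modEq_of_mul_pow vInf' ϖInf' hϖInf hltInf hdiscInf n c' w' hw' aβInf tc' (hNβ ▸ hβInf) hc'Inf
  · rw [← eβZero]
    exact exponent_modEq_of_mul_pow vZero' ϖZero' hϖZero hltZero hdiscZero n c' w' hw' aβZero tc' (hNβ ▸ hβZero) hc'Zero

end Val

end Fermat.Agent.S36.helper1013
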