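/-
S36 clause [C] / S58 (C): abstract Kummer core over a noetherian base, "Newton + bounded torsion"
(helper1730; findings row "S36 audit", delta (D1)).

Setting (all inside one field `F`, think `F = K(X)` for a curve `X` over the fraction field `K`
of a discrete valuation ring `O` with uniformiser `q`):

* `B0, B1 ≤ B01` : the coordinate rings of two affine charts of a normal model and of their
  overlap;
* `L0, L1 ≤ L01` : the corresponding lattices of sections of a divisor `D` with `n • D = div u`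
  (so `a ∈ L_i → a ^ n * u ∈ B_i`);
* seeds `a0 ∈ L0`, `b0 ∈ L1` with `a0 ^ n * u - 1`, `b0 ^ n * u - 1` and
  `a0 * b0 ^ (n-1) * u - 1` nilpotent modulo `q` (i.e. in the radical of `q B`): "the Kummer
  function `u` is an `n`-th power on the special fibre, compatibly on the two charts";
* bounded `q`-power torsion of `L01 / (L0 + L1)` (true as soon as this `H¹` is a finitely
  generated module over a noetherian ring, see `bounded_torsion_of_noetherian`).

Conclusion: a nonzero global section `s ∈ L0 ∩ L1`.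

No valuation theory, no orthonormal bases, no reducedness of the special fibre is used: only
Newton's iteration `a ↦ a (1 - (a ^ n u - 1) / n)` on both charts and the bounded torsion.
-/
import Mathlib

set_option autoImplicit false

namespace Fermat.Agent.S36.helper1730

section NilMod

variable {F : Type*} [Field F]

/-- `x` lies in `B` and is nilpotent modulo `q B`. -/
def NilMod (B : Subring F) (q x : F) : Prop :=
  x ∈ B ∧ ∃ e : ℕ, ∃ r ∈ B, x ^ e = q * r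

lemma NilMod.mem {B : Subring F} {q x : F} (h : NilMod B q x) : x ∈ B := h.1

lemma NilMod.mono {B B' : Subring F} (hBB' : B ≤ B') {q x : F} (h : NilMod B q x) :
    NilMod B' q x := by
  obtain ⟨hx, e, r, hr, he⟩ := h
  exact ⟨hBB' hx, e, r, hBB' hr, he⟩

lemma NilMod.mul_right {B : Subring F} {q x y : F} (h : NilMod B q x) (hy : y ∈ B) :
    NilMod B q (x * y) := by
  obtain ⟨hx, e, r, hr, he⟩ := h
  refine ⟨B.mul_mem hx hy, e, r * y ^ e, B.mul_mem hr (B.pow_mem hy e), ?_⟩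
  rw [mul_pow, he]; ring

lemma NilMod.mul_left {B : Subring F} {q x y : F} (h : NilMod B q x) (hy : y ∈ B) :
    NilMod B q (y * x) := by
  rw [mul_comm]; exact h.mul_right hy

lemma nilMod_iff_radical {B : Subring F} {q x : F} (hq : q ∈ B) :
    NilMod B q x ↔
      ∃ hx : x ∈ B, (⟨x, hx⟩ : B) ∈ (Ideal.span {(⟨q, hq⟩ : B)}).radical := by
  constructor
  · rintro ⟨hx, e, r, hr, h⟩
    refine ⟨hx, e, ?_⟩
    rw [Ideal.mem_span_singleton']
    refine ⟨⟨r, hr⟩, Subtype.ext ?_⟩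
    simp only [Subring.coe_mul, Subring.coe_pow]
    rw [h, mul_comm]
  · rintro ⟨hx, e, he⟩
    rw [Ideal.mem_span_singleton'] at he
    obtain ⟨r, hr⟩ := he
    refine ⟨hx, e, r.1, r.2, ?_⟩
    have := congrArg Subtype.val hr
    simp only [Subring.coe_mul, Subring.coe_pow] at this
    rw [← this, mul_comm]

lemma NilMod.add {B : Subring F} {q x y : F} (hq : q ∈ B) (hx : NilMod B q x)
    (hy : NilMod B q y) : NilMod B q (x + y) := by
  rw [nilMod_iff_radical hq] at hx hy ⊢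
  obtain ⟨hx, hx'⟩ := hx
  obtain ⟨hy, hy'⟩ := hy
  exact ⟨B.add_mem hx hy, Ideal.add_mem _ hx' hy'⟩

/-- Powers of a nilpotent element modulo `q` are eventually divisible by any power of `q`. -/
lemma NilMod.exists_pow {B : Subring F} {q x : F} (h : NilMod B q x) (m : ℕ) :
    ∃ N : ℕ, ∃ r ∈ B, x ^ N = q ^ m * r := by
  obtain ⟨-, e, r, hr, he⟩ := h
  exact ⟨e * m, r ^ m, B.pow_mem hr m, by rw [pow_mul, he, mul_pow]⟩

lemma not_nilMod_one {B : Subring F} {q : F} (hq : q⁻¹ ∉ B) : ¬ NilMod B q 1 := by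
  rintro ⟨-, e, r, hr, he⟩
  rw [one_pow] at he
  have hq0 : q ≠ 0 := by
    rintro rfl
    simp at he
  have : r = q⁻¹ := by
    field_simp
    rw [mul_comm]; exact he.symm
  exact hq (this ▸ hr)

end NilMod

section Newton

variable {F : Type*} [Field F]

/-- `(1 + δ) ^ n = 1 + n δ + δ² R` with `R` in any subring containing `δ`. -/
lemma one_add_pow_expand (B : Subring F) {δ : F} (hδ : δ ∈ B) (n : ℕ) :
    ∃ R ∈ B, (1 + δ) ^ n = 1 + n * δ + δ ^ 2 * R := by
  induction n with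
  | zero => exact ⟨0, B.zero_mem, by simp⟩
  | succ n ih =>
    obtain ⟨R, hR, h⟩ := ih
    refine ⟨n + R + δ * R, ?_, ?_⟩
    · exact B.add_mem (B.add_mem (natCast_mem B n) hR) (B.mul_mem hδ hR)
    · rw [pow_succ, h]; push_cast; ring

/-- One Newton step for the equation `a ^ n * u = 1`: the error is squared. -/
lemma newton_step (B : Subring F) {n : ℕ} (hn : (n : F) ≠ 0) (hnB : (n : F)⁻¹ ∈ B) {a u : F}
    (hε : a ^ n * u - 1 ∈ B) :
    ∃ w ∈ B, ∃ p ∈ B, w - 1 = (a ^ n * u - 1) * (-(n : F)⁻¹) ∧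
      (a * w) ^ n * u - 1 = (a ^ n * u - 1) ^ 2 * p := by
  set ε := a ^ n * u - 1 with hεdef
  have hδ : ε * (-(n : F)⁻¹) ∈ B := B.mul_mem hε (B.neg_mem hnB)
  obtain ⟨R, hR, hexp⟩ := one_add_pow_expand B hδ n
  refine ⟨1 + ε * (-(n : F)⁻¹), B.add_mem B.one_mem hδ,
    -1 + (1 + ε) * ((n : F)⁻¹ ^ 2 * R), ?_, by ring, ?_⟩
  · exact B.add_mem (B.neg_mem B.one_mem)
      (B.mul_mem (B.add_mem B.one_mem hε) (B.mul_mem (B.pow_mem hnB 2) hR))
  · have hau : a ^ n * u = 1 + ε := by rw [hεdef]; ring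
    have hcancel : (n : F) * (ε * (-(n : F)⁻¹)) = -ε := by
      field_simp
    calc (a * (1 + ε * (-(n : F)⁻¹))) ^ n * u - 1
        = (a ^ n * u) * (1 + ε * (-(n : F)⁻¹)) ^ n - 1 := by rw [mul_pow]; ring
      _ = (1 + ε) * (1 + n * (ε * (-(n : F)⁻¹)) + (ε * (-(n : F)⁻¹)) ^ 2 * R) - 1 := by
          rw [hau, hexp]
      _ = (1 + ε) * (1 + -ε + (ε * (-(n : F)⁻¹)) ^ 2 * R) - 1 := by rw [hcancel]
      _ = ε ^ 2 * (-1 + (1 + ε) * ((n : F)⁻¹ ^ 2 * R)) := by ring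

/-- Iterated Newton: after `k` steps the error is divisible by the `2 ^ k`-th power of the
initial error; the correction factor `w` is `≡ 1` modulo the initial error. -/
lemma newton_iter (B : Subring F) {n : ℕ} (hn : (n : F) ≠ 0) (hnB : (n : F)⁻¹ ∈ B) {a u : F}
    (hε : a ^ n * u - 1 ∈ B) (k : ℕ) :
    ∃ w ∈ B, ∃ t ∈ B, ∃ p ∈ B, w - 1 = (a ^ n * u - 1) * t ∧
      (a * w) ^ n * u - 1 = (a ^ n * u - 1) ^ (2 ^ k) * p := by
  induction k with
  | zero => exact ⟨1, B.one_mem, 0, B.zero_mem, 1, B.one_mem, by simp, by simp⟩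
  | succ k ih =>
    obtain ⟨w, hw, t, ht, p, hp, hwt, herr⟩ := ih
    set ε := a ^ n * u - 1 with hεdef
    have hε' : (a * w) ^ n * u - 1 ∈ B := by
      rw [herr]; exact B.mul_mem (B.pow_mem hε _) hp
    obtain ⟨w', hw', p', hp', hw'1, herr'⟩ := newton_step B hn hnB hε'
    have h2k : 2 ^ k = (2 ^ k - 1) + 1 := by
      have : 0 < 2 ^ k := by positivity
      omega
    refine ⟨w * w', B.mul_mem hw hw', t * w' + ε ^ (2 ^ k - 1) * p * (-(n : F)⁻¹), ?_,
      p ^ 2 * p', B.mul_mem (B.pow_mem hp 2) hp', ?_, ?_⟩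
    · exact B.add_mem (B.mul_mem ht hw')
        (B.mul_mem (B.mul_mem (B.pow_mem hε _) hp) (B.neg_mem hnB))
    · have h1 : w * w' - 1 = (w - 1) * w' + (w' - 1) := by ring
      rw [h1, hwt, hw'1, herr]
      have : ε ^ (2 ^ k) = ε ^ (2 ^ k - 1) * ε := by
        conv_lhs => rw [h2k, pow_succ]
      rw [this]; ring
    · have h2 : ε ^ (2 ^ (k + 1)) = (ε ^ (2 ^ k)) ^ 2 := by rw [← pow_mul, pow_succ]
      rw [← mul_assoc, herr', herr, h2]; ring

/-- Newton's iteration modulo `q ^ m`: if the initial error is nilpotent modulo `q`, then for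
every `m` there is a correction `w ≡ 1` with `(a w) ^ n u ≡ 1` modulo `q ^ m`. -/
lemma newton_mod (B : Subring F) {n : ℕ} (hn : (n : F) ≠ 0) (hnB : (n : F)⁻¹ ∈ B) {q a u : F}
    (hε : NilMod B q (a ^ n * u - 1)) (m : ℕ) :
    ∃ w ∈ B, ∃ t ∈ B, ∃ r ∈ B, w - 1 = (a ^ n * u - 1) * t ∧
      (a * w) ^ n * u - 1 = q ^ m * r := by
  obtain ⟨N, r, hr, hN⟩ := hε.exists_pow m
  obtain ⟨w, hw, t, ht, p, hp, hwt, herr⟩ := newton_iter B hn hnB hε.mem N
  have hN2 : N ≤ 2 ^ N := Nat.lt_two_pow_self.le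
  refine ⟨w, hw, t, ht, r * (a ^ n * u - 1) ^ (2 ^ N - N) * p,
    B.mul_mem (B.mul_mem hr (B.pow_mem hε.mem _)) hp, hwt, ?_⟩
  rw [herr]
  have : (a ^ n * u - 1) ^ (2 ^ N) = (a ^ n * u - 1) ^ N * (a ^ n * u - 1) ^ (2 ^ N - N) := by
    rw [← pow_add]; congr 1; omega
  rw [this, hN]; ring

/-- Cancelling a factor `n + ρ` with `ρ` nilpotent modulo `q` in a congruence modulo `q ^ m`. -/
lemma cancel_unit_mod (B : Subring F) {n : ℕ} (hn : (n : F) ≠ 0) (hnB : (n : F)⁻¹ ∈ B)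
    {q x ρ : F} (hx : x ∈ B) (hρ : NilMod B q ρ) (m : ℕ)
    (h : ∃ r ∈ B, x * (n + ρ) = q ^ m * r) : ∃ r ∈ B, x = q ^ m * r := by
  obtain ⟨r, hr, hxr⟩ := h
  have hy : NilMod B q (-(ρ * (n : F)⁻¹)) := by
    have := (hρ.mul_right hnB).mul_left (B.neg_mem B.one_mem)
    simpa using this
  set y := -(ρ * (n : F)⁻¹) with hydef
  obtain ⟨N, r1, hr1, hN⟩ := hy.exists_pow m
  set S := ∑ i ∈ Finset.range N, y ^ i with hS
  have hSB : S ∈ B := B.sum_mem fun i _ => B.pow_mem hy.mem i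
  have hgeom : (1 - y) * S = 1 - y ^ N := mul_neg_geom_sum y N
  have hfac : (n : F) + ρ = n * (1 - y) := by
    rw [hydef]; field_simp; ring
  refine ⟨(n : F)⁻¹ * (x * n * r1 + r * S), ?_, ?_⟩
  · exact B.mul_mem hnB (B.add_mem (B.mul_mem (B.mul_mem hx (natCast_mem B n)) hr1)
      (B.mul_mem hr hSB))
  · have h1 : x * n * (1 - y ^ N) = q ^ m * r * S := by
      rw [← hgeom, ← hxr, hfac]; ring
    have h2 : x * n = q ^ m * (x * n * r1 + r * S) := by
      linear_combination h1 + x * n * hN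
    calc x = (n : F)⁻¹ * (x * n) := by field_simp
      _ = (n : F)⁻¹ * (q ^ m * (x * n * r1 + r * S)) := by rw [← h2]
      _ = q ^ m * ((n : F)⁻¹ * (x * n * r1 + r * S)) := by ring

/-- `∑_{i<n} c^i = n + (c - 1) h` with `h` in any subring containing `c`. -/
lemma geom_sum_eq_card_add (B : Subring F) {c : F} (hc : c ∈ B) (n : ℕ) :
    ∃ h ∈ B, ∑ i ∈ Finset.range n, c ^ i = n + (c - 1) * h := by
  induction n with
  | zero => exact ⟨0, B.zero_mem, by simp⟩
  | succ n ih =>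
    obtain ⟨h, hh, hsum⟩ := ih
    refine ⟨h + ∑ i ∈ Finset.range n, c ^ i,
      B.add_mem hh (B.sum_mem fun i _ => B.pow_mem hc i), ?_⟩
    have hg : (c - 1) * ∑ i ∈ Finset.range n, c ^ i = c ^ n - 1 := by
      rw [mul_comm]; exact geom_sum_mul c n
    rw [Finset.sum_range_succ]; push_cast; linear_combination hsum - hg

end Newton

section Core

variable {F : Type*} [Field F]

/-- **Abstract Kummer core, Newton + bounded torsion.**  See the file header. -/
theorem newton_core (q : F) (n : ℕ) (hn0 : 0 < n) (hn : (n : F) ≠ 0) (u : F)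
    (B0 B1 B01 : Subring F) (h0 : B0 ≤ B01) (h1 : B1 ≤ B01)
    (hq0 : q ∈ B0) (hq1 : q ∈ B1) (hnB0 : (n : F)⁻¹ ∈ B0) (hnB1 : (n : F)⁻¹ ∈ B1)
    (hqinv : q⁻¹ ∉ B0)
    (L0 L1 L01 : AddSubgroup F) (hL0 : L0 ≤ L01) (hL1 : L1 ≤ L01)
    (smul0 : ∀ r ∈ B0, ∀ a ∈ L0, r * a ∈ L0) (smul1 : ∀ r ∈ B1, ∀ a ∈ L1, r * a ∈ L1)
    (smul01 : ∀ r ∈ B01, ∀ a ∈ L01, r * a ∈ L01)
    (pow0 : ∀ a ∈ L0, a ^ n * u ∈ B0) (pow1 : ∀ a ∈ L1, a ^ n * u ∈ B1)
    (mix01 : ∀ a ∈ L01, ∀ b ∈ L01, a * b ^ (n - 1) * u ∈ B01)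
    (bt : ∃ c0 : ℕ, ∀ x ∈ L01, ∀ m : ℕ, (∃ y ∈ L0, ∃ z ∈ L1, q ^ m * x = y + z) →
      ∃ y ∈ L0, ∃ z ∈ L1, q ^ c0 * x = y + z)
    (a0 b0 : F) (ha0 : a0 ∈ L0) (hb0 : b0 ∈ L1)
    (seed0 : NilMod B0 q (a0 ^ n * u - 1)) (seed1 : NilMod B1 q (b0 ^ n * u - 1))
    (ov : NilMod B01 q (a0 * b0 ^ (n - 1) * u - 1)) :
    ∃ s, s ∈ L0 ∧ s ∈ L1 ∧ s ≠ 0 := by
  obtain ⟨k, rfl⟩ : ∃ k, n = k + 1 := ⟨n - 1, by omega⟩
  simp only [Nat.add_sub_cancel] at mix01 ov
  obtain ⟨c0, hbt⟩ := bt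
  have hq01 : q ∈ B01 := h0 hq0
  have hnB01 : ((k + 1 : ℕ) : F)⁻¹ ∈ B01 := h0 hnB0
  -- Newton on both charts, to precision `q ^ (c0 + 1)`
  obtain ⟨w0, hw0, t0, ht0, ra, hra, hw0t, herra⟩ := newton_mod B0 hn hnB0 seed0 (c0 + 1)
  obtain ⟨w1, hw1, t1, ht1, rb, hrb, hw1t, herrb⟩ := newton_mod B1 hn hnB1 seed1 (c0 + 1)
  set a := a0 * w0 with hadef
  set b := b0 * w1 with hbdef
  have haL0 : a ∈ L0 := by rw [hadef, mul_comm]; exact smul0 _ hw0 _ ha0
  have hbL1 : b ∈ L1 := by rw [hbdef, mul_comm]; exact smul1 _ hw1 _ hb0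
  have haL01 : a ∈ L01 := hL0 haL0
  have hbL01 : b ∈ L01 := hL1 hbL1
  -- the overlap function `c = a b^k u`
  set c := a * b ^ k * u with hcdef
  have hcB : c ∈ B01 := mix01 a haL01 b hbL01
  -- `c - 1` is nilpotent modulo `q`
  have hw0nil : NilMod B01 q (w0 - 1) := by
    rw [hw0t]; exact (seed0.mul_right ht0).mono h0
  have hw1nil : NilMod B01 q (w1 - 1) := by
    rw [hw1t]; exact (seed1.mul_right ht1).mono h1
  have hw1B : w1 ∈ B01 := h1 hw1
  have hw0B : w0 ∈ B01 := h0 hw0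
  have hw1k : NilMod B01 q (w1 ^ k - 1) := by
    have : w1 ^ k - 1 = (w1 - 1) * ∑ i ∈ Finset.range k, w1 ^ i := by
      rw [mul_comm]; exact (geom_sum_mul w1 k).symm
    rw [this]
    exact hw1nil.mul_right (B01.sum_mem fun i _ => B01.pow_mem hw1B i)
  have hWnil : NilMod B01 q (w0 * w1 ^ k - 1) := by
    have : w0 * w1 ^ k - 1 = (w0 - 1) * w1 ^ k + (w1 ^ k - 1) := by ring
    rw [this]
    exact (hw0nil.mul_right (B01.pow_mem hw1B k)).add hq01 hw1k
  have hcnil : NilMod B01 q (c - 1) := by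
    have : c - 1 = (a0 * b0 ^ k * u - 1) * (w0 * w1 ^ k) + (w0 * w1 ^ k - 1) := by
      rw [hcdef, hadef, hbdef]; ring
    rw [this]
    exact (ov.mul_right (B01.mul_mem hw0B (B01.pow_mem hw1B k))).add hq01 hWnil
  -- `c ^ (k+1) ≡ 1` modulo `q ^ (c0 + 1)`
  have hcpow : ∃ r ∈ B01, c ^ (k + 1) - 1 = q ^ (c0 + 1) * r := by
    have hδ : q ^ (c0 + 1) * rb ∈ B01 := B01.mul_mem (B01.pow_mem hq01 _) (h1 hrb)
    obtain ⟨R, hR, hexp⟩ := one_add_pow_expand B01 hδ k
    have hbu : b ^ (k + 1) * u = 1 + q ^ (c0 + 1) * rb := by rw [← herrb]; ring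
    have hau : a ^ (k + 1) * u = 1 + q ^ (c0 + 1) * ra := by rw [← herra]; ring
    have hc : c ^ (k + 1) = (a ^ (k + 1) * u) * (b ^ (k + 1) * u) ^ k := by
      rw [hcdef]; ring
    refine ⟨ra + (1 + q ^ (c0 + 1) * ra) * (k * rb + q ^ (c0 + 1) * rb ^ 2 * R), ?_, ?_⟩
    · refine B01.add_mem (h0 hra) (B01.mul_mem (B01.add_mem B01.one_mem
        (B01.mul_mem (B01.pow_mem hq01 _) (h0 hra))) (B01.add_mem
        (B01.mul_mem (natCast_mem B01 k) (h1 hrb))
        (B01.mul_mem (B01.mul_mem (B01.pow_mem hq01 _) (B01.pow_mem (h1 hrb) 2)) hR)))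
    · rw [hc, hau, hbu, hexp]; ring
  -- hence `c ≡ 1` modulo `q ^ (c0 + 1)`
  obtain ⟨h, hh, hsum⟩ := geom_sum_eq_card_add B01 hcB (k + 1)
  have hc1 : ∃ r ∈ B01, c - 1 = q ^ (c0 + 1) * r := by
    refine cancel_unit_mod B01 hn hnB01 (B01.sub_mem hcB B01.one_mem)
      (hcnil.mul_right hh) (c0 + 1) ?_
    obtain ⟨r, hr, hcr⟩ := hcpow
    refine ⟨r, hr, ?_⟩
    rw [← hsum, ← hcr, mul_comm]; exact geom_sum_mul c (k + 1)
  obtain ⟨r', hr', hcr'⟩ := hc1
  -- `a - b = q ^ (c0 + 1) * lam` with `lam ∈ L01`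
  set lam := r' * b - rb * a with hlam
  have hlamL : lam ∈ L01 :=
    L01.sub_mem (smul01 _ hr' _ hbL01) (smul01 _ (h1 hrb) _ haL01)
  have hab : a - b = q ^ (c0 + 1) * lam := by
    have e1 : a * b ^ k * u = 1 + q ^ (c0 + 1) * r' := by rw [← hcr', hcdef]; ring
    have e2 : b ^ (k + 1) * u = 1 + q ^ (c0 + 1) * rb := by rw [← herrb]; ring
    have e3 : a * (b ^ (k + 1) * u) = b * (a * b ^ k * u) := by ring
    rw [e1, e2] at e3
    rw [hlam]; linear_combination e3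
  -- bounded torsion
  obtain ⟨y, hy, z, hz, hyz⟩ := hbt lam hlamL (c0 + 1)
    ⟨a, haL0, -b, L1.neg_mem hbL1, by rw [← hab]; ring⟩
  refine ⟨a - q * y, L0.sub_mem haL0 (smul0 _ hq0 _ hy), ?_, ?_⟩
  · have : a - q * y = b + q * z := by
      have : a - b = q * (y + z) := by rw [hab, pow_succ, ← hyz]; ring
      linear_combination this
    rw [this]
    exact L1.add_mem hbL1 (smul1 _ hq1 _ hz)
  · intro hs
    have haq : a = q * y := by linear_combination hs
    have hyB : y ^ (k + 1) * u ∈ B0 := pow0 y hy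
    apply not_nilMod_one hqinv
    refine ⟨B0.one_mem, 1, q ^ k * (y ^ (k + 1) * u) - q ^ c0 * ra,
      B0.sub_mem (B0.mul_mem (B0.pow_mem hq0 k) hyB) (B0.mul_mem (B0.pow_mem hq0 c0) hra), ?_⟩
    have : a ^ (k + 1) * u - 1 = q ^ (c0 + 1) * ra := herra
    rw [haq] at this
    rw [pow_one]; linear_combination -this

end Core

section BoundedTorsion

/-- In a noetherian module the `q`-power torsion is killed by one power of `q`. -/
theorem bounded_torsion_of_noetherian {O M : Type*} [CommRing O] [AddCommGroup M] [Module O M]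
    [IsNoetherian O M] (q : O) :
    ∃ c0 : ℕ, ∀ x : M, ∀ m : ℕ, q ^ m • x = 0 → q ^ c0 • x = 0 := by
  let f : ℕ →o Submodule O M :=
    { toFun := fun m => Submodule.torsionBy O M (q ^ m)
      monotone' := by
        intro m m' hmm' x hx
        rw [Submodule.mem_torsionBy_iff] at hx ⊢
        obtain ⟨d, rfl⟩ := Nat.exists_eq_add_of_le hmm'
        rw [pow_add, mul_comm, mul_smul, hx, smul_zero] }
  obtain ⟨c0, hc0⟩ := monotone_stabilizes_iff_noetherian.mpr ‹IsNoetherian O M› f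
  refine ⟨c0, fun x m hx => ?_⟩
  rcases le_total c0 m with hm | hm
  · have : x ∈ f m := by
      show x ∈ Submodule.torsionBy O M (q ^ m)
      rw [Submodule.mem_torsionBy_iff]; exact hx
    rw [← hc0 m hm] at this
    exact (Submodule.mem_torsionBy_iff _ _).mp this
  · obtain ⟨d, rfl⟩ := Nat.exists_eq_add_of_le hm
    rw [pow_add, mul_comm, mul_smul, hx, smul_zero]

end BoundedTorsion

section Wrappers

variable {F : Type*} [Field F]

/-- (W1) The bounded-torsion hypothesis `bt` of `newton_core` for lattices that are modules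
over a subring `O ∋ q`, when `H¹ = L01 / (L0 + L1)` is a noetherian `O`-module (e.g. finite
over a noetherian `O`). -/
theorem bt_of_noetherian (O : Subring F) (q : F) (hq : q ∈ O) (L0 L1 L01 : Submodule O F)
    [IsNoetherian O (L01 ⧸ (L0 ⊔ L1).comap L01.subtype)] :
    ∃ c0 : ℕ, ∀ x ∈ L01, ∀ m : ℕ, (∃ y ∈ L0, ∃ z ∈ L1, q ^ m * x = y + z) →
      ∃ y ∈ L0, ∃ z ∈ L1, q ^ c0 * x = y + z := by
  obtain ⟨c0, hc0⟩ := bounded_torsion_of_noetherian
    (M := L01 ⧸ (L0 ⊔ L1).comap L01.subtype) (⟨q, hq⟩ : O)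
  have key : ∀ (x : F) (hx : x ∈ L01) (m : ℕ),
      ((⟨q, hq⟩ : O) ^ m • Submodule.Quotient.mk (p := (L0 ⊔ L1).comap L01.subtype)
        (⟨x, hx⟩ : L01) = 0) ↔ ∃ y ∈ L0, ∃ z ∈ L1, q ^ m * x = y + z := by
    intro x hx m
    rw [← Submodule.Quotient.mk_smul, Submodule.Quotient.mk_eq_zero, Submodule.mem_comap,
      Submodule.mem_sup]
    have hval : L01.subtype ((⟨q, hq⟩ : O) ^ m • (⟨x, hx⟩ : L01)) = q ^ m * x := by
      simp [Subring.smul_def]
    rw [hval]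
    constructor
    · rintro ⟨y, hy, z, hz, h⟩; exact ⟨y, hy, z, hz, h.symm⟩
    · rintro ⟨y, hy, z, hz, h⟩; exact ⟨y, hy, z, hz, h.symm⟩
  refine ⟨c0, fun x hx m hm => ?_⟩
  exact (key x hx c0).mp (hc0 _ m ((key x hx m).mpr hm))

/-- `newton_core` for lattices given as modules over a common base subring `O ≤ B0, B1`,
with the bounded torsion supplied by noetherianity of `H¹ = L01 / (L0 + L1)` over `O`. -/
theorem newton_core_of_noetherian (O : Subring F) (q : F) (hqO : q ∈ O) (n : ℕ) (hn0 : 0 < n)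
    (hn : (n : F) ≠ 0) (u : F)
    (B0 B1 B01 : Subring F) (hO0 : O ≤ B0) (hO1 : O ≤ B1) (h0 : B0 ≤ B01) (h1 : B1 ≤ B01)
    (hnB0 : (n : F)⁻¹ ∈ B0) (hnB1 : (n : F)⁻¹ ∈ B1) (hqinv : q⁻¹ ∉ B0)
    (L0 L1 L01 : Submodule O F) (hL0 : L0 ≤ L01) (hL1 : L1 ≤ L01)
    [IsNoetherian O (L01 ⧸ (L0 ⊔ L1).comap L01.subtype)]
    (smul0 : ∀ r ∈ B0, ∀ a ∈ L0, r * a ∈ L0) (smul1 : ∀ r ∈ B1, ∀ a ∈ L1, r * a ∈ L1)
    (smul01 : ∀ r ∈ B01, ∀ a ∈ L01, r * a ∈ L01)
    (pow0 : ∀ a ∈ L0, a ^ n * u ∈ B0) (pow1 : ∀ a ∈ L1, a ^ n * u ∈ B1)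
    (mix01 : ∀ a ∈ L01, ∀ b ∈ L01, a * b ^ (n - 1) * u ∈ B01)
    (a0 b0 : F) (ha0 : a0 ∈ L0) (hb0 : b0 ∈ L1)
    (seed0 : NilMod B0 q (a0 ^ n * u - 1)) (seed1 : NilMod B1 q (b0 ^ n * u - 1))
    (ov : NilMod B01 q (a0 * b0 ^ (n - 1) * u - 1)) :
    ∃ s, s ∈ L0 ∧ s ∈ L1 ∧ s ≠ 0 :=
  newton_core q n hn0 hn u B0 B1 B01 h0 h1 (hO0 hqO) (hO1 hqO) hnB0 hnB1 hqinv
    L0.toAddSubgroup L1.toAddSubgroup L01.toAddSubgroup
    (fun _ hx => hL0 hx) (fun _ hx => hL1 hx) smul0 smul1 smul01 pow0 pow1 mix01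
    (bt_of_noetherian O q hqO L0 L1 L01) a0 b0 ha0 hb0 seed0 seed1 ov

/-- The conclusion of the core in Kummer form: if the only "global functions" `x` with
`x ∈ B0 ∩ B1` are constants from a subfield-like set `C`, then `u = κ * t ^ n` with `κ ∈ C`. -/
theorem kummer_of_section (n : ℕ) (u : F) (B0 B1 : Subring F) (C : Set F)
    (hC : ∀ x, x ∈ B0 → x ∈ B1 → x ∈ C) {s : F} (hs : s ≠ 0)
    (hs0 : s ^ n * u ∈ B0) (hs1 : s ^ n * u ∈ B1) :
    ∃ κ ∈ C, ∃ t : F, u = κ * t ^ n := by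
  refine ⟨s ^ n * u, hC _ hs0 hs1, s⁻¹, ?_⟩
  rw [inv_pow]
  field_simp

/-- (W4) Local-to-global membership: an element `e` of a module `E` lies in the submodule `N`
as soon as every maximal ideal `P` of `R` admits `s ∉ P` with `s • e ∈ N`. -/
theorem mem_of_forall_maximal {R E : Type*} [CommRing R] [AddCommGroup E] [Module R E]
    (N : Submodule R E) (e : E)
    (h : ∀ P : Ideal R, P.IsMaximal → ∃ s : R, s ∉ P ∧ s • e ∈ N) : e ∈ N := by
  let I : Ideal R :=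
    { carrier := {s | s • e ∈ N}
      add_mem' := fun {a b} ha hb => by
        show (a + b) • e ∈ N
        rw [add_smul]; exact N.add_mem ha hb
      zero_mem' := by
        show (0 : R) • e ∈ N
        rw [zero_smul]; exact N.zero_mem
      smul_mem' := fun c {a} ha => by
        show (c • a) • e ∈ N
        rw [smul_eq_mul, mul_smul]; exact N.smul_mem c ha }
  have hI : I = ⊤ := by
    by_contra hne
    obtain ⟨P, hP, hIP⟩ := Ideal.exists_le_maximal I hne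
    obtain ⟨s, hsP, hs⟩ := h P hP
    exact hsP (hIP hs)
  have h1 : (1 : R) ∈ I := hI ▸ Submodule.mem_top
  have : (1 : R) • e ∈ N := h1
  rwa [one_smul] at this

end Wrappers

section CechFinite

variable {F : Type*} [Field F]

/-- (FG) Finiteness of the Čech `H¹ = L01 / (L0 + L1)` of a two-chart lattice over a base
subring `O`, from finite generation of ONE chart lattice over `O[j]`:
`L0` is stable under `j` and spanned over `O` by the `j ^ k * g`, `g ∈ G` finite; `L1` is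
stable under `j⁻¹`; every element of `L01` is moved into `L0` by a power of `j`, and every
generator `g` is moved into `L1` by a power of `j⁻¹`. -/
theorem cech_finite (O : Subring F) (j : F) (hj : j ≠ 0) (L0 L1 L01 : Submodule O F)
    (hL0 : L0 ≤ L01)
    (hj0 : ∀ a ∈ L0, j * a ∈ L0) (hj1 : ∀ a ∈ L1, j⁻¹ * a ∈ L1)
    (hj01 : ∀ a ∈ L01, j⁻¹ * a ∈ L01)
    (G : Finset F) (hG : ∀ g ∈ G, g ∈ L0)
    (hfg : L0 ≤ Submodule.span O {x | ∃ k : ℕ, ∃ g ∈ G, x = j ^ k * g})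
    (hglue0 : ∀ x ∈ L01, ∃ n : ℕ, j ^ n * x ∈ L0)
    (hglue1 : ∀ g ∈ G, ∃ N : ℕ, j⁻¹ ^ N * g ∈ L1) :
    Module.Finite O (L01 ⧸ (L0 ⊔ L1).comap L01.subtype) := by
  classical
  -- a uniform bound
  have hN : ∃ N : ℕ, ∀ g ∈ G, ∀ i : ℕ, N ≤ i → j⁻¹ ^ i * g ∈ L1 := by
    choose! Ng hNg using hglue1
    have hstep : ∀ g ∈ G, ∀ d : ℕ, j⁻¹ ^ (Ng g + d) * g ∈ L1 := by
      intro g hg d
      induction d with
      | zero => simpa using hNg g hg
      | succ d ih =>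
        have e : j⁻¹ ^ (Ng g + (d + 1)) * g = j⁻¹ * (j⁻¹ ^ (Ng g + d) * g) := by
          rw [← add_assoc, pow_succ]; ring
        rw [e]; exact hj1 _ ih
    refine ⟨G.sup Ng, fun g hg i hi => ?_⟩
    have hle : Ng g ≤ i := le_trans (Finset.le_sup hg) hi
    obtain ⟨d, rfl⟩ := Nat.exists_eq_add_of_le hle
    exact hstep g hg d
  obtain ⟨N, hN⟩ := hN
  have hpow0 : ∀ g ∈ G, ∀ k : ℕ, j ^ k * g ∈ L0 := by
    intro g hg k
    induction k with
    | zero => simpa using hG g hg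
    | succ k ih =>
      have e : j ^ (k + 1) * g = j * (j ^ k * g) := by rw [pow_succ]; ring
      rw [e]; exact hj0 _ ih
  have hpow01 : ∀ x ∈ L01, ∀ i : ℕ, j⁻¹ ^ i * x ∈ L01 := by
    intro x hx i
    induction i with
    | zero => simpa using hx
    | succ i ih =>
      have e : j⁻¹ ^ (i + 1) * x = j⁻¹ * (j⁻¹ ^ i * x) := by rw [pow_succ]; ring
      rw [e]; exact hj01 _ ih
  -- the finite set of middle generators
  let T : Finset F := (Finset.range N ×ˢ G).image fun p => j⁻¹ ^ p.1 * p.2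
  have hT01 : Submodule.span O (T : Set F) ≤ L01 := by
    rw [Submodule.span_le]
    intro x hx
    simp only [T, Finset.coe_image, Set.mem_image, Finset.mem_coe, Finset.mem_product,
      Finset.mem_range] at hx
    obtain ⟨⟨i, g⟩, ⟨-, hg⟩, rfl⟩ := hx
    exact hpow01 g (hL0 (hG g hg)) i
  let S : Submodule O F := L0 ⊔ L1 ⊔ Submodule.span O (T : Set F)
  have hgen : ∀ g ∈ G, ∀ n k : ℕ, j⁻¹ ^ n * (j ^ k * g) ∈ S := by
    intro g hg n k
    rcases le_or_gt n k with hnk | hnk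
    · obtain ⟨d, rfl⟩ := Nat.exists_eq_add_of_le hnk
      have e : j⁻¹ ^ n * (j ^ (n + d) * g) = j ^ d * g := by
        rw [pow_add, inv_pow]; field_simp
      rw [e]
      exact Submodule.mem_sup_left (Submodule.mem_sup_left (hpow0 g hg d))
    · obtain ⟨d, rfl⟩ := Nat.exists_eq_add_of_le hnk.le
      have e : j⁻¹ ^ (k + d) * (j ^ k * g) = j⁻¹ ^ d * g := by
        rw [pow_add, inv_pow, inv_pow]; field_simp
      rw [e]
      rcases le_or_gt N d with hNd | hNd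
      · exact Submodule.mem_sup_left (Submodule.mem_sup_right (hN g hg d hNd))
      · refine Submodule.mem_sup_right (Submodule.subset_span ?_)
        simp only [T, Finset.coe_image, Set.mem_image, Finset.mem_coe, Finset.mem_product,
          Finset.mem_range]
        exact ⟨(d, g), ⟨hNd, hg⟩, rfl⟩
  have hS : ∀ x ∈ L01, x ∈ S := by
    intro x hx
    obtain ⟨n, hn⟩ := hglue0 x hx
    have key : ∀ y ∈ Submodule.span O {x | ∃ k : ℕ, ∃ g ∈ G, x = j ^ k * g},
        j⁻¹ ^ n * y ∈ S := by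
      intro y hy
      induction hy using Submodule.span_induction with
      | mem y hy =>
        obtain ⟨k, g, hg, rfl⟩ := hy
        exact hgen g hg n k
      | zero => simp
      | add y z _ _ hy hz => rw [mul_add]; exact S.add_mem hy hz
      | smul c y _ hy =>
        have e : j⁻¹ ^ n * (c • y) = c • (j⁻¹ ^ n * y) := by
          simp only [Subring.smul_def, smul_eq_mul]; ring
        rw [e]; exact S.smul_mem c hy
    have e : x = j⁻¹ ^ n * (j ^ n * x) := by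
      rw [inv_pow]; field_simp
    rw [e]; exact key _ (hfg hn)
  -- the span of `T` surjects onto the quotient
  let φ : Submodule.span O (T : Set F) →ₗ[O] (L01 ⧸ (L0 ⊔ L1).comap L01.subtype) :=
    ((L0 ⊔ L1).comap L01.subtype).mkQ.comp (Submodule.inclusion hT01)
  have hφ : Function.Surjective φ := by
    intro y
    obtain ⟨⟨x, hx⟩, rfl⟩ := Submodule.Quotient.mk_surjective _ y
    obtain ⟨w, hw, t, ht, hwt⟩ := Submodule.mem_sup.mp (hS x hx)
    refine ⟨⟨t, ht⟩, ?_⟩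
    show Submodule.Quotient.mk _ = Submodule.Quotient.mk _
    rw [Submodule.Quotient.eq, Submodule.mem_comap]
    have : L01.subtype (Submodule.inclusion hT01 ⟨t, ht⟩ - ⟨x, hx⟩) = -w := by
      simp only [map_sub, Submodule.subtype_apply, Submodule.coe_inclusion]
      rw [← hwt]; ring
    rw [this]
    exact (L0 ⊔ L1).neg_mem hw
  have : Module.Finite O (Submodule.span O (T : Set F)) :=
    Module.Finite.span_of_finite O T.finite_toSet
  exact Module.Finite.of_surjective φ hφ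

end CechFinite

end Fermat.Agent.S36.helper1730
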