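/-
S36 (route #3001, delta (D1) of helper1730): ROOT LATTICES for the Newton core.
Board row S36-W3-LAMFG (#2124), helper248.  Mathlib-only, geometry-free.

For a subring `B` of a field `F`, `n > 0` and `u : F` put

  `Lam(B) := {a : F | a ^ n * u ∈ B}`     (sections of `O(D)` on the chart, `n • D = - div u`).

* Part 1 (`lamSub`, `mix_mem`, ...): if `B` is integrally closed in `F`, then `Lam(B)` is an
  additive subgroup, stable under multiplication by `B`, and `a b ^ (n-1) u ∈ B` for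
  `a, b ∈ Lam(B)`: all from `(a ^ i * b ^ (n-i) * u) ^ n = (a ^ n u) ^ i * (b ^ n u) ^ (n-i)`.
* Part 2 (`exists_finset_lam_le`): twisted Serre finiteness for the two charts `t`, `1/t`:
  `Lam(B01) ⊆ Lam(B0) + Lam(B1) + span_O S` with `S` finite.
* Part 3 (`bt_lam`): hence bounded `q`-power torsion of `Lam(B01) / (Lam(B0) + Lam(B1))` over
  a noetherian `O`, in the exact shape of the hypothesis `bt` of the Newton core.
-/
import Mathlib

set_option autoImplicit false

namespace Fermat.Agent.S36.helper248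

open Polynomial

section Lam

variable {F : Type*} [Field F]

/-- `B` is integrally closed in the field `F`. -/
def IntClosedIn (B : Subring F) : Prop := ∀ x : F, IsIntegral B x → x ∈ B

/-- The carrier of the root lattice: `a ∈ Lam(B)` iff `a ^ n * u ∈ B`. -/
def lamSet (n : ℕ) (u : F) (B : Subring F) : Set F := {a | a ^ n * u ∈ B}

theorem mem_lamSet {n : ℕ} {u : F} {B : Subring F} {a : F} :
    a ∈ lamSet n u B ↔ a ^ n * u ∈ B := Iff.rfl

theorem lamSet_mono {n : ℕ} {u : F} {B B' : Subring F} (h : B ≤ B') :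
    lamSet n u B ⊆ lamSet n u B' := fun _ ha => h ha

/-- An element of `F` whose `n`-th power lies in `B` lies in `B`, if `B` is integrally closed. -/
theorem IntClosedIn.mem_of_pow_mem {B : Subring F} (hB : IntClosedIn B) {n : ℕ} (hn : 0 < n)
    {x : F} (hx : x ^ n ∈ B) : x ∈ B := by
  apply hB
  apply IsIntegral.of_pow hn
  have : x ^ n = algebraMap B F ⟨x ^ n, hx⟩ := rfl
  rw [this]
  exact isIntegral_algebraMap

/-- The key identity: mixed products. -/
theorem mix_general_mem {B : Subring F} (hB : IntClosedIn B) {n : ℕ} (hn : 0 < n) {u a b : F}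
    (ha : a ^ n * u ∈ B) (hb : b ^ n * u ∈ B) {i : ℕ} (hi : i ≤ n) :
    a ^ i * b ^ (n - i) * u ∈ B := by
  apply hB.mem_of_pow_mem hn
  have e : (a ^ i * b ^ (n - i) * u) ^ n = (a ^ n * u) ^ i * (b ^ n * u) ^ (n - i) := by
    have h1 : u ^ n = u ^ i * u ^ (n - i) := by
      rw [← pow_add, Nat.add_sub_cancel' hi]
    calc (a ^ i * b ^ (n - i) * u) ^ n
        = (a ^ i) ^ n * (b ^ (n - i)) ^ n * u ^ n := by rw [mul_pow, mul_pow]
      _ = (a ^ n) ^ i * (b ^ n) ^ (n - i) * (u ^ i * u ^ (n - i)) := by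
          rw [← pow_mul, ← pow_mul, ← pow_mul, ← pow_mul, h1, mul_comm i n, mul_comm (n - i) n]
      _ = (a ^ n * u) ^ i * (b ^ n * u) ^ (n - i) := by rw [mul_pow, mul_pow]; ring
  rw [e]
  exact B.mul_mem (B.pow_mem ha _) (B.pow_mem hb _)

/-- `mix01` of the Newton core. -/
theorem mix_mem {B : Subring F} (hB : IntClosedIn B) {n : ℕ} (hn : 0 < n) {u a b : F}
    (ha : a ∈ lamSet n u B) (hb : b ∈ lamSet n u B) : a * b ^ (n - 1) * u ∈ B := by
  have := mix_general_mem hB hn ha hb (i := 1) hn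
  rwa [pow_one] at this

theorem add_mem_lamSet {B : Subring F} (hB : IntClosedIn B) {n : ℕ} (hn : 0 < n) {u a b : F}
    (ha : a ∈ lamSet n u B) (hb : b ∈ lamSet n u B) : a + b ∈ lamSet n u B := by
  show (a + b) ^ n * u ∈ B
  rw [add_pow, Finset.sum_mul]
  refine B.sum_mem (fun m hm => ?_)
  have hm' : m ≤ n := Nat.lt_succ_iff.mp (Finset.mem_range.mp hm)
  have e : a ^ m * b ^ (n - m) * (n.choose m : F) * u
      = (n.choose m : F) * (a ^ m * b ^ (n - m) * u) := by ring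
  rw [e]
  exact B.mul_mem (natCast_mem B _) (mix_general_mem hB hn ha hb hm')

theorem zero_mem_lamSet {B : Subring F} {n : ℕ} (hn : 0 < n) {u : F} : (0 : F) ∈ lamSet n u B := by
  show (0 : F) ^ n * u ∈ B
  rw [zero_pow (Nat.pos_iff_ne_zero.mp hn), zero_mul]
  exact B.zero_mem

theorem mul_mem_lamSet {B : Subring F} {n : ℕ} {u r a : F} (hr : r ∈ B)
    (ha : a ∈ lamSet n u B) : r * a ∈ lamSet n u B := by
  show (r * a) ^ n * u ∈ B
  rw [mul_pow, mul_assoc]
  exact B.mul_mem (B.pow_mem hr _) ha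

theorem neg_mem_lamSet {B : Subring F} {n : ℕ} {u a : F}
    (ha : a ∈ lamSet n u B) : -a ∈ lamSet n u B := by
  have : -a = (-1 : F) * a := by ring
  rw [this]
  exact mul_mem_lamSet (B.neg_mem B.one_mem) ha

/-- The root lattice `Lam(B)` as an additive subgroup of `F`. -/
def lamSub (n : ℕ) (hn : 0 < n) (u : F) (B : Subring F) (hB : IntClosedIn B) : AddSubgroup F where
  carrier := lamSet n u B
  add_mem' := fun ha hb => add_mem_lamSet hB hn ha hb
  zero_mem' := zero_mem_lamSet hn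
  neg_mem' := fun ha => neg_mem_lamSet ha

@[simp] theorem mem_lamSub {n : ℕ} {hn : 0 < n} {u : F} {B : Subring F} {hB : IntClosedIn B}
    {a : F} : a ∈ lamSub n hn u B hB ↔ a ^ n * u ∈ B := Iff.rfl

theorem lamSub_mono {n : ℕ} {hn : 0 < n} {u : F} {B B' : Subring F} {hB : IntClosedIn B}
    {hB' : IntClosedIn B'} (h : B ≤ B') : lamSub n hn u B hB ≤ lamSub n hn u B' hB' :=
  fun _ ha => h ha

/-- The root lattice as a module over a base subring `O ≤ B`. -/
def lamMod (O : Subring F) (n : ℕ) (hn : 0 < n) (u : F) (B : Subring F) (hB : IntClosedIn B)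
    (hO : O ≤ B) : Submodule O F where
  carrier := lamSet n u B
  add_mem' := fun ha hb => add_mem_lamSet hB hn ha hb
  zero_mem' := zero_mem_lamSet hn
  smul_mem' := fun r a ha => by
    show r • a ∈ lamSet n u B
    rw [Subring.smul_def, smul_eq_mul]
    exact mul_mem_lamSet (hO r.2) ha

@[simp] theorem mem_lamMod {O : Subring F} {n : ℕ} {hn : 0 < n} {u : F} {B : Subring F}
    {hB : IntClosedIn B} {hO : O ≤ B} {a : F} :
    a ∈ lamMod O n hn u B hB hO ↔ a ^ n * u ∈ B := Iff.rfl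

end Lam

/-! ### Part 2: twisted Serre finiteness for the charts `t`, `1/t` -/

section Serre

variable {F : Type*} [Field F]

/-- A polynomial in `t ∈ B` with coefficients in `O ≤ B` lies in `B`. -/
theorem aeval_mem_of_le {O B : Subring F} (hO : O ≤ B) {t : F} (ht : t ∈ B) (p : O[X]) :
    aeval t p ∈ B := by
  rw [aeval_eq_sum_range]
  refine B.sum_mem (fun i _ => ?_)
  rw [Algebra.smul_def]
  exact B.mul_mem (hO (p.coeff i).2) (B.pow_mem ht i)

/-- **Twisted Serre finiteness.**  `O ≤ B0, B1 ≤ B01` subrings of the field `F`, all three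
charts integrally closed in `F`, `t ∈ B0`, `t⁻¹ ∈ B1`, `B0` finite over `O[t]` (generated by
the finite set `G`), `B01 = B0[1/t] = B1[t]` (elementwise), and `u⁻¹` is a fraction with
denominator `e ∈ B0`.  Then there is a finite set `S` with
`Lam(B01) ⊆ Lam(B0) + Lam(B1) + span_O S`. -/
theorem exists_finset_lam_le (O : Subring F) [IsNoetherianRing O] (n : ℕ) (hn : 0 < n) (u : F)
    (B0 B1 B01 : Subring F) (hO0 : O ≤ B0) (hO1 : O ≤ B1) (h0 : B0 ≤ B01)
    (hic0 : IntClosedIn B0) (hic1 : IntClosedIn B1)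
    (t : F) (ht : t ≠ 0) (ht0 : t ∈ B0) (ht1 : t⁻¹ ∈ B1)
    (G : Finset F) (hgen : ∀ x ∈ B0, ∃ c : F → O[X], x = ∑ g ∈ G, aeval t (c g) * g)
    (hloc0 : ∀ y ∈ B01, ∃ N : ℕ, t ^ N * y ∈ B0)
    (hloc1 : ∀ y ∈ B01, ∃ N : ℕ, t⁻¹ ^ N * y ∈ B1)
    (e : F) (he : e ≠ 0) (he0 : e ∈ B0) (heu : e * u⁻¹ ∈ B0) (hu : u ≠ 0) :
    ∃ S : Finset F, ∀ x ∈ lamSet n u B01,
      x ∈ (lamMod O n hn u B0 hic0 hO0 ⊔ lamMod O n hn u B1 hic1 hO1) ⊔
        Submodule.span O (S : Set F) := by
  classical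
  set R : Subalgebra O F := (aeval (R := O) t).range with hR
  have : IsNoetherianRing R :=
    isNoetherianRing_of_surjective O[X] R (aeval (R := O) t).rangeRestrict.toRingHom
      (AlgHom.rangeRestrict_surjective _)
  have hRB0 : ∀ r : R, (r : F) ∈ B0 := by
    rintro ⟨_, p, rfl⟩
    exact aeval_mem_of_le hO0 ht0 p
  -- `Lam(B0)` as a module over `R = O[t]`
  let Lam0 : Submodule R F :=
    { carrier := lamSet n u B0
      add_mem' := fun ha hb => add_mem_lamSet hic0 hn ha hb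
      zero_mem' := zero_mem_lamSet hn
      smul_mem' := fun r a ha => by
        show r • a ∈ lamSet n u B0
        rw [Subalgebra.smul_def, smul_eq_mul]
        exact mul_mem_lamSet (hRB0 r) ha }
  -- the finitely generated ambient module `e⁻¹ • span_R G`
  let N : Submodule R F := (Submodule.span R (G : Set F)).map (LinearMap.mulLeft R e⁻¹)
  have hNfg : N.FG := (Submodule.fg_span G.finite_toSet).map _
  have hNnoeth : IsNoetherian R N := isNoetherian_of_fg_of_noetherian N hNfg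
  have hle : Lam0 ≤ N := by
    intro a ha
    have ha' : a ^ n * u ∈ B0 := ha
    have hea : e * a ∈ B0 := by
      apply hic0.mem_of_pow_mem hn
      have e1 : (e * a) ^ n = e ^ (n - 1) * (e * u⁻¹) * (a ^ n * u) := by
        obtain ⟨k, rfl⟩ : ∃ k, n = k + 1 := ⟨n - 1, by omega⟩
        simp only [Nat.add_sub_cancel]
        field_simp
        ring
      rw [e1]
      exact B0.mul_mem (B0.mul_mem (B0.pow_mem he0 _) heu) ha'
    obtain ⟨c, hc⟩ := hgen _ hea
    have hmem : e * a ∈ Submodule.span R (G : Set F) := by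
      rw [hc]
      refine Submodule.sum_mem _ (fun g hg => ?_)
      have e2 : aeval t (c g) * g = (⟨aeval t (c g), c g, rfl⟩ : R) • g := by
        rw [Subalgebra.smul_def, smul_eq_mul]
      rw [e2]
      exact Submodule.smul_mem _ _ (Submodule.subset_span hg)
    refine ⟨e * a, hmem, ?_⟩
    show e⁻¹ * (e * a) = a
    rw [← mul_assoc, inv_mul_cancel₀ he, one_mul]
  have hLam0fg : Lam0.FG := isNoetherian_submodule.mp hNnoeth Lam0 hle
  obtain ⟨G', hG'⟩ := hLam0fg
  have hG'mem : ∀ g ∈ G', g ^ n * u ∈ B0 := fun g hg => by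
    have : g ∈ Lam0 := hG' ▸ Submodule.subset_span hg
    exact this
  -- exponents moving the generators into the second chart
  have hex : ∀ g ∈ G', ∃ N : ℕ, ∀ k, N ≤ k → t⁻¹ ^ k * g ∈ lamSet n u B1 := by
    intro g hg
    obtain ⟨N, hN⟩ := hloc1 _ (h0 (hG'mem g hg))
    refine ⟨N, fun k hk => ?_⟩
    show (t⁻¹ ^ k * g) ^ n * u ∈ B1
    have hkn : N ≤ k * n := le_trans hk (Nat.le_mul_of_pos_right k hn)
    have e3 : (t⁻¹ ^ k * g) ^ n * u = t⁻¹ ^ (k * n - N) * (t⁻¹ ^ N * (g ^ n * u)) := by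
      rw [mul_pow, ← pow_mul, ← mul_assoc (t⁻¹ ^ (k * n - N)), ← pow_add,
        Nat.sub_add_cancel hkn]
      ring
    rw [e3]
    exact B1.mul_mem (B1.pow_mem ht1 _) hN
  choose! a ha using hex
  set Amax : ℕ := G'.sup a with hAmax
  refine ⟨(G' ×ˢ Finset.range Amax).image (fun p : F × ℕ => t⁻¹ ^ p.2 * p.1), fun x hx => ?_⟩
  have hx' : x ^ n * u ∈ B01 := hx
  obtain ⟨N, hN⟩ := hloc0 _ hx'
  have hx0 : t ^ N * x ∈ Lam0 := by
    show (t ^ N * x) ^ n * u ∈ B0
    have hNn : N ≤ N * n := Nat.le_mul_of_pos_right N hn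
    have e4 : (t ^ N * x) ^ n * u = t ^ (N * n - N) * (t ^ N * (x ^ n * u)) := by
      rw [mul_pow, ← pow_mul, ← mul_assoc (t ^ (N * n - N)), ← pow_add, Nat.sub_add_cancel hNn]
      ring
    rw [e4]
    exact B0.mul_mem (B0.pow_mem ht0 _) hN
  rw [← hG'] at hx0
  obtain ⟨f, -, hf⟩ := Submodule.mem_span_finset.mp hx0
  have hp : ∀ g : F, ∃ p : O[X], aeval t p = (f g : F) := fun g => (f g).2
  choose p hp using hp
  have htu : t * t⁻¹ = 1 := mul_inv_cancel₀ ht
  have hxsum : x = ∑ g ∈ G', t⁻¹ ^ N * (aeval t (p g) * g) := by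
    have h1 : x = t⁻¹ ^ N * (t ^ N * x) := by
      rw [← mul_assoc, ← mul_pow, inv_mul_cancel₀ ht, one_pow, one_mul]
    rw [h1, ← hf, Finset.mul_sum]
    refine Finset.sum_congr rfl (fun g _ => ?_)
    rw [hp g, Subalgebra.smul_def, smul_eq_mul]
  rw [hxsum]
  refine Submodule.sum_mem _ (fun g hg => ?_)
  rw [aeval_eq_sum_range, Finset.sum_mul, Finset.mul_sum]
  refine Submodule.sum_mem _ (fun k _ => ?_)
  rw [smul_mul_assoc, mul_smul_comm]
  refine Submodule.smul_mem _ _ ?_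
  rcases le_or_gt N k with hNk | hNk
  · obtain ⟨d, rfl⟩ := Nat.exists_eq_add_of_le hNk
    have e5 : t⁻¹ ^ N * (t ^ (N + d) * g) = t ^ d * g := by
      calc t⁻¹ ^ N * (t ^ (N + d) * g) = (t * t⁻¹) ^ N * (t ^ d * g) := by ring
        _ = t ^ d * g := by rw [htu, one_pow, one_mul]
    rw [e5]
    exact Submodule.mem_sup_left (Submodule.mem_sup_left
      (mul_mem_lamSet (B0.pow_mem ht0 d) (hG'mem g hg)))
  · obtain ⟨l, rfl⟩ := Nat.exists_eq_add_of_lt hNk
    have e6 : t⁻¹ ^ (k + l + 1) * (t ^ k * g) = t⁻¹ ^ (l + 1) * g := by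
      calc t⁻¹ ^ (k + l + 1) * (t ^ k * g) = (t * t⁻¹) ^ k * (t⁻¹ ^ (l + 1) * g) := by ring
        _ = t⁻¹ ^ (l + 1) * g := by rw [htu, one_pow, one_mul]
    rw [e6]
    rcases lt_or_ge (l + 1) Amax with hlA | hlA
    · refine Submodule.mem_sup_right (Submodule.subset_span ?_)
      rw [Finset.mem_coe, Finset.mem_image]
      exact ⟨(g, l + 1), Finset.mem_product.mpr ⟨hg, Finset.mem_range.mpr hlA⟩, rfl⟩
    · have hag : a g ≤ l + 1 := le_trans (Finset.le_sup hg) hlA
      exact Submodule.mem_sup_left (Submodule.mem_sup_right (ha g hg (l + 1) hag))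

end Serre

/-! ### Part 3: bounded torsion of `Lam(B01) / (Lam(B0) + Lam(B1))` -/

section BT

/-- If a set `Z` of a module is contained in `T + span_R S` with `S` finite and `R` noetherian,
then the `p`-power torsion of `Z` modulo `T` has bounded exponent.  (Module form of
`Fermat.Agent.S18.helper5122.bounded_torsion`, same proof.) -/
theorem bounded_torsion_of_span {R E : Type*} [CommRing R] [AddCommGroup E] [Module R E]
    [IsNoetherianRing R] (p : R) (T : Submodule R E) (S : Finset E)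
    (Z : Set E) (hS : ∀ x ∈ Z, x ∈ T ⊔ Submodule.span R (S : Set E)) :
    ∃ c : ℕ, ∀ (n : ℕ) (x : E), x ∈ Z → p ^ n • x ∈ T → p ^ c • x ∈ T := by
  classical
  set N' : Submodule R (E ⧸ T) := (Submodule.span R (S : Set E)).map T.mkQ with hN'
  have hfg : N'.FG := (Submodule.fg_span S.finite_toSet).map _
  have hnoeth : IsNoetherian R N' := isNoetherian_of_fg_of_noetherian N' hfg
  let f : ℕ →o Submodule R N' :=
    { toFun := fun n => LinearMap.ker (LinearMap.lsmul R N' (p ^ n))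
      monotone' := by
        intro n m hnm y hy
        rw [LinearMap.mem_ker, LinearMap.lsmul_apply] at hy ⊢
        obtain ⟨d, rfl⟩ := Nat.exists_eq_add_of_le hnm
        rw [pow_add, mul_comm, mul_smul, hy, smul_zero] }
  obtain ⟨c, hc⟩ := monotone_stabilizes_iff_noetherian.mpr hnoeth f
  refine ⟨c, fun n x hx hnx => ?_⟩
  obtain ⟨τ, hτ, s, hs, rfl⟩ := Submodule.mem_sup.mp (hS x hx)
  have hsn : p ^ n • s ∈ T := by
    have : p ^ n • s = p ^ n • (τ + s) - p ^ n • τ := by rw [smul_add]; abel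
    rw [this]
    exact T.sub_mem hnx (T.smul_mem _ hτ)
  let y : N' := ⟨T.mkQ s, Submodule.mem_map_of_mem hs⟩
  have hy : y ∈ f n := by
    change y ∈ LinearMap.ker (LinearMap.lsmul R N' (p ^ n))
    rw [LinearMap.mem_ker, LinearMap.lsmul_apply]
    apply Subtype.ext
    change p ^ n • T.mkQ s = 0
    rw [← map_smul, Submodule.mkQ_apply, Submodule.Quotient.mk_eq_zero]
    exact hsn
  have hy' : y ∈ f c := by
    have h1 : f n ≤ f (max n c) := f.monotone (le_max_left _ _)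
    have h2 : f c = f (max n c) := hc _ (le_max_right _ _)
    rw [h2]
    exact h1 hy
  have hsc : p ^ c • s ∈ T := by
    change y ∈ LinearMap.ker (LinearMap.lsmul R N' (p ^ c)) at hy'
    rw [LinearMap.mem_ker, LinearMap.lsmul_apply] at hy'
    have h3 : p ^ c • T.mkQ s = 0 := congrArg Subtype.val hy'
    rw [← map_smul, Submodule.mkQ_apply, Submodule.Quotient.mk_eq_zero] at h3
    exact h3
  rw [smul_add]
  exact T.add_mem (T.smul_mem _ hτ) hsc

variable {F : Type*} [Field F]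

/-- **The hypothesis `bt` of the Newton core for the root lattices**, from chart data only.
Same hypotheses as `exists_finset_lam_le`, plus `q ∈ O` and `B01` integrally closed (needed
only to speak of `lamSub … B01`). -/
theorem bt_lam (O : Subring F) [IsNoetherianRing O] (q : F) (hq : q ∈ O) (n : ℕ) (hn : 0 < n)
    (u : F) (B0 B1 B01 : Subring F) (hO0 : O ≤ B0) (hO1 : O ≤ B1) (h0 : B0 ≤ B01)
    (hic0 : IntClosedIn B0) (hic1 : IntClosedIn B1) (hic01 : IntClosedIn B01)
    (t : F) (ht : t ≠ 0) (ht0 : t ∈ B0) (ht1 : t⁻¹ ∈ B1)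
    (G : Finset F) (hgen : ∀ x ∈ B0, ∃ c : F → O[X], x = ∑ g ∈ G, aeval t (c g) * g)
    (hloc0 : ∀ y ∈ B01, ∃ N : ℕ, t ^ N * y ∈ B0)
    (hloc1 : ∀ y ∈ B01, ∃ N : ℕ, t⁻¹ ^ N * y ∈ B1)
    (e : F) (he : e ≠ 0) (he0 : e ∈ B0) (heu : e * u⁻¹ ∈ B0) (hu : u ≠ 0) :
    ∃ c0 : ℕ, ∀ x ∈ lamSub n hn u B01 hic01, ∀ m : ℕ,
      (∃ y ∈ lamSub n hn u B0 hic0, ∃ z ∈ lamSub n hn u B1 hic1, q ^ m * x = y + z) →
      ∃ y ∈ lamSub n hn u B0 hic0, ∃ z ∈ lamSub n hn u B1 hic1, q ^ c0 * x = y + z := by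
  obtain ⟨S, hS⟩ := exists_finset_lam_le O n hn u B0 B1 B01 hO0 hO1 h0 hic0 hic1 t ht ht0 ht1
    G hgen hloc0 hloc1 e he he0 heu hu
  obtain ⟨c, hc⟩ := bounded_torsion_of_span (⟨q, hq⟩ : O)
    (lamMod O n hn u B0 hic0 hO0 ⊔ lamMod O n hn u B1 hic1 hO1) S (lamSet n u B01) hS
  have hsm : ∀ (k : ℕ) (x : F), (⟨q, hq⟩ : O) ^ k • x = q ^ k * x := by
    intro k x
    rw [Subring.smul_def, smul_eq_mul]
    simp
  refine ⟨c, fun x hx m hm => ?_⟩
  obtain ⟨y, hy, z, hz, hyz⟩ := hm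
  have h1 : (⟨q, hq⟩ : O) ^ m • x ∈
      lamMod O n hn u B0 hic0 hO0 ⊔ lamMod O n hn u B1 hic1 hO1 := by
    rw [hsm, hyz]
    exact Submodule.add_mem_sup hy hz
  have h2 := hc m x hx h1
  rw [hsm] at h2
  obtain ⟨y', hy', z', hz', e'⟩ := Submodule.mem_sup.mp h2
  exact ⟨y', hy', z', hz', e'.symm⟩

end BT

end Fermat.Agent.S36.helper248
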