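/-
S36 (route #3001, delta (D1)): the Newton core of helper1730 for the ROOT LATTICES
`Lam(B) = {a | a ^ n * u ∈ B}` with every structural hypothesis discharged from chart data.
Board row S36-W3-LAMFG (#2124), helper248.

What the consumer (F1/F5/chart owner) still has to supply:
* three subrings `B0, B1 ≤ B01` of `F`, integrally closed in `F`, over a noetherian base
  `O ∋ q` (`B_i` = coordinate rings of the two charts `t`, `1/t` of the normal model);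
* finiteness of ONE chart over `O[t]` and the two localisation facts `B01 = B0[1/t] = B1[t]`;
* a denominator `e ∈ B0` of `u⁻¹`;
* the seeds `a0`, `b0` (delta (D2)).
-/
import Fermat.Agent.S36.helper248_RootLattice
import Fermat.Agent.S36.helper1730_NewtonCore

set_option autoImplicit false

namespace Fermat.Agent.S36.helper248

open Polynomial
open Fermat.Agent.S36.helper1730

variable {F : Type*} [Field F]

/-- **Newton core for root lattices, chart form.**  Conclusion: a nonzero `s` with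
`s ^ n * u` regular on both charts. -/
theorem newton_core_of_charts (O : Subring F) [IsNoetherianRing O] (q : F) (hqO : q ∈ O)
    (n : ℕ) (hn0 : 0 < n) (hn : (n : F) ≠ 0) (u : F) (hu : u ≠ 0)
    (B0 B1 B01 : Subring F) (hO0 : O ≤ B0) (hO1 : O ≤ B1) (h0 : B0 ≤ B01) (h1 : B1 ≤ B01)
    (hic0 : IntClosedIn B0) (hic1 : IntClosedIn B1) (hic01 : IntClosedIn B01)
    (t : F) (ht : t ≠ 0) (ht0 : t ∈ B0) (ht1 : t⁻¹ ∈ B1)
    (G : Finset F) (hgen : ∀ x ∈ B0, ∃ c : F → O[X], x = ∑ g ∈ G, aeval t (c g) * g)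
    (hloc0 : ∀ y ∈ B01, ∃ N : ℕ, t ^ N * y ∈ B0)
    (hloc1 : ∀ y ∈ B01, ∃ N : ℕ, t⁻¹ ^ N * y ∈ B1)
    (e : F) (he : e ≠ 0) (he0 : e ∈ B0) (heu : e * u⁻¹ ∈ B0)
    (hnB0 : (n : F)⁻¹ ∈ B0) (hnB1 : (n : F)⁻¹ ∈ B1) (hqinv : q⁻¹ ∉ B0)
    (a0 b0 : F)
    (seed0 : NilMod B0 q (a0 ^ n * u - 1)) (seed1 : NilMod B1 q (b0 ^ n * u - 1))
    (ov : NilMod B01 q (a0 * b0 ^ (n - 1) * u - 1)) :
    ∃ s : F, s ≠ 0 ∧ s ^ n * u ∈ B0 ∧ s ^ n * u ∈ B1 := by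
  have ha0 : a0 ^ n * u ∈ B0 := by
    have := B0.add_mem seed0.mem B0.one_mem
    rwa [sub_add_cancel] at this
  have hb0 : b0 ^ n * u ∈ B1 := by
    have := B1.add_mem seed1.mem B1.one_mem
    rwa [sub_add_cancel] at this
  obtain ⟨s, hs0, hs1, hs⟩ := newton_core q n hn0 hn u B0 B1 B01 h0 h1 (hO0 hqO) (hO1 hqO)
    hnB0 hnB1 hqinv
    (lamSub n hn0 u B0 hic0) (lamSub n hn0 u B1 hic1) (lamSub n hn0 u B01 hic01)
    (lamSub_mono h0) (lamSub_mono h1)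
    (fun r hr a ha => mul_mem_lamSet hr ha) (fun r hr a ha => mul_mem_lamSet hr ha)
    (fun r hr a ha => mul_mem_lamSet hr ha)
    (fun a ha => ha) (fun a ha => ha)
    (fun a ha b hb => mix_mem hic01 hn0 ha hb)
    (bt_lam O q hqO n hn0 u B0 B1 B01 hO0 hO1 h0 hic0 hic1 hic01 t ht ht0 ht1 G hgen
      hloc0 hloc1 e he he0 heu hu)
    a0 b0 ha0 hb0 seed0 seed1 ov
  exact ⟨s, hs, hs0, hs1⟩

/-- **Kummer form.**  If moreover every element of `B0 ∩ B1` is a "constant" (lies in `C`),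
then `u = κ * w ^ n` with `κ ∈ C`. -/
theorem kummer_of_charts (O : Subring F) [IsNoetherianRing O] (q : F) (hqO : q ∈ O)
    (n : ℕ) (hn0 : 0 < n) (hn : (n : F) ≠ 0) (u : F) (hu : u ≠ 0)
    (B0 B1 B01 : Subring F) (hO0 : O ≤ B0) (hO1 : O ≤ B1) (h0 : B0 ≤ B01) (h1 : B1 ≤ B01)
    (hic0 : IntClosedIn B0) (hic1 : IntClosedIn B1) (hic01 : IntClosedIn B01)
    (t : F) (ht : t ≠ 0) (ht0 : t ∈ B0) (ht1 : t⁻¹ ∈ B1)
    (G : Finset F) (hgen : ∀ x ∈ B0, ∃ c : F → O[X], x = ∑ g ∈ G, aeval t (c g) * g)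
    (hloc0 : ∀ y ∈ B01, ∃ N : ℕ, t ^ N * y ∈ B0)
    (hloc1 : ∀ y ∈ B01, ∃ N : ℕ, t⁻¹ ^ N * y ∈ B1)
    (e : F) (he : e ≠ 0) (he0 : e ∈ B0) (heu : e * u⁻¹ ∈ B0)
    (hnB0 : (n : F)⁻¹ ∈ B0) (hnB1 : (n : F)⁻¹ ∈ B1) (hqinv : q⁻¹ ∉ B0)
    (a0 b0 : F)
    (seed0 : NilMod B0 q (a0 ^ n * u - 1)) (seed1 : NilMod B1 q (b0 ^ n * u - 1))
    (ov : NilMod B01 q (a0 * b0 ^ (n - 1) * u - 1))
    (C : Set F) (hC : ∀ x, x ∈ B0 → x ∈ B1 → x ∈ C) :
    ∃ κ ∈ C, ∃ w : F, u = κ * w ^ n := by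
  obtain ⟨s, hs, hs0, hs1⟩ := newton_core_of_charts O q hqO n hn0 hn u hu B0 B1 B01 hO0 hO1 h0 h1
    hic0 hic1 hic01 t ht ht0 ht1 G hgen hloc0 hloc1 e he he0 heu hnB0 hnB1 hqinv a0 b0
    seed0 seed1 ov
  exact kummer_of_section n u B0 B1 C hC hs hs0 hs1

end Fermat.Agent.S36.helper248
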