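/-
S36 (route #3001, delta (D1)): the Newton/Kummer core for the NORMAL TWO-CHART MODEL over a
noetherian integrally closed base `A0` (fraction field `K0` of characteristic zero), in the
chart vocabulary of S18 (`helper5377.chart A0 s` = integral closure of `A0[s]` in `L`).
Board row S36-W3-LAMFG (#2124), helper248.

Everything structural is discharged: the only inputs are the seeds.
-/
import Fermat.Agent.S36.helper248_RootLatticeCore
import Fermat.Agent.S18.helper5377_CechIdempotent

set_option autoImplicit false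

namespace Fermat.Agent.S36.helper248

open Polynomial
open Fermat.Agent.S36.helper1730
open Fermat.Agent.S18

section ChartRing

variable {A0 L : Type*} [CommRing A0] [Field L] [Algebra A0 L]

/-- The chart ring (integral closure of `A0[s]` in `L`) as a subring of `L`. -/
def chartRing (A0 : Type*) {L : Type*} [CommRing A0] [Field L] [Algebra A0 L] (s : Set L) :
    Subring L := (helper5377.chart A0 s).toSubring

theorem mem_chartRing {s : Set L} {x : L} :
    x ∈ chartRing A0 s ↔ IsIntegral (Algebra.adjoin A0 s) x := Iff.rfl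

theorem chartRing_mono {s s' : Set L} (h : s ⊆ s') : chartRing A0 s ≤ chartRing A0 s' :=
  fun _ hx => helper5377.isIntegral_adjoin_mono h hx

theorem algebraMap_mem_chartRing (s : Set L) (a : A0) : algebraMap A0 L a ∈ chartRing A0 s :=
  helper5377.isIntegral_adjoin_of_mem (Subalgebra.algebraMap_mem _ a)

theorem mem_chartRing_of_mem {s : Set L} {x : L} (hx : x ∈ s) : x ∈ chartRing A0 s :=
  helper5377.isIntegral_adjoin_of_mem (Algebra.subset_adjoin hx)

/-- The chart rings are integrally closed in `L`. -/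
theorem intClosedIn_chartRing (s : Set L) : IntClosedIn (chartRing A0 s) := by
  intro x hx
  let f : ↥(chartRing A0 s) →+* ↥(integralClosure (Algebra.adjoin A0 s) L) :=
    { toFun := fun y => ⟨y.1, y.2⟩
      map_one' := rfl
      map_mul' := fun _ _ => rfl
      map_zero' := rfl
      map_add' := fun _ _ => rfl }
  have h1 : IsIntegral (integralClosure (Algebra.adjoin A0 s) L) x :=
    helper5377.isIntegral_of_ringHom f (by ext; rfl) hx
  exact isIntegral_trans x h1

end ChartRing

section Main

variable {A0 K0 L : Type*} [CommRing A0] [IsDomain A0] [IsIntegrallyClosed A0]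
  [IsNoetherianRing A0] [Field K0] [Algebra A0 K0] [IsFractionRing A0 K0] [CharZero K0]
  [Field L] [Algebra K0 L] [Algebra A0 L] [IsScalarTower A0 K0 L]

omit [IsIntegrallyClosed A0] [IsNoetherianRing A0] [CharZero K0] in
/-- Every element of `L` has a non-zero denominator in the chart ring `A0[t]`-integral
closure (`L` is algebraic over `A0[t]`). -/
theorem exists_denominator (t : L)
    [FiniteDimensional (IntermediateField.adjoin K0 ({t} : Set L)) L] (x : L) :
    ∃ e : L, e ≠ 0 ∧ e ∈ chartRing A0 ({t} : Set L) ∧ e * x ∈ chartRing A0 ({t} : Set L) := by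
  set R0 := Algebra.adjoin A0 ({t} : Set L) with hR0
  set K := IntermediateField.adjoin K0 ({t} : Set L) with hK
  let ι : R0 →+* K :=
    { toFun := fun x => ⟨x.1, helper5377.adjoin_le_intermediateField (K0 := K0) t x.2⟩
      map_one' := rfl
      map_mul' := fun _ _ => rfl
      map_zero' := rfl
      map_add' := fun _ _ => rfl }
  let _ : Algebra R0 K := ι.toAlgebra
  have hιinj : Function.Injective (algebraMap R0 K) := by
    intro x y hxy
    exact Subtype.ext (congrArg (fun z : K => (z : L)) hxy)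
  have : IsScalarTower R0 K L := IsScalarTower.of_algebraMap_eq (fun _ => rfl)
  have : FaithfulSMul R0 K := (faithfulSMul_iff_algebraMap_injective R0 K).mpr hιinj
  have : IsFractionRing R0 K := by
    refine IsFractionRing.of_field R0 K fun z => ?_
    obtain ⟨z, hz⟩ := z
    obtain ⟨r, hr, s, hs, rfl⟩ := IntermediateField.mem_adjoin_iff_div.mp hz
    obtain ⟨x1, hx1, c1, hc1, rfl⟩ := helper5377.exists_div_of_mem_adjoin_field (A0 := A0) t hr
    obtain ⟨x2, hx2, c2, hc2, rfl⟩ := helper5377.exists_div_of_mem_adjoin_field (A0 := A0) t hs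
    refine ⟨⟨x1 * algebraMap A0 L c2, Subalgebra.mul_mem _ hx1 (Subalgebra.algebraMap_mem _ _)⟩,
      ⟨algebraMap A0 L c1 * x2, Subalgebra.mul_mem _ (Subalgebra.algebraMap_mem _ _) hx2⟩, ?_⟩
    apply Subtype.ext
    show x1 / algebraMap A0 L c1 / (x2 / algebraMap A0 L c2)
      = x1 * algebraMap A0 L c2 / (algebraMap A0 L c1 * x2)
    rw [div_div_div_eq]
  have halg : IsAlgebraic R0 x :=
    (IsFractionRing.isAlgebraic_iff R0 K L).mpr (Algebra.IsAlgebraic.isAlgebraic x)
  obtain ⟨y, hy0, hy⟩ := halg.exists_integral_multiple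
  refine ⟨(y : L), fun h => hy0 (Subtype.ext h), helper5377.isIntegral_adjoin_of_mem y.2, ?_⟩
  exact hy

/-- **Newton core, normal two-chart model.**  `A0` noetherian integrally closed domain with
fraction field `K0` of characteristic `0`; `L` finite over `K0(t)`, `t` transcendental;
`q ∈ A0` non-zero and not a unit, `n` invertible in `A0`.  Seeds on the two charts, compatible
on the overlap modulo the radical of `q`.  Conclusion: a nonzero `s` with `s ^ n * u`
integral over both `A0[t]` and `A0[t⁻¹]`. -/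
theorem newton_core_chart (t : L) (ht : Transcendental K0 t)
    [FiniteDimensional (IntermediateField.adjoin K0 ({t} : Set L)) L]
    (q : A0) (hq0 : q ≠ 0) (hqu : ¬ IsUnit q) (n : ℕ) (hn0 : 0 < n) (v : A0)
    (hv : (n : A0) * v = 1) (u : L) (hu : u ≠ 0) (a0 b0 : L)
    (seed0 : NilMod (chartRing A0 ({t} : Set L)) (algebraMap A0 L q) (a0 ^ n * u - 1))
    (seed1 : NilMod (chartRing A0 ({t⁻¹} : Set L)) (algebraMap A0 L q) (b0 ^ n * u - 1))
    (ov : NilMod (chartRing A0 ({t, t⁻¹} : Set L)) (algebraMap A0 L q)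
      (a0 * b0 ^ (n - 1) * u - 1)) :
    ∃ s : L, s ≠ 0 ∧ IsIntegral (Algebra.adjoin A0 ({t} : Set L)) (s ^ n * u) ∧
      IsIntegral (Algebra.adjoin A0 ({t⁻¹} : Set L)) (s ^ n * u) := by
  classical
  have hinj : Function.Injective (algebraMap A0 L) :=
    helper5377.algebraMap_injective_of_tower A0 K0 L
  have htA : Transcendental A0 t := ht.restrictScalars (IsFractionRing.injective A0 K0)
  have ht0 : t ≠ 0 := by
    rintro rfl
    exact ht ⟨Polynomial.X, Polynomial.X_ne_zero, by simp⟩
  -- the base subring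
  set O : Subring L := (algebraMap A0 L).range with hO
  have : IsNoetherianRing O :=
    isNoetherianRing_of_surjective A0 O (algebraMap A0 L).rangeRestrict
      (algebraMap A0 L).rangeRestrict_surjective
  have hOle : ∀ s : Set L, O ≤ chartRing A0 s := by
    rintro s _ ⟨a, rfl⟩
    exact algebraMap_mem_chartRing s a
  have hsub0 : ({t} : Set L) ⊆ {t, t⁻¹} := fun z hz => Or.inl hz
  have hsub1 : ({t⁻¹} : Set L) ⊆ {t, t⁻¹} := fun z hz => Or.inr hz
  -- finiteness of the first chart
  obtain ⟨E, -, hE⟩ := helper5377.exists_finset_span_integralClosure (K0 := K0) t htA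
  have hgen : ∀ x ∈ chartRing A0 ({t} : Set L),
      ∃ c : L → O[X], x = ∑ g ∈ E, aeval t (c g) * g := by
    intro x hx
    obtain ⟨f, -, hf⟩ := Submodule.mem_span_finset.mp (hE x hx)
    have hp : ∀ g : L, ∃ p : A0[X], aeval t p = (f g : L) := by
      intro g
      have h' : (f g : L) ∈ (aeval (R := A0) t).range := by
        rw [← Algebra.adjoin_singleton_eq_range_aeval]
        exact (f g).2
      exact h'
    choose p hp using hp
    refine ⟨fun g => (p g).map (algebraMap A0 L).rangeRestrict, ?_⟩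
    rw [← hf]
    refine Finset.sum_congr rfl (fun g _ => ?_)
    have e1 : aeval t ((p g).map (algebraMap A0 L).rangeRestrict) = aeval t (p g) := by
      rw [aeval_def, eval₂_map, aeval_def]
      rfl
    rw [e1, hp g]
    rfl
  -- localisation facts
  have hloc0 : ∀ y ∈ chartRing A0 ({t, t⁻¹} : Set L), ∃ N : ℕ,
      t ^ N * y ∈ chartRing A0 ({t} : Set L) := by
    intro y hy
    obtain ⟨N, hN⟩ := helper5377.exists_pow_mul_isIntegral t ht0 hy
    exact ⟨N, hN N le_rfl⟩
  have hloc1 : ∀ y ∈ chartRing A0 ({t, t⁻¹} : Set L), ∃ N : ℕ,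
      t⁻¹ ^ N * y ∈ chartRing A0 ({t⁻¹} : Set L) := by
    intro y hy
    have hy' : IsIntegral (Algebra.adjoin A0 ({t⁻¹, t⁻¹⁻¹} : Set L)) y := by
      refine helper5377.isIntegral_adjoin_mono ?_ hy
      rintro z (rfl | hz)
      · right; rw [Set.mem_singleton_iff, inv_inv]
      · left; exact hz
    obtain ⟨N, hN⟩ := helper5377.exists_pow_mul_isIntegral t⁻¹ (inv_ne_zero ht0) hy'
    exact ⟨N, hN N le_rfl⟩
  -- denominator of `u⁻¹`
  obtain ⟨e, he, he0, heu⟩ := exists_denominator (A0 := A0) (K0 := K0) t u⁻¹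
  -- `1 / n`
  have hnv : (n : L) * algebraMap A0 L v = 1 := by
    have := congrArg (algebraMap A0 L) hv
    rwa [map_mul, map_natCast, map_one] at this
  have hn : (n : L) ≠ 0 := left_ne_zero_of_mul_eq_one hnv
  have hninv : (n : L)⁻¹ = algebraMap A0 L v := inv_eq_of_mul_eq_one_right hnv
  -- `q` is not a unit of the first chart
  have hqL : algebraMap A0 L q ≠ 0 := fun h => hq0 (hinj (h.trans (map_zero _).symm))
  have hqinv : (algebraMap A0 L q)⁻¹ ∉ chartRing A0 ({t} : Set L) := by
    intro hmem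
    have hmem' : IsIntegral (Algebra.adjoin A0 ({t, t⁻¹} : Set L)) (algebraMap A0 L q)⁻¹ :=
      chartRing_mono hsub0 hmem
    refine helper5377.smul_ne_one_of_transcendental t htA q hqu _ hmem' ?_
    rw [Algebra.smul_def, mul_inv_cancel₀ hqL]
  obtain ⟨s, hs, hs0, hs1⟩ := newton_core_of_charts O (algebraMap A0 L q) ⟨q, rfl⟩ n hn0 hn u hu
    (chartRing A0 ({t} : Set L)) (chartRing A0 ({t⁻¹} : Set L)) (chartRing A0 ({t, t⁻¹} : Set L))
    (hOle _) (hOle _) (chartRing_mono hsub0) (chartRing_mono hsub1)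
    (intClosedIn_chartRing _) (intClosedIn_chartRing _) (intClosedIn_chartRing _)
    t ht0 (mem_chartRing_of_mem rfl) (mem_chartRing_of_mem rfl)
    E hgen hloc0 hloc1 e he he0 heu
    (hninv ▸ algebraMap_mem_chartRing _ v) (hninv ▸ algebraMap_mem_chartRing _ v) hqinv
    a0 b0 seed0 seed1 ov
  exact ⟨s, hs, hs0, hs1⟩

/-- **Kummer form, normal two-chart model.**  If moreover `K0` is algebraically closed in `L`,
then `u` is a non-zero constant of `A0` times an `n`-th power. -/
theorem kummer_chart (t : L) (ht : Transcendental K0 t)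
    [FiniteDimensional (IntermediateField.adjoin K0 ({t} : Set L)) L]
    (hK0 : ∀ x : L, IsAlgebraic K0 x → x ∈ (algebraMap K0 L).range)
    (q : A0) (hq0 : q ≠ 0) (hqu : ¬ IsUnit q) (n : ℕ) (hn0 : 0 < n) (v : A0)
    (hv : (n : A0) * v = 1) (u : L) (hu : u ≠ 0) (a0 b0 : L)
    (seed0 : NilMod (chartRing A0 ({t} : Set L)) (algebraMap A0 L q) (a0 ^ n * u - 1))
    (seed1 : NilMod (chartRing A0 ({t⁻¹} : Set L)) (algebraMap A0 L q) (b0 ^ n * u - 1))
    (ov : NilMod (chartRing A0 ({t, t⁻¹} : Set L)) (algebraMap A0 L q)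
      (a0 * b0 ^ (n - 1) * u - 1)) :
    ∃ κ : A0, κ ≠ 0 ∧ ∃ w : L, u = algebraMap A0 L κ * w ^ n := by
  obtain ⟨s, hs, hs0, hs1⟩ := newton_core_chart (K0 := K0) t ht q hq0 hqu n hn0 v hv u hu a0 b0
    seed0 seed1 ov
  have hint : IsIntegral A0 (s ^ n * u) := helper5377.isIntegral_of_isIntegral_adjoin_both t hs0 hs1
  obtain ⟨κ, hκ⟩ := helper5377.range_of_isIntegral_of_algClosed hK0 _ hint
  refine ⟨κ, ?_, s⁻¹, ?_⟩
  · rintro rfl
    rw [map_zero] at hκ
    exact mul_ne_zero (pow_ne_zero n hs) hu hκ.symm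
  · rw [hκ, inv_pow]
    field_simp

end Main

end Fermat.Agent.S36.helper248
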