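import Mathlib
import Fermat.Agent.S36.helper1013_Vertical
import Fermat.Agent.S36.helper248_RootLatticeChart

/-!
# S36 — the abstract geometric datum behind (KILL)  (helper36, KILL-ASM)

Route #3001 (helper1335), primary design of ruling #172: everything over the discrete valuation
ring `O = A ∩ ℚ̄^I` (uniformiser `q`, algebraically closed residue field), NON-reduced special
fibre, two charts of ONE base line `x` (`t4` resp. `t9` at an auxiliary level).

This file fixes the VOCABULARY in which the geometric inputs of (KILL) are stated ("lifted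
vocabulary": every statement is about elements of the two function fields and membership in
valuation subrings and chart rings; no residue-field types, no quotients, no schemes), on top of
the compiled bricks:

* charts are NOT data: `chart O x 0 = helper248.chartRing O {x}`,
  `chart O x 1 = helper248.chartRing O {x⁻¹}`, `chart01 O x = helper248.chartRing O {x, x⁻¹}`
  (integral closures of `O[x]`, `O[x⁻¹]`, `O[x, x⁻¹]` in `F`);
* a closed point of a chart `B` is a maximal ideal `P : Ideal B`; its local ring inside `F` is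
  `helper4913.locSubring B P`; `Through B P V` = "the component `V` passes through `P`";
* order functions are `helper1013.IsOrd`.

Dictionary (`M = q² M''`, `K = ℚ̄^I`):

* `F  = K(X₀(q² M''))`, `F' = K(X₀(q M''))`, `α β : F' →ₐ[K] F` the two degeneracy maps,
  `Nα Nβ : F →* F'` the norms along them;
* `V 0, V 1, V 2` = the three extensions `v_∞, v_mid, v_0` to `F` of the Gauss valuation
  (`e = 1, q - 1, 1`), `V' 0, V' 1` = the two extensions `v'_∞, v'_0` to `F'`;
  `ord c`, `ord' c` their NORMALISED order functions (`ord 1 q = q - 1`);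
* `x : F` the chart coordinate, `x' : F'` the chart coordinate one level down (`α x' = x`).

The structures `DegData` (one degeneracy map) and `KillData` list the geometric inputs; the
consumer is `helper36_KillAsm`.  Every field is a TRUE statement in the modular situation; the
field-by-field justification is in the doc-strings.
-/

set_option autoImplicit false

namespace Fermat.Agent.S36.helper36

open Fermat.Agent.S36.helper1013 (IsOrd)
open Fermat.Agent.S36.helper248 (chartRing)
open Fermat.Agent.S36.helper1730 (NilMod)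

section Vocabulary

variable {F : Type*} [Field F]

/-- The centre of `V` on `B` lies in `P`: "the component `V` passes through the point `P`". -/
def Through (B : Subring F) (P : Ideal B) (V : ValuationSubring F) : Prop :=
  ∀ b : B, (b : F) ∈ V.nonunits → b ∈ P

/-- `u` is, at every place of `F / K`, an `n`-th power times a unit ("all horizontal orders of
`u` are divisible by `n`").  The places are exactly the Prelude `AlgebraicCurve.Place K F`:
valuation subrings containing `K`, different from `F`, principal. -/
def HorDiv (K : Type*) [Field K] [Algebra K F] (n : ℕ) (u : F) : Prop :=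
  ∀ W : ValuationSubring F, (∀ a : K, algebraMap K F a ∈ W) → W ≠ ⊤ → IsPrincipalIdealRing W →
    ∃ g : F, g ≠ 0 ∧ u / g ^ n ∈ W ∧ g ^ n / u ∈ W

variable {K : Type*} [Field K] [Algebra K F]

/-- The two charts of the base line `x` over `O`: the integral closures of `O[x]` (`i = 0`) and
`O[x⁻¹]` (`i = 1`) in `F`. -/
def chart (O : ValuationSubring K) (x : F) (i : Fin 2) : Subring F :=
  chartRing O (if i = 0 then ({x} : Set F) else {x⁻¹})

/-- The overlap chart: the integral closure of `O[x, x⁻¹]` in `F`. -/
def chart01 (O : ValuationSubring K) (x : F) : Subring F :=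
  chartRing O ({x, x⁻¹} : Set F)

theorem chart_zero (O : ValuationSubring K) (x : F) :
    chart O x 0 = chartRing O ({x} : Set F) := rfl

theorem chart_one (O : ValuationSubring K) (x : F) :
    chart O x 1 = chartRing O ({x⁻¹} : Set F) := rfl

/-- **(LP) as a Prop** (ruling #172 R5), in the shape consumed by the seed lemma
`helper4913.seedLocal_of_values` (hypothesis `hloc`, first conjunct) — for the two charts of the
base line `x` over `O` and the vertical valuations `V c`:

at every closed point `P` of the special fibre of a chart (maximal ideal containing the vertical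
ideal `{b | ∀ c, b ∈ 𝔪(V c)}`, i.e. containing `q`), a function `u` which is a unit at every
`V c` and an `n`-th power times a unit at every horizontal place of `F / K` is an `n`-th power
times a unit of the local ring at `P`: `u * s = b * h ^ n` with `b, s ∈ B ∖ P`.

The closed points are of four kinds (all covered by the one statement): points of `C_∞` or `C_0`
only (ordinary points and cusps), points of `C_mid` only (ORD-MID and the middle cusps), the
triple points; the cusps are the points of `chart O x 1` containing `x⁻¹` (and those of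
`chart O x 0` over the finite cusp values of `x`). -/
def LPProp (O : ValuationSubring K) (x : F) {ι : Type*} (V : ι → ValuationSubring F) : Prop :=
  ∀ (i : Fin 2) (P : Ideal (chart O x i)), P.IsMaximal →
    (∀ b : chart O x i, (∀ c, (b : F) ∈ (V c).nonunits) → b ∈ P) →
    ∀ (n : ℕ) (u : F), 0 < n → u ≠ 0 → (∀ c, u ∈ V c ∧ u⁻¹ ∈ V c) → HorDiv K n u →
      ∃ h : F, h ≠ 0 ∧ ∃ b s : chart O x i, b ∉ P ∧ s ∉ P ∧ u * (s : F) = (b : F) * h ^ n

end Vocabulary

/-- The base: `O` is a discrete valuation ring of `K` with uniformiser the prime number `q` and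
algebraically closed residue field  (`K = ℚ̄^I`, `O = A ∩ K`: BASEK). -/
structure BaseDVR {K : Type*} [Field K] (O : ValuationSubring K) (q : ℕ) : Prop where
  prime : q.Prime
  q_ne : (q : K) ≠ 0
  q_mem : (q : K) ∈ O.nonunits
  unif : ∀ c : K, c ∈ O.nonunits → c / (q : K) ∈ O
  noeth : IsNoetherianRing O
  algClosed : IsAlgClosed (IsLocalRing.ResidueField O)

/-- **One degeneracy map** `ψ : F' → F` of degree `q` with norm `Nm`.

Above the valuation `V1` of `F'` lie `Va` (`e = f = 1`) and `Vm` (`e = q - 1`, `f = 1`);
above `V2` lies only `Vb` (`e = 1`, `f = q`, purely inseparable residue extension).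
For `α`: `(Va, Vm, Vb; V1, V2) = (v_∞, v_mid, v_0; v'_∞, v'_0)`;
for `β`: `(Va, Vm, Vb; V1, V2) = (v_0, v_mid, v_∞; v'_0, v'_∞)`.
`B i`, `B' i` are the chart rings of the two levels. -/
structure DegData {K F F' : Type*} [Field K] [Field F] [Field F'] [Algebra K F] [Algebra K F']
    (q : ℕ) (ψ : F' →ₐ[K] F) (Nm : F →* F')
    (Va Vm Vb : ValuationSubring F) (V1 V2 : ValuationSubring F')
    (orda ordm ordb : F → ℤ) (ord1 ord2 : F' → ℤ)
    (B : Fin 2 → Subring F) (B' : Fin 2 → Subring F') : Prop where
  /-- `N(ψ a) = a ^ q` (degree `q`). -/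
  norm_map : ∀ a : F', Nm (ψ a) = a ^ q
  /-- `Va ∩ ψ F' = ψ V1`. -/
  mem_a : ∀ a : F', ψ a ∈ Va ↔ a ∈ V1
  /-- `Vm ∩ ψ F' = ψ V1`. -/
  mem_m : ∀ a : F', ψ a ∈ Vm ↔ a ∈ V1
  /-- `Vb ∩ ψ F' = ψ V2`. -/
  mem_b : ∀ a : F', ψ a ∈ Vb ↔ a ∈ V2
  /-- residue degree one of `Va` over `V1`. -/
  lift_a : ∀ h : F, h ∈ Va → ∃ a : F', a ∈ V1 ∧ ψ a - h ∈ Va.nonunits
  /-- residue degree one of `Vm` over `V1`. -/
  lift_m : ∀ h : F, h ∈ Vm → ∃ a : F', a ∈ V1 ∧ ψ a - h ∈ Vm.nonunits
  /-- norm–residue formula on the split side: `red₁(N h) = red_a(h) · red_m(h)^(q-1)` for `h`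
  a unit at `Va` and `Vm` (`Va`, `Vm` are ALL the extensions of `V1`; `e = 1, q - 1`). -/
  norm_split : ∀ h : F, h ∈ Va → h⁻¹ ∈ Va → h ∈ Vm → h⁻¹ ∈ Vm → ∀ a b : F', a ∈ V1 → b ∈ V1 →
    ψ a - h ∈ Va.nonunits → ψ b - h ∈ Vm.nonunits → Nm h - a * b ^ (q - 1) ∈ V1.nonunits
  /-- norm–residue formula on the inseparable side: `red₂(N h) = red_b(h)^q` for `h` a unit at
  `Vb` (`Vb` is the ONLY extension of `V2`; `e = 1`, residue extension purely inseparable of
  degree `q`). -/
  norm_insep : ∀ h : F, h ∈ Vb → h⁻¹ ∈ Vb → ψ (Nm h) - h ^ q ∈ Vb.nonunits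
  /-- order of a norm on the split side (`f = 1, 1`; normalised orders). -/
  ord_split : ∀ h : F, h ≠ 0 → ord1 (Nm h) = orda h + ordm h
  /-- order of a norm on the inseparable side (`f = q`). -/
  ord_insep : ∀ h : F, h ≠ 0 → ord2 (Nm h) = (q : ℤ) * ordb h
  /-- `ψ` maps the chart ring of level `q M''` into the chart ring of level `q² M''`. -/
  map_chart : ∀ (i : Fin 2) (b : F'), b ∈ B' i → ψ b ∈ B i
  /-- norms of integral elements are integral. -/
  norm_chart : ∀ (i : Fin 2) (b : F), b ∈ B i → Nm b ∈ B' i
  /-- the reduction of the chart `B i` along `Va` is the reduction of `ψ (B' i)` (both are the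
  integral closure of `k[x̄]` in the residue field of `Va`, which is that of `V1`). -/
  red_a : ∀ (i : Fin 2) (b : F), b ∈ B i → ∃ b' : F', b' ∈ B' i ∧ ψ b' - b ∈ Va.nonunits
  /-- the reduction of the chart `B i` along `Vm` is the reduction of `ψ (B' i)`. -/
  red_m : ∀ (i : Fin 2) (b : F), b ∈ B i → ∃ b' : F', b' ∈ B' i ∧ ψ b' - b ∈ Vm.nonunits
  /-- ONE POINT: a point `P` through which all three components pass is the only point of its
  chart above its image: every `b ∈ B i ∖ P` divides, in `B i`, an element `d = ψ b' ∉ P` coming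
  from the chart one level down  (`(B i)_P = B i ⊗ (B' i)_{P'}`, elementwise). -/
  one_point : ∀ (i : Fin 2) (P : Ideal (B i)), P.IsMaximal →
    Through (B i) P Va → Through (B i) P Vm → Through (B i) P Vb →
    ∀ b : B i, b ∉ P → ∃ (c d : B i) (b' : B' i), d ∉ P ∧ (d : F) = ψ (b' : F') ∧ b * c = d

/-- **The geometric datum of (KILL)** for `X₀(q² M'')` over the discrete valuation ring `O`.
See the module doc-string for the dictionary. -/
structure KillData {K F F' : Type*} [Field K] [Field F] [Field F'] [Algebra K F] [Algebra K F']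
    (O : ValuationSubring K) (q : ℕ) (α β : F' →ₐ[K] F) (Nα Nβ : F →* F') where
  /-- `v_∞, v_mid, v_0` (indices `0, 1, 2`). -/
  V : Fin 3 → ValuationSubring F
  /-- `v'_∞, v'_0` (indices `0, 1`). -/
  V' : Fin 2 → ValuationSubring F'
  /-- normalised order functions of `V`. -/
  ord : Fin 3 → F → ℤ
  /-- normalised order functions of `V'`. -/
  ord' : Fin 2 → F' → ℤ
  /-- the chart coordinate (`t4` resp. `t9`). -/
  x : F
  /-- the chart coordinate one level down. -/
  x' : F'
  -- the function field
  /-- `x` is transcendental over `K`. -/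
  x_trans : Transcendental K x
  /-- `F` is finite over `K(x)`. -/
  x_fin : FiniteDimensional (IntermediateField.adjoin K ({x} : Set F)) F
  /-- `K` is algebraically closed in `F`. -/
  const_closed : ∀ y : F, IsAlgebraic K y → y ∈ (algebraMap K F).range
  -- order functions
  hord : ∀ c, IsOrd (ord c)
  hord' : ∀ c, IsOrd (ord' c)
  mem_V : ∀ (c : Fin 3) (y : F), y ≠ 0 → (y ∈ V c ↔ 0 ≤ ord c y)
  mem_V' : ∀ (c : Fin 2) (y : F'), y ≠ 0 → (y ∈ V' c ↔ 0 ≤ ord' c y)
  /-- the orders are normalised. -/
  ord_surj : ∀ c, ∃ y : F, y ≠ 0 ∧ ord c y = 1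
  /-- the three valuations are pairwise distinct. -/
  ord_ind : ∀ i j, i ≠ j → ∃ y : F, y ≠ 0 ∧ 0 ≤ ord i y ∧ ord j y < 0
  /-- `q` has orders `(1, q - 1, 1)`. -/
  ord_q0 : ord 0 (q : F) = 1
  ord_q1 : ord 1 (q : F) = (q : ℤ) - 1
  ord_q2 : ord 2 (q : F) = 1
  ord'_q : ∀ c, ord' c (q : F') = 1
  /-- both valuations of `F'` restrict to the same valuation of `K` ... -/
  ord'_const : ∀ a : K, a ≠ 0 → ord' 0 (algebraMap K F' a) = ord' 1 (algebraMap K F' a)
  /-- ... namely that of `O`. -/
  ord'_unit : ∀ a : K, a ≠ 0 → ord' 0 (algebraMap K F' a) = 0 → a ∈ O ∧ a⁻¹ ∈ O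
  -- charts
  /-- the three valuations extend that of `O` ... -/
  const_V : ∀ (c : Fin 3) (a : K), a ∈ O → algebraMap K F a ∈ V c
  /-- ... and are Gauss for `x`: `x` is a unit at each of them. -/
  x_V : ∀ c : Fin 3, x ∈ V c ∧ x⁻¹ ∈ V c
  /-- `rad(q B) = B ∩ 𝔪(V 0) ∩ 𝔪(V 1) ∩ 𝔪(V 2)` on the charts `B = B 0, B 1` and on the overlap
  chart: the three valuations are ALL the vertical height-one primes (Krull). -/
  rad : ∀ (i : Fin 2) (y : F), y ∈ chart O x i → (∀ c, y ∈ (V c).nonunits) →
    NilMod (chart O x i) (q : F) y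
  rad01 : ∀ y : F, y ∈ chart01 O x → (∀ c, y ∈ (V c).nonunits) → NilMod (chart01 O x) (q : F) y
  /-- the reduction of the chart `B i` along `V c` is closed under `n`-th roots in the residue
  field of `V c` (it is the integral closure of `k[x̄]`: the reduced components are normal). -/
  red_root : ∀ (i : Fin 2) (c : Fin 3) (n : ℕ) (g : F), 0 < n →
    (∃ b : F, b ∈ chart O x i ∧ g ^ n - b ∈ (V c).nonunits) →
      ∃ r : F, r ∈ chart O x i ∧ g - r ∈ (V c).nonunits
  -- closed points of the special fibre
  /-- a closed point lying on two different components lies on all three. -/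
  dich : ∀ (i : Fin 2) (P : Ideal (chart O x i)), P.IsMaximal → ∀ c c' : Fin 3, c ≠ c' →
    Through (chart O x i) P (V c) → Through (chart O x i) P (V c') →
      ∀ c'', Through (chart O x i) P (V c'')
  /-- **(LP)**: at every closed point `P` of the special fibre (maximal ideal containing the
  vertical ideal), a function which is a unit at the three vertical valuations and an `n`-th
  power times a unit at every horizontal place is an `n`-th power times a unit of the local ring
  at `P`.  (The local rings are factorial: regular of dimension 2.) -/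
  lp : LPProp O x V
  /-- the degeneracy map `α`: `v_∞, v_mid` over `v'_∞`; `v_0` over `v'_0`. -/
  degα : DegData q α Nα (V 0) (V 1) (V 2) (V' 0) (V' 1) (ord 0) (ord 1) (ord 2) (ord' 0) (ord' 1)
    (chart O x) (chart O x')
  /-- the degeneracy map `β`: `v_0, v_mid` over `v'_0`; `v_∞` over `v'_∞`. -/
  degβ : DegData q β Nβ (V 2) (V 1) (V 0) (V' 1) (V' 0) (ord 2) (ord 1) (ord 0) (ord' 1) (ord' 0)
    (chart O x) (chart O x')

end Fermat.Agent.S36.helper36
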