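import Mathlib
import Fermat.Agent.S36.helper36_KillData

/-!
# S36 — step (2) of (KILL) wired on `helper36.KillData`  (helper1013)

`killData_vert`: for a geometric datum `D : KillData O q α β Nα Nβ` (helper36) and a nonzero
function `u` with all horizontal orders divisible by `n` and with the two norm relations
`Nα u = a * w ^ n`, `Nβ u = a' * w' ^ n` (`a, a'` nonzero constants), the function
`U = u ^ (q + 1) * q ^ (-s) * z ^ (-n)` (suitable `s : ℤ`, `z ≠ 0`) is a unit at the three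
vertical valuations `D.V 0, D.V 1, D.V 2`, and `U` again satisfies the hypotheses of the later
steps: `HorDiv K n U` and the two norm relations (with new constants and new roots).

Everything is a formal consequence of `helper1013.vertical_part_of_norms` and of the fields
`hord, hord', mem_V, ord_surj, ord_ind, ord_q0, ord_q1, ord_q2, ord'_const`,
`degα.ord_split, degα.ord_insep, degα.norm_map` (and the same for `β`) of the datum.
-/

set_option autoImplicit false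

namespace Fermat.Agent.S36.helper1013

open Fermat.Agent.S36.helper36

section MonoidHomField

variable {F F' : Type*} [Field F] [Field F']

theorem monoidHom_map_ne_zero (N : F →* F') {x : F} (hx : x ≠ 0) : N x ≠ 0 := by
  intro h0
  have h : N x * N x⁻¹ = 1 := by rw [← map_mul, mul_inv_cancel₀ hx, map_one]
  rw [h0, zero_mul] at h
  exact zero_ne_one h

theorem monoidHom_map_inv₀ (N : F →* F') {x : F} (hx : x ≠ 0) : N x⁻¹ = (N x)⁻¹ := by
  have h : N x * N x⁻¹ = 1 := by rw [← map_mul, mul_inv_cancel₀ hx, map_one]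
  exact eq_inv_of_mul_eq_one_right h

theorem monoidHom_map_zpow₀ (N : F →* F') {x : F} (hx : x ≠ 0) (k : ℤ) :
    N (x ^ k) = N x ^ k := by
  obtain ⟨m, rfl | rfl⟩ := k.eq_nat_or_neg
  · rw [zpow_natCast, zpow_natCast, map_pow]
  · rw [zpow_neg, zpow_neg, zpow_natCast, zpow_natCast, monoidHom_map_inv₀ N (pow_ne_zero _ hx),
      map_pow]

end MonoidHomField

section VertKill

variable {K F F' : Type*} [Field K] [Field F] [Field F'] [Algebra K F] [Algebra K F']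
  {O : ValuationSubring K} {q : ℕ} {α β : F' →ₐ[K] F} {Nα Nβ : F →* F'}

/-- Units of the vertical valuation ring `D.V c` are the elements of order `0`. -/
theorem killData_unit_iff_ord_eq_zero (D : KillData O q α β Nα Nβ) (c : Fin 3) {y : F}
    (hy : y ≠ 0) : (y ∈ D.V c ∧ y⁻¹ ∈ D.V c) ↔ D.ord c y = 0 := by
  rw [D.mem_V c y hy, D.mem_V c y⁻¹ (inv_ne_zero hy), (D.hord c).map_inv hy]
  constructor
  · rintro ⟨h1, h2⟩
    omega
  · intro h
    omega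

/-- `HorDiv` is stable under the twist of step (2): powers, constants and `n`-th powers. -/
theorem horDiv_twist {n : ℕ} {u : F} (hu : u ≠ 0) (h : HorDiv K n u) (k : ℕ) (a : K)
    (ha : a ≠ 0) {z : F} (hz : z ≠ 0) :
    HorDiv K n (u ^ k * algebraMap K F a * z ^ (-(n : ℤ))) := by
  intro W hW hWtop hWpid
  obtain ⟨g, hg, h1, h2⟩ := h W hW hWtop hWpid
  have haF : algebraMap K F a ≠ 0 := (map_ne_zero (algebraMap K F)).mpr ha
  have hgk : (g ^ k * z⁻¹) ^ n = (g ^ n) ^ k * (z ^ n)⁻¹ := by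
    rw [mul_pow, inv_pow, ← pow_mul, ← pow_mul, mul_comm k n]
  have hzn : z ^ n ≠ 0 := pow_ne_zero _ hz
  have hgn : (g ^ n) ^ k ≠ 0 := pow_ne_zero _ (pow_ne_zero _ hg)
  have huk : u ^ k ≠ 0 := pow_ne_zero _ hu
  refine ⟨g ^ k * z⁻¹, mul_ne_zero (pow_ne_zero _ hg) (inv_ne_zero hz), ?_, ?_⟩
  · have e : u ^ k * algebraMap K F a * z ^ (-(n : ℤ)) / (g ^ k * z⁻¹) ^ n =
        (u / g ^ n) ^ k * algebraMap K F a := by
      rw [zpow_neg, zpow_natCast, hgk, div_pow]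
      field_simp
    rw [e]
    exact W.mul_mem _ _ (pow_mem h1 k) (hW a)
  · have e : (g ^ k * z⁻¹) ^ n / (u ^ k * algebraMap K F a * z ^ (-(n : ℤ))) =
        (g ^ n / u) ^ k * algebraMap K F a⁻¹ := by
      rw [zpow_neg, zpow_natCast, map_inv₀, hgk, div_pow]
      field_simp
    rw [e]
    exact W.mul_mem _ _ (pow_mem h2 k) (hW a⁻¹)

/-- A norm relation is stable under the twist of step (2). -/
theorem norm_rel_twist (N : F →* F') (ψ : F' →ₐ[K] F) (q : ℕ)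
    (hnorm : ∀ a : F', N (ψ a) = a ^ q) {n : ℕ} {u : F} {a : K} (ha : a ≠ 0)
    {w : F'} (hw : w ≠ 0) (hN : N u = algebraMap K F' a * w ^ n) (k : ℕ) (b : K) (hb : b ≠ 0)
    {z : F} (hz : z ≠ 0) :
    ∃ (b' : K) (w1 : F'), b' ≠ 0 ∧ w1 ≠ 0 ∧
      N (u ^ k * algebraMap K F b * z ^ (-(n : ℤ))) = algebraMap K F' b' * w1 ^ n := by
  have hNz : N z ≠ 0 := monoidHom_map_ne_zero N hz
  have hb' : N (algebraMap K F b) = algebraMap K F' (b ^ q) := by
    have : algebraMap K F b = ψ (algebraMap K F' b) := (ψ.commutes b).symm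
    rw [this, hnorm, map_pow]
  refine ⟨a ^ k * b ^ q, w ^ k * (N z)⁻¹, mul_ne_zero (pow_ne_zero _ ha) (pow_ne_zero _ hb),
    mul_ne_zero (pow_ne_zero _ hw) (inv_ne_zero hNz), ?_⟩
  have hwk : (w ^ k * (N z)⁻¹) ^ n = (w ^ n) ^ k * (N z ^ n)⁻¹ := by
    rw [mul_pow, inv_pow, ← pow_mul, ← pow_mul, mul_comm k n]
  have hNzn : N z ^ n ≠ 0 := pow_ne_zero _ hNz
  rw [map_mul, map_mul, map_pow, hN, hb', monoidHom_map_zpow₀ N hz, zpow_neg, zpow_natCast,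
    hwk, map_mul, map_pow, map_pow, mul_pow]
  field_simp

/-- **Step (2) of (KILL) on a `KillData`.**  From `u ≠ 0` with horizontal orders divisible by
`n` and the two norm relations, a twist `U = u ^ (q + 1) * q ^ (-s) * z ^ (-n)` which is a unit
at the three vertical valuations and satisfies the same hypotheses again. -/
theorem killData_vert (D : KillData O q α β Nα Nβ) (hq : (q : F) ≠ 0) (n : ℕ) (u : F)
    (hu : u ≠ 0) (hhor : HorDiv K n u) (a a' : K) (ha : a ≠ 0) (ha' : a' ≠ 0) (w w' : F')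
    (hw : w ≠ 0) (hw' : w' ≠ 0) (hNα : Nα u = algebraMap K F' a * w ^ n)
    (hNβ : Nβ u = algebraMap K F' a' * w' ^ n) :
    ∃ (s : ℤ) (z U : F), z ≠ 0 ∧ U ≠ 0 ∧
      U = u ^ (q + 1) * (q : F) ^ (-s) * z ^ (-(n : ℤ)) ∧
      (∀ c, U ∈ D.V c ∧ U⁻¹ ∈ D.V c) ∧ HorDiv K n U ∧
      (∃ (b : K) (w1 : F'), b ≠ 0 ∧ w1 ≠ 0 ∧ Nα U = algebraMap K F' b * w1 ^ n) ∧
      (∃ (b' : K) (w1' : F'), b' ≠ 0 ∧ w1' ≠ 0 ∧ Nβ U = algebraMap K F' b' * w1' ^ n) := by
  have haF : algebraMap K F' a ≠ 0 := (map_ne_zero (algebraMap K F')).mpr ha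
  have haF' : algebraMap K F' a' ≠ 0 := (map_ne_zero (algebraMap K F')).mpr ha'
  have hqK : (q : K) ≠ 0 := by
    intro h
    apply hq
    rw [← map_natCast (algebraMap K F) q, h, map_zero]
  obtain ⟨s, z, hz, hU⟩ := vertical_part_of_norms D.ord D.hord D.ord_surj D.ord_ind
    (D.ord' 0) (D.ord' 1) (D.hord' 0) (D.hord' 1) n q (fun y => Nα y) (fun y => Nβ y) u (q : F)
    hu hq D.ord_q0 D.ord_q1 D.ord_q2 (D.degα.ord_split u hu) (D.degα.ord_insep u hu)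
    (D.degβ.ord_insep u hu) (by rw [D.degβ.ord_split u hu, add_comm])
    (algebraMap K F' a) w (algebraMap K F' a') w' haF hw haF' hw'
    (D.ord'_const a ha) (D.ord'_const a' ha') hNα hNβ
  have hU0 : u ^ (q + 1) * (q : F) ^ (-s) * z ^ (-(n : ℤ)) ≠ 0 :=
    mul_ne_zero (mul_ne_zero (pow_ne_zero _ hu) (zpow_ne_zero _ hq)) (zpow_ne_zero _ hz)
  have hqs : (q : F) ^ (-s) = algebraMap K F ((q : K) ^ (-s)) := by
    rw [map_zpow₀, map_natCast]
  have hqs0 : (q : K) ^ (-s) ≠ 0 := zpow_ne_zero _ hqK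
  refine ⟨s, z, u ^ (q + 1) * (q : F) ^ (-s) * z ^ (-(n : ℤ)), hz, hU0, rfl,
    fun c => (killData_unit_iff_ord_eq_zero D c hU0).mpr (hU c), ?_, ?_, ?_⟩
  · rw [hqs]
    exact horDiv_twist hu hhor (q + 1) _ hqs0 hz
  · rw [hqs]
    exact norm_rel_twist Nα α q D.degα.norm_map ha hw hNα (q + 1) _ hqs0 hz
  · rw [hqs]
    exact norm_rel_twist Nβ β q D.degβ.norm_map ha' hw' hNβ (q + 1) _ hqs0 hz

/-- `killData_vert` with `(q : F) ≠ 0` taken from the base datum. -/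
theorem killData_vert_of_base (D : KillData O q α β Nα Nβ) (hO : BaseDVR O q) (n : ℕ) (u : F)
    (hu : u ≠ 0) (hhor : HorDiv K n u) (a a' : K) (ha : a ≠ 0) (ha' : a' ≠ 0) (w w' : F')
    (hw : w ≠ 0) (hw' : w' ≠ 0) (hNα : Nα u = algebraMap K F' a * w ^ n)
    (hNβ : Nβ u = algebraMap K F' a' * w' ^ n) :
    ∃ (s : ℤ) (z U : F), z ≠ 0 ∧ U ≠ 0 ∧
      U = u ^ (q + 1) * (q : F) ^ (-s) * z ^ (-(n : ℤ)) ∧
      (∀ c, U ∈ D.V c ∧ U⁻¹ ∈ D.V c) ∧ HorDiv K n U ∧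
      (∃ (b : K) (w1 : F'), b ≠ 0 ∧ w1 ≠ 0 ∧ Nα U = algebraMap K F' b * w1 ^ n) ∧
      (∃ (b' : K) (w1' : F'), b' ≠ 0 ∧ w1' ≠ 0 ∧ Nβ U = algebraMap K F' b' * w1' ^ n) := by
  have hq : (q : F) ≠ 0 := by
    rw [← map_natCast (algebraMap K F) q]
    exact (map_ne_zero (algebraMap K F)).mpr hO.q_ne
  exact killData_vert D hq n u hu hhor a a' ha ha' w w' hw hw' hNα hNβ

/-- Units of the valuation ring `D.V' c` of the lower level are the elements of order `0`. -/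
theorem killData_unit_iff_ord'_eq_zero (D : KillData O q α β Nα Nβ) (c : Fin 2) {y : F'}
    (hy : y ≠ 0) : (y ∈ D.V' c ∧ y⁻¹ ∈ D.V' c) ↔ D.ord' c y = 0 := by
  rw [D.mem_V' c y hy, D.mem_V' c y⁻¹ (inv_ne_zero hy), (D.hord' c).map_inv hy]
  constructor
  · rintro ⟨h1, h2⟩
    omega
  · intro h
    omega

/-- **Normalisation of a norm relation.**  If `y = b * w1 ^ n` (`b` a nonzero constant) has
order `0` at the two valuations of the lower level, then `b` and `w1` can be replaced by a unit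
of `O` and a unit of `D.V' 0`, `D.V' 1`. -/
theorem killData_norm_rel_normalise (D : KillData O q α β Nα Nβ) (hq' : (q : F') ≠ 0) {n : ℕ}
    {y : F'} (hy0 : D.ord' 0 y = 0) (hy1 : D.ord' 1 y = 0) {b : K} (hb : b ≠ 0) {w1 : F'}
    (hw1 : w1 ≠ 0) (hrel : y = algebraMap K F' b * w1 ^ n) :
    ∃ (b2 : K) (w2 : F'), b2 ≠ 0 ∧ b2 ∈ O ∧ b2⁻¹ ∈ O ∧ w2 ≠ 0 ∧
      (∀ c, w2 ∈ D.V' c ∧ w2⁻¹ ∈ D.V' c) ∧ y = algebraMap K F' b2 * w2 ^ n := by
  have hbF : algebraMap K F' b ≠ 0 := (map_ne_zero (algebraMap K F')).mpr hb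
  have hqK : (q : K) ≠ 0 := by
    intro h
    apply hq'
    rw [← map_natCast (algebraMap K F') q, h, map_zero]
  have hconst := D.ord'_const b hb
  have e0 : D.ord' 0 (algebraMap K F' b) + (n : ℤ) * D.ord' 0 w1 = 0 := by
    rw [← hy0, hrel, (D.hord' 0).map_mul _ _ hbF (pow_ne_zero n hw1), (D.hord' 0).map_pow hw1]
  have e1 : D.ord' 1 (algebraMap K F' b) + (n : ℤ) * D.ord' 1 w1 = 0 := by
    rw [← hy1, hrel, (D.hord' 1).map_mul _ _ hbF (pow_ne_zero n hw1), (D.hord' 1).map_pow hw1]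
  by_cases hn : n = 0
  · subst hn
    have h0 : D.ord' 0 (algebraMap K F' b) = 0 := by simpa using e0
    obtain ⟨hbO, hbO'⟩ := D.ord'_unit b hb h0
    refine ⟨b, 1, hb, hbO, hbO', one_ne_zero, fun c => ?_, ?_⟩
    · rw [inv_one]
      exact ⟨(D.V' c).one_mem, (D.V' c).one_mem⟩
    · rw [hrel, pow_zero, pow_zero]
  · have hnZ : (n : ℤ) ≠ 0 := Int.natCast_ne_zero.mpr hn
    have hj : D.ord' 1 w1 = D.ord' 0 w1 := by
      have : (n : ℤ) * D.ord' 1 w1 = (n : ℤ) * D.ord' 0 w1 := by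
        rw [hconst] at e0
        omega
      exact mul_left_cancel₀ hnZ this
    have hw2 : w1 * (q : F') ^ (-(D.ord' 0 w1)) ≠ 0 := mul_ne_zero hw1 (zpow_ne_zero _ hq')
    have hb2 : b * (q : K) ^ ((n : ℤ) * D.ord' 0 w1) ≠ 0 := mul_ne_zero hb (zpow_ne_zero _ hqK)
    have hqmap : algebraMap K F' ((q : K) ^ ((n : ℤ) * D.ord' 0 w1)) =
        (q : F') ^ ((n : ℤ) * D.ord' 0 w1) := by
      rw [map_zpow₀, map_natCast]
    have hord2 : ∀ c, D.ord' c (w1 * (q : F') ^ (-(D.ord' 0 w1))) = 0 := by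
      intro c
      rw [(D.hord' c).map_mul _ _ hw1 (zpow_ne_zero _ hq'), (D.hord' c).map_zpow hq', D.ord'_q c]
      fin_cases c
      · simp
      · simp [hj]
    have hordb : D.ord' 0 (algebraMap K F' (b * (q : K) ^ ((n : ℤ) * D.ord' 0 w1))) = 0 := by
      rw [map_mul, hqmap, (D.hord' 0).map_mul _ _ hbF (zpow_ne_zero _ hq'),
        (D.hord' 0).map_zpow hq', D.ord'_q 0]
      omega
    obtain ⟨hbO, hbO'⟩ := D.ord'_unit _ hb2 hordb
    refine ⟨b * (q : K) ^ ((n : ℤ) * D.ord' 0 w1), w1 * (q : F') ^ (-(D.ord' 0 w1)), hb2, hbO,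
      hbO', hw2, fun c => (killData_unit_iff_ord'_eq_zero D c hw2).mpr (hord2 c), ?_⟩
    rw [hrel, map_mul, hqmap, mul_pow, ← zpow_natCast ((q : F') ^ (-(D.ord' 0 w1))) n,
      ← zpow_mul]
    have hcancel : (q : F') ^ ((n : ℤ) * D.ord' 0 w1) * (q : F') ^ (-(D.ord' 0 w1) * (n : ℤ)) = 1 := by
      rw [← zpow_add₀ hq']
      have : (n : ℤ) * D.ord' 0 w1 + -(D.ord' 0 w1) * (n : ℤ) = 0 := by ring
      rw [this, zpow_zero]
    calc algebraMap K F' b * w1 ^ n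
        = algebraMap K F' b * w1 ^ n * ((q : F') ^ ((n : ℤ) * D.ord' 0 w1) *
            (q : F') ^ (-(D.ord' 0 w1) * (n : ℤ))) := by rw [hcancel, mul_one]
      _ = algebraMap K F' b * (q : F') ^ ((n : ℤ) * D.ord' 0 w1) *
            (w1 ^ n * (q : F') ^ (-(D.ord' 0 w1) * (n : ℤ))) := by ring

/-- **Step (2) of (KILL) on a `KillData`, normalised form.**  As `killData_vert`, and moreover
the new constants are units of `O` and the new roots are units at the two valuations of the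
lower level. -/
theorem killData_vert_norm (D : KillData O q α β Nα Nβ) (hq : (q : F) ≠ 0) (n : ℕ) (u : F)
    (hu : u ≠ 0) (hhor : HorDiv K n u) (a a' : K) (ha : a ≠ 0) (ha' : a' ≠ 0) (w w' : F')
    (hw : w ≠ 0) (hw' : w' ≠ 0) (hNα : Nα u = algebraMap K F' a * w ^ n)
    (hNβ : Nβ u = algebraMap K F' a' * w' ^ n) :
    ∃ (s : ℤ) (z U : F), z ≠ 0 ∧ U ≠ 0 ∧
      U = u ^ (q + 1) * (q : F) ^ (-s) * z ^ (-(n : ℤ)) ∧
      (∀ c, U ∈ D.V c ∧ U⁻¹ ∈ D.V c) ∧ HorDiv K n U ∧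
      (∃ (b : K) (w1 : F'), b ≠ 0 ∧ b ∈ O ∧ b⁻¹ ∈ O ∧ w1 ≠ 0 ∧
        (∀ c, w1 ∈ D.V' c ∧ w1⁻¹ ∈ D.V' c) ∧ Nα U = algebraMap K F' b * w1 ^ n) ∧
      (∃ (b' : K) (w1' : F'), b' ≠ 0 ∧ b' ∈ O ∧ b'⁻¹ ∈ O ∧ w1' ≠ 0 ∧
        (∀ c, w1' ∈ D.V' c ∧ w1'⁻¹ ∈ D.V' c) ∧ Nβ U = algebraMap K F' b' * w1' ^ n) := by
  obtain ⟨s, z, U, hz, hU0, hUdef, hUunit, hUhor, ⟨b, w1, hb, hw1, hrelα⟩,
    ⟨b', w1', hb', hw1', hrelβ⟩⟩ := killData_vert D hq n u hu hhor a a' ha ha' w w' hw hw' hNα hNβ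
  have hqK : (q : K) ≠ 0 := by
    intro h
    apply hq
    rw [← map_natCast (algebraMap K F) q, h, map_zero]
  have hq' : (q : F') ≠ 0 := by
    rw [← map_natCast (algebraMap K F') q]
    exact (map_ne_zero (algebraMap K F')).mpr hqK
  have hord : ∀ c, D.ord c U = 0 := fun c => (killData_unit_iff_ord_eq_zero D c hU0).mp (hUunit c)
  have hα0 : D.ord' 0 (Nα U) = 0 := by
    rw [D.degα.ord_split U hU0, hord 0, hord 1, add_zero]
  have hα1 : D.ord' 1 (Nα U) = 0 := by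
    rw [D.degα.ord_insep U hU0, hord 2, mul_zero]
  have hβ0 : D.ord' 0 (Nβ U) = 0 := by
    rw [D.degβ.ord_insep U hU0, hord 0, mul_zero]
  have hβ1 : D.ord' 1 (Nβ U) = 0 := by
    rw [D.degβ.ord_split U hU0, hord 2, hord 1, add_zero]
  exact ⟨s, z, U, hz, hU0, hUdef, hUunit, hUhor,
    killData_norm_rel_normalise D hq' hα0 hα1 hb hw1 hrelα,
    killData_norm_rel_normalise D hq' hβ0 hβ1 hb' hw1' hrelβ⟩

/-- `killData_vert_norm` with `(q : F) ≠ 0` taken from the base datum. -/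
theorem killData_vert_norm_of_base (D : KillData O q α β Nα Nβ) (hO : BaseDVR O q) (n : ℕ)
    (u : F) (hu : u ≠ 0) (hhor : HorDiv K n u) (a a' : K) (ha : a ≠ 0) (ha' : a' ≠ 0)
    (w w' : F') (hw : w ≠ 0) (hw' : w' ≠ 0) (hNα : Nα u = algebraMap K F' a * w ^ n)
    (hNβ : Nβ u = algebraMap K F' a' * w' ^ n) :
    ∃ (s : ℤ) (z U : F), z ≠ 0 ∧ U ≠ 0 ∧
      U = u ^ (q + 1) * (q : F) ^ (-s) * z ^ (-(n : ℤ)) ∧
      (∀ c, U ∈ D.V c ∧ U⁻¹ ∈ D.V c) ∧ HorDiv K n U ∧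
      (∃ (b : K) (w1 : F'), b ≠ 0 ∧ b ∈ O ∧ b⁻¹ ∈ O ∧ w1 ≠ 0 ∧
        (∀ c, w1 ∈ D.V' c ∧ w1⁻¹ ∈ D.V' c) ∧ Nα U = algebraMap K F' b * w1 ^ n) ∧
      (∃ (b' : K) (w1' : F'), b' ≠ 0 ∧ b' ∈ O ∧ b'⁻¹ ∈ O ∧ w1' ≠ 0 ∧
        (∀ c, w1' ∈ D.V' c ∧ w1'⁻¹ ∈ D.V' c) ∧ Nβ U = algebraMap K F' b' * w1' ^ n) := by
  have hq : (q : F) ≠ 0 := by
    rw [← map_natCast (algebraMap K F) q]
    exact (map_ne_zero (algebraMap K F)).mpr hO.q_ne
  exact killData_vert_norm D hq n u hu hhor a a' ha ha' w w' hw hw' hNα hNβ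

/-- **Back-substitution** after step (2): if `U = u ^ (q + 1) * q ^ (-s) * z ^ (-n)` and
`U ^ m` is a constant times an `n`-th power, then so is `u ^ ((q + 1) * m)`. -/
theorem vert_back_subst (q : ℕ) (hq : (q : F) ≠ 0) (n : ℕ) (u z U : F) (s : ℤ) (hz : z ≠ 0)
    (hU : U = u ^ (q + 1) * (q : F) ^ (-s) * z ^ (-(n : ℤ))) (m : ℕ) (κ : K) (hκ : κ ≠ 0)
    (W : F) (hUm : U ^ m = algebraMap K F κ * W ^ n) :
    ∃ κ' : K, κ' ≠ 0 ∧ ∃ W' : F, u ^ ((q + 1) * m) = algebraMap K F κ' * W' ^ n := by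
  have hqK : (q : K) ≠ 0 := by
    intro h
    apply hq
    rw [← map_natCast (algebraMap K F) q, h, map_zero]
  have hu1 : u ^ (q + 1) = U * (q : F) ^ s * z ^ n := by
    rw [hU, zpow_neg, zpow_neg, zpow_natCast]
    have hzn : z ^ n ≠ 0 := pow_ne_zero _ hz
    have hqs : (q : F) ^ s ≠ 0 := zpow_ne_zero _ hq
    field_simp
  have hqmap : algebraMap K F ((q : K) ^ (s * (m : ℤ))) = ((q : F) ^ s) ^ m := by
    rw [map_zpow₀, map_natCast, zpow_mul, zpow_natCast]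
  refine ⟨κ * (q : K) ^ (s * (m : ℤ)), mul_ne_zero hκ (zpow_ne_zero _ hqK), W * z ^ m, ?_⟩
  rw [pow_mul, hu1, mul_pow, mul_pow, hUm, map_mul, hqmap, mul_pow, ← pow_mul z m n,
    ← pow_mul z n m, mul_comm m n]
  ring

/-- **Reduction of (KILL) to vertical units** (steps (2) + back-substitution in one call).
To prove that `u ^ ((q + 1) * m)` is a constant times an `n`-th power for every nonzero `u` with
horizontal orders divisible by `n` and the two norm relations, it suffices to prove that `U ^ m`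
is a constant times an `n`-th power for every such `U` which is moreover a unit at the three
vertical valuations and whose norm relations have unit constants and unit roots. -/
theorem killData_reduce_to_units (D : KillData O q α β Nα Nβ) (hq : (q : F) ≠ 0) (n m : ℕ)
    (hcore : ∀ U : F, U ≠ 0 → (∀ c, U ∈ D.V c ∧ U⁻¹ ∈ D.V c) → HorDiv K n U →
      (∃ (b : K) (w1 : F'), b ≠ 0 ∧ b ∈ O ∧ b⁻¹ ∈ O ∧ w1 ≠ 0 ∧
        (∀ c, w1 ∈ D.V' c ∧ w1⁻¹ ∈ D.V' c) ∧ Nα U = algebraMap K F' b * w1 ^ n) →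
      (∃ (b' : K) (w1' : F'), b' ≠ 0 ∧ b' ∈ O ∧ b'⁻¹ ∈ O ∧ w1' ≠ 0 ∧
        (∀ c, w1' ∈ D.V' c ∧ w1'⁻¹ ∈ D.V' c) ∧ Nβ U = algebraMap K F' b' * w1' ^ n) →
      ∃ κ : K, κ ≠ 0 ∧ ∃ W : F, U ^ m = algebraMap K F κ * W ^ n)
    (u : F) (hu : u ≠ 0) (hhor : HorDiv K n u) (a a' : K) (ha : a ≠ 0) (ha' : a' ≠ 0)
    (w w' : F') (hw : w ≠ 0) (hw' : w' ≠ 0) (hNα : Nα u = algebraMap K F' a * w ^ n)
    (hNβ : Nβ u = algebraMap K F' a' * w' ^ n) :
    ∃ κ : K, κ ≠ 0 ∧ ∃ W : F, u ^ ((q + 1) * m) = algebraMap K F κ * W ^ n := by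
  obtain ⟨s, z, U, hz, hU0, hUdef, hUunit, hUhor, hα, hβ⟩ :=
    killData_vert_norm D hq n u hu hhor a a' ha ha' w w' hw hw' hNα hNβ
  obtain ⟨κ, hκ, W, hW⟩ := hcore U hU0 hUunit hUhor hα hβ
  exact vert_back_subst q hq n u z U s hz hUdef m κ hκ W hW

end VertKill

end Fermat.Agent.S36.helper1013
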