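import Mathlib

/-!
# Commutative algebra behind (LP) of the S36 route (helper4696; Mathlib only)

* `isPrincipal_of_notMem_of_quotient_pir` — lemma (a): in a noetherian local ring `O` with a
  non-unit `π` such that `O ⧸ (π)` is a principal ideal ring, every prime ideal not containing
  `π` is principal.
* `exists_maximalIdeal_eq_span_pair` — the maximal ideal is `(π, s)`.
* `ufd_of_quotient_pid` — if moreover `O` is a domain and `O ⧸ (π)` is a domain, `O` is a UFD.
* `height_eq_one_of_colon` — Krull: in a noetherian integrally closed domain a prime of the form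
  `(b : c)` with `b ≠ 0`, `b ∤ c` has height one.
* `dvd_of_forall_height_one` — divisibility can be tested at the height-one primes.
* `eq_span_singleton_of_forall_height_one` — an ideal containing `x` that is generated by `x`
  locally at every height-one prime containing `x` equals `(x)`.
* `eq_span_singleton_of_div` — divisor form: `x ∈ p`, `x` in no other height-one prime,
  `x` generates `p` locally at `p`  ⟹  `p = (x)`.
* `mem_range_of_forall_height_one` — `R = ⋂ R_P` over the height-one primes, inside `Frac R`.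
* `under_eq_span_singleton_of_height_one`, `eq_span_singleton_algebraMap_of_unique_liesOver` —
  (LP)(c) in abstract form: pull-back of a principal prime along an integral extension of normal
  domains with exactly one height-one prime above and `e = 1`.
* `isUnit_of_transfer` — the transfer lemma for thickness one.
-/

set_option autoImplicit false
set_option linter.unusedSectionVars false

namespace Fermat.Agent.S36.helper4696

open IsLocalRing

section LemmaA

variable {O : Type*} [CommRing O]

/-- **Lemma (a).** `O` noetherian local, `π` a non-unit with `O ⧸ (π)` a principal ideal ring,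
`Q` a prime ideal with `π ∉ Q`. Then `Q` is principal. -/
theorem isPrincipal_of_notMem_of_quotient_pir [IsLocalRing O] [IsNoetherianRing O]
    (π : O) (hπ : π ∈ maximalIdeal O) [IsPrincipalIdealRing (O ⧸ Ideal.span {π})]
    (Q : Ideal O) [hQ : Q.IsPrime] (hπQ : π ∉ Q) : Submodule.IsPrincipal Q := by
  classical
  set mk := Ideal.Quotient.mk (Ideal.span {π}) with hmk
  have hsurj : Function.Surjective mk := Ideal.Quotient.mk_surjective
  -- the image of `Q` in the quotient is principal, generated by the class of some `y ∈ Q`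
  obtain ⟨g, hg⟩ := (IsPrincipalIdealRing.principal (Q.map mk)).principal
  have hgmem : g ∈ Q.map mk := by rw [hg]; exact Submodule.mem_span_singleton_self g
  obtain ⟨y, hyQ, rfl⟩ := (Ideal.mem_map_iff_of_surjective mk hsurj).mp hgmem
  refine ⟨y, le_antisymm ?_ ((Ideal.span_singleton_le_iff_mem Q).mpr hyQ)⟩
  -- Nakayama
  have hjac : Ideal.span {π} ≤ Ideal.jacobson (⊥ : Ideal O) := by
    rw [IsLocalRing.jacobson_eq_maximalIdeal ⊥ bot_ne_top]
    exact (Ideal.span_singleton_le_iff_mem _).mpr hπ
  refine Submodule.le_of_le_smul_of_le_jacobson_bot (IsNoetherian.noetherian Q) hjac ?_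
  intro z hz
  have hzmem : mk z ∈ Q.map mk := Ideal.mem_map_of_mem mk hz
  rw [hg] at hzmem
  obtain ⟨a', ha'⟩ := Submodule.mem_span_singleton.mp hzmem
  obtain ⟨a, rfl⟩ := hsurj a'
  have h1 : mk (z - a * y) = 0 := by
    rw [map_sub, map_mul, ← ha', smul_eq_mul, sub_self]
  rw [hmk, Ideal.Quotient.eq_zero_iff_mem, Ideal.mem_span_singleton] at h1
  obtain ⟨w, hw⟩ := h1
  have hwQ : w ∈ Q := by
    have : π * w ∈ Q := by
      rw [← hw]; exact Q.sub_mem hz (Q.mul_mem_left a hyQ)
    exact (hQ.mem_or_mem this).resolve_left hπQ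
  have hz' : z = a * y + π * w := by rw [← hw]; ring
  rw [hz']
  refine Submodule.add_mem_sup ?_ ?_
  · exact Ideal.mem_span_singleton'.mpr ⟨a, rfl⟩
  · rw [smul_eq_mul]
    exact Ideal.mul_mem_mul (Ideal.mem_span_singleton_self π) hwQ

/-- The maximal ideal is generated by `π` and one more element. -/
theorem exists_maximalIdeal_eq_span_pair [IsLocalRing O]
    (π : O) (hπ : π ∈ maximalIdeal O) [IsPrincipalIdealRing (O ⧸ Ideal.span {π})] :
    ∃ s : O, maximalIdeal O = Ideal.span {π, s} := by
  classical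
  set mk := Ideal.Quotient.mk (Ideal.span {π}) with hmk
  have hsurj : Function.Surjective mk := Ideal.Quotient.mk_surjective
  obtain ⟨g, hg⟩ := (IsPrincipalIdealRing.principal ((maximalIdeal O).map mk)).principal
  have hgmem : g ∈ (maximalIdeal O).map mk := by
    rw [hg]; exact Submodule.mem_span_singleton_self g
  obtain ⟨s, hs, rfl⟩ := (Ideal.mem_map_iff_of_surjective mk hsurj).mp hgmem
  refine ⟨s, le_antisymm ?_ ?_⟩
  · intro z hz
    have hzmem : mk z ∈ (maximalIdeal O).map mk := Ideal.mem_map_of_mem mk hz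
    rw [hg] at hzmem
    obtain ⟨a', ha'⟩ := Submodule.mem_span_singleton.mp hzmem
    obtain ⟨a, rfl⟩ := hsurj a'
    have h1 : mk (z - a * s) = 0 := by
      rw [map_sub, map_mul, ← ha', smul_eq_mul, sub_self]
    rw [hmk, Ideal.Quotient.eq_zero_iff_mem, Ideal.mem_span_singleton] at h1
    obtain ⟨w, hw⟩ := h1
    have hz' : z = w * π + a * s := by rw [mul_comm w π, ← hw]; ring
    rw [hz']
    exact Ideal.mem_span_pair.mpr ⟨w, a, rfl⟩
  · rw [Ideal.span_le]
    intro z hz
    rcases hz with rfl | rfl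
    · exact hπ
    · exact hs

/-- **(REG ⟹ factorial).** A noetherian local domain `O` with a non-unit `π` such that `O ⧸ (π)`
is a principal ideal domain is a unique factorisation domain: every height-one prime is
principal. -/
theorem ufd_of_quotient_pid [IsDomain O] [IsLocalRing O] [IsNoetherianRing O]
    (π : O) (hπ : π ∈ maximalIdeal O) [IsDomain (O ⧸ Ideal.span {π})]
    [IsPrincipalIdealRing (O ⧸ Ideal.span {π})] : UniqueFactorizationMonoid O := by
  refine UniqueFactorizationMonoid.of_forall_isPrincipal_of_height_eq_one ?_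
  intro p hp hp1
  by_cases hπp : π ∈ p
  · by_cases hπ0 : π = 0
    · -- then `O` itself is a principal ideal ring
      subst hπ0
      have hsurj : Function.Surjective
          (Ideal.Quotient.mk (Ideal.span {(0 : O)})) := Ideal.Quotient.mk_surjective
      have hinj : Function.Injective (Ideal.Quotient.mk (Ideal.span {(0 : O)})) := by
        rw [injective_iff_map_eq_zero]
        intro a ha
        rw [Ideal.Quotient.eq_zero_iff_mem, Ideal.mem_span_singleton] at ha
        simpa using ha
      obtain ⟨g, hg⟩ := (IsPrincipalIdealRing.principal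
        (p.map (Ideal.Quotient.mk (Ideal.span {(0 : O)})))).principal
      obtain ⟨y, rfl⟩ := hsurj g
      refine ⟨y, le_antisymm ?_ ?_⟩
      · intro z hz
        have hzmem := Ideal.mem_map_of_mem (Ideal.Quotient.mk (Ideal.span {(0 : O)})) hz
        rw [hg] at hzmem
        obtain ⟨a', ha'⟩ := Submodule.mem_span_singleton.mp hzmem
        obtain ⟨a, rfl⟩ := hsurj a'
        rw [smul_eq_mul, ← map_mul] at ha'
        have := hinj ha'
        rw [← this]
        exact Ideal.mem_span_singleton'.mpr ⟨a, rfl⟩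
      · have hymem : Ideal.Quotient.mk (Ideal.span {(0 : O)}) y ∈
            p.map (Ideal.Quotient.mk (Ideal.span {(0 : O)})) := by
          rw [hg]; exact Submodule.mem_span_singleton_self _
        obtain ⟨y', hy', hyy'⟩ := (Ideal.mem_map_iff_of_surjective _ hsurj).mp hymem
        have : y' = y := hinj hyy'
        subst this
        exact (Ideal.span_singleton_le_iff_mem p).mpr hy'
    · have hprime : (Ideal.span {π}).IsPrime :=
        (Ideal.Quotient.isDomain_iff_prime _).mp inferInstance
      have hπprime : Prime π := (Ideal.span_singleton_prime hπ0).mp hprime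
      exact ⟨π, Ideal.eq_span_singleton_of_height_eq_one hp1 hπp hπprime⟩
  · exact isPrincipal_of_notMem_of_quotient_pir π hπ p hπp

end LemmaA

section Krull

variable {R : Type*} [CommRing R]

/-- The ideal `(b : c) = {x | b ∣ x * c}`. -/
def colonIdeal (b c : R) : Ideal R where
  carrier := {x | b ∣ x * c}
  add_mem' := by
    intro x y hx hy
    change b ∣ x * c at hx
    change b ∣ y * c at hy
    change b ∣ (x + y) * c
    rw [add_mul]; exact dvd_add hx hy
  zero_mem' := by
    change b ∣ 0 * c
    simp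
  smul_mem' := by
    intro r x hx
    change b ∣ x * c at hx
    change b ∣ (r * x) * c
    rw [mul_assoc]; exact hx.mul_left r

theorem mem_colonIdeal {b c x : R} : x ∈ colonIdeal b c ↔ b ∣ x * c := Iff.rfl

variable [IsDomain R]

/-- **Krull (associated primes of principal ideals).** In a noetherian integrally closed domain,
a prime ideal of the form `(b : c) = {x | b ∣ x * c}` with `b ≠ 0` has height one. -/
theorem height_eq_one_of_colon [IsNoetherianRing R] [IsIntegrallyClosed R] {b c : R} (hb : b ≠ 0)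
    (P : Ideal R) [hPp : P.IsPrime] (hP : ∀ x, x ∈ P ↔ b ∣ x * c) : P.height = 1 := by
  classical
  have hbc : ¬ b ∣ c := by
    intro h
    exact hPp.ne_top ((Ideal.eq_top_iff_one P).mpr ((hP 1).mpr (by simpa using h)))
  have hc : c ≠ 0 := by rintro rfl; exact hbc (dvd_zero b)
  have hbP : b ∈ P := (hP b).mpr (dvd_mul_right b c)
  have hPbot : P ≠ ⊥ := by
    intro h; rw [h] at hbP; exact hb (by simpa using hbP)
  have h0 : P.height ≠ 0 := by
    rw [Ne, Ideal.height_eq_zero_iff_eq_bot]; exact hPbot
  suffices h1 : P.height ≤ 1 from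
    le_antisymm h1 (Order.one_le_iff_pos.mpr (pos_iff_ne_zero.mpr h0))
  by_cases hcase : ∀ p ∈ P, ∃ p' ∈ P, p * c = b * p'
  · -- `c / b` is integral, hence in `R`: contradiction
    exfalso
    let K := FractionRing R
    have hbK : algebraMap R K b ≠ 0 := by
      simpa using (IsFractionRing.injective R K).ne hb
    set t : K := algebraMap R K c / algebraMap R K b with ht
    let N : Submodule R K := Submodule.map (Algebra.linearMap R K) P
    have hN : N ≠ ⊥ := by
      intro h
      have : algebraMap R K b ∈ N := ⟨b, hbP, rfl⟩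
      rw [h] at this
      exact hbK (by simpa using this)
    have hNfg : N.FG := (IsNoetherian.noetherian P).map _
    have hint : IsIntegral R t := by
      refine isIntegral_of_smul_mem_submodule N hN hNfg t ?_
      rintro n ⟨p, hp, rfl⟩
      obtain ⟨p', hp', hpp'⟩ := hcase p hp
      refine ⟨p', hp', ?_⟩
      simp only [Algebra.linearMap_apply, smul_eq_mul, ht]
      rw [div_mul_eq_mul_div, eq_div_iff hbK, mul_comm (algebraMap R K c), ← map_mul, ← map_mul,
        hpp', mul_comm]
    obtain ⟨r, hr⟩ := IsIntegrallyClosed.isIntegral_iff.mp hint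
    apply hbc
    refine ⟨r, ?_⟩
    apply IsFractionRing.injective R K
    rw [map_mul, hr, ht, mul_div_cancel₀ _ hbK]
  · -- `P` is a minimal prime over a principal ideal
    push Not at hcase
    obtain ⟨p₀, hp₀, hp₀'⟩ := hcase
    obtain ⟨u, hu⟩ := (hP p₀).mp hp₀
    have huP : u ∉ P := fun h => hp₀' u h hu
    have hmin : P ∈ (Ideal.span {p₀}).minimalPrimes := by
      refine ⟨⟨hPp, (Ideal.span_singleton_le_iff_mem P).mpr hp₀⟩, ?_⟩
      rintro Q' ⟨hQ', hle⟩ hQP x hx
      obtain ⟨x', hx'⟩ := (hP x).mp hx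
      have hxu : x * u = p₀ * x' := by
        apply mul_left_cancel₀ hc
        calc c * (x * u) = (x * c) * u := by ring
          _ = (b * x') * u := by rw [hx']
          _ = (b * u) * x' := by ring
          _ = (p₀ * c) * x' := by rw [hu]
          _ = c * (p₀ * x') := by ring
      have hmem : x * u ∈ Q' := by
        rw [hxu]
        exact Q'.mul_mem_right x' (hle (Ideal.mem_span_singleton_self p₀))
      exact (hQ'.mem_or_mem hmem).resolve_right (fun h => huP (hQP h))
    exact Ideal.height_le_one_of_isPrincipal_of_mem_minimalPrimes _ P hmin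

/-- **Krull (divisibility is detected in codimension one).** In a noetherian integrally closed
domain, `b ∣ a` as soon as for every height-one prime `P` there is `s ∉ P` with `b ∣ s * a`. -/
theorem dvd_of_forall_height_one [IsNoetherianRing R] [IsIntegrallyClosed R] {a b : R}
    (hb : b ≠ 0)
    (h : ∀ P : Ideal R, P.IsPrime → P.height = 1 → ∃ s, s ∉ P ∧ b ∣ s * a) : b ∣ a := by
  classical
  by_contra hab
  let S : Set (Ideal R) := {I | ∃ r, ¬ b ∣ r * a ∧ I = colonIdeal b (r * a)}
  have hS : S.Nonempty := ⟨colonIdeal b (1 * a), 1, by simpa using hab, rfl⟩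
  obtain ⟨P, ⟨r, hr, rfl⟩, hmax⟩ :=
    (set_has_maximal_iff_noetherian (R := R) (M := R)).mpr inferInstance S hS
  have hprime : (colonIdeal b (r * a)).IsPrime := by
    refine ⟨?_, ?_⟩
    · rw [Ne, Ideal.eq_top_iff_one, mem_colonIdeal]
      simpa using hr
    · intro x y hxy
      by_contra hcon
      push Not at hcon
      obtain ⟨hx, hy⟩ := hcon
      have hy' : ¬ b ∣ (y * r) * a := by
        rw [mul_assoc]; exact hy
      have hle : colonIdeal b (r * a) ≤ colonIdeal b ((y * r) * a) := by
        intro z hz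
        rw [mem_colonIdeal] at hz ⊢
        have : z * (y * r * a) = y * (z * (r * a)) := by ring
        rw [this]; exact hz.mul_left y
      have hnlt := hmax (colonIdeal b ((y * r) * a)) ⟨y * r, hy', rfl⟩
      have heq : colonIdeal b (r * a) = colonIdeal b ((y * r) * a) := by
        by_contra hne
        exact hnlt (lt_of_le_of_ne hle hne)
      apply hx
      rw [heq, mem_colonIdeal]
      rw [mem_colonIdeal] at hxy
      have : x * (y * r * a) = x * y * (r * a) := by ring
      rw [this]; exact hxy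
  have hheight : (colonIdeal b (r * a)).height = 1 :=
    height_eq_one_of_colon (c := r * a) hb _ (fun x => mem_colonIdeal)
  obtain ⟨s, hs, hdvd⟩ := h _ hprime hheight
  apply hs
  rw [mem_colonIdeal]
  have : s * (r * a) = r * (s * a) := by ring
  rw [this]; exact hdvd.mul_left r

/-- **Krull, ideal form.** In a noetherian integrally closed domain, an ideal `I` containing
`x ≠ 0` and generated by `x` locally at every height-one prime containing `x` is `(x)`. -/
theorem eq_span_singleton_of_forall_height_one [IsNoetherianRing R] [IsIntegrallyClosed R]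
    {x : R} (hx : x ≠ 0) (I : Ideal R) (hxI : x ∈ I)
    (h : ∀ P : Ideal R, P.IsPrime → P.height = 1 → x ∈ P → ∃ s, s ∉ P ∧ ∀ y ∈ I, x ∣ s * y) :
    I = Ideal.span {x} := by
  refine le_antisymm ?_ ((Ideal.span_singleton_le_iff_mem I).mpr hxI)
  intro y hy
  rw [Ideal.mem_span_singleton]
  refine dvd_of_forall_height_one hx ?_
  intro P hP hP1
  by_cases hxP : x ∈ P
  · obtain ⟨s, hs, hsy⟩ := h P hP hP1 hxP
    exact ⟨s, hs, hsy y hy⟩
  · exact ⟨x, hxP, dvd_mul_right x y⟩

/-- **Divisor form** (the shape used in (LP)(c)): `p` a prime, `x ∈ p`, `x ≠ 0`, `x` lies in no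
height-one prime other than `p`, and `x` generates `p` locally at `p` (there is `s ∉ p` with
`s • p ⊆ (x)`). Then `p = (x)`. -/
theorem eq_span_singleton_of_div [IsNoetherianRing R] [IsIntegrallyClosed R]
    {x : R} (hx : x ≠ 0) (p : Ideal R) (hxp : x ∈ p)
    (hother : ∀ P : Ideal R, P.IsPrime → P.height = 1 → x ∈ P → P = p)
    (hloc : ∃ s, s ∉ p ∧ ∀ y ∈ p, x ∣ s * y) : p = Ideal.span {x} := by
  refine eq_span_singleton_of_forall_height_one hx p hxp ?_
  intro P hP hP1 hxP
  obtain rfl := hother P hP hP1 hxP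
  exact hloc

/-- **`R = ⋂ R_P` over the height-one primes**, inside any fraction field `K` of a noetherian
integrally closed domain `R`. -/
theorem mem_range_of_forall_height_one [IsNoetherianRing R] [IsIntegrallyClosed R]
    (K : Type*) [Field K] [Algebra R K] [IsFractionRing R K] (y : K)
    (h : ∀ P : Ideal R, P.IsPrime → P.height = 1 →
      ∃ a s : R, s ∉ P ∧ y * algebraMap R K s = algebraMap R K a) :
    ∃ r : R, algebraMap R K r = y := by
  obtain ⟨a₀, b₀, hb₀, rfl⟩ := IsFractionRing.div_surjective (A := R) y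
  have hb₀' : b₀ ≠ 0 := nonZeroDivisors.ne_zero hb₀
  have hbK : algebraMap R K b₀ ≠ 0 := by
    simpa using (IsFractionRing.injective R K).ne hb₀'
  have hdvd : b₀ ∣ a₀ := by
    refine dvd_of_forall_height_one hb₀' ?_
    intro P hP hP1
    obtain ⟨a, s, hs, hy⟩ := h P hP hP1
    refine ⟨s, hs, a, ?_⟩
    apply IsFractionRing.injective R K
    rw [map_mul, map_mul, ← hy]
    field_simp
  obtain ⟨r, rfl⟩ := hdvd
  refine ⟨r, ?_⟩
  rw [map_mul]
  field_simp

end Krull

section PullBack

variable {O' O : Type*} [CommRing O'] [CommRing O] [IsDomain O'] [IsDomain O] [Algebra O' O]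

/-- Contraction of a height-one prime containing the image of a prime element `x` along an
integral extension of domains with integrally closed base: the contraction is `(x)`. -/
theorem under_eq_span_singleton_of_height_one [FaithfulSMul O' O] [Algebra.IsIntegral O' O]
    [IsIntegrallyClosed O']
    (x : O') (hx0 : x ≠ 0) (hxprime : (Ideal.span {x}).IsPrime)
    (P : Ideal O) [hP : P.IsPrime] (hP1 : P.height = 1) (hxP : algebraMap O' O x ∈ P) :
    P.under O' = Ideal.span {x} := by
  have hle : Ideal.span {x} ≤ P.under O' := by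
    rw [Ideal.span_singleton_le_iff_mem, Ideal.under_def, Ideal.mem_comap]
    exact hxP
  have hlies : P.LiesOver (P.under O') := ⟨rfl⟩
  by_contra hne
  have hlt : Ideal.span {x} < P.under O' := lt_of_le_of_ne hle (Ne.symm hne)
  have hPprime : (P.under O').IsPrime := Ideal.IsPrime.under O' P
  obtain ⟨Q, hQP, hQ, hQlies⟩ := Ideal.exists_ideal_lt_liesOver_of_lt (p := Ideal.span {x})
    (q := P.under O') P hlt
  have hfin : P.FiniteHeight :=
    (Ideal.finiteHeight_iff _).mpr (Or.inr (by rw [hP1]; exact ENat.one_ne_top))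
  have h1 := Ideal.height_strict_mono_of_isPrime_of_isPrime hQP
  rw [hP1, Order.lt_one_iff, Ideal.height_eq_zero_iff_eq_bot] at h1
  have hxQ : algebraMap O' O x ∈ Q := by
    have : x ∈ Q.under O' := by
      rw [← hQlies.over]; exact Ideal.mem_span_singleton_self x
    exact this
  rw [h1, Ideal.mem_bot] at hxQ
  exact hx0 ((FaithfulSMul.algebraMap_injective O' O) (by rw [hxQ, map_zero]))

/-- **(LP)(c), abstract form.** `O' ⊆ O` an integral extension of integrally closed domains, `O`
noetherian; `x ∈ O'` a nonzero prime element (`(x) = p'` is prime in `O'`); `p` an ideal of `O`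
containing `x` such that every height-one prime of `O` lying over `(x)` is `p` ("only one
valuation above") and `x` generates `p` locally at `p` ("`e = 1`": there is `s ∉ p` with
`s • p ⊆ x O`). Then `p = x O`. -/
theorem eq_span_singleton_algebraMap_of_unique_liesOver [FaithfulSMul O' O]
    [Algebra.IsIntegral O' O] [IsIntegrallyClosed O'] [IsNoetherianRing O] [IsIntegrallyClosed O]
    (x : O') (hx0 : x ≠ 0) (hxprime : (Ideal.span {x}).IsPrime)
    (p : Ideal O) (hxp : algebraMap O' O x ∈ p)
    (huniq : ∀ P : Ideal O, P.IsPrime → P.height = 1 → P.under O' = Ideal.span {x} → P = p)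
    (hloc : ∃ s, s ∉ p ∧ ∀ y ∈ p, algebraMap O' O x ∣ s * y) :
    p = Ideal.span {algebraMap O' O x} := by
  have hx0' : algebraMap O' O x ≠ 0 := by
    intro h
    exact hx0 ((FaithfulSMul.algebraMap_injective O' O) (by rw [h, map_zero]))
  refine eq_span_singleton_of_div hx0' p hxp ?_ hloc
  intro P hP hP1 hxP
  exact huniq P hP hP1 (under_eq_span_singleton_of_height_one x hx0 hxprime P hP1 hxP)

end PullBack

section LocalGenerator

variable {R : Type*} [CommRing R] [IsDomain R] [UniqueFactorizationMonoid R]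

/-- `a` is, at every prime element `π`, an `n k`-th power of `π` times something prime to `π`. -/
def PowAt (n : ℕ) (a : R) : Prop :=
  ∀ π : R, Prime π → ∃ (k : ℕ) (a' : R), ¬ π ∣ a' ∧ a = π ^ (n * k) * a'

/-- In a UFD, a nonzero element all of whose prime multiplicities are divisible by `n` is a unit
times an `n`-th power. -/
theorem exists_unit_mul_pow_of_powAt (n : ℕ) (hn : n ≠ 0) :
    ∀ a : R, a ≠ 0 → PowAt n a → ∃ (ε : Rˣ) (c : R), a = ε * c ^ n := by
  intro a
  induction a using (wellFounded_dvdNotUnit (α := R)).induction with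
  | _ a ih =>
  intro ha0 hpow
  by_cases hu : IsUnit a
  · exact ⟨hu.unit, 1, by simp⟩
  obtain ⟨π, hπirr, hπa⟩ := WfDvdMonoid.exists_irreducible_factor hu ha0
  have hπ : Prime π := UniqueFactorizationMonoid.irreducible_iff_prime.mp hπirr
  obtain ⟨k, a', hπa', rfl⟩ := hpow π hπ
  have hk : k ≠ 0 := by
    rintro rfl
    rw [mul_zero, pow_zero, one_mul] at hπa
    exact hπa' hπa
  have ha'0 : a' ≠ 0 := right_ne_zero_of_mul ha0
  have hnk : n * k ≠ 0 := mul_ne_zero hn hk
  have hdnu : DvdNotUnit a' (π ^ (n * k) * a') := by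
    refine ⟨ha'0, π ^ (n * k), ?_, mul_comm _ _⟩
    intro h
    exact hπ.not_isUnit (isUnit_of_dvd_unit (dvd_pow_self π hnk) h)
  have hpow' : PowAt n a' := by
    intro π' hπ'
    by_cases hππ' : π' ∣ π
    · refine ⟨0, a', ?_, by simp⟩
      intro h
      -- `π'` and `π` are associated, so `π ∣ a'`
      have hassoc : Associated π' π := hπ'.irreducible.associated_of_dvd hπ.irreducible hππ'
      exact hπa' (hassoc.dvd_iff_dvd_left.mp h)
    · obtain ⟨k₁, a₁, hπ'a₁, h1⟩ := hpow π' hπ'
      have hnd : ¬ π' ∣ π ^ (n * k) := fun h => hππ' (hπ'.dvd_of_dvd_pow h)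
      have hdvd : π' ^ (n * k₁) ∣ π ^ (n * k) * a' := ⟨a₁, h1⟩
      obtain ⟨a₂, rfl⟩ := hπ'.pow_dvd_of_dvd_mul_left (n * k₁) hnd hdvd
      refine ⟨k₁, a₂, ?_, rfl⟩
      intro h
      apply hπ'a₁
      have h2 : π' ^ (n * k₁) * a₁ = π' ^ (n * k₁) * (π ^ (n * k) * a₂) := by
        rw [← h1]; ring
      have h3 : a₁ = π ^ (n * k) * a₂ :=
        mul_left_cancel₀ (pow_ne_zero _ hπ'.ne_zero) h2
      rw [h3]
      exact h.mul_left _
  obtain ⟨ε, c, hc⟩ := ih a' hdnu ha'0 hpow'
  refine ⟨ε, π ^ k * c, ?_⟩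
  rw [hc, mul_pow, ← pow_mul, mul_comm k n]
  ring

variable {F : Type*} [Field F] [Algebra R F] [IsFractionRing R F]

/-- `u ∈ Frac R` has order divisible by `n` at the prime element `π`. -/
def OrdDvdAt (n : ℕ) (u : F) (π : R) : Prop :=
  ∃ (k : ℕ) (a b : R), ¬ π ∣ a ∧ ¬ π ∣ b ∧
    (u * algebraMap R F b = algebraMap R F (π ^ (n * k) * a) ∨
      u * algebraMap R F (π ^ (n * k) * b) = algebraMap R F a)

/-- `u ∈ Frac R` is a unit at the prime element `π`. -/
def UnitAt (u : F) (π : R) : Prop :=
  ∃ a b : R, ¬ π ∣ a ∧ ¬ π ∣ b ∧ u * algebraMap R F b = algebraMap R F a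

theorem UnitAt.ordDvdAt {u : F} {π : R} (n : ℕ) (h : UnitAt u π) : OrdDvdAt n u π := by
  obtain ⟨a, b, ha, hb, hab⟩ := h
  exact ⟨0, a, b, ha, hb, Or.inl (by simpa using hab)⟩

/-- **(LP), consumer output: factorial ⟹ local generator.** `R` a UFD with fraction field `F`,
`u ∈ Fˣ` whose order at every prime element of `R` is divisible by `n`. Then
`u = ε (c₁ / c₂) ^ n` with `ε ∈ Rˣ`, and `c₁`, `c₂` are prime to every `π` at which `u` is a
unit. -/
theorem exists_pow_mul_unit' (n : ℕ) (hn : n ≠ 0) (u : F) (hu : u ≠ 0)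
    (hord : ∀ π : R, Prime π → OrdDvdAt n u π) :
    ∃ (c₁ c₂ : R) (ε : Rˣ), c₁ ≠ 0 ∧ c₂ ≠ 0 ∧
      u * algebraMap R F (c₂ ^ n) = algebraMap R F (ε * c₁ ^ n) ∧
      ∀ π : R, Prime π → UnitAt u π → ¬ π ∣ c₁ ∧ ¬ π ∣ c₂ := by
  classical
  have hinj : Function.Injective (algebraMap R F) := IsFractionRing.injective R F
  obtain ⟨a, ⟨b, hb⟩, hrel, hab⟩ := IsFractionRing.exists_reduced_fraction R u
  have hb0 : b ≠ 0 := nonZeroDivisors.ne_zero hb
  have hbF : algebraMap R F b ≠ 0 := by
    intro h; exact hb0 (hinj (by rw [h, map_zero]))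
  have hu' : u * algebraMap R F b = algebraMap R F a := by
    rw [← hab]; exact IsLocalization.mk'_spec F a ⟨b, hb⟩
  have ha0 : a ≠ 0 := by
    rintro rfl
    rw [map_zero] at hu'
    exact (mul_ne_zero hu hbF) hu'
  -- no prime divides both `a` and `b`
  have hcop : ∀ π : R, Prime π → π ∣ a → π ∣ b → False := fun π hπ h1 h2 =>
    hπ.not_isUnit (hrel h1 h2)
  -- key: relation in `R`
  have key1 : ∀ (x y : R), u * algebraMap R F x = algebraMap R F y → a * x = y * b := by
    intro x y h
    apply hinj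
    rw [map_mul, map_mul, ← hu', ← h]; ring
  have hboth : ∀ π : R, Prime π →
      (∃ (k : ℕ) (a' : R), ¬ π ∣ a' ∧ a = π ^ (n * k) * a') ∧
      (∃ (k : ℕ) (b' : R), ¬ π ∣ b' ∧ b = π ^ (n * k) * b') := by
    intro π hπ
    obtain ⟨k, a', b', ha', hb', h | h⟩ := hord π hπ
    · -- `a * b' = π ^ (n k) * a' * b`
      have h1 : a * b' = π ^ (n * k) * a' * b := key1 _ _ h
      by_cases hπb : π ∣ b
      · exfalso
        have hπa : ¬ π ∣ a := fun h' => hcop π hπ h' hπb
        have : π ∣ a * b' := by rw [h1]; exact hπb.mul_left _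
        rcases hπ.dvd_or_dvd this with h' | h'
        · exact hπa h'
        · exact hb' h'
      · have hdvd : π ^ (n * k) ∣ a * b' := ⟨a' * b, by rw [h1]; ring⟩
        obtain ⟨a₁, rfl⟩ := hπ.pow_dvd_of_dvd_mul_right (n * k) hb' hdvd
        refine ⟨⟨k, a₁, ?_, rfl⟩, ⟨0, b, hπb, by simp⟩⟩
        intro h'
        have h2 : π ^ (n * k) * (a₁ * b') = π ^ (n * k) * (a' * b) := by
          rw [← mul_assoc, h1]; ring
        have h3 : a₁ * b' = a' * b := mul_left_cancel₀ (pow_ne_zero _ hπ.ne_zero) h2
        have : π ∣ a' * b := by rw [← h3]; exact h'.mul_right _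
        rcases hπ.dvd_or_dvd this with h'' | h''
        · exact ha' h''
        · exact hπb h''
    · -- `a * (π ^ (n k) * b') = a' * b`
      have h1 : a * (π ^ (n * k) * b') = a' * b := key1 _ _ h
      by_cases hπa : π ∣ a
      · exfalso
        have hπb : ¬ π ∣ b := fun h' => hcop π hπ hπa h'
        have : π ∣ a' * b := by rw [← h1]; exact hπa.mul_right _
        rcases hπ.dvd_or_dvd this with h' | h'
        · exact ha' h'
        · exact hπb h'
      · have hdvd : π ^ (n * k) ∣ a' * b := ⟨a * b', by rw [← h1]; ring⟩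
        obtain ⟨b₁, rfl⟩ := hπ.pow_dvd_of_dvd_mul_left (n * k) ha' hdvd
        refine ⟨⟨0, a, hπa, by simp⟩, ⟨k, b₁, ?_, rfl⟩⟩
        intro h'
        have h2 : π ^ (n * k) * (a * b') = π ^ (n * k) * (a' * b₁) := by
          rw [← mul_assoc, mul_comm (π ^ (n * k)) a, mul_assoc, h1]; ring
        have h3 : a * b' = a' * b₁ := mul_left_cancel₀ (pow_ne_zero _ hπ.ne_zero) h2
        have : π ∣ a * b' := by rw [h3]; exact h'.mul_left _
        rcases hπ.dvd_or_dvd this with h'' | h''
        · exact hπa h''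
        · exact hb' h''
  obtain ⟨ε₁, c₁, hc₁⟩ := exists_unit_mul_pow_of_powAt n hn a ha0 (fun π hπ => (hboth π hπ).1)
  obtain ⟨ε₂, c₂, hc₂⟩ := exists_unit_mul_pow_of_powAt n hn b hb0 (fun π hπ => (hboth π hπ).2)
  have hc₁0 : c₁ ≠ 0 := by
    rintro rfl
    rw [zero_pow hn, mul_zero] at hc₁
    exact ha0 hc₁
  have hc₂0 : c₂ ≠ 0 := by
    rintro rfl
    rw [zero_pow hn, mul_zero] at hc₂
    exact hb0 hc₂
  refine ⟨c₁, c₂, ε₁ * ε₂⁻¹, hc₁0, hc₂0, ?_, ?_⟩
  · -- `u * c₂^n = ε₁ ε₂⁻¹ c₁^n`
    have hε : algebraMap R F ((ε₂ : R)) ≠ 0 := by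
      intro h; exact ε₂.ne_zero (hinj (by rw [h, map_zero]))
    apply mul_right_cancel₀ hε
    have e1 : u * algebraMap R F (c₂ ^ n) * algebraMap R F (ε₂ : R) = u * algebraMap R F b := by
      rw [hc₂, map_mul (algebraMap R F) (ε₂ : R)]; ring
    have e2 : algebraMap R F (((ε₁ * ε₂⁻¹ : Rˣ) : R) * c₁ ^ n) * algebraMap R F (ε₂ : R)
        = algebraMap R F a := by
      rw [← map_mul, hc₁]
      congr 1
      rw [Units.val_mul]
      have : ((ε₂⁻¹ : Rˣ) : R) * (ε₂ : R) = 1 := by
        rw [← Units.val_mul, inv_mul_cancel, Units.val_one]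
      calc (ε₁ : R) * ((ε₂⁻¹ : Rˣ) : R) * c₁ ^ n * (ε₂ : R)
          = (ε₁ : R) * c₁ ^ n * (((ε₂⁻¹ : Rˣ) : R) * (ε₂ : R)) := by ring
        _ = (ε₁ : R) * c₁ ^ n := by rw [this, mul_one]
    rw [e1, e2, hu']
  · intro π hπ ⟨a', b', ha', hb', h⟩
    have h1 : a * b' = a' * b := key1 _ _ h
    constructor
    · intro hπc
      have hπa : π ∣ a := by rw [hc₁]; exact (dvd_pow hπc hn).mul_left _
      have hπb : ¬ π ∣ b := fun h' => hcop π hπ hπa h'
      have : π ∣ a' * b := by rw [← h1]; exact hπa.mul_right _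
      rcases hπ.dvd_or_dvd this with h' | h'
      · exact ha' h'
      · exact hπb h'
    · intro hπc
      have hπb : π ∣ b := by rw [hc₂]; exact (dvd_pow hπc hn).mul_left _
      have hπa : ¬ π ∣ a := fun h' => hcop π hπ h' hπb
      have : π ∣ a * b' := by rw [h1]; exact hπb.mul_left _
      rcases hπ.dvd_or_dvd this with h' | h'
      · exact hπa h'
      · exact hb' h'

/-- **(LP), consumer output, field form**: `u = ε h ^ n` with `ε ∈ Rˣ`, `h ∈ Fˣ`, and `h` is a
unit at every prime element at which `u` is a unit. -/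
theorem exists_pow_mul_unit (n : ℕ) (hn : n ≠ 0) (u : F) (hu : u ≠ 0)
    (hord : ∀ π : R, Prime π → OrdDvdAt n u π) :
    ∃ (h : F) (ε : Rˣ), h ≠ 0 ∧ u = algebraMap R F ε * h ^ n ∧
      ∀ π : R, Prime π → UnitAt u π → UnitAt h π := by
  obtain ⟨c₁, c₂, ε, hc₁, hc₂, hrel, hunit⟩ := exists_pow_mul_unit' n hn u hu hord
  have hinj : Function.Injective (algebraMap R F) := IsFractionRing.injective R F
  have hc₁F : algebraMap R F c₁ ≠ 0 := fun h => hc₁ (hinj (by rw [h, map_zero]))
  have hc₂F : algebraMap R F c₂ ≠ 0 := fun h => hc₂ (hinj (by rw [h, map_zero]))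
  refine ⟨algebraMap R F c₁ / algebraMap R F c₂, ε, div_ne_zero hc₁F hc₂F, ?_, ?_⟩
  · rw [map_pow, map_mul, map_pow] at hrel
    rw [div_pow, ← mul_div_assoc, eq_div_iff (pow_ne_zero n hc₂F)]
    exact hrel
  · intro π hπ hπu
    obtain ⟨h1, h2⟩ := hunit π hπ hπu
    exact ⟨c₁, c₂, h1, h2, div_mul_cancel₀ _ hc₂F⟩

/-- **Order-function adapter.** If `w : F → ℤ` is additive on products of nonzero elements, takes
the value `1` at `π` and `0` at the elements of `R` prime to `π` (e.g. `w = P.ord` for a place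
`P` whose valuation ring is `R_(π)`), and `n ∣ w u`, then `u` has order divisible by `n` at `π`. -/
theorem ordDvdAt_of_ordFn (n : ℕ) (u : F) (hu : u ≠ 0) (π : R) (hπ : Prime π) (w : F → ℤ)
    (hmul : ∀ x y : F, x ≠ 0 → y ≠ 0 → w (x * y) = w x + w y)
    (hwπ : w (algebraMap R F π) = 1)
    (hw0 : ∀ a : R, ¬ π ∣ a → w (algebraMap R F a) = 0)
    (hdvd : (n : ℤ) ∣ w u) : OrdDvdAt n u π := by
  classical
  have hinj : Function.Injective (algebraMap R F) := IsFractionRing.injective R F
  have hπF : algebraMap R F π ≠ 0 := fun h => hπ.ne_zero (hinj (by rw [h, map_zero]))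
  obtain ⟨a, b, hb, hab⟩ := IsFractionRing.div_surjective (A := R) u
  have hb0 : b ≠ 0 := nonZeroDivisors.ne_zero hb
  have hbF : algebraMap R F b ≠ 0 := fun h => hb0 (hinj (by rw [h, map_zero]))
  have ha0 : a ≠ 0 := by
    rintro rfl
    rw [map_zero, zero_div] at hab
    exact hu hab.symm
  obtain ⟨i, a', ha', rfl⟩ := WfDvdMonoid.max_power_factor ha0 hπ.irreducible
  obtain ⟨j, b', hb', rfl⟩ := WfDvdMonoid.max_power_factor hb0 hπ.irreducible
  have ha'0 : a' ≠ 0 := right_ne_zero_of_mul ha0
  have hb'0 : b' ≠ 0 := right_ne_zero_of_mul hb0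
  have ha'F : algebraMap R F a' ≠ 0 := fun h => ha'0 (hinj (by rw [h, map_zero]))
  have hb'F : algebraMap R F b' ≠ 0 := fun h => hb'0 (hinj (by rw [h, map_zero]))
  have hwpow : ∀ m : ℕ, w (algebraMap R F π ^ m) = m := by
    intro m
    induction m with
    | zero =>
      have h1 := hmul 1 1 one_ne_zero one_ne_zero
      rw [mul_one] at h1
      simp only [pow_zero, Nat.cast_zero]
      linarith
    | succ m ih =>
      rw [pow_succ, hmul _ _ (pow_ne_zero m hπF) hπF, ih, hwπ]
      push_cast; ring
  -- `w u = i - j`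
  have hu_eq : u * (algebraMap R F π ^ j * algebraMap R F b')
      = algebraMap R F π ^ i * algebraMap R F a' := by
    rw [← hab, map_mul, map_mul, map_pow, map_pow]
    rw [div_mul_cancel₀]
    rw [map_mul, map_pow] at hbF
    exact hbF
  have hw : w u + j = i := by
    have h1 := congrArg w hu_eq
    rw [hmul _ _ hu (mul_ne_zero (pow_ne_zero j hπF) hb'F),
      hmul _ _ (pow_ne_zero j hπF) hb'F, hmul _ _ (pow_ne_zero i hπF) ha'F,
      hwpow, hwpow, hw0 a' ha', hw0 b' hb'] at h1
    linarith
  obtain ⟨d, hd⟩ := hdvd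
  have hcases : ∃ k : ℕ, i = j + n * k ∨ j = i + n * k := by
    rcases le_total 0 d with h | h
    · obtain ⟨k, rfl⟩ := Int.eq_ofNat_of_zero_le h
      refine ⟨k, Or.inl ?_⟩
      have : (i : ℤ) = j + n * k := by rw [← hw, hd]; ring
      exact_mod_cast this
    · obtain ⟨k, hk⟩ := Int.eq_ofNat_of_zero_le (neg_nonneg.mpr h)
      refine ⟨k, Or.inr ?_⟩
      have hdk : d = -(k : ℤ) := by rw [← hk]; ring
      have : (j : ℤ) = i + n * k := by
        have h1 : (i : ℤ) = j + n * d := by rw [← hw, hd]; ring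
        rw [h1, hdk]; ring
      exact_mod_cast this
  obtain ⟨k, hik | hjk⟩ := hcases
  · refine ⟨k, a', b', ha', hb', Or.inl ?_⟩
    have h2 : algebraMap R F π ^ j * (u * algebraMap R F b')
        = algebraMap R F π ^ j * (algebraMap R F π ^ (n * k) * algebraMap R F a') := by
      calc algebraMap R F π ^ j * (u * algebraMap R F b')
          = u * (algebraMap R F π ^ j * algebraMap R F b') := by ring
        _ = algebraMap R F π ^ i * algebraMap R F a' := hu_eq
        _ = algebraMap R F π ^ j * (algebraMap R F π ^ (n * k) * algebraMap R F a') := by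
            rw [hik, pow_add]; ring
    have h3 := mul_left_cancel₀ (pow_ne_zero j hπF) h2
    rw [h3, map_mul, map_pow]
  · refine ⟨k, a', b', ha', hb', Or.inr ?_⟩
    have h2 : algebraMap R F π ^ i * (u * (algebraMap R F π ^ (n * k) * algebraMap R F b'))
        = algebraMap R F π ^ i * algebraMap R F a' := by
      calc algebraMap R F π ^ i * (u * (algebraMap R F π ^ (n * k) * algebraMap R F b'))
          = u * (algebraMap R F π ^ j * algebraMap R F b') := by rw [hjk, pow_add]; ring
        _ = algebraMap R F π ^ i * algebraMap R F a' := hu_eq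
    have h3 := mul_left_cancel₀ (pow_ne_zero i hπF) h2
    rw [map_mul, map_pow]
    exact h3

end LocalGenerator

section Transfer

variable {O : Type*} [CommRing O] [IsLocalRing O]

/-- **Transfer lemma for thickness one.** If `x * y = q * g` and `x₀ = x c' + q d'`,
`y₀ = y c + q d` satisfy `x₀ * y₀ = q * g₀` with `g₀` a unit (`q` a nonzerodivisor; `q, x, y`
in the maximal ideal), then `g` is a unit. -/
theorem isUnit_of_transfer {q x y g x₀ y₀ g₀ c c' d d' : O}
    (hq : q ∈ nonZeroDivisors O) (hqm : q ∈ maximalIdeal O) (hx : x ∈ maximalIdeal O)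
    (hy : y ∈ maximalIdeal O) (hxy : x * y = q * g) (hx₀ : x₀ = x * c' + q * d')
    (hy₀ : y₀ = y * c + q * d) (h₀ : x₀ * y₀ = q * g₀) (hg₀ : IsUnit g₀) : IsUnit g := by
  have key : q * g₀ = q * (g * (c * c') + (x * (c' * d) + y * (c * d') + q * (d * d'))) := by
    rw [← h₀, hx₀, hy₀]
    have : (x * c' + q * d') * (y * c + q * d)
        = (x * y) * (c * c') + q * (x * (c' * d) + y * (c * d') + q * (d * d')) := by ring
    rw [this, hxy]; ring
  have hg₀' : g₀ = g * (c * c') + (x * (c' * d) + y * (c * d') + q * (d * d')) :=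
    (mul_cancel_left_mem_nonZeroDivisors hq).mp key
  have hm : x * (c' * d) + y * (c * d') + q * (d * d') ∈ maximalIdeal O :=
    Ideal.add_mem _ (Ideal.add_mem _ (Ideal.mul_mem_right _ _ hx) (Ideal.mul_mem_right _ _ hy))
      (Ideal.mul_mem_right _ _ hqm)
  have hunit : IsUnit (g * (c * c')) := by
    by_contra hnu
    have : g * (c * c') ∈ maximalIdeal O := (IsLocalRing.mem_maximalIdeal _).mpr hnu
    have : g₀ ∈ maximalIdeal O := by rw [hg₀']; exact Ideal.add_mem _ this hm
    exact (IsLocalRing.mem_maximalIdeal _).mp this hg₀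
  exact isUnit_of_mul_isUnit_left hunit

end Transfer

end Fermat.Agent.S36.helper4696
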