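/-
S36-CHART-INT (helper105, board #2619): the MEMBERSHIP CRITERION for the chart rings.

Setting of the primary design (ruling #172): `B` a chart ring (noetherian integrally closed domain
with fraction field `F`), `q ∈ B` nonzero, `V c` the vertical valuation rings, and the `rad`
field of `helper36.KillData`: an element of `B` lying in every `𝔪(V c)` is nilpotent modulo `q B`.

* `exists_dvd_or_of_height_one` (M1): `B_P` is a valuation ring at a height-one prime `P`
  (elementwise form; Mathlib's DVR criterion).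
* `dvd_of_rad`, `mem_of_rad` (M2): if `q ^ m * y ∈ B` and `y ∈ V c` for all `c`, then `y ∈ B`.
* `exists_pow_mul_mem_chartRing` (M3): an element integral over `K[s]` becomes integral over
  `O[s]` after multiplication by a power of `q` (`O` a valuation ring of `K` in which every
  element of `K` has a `q`-power multiple).
* `mem_chartRing_of_integral_of_rad` (M4): the two combined, for the chart rings
  `helper248.chartRing O s`.
-/
import Mathlib
import Fermat.Agent.S36.helper4696_LPAlg
import Fermat.Agent.S36.helper248_RootLatticeChart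

set_option autoImplicit false

namespace Fermat.Agent.S36.helper105

open Fermat.Agent.S36.helper4696

section HeightOne

variable {B : Type*} [CommRing B] [IsDomain B] [IsNoetherianRing B]

/-- A nonzero prime contained in a height-one prime is equal to it. -/
theorem eq_of_le_of_height_one {P Q : Ideal B} [P.IsPrime] [Q.IsPrime] (hP : P.height = 1)
    (hQ : Q ≠ ⊥) (hQP : Q ≤ P) : Q = P := by
  by_contra hne
  have hlt : Q < P := lt_of_le_of_ne hQP hne
  have h1 : Q.height < P.height := Ideal.height_strict_mono_of_isPrime_of_isPrime hlt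
  rw [hP, Order.lt_one_iff] at h1
  exact hQ (Ideal.height_eq_zero_iff_eq_bot.mp h1)

variable [IsIntegrallyClosed B]

/-- **(M1)** The localisation of a noetherian integrally closed domain at a height-one prime is
a valuation ring, in elementwise form: for `a, b ∈ B`, `b ≠ 0`, either `a / b ∈ B_P` or
`b / a ∈ P B_P`. -/
theorem exists_dvd_or_of_height_one (P : Ideal B) [P.IsPrime] (hP : P.height = 1) (a b : B) :
    (∃ s, s ∉ P ∧ b ∣ s * a) ∨ (∃ s c, s ∉ P ∧ c ∈ P ∧ s * b = c * a) := by
  classical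
  let R := Localization.AtPrime P
  have hle : P.primeCompl ≤ nonZeroDivisors B := by
    intro x hx
    exact mem_nonZeroDivisors_of_ne_zero (fun h0 => hx (h0 ▸ P.zero_mem))
  have hinj : Function.Injective (algebraMap B R) := IsLocalization.injective R hle
  have : IsDomain R := IsLocalization.isDomain_of_le_nonZeroDivisors R hle
  have : IsNoetherianRing R := IsLocalization.isNoetherianRing P.primeCompl R inferInstance
  have : IsIntegrallyClosed R := isIntegrallyClosed_of_isLocalization R P.primeCompl hle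
  -- the only nonzero prime of `R` is the maximal ideal
  have hprime : ∀ 𝔔 : Ideal R, 𝔔 ≠ ⊥ → 𝔔.IsPrime → 𝔔 = IsLocalRing.maximalIdeal R := by
    intro 𝔔 h𝔔0 h𝔔
    have hcomap_le : 𝔔.comap (algebraMap B R) ≤ P := by
      intro x hx
      by_contra hxP
      have hu : IsUnit (algebraMap B R x) :=
        IsLocalization.map_units R (⟨x, hxP⟩ : P.primeCompl)
      exact h𝔔.ne_top (Ideal.eq_top_of_isUnit_mem _ hx hu)
    have hcomap_ne : 𝔔.comap (algebraMap B R) ≠ ⊥ := by
      intro h0
      apply h𝔔0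
      rw [eq_bot_iff]
      intro x hx
      obtain ⟨r, t, rfl⟩ := IsLocalization.exists_mk'_eq P.primeCompl x
      have hr : r ∈ 𝔔.comap (algebraMap B R) := by
        rw [Ideal.mem_comap, ← IsLocalization.mk'_spec R r t]
        exact 𝔔.mul_mem_right _ hx
      rw [h0, Ideal.mem_bot] at hr
      rw [hr, IsLocalization.mk'_zero]
      exact Ideal.zero_mem _
    have hcomap : 𝔔.comap (algebraMap B R) = P :=
      eq_of_le_of_height_one (Q := 𝔔.comap (algebraMap B R)) hP hcomap_ne hcomap_le
    have h1 : 𝔔 = Ideal.map (algebraMap B R) (𝔔.comap (algebraMap B R)) := by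
      have := IsLocalization.map_under P.primeCompl R 𝔔
      rw [Ideal.under_def] at this
      exact this.symm
    rw [h1, hcomap]
    exact Localization.AtPrime.map_eq_maximalIdeal
  have hval : ValuationRing R := by
    have h := (tfae_of_isNoetherianRing_of_isLocalRing_of_isDomain R).out 3 1
    exact h.mp ⟨inferInstance, hprime⟩
  rcases ValuationRing.dvd_total (algebraMap B R b) (algebraMap B R a) with h | h
  · -- `b ∣ a` in `R`
    left
    obtain ⟨c, hc⟩ := h
    obtain ⟨r, t, rfl⟩ := IsLocalization.exists_mk'_eq P.primeCompl c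
    refine ⟨t, t.2, r, ?_⟩
    apply hinj
    have h1 : algebraMap B R a * algebraMap B R t = algebraMap B R b * algebraMap B R r := by
      rw [hc, mul_assoc, IsLocalization.mk'_spec]
    rw [map_mul, map_mul, mul_comm, h1]
  · -- `a ∣ b` in `R`
    obtain ⟨c, hc⟩ := h
    obtain ⟨r, t, rfl⟩ := IsLocalization.exists_mk'_eq P.primeCompl c
    have h1 : algebraMap B R b * algebraMap B R t = algebraMap B R a * algebraMap B R r := by
      rw [hc, mul_assoc, IsLocalization.mk'_spec]
    have h2 : (t : B) * b = r * a := by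
      apply hinj
      rw [map_mul, map_mul, mul_comm, h1, mul_comm]
    by_cases hr : r ∈ P
    · right
      exact ⟨t, r, t.2, hr, h2⟩
    · left
      exact ⟨r, hr, (t : B), by rw [h2.symm, mul_comm]⟩

end HeightOne

section Rad

variable {B : Type*} [CommRing B] [IsDomain B] [IsNoetherianRing B] [IsIntegrallyClosed B]
variable {F : Type*} [Field F] [Algebra B F] [IsFractionRing B F]

omit [IsDomain B] [IsNoetherianRing B] [IsIntegrallyClosed B] [IsFractionRing B F] in
/-- Prime avoidance for the centres of finitely many valuation rings: if every element of `B`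
lying in all the `𝔪(V c)` is nilpotent modulo `q`, then every prime `P ∋ q` contains the centre
of some `V c`. -/
theorem exists_center_le {ι : Type*} [Finite ι] (V : ι → ValuationSubring F)
    (hBV : ∀ c (y : B), algebraMap B F y ∈ V c) {q : B}
    (hrad : ∀ y : B, (∀ c, algebraMap B F y ∈ (V c).nonunits) → ∃ n : ℕ, q ∣ y ^ n)
    (P : Ideal B) [hP : P.IsPrime] (hqP : q ∈ P) :
    ∃ c, ∀ y : B, algebraMap B F y ∈ (V c).nonunits → y ∈ P := by
  classical
  cases nonempty_fintype ι
  by_contra hcon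
  push Not at hcon
  choose y hy hyP using hcon
  have hprod : ∀ c, algebraMap B F (∏ c, y c) ∈ (V c).nonunits := by
    intro c
    rw [← Finset.mul_prod_erase Finset.univ y (Finset.mem_univ c), map_mul,
      ValuationSubring.mem_nonunits_iff, map_mul]
    have h1 : (V c).valuation (algebraMap B F (y c)) < 1 :=
      (ValuationSubring.mem_nonunits_iff _).mp (hy c)
    have h2 : (V c).valuation (algebraMap B F (∏ x ∈ Finset.univ.erase c, y x)) ≤ 1 :=
      ((V c).valuation_le_one_iff _).mpr (hBV c _)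
    exact lt_of_le_of_lt (mul_le_of_le_one_right' h2) h1
  obtain ⟨n, hn⟩ := hrad _ hprod
  have hmem : (∏ c, y c) ^ n ∈ P := Ideal.mem_of_dvd P hn hqP
  have hmem' : ∏ c, y c ∈ P := hP.mem_of_pow_mem n hmem
  obtain ⟨c, -, hc⟩ := (hP.prod_mem_iff).mp hmem'
  exact hyP c hc

/-- **(M2), divisibility form.**  `q ≠ 0` in a noetherian integrally closed domain `B`,
`V c` finitely many valuation rings of `Frac B` containing `B` with `q ∈ 𝔪(V c)`, such that every
element of `B` lying in all the `𝔪(V c)` is nilpotent modulo `q` (the `V c` are ALL the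
height-one primes over `q`).  If `b / q ∈ V c` for all `c`, then `q ∣ b` in `B`. -/
theorem dvd_of_rad {ι : Type*} [Finite ι] (V : ι → ValuationSubring F)
    (hBV : ∀ c (y : B), algebraMap B F y ∈ V c) {q : B} (hq : q ≠ 0)
    (hqV : ∀ c, algebraMap B F q ∈ (V c).nonunits)
    (hrad : ∀ y : B, (∀ c, algebraMap B F y ∈ (V c).nonunits) → ∃ n : ℕ, q ∣ y ^ n)
    (b : B) (hV : ∀ c, algebraMap B F b / algebraMap B F q ∈ V c) : q ∣ b := by
  classical
  have hinj : Function.Injective (algebraMap B F) := IsFractionRing.injective B F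
  have hqF : algebraMap B F q ≠ 0 := fun h0 => hq (hinj (by rw [h0, map_zero]))
  refine dvd_of_forall_height_one hq ?_
  intro P hP hP1
  by_cases hqP : q ∈ P
  swap
  · exact ⟨q, hqP, dvd_mul_right q b⟩
  have := hP
  obtain ⟨c, hc⟩ := exists_center_le V hBV hrad P hqP
  -- the centre of `V c` on `B`
  let φ : B →+* ↥(V c) := (algebraMap B F).codRestrict (V c).toSubring (hBV c)
  let Q : Ideal B := (IsLocalRing.maximalIdeal ↥(V c)).comap φ
  have hQmem : ∀ y : B, y ∈ Q ↔ algebraMap B F y ∈ (V c).nonunits := by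
    intro y
    rw [Ideal.mem_comap, ← ValuationSubring.coe_mem_nonunits_iff]
    rfl
  have hQp : Q.IsPrime := Ideal.comap_isPrime φ _
  have hQP : Q ≤ P := fun y hy => hc y ((hQmem y).mp hy)
  have hQ0 : Q ≠ ⊥ := by
    intro h0
    have : q ∈ Q := (hQmem q).mpr (hqV c)
    rw [h0, Ideal.mem_bot] at this
    exact hq this
  have hQeq : Q = P := eq_of_le_of_height_one hP1 hQ0 hQP
  rcases exists_dvd_or_of_height_one P hP1 b q with h | ⟨s, c', hs, hc', h⟩
  · exact h
  · exfalso
    apply hs
    rw [← hQeq, hQmem]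
    have h1 : algebraMap B F s = algebraMap B F c' * (algebraMap B F b / algebraMap B F q) := by
      have h2 : algebraMap B F s * algebraMap B F q = algebraMap B F c' * algebraMap B F b := by
        rw [← map_mul, ← map_mul, h]
      field_simp
      exact h2
    rw [h1, ValuationSubring.mem_nonunits_iff, map_mul]
    have h3 : (V c).valuation (algebraMap B F c') < 1 :=
      (ValuationSubring.mem_nonunits_iff _).mp ((hQmem c').mp (hQeq ▸ hc'))
    have h4 : (V c).valuation (algebraMap B F b / algebraMap B F q) ≤ 1 :=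
      ((V c).valuation_le_one_iff _).mpr (hV c)
    exact lt_of_le_of_lt (mul_le_of_le_one_right' h4) h3

/-- **(M2), algebra form.**  Same hypotheses; if `q ^ m * y` comes from `B` and `y ∈ V c` for
all `c`, then `y` comes from `B`. -/
theorem exists_algebraMap_eq_of_rad {ι : Type*} [Finite ι] (V : ι → ValuationSubring F)
    (hBV : ∀ c (y : B), algebraMap B F y ∈ V c) {q : B} (hq : q ≠ 0)
    (hqV : ∀ c, algebraMap B F q ∈ (V c).nonunits)
    (hrad : ∀ y : B, (∀ c, algebraMap B F y ∈ (V c).nonunits) → ∃ n : ℕ, q ∣ y ^ n)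
    (m : ℕ) (y : F) (hy : ∃ b : B, algebraMap B F q ^ m * y = algebraMap B F b)
    (hV : ∀ c, y ∈ V c) : ∃ r : B, algebraMap B F r = y := by
  have hinj : Function.Injective (algebraMap B F) := IsFractionRing.injective B F
  have hqF : algebraMap B F q ≠ 0 := fun h0 => hq (hinj (by rw [h0, map_zero]))
  induction m generalizing y with
  | zero =>
    obtain ⟨b, hb⟩ := hy
    exact ⟨b, by rw [← hb, pow_zero, one_mul]⟩
  | succ m ih =>
    obtain ⟨b, hb⟩ := hy
    obtain ⟨r', hr'⟩ := ih (algebraMap B F q * y) ⟨b, by rw [← hb, pow_succ]; ring⟩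
      (fun c => (V c).mul_mem _ _ (hBV c q) (hV c))
    have hdvd : q ∣ r' := by
      refine dvd_of_rad V hBV hq hqV hrad r' ?_
      intro c
      have h1 : algebraMap B F r' / algebraMap B F q = y := by
        rw [hr', mul_div_cancel_left₀ y hqF]
      rw [h1]
      exact hV c
    obtain ⟨r, rfl⟩ := hdvd
    refine ⟨r, ?_⟩
    rw [map_mul] at hr'
    exact mul_left_cancel₀ hqF hr'

end Rad

section Subring

open Fermat.Agent.S36.helper1730 (NilMod)

variable {F : Type*} [Field F]

/-- **(M2), subring form** (the shape of the `rad` / `rad01` fields of `helper36.KillData`).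
`B ⊆ F` a noetherian integrally closed subring with fraction field `F`, `q ∈ B` nonzero,
`V c` finitely many valuation rings containing `B` with `q ∈ 𝔪(V c)`, and `rad`: an element of
`B` lying in every `𝔪(V c)` is nilpotent modulo `q B`.  Then an element `y ∈ F` with
`q ^ m * y ∈ B` which lies in every `V c` lies in `B`. -/
theorem mem_of_rad (B : Subring F) [IsNoetherianRing B] [IsIntegrallyClosed B]
    [IsFractionRing B F] (q : F) (hq : q ∈ B) (hq0 : q ≠ 0) {ι : Type*} [Finite ι]
    (V : ι → ValuationSubring F) (hBV : ∀ c, ∀ b ∈ B, b ∈ V c)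
    (hqV : ∀ c, q ∈ (V c).nonunits)
    (hrad : ∀ y ∈ B, (∀ c, y ∈ (V c).nonunits) → NilMod B q y)
    (y : F) (m : ℕ) (hy : q ^ m * y ∈ B) (hV : ∀ c, y ∈ V c) : y ∈ B := by
  have hq0' : (⟨q, hq⟩ : B) ≠ 0 := fun h => hq0 (congrArg Subtype.val h)
  obtain ⟨r, hr⟩ := exists_algebraMap_eq_of_rad (B := B) (F := F) V (fun c y => hBV c y y.2)
    (q := ⟨q, hq⟩) hq0' hqV
    (fun y hyV => by
      obtain ⟨-, e, r, hr, he⟩ := hrad y y.2 hyV
      exact ⟨e, ⟨r, hr⟩, Subtype.ext he⟩)
    m y ⟨⟨q ^ m * y, hy⟩, rfl⟩ hV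
  rw [← hr]
  exact r.2

end Subring

section Clear

open Fermat.Agent.S36.helper248 (chartRing mem_chartRing)
open Fermat.Agent.S36.helper1730 (NilMod)

variable {K F : Type*} [Field K] [Field F] [Algebra K F]

/-- In a noetherian valuation ring `O` of `K`, every element of `K` has a multiple by a power of
a fixed nonzero nonunit `q` which lies in `O`. -/
theorem exists_pow_mul_mem (O : ValuationSubring K) [IsNoetherianRing O] (q : K) (hq0 : q ≠ 0)
    (hqO : q ∈ O.nonunits) (c : K) : ∃ m : ℕ, q ^ m * c ∈ O := by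
  by_contra hcon
  push Not at hcon
  have hc0 : c ≠ 0 := by
    rintro rfl
    exact hcon 0 (by rw [mul_zero]; exact O.zero_mem)
  have hinv : ∀ m : ℕ, (q ^ m * c)⁻¹ ∈ O := fun m => (O.mem_or_inv_mem _).resolve_left (hcon m)
  have hcO : c⁻¹ ∈ O := by simpa using hinv 0
  have hqO' : q ∈ O := ValuationSubring.nonunits_subset hqO
  have hq'm : (⟨q, hqO'⟩ : O) ∈ IsLocalRing.maximalIdeal O :=
    ValuationSubring.coe_mem_nonunits_iff.mp hqO
  have hmem : (⟨c⁻¹, hcO⟩ : O) ∈ ⨅ i : ℕ, (IsLocalRing.maximalIdeal O) ^ i := by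
    rw [Ideal.mem_iInf]
    intro m
    have h1 : (⟨c⁻¹, hcO⟩ : O) = (⟨q, hqO'⟩ : O) ^ m * ⟨(q ^ m * c)⁻¹, hinv m⟩ := by
      apply Subtype.ext
      show c⁻¹ = q ^ m * (q ^ m * c)⁻¹
      field_simp
    rw [h1]
    exact Ideal.mul_mem_right _ _ (Ideal.pow_mem_pow hq'm m)
  rw [Ideal.iInf_pow_eq_bot_of_isDomain (I := IsLocalRing.maximalIdeal O)
    (IsLocalRing.maximalIdeal.isMaximal O).ne_top, Ideal.mem_bot] at hmem
  exact inv_ne_zero hc0 (congrArg Subtype.val hmem)

/-! ### Scaling a monic equation -/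

omit [Field K] [Algebra K F] in
/-- A root of a monic polynomial of `F[X]` whose coefficients lie in the range of `f₀` is
integral with respect to `f₀`. -/
theorem isIntegralElem_of_monic {R₀ : Type*} [CommRing R₀] (f₀ : R₀ →+* F) {P : Polynomial F}
    (hP : P.Monic) (hc : ∀ i, P.coeff i ∈ Set.range f₀) {z : F} (hz : P.eval z = 0) :
    f₀.IsIntegralElem z := by
  have hlift : P ∈ Polynomial.lifts f₀ := (Polynomial.lifts_iff_coeff_lifts P).mpr hc
  obtain ⟨Q, hQmap, -, hQmonic⟩ := Polynomial.lifts_and_natDegree_eq_and_monic hlift hP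
  refine ⟨Q, hQmonic, ?_⟩
  rw [← Polynomial.eval_map, hQmap]
  exact hz

omit [Field K] [Algebra K F] in
/-- Scaling the roots: if `p ∈ F[X]` is monic with root `y` and `e * (coefficients of p)` lie in
the subring `T₀ ∋ e`, then `e * y` is a root of a monic polynomial with coefficients in `T₀`. -/
theorem exists_monic_scale (T₀ : Subring F) {p : Polynomial F} (hp : p.Monic) {y : F}
    (hy : p.eval y = 0) {e : F} (he : e ∈ T₀) (hcoef : ∀ i, e * p.coeff i ∈ T₀) :
    ∃ P : Polynomial F, P.Monic ∧ (∀ i, P.coeff i ∈ T₀) ∧ P.eval (e * y) = 0 := by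
  refine ⟨Polynomial.scaleRoots p e, (Polynomial.monic_scaleRoots_iff e).mpr hp, ?_, ?_⟩
  · intro i
    rw [Polynomial.coeff_scaleRoots]
    by_cases hi : i < p.natDegree
    · obtain ⟨k, hk⟩ : ∃ k, p.natDegree - i = k + 1 := ⟨p.natDegree - i - 1, by omega⟩
      rw [hk]
      have h1 : p.coeff i * e ^ (k + 1) = (e * p.coeff i) * e ^ k := by ring
      rw [h1]
      exact T₀.mul_mem (hcoef i) (T₀.pow_mem he k)
    · by_cases hi' : i = p.natDegree
      · subst hi'
        rw [Nat.sub_self, pow_zero, mul_one, Polynomial.coeff_natDegree, hp.leadingCoeff]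
        exact T₀.one_mem
      · rw [Polynomial.coeff_eq_zero_of_natDegree_lt (by omega), zero_mul]
        exact T₀.zero_mem
  · rw [Polynomial.scaleRoots_eval_mul, hy, mul_zero]

/-- Elements of `K[s₁]` have a `d`-power multiple in the subring `T₀ ∋ d`, as soon as the
generators and the constants do. -/
theorem exists_pow_mul_mem_of_adjoin (T₀ : Subring F) {d : F} (hd : d ∈ T₀) (s₁ : Set F)
    (hs : ∀ x ∈ s₁, ∃ k : ℕ, d ^ k * x ∈ T₀)
    (hK : ∀ c : K, ∃ k : ℕ, d ^ k * algebraMap K F c ∈ T₀) {a : F}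
    (ha : a ∈ Algebra.adjoin K s₁) : ∃ k : ℕ, ∀ k' : ℕ, k ≤ k' → d ^ k' * a ∈ T₀ := by
  have hmono : ∀ (x : F) (k : ℕ), d ^ k * x ∈ T₀ → ∀ k' : ℕ, k ≤ k' → d ^ k' * x ∈ T₀ := by
    intro x k hk k' hk'
    obtain ⟨l, rfl⟩ := Nat.exists_eq_add_of_le hk'
    have h2 : d ^ (k + l) * x = d ^ l * (d ^ k * x) := by ring
    rw [h2]
    exact T₀.mul_mem (T₀.pow_mem hd l) hk
  induction ha using Algebra.adjoin_induction with
  | mem x hx =>
    obtain ⟨k, hk⟩ := hs x hx
    exact ⟨k, hmono x k hk⟩
  | algebraMap c =>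
    obtain ⟨k, hk⟩ := hK c
    exact ⟨k, hmono _ k hk⟩
  | add x y _ _ hx hy =>
    obtain ⟨m1, h1⟩ := hx
    obtain ⟨m2, h2⟩ := hy
    refine ⟨max m1 m2, fun m' hm' => ?_⟩
    rw [mul_add]
    exact T₀.add_mem (h1 m' (le_trans (le_max_left _ _) hm'))
      (h2 m' (le_trans (le_max_right _ _) hm'))
  | mul x y _ _ hx hy =>
    obtain ⟨m1, h1⟩ := hx
    obtain ⟨m2, h2⟩ := hy
    refine ⟨m1 + m2, fun m' hm' => ?_⟩
    obtain ⟨k, rfl⟩ := Nat.exists_eq_add_of_le hm'
    have h3 : d ^ (m1 + m2 + k) * (x * y) = (d ^ m1 * x) * (d ^ (m2 + k) * y) := by ring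
    rw [h3]
    exact T₀.mul_mem (h1 m1 le_rfl) (h2 (m2 + k) (Nat.le_add_right _ _))

/-- An element integral over `K[s₁]` becomes, after multiplication by a power of `d`, a root of
a monic polynomial with coefficients in `T₀`. -/
theorem exists_pow_mul_monic (T₀ : Subring F) {d : F} (hd : d ∈ T₀) (s₁ : Set F)
    (hs : ∀ x ∈ s₁, ∃ k : ℕ, d ^ k * x ∈ T₀)
    (hK : ∀ c : K, ∃ k : ℕ, d ^ k * algebraMap K F c ∈ T₀) {y : F}
    (hy : IsIntegral (Algebra.adjoin K s₁) y) :
    ∃ (k : ℕ) (P : Polynomial F), P.Monic ∧ (∀ i, P.coeff i ∈ T₀) ∧ P.eval (d ^ k * y) = 0 := by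
  classical
  obtain ⟨p, hp, hpy⟩ := hy
  have hcoef : ∃ m : ℕ, ∀ i, d ^ m * (p.coeff i : F) ∈ T₀ := by
    choose M hM using fun i : ℕ => exists_pow_mul_mem_of_adjoin T₀ hd s₁ hs hK (p.coeff i).2
    refine ⟨(Finset.range (p.natDegree + 1)).sup M, fun i => ?_⟩
    by_cases hi : i ≤ p.natDegree
    · exact hM i _ (Finset.le_sup (Finset.mem_range.mpr (Nat.lt_succ_of_le hi)))
    · rw [Polynomial.coeff_eq_zero_of_natDegree_lt (not_le.mp hi)]
      simp
  obtain ⟨m, hm⟩ := hcoef
  refine ⟨m, ?_⟩
  refine exists_monic_scale T₀ (p := p.map (algebraMap (Algebra.adjoin K s₁) F)) (hp.map _) ?_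
    (T₀.pow_mem hd m) ?_
  · rw [Polynomial.eval_map]
    exact hpy
  · intro i
    rw [Polynomial.coeff_map]
    exact hm i

/-- **(M5)** Clearing the poles at the cusps: if `j * D` and `D` are polynomials in the
generators `s` (e.g. `s = {t}`, `j t⁴ (t + 16) = (t² + 256 t + 4096)³`), an element integral over
`K[j]` becomes integral over `K[s]` after multiplication by a power of `D`. -/
theorem exists_pow_mul_isIntegral_adjoin (s : Set F) {j D : F} (hD : D ∈ Algebra.adjoin K s)
    (hjD : j * D ∈ Algebra.adjoin K s) {y : F} (hy : IsIntegral (Algebra.adjoin K {j}) y) :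
    ∃ k : ℕ, IsIntegral (Algebra.adjoin K s) (D ^ k * y) := by
  obtain ⟨k, P, hP, hc, hz⟩ := exists_pow_mul_monic (K := K) (Algebra.adjoin K s).toSubring
    (d := D) hD {j} (fun x hx => ⟨1, by
      rw [Set.mem_singleton_iff] at hx
      rw [hx, pow_one, mul_comm]
      exact hjD⟩)
    (fun c => ⟨0, by
      rw [pow_zero, one_mul]
      exact Subalgebra.algebraMap_mem _ c⟩) hy
  exact ⟨k, isIntegralElem_of_monic (algebraMap (Algebra.adjoin K s) F) hP
    (fun i => ⟨⟨_, hc i⟩, rfl⟩) hz⟩

/-- **(M3)** Horizontal clearing of denominators: an element integral over `K[s]` becomes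
integral over `O[s]` after multiplication by a power of `q`. -/
theorem exists_pow_mul_mem_chartRing (O : ValuationSubring K) (q : K) (hqO : q ∈ O)
    (harch : ∀ c : K, ∃ m : ℕ, q ^ m * c ∈ O) (s : Set F) {y : F}
    (hy : IsIntegral (Algebra.adjoin K s) y) :
    ∃ m : ℕ, algebraMap K F q ^ m * y ∈ chartRing O s := by
  have hqA : algebraMap K F q ∈ (Algebra.adjoin O s).toSubring :=
    Subalgebra.algebraMap_mem (Algebra.adjoin O s) (⟨q, hqO⟩ : O)
  obtain ⟨k, P, hP, hc, hz⟩ := exists_pow_mul_monic (K := K) (Algebra.adjoin O s).toSubring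
    hqA s (fun x hx => ⟨0, by
      rw [pow_zero, one_mul]
      exact Algebra.subset_adjoin hx⟩)
    (fun c => by
      obtain ⟨m, hm⟩ := harch c
      refine ⟨m, ?_⟩
      have h3 : algebraMap K F q ^ m * algebraMap K F c = algebraMap O F ⟨q ^ m * c, hm⟩ := by
        show _ = algebraMap K F (q ^ m * c)
        rw [map_mul, map_pow]
      rw [h3]
      exact Subalgebra.algebraMap_mem (Algebra.adjoin O s) _) hy
  refine ⟨k, ?_⟩
  rw [mem_chartRing]
  exact isIntegralElem_of_monic (algebraMap (Algebra.adjoin O s) F) hP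
    (fun i => ⟨⟨_, hc i⟩, rfl⟩) hz

/-- A chart ring lies in every valuation ring of `F` containing `O` and the generators. -/
theorem mem_valuationSubring_of_mem_chartRing (O : ValuationSubring K) (s : Set F)
    (W : ValuationSubring F) (hO : ∀ a : K, a ∈ O → algebraMap K F a ∈ W)
    (hs : ∀ x ∈ s, x ∈ W) {y : F} (hy : y ∈ chartRing O s) : y ∈ W := by
  rw [mem_chartRing] at hy
  obtain ⟨Q, hQ, hQy⟩ := hy
  have hle : ∀ a ∈ Algebra.adjoin O s, a ∈ W := by
    intro a ha
    induction ha using Algebra.adjoin_induction with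
    | mem x hx => exact hs x hx
    | algebraMap c => exact hO (c : K) c.2
    | add x y _ _ hx hy => exact W.add_mem _ _ hx hy
    | mul x y _ _ hx hy => exact W.mul_mem _ _ hx hy
  have hint : IsIntegral W y := by
    refine isIntegralElem_of_monic (algebraMap W F)
      (P := Q.map (algebraMap (Algebra.adjoin O s) F)) (hQ.map _) ?_ ?_
    · intro i
      rw [Polynomial.coeff_map]
      exact ⟨⟨_, hle _ (Q.coeff i).2⟩, rfl⟩
    · rw [Polynomial.eval_map]
      exact hQy
  obtain ⟨w, hw⟩ := IsIntegrallyClosed.isIntegral_iff.mp hint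
  rw [← hw]
  exact w.2

/-- **(M4)** The membership criterion for a chart ring `B = chartRing O s` (integral closure of
`O[s]` in `F`; `B` noetherian, integrally closed, with fraction field `F`), under the `rad`
hypothesis of `helper36.KillData`: an element `y ∈ F` which is integral over `K[s]` (regular on
the generic fibre of the chart) and lies in every vertical valuation ring `V c` lies in `B`. -/
theorem mem_chartRing_of_integral_of_rad (O : ValuationSubring K) [IsNoetherianRing O] (q : ℕ)
    (hq0 : (q : K) ≠ 0) (hqO : (q : K) ∈ O.nonunits) (s : Set F)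
    [IsNoetherianRing (chartRing O s)] [IsIntegrallyClosed (chartRing O s)]
    [IsFractionRing (chartRing O s) F] {ι : Type*} [Finite ι] (V : ι → ValuationSubring F)
    (hBV : ∀ c, ∀ b ∈ chartRing O s, b ∈ V c) (hqV : ∀ c, (q : F) ∈ (V c).nonunits)
    (hrad : ∀ y ∈ chartRing O s, (∀ c, y ∈ (V c).nonunits) → NilMod (chartRing O s) (q : F) y)
    {y : F} (hy : IsIntegral (Algebra.adjoin K s) y) (hV : ∀ c, y ∈ V c) :
    y ∈ chartRing O s := by
  have hqO' : (q : K) ∈ O := ValuationSubring.nonunits_subset hqO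
  obtain ⟨m, hm⟩ := exists_pow_mul_mem_chartRing O (q : K) hqO'
    (exists_pow_mul_mem O _ hq0 hqO) s hy
  rw [map_natCast] at hm
  have hqF : (q : F) ≠ 0 := by
    rw [← map_natCast (algebraMap K F)]
    exact (map_ne_zero _).mpr hq0
  have hqB : (q : F) ∈ chartRing O s := natCast_mem _ q
  exact mem_of_rad (chartRing O s) (q : F) hqB hqF V hBV hqV hrad y m hm hV

/-- **(M6)** The chart criterion with poles at the cusps cleared: `y` integral over `K[j]`
(regular off the cusps), `j * D, D ∈ K[s]`, `D` and `y` in every `V c`.  Then `D ^ k * y` lies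
in the chart ring `chartRing O s` for some `k`. -/
theorem exists_pow_mul_mem_chartRing_of_integral_of_rad (O : ValuationSubring K)
    [IsNoetherianRing O] (q : ℕ) (hq0 : (q : K) ≠ 0) (hqO : (q : K) ∈ O.nonunits) (s : Set F)
    [IsNoetherianRing (chartRing O s)] [IsIntegrallyClosed (chartRing O s)]
    [IsFractionRing (chartRing O s) F] {ι : Type*} [Finite ι] (V : ι → ValuationSubring F)
    (hBV : ∀ c, ∀ b ∈ chartRing O s, b ∈ V c) (hqV : ∀ c, (q : F) ∈ (V c).nonunits)
    (hrad : ∀ y ∈ chartRing O s, (∀ c, y ∈ (V c).nonunits) → NilMod (chartRing O s) (q : F) y)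
    {j D : F} (hD : D ∈ Algebra.adjoin K s) (hjD : j * D ∈ Algebra.adjoin K s)
    (hDV : ∀ c, D ∈ V c) {y : F} (hy : IsIntegral (Algebra.adjoin K {j}) y)
    (hV : ∀ c, y ∈ V c) : ∃ k : ℕ, D ^ k * y ∈ chartRing O s := by
  obtain ⟨k, hk⟩ := exists_pow_mul_isIntegral_adjoin (K := K) s hD hjD hy
  exact ⟨k, mem_chartRing_of_integral_of_rad O q hq0 hqO s V hBV hqV hrad hk
    (fun c => (V c).mul_mem _ _ (pow_mem (hDV c) k) (hV c))⟩

end Clear

end Fermat.Agent.S36.helper105
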