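import Mathlib
import Fermat.Agent.S24.helper315_CuspExp
import Fermat.Agent.S28.helper407_EtaAsymp
import Fermat.Agent.S28.helper1594_EtaCusp
import Fermat.Agent.S18.helper4181_FormsToFF
import Fermat.Agent.S18.helper208_CertL

/-!
# S36-F2-THETAUNIT, generic half (helper105): roots of discriminant quotients

Let `s : ℍ → ℂ` be a `Γ₀(N)`-invariant function with `s ^ k = etaQuot N r` (a weight `0` quotient
of the functions `Δ(δτ)`, `δ ∣ N`) and with a convergent integer `q`-series `W`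
(`s τ = G(q)`, `G` holomorphic on the unit disc with Taylor series `W`).  Then

* `s · Δ^M` is a modular form of weight `12 M` on `Γ₀(N)` for every `M ≥ ∑ |r δ| δ`
  (`isMF_mul_disc_pow`);
* the series `W` lies in `modularFunctionFieldFull N` (`etaRoot_mem_full`);
* `W` is integral over `ℚ[j]` (`etaRoot_isIntegral`).
-/

set_option autoImplicit false

open Complex Function Filter
open UpperHalfPlane hiding I
open ModularForm CongruenceSubgroup ModularCurve
open scoped Real MatrixGroups Manifold Topology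

namespace Fermat.Agent.S36.helper105

open Fermat.Agent.S28.helper407 (etaQuot cuspExp)
open Fermat.Agent.S28.helper1594 (PSConv)
open Fermat.Agent.S28.helper1448 (G0 IsMF)
open Fermat.Agent.S20 (helper1040.isMF_iff)

local notation "𝕢" => Periodic.qParam
local notation "Δ" => ModularForm.discriminant

noncomputable section

/-! ### Moderate growth -/

/-- Uniform bound for the exponents at the cusps. -/
theorem neg_cuspExp_le (N : ℕ) (r : ℕ → ℤ) (c : ℕ) :
    -(cuspExp N r c) ≤ ((∑ δ ∈ N.divisors, (r δ).natAbs * δ : ℕ) : ℚ) := by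
  unfold Fermat.Agent.S28.helper407.cuspExp
  rw [← Finset.sum_neg_distrib]
  push_cast
  refine Finset.sum_le_sum fun δ hδ => ?_
  have hδ0 : 0 < δ := Nat.pos_of_mem_divisors hδ
  have hδQ : (0 : ℚ) < (δ : ℚ) := by exact_mod_cast hδ0
  have hg : ((Nat.gcd δ c : ℕ) : ℚ) ≤ (δ : ℚ) := by exact_mod_cast Nat.gcd_le_left c hδ0
  have hg0 : (0 : ℚ) ≤ ((Nat.gcd δ c : ℕ) : ℚ) := by positivity
  have h1 : ((Nat.gcd δ c : ℕ) : ℚ) ^ 2 / (δ : ℚ) ≤ (δ : ℚ) := by
    rw [div_le_iff₀ hδQ]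
    nlinarith
  have h2 : (0 : ℚ) ≤ ((Nat.gcd δ c : ℕ) : ℚ) ^ 2 / (δ : ℚ) := by positivity
  have h3 : -(r δ : ℚ) ≤ ((r δ).natAbs : ℚ) := by
    rw [Nat.cast_natAbs, Int.cast_abs]
    exact neg_le_abs _
  have h4 : (0 : ℚ) ≤ ((r δ).natAbs : ℚ) := by positivity
  calc -((r δ : ℚ) * ((Nat.gcd δ c : ℕ) : ℚ) ^ 2 / (δ : ℚ))
      = (-(r δ : ℚ)) * (((Nat.gcd δ c : ℕ) : ℚ) ^ 2 / (δ : ℚ)) := by ring
    _ ≤ ((r δ).natAbs : ℚ) * (((Nat.gcd δ c : ℕ) : ℚ) ^ 2 / (δ : ℚ)) :=
        mul_le_mul_of_nonneg_right h3 h2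
    _ ≤ ((r δ).natAbs : ℚ) * (δ : ℚ) := mul_le_mul_of_nonneg_left h1 h4

/-- Boundedness at `i∞` passes to roots. -/
theorem isBoundedAtImInfty_of_pow_eq {f g : ℍ → ℂ} {k : ℕ} (hk : k ≠ 0)
    (hfg : ∀ τ, f τ ^ k = g τ) (hg : IsBoundedAtImInfty g) : IsBoundedAtImInfty f := by
  rw [UpperHalfPlane.isBoundedAtImInfty_iff] at hg ⊢
  obtain ⟨C, A, h⟩ := hg
  refine ⟨max 1 C, A, fun z hz => ?_⟩
  have h1 := h z hz
  rw [← hfg, norm_pow] at h1
  by_contra hcon
  have hcon' := not_le.mp hcon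
  have h2 : 1 < ‖f z‖ := lt_of_le_of_lt (le_max_left _ _) hcon'
  have h3 : ‖f z‖ ≤ ‖f z‖ ^ k := le_self_pow₀ h2.le hk
  linarith [le_max_right 1 C]

theorem isBoundedAtImInfty_pow' {f : ℍ → ℂ} (hf : IsBoundedAtImInfty f) (n : ℕ) :
    IsBoundedAtImInfty (fun τ => f τ ^ n) := by
  induction n with
  | zero =>
    simp only [pow_zero]
    exact Filter.const_boundedAtFilter _ (1 : ℂ)
  | succ n ih =>
    have := ih.mul hf
    refine this.congr_left fun τ => ?_
    simp only [Pi.mul_apply, pow_succ]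

theorem mdiff_discriminant : MDiff (Δ : ℍ → ℂ) :=
  Fermat.Agent.S18.helper208.isNice_discriminant.hol

theorem isBoundedAtImInfty_discriminant : IsBoundedAtImInfty (Δ : ℍ → ℂ) :=
  Fermat.Agent.S18.helper208.isNice_discriminant.bdd

/-- Slash of `s · Δ^M` by an element of `SL(2, ℤ)`. -/
theorem slash_mul_disc_pow (s : ℍ → ℂ) (M : ℕ) (g : SL(2, ℤ)) (τ : ℍ) :
    ((fun τ => s τ * Δ τ ^ M) ∣[(12 * (M : ℤ))] g) τ = s (g • τ) * Δ τ ^ M := by
  have hne := Fermat.Agent.S28.helper407.denom_SL2Z_ne_zero g τ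
  rw [ModularForm.SL_slash_apply, ModularGroup.denom_apply,
    Fermat.Agent.S28.helper407.discriminant_smul, mul_pow, ← pow_mul]
  have h1 : (((g 1 0 : ℂ) * (τ : ℂ) + (g 1 1 : ℂ)) ^ (12 * M)) *
      ((g 1 0 : ℂ) * (τ : ℂ) + (g 1 1 : ℂ)) ^ (-(12 * (M : ℤ))) = 1 := by
    rw [← zpow_natCast, ← zpow_add₀ hne]
    simp
  calc s (g • τ) * (((g 1 0 : ℂ) * (τ : ℂ) + (g 1 1 : ℂ)) ^ (12 * M) * Δ τ ^ M) *
        ((g 1 0 : ℂ) * (τ : ℂ) + (g 1 1 : ℂ)) ^ (-(12 * (M : ℤ)))
      = s (g • τ) * Δ τ ^ M * ((((g 1 0 : ℂ) * (τ : ℂ) + (g 1 1 : ℂ)) ^ (12 * M)) *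
          ((g 1 0 : ℂ) * (τ : ℂ) + (g 1 1 : ℂ)) ^ (-(12 * (M : ℤ)))) := by ring
    _ = s (g • τ) * Δ τ ^ M := by rw [h1, mul_one]

/-- **Roots of discriminant quotients are modular after multiplication by a power of `Δ`.** -/
theorem isMF_mul_disc_pow (N : ℕ) [NeZero N] {s : ℍ → ℂ} (hol : MDiff s)
    (hinv : ∀ γ ∈ Gamma0 N, ∀ τ : ℍ, s (γ • τ) = s τ) {k : ℕ} (hk : k ≠ 0) (r : ℕ → ℤ)
    (hr : ∑ δ ∈ N.divisors, r δ = 0) (hsk : ∀ τ, s τ ^ k = etaQuot N r τ) (M : ℕ)
    (hM : ∑ δ ∈ N.divisors, (r δ).natAbs * δ ≤ M) :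
    IsMF N (12 * (M : ℤ)) (fun τ => s τ * Δ τ ^ M) := by
  have h : Fermat.Agent.S20.helper1040.IsMF (Gamma0 N) (12 * (M : ℤ)) (fun τ => s τ * Δ τ ^ M) := by
    refine ⟨hol.mul (mdiff_discriminant.pow M), fun γ hγ => ?_, fun g => ?_⟩
    · funext τ
      rw [slash_mul_disc_pow, hinv γ hγ]
    · have hfun : ((fun τ => s τ * Δ τ ^ M) ∣[(12 * (M : ℤ))] g)
          = fun τ => s (g • τ) * Δ τ ^ M := funext fun τ => slash_mul_disc_pow s M g τ
      rw [hfun]
      have hm : -(cuspExp N r (g 1 0).natAbs) ≤ (M : ℚ) :=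
        (neg_cuspExp_le N r _).trans (by exact_mod_cast hM)
      have hb1 := Fermat.Agent.S28.helper407.isBoundedAtImInfty_discriminant_pow_mul_etaQuot_smul
        N r hr g M hm
      have hb2 := isBoundedAtImInfty_pow' isBoundedAtImInfty_discriminant (M * (k - 1))
      refine isBoundedAtImInfty_of_pow_eq hk (g := fun τ => (Δ τ ^ M * etaQuot N r (g • τ)) *
        Δ τ ^ (M * (k - 1))) (fun τ => ?_) (hb1.mul hb2)
      have hkk : M * k = M + M * (k - 1) := by
        obtain ⟨k', rfl⟩ := Nat.exists_eq_succ_of_ne_zero hk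
        simp [Nat.mul_succ, Nat.add_comm]
      rw [mul_pow, hsk, ← pow_mul, hkk, pow_add]
      ring
  exact Fermat.Agent.S20.helper1040.isMF_iff.mp h

/-! ### Functions given by a convergent power series in `q` -/

theorem qParam_one_add (z : ℂ) : 𝕢 1 (1 + z) = 𝕢 1 z := by
  rw [Periodic.qParam, Periodic.qParam]
  have : 2 * (π : ℂ) * I * (1 + z) / ((1 : ℝ) : ℂ) = 2 * π * I * z / ((1 : ℝ) : ℂ) + 2 * π * I := by
    push_cast
    ring
  rw [this, Complex.exp_add, Complex.exp_two_pi_mul_I, mul_one]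

/-- A function `s τ = G(q)` with `G` holomorphic on the unit disc is holomorphic at the cusp, and
its `q`-expansion is the Taylor series of `G`. -/
theorem isCuspHol_of_psConv {G : ℂ → ℂ} {H : PowerSeries ℂ} (hG : PSConv G H) {s : ℍ → ℂ}
    (hs : ∀ τ : ℍ, s τ = G (𝕢 1 (τ : ℂ))) :
    Fermat.Agent.S24.helper315.IsCuspHol 1 s ∧ qExpansion 1 s = H := by
  have hsum : ∀ τ : ℍ, HasSum (fun m : ℕ => PowerSeries.coeff m H *
      Fermat.Agent.S24.helper315.qH 1 τ ^ m) (s τ) := by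
    intro τ
    rw [hs τ]
    exact hG.hasSum (Function.Periodic.norm_qParam_lt_one one_pos τ.im_pos)
  have hmd : MDiff s := by
    rw [UpperHalfPlane.mdifferentiable_iff]
    intro z hz
    have hz' : 0 < z.im := hz
    have hev : (s ∘ ofComplex) =ᶠ[𝓝 z] (fun w => G (𝕢 1 w)) := by
      filter_upwards [isOpen_upperHalfPlaneSet.mem_nhds hz] with x hx
      simp only [comp_apply, ofComplex_apply_of_im_pos hx]
      exact hs _
    have hd : DifferentiableAt ℂ (fun w => G (𝕢 1 w)) z := by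
      have h1 : DifferentiableAt ℂ G (𝕢 1 z) :=
        hG.1.differentiableAt (Metric.isOpen_ball.mem_nhds (by
          simpa using Function.Periodic.norm_qParam_lt_one one_pos hz'))
      exact h1.comp z (Periodic.differentiable_qParam z)
    exact (hd.congr_of_eventuallyEq hev).differentiableWithinAt
  have hper : Fermat.Agent.S24.helper315.HPeriodic 1 s := by
    intro τ
    rw [hs, hs, UpperHalfPlane.coe_vadd]
    push_cast
    rw [qParam_one_add]
  have hc := Fermat.Agent.S24.helper315.isCuspHol_of_hasSum one_pos hmd hper hsum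
  refine ⟨hc, ?_⟩
  rw [Fermat.Agent.S24.helper315.qExpansion_eq_mk_of_hasSum one_pos hc hsum]
  ext m
  rw [PowerSeries.coeff_mk]

theorem analyticAt_of_isCuspHol {s : ℍ → ℂ} (h : Fermat.Agent.S24.helper315.IsCuspHol 1 s) :
    AnalyticAt ℂ (cuspFunction 1 s) 0 := h.analyticAt one_pos

theorem qExpansion_mul_disc_pow {s : ℍ → ℂ} (h : Fermat.Agent.S24.helper315.IsCuspHol 1 s)
    (M : ℕ) :
    qExpansion 1 (fun τ => s τ * Δ τ ^ M) = qExpansion 1 s * qExpansion 1 Δ ^ M := by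
  have hΔ := Fermat.Agent.S18.helper208.isNice_discriminant
  have hΔM : Fermat.Agent.Lib.helper1219.IsNice ((Δ : ℍ → ℂ) ^ M) :=
    Fermat.Agent.S18.helper208.isNice_pow hΔ M
  have e : (fun τ => s τ * Δ τ ^ M) = s * (Δ : ℍ → ℂ) ^ M := rfl
  rw [e, UpperHalfPlane.qExpansion_mul (analyticAt_of_isCuspHol h) hΔM.analyticAt]
  congr 1
  have h2 := Fermat.Agent.S18.helper208.ser_pow hΔ M
  unfold Fermat.Agent.S18.helper208.ser at h2
  rw [← map_pow] at h2
  exact HahnSeries.ofPowerSeries_injective h2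

/-! ### The integer discriminant series -/

/-- The formal discriminant `X ∏ (1 - X^n)^24` with integer coefficients. -/
def discZ : PowerSeries ℤ := PowerSeries.X * ModularCurve.etaProd ^ 24

theorem qExpansion_discriminant_discZ :
    qExpansion 1 Δ = discZ.map (Int.castRingHom ℂ) := by
  rw [Fermat.Agent.Lib.helper1219.qExpansion_disc_eq, discZ, map_mul, map_pow, PowerSeries.map_X]

theorem map_map_intCast (P : PowerSeries ℤ) :
    (P.map (Int.castRingHom ℚ)).map (algebraMap ℚ ℂ) = P.map (Int.castRingHom ℂ) := by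
  ext n
  simp

theorem map_discZ_ne_zero : discZ.map (Int.castRingHom ℚ) ≠ 0 := by
  intro h
  have h1 := congrArg (PowerSeries.coeff 1) h
  rw [PowerSeries.coeff_map, discZ, map_zero] at h1
  have h2 : PowerSeries.coeff 1 (PowerSeries.X * ModularCurve.etaProd ^ 24) = (1 : ℤ) := by
    have := PowerSeries.coeff_succ_X_mul 0 (ModularCurve.etaProd ^ 24)
    rw [zero_add] at this
    rw [this, PowerSeries.coeff_zero_eq_constantCoeff_apply, map_pow,
      ModularCurve.constantCoeff_etaProd, one_pow]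
  rw [h2] at h1
  norm_num at h1

/-- An integer power series as a rational Laurent series. -/
abbrev ofZQ (W : PowerSeries ℤ) : LaurentSeries ℚ :=
  HahnSeries.ofPowerSeries ℤ ℚ (W.map (Int.castRingHom ℚ))

/-! ### The generic theorem -/

section Generic

variable (N : ℕ) [NeZero N] {s : ℍ → ℂ} (hinv : ∀ γ ∈ Gamma0 N, ∀ τ : ℍ, s (γ • τ) = s τ)
  {k : ℕ} (hk : k ≠ 0) (r : ℕ → ℤ) (hr : ∑ δ ∈ N.divisors, r δ = 0)
  (hsk : ∀ τ, s τ ^ k = etaQuot N r τ) {G : ℂ → ℂ} (W : PowerSeries ℤ)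
  (hG : PSConv G (W.map (Int.castRingHom ℂ))) (hs : ∀ τ : ℍ, s τ = G (𝕢 1 (τ : ℂ)))

include hinv hk hr hsk hG hs

/-- The modular form `s · Δ^M` and its `q`-expansion. -/
theorem etaRoot_form :
    ∃ M : ℕ, IsMF N (12 * (M : ℤ)) (fun τ => s τ * Δ τ ^ M) ∧
      qExpansion 1 (fun τ => s τ * Δ τ ^ M) = (W * discZ ^ M).map (Int.castRingHom ℂ) := by
  obtain ⟨hc, hq⟩ := isCuspHol_of_psConv hG hs
  refine ⟨∑ δ ∈ N.divisors, (r δ).natAbs * δ,
    isMF_mul_disc_pow N hc.mdiff hinv hk r hr hsk _ le_rfl, ?_⟩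
  rw [qExpansion_mul_disc_pow hc, hq, qExpansion_discriminant_discZ, map_mul, map_pow]

/-- **Membership**: the integer `q`-series of `s` lies in the function field of level `N`. -/
theorem etaRoot_mem_full : ofZQ W ∈ modularFunctionFieldFull N := by
  obtain ⟨M, hF, hFq⟩ := etaRoot_form N hinv hk r hr hsk W hG hs
  have hH : IsMF N (12 * (M : ℤ)) ((Δ : ℍ → ℂ) ^ M) :=
    ((Fermat.Agent.S28.helper1448.isMF_discriminant N).pow M).cast (by ring)
  have hHq : qExpansion 1 ((Δ : ℍ → ℂ) ^ M) = (discZ ^ M).map (Int.castRingHom ℂ) := by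
    rw [(Fermat.Agent.S28.helper1448.isMF_discriminant N).qExpansion_pow,
      qExpansion_discriminant_discZ, map_pow]
  have hG₂ : (discZ ^ M).map (Int.castRingHom ℚ) ≠ 0 := by
    rw [map_pow]
    exact pow_ne_zero _ map_discZ_ne_zero
  have key := Fermat.Agent.S18.helper4181.isMF_ratio_mem_full N hF hH
    ((W * discZ ^ M).map (Int.castRingHom ℚ)) ((discZ ^ M).map (Int.castRingHom ℚ))
    (by rw [hFq, map_map_intCast]) (by rw [hHq, map_map_intCast]) hG₂
  have hne : (HahnSeries.ofPowerSeries ℤ ℚ) ((discZ ^ M).map (Int.castRingHom ℚ)) ≠ 0 := by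
    intro h
    exact hG₂ (HahnSeries.ofPowerSeries_injective (by rw [h, map_zero]))
  have e : Fermat.Agent.S18.helper4181.ιQ ((W * discZ ^ M).map (Int.castRingHom ℚ)) /
      Fermat.Agent.S18.helper4181.ιQ ((discZ ^ M).map (Int.castRingHom ℚ)) = ofZQ W := by
    show (HahnSeries.ofPowerSeries ℤ ℚ) ((W * discZ ^ M).map (Int.castRingHom ℚ)) /
      (HahnSeries.ofPowerSeries ℤ ℚ) ((discZ ^ M).map (Int.castRingHom ℚ)) = _
    rw [map_mul, map_mul, mul_div_assoc, div_self hne, mul_one]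
  rw [← e]
  exact key

/-- **Integrality**: the integer `q`-series of `s` is integral over `ℚ[j]`. -/
theorem etaRoot_isIntegral : IsIntegral (Algebra.adjoin ℚ {jq}) (ofZQ W) := by
  obtain ⟨M, hF, hFq⟩ := etaRoot_form N hinv hk r hr hsk W hG hs
  have hx : HahnSeries.ofPowerSeries ℤ ℂ (W.map (Int.castRingHom ℂ)) *
      HahnSeries.ofPowerSeries ℤ ℂ (qExpansion 1 Δ) ^ M
      = HahnSeries.ofPowerSeries ℤ ℂ (qExpansion 1 (fun τ => s τ * Δ τ ^ M)) := by
    rw [hFq, qExpansion_discriminant_discZ, map_mul, map_pow, map_mul, map_pow]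
  have h1 := Fermat.Agent.S18.helper208.isIntegral_adjoin_J_of_div_disc N M hF (jqModC ℂ)
    (HahnSeries.ofPowerSeries ℤ ℂ (W.map (Int.castRingHom ℂ)))
    Fermat.Agent.Lib.helper1219.jqModC_mul_disc hx
  refine Fermat.Agent.S18.helper208.isIntegral_adjoin_of_coeffMap (algebraMap ℚ ℂ) jq (ofZQ W) ?_
  have e1 : coeffMap (algebraMap ℚ ℂ) jq = jqModC ℂ := Fermat.Agent.S28.helper1448.toC_jq
  have e2 : coeffMap (algebraMap ℚ ℂ) (ofZQ W)
      = HahnSeries.ofPowerSeries ℤ ℂ (W.map (Int.castRingHom ℂ)) := by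
    rw [ofZQ, ModularCurve.coeffMap_ofPowerSeries, map_map_intCast]
  rw [e1, e2]
  exact h1

/-- **The inverse**: if `W * W' = 1` then the same holds for `W'` (the series of `1 / s`). -/
theorem etaRoot_inv (W' : PowerSeries ℤ) (hWW' : W * W' = 1) :
    ofZQ W' ∈ modularFunctionFieldFull N ∧ IsIntegral (Algebra.adjoin ℚ {jq}) (ofZQ W') := by
  have hs0 : ∀ τ : ℍ, s τ ≠ 0 := by
    intro τ h0
    have h1 := hsk τ
    rw [h0, zero_pow hk] at h1
    exact Fermat.Agent.S28.helper407.etaQuot_ne_zero N r τ h1.symm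
  have hcW : PowerSeries.constantCoeff (W.map (Int.castRingHom ℂ)) ≠ 0 := by
    have h1 := congrArg PowerSeries.constantCoeff hWW'
    rw [map_mul, map_one] at h1
    rw [← PowerSeries.coeff_zero_eq_constantCoeff_apply, PowerSeries.coeff_map,
      PowerSeries.coeff_zero_eq_constantCoeff_apply]
    intro h0
    rw [eq_intCast] at h0
    have h2 : PowerSeries.constantCoeff W = 0 := by exact_mod_cast h0
    rw [h2, zero_mul] at h1
    exact zero_ne_one h1
  have hne : ∀ z : ℂ, ‖z‖ < 1 → G z ≠ 0 := by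
    intro z hz
    by_cases hz0 : z = 0
    · rw [hz0, ← hG.constantCoeff]
      exact hcW
    · have him : 0 < (Periodic.invQParam 1 z).im := by
        rw [Periodic.im_invQParam]
        have hlog : Real.log ‖z‖ < 0 := Real.log_neg (norm_pos_iff.mpr hz0) hz
        have hpi := Real.pi_pos
        have : (-1 : ℝ) / (2 * π) < 0 := by
          apply div_neg_of_neg_of_pos <;> linarith
        exact mul_pos_of_neg_of_neg this hlog
      have hq := Periodic.qParam_right_inv (h := 1) one_ne_zero hz0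
      have h1 := hs ⟨Periodic.invQParam 1 z, him⟩
      rw [UpperHalfPlane.coe_mk, hq] at h1
      rw [← h1]
      exact hs0 _
  have hW' : (W.map (Int.castRingHom ℂ))⁻¹ = W'.map (Int.castRingHom ℂ) := by
    refine (PowerSeries.inv_eq_iff_mul_eq_one hcW).mpr ?_
    rw [← map_mul, mul_comm, hWW', map_one]
  have hG' : PSConv G⁻¹ (W'.map (Int.castRingHom ℂ)) := by
    rw [← hW']
    exact hG.inv hne
  have hinv' : ∀ γ ∈ Gamma0 N, ∀ τ : ℍ, (fun τ => (s τ)⁻¹) (γ • τ) = (fun τ => (s τ)⁻¹) τ :=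
    fun γ hγ τ => by simp only [hinv γ hγ τ]
  have hr' : ∑ δ ∈ N.divisors, (fun δ => -r δ) δ = 0 := by
    rw [Finset.sum_neg_distrib, hr, neg_zero]
  have hsk' : ∀ τ, (fun τ => (s τ)⁻¹) τ ^ k = etaQuot N (fun δ => -r δ) τ := by
    intro τ
    rw [Fermat.Agent.S28.helper407.etaQuot_neg, ← hsk τ, inv_pow]
  have hs' : ∀ τ : ℍ, (fun τ => (s τ)⁻¹) τ = G⁻¹ (𝕢 1 (τ : ℂ)) := by
    intro τ
    simp only [Pi.inv_apply, hs τ]
  exact ⟨etaRoot_mem_full N hinv' hk _ hr' hsk' W' hG' hs',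
    etaRoot_isIntegral N hinv' hk _ hr' hsk' W' hG' hs'⟩

end Generic

/-! ### Exponent functions supported at one divisor -/

open Fermat.Agent.S28.helper407 (pt)

/-- The exponent function with value `m` at `d` and `0` elsewhere. -/
def rSingle (d : ℕ) (m : ℤ) : ℕ → ℤ := fun δ => if δ = d then m else 0

theorem etaQuot_add (N : ℕ) (r₁ r₂ : ℕ → ℤ) (τ : ℍ) :
    etaQuot N (fun δ => r₁ δ + r₂ δ) τ = etaQuot N r₁ τ * etaQuot N r₂ τ := by
  unfold Fermat.Agent.S28.helper407.etaQuot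
  rw [← Finset.prod_mul_distrib]
  exact Finset.prod_congr rfl fun δ _ => zpow_add₀ (ModularForm.discriminant_ne_zero _) _ _

theorem etaQuot_rSingle {N d : ℕ} (hd : d ∈ N.divisors) (m : ℤ) (τ : ℍ) :
    etaQuot N (rSingle d m) τ = Δ (pt d 0 1 τ) ^ m := by
  unfold Fermat.Agent.S28.helper407.etaQuot
  rw [Finset.prod_eq_single d]
  · simp [rSingle]
  · intro δ _ hδ
    simp [rSingle, hδ]
  · intro h
    exact absurd hd h

theorem sum_rSingle {N d : ℕ} (hd : d ∈ N.divisors) (m : ℤ) :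
    ∑ δ ∈ N.divisors, rSingle d m δ = m := by
  unfold rSingle
  rw [Finset.sum_ite_eq' N.divisors d (fun _ => m), if_pos hd]

/-! ### Forms over `ℚ̄` -/

/-- Base change to `ℚ̄`: membership in `modularFunctionFieldBar N`. -/
theorem coeffEmb_ofZQ_mem_bar {N : ℕ} {W : PowerSeries ℤ}
    (h : ofZQ W ∈ modularFunctionFieldFull N) :
    coeffEmb (AlgebraicClosure ℚ) (ofZQ W) ∈ modularFunctionFieldBar N :=
  coeffEmb_mem_laurentBaseChange _ h

/-- Base change to `ℚ̄`: integrality over `ℚ̄[j]`. -/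
theorem coeffEmb_ofZQ_isIntegral {W : PowerSeries ℤ}
    (h : IsIntegral (Algebra.adjoin ℚ {jq}) (ofZQ W)) :
    IsIntegral (Algebra.adjoin (AlgebraicClosure ℚ) {coeffEmb (AlgebraicClosure ℚ) jq})
      (coeffEmb (AlgebraicClosure ℚ) (ofZQ W)) :=
  Fermat.Agent.S18.helper208.isIntegral_adjoin_coeffMap (algebraMap ℚ (AlgebraicClosure ℚ)) jq
    (ofZQ W) h

end

end Fermat.Agent.S36.helper105
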