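import Mathlib
import Fermat.Agent.S28.helper1594_EtaCusp

/-!
# S36-F2-THETAUNIT, analytic core (helper105)

`ThetaC z = η(2z)^10 / (η(z)^4 η(4z)^4)` (the square of the theta series `∑ q^(n^2)`): a zero-free
holomorphic function on the upper half plane with

  `ThetaC ((a z + b) / (c z + d)) = χ₋₄(d) (c z + d) ThetaC z`   for `a d - b c = 1`, `4 ∣ c`.

Everything is stated for complex variables and integer tuples.
-/

set_option autoImplicit false

open Complex Function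
open UpperHalfPlane hiding I
open scoped Real MatrixGroups

namespace Fermat.Agent.S36.helper105

open Fermat.Agent.S28.helper1594 (eulerFun eulerFun_ne_zero differentiableOn_eulerFun)

local notation "𝕢" => Periodic.qParam
local notation "η" => ModularForm.eta

noncomputable section

/-! ### Integer arithmetic for the descent -/

theorem exists_small (x c : ℤ) (hc : c ≠ 0) : ∃ k : ℤ, 2 * (x + k * c).natAbs ≤ c.natAbs := by
  have key : ∀ n : ℤ, 0 < n → ∃ k : ℤ, 2 * (x + k * n).natAbs ≤ n.natAbs := by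
    intro n hn
    have h1 := Int.emod_nonneg x hn.ne'
    have h2 := Int.emod_lt_of_pos x hn
    have h3 := Int.emod_add_mul_ediv x n
    by_cases h : 2 * (x % n) ≤ n
    · refine ⟨-(x / n), ?_⟩
      have : x + -(x / n) * n = x % n := by linarith
      rw [this]; omega
    · refine ⟨-(x / n) - 1, ?_⟩
      have : x + (-(x / n) - 1) * n = x % n - n := by linarith
      rw [this]; omega
  rcases lt_or_gt_of_ne hc with h | h
  · obtain ⟨k, hk⟩ := key (-c) (by omega)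
    refine ⟨-k, ?_⟩
    have : x + -k * c = x + k * -c := by ring
    rw [this]
    simpa using hk
  · exact key c h

/-! ### Möbius transformations with integer entries -/

theorem mobius_aux (a b c d : ℤ) (h : a * d - b * c = 1) {z : ℂ} (hz : 0 < z.im) :
    ((c : ℂ) * z + d) ≠ 0 ∧ 0 < (((a : ℂ) * z + b) / ((c : ℂ) * z + d)).im := by
  let g : SL(2, ℤ) := ⟨!![a, b; c, d], by rw [Matrix.det_fin_two_of]; exact h⟩
  let τ : ℍ := ⟨z, hz⟩
  have h1 := Fermat.Agent.S28.helper407.denom_SL2Z_ne_zero g τ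
  have h2 := Fermat.Agent.S28.helper407.coe_smul_SL2Z g τ
  have h3 := (g • τ).im_pos
  have e00 : g 0 0 = a := rfl
  have e01 : g 0 1 = b := rfl
  have e10 : g 1 0 = c := rfl
  have e11 : g 1 1 = d := rfl
  rw [e10, e11] at h1
  rw [e00, e01, e10, e11] at h2
  refine ⟨h1, ?_⟩
  have h4 : (g • τ).im = (((a : ℂ) * z + b) / ((c : ℂ) * z + d)).im := by
    rw [← UpperHalfPlane.coe_im, h2]
  rw [← h4]
  exact h3

theorem mobius_alg (a b m z D : ℂ) (hD : D ≠ 0) (h : D = 1 - 4 * m * z) :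
    (a + 4 * m * b) * (z / D) + b = (a * z + b) / D := by
  rw [eq_div_iff hD, add_mul, mul_assoc, div_mul_cancel₀ _ hD, h]
  ring

/-! ### The Dedekind eta function: the two laws -/

theorem eta_eq (z : ℂ) : η z = 𝕢 24 z * eulerFun (𝕢 1 z) := rfl

theorem csqrt_sq (a : ℂ) : Complex.sqrt a ^ 2 = a := by
  have h := Complex.cpow_nat_inv_pow a two_ne_zero
  rw [Nat.cast_ofNat] at h
  exact h

/-- `η(-1/z)² = -i z η(z)²`. -/
theorem eta_sq_S {z : ℂ} (hz : 0 < z.im) : η (-1 / z) ^ 2 = -I * z * η z ^ 2 := by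
  have h := ModularForm.eta_comp_eq_csqrt_I_inv (show z ∈ upperHalfPlaneSet from hz)
  simp only [Function.comp_apply, Pi.smul_apply, Pi.mul_apply, smul_eq_mul] at h
  rw [h, mul_pow, mul_pow, inv_pow, csqrt_sq, csqrt_sq, Complex.inv_I]
  ring

theorem qParam_nat_mul (h : ℝ) (n : ℕ) (z : ℂ) : 𝕢 h ((n : ℂ) * z) = 𝕢 h z ^ n := by
  rw [Periodic.qParam, Periodic.qParam, ← Complex.exp_nat_mul]
  congr 1
  ring

theorem qParam_add_int (z : ℂ) (k : ℤ) : 𝕢 1 (z + k) = 𝕢 1 z := by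
  rw [Periodic.qParam, Periodic.qParam]
  have : 2 * (π : ℂ) * I * (z + k) / ((1 : ℝ) : ℂ) = 2 * π * I * z / ((1 : ℝ) : ℂ) + k * (2 * π * I) := by
    push_cast
    ring
  rw [this, Complex.exp_add, Complex.exp_int_mul_two_pi_mul_I, mul_one]

theorem norm_qParam_lt_one' {z : ℂ} (hz : 0 < z.im) : ‖𝕢 1 z‖ < 1 :=
  Function.Periodic.norm_qParam_lt_one one_pos hz

/-! ### The function `Θ = θ₃(2τ)²` -/

/-- `(∑ x^(n²))²` as a function on the unit disc: `E(x²)^10 / (E(x)^4 E(x⁴)^4)`,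
`E(x) = ∏ (1 - x^n)`. -/
def thetaDisc (x : ℂ) : ℂ := eulerFun (x ^ 2) ^ 10 / (eulerFun x ^ 4 * eulerFun (x ^ 4) ^ 4)

/-- `Θ(z) = η(2z)^10 / (η(z)^4 η(4z)^4)` as a function of the complex variable `z`
(meaningful for `0 < z.im`). -/
def ThetaC (z : ℂ) : ℂ := thetaDisc (𝕢 1 z)

theorem thetaDisc_ne_zero {x : ℂ} (hx : ‖x‖ < 1) : thetaDisc x ≠ 0 := by
  have h2 : ‖x ^ 2‖ < 1 := by rw [norm_pow]; exact pow_lt_one₀ (norm_nonneg _) hx two_ne_zero
  have h4 : ‖x ^ 4‖ < 1 := by rw [norm_pow]; exact pow_lt_one₀ (norm_nonneg _) hx (by norm_num)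
  exact div_ne_zero (pow_ne_zero _ (eulerFun_ne_zero h2))
    (mul_ne_zero (pow_ne_zero _ (eulerFun_ne_zero hx)) (pow_ne_zero _ (eulerFun_ne_zero h4)))

theorem ThetaC_ne_zero {z : ℂ} (hz : 0 < z.im) : ThetaC z ≠ 0 :=
  thetaDisc_ne_zero (norm_qParam_lt_one' hz)

theorem ThetaC_add_int (z : ℂ) (k : ℤ) : ThetaC (z + k) = ThetaC z := by
  rw [ThetaC, ThetaC, qParam_add_int]

theorem ThetaC_eq_eta (z : ℂ) :
    ThetaC z = η (2 * z) ^ 10 / (η z ^ 4 * η (4 * z) ^ 4) := by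
  have e2 : ∀ h : ℝ, 𝕢 h (2 * z) = 𝕢 h z ^ 2 := fun h => by
    have := qParam_nat_mul h 2 z
    simpa using this
  have e4 : ∀ h : ℝ, 𝕢 h (4 * z) = 𝕢 h z ^ 4 := fun h => by
    have := qParam_nat_mul h 4 z
    simpa using this
  have ht : 𝕢 24 z ≠ 0 := Periodic.qParam_ne_zero z
  rw [ThetaC, thetaDisc, eta_eq, eta_eq, eta_eq, e2, e2, e4, e4]
  field_simp

/-- The law under `z ↦ -1/(4z)`. -/
theorem ThetaC_S {z : ℂ} (hz : 0 < z.im) : ThetaC (-1 / (4 * z)) = -2 * I * z * ThetaC z := by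
  have hz0 : z ≠ 0 := by
    rintro rfl
    simp at hz
  have h2z : 0 < (2 * z).im := by simpa using hz
  have h4z : 0 < (4 * z).im := by simpa using hz
  have hA := ModularForm.eta_ne_zero (show 2 * z ∈ upperHalfPlaneSet from h2z)
  have hB := ModularForm.eta_ne_zero (show z ∈ upperHalfPlaneSet from hz)
  have hC := ModularForm.eta_ne_zero (show 4 * z ∈ upperHalfPlaneSet from h4z)
  have s1 := eta_sq_S h2z
  have s2 := eta_sq_S hz
  have s3 := eta_sq_S h4z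
  have a1 : 2 * (-1 / (4 * z)) = -1 / (2 * z) := by field_simp; ring
  have a2 : 4 * (-1 / (4 * z)) = -1 / z := by field_simp
  have hI5 : (-I : ℂ) ^ 5 = -I := by
    calc (-I : ℂ) ^ 5 = -(I ^ 2) ^ 2 * I := by ring
      _ = -I := by rw [I_sq]; ring
  have hI2 : (-I : ℂ) ^ 2 = -1 := by
    calc (-I : ℂ) ^ 2 = I ^ 2 := by ring
      _ = -1 := I_sq
  have e1 : η (-1 / (2 * z)) ^ 10 = -(32 * I) * z ^ 5 * η (2 * z) ^ 10 := by
    calc η (-1 / (2 * z)) ^ 10 = (η (-1 / (2 * z)) ^ 2) ^ 5 := by ring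
      _ = (-I) ^ 5 * (32 * z ^ 5 * η (2 * z) ^ 10) := by rw [s1]; ring
      _ = _ := by rw [hI5]; ring
  have e2 : η (-1 / (4 * z)) ^ 4 = -(16 * z ^ 2 * η (4 * z) ^ 4) := by
    calc η (-1 / (4 * z)) ^ 4 = (η (-1 / (4 * z)) ^ 2) ^ 2 := by ring
      _ = (-I) ^ 2 * (16 * z ^ 2 * η (4 * z) ^ 4) := by rw [s3]; ring
      _ = _ := by rw [hI2]; ring
  have e3 : η (-1 / z) ^ 4 = -(z ^ 2 * η z ^ 4) := by
    calc η (-1 / z) ^ 4 = (η (-1 / z) ^ 2) ^ 2 := by ring
      _ = (-I) ^ 2 * (z ^ 2 * η z ^ 4) := by rw [s2]; ring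
      _ = _ := by rw [hI2]; ring
  rw [ThetaC_eq_eta, ThetaC_eq_eta, a1, a2, e1, e2, e3]
  field_simp
  ring

/-- The law under `z ↦ z / (4 m z + 1)`. -/
theorem ThetaC_U (m : ℤ) {z : ℂ} (hz : 0 < z.im) :
    ThetaC (z / (4 * m * z + 1)) = (4 * m * z + 1) * ThetaC z := by
  have hz0 : z ≠ 0 := by
    rintro rfl
    simp at hz
  obtain ⟨hD, hw⟩ := mobius_aux 1 0 (4 * m) 1 (by ring) hz
  have eD : ((4 * m : ℤ) : ℂ) * z + ((1 : ℤ) : ℂ) = 4 * m * z + 1 := by push_cast; ring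
  have ew : (((1 : ℤ) : ℂ) * z + ((0 : ℤ) : ℂ)) / (((4 * m : ℤ) : ℂ) * z + ((1 : ℤ) : ℂ))
      = z / (4 * m * z + 1) := by push_cast; ring
  rw [eD] at hD
  rw [ew] at hw
  set w : ℂ := z / (4 * m * z + 1) with hwdef
  have hw0 : w ≠ 0 := div_ne_zero hz0 hD
  have h1 := ThetaC_S hw
  have h2 := ThetaC_S hz
  have e : -1 / (4 * w) = -1 / (4 * z) + ((-m : ℤ) : ℂ) := by
    rw [hwdef]
    push_cast
    field_simp
    ring
  rw [e, ThetaC_add_int, h2] at h1
  have h3 : w * ThetaC w = z * ThetaC z := by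
    have hI : (-2 * I : ℂ) ≠ 0 := by simp
    apply mul_left_cancel₀ hI
    linear_combination -h1
  have h4 : ThetaC w = z / w * ThetaC z := by
    field_simp
    linear_combination h3
  rw [h4, hwdef]
  field_simp

/-- The character `χ₋₄` on odd integers (value `-1` off the class of `1`). -/
def chi4 (d : ℤ) : ℂ := if d % 4 = 1 then 1 else -1

theorem chi4_ne_zero (d : ℤ) : chi4 d ≠ 0 := by
  unfold chi4
  split_ifs <;> norm_num

theorem chi4_sq (d : ℤ) : chi4 d * chi4 d = 1 := by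
  unfold chi4
  split_ifs <;> norm_num

theorem chi4_one : chi4 1 = 1 := by
  unfold chi4
  norm_num

/-- **The transformation law of `Θ` on `Γ₀(4)`**, by descent on `|c|`. -/
theorem ThetaC_law_aux : ∀ (n : ℕ) (a b c d : ℤ), c.natAbs = n → a * d - b * c = 1 → (4 : ℤ) ∣ c →
    ∀ z : ℂ, 0 < z.im →
      ThetaC (((a : ℂ) * z + b) / ((c : ℂ) * z + d)) = chi4 d * ((c : ℂ) * z + d) * ThetaC z := by
  intro n
  induction n using Nat.strong_induction_on with
  | _ n ih =>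
    intro a b c d hn hdet h4 z hz
    by_cases hc : c = 0
    · subst hc
      have had : a * d = 1 := by linarith
      rcases Int.eq_one_or_neg_one_of_mul_eq_one' had with ⟨rfl, rfl⟩ | ⟨rfl, rfl⟩
      · have e : (((1 : ℤ) : ℂ) * z + b) / (((0 : ℤ) : ℂ) * z + ((1 : ℤ) : ℂ)) = z + b := by
          push_cast; ring
        rw [e, ThetaC_add_int, chi4_one]
        push_cast
        ring
      · have e : (((-1 : ℤ) : ℂ) * z + b) / (((0 : ℤ) : ℂ) * z + ((-1 : ℤ) : ℂ))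
            = z + ((-b : ℤ) : ℂ) := by
          push_cast; ring
        have hchi : chi4 (-1) = -1 := by
          unfold chi4
          norm_num
        rw [e, ThetaC_add_int, hchi]
        push_cast
        ring
    · -- `d` is odd
      obtain ⟨c', rfl⟩ := h4
      have hd : d % 2 = 1 := by
        rcases Int.emod_two_eq_zero_or_one d with h0 | h1
        · exfalso
          obtain ⟨d', rfl⟩ := Int.dvd_of_emod_eq_zero h0
          have : (2 : ℤ) ∣ 1 := ⟨a * d' - 2 * b * c', by linarith⟩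
          norm_num at this
        · exact h1
      -- first translation
      obtain ⟨k, hk⟩ := exists_small d (4 * c') hc
      set d₁ : ℤ := d + k * (4 * c') with hd₁
      have hd₁odd : d₁ % 2 = 1 := by
        have : d₁ = d + 2 * (2 * (k * c')) := by rw [hd₁]; ring
        rw [this]
        omega
      have hd₁0 : 4 * d₁ ≠ 0 := by omega
      have hk' : 2 * d₁.natAbs < (4 * c').natAbs := by omega
      -- then the `U` step
      obtain ⟨m, hm⟩ := exists_small (4 * c') (4 * d₁) hd₁0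
      set b₁ : ℤ := b + k * a with hb₁
      set c₂ : ℤ := 4 * c' + m * (4 * d₁) with hc₂
      set a₂ : ℤ := a + 4 * m * b₁ with ha₂
      have hc₂n : c₂.natAbs < n := by omega
      have hdet₁ : a * d₁ - b₁ * (4 * c') = 1 := by rw [hd₁, hb₁]; linarith
      have hdet₂ : a₂ * d₁ - b₁ * c₂ = 1 := by rw [ha₂, hc₂]; linarith
      have h4c₂ : (4 : ℤ) ∣ c₂ := ⟨c' + m * d₁, by rw [hc₂]; ring⟩
      have IH := ih c₂.natAbs hc₂n a₂ b₁ c₂ d₁ rfl hdet₂ h4c₂
      -- undo the `U` step: the law for `(a, b₁, 4c', d₁)`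
      have L1 : ∀ z : ℂ, 0 < z.im →
          ThetaC (((a : ℂ) * z + b₁) / (((4 * c' : ℤ) : ℂ) * z + d₁))
            = chi4 d₁ * (((4 * c' : ℤ) : ℂ) * z + d₁) * ThetaC z := by
        intro z hz
        obtain ⟨hD, hw⟩ := mobius_aux 1 0 (4 * (-m)) 1 (by ring) hz
        have eD : ((4 * (-m) : ℤ) : ℂ) * z + ((1 : ℤ) : ℂ) = 4 * ((-m : ℤ) : ℂ) * z + 1 := by
          push_cast; ring
        have ew : (((1 : ℤ) : ℂ) * z + ((0 : ℤ) : ℂ)) / (((4 * (-m) : ℤ) : ℂ) * z + ((1 : ℤ) : ℂ))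
            = z / (4 * ((-m : ℤ) : ℂ) * z + 1) := by push_cast; ring
        rw [eD] at hD
        rw [ew] at hw
        have hU := ThetaC_U (-m) hz
        set D : ℂ := 4 * ((-m : ℤ) : ℂ) * z + 1 with hDdef
        set w : ℂ := z / D with hwdef
        have hD' : D = 1 - 4 * (m : ℂ) * z := by rw [hDdef]; push_cast; ring
        have hIH := IH w hw
        have ha₂C : (a₂ : ℂ) = (a : ℂ) + 4 * (m : ℂ) * b₁ := by rw [ha₂]; push_cast; ring
        have hc₂C : (c₂ : ℂ) = ((4 * c' : ℤ) : ℂ) + 4 * (m : ℂ) * d₁ := by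
          rw [hc₂]; push_cast; ring
        have hnum : (a₂ : ℂ) * w + b₁ = ((a : ℂ) * z + b₁) / D := by
          rw [ha₂C, hwdef]
          exact mobius_alg _ _ _ _ _ hD hD'
        have hdn : (c₂ : ℂ) * w + d₁ = (((4 * c' : ℤ) : ℂ) * z + d₁) / D := by
          rw [hc₂C, hwdef]
          exact mobius_alg _ _ _ _ _ hD hD'
        rw [hnum, hdn, hU] at hIH
        rw [div_div_div_cancel_right₀ hD] at hIH
        rw [hIH]
        field_simp
      -- undo the translation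
      obtain ⟨hz', -⟩ : 0 < (z + ((-k : ℤ) : ℂ)).im ∧ True := ⟨by simpa using hz, trivial⟩
      have hL := L1 (z + ((-k : ℤ) : ℂ)) hz'
      have e3 : ((a : ℂ) * (z + ((-k : ℤ) : ℂ)) + b₁) / (((4 * c' : ℤ) : ℂ) * (z + ((-k : ℤ) : ℂ)) + d₁)
          = ((a : ℂ) * z + b) / (((4 * c' : ℤ) : ℂ) * z + d) := by
        rw [hb₁, hd₁]
        push_cast
        congr 1 <;> ring
      have e4 : ((4 * c' : ℤ) : ℂ) * (z + ((-k : ℤ) : ℂ)) + d₁ = ((4 * c' : ℤ) : ℂ) * z + d := by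
        rw [hd₁]
        push_cast
        ring
      have e5 : chi4 d₁ = chi4 d := by
        unfold chi4
        have : d₁ % 4 = d % 4 := by
          have : d₁ = d + 4 * (k * c') := by rw [hd₁]; ring
          rw [this, Int.add_mul_emod_self_left]
        rw [this]
      rw [e3, e4, e5, ThetaC_add_int] at hL
      exact hL

/-- **The transformation law of `Θ` on `Γ₀(4)`**:
`Θ((a z + b)/(c z + d)) = χ₋₄(d) (c z + d) Θ(z)` for `a d - b c = 1`, `4 ∣ c`. -/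
theorem ThetaC_law (a b c d : ℤ) (hdet : a * d - b * c = 1) (h4 : (4 : ℤ) ∣ c) {z : ℂ}
    (hz : 0 < z.im) :
    ThetaC (((a : ℂ) * z + b) / ((c : ℂ) * z + d)) = chi4 d * ((c : ℂ) * z + d) * ThetaC z :=
  ThetaC_law_aux c.natAbs a b c d rfl hdet h4 z hz

/-! ### The unit `s_q(z) = Θ(z) / Θ(q z)` -/

/-- `s_q(z) = Θ(z) / Θ(q z)`. -/
def sC (q : ℕ) (z : ℂ) : ℂ := ThetaC z / ThetaC ((q : ℂ) * z)

theorem im_nat_mul_pos {q : ℕ} (hq : 0 < q) {z : ℂ} (hz : 0 < z.im) : 0 < ((q : ℂ) * z).im := by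
  have : ((q : ℂ) * z).im = q * z.im := by simp
  rw [this]
  positivity

theorem sC_ne_zero {q : ℕ} (hq : 0 < q) {z : ℂ} (hz : 0 < z.im) : sC q z ≠ 0 :=
  div_ne_zero (ThetaC_ne_zero hz) (ThetaC_ne_zero (im_nat_mul_pos hq hz))

/-- `s_q` is invariant under `Γ₀(4q)` (integer tuple form). -/
theorem sC_invariant {q : ℕ} (hq : 0 < q) (a b c d : ℤ) (hdet : a * d - b * c = 1)
    (hc : (4 * q : ℤ) ∣ c) {z : ℂ} (hz : 0 < z.im) :
    sC q (((a : ℂ) * z + b) / ((c : ℂ) * z + d)) = sC q z := by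
  obtain ⟨c', rfl⟩ := hc
  have hqz := im_nat_mul_pos hq hz
  have h1 := ThetaC_law a b (4 * q * c') d hdet ⟨q * c', by ring⟩ hz
  have h2 := ThetaC_law a (q * b) (4 * c') d (by linarith) ⟨c', rfl⟩ hqz
  obtain ⟨hden, -⟩ := mobius_aux a b (4 * q * c') d hdet hz
  have e1 : ((a : ℂ) * ((q : ℂ) * z) + ((q * b : ℤ) : ℂ)) / (((4 * c' : ℤ) : ℂ) * ((q : ℂ) * z) + d)
      = (q : ℂ) * (((a : ℂ) * z + b) / (((4 * q * c' : ℤ) : ℂ) * z + d)) := by
    push_cast
    rw [← mul_div_assoc]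
    congr 1 <;> ring
  have e2 : ((4 * c' : ℤ) : ℂ) * ((q : ℂ) * z) + d = ((4 * q * c' : ℤ) : ℂ) * z + d := by
    push_cast
    ring
  rw [e1, e2] at h2
  have hT := ThetaC_ne_zero hqz
  have hchi := chi4_ne_zero d
  rw [sC, sC, h1, h2]
  field_simp

/-- **Atkin–Lehner law**: for `x q - c y = 1`, `4 ∣ c`:
`s_q(γ(q z)) · s_q(z) = χ₋₄(q) q`, `γ = [[x, y], [c, q]]`. -/
theorem sC_atkinLehner {q : ℕ} (hq : 0 < q) (x y c : ℤ) (hdet : x * q - c * y = 1)
    (h4 : (4 : ℤ) ∣ c) {z : ℂ} (hz : 0 < z.im) :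
    sC q (((x : ℂ) * ((q : ℂ) * z) + y) / ((c : ℂ) * ((q : ℂ) * z) + q)) * sC q z
      = chi4 q * q := by
  have hqz := im_nat_mul_pos hq hz
  have hq0 : (q : ℂ) ≠ 0 := by exact_mod_cast hq.ne'
  have h1 := ThetaC_law x y c q (by linarith) h4 hqz
  have h2 := ThetaC_law (x * q) y c 1 (by linarith) h4 hz
  obtain ⟨hden, -⟩ := mobius_aux (x * q) y c 1 (by linarith) hz
  have e1 : (((x * q : ℤ) : ℂ) * z + y) / ((c : ℂ) * z + ((1 : ℤ) : ℂ))
      = (q : ℂ) * (((x : ℂ) * ((q : ℂ) * z) + y) / ((c : ℂ) * ((q : ℂ) * z) + q)) := by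
    push_cast at hden ⊢
    have hden' : (c : ℂ) * ((q : ℂ) * z) + q ≠ 0 := by
      have : (c : ℂ) * ((q : ℂ) * z) + q = (q : ℂ) * ((c : ℂ) * z + 1) := by ring
      rw [this]
      exact mul_ne_zero hq0 hden
    field_simp
  have e0 : ((x : ℂ) * ((q : ℂ) * z) + y) / ((c : ℂ) * ((q : ℂ) * z) + ((q : ℤ) : ℂ))
      = ((x : ℂ) * ((q : ℂ) * z) + y) / ((c : ℂ) * ((q : ℂ) * z) + q) := by
    push_cast
    rfl
  rw [e1, chi4_one] at h2
  rw [e0] at h1
  have hT := ThetaC_ne_zero hqz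
  have hT' := ThetaC_ne_zero hz
  push_cast at hden h1 h2
  rw [sC, sC, h1, h2]
  have e3 : (c : ℂ) * ((q : ℂ) * z) + q = (q : ℂ) * ((c : ℂ) * z + 1) := by ring
  rw [e3]
  field_simp

/-! ### Upper half plane forms -/

/-- `s_q` as a function on the upper half plane. -/
def sH (q : ℕ) (τ : ℍ) : ℂ := sC q (τ : ℂ)

theorem sH_ne_zero {q : ℕ} (hq : 0 < q) (τ : ℍ) : sH q τ ≠ 0 := sC_ne_zero hq τ.im_pos

theorem SL2Z_det (g : SL(2, ℤ)) : g 0 0 * g 1 1 - g 0 1 * g 1 0 = 1 := by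
  have h := g.det_coe
  rw [Matrix.det_fin_two] at h
  exact h

/-- `s_q` is invariant under `Γ₀(N)` whenever `4 q ∣ N`. -/
theorem sH_smul {q N : ℕ} (hq : 0 < q) (hN : 4 * q ∣ N) (g : SL(2, ℤ))
    (hg : g ∈ CongruenceSubgroup.Gamma0 N) (τ : ℍ) : sH q (g • τ) = sH q τ := by
  rw [CongruenceSubgroup.Gamma0_mem, ZMod.intCast_zmod_eq_zero_iff_dvd] at hg
  have hc : (4 * q : ℤ) ∣ g 1 0 := by
    refine dvd_trans ?_ hg
    exact_mod_cast hN
  rw [sH, sH, Fermat.Agent.S28.helper407.coe_smul_SL2Z]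
  exact sC_invariant hq _ _ _ _ (SL2Z_det g) hc τ.im_pos

/-- **Atkin–Lehner law on the upper half plane**: for `γ ∈ SL(2, ℤ)` with bottom row `(c, q)`,
`4 ∣ c`, and `σ : ℍ` with `σ = q τ`: `s_q(γ σ) · s_q(τ) = χ₋₄(q) q`. -/
theorem sH_atkinLehner {q : ℕ} (hq : 0 < q) (g : SL(2, ℤ)) (h10 : (4 : ℤ) ∣ g 1 0)
    (h11 : g 1 1 = (q : ℤ)) (τ σ : ℍ) (hσ : (σ : ℂ) = (q : ℂ) * (τ : ℂ)) :
    sH q (g • σ) * sH q τ = chi4 q * q := by
  have hdet := SL2Z_det g
  rw [h11] at hdet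
  have h := sC_atkinLehner hq (g 0 0) (g 0 1) (g 1 0) (by linarith) h10 τ.im_pos
  rw [sH, sH, Fermat.Agent.S28.helper407.coe_smul_SL2Z, h11, hσ]
  push_cast
  exact h

/-! ### Power series -/

open Fermat.Agent.S28.helper1594 (PSConv PSIn eulerPS eulerExp psConv_eulerFun psConv_eulerExp
  psIn_eulerPS psIn_eulerExp)

/-- The formal series of `Θ` with complex coefficients. -/
def thetaPS : PowerSeries ℂ := eulerExp 2 ^ 10 * (eulerPS ^ 4 * eulerExp 4 ^ 4)⁻¹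

theorem psConv_thetaDisc : PSConv thetaDisc thetaPS := by
  have h2 := (psConv_eulerExp (δ := 2) two_ne_zero).pow 10
  have h1 := psConv_eulerFun.pow 4
  have h4 := (psConv_eulerExp (δ := 4) (by norm_num)).pow 4
  have hden := h1.mul h4
  have hne : ∀ z : ℂ, ‖z‖ < 1 → (eulerFun ^ 4 * (fun z => eulerFun (z ^ 4)) ^ 4) z ≠ 0 := by
    intro z hz
    have hz4 : ‖z ^ 4‖ < 1 := by
      rw [norm_pow]; exact pow_lt_one₀ (norm_nonneg _) hz (by norm_num)
    simp only [Pi.mul_apply, Pi.pow_apply]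
    exact mul_ne_zero (pow_ne_zero _ (eulerFun_ne_zero hz)) (pow_ne_zero _ (eulerFun_ne_zero hz4))
  refine (h2.mul (hden.inv hne)).congr fun z _ => ?_
  simp only [thetaDisc, Pi.mul_apply, Pi.pow_apply, Pi.inv_apply, div_eq_mul_inv]

theorem psIn_thetaPS (O : Subring ℂ) : PSIn O thetaPS :=
  ((psIn_eulerExp O 2).pow 10).mul (((psIn_eulerPS O).pow 4).mul ((psIn_eulerExp O 4).pow 4)).inv

/-- `s_q` on the unit disc. -/
def sDisc (q : ℕ) (x : ℂ) : ℂ := thetaDisc x / thetaDisc (x ^ q)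

/-- The formal series of `s_q` with complex coefficients. -/
def sPS (q : ℕ) [NeZero q] : PowerSeries ℂ :=
  thetaPS * (PowerSeries.expand q (NeZero.ne q) thetaPS)⁻¹

theorem psConv_sDisc (q : ℕ) [NeZero q] : PSConv (sDisc q) (sPS q) := by
  have h := psConv_thetaDisc.comp_mul_pow (c := 1) (by simp) q (NeZero.ne q)
  rw [PowerSeries.rescale_one, RingHom.id_apply] at h
  have hne : ∀ z : ℂ, ‖z‖ < 1 → (fun z => thetaDisc (1 * z ^ q)) z ≠ 0 := by
    intro z hz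
    have hzq : ‖z ^ q‖ < 1 := by
      rw [norm_pow]; exact pow_lt_one₀ (norm_nonneg _) hz (NeZero.ne q)
    simp only [one_mul]
    exact thetaDisc_ne_zero hzq
  refine (psConv_thetaDisc.mul (h.inv hne)).congr fun z _ => ?_
  simp only [sDisc, Pi.mul_apply, Pi.inv_apply, one_mul, div_eq_mul_inv]

theorem psIn_sPS (O : Subring ℂ) (q : ℕ) [NeZero q] : PSIn O (sPS q) := by
  have h := (psIn_thetaPS O).expand_rescale O.one_mem q (NeZero.ne q)
  rw [PowerSeries.rescale_one, RingHom.id_apply] at h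
  exact (psIn_thetaPS O).mul h.inv

theorem sC_eq_sDisc (q : ℕ) (z : ℂ) : sC q z = sDisc q (𝕢 1 z) := by
  rw [sC, sDisc, ThetaC, ThetaC, qParam_nat_mul]

theorem sH_eq_sDisc (q : ℕ) (τ : ℍ) : sH q τ = sDisc q (𝕢 1 (τ : ℂ)) := sC_eq_sDisc q τ

/-! ### Integer forms of the series -/

/-- The integer power series `(∑ x^(n²))² = ∏ (1-x^(2n))^10 / (∏ (1-x^n)^4 ∏ (1-x^(4n))^4)`. -/
def thetaZ : PowerSeries ℤ :=
  PowerSeries.expand 2 two_ne_zero ModularCurve.etaProd ^ 10 *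
    PowerSeries.invOfUnit (ModularCurve.etaProd ^ 4 *
      PowerSeries.expand 4 four_ne_zero ModularCurve.etaProd ^ 4) 1

theorem map_invOfUnit_one {φ : PowerSeries ℤ} (h : PowerSeries.constantCoeff φ = 1) :
    (PowerSeries.invOfUnit φ 1).map (Int.castRingHom ℂ) = (φ.map (Int.castRingHom ℂ))⁻¹ := by
  have h1 : φ * PowerSeries.invOfUnit φ 1 = 1 := PowerSeries.mul_invOfUnit φ 1 (by simpa using h)
  have hc : PowerSeries.constantCoeff (φ.map (Int.castRingHom ℂ)) ≠ 0 := by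
    rw [← PowerSeries.coeff_zero_eq_constantCoeff_apply, PowerSeries.coeff_map,
      PowerSeries.coeff_zero_eq_constantCoeff_apply, h]
    simp
  refine (PowerSeries.eq_inv_iff_mul_eq_one hc).mpr ?_
  rw [← map_mul, mul_comm, h1, map_one]

theorem constantCoeff_expand_etaProd (n : ℕ) (hn : n ≠ 0) :
    PowerSeries.constantCoeff (PowerSeries.expand n hn ModularCurve.etaProd) = 1 := by
  rw [PowerSeries.constantCoeff_expand, ModularCurve.constantCoeff_etaProd]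

theorem map_expand_etaProd (n : ℕ) (hn : n ≠ 0) :
    (PowerSeries.expand n hn ModularCurve.etaProd).map (Int.castRingHom ℂ) = eulerExp n := by
  rw [eulerExp, dif_neg hn, PowerSeries.map_expand]
  rfl

theorem map_thetaZ : thetaZ.map (Int.castRingHom ℂ) = thetaPS := by
  have hc : PowerSeries.constantCoeff (ModularCurve.etaProd ^ 4 *
      PowerSeries.expand 4 four_ne_zero ModularCurve.etaProd ^ 4) = 1 := by
    rw [map_mul, map_pow, map_pow, constantCoeff_expand_etaProd,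
      ModularCurve.constantCoeff_etaProd]
    norm_num
  rw [thetaZ, map_mul, map_pow, map_invOfUnit_one hc, map_mul, map_pow, map_pow,
    map_expand_etaProd, map_expand_etaProd, thetaPS]
  rfl

theorem constantCoeff_thetaZ : PowerSeries.constantCoeff thetaZ = 1 := by
  have h := (psIn_thetaPS ⊤).1
  rw [← map_thetaZ, ← PowerSeries.coeff_zero_eq_constantCoeff_apply, PowerSeries.coeff_map,
    PowerSeries.coeff_zero_eq_constantCoeff_apply, eq_intCast] at h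
  exact_mod_cast h

/-- The integer power series of `s_q = Θ(x) / Θ(x^q)`. -/
def sZ (q : ℕ) [NeZero q] : PowerSeries ℤ :=
  thetaZ * PowerSeries.invOfUnit (PowerSeries.expand q (NeZero.ne q) thetaZ) 1

theorem sZ_mul_expand (q : ℕ) [NeZero q] :
    sZ q * PowerSeries.expand q (NeZero.ne q) thetaZ = thetaZ := by
  have hc : PowerSeries.constantCoeff (PowerSeries.expand q (NeZero.ne q) thetaZ) = 1 := by
    rw [PowerSeries.constantCoeff_expand, constantCoeff_thetaZ]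
  have h1 := PowerSeries.mul_invOfUnit (PowerSeries.expand q (NeZero.ne q) thetaZ) 1
    (by simpa using hc)
  rw [sZ, mul_assoc, mul_comm (PowerSeries.invOfUnit _ _), h1, mul_one]

theorem map_sZ (q : ℕ) [NeZero q] : (sZ q).map (Int.castRingHom ℂ) = sPS q := by
  have hc : PowerSeries.constantCoeff (PowerSeries.expand q (NeZero.ne q) thetaZ) = 1 := by
    rw [PowerSeries.constantCoeff_expand, constantCoeff_thetaZ]
  rw [sZ, map_mul, map_invOfUnit_one hc, PowerSeries.map_expand, map_thetaZ, sPS]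

theorem constantCoeff_sZ (q : ℕ) [NeZero q] : PowerSeries.constantCoeff (sZ q) = 1 := by
  have h := (psIn_sPS ⊤ q).1
  rw [← map_sZ, ← PowerSeries.coeff_zero_eq_constantCoeff_apply, PowerSeries.coeff_map,
    PowerSeries.coeff_zero_eq_constantCoeff_apply, eq_intCast] at h
  exact_mod_cast h

theorem psConv_sDisc_int (q : ℕ) [NeZero q] :
    PSConv (sDisc q) ((sZ q).map (Int.castRingHom ℂ)) := by
  rw [map_sZ]
  exact psConv_sDisc q

/-! ### `s_q ^ 12` as a quotient of discriminants -/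

open Fermat.Agent.S28.helper407 (pt)

local notation "Δ" => ModularForm.discriminant

theorem discriminant_pt {δ : ℕ} (hδ : 0 < δ) (τ : ℍ) :
    Δ (pt δ 0 1 τ) = 𝕢 1 (τ : ℂ) ^ δ * eulerFun (𝕢 1 (τ : ℂ) ^ δ) ^ 24 := by
  rw [Fermat.Agent.S28.helper1594.discriminant_eq_eulerFun,
    Fermat.Agent.S28.helper1594.qParam_pt_one hδ]

/-- `s_q ^ 12 = Δ(2τ)^5 Δ(qτ)^2 Δ(4qτ)^2 / (Δ(τ)^2 Δ(4τ)^2 Δ(2qτ)^5)`. -/
theorem sH_pow_twelve {q : ℕ} (hq : 0 < q) (τ : ℍ) :
    sH q τ ^ 12 = Δ (pt 2 0 1 τ) ^ (5 : ℤ) * Δ (pt 1 0 1 τ) ^ (-2 : ℤ) * Δ (pt 4 0 1 τ) ^ (-2 : ℤ)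
      * Δ (pt (2 * q) 0 1 τ) ^ (-5 : ℤ) * Δ (pt q 0 1 τ) ^ (2 : ℤ)
      * Δ (pt (4 * q) 0 1 τ) ^ (2 : ℤ) := by
  have hx : ‖𝕢 1 (τ : ℂ)‖ < 1 := norm_qParam_lt_one' τ.im_pos
  have hx0 : 𝕢 1 (τ : ℂ) ≠ 0 := Periodic.qParam_ne_zero _
  rw [discriminant_pt (by norm_num : 0 < 2), discriminant_pt one_pos,
    discriminant_pt (by norm_num : 0 < 4), discriminant_pt (by omega : 0 < 2 * q),
    discriminant_pt hq, discriminant_pt (by omega : 0 < 4 * q), sH_eq_sDisc, sDisc, thetaDisc,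
    thetaDisc, pow_mul' _ 2 q, pow_mul' _ 4 q, pow_one]
  set x : ℂ := 𝕢 1 (τ : ℂ) with hxdef
  have hxq : ‖x ^ q‖ < 1 := by
    rw [norm_pow]; exact pow_lt_one₀ (norm_nonneg _) hx hq.ne'
  have hpow : ∀ {y : ℂ}, ‖y‖ < 1 → ∀ n : ℕ, n ≠ 0 → eulerFun (y ^ n) ≠ 0 := by
    intro y hy n hn
    refine eulerFun_ne_zero ?_
    rw [norm_pow]; exact pow_lt_one₀ (norm_nonneg _) hy hn
  have h1 := eulerFun_ne_zero hx
  have h2 := hpow hx 2 two_ne_zero
  have h4 := hpow hx 4 four_ne_zero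
  have g1 := eulerFun_ne_zero hxq
  have g2 := hpow hxq 2 two_ne_zero
  have g4 := hpow hxq 4 four_ne_zero
  have hxq0 : x ^ q ≠ 0 := pow_ne_zero _ hx0
  simp only [zpow_neg, zpow_ofNat]
  field_simp

end

end Fermat.Agent.S36.helper105
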