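import Fermat.Agent.S36.helper105_ThetaAn
import Fermat.Agent.S36.helper105_EtaRoot
import Fermat.Agent.S35.helper1219_AtkinLehnerFF

/-!
# S36-F2-THETAUNIT (helper105): the theta unit `s_q = Θ(x) / Θ(x^q)`

`Θ = (∑ x^(n²))² = thetaZ ∈ 1 + xℤ[[x]]`, `sZ q = thetaZ / thetaZ(x^q) ∈ 1 + xℤ[[x]]`
(`sZ_mul_expand : sZ q * expand q thetaZ = thetaZ`).  For every `q ≥ 1` and every level `N` with
`4 q ∣ N`:

* (U1) `thetaUnit_mem_full` : the series `sZ q` lies in `modularFunctionFieldFull N`;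
  `thetaUnit q N hN : FN N` is the corresponding element over `ℚ̄`;
* (U2) `thetaUnit_isIntegral`, `thetaUnit_inv_isIntegral` : `sZ q` and its inverse `sZinv q` are
  integral over `ℚ[j]` (no zero and no pole away from the cusps);
* (U3) `thetaUnit_atkinLehner` : for `q` prime to `M`, `4 ∣ M`:
  `W_q(s_q) · s_q = χ₋₄(q) q` in `FN (q * M)`, `W_q = helper1219.atkinLehnerBar q M h`.

Also `atkinLehnerBar_mul_of_analytic`: the bridge from a function-level Atkin–Lehner law to the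
formal involution `atkinLehnerBar`.
-/

set_option autoImplicit false

open Complex Function
open UpperHalfPlane hiding I
open ModularCurve CongruenceSubgroup
open scoped MatrixGroups

namespace Fermat.Agent.S36.helper105

open Fermat.Agent.S28.helper407 (etaQuot pt)
open Fermat.Agent.S24.helper24 (Kbar FN)
open Fermat.Agent.S24 Fermat.Agent.S24.helper504
open Fermat.Agent.S35.helper1219

local notation "Δ" => ModularForm.discriminant
local notation "𝕢" => Periodic.qParam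

noncomputable section

/-! ### The exponents -/

/-- The exponents of `s_q ^ 12` as a quotient of discriminants. -/
def rTheta (q : ℕ) : ℕ → ℤ := fun δ =>
  rSingle 2 5 δ + (rSingle 1 (-2) δ + (rSingle 4 (-2) δ + (rSingle (2 * q) (-5) δ +
    (rSingle q 2 δ + rSingle (4 * q) 2 δ))))

theorem mem_divisors_of_dvd_four_mul {d q N : ℕ} (hN0 : N ≠ 0) (hN : 4 * q ∣ N)
    (hd : d ∣ 4 * q) : d ∈ N.divisors :=
  Nat.mem_divisors.mpr ⟨hd.trans hN, hN0⟩

theorem sum_rTheta {q N : ℕ} (hN0 : N ≠ 0) (hN : 4 * q ∣ N) :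
    ∑ δ ∈ N.divisors, rTheta q δ = 0 := by
  have h := fun d (hd : d ∣ 4 * q) => mem_divisors_of_dvd_four_mul hN0 hN hd
  simp only [rTheta, Finset.sum_add_distrib]
  rw [sum_rSingle (h 2 ⟨2 * q, by ring⟩), sum_rSingle (h 1 (one_dvd _)),
    sum_rSingle (h 4 ⟨q, rfl⟩), sum_rSingle (h (2 * q) ⟨2, by ring⟩),
    sum_rSingle (h q ⟨4, by ring⟩), sum_rSingle (h (4 * q) dvd_rfl)]
  norm_num

theorem sH_pow_eq_etaQuot {q N : ℕ} (hq : 0 < q) (hN0 : N ≠ 0) (hN : 4 * q ∣ N) (τ : ℍ) :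
    sH q τ ^ 12 = etaQuot N (rTheta q) τ := by
  have h := fun d (hd : d ∣ 4 * q) => mem_divisors_of_dvd_four_mul hN0 hN hd
  rw [sH_pow_twelve hq]
  unfold rTheta
  rw [etaQuot_add, etaQuot_add, etaQuot_add, etaQuot_add, etaQuot_add,
    etaQuot_rSingle (h 2 ⟨2 * q, by ring⟩), etaQuot_rSingle (h 1 (one_dvd _)),
    etaQuot_rSingle (h 4 ⟨q, rfl⟩), etaQuot_rSingle (h (2 * q) ⟨2, by ring⟩),
    etaQuot_rSingle (h q ⟨4, by ring⟩), etaQuot_rSingle (h (4 * q) dvd_rfl)]
  ring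

/-! ### (U1), (U2) -/

section Unit

variable (q N : ℕ) [NeZero q] [NeZero N]

/-- **(U1)** The integer series `s_q = Θ(x)/Θ(x^q)` lies in the function field of level `N`,
`4 q ∣ N`. -/
theorem thetaUnit_mem_full (hN : 4 * q ∣ N) : ofZQ (sZ q) ∈ modularFunctionFieldFull N :=
  etaRoot_mem_full N (fun γ hγ τ => sH_smul (Nat.pos_of_ne_zero (NeZero.ne q)) hN γ hγ τ)
    (k := 12) (by norm_num) (rTheta q) (sum_rTheta (NeZero.ne N) hN)
    (fun τ => sH_pow_eq_etaQuot (Nat.pos_of_ne_zero (NeZero.ne q)) (NeZero.ne N) hN τ)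
    (sZ q) (psConv_sDisc_int q) (sH_eq_sDisc q)

/-- The inverse series `Θ(x^q)/Θ(x)`. -/
def sZinv (q : ℕ) [NeZero q] : PowerSeries ℤ :=
  PowerSeries.expand q (NeZero.ne q) thetaZ * PowerSeries.invOfUnit thetaZ 1

theorem sZ_mul_sZinv : sZ q * sZinv q = 1 := by
  have h1 : thetaZ * PowerSeries.invOfUnit thetaZ 1 = 1 :=
    PowerSeries.mul_invOfUnit thetaZ 1 (by simpa using constantCoeff_thetaZ)
  calc sZ q * sZinv q
      = (sZ q * PowerSeries.expand q (NeZero.ne q) thetaZ) * PowerSeries.invOfUnit thetaZ 1 := by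
        rw [sZinv]; ring
    _ = 1 := by rw [sZ_mul_expand, h1]

theorem thetaUnit_inv_mem_full (hN : 4 * q ∣ N) : ofZQ (sZinv q) ∈ modularFunctionFieldFull N :=
  (etaRoot_inv N (fun γ hγ τ => sH_smul (Nat.pos_of_ne_zero (NeZero.ne q)) hN γ hγ τ)
    (k := 12) (by norm_num) (rTheta q) (sum_rTheta (NeZero.ne N) hN)
    (fun τ => sH_pow_eq_etaQuot (Nat.pos_of_ne_zero (NeZero.ne q)) (NeZero.ne N) hN τ)
    (sZ q) (psConv_sDisc_int q) (sH_eq_sDisc q) (sZinv q) (sZ_mul_sZinv q)).1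

/-- The theta unit as an element of the function field of level `N` over `ℚ̄`. -/
def thetaUnit (hN : 4 * q ∣ N) : FN N :=
  ⟨coeffEmb Kbar (ofZQ (sZ q)), coeffEmb_ofZQ_mem_bar (thetaUnit_mem_full q N hN)⟩

theorem coe_thetaUnit (hN : 4 * q ∣ N) :
    ((thetaUnit q N hN : FN N) : LaurentSeries Kbar) = coeffEmb Kbar (ofZQ (sZ q)) := rfl

end Unit

section Integral

variable (q : ℕ) [NeZero q]

/-- **(U2)** `s_q` is integral over `ℚ[j]`. -/
theorem thetaUnit_isIntegral : IsIntegral (Algebra.adjoin ℚ {jq}) (ofZQ (sZ q)) :=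
  haveI : NeZero (4 * q) := ⟨Nat.mul_ne_zero (by norm_num) (NeZero.ne q)⟩
  etaRoot_isIntegral (4 * q)
    (fun γ hγ τ => sH_smul (Nat.pos_of_ne_zero (NeZero.ne q)) dvd_rfl γ hγ τ)
    (k := 12) (by norm_num) (rTheta q) (sum_rTheta (NeZero.ne (4 * q)) dvd_rfl)
    (fun τ => sH_pow_eq_etaQuot (Nat.pos_of_ne_zero (NeZero.ne q)) (NeZero.ne (4 * q)) dvd_rfl τ)
    (sZ q) (psConv_sDisc_int q) (sH_eq_sDisc q)

/-- **(U2)** `1 / s_q` is integral over `ℚ[j]`. -/
theorem thetaUnit_inv_isIntegral : IsIntegral (Algebra.adjoin ℚ {jq}) (ofZQ (sZinv q)) :=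
  haveI : NeZero (4 * q) := ⟨Nat.mul_ne_zero (by norm_num) (NeZero.ne q)⟩
  (etaRoot_inv (4 * q)
    (fun γ hγ τ => sH_smul (Nat.pos_of_ne_zero (NeZero.ne q)) dvd_rfl γ hγ τ)
    (k := 12) (by norm_num) (rTheta q) (sum_rTheta (NeZero.ne (4 * q)) dvd_rfl)
    (fun τ => sH_pow_eq_etaQuot (Nat.pos_of_ne_zero (NeZero.ne q)) (NeZero.ne (4 * q)) dvd_rfl τ)
    (sZ q) (psConv_sDisc_int q) (sH_eq_sDisc q) (sZinv q) (sZ_mul_sZinv q)).2

end Integral

/-! ### The analytic Atkin–Lehner bridge -/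

/-- **Bridge.** Let `Y : FN (q * M)` have the `q`-expansion of a function `f` holomorphic on `ℍ`
and at the cusp.  If `f(γ(qτ)) · f(τ) = c` for the Atkin–Lehner point map `τ ↦ γ(qτ)`,
`γ = alGamma q M h`, then `W_q(Y) · Y = c` in the function field. -/
theorem atkinLehnerBar_mul_of_analytic (q M : ℕ) [NeZero q] [NeZero M] (h : Nat.Coprime q M)
    (Y : FN (q * M)) (f : ℍ → ℂ) (hf : helper315.IsCuspHol 1 f)
    (hexp : HahnSeries.ofPowerSeries ℤ ℂ (qExpansion 1 f) = formalC (q * M) Y) (c : Kbar)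
    (hlaw : ∀ τ : ℍ, f (alGamma q M h • hpt q 0 1 τ) * f τ = kappa c) :
    atkinLehnerBar q M h Y * Y = algebraMap Kbar (FN (q * M)) c := by
  obtain ⟨a, b, hb0, hY⟩ := helper3176.exists_div_AN (q * M) Y
  have hfm : f ∈ helper315.cuspMer 1 := by
    rw [helper315.mem_cuspMer, Nat.cast_one]
    exact hf.isCuspMer
  have hF : helper315.cuspExp 1 ⟨f, hfm⟩ = formalC (q * M) Y := by
    rw [helper315.cuspExp_apply]
    show helper315.cuspExpFun ((1 : ℕ) : ℝ) f = _
    rw [Nat.cast_one, helper315.cuspExpFun_of_isCuspHol one_pos hf, hexp]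
  -- `f * ev b = ev a`
  have h1 : (⟨f, hfm⟩ : helper315.cuspMer 1) * evA (q * M) b = evA (q * M) a := by
    apply helper315.cuspExp_injective 1
    rw [map_mul, hF, cuspExp_evA, cuspExp_evA, ← map_mul]
    congr 1
    rw [hY, div_mul_cancel₀ _ hb0]
  have h1' : ∀ τ, f τ * evFun (q * M) b τ = evFun (q * M) a τ := fun τ =>
    congrFun (congrArg Subtype.val h1) τ
  -- the transformed relation
  have h2 : ∀ τ, evFun (q * M) (alA q M h a) τ * f τ
      = kappa c * evFun (q * M) (alA q M h b) τ := by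
    intro τ
    rw [evFun_alA_apply, evFun_alA_apply, ← h1' (alGamma q M h • hpt q 0 1 τ)]
    calc f (alGamma q M h • hpt q 0 1 τ) * evFun (q * M) b (alGamma q M h • hpt q 0 1 τ) * f τ
        = (f (alGamma q M h • hpt q 0 1 τ) * f τ)
            * evFun (q * M) b (alGamma q M h • hpt q 0 1 τ) := by ring
      _ = kappa c * evFun (q * M) b (alGamma q M h • hpt q 0 1 τ) := by rw [hlaw τ]
  have h3 : evA (q * M) (alA q M h a) * (⟨f, hfm⟩ : helper315.cuspMer 1)
      = (⟨fun _ => kappa c, const_mem_cuspMer 1 (kappa c)⟩ : helper315.cuspMer 1)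
        * evA (q * M) (alA q M h b) := by
    apply Subtype.ext
    funext τ
    exact h2 τ
  have h4 := congrArg (helper315.cuspExp 1) h3
  rw [map_mul, map_mul, cuspExp_evA, cuspExp_evA, hF, cuspExp_const,
    ← formalC_algebraMap (q * M) c, ← map_mul, ← map_mul] at h4
  have h5 : (alA q M h a : FN (q * M)) * Y
      = algebraMap Kbar (FN (q * M)) c * (alA q M h b : FN (q * M)) := formalC_injective _ h4
  have hb' : (alA q M h b : FN (q * M)) ≠ 0 := by
    intro h0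
    apply hb0
    have e0 : alA q M h b = alA q M h 0 := by
      rw [map_zero]
      exact Subtype.ext h0
    rw [alA_injective q M h e0]
    rfl
  have e1 : atkinLehnerBar q M h Y = (alA q M h a : FN (q * M)) / (alA q M h b : FN (q * M)) := by
    rw [hY, map_div₀, atkinLehnerBar_coe, atkinLehnerBar_coe]
  rw [e1, div_mul_eq_mul_div, h5, mul_div_assoc, div_self hb', mul_one]

/-! ### (U3) -/

/-- The character `χ₋₄` with integer values. -/
def chi4Z (d : ℤ) : ℤ := if d % 4 = 1 then 1 else -1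

theorem chi4_eq_cast (d : ℤ) : chi4 d = ((chi4Z d : ℤ) : ℂ) := by
  unfold chi4 chi4Z
  split_ifs <;> simp

theorem chi4Z_sq (d : ℤ) : chi4Z d * chi4Z d = 1 := by
  unfold chi4Z
  split_ifs <;> norm_num

theorem four_mul_dvd_of_dvd {q M : ℕ} (h4 : 4 ∣ M) : 4 * q ∣ q * M := by
  rw [mul_comm 4 q]
  exact Nat.mul_dvd_mul_left q h4

/-- The `q`-expansion of the theta unit, with complex coefficients. -/
theorem formalC_thetaUnit (q N : ℕ) [NeZero q] [NeZero N] (hN : 4 * q ∣ N) :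
    formalC N (thetaUnit q N hN)
      = HahnSeries.ofPowerSeries ℤ ℂ ((sZ q).map (Int.castRingHom ℂ)) := by
  rw [formalC_apply, coe_thetaUnit, coeffMap_kappa_coeffEmb, coeffEmb, ofZQ,
    ModularCurve.coeffMap_ofPowerSeries, map_map_intCast]

/-- **(U3)** The Atkin–Lehner involution `W_q` at level `q M` (`gcd(q, M) = 1`, `4 ∣ M`) sends
the theta unit `s_q` to `χ₋₄(q) q / s_q`. -/
theorem thetaUnit_atkinLehner (q M : ℕ) [NeZero q] [NeZero M] (h : Nat.Coprime q M)
    (h4 : 4 ∣ M) :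
    atkinLehnerBar q M h (thetaUnit q (q * M) (four_mul_dvd_of_dvd h4))
        * thetaUnit q (q * M) (four_mul_dvd_of_dvd h4)
      = algebraMap Kbar (FN (q * M)) (((chi4Z q : ℤ) : Kbar) * (q : Kbar)) := by
  have hq : 0 < q := Nat.pos_of_ne_zero (NeZero.ne q)
  obtain ⟨hc, hqe⟩ := isCuspHol_of_psConv (psConv_sDisc_int q) (sH_eq_sDisc q)
  refine atkinLehnerBar_mul_of_analytic q M h _ (sH q) hc ?_ _ ?_
  · rw [hqe, formalC_thetaUnit]
  · intro τ
    have h10 : (4 : ℤ) ∣ alGamma q M h 1 0 := by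
      rw [alGamma_one_zero]
      exact_mod_cast h4
    have hσ : ((hpt q 0 1 τ : ℍ) : ℂ) = (q : ℂ) * (τ : ℂ) := by
      rw [coe_hpt]
      simp
    rw [sH_atkinLehner hq (alGamma q M h) h10 (alGamma_one_one q M h) τ (hpt q 0 1 τ) hσ,
      chi4_eq_cast, map_mul, map_intCast, map_natCast]

/-- `W_q(s_q) = χ₋₄(q) q / s_q`. -/
theorem thetaUnit_atkinLehner' (q M : ℕ) [NeZero q] [NeZero M] (h : Nat.Coprime q M)
    (h4 : 4 ∣ M) :
    atkinLehnerBar q M h (thetaUnit q (q * M) (four_mul_dvd_of_dvd h4))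
      = algebraMap Kbar (FN (q * M)) (((chi4Z q : ℤ) : Kbar) * (q : Kbar))
        * (thetaUnit q (q * M) (four_mul_dvd_of_dvd h4))⁻¹ := by
  have hne : thetaUnit q (q * M) (four_mul_dvd_of_dvd h4) ≠ 0 := by
    intro h0
    have h1 := thetaUnit_atkinLehner q M h h4
    rw [h0, mul_zero] at h1
    have h2 : (((chi4Z q : ℤ) : Kbar) * (q : Kbar)) = 0 := by
      have := h1.symm
      rwa [map_eq_zero] at this
    rcases mul_eq_zero.mp h2 with h3 | h3
    · have h5 : (chi4Z q : ℤ) = 0 := by exact_mod_cast h3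
      have h6 := chi4Z_sq q
      rw [h5, mul_zero] at h6
      exact zero_ne_one h6
    · exact NeZero.ne q (by exact_mod_cast h3)
  rw [← thetaUnit_atkinLehner q M h h4, mul_assoc, mul_inv_cancel₀ hne, mul_one]

end

end Fermat.Agent.S36.helper105
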