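import Mathlib
import Fermat.Agent.S37.helper1162_ChartOnto
import Fermat.Agent.S18.helper4364_GaussInv

/-!
# S36 — the reduction of a chart along its Gauss valuation is integrally closed, LIFTED forms
(helper1162)

Base-level supplier (level `M''`, one Gauss valuation) of the `RedIC` / `RedClosed` / `red_root`
statements of the (KILL) datum, in the lifted vocabulary (elements of the function field and
membership in the valuation ring only: no residue field, no quotient in the statements).

Setting = the landed `Fermat.Agent.S37.helper1162` chart file: `A` a noetherian integrally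
closed domain with fraction field `K`, `ϖ` a prime of `A`, `L ⊇ K(t)` algebraic, `O` a
valuation subring of `L` with `GaussData ϖ t O` and `𝔪_O = ϖ O` (`hunif`), and the DN output
`IntLift (A[t]) L ϖ`.  `B` is ANY subring of `L` whose elements are exactly the elements
integral over `A[t]` (`(integralClosure (Algebra.adjoin A {t}) L).toSubring`,
`S36.helper248.chartRing A {t}`, ... : for both the hypothesis `hB` is `fun _ => Iff.rfl`).

* `isIntegralElem_of_monic_of_coeff` : transitivity of integrality for a ring hom (elementwise).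
* `chart_redIC_coeff` : carrier-free form (a monic polynomial over `L` with chart coefficients).
* `chart_redIC` : body of `helper1413.RedIC B O`.
* `chart_redClosed` : body of `helper3527.RedClosed B O`.
* `chart_red_root` : body of the field `red_root` of `helper36.KillData` (for one chart and one
  valuation).
* `chart_loc`, `chart_le`, `chart_isNoetherianRing_subring`,
  `chart_isDedekindDomain_quotient_center` : the base level of `helper6136.LPBAt`
  ((LP)(b) in the valuation vocabulary): (LOC), `B ≤ O`, noetherianity, and `B ⧸ p` Dedekind for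
  the centre `p` of `O`.
* `chart_isDedekindDomain_quotient_center_of_redIC` : the same Dedekind statement from the lifted
  `RedIC` + `GaussData` + `hunif` only (no `IntLift`): hedge for the case where the base-level
  `RedIC` is supplied by another design.
* `chartPair_base` : all of the above for the two charts `A[t]`, `A[t⁻¹]` at once (indexed by
  `Fin 2` as in `helper36.chart`).
-/

set_option autoImplicit false

namespace Fermat.Agent.S36.helper1162

open Polynomial IntermediateField
open Fermat.Agent.S18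
open Fermat.Agent.S37.helper1162

/-- Transitivity of integrality, elementwise, for a ring hom `φ : P → κ`: a root of a monic
polynomial whose coefficients are `φ`-integral is `φ`-integral. -/
theorem isIntegralElem_of_monic_of_coeff {P κ : Type*} [CommRing P] [CommRing κ] (φ : P →+* κ)
    (q : Polynomial κ) (hq : q.Monic) (hcoef : ∀ n, φ.IsIntegralElem (q.coeff n)) (x : κ)
    (hx : q.eval x = 0) : φ.IsIntegralElem x := by
  rcases subsingleton_or_nontrivial κ with hκ | hκ
  · exact ⟨Polynomial.X, Polynomial.monic_X, Subsingleton.elim _ _⟩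
  let _ : Algebra P κ := φ.toAlgebra
  have hlift : q ∈ Polynomial.lifts (algebraMap (integralClosure P κ) κ) := by
    rw [Polynomial.lifts_iff_coeff_lifts]
    intro n
    exact ⟨⟨q.coeff n, hcoef n⟩, rfl⟩
  obtain ⟨q', hq', -, hq'm⟩ := Polynomial.lifts_and_degree_eq_and_monic hlift hq
  have hx' : IsIntegral (integralClosure P κ) x := by
    refine ⟨q', hq'm, ?_⟩
    rw [← Polynomial.eval_map, hq']
    exact hx
  exact isIntegral_trans x hx'

section Chart

variable {A K L : Type*} [CommRing A] [IsDomain A] [IsIntegrallyClosed A] [IsNoetherianRing A]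
  [Field K] [Algebra A K] [IsFractionRing A K] [Field L] [Algebra K L] [Algebra A L]
  [IsScalarTower A K L]

/-- **Carrier-free lifted form.**  `g ∈ O` a root, modulo `𝔪_O`, of a monic polynomial whose
coefficients are integral over `A[t]` ⟹ `g` is congruent modulo `𝔪_O` to an element integral
over `A[t]`. -/
theorem chart_redIC_coeff (ϖ : A) (hϖ : Prime ϖ) (t : L) (ht : Transcendental K t)
    [Algebra.IsAlgebraic K⟮t⟯ L] (O : ValuationSubring L) (hG : helper3578.GaussData ϖ t O)
    (hI : IntLift (Algebra.adjoin A {t}) L (algebraMap A (Algebra.adjoin A {t}) ϖ))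
    (hunif : ∀ y : L, y ∈ O.nonunits → ∃ y' ∈ O, y = algebraMap A L ϖ * y')
    (g : L) (hg : g ∈ O) (p : Polynomial L) (hp : p.Monic)
    (hcoef : ∀ n, IsIntegral (Algebra.adjoin A {t}) (p.coeff n))
    (hpg : p.eval g ∈ O.nonunits) :
    ∃ r : L, IsIntegral (Algebra.adjoin A {t}) r ∧ g - r ∈ O.nonunits := by
  classical
  have hred : ∀ y : O, IsLocalRing.residue O y = 0 ↔ (y : L) ∈ O.nonunits := fun y => by
    rw [IsLocalRing.residue_eq_zero_iff, ValuationSubring.coe_mem_nonunits_iff]
  -- reductions of chart elements are integral over the reduction of `A[t]`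
  have hchart : ∀ (r : L) (_ : IsIntegral (Algebra.adjoin A {t}) r) (hrO : r ∈ O),
      ((IsLocalRing.residue O).comp ((algebraMap (Algebra.adjoin A {t}) L).codRestrict O
        (gaussData_adjoin_mem hG))).IsIntegralElem (IsLocalRing.residue O ⟨r, hrO⟩) := by
    intro r hr hrO
    obtain ⟨P, hP, hPr⟩ := hr
    refine ⟨P, hP, ?_⟩
    have h0 : Polynomial.eval₂ ((algebraMap (Algebra.adjoin A {t}) L).codRestrict O
        (gaussData_adjoin_mem hG)) (⟨r, hrO⟩ : O) P = 0 := by
      apply Subtype.ext
      have h2 := Polynomial.hom_eval₂ P ((algebraMap (Algebra.adjoin A {t}) L).codRestrict O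
        (gaussData_adjoin_mem hG)) O.subtype (⟨r, hrO⟩ : O)
      exact h2.trans hPr
    rw [← Polynomial.hom_eval₂, h0, map_zero]
  -- `p` has coefficients in `O`: lift it
  have hcO : ∀ n, p.coeff n ∈ O := fun n => gaussData_isIntegral_mem hG (hcoef n)
  have hlift : p ∈ Polynomial.lifts O.subtype := by
    rw [Polynomial.lifts_iff_coeff_lifts]
    intro n
    exact ⟨⟨p.coeff n, hcO n⟩, rfl⟩
  obtain ⟨pO, hpO, -, hpOm⟩ := Polynomial.lifts_and_degree_eq_and_monic hlift hp
  have hint : ((IsLocalRing.residue O).comp ((algebraMap (Algebra.adjoin A {t}) L).codRestrict O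
      (gaussData_adjoin_mem hG))).IsIntegralElem (IsLocalRing.residue O ⟨g, hg⟩) := by
    refine isIntegralElem_of_monic_of_coeff _ (pO.map (IsLocalRing.residue O))
      (hpOm.map _) ?_ _ ?_
    · intro n
      rw [Polynomial.coeff_map]
      have hc : pO.coeff n = ⟨p.coeff n, hcO n⟩ := by
        apply Subtype.ext
        have h := congrArg (fun q : Polynomial L => q.coeff n) hpO
        simpa [Polynomial.coeff_map] using h
      rw [hc]
      exact hchart (p.coeff n) (hcoef n) (hcO n)
    · rw [Polynomial.eval_map, Polynomial.eval₂_at_apply, hred]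
      have h1 : ((pO.eval (⟨g, hg⟩ : O) : O) : L) = p.eval g := by
        rw [← hpO, Polynomial.eval_map]
        exact (Polynomial.eval₂_at_apply O.subtype (⟨g, hg⟩ : O)).symm
      rw [h1]
      exact hpg
  obtain ⟨r, hr, hrr⟩ := chart_onto ϖ hϖ t ht O hG hI (IsLocalRing.residue O) hred hunif
    ⟨g, hg⟩ hint
  refine ⟨(r : L), hr, ?_⟩
  have h0 : IsLocalRing.residue O (⟨g, hg⟩ - r) = 0 := by rw [map_sub, hrr, sub_self]
  exact (hred _).mp h0

/-- **`RedIC B O`** (body of `helper1413.RedIC`): the reduction of the chart `B` along the Gauss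
valuation ring `O` is integrally closed in the residue field of `O`. -/
theorem chart_redIC (ϖ : A) (hϖ : Prime ϖ) (t : L) (ht : Transcendental K t)
    [Algebra.IsAlgebraic K⟮t⟯ L] (O : ValuationSubring L) (hG : helper3578.GaussData ϖ t O)
    (hI : IntLift (Algebra.adjoin A {t}) L (algebraMap A (Algebra.adjoin A {t}) ϖ))
    (hunif : ∀ y : L, y ∈ O.nonunits → ∃ y' ∈ O, y = algebraMap A L ϖ * y')
    (B : Subring L) (hB : ∀ x : L, x ∈ B ↔ IsIntegral (Algebra.adjoin A {t}) x) :
    ∀ g ∈ O, ∀ p : Polynomial B, p.Monic → p.eval₂ B.subtype g ∈ O.nonunits →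
      ∃ r ∈ B, g - r ∈ O.nonunits := by
  intro g hg p hp hpg
  obtain ⟨r, hr, hgr⟩ := chart_redIC_coeff ϖ hϖ t ht O hG hI hunif g hg (p.map B.subtype)
    (hp.map _) (fun n => by
      rw [Polynomial.coeff_map]
      exact (hB _).mp (p.coeff n).2) (by rw [Polynomial.eval_map]; exact hpg)
  exact ⟨r, (hB r).mpr hr, hgr⟩

/-- **`RedClosed B O`** (body of `helper3527.RedClosed`). -/
theorem chart_redClosed (ϖ : A) (hϖ : Prime ϖ) (t : L) (ht : Transcendental K t)
    [Algebra.IsAlgebraic K⟮t⟯ L] (O : ValuationSubring L) (hG : helper3578.GaussData ϖ t O)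
    (hI : IntLift (Algebra.adjoin A {t}) L (algebraMap A (Algebra.adjoin A {t}) ϖ))
    (hunif : ∀ y : L, y ∈ O.nonunits → ∃ y' ∈ O, y = algebraMap A L ϖ * y')
    (B : Subring L) (hB : ∀ x : L, x ∈ B ↔ IsIntegral (Algebra.adjoin A {t}) x) :
    ∀ (n : ℕ) (c : ℕ → L) (y : L), (∀ i, c i ∈ B) → y ∈ O →
      y ^ n + ∑ i ∈ Finset.range n, c i * y ^ i ∈ O.nonunits → ∃ r ∈ B, y - r ∈ O.nonunits := by
  intro n c y hc hy hrel
  have hdeg : (∑ i ∈ Finset.range n, Polynomial.C (c i) * Polynomial.X ^ i : Polynomial L).degree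
      < (n : WithBot ℕ) := by
    rw [Polynomial.degree_lt_iff_coeff_zero]
    intro m hm
    rw [Polynomial.finsetSum_coeff]
    refine Finset.sum_eq_zero fun i hi => ?_
    rw [Polynomial.coeff_C_mul_X_pow, if_neg]
    have := Finset.mem_range.mp hi
    omega
  obtain ⟨r, hr, hgr⟩ := chart_redIC_coeff ϖ hϖ t ht O hG hI hunif y hy
    (Polynomial.X ^ n + ∑ i ∈ Finset.range n, Polynomial.C (c i) * Polynomial.X ^ i)
    (Polynomial.monic_X_pow_add hdeg) (fun m => by
      rw [← hB, Polynomial.coeff_add, Polynomial.finsetSum_coeff, Polynomial.coeff_X_pow]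
      refine B.add_mem ?_ (B.sum_mem fun i _ => ?_)
      · split_ifs
        · exact B.one_mem
        · exact B.zero_mem
      · rw [Polynomial.coeff_C_mul_X_pow]
        split_ifs
        · exact hc i
        · exact B.zero_mem) (by
      rw [Polynomial.eval_add, Polynomial.eval_pow, Polynomial.eval_X, Polynomial.eval_finsetSum]
      simpa using hrel)
  exact ⟨r, (hB r).mpr hr, hgr⟩

/-- **`red_root`** (body of the field `red_root` of `helper36.KillData`, one chart, one
valuation): the reduction of the chart `B` along `O` is closed under `n`-th roots in the residue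
field of `O`. -/
theorem chart_red_root (ϖ : A) (hϖ : Prime ϖ) (t : L) (ht : Transcendental K t)
    [Algebra.IsAlgebraic K⟮t⟯ L] (O : ValuationSubring L) (hG : helper3578.GaussData ϖ t O)
    (hI : IntLift (Algebra.adjoin A {t}) L (algebraMap A (Algebra.adjoin A {t}) ϖ))
    (hunif : ∀ y : L, y ∈ O.nonunits → ∃ y' ∈ O, y = algebraMap A L ϖ * y')
    (B : Subring L) (hB : ∀ x : L, x ∈ B ↔ IsIntegral (Algebra.adjoin A {t}) x)
    (n : ℕ) (g : L) (hn : 0 < n) (h : ∃ b : L, b ∈ B ∧ g ^ n - b ∈ O.nonunits) :
    ∃ r : L, r ∈ B ∧ g - r ∈ O.nonunits := by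
  obtain ⟨b, hb, hgb⟩ := h
  have hbO : b ∈ O := gaussData_isIntegral_mem hG ((hB b).mp hb)
  have hgn : g ^ n ∈ O := by
    have h1 : g ^ n = (g ^ n - b) + b := by ring
    rw [h1]
    exact O.add_mem _ _ (O.nonunits_subset hgb) hbO
  have hg : g ∈ O := by
    rw [← ValuationSubring.valuation_le_one_iff] at hgn ⊢
    rw [map_pow] at hgn
    exact (pow_le_one_iff hn.ne').mp hgn
  obtain ⟨r, hr, hgr⟩ := chart_redIC_coeff ϖ hϖ t ht O hG hI hunif g hg
    (Polynomial.X ^ n - Polynomial.C b) (Polynomial.monic_X_pow_sub_C b hn.ne') (fun m => by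
      rw [← hB, Polynomial.coeff_sub, Polynomial.coeff_X_pow, Polynomial.coeff_C]
      refine B.sub_mem ?_ ?_
      · split_ifs
        · exact B.one_mem
        · exact B.zero_mem
      · split_ifs
        · exact hb
        · exact B.zero_mem) (by
      rw [Polynomial.eval_sub, Polynomial.eval_pow, Polynomial.eval_X, Polynomial.eval_C]
      exact hgb)
  exact ⟨r, (hB r).mpr hr, hgr⟩

/-! ### Base level of (LP)(b) in the valuation vocabulary (`helper6136.LPBAt`) -/

omit [IsDomain A] [IsIntegrallyClosed A] [IsNoetherianRing A] in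
/-- **(LOC) at the base level**: the Gauss valuation ring `O` is the local ring of the chart `B`
at its centre: every `a ∈ O` has a denominator `s ∈ B`, `s ∉ 𝔪_O`, with `s * a ∈ B`
(hypothesis `hloc'` of `helper6136.locDVRQuot_of_lift` / `LPBAt.lift`).  Only `GaussData`. -/
theorem chart_loc {ϖ : A} {t : L} {O : ValuationSubring L} (hG : helper3578.GaussData ϖ t O)
    (B : Subring L) (hB : ∀ x : L, x ∈ B ↔ IsIntegral (Algebra.adjoin A {t}) x) :
    ∀ a ∈ O, ∃ s ∈ B, s ∉ O.nonunits ∧ s * a ∈ B := by
  intro a ha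
  obtain ⟨s, ⟨i, hi⟩, hint⟩ := hG.int a ha
  refine ⟨Polynomial.aeval t s, ?_, fun h => hi (hG.prim s h i), (hB _).mpr hint⟩
  rw [hB]
  have hmem : Polynomial.aeval t s ∈ Algebra.adjoin A {t} :=
    Polynomial.aeval_mem_adjoin_singleton A t
  exact isIntegral_algebraMap (R := Algebra.adjoin A {t}) (A := L) (x := ⟨_, hmem⟩)

/-- The chart `B` lies in the Gauss valuation ring (`hBV`). -/
theorem chart_le {ϖ : A} {t : L} {O : ValuationSubring L} (hG : helper3578.GaussData ϖ t O)
    (B : Subring L) (hB : ∀ x : L, x ∈ B ↔ IsIntegral (Algebra.adjoin A {t}) x) :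
    ∀ b ∈ B, b ∈ O :=
  fun b hb => gaussData_isIntegral_mem hG ((hB b).mp hb)

/-- The chart `B` (any subring carrier) is noetherian when `L / K(t)` is finite separable. -/
theorem chart_isNoetherianRing_subring (t : L) (ht : Transcendental K t)
    [FiniteDimensional K⟮t⟯ L] [Algebra.IsSeparable K⟮t⟯ L]
    (B : Subring L) (hB : ∀ x : L, x ∈ B ↔ IsIntegral (Algebra.adjoin A {t}) x) :
    IsNoetherianRing B := by
  have hBeq : B = (integralClosure (Algebra.adjoin A {t}) L).toSubring :=
    Subring.ext fun x => hB x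
  subst hBeq
  exact chart_isNoetherianRing t ht

/-- **Base level of `helper6136.LPBAt`** (hypothesis `h` of `lpbAt_of_isDedekindDomain`
verbatim): for every prime `p` of the chart `B` which is the centre of the Gauss valuation ring
`O` (`b ∈ p ↔ b ∈ 𝔪_O`), the quotient `B ⧸ p` is a Dedekind domain. -/
theorem chart_isDedekindDomain_quotient_center (ϖ : A) (hϖ : Prime ϖ)
    (hmax : (Ideal.span {ϖ}).IsMaximal) (t : L) (ht : Transcendental K t)
    [IsNoetherianRing (integralClosure (Algebra.adjoin A {t}) L)]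
    (O : ValuationSubring L) (hG : helper3578.GaussData ϖ t O)
    (hunif : ∀ y : L, y ∈ O.nonunits → ∃ y' ∈ O, y = algebraMap A L ϖ * y')
    (hI : IntLift (Algebra.adjoin A {t}) L (algebraMap A (Algebra.adjoin A {t}) ϖ))
    (B : Subring L) (hB : ∀ x : L, x ∈ B ↔ IsIntegral (Algebra.adjoin A {t}) x) :
    ∀ p : Ideal B, p.IsPrime → (∀ b : B, b ∈ p ↔ (b : L) ∈ O.nonunits) →
      IsDedekindDomain (B ⧸ p) := by
  have hBeq : B = (integralClosure (Algebra.adjoin A {t}) L).toSubring :=
    Subring.ext fun x => hB x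
  subst hBeq
  intro p _ hp
  have hpe : p = Ideal.span {algebraMap (Algebra.adjoin A {t})
      (integralClosure (Algebra.adjoin A {t}) L) (algebraMap A (Algebra.adjoin A {t}) ϖ)} := by
    ext b
    rw [hp b]
    exact (chart_mem_span_iff ϖ hϖ t ht O hG hunif b).symm
  rw [hpe]
  exact chart_isDedekindDomain_quotient ϖ hϖ hmax t ht O hG hunif hI

/-! ### Hedge: the base of `LPBAt` from the lifted `RedIC` alone (no `IntLift`)

If the base-level `RedIC` comes from another design (squeeze over `(ℚ̄, A)` + descent), the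
Dedekind property of the reduced chart still follows from `GaussData` + `hunif`. -/

/-- `R ⧸ lam R` is a Dedekind domain as soon as it is integrally closed (`R` the noetherian
integral closure of `P`, `lam` prime in `P` and in `R`, `P ⧸ (lam)` a principal ideal domain). -/
theorem isDedekindDomain_quotient_of_isIntegrallyClosed {P L : Type*} [CommRing P] [Field L]
    [Algebra P L] [IsNoetherianRing (integralClosure P L)]
    (lam : P) (hlam : Prime lam) [IsPrincipalIdealRing (P ⧸ Ideal.span {lam})]
    [(Ideal.span {algebraMap P (integralClosure P L) lam}).IsPrime]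
    (hic : IsIntegrallyClosed
      (integralClosure P L ⧸ Ideal.span {algebraMap P (integralClosure P L) lam})) :
    IsDedekindDomain
      (integralClosure P L ⧸ Ideal.span {algebraMap P (integralClosure P L) lam}) := by
  have hprimeP : (Ideal.span {lam}).IsPrime := (Ideal.span_singleton_prime hlam.ne_zero).mpr hlam
  have hdomD : IsDomain (P ⧸ Ideal.span {lam}) := Ideal.Quotient.isDomain _
  have H : ∀ a ∈ Ideal.span {lam}, algebraMap P
      (integralClosure P L ⧸ Ideal.span {algebraMap P (integralClosure P L) lam}) a = 0 := by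
    intro a ha
    obtain ⟨e, rfl⟩ := Ideal.mem_span_singleton'.mp ha
    rw [algebraMap_quotient_eq, Ideal.Quotient.eq_zero_iff_mem, map_mul]
    exact Ideal.mul_mem_left _ _ (Ideal.subset_span rfl)
  let _ : Algebra (P ⧸ Ideal.span {lam})
      (integralClosure P L ⧸ Ideal.span {algebraMap P (integralClosure P L) lam}) :=
    (Ideal.Quotient.lift (Ideal.span {lam}) (algebraMap P _) H).toAlgebra
  have : IsScalarTower P (P ⧸ Ideal.span {lam})
      (integralClosure P L ⧸ Ideal.span {algebraMap P (integralClosure P L) lam}) :=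
    IsScalarTower.of_algebraMap_eq (fun x => (Ideal.Quotient.lift_mk _ _ H).symm)
  have hint : Algebra.IsIntegral (P ⧸ Ideal.span {lam})
      (integralClosure P L ⧸ Ideal.span {algebraMap P (integralClosure P L) lam}) := by
    refine ⟨fun q => ?_⟩
    obtain ⟨r, rfl⟩ := Ideal.Quotient.mk_surjective q
    have h1 : IsIntegral P (Ideal.Quotient.mk
        (Ideal.span {algebraMap P (integralClosure P L) lam}) r) :=
      (integralClosure.isIntegral r).map (Ideal.Quotient.mkₐ P _)
    exact h1.tower_top
  exact isDedekindDomain_of_isIntegral_of_isIntegrallyClosed (P ⧸ Ideal.span {lam}) _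

/-- **Base level of `helper6136.LPBAt` from `RedIC`** (hypothesis `h` of
`lpbAt_of_isDedekindDomain` verbatim): `GaussData` + `hunif` + the lifted statement "the
reduction of the chart `B` along `O` is integrally closed" (`hIC` = body of `helper1413.RedIC B O`)
⟹ `B ⧸ p` is a Dedekind domain for the centre `p` of `O` on `B`.  No `IntLift`. -/
theorem chart_isDedekindDomain_quotient_center_of_redIC (ϖ : A) (hϖ : Prime ϖ)
    (hmax : (Ideal.span {ϖ}).IsMaximal) (t : L) (ht : Transcendental K t)
    [IsNoetherianRing (integralClosure (Algebra.adjoin A {t}) L)]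
    (O : ValuationSubring L) (hG : helper3578.GaussData ϖ t O)
    (hunif : ∀ y : L, y ∈ O.nonunits → ∃ y' ∈ O, y = algebraMap A L ϖ * y')
    (B : Subring L) (hB : ∀ x : L, x ∈ B ↔ IsIntegral (Algebra.adjoin A {t}) x)
    (hIC : ∀ g ∈ O, ∀ p : Polynomial B, p.Monic → p.eval₂ B.subtype g ∈ O.nonunits →
      ∃ r ∈ B, g - r ∈ O.nonunits) :
    ∀ p : Ideal B, p.IsPrime → (∀ b : B, b ∈ p ↔ (b : L) ∈ O.nonunits) →
      IsDedekindDomain (B ⧸ p) := by
  classical
  -- carrier-free form of `hIC`
  have hIC' : ∀ g ∈ O, ∀ q : Polynomial L, q.Monic →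
      (∀ n, IsIntegral (Algebra.adjoin A {t}) (q.coeff n)) → q.eval g ∈ O.nonunits →
      ∃ r : L, IsIntegral (Algebra.adjoin A {t}) r ∧ g - r ∈ O.nonunits := by
    intro g hg q hq hcoef hqg
    have hlift : q ∈ Polynomial.lifts B.subtype := by
      rw [Polynomial.lifts_iff_coeff_lifts]
      intro n
      exact ⟨⟨q.coeff n, (hB _).mpr (hcoef n)⟩, rfl⟩
    obtain ⟨qB, hqB, -, hqBm⟩ := Polynomial.lifts_and_degree_eq_and_monic hlift hq
    obtain ⟨r, hr, hgr⟩ := hIC g hg qB hqBm (by rw [← Polynomial.eval_map, hqB]; exact hqg)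
    exact ⟨r, (hB r).mp hr, hgr⟩
  have hloc := chart_loc hG B hB
  have hBeq : B = (integralClosure (Algebra.adjoin A {t}) L).toSubring :=
    Subring.ext fun x => hB x
  subst hBeq
  intro p _ hp
  have htA : Transcendental A t := ht.restrictScalars (IsFractionRing.injective A K)
  have hπ : Prime (algebraMap A (Algebra.adjoin A {t}) ϖ) :=
    helper403.prime_algebraMap_adjoin hϖ t htA
  have := helper403.isPrincipalIdealRing_adjoin_quotient ϖ hmax t htA
  have := chart_isPrime_span ϖ hϖ t ht O hG hunif
  have hpe : p = Ideal.span {algebraMap (Algebra.adjoin A {t})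
      (integralClosure (Algebra.adjoin A {t}) L) (algebraMap A (Algebra.adjoin A {t}) ϖ)} := by
    ext b
    rw [hp b]
    exact (chart_mem_span_iff ϖ hϖ t ht O hG hunif b).symm
  rw [hpe]
  have hnormal := isIntegrallyClosed_quotient_of_valuationSubring (F := L)
    (T := integralClosure (Algebra.adjoin A {t}) L) O
    (algebraMap (Algebra.adjoin A {t}) (integralClosure (Algebra.adjoin A {t}) L)
      (algebraMap A (Algebra.adjoin A {t}) ϖ))
    (fun r => gaussData_isIntegral_mem hG r.2)
    (fun r => by
      rw [← Ideal.mem_span_singleton]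
      exact (chart_mem_span_iff ϖ hϖ t ht O hG hunif r).symm)
    (fun y hy => by
      obtain ⟨s, hsB, hsO, hsy⟩ := hloc y hy
      refine ⟨⟨s * y, hsy⟩, ⟨s, hsB⟩, hsO, ?_⟩
      have h0 : y * s - s * y = 0 := by ring
      show y * s - s * y ∈ O.nonunits
      rw [h0, ValuationSubring.mem_nonunits_iff, map_zero]
      exact zero_lt_one)
    (fun y hy ⟨q, hq, hqy⟩ => by
      obtain ⟨r, hr, hyr⟩ := hIC' y hy
        (q.map (algebraMap (integralClosure (Algebra.adjoin A {t}) L) L)) (hq.map _)
        (fun n => by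
          rw [Polynomial.coeff_map]
          exact (q.coeff n).2)
        (by
          rw [Polynomial.eval_map, ← Polynomial.aeval_def]
          exact hqy)
      exact ⟨⟨r, hr⟩, hyr⟩)
  exact isDedekindDomain_quotient_of_isIntegrallyClosed _ hπ hnormal.2

/-! ### The two charts `A[t]`, `A[t⁻¹]` of one base line, in one statement -/

/-- **Base level, both charts.**  `B 0`, `B 1` = the integral closures of `A[t]`, `A[t⁻¹]` in `L`
(any subring carriers; for `B i := chartRing A (if i = 0 then {t} else {t⁻¹})` both `hB0`, `hB1`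
are `fun _ => Iff.rfl`), `O` the Gauss valuation ring (`GaussData ϖ t O`, `𝔪_O = ϖ O`), and the DN
output `IntLift` on both charts.  Then for `i = 0, 1`:
(1) `RedIC (B i) O` (body of `helper1413.RedIC`); (2) `B i ≤ O`; (3) (LOC): `O` is the local ring
of `B i` at its centre; (4) `B i` is noetherian; (5) `B i ⧸ p` is a Dedekind domain for the centre
`p` of `O` on `B i` (hypothesis of `helper6136.lpbAt_of_isDedekindDomain`). -/
theorem chartPair_base [CharZero K] (ϖ : A) (hϖ : Prime ϖ) (hmax : (Ideal.span {ϖ}).IsMaximal)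
    (t : L) (ht : Transcendental K t) [FiniteDimensional K⟮t⟯ L]
    (O : ValuationSubring L) (hG : helper3578.GaussData ϖ t O)
    (hunif : ∀ y : L, y ∈ O.nonunits → ∃ y' ∈ O, y = algebraMap A L ϖ * y')
    (hI0 : IntLift (Algebra.adjoin A {t}) L (algebraMap A (Algebra.adjoin A {t}) ϖ))
    (hI1 : IntLift (Algebra.adjoin A {t⁻¹}) L (algebraMap A (Algebra.adjoin A {t⁻¹}) ϖ))
    (B : Fin 2 → Subring L) (hB0 : ∀ x : L, x ∈ B 0 ↔ IsIntegral (Algebra.adjoin A {t}) x)
    (hB1 : ∀ x : L, x ∈ B 1 ↔ IsIntegral (Algebra.adjoin A {t⁻¹}) x) :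
    ∀ i : Fin 2,
      (∀ g ∈ O, ∀ p : Polynomial (B i), p.Monic → p.eval₂ (B i).subtype g ∈ O.nonunits →
        ∃ r ∈ B i, g - r ∈ O.nonunits) ∧
      (∀ b ∈ B i, b ∈ O) ∧
      (∀ a ∈ O, ∃ s ∈ B i, s ∉ O.nonunits ∧ s * a ∈ B i) ∧
      IsNoetherianRing (B i) ∧
      (∀ p : Ideal (B i), p.IsPrime → (∀ b : B i, b ∈ p ↔ (b : L) ∈ O.nonunits) →
        IsDedekindDomain (B i ⧸ p)) := by
  have key : ∀ (s : L) (_ : Transcendental K s) (_ : FiniteDimensional K⟮s⟯ L)
      (_ : helper3578.GaussData ϖ s O)
      (_ : IntLift (Algebra.adjoin A {s}) L (algebraMap A (Algebra.adjoin A {s}) ϖ))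
      (B' : Subring L) (_ : ∀ x : L, x ∈ B' ↔ IsIntegral (Algebra.adjoin A {s}) x),
      (∀ g ∈ O, ∀ p : Polynomial B', p.Monic → p.eval₂ B'.subtype g ∈ O.nonunits →
        ∃ r ∈ B', g - r ∈ O.nonunits) ∧
      (∀ b ∈ B', b ∈ O) ∧
      (∀ a ∈ O, ∃ s ∈ B', s ∉ O.nonunits ∧ s * a ∈ B') ∧
      IsNoetherianRing B' ∧
      (∀ p : Ideal B', p.IsPrime → (∀ b : B', b ∈ p ↔ (b : L) ∈ O.nonunits) →
        IsDedekindDomain (B' ⧸ p)) := by
    intro s hs hfin hGs hIs B' hB'
    have : CharZero ↥K⟮s⟯ := charZero_of_injective_algebraMap (algebraMap K ↥K⟮s⟯).injective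
    have : Algebra.IsSeparable ↥K⟮s⟯ L := inferInstance
    have hN : IsNoetherianRing (integralClosure (Algebra.adjoin A {s}) L) :=
      chart_isNoetherianRing s hs
    exact ⟨chart_redIC ϖ hϖ s hs O hGs hIs hunif B' hB', chart_le hGs B' hB',
      chart_loc hGs B' hB', chart_isNoetherianRing_subring s hs B' hB',
      chart_isDedekindDomain_quotient_center ϖ hϖ hmax s hs O hGs hunif hIs B' hB'⟩
  intro i
  by_cases hi : i = 0
  · subst hi
    exact key t ht inferInstance hG hI0 (B 0) hB0
  · have hi1 : i = 1 := by omega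
    subst hi1
    exact key t⁻¹ (helper403.transcendental_inv ht)
      (helper403.finiteDimensional_adjoinSimple_inv t) (helper4364.gaussData_inv hG) hI1 (B 1) hB1

end Chart

end Fermat.Agent.S36.helper1162
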