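import Mathlib
import Fermat.Agent.S37.helper4289_RegCusp
import Fermat.Agent.S37.helper1162_ChartOnto
import Fermat.Agent.S37.helper530_RegFinT49
import Fermat.Agent.S37.helper6932_RegFinHoriz
import Fermat.Agent.S18.helper508_GaussBridge

/-!
# S36, (LP)(b) over a discrete valuation ring on the base lines `t₄`, `t₉` (helper4289)

Trace-duality normality (the S18 track-B machine `helper98.intLift_of_dualNormal`) applied
directly over a discrete valuation ring `A` of a field `L ⊆ ℚ̄` (no squeeze over `ℚ̄`, no descent),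
on the charts `A[t]`, `A[t⁻¹]` of the Hauptmodul lines `t = t₄` (`4 ∣ M`, residue characteristic
odd) and `t = t₉` (`9 ∣ M`, residue characteristic `≠ 3`) of `F_{M,L}`, `ℓ ∤ M`.

Generic part:

* `isIntegral_adjoin_iff_isIntegralElem`, `exists_aeval_eq_pow_mul` (homogenisation),
  `gaussData_of_rel` : `GaussData` transfers from `j` to a coordinate `t` with `j g(t) = r(t)`;
* `chart_vert_of_discr` : the discriminant form of vertical unramifiedness gives clause (c) of the
  DN machine.
-/

set_option autoImplicit false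
set_option synthInstance.maxHeartbeats 400000
set_option linter.unusedSectionVars false
set_option linter.style.haveILetI false

noncomputable section

namespace Fermat.Agent.S36.helper4289

open Polynomial IntermediateField
open Fermat.Agent.S18

/-! ## Generic lemmas -/

section Generic

variable {A F : Type*} [CommRing A] [Field F] [Algebra A F]

/-- Integrality over `A[t]` in `eval₂`-form. -/
theorem isIntegral_adjoin_iff_isIntegralElem (t x : F) :
    IsIntegral (Algebra.adjoin A {t}) x ↔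
      (eval₂RingHom (algebraMap A F) t).IsIntegralElem x := by
  classical
  let φ : A[X] →ₐ[A] Algebra.adjoin A {t} :=
    (aeval t : A[X] →ₐ[A] F).codRestrict (Algebra.adjoin A {t}) (fun q => by
      rw [Algebra.adjoin_singleton_eq_range_aeval]; exact ⟨q, rfl⟩)
  have hφsurj : Function.Surjective φ := by
    rintro ⟨y, hy⟩
    have hy' : y ∈ (aeval t : A[X] →ₐ[A] F).range := by
      rw [← Algebra.adjoin_singleton_eq_range_aeval]; exact hy
    obtain ⟨q, hq⟩ := hy'
    exact ⟨q, Subtype.ext hq⟩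
  have hcomp : (algebraMap (Algebra.adjoin A {t}) F).comp (φ : A[X] →+* Algebra.adjoin A {t}) =
      eval₂RingHom (algebraMap A F) t := by
    apply Polynomial.ringHom_ext
    · intro a
      simp [φ]
    · simp [φ]
  constructor
  · rintro ⟨p, hp, hpx⟩
    obtain ⟨q, hq, -, hqm⟩ := Polynomial.lifts_and_natDegree_eq_and_monic
      ((Polynomial.mem_lifts _).mpr
        (Polynomial.map_surjective (φ : A[X] →+* Algebra.adjoin A {t}) hφsurj p)) hp
    refine ⟨q, hqm, ?_⟩
    rw [← hcomp, ← Polynomial.eval₂_map, hq]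
    exact hpx
  · rintro ⟨q, hq, hqx⟩
    refine ⟨q.map (φ : A[X] →+* Algebra.adjoin A {t}), hq.map _, ?_⟩
    rw [Polynomial.eval₂_map, hcomp]
    exact hqx

/-- Every polynomial in `t` over `A` lies in a valuation subring containing `A` and `t`. -/
theorem aeval_mem_valuationSubring (t : F) (O : ValuationSubring F)
    (hle : ∀ a : A, algebraMap A F a ∈ O) (ht : t ∈ O) (p : A[X]) : aeval t p ∈ O := by
  induction p using Polynomial.induction_on with
  | C a => rw [aeval_C]; exact hle a
  | add p q hp hq => rw [map_add]; exact O.add_mem _ _ hp hq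
  | monomial n a ih =>
    rw [pow_succ, ← mul_assoc, map_mul, aeval_X]
    exact O.mul_mem _ _ ih ht

/-- **Homogenisation.** If `j * g(t) = r(t)`, then `g(t) ^ n * s(j)` is a polynomial in `t` for
`n ≥ deg s`. -/
theorem exists_aeval_eq_pow_mul {j t : F} (r g : A[X]) (hrel : j * aeval t g = aeval t r)
    (s : A[X]) (n : ℕ) (hn : s.natDegree ≤ n) :
    ∃ s' : A[X], aeval t s' = aeval t g ^ n * aeval j s := by
  refine ⟨∑ i ∈ Finset.range (s.natDegree + 1), C (s.coeff i) * r ^ i * g ^ (n - i), ?_⟩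
  rw [map_sum, Polynomial.aeval_eq_sum_range (p := s), Finset.mul_sum]
  refine Finset.sum_congr rfl fun i hi => ?_
  have hi' : i ≤ n := le_trans (Nat.lt_succ_iff.mp (Finset.mem_range.mp hi)) hn
  rw [map_mul, map_mul, aeval_C, map_pow, map_pow, ← hrel, Algebra.smul_def, mul_pow]
  have h1 : aeval t g ^ n = aeval t g ^ i * aeval t g ^ (n - i) := by
    rw [← pow_add, Nat.add_sub_cancel' hi']
  rw [h1]
  ring

/-- A product of a non-unit and an element of a valuation ring is a non-unit. -/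
theorem mul_mem_nonunits (O : ValuationSubring F) {a b : F} (ha : a ∈ O.nonunits) (hb : b ∈ O) :
    a * b ∈ O.nonunits := by
  rw [ValuationSubring.mem_nonunits_iff] at ha ⊢
  rw [map_mul]
  exact mul_lt_one_of_lt_of_le ha ((O.valuation_le_one_iff b).mpr hb)

/-- A product of elements of a valuation ring which are not non-units is not a non-unit. -/
theorem mul_notMem_nonunits (O : ValuationSubring F) {a b : F} (ha : a ∈ O) (hb : b ∈ O)
    (ha' : a ∉ O.nonunits) (hb' : b ∉ O.nonunits) : a * b ∉ O.nonunits := by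
  rw [ValuationSubring.mem_nonunits_iff, not_lt] at ha' hb' ⊢
  have h1 : O.valuation a = 1 := le_antisymm ((O.valuation_le_one_iff a).mpr ha) ha'
  have h2 : O.valuation b = 1 := le_antisymm ((O.valuation_le_one_iff b).mpr hb) hb'
  rw [map_mul, h1, h2, one_mul]

theorem pow_notMem_nonunits (O : ValuationSubring F) {a : F} (ha : a ∈ O)
    (ha' : a ∉ O.nonunits) (n : ℕ) : a ^ n ∉ O.nonunits := by
  induction n with
  | zero =>
    rw [pow_zero, ValuationSubring.mem_nonunits_iff, map_one]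
    exact lt_irrefl _
  | succ n ih =>
    rw [pow_succ]
    exact mul_notMem_nonunits O (O.pow_mem ha n) ha ih ha'

/-- **`GaussData` along a coordinate change.** If `(ϖ, j, O)` is Gauss data and `t ∈ O` is a
coordinate with `j * g(t) = r(t)`, `g` primitive, which is residually transcendental (`prim`),
then `(ϖ, t, O)` is Gauss data. -/
theorem gaussData_of_rel {ϖ : A} {j t : F} {O : ValuationSubring F}
    (hG : helper3578.GaussData ϖ j O) (r g : A[X]) (hrel : j * aeval t g = aeval t r)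
    (ht : t ∈ O)
    (hprim : ∀ p : A[X], aeval t p ∈ O.nonunits → ∀ i, ϖ ∣ p.coeff i)
    (hg : ∃ i, ¬ ϖ ∣ g.coeff i) :
    helper3578.GaussData ϖ t O where
  le := hG.le
  unif := hG.unif
  t_mem := ht
  prim := hprim
  int := by
    intro x hx
    obtain ⟨s, ⟨i, hi⟩, hint⟩ := hG.int x hx
    rw [isIntegral_adjoin_iff_isIntegralElem] at hint
    obtain ⟨D, hD⟩ := Fermat.Agent.Lib.helper28.exists_pow_mul_isIntegralElem
      (algebraMap A F) r g j t hrel hint
    obtain ⟨s', hs'⟩ := exists_aeval_eq_pow_mul r g hrel s (D + s.natDegree)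
      (Nat.le_add_left _ _)
    have hgO : aeval t g ∈ O := aeval_mem_valuationSubring t O hG.le ht g
    have hgu : aeval t g ∉ O.nonunits := by
      obtain ⟨i₀, hi₀⟩ := hg
      exact fun h => hi₀ (hprim g h i₀)
    have hsO : aeval j s ∈ O := aeval_mem_valuationSubring j O hG.le hG.t_mem s
    have hsu : aeval j s ∉ O.nonunits := fun h => hi (hG.prim s h i)
    refine ⟨s', ?_, ?_⟩
    · by_contra hall
      push Not at hall
      obtain ⟨s'', hs''⟩ := (Polynomial.C_dvd_iff_dvd_coeff ϖ s').mpr hall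
      have h1 : aeval t s' ∈ O.nonunits := by
        rw [hs'', map_mul, aeval_C]
        exact mul_mem_nonunits O hG.unif (aeval_mem_valuationSubring t O hG.le ht s'')
      rw [hs'] at h1
      exact mul_notMem_nonunits O (O.pow_mem hgO _) hsO (pow_notMem_nonunits O hgO hgu _) hsu h1
    · rw [isIntegral_adjoin_iff_isIntegralElem]
      have h2 : aeval t s' * x =
          eval₂RingHom (algebraMap A F) t (g ^ s.natDegree) *
            (eval₂ (algebraMap A F) t g ^ D * (aeval j s * x)) := by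
        rw [hs', pow_add, coe_eval₂RingHom, eval₂_pow, ← aeval_def]
        ring
      rw [h2]
      exact RingHom.IsIntegralElem.mul _ ((eval₂RingHom (algebraMap A F) t).isIntegralElem_map)
        hD

end Generic


/-! ## Branch polynomials -/

section Branch

theorem squarefree_of_bezout {k : Type*} [Field k] (f a b : k[X])
    (h : a * f + b * derivative f = 1) : Squarefree f :=
  ((separable_def f).mpr ⟨a, b, h⟩).squarefree

theorem squarefree_cusp4 {k : Type*} [Field k] (h2 : (2 : k) ≠ 0) :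
    Squarefree (X * (X + 16) : k[X]) := by
  have hu : (256 : k) * (256 : k)⁻¹ = 1 := by
    apply mul_inv_cancel₀
    have : (256 : k) = 2 ^ 8 := by norm_num
    rw [this]
    exact pow_ne_zero 8 h2
  refine squarefree_of_bezout _ (-(4 * C (256 : k)⁻¹)) (C (256 : k)⁻¹ * (2 * X + 16)) ?_
  have hd : derivative (X * (X + 16) : k[X]) = 2 * X + 16 := by
    simp only [derivative_mul, derivative_add, derivative_X, derivative_ofNat]
    ring
  rw [hd]
  have hC : (256 : k[X]) * C (256 : k)⁻¹ = 1 := by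
    rw [← map_ofNat (C : k →+* k[X]) 256, ← map_mul, hu, map_one]
  linear_combination hC

theorem squarefree_cusp4_inv {k : Type*} [Field k] :
    Squarefree (X * (16 * X + 1) : k[X]) := by
  refine squarefree_of_bezout _ (-64) (32 * X + 1) ?_
  have hd : derivative (X * (16 * X + 1) : k[X]) = 32 * X + 1 := by
    simp only [derivative_mul, derivative_add, derivative_X, derivative_ofNat, derivative_one]
    ring
  rw [hd]
  ring

theorem squarefree_cusp9 {k : Type*} [Field k] (h3 : (3 : k) ≠ 0) :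
    Squarefree (X * (X ^ 2 + 9 * X + 27) : k[X]) := by
  have hu : (81 : k) * (81 : k)⁻¹ = 1 := by
    apply mul_inv_cancel₀
    have : (81 : k) = 3 ^ 4 := by norm_num
    rw [this]
    exact pow_ne_zero 4 h3
  refine squarefree_of_bezout _ (-(3 * C (81 : k)⁻¹)) (C (81 : k)⁻¹ * (X + 3)) ?_
  have hd : derivative (X * (X ^ 2 + 9 * X + 27) : k[X]) = 3 * X ^ 2 + 18 * X + 27 := by
    simp only [derivative_mul, derivative_add, derivative_X, derivative_ofNat, derivative_X_pow, Nat.cast_ofNat, map_ofNat]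
    ring
  rw [hd]
  have hC : (81 : k[X]) * C (81 : k)⁻¹ = 1 := by
    rw [← map_ofNat (C : k →+* k[X]) 81, ← map_mul, hu, map_one]
  linear_combination hC

theorem squarefree_cusp9_inv {k : Type*} [Field k] :
    Squarefree (X * (27 * X ^ 2 + 9 * X + 1) : k[X]) := by
  refine squarefree_of_bezout _ (-27) (9 * X + 1) ?_
  have hd : derivative (X * (27 * X ^ 2 + 9 * X + 1) : k[X]) = 81 * X ^ 2 + 18 * X + 1 := by
    simp only [derivative_mul, derivative_add, derivative_X, derivative_ofNat, derivative_X_pow, Nat.cast_ofNat, map_ofNat,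
      derivative_one]
    ring
  rw [hd]
  ring

end Branch

/-! ## Clause (c) from the discriminant form -/

section Discr

variable {A K L : Type*} [CommRing A] [IsDomain A] [Field K]
  [Algebra A K] [IsFractionRing A K] [Field L] [Algebra K L] [Algebra A L] [IsScalarTower A K L]

/-- **(c) from a discriminant.** A `[L : K(t)]`-tuple of elements integral over `A[t]` whose
discriminant is `d(t)`, `d ∈ A[X]` not divisible by `ϖ`, is a basis, in the shape `hc` of
`S37.helper4289.chart_intLift`. -/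
theorem chart_vert_of_discr (t : L) (ht : Transcendental K t) [FiniteDimensional K⟮t⟯ L] (ϖ : A)
    (b : Fin (Module.finrank K⟮t⟯ L) → L) (d : A[X])
    (hb : ∀ i, IsIntegral (Algebra.adjoin A {t}) (b i))
    (hd : aeval t d = algebraMap K⟮t⟯ L (Algebra.discr K⟮t⟯ b))
    (hnd : ¬ C ϖ ∣ d) :
    letI := helper403.algebraAdjoinSimple (A := A) (K := K) t
    ∃ (ι : Type) (_ : Fintype ι) (_ : DecidableEq ι) (c : Module.Basis ι K⟮t⟯ L)
      (d : Algebra.adjoin A {t}), (∀ i, IsIntegral (Algebra.adjoin A {t}) (c i)) ∧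
      Algebra.discr K⟮t⟯ c = algebraMap (Algebra.adjoin A {t}) K⟮t⟯ d ∧
      ¬ algebraMap A (Algebra.adjoin A {t}) ϖ ∣ d := by
  classical
  letI := helper403.algebraAdjoinSimple (A := A) (K := K) t
  have htA : Transcendental A t := ht.restrictScalars (IsFractionRing.injective A K)
  have hd0 : d ≠ 0 := by
    rintro rfl
    exact hnd (dvd_zero _)
  have hdt : aeval t d ≠ 0 := fun h => hd0 ((transcendental_iff.mp htA) d h)
  have hdisc : Algebra.discr K⟮t⟯ b ≠ 0 := by
    intro h
    rw [h, map_zero] at hd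
    exact hdt hd
  have hli : LinearIndependent K⟮t⟯ b := by
    by_contra hli
    exact hdisc (Algebra.discr_zero_of_not_linearIndependent K⟮t⟯ hli)
  haveI : Nonempty (Fin (Module.finrank K⟮t⟯ L)) := Fin.pos_iff_nonempty.mp Module.finrank_pos
  let c : Module.Basis (Fin (Module.finrank K⟮t⟯ L)) K⟮t⟯ L :=
    basisOfLinearIndependentOfCardEqFinrank hli (by rw [Fintype.card_fin])
  have hc : ⇑c = b := coe_basisOfLinearIndependentOfCardEqFinrank hli _
  refine ⟨_, inferInstance, inferInstance, c, helper403.polyEquivAdjoin t htA d, ?_, ?_, ?_⟩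
  · intro i
    rw [hc]
    exact hb i
  · apply (algebraMap K⟮t⟯ L).injective
    rw [hc, ← hd]
    rfl
  · rw [helper403.algebraMap_dvd_polyEquivAdjoin_iff]
    exact fun h => hnd ((Polynomial.C_dvd_iff_dvd_coeff ϖ d).mpr h)

end Discr

/-! ## The modular carrier: Gauss data on a Hauptmodul line -/

section Modular

open helper897 helper508 ModularCurve
open Fermat.Agent.Lib

variable (M : ℕ) [NeZero M] (ℓ : ℕ) [Fact ℓ.Prime] (hℓM : ¬ ℓ ∣ M)
variable {L : Type} [Field L] [Algebra ℚ L] (A : ValuationSubring L)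
  (hA : (ℓ : L) ∈ A.nonunits)

attribute [local instance] helper897.algAF

/-- `aeval x p` for `p ∈ A[X]` and `x ∈ F_{M,L}`, as a `q`-series. -/
theorem coe_aeval_FL (x : FL M L) (p : A[X]) :
    ((aeval x p : FL M L) : LaurentSeries L) =
      aeval (x : LaurentSeries L) (p.map A.subtype) := by
  rw [Polynomial.aeval_def, Polynomial.eval₂_eq_sum_range, Polynomial.aeval_def,
    Polynomial.eval₂_eq_sum_range, Polynomial.natDegree_map_eq_of_injective
      (Subtype.val_injective : Function.Injective A.subtype)]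
  rw [AddSubmonoidClass.coe_finsetSum]
  refine Finset.sum_congr rfl fun i _ => ?_
  rw [Polynomial.coeff_map]
  rfl

theorem coeffMap_aeval' {R S : Type*} [CommRing R] [CommRing S] (f : R →+* S)
    (x : LaurentSeries R) (p : R[X]) :
    coeffMap f (aeval x p) = aeval (coeffMap f x) (p.map f) := by
  rw [Polynomial.aeval_def, Polynomial.aeval_def, Polynomial.eval₂_map, Polynomial.hom_eval₂]
  congr 1
  exact RingHom.ext fun c => Fermat.Agent.S28.helper3292.coeffMap_algebraMap' f c

/-- A polynomial over `A` in a coordinate `t = q⁻¹ s` (`s ∈ ℤ⟦q⟧`), as an `A`-integral series. -/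
theorem aeval_lau_eq {s : PowerSeries ℤ} (t : FL M L)
    (ht : (t : LaurentSeries L) = helper3874.lau L s) (p : A[X]) :
    ((aeval t p : FL M L) : LaurentSeries L) =
      coeffMap A.subtype (aeval (helper3874.lau ↥A s) p) := by
  rw [coe_aeval_FL, ht, coeffMap_aeval', helper3874.coeffMap_lau]

include hA in
theorem aeval_lau_mem {s : PowerSeries ℤ} (t : FL M L)
    (ht : (t : LaurentSeries L) = helper3874.lau L s) (p : A[X]) :
    aeval t p ∈ gaussO M ℓ hℓM A hA := by
  have h := aeval_lau_eq M A t ht p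
  have hmem : coeffMap A.subtype (aeval (helper3874.lau ↥A s) p) ∈
      laurentBaseChange L (modularFunctionFieldFull M) := h ▸ (aeval t p).2
  have h2 := helper508.coeffMap_mem_gaussValuationSubring M ℓ hℓM A hA _ hmem
  have h3 : aeval t p = (⟨coeffMap A.subtype (aeval (helper3874.lau ↥A s) p), hmem⟩ : FL M L) :=
    Subtype.ext h
  rw [h3]
  exact h2

include hA in
/-- **Gauss data on a Hauptmodul line.** For a coordinate `t ∈ F_{M,L}` with `q`-expansion
`q⁻¹ s`, `s ∈ ℤ⟦q⟧`, `s(0) = 1`, and a relation `j * g(t) = r(t)` with `g` primitive, the landed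
Gauss valuation ring satisfies `GaussData ϖ t O`. -/
theorem gaussData_lau (ϖ : A) (hϖ : IsLocalRing.maximalIdeal A = Ideal.span {ϖ})
    {s : PowerSeries ℤ} (hs : PowerSeries.constantCoeff s = 1) (t : FL M L)
    (ht : (t : LaurentSeries L) = helper3874.lau L s) (r g : A[X])
    (hrel : jF M L * aeval t g = aeval t r) (hg : ∃ i, ¬ ϖ ∣ g.coeff i) :
    helper3578.GaussData ϖ t (gaussO M ℓ hℓM A hA) := by
  refine gaussData_of_rel (gaussData M ℓ hℓM A hA ϖ hϖ) r g hrel ?_ ?_ hg
  · have := aeval_lau_mem M ℓ hℓM A hA t ht (X : A[X])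
    rwa [aeval_X] at this
  · intro p hp i
    have hmem := aeval_lau_mem M ℓ hℓM A hA t ht p
    have hnu := (mem_nonunits_iff_not_isUnit _ hmem).mp hp
    have hres := (helper508.gaussResidue_eq_zero_iff M ℓ hℓM A hA ⟨_, hmem⟩).mpr hnu
    have h := aeval_lau_eq M A t ht p
    have hmem' : coeffMap A.subtype (aeval (helper3874.lau ↥A s) p) ∈
        laurentBaseChange L (modularFunctionFieldFull M) := h ▸ (aeval t p).2
    have h1 := helper508.gaussResidue_coeffMap M ℓ hℓM A hA (aeval (helper3874.lau ↥A s) p) hmem'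
    have h2 : (⟨⟨coeffMap A.subtype (aeval (helper3874.lau ↥A s) p), hmem'⟩,
        helper508.coeffMap_mem_gaussValuationSubring M ℓ hℓM A hA _ hmem'⟩ :
          ↥(helper508.gaussValuationSubring M ℓ hℓM A hA)) = ⟨aeval t p, hmem⟩ :=
      Subtype.ext (Subtype.ext h.symm)
    rw [h2, hres] at h1
    have h0 : aeval (helper3874.lau (IsLocalRing.ResidueField A) s)
        (p.map (IsLocalRing.residue A)) = 0 := by
      rw [← helper3874.coeffMap_lau _ (IsLocalRing.residue A), ← coeffMap_aeval', ← h1]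
      rfl
    have hp0 : p.map (IsLocalRing.residue A) = 0 :=
      (helper28.aeval_lau_eq_zero_iff _ hs _).mp h0
    have hc : IsLocalRing.residue A (p.coeff i) = 0 := by
      rw [← Polynomial.coeff_map, hp0, Polynomial.coeff_zero]
    rw [IsLocalRing.residue_eq_zero_iff, hϖ, Ideal.mem_span_singleton] at hc
    exact hc

theorem not_dvd_coeff_of_monic {ϖ : A} (hϖ : ¬ IsUnit ϖ) {g : A[X]} (hg : g.Monic) :
    ∃ i, ¬ ϖ ∣ g.coeff i :=
  ⟨g.natDegree, fun h => hϖ (isUnit_of_dvd_one (hg.coeff_natDegree ▸ h))⟩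

theorem jK_eq_jF : Fermat.Agent.S37.helper1588.jK L M = jF M L := rfl

include hA in
/-- **Gauss data for `t₄`** (`4 ∣ M`, any residue characteristic `ℓ ∤ M`). -/
theorem gaussData_t4 (h4 : 4 ∣ M) (ϖ : A) (hϖ : IsLocalRing.maximalIdeal A = Ideal.span {ϖ}) :
    helper3578.GaussData ϖ (Fermat.Agent.S37.helper530.t4F L M h4) (gaussO M ℓ hℓM A hA) := by
  have hu : ¬ IsUnit ϖ := by
    have hmem' : ϖ ∈ IsLocalRing.maximalIdeal A := hϖ ▸ Ideal.mem_span_singleton_self ϖ
    exact (IsLocalRing.mem_maximalIdeal _).mp hmem'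
  refine gaussData_lau M ℓ hℓM A hA ϖ hϖ helper3874.constantCoeff_T4 _ rfl
    (helper28.t4Num ↥A) (helper28.t4Den ↥A) ?_ (not_dvd_coeff_of_monic A hu (helper28.t4Den_monic ↥A))
  have h := Fermat.Agent.S37.helper530.jK_mul_evO_t4F L M A h4
  rw [← Fermat.Agent.S37.helper530.aeval_eq_evO, ← Fermat.Agent.S37.helper530.aeval_eq_evO] at h
  exact h

include hA in
/-- **Gauss data for `t₉`** (`9 ∣ M`, any residue characteristic `ℓ ∤ M`). -/
theorem gaussData_t9 (h9 : 9 ∣ M) (ϖ : A) (hϖ : IsLocalRing.maximalIdeal A = Ideal.span {ϖ}) :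
    helper3578.GaussData ϖ (Fermat.Agent.S37.helper530.t9F L M h9) (gaussO M ℓ hℓM A hA) := by
  have hu : ¬ IsUnit ϖ := by
    have hmem' : ϖ ∈ IsLocalRing.maximalIdeal A := hϖ ▸ Ideal.mem_span_singleton_self ϖ
    exact (IsLocalRing.mem_maximalIdeal _).mp hmem'
  refine gaussData_lau M ℓ hℓM A hA ϖ hϖ helper3874.constantCoeff_T9 _ rfl
    (helper28.t9Num ↥A) (helper28.t9Den ↥A) ?_ (not_dvd_coeff_of_monic A hu (helper28.t9Den_monic ↥A))
  have h := Fermat.Agent.S37.helper530.jK_mul_evO_t9F L M A h9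
  rw [← Fermat.Agent.S37.helper530.aeval_eq_evO, ← Fermat.Agent.S37.helper530.aeval_eq_evO] at h
  exact h

include hA in
/-- **`𝔪_O = ϖ O`** for the Gauss valuation ring over a discrete valuation ring `A` with
uniformiser `ϖ`. -/
theorem gaussO_unif [IsDiscreteValuationRing ↥A] (ϖ : A) (hϖ : Irreducible ϖ)
    (y : FL M L) (hy : y ∈ (gaussO M ℓ hℓM A hA).nonunits) :
    ∃ y' ∈ gaussO M ℓ hℓM A hA, y = algebraMap ↥A (FL M L) ϖ * y' := by
  by_cases hy0 : y = 0
  · exact ⟨0, (gaussO M ℓ hℓM A hA).zero_mem, by rw [hy0, mul_zero]⟩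
  obtain ⟨c, w, hc0, hyw, hw, hwinv⟩ := helper508.exists_const_mul_unit M ℓ hℓM A hA y hy0
  have hw0 : w ≠ 0 := by
    rintro rfl
    exact hy0 (by rw [hyw, mul_zero])
  -- `c` is a non-unit of `A`
  have hcO : algebraMap L (FL M L) c ∈ (gaussO M ℓ hℓM A hA).nonunits := by
    have h1 : algebraMap L (FL M L) c = y * w⁻¹ := by
      rw [hyw, mul_assoc, mul_inv_cancel₀ hw0, mul_one]
    rw [h1]
    exact mul_mem_nonunits _ hy hwinv
  have hcA : c ∈ A :=
    (helper508.algebraMap_mem_gaussValuationSubring_iff M ℓ hℓM A hA c).mp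
      ((gaussO M ℓ hℓM A hA).nonunits_le hcO)
  have hcnu : ¬ IsUnit (⟨c, hcA⟩ : A) := by
    intro hu
    obtain ⟨u, hu⟩ := hu
    have h1 : algebraMap L (FL M L) c * algebraMap L (FL M L) ((u⁻¹ : (↥A)ˣ) : A) = 1 := by
      rw [← map_mul]
      have : c * (((u⁻¹ : (↥A)ˣ) : A) : L) = 1 := by
        have h2 := congrArg (Subtype.val : ↥A → L) (Units.mul_inv u)
        rw [hu] at h2
        exact h2
      rw [this, map_one]
    have h3 : (1 : FL M L) ∈ (gaussO M ℓ hℓM A hA).nonunits := by
      rw [← h1]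
      exact mul_mem_nonunits _ hcO
        ((helper508.algebraMap_mem_gaussValuationSubring_iff M ℓ hℓM A hA _).mpr
          ((u⁻¹ : (↥A)ˣ) : A).2)
    rw [ValuationSubring.mem_nonunits_iff, map_one] at h3
    exact lt_irrefl _ h3
  have hmem : (⟨c, hcA⟩ : A) ∈ IsLocalRing.maximalIdeal A :=
    (IsLocalRing.mem_maximalIdeal _).mpr hcnu
  rw [hϖ.maximalIdeal_eq, Ideal.mem_span_singleton] at hmem
  obtain ⟨c', hc'⟩ := hmem
  refine ⟨algebraMap L (FL M L) (c' : L) * w, ?_, ?_⟩
  · exact (gaussO M ℓ hℓM A hA).mul_mem _ _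
      ((helper508.algebraMap_mem_gaussValuationSubring_iff M ℓ hℓM A hA _).mpr c'.2) hw
  · rw [hyw, ← mul_assoc]
    congr 1
    have h4 : c = (ϖ : L) * (c' : L) := congrArg (Subtype.val : ↥A → L) hc'
    rw [h4, map_mul]
    rfl

/-! ### The inverse coordinate -/

theorem lauInv_mul_lau (R : Type*) [CommRing R] {s : PowerSeries ℤ}
    (hs : PowerSeries.constantCoeff s = 1) :
    (helper3874.qv R * helper3874.toL R (s.invOfUnit 1)) * helper3874.lau R s = 1 := by
  have h1 : s.invOfUnit 1 * s = 1 := PowerSeries.invOfUnit_mul s 1 (by rw [hs]; rfl)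
  have h2 : (helper3874.qv R * helper3874.toL R (s.invOfUnit 1)) * helper3874.lau R s =
      (helper3874.qv R * HahnSeries.single (-1) 1) *
        helper3874.toL R (s.invOfUnit 1 * s) := by
    rw [helper3874.lau, map_mul]
    ring
  rw [h2, helper3874.qv_mul_single, h1, map_one, one_mul]

theorem coe_inv_FL (t : FL M L) : ((t⁻¹ : FL M L) : LaurentSeries L) = (t : LaurentSeries L)⁻¹ :=
  rfl

/-- The vertical clause on the chart `A[t⁻¹]` of a Hauptmodul line `t = q⁻¹ s`. -/
theorem chartUnrAt_lau_inv [IsPrincipalIdealRing ↥A] {s : PowerSeries ℤ}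
    (hs : PowerSeries.constantCoeff s = 1) (t : FL M L)
    (ht : (t : LaurentSeries L) = helper3874.lau L s)
    (hj : Fermat.Agent.S37.helper1588.jK L M ∈ L⟮t⟯)
    (hKL : helper28.KLAt A (helper3874.lau L s) (helper28.gaussFSet A M))
    (π : ↥A) (hπ : IsLocalRing.maximalIdeal ↥A = Ideal.span {π}) (hπ0 : π ≠ 0)
    (p : ℕ) [Fact p.Prime] [CharP (IsLocalRing.ResidueField ↥A) p]
    [PerfectRing (IsLocalRing.ResidueField ↥A) p] (hN : helper28.GoodLevel A M) :
    Fermat.Agent.S37.helper530.ChartUnrAt A t⁻¹ (C π) := by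
  have hj' : Fermat.Agent.S37.helper1588.jK L M ∈ L⟮t⁻¹⟯ := by
    rw [helper403.adjoinSimple_inv]
    exact hj
  set H : LaurentSeries ↥A := helper3874.qv ↥A * helper3874.toL ↥A (s.invOfUnit 1) with hH
  have hHmul : H * helper3874.lau ↥A s = 1 := lauInv_mul_lau ↥A hs
  have hcoe : ((t⁻¹ : FL M L) : LaurentSeries L) = (helper3874.lau L s)⁻¹ := by
    rw [coe_inv_FL, ht]
  have hH1 : coeffMap A.subtype H = (helper3874.lau L s)⁻¹ := by
    have h := congrArg (coeffMap A.subtype) hHmul
    rw [map_mul, map_one, helper3874.coeffMap_lau] at h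
    exact eq_inv_of_mul_eq_one_left h
  have hH2 : coeffMap (IsLocalRing.residue ↥A) H *
      helper3874.lau (IsLocalRing.ResidueField ↥A) s = 1 := by
    have h := congrArg (coeffMap (IsLocalRing.residue ↥A)) hHmul
    rwa [map_mul, map_one, helper3874.coeffMap_lau] at h
  have hHne : coeffMap (IsLocalRing.residue ↥A) H ≠ 0 := left_ne_zero_of_mul_eq_one hH2
  have hlne : helper3874.lau (IsLocalRing.ResidueField ↥A) s ≠ 0 :=
    right_ne_zero_of_mul_eq_one hH2
  have hlau0 : helper3874.lau L s ≠ 0 := by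
    intro h0
    have h := (helper28.aeval_lau_eq_zero_iff L hs (X : L[X])).mp (by rw [aeval_X]; exact h0)
    exact X_ne_zero h
  refine Fermat.Agent.S37.helper530.chartUnrAt_vertical_modular L A M π hπ hπ0 p hN t⁻¹ hj' H
    (hH1.trans hcoe.symm) 1 ?_ hHne ?_ ?_
    (Fermat.Agent.S37.helper530.chartRing A t⁻¹)
    (fun f => Fermat.Agent.S37.helper530.mem_chartRing A t⁻¹)
  · intro h
    exact (Fact.out : p.Prime).one_lt.ne'
      (Nat.dvd_one.mp (Int.natCast_dvd_natCast.mp (by simpa using h)))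
  · have h := HahnSeries.order_mul hHne hlne
    rw [hH2, HahnSeries.order_one, Fermat.Agent.S37.helper530.order_lau _ hs] at h
    omega
  · rw [hcoe]
    refine hKL.inv (mul_inv_cancel₀ hlau0) (fun y hy => ?_) ?_
    · refine helper28.mul_mem_gaussFSet A M ⟨ht ▸ t.2, ?_⟩ hy
      have := helper8991.inc_mem_gaussRing A (IsLocalRing.residue A) (helper3874.lau ↥A s)
      rwa [show helper8991.inc A (helper3874.lau ↥A s) = helper3874.lau L s from
        helper3874.coeffMap_lau _ _ s] at this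
    · rw [injective_iff_map_eq_zero]
      intro P hP
      rw [helper28.evAt_eq_aeval] at hP
      have htr : Transcendental L (helper3874.lau L s) := by
        rw [transcendental_iff]
        exact fun q hq => (helper28.aeval_lau_eq_zero_iff L hs q).mp hq
      have h0 := (transcendental_iff.mp (helper403.transcendental_inv htr)) _ hP
      exact Polynomial.map_injective A.subtype Subtype.val_injective
        (h0.trans (Polynomial.map_zero _).symm)

/-! ### Residue characteristic -/

include hA in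
theorem charP_residueField : CharP (IsLocalRing.ResidueField ↥A) ℓ := by
  rw [CharP.charP_iff_prime_eq_zero (Fact.out : ℓ.Prime)]
  have h1 : ((ℓ : ℕ) : ↥A) ∈ IsLocalRing.maximalIdeal ↥A :=
    ValuationSubring.coe_mem_nonunits_iff.mp (by
      have : (((ℓ : ℕ) : ↥A) : L) = (ℓ : L) := map_natCast A.subtype ℓ
      rw [this]
      exact hA)
  rw [← map_natCast (IsLocalRing.residue ↥A) ℓ, IsLocalRing.residue_eq_zero_iff]
  exact h1

include hA hℓM in
theorem goodLevel : helper28.GoodLevel A M := by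
  haveI := charP_residueField ℓ A hA
  intro p hp hpM h0
  have h1 : ℓ ∣ p := (CharP.cast_eq_zero_iff (IsLocalRing.ResidueField ↥A) ℓ p).mp h0
  have h2 : ℓ = p := (Nat.prime_dvd_prime_iff_eq (Fact.out : ℓ.Prime) hp).mp h1
  exact hℓM (h2 ▸ hpM)

include hA in
theorem natCast_quot_ne_zero (ϖ : ↥A) (hϖ : IsLocalRing.maximalIdeal ↥A = Ideal.span {ϖ})
    (n : ℕ) (hn : ¬ ℓ ∣ n) : ((n : ℕ) : ↥A ⧸ Ideal.span {ϖ}) ≠ 0 := by
  haveI := charP_residueField ℓ A hA
  intro h
  rw [← map_natCast (Ideal.Quotient.mk (Ideal.span {ϖ})) n, Ideal.Quotient.eq_zero_iff_mem, ← hϖ,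
    ← IsLocalRing.residue_eq_zero_iff, map_natCast] at h
  exact hn ((CharP.cast_eq_zero_iff (IsLocalRing.ResidueField ↥A) ℓ n).mp h)

/-! ### Clause (c) on a modular chart -/

attribute [local instance] Fermat.Agent.S37.helper4289.isScalarTower_AF

/-- The discriminant form `helper530.ChartUnrAt` of vertical unramifiedness gives clause (c). -/
theorem chart_vert_of_chartUnrAt (t : FL M L) (ht : Transcendental L t)
    [FiniteDimensional ↥L⟮t⟯ (FL M L)] (ϖ : ↥A)
    (h : Fermat.Agent.S37.helper530.ChartUnrAt A t (C ϖ)) :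
    letI := helper403.algebraAdjoinSimple (A := ↥A) (K := L) t
    ∃ (ι : Type) (_ : Fintype ι) (_ : DecidableEq ι) (c : Module.Basis ι ↥L⟮t⟯ (FL M L))
      (d : Algebra.adjoin ↥A {t}), (∀ i, IsIntegral (Algebra.adjoin ↥A {t}) (c i)) ∧
      Algebra.discr ↥L⟮t⟯ c = algebraMap (Algebra.adjoin ↥A {t}) ↥L⟮t⟯ d ∧
      ¬ algebraMap ↥A (Algebra.adjoin ↥A {t}) ϖ ∣ d := by
  obtain ⟨b, d, hb, hd, hnd⟩ := h
  refine chart_vert_of_discr (A := ↥A) (K := L) (L := FL M L) t ht ϖ b d (fun i => ?_) ?_ hnd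
  · rw [isIntegral_adjoin_iff_isIntegralElem]
    exact hb i
  · rw [← hd]
    rfl

/-! ### Horizontal tameness -/

section Horizontal

open Fermat.Agent.S24.helper24 (Kbar FN jBar)
open AlgebraicCurve
open Fermat.Agent.S37.helper4289 (toBar toBar_jF toBar_algebraMap isAlgebraic_Kbar)

variable [Algebra L Kbar]

theorem toBar_aeval (x : FL M L) (r : L[X]) :
    toBar M (aeval x r) = aeval (toBar M x) (r.map (algebraMap L Kbar)) := by
  rw [Polynomial.aeval_def, Polynomial.aeval_def, Polynomial.eval₂_map, Polynomial.hom_eval₂]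
  congr 1
  exact RingHom.ext fun c => toBar_algebraMap M c

theorem toBar_mem_adjoin {x t : FL M L} (hx : x ∈ L⟮t⟯) : toBar M x ∈ Kbar⟮toBar M t⟯ := by
  obtain ⟨r, s, rfl⟩ := (IntermediateField.mem_adjoin_simple_iff L x).mp hx
  rw [map_div₀, toBar_aeval, toBar_aeval]
  exact div_mem (helper508.aeval_mem_of_mem _ (mem_adjoin_simple_self Kbar _) _)
    (helper508.aeval_mem_of_mem _ (mem_adjoin_simple_self Kbar _) _)

theorem transcendental_toBar {t : FL M L} (hj : jF M L ∈ L⟮t⟯) :
    Transcendental Kbar (toBar M t) := by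
  have hjT : jBar M ∈ Kbar⟮toBar M t⟯ := toBar_jF M (L := L) ▸ toBar_mem_adjoin M hj
  exact Fermat.Agent.S37.helper1588.transcendental_of_mem_adjoin_simple
    (Fermat.Agent.S24.helper3176.transcendental_jBar M) hjT

theorem finiteDimensional_toBar {t : FL M L} (hj : jF M L ∈ L⟮t⟯) :
    FiniteDimensional ↥Kbar⟮toBar M t⟯ (FN M) := by
  have hjT : jBar M ∈ Kbar⟮toBar M t⟯ := toBar_jF M (L := L) ▸ toBar_mem_adjoin M hj
  haveI : FiniteDimensional ↥Kbar⟮jBar M⟯ (FN M) := (helper8185.stmt_JFinrank M).1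
  exact Fermat.Agent.S37.helper1588.finiteDimensional_of_mem_adjoin_simple hjT

set_option maxHeartbeats 1600000 in
/-- **(hs) on a chart `L[x]` of `F_{M,L}`** from the branch data of `F_M / ℚ̄(x)`. -/
theorem chart_horiz (x : FL M L) (hx : Transcendental Kbar (toBar M x))
    (hfin : FiniteDimensional ↥Kbar⟮toBar M x⟯ (FN M)) (G : L[X])
    (hR : ∀ c : Kbar, (G.map (algebraMap L Kbar)).eval c ≠ 0 → ∀ v : Place Kbar (FN M),
      0 < v.ord (toBar M x - algebraMap Kbar (FN M) c) →
      v.ord (toBar M x - algebraMap Kbar (FN M) c) = 1)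
    (Q : Ideal ↥(integralClosure (Algebra.adjoin L {x}) (FL M L))) (hQ : Q.IsPrime)
    (hQ0 : Q ≠ ⊥) (hGQ : ∀ y ∈ Q, (y : FL M L) ≠ aeval x G) :
    ¬ Q ^ 2 ∣ (Q.under (Algebra.adjoin L {x})).map
      (algebraMap (Algebra.adjoin L {x})
        ↥(integralClosure (Algebra.adjoin L {x}) (FL M L))) := by
  letI algFF : Algebra (FL M L) (FN M) := (toBar M).toAlgebra
  letI algLF : Algebra L (FN M) :=
    ((algebraMap Kbar (FN M)).comp (algebraMap L Kbar)).toAlgebra
  haveI : IsScalarTower L Kbar (FN M) := IsScalarTower.of_algebraMap_eq (fun _ => rfl)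
  haveI : IsScalarTower L (FL M L) (FN M) :=
    IsScalarTower.of_algebraMap_eq (fun c => (toBar_algebraMap M c).symm)
  haveI : Algebra.IsAlgebraic L Kbar := isAlgebraic_Kbar
  haveI : FiniteDimensional ↥Kbar⟮algebraMap (FL M L) (FN M) x⟯ (FN M) := hfin
  have hmem : aeval x G ∈ Algebra.adjoin L {x} := Polynomial.aeval_mem_adjoin_singleton _ _
  let GB : ↥(integralClosure (Algebra.adjoin L {x}) (FL M L)) :=
    ⟨aeval x G,
      (isIntegral_algebraMap (R := Algebra.adjoin L {x}) (x := ⟨_, hmem⟩) :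
        IsIntegral (Algebra.adjoin L {x})
          (algebraMap (Algebra.adjoin L {x}) (FL M L) ⟨_, hmem⟩))⟩
  exact helper2128.not_sq_dvd_map_under (K₀ := L) (K := Kbar) (F₀ := FL M L) (F := FN M)
    x hx G hR Q hQ hQ0 GB rfl (fun hmemQ => hGQ GB hmemQ rfl)

include hA in
/-- **DN on a chart of `F_{M,L}`**: vertical unit discriminant + horizontal tameness away from
`G(x) = 0`, `G` squarefree modulo `ϖ`. -/
theorem haupt_intLift [IsDiscreteValuationRing ↥A] (ϖ : ↥A) (hϖ : Irreducible ϖ)
    (x : FL M L) (hx : Transcendental L x) [FiniteDimensional ↥L⟮x⟯ (FL M L)]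
    (hV : Fermat.Agent.S37.helper530.ChartUnrAt A x (C ϖ))
    (hxB : Transcendental Kbar (toBar M x))
    (hfin : FiniteDimensional ↥Kbar⟮toBar M x⟯ (FN M))
    (G : (↥A)[X]) (hGsq : Squarefree (G.map (Ideal.Quotient.mk (Ideal.span {ϖ}))))
    (hR : ∀ c : Kbar, ((G.map (algebraMap ↥A L)).map (algebraMap L Kbar)).eval c ≠ 0 →
      ∀ v : Place Kbar (FN M), 0 < v.ord (toBar M x - algebraMap Kbar (FN M) c) →
      v.ord (toBar M x - algebraMap Kbar (FN M) c) = 1) :
    helper98.IntLift (Algebra.adjoin ↥A {x}) (FL M L)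
      (algebraMap ↥A (Algebra.adjoin ↥A {x}) ϖ) := by
  haveI : CharZero L := algebraRat.charZero L
  haveI hmax := Fermat.Agent.S37.helper4289.isMaximal_span_of_irreducible hϖ
  refine Fermat.Agent.S37.helper4289.chart_intLift (A := ↥A) (K := L) (L := FL M L) x hx ϖ
    hϖ.prime hmax (Fermat.Agent.S37.helper4289.exists_pow_mul_eq_algebraMap hϖ)
    (chart_vert_of_chartUnrAt M A x hx ϖ hV) G hGsq ?_
  intro Q hQ hQ0 hGQ
  refine chart_horiz M x hxB hfin (G.map (algebraMap ↥A L)) hR Q hQ hQ0 (fun y hy => ?_)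
  rw [Polynomial.aeval_map_algebraMap]
  exact hGQ y hy

end Horizontal

/-! ### The four charts -/

section Instances

open Fermat.Agent.S24.helper24 (Kbar FN jBar)
open AlgebraicCurve
open Fermat.Agent.S37.helper4289 (toBar toBar_jF)
open Fermat.Agent.S37.helper530 (t4F t9F)

variable [Algebra L Kbar]

theorem toBar_rel_t4 (h4 : 4 ∣ M) :
    jBar M * (toBar M (t4F L M h4) ^ 4 * (toBar M (t4F L M h4) + 16)) =
      (toBar M (t4F L M h4) ^ 2 + 256 * toBar M (t4F L M h4) + 4096) ^ 3 := by
  have h := congrArg (toBar M) (Fermat.Agent.S37.helper530.jK_mul_t4F L M h4)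
  rw [jK_eq_jF] at h
  simpa only [map_mul, map_pow, map_add, map_ofNat, toBar_jF] using h

theorem toBar_rel_t9 (h9 : 9 ∣ M) :
    jBar M * (toBar M (t9F L M h9) ^ 9 *
        (toBar M (t9F L M h9) ^ 2 + 9 * toBar M (t9F L M h9) + 27)) =
      ((toBar M (t9F L M h9) + 9) * (toBar M (t9F L M h9) ^ 3 + 243 * toBar M (t9F L M h9) ^ 2
        + 2187 * toBar M (t9F L M h9) + 6561)) ^ 3 := by
  have h := congrArg (toBar M) (Fermat.Agent.S37.helper530.jK_mul_t9F L M h9)
  rw [jK_eq_jF] at h
  simpa only [map_mul, map_pow, map_add, map_ofNat, toBar_jF] using h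

variable [IsDiscreteValuationRing ↥A] [PerfectField (IsLocalRing.ResidueField ↥A)]

include hA hℓM in
/-- **(LP)(b), DN form, chart `A[t₄]`** (`4 ∣ M`, `ℓ ∤ M`): the special fibre of the normalisation
of `A[t₄]` in `F_{M,L}` is integrally closed. -/
theorem t4_intLift (h4 : 4 ∣ M) (ϖ : ↥A) (hϖ : Irreducible ϖ) :
    helper98.IntLift (Algebra.adjoin ↥A {t4F L M h4}) (FL M L)
      (algebraMap ↥A (Algebra.adjoin ↥A {t4F L M h4}) ϖ) := by
  haveI := charP_residueField ℓ A hA
  haveI : ExpChar (IsLocalRing.ResidueField ↥A) ℓ := ExpChar.prime Fact.out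
  haveI : PerfectRing (IsLocalRing.ResidueField ↥A) ℓ := PerfectField.toPerfectRing ℓ
  have hj : jF M L ∈ L⟮t4F L M h4⟯ := Fermat.Agent.S37.helper530.jK_mem_adjoin_t4F L M h4
  haveI := Fermat.Agent.S37.helper530.finiteDimensional_t4F L M h4
  have hN := goodLevel M ℓ hℓM A hA
  have hℓ2 : ¬ ℓ ∣ 2 := fun h => hℓM (dvd_trans h (dvd_trans (by norm_num) h4))
  have hV := Fermat.Agent.S37.helper530.chartUnrAt_t4F L M A h4 ϖ hϖ.maximalIdeal_eq hϖ.ne_zero
    ℓ hN
  haveI hmax := Fermat.Agent.S37.helper4289.isMaximal_span_of_irreducible hϖ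
  refine haupt_intLift M ℓ A hA ϖ hϖ (t4F L M h4)
    (Fermat.Agent.S37.helper530.transcendental_t4F L M h4) hV (transcendental_toBar M hj)
    (finiteDimensional_toBar M hj) (X * (X + 16)) ?_ ?_
  · letI : Field (↥A ⧸ Ideal.span {ϖ}) := Ideal.Quotient.field _
    rw [Polynomial.map_mul, Polynomial.map_add, Polynomial.map_X, Polynomial.map_ofNat]
    refine squarefree_cusp4 ?_
    have := natCast_quot_ne_zero ℓ A hA ϖ hϖ.maximalIdeal_eq 2 hℓ2
    simpa using this
  · intro c hc v hv
    simp only [Polynomial.map_mul, Polynomial.map_add, Polynomial.map_X, Polynomial.map_ofNat,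
      eval_mul, eval_add, eval_X, eval_ofNat] at hc
    refine Fermat.Agent.S37.helper6932.ord_t4_sub_eq_one M
      (Fermat.Agent.S37.helper6932.nuTwo_eq_zero_of_four_dvd h4)
      (Fermat.Agent.S37.helper6932.nuThree_eq_zero_of_two_dvd (dvd_trans (by norm_num) h4))
      _ (toBar_rel_t4 M h4) c ?_ ?_ v hv
    · rintro rfl
      exact hc (zero_mul _)
    · rintro rfl
      exact hc (by norm_num)

include hA hℓM in
/-- **(LP)(b), DN form, chart `A[1/t₄]`** (`4 ∣ M`, `ℓ ∤ M`). -/
theorem t4_inv_intLift (h4 : 4 ∣ M) (ϖ : ↥A) (hϖ : Irreducible ϖ) :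
    helper98.IntLift (Algebra.adjoin ↥A {(t4F L M h4)⁻¹}) (FL M L)
      (algebraMap ↥A (Algebra.adjoin ↥A {(t4F L M h4)⁻¹}) ϖ) := by
  haveI := charP_residueField ℓ A hA
  haveI : ExpChar (IsLocalRing.ResidueField ↥A) ℓ := ExpChar.prime Fact.out
  haveI : PerfectRing (IsLocalRing.ResidueField ↥A) ℓ := PerfectField.toPerfectRing ℓ
  have hj : jF M L ∈ L⟮t4F L M h4⟯ := Fermat.Agent.S37.helper530.jK_mem_adjoin_t4F L M h4
  haveI := Fermat.Agent.S37.helper530.finiteDimensional_t4F L M h4
  haveI : FiniteDimensional ↥L⟮(t4F L M h4)⁻¹⟯ (FL M L) :=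
    helper403.finiteDimensional_adjoinSimple_inv _
  have hN := goodLevel M ℓ hℓM A hA
  have hV := chartUnrAt_lau_inv M A helper3874.constantCoeff_T4 (t4F L M h4) rfl hj
    (helper28.klAt_t4C A M hN) ϖ hϖ.maximalIdeal_eq hϖ.ne_zero ℓ hN
  haveI hmax := Fermat.Agent.S37.helper4289.isMaximal_span_of_irreducible hϖ
  haveI := finiteDimensional_toBar M hj
  refine haupt_intLift M ℓ A hA ϖ hϖ (t4F L M h4)⁻¹
    (helper403.transcendental_inv (Fermat.Agent.S37.helper530.transcendental_t4F L M h4)) hV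
    (by rw [map_inv₀]; exact helper403.transcendental_inv (transcendental_toBar M hj))
    (by rw [map_inv₀]; exact helper403.finiteDimensional_adjoinSimple_inv _)
    (X * (16 * X + 1)) ?_ ?_
  · letI : Field (↥A ⧸ Ideal.span {ϖ}) := Ideal.Quotient.field _
    rw [Polynomial.map_mul, Polynomial.map_add, Polynomial.map_mul, Polynomial.map_X,
      Polynomial.map_ofNat, Polynomial.map_one]
    exact squarefree_cusp4_inv
  · intro c hc v hv
    simp only [Polynomial.map_mul, Polynomial.map_add, Polynomial.map_X, Polynomial.map_ofNat,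
      Polynomial.map_one, eval_mul, eval_add, eval_X, eval_ofNat, eval_one] at hc
    have hc0 : c ≠ 0 := by
      rintro rfl
      exact hc (zero_mul _)
    rw [map_inv₀] at hv ⊢
    refine helper2128.ord_inv_sub_eq_one v _ c hc0 (fun h => ?_) hv
    refine Fermat.Agent.S37.helper6932.ord_t4_sub_eq_one M
      (Fermat.Agent.S37.helper6932.nuTwo_eq_zero_of_four_dvd h4)
      (Fermat.Agent.S37.helper6932.nuThree_eq_zero_of_two_dvd (dvd_trans (by norm_num) h4))
      _ (toBar_rel_t4 M h4) c⁻¹ (inv_ne_zero hc0) ?_ v h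
    intro h16
    apply hc
    have h1 : c = (-16)⁻¹ := by rw [← h16, inv_inv]
    rw [h1]
    norm_num

include hA hℓM in
/-- **(LP)(b), DN form, chart `A[t₉]`** (`9 ∣ M`, `ℓ ∤ M`). -/
theorem t9_intLift (h9 : 9 ∣ M) (ϖ : ↥A) (hϖ : Irreducible ϖ) :
    helper98.IntLift (Algebra.adjoin ↥A {t9F L M h9}) (FL M L)
      (algebraMap ↥A (Algebra.adjoin ↥A {t9F L M h9}) ϖ) := by
  haveI := charP_residueField ℓ A hA
  haveI : ExpChar (IsLocalRing.ResidueField ↥A) ℓ := ExpChar.prime Fact.out
  haveI : PerfectRing (IsLocalRing.ResidueField ↥A) ℓ := PerfectField.toPerfectRing ℓ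
  have hj : jF M L ∈ L⟮t9F L M h9⟯ := Fermat.Agent.S37.helper530.jK_mem_adjoin_t9F L M h9
  haveI := Fermat.Agent.S37.helper530.finiteDimensional_t9F L M h9
  have hN := goodLevel M ℓ hℓM A hA
  have hℓ3 : ¬ ℓ ∣ 3 := fun h => hℓM (dvd_trans h (dvd_trans (by norm_num) h9))
  have hV := Fermat.Agent.S37.helper530.chartUnrAt_t9F L M A h9 ϖ hϖ.maximalIdeal_eq hϖ.ne_zero
    ℓ hN
  haveI hmax := Fermat.Agent.S37.helper4289.isMaximal_span_of_irreducible hϖ
  refine haupt_intLift M ℓ A hA ϖ hϖ (t9F L M h9)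
    (Fermat.Agent.S37.helper530.transcendental_t9F L M h9) hV (transcendental_toBar M hj)
    (finiteDimensional_toBar M hj) (X * (X ^ 2 + 9 * X + 27)) ?_ ?_
  · letI : Field (↥A ⧸ Ideal.span {ϖ}) := Ideal.Quotient.field _
    rw [Polynomial.map_mul, Polynomial.map_add, Polynomial.map_add, Polynomial.map_mul,
      Polynomial.map_pow, Polynomial.map_X, Polynomial.map_ofNat, Polynomial.map_ofNat]
    refine squarefree_cusp9 ?_
    have := natCast_quot_ne_zero ℓ A hA ϖ hϖ.maximalIdeal_eq 3 hℓ3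
    simpa using this
  · intro c hc v hv
    simp only [Polynomial.map_mul, Polynomial.map_add, Polynomial.map_pow, Polynomial.map_X,
      Polynomial.map_ofNat, eval_mul, eval_add, eval_pow, eval_X, eval_ofNat] at hc
    refine Fermat.Agent.S37.helper6932.ord_t9_sub_eq_one M
      (Fermat.Agent.S37.helper6932.nuTwo_eq_zero_of_three_dvd (dvd_trans (by norm_num) h9))
      (Fermat.Agent.S37.helper6932.nuThree_eq_zero_of_nine_dvd h9)
      _ (toBar_rel_t9 M h9) c ?_ ?_ v hv
    · rintro rfl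
      exact hc (zero_mul _)
    · intro h
      exact hc (by rw [h, mul_zero])

include hA hℓM in
/-- **(LP)(b), DN form, chart `A[1/t₉]`** (`9 ∣ M`, `ℓ ∤ M`). -/
theorem t9_inv_intLift (h9 : 9 ∣ M) (ϖ : ↥A) (hϖ : Irreducible ϖ) :
    helper98.IntLift (Algebra.adjoin ↥A {(t9F L M h9)⁻¹}) (FL M L)
      (algebraMap ↥A (Algebra.adjoin ↥A {(t9F L M h9)⁻¹}) ϖ) := by
  haveI := charP_residueField ℓ A hA
  haveI : ExpChar (IsLocalRing.ResidueField ↥A) ℓ := ExpChar.prime Fact.out
  haveI : PerfectRing (IsLocalRing.ResidueField ↥A) ℓ := PerfectField.toPerfectRing ℓ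
  have hj : jF M L ∈ L⟮t9F L M h9⟯ := Fermat.Agent.S37.helper530.jK_mem_adjoin_t9F L M h9
  haveI := Fermat.Agent.S37.helper530.finiteDimensional_t9F L M h9
  haveI : FiniteDimensional ↥L⟮(t9F L M h9)⁻¹⟯ (FL M L) :=
    helper403.finiteDimensional_adjoinSimple_inv _
  have hN := goodLevel M ℓ hℓM A hA
  have hV := chartUnrAt_lau_inv M A helper3874.constantCoeff_T9 (t9F L M h9) rfl hj
    (helper28.klAt_t9C A M hN) ϖ hϖ.maximalIdeal_eq hϖ.ne_zero ℓ hN
  haveI hmax := Fermat.Agent.S37.helper4289.isMaximal_span_of_irreducible hϖ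
  haveI := finiteDimensional_toBar M hj
  refine haupt_intLift M ℓ A hA ϖ hϖ (t9F L M h9)⁻¹
    (helper403.transcendental_inv (Fermat.Agent.S37.helper530.transcendental_t9F L M h9)) hV
    (by rw [map_inv₀]; exact helper403.transcendental_inv (transcendental_toBar M hj))
    (by rw [map_inv₀]; exact helper403.finiteDimensional_adjoinSimple_inv _)
    (X * (27 * X ^ 2 + 9 * X + 1)) ?_ ?_
  · letI : Field (↥A ⧸ Ideal.span {ϖ}) := Ideal.Quotient.field _
    rw [Polynomial.map_mul, Polynomial.map_add, Polynomial.map_add, Polynomial.map_mul,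
      Polynomial.map_mul, Polynomial.map_pow, Polynomial.map_X, Polynomial.map_ofNat,
      Polynomial.map_ofNat, Polynomial.map_one]
    exact squarefree_cusp9_inv
  · intro c hc v hv
    simp only [Polynomial.map_mul, Polynomial.map_add, Polynomial.map_pow, Polynomial.map_X,
      Polynomial.map_ofNat, Polynomial.map_one, eval_mul, eval_add, eval_pow, eval_X, eval_ofNat,
      eval_one] at hc
    have hc0 : c ≠ 0 := by
      rintro rfl
      exact hc (zero_mul _)
    rw [map_inv₀] at hv ⊢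
    refine helper2128.ord_inv_sub_eq_one v _ c hc0 (fun h => ?_) hv
    refine Fermat.Agent.S37.helper6932.ord_t9_sub_eq_one M
      (Fermat.Agent.S37.helper6932.nuTwo_eq_zero_of_three_dvd (dvd_trans (by norm_num) h9))
      (Fermat.Agent.S37.helper6932.nuThree_eq_zero_of_nine_dvd h9)
      _ (toBar_rel_t9 M h9) c⁻¹ (inv_ne_zero hc0) ?_ v h
    intro hq
    apply hc
    have h1 : 27 * c ^ 2 + 9 * c + 1 = c ^ 2 * (c⁻¹ ^ 2 + 9 * c⁻¹ + 27) := by
      field_simp
      ring
    rw [h1, hq, mul_zero, mul_zero]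

end Instances

end Modular

end Fermat.Agent.S36.helper4289
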