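import Mathlib
import Fermat.Agent.S36.helper4289_RedNormalT49
import Fermat.Agent.S36.helper1162_ChartRedIC
import Fermat.Agent.S36.helper248_RootLatticeChart

/-!
# S36 — the base level `M''` on the `t₄` / `t₉` lines over a discrete valuation ring, in the
lifted vocabulary of the (KILL) datum (helper1162)

Instance of `helper1162.chartPair_base` at the DN instance of helper4289
(`helper4289.t4_intLift`, `t4_inv_intLift`, `t9_intLift`, `t9_inv_intLift`, `gaussData_t4`,
`gaussData_t9`, `gaussO_unif`): for `L` a field with a discrete valuation subring `A` over `ℓ`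
(perfect residue field), `ℓ ∤ M`, `4 ∣ M` resp. `9 ∣ M`, `F = F_{M,L}`, `x = t₄` resp. `t₉`,
`V = ` the Gauss valuation ring, and BOTH charts
`B i = chartRing ↥A (if i = 0 then {x} else {x⁻¹})` (the term of `helper36.chart A x i`, with the
canonical `Algebra ↥A F` instance `Algebra.ofSubsemiring`, NOT `helper897.algAF`):

(1) `RedIC (B i) V`; (2) `B i ≤ V`; (3) (LOC); (4) `B i` noetherian; (5) `B i ⧸ p` Dedekind for the
centre `p` of `V`.
-/

set_option autoImplicit false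
set_option synthInstance.maxHeartbeats 400000

namespace Fermat.Agent.S36.helper1162

open Polynomial IntermediateField
open Fermat.Agent.S18
open Fermat.Agent.S18.helper897 (FL gaussO)
open Fermat.Agent.S24.helper24 (Kbar)
open Fermat.Agent.S37.helper530 (t4F t9F)
open Fermat.Agent.S36.helper248 (chartRing)

section T49

variable (M : ℕ) [NeZero M] (ℓ : ℕ) [Fact ℓ.Prime] (hℓM : ¬ ℓ ∣ M)
variable {L : Type} [Field L] [Algebra ℚ L] (A : ValuationSubring L)
  (hA : (ℓ : L) ∈ A.nonunits)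
variable [Algebra L Kbar] [IsDiscreteValuationRing ↥A] [PerfectField (IsLocalRing.ResidueField ↥A)]

include hA hℓM in
/-- **Base level on the `t₄`-line** (`4 ∣ M`, `ℓ ∤ M`), both charts. -/
theorem t4_base (h4 : 4 ∣ M) (ϖ : ↥A) (hϖ : Irreducible ϖ) :
    ∀ i : Fin 2,
      (∀ g ∈ gaussO M ℓ hℓM A hA,
        ∀ p : Polynomial (chartRing ↥A (if i = 0 then ({t4F L M h4} : Set (FL M L))
          else {(t4F L M h4)⁻¹})), p.Monic →
        p.eval₂ (chartRing ↥A (if i = 0 then ({t4F L M h4} : Set (FL M L))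
          else {(t4F L M h4)⁻¹})).subtype g ∈ (gaussO M ℓ hℓM A hA).nonunits →
        ∃ r ∈ chartRing ↥A (if i = 0 then ({t4F L M h4} : Set (FL M L)) else {(t4F L M h4)⁻¹}),
          g - r ∈ (gaussO M ℓ hℓM A hA).nonunits) ∧
      (∀ b ∈ chartRing ↥A (if i = 0 then ({t4F L M h4} : Set (FL M L)) else {(t4F L M h4)⁻¹}),
        b ∈ gaussO M ℓ hℓM A hA) ∧
      (∀ a ∈ gaussO M ℓ hℓM A hA,
        ∃ s ∈ chartRing ↥A (if i = 0 then ({t4F L M h4} : Set (FL M L)) else {(t4F L M h4)⁻¹}),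
          s ∉ (gaussO M ℓ hℓM A hA).nonunits ∧
          s * a ∈ chartRing ↥A (if i = 0 then ({t4F L M h4} : Set (FL M L))
            else {(t4F L M h4)⁻¹})) ∧
      IsNoetherianRing (chartRing ↥A (if i = 0 then ({t4F L M h4} : Set (FL M L))
        else {(t4F L M h4)⁻¹})) ∧
      (∀ p : Ideal (chartRing ↥A (if i = 0 then ({t4F L M h4} : Set (FL M L))
          else {(t4F L M h4)⁻¹})), p.IsPrime →
        (∀ b, b ∈ p ↔ (b : FL M L) ∈ (gaussO M ℓ hℓM A hA).nonunits) →
        IsDedekindDomain (chartRing ↥A (if i = 0 then ({t4F L M h4} : Set (FL M L))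
          else {(t4F L M h4)⁻¹}) ⧸ p)) := by
  have : CharZero L := algebraRat.charZero L
  have hmax := Fermat.Agent.S37.helper4289.isMaximal_span_of_irreducible hϖ
  have := Fermat.Agent.S37.helper530.finiteDimensional_t4F L M h4
  exact @chartPair_base ↥A L (FL M L) _ _ _ _ _ _ _ _ _ _
    (IsScalarTower.of_algebraMap_eq (fun x => rfl)) _ ϖ hϖ.prime hmax (t4F L M h4)
    (Fermat.Agent.S37.helper530.transcendental_t4F L M h4) _ (gaussO M ℓ hℓM A hA)
    (helper4289.gaussData_t4 M ℓ hℓM A hA h4 ϖ hϖ.maximalIdeal_eq)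
    (helper4289.gaussO_unif M ℓ hℓM A hA ϖ hϖ)
    (helper4289.t4_intLift M ℓ hℓM A hA h4 ϖ hϖ)
    (helper4289.t4_inv_intLift M ℓ hℓM A hA h4 ϖ hϖ)
    (fun i => chartRing ↥A (if i = 0 then ({t4F L M h4} : Set (FL M L)) else {(t4F L M h4)⁻¹}))
    (fun _ => Iff.rfl) (fun _ => Iff.rfl)

include hA hℓM in
/-- **Base level on the `t₉`-line** (`9 ∣ M`, `ℓ ∤ M`), both charts. -/
theorem t9_base (h9 : 9 ∣ M) (ϖ : ↥A) (hϖ : Irreducible ϖ) :
    ∀ i : Fin 2,
      (∀ g ∈ gaussO M ℓ hℓM A hA,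
        ∀ p : Polynomial (chartRing ↥A (if i = 0 then ({t9F L M h9} : Set (FL M L))
          else {(t9F L M h9)⁻¹})), p.Monic →
        p.eval₂ (chartRing ↥A (if i = 0 then ({t9F L M h9} : Set (FL M L))
          else {(t9F L M h9)⁻¹})).subtype g ∈ (gaussO M ℓ hℓM A hA).nonunits →
        ∃ r ∈ chartRing ↥A (if i = 0 then ({t9F L M h9} : Set (FL M L)) else {(t9F L M h9)⁻¹}),
          g - r ∈ (gaussO M ℓ hℓM A hA).nonunits) ∧
      (∀ b ∈ chartRing ↥A (if i = 0 then ({t9F L M h9} : Set (FL M L)) else {(t9F L M h9)⁻¹}),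
        b ∈ gaussO M ℓ hℓM A hA) ∧
      (∀ a ∈ gaussO M ℓ hℓM A hA,
        ∃ s ∈ chartRing ↥A (if i = 0 then ({t9F L M h9} : Set (FL M L)) else {(t9F L M h9)⁻¹}),
          s ∉ (gaussO M ℓ hℓM A hA).nonunits ∧
          s * a ∈ chartRing ↥A (if i = 0 then ({t9F L M h9} : Set (FL M L))
            else {(t9F L M h9)⁻¹})) ∧
      IsNoetherianRing (chartRing ↥A (if i = 0 then ({t9F L M h9} : Set (FL M L))
        else {(t9F L M h9)⁻¹})) ∧
      (∀ p : Ideal (chartRing ↥A (if i = 0 then ({t9F L M h9} : Set (FL M L))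
          else {(t9F L M h9)⁻¹})), p.IsPrime →
        (∀ b, b ∈ p ↔ (b : FL M L) ∈ (gaussO M ℓ hℓM A hA).nonunits) →
        IsDedekindDomain (chartRing ↥A (if i = 0 then ({t9F L M h9} : Set (FL M L))
          else {(t9F L M h9)⁻¹}) ⧸ p)) := by
  have : CharZero L := algebraRat.charZero L
  have hmax := Fermat.Agent.S37.helper4289.isMaximal_span_of_irreducible hϖ
  have := Fermat.Agent.S37.helper530.finiteDimensional_t9F L M h9
  exact @chartPair_base ↥A L (FL M L) _ _ _ _ _ _ _ _ _ _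
    (IsScalarTower.of_algebraMap_eq (fun x => rfl)) _ ϖ hϖ.prime hmax (t9F L M h9)
    (Fermat.Agent.S37.helper530.transcendental_t9F L M h9) _ (gaussO M ℓ hℓM A hA)
    (helper4289.gaussData_t9 M ℓ hℓM A hA h9 ϖ hϖ.maximalIdeal_eq)
    (helper4289.gaussO_unif M ℓ hℓM A hA ϖ hϖ)
    (helper4289.t9_intLift M ℓ hℓM A hA h9 ϖ hϖ)
    (helper4289.t9_inv_intLift M ℓ hℓM A hA h9 ϖ hϖ)
    (fun i => chartRing ↥A (if i = 0 then ({t9F L M h9} : Set (FL M L)) else {(t9F L M h9)⁻¹}))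
    (fun _ => Iff.rfl) (fun _ => Iff.rfl)

end T49

end Fermat.Agent.S36.helper1162
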