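import Mathlib

/-!
# S36 — integral closedness of the reductions of the charts is inherited from the lower level
(helper1413)

Setting of KILL-ASM (helper36, datum v2): `F` the function field of `X₀(q² M'')` over
`K = ℚ̄^I`, `F'` that of `X₀(q M'')`, `ψ : F' → F` a degeneracy map, `B' ⊆ F'`, `B ⊆ F` chart
rings (`ψ(B') ⊆ B`, `B` integral over `ψ(B')`), `V` one of the vertical valuation rings of `F`,
lying over the vertical valuation ring `V1` of `F'` with residue degree one.

`RedIC B V` : the reduction of `B` along `V` is integrally closed in the residue field of `V`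
(elementwise: every `g ∈ V` which is, modulo `𝔪(V)`, a root of a monic polynomial with
coefficients in `B`, is congruent modulo `𝔪(V)` to an element of `B`).

One-map transfer (`RedIC B' V1` is the only geometric input):

* `red_eq_of_redIC`    : `∀ b ∈ B, ∃ b' ∈ B', ψ b' - b ∈ 𝔪(V)`
                          (the reductions of `B` and of `ψ(B')` along `V` coincide:
                          fields `red_a`, `red_m` of the datum);
* `redIC_transfer`     : `RedIC B V`;
* `redRoot_of_redIC`   : `RedIC B V` gives `n`-th-root closedness (field `red_root`), also in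
                          the valuation form `(V.valuation (g ^ n - b) < 1)`.

So `red_root`, `red_a`, `red_m` at level `q² M''` follow formally from `RedIC` at level
`q M''`, and `RedIC` at level `q M''` from `RedIC` for the single Gauss valuation at level
`M''` (the S18 statement "the reduction of the chart ring is the integral closure of `k[x̄]`").
-/

set_option autoImplicit false

namespace Fermat.Agent.S36.helper1413

open Polynomial

section Basics

variable {F : Type*} [Field F]

/-- The maximal ideal of a valuation subring is stable under multiplication by the ring. -/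
theorem nonunits_mul_mem (V : ValuationSubring F) {a m : F} (ha : a ∈ V)
    (hm : m ∈ V.nonunits) : a * m ∈ V.nonunits := by
  rw [V.mem_nonunits_iff] at hm ⊢
  have h1 : V.valuation a ≤ 1 := (V.valuation_le_one_iff a).mpr ha
  rw [map_mul]
  exact lt_of_le_of_lt (mul_le_of_le_one_left' h1) hm

theorem nonunits_mul_mem' (V : ValuationSubring F) {a m : F} (ha : a ∈ V)
    (hm : m ∈ V.nonunits) : m * a ∈ V.nonunits := by
  rw [mul_comm]
  exact nonunits_mul_mem V ha hm

theorem nonunits_le (V : ValuationSubring F) {m : F} (hm : m ∈ V.nonunits) : m ∈ V :=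
  V.nonunits_subset hm

/-- `x ≡ y` modulo `𝔪(V)` implies `x ^ n ≡ y ^ n`. -/
theorem pow_sub_pow_mem_nonunits (V : ValuationSubring F) {x y : F} (hx : x ∈ V) (hy : y ∈ V)
    (hxy : x - y ∈ V.nonunits) (n : ℕ) : x ^ n - y ^ n ∈ V.nonunits := by
  induction n with
  | zero =>
    rw [pow_zero, pow_zero, sub_self]
    exact V.nonunits.zero_mem
  | succ n ih =>
    have h : x ^ (n + 1) - y ^ (n + 1) = x ^ n * (x - y) + y * (x ^ n - y ^ n) := by ring
    rw [h]
    exact V.nonunits.add_mem (nonunits_mul_mem V (pow_mem hx n) hxy) (nonunits_mul_mem V hy ih)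

/-- Polynomials with coefficients in `V` respect congruences modulo `𝔪(V)`. -/
theorem eval₂_sub_mem_nonunits {R : Type*} [CommRing R] (V : ValuationSubring F) (φ : R →+* F)
    (hφ : ∀ r, φ r ∈ V) (p : R[X]) {x y : F} (hx : x ∈ V) (hy : y ∈ V)
    (hxy : x - y ∈ V.nonunits) : p.eval₂ φ x - p.eval₂ φ y ∈ V.nonunits := by
  induction p using Polynomial.induction_on' with
  | add p q hp hq =>
    rw [eval₂_add, eval₂_add]
    have h : p.eval₂ φ x + q.eval₂ φ x - (p.eval₂ φ y + q.eval₂ φ y)
        = (p.eval₂ φ x - p.eval₂ φ y) + (q.eval₂ φ x - q.eval₂ φ y) := by ring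
    rw [h]
    exact V.nonunits.add_mem hp hq
  | monomial n a =>
    rw [eval₂_monomial, eval₂_monomial, ← mul_sub]
    exact nonunits_mul_mem V (hφ a) (pow_sub_pow_mem_nonunits V hx hy hxy n)

/-- The reduction of the subring `B` along `V` is integrally closed in the residue field of
`V`: every `g ∈ V` which is, modulo the maximal ideal of `V`, a root of a monic polynomial with
coefficients in `B`, is congruent modulo the maximal ideal of `V` to an element of `B`. -/
def RedIC (B : Subring F) (V : ValuationSubring F) : Prop :=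
  ∀ g : F, g ∈ V → ∀ p : B[X], p.Monic → p.eval₂ B.subtype g ∈ V.nonunits →
    ∃ r : F, r ∈ B ∧ g - r ∈ V.nonunits

/-- `n`-th-root closedness of the reduction (field `red_root`), membership form. -/
theorem redRoot_of_redIC {B : Subring F} {V : ValuationSubring F} (hBV : ∀ b : F, b ∈ B → b ∈ V)
    (h : RedIC B V) (n : ℕ) (hn : n ≠ 0) (g : F)
    (hg : ∃ b : F, b ∈ B ∧ g ^ n - b ∈ V.nonunits) :
    ∃ r : F, r ∈ B ∧ g - r ∈ V.nonunits := by
  obtain ⟨b, hb, hgb⟩ := hg
  -- `g ∈ V`
  have hgn : g ^ n ∈ V := by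
    have : g ^ n = (g ^ n - b) + b := by ring
    rw [this]
    exact add_mem (nonunits_le V hgb) (hBV b hb)
  have hgV : g ∈ V := by
    rw [← V.valuation_le_one_iff] at hgn ⊢
    rw [map_pow] at hgn
    by_contra hlt
    rw [not_le] at hlt
    exact absurd hgn (not_le.mpr (one_lt_pow₀ hlt hn))
  refine h g hgV (X ^ n - C (⟨b, hb⟩ : B)) (monic_X_pow_sub_C _ hn) ?_
  rw [eval₂_sub, eval₂_pow, eval₂_X, eval₂_C]
  exact hgb

/-- `n`-th-root closedness of the reduction, valuation form (the `hBI` shape of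
`helper4913.seedLocal_of_values`). -/
theorem redRoot_val_of_redIC {B : Subring F} {V : ValuationSubring F}
    (hBV : ∀ b : F, b ∈ B → b ∈ V) (h : RedIC B V) (n : ℕ) (hn : n ≠ 0) (g : F)
    (hg : ∃ b : B, V.valuation (g ^ n - (b : F)) < 1) :
    ∃ r : B, V.valuation (g - (r : F)) < 1 := by
  obtain ⟨b, hb⟩ := hg
  obtain ⟨r, hr, hgr⟩ := redRoot_of_redIC hBV h n hn g ⟨b, b.2, V.mem_nonunits_iff.mpr hb⟩
  exact ⟨⟨r, hr⟩, V.mem_nonunits_iff.mp hgr⟩

end Basics

section OneMap

variable {F F' : Type*} [Field F] [Field F']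

/-- `ψ` reflects the maximal ideals when `V` lies over `V1`. -/
theorem mem_nonunits_of_map {ψ : F' →+* F} {V : ValuationSubring F} {V1 : ValuationSubring F'}
    (hmem : ∀ a : F', ψ a ∈ V ↔ a ∈ V1) {a : F'} (ha : ψ a ∈ V.nonunits) :
    a ∈ V1.nonunits := by
  rw [ValuationSubring.mem_nonunits_iff_or] at ha ⊢
  rcases ha with ha | ha
  · left
    exact (map_eq_zero ψ).mp ha
  · right
    rw [← map_inv₀, hmem] at ha
    exact ha

/-- `ψ` preserves the maximal ideals when `V` lies over `V1`. -/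
theorem map_mem_nonunits' {ψ : F' →+* F} {V : ValuationSubring F} {V1 : ValuationSubring F'}
    (hmem : ∀ a : F', ψ a ∈ V ↔ a ∈ V1) {a : F'} (ha : a ∈ V1.nonunits) :
    ψ a ∈ V.nonunits := by
  rw [ValuationSubring.mem_nonunits_iff_or] at ha ⊢
  rcases ha with rfl | ha
  · left
    exact map_zero ψ
  · right
    rw [← map_inv₀, hmem]
    exact ha

/-- **The reductions of `B` and of `ψ(B')` along `V` coincide** (fields `red_a`, `red_m`):
`B` is integral over `ψ(B')`, `V` has residue degree one over `V1`, and the reduction of `B'`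
along `V1` is integrally closed. -/
theorem red_eq_of_redIC (ψ : F' →+* F) (B' : Subring F') (B : Subring F)
    (hint : ∀ b : F, b ∈ B → ∃ p : B'[X], p.Monic ∧ p.eval₂ (ψ.comp B'.subtype) b = 0)
    (V : ValuationSubring F) (V1 : ValuationSubring F')
    (hBV : ∀ b : F, b ∈ B → b ∈ V) (hBV' : ∀ b : F', b ∈ B' → b ∈ V1)
    (hmem : ∀ a : F', ψ a ∈ V ↔ a ∈ V1)
    (hlift : ∀ h : F, h ∈ V → ∃ a : F', a ∈ V1 ∧ ψ a - h ∈ V.nonunits)
    (hIC : RedIC B' V1) (b : F) (hb : b ∈ B) :
    ∃ b' : F', b' ∈ B' ∧ ψ b' - b ∈ V.nonunits := by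
  obtain ⟨a, ha, hab⟩ := hlift b (hBV b hb)
  obtain ⟨p, hp, hpb⟩ := hint b hb
  -- `p(a) ∈ 𝔪(V1)`
  have hpa : p.eval₂ B'.subtype a ∈ V1.nonunits := by
    apply mem_nonunits_of_map hmem
    rw [hom_eval₂]
    have hcong := eval₂_sub_mem_nonunits V (ψ.comp B'.subtype)
      (fun r => (hmem _).mpr (hBV' _ r.2)) p ((hmem a).mpr ha) (hBV b hb) hab
    rwa [hpb, sub_zero] at hcong
  obtain ⟨r, hr, har⟩ := hIC a ha p hp hpa
  refine ⟨r, hr, ?_⟩
  have h : ψ r - b = (ψ a - b) - ψ (a - r) := by rw [map_sub]; ring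
  rw [h]
  exact V.nonunits.sub_mem hab (map_mem_nonunits' hmem har)

/-- **Transfer of integral closedness of the reduction** along a degeneracy map of residue
degree one. -/
theorem redIC_transfer (ψ : F' →+* F) (B' : Subring F') (B : Subring F)
    (hmap : ∀ b : F', b ∈ B' → ψ b ∈ B)
    (hint : ∀ b : F, b ∈ B → ∃ p : B'[X], p.Monic ∧ p.eval₂ (ψ.comp B'.subtype) b = 0)
    (V : ValuationSubring F) (V1 : ValuationSubring F')
    (hBV : ∀ b : F, b ∈ B → b ∈ V) (hBV' : ∀ b : F', b ∈ B' → b ∈ V1)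
    (hmem : ∀ a : F', ψ a ∈ V ↔ a ∈ V1)
    (hlift : ∀ h : F, h ∈ V → ∃ a : F', a ∈ V1 ∧ ψ a - h ∈ V.nonunits)
    (hIC : RedIC B' V1) : RedIC B V := by
  intro g hg P hP hPg
  classical
  -- lift the coefficients of `P`
  have hred := red_eq_of_redIC ψ B' B hint V V1 hBV hBV' hmem hlift hIC
  choose c hcB hc using fun j : ℕ => hred (P.coeff j : F) (P.coeff j).2
  let c' : ℕ → B' := fun j => ⟨c j, hcB j⟩
  let n := P.natDegree
  let Q : B'[X] := X ^ n + ∑ j ∈ Finset.range n, C (c' j) * X ^ j
  have hQ : Q.Monic := by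
    refine monic_X_pow_add ?_
    refine lt_of_le_of_lt (degree_sum_le _ _) ?_
    exact (Finset.sup_lt_iff (WithBot.bot_lt_coe n)).mpr fun j hj =>
      lt_of_le_of_lt (degree_C_mul_X_pow_le j _) (Nat.cast_lt.mpr (Finset.mem_range.mp hj))
  -- lift the root
  obtain ⟨a, ha, hag⟩ := hlift g hg
  -- `Q(a) ∈ 𝔪(V1)`
  have hQa : Q.eval₂ B'.subtype a ∈ V1.nonunits := by
    apply mem_nonunits_of_map hmem
    rw [hom_eval₂]
    -- compare `Q(ψ a)` with `Q(g)` and `Q(g)` with `P(g)`
    have h1 := eval₂_sub_mem_nonunits V (ψ.comp B'.subtype)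
      (fun r => (hmem _).mpr (hBV' _ r.2)) Q ((hmem a).mpr ha) hg hag
    have h2 : Q.eval₂ (ψ.comp B'.subtype) g - P.eval₂ B.subtype g ∈ V.nonunits := by
      have hPsum : P.eval₂ B.subtype g
          = g ^ n + ∑ j ∈ Finset.range n, (P.coeff j : F) * g ^ j := by
        conv_lhs => rw [hP.as_sum]
        simp only [eval₂_add, eval₂_pow, eval₂_X, eval₂_finsetSum, eval₂_mul, eval₂_C,
          Subring.coe_subtype, n]
      have hQsum : Q.eval₂ (ψ.comp B'.subtype) g
          = g ^ n + ∑ j ∈ Finset.range n, ψ (c j) * g ^ j := by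
        simp only [Q, eval₂_add, eval₂_pow, eval₂_X, eval₂_finsetSum, eval₂_mul, eval₂_C,
          RingHom.comp_apply, Subring.coe_subtype, c']
      rw [hPsum, hQsum, add_sub_add_left_eq_sub, ← Finset.sum_sub_distrib]
      refine V.nonunits.sum_mem fun j _ => ?_
      rw [← sub_mul]
      exact nonunits_mul_mem' V (pow_mem hg j) (hc j)
    have h3 : Q.eval₂ (ψ.comp B'.subtype) (ψ a)
        = (Q.eval₂ (ψ.comp B'.subtype) (ψ a) - Q.eval₂ (ψ.comp B'.subtype) g)
          + (Q.eval₂ (ψ.comp B'.subtype) g - P.eval₂ B.subtype g) + P.eval₂ B.subtype g := by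
      ring
    rw [h3]
    exact V.nonunits.add_mem (V.nonunits.add_mem h1 h2) hPg
  obtain ⟨r, hr, har⟩ := hIC a ha Q hQ hQa
  refine ⟨ψ r, hmap r hr, ?_⟩
  have h : g - ψ r = ψ (a - r) - (ψ a - g) := by rw [map_sub]; ring
  rw [h]
  exact V.nonunits.sub_mem (map_mem_nonunits' hmem har) hag

end OneMap

end Fermat.Agent.S36.helper1413
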