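import Mathlib
import Fermat.Agent.S36.helper1413_RedTransfer
import Fermat.Agent.S36.helper248_RootLatticeChart

/-!
# S36 — `red_root`, `red_a`, `red_m` of the (KILL) datum from the level below  (helper1413)

Chart form of `helper1413_RedTransfer`: the chart rings are `helper248.chartRing O s` (the
integral closure of `O[s]`); the only inputs are

* the residue-degree-one fields `mem_*`, `lift_*` of the degeneracy maps,
* "the coordinate upstairs is integral over the image of the chart downstairs"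
  (`x ∈ chartRing O {ψ x'}`: trivial for `α` since `α x' = x`; for `β` this is
  "`t` is integral over `O[t(qz)]`"),
* `RedIC` of the charts one level down.

Main statements:

* `chart_isIntegralElem`  : the integrality hypothesis `hint` of `red_eq_of_redIC` for charts;
* `chartRing_map_mem`     : `ψ (chartRing O s') ⊆ chartRing O s`;
* `chartRing_le_valuationSubring` : chart rings lie in every valuation ring containing the
  constants and the coordinates;
* `redIC_chart_transfer`  : one map, one pair of valuations;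
* `chartAt_map_of_mem`, `chartAt_map_of_eq` : the field `map_chart`;
* `redIC_chartAt_transfer`: one map, both charts;
* `redIC_level_q`         : level `M''` ⟹ level `q M''` (two valuations, `α'` and `β'`);
* `red_fields`            : level `q M''` ⟹ the fields `red_root`, `degα.red_a`, `degα.red_m`,
  `degβ.red_a`, `degβ.red_m` of `helper36.KillData` (v2) verbatim;
* `red_fields_of_level`   : level `M''` ⟹ the same fields (and `map_chart` for `α`, `β`).
-/

set_option autoImplicit false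

namespace Fermat.Agent.S36.helper1413

open Polynomial
open Fermat.Agent.S36.helper248 (chartRing)

section Generic

variable {A0 F : Type*} [CommRing A0] [Field F] [Algebra A0 F]

/-- Transitivity of integrality through a subalgebra all of whose elements are integral. -/
theorem isIntegral_of_forall_isIntegral {R : Type*} [CommRing R] [Algebra R F]
    (S : Subalgebra A0 F) (hS : ∀ y : F, y ∈ S → IsIntegral R y) {b : F} (hb : IsIntegral S b) :
    IsIntegral R b := by
  let f : S →+* integralClosure R F :=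
    { toFun := fun y => ⟨y.1, hS y.1 y.2⟩
      map_one' := rfl
      map_mul' := fun _ _ => rfl
      map_zero' := rfl
      map_add' := fun _ _ => rfl }
  have h1 : IsIntegral (integralClosure R F) b :=
    Fermat.Agent.S18.helper5377.isIntegral_of_ringHom f (by ext; rfl) hb
  exact isIntegral_trans b h1

/-- Chart rings lie in every valuation ring containing the constants and the coordinates. -/
theorem chartRing_le_valuationSubring (s : Set F) (V : ValuationSubring F)
    (hA : ∀ a : A0, algebraMap A0 F a ∈ V) (hs : ∀ y : F, y ∈ s → y ∈ V) (b : F)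
    (hb : b ∈ chartRing A0 s) : b ∈ V := by
  have hle : ∀ y : F, y ∈ Algebra.adjoin A0 s → y ∈ V := by
    intro y hy
    induction hy using Algebra.adjoin_induction with
    | mem y hy => exact hs y hy
    | algebraMap a => exact hA a
    | add y z _ _ hy hz => exact add_mem hy hz
    | mul y z _ _ hy hz => exact mul_mem hy hz
  let f : Algebra.adjoin A0 s →+* V :=
    { toFun := fun y => ⟨y.1, hle y.1 y.2⟩
      map_one' := rfl
      map_mul' := fun _ _ => rfl
      map_zero' := rfl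
      map_add' := fun _ _ => rfl }
  have h1 : IsIntegral V b :=
    Fermat.Agent.S18.helper5377.isIntegral_of_ringHom f (by ext; rfl)
      (Fermat.Agent.S36.helper248.mem_chartRing.mp hb)
  obtain ⟨y, hy⟩ := (IsIntegrallyClosed.isIntegral_iff (R := V) (K := F)).mp h1
  rw [← hy]
  exact y.2

variable {F' : Type*} [Field F'] [Algebra A0 F']

/-- `ψ` maps the chart ring of `s'` into the chart ring of `s` as soon as it maps `s'` into
it. -/
theorem chartRing_map_mem (ψ : F' →+* F)
    (hψ : ∀ a : A0, ψ (algebraMap A0 F' a) = algebraMap A0 F a) (s' : Set F') (s : Set F)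
    (hs' : ∀ y : F', y ∈ s' → ψ y ∈ chartRing A0 s) (b : F') (hb : b ∈ chartRing A0 s') :
    ψ b ∈ chartRing A0 s := by
  have hle : ∀ y : F', y ∈ Algebra.adjoin A0 s' → ψ y ∈ chartRing A0 s := by
    intro y hy
    induction hy using Algebra.adjoin_induction with
    | mem y hy => exact hs' y hy
    | algebraMap a =>
      rw [hψ]
      exact Fermat.Agent.S36.helper248.algebraMap_mem_chartRing s a
    | add y z _ _ hy hz =>
      rw [map_add]
      exact add_mem hy hz
    | mul y z _ _ hy hz =>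
      rw [map_mul]
      exact mul_mem hy hz
  let f : Algebra.adjoin A0 s' →+* chartRing A0 s :=
    { toFun := fun y => ⟨ψ y.1, hle y.1 y.2⟩
      map_one' := Subtype.ext (map_one ψ)
      map_mul' := fun _ _ => Subtype.ext (map_mul ψ _ _)
      map_zero' := Subtype.ext (map_zero ψ)
      map_add' := fun _ _ => Subtype.ext (map_add ψ _ _) }
  have h1 : IsIntegral (chartRing A0 s) (ψ b) :=
    IsIntegral.map_of_comp_eq f ψ (by ext; rfl)
      (Fermat.Agent.S36.helper248.mem_chartRing.mp hb)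
  exact Fermat.Agent.S36.helper248.intClosedIn_chartRing s (ψ b) h1

/-- **Integrality of the chart upstairs over the image of the chart downstairs**: if the
coordinates `s` upstairs are integral over `O[ψ(s')]`, then every element of the chart ring of
`s` is a root of a monic polynomial with coefficients in `ψ (chartRing O s')`
(hypothesis `hint` of `red_eq_of_redIC` / `redIC_transfer`). -/
theorem chart_isIntegralElem (ψ : F' →+* F)
    (hψ : ∀ a : A0, ψ (algebraMap A0 F' a) = algebraMap A0 F a) (s' : Set F') (s : Set F)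
    (hs : ∀ y : F, y ∈ s → y ∈ chartRing A0 (ψ '' s')) (b : F) (hb : b ∈ chartRing A0 s) :
    ∃ p : (chartRing A0 s')[X], p.Monic ∧
      p.eval₂ (ψ.comp (chartRing A0 s').subtype) b = 0 := by
  let _ : Algebra (chartRing A0 s') F := (ψ.comp (chartRing A0 s').subtype).toAlgebra
  -- elements of `O[ψ(s')]` are images of elements of the chart downstairs
  have h1 : ∀ y : F, y ∈ Algebra.adjoin A0 (ψ '' s') → IsIntegral (chartRing A0 s') y := by
    intro y hy
    have hrange : ∀ y : F, y ∈ Algebra.adjoin A0 (ψ '' s') →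
        ∃ z : chartRing A0 s', ψ (z : F') = y := by
      intro y hy
      induction hy using Algebra.adjoin_induction with
      | mem y hy =>
        obtain ⟨y', hy', rfl⟩ := hy
        exact ⟨⟨y', Fermat.Agent.S36.helper248.mem_chartRing_of_mem hy'⟩, rfl⟩
      | algebraMap a =>
        exact ⟨⟨algebraMap A0 F' a, Fermat.Agent.S36.helper248.algebraMap_mem_chartRing s' a⟩,
          hψ a⟩
      | add y z _ _ hy hz =>
        obtain ⟨y', rfl⟩ := hy
        obtain ⟨z', rfl⟩ := hz
        exact ⟨y' + z', by rw [Subring.coe_add, map_add]⟩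
      | mul y z _ _ hy hz =>
        obtain ⟨y', rfl⟩ := hy
        obtain ⟨z', rfl⟩ := hz
        exact ⟨y' * z', by rw [Subring.coe_mul, map_mul]⟩
    obtain ⟨z, rfl⟩ := hrange y hy
    exact isIntegral_algebraMap (R := chartRing A0 s') (x := z)
  -- the coordinates upstairs
  have h2 : ∀ y : F, y ∈ s → IsIntegral (chartRing A0 s') y := fun y hy =>
    isIntegral_of_forall_isIntegral (Algebra.adjoin A0 (ψ '' s')) h1
      (Fermat.Agent.S36.helper248.mem_chartRing.mp (hs y hy))
  -- `O[s]`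
  have h3 : ∀ y : F, y ∈ Algebra.adjoin A0 s → IsIntegral (chartRing A0 s') y := by
    intro y hy
    induction hy using Algebra.adjoin_induction with
    | mem y hy => exact h2 y hy
    | algebraMap a =>
      have : algebraMap A0 F a = algebraMap (chartRing A0 s') F
          ⟨algebraMap A0 F' a, Fermat.Agent.S36.helper248.algebraMap_mem_chartRing s' a⟩ :=
        (hψ a).symm
      rw [this]
      exact isIntegral_algebraMap
    | add y z _ _ hy hz => exact hy.add hz
    | mul y z _ _ hy hz => exact hy.mul hz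
  exact isIntegral_of_forall_isIntegral (Algebra.adjoin A0 s) h3
    (Fermat.Agent.S36.helper248.mem_chartRing.mp hb)

end Generic

section OneMapChart

variable {K F F' : Type*} [Field K] [Field F] [Field F'] [Algebra K F] [Algebra K F']

/-- **One degeneracy map, one pair of valuations, chart form.**  `ψ(s') ⊆ chart(s)`, the
coordinates `s` are integral over `O[ψ(s')]`, `V` lies over `V1` with residue degree one, and the
reduction of the chart of `s'` along `V1` is integrally closed.  Then the reduction of the chart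
of `s` along `V` is integrally closed and equals that of `ψ(chart(s'))`. -/
theorem redIC_chart_transfer (O : ValuationSubring K) (ψ : F' →ₐ[K] F) (s' : Set F')
    (s : Set F) (hs' : ∀ y : F', y ∈ s' → ψ y ∈ chartRing O s)
    (hs : ∀ y : F, y ∈ s → y ∈ chartRing O (ψ '' s'))
    (V : ValuationSubring F) (V1 : ValuationSubring F')
    (hOV : ∀ a : K, a ∈ O → algebraMap K F a ∈ V) (hsV : ∀ y : F, y ∈ s → y ∈ V)
    (hmem : ∀ a : F', ψ a ∈ V ↔ a ∈ V1)
    (hlift : ∀ h : F, h ∈ V → ∃ a : F', a ∈ V1 ∧ ψ a - h ∈ V.nonunits)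
    (hIC : RedIC (chartRing O s') V1) :
    RedIC (chartRing O s) V ∧
      ∀ b : F, b ∈ chartRing O s → ∃ b' : F', b' ∈ chartRing O s' ∧ ψ b' - b ∈ V.nonunits := by
  have hψ : ∀ a : O, (ψ : F' →+* F) (algebraMap O F' a) = algebraMap O F a := fun a =>
    ψ.commutes (a : K)
  have hmap : ∀ b : F', b ∈ chartRing O s' → (ψ : F' →+* F) b ∈ chartRing O s :=
    chartRing_map_mem (ψ : F' →+* F) hψ s' s hs'
  have hint := chart_isIntegralElem (ψ : F' →+* F) hψ s' s hs
  have hBV : ∀ b : F, b ∈ chartRing O s → b ∈ V :=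
    chartRing_le_valuationSubring s V (fun a => hOV (a : K) a.2) hsV
  have hBV' : ∀ b : F', b ∈ chartRing O s' → b ∈ V1 := fun b hb =>
    (hmem b).mp (hBV _ (hmap b hb))
  exact ⟨redIC_transfer (ψ : F' →+* F) _ _ hmap hint V V1 hBV hBV' hmem hlift hIC,
    red_eq_of_redIC (ψ : F' →+* F) _ _ hint V V1 hBV hBV' hmem hlift hIC⟩

end OneMapChart

section TwoCharts

variable {K F F' : Type*} [Field K] [Field F] [Field F'] [Algebra K F] [Algebra K F']

/-- The two charts of the base line `x` over `O` (the body of `helper36.chart`): the integral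
closures of `O[x]` (`i = 0`) and of `O[x⁻¹]` (`i = 1`). -/
abbrev chartAt (O : ValuationSubring K) (x : F) (i : Fin 2) : Subring F :=
  chartRing O (if i = 0 then ({x} : Set F) else {x⁻¹})

/-- The charts lie in every valuation ring containing `O`, `x` and `x⁻¹`. -/
theorem chartAt_le (O : ValuationSubring K) (x : F) (V : ValuationSubring F)
    (hOV : ∀ a : K, a ∈ O → algebraMap K F a ∈ V) (hxV : x ∈ V ∧ x⁻¹ ∈ V) (i : Fin 2) (b : F)
    (hb : b ∈ chartAt O x i) : b ∈ V := by
  refine chartRing_le_valuationSubring (A0 := O) _ V (fun a => hOV (a : K) a.2) ?_ b hb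
  intro y hy
  by_cases hi : i = 0
  · rw [if_pos hi, Set.mem_singleton_iff] at hy
    rw [hy]
    exact hxV.1
  · rw [if_neg hi, Set.mem_singleton_iff] at hy
    rw [hy]
    exact hxV.2

/-- The field `map_chart` of a degeneracy map from the two memberships `ψ x' ∈ chart(x)`,
`(ψ x')⁻¹ ∈ chart(x⁻¹)` (for `β`: "`t(qz)` is integral over `O[t]` and `1/t(qz)` over
`O[1/t]`"). -/
theorem chartAt_map_of_mem (O : ValuationSubring K) (ψ : F' →ₐ[K] F) (x : F) (x' : F')
    (h0 : ψ x' ∈ chartRing O ({x} : Set F)) (h1 : (ψ x')⁻¹ ∈ chartRing O ({x⁻¹} : Set F))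
    (i : Fin 2) (b : F') (hb : b ∈ chartAt O x' i) : ψ b ∈ chartAt O x i := by
  have hψ : ∀ a : O, (ψ : F' →+* F) (algebraMap O F' a) = algebraMap O F a := fun a =>
    ψ.commutes (a : K)
  refine chartRing_map_mem (ψ : F' →+* F) hψ _ _ ?_ b hb
  intro y hy
  by_cases hi : i = 0
  · rw [if_pos hi, Set.mem_singleton_iff] at hy
    rw [if_pos hi, hy]
    exact h0
  · rw [if_neg hi, Set.mem_singleton_iff] at hy
    rw [if_neg hi, hy]
    have : (ψ : F' →+* F) x'⁻¹ = (ψ x')⁻¹ := map_inv₀ ψ x'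
    rw [this]
    exact h1

/-- The field `map_chart` for a degeneracy map with `ψ x' = x` (the map `α`). -/
theorem chartAt_map_of_eq (O : ValuationSubring K) (ψ : F' →ₐ[K] F) (x : F) (x' : F')
    (hx : ψ x' = x) (i : Fin 2) (b : F') (hb : b ∈ chartAt O x' i) : ψ b ∈ chartAt O x i := by
  refine chartAt_map_of_mem O ψ x x' ?_ ?_ i b hb
  · rw [hx]
    exact Fermat.Agent.S36.helper248.mem_chartRing_of_mem (Set.mem_singleton x)
  · rw [hx]
    exact Fermat.Agent.S36.helper248.mem_chartRing_of_mem (Set.mem_singleton x⁻¹)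

/-- **One degeneracy map, both charts** (`Fin 2`-indexed form of `redIC_chart_transfer`).
`hmap` is the field `map_chart` verbatim; `hx0`, `hx1` say that `x` is integral over `O[ψ x']`
and `x⁻¹` over `O[(ψ x')⁻¹]`; `hOV`, `hxV` are `const_V`, `x_V` at one index; `hmem`, `hlift`
are `mem_a`/`lift_a` (resp. `mem_m`/`lift_m`) verbatim. -/
theorem redIC_chartAt_transfer (O : ValuationSubring K) (ψ : F' →ₐ[K] F) (x : F) (x' : F')
    (hmap : ∀ (i : Fin 2) (b : F'), b ∈ chartAt O x' i → ψ b ∈ chartAt O x i)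
    (hx0 : x ∈ chartRing O ({ψ x'} : Set F)) (hx1 : x⁻¹ ∈ chartRing O ({(ψ x')⁻¹} : Set F))
    (V : ValuationSubring F) (V1 : ValuationSubring F')
    (hOV : ∀ a : K, a ∈ O → algebraMap K F a ∈ V) (hxV : x ∈ V ∧ x⁻¹ ∈ V)
    (hmem : ∀ a : F', ψ a ∈ V ↔ a ∈ V1)
    (hlift : ∀ h : F, h ∈ V → ∃ a : F', a ∈ V1 ∧ ψ a - h ∈ V.nonunits)
    (hIC : ∀ i : Fin 2, RedIC (chartAt O x' i) V1) :
    (∀ i : Fin 2, RedIC (chartAt O x i) V) ∧
      ∀ (i : Fin 2) (b : F), b ∈ chartAt O x i →
        ∃ b' : F', b' ∈ chartAt O x' i ∧ ψ b' - b ∈ V.nonunits := by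
  have key : ∀ i : Fin 2, RedIC (chartAt O x i) V ∧
      ∀ b : F, b ∈ chartAt O x i → ∃ b' : F', b' ∈ chartAt O x' i ∧ ψ b' - b ∈ V.nonunits := by
    intro i
    refine redIC_chart_transfer O ψ _ _ ?_ ?_ V V1 hOV ?_ hmem hlift (hIC i)
    · intro y hy
      exact hmap i y (Fermat.Agent.S36.helper248.mem_chartRing_of_mem hy)
    · intro y hy
      by_cases hi : i = 0
      · rw [if_pos hi, Set.mem_singleton_iff] at hy
        rw [if_pos hi, Set.image_singleton, hy]
        exact hx0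
      · rw [if_neg hi, Set.mem_singleton_iff] at hy
        rw [if_neg hi, Set.image_singleton, hy, map_inv₀]
        exact hx1
    · intro y hy
      by_cases hi : i = 0
      · rw [if_pos hi, Set.mem_singleton_iff] at hy
        rw [hy]
        exact hxV.1
      · rw [if_neg hi, Set.mem_singleton_iff] at hy
        rw [hy]
        exact hxV.2
  exact ⟨fun i => (key i).1, fun i => (key i).2⟩

/-- **Chart stability**: `x` and `y` are integral over each other's `O`-algebra, and so are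
their inverses; equivalently the charts of `x` and of `y` coincide.  (For `y = β x'`:
"`t` and `t(qz)` are integral over each other", the four facts of TQ-INT.) -/
def ChartStab (O : ValuationSubring K) (x y : F) : Prop :=
  x ∈ chartRing O ({y} : Set F) ∧ x⁻¹ ∈ chartRing O ({y⁻¹} : Set F) ∧
    y ∈ chartRing O ({x} : Set F) ∧ y⁻¹ ∈ chartRing O ({x⁻¹} : Set F)

theorem chartStab_refl (O : ValuationSubring K) (x : F) : ChartStab O x x :=
  ⟨Fermat.Agent.S36.helper248.mem_chartRing_of_mem (Set.mem_singleton x),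
    Fermat.Agent.S36.helper248.mem_chartRing_of_mem (Set.mem_singleton x⁻¹),
    Fermat.Agent.S36.helper248.mem_chartRing_of_mem (Set.mem_singleton x),
    Fermat.Agent.S36.helper248.mem_chartRing_of_mem (Set.mem_singleton x⁻¹)⟩

/-- The hypotheses `hx0`, `hx1` of `redIC_chartAt_transfer` for a map with `ψ x' = x`. -/
theorem mem_chartRing_of_map_eq (O : ValuationSubring K) (ψ : F' →ₐ[K] F) (x : F) (x' : F')
    (hx : ψ x' = x) :
    x ∈ chartRing O ({ψ x'} : Set F) ∧ x⁻¹ ∈ chartRing O ({(ψ x')⁻¹} : Set F) := by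
  rw [hx]
  exact ⟨Fermat.Agent.S36.helper248.mem_chartRing_of_mem (Set.mem_singleton x),
    Fermat.Agent.S36.helper248.mem_chartRing_of_mem (Set.mem_singleton x⁻¹)⟩

end TwoCharts

section Levels

variable {K F F' F'' : Type*} [Field K] [Field F] [Field F'] [Field F''] [Algebra K F]
  [Algebra K F'] [Algebra K F'']

/-- **Level `M''` ⟹ level `q M''`.**  `V' 0 = v'_∞` lies over the Gauss valuation `V''` of level
`M''` along `α'` with residue degree one, `V' 1 = v'_0` along `β'`; `α' x'' = x'`, and `x'` is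
integral over `O[β' x'']` (and `x'⁻¹` over `O[(β' x'')⁻¹]`).  Then integral closedness of the
reductions of the two charts of level `M''` along `V''` gives integral closedness of the
reductions of the two charts of level `q M''` along `V' 0` and `V' 1`. -/
theorem redIC_level_q (O : ValuationSubring K) (α' β' : F'' →ₐ[K] F') (x' : F') (x'' : F'')
    (hα'x : α' x'' = x')
    (hβ'map : ∀ (i : Fin 2) (b : F''), b ∈ chartAt O x'' i → β' b ∈ chartAt O x' i)
    (hβ'0 : x' ∈ chartRing O ({β' x''} : Set F'))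
    (hβ'1 : x'⁻¹ ∈ chartRing O ({(β' x'')⁻¹} : Set F'))
    (V' : Fin 2 → ValuationSubring F') (V'' : ValuationSubring F'')
    (const_V' : ∀ (c : Fin 2) (a : K), a ∈ O → algebraMap K F' a ∈ V' c)
    (x'_V' : ∀ c : Fin 2, x' ∈ V' c ∧ x'⁻¹ ∈ V' c)
    (mem_α' : ∀ a : F'', α' a ∈ V' 0 ↔ a ∈ V'')
    (lift_α' : ∀ h : F', h ∈ V' 0 → ∃ a : F'', a ∈ V'' ∧ α' a - h ∈ (V' 0).nonunits)
    (mem_β' : ∀ a : F'', β' a ∈ V' 1 ↔ a ∈ V'')
    (lift_β' : ∀ h : F', h ∈ V' 1 → ∃ a : F'', a ∈ V'' ∧ β' a - h ∈ (V' 1).nonunits)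
    (hIC : ∀ i : Fin 2, RedIC (chartAt O x'' i) V'') :
    ∀ (i : Fin 2) (c : Fin 2), RedIC (chartAt O x' i) (V' c) := by
  have hα := (redIC_chartAt_transfer O α' x' x'' (chartAt_map_of_eq O α' x' x'' hα'x)
    (mem_chartRing_of_map_eq O α' x' x'' hα'x).1 (mem_chartRing_of_map_eq O α' x' x'' hα'x).2
    (V' 0) V'' (const_V' 0) (x'_V' 0) mem_α' lift_α' hIC).1
  have hβ := (redIC_chartAt_transfer O β' x' x'' hβ'map hβ'0 hβ'1
    (V' 1) V'' (const_V' 1) (x'_V' 1) mem_β' lift_β' hIC).1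
  intro i c
  fin_cases c
  · exact hα i
  · exact hβ i

/-- `redIC_level_q` with the hypotheses on the constants and the coordinate stated at level
`M''` only (`O ⊆ V''`, `x'', x''⁻¹ ∈ V''`): those at level `q M''` follow from `mem_α'`,
`mem_β'` and the chart stability of `β'`. -/
theorem redIC_level_q_of_base (O : ValuationSubring K) (α' β' : F'' →ₐ[K] F') (x' : F')
    (x'' : F'') (hα'x : α' x'' = x')
    (hβ'0 : x' ∈ chartRing O ({β' x''} : Set F'))
    (hβ'1 : x'⁻¹ ∈ chartRing O ({(β' x'')⁻¹} : Set F'))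
    (hβ'0' : β' x'' ∈ chartRing O ({x'} : Set F'))
    (hβ'1' : (β' x'')⁻¹ ∈ chartRing O ({x'⁻¹} : Set F'))
    (V' : Fin 2 → ValuationSubring F') (V'' : ValuationSubring F'')
    (const_V'' : ∀ a : K, a ∈ O → algebraMap K F'' a ∈ V'')
    (x''_V'' : x'' ∈ V'' ∧ x''⁻¹ ∈ V'')
    (mem_α' : ∀ a : F'', α' a ∈ V' 0 ↔ a ∈ V'')
    (lift_α' : ∀ h : F', h ∈ V' 0 → ∃ a : F'', a ∈ V'' ∧ α' a - h ∈ (V' 0).nonunits)
    (mem_β' : ∀ a : F'', β' a ∈ V' 1 ↔ a ∈ V'')
    (lift_β' : ∀ h : F', h ∈ V' 1 → ∃ a : F'', a ∈ V'' ∧ β' a - h ∈ (V' 1).nonunits)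
    (hIC : ∀ i : Fin 2, RedIC (chartAt O x'' i) V'') :
    ∀ (i : Fin 2) (c : Fin 2), RedIC (chartAt O x' i) (V' c) := by
  have const_V' : ∀ (c : Fin 2) (a : K), a ∈ O → algebraMap K F' a ∈ V' c := by
    intro c a ha
    fin_cases c
    · have h := (mem_α' _).mpr (const_V'' a ha)
      rwa [α'.commutes] at h
    · have h := (mem_β' _).mpr (const_V'' a ha)
      rwa [β'.commutes] at h
  have hβx : β' x'' ∈ V' 1 ∧ (β' x'')⁻¹ ∈ V' 1 := by
    refine ⟨(mem_β' _).mpr x''_V''.1, ?_⟩
    have h := (mem_β' _).mpr x''_V''.2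
    rwa [map_inv₀] at h
  have x'_V' : ∀ c : Fin 2, x' ∈ V' c ∧ x'⁻¹ ∈ V' c := by
    intro c
    fin_cases c
    · constructor
      · have h := (mem_α' _).mpr x''_V''.1
        rwa [hα'x] at h
      · have h := (mem_α' _).mpr x''_V''.2
        rwa [map_inv₀, hα'x] at h
    · constructor
      · refine chartRing_le_valuationSubring (A0 := O) _ (V' 1)
          (fun a => const_V' 1 (a : K) a.2) ?_ _ hβ'0
        intro y hy
        rw [Set.mem_singleton_iff] at hy
        rw [hy]
        exact hβx.1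
      · refine chartRing_le_valuationSubring (A0 := O) _ (V' 1)
          (fun a => const_V' 1 (a : K) a.2) ?_ _ hβ'1
        intro y hy
        rw [Set.mem_singleton_iff] at hy
        rw [hy]
        exact hβx.2
  exact redIC_level_q O α' β' x' x'' hα'x (chartAt_map_of_mem O β' x' x'' hβ'0' hβ'1') hβ'0 hβ'1
    V' V'' const_V' x'_V' mem_α' lift_α' mem_β' lift_β' hIC

/-- **Level `q M''` ⟹ the fields `red_root`, `degα.red_a`, `degα.red_m`, `degβ.red_a`,
`degβ.red_m` of `helper36.KillData` (v2), verbatim**, together with integral closedness of all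
six reductions at level `q² M''`.

Hypotheses: `α x' = x`; the field `degβ.map_chart`; `x` integral over `O[β x']` and `x⁻¹` over
`O[(β x')⁻¹]`; the fields `const_V`, `x_V`; the fields `mem_a`, `mem_m`, `lift_a`, `lift_m` of
`degα` (`v_∞, v_mid` over `v'_∞`) and of `degβ` (`v_0, v_mid` over `v'_0`); and integral
closedness of the four reductions at level `q M''`. -/
theorem red_fields (O : ValuationSubring K) (α β : F' →ₐ[K] F) (x : F) (x' : F')
    (V : Fin 3 → ValuationSubring F) (V' : Fin 2 → ValuationSubring F')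
    (hαx : α x' = x)
    (hβmap : ∀ (i : Fin 2) (b : F'), b ∈ chartAt O x' i → β b ∈ chartAt O x i)
    (hβ0 : x ∈ chartRing O ({β x'} : Set F)) (hβ1 : x⁻¹ ∈ chartRing O ({(β x')⁻¹} : Set F))
    (const_V : ∀ (c : Fin 3) (a : K), a ∈ O → algebraMap K F a ∈ V c)
    (x_V : ∀ c : Fin 3, x ∈ V c ∧ x⁻¹ ∈ V c)
    (α_mem_a : ∀ a : F', α a ∈ V 0 ↔ a ∈ V' 0) (α_mem_m : ∀ a : F', α a ∈ V 1 ↔ a ∈ V' 0)
    (α_lift_a : ∀ h : F, h ∈ V 0 → ∃ a : F', a ∈ V' 0 ∧ α a - h ∈ (V 0).nonunits)
    (α_lift_m : ∀ h : F, h ∈ V 1 → ∃ a : F', a ∈ V' 0 ∧ α a - h ∈ (V 1).nonunits)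
    (β_mem_a : ∀ a : F', β a ∈ V 2 ↔ a ∈ V' 1) (β_mem_m : ∀ a : F', β a ∈ V 1 ↔ a ∈ V' 1)
    (β_lift_a : ∀ h : F, h ∈ V 2 → ∃ a : F', a ∈ V' 1 ∧ β a - h ∈ (V 2).nonunits)
    (β_lift_m : ∀ h : F, h ∈ V 1 → ∃ a : F', a ∈ V' 1 ∧ β a - h ∈ (V 1).nonunits)
    (hIC : ∀ (i : Fin 2) (c : Fin 2), RedIC (chartAt O x' i) (V' c)) :
    (∀ (i : Fin 2) (c : Fin 3), RedIC (chartAt O x i) (V c)) ∧
    (∀ (i : Fin 2) (c : Fin 3) (n : ℕ) (g : F), 0 < n →
      (∃ b : F, b ∈ chartAt O x i ∧ g ^ n - b ∈ (V c).nonunits) →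
        ∃ r : F, r ∈ chartAt O x i ∧ g - r ∈ (V c).nonunits) ∧
    (∀ (i : Fin 2) (b : F), b ∈ chartAt O x i →
      ∃ b' : F', b' ∈ chartAt O x' i ∧ α b' - b ∈ (V 0).nonunits) ∧
    (∀ (i : Fin 2) (b : F), b ∈ chartAt O x i →
      ∃ b' : F', b' ∈ chartAt O x' i ∧ α b' - b ∈ (V 1).nonunits) ∧
    (∀ (i : Fin 2) (b : F), b ∈ chartAt O x i →
      ∃ b' : F', b' ∈ chartAt O x' i ∧ β b' - b ∈ (V 2).nonunits) ∧
    (∀ (i : Fin 2) (b : F), b ∈ chartAt O x i →
      ∃ b' : F', b' ∈ chartAt O x' i ∧ β b' - b ∈ (V 1).nonunits) := by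
  have hαmap := chartAt_map_of_eq O α x x' hαx
  have hα01 := mem_chartRing_of_map_eq O α x x' hαx
  have hαa := redIC_chartAt_transfer O α x x' hαmap hα01.1 hα01.2 (V 0) (V' 0) (const_V 0)
    (x_V 0) α_mem_a α_lift_a (fun i => hIC i 0)
  have hαm := redIC_chartAt_transfer O α x x' hαmap hα01.1 hα01.2 (V 1) (V' 0) (const_V 1)
    (x_V 1) α_mem_m α_lift_m (fun i => hIC i 0)
  have hβa := redIC_chartAt_transfer O β x x' hβmap hβ0 hβ1 (V 2) (V' 1) (const_V 2)
    (x_V 2) β_mem_a β_lift_a (fun i => hIC i 1)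
  have hβm := redIC_chartAt_transfer O β x x' hβmap hβ0 hβ1 (V 1) (V' 1) (const_V 1)
    (x_V 1) β_mem_m β_lift_m (fun i => hIC i 1)
  have hall : ∀ (i : Fin 2) (c : Fin 3), RedIC (chartAt O x i) (V c) := by
    intro i c
    fin_cases c
    · exact hαa.1 i
    · exact hαm.1 i
    · exact hβa.1 i
  refine ⟨hall, ?_, hαa.2, hαm.2, hβa.2, hβm.2⟩
  intro i c n g hn hg
  exact redRoot_of_redIC (chartAt_le O x (V c) (const_V c) (x_V c) i) (hall i c) n hn.ne' g hg

/-- **Level `M''` ⟹ the `red` fields of `helper36.KillData` (v2)**: `red_fields` composed with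
`redIC_level_q`.  The only geometric input is integral closedness of the reduction of the two
charts of level `M''` along the ONE Gauss valuation `V''`; everything else is: the residue
degree one fields of the four degeneracy maps, `const_V`, `x_V`, `α x' = x`, `α' x'' = x'`, and
the chart stability of `β`, `β'` (`x`, `β x'` integral over each other's `O`-algebra, same for
the inverses, same one level down).

Conclusions: the fields `red_root`, `degα.red_a`, `degα.red_m`, `degβ.red_a`, `degβ.red_m`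
verbatim, the fields `degα.map_chart`, `degβ.map_chart`, and `RedIC` at the levels `q M''`
and `q² M''`. -/
theorem red_fields_of_level (O : ValuationSubring K) (α β : F' →ₐ[K] F)
    (α' β' : F'' →ₐ[K] F') (x : F) (x' : F') (x'' : F'')
    (V : Fin 3 → ValuationSubring F) (V' : Fin 2 → ValuationSubring F')
    (V'' : ValuationSubring F'')
    (hαx : α x' = x) (hα'x : α' x'' = x')
    (hβ0 : x ∈ chartRing O ({β x'} : Set F)) (hβ1 : x⁻¹ ∈ chartRing O ({(β x')⁻¹} : Set F))
    (hβ0' : β x' ∈ chartRing O ({x} : Set F)) (hβ1' : (β x')⁻¹ ∈ chartRing O ({x⁻¹} : Set F))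
    (hβ'0 : x' ∈ chartRing O ({β' x''} : Set F'))
    (hβ'1 : x'⁻¹ ∈ chartRing O ({(β' x'')⁻¹} : Set F'))
    (hβ'0' : β' x'' ∈ chartRing O ({x'} : Set F'))
    (hβ'1' : (β' x'')⁻¹ ∈ chartRing O ({x'⁻¹} : Set F'))
    (const_V : ∀ (c : Fin 3) (a : K), a ∈ O → algebraMap K F a ∈ V c)
    (x_V : ∀ c : Fin 3, x ∈ V c ∧ x⁻¹ ∈ V c)
    (α_mem_a : ∀ a : F', α a ∈ V 0 ↔ a ∈ V' 0) (α_mem_m : ∀ a : F', α a ∈ V 1 ↔ a ∈ V' 0)
    (α_lift_a : ∀ h : F, h ∈ V 0 → ∃ a : F', a ∈ V' 0 ∧ α a - h ∈ (V 0).nonunits)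
    (α_lift_m : ∀ h : F, h ∈ V 1 → ∃ a : F', a ∈ V' 0 ∧ α a - h ∈ (V 1).nonunits)
    (β_mem_a : ∀ a : F', β a ∈ V 2 ↔ a ∈ V' 1) (β_mem_m : ∀ a : F', β a ∈ V 1 ↔ a ∈ V' 1)
    (β_lift_a : ∀ h : F, h ∈ V 2 → ∃ a : F', a ∈ V' 1 ∧ β a - h ∈ (V 2).nonunits)
    (β_lift_m : ∀ h : F, h ∈ V 1 → ∃ a : F', a ∈ V' 1 ∧ β a - h ∈ (V 1).nonunits)
    (mem_α' : ∀ a : F'', α' a ∈ V' 0 ↔ a ∈ V'')
    (lift_α' : ∀ h : F', h ∈ V' 0 → ∃ a : F'', a ∈ V'' ∧ α' a - h ∈ (V' 0).nonunits)
    (mem_β' : ∀ a : F'', β' a ∈ V' 1 ↔ a ∈ V'')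
    (lift_β' : ∀ h : F', h ∈ V' 1 → ∃ a : F'', a ∈ V'' ∧ β' a - h ∈ (V' 1).nonunits)
    (hIC : ∀ i : Fin 2, RedIC (chartAt O x'' i) V'') :
    (∀ (i : Fin 2) (c : Fin 3) (n : ℕ) (g : F), 0 < n →
      (∃ b : F, b ∈ chartAt O x i ∧ g ^ n - b ∈ (V c).nonunits) →
        ∃ r : F, r ∈ chartAt O x i ∧ g - r ∈ (V c).nonunits) ∧
    (∀ (i : Fin 2) (b : F), b ∈ chartAt O x i →
      ∃ b' : F', b' ∈ chartAt O x' i ∧ α b' - b ∈ (V 0).nonunits) ∧
    (∀ (i : Fin 2) (b : F), b ∈ chartAt O x i →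
      ∃ b' : F', b' ∈ chartAt O x' i ∧ α b' - b ∈ (V 1).nonunits) ∧
    (∀ (i : Fin 2) (b : F), b ∈ chartAt O x i →
      ∃ b' : F', b' ∈ chartAt O x' i ∧ β b' - b ∈ (V 2).nonunits) ∧
    (∀ (i : Fin 2) (b : F), b ∈ chartAt O x i →
      ∃ b' : F', b' ∈ chartAt O x' i ∧ β b' - b ∈ (V 1).nonunits) ∧
    (∀ (i : Fin 2) (b : F'), b ∈ chartAt O x' i → α b ∈ chartAt O x i) ∧
    (∀ (i : Fin 2) (b : F'), b ∈ chartAt O x' i → β b ∈ chartAt O x i) ∧
    (∀ (i : Fin 2) (c : Fin 2), RedIC (chartAt O x' i) (V' c)) ∧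
    (∀ (i : Fin 2) (c : Fin 3), RedIC (chartAt O x i) (V c)) := by
  have hαmap := chartAt_map_of_eq O α x x' hαx
  have hβmap := chartAt_map_of_mem O β x x' hβ0' hβ1'
  have hβ'map := chartAt_map_of_mem O β' x' x'' hβ'0' hβ'1'
  -- the constants and the coordinate at level `q M''`
  have const_V' : ∀ (c : Fin 2) (a : K), a ∈ O → algebraMap K F' a ∈ V' c := by
    intro c a ha
    fin_cases c
    · refine (α_mem_a _).mp ?_
      rw [α.commutes]
      exact const_V 0 a ha
    · refine (β_mem_a _).mp ?_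
      rw [β.commutes]
      exact const_V 2 a ha
  have hx2 : β x' ∈ V 2 ∧ (β x')⁻¹ ∈ V 2 := by
    constructor
    · refine chartRing_le_valuationSubring (A0 := O) _ (V 2) (fun a => const_V 2 (a : K) a.2)
        ?_ _ hβ0'
      intro y hy
      rw [Set.mem_singleton_iff] at hy
      rw [hy]
      exact (x_V 2).1
    · refine chartRing_le_valuationSubring (A0 := O) _ (V 2) (fun a => const_V 2 (a : K) a.2)
        ?_ _ hβ1'
      intro y hy
      rw [Set.mem_singleton_iff] at hy
      rw [hy]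
      exact (x_V 2).2
  have x'_V' : ∀ c : Fin 2, x' ∈ V' c ∧ x'⁻¹ ∈ V' c := by
    intro c
    fin_cases c
    · constructor
      · refine (α_mem_a _).mp ?_
        rw [hαx]
        exact (x_V 0).1
      · refine (α_mem_a _).mp ?_
        rw [map_inv₀, hαx]
        exact (x_V 0).2
    · constructor
      · exact (β_mem_a _).mp hx2.1
      · refine (β_mem_a _).mp ?_
        rw [map_inv₀]
        exact hx2.2
  have hIC' := redIC_level_q O α' β' x' x'' hα'x hβ'map hβ'0 hβ'1 V' V'' const_V' x'_V' mem_α'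
    lift_α' mem_β' lift_β' hIC
  have h := red_fields O α β x x' V V' hαx hβmap hβ0 hβ1 const_V x_V α_mem_a α_mem_m α_lift_a
    α_lift_m β_mem_a β_mem_m β_lift_a β_lift_m hIC'
  exact ⟨h.2.1, h.2.2.1, h.2.2.2.1, h.2.2.2.2.1, h.2.2.2.2.2, hαmap, hβmap, hIC', h.1⟩

end Levels

end Fermat.Agent.S36.helper1413
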