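import Mathlib
import Fermat.Agent.S36.helper1413_RedChart
import Fermat.Agent.S36.helper1162_ChartRedIC
import Fermat.Agent.S36.helper4289_RedNormalT49

/-!
# S36 — the base of the `red` fields: the reduction of the `t₄` / `t₉` charts of level `M`
(`ℓ ∤ M`) along the Gauss valuation is integrally closed  (helper1413)

`RedIC (chartAt A t i) (gaussF A res M)` for `t = t₄` (`4 ∣ M`) and `t = t₉` (`9 ∣ M`), both
charts `i = 0` (`A[t]`) and `i = 1` (`A[t⁻¹]`), for a discrete valuation ring `A` of a field `L`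
with perfect residue field of characteristic `ℓ ∤ M`:

  `helper1162.chart_redIC` (lifted "onto" form of the DN output)
  ∘ `helper4289` (`IntLift` on the four charts, `GaussData` for `t₄`, `t₉`, `gaussO_unif`)
  ∘ `gaussData_inv` (here: `GaussData` for the inverse coordinate).

This is the hypothesis `hIC` of `helper1413.redIC_level_q` / `red_fields_of_level`.
-/

set_option autoImplicit false

namespace Fermat.Agent.S36.helper1413

open Polynomial IntermediateField
open Fermat.Agent.S18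
open Fermat.Agent.S36.helper248 (chartRing)

section Generic

variable {A F : Type*} [CommRing A] [Field F] [Algebra A F]

/-- **`GaussData` for the inverse coordinate**: if `(ϖ, t, O)` is Gauss data and `t⁻¹ ∈ O`
(`t` is a unit of the Gauss valuation ring), then `(ϖ, t⁻¹, O)` is Gauss data. -/
theorem gaussData_inv {ϖ : A} {t : F} {O : ValuationSubring F}
    (hG : helper3578.GaussData ϖ t O) (hinv : t⁻¹ ∈ O) : helper3578.GaussData ϖ t⁻¹ O := by
  have hϖ1 : ¬ ϖ ∣ 1 := by
    rintro ⟨c, hc⟩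
    have h1 : algebraMap A F ϖ * algebraMap A F c = 1 := by rw [← map_mul, ← hc, map_one]
    have h2 : (1 : F) ∈ O.nonunits := by
      rw [← h1]
      exact Fermat.Agent.S36.helper4289.mul_mem_nonunits O hG.unif (hG.le c)
    rw [ValuationSubring.mem_nonunits_iff, map_one] at h2
    exact lt_irrefl _ h2
  have ht0 : t ≠ 0 := by
    rintro rfl
    have h := hG.prim X (by rw [aeval_X]; exact O.nonunits.zero_mem) 1
    rw [coeff_X_one] at h
    exact hϖ1 h
  refine Fermat.Agent.S36.helper4289.gaussData_of_rel hG (1 : A[X]) (X : A[X]) ?_ hinv ?_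
    ⟨1, by rw [coeff_X_one]; exact hϖ1⟩
  · rw [aeval_X, aeval_one, mul_inv_cancel₀ ht0]
  · intro p hp i
    have hrev : aeval t p.reverse = aeval t⁻¹ p * t ^ p.natDegree := by
      let _ : Invertible t⁻¹ := invertibleOfNonzero (inv_ne_zero ht0)
      have h := Polynomial.eval₂_reverse_mul_pow (algebraMap A F) t⁻¹ p
      rw [invOf_eq_inv, inv_inv] at h
      rw [aeval_def, aeval_def, ← h, mul_assoc, ← mul_pow, inv_mul_cancel₀ ht0, one_pow, mul_one]
    have hmem : aeval t p.reverse ∈ O.nonunits := by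
      rw [hrev]
      exact Fermat.Agent.S36.helper4289.mul_mem_nonunits O hp (O.pow_mem hG.t_mem _)
    have hall := hG.prim p.reverse hmem
    by_cases hi : i ≤ p.natDegree
    · have h := hall (Polynomial.revAt p.natDegree i)
      rw [Polynomial.coeff_reverse, Polynomial.revAt_invol] at h
      exact h
    · rw [Polynomial.coeff_eq_zero_of_natDegree_lt (not_le.mp hi)]
      exact dvd_zero ϖ

end Generic

section Modular

open helper897 helper508 ModularCurve
open Fermat.Agent.Lib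
open Fermat.Agent.S24.helper24 (Kbar FN jBar)
open Fermat.Agent.S37.helper530 (t4F t9F)

variable (M : ℕ) [NeZero M] (ℓ : ℕ) [Fact ℓ.Prime] (hℓM : ¬ ℓ ∣ M)
variable {L : Type} [Field L] [Algebra ℚ L] (A : ValuationSubring L)
  (hA : (ℓ : L) ∈ A.nonunits)

attribute [local instance] helper897.algAF
attribute [local instance] Fermat.Agent.S37.helper4289.isScalarTower_AF

include hA in
/-- The inverse of a Hauptmodul `t = q⁻¹ s` (`s ∈ ℤ⟦q⟧`, `s(0) = 1`) lies in the Gauss valuation
ring. -/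
theorem inv_lau_mem_gaussO {s : PowerSeries ℤ} (hs : PowerSeries.constantCoeff s = 1)
    (t : FL M L) (ht : (t : LaurentSeries L) = helper3874.lau L s) :
    t⁻¹ ∈ gaussO M ℓ hℓM A hA := by
  set H : LaurentSeries ↥A := helper3874.qv ↥A * helper3874.toL ↥A (s.invOfUnit 1) with hH
  have hHmul : H * helper3874.lau ↥A s = 1 := Fermat.Agent.S36.helper4289.lauInv_mul_lau ↥A hs
  have hH1 : coeffMap A.subtype H = (helper3874.lau L s)⁻¹ := by
    have h := congrArg (coeffMap A.subtype) hHmul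
    rw [map_mul, map_one, helper3874.coeffMap_lau] at h
    exact eq_inv_of_mul_eq_one_left h
  have hcoe : ((t⁻¹ : FL M L) : LaurentSeries L) = coeffMap A.subtype H := by
    rw [Fermat.Agent.S36.helper4289.coe_inv_FL, ht, hH1]
  have hmem : coeffMap A.subtype H ∈ laurentBaseChange L (modularFunctionFieldFull M) :=
    hcoe ▸ (t⁻¹).2
  have h2 := helper508.coeffMap_mem_gaussValuationSubring M ℓ hℓM A hA _ hmem
  have h3 : t⁻¹ = (⟨coeffMap A.subtype H, hmem⟩ : FL M L) := Subtype.ext hcoe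
  rw [h3]
  exact h2

include hA hℓM in
/-- The constants of `A` and a Hauptmodul `t = q⁻¹ s` together with its inverse lie in the Gauss
valuation ring, in the form `helper8991.gaussF`. -/
theorem base_mem_gaussF {s : PowerSeries ℤ} (hs : PowerSeries.constantCoeff s = 1)
    (t : FL M L) (ht : (t : LaurentSeries L) = helper3874.lau L s) :
    (∀ a : L, a ∈ A → algebraMap L (FL M L) a ∈ helper8991.gaussF A (IsLocalRing.residue ↥A) M) ∧
      t ∈ helper8991.gaussF A (IsLocalRing.residue ↥A) M ∧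
      t⁻¹ ∈ helper8991.gaussF A (IsLocalRing.residue ↥A) M := by
  rw [helper508.gaussF_eq_gaussValuationSubring M ℓ hℓM A hA (IsLocalRing.residue ↥A)
    IsLocalRing.residue_surjective]
  refine ⟨fun a ha => (helper508.algebraMap_mem_gaussValuationSubring_iff M ℓ hℓM A hA a).mpr ha,
    ?_, inv_lau_mem_gaussO M ℓ hℓM A hA hs t ht⟩
  have h := Fermat.Agent.S36.helper4289.aeval_lau_mem M ℓ hℓM A hA t ht (X : (↥A)[X])
  rwa [aeval_X] at h

include hA hℓM in
/-- `base_mem_gaussF` for `t₄`. -/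
theorem base_mem_gaussF_t4 (h4 : 4 ∣ M) :
    (∀ a : L, a ∈ A → algebraMap L (FL M L) a ∈ helper8991.gaussF A (IsLocalRing.residue ↥A) M) ∧
      t4F L M h4 ∈ helper8991.gaussF A (IsLocalRing.residue ↥A) M ∧
      (t4F L M h4)⁻¹ ∈ helper8991.gaussF A (IsLocalRing.residue ↥A) M :=
  base_mem_gaussF M ℓ hℓM A hA helper3874.constantCoeff_T4 _ rfl

include hA hℓM in
/-- `base_mem_gaussF` for `t₉`. -/
theorem base_mem_gaussF_t9 (h9 : 9 ∣ M) :
    (∀ a : L, a ∈ A → algebraMap L (FL M L) a ∈ helper8991.gaussF A (IsLocalRing.residue ↥A) M) ∧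
      t9F L M h9 ∈ helper8991.gaussF A (IsLocalRing.residue ↥A) M ∧
      (t9F L M h9)⁻¹ ∈ helper8991.gaussF A (IsLocalRing.residue ↥A) M :=
  base_mem_gaussF M ℓ hℓM A hA helper3874.constantCoeff_T9 _ rfl

variable [Algebra L Kbar] [IsDiscreteValuationRing ↥A]
  [PerfectField (IsLocalRing.ResidueField ↥A)]

include hA hℓM in
/-- **Base of the `red` fields, `t₄`** (`4 ∣ M`, `ℓ ∤ M`): the reductions of the two charts
`A[t₄]`, `A[t₄⁻¹]` of level `M` along the Gauss valuation are integrally closed. -/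
theorem base_redIC_t4_gaussO (h4 : 4 ∣ M) :
    ∀ i : Fin 2, RedIC (chartAt A (t4F L M h4) i) (gaussO M ℓ hℓM A hA) := by
  obtain ⟨ϖ, hϖ⟩ := IsDiscreteValuationRing.exists_irreducible ↥A
  have hG := Fermat.Agent.S36.helper4289.gaussData_t4 M ℓ hℓM A hA h4 ϖ hϖ.maximalIdeal_eq
  have hunif := Fermat.Agent.S36.helper4289.gaussO_unif M ℓ hℓM A hA ϖ hϖ
  have hfd : FiniteDimensional ↥L⟮t4F L M h4⟯ (FL M L) :=
    Fermat.Agent.S37.helper530.finiteDimensional_t4F L M h4
  have hfd' : FiniteDimensional ↥L⟮(t4F L M h4)⁻¹⟯ (FL M L) :=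
    helper403.finiteDimensional_adjoinSimple_inv _
  have halg : Algebra.IsAlgebraic ↥L⟮t4F L M h4⟯ (FL M L) := Algebra.IsAlgebraic.of_finite _ _
  have halg' : Algebra.IsAlgebraic ↥L⟮(t4F L M h4)⁻¹⟯ (FL M L) := Algebra.IsAlgebraic.of_finite _ _
  intro i
  fin_cases i
  · exact Fermat.Agent.S36.helper1162.chart_redIC ϖ hϖ.prime (t4F L M h4)
      (Fermat.Agent.S37.helper530.transcendental_t4F L M h4) (gaussO M ℓ hℓM A hA) hG
      (Fermat.Agent.S36.helper4289.t4_intLift M ℓ hℓM A hA h4 ϖ hϖ) hunif _ (fun _ => Iff.rfl)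
  · exact Fermat.Agent.S36.helper1162.chart_redIC ϖ hϖ.prime (t4F L M h4)⁻¹
      (helper403.transcendental_inv (Fermat.Agent.S37.helper530.transcendental_t4F L M h4))
      (gaussO M ℓ hℓM A hA)
      (gaussData_inv hG (inv_lau_mem_gaussO M ℓ hℓM A hA helper3874.constantCoeff_T4 _ rfl))
      (Fermat.Agent.S36.helper4289.t4_inv_intLift M ℓ hℓM A hA h4 ϖ hϖ) hunif _
      (fun _ => Iff.rfl)

include hA hℓM in
/-- **Base of the `red` fields, `t₉`** (`9 ∣ M`, `ℓ ∤ M`). -/
theorem base_redIC_t9_gaussO (h9 : 9 ∣ M) :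
    ∀ i : Fin 2, RedIC (chartAt A (t9F L M h9) i) (gaussO M ℓ hℓM A hA) := by
  obtain ⟨ϖ, hϖ⟩ := IsDiscreteValuationRing.exists_irreducible ↥A
  have hG := Fermat.Agent.S36.helper4289.gaussData_t9 M ℓ hℓM A hA h9 ϖ hϖ.maximalIdeal_eq
  have hunif := Fermat.Agent.S36.helper4289.gaussO_unif M ℓ hℓM A hA ϖ hϖ
  have hfd : FiniteDimensional ↥L⟮t9F L M h9⟯ (FL M L) :=
    Fermat.Agent.S37.helper530.finiteDimensional_t9F L M h9
  have hfd' : FiniteDimensional ↥L⟮(t9F L M h9)⁻¹⟯ (FL M L) :=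
    helper403.finiteDimensional_adjoinSimple_inv _
  have halg : Algebra.IsAlgebraic ↥L⟮t9F L M h9⟯ (FL M L) := Algebra.IsAlgebraic.of_finite _ _
  have halg' : Algebra.IsAlgebraic ↥L⟮(t9F L M h9)⁻¹⟯ (FL M L) := Algebra.IsAlgebraic.of_finite _ _
  intro i
  fin_cases i
  · exact Fermat.Agent.S36.helper1162.chart_redIC ϖ hϖ.prime (t9F L M h9)
      (Fermat.Agent.S37.helper530.transcendental_t9F L M h9) (gaussO M ℓ hℓM A hA) hG
      (Fermat.Agent.S36.helper4289.t9_intLift M ℓ hℓM A hA h9 ϖ hϖ) hunif _ (fun _ => Iff.rfl)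
  · exact Fermat.Agent.S36.helper1162.chart_redIC ϖ hϖ.prime (t9F L M h9)⁻¹
      (helper403.transcendental_inv (Fermat.Agent.S37.helper530.transcendental_t9F L M h9))
      (gaussO M ℓ hℓM A hA)
      (gaussData_inv hG (inv_lau_mem_gaussO M ℓ hℓM A hA helper3874.constantCoeff_T9 _ rfl))
      (Fermat.Agent.S36.helper4289.t9_inv_intLift M ℓ hℓM A hA h9 ϖ hϖ) hunif _
      (fun _ => Iff.rfl)

include hA hℓM in
/-- `base_redIC_t4_gaussO` with the Gauss valuation ring in the form `helper8991.gaussF`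
(for `L = K`, `A = O_K` this is `helper6594.gaussK`). -/
theorem base_redIC_t4 (h4 : 4 ∣ M) :
    ∀ i : Fin 2, RedIC (chartAt A (t4F L M h4) i)
      (helper8991.gaussF A (IsLocalRing.residue ↥A) M) := by
  rw [helper508.gaussF_eq_gaussValuationSubring M ℓ hℓM A hA (IsLocalRing.residue ↥A)
    IsLocalRing.residue_surjective]
  exact base_redIC_t4_gaussO M ℓ hℓM A hA h4

include hA hℓM in
/-- `base_redIC_t9_gaussO` with the Gauss valuation ring in the form `helper8991.gaussF`. -/
theorem base_redIC_t9 (h9 : 9 ∣ M) :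
    ∀ i : Fin 2, RedIC (chartAt A (t9F L M h9) i)
      (helper8991.gaussF A (IsLocalRing.residue ↥A) M) := by
  rw [helper508.gaussF_eq_gaussValuationSubring M ℓ hℓM A hA (IsLocalRing.residue ↥A)
    IsLocalRing.residue_surjective]
  exact base_redIC_t9_gaussO M ℓ hℓM A hA h9

end Modular

end Fermat.Agent.S36.helper1413
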