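/-
S36-LEVELQ-K (helper6594, board #2419): the Gauss valuations of the modular function field
OVER THE INERTIA FIELD `K = ℚ̄^I`, and the descent to `K` of `I`-equivariant maps.

`Qb = AlgebraicClosure ℚ`, `A` a valuation subring of `Qb`, `I = A.inertiaSubgroupIn ℚ`.
To keep instance search trivial, the inertia field is an ABSTRACT field `K` with a ring
homomorphism `ι : K →+* Qb` whose range is the set of `I`-fixed elements (`IsInertiaField A ι`);
the concrete instance `K = S58.helper6024.inertiaFixedField A`, `ι = algebraMap K Qb` is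
`isInertiaField_inertiaFixedField`.  `O_K = A.comap ι`,
`F_K(N) = laurentBaseChange K (modularFunctionFieldFull N)`, `F̄_N = modularFunctionFieldBar N`.

* `embK ι N : F_K(N) →+* F̄_N`, the coefficientwise embedding; injective, and its range is
  exactly the set of `I`-fixed elements (`mem_range_embK_iff`); it commutes with the degeneracy
  maps (`embK_heckeAlphaBar`, `embK_heckeBetaBar`).
* `descK`, `descKEquiv`, `descKAlgEquiv`: DESCENT to `K` of ring homomorphisms / automorphisms
  of the function fields over `ℚ̄` which commute with the coefficientwise action of `I`;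
  characterised by `embK ∘ descK φ = φ ∘ embK`.  `wqK` is the Atkin–Lehner involution over `K`
  (descent of `S35.helper1219.atkinLehnerBar`).
* `gaussK A ι N`, the Gauss valuation subring of `F_K(N)` over `O_K`, is the restriction of the
  landed Gauss ring `S35.helper882.gpRing A N` along `embK` (`mem_gaussK_iff`); its twist
  `gaussKW` by a descended automorphism is the restriction of `gpRingW` (`mem_gaussKW_iff`).
* over a prime `q` (`A.LiesOverPrime q`), `q` is a uniformiser of `gaussK` and of its twists: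
  `natCast_mem_gaussK`, `inv_natCast_not_mem_gaussK`, `exists_zpow_unit_gaussK`
  (every nonzero element is `q ^ k` times a unit), same for `gaussKW`; constants:
  `algebraMap_mem_gaussK_iff`, `algebraMap_mem_gaussKW_iff`.
-/
import Mathlib
import Fermat.Agent.S18.helper8991_GaussInst
import Fermat.Agent.S29.helper6961_CoeffDescent
import Fermat.Agent.S35.helper882_GaussPair
import Fermat.Agent.S35.helper1219_AtkinLehnerFF
import Fermat.Agent.S58.helper6024_Unram
import Fermat.Prelude.Def_ModularCurve_HeckeOperator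
import Fermat.Prelude.Thm_ModularCurve_coeffMap_qExpand

set_option autoImplicit false

open ModularCurve HahnSeries

noncomputable section

namespace Fermat.Agent.S36.helper6594

open Fermat.Agent.S18 Fermat.Agent.S58.helper6024 Fermat.Agent.S29.helper6961

local notation "Qb" => AlgebraicClosure ℚ

/-- `ι : K →+* ℚ̄` identifies `K` with the inertia field of `A`: its range is the set of
elements fixed by the inertia group of `A`. -/
def IsInertiaField (A : ValuationSubring Qb) {K : Type*} [Field K] (ι : K →+* Qb) : Prop :=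
  ∀ x : Qb, x ∈ Set.range ι ↔ ∀ σ ∈ A.inertiaSubgroupIn ℚ, σ x = x

/-- The concrete inertia field of `S58.helper6024` is an inertia field. -/
theorem isInertiaField_inertiaFixedField (A : ValuationSubring Qb) :
    IsInertiaField A (algebraMap ↥(inertiaFixedField A) Qb) := by
  intro x
  constructor
  · rintro ⟨y, rfl⟩ σ hσ
    exact y.2 ⟨σ, hσ⟩
  · intro hx
    refine ⟨⟨x, ?_⟩, rfl⟩
    rw [IntermediateField.mem_fixedField_iff]
    exact hx

variable (A : ValuationSubring Qb) {K : Type*} [Field K] [Algebra ℚ K] (ι : K →+* Qb)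

/-- The function field of `X₀(N)` over `K`. -/
abbrev FK (K : Type*) [Field K] [Algebra ℚ K] (N : ℕ) : IntermediateField K (LaurentSeries K) :=
  laurentBaseChange K (modularFunctionFieldFull N)

/-! ## (E) the coefficientwise embedding -/

/-- **(E)** The coefficientwise embedding `F_K(N) → F̄_N`. -/
def embK (N : ℕ) : ↥(FK K N) →+* ↥(modularFunctionFieldBar N) where
  toFun x := ⟨coeffMap ι (x : LaurentSeries K),
    coeffMap_mem_laurentBaseChange_of_mem (modularFunctionFieldFull N) ι x.2⟩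
  map_one' := Subtype.ext (map_one (coeffMap ι))
  map_mul' _ _ := Subtype.ext (map_mul (coeffMap ι) _ _)
  map_zero' := Subtype.ext (map_zero (coeffMap ι))
  map_add' _ _ := Subtype.ext (map_add (coeffMap ι) _ _)

theorem coe_embK (N : ℕ) (x : ↥(FK K N)) :
    ((embK ι N x : ↥(modularFunctionFieldBar N)) : LaurentSeries Qb)
      = coeffMap ι (x : LaurentSeries K) := rfl

theorem embK_injective (N : ℕ) : Function.Injective (embK ι N) :=
  (embK ι N).injective

theorem embK_algebraMap (N : ℕ) (c : K) :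
    embK ι N (algebraMap K ↥(FK K N) c) = algebraMap Qb ↥(modularFunctionFieldBar N) (ι c) := by
  apply Subtype.ext
  show coeffMap ι (algebraMap K (LaurentSeries K) c) = algebraMap Qb (LaurentSeries Qb) (ι c)
  rw [algebraMap_laurentSeries_eq_single, algebraMap_laurentSeries_eq_single, coeffMap_single]

/-- `embK` commutes with the degeneracy map `α` (inclusion of function fields). -/
theorem embK_heckeAlphaBar (N ℓ : ℕ) [NeZero N] [NeZero ℓ] (y : ↥(FK K N)) :
    embK ι (N * ℓ) (heckeAlphaBar K N ℓ y) = heckeAlphaBar Qb N ℓ (embK ι N y) := by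
  apply Subtype.ext
  rw [coe_embK, coe_heckeAlphaBar, coe_heckeAlphaBar, coe_embK]

/-- `embK` commutes with the degeneracy map `β` (`t ↦ t ^ ℓ`). -/
theorem embK_heckeBetaBar (N ℓ : ℕ) [NeZero N] [NeZero ℓ] (y : ↥(FK K N)) :
    embK ι (N * ℓ) (heckeBetaBar K N ℓ y) = heckeBetaBar Qb N ℓ (embK ι N y) := by
  apply Subtype.ext
  rw [coe_embK, coe_heckeBetaBar, coe_heckeBetaBar, coe_embK, coeffMap_qExpand]

/-- An element of `F̄_N` is fixed by the coefficientwise action of the inertia group of `A`. -/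
def IFixed (N : ℕ) (x : ↥(modularFunctionFieldBar N)) : Prop :=
  ∀ σ ∈ A.inertiaSubgroupIn ℚ, arithmeticRingAut (modularFunctionFieldFull N) σ x = x

variable {A ι}

theorem iFixed_embK (hι : IsInertiaField A ι) (N : ℕ) (x : ↥(FK K N)) :
    IFixed A N (embK ι N x) := by
  intro σ hσ
  apply Subtype.ext
  rw [coe_arithmeticRingAut_apply, coe_embK, coeffMap_coeffMap]
  refine coeffMap_congr (RingHom.ext fun c => ?_) _
  exact (hι (ι c)).mp ⟨c, rfl⟩ σ hσ

/-- **(E), range**: the image of `F_K(N)` in `F̄_N` is the set of `I`-fixed elements. -/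
theorem mem_range_embK_iff (hι : IsInertiaField A ι) (N : ℕ)
    (x : ↥(modularFunctionFieldBar N)) : x ∈ Set.range (embK ι N) ↔ IFixed A N x := by
  constructor
  · rintro ⟨y, rfl⟩
    exact iFixed_embK hι N y
  · intro hx
    have hc : ∀ n, (x : LaurentSeries Qb).coeff n ∈ Set.range ι := by
      intro n
      rw [hι]
      intro σ hσ
      have h := congrArg (fun z : ↥(modularFunctionFieldBar N) =>
        (z : LaurentSeries Qb).coeff n) (hx σ hσ)
      simpa using h
    obtain ⟨y, hy, hyx⟩ := exists_mem_laurentBaseChange_coeffMap_eq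
      (modularFunctionFieldFull N) ι x.2 hc
    exact ⟨⟨y, hy⟩, Subtype.ext hyx⟩

/-! ## (D) descent of `I`-equivariant maps -/

section Descent

variable {N N' : ℕ}

/-- `φ` commutes with the coefficientwise action of the inertia group of `A`. -/
def IEquivariant (A : ValuationSubring Qb) {N N' : ℕ}
    (φ : ↥(modularFunctionFieldBar N) →+* ↥(modularFunctionFieldBar N')) : Prop :=
  ∀ σ ∈ A.inertiaSubgroupIn ℚ, ∀ z : ↥(modularFunctionFieldBar N),
    φ (arithmeticRingAut (modularFunctionFieldFull N) σ z)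
      = arithmeticRingAut (modularFunctionFieldFull N') σ (φ z)

theorem exists_embK_eq (hι : IsInertiaField A ι)
    {φ : ↥(modularFunctionFieldBar N) →+* ↥(modularFunctionFieldBar N')}
    (hφ : IEquivariant A φ) (x : ↥(FK K N)) :
    ∃ y : ↥(FK K N'), embK ι N' y = φ (embK ι N x) := by
  refine (mem_range_embK_iff hι N' _).mpr fun σ hσ => ?_
  rw [← hφ σ hσ, iFixed_embK hι N x σ hσ]

/-- **(D)** The descent to `K` of an `I`-equivariant ring homomorphism `F̄_N → F̄_N'`. -/
def descK (hι : IsInertiaField A ι)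
    (φ : ↥(modularFunctionFieldBar N) →+* ↥(modularFunctionFieldBar N'))
    (hφ : IEquivariant A φ) : ↥(FK K N) →+* ↥(FK K N') where
  toFun x := (exists_embK_eq hι hφ x).choose
  map_one' := by
    apply embK_injective ι N'
    rw [(exists_embK_eq hι hφ 1).choose_spec, map_one, map_one, map_one]
  map_mul' x y := by
    apply embK_injective ι N'
    rw [(exists_embK_eq hι hφ (x * y)).choose_spec, map_mul, map_mul, map_mul,
      (exists_embK_eq hι hφ x).choose_spec, (exists_embK_eq hι hφ y).choose_spec]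
  map_zero' := by
    apply embK_injective ι N'
    rw [(exists_embK_eq hι hφ 0).choose_spec, map_zero, map_zero, map_zero]
  map_add' x y := by
    apply embK_injective ι N'
    rw [(exists_embK_eq hι hφ (x + y)).choose_spec, map_add, map_add, map_add,
      (exists_embK_eq hι hφ x).choose_spec, (exists_embK_eq hι hφ y).choose_spec]

theorem embK_descK (hι : IsInertiaField A ι)
    (φ : ↥(modularFunctionFieldBar N) →+* ↥(modularFunctionFieldBar N'))
    (hφ : IEquivariant A φ) (x : ↥(FK K N)) :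
    embK ι N' (descK hι φ hφ x) = φ (embK ι N x) :=
  (exists_embK_eq hι hφ x).choose_spec

/-- The descent is characterised by `embK ∘ descK φ = φ ∘ embK`. -/
theorem descK_eq_iff (hι : IsInertiaField A ι)
    (φ : ↥(modularFunctionFieldBar N) →+* ↥(modularFunctionFieldBar N'))
    (hφ : IEquivariant A φ) (x : ↥(FK K N)) (y : ↥(FK K N')) :
    descK hι φ hφ x = y ↔ φ (embK ι N x) = embK ι N' y := by
  rw [← embK_descK hι φ hφ x]
  exact ⟨fun h => by rw [h], fun h => embK_injective ι N' h⟩

theorem descK_algebraMap (hι : IsInertiaField A ι)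
    (φ : ↥(modularFunctionFieldBar N) →+* ↥(modularFunctionFieldBar N'))
    (hφ : IEquivariant A φ)
    (hc : ∀ c : Qb, φ (algebraMap Qb ↥(modularFunctionFieldBar N) c)
      = algebraMap Qb ↥(modularFunctionFieldBar N') c) (c : K) :
    descK hι φ hφ (algebraMap K ↥(FK K N) c) = algebraMap K ↥(FK K N') c := by
  rw [descK_eq_iff, embK_algebraMap, embK_algebraMap, hc]

theorem IEquivariant.symm {W : ↥(modularFunctionFieldBar N) ≃+* ↥(modularFunctionFieldBar N)}
    (hW : IEquivariant A (W : ↥(modularFunctionFieldBar N) →+* ↥(modularFunctionFieldBar N))) :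
    IEquivariant A
      (W.symm : ↥(modularFunctionFieldBar N) →+* ↥(modularFunctionFieldBar N)) := by
  intro σ hσ z
  apply W.injective
  have h := hW σ hσ (W.symm z)
  simp only [RingEquiv.coe_toRingHom, RingEquiv.apply_symm_apply] at h ⊢
  exact h.symm

/-- **(D), automorphisms**: the descent to `K` of an `I`-equivariant ring automorphism. -/
def descKEquiv (hι : IsInertiaField A ι)
    (W : ↥(modularFunctionFieldBar N) ≃+* ↥(modularFunctionFieldBar N))
    (hW : IEquivariant A (W : ↥(modularFunctionFieldBar N) →+* ↥(modularFunctionFieldBar N))) :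
    ↥(FK K N) ≃+* ↥(FK K N) where
  toFun := descK hι (W : ↥(modularFunctionFieldBar N) →+* ↥(modularFunctionFieldBar N)) hW
  invFun := descK hι (W.symm : ↥(modularFunctionFieldBar N) →+* ↥(modularFunctionFieldBar N))
    hW.symm
  left_inv x := by
    apply embK_injective ι N
    rw [embK_descK, embK_descK]
    simp
  right_inv x := by
    apply embK_injective ι N
    rw [embK_descK, embK_descK]
    simp
  map_mul' x y := map_mul _ x y
  map_add' x y := map_add _ x y

theorem embK_descKEquiv (hι : IsInertiaField A ι)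
    (W : ↥(modularFunctionFieldBar N) ≃+* ↥(modularFunctionFieldBar N))
    (hW : IEquivariant A (W : ↥(modularFunctionFieldBar N) →+* ↥(modularFunctionFieldBar N)))
    (x : ↥(FK K N)) : embK ι N (descKEquiv hι W hW x) = W (embK ι N x) :=
  embK_descK hι _ hW x

theorem embK_descKEquiv_symm (hι : IsInertiaField A ι)
    (W : ↥(modularFunctionFieldBar N) ≃+* ↥(modularFunctionFieldBar N))
    (hW : IEquivariant A (W : ↥(modularFunctionFieldBar N) →+* ↥(modularFunctionFieldBar N)))
    (x : ↥(FK K N)) : embK ι N ((descKEquiv hι W hW).symm x) = W.symm (embK ι N x) :=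
  embK_descK hι _ hW.symm x

/-- `I`-equivariance of a `ℚ̄`-algebra automorphism. -/
abbrev IEquivariantAlg (A : ValuationSubring Qb) {N : ℕ}
    (W : ↥(modularFunctionFieldBar N) ≃ₐ[Qb] ↥(modularFunctionFieldBar N)) : Prop :=
  IEquivariant A (((W : ↥(modularFunctionFieldBar N) ≃+* ↥(modularFunctionFieldBar N)) :
    ↥(modularFunctionFieldBar N) →+* ↥(modularFunctionFieldBar N)))

/-- **(W)** The descent to `K` of an `I`-equivariant `ℚ̄`-automorphism of `F̄_N`, as a
`K`-automorphism of `F_K(N)`. -/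
def descKAlgEquiv (hι : IsInertiaField A ι)
    (W : ↥(modularFunctionFieldBar N) ≃ₐ[Qb] ↥(modularFunctionFieldBar N))
    (hW : IEquivariantAlg A W) : ↥(FK K N) ≃ₐ[K] ↥(FK K N) where
  __ := descKEquiv hι (W : ↥(modularFunctionFieldBar N) ≃+* ↥(modularFunctionFieldBar N)) hW
  commutes' c := descK_algebraMap hι _ hW (fun c => W.commutes c) c

theorem embK_descKAlgEquiv (hι : IsInertiaField A ι)
    (W : ↥(modularFunctionFieldBar N) ≃ₐ[Qb] ↥(modularFunctionFieldBar N))
    (hW : IEquivariantAlg A W) (x : ↥(FK K N)) :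
    embK ι N (descKAlgEquiv hι W hW x) = W (embK ι N x) :=
  embK_descK hι _ hW x

theorem embK_descKAlgEquiv_symm (hι : IsInertiaField A ι)
    (W : ↥(modularFunctionFieldBar N) ≃ₐ[Qb] ↥(modularFunctionFieldBar N))
    (hW : IEquivariantAlg A W) (x : ↥(FK K N)) :
    embK ι N ((descKAlgEquiv hι W hW).symm x) = W.symm (embK ι N x) :=
  embK_descK hι _ (IEquivariant.symm hW) x

end Descent

/-! ## (G) the Gauss valuation over `K` -/

section Gauss

variable (A ι)

/-- The valuation subring `O_K = A ∩ K` of the inertia field. -/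
abbrev OK : ValuationSubring K := A.comap ι

/-- **(G)** The Gauss valuation subring of `F_K(N)` over `O_K`. -/
abbrev gaussK (N : ℕ) : ValuationSubring ↥(FK K N) :=
  helper8991.gaussF (OK A ι) (IsLocalRing.residue ↥(OK A ι)) N

/-- The inclusion `O_K → A`. -/
def incOA : ↥(OK A ι) →+* ↥A where
  toFun a := ⟨ι (a : K), ValuationSubring.mem_comap.mp a.2⟩
  map_one' := Subtype.ext (map_one ι)
  map_mul' _ _ := Subtype.ext (map_mul ι _ _)
  map_zero' := Subtype.ext (map_zero ι)
  map_add' _ _ := Subtype.ext (map_add ι _ _)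

omit [Algebra ℚ K] in
theorem inc_coeffMap_incOA (X : LaurentSeries ↥(OK A ι)) :
    helper8991.inc A (coeffMap (incOA A ι) X) = coeffMap ι (helper8991.inc (OK A ι) X) := by
  rw [coeffMap_coeffMap, coeffMap_coeffMap]
  exact coeffMap_congr (RingHom.ext fun _ => rfl) X

omit [Algebra ℚ K] in
theorem red_coeffMap_incOA_ne_zero {Y : LaurentSeries ↥(OK A ι)}
    (hY : helper8991.red (OK A ι) (IsLocalRing.residue ↥(OK A ι)) Y ≠ 0) :
    helper8991.red A (IsLocalRing.residue ↥A) (coeffMap (incOA A ι) Y) ≠ 0 := by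
  intro h0
  apply hY
  ext n
  have hn : IsLocalRing.residue ↥A (incOA A ι (Y.coeff n)) = 0 := by
    have h := congrArg (fun z : LaurentSeries (IsLocalRing.ResidueField ↥A) => z.coeff n) h0
    simpa using h
  show IsLocalRing.residue ↥(OK A ι) (Y.coeff n) = 0
  by_contra hne
  have hu : IsUnit (Y.coeff n) := by
    by_contra hnu
    exact hne ((IsLocalRing.residue_eq_zero_iff _).mpr ((IsLocalRing.mem_maximalIdeal _).mpr hnu))
  have hu' : IsUnit (incOA A ι (Y.coeff n)) := hu.map (incOA A ι)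
  exact (IsLocalRing.mem_maximalIdeal _).mp ((IsLocalRing.residue_eq_zero_iff _).mp hn) hu'

theorem embK_mem_gpRing_of_mem {N : ℕ} {x : ↥(FK K N)} (hx : x ∈ gaussK A ι N) :
    embK ι N x ∈ Fermat.Agent.S35.helper882.gpRing A N := by
  obtain ⟨X, Y, hY, h⟩ := hx
  refine ⟨coeffMap (incOA A ι) X, coeffMap (incOA A ι) Y, red_coeffMap_incOA_ne_zero A ι hY, ?_⟩
  have h' : (x : LaurentSeries K) * helper8991.inc (OK A ι) Y = helper8991.inc (OK A ι) X := h
  rw [inc_coeffMap_incOA, inc_coeffMap_incOA]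
  show coeffMap ι (x : LaurentSeries K) * coeffMap ι (helper8991.inc (OK A ι) Y)
    = coeffMap ι (helper8991.inc (OK A ι) X)
  rw [← map_mul, h']

/-- Constants: `c ∈ K` is Gauss-integral iff it lies in `O_K`. -/
theorem algebraMap_mem_gaussK_iff (N : ℕ) (c : K) :
    algebraMap K ↥(FK K N) c ∈ gaussK A ι N ↔ ι c ∈ A :=
  helper8991.algebraMap_mem_gaussF_iff (OK A ι) (IsLocalRing.residue ↥(OK A ι)) N
    (fun a ha => (IsLocalRing.residue_eq_zero_iff a).mpr ha) c

/-- **(G), comparison**: the Gauss ring over `K` is the restriction along `embK` of the landed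
Gauss ring `S35.helper882.gpRing A N` over `ℚ̄`. -/
theorem mem_gaussK_iff (N : ℕ) (x : ↥(FK K N)) :
    x ∈ gaussK A ι N ↔ embK ι N x ∈ Fermat.Agent.S35.helper882.gpRing A N := by
  refine ⟨embK_mem_gpRing_of_mem A ι, fun hmem => ?_⟩
  by_cases hx : x = 0
  · rw [hx]
    exact zero_mem _
  obtain ⟨c, u, -, hu, hxe⟩ := helper8991.exists_const_mul_unit_F (OK A ι)
    (IsLocalRing.residue ↥(OK A ι)) N x hx
  have huu : IsUnit u := (helper8991.isUnit_iff_gaussFRed_ne_zero _ _ N u).mpr hu
  obtain ⟨v, hv⟩ := huu.exists_right_inv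
  have huv : (u : ↥(FK K N)) * (v : ↥(FK K N)) = 1 := by
    have := congrArg Subtype.val hv
    simpa using this
  have hu0 : (u : ↥(FK K N)) ≠ 0 := left_ne_zero_of_mul_eq_one huv
  have h1 : embK ι N (v : ↥(FK K N)) ∈ Fermat.Agent.S35.helper882.gpRing A N :=
    embK_mem_gpRing_of_mem A ι v.2
  have h2 : algebraMap Qb ↥(modularFunctionFieldBar N) (ι c)
      ∈ Fermat.Agent.S35.helper882.gpRing A N := by
    have e : algebraMap Qb ↥(modularFunctionFieldBar N) (ι c)
        = embK ι N x * embK ι N (v : ↥(FK K N)) := by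
      rw [← embK_algebraMap, ← map_mul, hxe, mul_assoc, huv, mul_one]
    rw [e]
    exact mul_mem hmem h1
  have h3 : ι c ∈ A :=
    (helper8991.algebraMap_mem_gaussF_iff A (IsLocalRing.residue ↥A) N
      (fun a ha => (IsLocalRing.residue_eq_zero_iff a).mpr ha) (ι c)).mp h2
  rw [hxe]
  exact mul_mem ((algebraMap_mem_gaussK_iff A ι N c).mpr h3) u.2

/-- The twist of the Gauss ring over `K` by a ring automorphism `w` of `F_K(N)`:
`{x | w x ∈ gaussK}`. -/
abbrev gaussKW (N : ℕ) (w : ↥(FK K N) ≃+* ↥(FK K N)) : ValuationSubring ↥(FK K N) :=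
  (gaussK A ι N).comap (w : ↥(FK K N) →+* ↥(FK K N))

theorem mem_gaussKW_iff_apply (N : ℕ) (w : ↥(FK K N) ≃+* ↥(FK K N)) (x : ↥(FK K N)) :
    x ∈ gaussKW A ι N w ↔ w x ∈ gaussK A ι N := Iff.rfl

variable {A ι}

/-- **(W), comparison**: the twist of the Gauss ring over `K` by the descent of an
`I`-equivariant `ℚ̄`-automorphism `W` is the restriction along `embK` of the landed second Gauss
ring `S35.helper882.gpRingW A N W`. -/
theorem mem_gaussKW_iff (hι : IsInertiaField A ι) (N : ℕ)
    (W : ↥(modularFunctionFieldBar N) ≃ₐ[Qb] ↥(modularFunctionFieldBar N))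
    (hW : IEquivariantAlg A W) (x : ↥(FK K N)) :
    x ∈ gaussKW A ι N (descKAlgEquiv hι W hW : ↥(FK K N) ≃+* ↥(FK K N))
      ↔ embK ι N x ∈ Fermat.Agent.S35.helper882.gpRingW A N W := by
  rw [mem_gaussKW_iff_apply]
  show descKAlgEquiv hι W hW x ∈ gaussK A ι N ↔ _
  rw [mem_gaussK_iff, embK_descKAlgEquiv]
  rfl

theorem algebraMap_mem_gaussKW_iff (N : ℕ) (w : ↥(FK K N) ≃ₐ[K] ↥(FK K N)) (c : K) :
    algebraMap K ↥(FK K N) c ∈ gaussKW A ι N (w : ↥(FK K N) ≃+* ↥(FK K N)) ↔ ι c ∈ A := by
  rw [mem_gaussKW_iff_apply]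
  show w (algebraMap K ↥(FK K N) c) ∈ gaussK A ι N ↔ _
  rw [AlgEquiv.commutes, algebraMap_mem_gaussK_iff]

end Gauss

/-! ## (U) `q` is a uniformiser -/

section Unif

variable {q : ℕ}

theorem natCast_mem_gaussK (N : ℕ) (n : ℕ) : (n : ↥(FK K N)) ∈ gaussK A ι N :=
  natCast_mem _ n

/-- `q⁻¹` is not Gauss-integral. -/
theorem inv_natCast_not_mem_gaussK (hq : q.Prime) (hA : A.LiesOverPrime q) (N : ℕ) :
    ((q : ↥(FK K N)))⁻¹ ∉ gaussK A ι N := by
  intro h
  have e : ((q : ↥(FK K N)))⁻¹ = algebraMap K ↥(FK K N) ((q : K)⁻¹) := by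
    rw [map_inv₀, map_natCast]
  rw [e, algebraMap_mem_gaussK_iff, map_inv₀, map_natCast] at h
  have hv : A.valuation (q : Qb) < 1 := (ValuationSubring.mem_nonunits_iff A).mp hA
  have h1 := (ValuationSubring.valuation_le_one_iff A _).mpr h
  rw [map_inv₀] at h1
  have hq0 : A.valuation (q : Qb) ≠ 0 :=
    (Valuation.ne_zero_iff _).mpr (Nat.cast_ne_zero.mpr hq.ne_zero)
  exact absurd hv (not_lt.mpr ((inv_le_one₀ (zero_lt_iff.mpr hq0)).mp h1))

/-- **(U)** Every nonzero element of `F_K(N)` is a power of `q` times a unit of the Gauss ring: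
the value group of the Gauss valuation over `K` is `q^ℤ`. -/
theorem exists_zpow_unit_gaussK (hι : IsInertiaField A ι) (hq : q.Prime)
    (hA : A.LiesOverPrime q) (N : ℕ) (x : ↥(FK K N)) (hx : x ≠ 0) :
    ∃ k : ℤ, x * (q : ↥(FK K N)) ^ (-k) ≠ 0 ∧ x * (q : ↥(FK K N)) ^ (-k) ∈ gaussK A ι N ∧
      (x * (q : ↥(FK K N)) ^ (-k))⁻¹ ∈ gaussK A ι N := by
  obtain ⟨c, u, hc, hu, hxe⟩ := helper8991.exists_const_mul_unit_F (OK A ι)
    (IsLocalRing.residue ↥(OK A ι)) N x hx
  have huu : IsUnit u := (helper8991.isUnit_iff_gaussFRed_ne_zero _ _ N u).mpr hu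
  obtain ⟨v, hv⟩ := huu.exists_right_inv
  have huv : (u : ↥(FK K N)) * (v : ↥(FK K N)) = 1 := by
    have := congrArg Subtype.val hv
    simpa using this
  have hu0 : (u : ↥(FK K N)) ≠ 0 := left_ne_zero_of_mul_eq_one huv
  have hc0 : ι c ≠ 0 := (map_ne_zero ι).mpr hc
  obtain ⟨n, hn⟩ := exists_zpow_valuation_eq A hq hA (ι c) ((hι (ι c)).mp ⟨c, rfl⟩) hc0
  have hqK : (q : K) ≠ 0 := by
    intro h0
    have := congrArg ι h0
    rw [map_natCast, map_zero] at this
    exact (Nat.cast_ne_zero (R := Qb)).mpr hq.ne_zero this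
  have hqF : (q : ↥(FK K N)) ≠ 0 := by
    have : (q : ↥(FK K N)) = algebraMap K ↥(FK K N) (q : K) := (map_natCast _ q).symm
    rw [this]
    exact (map_ne_zero _).mpr hqK
  have hv0 : A.valuation (q : Qb) ≠ 0 :=
    (Valuation.ne_zero_iff _).mpr (Nat.cast_ne_zero.mpr hq.ne_zero)
  -- the constant `c' = c * q^(-n)` is a unit of `O_K`
  have hval : A.valuation (ι (c * (q : K) ^ (-n))) = 1 := by
    rw [map_mul, map_zpow₀, map_natCast, map_mul, map_zpow₀, hn, ← zpow_add₀ hv0,
      add_neg_cancel, zpow_zero]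
  have hc'A : ι (c * (q : K) ^ (-n)) ∈ A :=
    (ValuationSubring.valuation_le_one_iff A _).mp hval.le
  have hc'invA : ι ((c * (q : K) ^ (-n))⁻¹) ∈ A := by
    rw [map_inv₀]
    apply (ValuationSubring.valuation_le_one_iff A _).mp
    rw [map_inv₀, hval, inv_one]
  have hy : x * (q : ↥(FK K N)) ^ (-n)
      = algebraMap K ↥(FK K N) (c * (q : K) ^ (-n)) * (u : ↥(FK K N)) := by
    rw [hxe, map_mul, map_zpow₀, map_natCast]
    ring
  have hyinv : (x * (q : ↥(FK K N)) ^ (-n))⁻¹
      = algebraMap K ↥(FK K N) ((c * (q : K) ^ (-n))⁻¹) * (v : ↥(FK K N)) := by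
    rw [hy, mul_inv, map_inv₀]
    congr 1
    exact inv_eq_of_mul_eq_one_right huv
  refine ⟨n, mul_ne_zero hx (zpow_ne_zero _ hqF), ?_, ?_⟩
  · rw [hy]
    exact mul_mem ((algebraMap_mem_gaussK_iff A ι N _).mpr hc'A) u.2
  · rw [hyinv]
    exact mul_mem ((algebraMap_mem_gaussK_iff A ι N _).mpr hc'invA) v.2

/-- `q⁻¹` is not integral for a twisted Gauss ring. -/
theorem inv_natCast_not_mem_gaussKW (hq : q.Prime) (hA : A.LiesOverPrime q) (N : ℕ)
    (w : ↥(FK K N) ≃+* ↥(FK K N)) : ((q : ↥(FK K N)))⁻¹ ∉ gaussKW A ι N w := by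
  rw [mem_gaussKW_iff_apply, map_inv₀, map_natCast]
  exact inv_natCast_not_mem_gaussK hq hA N

/-- **(U), twisted**: every nonzero element of `F_K(N)` is a power of `q` times a unit of a
twisted Gauss ring. -/
theorem exists_zpow_unit_gaussKW (hι : IsInertiaField A ι) (hq : q.Prime)
    (hA : A.LiesOverPrime q) (N : ℕ) (w : ↥(FK K N) ≃+* ↥(FK K N)) (x : ↥(FK K N))
    (hx : x ≠ 0) :
    ∃ k : ℤ, x * (q : ↥(FK K N)) ^ (-k) ≠ 0 ∧ x * (q : ↥(FK K N)) ^ (-k) ∈ gaussKW A ι N w ∧
      (x * (q : ↥(FK K N)) ^ (-k))⁻¹ ∈ gaussKW A ι N w := by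
  have hwx : w x ≠ 0 := (map_ne_zero w).mpr hx
  obtain ⟨k, hk0, hk1, hk2⟩ := exists_zpow_unit_gaussK hι hq hA N (w x) hwx
  have e : w (x * (q : ↥(FK K N)) ^ (-k)) = w x * (q : ↥(FK K N)) ^ (-k) := by
    rw [map_mul, map_zpow₀, map_natCast]
  refine ⟨k, fun h0 => hk0 ?_, ?_, ?_⟩
  · rw [← e, h0, map_zero]
  · rw [mem_gaussKW_iff_apply, e]
    exact hk1
  · rw [mem_gaussKW_iff_apply, map_inv₀, e]
    exact hk2

end Unif

/-! ## The Atkin–Lehner involution over `K` -/

section AtkinLehner

open Fermat.Agent.S35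

variable (q M : ℕ) [NeZero q] [NeZero M] (h : Nat.Coprime q M)

theorem iEquivariantAlg_atkinLehnerBar (A : ValuationSubring Qb) :
    IEquivariantAlg A (helper1219.atkinLehnerBar q M h) :=
  fun σ _ z => helper1219.atkinLehnerBar_arithmeticRingAut q M h σ z

/-- **(W)** The Atkin–Lehner involution `W_q` of `F_K(q M)` (`q`, `M` coprime; `q` need not be
prime): the descent to the inertia field of `S35.helper1219.atkinLehnerBar q M h`. -/
def wqK (hι : IsInertiaField A ι) : ↥(FK K (q * M)) ≃ₐ[K] ↥(FK K (q * M)) :=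
  descKAlgEquiv hι (helper1219.atkinLehnerBar q M h) (iEquivariantAlg_atkinLehnerBar q M h A)

theorem embK_wqK (hι : IsInertiaField A ι) (x : ↥(FK K (q * M))) :
    embK ι (q * M) (wqK q M h hι x) = helper1219.atkinLehnerBar q M h (embK ι (q * M) x) :=
  embK_descKAlgEquiv hι _ _ x

theorem wqK_wqK (hι : IsInertiaField A ι) (x : ↥(FK K (q * M))) :
    wqK q M h hι (wqK q M h hι x) = x := by
  apply embK_injective ι (q * M)
  rw [embK_wqK, embK_wqK, helper1219.atkinLehnerBar_atkinLehnerBar]

/-- The second Gauss ring over `K` at level `q M` is the restriction of the landed pair. -/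
theorem mem_gaussKW_wqK_iff (hι : IsInertiaField A ι) (x : ↥(FK K (q * M))) :
    x ∈ gaussKW A ι (q * M) (wqK q M h hι : ↥(FK K (q * M)) ≃+* ↥(FK K (q * M)))
      ↔ embK ι (q * M) x
        ∈ helper882.gpRingW A (q * M) (helper1219.atkinLehnerBar q M h) :=
  mem_gaussKW_iff hι (q * M) _ _ x

end AtkinLehner

end Fermat.Agent.S36.helper6594
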