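/-
S36-LEVELQ-K, part 2 (helper6594, board #2419): the order-function fields of
`helper36.KillData` for the Gauss-type valuations over the inertia field `K = ℚ̄^I`, in the
landed vocabulary of `helper1013_Vertical` (`IsUnifOf`, `UnitOf`, `unifOrd`, `IsOrd`).

Notation of `helper6594_LevelQK`: `ι : K →+* ℚ̄` with `IsInertiaField A ι`,
`F_K(N) = FK K N`, `gaussK A ι N` the Gauss ring over `O_K = A.comap ι`, `gaussKW A ι N w` its
twist by an automorphism `w` of `F_K(N)`.

* `isUnifOf_gaussK`, `isUnifOf_gaussKW` : `q` is a uniformiser (`helper1013.IsUnifOf`).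
* `comap_gpRing_eq`, `comap_gpRingW_eq` : the restrictions to `F_K(N)` of the two landed Gauss
  rings over `(ℚ̄, A)` ARE `gaussK`, `gaussKW` (so the valuation rings "defined by restriction"
  of captain's ruling #3 have `q` as a uniformiser: `isUnifOf_comap_gpRing`,
  `isUnifOf_comap_gpRingW`).
* `unifOrd_algebraMap_gaussKW`, `mem_OK_of_unifOrd_algebraMap_eq_zero` : constants.
* `levelq_fields` : the KillData fields `hord'`, `mem_V'`, `ord'_q`, `ord'_const`, `ord'_unit`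
  VERBATIM for `V' := ![gaussK, gaussKW w]`, `ord' := ![unifOrd gaussK q, unifOrd (gaussKW w) q]`
  (any level `N`, any `K`-automorphism `w`; e.g. `w = wqK q M h hι` at `N = q * M`, `q` any
  exact divisor: level `q M''` with `W_q`, level `q² M''` with `W_{q²}`), and
  `levelq_fields_restrict` : the same for the rings defined by restriction from `(ℚ̄, A)`.
-/
import Mathlib
import Fermat.Agent.S36.helper6594_LevelQK
import Fermat.Agent.S36.helper1013_Vertical

set_option autoImplicit false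

open ModularCurve HahnSeries

noncomputable section

namespace Fermat.Agent.S36.helper6594

open Fermat.Agent.S36.helper1013 (IsUnifOf UnitOf unifOrd IsOrd)
open Fermat.Agent.S35

local notation "Qb" => AlgebraicClosure ℚ

variable {A : ValuationSubring Qb} {K : Type*} [Field K] [Algebra ℚ K] {ι : K →+* Qb} {q : ℕ}

/-! ## Uniformisers -/

/-- `q` is a uniformiser of the Gauss ring of `F_K(N)`. -/
theorem isUnifOf_gaussK (hι : IsInertiaField A ι) (hq : q.Prime) (hA : A.LiesOverPrime q)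
    (N : ℕ) : IsUnifOf (gaussK A ι N) ((q : ℕ) : ↥(FK K N)) :=
  ⟨natCast_mem_gaussK N q, inv_natCast_not_mem_gaussK hq hA N,
    fun x hx => exists_zpow_unit_gaussK hι hq hA N x hx⟩

/-- `q` is a uniformiser of every twisted Gauss ring of `F_K(N)`. -/
theorem isUnifOf_gaussKW (hι : IsInertiaField A ι) (hq : q.Prime) (hA : A.LiesOverPrime q)
    (N : ℕ) (w : ↥(FK K N) ≃+* ↥(FK K N)) :
    IsUnifOf (gaussKW A ι N w) ((q : ℕ) : ↥(FK K N)) :=
  ⟨(mem_gaussKW_iff_apply A ι N w _).mpr (by rw [map_natCast]; exact natCast_mem_gaussK N q),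
    inv_natCast_not_mem_gaussKW hq hA N w,
    fun x hx => exists_zpow_unit_gaussKW hι hq hA N w x hx⟩

/-! ## The rings defined by restriction from `(ℚ̄, A)` -/

/-- The restriction to `F_K(N)` of the landed Gauss ring over `(ℚ̄, A)` is the Gauss ring over
`(K, O_K)`. -/
theorem comap_gpRing_eq (A : ValuationSubring Qb) (ι : K →+* Qb) (N : ℕ) :
    (helper882.gpRing A N).comap (embK ι N) = gaussK A ι N := by
  ext x
  exact (mem_gaussK_iff A ι N x).symm

/-- The restriction to `F_K(N)` of the second landed Gauss ring `gpRingW A N W` is the twist of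
the Gauss ring over `K` by the descent of `W`. -/
theorem comap_gpRingW_eq (hι : IsInertiaField A ι) (N : ℕ)
    (W : ↥(modularFunctionFieldBar N) ≃ₐ[Qb] ↥(modularFunctionFieldBar N))
    (hW : IEquivariantAlg A W) :
    (helper882.gpRingW A N W).comap (embK ι N)
      = gaussKW A ι N (descKAlgEquiv hι W hW : ↥(FK K N) ≃+* ↥(FK K N)) := by
  ext x
  exact (mem_gaussKW_iff hι N W hW x).symm

theorem isUnifOf_comap_gpRing (hι : IsInertiaField A ι) (hq : q.Prime)
    (hA : A.LiesOverPrime q) (N : ℕ) :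
    IsUnifOf ((helper882.gpRing A N).comap (embK ι N)) ((q : ℕ) : ↥(FK K N)) := by
  rw [comap_gpRing_eq]
  exact isUnifOf_gaussK hι hq hA N

theorem isUnifOf_comap_gpRingW (hι : IsInertiaField A ι) (hq : q.Prime)
    (hA : A.LiesOverPrime q) (N : ℕ)
    (W : ↥(modularFunctionFieldBar N) ≃ₐ[Qb] ↥(modularFunctionFieldBar N))
    (hW : IEquivariantAlg A W) :
    IsUnifOf ((helper882.gpRingW A N W).comap (embK ι N)) ((q : ℕ) : ↥(FK K N)) := by
  rw [comap_gpRingW_eq hι N W hW]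
  exact isUnifOf_gaussKW hι hq hA N _

/-! ## Constants -/

/-- A constant is a unit of the Gauss ring iff it is a unit of `O_K`. -/
theorem unitOf_gaussK_algebraMap_iff (N : ℕ) (a : K) :
    UnitOf (gaussK A ι N) (algebraMap K ↥(FK K N) a) ↔ a ≠ 0 ∧ ι a ∈ A ∧ ι a⁻¹ ∈ A := by
  unfold UnitOf
  rw [← map_inv₀, algebraMap_mem_gaussK_iff, algebraMap_mem_gaussK_iff, map_ne_zero]

/-- A constant of order `0` is a unit of `O_K`. -/
theorem mem_OK_of_unifOrd_algebraMap_eq_zero (hι : IsInertiaField A ι) (hq : q.Prime)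
    (hA : A.LiesOverPrime q) (N : ℕ) (a : K) (ha : a ≠ 0)
    (h0 : unifOrd (gaussK A ι N) ((q : ℕ) : ↥(FK K N)) (algebraMap K ↥(FK K N) a) = 0) :
    a ∈ OK A ι ∧ a⁻¹ ∈ OK A ι := by
  have hne : algebraMap K ↥(FK K N) a ≠ 0 := (map_ne_zero _).mpr ha
  have hu := (helper1013.unifOrd_eq_zero_iff (isUnifOf_gaussK hι hq hA N) hne).mp h0
  exact ((unitOf_gaussK_algebraMap_iff N a).mp hu).2

/-- The two orders agree on constants (`w` a `K`-algebra automorphism). -/
theorem unifOrd_algebraMap_gaussKW (hι : IsInertiaField A ι) (hq : q.Prime)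
    (hA : A.LiesOverPrime q) (N : ℕ) (w : ↥(FK K N) ≃ₐ[K] ↥(FK K N)) (a : K) (ha : a ≠ 0) :
    unifOrd (gaussK A ι N) ((q : ℕ) : ↥(FK K N)) (algebraMap K ↥(FK K N) a)
      = unifOrd (gaussKW A ι N (w : ↥(FK K N) ≃+* ↥(FK K N))) ((q : ℕ) : ↥(FK K N))
          (algebraMap K ↥(FK K N) a) := by
  have hne : algebraMap K ↥(FK K N) a ≠ 0 := (map_ne_zero _).mpr ha
  have hu := helper1013.unifOrd_spec (isUnifOf_gaussK hι hq hA N) hne
  symm
  apply helper1013.unifOrd_eq (isUnifOf_gaussKW hι hq hA N _)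
  have e : w (algebraMap K ↥(FK K N) a * ((q : ℕ) : ↥(FK K N))
        ^ (-(unifOrd (gaussK A ι N) ((q : ℕ) : ↥(FK K N)) (algebraMap K ↥(FK K N) a))))
      = algebraMap K ↥(FK K N) a * ((q : ℕ) : ↥(FK K N))
        ^ (-(unifOrd (gaussK A ι N) ((q : ℕ) : ↥(FK K N)) (algebraMap K ↥(FK K N) a))) := by
    rw [map_mul, map_zpow₀, map_natCast, AlgEquiv.commutes]
  refine ⟨hu.1, ?_, ?_⟩
  · show w _ ∈ gaussK A ι N
    rw [e]
    exact hu.2.1
  · show w _ ∈ gaussK A ι N
    rw [map_inv₀, e]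
    exact hu.2.2

/-! ## The KillData fields -/

/-- **The order-function fields of `helper36.KillData` for a Gauss pair over `K`** (fields
`hord'`, `mem_V'`, `ord'_q`, `ord'_const`, `ord'_unit`, verbatim), for
`V' := ![gaussK A ι N, gaussKW A ι N w]` and the orders `unifOrd (V' c) q`. -/
theorem levelq_fields (hι : IsInertiaField A ι) (hq : q.Prime) (hA : A.LiesOverPrime q)
    (N : ℕ) (w : ↥(FK K N) ≃ₐ[K] ↥(FK K N))
    (V' : Fin 2 → ValuationSubring ↥(FK K N))
    (hV' : V' = ![gaussK A ι N, gaussKW A ι N (w : ↥(FK K N) ≃+* ↥(FK K N))])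
    (ord' : Fin 2 → ↥(FK K N) → ℤ)
    (hord' : ord' = fun c => unifOrd (V' c) ((q : ℕ) : ↥(FK K N))) :
    (∀ c, IsOrd (ord' c)) ∧
    (∀ (c : Fin 2) (y : ↥(FK K N)), y ≠ 0 → (y ∈ V' c ↔ 0 ≤ ord' c y)) ∧
    (∀ c, ord' c ((q : ℕ) : ↥(FK K N)) = 1) ∧
    (∀ a : K, a ≠ 0 → ord' 0 (algebraMap K ↥(FK K N) a) = ord' 1 (algebraMap K ↥(FK K N) a)) ∧
    (∀ a : K, a ≠ 0 → ord' 0 (algebraMap K ↥(FK K N) a) = 0 → a ∈ OK A ι ∧ a⁻¹ ∈ OK A ι) := by
  subst hV' hord'
  have hu : ∀ c : Fin 2, IsUnifOf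
      ((![gaussK A ι N, gaussKW A ι N (w : ↥(FK K N) ≃+* ↥(FK K N))] :
        Fin 2 → ValuationSubring ↥(FK K N)) c) ((q : ℕ) : ↥(FK K N)) := by
    intro c
    fin_cases c
    · exact isUnifOf_gaussK hι hq hA N
    · exact isUnifOf_gaussKW hι hq hA N _
  refine ⟨fun c => helper1013.isOrd_unifOrd (hu c),
    fun c y hy => helper1013.mem_iff_unifOrd_nonneg (hu c) hy,
    fun c => helper1013.unifOrd_unif (hu c), fun a ha => ?_, fun a ha h0 => ?_⟩
  · exact unifOrd_algebraMap_gaussKW hι hq hA N w a ha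
  · exact mem_OK_of_unifOrd_algebraMap_eq_zero hι hq hA N a ha h0

/-- The same fields for the valuation rings DEFINED BY RESTRICTION from `(ℚ̄, A)` (captain's
ruling #3): `V' := ![(gpRing A N).comap embK, (gpRingW A N W).comap embK]`, `W` any
`I`-equivariant `ℚ̄`-automorphism of `F̄_N`. -/
theorem levelq_fields_restrict (hι : IsInertiaField A ι) (hq : q.Prime)
    (hA : A.LiesOverPrime q) (N : ℕ)
    (W : ↥(modularFunctionFieldBar N) ≃ₐ[Qb] ↥(modularFunctionFieldBar N))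
    (hW : IEquivariantAlg A W)
    (V' : Fin 2 → ValuationSubring ↥(FK K N))
    (hV' : V' = ![(helper882.gpRing A N).comap (embK ι N),
      (helper882.gpRingW A N W).comap (embK ι N)])
    (ord' : Fin 2 → ↥(FK K N) → ℤ)
    (hord' : ord' = fun c => unifOrd (V' c) ((q : ℕ) : ↥(FK K N))) :
    (∀ c, IsOrd (ord' c)) ∧
    (∀ (c : Fin 2) (y : ↥(FK K N)), y ≠ 0 → (y ∈ V' c ↔ 0 ≤ ord' c y)) ∧
    (∀ c, ord' c ((q : ℕ) : ↥(FK K N)) = 1) ∧
    (∀ a : K, a ≠ 0 → ord' 0 (algebraMap K ↥(FK K N) a) = ord' 1 (algebraMap K ↥(FK K N) a)) ∧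
    (∀ a : K, a ≠ 0 → ord' 0 (algebraMap K ↥(FK K N) a) = 0 → a ∈ OK A ι ∧ a⁻¹ ∈ OK A ι) := by
  refine levelq_fields hι hq hA N (descKAlgEquiv hι W hW) V' ?_ ord' hord'
  rw [hV', comap_gpRing_eq, comap_gpRingW_eq hι N W hW]

end Fermat.Agent.S36.helper6594
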