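/-
S36-LEVELQ-K, part 3 (helper6594, board #2419): the level-`M₁` block of the concrete instance
of `helper36.KillData` at the LITERAL level `M` with `q ∥ M` (captain's ruling #3: level `M₁`,
`q ∣ M₁`, `¬ q ^ 2 ∣ M₁`), over the inertia field.

Notation of `helper6594_LevelQK`: `ι : K →+* ℚ̄` with `IsInertiaField A ι`,
`F_K(N) = FK K N`, `embK ι N : F_K(N) → F̄_N` (coefficientwise `ι`).

* `wqAtK M q hq hqM hq2 hι : F_K(M) ≃ₐ[K] F_K(M)` : the Atkin–Lehner involution `W_q` over `K`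
  at the literal level `M` = the descent of the landed `S35.helper1219.atkinLehnerAt`
  (`embK_wqAtK`, `wqAtK_wqAtK`).
* `levelqV M q hq hqM hq2 hι : Fin 2 → ValuationSubring F_K(M)` : `v'_∞`, `v'_0`
  (`![gaussK, gaussK ∘ W_q]`); `levelqV_eq_restrict` : they ARE the restrictions along `embK`
  of the landed pair `helper882.gpRing A M`, `helper882.gpRingW A M (atkinLehnerAt …)` over
  `(ℚ̄, A)`; membership lemmas `mem_levelqV_zero_iff`, `mem_levelqV_one_iff`,
  `mem_levelqV_one_iff_wq`, `wqAtK_mem_levelqV_one_iff`.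
* `levelqOrd M q hq hqM hq2 hι : Fin 2 → F_K(M) → ℤ` : the normalised orders
  (`helper1013.unifOrd (levelqV … c) q`), with the KillData fields one by one:
  `levelq_hord'`, `levelq_mem_V'`, `levelq_ord'_q`, `levelq_ord'_const`, `levelq_ord'_unit`,
  and `levelqOrd_one_eq` (`ord'_0 = ord'_∞ ∘ W_q`), `levelqOrd_zero_wqAtK`.
* `embK_eq_layerHom` : `embK ι N` is the landed `S37.helper5651.layerHom`.
* Section `Concrete` : everything at `K = S58.helper6024.inertiaFixedField A`,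
  `O = helper6024.inertiaValuationSubring A` (`levelqVI`, `levelqOrdI`, `levelq_fields_I`).
-/
import Mathlib
import Fermat.Agent.S36.helper6594_LevelQKFields
import Fermat.Agent.S37.helper5651_FFK

set_option autoImplicit false

open ModularCurve HahnSeries

noncomputable section

namespace Fermat.Agent.S36.helper6594

open Fermat.Agent.S36.helper1013 (IsUnifOf UnitOf unifOrd IsOrd)
open Fermat.Agent.S35 Fermat.Agent.S58.helper6024

local notation "Qb" => AlgebraicClosure ℚ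

/-! ## `embK` is the landed `layerHom` -/

/-- `embK ι N` is `S37.helper5651.layerHom (modularFunctionFieldFull N) ι`. -/
theorem embK_eq_layerHom {K : Type*} [Field K] [Algebra ℚ K] (ι : K →+* Qb) (N : ℕ) :
    embK ι N = Fermat.Agent.S37.helper5651.layerHom (modularFunctionFieldFull N) ι := by
  ext x
  rfl

section LiteralLevel

variable {A : ValuationSubring Qb} {K : Type*} [Field K] [Algebra ℚ K] {ι : K →+* Qb}
variable (M q : ℕ) [NeZero M] [NeZero q] (hq : q.Prime) (hqM : q ∣ M) (hq2 : ¬ q ^ 2 ∣ M)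

/-! ## `W_q` over `K` at the literal level -/

theorem iEquivariantAlg_atkinLehnerAt (A : ValuationSubring Qb) :
    IEquivariantAlg A (helper1219.atkinLehnerAt M q hq hqM hq2) :=
  fun σ _ z => helper1219.atkinLehnerAt_arithmeticRingAut M q hq hqM hq2 σ z

/-- **`W_q` over `K` at the literal level `M`, `q ∥ M`**: the descent to the inertia field of
`S35.helper1219.atkinLehnerAt M q hq hqM hq2`. -/
def wqAtK (hι : IsInertiaField A ι) : ↥(FK K M) ≃ₐ[K] ↥(FK K M) :=
  descKAlgEquiv hι (helper1219.atkinLehnerAt M q hq hqM hq2)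
    (iEquivariantAlg_atkinLehnerAt M q hq hqM hq2 A)

theorem embK_wqAtK (hι : IsInertiaField A ι) (x : ↥(FK K M)) :
    embK ι M (wqAtK M q hq hqM hq2 hι x)
      = helper1219.atkinLehnerAt M q hq hqM hq2 (embK ι M x) :=
  embK_descKAlgEquiv hι _ _ x

theorem wqAtK_wqAtK (hι : IsInertiaField A ι) (x : ↥(FK K M)) :
    wqAtK M q hq hqM hq2 hι (wqAtK M q hq hqM hq2 hι x) = x := by
  apply embK_injective ι M
  rw [embK_wqAtK, embK_wqAtK, helper1219.atkinLehnerAt_atkinLehnerAt]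

theorem wqAtK_symm (hι : IsInertiaField A ι) :
    (wqAtK M q hq hqM hq2 hι).symm = wqAtK M q hq hqM hq2 hι :=
  AlgEquiv.ext fun z => by
    rw [AlgEquiv.symm_apply_eq, wqAtK_wqAtK]

/-! ## The two vertical valuation rings of level `M` -/

/-- **`v'_∞`, `v'_0`**: the Gauss ring of `F_K(M)` over `O_K` and its twist by `W_q`. -/
def levelqV (hι : IsInertiaField A ι) : Fin 2 → ValuationSubring ↥(FK K M) :=
  ![gaussK A ι M,
    gaussKW A ι M (wqAtK M q hq hqM hq2 hι : ↥(FK K M) ≃+* ↥(FK K M))]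

theorem levelqV_zero (hι : IsInertiaField A ι) :
    levelqV M q hq hqM hq2 hι 0 = gaussK A ι M := rfl

theorem levelqV_one (hι : IsInertiaField A ι) :
    levelqV M q hq hqM hq2 hι 1
      = gaussKW A ι M (wqAtK M q hq hqM hq2 hι : ↥(FK K M) ≃+* ↥(FK K M)) := rfl

/-- `v'_∞` is the restriction of the landed Gauss ring over `(ℚ̄, A)`. -/
theorem mem_levelqV_zero_iff (hι : IsInertiaField A ι) (x : ↥(FK K M)) :
    x ∈ levelqV M q hq hqM hq2 hι 0 ↔ embK ι M x ∈ helper882.gpRing A M :=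
  mem_gaussK_iff A ι M x

/-- `v'_0` is the restriction of the landed second Gauss ring over `(ℚ̄, A)`. -/
theorem mem_levelqV_one_iff (hι : IsInertiaField A ι) (x : ↥(FK K M)) :
    x ∈ levelqV M q hq hqM hq2 hι 1
      ↔ helper1219.atkinLehnerAt M q hq hqM hq2 (embK ι M x) ∈ helper882.gpRing A M :=
  mem_gaussKW_iff hι M _ _ x

/-- `v'_0 = v'_∞ ∘ W_q` over `K`. -/
theorem mem_levelqV_one_iff_wq (hι : IsInertiaField A ι) (x : ↥(FK K M)) :
    x ∈ levelqV M q hq hqM hq2 hι 1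
      ↔ wqAtK M q hq hqM hq2 hι x ∈ levelqV M q hq hqM hq2 hι 0 :=
  mem_gaussKW_iff_apply A ι M _ x

theorem wqAtK_mem_levelqV_one_iff (hι : IsInertiaField A ι) (x : ↥(FK K M)) :
    wqAtK M q hq hqM hq2 hι x ∈ levelqV M q hq hqM hq2 hι 1
      ↔ x ∈ levelqV M q hq hqM hq2 hι 0 := by
  rw [mem_levelqV_one_iff_wq, wqAtK_wqAtK]

/-- The pair is the pair DEFINED BY RESTRICTION from `(ℚ̄, A)` (captain's ruling #3). -/
theorem levelqV_eq_restrict (hι : IsInertiaField A ι) :
    levelqV M q hq hqM hq2 hι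
      = ![(helper882.gpRing A M).comap (embK ι M),
          (helper882.gpRingW A M (helper1219.atkinLehnerAt M q hq hqM hq2)).comap
            (embK ι M)] := by
  unfold levelqV wqAtK
  rw [comap_gpRing_eq, comap_gpRingW_eq hι M _ (iEquivariantAlg_atkinLehnerAt M q hq hqM hq2 A)]

/-- Constants: `a ∈ v'_c ↔ a ∈ O_K`, for both `c`. -/
theorem algebraMap_mem_levelqV_iff (hι : IsInertiaField A ι) (c : Fin 2) (a : K) :
    algebraMap K ↥(FK K M) a ∈ levelqV M q hq hqM hq2 hι c ↔ a ∈ OK A ι := by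
  fin_cases c
  · exact algebraMap_mem_gaussK_iff A ι M a
  · exact algebraMap_mem_gaussKW_iff M _ a

/-- `q` is a uniformiser of both rings. -/
theorem isUnifOf_levelqV (hι : IsInertiaField A ι) (hA : A.LiesOverPrime q) (c : Fin 2) :
    IsUnifOf (levelqV M q hq hqM hq2 hι c) ((q : ℕ) : ↥(FK K M)) := by
  fin_cases c
  · exact isUnifOf_gaussK hι hq hA M
  · exact isUnifOf_gaussKW hι hq hA M _

/-! ## The normalised orders and the KillData fields -/

/-- **`ord'_∞`, `ord'_0`**: the normalised orders (`q` has order `1`). -/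
def levelqOrd (hι : IsInertiaField A ι) : Fin 2 → ↥(FK K M) → ℤ :=
  fun c => unifOrd (levelqV M q hq hqM hq2 hι c) ((q : ℕ) : ↥(FK K M))

theorem levelqOrd_eq (hι : IsInertiaField A ι) :
    levelqOrd M q hq hqM hq2 hι
      = fun c => unifOrd (levelqV M q hq hqM hq2 hι c) ((q : ℕ) : ↥(FK K M)) := rfl

/-- KillData field `hord'`. -/
theorem levelq_hord' (hι : IsInertiaField A ι) (hA : A.LiesOverPrime q) :
    ∀ c, IsOrd (levelqOrd M q hq hqM hq2 hι c) :=
  fun c => helper1013.isOrd_unifOrd (isUnifOf_levelqV M q hq hqM hq2 hι hA c)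

/-- KillData field `mem_V'`. -/
theorem levelq_mem_V' (hι : IsInertiaField A ι) (hA : A.LiesOverPrime q) :
    ∀ (c : Fin 2) (y : ↥(FK K M)), y ≠ 0 →
      (y ∈ levelqV M q hq hqM hq2 hι c ↔ 0 ≤ levelqOrd M q hq hqM hq2 hι c y) :=
  fun c _ hy => helper1013.mem_iff_unifOrd_nonneg (isUnifOf_levelqV M q hq hqM hq2 hι hA c) hy

/-- KillData field `ord'_q`. -/
theorem levelq_ord'_q (hι : IsInertiaField A ι) (hA : A.LiesOverPrime q) :
    ∀ c, levelqOrd M q hq hqM hq2 hι c ((q : ℕ) : ↥(FK K M)) = 1 :=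
  fun c => helper1013.unifOrd_unif (isUnifOf_levelqV M q hq hqM hq2 hι hA c)

/-- KillData field `ord'_const`. -/
theorem levelq_ord'_const (hι : IsInertiaField A ι) (hA : A.LiesOverPrime q) :
    ∀ a : K, a ≠ 0 →
      levelqOrd M q hq hqM hq2 hι 0 (algebraMap K ↥(FK K M) a)
        = levelqOrd M q hq hqM hq2 hι 1 (algebraMap K ↥(FK K M) a) :=
  fun a ha => unifOrd_algebraMap_gaussKW hι hq hA M (wqAtK M q hq hqM hq2 hι) a ha

/-- KillData field `ord'_unit`. -/
theorem levelq_ord'_unit (hι : IsInertiaField A ι) (hA : A.LiesOverPrime q) :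
    ∀ a : K, a ≠ 0 → levelqOrd M q hq hqM hq2 hι 0 (algebraMap K ↥(FK K M) a) = 0 →
      a ∈ OK A ι ∧ a⁻¹ ∈ OK A ι :=
  fun a ha h0 => mem_OK_of_unifOrd_algebraMap_eq_zero hι hq hA M a ha h0

/-- `ord'_0 = ord'_∞ ∘ W_q`. -/
theorem levelqOrd_one_eq (hι : IsInertiaField A ι) (hA : A.LiesOverPrime q)
    (y : ↥(FK K M)) (hy : y ≠ 0) :
    levelqOrd M q hq hqM hq2 hι 1 y
      = levelqOrd M q hq hqM hq2 hι 0 (wqAtK M q hq hqM hq2 hι y) := by
  have hne : wqAtK M q hq hqM hq2 hι y ≠ 0 := (map_ne_zero _).mpr hy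
  have hu := helper1013.unifOrd_spec (isUnifOf_levelqV M q hq hqM hq2 hι hA 0) hne
  apply helper1013.unifOrd_eq (isUnifOf_levelqV M q hq hqM hq2 hι hA 1)
  have e : wqAtK M q hq hqM hq2 hι (y * ((q : ℕ) : ↥(FK K M))
        ^ (-(levelqOrd M q hq hqM hq2 hι 0 (wqAtK M q hq hqM hq2 hι y))))
      = wqAtK M q hq hqM hq2 hι y * ((q : ℕ) : ↥(FK K M))
        ^ (-(levelqOrd M q hq hqM hq2 hι 0 (wqAtK M q hq hqM hq2 hι y))) := by
    rw [map_mul, map_zpow₀, map_natCast]
  refine ⟨mul_ne_zero hy (zpow_ne_zero _ (isUnifOf_levelqV M q hq hqM hq2 hι hA 0).ne_zero),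
    ?_, ?_⟩
  · rw [mem_levelqV_one_iff_wq, e]
    exact hu.2.1
  · rw [mem_levelqV_one_iff_wq, map_inv₀, e]
    exact hu.2.2

theorem levelqOrd_zero_wqAtK (hι : IsInertiaField A ι) (hA : A.LiesOverPrime q)
    (y : ↥(FK K M)) (hy : y ≠ 0) :
    levelqOrd M q hq hqM hq2 hι 0 y
      = levelqOrd M q hq hqM hq2 hι 1 (wqAtK M q hq hqM hq2 hι y) := by
  rw [levelqOrd_one_eq M q hq hqM hq2 hι hA _ ((map_ne_zero _).mpr hy), wqAtK_wqAtK]

end LiteralLevel

/-! ## The concrete inertia field `K = ℚ̄^I` of `S58.helper6024` -/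

section Concrete

variable (A : ValuationSubring Qb)
variable (M q : ℕ) [NeZero M] [NeZero q] (hq : q.Prime) (hqM : q ∣ M) (hq2 : ¬ q ^ 2 ∣ M)

/-- `O_K` at the concrete inertia field is `helper6024.inertiaValuationSubring A`. -/
theorem oK_inertiaFixedField :
    OK A (algebraMap ↥(inertiaFixedField A) Qb) = inertiaValuationSubring A := rfl

/-- `v'_∞`, `v'_0` over the concrete inertia field. -/
def levelqVI : Fin 2 → ValuationSubring ↥(FK ↥(inertiaFixedField A) M) :=
  levelqV M q hq hqM hq2 (isInertiaField_inertiaFixedField A)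

/-- `ord'_∞`, `ord'_0` over the concrete inertia field. -/
def levelqOrdI : Fin 2 → ↥(FK ↥(inertiaFixedField A) M) → ℤ :=
  levelqOrd M q hq hqM hq2 (isInertiaField_inertiaFixedField A)

/-- **The five order-function fields of `helper36.KillData` on the concrete level-`M` terms**
(`K = inertiaFixedField A`, `O = inertiaValuationSubring A`, `V' = levelqVI`,
`ord' = levelqOrdI`). -/
theorem levelq_fields_I (hA : A.LiesOverPrime q) :
    (∀ c, IsOrd (levelqOrdI A M q hq hqM hq2 c)) ∧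
    (∀ (c : Fin 2) (y : ↥(FK ↥(inertiaFixedField A) M)), y ≠ 0 →
      (y ∈ levelqVI A M q hq hqM hq2 c ↔ 0 ≤ levelqOrdI A M q hq hqM hq2 c y)) ∧
    (∀ c, levelqOrdI A M q hq hqM hq2 c ((q : ℕ) : ↥(FK ↥(inertiaFixedField A) M)) = 1) ∧
    (∀ a : ↥(inertiaFixedField A), a ≠ 0 →
      levelqOrdI A M q hq hqM hq2 0
          (algebraMap ↥(inertiaFixedField A) ↥(FK ↥(inertiaFixedField A) M) a)
        = levelqOrdI A M q hq hqM hq2 1
          (algebraMap ↥(inertiaFixedField A) ↥(FK ↥(inertiaFixedField A) M) a)) ∧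
    (∀ a : ↥(inertiaFixedField A), a ≠ 0 →
      levelqOrdI A M q hq hqM hq2 0
          (algebraMap ↥(inertiaFixedField A) ↥(FK ↥(inertiaFixedField A) M) a) = 0 →
      a ∈ inertiaValuationSubring A ∧ a⁻¹ ∈ inertiaValuationSubring A) :=
  ⟨levelq_hord' M q hq hqM hq2 _ hA, levelq_mem_V' M q hq hqM hq2 _ hA,
    levelq_ord'_q M q hq hqM hq2 _ hA, levelq_ord'_const M q hq hqM hq2 _ hA,
    levelq_ord'_unit M q hq hqM hq2 _ hA⟩

end Concrete

end Fermat.Agent.S36.helper6594
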