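/-
S36-LEVELQ-PAIR (helper98, board #2575): the level-`q` pair `(F'', F')` over the inertia field.

`Qb = AlgebraicClosure ℚ`, `A` a valuation subring of `Qb` over a prime `q`, `K = ℚ̄^I` the
inertia field (abstract, as in `helper6594_LevelQK`: `ι : K →+* Qb`, `IsInertiaField A ι`),
`O_K = A.comap ι`, `F_K(N) = laurentBaseChange K (modularFunctionFieldFull N)`, `q ∤ M`.

The two degeneracy maps `α', β' : F_K(M) → F_K(q M)` (`f(z) ↦ f(z)`, `f(z) ↦ f(q z)`) and the
two Gauss valuations `v'_∞`, `v'_0 = v'_∞ ∘ W_q` of level `q M` lie over the ONE Gauss valuation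
`v''` of level `M` with residue degree one:

* `α' a ∈ V'_∞ ↔ a ∈ V''` and `∀ h ∈ V'_∞, ∃ a ∈ V'', α' a - h ∈ 𝔪(V'_∞)`;
* `β' a ∈ V'_0 ↔ a ∈ V''` and `∀ h ∈ V'_0, ∃ a ∈ V'', β' a - h ∈ 𝔪(V'_0)`.

These are the `hmem` / `hlift` hypotheses of the one-map transfer lemmas at the step
`M → q M` (`helper6136.LPBAt.lift`, `helper1413` RedTransfer, `helper3527.redClosed_transfer`).

The mathematical input is the LANDED S35 theorem `helper1928.gaussFRed_mem_fullC_level`
(the Gauss reduction of `F̄_{q M}` lies in `F_k(M)`) over `(ℚ̄, A)`, the generic surjectivity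
`helper8991.exists_gaussFRed_eq` over `(K, O_K)`, and "the residue field of `O_K` is that of `A`"
(`helper1821.exists_sub_mem_nonunits`).

Everything is stated in a CAST-FREE series form first (any level `N'` with `N' = q * M`, any
ring homomorphism whose effect on `q`-expansions is the identity resp. `qExpand q`, any
endomorphism `W` of `F̄_{N'}` with `W (f(q z)) = f(z)`), then instantiated:

* Prelude level `M * q`: `heckeAlphaBar K M q`, `heckeBetaBar K M q`, `W = atkinLehnerBarR M q`;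
* level `q * M`: `W = atkinLehnerBar q M`;
* level-general `M₁` with `q ∥ M₁` (`M = M₁ / q`): `alphaAt`, `betaAt`, `W = atkinLehnerAt M₁ q`.
-/
import Mathlib
import Fermat.Agent.S36.helper6594_LevelQK
import Fermat.Agent.S35.helper1928_ResField
import Fermat.Agent.S19.helper1821_BaseRing

set_option autoImplicit false
set_option linter.unusedSectionVars false

open ModularCurve HahnSeries

noncomputable section

namespace Fermat.Agent.S36.helper98

open Fermat.Agent.S18 Fermat.Agent.S35 Fermat.Agent.S36.helper6594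

local notation "Qb" => AlgebraicClosure ℚ

/-! ## Generalities -/

/-- `coeffMap` commutes with `qExpand`. -/
theorem coeffMap_qExpand_comm {R S : Type*} [CommRing R] [CommRing S] (f : R →+* S) (d : ℕ)
    [NeZero d] (x : LaurentSeries R) :
    coeffMap f (qExpand R d x) = qExpand S d (coeffMap f x) := by
  ext k
  by_cases hk : (d : ℤ) ∣ k
  · obtain ⟨m, rfl⟩ := hk
    rw [coeffMap_coeff, qExpand_coeff_mul, qExpand_coeff_mul, coeffMap_coeff]
  · rw [coeffMap_coeff, qExpand_coeff_of_not_dvd d x hk, qExpand_coeff_of_not_dvd d _ hk,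
      map_zero]

/-- Non-units of a pulled-back valuation subring. -/
theorem mem_nonunits_comap_iff' {E F : Type*} [Field E] [Field F] (V : ValuationSubring F)
    (φ : E →+* F) (x : E) : x ∈ (V.comap φ).nonunits ↔ φ x ∈ V.nonunits := by
  rw [ValuationSubring.mem_nonunits_iff_or, ValuationSubring.mem_nonunits_iff_or,
    ValuationSubring.mem_comap, map_inv₀, map_eq_zero]

variable (A : ValuationSubring Qb) {K : Type*} [Field K] [Algebra ℚ K] (ι : K →+* Qb)

/-- The Gauss ring over `K` is the restriction of the Gauss ring over `ℚ̄`. -/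
theorem comap_gpRing (N : ℕ) :
    (helper882.gpRing A N).comap (embK ι N) = gaussK A ι N := by
  ext x
  exact (mem_gaussK_iff A ι N x).symm

theorem mem_nonunits_gaussK_iff (N : ℕ) (x : ↥(FK K N)) :
    x ∈ (gaussK A ι N).nonunits ↔ embK ι N x ∈ (helper882.gpRing A N).nonunits := by
  rw [← comap_gpRing A ι N]
  exact mem_nonunits_comap_iff' _ _ x

/-- Membership in the Gauss ring over `ℚ̄` depends only on the `q`-expansion (not on the
level). -/
theorem mem_gpRing_iff_of_coe_eq {N N' : ℕ} (x : ↥(modularFunctionFieldBar N))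
    (y : ↥(modularFunctionFieldBar N'))
    (h : (y : LaurentSeries Qb) = (x : LaurentSeries Qb)) :
    y ∈ helper882.gpRing A N' ↔ x ∈ helper882.gpRing A N := by
  show (∃ X Y : LaurentSeries ↥A, helper8991.red A (IsLocalRing.residue ↥A) Y ≠ 0 ∧
      (y : LaurentSeries Qb) * helper8991.inc A Y = helper8991.inc A X) ↔
    (∃ X Y : LaurentSeries ↥A, helper8991.red A (IsLocalRing.residue ↥A) Y ≠ 0 ∧
      (x : LaurentSeries Qb) * helper8991.inc A Y = helper8991.inc A X)
  rw [h]

/-- Membership in the Gauss ring over `K` depends only on the `q`-expansion (not on the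
level). -/
theorem mem_gaussK_iff_of_coe_eq {N N' : ℕ} (x : ↥(FK K N)) (y : ↥(FK K N'))
    (h : (y : LaurentSeries K) = (x : LaurentSeries K)) :
    y ∈ gaussK A ι N' ↔ x ∈ gaussK A ι N := by
  show (∃ X Y : LaurentSeries ↥(OK A ι),
      helper8991.red (OK A ι) (IsLocalRing.residue ↥(OK A ι)) Y ≠ 0 ∧
      (y : LaurentSeries K) * helper8991.inc (OK A ι) Y = helper8991.inc (OK A ι) X) ↔
    (∃ X Y : LaurentSeries ↥(OK A ι),
      helper8991.red (OK A ι) (IsLocalRing.residue ↥(OK A ι)) Y ≠ 0 ∧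
      (x : LaurentSeries K) * helper8991.inc (OK A ι) Y = helper8991.inc (OK A ι) X)
  rw [h]

/-! ## The residue field of `O_K` is the residue field of `A` -/

/-- The reduction `O_K → k_A` (residue field of `A`). -/
def redOA : ↥(OK A ι) →+* IsLocalRing.ResidueField ↥A :=
  (IsLocalRing.residue ↥A).comp (incOA A ι)

theorem redOA_apply (c : ↥(OK A ι)) :
    redOA A ι c = IsLocalRing.residue ↥A (incOA A ι c) := rfl

/-- `redOA` kills the maximal ideal of `O_K`. -/
theorem redOA_eq_zero_of_mem {c : ↥(OK A ι)} (hc : c ∈ IsLocalRing.maximalIdeal ↥(OK A ι)) :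
    redOA A ι c = 0 := by
  rw [redOA_apply, IsLocalRing.residue_eq_zero_iff]
  apply (ValuationSubring.coe_mem_nonunits_iff (A := A)).mp
  have h1 : (c : K) ∈ (OK A ι).nonunits :=
    (ValuationSubring.coe_mem_nonunits_iff (A := OK A ι)).mpr hc
  exact (mem_nonunits_comap_iff' A ι (c : K)).mp h1

variable {A ι}

/-- **The residue field of `O_K = A ∩ K` is the residue field of `A`** (Teichmüller
representatives are inertia-fixed). -/
theorem redOA_surjective (hι : IsInertiaField A ι) {q : ℕ} (hq : q.Prime)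
    (hA : A.LiesOverPrime q) : Function.Surjective (redOA A ι) := by
  intro y
  obtain ⟨a, rfl⟩ := IsLocalRing.residue_surjective y
  obtain ⟨r, hr, hra⟩ := Fermat.Agent.S19.helper1821.exists_sub_mem_nonunits hq hA a.2
  have hr' := Fermat.Agent.S19.helper1821.mem_R0.mp hr
  obtain ⟨c, hc⟩ := (hι r).mpr hr'.2
  have hcA : ι c ∈ A := hc ▸ hr'.1
  have hcO : c ∈ OK A ι := ValuationSubring.mem_comap.mpr hcA
  refine ⟨⟨c, hcO⟩, ?_⟩
  rw [redOA_apply, ← sub_eq_zero, ← map_sub, IsLocalRing.residue_eq_zero_iff]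
  have h1 : a - incOA A ι ⟨c, hcO⟩ ∈ IsLocalRing.maximalIdeal ↥A := by
    apply (ValuationSubring.coe_mem_nonunits_iff (A := A)).mp
    show (a : Qb) - ι c ∈ A.nonunits
    rw [hc]
    exact hra
  have h2 : incOA A ι ⟨c, hcO⟩ - a = -(a - incOA A ι ⟨c, hcO⟩) := by ring
  rw [h2]
  exact neg_mem h1

/-! ## The core: residue degree one of level `q M` over level `M` -/

/-- **Core.**  Every element `g` of the Gauss ring of `F̄_{q M}` over `(ℚ̄, A)` is congruent,
modulo the maximal ideal, to (any element with the `q`-expansion of) an element `a` of the Gauss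
ring of `F_K(M)` over `(K, O_K)`. -/
theorem exists_gaussK_congr (hι : IsInertiaField A ι) {q : ℕ} (hq : q.Prime)
    (hA : A.LiesOverPrime q) (M : ℕ) [NeZero M] (hqM : ¬ q ∣ M)
    (g : ↥(modularFunctionFieldBar (q * M))) (hg : g ∈ helper882.gpRing A (q * M)) :
    ∃ a : ↥(FK K M), a ∈ gaussK A ι M ∧
      ∀ g' : ↥(modularFunctionFieldBar (q * M)),
        (g' : LaurentSeries Qb) = coeffMap ι (a : LaurentSeries K) →
          g' - g ∈ (helper882.gpRing A (q * M)).nonunits := by
  have : Fact q.Prime := ⟨hq⟩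
  have hx := helper1928.gaussFRed_mem_fullC_level q M hqM A hA ⟨g, hg⟩
  obtain ⟨f, hf⟩ := helper8991.exists_gaussFRed_eq (OK A ι) (redOA A ι) M
    (redOA_surjective hι hq hA) hx
  obtain ⟨X, Y, hY, hXY⟩ := (helper8991.mem_gaussF_iff (OK A ι) (redOA A ι) M
    (f : ↥(FK K M))).mp f.2
  -- `f` lies in the Gauss ring for the residue map of `O_K`
  have hYres : helper8991.red (OK A ι) (IsLocalRing.residue ↥(OK A ι)) Y ≠ 0 := by
    intro h0
    apply hY
    ext n
    have hn : IsLocalRing.residue ↥(OK A ι) (Y.coeff n) = 0 := by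
      have h1 := congrArg (fun z : LaurentSeries (IsLocalRing.ResidueField ↥(OK A ι)) =>
        z.coeff n) h0
      simpa using h1
    show redOA A ι (Y.coeff n) = 0
    exact redOA_eq_zero_of_mem A ι ((IsLocalRing.residue_eq_zero_iff _).mp hn)
  refine ⟨(f : ↥(FK K M)), ⟨X, Y, hYres, hXY⟩, fun g' hg' => ?_⟩
  -- the same relation over `A`
  have hrel : (g' : LaurentSeries Qb) * helper8991.inc A (coeffMap (incOA A ι) Y)
      = helper8991.inc A (coeffMap (incOA A ι) X) := by
    rw [hg', inc_coeffMap_incOA, inc_coeffMap_incOA, ← map_mul]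
    exact congrArg (coeffMap ι) hXY
  have hredX : helper8991.red A (IsLocalRing.residue ↥A) (coeffMap (incOA A ι) X)
      = helper8991.red (OK A ι) (redOA A ι) X := coeffMap_coeffMap _ _ _
  have hredY : helper8991.red A (IsLocalRing.residue ↥A) (coeffMap (incOA A ι) Y)
      = helper8991.red (OK A ι) (redOA A ι) Y := coeffMap_coeffMap _ _ _
  have hY' : helper8991.red A (IsLocalRing.residue ↥A) (coeffMap (incOA A ι) Y) ≠ 0 := by
    rw [hredY]
    exact hY
  have hg'mem : g' ∈ helper882.gpRing A (q * M) := ⟨_, _, hY', hrel⟩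
  have hred' : helper8991.gaussFRed A (IsLocalRing.residue ↥A) (q * M) ⟨g', hg'mem⟩
      = helper8991.gaussFRed A (IsLocalRing.residue ↥A) (q * M) ⟨g, hg⟩ := by
    rw [helper8991.gaussFRed_eq A _ (q * M) ⟨g', hg'mem⟩ hY' hrel, ← hf,
      helper8991.gaussFRed_eq (OK A ι) (redOA A ι) M f hY hXY, hredX, hredY]
  have hd : (⟨g', hg'mem⟩ - ⟨g, hg⟩ : ↥(helper882.gpRing A (q * M)))
      ∈ IsLocalRing.maximalIdeal ↥(helper882.gpRing A (q * M)) := by
    rw [← helper8991.gaussFRed_eq_zero_iff, map_sub, hred', sub_self]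
  exact (ValuationSubring.coe_mem_nonunits_iff (A := helper882.gpRing A (q * M))).mpr hd

/-! ## The `∞`-side: `v'_∞` over `v''` along `α'` -/

/-- **(P2), series form.**  Residue degree one of the Gauss valuation of level `N' = q M` over
the Gauss valuation of level `M`, over `(K, O_K)`. -/
theorem exists_lift_gaussK (hι : IsInertiaField A ι) {q : ℕ} (hq : q.Prime)
    (hA : A.LiesOverPrime q) (M : ℕ) [NeZero M] (hqM : ¬ q ∣ M) {N' : ℕ} (hN : N' = q * M)
    (h : ↥(FK K N')) (hh : h ∈ gaussK A ι N') :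
    ∃ a : ↥(FK K M), a ∈ gaussK A ι M ∧ ∀ a' : ↥(FK K N'),
      (a' : LaurentSeries K) = (a : LaurentSeries K) → a' - h ∈ (gaussK A ι N').nonunits := by
  subst hN
  obtain ⟨a, ha, hcore⟩ := exists_gaussK_congr hι hq hA M hqM (embK ι (q * M) h)
    ((mem_gaussK_iff A ι _ h).mp hh)
  refine ⟨a, ha, fun a' ha' => ?_⟩
  have h1 := hcore (embK ι (q * M) a') (by rw [coe_embK, ha'])
  rw [← map_sub] at h1
  exact (mem_nonunits_gaussK_iff A ι (q * M) _).mpr h1

variable (A ι)

/-- **(P1), map form.**  A ring homomorphism `ψ : F_K(M) → F_K(N')` which is the identity on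
`q`-expansions (the degeneracy map `α'`) pulls the Gauss ring back to the Gauss ring. -/
theorem mem_gaussK_map_iff {M N' : ℕ} (ψ : ↥(FK K M) →+* ↥(FK K N'))
    (hψ : ∀ a, (ψ a : LaurentSeries K) = (a : LaurentSeries K)) (a : ↥(FK K M)) :
    ψ a ∈ gaussK A ι N' ↔ a ∈ gaussK A ι M :=
  mem_gaussK_iff_of_coe_eq A ι a (ψ a) (hψ a)

variable {A ι}

/-- **(P2), map form**: `∀ h ∈ V'_∞, ∃ a ∈ V'', α' a - h ∈ 𝔪(V'_∞)`. -/
theorem lift_gaussK_map (hι : IsInertiaField A ι) {q : ℕ} (hq : q.Prime)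
    (hA : A.LiesOverPrime q) (M : ℕ) [NeZero M] (hqM : ¬ q ∣ M) {N' : ℕ} (hN : N' = q * M)
    (ψ : ↥(FK K M) →+* ↥(FK K N'))
    (hψ : ∀ a, (ψ a : LaurentSeries K) = (a : LaurentSeries K)) :
    ∀ h ∈ gaussK A ι N', ∃ a ∈ gaussK A ι M, ψ a - h ∈ (gaussK A ι N').nonunits := by
  intro h hh
  obtain ⟨a, ha, hlift⟩ := exists_lift_gaussK hι hq hA M hqM hN h hh
  exact ⟨a, ha, hlift (ψ a) (hψ a)⟩

/-! ## The `0`-side: `v'_0 = v'_∞ ∘ W` over `v''` along `β'` -/

variable (A ι)

/-- The valuation subring of `F_K(N)` obtained from the Gauss ring over `(ℚ̄, A)` by twisting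
with a ring endomorphism `W` of `F̄_N` and restricting to `F_K(N)`:
`{x | W (embK x) ∈ gpRing A N}`.  For `W` (the coercion of) an algebra automorphism this is
`(helper882.gpRingW A N W).comap (embK ι N)`. -/
abbrev resW (N : ℕ) (W : ↥(modularFunctionFieldBar N) →+* ↥(modularFunctionFieldBar N)) :
    ValuationSubring ↥(FK K N) :=
  ((helper882.gpRing A N).comap W).comap (embK ι N)

theorem mem_resW_iff (N : ℕ) (W : ↥(modularFunctionFieldBar N) →+* ↥(modularFunctionFieldBar N))
    (x : ↥(FK K N)) : x ∈ resW A ι N W ↔ W (embK ι N x) ∈ helper882.gpRing A N := Iff.rfl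

theorem mem_nonunits_resW_iff (N : ℕ)
    (W : ↥(modularFunctionFieldBar N) →+* ↥(modularFunctionFieldBar N)) (x : ↥(FK K N)) :
    x ∈ (resW A ι N W).nonunits ↔ W (embK ι N x) ∈ (helper882.gpRing A N).nonunits := by
  rw [mem_nonunits_comap_iff', mem_nonunits_comap_iff']

/-- `resW` for an algebra automorphism is the restriction of the landed second Gauss ring. -/
theorem resW_eq_comap_gpRingW (N : ℕ)
    (W : ↥(modularFunctionFieldBar N) ≃ₐ[Qb] ↥(modularFunctionFieldBar N)) :
    resW A ι N ((W : ↥(modularFunctionFieldBar N) ≃+* ↥(modularFunctionFieldBar N)) :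
        ↥(modularFunctionFieldBar N) →+* ↥(modularFunctionFieldBar N))
      = (helper882.gpRingW A N W).comap (embK ι N) := rfl

variable {A ι}

/-- `resW` for an `I`-equivariant algebra automorphism is the twisted Gauss ring over `K` of
`helper6594` (twist by the descent of `W`). -/
theorem resW_eq_gaussKW (hι : IsInertiaField A ι) (N : ℕ)
    (W : ↥(modularFunctionFieldBar N) ≃ₐ[Qb] ↥(modularFunctionFieldBar N))
    (hW : IEquivariantAlg A W) :
    resW A ι N ((W : ↥(modularFunctionFieldBar N) ≃+* ↥(modularFunctionFieldBar N)) :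
        ↥(modularFunctionFieldBar N) →+* ↥(modularFunctionFieldBar N))
      = gaussKW A ι N (descKAlgEquiv hι W hW : ↥(FK K N) ≃+* ↥(FK K N)) := by
  ext x
  exact (mem_gaussKW_iff hι N W hW x).symm

/-- The hypothesis on `W`: it sends (any element with the `q`-expansion) `f(q z)` to (the
element with the `q`-expansion) `f(z)`, for `f` of level `M`:  `W ∘ β' = α'`. -/
def SwapsBeta (q M N' : ℕ) [NeZero q]
    (W : ↥(modularFunctionFieldBar N') →+* ↥(modularFunctionFieldBar N')) : Prop :=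
  ∀ (z : ↥(modularFunctionFieldBar M)) (y : ↥(modularFunctionFieldBar N')),
    (y : LaurentSeries Qb) = qExpand Qb q (z : LaurentSeries Qb) →
      ((W y : ↥(modularFunctionFieldBar N')) : LaurentSeries Qb) = (z : LaurentSeries Qb)

variable (A ι)

/-- **(P3), series form.** -/
theorem mem_resW_iff_of_coe_eq {q M N' : ℕ} [NeZero q]
    (W : ↥(modularFunctionFieldBar N') →+* ↥(modularFunctionFieldBar N'))
    (hW : SwapsBeta q M N' W) (a : ↥(FK K M)) (b : ↥(FK K N'))
    (hb : (b : LaurentSeries K) = qExpand K q (a : LaurentSeries K)) :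
    b ∈ resW A ι N' W ↔ a ∈ gaussK A ι M := by
  rw [mem_resW_iff, mem_gaussK_iff]
  refine mem_gpRing_iff_of_coe_eq A (embK ι M a) (W (embK ι N' b)) (hW (embK ι M a) _ ?_)
  rw [coe_embK, coe_embK, hb, coeffMap_qExpand_comm]

variable {A ι}

/-- **(P4), series form.**  Residue degree one of the second Gauss valuation of level
`N' = q M` over the Gauss valuation of level `M`, along `f(z) ↦ f(q z)`. -/
theorem exists_lift_resW (hι : IsInertiaField A ι) {q : ℕ} [NeZero q] (hq : q.Prime)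
    (hA : A.LiesOverPrime q) (M : ℕ) [NeZero M] (hqM : ¬ q ∣ M) {N' : ℕ} (hN : N' = q * M)
    (W : ↥(modularFunctionFieldBar N') →+* ↥(modularFunctionFieldBar N'))
    (hW : SwapsBeta q M N' W) (h : ↥(FK K N')) (hh : h ∈ resW A ι N' W) :
    ∃ a : ↥(FK K M), a ∈ gaussK A ι M ∧ ∀ b : ↥(FK K N'),
      (b : LaurentSeries K) = qExpand K q (a : LaurentSeries K) →
        b - h ∈ (resW A ι N' W).nonunits := by
  subst hN
  obtain ⟨a, ha, hcore⟩ := exists_gaussK_congr hι hq hA M hqM (W (embK ι (q * M) h))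
    ((mem_resW_iff A ι _ W h).mp hh)
  refine ⟨a, ha, fun b hb => ?_⟩
  have h1 := hcore (W (embK ι (q * M) b)) (by
    rw [hW (embK ι M a) (embK ι (q * M) b) (by
      rw [coe_embK, coe_embK, hb, coeffMap_qExpand_comm]), coe_embK])
  rw [← map_sub, ← map_sub] at h1
  exact (mem_nonunits_resW_iff A ι (q * M) W _).mpr h1

variable (A ι)

/-- **(P3), map form.**  A ring homomorphism `ψ : F_K(M) → F_K(N')` which is `qExpand q` on
`q`-expansions (the degeneracy map `β'`) pulls the second Gauss ring back to the Gauss ring of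
level `M`. -/
theorem mem_resW_map_iff {q M N' : ℕ} [NeZero q]
    (W : ↥(modularFunctionFieldBar N') →+* ↥(modularFunctionFieldBar N'))
    (hW : SwapsBeta q M N' W) (ψ : ↥(FK K M) →+* ↥(FK K N'))
    (hψ : ∀ a, (ψ a : LaurentSeries K) = qExpand K q (a : LaurentSeries K)) (a : ↥(FK K M)) :
    ψ a ∈ resW A ι N' W ↔ a ∈ gaussK A ι M :=
  mem_resW_iff_of_coe_eq A ι W hW a (ψ a) (hψ a)

variable {A ι}

/-- **(P4), map form**: `∀ h ∈ V'_0, ∃ a ∈ V'', β' a - h ∈ 𝔪(V'_0)`. -/
theorem lift_resW_map (hι : IsInertiaField A ι) {q : ℕ} [NeZero q] (hq : q.Prime)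
    (hA : A.LiesOverPrime q) (M : ℕ) [NeZero M] (hqM : ¬ q ∣ M) {N' : ℕ} (hN : N' = q * M)
    (W : ↥(modularFunctionFieldBar N') →+* ↥(modularFunctionFieldBar N'))
    (hW : SwapsBeta q M N' W) (ψ : ↥(FK K M) →+* ↥(FK K N'))
    (hψ : ∀ a, (ψ a : LaurentSeries K) = qExpand K q (a : LaurentSeries K)) :
    ∀ h ∈ resW A ι N' W, ∃ a ∈ gaussK A ι M, ψ a - h ∈ (resW A ι N' W).nonunits := by
  intro h hh
  obtain ⟨a, ha, hlift⟩ := exists_lift_resW hι hq hA M hqM hN W hW h hh
  exact ⟨a, ha, hlift (ψ a) (hψ a)⟩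

/-! ## The three landed Atkin–Lehner involutions swap `β'` and `α'` -/

section Swaps

variable (q M : ℕ) [NeZero q] [NeZero M] (hcop : Nat.Coprime q M)

/-- `W_q` at the Prelude level `M * q`. -/
theorem swapsBeta_atkinLehnerBarR :
    SwapsBeta q M (M * q)
      ((helper1219.atkinLehnerBarR M q hcop :
          ↥(modularFunctionFieldBar (M * q)) ≃+* ↥(modularFunctionFieldBar (M * q))) :
        ↥(modularFunctionFieldBar (M * q)) →+* ↥(modularFunctionFieldBar (M * q))) := by
  intro z y hy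
  have hyz : y = heckeBetaBar Qb M q z := Subtype.ext (by rw [hy, coe_heckeBetaBar])
  show ((helper1219.atkinLehnerBarR M q hcop y : ↥(modularFunctionFieldBar (M * q))) :
    LaurentSeries Qb) = _
  rw [hyz, helper1219.atkinLehnerBarR_heckeBetaBar, coe_heckeAlphaBar]

/-- `W_q` at the level `q * M`. -/
theorem swapsBeta_atkinLehnerBar :
    SwapsBeta q M (q * M)
      ((helper1219.atkinLehnerBar q M hcop :
          ↥(modularFunctionFieldBar (q * M)) ≃+* ↥(modularFunctionFieldBar (q * M))) :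
        ↥(modularFunctionFieldBar (q * M)) →+* ↥(modularFunctionFieldBar (q * M))) := by
  intro z y hy
  have hyz : helper1219.castFN (mul_comm M q) (heckeBetaBar Qb M q z) = y :=
    Subtype.ext (by rw [helper1219.coe_castFN, coe_heckeBetaBar, hy])
  have h1 := helper1219.atkinLehnerBarR_heckeBetaBar M q hcop z
  rw [helper1219.atkinLehnerBarR_apply, hyz] at h1
  have h2 := congrArg (fun w : ↥(modularFunctionFieldBar (M * q)) => (w : LaurentSeries Qb)) h1
  simp only [helper1219.coe_castFN, coe_heckeAlphaBar] at h2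
  exact h2

/-- `W_q` in the level-general form, at a level `M₁` with `q ∥ M₁` (`M = M₁ / q`). -/
theorem swapsBeta_atkinLehnerAt (M₁ q : ℕ) [NeZero M₁] [NeZero q] (hq : q.Prime) (hqM : q ∣ M₁)
    (hq2 : ¬ q ^ 2 ∣ M₁) :
    SwapsBeta q (M₁ / q) M₁
      ((helper1219.atkinLehnerAt M₁ q hq hqM hq2 :
          ↥(modularFunctionFieldBar M₁) ≃+* ↥(modularFunctionFieldBar M₁)) :
        ↥(modularFunctionFieldBar M₁) →+* ↥(modularFunctionFieldBar M₁)) := by
  intro z y hy
  show ((helper1219.atkinLehnerAt M₁ q hq hqM hq2 y : ↥(modularFunctionFieldBar M₁)) :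
    LaurentSeries Qb) = _
  rw [helper1219.atkinLehnerAt_apply, helper1219.coe_castFN]
  exact @swapsBeta_atkinLehnerBar q (M₁ / q) _ (helper1219.neZero_div_of_dvd hqM)
    (helper1219.coprime_div_of_not_sq_dvd hq hqM hq2) z _
    (by rw [helper1219.coe_castFN, hy])

end Swaps

/-! ## The degeneracy maps at an arbitrary literal level -/

section Maps

variable (K)

/-- Transport of `F_K(N)` along an equality of levels. -/
def castFK {N N' : ℕ} (hN : N = N') : ↥(FK K N) ≃ₐ[K] ↥(FK K N') := by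
  subst hN
  exact AlgEquiv.refl

theorem coe_castFK {N N' : ℕ} (hN : N = N') (z : ↥(FK K N)) :
    ((castFK K hN z : ↥(FK K N')) : LaurentSeries K) = (z : LaurentSeries K) := by
  subst hN
  rfl

variable (M q : ℕ) [NeZero M] [NeZero q] {N' : ℕ}

/-- The degeneracy map `α' : f(z) ↦ f(z)` from level `M` to a level `N' = M * q` (any literal
form of the level). -/
def alphaAt (hN : M * q = N') : ↥(FK K M) →ₐ[K] ↥(FK K N') :=
  ((castFK K hN : ↥(FK K (M * q)) ≃ₐ[K] ↥(FK K N')) :
    ↥(FK K (M * q)) →ₐ[K] ↥(FK K N')).comp (heckeAlphaBar K M q)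

/-- The degeneracy map `β' : f(z) ↦ f(q z)` from level `M` to a level `N' = M * q`. -/
def betaAt (hN : M * q = N') : ↥(FK K M) →ₐ[K] ↥(FK K N') :=
  ((castFK K hN : ↥(FK K (M * q)) ≃ₐ[K] ↥(FK K N')) :
    ↥(FK K (M * q)) →ₐ[K] ↥(FK K N')).comp (heckeBetaBar K M q)

theorem coe_alphaAt (hN : M * q = N') (a : ↥(FK K M)) :
    ((alphaAt K M q hN a : ↥(FK K N')) : LaurentSeries K) = (a : LaurentSeries K) := by
  show ((castFK K hN (heckeAlphaBar K M q a) : ↥(FK K N')) : LaurentSeries K) = _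
  rw [coe_castFK, coe_heckeAlphaBar]

theorem coe_betaAt (hN : M * q = N') (a : ↥(FK K M)) :
    ((betaAt K M q hN a : ↥(FK K N')) : LaurentSeries K)
      = qExpand K q (a : LaurentSeries K) := by
  show ((castFK K hN (heckeBetaBar K M q a) : ↥(FK K N')) : LaurentSeries K) = _
  rw [coe_castFK, coe_heckeBetaBar]

theorem alphaAt_rfl (a : ↥(FK K M)) : alphaAt K M q rfl a = heckeAlphaBar K M q a := rfl

theorem betaAt_rfl (a : ↥(FK K M)) : betaAt K M q rfl a = heckeBetaBar K M q a := rfl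

end Maps

/-! ## One-call forms -/

/-- **The level-`q` pair over `K`, general form.**  `q ∤ M`, `N' = q * M` (any literal level),
`W` any ring endomorphism of `F̄_{N'}` with `W ∘ β' = α'`, `ψα`, `ψβ` any ring homomorphisms
`F_K(M) → F_K(N')` acting on `q`-expansions as the identity resp. `qExpand q`.  Then, with
`V'' = gaussK A ι M`, `V'_∞ = gaussK A ι N'`, `V'_0 = resW A ι N' W`:
`mem` and `lift` (residue degree one) for `V'_∞ | V''` along `ψα` and for `V'_0 | V''` along
`ψβ`. -/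
theorem levelq_pair (hι : IsInertiaField A ι) {q : ℕ} [NeZero q] (hq : q.Prime)
    (hA : A.LiesOverPrime q) (M : ℕ) [NeZero M] (hqM : ¬ q ∣ M) {N' : ℕ} (hN : N' = q * M)
    (W : ↥(modularFunctionFieldBar N') →+* ↥(modularFunctionFieldBar N'))
    (hW : SwapsBeta q M N' W) (ψα ψβ : ↥(FK K M) →+* ↥(FK K N'))
    (hα : ∀ a, (ψα a : LaurentSeries K) = (a : LaurentSeries K))
    (hβ : ∀ a, (ψβ a : LaurentSeries K) = qExpand K q (a : LaurentSeries K)) :
    (∀ a, ψα a ∈ gaussK A ι N' ↔ a ∈ gaussK A ι M) ∧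
    (∀ h ∈ gaussK A ι N', ∃ a ∈ gaussK A ι M, ψα a - h ∈ (gaussK A ι N').nonunits) ∧
    (∀ a, ψβ a ∈ resW A ι N' W ↔ a ∈ gaussK A ι M) ∧
    (∀ h ∈ resW A ι N' W, ∃ a ∈ gaussK A ι M, ψβ a - h ∈ (resW A ι N' W).nonunits) :=
  ⟨mem_gaussK_map_iff A ι ψα hα, lift_gaussK_map hι hq hA M hqM hN ψα hα,
    mem_resW_map_iff A ι W hW ψβ hβ, lift_resW_map hι hq hA M hqM hN W hW ψβ hβ⟩

/-- **The level-`q` pair over `K` at the Prelude level `M * q`**: `α' = heckeAlphaBar K M q`,
`β' = heckeBetaBar K M q`, `V'_0` = the restriction to `F_K(M q)` of the second Gauss ring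
`gpRingW A (M * q) (atkinLehnerBarR M q _)`. -/
theorem levelq_pair_prelude (hι : IsInertiaField A ι) {q : ℕ} [NeZero q] (hq : q.Prime)
    (hA : A.LiesOverPrime q) (M : ℕ) [NeZero M] (hqM : ¬ q ∣ M) (hcop : Nat.Coprime q M) :
    (∀ a, heckeAlphaBar K M q a ∈ gaussK A ι (M * q) ↔ a ∈ gaussK A ι M) ∧
    (∀ h ∈ gaussK A ι (M * q), ∃ a ∈ gaussK A ι M,
      heckeAlphaBar K M q a - h ∈ (gaussK A ι (M * q)).nonunits) ∧
    (∀ a, heckeBetaBar K M q a
        ∈ (helper882.gpRingW A (M * q) (helper1219.atkinLehnerBarR M q hcop)).comap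
          (embK ι (M * q)) ↔ a ∈ gaussK A ι M) ∧
    (∀ h ∈ (helper882.gpRingW A (M * q) (helper1219.atkinLehnerBarR M q hcop)).comap
          (embK ι (M * q)), ∃ a ∈ gaussK A ι M,
      heckeBetaBar K M q a - h
        ∈ ((helper882.gpRingW A (M * q) (helper1219.atkinLehnerBarR M q hcop)).comap
          (embK ι (M * q))).nonunits) :=
  levelq_pair hι hq hA M hqM (mul_comm M q) _ (swapsBeta_atkinLehnerBarR q M hcop)
    (heckeAlphaBar K M q : ↥(FK K M) →+* ↥(FK K (M * q)))
    (heckeBetaBar K M q : ↥(FK K M) →+* ↥(FK K (M * q)))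
    (fun a => coe_heckeAlphaBar M q a) (fun a => coe_heckeBetaBar M q a)

/-- **The level-`q` pair over `K` at a level `M₁` with `q ∥ M₁`** (level-general form, the
literal level of the (KILL) instance): `M'' = M₁ / q`, `α' = alphaAt`, `β' = betaAt`,
`V'_0` = the restriction to `F_K(M₁)` of `gpRingW A M₁ (atkinLehnerAt M₁ q _ _ _)`. -/
theorem levelq_pair_at (hι : IsInertiaField A ι) {q : ℕ} [NeZero q] (hq : q.Prime)
    (hA : A.LiesOverPrime q) (M₁ : ℕ) [NeZero M₁] (hqM : q ∣ M₁) (hq2 : ¬ q ^ 2 ∣ M₁)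
    [NeZero (M₁ / q)] :
    (∀ a, alphaAt K (M₁ / q) q (Nat.div_mul_cancel hqM) a ∈ gaussK A ι M₁
        ↔ a ∈ gaussK A ι (M₁ / q)) ∧
    (∀ h ∈ gaussK A ι M₁, ∃ a ∈ gaussK A ι (M₁ / q),
      alphaAt K (M₁ / q) q (Nat.div_mul_cancel hqM) a - h ∈ (gaussK A ι M₁).nonunits) ∧
    (∀ a, betaAt K (M₁ / q) q (Nat.div_mul_cancel hqM) a
        ∈ (helper882.gpRingW A M₁ (helper1219.atkinLehnerAt M₁ q hq hqM hq2)).comap
          (embK ι M₁) ↔ a ∈ gaussK A ι (M₁ / q)) ∧
    (∀ h ∈ (helper882.gpRingW A M₁ (helper1219.atkinLehnerAt M₁ q hq hqM hq2)).comap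
          (embK ι M₁), ∃ a ∈ gaussK A ι (M₁ / q),
      betaAt K (M₁ / q) q (Nat.div_mul_cancel hqM) a - h
        ∈ ((helper882.gpRingW A M₁ (helper1219.atkinLehnerAt M₁ q hq hqM hq2)).comap
          (embK ι M₁)).nonunits) := by
  have hqM' : ¬ q ∣ M₁ / q := fun h =>
    hq2 (by rw [pow_two]; exact Nat.mul_dvd_of_dvd_div hqM h)
  exact levelq_pair hι hq hA (M₁ / q) hqM' (Nat.mul_div_cancel' hqM).symm _
    (swapsBeta_atkinLehnerAt M₁ q hq hqM hq2)
    (alphaAt K (M₁ / q) q (Nat.div_mul_cancel hqM) : ↥(FK K (M₁ / q)) →+* ↥(FK K M₁))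
    (betaAt K (M₁ / q) q (Nat.div_mul_cancel hqM) : ↥(FK K (M₁ / q)) →+* ↥(FK K M₁))
    (fun a => coe_alphaAt K (M₁ / q) q _ a) (fun a => coe_betaAt K (M₁ / q) q _ a)

end Fermat.Agent.S36.helper98
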