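import Mathlib
import Fermat.Agent.S36.helper1413_RedBase
import Fermat.Agent.S36.helper98_LevelQPair
import Fermat.Agent.S36.helper6594_LevelQKInst

/-!
# S36 — the reductions of the `t₄` / `t₉` charts of level `M₁` (`q ∥ M₁`) along `v'_∞`, `v'_0`
are integrally closed  (helper1413)

Concrete instance of `helper1413.redIC_level_q_of_base` on the carriers of `helper6594`
(`K` with `ι : K →+* ℚ̄` the inertia field of `A`, `O_K = A ∩ K`, `F_K(N) = FK K N`,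
`V' = levelqV M₁ q …`) :

* base at level `M₁ / q` : `base_redIC_t4` / `base_redIC_t9` (DN instance of `helper4289` +
  `helper1162.chart_redIC`);
* the level-`q` pair : `helper98.levelq_pair_at` (`f = 1` of `v'_∞` along `α'` and of `v'_0`
  along `β'`);
* chart stability of `β'` (`t(z)` and `t(qz)` integral over each other's `O_K`-algebra, and the
  same for the inverses): four plain hypotheses.

Conclusion: `∀ i c, RedIC (chartAt O_K t i) (levelqV M₁ q … c)` = the hypothesis `hIC` of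
`helper1413.red_fields`.
-/

set_option autoImplicit false

namespace Fermat.Agent.S36.helper1413

open Fermat.Agent.S18 Fermat.Agent.S35 Fermat.Agent.S36.helper6594 Fermat.Agent.S36.helper98
open Fermat.Agent.S37.helper530 (t4F t9F)
open Fermat.Agent.S36.helper248 (chartRing)
open ModularCurve

local notation "Qb" => AlgebraicClosure ℚ

variable {A : ValuationSubring Qb} {K : Type} [Field K] [Algebra ℚ K] {ι : K →+* Qb}

omit [Algebra ℚ K] in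
/-- `q` is a non-unit of `O_K`. -/
theorem natCast_mem_nonunits_OK {q : ℕ} (hA : A.LiesOverPrime q) :
    ((q : ℕ) : K) ∈ (OK A ι).nonunits :=
  mem_nonunits_of_map (ψ := ι) (V := A) (V1 := OK A ι) (fun _ => Iff.rfl)
    (by rw [map_natCast]; exact hA)

/-- **Level `M₁` (`q ∥ M₁`), `t₄`**: the reductions of the charts `O_K[t₄]`, `O_K[t₄⁻¹]` along
`v'_∞` and `v'_0` are integrally closed. -/
theorem redIC_levelq_t4 (hι : IsInertiaField A ι) {q : ℕ} [NeZero q] (hq : q.Prime)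
    (hA : A.LiesOverPrime q) (M₁ : ℕ) [NeZero M₁] (hqM : q ∣ M₁) (hq2 : ¬ q ^ 2 ∣ M₁)
    [NeZero (M₁ / q)] [IsDiscreteValuationRing ↥(OK A ι)]
    [PerfectField (IsLocalRing.ResidueField ↥(OK A ι))] (h4 : 4 ∣ M₁ / q) (h4' : 4 ∣ M₁)
    (hβ0 : t4F K M₁ h4' ∈ chartRing (OK A ι)
      ({betaAt K (M₁ / q) q (Nat.div_mul_cancel hqM) (t4F K (M₁ / q) h4)} : Set ↥(FK K M₁)))
    (hβ1 : (t4F K M₁ h4')⁻¹ ∈ chartRing (OK A ι)
      ({(betaAt K (M₁ / q) q (Nat.div_mul_cancel hqM) (t4F K (M₁ / q) h4))⁻¹} :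
        Set ↥(FK K M₁)))
    (hβ0' : betaAt K (M₁ / q) q (Nat.div_mul_cancel hqM) (t4F K (M₁ / q) h4)
      ∈ chartRing (OK A ι) ({t4F K M₁ h4'} : Set ↥(FK K M₁)))
    (hβ1' : (betaAt K (M₁ / q) q (Nat.div_mul_cancel hqM) (t4F K (M₁ / q) h4))⁻¹
      ∈ chartRing (OK A ι) ({(t4F K M₁ h4')⁻¹} : Set ↥(FK K M₁))) :
    ∀ (i : Fin 2) (c : Fin 2),
      RedIC (chartAt (OK A ι) (t4F K M₁ h4') i) (levelqV M₁ q hq hqM hq2 hι c) := by
  have hqM' : ¬ q ∣ M₁ / q := fun h =>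
    hq2 (by rw [pow_two]; exact Nat.mul_dvd_of_dvd_div hqM h)
  have hfact : Fact q.Prime := ⟨hq⟩
  let _ : Algebra K Fermat.Agent.S24.helper24.Kbar := ι.toAlgebra
  have hA' : ((q : ℕ) : K) ∈ (OK A ι).nonunits := natCast_mem_nonunits_OK hA
  have hbase := base_redIC_t4 (M₁ / q) q hqM' (OK A ι) hA' h4
  have hmemb := base_mem_gaussF_t4 (M₁ / q) q hqM' (OK A ι) hA' h4
  obtain ⟨h1, h2, h3, h4c⟩ := levelq_pair_at hι hq hA M₁ hqM hq2
  have hαx : alphaAt K (M₁ / q) q (Nat.div_mul_cancel hqM) (t4F K (M₁ / q) h4)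
      = t4F K M₁ h4' :=
    Subtype.ext (coe_alphaAt K (M₁ / q) q _ _)
  have hV1 : levelqV M₁ q hq hqM hq2 hι 1
      = (helper882.gpRingW A M₁ (helper1219.atkinLehnerAt M₁ q hq hqM hq2)).comap
          (embK ι M₁) := by
    have h := congrFun (levelqV_eq_restrict M₁ q hq hqM hq2 hι) 1
    exact h
  refine redIC_level_q_of_base (OK A ι) (alphaAt K (M₁ / q) q (Nat.div_mul_cancel hqM))
    (betaAt K (M₁ / q) q (Nat.div_mul_cancel hqM)) (t4F K M₁ h4') (t4F K (M₁ / q) h4) hαx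
    hβ0 hβ1 hβ0' hβ1' (levelqV M₁ q hq hqM hq2 hι) (gaussK A ι (M₁ / q)) hmemb.1 hmemb.2
    h1 h2 ?_ ?_ hbase
  · rw [hV1]
    exact h3
  · rw [hV1]
    exact h4c

/-- **Level `M₁` (`q ∥ M₁`), `t₉`**. -/
theorem redIC_levelq_t9 (hι : IsInertiaField A ι) {q : ℕ} [NeZero q] (hq : q.Prime)
    (hA : A.LiesOverPrime q) (M₁ : ℕ) [NeZero M₁] (hqM : q ∣ M₁) (hq2 : ¬ q ^ 2 ∣ M₁)
    [NeZero (M₁ / q)] [IsDiscreteValuationRing ↥(OK A ι)]
    [PerfectField (IsLocalRing.ResidueField ↥(OK A ι))] (h9 : 9 ∣ M₁ / q) (h9' : 9 ∣ M₁)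
    (hβ0 : t9F K M₁ h9' ∈ chartRing (OK A ι)
      ({betaAt K (M₁ / q) q (Nat.div_mul_cancel hqM) (t9F K (M₁ / q) h9)} : Set ↥(FK K M₁)))
    (hβ1 : (t9F K M₁ h9')⁻¹ ∈ chartRing (OK A ι)
      ({(betaAt K (M₁ / q) q (Nat.div_mul_cancel hqM) (t9F K (M₁ / q) h9))⁻¹} :
        Set ↥(FK K M₁)))
    (hβ0' : betaAt K (M₁ / q) q (Nat.div_mul_cancel hqM) (t9F K (M₁ / q) h9)
      ∈ chartRing (OK A ι) ({t9F K M₁ h9'} : Set ↥(FK K M₁)))
    (hβ1' : (betaAt K (M₁ / q) q (Nat.div_mul_cancel hqM) (t9F K (M₁ / q) h9))⁻¹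
      ∈ chartRing (OK A ι) ({(t9F K M₁ h9')⁻¹} : Set ↥(FK K M₁))) :
    ∀ (i : Fin 2) (c : Fin 2),
      RedIC (chartAt (OK A ι) (t9F K M₁ h9') i) (levelqV M₁ q hq hqM hq2 hι c) := by
  have hqM' : ¬ q ∣ M₁ / q := fun h =>
    hq2 (by rw [pow_two]; exact Nat.mul_dvd_of_dvd_div hqM h)
  have hfact : Fact q.Prime := ⟨hq⟩
  let _ : Algebra K Fermat.Agent.S24.helper24.Kbar := ι.toAlgebra
  have hA' : ((q : ℕ) : K) ∈ (OK A ι).nonunits := natCast_mem_nonunits_OK hA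
  have hbase := base_redIC_t9 (M₁ / q) q hqM' (OK A ι) hA' h9
  have hmemb := base_mem_gaussF_t9 (M₁ / q) q hqM' (OK A ι) hA' h9
  obtain ⟨h1, h2, h3, h4c⟩ := levelq_pair_at hι hq hA M₁ hqM hq2
  have hαx : alphaAt K (M₁ / q) q (Nat.div_mul_cancel hqM) (t9F K (M₁ / q) h9)
      = t9F K M₁ h9' :=
    Subtype.ext (coe_alphaAt K (M₁ / q) q _ _)
  have hV1 : levelqV M₁ q hq hqM hq2 hι 1
      = (helper882.gpRingW A M₁ (helper1219.atkinLehnerAt M₁ q hq hqM hq2)).comap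
          (embK ι M₁) := by
    have h := congrFun (levelqV_eq_restrict M₁ q hq hqM hq2 hι) 1
    exact h
  refine redIC_level_q_of_base (OK A ι) (alphaAt K (M₁ / q) q (Nat.div_mul_cancel hqM))
    (betaAt K (M₁ / q) q (Nat.div_mul_cancel hqM)) (t9F K M₁ h9') (t9F K (M₁ / q) h9) hαx
    hβ0 hβ1 hβ0' hβ1' (levelqV M₁ q hq hqM hq2 hι) (gaussK A ι (M₁ / q)) hmemb.1 hmemb.2
    h1 h2 ?_ ?_ hbase
  · rw [hV1]
    exact h3
  · rw [hV1]
    exact h4c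

end Fermat.Agent.S36.helper1413
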