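import Fermat.Agent.S36.helper6136_LPLocal

/-!
# S36-LPB-VAL (helper6136): (LP)(b) in the valuation vocabulary of the geometric datum

The hypothesis (B) of the (LP) casework (`LocPIRQuot P p_c` for the three vertical primes
`p_c = B ∩ 𝔪(V_c)` of a chart ring `B ⊆ F`) is produced from the level below along one
degeneracy map, as a corollary of the domination lemma (L2) of `helper6136_LPLocal`.

`ψ : F' →+* F` a degeneracy map, `B' ⊆ F'`, `B ⊆ F` chart rings with `ψ B' ⊆ B`, `V` a valuation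
subring of `F` lying over `V'` (`ψ a ∈ V ↔ a ∈ V'`) with residue degree one
(`∀ h ∈ V, ∃ a ∈ V', ψ a - h ∈ 𝔪(V)`), and `V'` the local ring of `B'` at its centre
(`∀ a ∈ V', ∃ s ∈ B', s ∉ 𝔪(V') ∧ s * a ∈ B'`).  Then the local form of (LP)(b) at a point `P`
of `B` on the component `V` follows from the local form at the point `ψ⁻¹ P` of `B'` on the
component `V'`.

* `locDVRQuot_of_locPIRQuot`, `locDVRQuot_of_isDedekindDomain`, `locDVRQuot_of_span_pair`,
  `locDVRQuot_of_ringEquiv` : base adapters (the lowest level).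
* `mem_nonunits_iff_of_mem_iff` : `ψ a ∈ 𝔪(V) ↔ a ∈ 𝔪(V')` from `ψ a ∈ V ↔ a ∈ V'`.
* `locDVRQuot_of_lift` (V1) : one degeneracy map, conclusion `LocDVRQuot P p` (iterates).
* `locPIRQuot_of_lift` (V2) : the same with conclusion `LocPIRQuot P p`
  (= hypothesis (B) of the casework).
* `LPBAt B V` : (LP)(b) for the component `V` of the chart `B` at every point;
  `LPBAt.lift` (V3) : it goes up along a degeneracy map of residue degree one;
  `LPBAt.locPIRQuot` (V4) : it gives hypothesis (B); `lpbAt_of_isDedekindDomain`,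
  `lpbAt_of_span_pair` : the lowest level.

The ideals are passed with their membership characterisations (`hp`, `hP'`, `hp'`), so the
statements do not depend on how the centres are defined.
-/

set_option autoImplicit false

namespace Fermat.Agent.S36.helper6136

section Base

variable {B : Type*} [CommRing B]

/-- `LocDVRQuot P p` is the instance `I = P` of `LocPIRQuot P p`. -/
theorem locDVRQuot_of_locPIRQuot {P p : Ideal B} (h : LocPIRQuot P p) : LocDVRQuot P p := h P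

/-- Base adapter: a component which is a normal curve (`B ⧸ p` Dedekind). -/
theorem locDVRQuot_of_isDedekindDomain (P p : Ideal B) [P.IsPrime] [p.IsPrime] (hpP : p ≤ P)
    [IsDedekindDomain (B ⧸ p)] : LocDVRQuot P p :=
  locDVRQuot_of_locPIRQuot (locPIRQuot_of_isDedekindDomain P p hpP)

/-- Base adapter: a regular pair (`P B_P = (y, t) B_P` with `y ∈ p`). -/
theorem locDVRQuot_of_span_pair (P p : Ideal B) (y t : B) (hy : y ∈ p) (ht : t ∈ P)
    (hmax : ∀ a ∈ P, ∃ s, s ∉ P ∧ s * a ∈ Ideal.span {y, t}) : LocDVRQuot P p := by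
  refine ⟨t, ht, fun a ha => ?_⟩
  obtain ⟨s, hs, h⟩ := hmax a ha
  obtain ⟨c, d, hcd⟩ := Ideal.mem_span_pair.mp h
  refine ⟨s, hs, d, ?_⟩
  have : s * a - t * d = c * y := by rw [← hcd]; ring
  rw [this]
  exact p.mul_mem_left _ hy

/-- Transport of `LocDVRQuot` along a ring isomorphism (change of carrier of the chart ring). -/
theorem locDVRQuot_of_ringEquiv {B' : Type*} [CommRing B'] (e : B' ≃+* B) (P p : Ideal B)
    (h : LocDVRQuot (P.comap (e : B' →+* B)) (p.comap (e : B' →+* B))) : LocDVRQuot P p := by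
  obtain ⟨g, hg, hgen⟩ := h
  refine ⟨e g, hg, fun a ha => ?_⟩
  have ha' : e.symm a ∈ P.comap (e : B' →+* B) := by
    rw [Ideal.mem_comap]
    simpa using ha
  obtain ⟨s, hs, b, hb⟩ := hgen (e.symm a) ha'
  refine ⟨e s, hs, e b, ?_⟩
  have h2 := Ideal.mem_comap.mp hb
  simpa [map_sub, map_mul] using h2

end Base

section Val

variable {F F' : Type*} [Field F] [Field F']

/-- `a ∈ 𝔪(V)` iff `a = 0` or `a⁻¹ ∉ V`. -/
theorem mem_nonunits_iff_eq_zero_or (V : ValuationSubring F) (a : F) :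
    a ∈ V.nonunits ↔ a = 0 ∨ a⁻¹ ∉ V := by
  rw [ValuationSubring.mem_nonunits_iff, ← ValuationSubring.valuation_le_one_iff]
  by_cases ha : a = 0
  · simp [ha]
  · have hv : V.valuation a ≠ 0 := (Valuation.ne_zero_iff _).mpr ha
    rw [map_inv₀, inv_le_one₀ (zero_lt_iff.mpr hv), not_le]
    simp [ha]

/-- If `V` lies over `V'` along `ψ` then so do the maximal ideals. -/
theorem mem_nonunits_iff_of_mem_iff (ψ : F' →+* F) (V : ValuationSubring F)
    (V' : ValuationSubring F') (hmem : ∀ a : F', ψ a ∈ V ↔ a ∈ V') (a : F') :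
    ψ a ∈ V.nonunits ↔ a ∈ V'.nonunits := by
  rw [mem_nonunits_iff_eq_zero_or, mem_nonunits_iff_eq_zero_or, ← map_inv₀, hmem,
    map_eq_zero]

/-- **(V1) (LP)(b) along one degeneracy map, valuation vocabulary.**  See the module
doc-string.  The conclusion has the shape of the hypothesis `h1`, so the lemma iterates
(level `M''` → `q M''` → `q² M''`). -/
theorem locDVRQuot_of_lift (ψ : F' →+* F) (B : Subring F) (B' : Subring F')
    [IsNoetherianRing B'] (hmap : ∀ b ∈ B', ψ b ∈ B)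
    (V : ValuationSubring F) (V' : ValuationSubring F') (hBV : ∀ b ∈ B, b ∈ V)
    (hmem : ∀ a : F', ψ a ∈ V ↔ a ∈ V')
    (hlift : ∀ h ∈ V, ∃ a ∈ V', ψ a - h ∈ V.nonunits)
    (hloc' : ∀ a ∈ V', ∃ s ∈ B', s ∉ V'.nonunits ∧ s * a ∈ B')
    (P p : Ideal B) [P.IsPrime] [p.IsPrime]
    (hp : ∀ b : B, b ∈ p ↔ (b : F) ∈ V.nonunits) (hpP : p ≤ P)
    (P' p' : Ideal B') (hP' : ∀ b : B', b ∈ P' ↔ (⟨ψ b, hmap b b.2⟩ : B) ∈ P)
    (hp' : ∀ b : B', b ∈ p' ↔ (b : F') ∈ V'.nonunits)
    (h1 : LocDVRQuot P' p') : LocDVRQuot P p := by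
  let φ : B' →+* B := (ψ.comp B'.subtype).codRestrict B (fun b => hmap b b.2)
  have hφ : ∀ b : B', ((φ b : B) : F) = ψ b := fun b => rfl
  have hnon := mem_nonunits_iff_of_mem_iff ψ V V' hmem
  have hPc : P.comap φ = P' := by
    ext b
    rw [Ideal.mem_comap, hP']
    rfl
  have hpc : p.comap φ = p' := by
    ext b
    rw [Ideal.mem_comap, hp, hp', hφ, hnon]
  refine locDVRQuot_of_dominates φ P p hpP (by rw [hPc, hpc]; exact h1) ?_
  intro b
  obtain ⟨a, ha, hab⟩ := hlift b (hBV b b.2)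
  obtain ⟨s, hsB, hsV, hsa⟩ := hloc' a ha
  refine ⟨⟨s * a, hsa⟩, ⟨s, hsB⟩, ?_, ?_⟩
  · rw [hp, hφ, hnon]
    exact hsV
  · rw [hp]
    have hsV' : ψ s ∈ V := hBV _ (hmap s hsB)
    have h3 : (((φ ⟨s, hsB⟩ * b - φ ⟨s * a, hsa⟩ : B) : B) : F) = -(ψ s * (ψ a - b)) := by
      push_cast
      rw [hφ, hφ]
      show ψ s * (b : F) - ψ (s * a) = _
      rw [map_mul]
      ring
    rw [h3, ValuationSubring.mem_nonunits_iff, Valuation.map_neg, map_mul]
    have h4 : V.valuation (ψ s) ≤ 1 := (ValuationSubring.valuation_le_one_iff V _).mpr hsV'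
    have h5 : V.valuation (ψ a - b) < 1 := (ValuationSubring.mem_nonunits_iff V).mp hab
    calc V.valuation (ψ s) * V.valuation (ψ a - b)
        ≤ 1 * V.valuation (ψ a - b) := mul_le_mul' h4 le_rfl
      _ = V.valuation (ψ a - b) := one_mul _
      _ < 1 := h5

/-- **(V2)** The same with conclusion `LocPIRQuot P p`: hypothesis (B) of the (LP) casework at
the point `P` for the component `V`. -/
theorem locPIRQuot_of_lift (ψ : F' →+* F) (B : Subring F) (B' : Subring F')
    [IsNoetherianRing B] [IsNoetherianRing B'] (hmap : ∀ b ∈ B', ψ b ∈ B)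
    (V : ValuationSubring F) (V' : ValuationSubring F') (hBV : ∀ b ∈ B, b ∈ V)
    (hmem : ∀ a : F', ψ a ∈ V ↔ a ∈ V')
    (hlift : ∀ h ∈ V, ∃ a ∈ V', ψ a - h ∈ V.nonunits)
    (hloc' : ∀ a ∈ V', ∃ s ∈ B', s ∉ V'.nonunits ∧ s * a ∈ B')
    (P p : Ideal B) [P.IsPrime] [p.IsPrime]
    (hp : ∀ b : B, b ∈ p ↔ (b : F) ∈ V.nonunits) (hpP : p ≤ P)
    (P' p' : Ideal B') (hP' : ∀ b : B', b ∈ P' ↔ (⟨ψ b, hmap b b.2⟩ : B) ∈ P)
    (hp' : ∀ b : B', b ∈ p' ↔ (b : F') ∈ V'.nonunits)
    (h1 : LocDVRQuot P' p') : LocPIRQuot P p :=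
  locPIRQuot_of_locDVRQuot P p hpP
    (locDVRQuot_of_lift ψ B B' hmap V V' hBV hmem hlift hloc' P p hp hpP P' p' hP' hp' h1)

/-- `LPBAt B V`: (LP)(b) for the component `V` of the chart `B`, at every point: for all primes
`p ≤ P` of `B` with `p` the centre of `V` on `B`, the local ring of `B ⧸ p` at `P` has principal
maximal ideal. -/
def LPBAt (B : Subring F) (V : ValuationSubring F) : Prop :=
  ∀ P p : Ideal B, P.IsPrime → p.IsPrime → (∀ b : B, b ∈ p ↔ (b : F) ∈ V.nonunits) → p ≤ P →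
    LocDVRQuot P p

/-- **(V3) `LPBAt` goes up along a degeneracy map of residue degree one.** -/
theorem LPBAt.lift (ψ : F' →+* F) (B : Subring F) (B' : Subring F') [IsNoetherianRing B']
    (hmap : ∀ b ∈ B', ψ b ∈ B) (V : ValuationSubring F) (V' : ValuationSubring F')
    (hBV : ∀ b ∈ B, b ∈ V) (hmem : ∀ a : F', ψ a ∈ V ↔ a ∈ V')
    (hlift : ∀ h ∈ V, ∃ a ∈ V', ψ a - h ∈ V.nonunits)
    (hloc' : ∀ a ∈ V', ∃ s ∈ B', s ∉ V'.nonunits ∧ s * a ∈ B')
    (h : LPBAt B' V') : LPBAt B V := by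
  intro P p hP hp' hp hpP
  let φ : B' →+* B := (ψ.comp B'.subtype).codRestrict B (fun b => hmap b b.2)
  have hφ : ∀ b : B', ((φ b : B) : F) = ψ b := fun b => rfl
  have hnon := mem_nonunits_iff_of_mem_iff ψ V V' hmem
  have hP' : (P.comap φ).IsPrime := Ideal.comap_isPrime φ P
  have hp'' : (p.comap φ).IsPrime := Ideal.comap_isPrime φ p
  refine locDVRQuot_of_lift ψ B B' hmap V V' hBV hmem hlift hloc' P p hp hpP (P.comap φ)
    (p.comap φ) (fun b => Iff.rfl) (fun b => ?_) (h _ _ hP' hp'' (fun b => ?_) (Ideal.comap_mono hpP))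
  · rw [Ideal.mem_comap, hp, hφ, hnon]
  · rw [Ideal.mem_comap, hp, hφ, hnon]

/-- **(V4)** `LPBAt` gives the hypothesis (B) of the (LP) casework at every prime `P` containing
the centre `p` of `V`. -/
theorem LPBAt.locPIRQuot {B : Subring F} {V : ValuationSubring F} [IsNoetherianRing B]
    (h : LPBAt B V) (P p : Ideal B) [hP : P.IsPrime] [hp' : p.IsPrime]
    (hp : ∀ b : B, b ∈ p ↔ (b : F) ∈ V.nonunits) (hpP : p ≤ P) : LocPIRQuot P p :=
  locPIRQuot_of_locDVRQuot P p hpP (h P p hP hp' hp hpP)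

/-- Base: the reduction of the chart along `V` is a Dedekind domain. -/
theorem lpbAt_of_isDedekindDomain (B : Subring F) (V : ValuationSubring F)
    (h : ∀ p : Ideal B, p.IsPrime → (∀ b : B, b ∈ p ↔ (b : F) ∈ V.nonunits) →
      IsDedekindDomain (B ⧸ p)) : LPBAt B V := by
  intro P p hP hp' hp hpP
  have := h p hp' hp
  exact locDVRQuot_of_isDedekindDomain P p hpP

/-- Base: a regular pair at every point (`P B_P = (y, t) B_P`, `y ∈ 𝔪(V)`). -/
theorem lpbAt_of_span_pair (B : Subring F) (V : ValuationSubring F)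
    (h : ∀ P : Ideal B, P.IsPrime → (∀ b : B, (b : F) ∈ V.nonunits → b ∈ P) →
      ∃ y t : B, (y : F) ∈ V.nonunits ∧ t ∈ P ∧
        ∀ a ∈ P, ∃ s, s ∉ P ∧ s * a ∈ Ideal.span {y, t}) : LPBAt B V := by
  intro P p hP _ hp hpP
  obtain ⟨y, t, hy, ht, hmax⟩ := h P hP (fun b hb => hpP ((hp b).mpr hb))
  exact locDVRQuot_of_span_pair P p y t ((hp y).mpr hy) ht hmax

end Val

end Fermat.Agent.S36.helper6136
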