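import Mathlib
import Fermat.Agent.S36.helper1162_T49Base
import Fermat.Agent.S36.helper1413_RedLevelQ
import Fermat.Agent.S36.helper6136_LPBVal

/-!
# S36 — (LP)(b) at level `M₁` (`q ∥ M₁`) on the `t₄` / `t₉` charts  (helper1162)

`LPBAt` twin of `helper1413_RedLevelQ`: the hypothesis `h'` of `helper6136.pir_of_degData`
(`∀ i c, LPBAt (chart O x' i) (V' c)`) on the carriers of `helper6594` / `helper98`.

* `lpbAt_level_q_of_base` : abstract step `M''` ⟹ `q M''` (two valuations `V' 0`, `V' 1` over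
  the Gauss valuation `V''` along `α'`, `β'` with residue degree one), binders of
  `helper1413.redIC_level_q_of_base`, from (LOC), noetherianity and `LPBAt` of the two charts of
  level `M''`;
* `t4_base_gaussF`, `t9_base_gaussF` : the three inputs at level `M''` (`ℓ ∤ M''`) for the Gauss
  valuation ring in the form `helper8991.gaussF` (`helper1162.t4_base` / `t9_base`);
* `lpbAt_levelq_t4`, `lpbAt_levelq_t9` : the composite, binders of
  `helper1413.redIC_levelq_t4` / `_t9` verbatim.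
-/

set_option autoImplicit false

namespace Fermat.Agent.S36.helper1162

open Fermat.Agent.S36.helper248 (chartRing)
open Fermat.Agent.S36.helper1413 (chartAt)

section Levels

variable {K F' F'' : Type*} [Field K] [Field F'] [Field F''] [Algebra K F'] [Algebra K F'']

/-- **(LP)(b), level `M''` ⟹ level `q M''`** (`LPBAt` twin of
`helper1413.redIC_level_q_of_base`, same binders).  `V' 0 = v'_∞` lies over the Gauss valuation
`V''` along `α'` with residue degree one, `V' 1 = v'_0` along `β'`; `α' x'' = x'`, `x'` and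
`β' x''` are integral over each other's `O`-algebra (and the same for the inverses).  Then
`LPBAt` of the two charts of level `M''` along `V''` (with (LOC) and noetherianity there) gives
`LPBAt` of the two charts of level `q M''` along `V' 0` and `V' 1`. -/
theorem lpbAt_level_q_of_base (O : ValuationSubring K) (α' β' : F'' →ₐ[K] F') (x' : F')
    (x'' : F'') (hα'x : α' x'' = x')
    (hβ'0 : x' ∈ chartRing O ({β' x''} : Set F'))
    (hβ'1 : x'⁻¹ ∈ chartRing O ({(β' x'')⁻¹} : Set F'))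
    (hβ'0' : β' x'' ∈ chartRing O ({x'} : Set F'))
    (hβ'1' : (β' x'')⁻¹ ∈ chartRing O ({x'⁻¹} : Set F'))
    (V' : Fin 2 → ValuationSubring F') (V'' : ValuationSubring F'')
    (const_V'' : ∀ a : K, a ∈ O → algebraMap K F'' a ∈ V'')
    (x''_V'' : x'' ∈ V'' ∧ x''⁻¹ ∈ V'')
    (mem_α' : ∀ a : F'', α' a ∈ V' 0 ↔ a ∈ V'')
    (lift_α' : ∀ h : F', h ∈ V' 0 → ∃ a : F'', a ∈ V'' ∧ α' a - h ∈ (V' 0).nonunits)
    (mem_β' : ∀ a : F'', β' a ∈ V' 1 ↔ a ∈ V'')
    (lift_β' : ∀ h : F', h ∈ V' 1 → ∃ a : F'', a ∈ V'' ∧ β' a - h ∈ (V' 1).nonunits)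
    (hnoeth : ∀ i : Fin 2, IsNoetherianRing (chartAt O x'' i))
    (hloc : ∀ i : Fin 2, ∀ a ∈ V'', ∃ s ∈ chartAt O x'' i, s ∉ V''.nonunits ∧
      s * a ∈ chartAt O x'' i)
    (hLPB : ∀ i : Fin 2, helper6136.LPBAt (chartAt O x'' i) V'') :
    ∀ (i : Fin 2) (c : Fin 2), helper6136.LPBAt (chartAt O x' i) (V' c) := by
  have const_V' : ∀ (c : Fin 2) (a : K), a ∈ O → algebraMap K F' a ∈ V' c := by
    intro c a ha
    fin_cases c
    · have h := (mem_α' _).mpr (const_V'' a ha)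
      rwa [α'.commutes] at h
    · have h := (mem_β' _).mpr (const_V'' a ha)
      rwa [β'.commutes] at h
  have hβx : β' x'' ∈ V' 1 ∧ (β' x'')⁻¹ ∈ V' 1 := by
    refine ⟨(mem_β' _).mpr x''_V''.1, ?_⟩
    have h := (mem_β' _).mpr x''_V''.2
    rwa [map_inv₀] at h
  have x'_V' : ∀ c : Fin 2, x' ∈ V' c ∧ x'⁻¹ ∈ V' c := by
    intro c
    fin_cases c
    · constructor
      · have h := (mem_α' _).mpr x''_V''.1
        rwa [hα'x] at h
      · have h := (mem_α' _).mpr x''_V''.2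
        rwa [map_inv₀, hα'x] at h
    · constructor
      · refine helper1413.chartRing_le_valuationSubring (A0 := O) _ (V' 1)
          (fun a => const_V' 1 (a : K) a.2) ?_ _ hβ'0
        intro y hy
        rw [Set.mem_singleton_iff] at hy
        rw [hy]
        exact hβx.1
      · refine helper1413.chartRing_le_valuationSubring (A0 := O) _ (V' 1)
          (fun a => const_V' 1 (a : K) a.2) ?_ _ hβ'1
        intro y hy
        rw [Set.mem_singleton_iff] at hy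
        rw [hy]
        exact hβx.2
  intro i c
  have := hnoeth i
  fin_cases c
  · exact helper6136.LPBAt.lift (α' : F'' →+* F') (chartAt O x' i) (chartAt O x'' i)
      (helper1413.chartAt_map_of_eq O α' x' x'' hα'x i) (V' 0) V''
      (helper1413.chartAt_le O x' (V' 0) (const_V' 0) (x'_V' 0) i) mem_α' lift_α' (hloc i)
      (hLPB i)
  · exact helper6136.LPBAt.lift (β' : F'' →+* F') (chartAt O x' i) (chartAt O x'' i)
      (helper1413.chartAt_map_of_mem O β' x' x'' hβ'0' hβ'1' i) (V' 1) V''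
      (helper1413.chartAt_le O x' (V' 1) (const_V' 1) (x'_V' 1) i) mem_β' lift_β' (hloc i)
      (hLPB i)

end Levels

section Base

open Fermat.Agent.S18
open Fermat.Agent.S18.helper897 (FL gaussO)
open Fermat.Agent.S24.helper24 (Kbar)
open Fermat.Agent.S37.helper530 (t4F t9F)

variable (M : ℕ) [NeZero M] (ℓ : ℕ) [Fact ℓ.Prime] (hℓM : ¬ ℓ ∣ M)
variable {L : Type} [Field L] [Algebra ℚ L] (A : ValuationSubring L)
  (hA : (ℓ : L) ∈ A.nonunits)
variable [Algebra L Kbar] [IsDiscreteValuationRing ↥A] [PerfectField (IsLocalRing.ResidueField ↥A)]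

include hA hℓM in
/-- **Base of (LP)(b), `t₄`** (`4 ∣ M`, `ℓ ∤ M`), both charts, Gauss valuation ring in the form
`helper8991.gaussF`: (LOC), noetherianity, and `LPBAt`. -/
theorem t4_base_gaussF (h4 : 4 ∣ M) :
    ∀ i : Fin 2,
      (∀ a ∈ helper8991.gaussF A (IsLocalRing.residue ↥A) M,
        ∃ s ∈ chartAt A (t4F L M h4) i,
          s ∉ (helper8991.gaussF A (IsLocalRing.residue ↥A) M).nonunits ∧
          s * a ∈ chartAt A (t4F L M h4) i) ∧
      IsNoetherianRing (chartAt A (t4F L M h4) i) ∧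
      helper6136.LPBAt (chartAt A (t4F L M h4) i)
        (helper8991.gaussF A (IsLocalRing.residue ↥A) M) := by
  rw [helper508.gaussF_eq_gaussValuationSubring M ℓ hℓM A hA (IsLocalRing.residue ↥A)
    IsLocalRing.residue_surjective]
  obtain ⟨ϖ, hϖ⟩ := IsDiscreteValuationRing.exists_irreducible ↥A
  intro i
  have h := t4_base M ℓ hℓM A hA h4 ϖ hϖ i
  exact ⟨h.2.2.1, h.2.2.2.1, helper6136.lpbAt_of_isDedekindDomain _ _ h.2.2.2.2⟩

include hA hℓM in
/-- **Base of (LP)(b), `t₉`** (`9 ∣ M`, `ℓ ∤ M`). -/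
theorem t9_base_gaussF (h9 : 9 ∣ M) :
    ∀ i : Fin 2,
      (∀ a ∈ helper8991.gaussF A (IsLocalRing.residue ↥A) M,
        ∃ s ∈ chartAt A (t9F L M h9) i,
          s ∉ (helper8991.gaussF A (IsLocalRing.residue ↥A) M).nonunits ∧
          s * a ∈ chartAt A (t9F L M h9) i) ∧
      IsNoetherianRing (chartAt A (t9F L M h9) i) ∧
      helper6136.LPBAt (chartAt A (t9F L M h9) i)
        (helper8991.gaussF A (IsLocalRing.residue ↥A) M) := by
  rw [helper508.gaussF_eq_gaussValuationSubring M ℓ hℓM A hA (IsLocalRing.residue ↥A)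
    IsLocalRing.residue_surjective]
  obtain ⟨ϖ, hϖ⟩ := IsDiscreteValuationRing.exists_irreducible ↥A
  intro i
  have h := t9_base M ℓ hℓM A hA h9 ϖ hϖ i
  exact ⟨h.2.2.1, h.2.2.2.1, helper6136.lpbAt_of_isDedekindDomain _ _ h.2.2.2.2⟩

end Base

section LevelQ

open Fermat.Agent.S18 Fermat.Agent.S35 Fermat.Agent.S36.helper6594 Fermat.Agent.S36.helper98
open Fermat.Agent.S37.helper530 (t4F t9F)
open ModularCurve

local notation "Qb" => AlgebraicClosure ℚ

variable {A : ValuationSubring Qb} {K : Type} [Field K] [Algebra ℚ K] {ι : K →+* Qb}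

/-- **(LP)(b) at level `M₁` (`q ∥ M₁`), `t₄`**: `LPBAt` of the charts `O_K[t₄]`, `O_K[t₄⁻¹]`
along `v'_∞` and `v'_0` (binders of `helper1413.redIC_levelq_t4`). -/
theorem lpbAt_levelq_t4 (hι : IsInertiaField A ι) {q : ℕ} [NeZero q] (hq : q.Prime)
    (hA : A.LiesOverPrime q) (M₁ : ℕ) [NeZero M₁] (hqM : q ∣ M₁) (hq2 : ¬ q ^ 2 ∣ M₁)
    [NeZero (M₁ / q)] [IsDiscreteValuationRing ↥(OK A ι)]
    [PerfectField (IsLocalRing.ResidueField ↥(OK A ι))] (h4 : 4 ∣ M₁ / q) (h4' : 4 ∣ M₁)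
    (hβ0 : t4F K M₁ h4' ∈ chartRing (OK A ι)
      ({betaAt K (M₁ / q) q (Nat.div_mul_cancel hqM) (t4F K (M₁ / q) h4)} : Set ↥(FK K M₁)))
    (hβ1 : (t4F K M₁ h4')⁻¹ ∈ chartRing (OK A ι)
      ({(betaAt K (M₁ / q) q (Nat.div_mul_cancel hqM) (t4F K (M₁ / q) h4))⁻¹} :
        Set ↥(FK K M₁)))
    (hβ0' : betaAt K (M₁ / q) q (Nat.div_mul_cancel hqM) (t4F K (M₁ / q) h4)
      ∈ chartRing (OK A ι) ({t4F K M₁ h4'} : Set ↥(FK K M₁)))
    (hβ1' : (betaAt K (M₁ / q) q (Nat.div_mul_cancel hqM) (t4F K (M₁ / q) h4))⁻¹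
      ∈ chartRing (OK A ι) ({(t4F K M₁ h4')⁻¹} : Set ↥(FK K M₁))) :
    ∀ (i : Fin 2) (c : Fin 2),
      helper6136.LPBAt (chartAt (OK A ι) (t4F K M₁ h4') i) (levelqV M₁ q hq hqM hq2 hι c) := by
  have hqM' : ¬ q ∣ M₁ / q := fun h =>
    hq2 (by rw [pow_two]; exact Nat.mul_dvd_of_dvd_div hqM h)
  have hfact : Fact q.Prime := ⟨hq⟩
  let _ : Algebra K Fermat.Agent.S24.helper24.Kbar := ι.toAlgebra
  have hA' : ((q : ℕ) : K) ∈ (OK A ι).nonunits := helper1413.natCast_mem_nonunits_OK hA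
  have hbase := t4_base_gaussF (M₁ / q) q hqM' (OK A ι) hA' h4
  have hmemb := helper1413.base_mem_gaussF_t4 (M₁ / q) q hqM' (OK A ι) hA' h4
  obtain ⟨h1, h2, h3, h4c⟩ := levelq_pair_at hι hq hA M₁ hqM hq2
  have hαx : alphaAt K (M₁ / q) q (Nat.div_mul_cancel hqM) (t4F K (M₁ / q) h4)
      = t4F K M₁ h4' :=
    Subtype.ext (coe_alphaAt K (M₁ / q) q _ _)
  have hV1 : levelqV M₁ q hq hqM hq2 hι 1
      = (helper882.gpRingW A M₁ (helper1219.atkinLehnerAt M₁ q hq hqM hq2)).comap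
          (embK ι M₁) := by
    have h := congrFun (levelqV_eq_restrict M₁ q hq hqM hq2 hι) 1
    exact h
  refine lpbAt_level_q_of_base (OK A ι) (alphaAt K (M₁ / q) q (Nat.div_mul_cancel hqM))
    (betaAt K (M₁ / q) q (Nat.div_mul_cancel hqM)) (t4F K M₁ h4') (t4F K (M₁ / q) h4) hαx
    hβ0 hβ1 hβ0' hβ1' (levelqV M₁ q hq hqM hq2 hι) (gaussK A ι (M₁ / q)) hmemb.1 hmemb.2
    h1 h2 ?_ ?_ (fun i => (hbase i).2.1) (fun i => (hbase i).1) (fun i => (hbase i).2.2)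
  · rw [hV1]
    exact h3
  · rw [hV1]
    exact h4c

/-- **(LP)(b) at level `M₁` (`q ∥ M₁`), `t₉`** (binders of `helper1413.redIC_levelq_t9`). -/
theorem lpbAt_levelq_t9 (hι : IsInertiaField A ι) {q : ℕ} [NeZero q] (hq : q.Prime)
    (hA : A.LiesOverPrime q) (M₁ : ℕ) [NeZero M₁] (hqM : q ∣ M₁) (hq2 : ¬ q ^ 2 ∣ M₁)
    [NeZero (M₁ / q)] [IsDiscreteValuationRing ↥(OK A ι)]
    [PerfectField (IsLocalRing.ResidueField ↥(OK A ι))] (h9 : 9 ∣ M₁ / q) (h9' : 9 ∣ M₁)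
    (hβ0 : t9F K M₁ h9' ∈ chartRing (OK A ι)
      ({betaAt K (M₁ / q) q (Nat.div_mul_cancel hqM) (t9F K (M₁ / q) h9)} : Set ↥(FK K M₁)))
    (hβ1 : (t9F K M₁ h9')⁻¹ ∈ chartRing (OK A ι)
      ({(betaAt K (M₁ / q) q (Nat.div_mul_cancel hqM) (t9F K (M₁ / q) h9))⁻¹} :
        Set ↥(FK K M₁)))
    (hβ0' : betaAt K (M₁ / q) q (Nat.div_mul_cancel hqM) (t9F K (M₁ / q) h9)
      ∈ chartRing (OK A ι) ({t9F K M₁ h9'} : Set ↥(FK K M₁)))
    (hβ1' : (betaAt K (M₁ / q) q (Nat.div_mul_cancel hqM) (t9F K (M₁ / q) h9))⁻¹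
      ∈ chartRing (OK A ι) ({(t9F K M₁ h9')⁻¹} : Set ↥(FK K M₁))) :
    ∀ (i : Fin 2) (c : Fin 2),
      helper6136.LPBAt (chartAt (OK A ι) (t9F K M₁ h9') i) (levelqV M₁ q hq hqM hq2 hι c) := by
  have hqM' : ¬ q ∣ M₁ / q := fun h =>
    hq2 (by rw [pow_two]; exact Nat.mul_dvd_of_dvd_div hqM h)
  have hfact : Fact q.Prime := ⟨hq⟩
  let _ : Algebra K Fermat.Agent.S24.helper24.Kbar := ι.toAlgebra
  have hA' : ((q : ℕ) : K) ∈ (OK A ι).nonunits := helper1413.natCast_mem_nonunits_OK hA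
  have hbase := t9_base_gaussF (M₁ / q) q hqM' (OK A ι) hA' h9
  have hmemb := helper1413.base_mem_gaussF_t9 (M₁ / q) q hqM' (OK A ι) hA' h9
  obtain ⟨h1, h2, h3, h4c⟩ := levelq_pair_at hι hq hA M₁ hqM hq2
  have hαx : alphaAt K (M₁ / q) q (Nat.div_mul_cancel hqM) (t9F K (M₁ / q) h9)
      = t9F K M₁ h9' :=
    Subtype.ext (coe_alphaAt K (M₁ / q) q _ _)
  have hV1 : levelqV M₁ q hq hqM hq2 hι 1
      = (helper882.gpRingW A M₁ (helper1219.atkinLehnerAt M₁ q hq hqM hq2)).comap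
          (embK ι M₁) := by
    have h := congrFun (levelqV_eq_restrict M₁ q hq hqM hq2 hι) 1
    exact h
  refine lpbAt_level_q_of_base (OK A ι) (alphaAt K (M₁ / q) q (Nat.div_mul_cancel hqM))
    (betaAt K (M₁ / q) q (Nat.div_mul_cancel hqM)) (t9F K M₁ h9') (t9F K (M₁ / q) h9) hαx
    hβ0 hβ1 hβ0' hβ1' (levelqV M₁ q hq hqM hq2 hι) (gaussK A ι (M₁ / q)) hmemb.1 hmemb.2
    h1 h2 ?_ ?_ (fun i => (hbase i).2.1) (fun i => (hbase i).1) (fun i => (hbase i).2.2)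
  · rw [hV1]
    exact h3
  · rw [hV1]
    exact h4c

end LevelQ

end Fermat.Agent.S36.helper1162
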