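import Mathlib
import Fermat.Agent.S30.helper1094_E1
import Fermat.Agent.S30.helper501_Transport
import Fermat.Agent.S30.helper767_TateFin
import Fermat.Agent.S30.helper1094_Eigen
import Fermat.Agent.S35.helper1989_E1Q

/-!
# S36-E1C: the geometry-free glue `JDatumC → EigenDatumInv`  (helper1195)

The S36 twin of the landed S35 leaf `helper1989.stmt_E1Q` (`JDatumQ → EigenDatumRel`).

Route (findings #3001 / #3084, board #1994 / #2006): the extra clause of the frozen S36 (the
representation attached to a newform of level `M` is NOT unipotent on inertia at the primes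
`q ≠ λ` with `q² ∥ M`) follows from the S30 core as soon as the eigen-datum has NO nonzero vector
fixed by an inertia group at `q` (Kolchin; board #1994).  Geometrically this holds on the `q`-new
part of the `λ`-adic Tate module of `J₀(M)`, i.e. on the common kernel of two "kernel operators"
(the two traces to level `M / q`), by the statement

  (KILL)  `x ∈ J₀(M)[λ^n]` fixed by inertia at `q` and killed by the kernel operators
          `⟹ c • x = 0`     (`c ≠ 0` independent of `n` and `x`).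

This file provides the transfer of (KILL) from torsion points to the eigen-lattice:

* `exists_finset_forall_ker` : in a finite torsion-free module over a noetherian domain, a family
  of endomorphisms with trivial common kernel has a FINITE subfamily with trivial common kernel
  (this is what makes the flat base change `ℤ_λ → 𝒪'` commute with inertia invariants);
* `EigenDatumInv p N S R a 𝒜` : `helper54.EigenDatum` together with: for every valuation subring
  `A ∈ 𝒜`, no nonzero vector is fixed by `A.inertiaSubgroupIn ℚ`;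
* `JDatumC p N S 𝒪' a 𝒜` : the fields of `helper1989.JDatumQ` with `(rel)` replaced by
  `(kill)`: for `A ∈ 𝒜` there is `c ≠ 0` with `c • x = 0` for every point `x` of `p`-power
  order killed by the kernel operators and fixed by `A.inertiaSubgroupIn ℚ`;
* `stmt_E1C` : `JDatumC → EigenDatumInv`;
* `sqPlaces lam M` : the valuation subrings over the primes `q ≠ lam` with `q² ∥ M`;
* `Stmt_KerOpsC`, `Stmt_EigenInv`, `stmt_EigenInv_of` : the eigen-datum without inertia-fixed
  vectors for every newform from the S30 machine statements (U), (ES) at the good primes and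
  ONE S36-specific statement about `J₀(M)` (kernel operators commuting with Galois, (KILL) on
  `J₀(M)[λ^∞] ∩ ⋂ ker B k`, a lattice with twins of the Hecke operators and of the `B k`, and
  occurrence of every newform eigensystem in the kernel of the lattice twins).

As in `helper1989`, no commutation between the Hecke operators and the kernel operators, no
sub-object and no ring action on the lattice are needed; the rank of the eigen-lattice is
arbitrary.
-/

set_option autoImplicit false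
set_option linter.style.haveILetI false
set_option linter.overlappingInstances false

open scoped TensorProduct

namespace Fermat.Agent.S36.helper1195

open Fermat.Agent.S30.helper54 Fermat.Agent.Lib.helper4786 Fermat.Agent.Lib.helper9377
  Fermat.Agent.S30.helper4204 Module

/-! ### Part A: a finite subfamily with trivial common kernel -/

section FiniteSubfamily

variable {R : Type*} [CommRing R] [IsDomain R] [IsNoetherianRing R]
variable {T : Type*} [AddCommGroup T] [Module R T] [Module.Finite R T] [Module.IsTorsionFree R T]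

/-- If `L ⊓ ker f` has the same `finrank` as `L` then `f` vanishes on `L`
(submodules of a finite torsion-free module over a noetherian domain). -/
theorem le_ker_of_finrank_le (L : Submodule R T) (f : Module.End R T)
    (h : finrank R L ≤ finrank R (L ⊓ LinearMap.ker f : Submodule R T)) :
    L ≤ LinearMap.ker f := by
  let g : L →ₗ[R] T := f.domRestrict L
  -- `ker g` has the same finrank as `L ⊓ ker f`
  have hker : finrank R (LinearMap.ker g) = finrank R (L ⊓ LinearMap.ker f : Submodule R T) := by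
    have hmap : (LinearMap.ker g).map L.subtype = L ⊓ LinearMap.ker f := by
      ext t
      constructor
      · rintro ⟨x, hx, rfl⟩
        exact ⟨x.2, hx⟩
      · rintro ⟨htL, htf⟩
        exact ⟨⟨t, htL⟩, htf, rfl⟩
    rw [← hmap]
    exact (LinearEquiv.finrank_eq
      (Submodule.equivMapOfInjective L.subtype L.injective_subtype (LinearMap.ker g)))
  have hsum := (LinearMap.ker g).finrank_quotient_add_finrank
  rw [LinearEquiv.finrank_eq g.quotKerEquivRange, hker] at hsum
  have h0 : finrank R (LinearMap.range g) = 0 := by omega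
  have hbot : LinearMap.range g = ⊥ := Submodule.finrank_eq_zero.mp h0
  intro t ht
  have : g ⟨t, ht⟩ ∈ LinearMap.range g := LinearMap.mem_range_self g _
  rw [hbot, Submodule.mem_bot] at this
  exact this

/-- **Finite subfamily.**  In a finite torsion-free module over a noetherian domain, if a family
of endomorphisms has trivial common kernel, then so has a finite subfamily. -/
theorem exists_finset_forall_ker {I : Type*} (f : I → Module.End R T)
    (h : ∀ t : T, (∀ i, f i t = 0) → t = 0) :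
    ∃ s : Finset I, ∀ t : T, (∀ i ∈ s, f i t = 0) → t = 0 := by
  classical
  let N : Finset I → Submodule R T := fun s => ⨅ i ∈ s, LinearMap.ker (f i)
  have hN : ∀ (s : Finset I) (t : T), t ∈ N s ↔ ∀ i ∈ s, f i t = 0 := by
    intro s t
    simp only [N, Submodule.mem_iInf, LinearMap.mem_ker]
  let s₀ : Finset I := Function.argmin (fun s : Finset I => finrank R (N s))
  have hmin : ∀ s : Finset I, finrank R (N s₀) ≤ finrank R (N s) :=
    fun s => Function.argmin_le (fun s : Finset I => finrank R (N s)) s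
  refine ⟨s₀, fun t ht => h t fun i => ?_⟩
  have hle : N s₀ ≤ LinearMap.ker (f i) := by
    apply le_ker_of_finrank_le
    have hins : N (insert i s₀) = N s₀ ⊓ LinearMap.ker (f i) := by
      ext t
      rw [hN, Submodule.mem_inf, hN, LinearMap.mem_ker]
      constructor
      · intro h'
        exact ⟨fun j hj => h' j (Finset.mem_insert_of_mem hj), h' i (Finset.mem_insert_self i s₀)⟩
      · rintro ⟨h1, h2⟩ j hj
        rcases Finset.mem_insert.mp hj with rfl | hj
        · exact h2
        · exact h1 j hj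
    rw [← hins]
    exact hmin _
  exact hle ((hN s₀ t).mpr ht)

end FiniteSubfamily

/-! ### Part B: the data -/

/-- **Eigen-datum without inertia-fixed vectors**: `helper54.EigenDatum` (nonzero finite free
module with an adically continuous Galois action, unramified outside `N p`, Eichler–Shimura
relation at the good primes) in which, for every valuation subring `A ∈ 𝒜`, the only vector fixed
by the inertia group `A.inertiaSubgroupIn ℚ` is `0`. -/
def EigenDatumInv (p N : ℕ) (S : Finset ℕ) (R : Type) [CommRing R] [IsLocalRing R] (a : ℕ → R)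
    (𝒜 : Set (ValuationSubring (AlgebraicClosure ℚ))) : Prop :=
  ∃ (M : Type) (_ : AddCommGroup M) (_ : Module R M) (_ : Module.Free R M) (_ : Module.Finite R M)
    (ρ : Gal →* Module.End R M),
    Nontrivial M ∧ GaloisActionIsAdicContinuous R ρ ∧
    (∀ q : ℕ, q.Prime → ¬ q ∣ N → q ≠ p →
      ∀ A : ValuationSubring (AlgebraicClosure ℚ), A.LiesOverPrime q →
        ∀ σ ∈ A.inertiaSubgroupIn ℚ, ρ σ = 1) ∧
    (∀ ℓ : ℕ, ℓ.Prime → ¬ ℓ ∣ N → ℓ ∉ S →
      ∀ A : ValuationSubring (AlgebraicClosure ℚ), A.LiesOverPrime ℓ →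
        ∀ σ : Gal, A.IsFrobeniusAt σ ℓ → ρ σ * ρ σ - a ℓ • ρ σ + (ℓ : R) • 1 = 0) ∧
    (∀ A ∈ 𝒜, ∀ v : M, (∀ σ ∈ A.inertiaSubgroupIn ℚ, ρ σ v = v) → v = 0)

/-- An eigen-datum without inertia-fixed vectors is an eigen-datum. -/
theorem EigenDatumInv.eigenDatum {p N : ℕ} {S : Finset ℕ} {R : Type} [CommRing R] [IsLocalRing R]
    {a : ℕ → R} {𝒜 : Set (ValuationSubring (AlgebraicClosure ℚ))}
    (h : EigenDatumInv p N S R a 𝒜) : EigenDatum p N S R a := by
  obtain ⟨M, i1, i2, i3, i4, ρ, h1, h2, h3, h4, -⟩ := h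
  exact ⟨M, i1, i2, i3, i4, ρ, h1, h2, h3, h4⟩

/-- Monotonicity in the set of valuation subrings. -/
theorem EigenDatumInv.mono {p N : ℕ} {S : Finset ℕ} {R : Type} [CommRing R] [IsLocalRing R]
    {a : ℕ → R} {𝒜 ℬ : Set (ValuationSubring (AlgebraicClosure ℚ))} (hsub : ℬ ⊆ 𝒜)
    (h : EigenDatumInv p N S R a 𝒜) : EigenDatumInv p N S R a ℬ := by
  obtain ⟨M, i1, i2, i3, i4, ρ, h1, h2, h3, h4, h5⟩ := h
  exact ⟨M, i1, i2, i3, i4, ρ, h1, h2, h3, h4, fun A hA => h5 A (hsub hA)⟩

/-- **Abstract Jacobian datum with kernel operators and the (KILL) clause.**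

The fields of `helper1989.JDatumQ`, with `(rel)` replaced by

* `(kill)`: for every valuation subring `A ∈ 𝒜` there is an integer `c ≠ 0` such that every
  point `x` of `p`-power order which is killed by all kernel operators `B k` and fixed by the
  inertia group `A.inertiaSubgroupIn ℚ` satisfies `c • x = 0`.

(In the application: `J = J₀(M)`, the `B k` are the two traces to level `M / q` followed by the
pull-backs, for the primes `q ≠ p` with `q² ∥ M`, and `𝒜` is the set of valuation subrings over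
these primes.) -/
def JDatumC (p N : ℕ) (S : Finset ℕ) (𝒪' : Type) [CommRing 𝒪'] (a : ℕ → 𝒪')
    (𝒜 : Set (ValuationSubring (AlgebraicClosure ℚ))) : Prop :=
  ∃ (J : Type) (_ : AddCommGroup J) (_ : DistribMulAction Gal J) (τ : ℕ → J →+ J)
    (κ : Type) (_ : Finite κ) (B : κ → J →+ J),
    -- (fin) finitely many `p`-torsion points
    Set.Finite {x : J | p • x = 0} ∧
    -- (lev) open stabilisers on `p`-power torsion
    (∀ x : J, (∃ n : ℕ, p ^ n • x = 0) →
      ∃ L : IntermediateField ℚ (AlgebraicClosure ℚ), FiniteDimensional ℚ L ∧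
        ∀ σ : Gal, (∀ y ∈ L, σ y = y) → σ • x = x) ∧
    -- (comm) the operators `τ ℓ` commute with the Galois action
    (∀ ℓ : ℕ, ℓ.Prime → ¬ ℓ ∣ N → ℓ ∉ S → ∀ (σ : Gal) (x : J), σ • τ ℓ x = τ ℓ (σ • x)) ∧
    -- (commB) the kernel operators commute with the Galois action
    (∀ (k : κ) (σ : Gal) (x : J), σ • B k x = B k (σ • x)) ∧
    -- (unr) inertia at `q ∤ N p` acts trivially on `p`-power torsion
    (∀ q : ℕ, q.Prime → ¬ q ∣ N → q ≠ p →
      ∀ A : ValuationSubring (AlgebraicClosure ℚ), A.LiesOverPrime q →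
        ∀ σ ∈ A.inertiaSubgroupIn ℚ, ∀ x : J, (∃ n : ℕ, p ^ n • x = 0) → σ • x = x) ∧
    -- (frob) Eichler–Shimura relation on `p`-power torsion
    (∀ ℓ : ℕ, ℓ.Prime → ¬ ℓ ∣ N → ℓ ∉ S →
      ∀ A : ValuationSubring (AlgebraicClosure ℚ), A.LiesOverPrime ℓ →
        ∀ σ : Gal, A.IsFrobeniusAt σ ℓ → ∀ x : J, (∃ n : ℕ, p ^ n • x = 0) →
          σ • σ • x - τ ℓ (σ • x) + ℓ • x = 0) ∧
    -- (kill) inertia-fixed `p`-power torsion killed by the kernel operators is killed by `c`
    (∀ A ∈ 𝒜, ∃ c : ℕ, c ≠ 0 ∧ ∀ x : J, (∃ n : ℕ, p ^ n • x = 0) → (∀ k, B k x = 0) →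
      (∀ σ ∈ A.inertiaSubgroupIn ℚ, σ • x = x) → c • x = 0) ∧
    -- (occ) a lattice with level-wise equivariant injections and an eigenvector in the kernel
    ∃ (Λ : Type) (_ : AddCommGroup Λ) (_ : Module.Free ℤ Λ) (_ : Module.Finite ℤ Λ)
      (t : ℕ → Module.End ℤ Λ) (b : κ → Module.End ℤ Λ) (ι : ℕ → Λ →+ J),
      (∀ (n : ℕ) (x : Λ), p ^ n • ι n x = 0) ∧
      (∀ (n : ℕ) (x : Λ), ι n x = 0 → ∃ y : Λ, x = p ^ n • y) ∧
      (∀ (n : ℕ) (x : Λ), p • ι (n + 1) x = ι n x) ∧
      (∀ ℓ : ℕ, ℓ.Prime → ¬ ℓ ∣ N → ℓ ∉ S → ∀ (n : ℕ) (x : Λ), ι n (t ℓ x) = τ ℓ (ι n x)) ∧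
      (∀ (k : κ) (n : ℕ) (x : Λ), ι n (b k x) = B k (ι n x)) ∧
      ∃ y : 𝒪' ⊗[ℤ] Λ, y ≠ 0 ∧
        (∀ ℓ : ℕ, ℓ.Prime → ¬ ℓ ∣ N → ℓ ∉ S → (t ℓ).baseChange 𝒪' y = a ℓ • y) ∧
        (∀ k : κ, (b k).baseChange 𝒪' y = 0)

/-! ### Part C: the glue -/

section Glue

/-- **E1C**: an abstract Jacobian datum with kernel operators and the (KILL) clause gives an
eigen-datum without inertia-fixed vectors. -/
theorem stmt_E1C (p : ℕ) [Fact p.Prime] (N : ℕ) (S : Finset ℕ)
    (𝒪' : Type) [CommRing 𝒪'] [IsDomain 𝒪'] [IsDiscreteValuationRing 𝒪']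
    [IsAdicComplete (IsLocalRing.maximalIdeal 𝒪') 𝒪'] [Finite (IsLocalRing.ResidueField 𝒪')]
    [CharZero 𝒪'] (hp𝒪' : (p : 𝒪') ∈ IsLocalRing.maximalIdeal 𝒪') (a : ℕ → 𝒪')
    (𝒜 : Set (ValuationSubring (AlgebraicClosure ℚ))) (hJ : JDatumC p N S 𝒪' a 𝒜) :
    EigenDatumInv p N S 𝒪' a 𝒜 := by
  obtain ⟨J, iJ1, iJ2, τ, κ, iκ, B, hfin, hlev, hcomm, hcommB, hunr, hfrob, hkillA, Λ, iΛ1, iΛ2,
    iΛ3, t, b, ι, hι1, hι2, hι3, hι4, hι5, y, hy0, hyt, hyb⟩ := hJ
  have hp : p.Prime := Fact.out
  -- the `ℤ_p`-algebra structure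
  letI alg𝒪 : Algebra ℤ_[p] 𝒪' := padicIntAlgebra p 𝒪' hp𝒪'
  have hinj : Function.Injective (algebraMap ℤ_[p] 𝒪') :=
    algebraMap_padicIntAlgebra_injective p 𝒪' hp𝒪'
  haveI hOtf : Module.IsTorsionFree ℤ_[p] 𝒪' := by
    rw [Module.isTorsionFree_iff_smul_eq_zero]
    intro r x hrx
    rw [Algebra.smul_def, mul_eq_zero] at hrx
    rcases hrx with h | h
    · exact Or.inl (hinj (by rw [h, map_zero]))
    · exact Or.inr h
  haveI hOflat : Module.Flat ℤ_[p] 𝒪' := inferInstance
  -- the Tate module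
  haveI hTfin : Module.Finite ℤ_[p] (tateModule J p) :=
    Fermat.Agent.S30.helper767.tateModule_finite_of_finite J p hfin
  haveI hTtf : Module.IsTorsionFree ℤ_[p] (tateModule J p) :=
    Fermat.Agent.S30.helper1094.tateModule_isTorsionFree J p
  haveI hTfree : Module.Free ℤ_[p] (tateModule J p) := Module.free_of_finite_type_torsion_free'
  -- the actions
  let ρ : Gal →* Module.End ℤ_[p] (tateModule J p) := tateRep J p Gal
  let ι' : Type := {ℓ : ℕ // ℓ.Prime ∧ ¬ ℓ ∣ N ∧ ℓ ∉ S}
  let τ' : ι' → Module.End ℤ_[p] (tateModule J p) := fun i => tateEnd J p (τ i.1)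
  let β' : κ → Module.End ℤ_[p] (tateModule J p) := fun k => tateEnd J p (B k)
  let fam : ι' ⊕ κ → Module.End ℤ_[p] (tateModule J p) := Sum.elim τ' β'
  let eig : ι' ⊕ κ → 𝒪' := Sum.elim (fun i => a i.1) (fun _ => 0)
  have hc : ∀ g i, Commute (ρ g) (fam i) := by
    intro g i
    rcases i with i | k
    · show ρ g * τ' i = τ' i * ρ g
      ext x n
      exact hcomm i.1 i.2.1 i.2.2.1 i.2.2.2 g (x.1 n)
    · show ρ g * β' k = β' k * ρ g
      ext x n
      exact hcommB k g (x.1 n)
  let σf : ι' ⊕ κ → Module.End 𝒪' (𝒪' ⊗[ℤ_[p]] tateModule J p) :=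
    fun i => (fam i).baseChange 𝒪'
  have hcb : ∀ g i, Commute (baseChangeRep 𝒪' ρ g) (σf i) :=
    fun g i => commute_baseChange (hc g i)
  have hp0 : algebraMap ℤ_[p] 𝒪' (p : ℤ_[p]) ≠ 0 := by
    rw [map_natCast]
    exact Nat.cast_ne_zero.2 hp.ne_zero
  refine ⟨eigenLattice σf eig, inferInstance, inferInstance, inferInstance, inferInstance,
    eigRep σf eig (baseChangeRep 𝒪' ρ) hcb, ?_, ?_, ?_, ?_, ?_⟩
  · -- nontriviality: occurrence, transported into the Tate module
    rw [nontrivial_eigenLattice_iff]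
    let j : Λ →+ tateModule J p :=
      { toFun := fun x => ⟨fun n => ι n x, ⟨fun n => hι1 n x, fun n => hι3 n x⟩⟩
        map_zero' := by
          ext n
          exact map_zero (ι n)
        map_add' := fun x y => by
          ext n
          exact map_add (ι n) x y }
    have hj : ∀ (x : Λ) (n : ℕ), (j x).1 n = ι n x := fun _ _ => rfl
    have hsat : ∀ x : Λ, (∃ z : tateModule J p, j x = (p : ℤ_[p]) • z) →
        ∃ z : Λ, x = (p : ℤ) • z := by
      rintro x ⟨z, hz⟩
      have h0 : ι 1 x = 0 := by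
        rw [← hj x 1, hz, tateModule.natCast_smul_apply]
        have := tateModule.pow_smul_apply z 1
        rwa [pow_one] at this
      obtain ⟨w, hw⟩ := hι2 1 x h0
      exact ⟨w, by rw [hw, pow_one, natCast_zsmul]⟩
    obtain ⟨v, hv0, hv⟩ := Fermat.Agent.S30.helper501.exists_eigenvector_transport p
      (Sum.elim (fun i : ι' => t i.1) b) fam j
      (by
        intro i x
        rcases i with i | k
        · ext n
          exact hι4 i.1 i.2.1 i.2.2.1 i.2.2.2 n x
        · ext n
          exact hι5 k n x)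
      (fun z hz => tateModule.eq_zero_of_p_smul_eq_zero z hz) hsat hinj eig
      ⟨y, hy0, by
        intro i
        rcases i with i | k
        · exact hyt i.1 i.2.1 i.2.2.1 i.2.2.2
        · show (b k).baseChange 𝒪' y = (0 : 𝒪') • y
          rw [hyb k, zero_smul]⟩
    exact ⟨v, hv0, hv⟩
  · -- continuity
    intro n
    obtain ⟨L, hL, hLσ⟩ := Fermat.Agent.S30.helper1094.exists_common_level
      {x : J | p ^ n • x = 0} (Fermat.Agent.S30.helper1094.finite_pow_torsion p hfin n)
      (fun x hx => hlev x ⟨n, hx⟩)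
    refine ⟨L, hL, fun σ hσ v => ?_⟩
    refine eigRep_sub_mem σf eig (baseChangeRep 𝒪' ρ) hcb hp0 (n := n)
      (fun x => exists_baseChange_sub_eq_smul (fun z => ?_) x) (IsLocalRing.maximalIdeal 𝒪')
      (by rw [map_natCast]; exact hp𝒪') v
    refine (tateModule.apply_eq_zero_iff (ρ σ z - z) n).mp ?_
    show σ • z.1 n - z.1 n = 0
    rw [hLσ σ hσ (z.1 n) (tateModule.pow_smul_apply z n), sub_self]
  · -- unramified
    intro q hq' hqN hqp A hA σ hσ
    refine eigRep_eq_one σf eig (baseChangeRep 𝒪' ρ) hcb ?_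
    rw [baseChangeRep_apply,
      show ρ σ = 1 from tateRep_eq_one_of_forall σ fun x hx => hunr q hq' hqN hqp A hA σ hσ x hx,
      LinearMap.baseChange_one]
  · -- Frobenius
    intro ℓ hℓ hℓN hℓS A hA σ hσ
    have hrel' : ρ σ * ρ σ - τ' ⟨ℓ, hℓ, hℓN, hℓS⟩ * ρ σ
        + (ℓ : ℤ_[p]) • (1 : Module.End ℤ_[p] (tateModule J p)) = 0 := by
      ext x n
      have h2 := hfrob ℓ hℓ hℓN hℓS A hA σ hσ (x.1 n) ⟨n, tateModule.pow_smul_apply x n⟩
      rw [LinearMap.add_apply, LinearMap.sub_apply, LinearMap.smul_apply, Module.End.one_apply]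
      show (σ • σ • x.1 n - τ ℓ (σ • x.1 n)) + ((ℓ : ℤ_[p]) • x).1 n = 0
      rw [tateModule.natCast_smul_apply]
      exact h2
    have h := eigRep_quadratic σf eig (baseChangeRep 𝒪' ρ) hcb (g := σ)
      (i := Sum.inl ⟨ℓ, hℓ, hℓN, hℓS⟩) (c := algebraMap ℤ_[p] 𝒪' (ℓ : ℤ_[p]))
      (baseChange_quadratic hrel')
    rw [map_natCast] at h
    exact h
  · -- no inertia-fixed vectors
    intro A hA v hv
    obtain ⟨c, hc0, hkill⟩ := hkillA A hA
    -- the family "kernel operators and `σ - 1` for `σ` in the inertia group" on the Tate module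
    let fI : κ ⊕ ↥(A.inertiaSubgroupIn ℚ) → Module.End ℤ_[p] (tateModule J p) :=
      Sum.elim β' (fun σ => ρ σ.1 - 1)
    -- its common kernel is trivial, by (kill) and torsion-freeness
    have hfI : ∀ z : tateModule J p, (∀ i, fI i z = 0) → z = 0 := by
      intro z hz
      have hcz : (c : ℤ_[p]) • z = 0 := by
        ext n
        rw [tateModule.natCast_smul_apply]
        refine hkill (z.1 n) ⟨n, tateModule.pow_smul_apply z n⟩ (fun k => ?_) (fun σ hσ => ?_)
        · exact congrArg (fun w : tateModule J p => w.1 n) (hz (Sum.inl k))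
        · have h1 : ρ σ z - z = 0 := hz (Sum.inr ⟨σ, hσ⟩)
          have h2 : σ • z.1 n - z.1 n = 0 :=
            congrArg (fun w : tateModule J p => w.1 n) h1
          exact sub_eq_zero.mp h2
      rcases smul_eq_zero.mp hcz with h | h
      · exact absurd (Nat.cast_eq_zero.mp h) hc0
      · exact h
    -- a finite subfamily suffices
    obtain ⟨s, hs⟩ := exists_finset_forall_ker fI hfI
    -- flat base change
    have h0 := Fermat.Agent.S35.helper1989.baseChange_eq_zero_of_forall_ker (O := 𝒪')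
      (fun i : s => fI i.1) (LinearMap.id : tateModule J p →ₗ[ℤ_[p]] tateModule J p)
      (fun z hz => hs z fun i hi => hz ⟨i, hi⟩) (v : 𝒪' ⊗[ℤ_[p]] tateModule J p) (by
        rintro ⟨i, hi⟩
        rcases i with k | σ
        · -- the kernel operators vanish on the eigen-lattice
          have h1 := mem_eigenLattice.1 v.2 (Sum.inr k)
          have h2 : σf (Sum.inr k) (v : 𝒪' ⊗[ℤ_[p]] tateModule J p)
              = (0 : 𝒪') • (v : 𝒪' ⊗[ℤ_[p]] tateModule J p) := h1
          rw [zero_smul] at h2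
          exact h2
        · -- `v` is fixed by `σ`
          have h1 := congrArg Subtype.val (hv σ.1 σ.2)
          rw [coe_eigRep, baseChangeRep_apply] at h1
          show (ρ σ.1 - 1).baseChange 𝒪' (v : 𝒪' ⊗[ℤ_[p]] tateModule J p) = 0
          rw [LinearMap.baseChange_sub, LinearMap.baseChange_one, LinearMap.sub_apply, h1,
            Module.End.one_apply, sub_self])
    rw [LinearMap.baseChange_id, LinearMap.id_apply] at h0
    exact Subtype.ext h0

end Glue

/-! ### Part D: the eigen-datum of a newform from the machine statements -/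

section Frozen

open ModularCurve Fermat.Agent.S30.helper1094 Fermat.Agent.S30.helper831

/-- The valuation subrings of `ℚ̄` over the primes `q ≠ lam` with `q² ∥ M`. -/
def sqPlaces (lam M : ℕ) : Set (ValuationSubring (AlgebraicClosure ℚ)) :=
  {A | ∃ q : ℕ, q.Prime ∧ q ≠ lam ∧ M.factorization q = 2 ∧ A.LiesOverPrime q}

theorem mem_sqPlaces {lam M q : ℕ} (hq : q.Prime) (hqlam : q ≠ lam) (hq2 : M.factorization q = 2)
    {A : ValuationSubring (AlgebraicClosure ℚ)} (hA : A.LiesOverPrime q) : A ∈ sqPlaces lam M :=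
  ⟨q, hq, hqlam, hq2, hA⟩

/-- **Geometric side of S36**: the eigensystem of a newform has an eigen-datum without
inertia-fixed vectors at the primes `q ≠ lam` with `q² ∥ M`, over every complete DVR receiving
its Hecke eigenvalues. -/
def Stmt_EigenInv : Prop :=
  ∀ {M : ℕ} [NeZero M] {g : CuspForm (CongruenceSubgroup.Gamma0 M) 2} (_hg : g.IsNewform)
    (lam : ℕ) [Fact lam.Prime] (S : Finset ℕ)
    (O' : Type) [CommRing O'] [IsDomain O'] [IsDiscreteValuationRing O']
    [IsAdicComplete (IsLocalRing.maximalIdeal O') O'] [Finite (IsLocalRing.ResidueField O')]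
    [CharZero O'] (_hlamO' : (lam : O') ∈ IsLocalRing.maximalIdeal O')
    (chig : CuspForm.heckeAlgebra M 2 (↑S : Set ℕ) →+* ℂ)
    (_hchig : ∀ (ℓ : ℕ) (hℓ : ℓ.Prime) (hℓM : ¬ ℓ ∣ M) (hℓS : ℓ ∉ (↑S : Set ℕ)),
      chig (CuspForm.heckeAlgebra.T hℓ hℓM hℓS) = ModularFormClass.qCoeff g ℓ)
    (iota : chig.range →+* O')
    (_hlamS : lam ∈ S) (_hMS : ∀ q : ℕ, q.Prime → q ∣ M → q ∈ S),
    EigenDatumInv lam M S O' (eigenvalue (iota.comp chig.rangeRestrict)) (sqPlaces lam M)

/-- **Geometric side of S36, kernel-operator form**: the eigensystem of a newform has an abstract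
Jacobian datum with kernel operators and the (KILL) clause at the primes `q ≠ lam`, `q² ∥ M`. -/
def Stmt_JC : Prop :=
  ∀ {M : ℕ} [NeZero M] {g : CuspForm (CongruenceSubgroup.Gamma0 M) 2} (_hg : g.IsNewform)
    (lam : ℕ) [Fact lam.Prime] (S : Finset ℕ)
    (O' : Type) [CommRing O'] [IsDomain O'] [IsDiscreteValuationRing O']
    [IsAdicComplete (IsLocalRing.maximalIdeal O') O'] [Finite (IsLocalRing.ResidueField O')]
    [CharZero O'] (_hlamO' : (lam : O') ∈ IsLocalRing.maximalIdeal O')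
    (chig : CuspForm.heckeAlgebra M 2 (↑S : Set ℕ) →+* ℂ)
    (_hchig : ∀ (ℓ : ℕ) (hℓ : ℓ.Prime) (hℓM : ¬ ℓ ∣ M) (hℓS : ℓ ∉ (↑S : Set ℕ)),
      chig (CuspForm.heckeAlgebra.T hℓ hℓM hℓS) = ModularFormClass.qCoeff g ℓ)
    (iota : chig.range →+* O')
    (_hlamS : lam ∈ S) (_hMS : ∀ q : ℕ, q.Prime → q ∣ M → q ∈ S),
    JDatumC lam M S O' (eigenvalue (iota.comp chig.rangeRestrict)) (sqPlaces lam M)

/-- `Stmt_EigenInv` from `Stmt_JC`. -/
theorem stmt_EigenInv_of_jc (hJ : Stmt_JC) : Stmt_EigenInv := by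
  intro M _ g hg lam _ S O' _ _ _ _ _ _ hlamO' chig hchig iota hlamS hMS
  exact stmt_E1C lam M S O' hlamO' _ _ (hJ hg lam S O' hlamO' chig hchig iota hlamS hMS)

/-- **The S36-specific machine statement: kernel operators on `J₀(M)` and (KILL).**

For every level `M`, prime `lam` and set `S` there are

* a finite family `B k` of additive operators on `J₀(M)` commuting with the Galois action
  (intended: for the primes `q ≠ lam` with `q² ∥ M`, the two traces `α_*`, `β_*` to level `M / q`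
  followed by the pull-backs `α^*`, `β^*`; or `U_q` and its Atkin–Lehner conjugate);
* `(kill)`: for a prime `q ≠ lam` with `q² ∥ M` and a valuation subring `A` over `q` there is an
  integer `c ≠ 0` such that `c • x = 0` for every point `x` of `lam`-power order which is killed
  by all `B k` and fixed by the inertia group of `A`  [(KILL) of findings #3001];
* a lattice `Λ` with operators `t ℓ`, `b k` and level-wise injections `Λ / lam ^ n → J₀(M)[lam ^ n]`,
  compatible in `n`, intertwining `t ℓ` with the Hecke operator at the good primes `ℓ` and `b k`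
  with `B k`;
* `(occ)`: for every newform `g` of level `M` and every ring homomorphism `iota` from its
  coefficient ring to a complete DVR `O'` of residue characteristic `lam`, a nonzero element of
  `O' ⊗ Λ` on which `t ℓ` acts by `iota (a_ℓ(g))` and which is killed by the `b k`. -/
def Stmt_KerOpsC : Prop :=
  ∀ (M : ℕ) [NeZero M] (lam : ℕ) [Fact lam.Prime] (S : Finset ℕ)
    (_hlamS : lam ∈ S) (_hMS : ∀ q : ℕ, q.Prime → q ∣ M → q ∈ S),
    ∃ (κ : Type) (_ : Finite κ) (B : κ → JZero M →+ JZero M),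
      (∀ (k : κ) (σ : Gal) (x : JZero M), σ • B k x = B k (σ • x)) ∧
      (∀ q : ℕ, q.Prime → q ≠ lam → M.factorization q = 2 →
        ∀ A : ValuationSubring (AlgebraicClosure ℚ), A.LiesOverPrime q →
          ∃ c : ℕ, c ≠ 0 ∧ ∀ x : JZero M, (∃ n : ℕ, lam ^ n • x = 0) → (∀ k, B k x = 0) →
            (∀ σ ∈ A.inertiaSubgroupIn ℚ, σ • x = x) → c • x = 0) ∧
      ∃ (Λ : Type) (_ : AddCommGroup Λ) (_ : Module.Free ℤ Λ) (_ : Module.Finite ℤ Λ)
        (t : ℕ → Module.End ℤ Λ) (b : κ → Module.End ℤ Λ) (ι : ℕ → Λ →+ JZero M),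
        (∀ (n : ℕ) (x : Λ), lam ^ n • ι n x = 0) ∧
        (∀ (n : ℕ) (x : Λ), ι n x = 0 → ∃ y : Λ, x = lam ^ n • y) ∧
        (∀ (n : ℕ) (x : Λ), lam • ι (n + 1) x = ι n x) ∧
        (∀ (ℓ : ℕ) (hℓ : ℓ.Prime), ¬ ℓ ∣ M → ℓ ∉ S → ∀ (n : ℕ) (x : Λ),
          ι n (t ℓ x) = heckeOperatorBar M ⟨ℓ, hℓ⟩ (ι n x)) ∧
        (∀ (k : κ) (n : ℕ) (x : Λ), ι n (b k x) = B k (ι n x)) ∧
        ∀ {g : CuspForm (CongruenceSubgroup.Gamma0 M) 2} (_hg : g.IsNewform)
          (O' : Type) [CommRing O'] [IsDomain O'] [IsDiscreteValuationRing O']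
          [IsAdicComplete (IsLocalRing.maximalIdeal O') O'] [Finite (IsLocalRing.ResidueField O')]
          [CharZero O'] (_hlamO' : (lam : O') ∈ IsLocalRing.maximalIdeal O')
          (chig : CuspForm.heckeAlgebra M 2 (↑S : Set ℕ) →+* ℂ)
          (_hchig : ∀ (ℓ : ℕ) (hℓ : ℓ.Prime) (hℓM : ¬ ℓ ∣ M) (hℓS : ℓ ∉ (↑S : Set ℕ)),
            chig (CuspForm.heckeAlgebra.T hℓ hℓM hℓS) = ModularFormClass.qCoeff g ℓ)
          (iota : chig.range →+* O'),
          ∃ y : O' ⊗[ℤ] Λ, y ≠ 0 ∧
            (∀ (ℓ : ℕ) (hℓ : ℓ.Prime) (hℓM : ¬ ℓ ∣ M) (hℓS : ℓ ∉ (↑S : Set ℕ)),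
              (t ℓ).baseChange O' y
                = (iota.comp chig.rangeRestrict) (CuspForm.heckeAlgebra.T hℓ hℓM hℓS) • y) ∧
            (∀ k : κ, (b k).baseChange O' y = 0)

/-- **`Stmt_JC` from the machine statements**: the operator-wise (U), (ES) on `lam`-power
torsion at the good primes (the S30 machine statements) and the kernel operators with (KILL). -/
theorem stmt_JC_of (hU : Stmt_UPow) (hES : Stmt_ESPow) (hK : Stmt_KerOpsC) : Stmt_JC := by
  intro M _ g hg lam _ S O' _ _ _ _ _ _ hlamO' chig hchig iota hlamS hMS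
  have hp : lam.Prime := Fact.out
  have hNp : ∀ ℓ : ℕ, ℓ.Prime → ¬ ℓ ∣ M → ℓ ≠ lam → ¬ ℓ ∣ M * lam := by
    intro ℓ hℓ hℓN hℓp hdvd
    rcases (Nat.Prime.dvd_mul hℓ).mp hdvd with h | h
    · exact hℓN h
    · exact hℓp ((Nat.prime_dvd_prime_iff_eq hℓ hp).mp h)
  have hSp : ∀ ℓ : ℕ, ℓ ∉ S → ℓ ≠ lam := fun ℓ hℓS h => hℓS (h ▸ hlamS)
  obtain ⟨κ, iκ, B, hcommB, hkill, Λ, i1, i2, i3, t, b, ι, hι1, hι2, hι3, hι4, hι5, hocc⟩ :=
    hK M lam S hlamS hMS
  obtain ⟨y, hy0, hyt, hyb⟩ := hocc hg O' hlamO' chig hchig iota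
  refine ⟨JZero M, inferInstance, inferInstance, tauBar M, κ, iκ, B, stmt_TorsFin M lam,
    fun x _ => Fermat.Agent.S30.helper30.stmt_FinLevel M x, ?_, hcommB, ?_, ?_, ?_, Λ, i1, i2, i3,
    t, b, ι, hι1, hι2, hι3, ?_, hι5, y, hy0, ?_, hyb⟩
  · intro ℓ hℓ _ _ σ x
    rw [tauBar_apply M hℓ, tauBar_apply M hℓ]
    exact Fermat.Agent.S30.helper30.stmt_GalHecke M ⟨ℓ, hℓ⟩ σ x
  · intro q hq hqN hqp A hA σ hσ x hx
    exact hU M lam hp q hq (hNp q hq hqN hqp) A hA σ hσ x hx
  · intro ℓ hℓ hℓN hℓS A hA σ hσ x hx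
    rw [tauBar_apply M hℓ]
    exact hES M lam hp ℓ hℓ (hNp ℓ hℓ hℓN (hSp ℓ hℓS)) A hA σ hσ x hx
  · rintro A ⟨q, hq, hqlam, hq2, hA⟩
    exact hkill q hq hqlam hq2 A hA
  · intro ℓ hℓ hℓN hℓS n x
    rw [tauBar_apply M hℓ]
    exact hι4 ℓ hℓ hℓN hℓS n x
  · intro ℓ hℓ hℓN hℓS
    rw [eigenvalue_eq _ hℓ hℓN (by exact_mod_cast hℓS)]
    exact hyt ℓ hℓ hℓN (by exact_mod_cast hℓS)

/-- **`Stmt_EigenInv` from the machine statements**: (U), (ES) on `lam`-power torsion at the good
primes (shared with S30 / S35) and the S36-specific statement `Stmt_KerOpsC`. -/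
theorem stmt_EigenInv_of (hU : Stmt_UPow) (hES : Stmt_ESPow) (hK : Stmt_KerOpsC) :
    Stmt_EigenInv :=
  stmt_EigenInv_of_jc (stmt_JC_of hU hES hK)

end Frozen

end Fermat.Agent.S36.helper1195
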