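import Mathlib
import Fermat.Prelude.Def_CuspForm_HeckeGaloisRepDatum
import Fermat.Prelude.Def_CuspForm_Newforms
import Fermat.Prelude.Def_GaloisRep_LocalConditions
import Fermat.Agent.S30.helper54_CoreGlue

/-!
# S36: the algebraic side, on top of the landed S30 core (helper5415)

Mirror of `Fermat.Agent.S35.helper1307_CoreQ` for the frozen statement S36 (Carayol's clause:
the representation attached to a newform of level `M` is NOT unipotent on inertia at the primes
`q ≠ λ` with `q² ‖ M`).  Seam: findings #3001 (F7), audit #3084 (R2, R3).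

The frozen statement is split along ONE interface, `EigenDatumC`: an S30 eigen-datum
(`Fermat.Agent.S30.helper54.EigenDatum`) such that in addition, for every prime `q ≠ p` with
`N.factorization q = 2`, there is a valuation subring `A` over `q` whose inertia group fixes NO
nonzero vector of the eigen-datum module:

  `(∀ σ ∈ I_A, ρ σ x = x) → x = 0`.                                                   (C)

The algebra: the S30 core produces a rank-two representation `ρ'` over the SAME ring with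
`charpoly (ρ' g) = X² - t(g) X + ε(g)`, where `t(g)` is the scalar of the quadratic relation
`g² - t(g) g + ε(g) = 0` on the WHOLE eigen-datum module.  If `ρ'` were unipotent on inertia at
`q`, then `t(σ) = 2` and `ε(σ) = 1` for all `σ ∈ I_A`, i.e. `(ρ σ - 1)² = 0` on the eigen-datum
module.  A group of such operators on a nonzero torsion-free noetherian module has a common
nonzero fixed vector (`exists_fixed_of_sq_zero`, a Kolchin-type statement proved here without
Burnside and without extension of scalars), contradicting (C).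

The hypotheses `hres` (absolute irreducibility and oddness of all residual representations) and
`lam ≠ 2` of the frozen statement are not used.

* `exists_common_kernel_of_anticomm` : noetherian induction for anticommuting square-zero
  operators;
* `anticomm_of_sq_zero`              : `(g - 1)² = 0` on a subgroup forces anticommutation;
* `exists_fixed_of_sq_zero`          : the Kolchin step;
* `conclusionC_of_eigenDatumC`       : `Stmt_GenCheb → EigenDatumC → ConclusionC`;
* `result_of`                        : the frozen statement S36 from `Stmt_EigenC` and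
                                       `Stmt_GenCheb`.
-/

set_option autoImplicit false

open Polynomial

namespace Fermat.Agent.S36.helper5415

open Fermat.Agent.S30.helper54

/-! ### The Kolchin step -/

section Kolchin

variable {R : Type*} [CommRing R] {M : Type*} [AddCommGroup M] [Module R M]

/-- **Noetherian induction.**  Let `𝒩` be a set of pairwise anticommuting square-zero
endomorphisms of a noetherian module, and `P ≠ 0` an endomorphism that commutes or anticommutes
with every element of `𝒩`.  Then the elements of `𝒩` have a common nonzero kernel vector. -/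
theorem exists_common_kernel_of_anticomm [IsNoetherian R M] (𝒩 : Set (Module.End R M))
    (hsq : ∀ A ∈ 𝒩, A * A = 0) (hanti : ∀ A ∈ 𝒩, ∀ B ∈ 𝒩, A * B = -(B * A)) :
    ∀ (K : Submodule R M) (P : Module.End R M), LinearMap.ker P = K → P ≠ 0 →
      (∀ A ∈ 𝒩, A * P = P * A ∨ A * P = -(P * A)) →
      ∃ v : M, v ≠ 0 ∧ ∀ A ∈ 𝒩, A v = 0 := by
  intro K
  induction K using WellFoundedGT.induction with
  | _ K ih =>
    intro P hK hP hPc
    obtain ⟨m, hm⟩ : ∃ m, P m ≠ 0 := by
      by_contra h
      push Not at h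
      exact hP (LinearMap.ext h)
    by_cases hall : ∀ A ∈ 𝒩, A (P m) = 0
    · exact ⟨P m, hm, hall⟩
    · push Not at hall
      obtain ⟨A, hA, hAPm⟩ := hall
      -- `P (A x) = ± A (P x)`
      have hPA : ∀ x : M, P (A x) = A (P x) ∨ P (A x) = -(A (P x)) := by
        intro x
        rcases hPc A hA with h | h
        · left
          have := congrArg (fun f : Module.End R M => f x) h
          simp only [Module.End.mul_apply] at this
          exact this.symm
        · right
          have := congrArg (fun f : Module.End R M => f x) h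
          simp only [Module.End.mul_apply, LinearMap.neg_apply] at this
          rw [this, neg_neg]
      have hAA : ∀ x : M, A (A x) = 0 := by
        intro x
        have := congrArg (fun f : Module.End R M => f x) (hsq A hA)
        simpa only [Module.End.mul_apply, LinearMap.zero_apply] using this
      refine ih (LinearMap.ker (A * P)) ?_ (A * P) rfl ?_ ?_
      · -- the kernel grows strictly
        rw [← hK]
        refine lt_of_le_of_ne ?_ ?_
        · intro x hx
          rw [LinearMap.mem_ker] at hx ⊢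
          rw [Module.End.mul_apply, hx, map_zero]
        · intro heq
          have h1 : A m ∈ LinearMap.ker (A * P) := by
            rw [LinearMap.mem_ker, Module.End.mul_apply]
            rcases hPA m with h | h
            · rw [h, hAA]
            · rw [h, map_neg, hAA, neg_zero]
          rw [← heq, LinearMap.mem_ker] at h1
          rcases hPA m with h | h
          · exact hAPm (h ▸ h1)
          · rw [h, neg_eq_zero] at h1
            exact hAPm h1
      · -- `A * P ≠ 0`
        intro h0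
        apply hAPm
        have := congrArg (fun f : Module.End R M => f m) h0
        simpa only [Module.End.mul_apply, LinearMap.zero_apply] using this
      · -- `A * P` commutes or anticommutes with `𝒩`
        intro B hB
        rcases hPc B hB with h | h
        · right
          rw [← mul_assoc, hanti B hB A hA, neg_mul, mul_assoc, h, mul_assoc]
        · left
          rw [← mul_assoc, hanti B hB A hA, neg_mul, mul_assoc, h, mul_neg, neg_neg, mul_assoc]

/-- If `A² = B² = 0` and `(A + B + AB)² = (-A + B - AB)² = 0` in a ring in which `2` is not a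
zero divisor, then `A B = - B A`. -/
theorem anticomm_of_sq_zero {E : Type*} [Ring E] (h2 : ∀ X : E, 2 * X = 0 → X = 0) (A B : E)
    (hA : A * A = 0) (hB : B * B = 0)
    (h1 : (A + B + A * B) * (A + B + A * B) = 0)
    (h2' : (-A + B - A * B) * (-A + B - A * B) = 0) : A * B = -(B * A) := by
  have e1 : (A + B + A * B) * (A + B + A * B)
      = A * B + B * A + B * A * B + (A * B * A + A * B * A * B)
        + (A * A + B * B + A * A * B + A * (B * B)) := by noncomm_ring
  have e2 : (-A + B - A * B) * (-A + B - A * B)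
      = -(A * B + B * A + B * A * B) + (A * B * A + A * B * A * B)
        + (A * A + B * B + A * A * B - A * (B * B)) := by noncomm_ring
  simp only [hA, hB, zero_mul, mul_zero, add_zero, sub_zero] at e1 e2
  rw [h1] at e1
  rw [h2'] at e2
  -- `2 (AB + BA + BAB) = 0`
  have e3 : 2 * (A * B + B * A + B * A * B) = 0 := by
    have : 2 * (A * B + B * A + B * A * B)
        = (A * B + B * A + B * A * B + (A * B * A + A * B * A * B))
          - (-(A * B + B * A + B * A * B) + (A * B * A + A * B * A * B)) := by noncomm_ring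
    rw [this, ← e1, ← e2, sub_zero]
  have e4 : A * B + B * A + B * A * B = 0 := h2 _ e3
  -- multiply by `B` on the left
  have e5 : B * A * B = 0 := by
    have : B * (A * B + B * A + B * A * B) = B * A * B + B * B * A + B * B * A * B := by
      noncomm_ring
    rw [e4, mul_zero, hB, zero_mul, zero_mul, add_zero, add_zero] at this
    exact this.symm
  rw [e5, add_zero] at e4
  exact eq_neg_of_add_eq_zero_left e4

/-- **Kolchin step.**  Let a group act on a nonzero torsion-free noetherian module over a domain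
in which `2 ≠ 0`.  If every element `h` of a subgroup `H` satisfies `(h - 1)² = 0`, then `H`
fixes a nonzero vector. -/
theorem exists_fixed_of_sq_zero {G : Type*} [Group G] [IsDomain R] (h2 : (2 : R) ≠ 0)
    [Module.IsTorsionFree R M] [IsNoetherian R M] [Nontrivial M]
    (ρ : G →* Module.End R M) (H : Subgroup G)
    (hH : ∀ h ∈ H, (ρ h - 1) * (ρ h - 1) = 0) :
    ∃ v : M, v ≠ 0 ∧ ∀ h ∈ H, ρ h v = v := by
  -- `2` is not a zero divisor on endomorphisms
  have h2E : ∀ X : Module.End R M, 2 * X = 0 → X = 0 := by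
    intro X hX
    ext m
    have := congrArg (fun f : Module.End R M => f m) hX
    simp only [Module.End.mul_apply, LinearMap.zero_apply] at this
    have h2m : (2 : R) • X m = 0 := by
      rw [← this, two_smul]
      have : (2 : Module.End R M) (X m) = X m + X m := by
        rw [← one_add_one_eq_two]
        rfl
      rw [this]
    rcases smul_eq_zero.mp h2m with h | h
    · exact absurd h h2
    · simpa using h
  -- the inverse of a unipotent of level two
  have hinv : ∀ g : G, (ρ g - 1) * (ρ g - 1) = 0 → ρ g⁻¹ = 1 - (ρ g - 1) := by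
    intro g hg
    have h1 : ρ g⁻¹ * ρ g = 1 := by rw [← map_mul, inv_mul_cancel, map_one]
    have h3 : ρ g * (1 - (ρ g - 1)) = 1 := by
      have : ρ g * (1 - (ρ g - 1)) = 1 - (ρ g - 1) * (ρ g - 1) := by noncomm_ring
      rw [this, hg, sub_zero]
    calc ρ g⁻¹ = ρ g⁻¹ * (ρ g * (1 - (ρ g - 1))) := by rw [h3, mul_one]
      _ = (ρ g⁻¹ * ρ g) * (1 - (ρ g - 1)) := by rw [mul_assoc]
      _ = 1 - (ρ g - 1) := by rw [h1, one_mul]
  let 𝒩 : Set (Module.End R M) := {X | ∃ h ∈ H, X = ρ h - 1}
  have hsq : ∀ A ∈ 𝒩, A * A = 0 := by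
    rintro A ⟨h, hh, rfl⟩
    exact hH h hh
  have hanti : ∀ A ∈ 𝒩, ∀ B ∈ 𝒩, A * B = -(B * A) := by
    rintro A ⟨g, hg, rfl⟩ B ⟨h, hh, rfl⟩
    refine anticomm_of_sq_zero h2E _ _ (hH g hg) (hH h hh) ?_ ?_
    · have : ρ g - 1 + (ρ h - 1) + (ρ g - 1) * (ρ h - 1) = ρ (g * h) - 1 := by
        rw [map_mul]
        noncomm_ring
      rw [this]
      exact hH _ (H.mul_mem hg hh)
    · have : -(ρ g - 1) + (ρ h - 1) - (ρ g - 1) * (ρ h - 1) = ρ (g⁻¹ * h) - 1 := by
        rw [map_mul, hinv g (hH g hg)]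
        noncomm_ring
      rw [this]
      exact hH _ (H.mul_mem (H.inv_mem hg) hh)
  have h1 : (1 : Module.End R M) ≠ 0 := by
    intro h
    obtain ⟨m, hm⟩ := exists_ne (0 : M)
    apply hm
    have := congrArg (fun f : Module.End R M => f m) h
    simpa using this
  obtain ⟨v, hv, hfix⟩ := exists_common_kernel_of_anticomm 𝒩 hsq hanti
    (LinearMap.ker (1 : Module.End R M)) 1 rfl h1 (fun A _ => Or.inl (by rw [mul_one, one_mul]))
  refine ⟨v, hv, fun h hh => ?_⟩
  have := hfix (ρ h - 1) ⟨h, hh, rfl⟩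
  rw [LinearMap.sub_apply, Module.End.one_apply, sub_eq_zero] at this
  exact this

end Kolchin

/-! ### The interface -/

/-- **Eigen-datum with the Carayol clause (C)**: an S30 eigen-datum such that moreover, for every
prime `q ≠ p` with `N.factorization q = 2`, there is a valuation subring `A` over `q` whose
inertia group fixes no nonzero vector of the module. -/
def EigenDatumC (p N : ℕ) (S : Finset ℕ) (R : Type) [CommRing R] [IsLocalRing R] (a : ℕ → R) :
    Prop :=
  ∃ (M : Type) (_ : AddCommGroup M) (_ : Module R M) (_ : Module.Free R M) (_ : Module.Finite R M)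
    (ρ : Gal →* Module.End R M),
    Nontrivial M ∧ GaloisActionIsAdicContinuous R ρ ∧
    (∀ q : ℕ, q.Prime → ¬ q ∣ N → q ≠ p →
      ∀ A : ValuationSubring (AlgebraicClosure ℚ), A.LiesOverPrime q →
        ∀ σ ∈ A.inertiaSubgroupIn ℚ, ρ σ = 1) ∧
    (∀ ℓ : ℕ, ℓ.Prime → ¬ ℓ ∣ N → ℓ ∉ S →
      ∀ A : ValuationSubring (AlgebraicClosure ℚ), A.LiesOverPrime ℓ →
        ∀ σ : Gal, A.IsFrobeniusAt σ ℓ → ρ σ * ρ σ - a ℓ • ρ σ + (ℓ : R) • 1 = 0) ∧
    (∀ q : ℕ, q.Prime → q ≠ p → N.factorization q = 2 →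
      ∃ A : ValuationSubring (AlgebraicClosure ℚ), A.LiesOverPrime q ∧
        ∀ x : M, (∀ σ ∈ A.inertiaSubgroupIn ℚ, ρ σ x = x) → x = 0)

/-- An `EigenDatumC` is in particular an S30 `EigenDatum`. -/
theorem EigenDatumC.eigenDatum {p N : ℕ} {S : Finset ℕ} {R : Type} [CommRing R] [IsLocalRing R]
    {a : ℕ → R} (h : EigenDatumC p N S R a) : EigenDatum p N S R a := by
  obtain ⟨M, i1, i2, i3, i4, ρ, hnt, hcont, hunr, hfrob, -⟩ := h
  exact ⟨M, i1, i2, i3, i4, ρ, hnt, hcont, hunr, hfrob⟩

/-- The conclusion of the frozen statement S36 for a family of eigenvalues `a`, over the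
coefficient ring itself (with the unramifiedness clause of S30 as a bonus). -/
def ConclusionC (p N : ℕ) (S : Finset ℕ) (𝒪' : Type) [CommRing 𝒪'] [IsLocalRing 𝒪']
    (a : ℕ → 𝒪') : Prop :=
  ∃ ρ : GaloisRepAdic 𝒪',
    (∀ ℓ : ℕ, ℓ.Prime → ¬ ℓ ∣ N → ℓ ∉ (↑S : Set ℕ) →
      ∀ A : ValuationSubring (AlgebraicClosure ℚ), A.LiesOverPrime ℓ →
        ∀ σ : AlgebraicClosure ℚ ≃ₐ[ℚ] AlgebraicClosure ℚ, A.IsFrobeniusAt σ ℓ →
          LinearMap.charpoly (ρ.ρ σ) = X ^ 2 - C (a ℓ) * X + C ((ℓ : 𝒪'))) ∧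
    (∀ q : ℕ, q.Prime → ¬ q ∣ N → q ≠ p → ρ.IsUnramifiedAt q) ∧
    (∀ q : ℕ, q.Prime → q ≠ p → N.factorization q = 2 → ¬ ρ.IsUnipotentOnInertiaAt q)

/-! ### The core -/

/-- The coefficient of `X` in `X² - a X + b`. -/
theorem coeff_one_quadratic {R : Type*} [CommRing R] (a b : R) :
    (X ^ 2 - C a * X + C b : R[X]).coeff 1 = -a := by
  simp [coeff_X_pow, coeff_C]

/-- `X² - a X + b = (X - 1)²` forces `a = 2`. -/
theorem eq_two_of_quadratic_eq {R : Type*} [CommRing R] (a b : R)
    (h : (X ^ 2 - C a * X + C b : R[X]) = (X - 1) ^ 2) : a = 2 := by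
  have h' : (X - 1 : R[X]) ^ 2 = X ^ 2 - C (2 : R) * X + C (1 : R) := by
    rw [C_ofNat, C_1]
    ring
  rw [h'] at h
  have := congrArg (fun f : R[X] => f.coeff 1) h
  simp only [coeff_one_quadratic] at this
  exact neg_injective this

/-- **The algebraic core of S36**: generator-Chebotarev and an eigen-datum with the clause (C)
give a two-dimensional representation over the same ring with the exact characteristic
polynomials at the good primes which is NOT unipotent on inertia at the primes `q ≠ p` with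
`N.factorization q = 2`. -/
theorem conclusionC_of_eigenDatumC (p : ℕ) [Fact p.Prime] (N : ℕ) [NeZero N] (S : Finset ℕ)
    (hpS : p ∈ S)
    (𝒪' : Type) [CommRing 𝒪'] [IsDomain 𝒪'] [IsDiscreteValuationRing 𝒪']
    [IsAdicComplete (IsLocalRing.maximalIdeal 𝒪') 𝒪'] [Finite (IsLocalRing.ResidueField 𝒪')]
    [CharZero 𝒪'] (hp𝒪' : (p : 𝒪') ∈ IsLocalRing.maximalIdeal 𝒪') (a : ℕ → 𝒪')
    (hG : Stmt_GenCheb) (hE : EigenDatumC p N S 𝒪' a) : ConclusionC p N S 𝒪' a := by
  obtain ⟨M, i1, i2, i3, i4, ρ, hnt, hcont, hunr, hfrob, hC⟩ := hE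
  obtain ⟨ε, hεc, hεu, hεf, hεo⟩ := stmt_Cyclo p 𝒪' hp𝒪'
  -- QUAD: a quadratic relation for every element
  have hquad : ∀ g : Gal, ∃ t : 𝒪', ρ g * ρ g - t • ρ g + ((ε g : 𝒪'ˣ) : 𝒪') • 1 = 0 := by
    intro g
    refine Fermat.Agent.S30.helper3194.exists_quadratic_of_genCheb hG ρ hcont ε hεc
      (S ∪ N.primeFactors) a ?_ g
    intro ℓ hℓ hℓT A hA σ hσ
    have hℓS : ℓ ∉ S := fun h => hℓT (Finset.mem_union_left _ h)
    have hℓN : ¬ ℓ ∣ N := fun h =>
      hℓT (Finset.mem_union_right _ (Nat.mem_primeFactors.mpr ⟨hℓ, h, NeZero.ne N⟩))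
    have hℓp : ℓ ≠ p := fun h => hℓS (h ▸ hpS)
    rw [hεf ℓ hℓ hℓp A hA σ hσ]
    exact hfrob ℓ hℓ hℓN hℓS A hA σ hσ
  choose t ht using hquad
  have hrel : ∀ (g : Gal) (m : M), ρ g (ρ g m) - t g • ρ g m + ((ε g : 𝒪'ˣ) : 𝒪') • m = 0 := by
    intro g m
    have h := congrArg (fun f : Module.End 𝒪' M => f m) (ht g)
    simpa using h
  have h2 : (2 : 𝒪') ≠ 0 := two_ne_zero
  have hεc' : ((ε complexConjugation : 𝒪'ˣ) : 𝒪') = -1 := by
    rw [hεo, Units.val_neg, Units.val_one]
  obtain ⟨V, j1, j2, j3, j4, ρ', hrank, hchar, htriv, hcong⟩ :=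
    Fermat.Agent.S30.helper2646.abstract_core h2 ρ t ε complexConjugation hrel
      complexConjugation_mul_self hεc'
  -- the scalar at a good Frobenius lift is the prescribed one
  have ht_frob : ∀ ℓ : ℕ, ℓ.Prime → ¬ ℓ ∣ N → ℓ ∉ S →
      ∀ A : ValuationSubring (AlgebraicClosure ℚ), A.LiesOverPrime ℓ →
        ∀ σ : Gal, A.IsFrobeniusAt σ ℓ → t σ = a ℓ ∧ ((ε σ : 𝒪'ˣ) : 𝒪') = (ℓ : 𝒪') := by
    intro ℓ hℓ hℓN hℓS A hA σ hσ
    have hℓp : ℓ ≠ p := fun h => hℓS (h ▸ hpS)
    have hεσ : ((ε σ : 𝒪'ˣ) : 𝒪') = (ℓ : 𝒪') := hεf ℓ hℓ hℓp A hA σ hσ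
    refine ⟨?_, hεσ⟩
    obtain ⟨m, hm⟩ := exists_ne (0 : M)
    have e1 := hrel σ (ρ σ⁻¹ m)
    have e2 := congrArg (fun f : Module.End 𝒪' M => f (ρ σ⁻¹ m)) (hfrob ℓ hℓ hℓN hℓS A hA σ hσ)
    have e3 : ρ σ (ρ σ⁻¹ m) = m := by
      rw [← Module.End.mul_apply, ← map_mul, mul_inv_cancel, map_one, Module.End.one_apply]
    rw [hεσ, e3] at e1
    simp only [LinearMap.add_apply, LinearMap.sub_apply, Module.End.mul_apply,
      LinearMap.smul_apply, Module.End.one_apply, LinearMap.zero_apply] at e2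
    rw [e3] at e2
    have e4 : (t σ - a ℓ) • m = 0 := by
      rw [sub_smul]
      have : t σ • m - a ℓ • m = (ρ σ m - a ℓ • m + (ℓ : 𝒪') • ρ σ⁻¹ m)
          - (ρ σ m - t σ • m + (ℓ : 𝒪') • ρ σ⁻¹ m) := by abel
      rw [this, e1, e2, sub_zero]
    rcases smul_eq_zero.mp e4 with h | h
    · exact sub_eq_zero.mp h
    · exact absurd h hm
  -- the representation
  let R : GaloisRepAdic 𝒪' :=
    { V := V
      finrank_eq := hrank
      ρ := ρ'
      isAdicContinuous := by
        intro n
        obtain ⟨L₁, hL₁, h₁⟩ := hcont n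
        obtain ⟨L₂, hL₂, h₂⟩ := hεc n
        have : FiniteDimensional ℚ (L₁ ⊔ L₂ : IntermediateField ℚ (AlgebraicClosure ℚ)) :=
          IntermediateField.finiteDimensional_sup L₁ L₂
        refine ⟨L₁ ⊔ L₂, inferInstance, fun σ hσ v => ?_⟩
        exact hcong (IsLocalRing.maximalIdeal 𝒪' ^ n) σ
          (h₁ σ fun x hx => hσ x ((le_sup_left : L₁ ≤ L₁ ⊔ L₂) hx))
          (h₂ σ fun x hx => hσ x ((le_sup_right : L₂ ≤ L₁ ⊔ L₂) hx)) v }
  refine ⟨R, ?_, ?_, ?_⟩
  · intro ℓ hℓ hℓN hℓS A hA σ hσ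
    obtain ⟨e1, e2⟩ := ht_frob ℓ hℓ hℓN (by simpa using hℓS) A hA σ hσ
    show LinearMap.charpoly (ρ' σ) = _
    rw [hchar σ, e1, e2]
  · intro q hq hqN hqp P hP σ hσ
    show ρ' σ = 1
    refine htriv σ (hunr q hq hqN hqp P hP σ hσ) ?_
    rw [hεu q hq hqp P hP σ hσ, Units.val_one]
  · -- the Carayol clause
    intro q hq hqp hfac hunip
    obtain ⟨A, hA, hfix⟩ := hC q hq hqp hfac
    have hsq : ∀ σ ∈ A.inertiaSubgroupIn ℚ, (ρ σ - 1) * (ρ σ - 1) = 0 := by
      intro σ hσ
      have hc : LinearMap.charpoly (ρ' σ) = (X - 1) ^ 2 := hunip A hA σ hσ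
      have hε1 : ((ε σ : 𝒪'ˣ) : 𝒪') = 1 := by
        rw [hεu q hq hqp A hA σ hσ, Units.val_one]
      rw [hchar σ] at hc
      have ht2 : t σ = 2 := eq_two_of_quadratic_eq _ _ hc
      have h := ht σ
      rw [ht2, hε1, one_smul] at h
      have : (ρ σ - 1) * (ρ σ - 1) = ρ σ * ρ σ - (2 : 𝒪') • ρ σ + 1 := by
        rw [two_smul]
        noncomm_ring
      rw [this, h]
    obtain ⟨v, hv, hvfix⟩ := exists_fixed_of_sq_zero h2 ρ (A.inertiaSubgroupIn ℚ) hsq
    exact hv (hfix v hvfix)

/-! ### The frozen statement -/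

/-- **Geometric side of S36**: the eigensystem of a newform has an eigen-datum with the Carayol
clause (C) over every complete DVR receiving its Hecke eigenvalues. -/
def Stmt_EigenC : Prop :=
  ∀ {M : ℕ} [NeZero M] {g : CuspForm (CongruenceSubgroup.Gamma0 M) 2} (_hg : g.IsNewform)
    (lam : ℕ) [Fact lam.Prime] (S : Finset ℕ)
    (O' : Type) [CommRing O'] [IsDomain O'] [IsDiscreteValuationRing O']
    [IsAdicComplete (IsLocalRing.maximalIdeal O') O'] [Finite (IsLocalRing.ResidueField O')]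
    [CharZero O'] (_hlamO' : (lam : O') ∈ IsLocalRing.maximalIdeal O')
    (chig : CuspForm.heckeAlgebra M 2 (↑S : Set ℕ) →+* ℂ)
    (_hchig : ∀ (ℓ : ℕ) (hℓ : ℓ.Prime) (hℓM : ¬ ℓ ∣ M) (hℓS : ℓ ∉ (↑S : Set ℕ)),
      chig (CuspForm.heckeAlgebra.T hℓ hℓM hℓS) = ModularFormClass.qCoeff g ℓ)
    (iota : chig.range →+* O')
    (_hlamS : lam ∈ S) (_hMS : ∀ q : ℕ, q.Prime → q ∣ M → q ∈ S),
    EigenDatumC lam M S O' (eigenvalue (iota.comp chig.rangeRestrict))

/-- **The frozen statement S36** from the geometric side `Stmt_EigenC` and generator-Chebotarev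
(the coefficient ring is not extended; `hres` and `lam ≠ 2` are not used). -/
theorem result_of (hE : Stmt_EigenC) (hG : Stmt_GenCheb)
    {M : ℕ} [NeZero M] {g : CuspForm (CongruenceSubgroup.Gamma0 M) 2} (hg : g.IsNewform)
    (lam : ℕ) [Fact lam.Prime]
    (S : Finset ℕ)
    (O' : Type) [CommRing O'] [IsDomain O'] [IsDiscreteValuationRing O']
    [IsAdicComplete (IsLocalRing.maximalIdeal O') O'] [Finite (IsLocalRing.ResidueField O')]
    [CharZero O'] (hlamO' : (lam : O') ∈ IsLocalRing.maximalIdeal O')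
    (_hlam2 : lam ≠ 2)
    (chig : CuspForm.heckeAlgebra M 2 (↑S : Set ℕ) →+* ℂ)
    (hchig : ∀ (ℓ : ℕ) (hℓ : ℓ.Prime) (hℓM : ¬ ℓ ∣ M) (hℓS : ℓ ∉ (↑S : Set ℕ)),
      chig (CuspForm.heckeAlgebra.T hℓ hℓM hℓS) = ModularFormClass.qCoeff g ℓ)
    (iota : chig.range →+* O')
    (hlamS : lam ∈ S) (hMS : ∀ q : ℕ, q.Prime → q ∣ M → q ∈ S)
    (_hres : ∀ (O'' : Type) [CommRing O''] [IsDomain O''] [IsDiscreteValuationRing O'']
      [IsAdicComplete (IsLocalRing.maximalIdeal O'') O''] [Finite (IsLocalRing.ResidueField O'')] [CharZero O'']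
      [Algebra O' O''] [Module.Finite O' O''] [IsLocalHom (algebraMap O' O'')],
      Function.Injective (algebraMap O' O'') → ∀ (ρ : GaloisRepAdic O''),
      (∀ (ℓ : ℕ) (hℓ : ℓ.Prime) (hℓlam : ℓ ≠ lam) (hℓM : ¬ ℓ ∣ M) (hℓS : ℓ ∉ (↑S : Set ℕ)),
        ∀ A : ValuationSubring (AlgebraicClosure ℚ), A.LiesOverPrime ℓ →
          ∀ σ : AlgebraicClosure ℚ ≃ₐ[ℚ] AlgebraicClosure ℚ, A.IsFrobeniusAt σ ℓ →
            LinearMap.charpoly (ρ.ρ σ) =
              X ^ 2 - C (algebraMap O' O'' ((iota.comp chig.rangeRestrict) (CuspForm.heckeAlgebra.T hℓ hℓM hℓS))) * X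
                + C ((ℓ : O'')))
      → ρ.residual.IsAbsolutelyIrreducible ∧ ρ.residual.IsOdd)
    :
    ∃ (O'' : Type) (_ : CommRing O'') (_ : IsDomain O'') (_ : IsDiscreteValuationRing O'')
      (_ : IsAdicComplete (IsLocalRing.maximalIdeal O'') O'') (_ : Finite (IsLocalRing.ResidueField O''))
      (_ : CharZero O'') (_ : Algebra O' O'') (_ : Module.Finite O' O'') (_ : IsLocalHom (algebraMap O' O'')),
      Function.Injective (algebraMap O' O'') ∧
      ∃ ρ : GaloisRepAdic O'',
        (∀ (ℓ : ℕ) (hℓ : ℓ.Prime) (hℓM : ¬ ℓ ∣ M) (hℓS : ℓ ∉ (↑S : Set ℕ)),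
          ∀ A : ValuationSubring (AlgebraicClosure ℚ), A.LiesOverPrime ℓ →
            ∀ σ : AlgebraicClosure ℚ ≃ₐ[ℚ] AlgebraicClosure ℚ, A.IsFrobeniusAt σ ℓ →
              LinearMap.charpoly (ρ.ρ σ) =
                X ^ 2 - C (algebraMap O' O'' ((iota.comp chig.rangeRestrict) (CuspForm.heckeAlgebra.T hℓ hℓM hℓS))) * X
                  + C ((ℓ : O''))) ∧
        (∀ q : ℕ, q.Prime → q ≠ lam → M.factorization q = 2 → ¬ ρ.IsUnipotentOnInertiaAt q) := by
  obtain ⟨ρ, h1, -, h3⟩ :=
    conclusionC_of_eigenDatumC lam M S hlamS O' hlamO' (eigenvalue (iota.comp chig.rangeRestrict)) hG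
      (hE hg lam S O' hlamO' chig hchig iota hlamS hMS)
  refine ⟨O', inferInstance, inferInstance, inferInstance, inferInstance, inferInstance,
    inferInstance, Algebra.id O', inferInstance, ?_, Function.injective_id, ρ, ?_, h3⟩
  · show IsLocalHom (RingHom.id O')
    infer_instance
  · intro ℓ hℓ hℓM hℓS A hA σ hσ
    rw [h1 ℓ hℓ hℓM hℓS A hA σ hσ, eigenvalue_eq (iota.comp chig.rangeRestrict) hℓ hℓM hℓS]
    rfl

end Fermat.Agent.S36.helper5415
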