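import Mathlib
import Fermat.Agent.S36.helper5415_CoreC
import Fermat.Agent.S36.helper1195_E1C

/-!
# S36: the frozen statement from the machine statements  (helper1195)

Assembly of the two landed geometry-free seams of S36:

* `helper5415.result_of`     : frozen S36 `⟸ Stmt_EigenC + Stmt_GenCheb`  (S30 core + Kolchin);
* `helper1195.stmt_EigenInv_of` : `Stmt_UPow → Stmt_ESPow → Stmt_KerOpsC → Stmt_EigenInv`
  (Tate module, eigen-lattice in the kernel of the kernel operators, flat base change of the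
  inertia invariants).

The bridge is `stmt_EigenC_of_inv : Stmt_EigenInv → helper5415.Stmt_EigenC` (the "for all `A` over
`q`" form implies the "there is `A` over `q`" form because every prime has a valuation subring of
`ℚ̄` over it, `exists_liesOverPrime`).

Result: `result_of_kerOpsC` = the frozen statement S36 from

* `Stmt_UPow`, `Stmt_ESPow` : the S30 machine statements (inertia-triviality and Eichler–Shimura
  on `J₀(M)[λ^∞]` at the good primes), shared with S30 / S31 / S34 / S35;
* `Stmt_KerOpsC` : ONE S36-specific statement about `J₀(M)`: kernel operators commuting with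
  Galois, (KILL) of findings #3001 on `J₀(M)[λ^∞] ∩ ⋂ ker B k`, and a lattice with twins of the
  Hecke operators and of the kernel operators in whose kernel every newform eigensystem occurs.
-/

set_option autoImplicit false
set_option linter.overlappingInstances false
set_option linter.unusedVariables false

open Polynomial

namespace Fermat.Agent.S36.helper1195

open Fermat.Agent.S30.helper54 Fermat.Agent.S30.helper831

/-- Every prime number has a valuation subring of `ℚ̄` lying over it (Chevalley). -/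
theorem exists_liesOverPrime {q : ℕ} (hq : q.Prime) :
    ∃ A : ValuationSubring (AlgebraicClosure ℚ), A.LiesOverPrime q := by
  let f : ℤ →+* AlgebraicClosure ℚ := Int.castRingHom (AlgebraicClosure ℚ)
  have hf : Function.Injective f := RingHom.injective_int f
  let e : ℤ ≃+* f.range :=
    RingEquiv.ofBijective f.rangeRestrict ⟨fun a b h => hf (congrArg Subtype.val h),
      f.rangeRestrict_surjective⟩
  let P : Ideal ℤ := Ideal.span {(q : ℤ)}
  have hP : P ≠ ⊤ := by
    intro h
    have h1 : (1 : ℤ) ∈ P := by rw [h]; trivial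
    rw [Ideal.mem_span_singleton] at h1
    have h2 : (q : ℤ) ∣ ((1 : ℕ) : ℤ) := by simpa using h1
    exact hq.one_lt.ne' (Nat.dvd_one.mp (Int.natCast_dvd_natCast.mp h2))
  let I : Ideal f.range := P.comap (e.symm : f.range →+* ℤ)
  have hI : I ≠ ⊤ := Ideal.comap_ne_top _ hP
  obtain ⟨B, -, hB2⟩ := Ideal.image_subset_nonunits_valuationSubring I hI
  refine ⟨B, ?_⟩
  show ((q : ℕ) : AlgebraicClosure ℚ) ∈ B.nonunits
  apply hB2
  refine ⟨e (q : ℤ), ?_, ?_⟩
  · show (e.symm (e (q : ℤ))) ∈ P
    rw [RingEquiv.symm_apply_apply]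
    exact Ideal.mem_span_singleton_self _
  · show f (q : ℤ) = ((q : ℕ) : AlgebraicClosure ℚ)
    simp [f]

/-- The "for all `A`" form of the inertia clause implies the "there is `A`" form of
`helper5415.EigenDatumC`. -/
theorem eigenDatumC_of_inv {p N : ℕ} {S : Finset ℕ} {R : Type} [CommRing R] [IsLocalRing R]
    {a : ℕ → R} (h : EigenDatumInv p N S R a (sqPlaces p N)) :
    Fermat.Agent.S36.helper5415.EigenDatumC p N S R a := by
  obtain ⟨M, i1, i2, i3, i4, ρ, h1, h2, h3, h4, h5⟩ := h
  refine ⟨M, i1, i2, i3, i4, ρ, h1, h2, h3, h4, ?_⟩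
  intro q hq hqp hq2
  obtain ⟨A, hA⟩ := exists_liesOverPrime hq
  exact ⟨A, hA, h5 A (mem_sqPlaces hq hqp hq2 hA)⟩

/-- `helper5415.Stmt_EigenC` from `Stmt_EigenInv`. -/
theorem stmt_EigenC_of_inv (h : Stmt_EigenInv) : Fermat.Agent.S36.helper5415.Stmt_EigenC := by
  intro M _ g hg lam _ S O' _ _ _ _ _ _ hlamO' chig hchig iota hlamS hMS
  exact eigenDatumC_of_inv (h hg lam S O' hlamO' chig hchig iota hlamS hMS)

/-- `helper5415.Stmt_EigenC` from the machine statements. -/
theorem stmt_EigenC_of (hU : Stmt_UPow) (hES : Stmt_ESPow) (hK : Stmt_KerOpsC) :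
    Fermat.Agent.S36.helper5415.Stmt_EigenC :=
  stmt_EigenC_of_inv (stmt_EigenInv_of hU hES hK)

/-- **The frozen statement S36** from the machine statements: (U), (ES) on `lam`-power torsion
at the good primes (shared with S30) and the kernel operators with (KILL), `Stmt_KerOpsC`. -/
theorem result_of_kerOpsC (hU : Stmt_UPow) (hES : Stmt_ESPow) (hK : Stmt_KerOpsC)
    {M : ℕ} [NeZero M] {g : CuspForm (CongruenceSubgroup.Gamma0 M) 2} (hg : g.IsNewform)
    (lam : ℕ) [Fact lam.Prime]
    (S : Finset ℕ)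
    (O' : Type) [CommRing O'] [IsDomain O'] [IsDiscreteValuationRing O']
    [IsAdicComplete (IsLocalRing.maximalIdeal O') O'] [Finite (IsLocalRing.ResidueField O')]
    [CharZero O'] (hlamO' : (lam : O') ∈ IsLocalRing.maximalIdeal O')
    (hlam2 : lam ≠ 2)
    (chig : CuspForm.heckeAlgebra M 2 (↑S : Set ℕ) →+* ℂ)
    (hchig : ∀ (ℓ : ℕ) (hℓ : ℓ.Prime) (hℓM : ¬ ℓ ∣ M) (hℓS : ℓ ∉ (↑S : Set ℕ)),
      chig (CuspForm.heckeAlgebra.T hℓ hℓM hℓS) = ModularFormClass.qCoeff g ℓ)
    (iota : chig.range →+* O')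
    (hlamS : lam ∈ S) (hMS : ∀ q : ℕ, q.Prime → q ∣ M → q ∈ S)
    (hres : ∀ (O'' : Type) [CommRing O''] [IsDomain O''] [IsDiscreteValuationRing O'']
      [IsAdicComplete (IsLocalRing.maximalIdeal O'') O''] [Finite (IsLocalRing.ResidueField O'')] [CharZero O'']
      [Algebra O' O''] [Module.Finite O' O''] [IsLocalHom (algebraMap O' O'')],
      Function.Injective (algebraMap O' O'') → ∀ (ρ : GaloisRepAdic O''),
      (∀ (ℓ : ℕ) (hℓ : ℓ.Prime) (hℓlam : ℓ ≠ lam) (hℓM : ¬ ℓ ∣ M) (hℓS : ℓ ∉ (↑S : Set ℕ)),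
        ∀ A : ValuationSubring (AlgebraicClosure ℚ), A.LiesOverPrime ℓ →
          ∀ σ : AlgebraicClosure ℚ ≃ₐ[ℚ] AlgebraicClosure ℚ, A.IsFrobeniusAt σ ℓ →
            LinearMap.charpoly (ρ.ρ σ) =
              X ^ 2 - C (algebraMap O' O'' ((iota.comp chig.rangeRestrict) (CuspForm.heckeAlgebra.T hℓ hℓM hℓS))) * X
                + C ((ℓ : O'')))
      → ρ.residual.IsAbsolutelyIrreducible ∧ ρ.residual.IsOdd)
    :
    ∃ (O'' : Type) (_ : CommRing O'') (_ : IsDomain O'') (_ : IsDiscreteValuationRing O'')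
      (_ : IsAdicComplete (IsLocalRing.maximalIdeal O'') O'') (_ : Finite (IsLocalRing.ResidueField O''))
      (_ : CharZero O'') (_ : Algebra O' O'') (_ : Module.Finite O' O'') (_ : IsLocalHom (algebraMap O' O'')),
      Function.Injective (algebraMap O' O'') ∧
      ∃ ρ : GaloisRepAdic O'',
        (∀ (ℓ : ℕ) (hℓ : ℓ.Prime) (hℓM : ¬ ℓ ∣ M) (hℓS : ℓ ∉ (↑S : Set ℕ)),
          ∀ A : ValuationSubring (AlgebraicClosure ℚ), A.LiesOverPrime ℓ →
            ∀ σ : AlgebraicClosure ℚ ≃ₐ[ℚ] AlgebraicClosure ℚ, A.IsFrobeniusAt σ ℓ →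
              LinearMap.charpoly (ρ.ρ σ) =
                X ^ 2 - C (algebraMap O' O'' ((iota.comp chig.rangeRestrict) (CuspForm.heckeAlgebra.T hℓ hℓM hℓS))) * X
                  + C ((ℓ : O''))) ∧
        (∀ q : ℕ, q.Prime → q ≠ lam → M.factorization q = 2 → ¬ ρ.IsUnipotentOnInertiaAt q) :=
  Fermat.Agent.S36.helper5415.result_of (stmt_EigenC_of hU hES hK)
    Fermat.Agent.S30.helper54.stmt_GenCheb
    hg lam S O' hlamO' hlam2 chig hchig iota hlamS hMS hres

end Fermat.Agent.S36.helper1195
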