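import Mathlib
import Fermat.Agent.S36.helper1195_E1C

/-!
# S36-KEROPS-WIRE: `Stmt_KerOpsC` from per-prime operator families  (helper1195)

Twin of the landed S35 wiring `helper1989.stmt_KerOps_of_uw`.

`helper1195.Stmt_KerOpsC` (the one S36-specific input of `helper1195.result_of_kerOpsC`) asks for a
finite family of kernel operators on `J₀(M)`.  In the application the family is indexed by the
primes `q ≠ lam` with `q² ∥ M` and a Boolean: the two operators `α^* α_*` and `β^* β_*` (trace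
to level `M / q` followed by pull-back, along the two degeneracy maps).  This file fixes the
seams for the owners of the three independent inputs, for TOTAL families
`Ba Bb : ℕ → J₀(M) →+ J₀(M)` (only the values at the primes `q` with `SqPrime lam M q` matter):

* `GalOps M lam Ba Bb`  : the operators commute with the Galois action;
* `KillOps M lam Ba Bb` : (KILL) of findings #3001 — for `q` with `SqPrime lam M q` and a valuation
  subring `A` over `q` there is `c ≠ 0` with `c • x = 0` for every point `x` of `lam`-power order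
  with `Ba q x = 0`, `Bb q x = 0` (ONLY the two operators at `q`) fixed by the inertia group of
  `A`;
* `LatOps M lam S Ba Bb` : a lattice `Λ` with level-wise injections `Λ / lam ^ n → J₀(M)[lam ^ n]`
  compatible in `n`, twins `t ℓ` of the Hecke operators at the good primes and twins `ba q`,
  `bb q` of `Ba q`, `Bb q`, and the occurrence of every newform eigensystem in the common kernel
  of the twins.

`stmt_KerOpsC_of_ab` : `Stmt_ABOps → Stmt_KerOpsC` (existential form);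
`stmt_KerOpsC_of_ops` : the same for operator families fixed once and for all.
-/

set_option autoImplicit false
set_option linter.overlappingInstances false

open scoped TensorProduct

namespace Fermat.Agent.S36.helper1195

open ModularCurve Fermat.Agent.S30.helper54

/-- The primes `q ≠ lam` with `q² ∥ M`. -/
def SqPrime (lam M q : ℕ) : Prop := q.Prime ∧ q ≠ lam ∧ M.factorization q = 2

theorem SqPrime.dvd {lam M q : ℕ} (h : SqPrime lam M q) : q ∣ M :=
  Nat.dvd_of_factorization_pos (by rw [h.2.2]; norm_num)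

theorem finite_sqPrime (lam M : ℕ) [NeZero M] : Finite {q : ℕ // SqPrime lam M q} := by
  have hfin : {q : ℕ | SqPrime lam M q}.Finite :=
    Set.Finite.subset (Set.finite_Iic M) fun q hq =>
      Nat.le_of_dvd (Nat.pos_of_ne_zero (NeZero.ne M)) hq.dvd
  exact hfin.to_subtype

/-- The kernel operators commute with the Galois action. -/
def GalOps (M : ℕ) [NeZero M] (lam : ℕ) (Ba Bb : ℕ → JZero M →+ JZero M) : Prop :=
  ∀ q : ℕ, SqPrime lam M q → ∀ (σ : Gal) (x : JZero M),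
    σ • Ba q x = Ba q (σ • x) ∧ σ • Bb q x = Bb q (σ • x)

/-- **(KILL)**, per prime: inertia-fixed `lam`-power torsion killed by the two kernel operators
at `q` is killed by a nonzero integer. -/
def KillOps (M : ℕ) [NeZero M] (lam : ℕ) (Ba Bb : ℕ → JZero M →+ JZero M) : Prop :=
  ∀ q : ℕ, SqPrime lam M q →
    ∀ A : ValuationSubring (AlgebraicClosure ℚ), A.LiesOverPrime q →
      ∃ c : ℕ, c ≠ 0 ∧ ∀ x : JZero M, (∃ n : ℕ, lam ^ n • x = 0) → Ba q x = 0 → Bb q x = 0 →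
        (∀ σ ∈ A.inertiaSubgroupIn ℚ, σ • x = x) → c • x = 0

/-- **Lattice twins and occurrence**, per prime: the lattice clauses of `Stmt_KerOpsC` for the
kernel operators `Ba q`, `Bb q`. -/
def LatOps (M : ℕ) [NeZero M] (lam : ℕ) (S : Finset ℕ) (Ba Bb : ℕ → JZero M →+ JZero M) : Prop :=
  ∃ (Λ : Type) (_ : AddCommGroup Λ) (_ : Module.Free ℤ Λ) (_ : Module.Finite ℤ Λ)
    (t ba bb : ℕ → Module.End ℤ Λ) (ι : ℕ → Λ →+ JZero M),
    (∀ (n : ℕ) (x : Λ), lam ^ n • ι n x = 0) ∧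
    (∀ (n : ℕ) (x : Λ), ι n x = 0 → ∃ y : Λ, x = lam ^ n • y) ∧
    (∀ (n : ℕ) (x : Λ), lam • ι (n + 1) x = ι n x) ∧
    (∀ (ℓ : ℕ) (hℓ : ℓ.Prime), ¬ ℓ ∣ M → ℓ ∉ S → ∀ (n : ℕ) (x : Λ),
      ι n (t ℓ x) = heckeOperatorBar M ⟨ℓ, hℓ⟩ (ι n x)) ∧
    (∀ q : ℕ, SqPrime lam M q → ∀ (n : ℕ) (x : Λ), ι n (ba q x) = Ba q (ι n x)) ∧
    (∀ q : ℕ, SqPrime lam M q → ∀ (n : ℕ) (x : Λ), ι n (bb q x) = Bb q (ι n x)) ∧
    ∀ {g : CuspForm (CongruenceSubgroup.Gamma0 M) 2} (_hg : g.IsNewform)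
      (O' : Type) [CommRing O'] [IsDomain O'] [IsDiscreteValuationRing O']
      [IsAdicComplete (IsLocalRing.maximalIdeal O') O'] [Finite (IsLocalRing.ResidueField O')]
      [CharZero O'] (_hlamO' : (lam : O') ∈ IsLocalRing.maximalIdeal O')
      (chig : CuspForm.heckeAlgebra M 2 (↑S : Set ℕ) →+* ℂ)
      (_hchig : ∀ (ℓ : ℕ) (hℓ : ℓ.Prime) (hℓM : ¬ ℓ ∣ M) (hℓS : ℓ ∉ (↑S : Set ℕ)),
        chig (CuspForm.heckeAlgebra.T hℓ hℓM hℓS) = ModularFormClass.qCoeff g ℓ)
      (iota : chig.range →+* O'),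
      ∃ y : O' ⊗[ℤ] Λ, y ≠ 0 ∧
        (∀ (ℓ : ℕ) (hℓ : ℓ.Prime) (hℓM : ¬ ℓ ∣ M) (hℓS : ℓ ∉ (↑S : Set ℕ)),
          (t ℓ).baseChange O' y
            = (iota.comp chig.rangeRestrict) (CuspForm.heckeAlgebra.T hℓ hℓM hℓS) • y) ∧
        (∀ q : ℕ, SqPrime lam M q →
          (ba q).baseChange O' y = 0 ∧ (bb q).baseChange O' y = 0)

/-- **`Stmt_KerOpsC` in per-prime form**: for every level `M`, prime `lam` and set `S` there are
two families of additive operators on `J₀(M)` (intended: `α^* α_*` and `β^* β_*` at the primes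
`q ≠ lam` with `q² ∥ M`) satisfying `GalOps`, `KillOps` and `LatOps`. -/
def Stmt_ABOps : Prop :=
  ∀ (M : ℕ) [NeZero M] (lam : ℕ) [Fact lam.Prime] (S : Finset ℕ)
    (_hlamS : lam ∈ S) (_hMS : ∀ q : ℕ, q.Prime → q ∣ M → q ∈ S),
    ∃ (Ba Bb : ℕ → JZero M →+ JZero M),
      GalOps M lam Ba Bb ∧ KillOps M lam Ba Bb ∧ LatOps M lam S Ba Bb

/-- `Stmt_KerOpsC` from its per-prime form. -/
theorem stmt_KerOpsC_of_ab (h : Stmt_ABOps) : Stmt_KerOpsC := by
  intro M _ lam _ S hlamS hMS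
  obtain ⟨Ba, Bb, hgal, hkill, Λ, i1, i2, i3, t, ba, bb, ι, hι1, hι2, hι3, hι4, hιa, hιb, hocc⟩ :=
    h M lam S hlamS hMS
  have := finite_sqPrime lam M
  -- the kernel operators
  let B : {q : ℕ // SqPrime lam M q} × Bool → JZero M →+ JZero M := fun k =>
    if k.2 then Bb k.1.1 else Ba k.1.1
  let b : {q : ℕ // SqPrime lam M q} × Bool → Module.End ℤ Λ := fun k =>
    if k.2 then bb k.1.1 else ba k.1.1
  have hB0 : ∀ q : {q : ℕ // SqPrime lam M q}, B (q, false) = Ba q.1 := fun _ => rfl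
  have hB1 : ∀ q : {q : ℕ // SqPrime lam M q}, B (q, true) = Bb q.1 := fun _ => rfl
  have hb0 : ∀ q : {q : ℕ // SqPrime lam M q}, b (q, false) = ba q.1 := fun _ => rfl
  have hb1 : ∀ q : {q : ℕ // SqPrime lam M q}, b (q, true) = bb q.1 := fun _ => rfl
  refine ⟨{q : ℕ // SqPrime lam M q} × Bool, inferInstance, B, ?_, ?_, Λ, i1, i2, i3, t, b, ι,
    hι1, hι2, hι3, hι4, ?_, ?_⟩
  · rintro ⟨q, c⟩ σ x
    cases c
    · rw [hB0]
      exact (hgal q.1 q.2 σ x).1
    · rw [hB1]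
      exact (hgal q.1 q.2 σ x).2
  · intro q hq hqlam hq2 A hA
    have hsq : SqPrime lam M q := ⟨hq, hqlam, hq2⟩
    obtain ⟨c, hc0, hc⟩ := hkill q hsq A hA
    refine ⟨c, hc0, fun x hx hxB hxI => hc x hx ?_ ?_ hxI⟩
    · have h0 := hxB (⟨q, hsq⟩, false)
      rwa [hB0] at h0
    · have h1 := hxB (⟨q, hsq⟩, true)
      rwa [hB1] at h1
  · rintro ⟨q, c⟩ n x
    cases c
    · rw [hb0, hB0]
      exact hιa q.1 q.2 n x
    · rw [hb1, hB1]
      exact hιb q.1 q.2 n x
  · intro g hg O' _ _ _ _ _ _ hlamO' chig hchig iota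
    obtain ⟨y, hy0, hyt, hyq⟩ := hocc hg O' hlamO' chig hchig iota
    refine ⟨y, hy0, hyt, ?_⟩
    rintro ⟨q, c⟩
    cases c
    · rw [hb0]
      exact (hyq q.1 q.2).1
    · rw [hb1]
      exact (hyq q.1 q.2).2

/-- `Stmt_KerOpsC` for operator families fixed once and for all (e.g. `Ba M q = α^* α_*`,
`Bb M q = β^* β_*`, with junk values outside the primes `q` with `q² ∣ M`). -/
theorem stmt_KerOpsC_of_ops (Ba Bb : ∀ (M : ℕ) [NeZero M], ℕ → JZero M →+ JZero M)
    (hgal : ∀ (M : ℕ) [NeZero M] (lam : ℕ), GalOps M lam (Ba M) (Bb M))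
    (hkill : ∀ (M : ℕ) [NeZero M] (lam : ℕ) [Fact lam.Prime], KillOps M lam (Ba M) (Bb M))
    (hlat : ∀ (M : ℕ) [NeZero M] (lam : ℕ) [Fact lam.Prime] (S : Finset ℕ),
      lam ∈ S → (∀ q : ℕ, q.Prime → q ∣ M → q ∈ S) → LatOps M lam S (Ba M) (Bb M)) :
    Stmt_KerOpsC :=
  stmt_KerOpsC_of_ab fun M _ lam _ S hlamS hMS =>
    ⟨Ba M, Bb M, hgal M lam, hkill M lam, hlat M lam S hlamS hMS⟩

end Fermat.Agent.S36.helper1195
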