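import Mathlib
import Fermat.Agent.S36.helper1195_Assemble
import Fermat.Agent.S36.helper1195_KerOpsWire
import Fermat.Agent.S29.helper405_ESFinal
import Fermat.Agent.S18.helper789_LineInst

/-!
# S36: the frozen statement from the kernel operators alone  (helper1195)

The S30 machine statements `(U)`, `(ES)` on `J₀(M)[λ^∞]` at the good primes are theorems on main
since S18 landed (`S18.helper2118.kf0_of_kfr` + `S18.helper789.stmt_KFr_two/three`, then
`S29.helper405.stmt_UMod_of_kf0`, `stmt_ESMod_of_kf0` and `S30.helper831.stmt_UPow_of_mod`,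
`stmt_ESPow_of_mod` — the same chain as in the landed `Fermat/Agent/S30.lean`).  This file
discharges them in the S36 chain of record:

* `stmt_KF0All'`, `stmt_UPow`, `stmt_ESPow` : the machine statements, unconditional;
* `result_of_kerOpsC_closed (hK : Stmt_KerOpsC)` : the frozen statement S36 from `Stmt_KerOpsC`;
* `result_of_ops Ba Bb hgal hkill hlat` : the frozen statement S36 from the three per-prime
  operator seams `GalOps`, `KillOps`, `LatOps` of `helper1195_KerOpsWire`.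

So `Fermat/Agent/S36.lean` is
`result := helper1195.result_of_ops kerA kerB hgal hkill hlat hg lam S O' hlamO' hlam2 chig hchig
  iota hlamS hMS hres`.
-/

set_option autoImplicit false
set_option linter.overlappingInstances false
set_option linter.unusedVariables false

open Polynomial

namespace Fermat.Agent.S36.helper1195

open Fermat.Agent.S30.helper54 Fermat.Agent.S30.helper831 ModularCurve

/-- **(KF0) at every level and every good prime** — the S18 export, a theorem on main. -/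
theorem stmt_KF0All' : Fermat.Agent.S29.helper405.Stmt_KF0All := fun N _ ℓ hℓ hℓN =>
  Fermat.Agent.S18.helper2118.kf0_of_kfr Fermat.Agent.S18.helper789.stmt_KFr_two
    Fermat.Agent.S18.helper789.stmt_KFr_three N ℓ hℓ hℓN

/-- **(U) on `J₀(N)[p^∞]` at the good primes**, unconditional. -/
theorem stmt_UPow : Stmt_UPow :=
  stmt_UPow_of_mod (Fermat.Agent.S29.helper405.stmt_UMod_of_kf0 stmt_KF0All')

/-- **(ES) on `J₀(N)[p^∞]` at the good primes**, unconditional. -/
theorem stmt_ESPow : Stmt_ESPow :=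
  stmt_ESPow_of_mod (Fermat.Agent.S29.helper405.stmt_ESMod_of_kf0 stmt_KF0All')

/-- **The frozen statement S36 from `Stmt_KerOpsC` alone.** -/
theorem result_of_kerOpsC_closed (hK : Stmt_KerOpsC)
    {M : ℕ} [NeZero M] {g : CuspForm (CongruenceSubgroup.Gamma0 M) 2} (hg : g.IsNewform)
    (lam : ℕ) [Fact lam.Prime]
    (S : Finset ℕ)
    (O' : Type) [CommRing O'] [IsDomain O'] [IsDiscreteValuationRing O']
    [IsAdicComplete (IsLocalRing.maximalIdeal O') O'] [Finite (IsLocalRing.ResidueField O')]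
    [CharZero O'] (hlamO' : (lam : O') ∈ IsLocalRing.maximalIdeal O')
    (hlam2 : lam ≠ 2)
    (chig : CuspForm.heckeAlgebra M 2 (↑S : Set ℕ) →+* ℂ)
    (hchig : ∀ (ℓ : ℕ) (hℓ : ℓ.Prime) (hℓM : ¬ ℓ ∣ M) (hℓS : ℓ ∉ (↑S : Set ℕ)),
      chig (CuspForm.heckeAlgebra.T hℓ hℓM hℓS) = ModularFormClass.qCoeff g ℓ)
    (iota : chig.range →+* O')
    (hlamS : lam ∈ S) (hMS : ∀ q : ℕ, q.Prime → q ∣ M → q ∈ S)
    (hres : ∀ (O'' : Type) [CommRing O''] [IsDomain O''] [IsDiscreteValuationRing O'']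
      [IsAdicComplete (IsLocalRing.maximalIdeal O'') O''] [Finite (IsLocalRing.ResidueField O'')] [CharZero O'']
      [Algebra O' O''] [Module.Finite O' O''] [IsLocalHom (algebraMap O' O'')],
      Function.Injective (algebraMap O' O'') → ∀ (ρ : GaloisRepAdic O''),
      (∀ (ℓ : ℕ) (hℓ : ℓ.Prime) (hℓlam : ℓ ≠ lam) (hℓM : ¬ ℓ ∣ M) (hℓS : ℓ ∉ (↑S : Set ℕ)),
        ∀ A : ValuationSubring (AlgebraicClosure ℚ), A.LiesOverPrime ℓ →
          ∀ σ : AlgebraicClosure ℚ ≃ₐ[ℚ] AlgebraicClosure ℚ, A.IsFrobeniusAt σ ℓ →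
            LinearMap.charpoly (ρ.ρ σ) =
              X ^ 2 - C (algebraMap O' O'' ((iota.comp chig.rangeRestrict) (CuspForm.heckeAlgebra.T hℓ hℓM hℓS))) * X
                + C ((ℓ : O'')))
      → ρ.residual.IsAbsolutelyIrreducible ∧ ρ.residual.IsOdd)
    :
    ∃ (O'' : Type) (_ : CommRing O'') (_ : IsDomain O'') (_ : IsDiscreteValuationRing O'')
      (_ : IsAdicComplete (IsLocalRing.maximalIdeal O'') O'') (_ : Finite (IsLocalRing.ResidueField O''))
      (_ : CharZero O'') (_ : Algebra O' O'') (_ : Module.Finite O' O'') (_ : IsLocalHom (algebraMap O' O'')),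
      Function.Injective (algebraMap O' O'') ∧
      ∃ ρ : GaloisRepAdic O'',
        (∀ (ℓ : ℕ) (hℓ : ℓ.Prime) (hℓM : ¬ ℓ ∣ M) (hℓS : ℓ ∉ (↑S : Set ℕ)),
          ∀ A : ValuationSubring (AlgebraicClosure ℚ), A.LiesOverPrime ℓ →
            ∀ σ : AlgebraicClosure ℚ ≃ₐ[ℚ] AlgebraicClosure ℚ, A.IsFrobeniusAt σ ℓ →
              LinearMap.charpoly (ρ.ρ σ) =
                X ^ 2 - C (algebraMap O' O'' ((iota.comp chig.rangeRestrict) (CuspForm.heckeAlgebra.T hℓ hℓM hℓS))) * X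
                  + C ((ℓ : O''))) ∧
        (∀ q : ℕ, q.Prime → q ≠ lam → M.factorization q = 2 → ¬ ρ.IsUnipotentOnInertiaAt q) :=
  result_of_kerOpsC stmt_UPow stmt_ESPow hK hg lam S O' hlamO' hlam2 chig hchig iota hlamS hMS hres

/-- **The frozen statement S36 from the three per-prime operator seams**: two total families of
additive operators on `J₀(M)` with `GalOps` (Galois-equivariance), `KillOps` (the statement
(KILL)) and `LatOps` (lattice twins and occurrence). -/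
theorem result_of_ops
    (Ba Bb : ∀ (M : ℕ) [NeZero M], ℕ → JZero M →+ JZero M)
    (hgal : ∀ (M : ℕ) [NeZero M] (lam : ℕ), GalOps M lam (Ba M) (Bb M))
    (hkill : ∀ (M : ℕ) [NeZero M] (lam : ℕ) [Fact lam.Prime], KillOps M lam (Ba M) (Bb M))
    (hlat : ∀ (M : ℕ) [NeZero M] (lam : ℕ) [Fact lam.Prime] (S : Finset ℕ),
      lam ∈ S → (∀ q : ℕ, q.Prime → q ∣ M → q ∈ S) → LatOps M lam S (Ba M) (Bb M))
    {M : ℕ} [NeZero M] {g : CuspForm (CongruenceSubgroup.Gamma0 M) 2} (hg : g.IsNewform)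
    (lam : ℕ) [Fact lam.Prime]
    (S : Finset ℕ)
    (O' : Type) [CommRing O'] [IsDomain O'] [IsDiscreteValuationRing O']
    [IsAdicComplete (IsLocalRing.maximalIdeal O') O'] [Finite (IsLocalRing.ResidueField O')]
    [CharZero O'] (hlamO' : (lam : O') ∈ IsLocalRing.maximalIdeal O')
    (hlam2 : lam ≠ 2)
    (chig : CuspForm.heckeAlgebra M 2 (↑S : Set ℕ) →+* ℂ)
    (hchig : ∀ (ℓ : ℕ) (hℓ : ℓ.Prime) (hℓM : ¬ ℓ ∣ M) (hℓS : ℓ ∉ (↑S : Set ℕ)),
      chig (CuspForm.heckeAlgebra.T hℓ hℓM hℓS) = ModularFormClass.qCoeff g ℓ)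
    (iota : chig.range →+* O')
    (hlamS : lam ∈ S) (hMS : ∀ q : ℕ, q.Prime → q ∣ M → q ∈ S)
    (hres : ∀ (O'' : Type) [CommRing O''] [IsDomain O''] [IsDiscreteValuationRing O'']
      [IsAdicComplete (IsLocalRing.maximalIdeal O'') O''] [Finite (IsLocalRing.ResidueField O'')] [CharZero O'']
      [Algebra O' O''] [Module.Finite O' O''] [IsLocalHom (algebraMap O' O'')],
      Function.Injective (algebraMap O' O'') → ∀ (ρ : GaloisRepAdic O''),
      (∀ (ℓ : ℕ) (hℓ : ℓ.Prime) (hℓlam : ℓ ≠ lam) (hℓM : ¬ ℓ ∣ M) (hℓS : ℓ ∉ (↑S : Set ℕ)),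
        ∀ A : ValuationSubring (AlgebraicClosure ℚ), A.LiesOverPrime ℓ →
          ∀ σ : AlgebraicClosure ℚ ≃ₐ[ℚ] AlgebraicClosure ℚ, A.IsFrobeniusAt σ ℓ →
            LinearMap.charpoly (ρ.ρ σ) =
              X ^ 2 - C (algebraMap O' O'' ((iota.comp chig.rangeRestrict) (CuspForm.heckeAlgebra.T hℓ hℓM hℓS))) * X
                + C ((ℓ : O'')))
      → ρ.residual.IsAbsolutelyIrreducible ∧ ρ.residual.IsOdd)
    :
    ∃ (O'' : Type) (_ : CommRing O'') (_ : IsDomain O'') (_ : IsDiscreteValuationRing O'')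
      (_ : IsAdicComplete (IsLocalRing.maximalIdeal O'') O'') (_ : Finite (IsLocalRing.ResidueField O''))
      (_ : CharZero O'') (_ : Algebra O' O'') (_ : Module.Finite O' O'') (_ : IsLocalHom (algebraMap O' O'')),
      Function.Injective (algebraMap O' O'') ∧
      ∃ ρ : GaloisRepAdic O'',
        (∀ (ℓ : ℕ) (hℓ : ℓ.Prime) (hℓM : ¬ ℓ ∣ M) (hℓS : ℓ ∉ (↑S : Set ℕ)),
          ∀ A : ValuationSubring (AlgebraicClosure ℚ), A.LiesOverPrime ℓ →
            ∀ σ : AlgebraicClosure ℚ ≃ₐ[ℚ] AlgebraicClosure ℚ, A.IsFrobeniusAt σ ℓ →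
              LinearMap.charpoly (ρ.ρ σ) =
                X ^ 2 - C (algebraMap O' O'' ((iota.comp chig.rangeRestrict) (CuspForm.heckeAlgebra.T hℓ hℓM hℓS))) * X
                  + C ((ℓ : O''))) ∧
        (∀ q : ℕ, q.Prime → q ≠ lam → M.factorization q = 2 → ¬ ρ.IsUnipotentOnInertiaAt q) :=
  result_of_kerOpsC_closed (stmt_KerOpsC_of_ops Ba Bb hgal hkill hlat)
    hg lam S O' hlamO' hlam2 chig hchig iota hlamS hMS hres

end Fermat.Agent.S36.helper1195
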