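/-
S36 leaf F2-BASELINE-THETA (helper1257): the theta package on the base lines of level 4 and 9.

For the Hauptmoduln `t₄ = q⁻¹ (η(q)/η(q⁴))⁸` and `t₉ = q⁻¹ (η(q)/η(q⁹))³`
(`Lib/helper3874_Hauptmodul`, `t4C R`, `t9C R`, every commutative ring `R`) and the Euler operator
`θ = q d/dq` (`Lib/helper9242_LaurentTheta`, `thetaFun`):

* `θ t = - t · eps` with `eps` a power series with constant term `1`
  (`eps₄ = Θ⁴ = (4 E₂(q⁴) - E₂(q))/3`, `eps₉ = (9 E₂(q⁹) - E₂(q))/8`);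
* `eps₄⁶ t₄⁴ = Δ (t₄+16)⁵`, `eps₉⁶ t₉⁹ = Δ (t₉²+9t₉+27)⁵`, hence
  `(θ t₄)⁶ = t₄² (t₄+16)⁵ Δ` and `(θ t₉)⁶ t₉³ = (t₉²+9t₉+27)⁵ Δ`;
* `E₄` in terms of `(eps, t)`; the chain rule `θ j · D(t) = N(t) · θ t` on both lines;
* the Hasse input at the small primes: `a₂ (t₄+16) = eps₄ (t₄+32)` with `a₂ ≡ 1 mod 3`, and
  `b₃ (t₉²+9t₉+27) = eps₉ (t₉+9)²` with `b₃ ≡ 1 mod 2`; so `θ t̄₄ (t̄₄+32) = - t̄₄ (t̄₄+16)` when
  `3 = 0` and `θ t̄₉ (t̄₉+9)² = - t̄₉ (t̄₉²+9t̄₉+27)` when `2 = 0`.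

* eta-quotient forms (section `EtaForms`): `eps₄ = (Θ²)²` with `Θ² = η(2z)¹⁰/(η(z)⁴η(4z)⁴)`
  (`theta2Z`), and `eps₉ t₉² = b² (t₉²+9t₉+27)` with `b = η(z)³/η(3z)` (`b9Z`); so
  `θ t₄ = - t₄ (Θ²)²` and `t₉ θ t₉ = - b² (t₉²+9t₉+27)` over every commutative ring.

Everything is formal algebra on the landed level 2/3 identities (`S18/helper1257_HauptFormal`,
`S18/helper6894_HauptTheta`) and the level 4/9 relations of `Lib/helper3874_Hauptmodul`; all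
identities are first proved in the domain `ℤ((q))` and then mapped to every commutative ring.
-/
import Fermat.Agent.S37.helper9536_Haupt49Inst
import Fermat.Agent.S18.helper6894_HauptTheta
import Fermat.Agent.Lib.helper9242_LaurentTheta

set_option autoImplicit false

open ModularCurve HahnSeries

namespace Fermat.Agent.S36.helper1257

open Fermat.Agent.S18.helper1257 (ofZ t2Z t3Z a2Z b3Z c2Z d2Z c3Z n3Z d3Z)
open Fermat.Agent.Lib.helper3874 (h2C h3C t4C t9C T4 T9 H2 H3 toL qv etaInv etaQuot)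
open Fermat.Agent.Lib.helper9242 (thetaFun)
open Fermat.Agent.Lib.helper386 (deltaSeries)

noncomputable section

/-! ### Generalities on `θ` -/

section Theta

variable (R : Type*) [CommRing R]

/-- The two Euler operators on main agree. -/
theorem theta_eq_thetaFun (x : LaurentSeries R) :
    Fermat.Agent.S18.helper4801.theta x = thetaFun R x := by
  ext n
  rw [Fermat.Agent.S18.helper4801.theta_coeff, Fermat.Agent.Lib.helper9242.thetaFun_coeff]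

/-- `θ` commutes with coefficientwise ring homomorphisms (`coeffMap` form). -/
theorem thetaFun_coeffMap {S : Type*} [CommRing S] (φ : R →+* S) (x : LaurentSeries R) :
    thetaFun S (coeffMap φ x) = coeffMap φ (thetaFun R x) := by
  ext n
  rw [Fermat.Agent.Lib.helper9242.thetaFun_coeff, coeffMap_coeff, coeffMap_coeff,
    Fermat.Agent.Lib.helper9242.thetaFun_coeff, map_mul, map_intCast]

theorem thetaFun_ofNat (n : ℕ) [n.AtLeastTwo] :
    thetaFun R (ofNat(n) : LaurentSeries R) = 0 := by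
  rw [show (OfNat.ofNat n : LaurentSeries R) = HahnSeries.C (OfNat.ofNat n : R) from
    (map_ofNat HahnSeries.C n).symm, Fermat.Agent.Lib.helper9242.thetaFun_C]

theorem thetaFun_add_ofNat (x : LaurentSeries R) (n : ℕ) [n.AtLeastTwo] :
    thetaFun R (x + ofNat(n)) = thetaFun R x := by
  rw [Fermat.Agent.Lib.helper9242.thetaFun_add, thetaFun_ofNat, add_zero]

theorem thetaFun_sq (x : LaurentSeries R) : thetaFun R (x ^ 2) = 2 * x * thetaFun R x := by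
  rw [sq, Fermat.Agent.Lib.helper9242.thetaFun_mul]
  ring

theorem thetaFun_pow_succ (x : LaurentSeries R) (n : ℕ) :
    thetaFun R (x ^ (n + 1)) = (n + 1 : ℕ) * x ^ n * thetaFun R x := by
  induction n with
  | zero => simp
  | succ n ih =>
    rw [pow_succ, Fermat.Agent.Lib.helper9242.thetaFun_mul, ih]
    push_cast
    ring

end Theta

/-! ### `ℤ⟦q⟧ → R((q))` -/

/-- `ofZ` is `toL ℤ`. -/
theorem ofZ_eq_toL (s : PowerSeries ℤ) : ofZ s = toL ℤ s := by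
  rw [Fermat.Agent.Lib.helper3874.toL_apply, Fermat.Agent.S18.helper1257.map_intCast_self]

theorem coeffMap_ofZ_eq_toL (R : Type*) [CommRing R] (s : PowerSeries ℤ) :
    coeffMap (Int.castRingHom R) (ofZ s) = toL R s := by
  rw [ofZ_eq_toL, Fermat.Agent.Lib.helper3874.coeffMap_toL]

theorem ofZ_ne_zero_of_coeff {s : PowerSeries ℤ} {n : ℕ} (h : PowerSeries.coeff n s ≠ 0) :
    ofZ s ≠ 0 := by
  intro h0
  have h1 : (ofZ s).coeff (n : ℤ) = 0 := by rw [h0]; rfl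
  rw [HahnSeries.ofPowerSeries_apply_coeff] at h1
  exact h h1

/-! ### Level 4 over `ℤ` -/

section Level4

/-- `t₄ ≠ 0` in `ℤ((q))`. -/
theorem t4C_int_ne_zero : t4C ℤ ≠ 0 := by
  rw [← Fermat.Agent.S37.helper9536.t4Z_eq_t4C]
  exact Fermat.Agent.S37.helper9536.lead_t4Z.ne_zero

theorem t4C_int_add_ne_zero (n : ℕ) [n.AtLeastTwo] : t4C ℤ + OfNat.ofNat n ≠ 0 := by
  rw [← Fermat.Agent.S37.helper9536.t4Z_eq_t4C, Fermat.Agent.S37.helper9536.ofNat_eq_C]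
  exact (Fermat.Agent.S37.helper9536.lead_t4Z.add_C (by norm_num) _).ne_zero

/-- `θ h₂ = - a₂ h₂` in `thetaFun` form. -/
theorem thetaFun_h2C_int : thetaFun ℤ (h2C ℤ) = -(ofZ a2Z * h2C ℤ) := by
  rw [← Fermat.Agent.S37.helper9536.t2Z_eq_h2C, ← theta_eq_thetaFun]
  exact Fermat.Agent.S18.helper6894.theta_t2Z

/-- `θ t₄ · (t₄ + 32) = - a₂ · t₄ · (t₄ + 16)` in `ℤ((q))`. -/
theorem thetaFun_t4C_int_mul :
    thetaFun ℤ (t4C ℤ) * (t4C ℤ + 32) = -(ofZ a2Z * t4C ℤ * (t4C ℤ + 16)) := by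
  have e1 := Fermat.Agent.Lib.helper3874.t4C_h2 ℤ
  have e2 := congrArg (thetaFun ℤ) e1
  rw [Fermat.Agent.Lib.helper9242.thetaFun_mul, thetaFun_add_ofNat, thetaFun_sq,
    thetaFun_h2C_int] at e2
  apply mul_left_cancel₀ t4C_int_ne_zero
  linear_combination (-(t4C ℤ + 16)) * e2 + (thetaFun ℤ (t4C ℤ) - ofZ a2Z * (t4C ℤ + 16)) * e1

/-- The weight 2 form `eps₄ = Θ⁴` of level 4 as an integer power series:
`eps₄ = a₂ (t₄ + 16)/(t₄ + 32)`. -/
def eps4Z : PowerSeries ℤ :=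
  a2Z * (T4 + 16 * PowerSeries.X) * PowerSeries.invOfUnit (T4 + 32 * PowerSeries.X) 1

theorem constantCoeff_T4_add (c : ℤ) :
    PowerSeries.constantCoeff (T4 + PowerSeries.C c * PowerSeries.X) = 1 := by
  rw [map_add, map_mul, PowerSeries.constantCoeff_X, mul_zero, add_zero,
    Fermat.Agent.Lib.helper3874.constantCoeff_T4]

theorem constantCoeff_a2Z : PowerSeries.constantCoeff a2Z = 1 := by
  rw [← PowerSeries.coeff_zero_eq_constantCoeff_apply, a2Z, PowerSeries.coeff_mk, if_pos rfl]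

theorem constantCoeff_eps4Z : PowerSeries.constantCoeff eps4Z = 1 := by
  have h16 : PowerSeries.constantCoeff (T4 + 16 * PowerSeries.X) = 1 := by
    have := constantCoeff_T4_add 16
    rwa [map_ofNat] at this
  rw [eps4Z, map_mul, map_mul, constantCoeff_a2Z, h16, PowerSeries.constantCoeff_invOfUnit]
  simp

theorem eps4Z_mul : eps4Z * (T4 + 32 * PowerSeries.X) = a2Z * (T4 + 16 * PowerSeries.X) := by
  have h32 : PowerSeries.constantCoeff (T4 + 32 * PowerSeries.X) = ((1 : ℤˣ) : ℤ) := by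
    have := constantCoeff_T4_add 32
    rwa [map_ofNat] at this
  rw [eps4Z, mul_assoc, mul_comm (PowerSeries.invOfUnit _ _), PowerSeries.mul_invOfUnit _ _ h32,
    mul_one]

/-- `eps₄ (t₄ + 32) = a₂ (t₄ + 16)` in `ℤ((q))`. -/
theorem ofZ_eps4Z_mul : ofZ eps4Z * (t4C ℤ + 32) = ofZ a2Z * (t4C ℤ + 16) := by
  have h := congrArg (toL ℤ) eps4Z_mul
  simp only [map_mul, map_add, map_ofNat, Fermat.Agent.Lib.helper3874.toL_X,
    Fermat.Agent.Lib.helper3874.toL_T4] at h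
  rw [ofZ_eq_toL, ofZ_eq_toL]
  exact Fermat.Agent.Lib.helper3874.qv_pow_cancel ℤ 1 (by linear_combination h)

/-- **Theta relation on the base line of level 4**: `θ t₄ = - t₄ eps₄` in `ℤ((q))`. -/
theorem thetaFun_t4C_int : thetaFun ℤ (t4C ℤ) = -(t4C ℤ * ofZ eps4Z) := by
  apply mul_right_cancel₀ (t4C_int_add_ne_zero 32)
  linear_combination thetaFun_t4C_int_mul + t4C ℤ * ofZ_eps4Z_mul

/-- `eps₄² = c₂ (t₄ + 16)` in `ℤ((q))`. -/
theorem ofZ_eps4Z_sq : ofZ eps4Z ^ 2 = ofZ c2Z * (t4C ℤ + 16) := by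
  have e1 := Fermat.Agent.Lib.helper3874.t4C_h2 ℤ
  have a := Fermat.Agent.S18.helper1257.ofZ_a2Z_sq
  rw [Fermat.Agent.S37.helper9536.t2Z_eq_h2C] at a
  have k := ofZ_eps4Z_mul
  apply mul_right_cancel₀ (pow_ne_zero 2 (t4C_int_add_ne_zero 32))
  linear_combination (ofZ eps4Z * (t4C ℤ + 32) + ofZ a2Z * (t4C ℤ + 16)) * k
    + (t4C ℤ + 16) ^ 2 * a + ofZ c2Z * (t4C ℤ + 16) * e1

/-- `Δ = c₂³ h₂²` in `ℤ((q))`. -/
theorem ofZ_deltaSeries_two : ofZ deltaSeries = ofZ c2Z ^ 3 * h2C ℤ ^ 2 := by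
  have h := Fermat.Agent.S18.helper1257.t2Z_mul
  rw [Fermat.Agent.S37.helper9536.t2Z_eq_h2C] at h
  rw [Fermat.Agent.S18.helper1257.deltaSeries_eq_two, map_mul, map_pow, ← h]
  ring

/-- `eps₄⁶ t₄⁴ = Δ (t₄ + 16)⁵` in `ℤ((q))`. -/
theorem ofZ_eps4Z_pow_six :
    ofZ eps4Z ^ 6 * t4C ℤ ^ 4 = ofZ deltaSeries * (t4C ℤ + 16) ^ 5 := by
  have e1 := Fermat.Agent.Lib.helper3874.t4C_h2 ℤ
  have hE := ofZ_eps4Z_sq
  have hD := ofZ_deltaSeries_two
  linear_combination t4C ℤ ^ 4 * (ofZ eps4Z ^ 4 + ofZ eps4Z ^ 2 * (ofZ c2Z * (t4C ℤ + 16))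
    + (ofZ c2Z * (t4C ℤ + 16)) ^ 2) * hE - (t4C ℤ + 16) ^ 5 * hD
    - ofZ c2Z ^ 3 * (t4C ℤ + 16) ^ 3 * (h2C ℤ * (t4C ℤ + 16) + t4C ℤ ^ 2) * e1

/-- `(θ t₄)⁶ = t₄² (t₄ + 16)⁵ Δ` in `ℤ((q))`. -/
theorem thetaFun_t4C_int_pow_six :
    thetaFun ℤ (t4C ℤ) ^ 6 = t4C ℤ ^ 2 * (t4C ℤ + 16) ^ 5 * ofZ deltaSeries := by
  rw [thetaFun_t4C_int]
  linear_combination t4C ℤ ^ 2 * ofZ_eps4Z_pow_six

/-- `E₄ (t₄ + 16)² = eps₄² (t₄² + 256 t₄ + 4096)` in `ℤ((q))`. -/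
theorem ofZ_eisenstein4_four :
    ofZ eisenstein4 * (t4C ℤ + 16) ^ 2 =
      ofZ eps4Z ^ 2 * (t4C ℤ ^ 2 + 256 * t4C ℤ + 4096) := by
  have e1 := Fermat.Agent.Lib.helper3874.t4C_h2 ℤ
  have h := Fermat.Agent.S18.helper1257.t2Z_mul
  rw [Fermat.Agent.S37.helper9536.t2Z_eq_h2C] at h
  rw [ofZ_eps4Z_sq, Fermat.Agent.S18.helper1257.eisenstein4_eq_two, map_add, map_mul, map_ofNat,
    ← h]
  linear_combination ofZ c2Z * (t4C ℤ + 16) * e1

/-- **Chain rule on the base line of level 4** in `ℤ((q))`: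
`θ j · t₄⁵ (t₄+16)² = (t₄²+256t₄+4096)² (t₄+32) (t₄²-512t₄-8192) · θ t₄`. -/
theorem thetaFun_jq_int_four :
    thetaFun ℤ (jqModC ℤ) * t4C ℤ ^ 5 * (t4C ℤ + 16) ^ 2 =
      (t4C ℤ ^ 2 + 256 * t4C ℤ + 4096) ^ 2 * (t4C ℤ + 32) * (t4C ℤ ^ 2 - 512 * t4C ℤ - 8192)
        * thetaFun ℤ (t4C ℤ) := by
  have jrel := Fermat.Agent.Lib.helper3874.t4C_j1 ℤ
  have e := congrArg (thetaFun ℤ) jrel
  rw [Fermat.Agent.Lib.helper9242.thetaFun_mul, Fermat.Agent.Lib.helper9242.thetaFun_mul,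
    thetaFun_add_ofNat, thetaFun_pow_succ, thetaFun_pow_succ, thetaFun_add_ofNat,
    Fermat.Agent.Lib.helper9242.thetaFun_add, Fermat.Agent.Lib.helper9242.thetaFun_mul,
    thetaFun_ofNat, thetaFun_sq] at e
  push_cast at e
  apply mul_left_cancel₀ (pow_ne_zero 3 t4C_int_ne_zero)
  linear_combination t4C ℤ ^ 4 * (t4C ℤ + 16) * e
    - (5 * t4C ℤ ^ 4 + 64 * t4C ℤ ^ 3) * thetaFun ℤ (t4C ℤ) * jrel

end Level4

/-! ### Level 9 over `ℤ` -/

section Level9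

/-- `t₉ ≠ 0` in `ℤ((q))`. -/
theorem t9C_int_ne_zero : t9C ℤ ≠ 0 := by
  rw [← Fermat.Agent.S37.helper9536.t9Z_eq_t9C]
  exact Fermat.Agent.S37.helper9536.lead_t9Z.ne_zero

theorem t9C_int_add_ne_zero (n : ℕ) [n.AtLeastTwo] : t9C ℤ + OfNat.ofNat n ≠ 0 := by
  rw [← Fermat.Agent.S37.helper9536.t9Z_eq_t9C, Fermat.Agent.S37.helper9536.ofNat_eq_C]
  exact (Fermat.Agent.S37.helper9536.lead_t9Z.add_C (by norm_num) _).ne_zero

/-- `(h₃ + 27) (t₉² + 9 t₉ + 27) = (t₉ + 9)³`. -/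
theorem h3C_add_mul_int :
    (h3C ℤ + 27) * (t9C ℤ ^ 2 + 9 * t9C ℤ + 27) = (t9C ℤ + 9) ^ 3 := by
  linear_combination Fermat.Agent.Lib.helper3874.t9C_h3 ℤ

theorem t9C_int_quad_ne_zero : t9C ℤ ^ 2 + 9 * t9C ℤ + 27 ≠ 0 := by
  intro h
  have h1 := h3C_add_mul_int
  rw [h, mul_zero] at h1
  exact pow_ne_zero 3 (t9C_int_add_ne_zero 9) h1.symm

theorem h3C_int_add_ne_zero : h3C ℤ + 27 ≠ 0 := by
  intro h
  have h1 := h3C_add_mul_int
  rw [h, zero_mul] at h1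
  exact pow_ne_zero 3 (t9C_int_add_ne_zero 9) h1.symm

/-- `θ h₃ = - b₃ h₃` in `thetaFun` form. -/
theorem thetaFun_h3C_int : thetaFun ℤ (h3C ℤ) = -(ofZ b3Z * h3C ℤ) := by
  rw [← Fermat.Agent.S37.helper9536.t3Z_eq_h3C, ← theta_eq_thetaFun]
  exact Fermat.Agent.S18.helper6894.theta_t3Z

/-- `θ t₉ · (t₉ + 9)² = - b₃ · t₉ · (t₉² + 9 t₉ + 27)` in `ℤ((q))`. -/
theorem thetaFun_t9C_int_mul :
    thetaFun ℤ (t9C ℤ) * (t9C ℤ + 9) ^ 2 =
      -(ofZ b3Z * t9C ℤ * (t9C ℤ ^ 2 + 9 * t9C ℤ + 27)) := by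
  have e1 := Fermat.Agent.Lib.helper3874.t9C_h3 ℤ
  have e2 := congrArg (thetaFun ℤ) e1
  rw [Fermat.Agent.Lib.helper9242.thetaFun_mul, thetaFun_add_ofNat,
    Fermat.Agent.Lib.helper9242.thetaFun_add, thetaFun_sq,
    Fermat.Agent.Lib.helper9242.thetaFun_mul, thetaFun_ofNat, thetaFun_pow_succ,
    thetaFun_h3C_int] at e2
  push_cast at e2
  apply mul_left_cancel₀ (pow_ne_zero 2 t9C_int_ne_zero)
  linear_combination (-(t9C ℤ ^ 2 + 9 * t9C ℤ + 27)) * e2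
    + ((2 * t9C ℤ + 9) * thetaFun ℤ (t9C ℤ)
        - (t9C ℤ ^ 2 + 9 * t9C ℤ + 27) * ofZ b3Z) * e1

/-- The weight 2 form `eps₉ = (9 E₂(q⁹) - E₂(q))/8` of level 9 as an integer power series:
`eps₉ = b₃ (t₉² + 9 t₉ + 27)/(t₉ + 9)²`. -/
def eps9Z : PowerSeries ℤ :=
  b3Z * (T9 ^ 2 + 9 * PowerSeries.X * T9 + 27 * PowerSeries.X ^ 2)
    * PowerSeries.invOfUnit ((T9 + 9 * PowerSeries.X) ^ 2) 1

theorem constantCoeff_b3Z' : PowerSeries.constantCoeff b3Z = 1 := by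
  rw [← PowerSeries.coeff_zero_eq_constantCoeff_apply, b3Z, PowerSeries.coeff_mk, if_pos rfl]

theorem constantCoeff_den9 :
    PowerSeries.constantCoeff ((T9 + 9 * PowerSeries.X) ^ 2) = 1 := by
  rw [map_pow, map_add, map_mul, PowerSeries.constantCoeff_X, mul_zero, add_zero,
    Fermat.Agent.Lib.helper3874.constantCoeff_T9, one_pow]

theorem constantCoeff_num9 :
    PowerSeries.constantCoeff (T9 ^ 2 + 9 * PowerSeries.X * T9 + 27 * PowerSeries.X ^ 2) = 1 := by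
  rw [map_add, map_add, map_pow, map_mul, map_mul, map_mul, map_pow,
    PowerSeries.constantCoeff_X, Fermat.Agent.Lib.helper3874.constantCoeff_T9]
  simp

theorem constantCoeff_eps9Z : PowerSeries.constantCoeff eps9Z = 1 := by
  rw [eps9Z, map_mul, map_mul, constantCoeff_b3Z', constantCoeff_num9,
    PowerSeries.constantCoeff_invOfUnit]
  simp

theorem eps9Z_mul : eps9Z * (T9 + 9 * PowerSeries.X) ^ 2 =
    b3Z * (T9 ^ 2 + 9 * PowerSeries.X * T9 + 27 * PowerSeries.X ^ 2) := by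
  have h : PowerSeries.constantCoeff ((T9 + 9 * PowerSeries.X) ^ 2) = ((1 : ℤˣ) : ℤ) :=
    constantCoeff_den9
  rw [eps9Z, mul_assoc, mul_comm (PowerSeries.invOfUnit _ _), PowerSeries.mul_invOfUnit _ _ h,
    mul_one]

/-- `eps₉ (t₉ + 9)² = b₃ (t₉² + 9 t₉ + 27)` in `ℤ((q))`. -/
theorem ofZ_eps9Z_mul :
    ofZ eps9Z * (t9C ℤ + 9) ^ 2 = ofZ b3Z * (t9C ℤ ^ 2 + 9 * t9C ℤ + 27) := by
  have h := congrArg (toL ℤ) eps9Z_mul
  simp only [map_mul, map_add, map_pow, map_ofNat, Fermat.Agent.Lib.helper3874.toL_X,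
    Fermat.Agent.Lib.helper3874.toL_T9] at h
  rw [ofZ_eq_toL, ofZ_eq_toL]
  exact Fermat.Agent.Lib.helper3874.qv_pow_cancel ℤ 2 (by linear_combination h)

/-- **Theta relation on the base line of level 9**: `θ t₉ = - t₉ eps₉` in `ℤ((q))`. -/
theorem thetaFun_t9C_int : thetaFun ℤ (t9C ℤ) = -(t9C ℤ * ofZ eps9Z) := by
  apply mul_right_cancel₀ (pow_ne_zero 2 (t9C_int_add_ne_zero 9))
  linear_combination thetaFun_t9C_int_mul + t9C ℤ * ofZ_eps9Z_mul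

/-- `eps₉² (t₉ + 9) = c₃ (t₉² + 9 t₉ + 27)` in `ℤ((q))`. -/
theorem ofZ_eps9Z_sq :
    ofZ eps9Z ^ 2 * (t9C ℤ + 9) = ofZ c3Z * (t9C ℤ ^ 2 + 9 * t9C ℤ + 27) := by
  have f1 := h3C_add_mul_int
  have b := Fermat.Agent.S18.helper1257.ofZ_b3Z_sq
  rw [Fermat.Agent.S37.helper9536.t3Z_eq_h3C] at b
  have k := ofZ_eps9Z_mul
  apply mul_right_cancel₀ (pow_ne_zero 3 (t9C_int_add_ne_zero 9))
  linear_combination (ofZ eps9Z * (t9C ℤ + 9) ^ 2
      + ofZ b3Z * (t9C ℤ ^ 2 + 9 * t9C ℤ + 27)) * k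
    + (t9C ℤ ^ 2 + 9 * t9C ℤ + 27) ^ 2 * b
    + ofZ c3Z * (t9C ℤ ^ 2 + 9 * t9C ℤ + 27) * f1

/-- `eps₉³ = d₃ (t₉² + 9 t₉ + 27)` in `ℤ((q))`. -/
theorem ofZ_eps9Z_cube :
    ofZ eps9Z ^ 3 = ofZ d3Z * (t9C ℤ ^ 2 + 9 * t9C ℤ + 27) := by
  have f1 := h3C_add_mul_int
  have bc := Fermat.Agent.S18.helper1257.ofZ_b3Z_cube
  rw [Fermat.Agent.S37.helper9536.t3Z_eq_h3C] at bc
  have k := ofZ_eps9Z_mul
  apply mul_right_cancel₀ (pow_ne_zero 6 (t9C_int_add_ne_zero 9))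
  linear_combination ((ofZ eps9Z * (t9C ℤ + 9) ^ 2) ^ 2
      + ofZ eps9Z * (t9C ℤ + 9) ^ 2 * (ofZ b3Z * (t9C ℤ ^ 2 + 9 * t9C ℤ + 27))
      + (ofZ b3Z * (t9C ℤ ^ 2 + 9 * t9C ℤ + 27)) ^ 2) * k
    + (t9C ℤ ^ 2 + 9 * t9C ℤ + 27) ^ 3 * bc
    + ofZ d3Z * (t9C ℤ ^ 2 + 9 * t9C ℤ + 27)
        * ((h3C ℤ + 27) * (t9C ℤ ^ 2 + 9 * t9C ℤ + 27) + (t9C ℤ + 9) ^ 3) * f1

theorem ofZ_c3Z_ne_zero : ofZ c3Z ≠ 0 :=
  ofZ_ne_zero_of_coeff (n := 1) (by
    rw [Fermat.Agent.S18.helper1257.coeff_c3Z_one]; exact one_ne_zero)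

/-- `Δ (h₃ + 27) = h₃³ c₃³` in `ℤ((q))`. -/
theorem ofZ_deltaSeries_three : ofZ deltaSeries * (h3C ℤ + 27) = h3C ℤ ^ 3 * ofZ c3Z ^ 3 := by
  have h := Fermat.Agent.S18.helper1257.t3Z_mul
  rw [Fermat.Agent.S37.helper9536.t3Z_eq_h3C] at h
  have hd := congrArg ofZ Fermat.Agent.S18.helper1257.deltaSeries_eq_three
  rw [map_mul, map_pow, map_mul, map_add, map_mul, map_ofNat, ← h] at hd
  apply mul_left_cancel₀ ofZ_c3Z_ne_zero
  linear_combination -hd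

/-- `eps₉⁶ t₉⁹ = Δ (t₉² + 9 t₉ + 27)⁵` in `ℤ((q))`. -/
theorem ofZ_eps9Z_pow_six :
    ofZ eps9Z ^ 6 * t9C ℤ ^ 9 = ofZ deltaSeries * (t9C ℤ ^ 2 + 9 * t9C ℤ + 27) ^ 5 := by
  have e1 := Fermat.Agent.Lib.helper3874.t9C_h3 ℤ
  have f1 := h3C_add_mul_int
  have eE := ofZ_eps9Z_sq
  have hD := ofZ_deltaSeries_three
  apply mul_right_cancel₀ (mul_ne_zero (pow_ne_zero 3 (t9C_int_add_ne_zero 9))
    h3C_int_add_ne_zero)
  linear_combination t9C ℤ ^ 9 * (h3C ℤ + 27)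
      * ((ofZ eps9Z ^ 2 * (t9C ℤ + 9)) ^ 2
        + ofZ eps9Z ^ 2 * (t9C ℤ + 9) * (ofZ c3Z * (t9C ℤ ^ 2 + 9 * t9C ℤ + 27))
        + (ofZ c3Z * (t9C ℤ ^ 2 + 9 * t9C ℤ + 27)) ^ 2) * eE
    - (t9C ℤ ^ 2 + 9 * t9C ℤ + 27) ^ 5 * (t9C ℤ + 9) ^ 3 * hD
    - (t9C ℤ ^ 2 + 9 * t9C ℤ + 27) ^ 3 * ofZ c3Z ^ 3 * (h3C ℤ + 27)
        * ((h3C ℤ * (t9C ℤ ^ 2 + 9 * t9C ℤ + 27)) ^ 2
          + h3C ℤ * (t9C ℤ ^ 2 + 9 * t9C ℤ + 27) * t9C ℤ ^ 3 + t9C ℤ ^ 6) * e1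
    + (t9C ℤ ^ 2 + 9 * t9C ℤ + 27) ^ 3 * ofZ c3Z ^ 3 * h3C ℤ ^ 3
        * (t9C ℤ ^ 2 + 9 * t9C ℤ + 27) ^ 2 * f1

/-- `(θ t₉)⁶ t₉³ = (t₉² + 9 t₉ + 27)⁵ Δ` in `ℤ((q))`. -/
theorem thetaFun_t9C_int_pow_six :
    thetaFun ℤ (t9C ℤ) ^ 6 * t9C ℤ ^ 3 =
      (t9C ℤ ^ 2 + 9 * t9C ℤ + 27) ^ 5 * ofZ deltaSeries := by
  rw [thetaFun_t9C_int]
  linear_combination ofZ_eps9Z_pow_six

/-- `E₄ (t₉²+9t₉+27)² = eps₉² (t₉+9) (t₉³+243t₉²+2187t₉+6561)` in `ℤ((q))`. -/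
theorem ofZ_eisenstein4_nine :
    ofZ eisenstein4 * (t9C ℤ ^ 2 + 9 * t9C ℤ + 27) ^ 2 =
      ofZ eps9Z ^ 2 * (t9C ℤ + 9)
        * (t9C ℤ ^ 3 + 243 * t9C ℤ ^ 2 + 2187 * t9C ℤ + 6561) := by
  have e1 := Fermat.Agent.Lib.helper3874.t9C_h3 ℤ
  have eE := ofZ_eps9Z_sq
  have h := Fermat.Agent.S18.helper1257.t3Z_mul
  rw [Fermat.Agent.S37.helper9536.t3Z_eq_h3C] at h
  rw [Fermat.Agent.S18.helper1257.eisenstein4_eq_three, map_add, map_mul, map_ofNat, ← h]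
  linear_combination ofZ c3Z * (t9C ℤ ^ 2 + 9 * t9C ℤ + 27) * e1
    - (t9C ℤ ^ 3 + 243 * t9C ℤ ^ 2 + 2187 * t9C ℤ + 6561) * eE

/-- **Chain rule on the base line of level 9** in `ℤ((q))`:
`θ j · t₉¹⁰ (t₉²+9t₉+27)² = ((t₉+9)(t₉³+243t₉²+2187t₉+6561))² S(t₉) · θ t₉`, where
`S = t⁶-486t⁵-24057t⁴-367416t³-2657205t²-9565938t-14348907` (`j - 1728 = S²/(t⁹(t²+9t+27))`). -/
theorem thetaFun_jq_int_nine :
    thetaFun ℤ (jqModC ℤ) * t9C ℤ ^ 10 * (t9C ℤ ^ 2 + 9 * t9C ℤ + 27) ^ 2 =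
      ((t9C ℤ + 9) * (t9C ℤ ^ 3 + 243 * t9C ℤ ^ 2 + 2187 * t9C ℤ + 6561)) ^ 2
        * (t9C ℤ ^ 6 - 486 * t9C ℤ ^ 5 - 24057 * t9C ℤ ^ 4 - 367416 * t9C ℤ ^ 3
          - 2657205 * t9C ℤ ^ 2 - 9565938 * t9C ℤ - 14348907)
        * thetaFun ℤ (t9C ℤ) := by
  have jrel := Fermat.Agent.Lib.helper3874.t9C_j1 ℤ
  have e := congrArg (thetaFun ℤ) jrel
  simp only [Fermat.Agent.Lib.helper9242.thetaFun_mul, Fermat.Agent.Lib.helper9242.thetaFun_add,
    thetaFun_ofNat, thetaFun_pow_succ] at e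
  push_cast at e
  apply mul_left_cancel₀ (pow_ne_zero 8 t9C_int_ne_zero)
  linear_combination t9C ℤ ^ 9 * (t9C ℤ ^ 2 + 9 * t9C ℤ + 27) * e
    - (9 * t9C ℤ ^ 8 * (t9C ℤ ^ 2 + 9 * t9C ℤ + 27) + t9C ℤ ^ 9 * (2 * t9C ℤ + 9))
        * thetaFun ℤ (t9C ℤ) * jrel

end Level9

/-! ### Every coefficient ring -/

section General

variable (R : Type*) [CommRing R]

theorem coeffMap_thetaFun_int (x : LaurentSeries ℤ) :
    coeffMap (Int.castRingHom R) (thetaFun ℤ x) =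
      thetaFun R (coeffMap (Int.castRingHom R) x) :=
  (thetaFun_coeffMap ℤ (Int.castRingHom R) x).symm

theorem coeffMap_h2C_int : coeffMap (Int.castRingHom R) (h2C ℤ) = h2C R :=
  Fermat.Agent.Lib.helper3874.coeffMap_h2C _

theorem coeffMap_h3C_int : coeffMap (Int.castRingHom R) (h3C ℤ) = h3C R :=
  Fermat.Agent.Lib.helper3874.coeffMap_h3C _

theorem coeffMap_t4C_int : coeffMap (Int.castRingHom R) (t4C ℤ) = t4C R :=
  Fermat.Agent.Lib.helper3874.coeffMap_t4C _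

theorem coeffMap_t9C_int : coeffMap (Int.castRingHom R) (t9C ℤ) = t9C R :=
  Fermat.Agent.Lib.helper3874.coeffMap_t9C _

theorem coeffMap_jqModC_int : coeffMap (Int.castRingHom R) (jqModC ℤ) = jqModC R :=
  coeffMap_jqModC _

/-- The constant term of `toL R s`. -/
theorem coeff_zero_toL (s : PowerSeries ℤ) :
    (toL R s).coeff 0 = ((PowerSeries.constantCoeff s : ℤ) : R) := by
  rw [Fermat.Agent.Lib.helper3874.toL_apply]
  have h := HahnSeries.ofPowerSeries_apply_coeff (Γ := ℤ) (R := R)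
    (s.map (Int.castRingHom R)) 0
  rw [Nat.cast_zero] at h
  rw [h, PowerSeries.coeff_map, PowerSeries.coeff_zero_eq_constantCoeff_apply]
  rfl

/-- A power series with constant term `1` is a unit of `R((q))`. -/
theorem isUnit_toL_of_constantCoeff {s : PowerSeries ℤ} (h : PowerSeries.constantCoeff s = 1) :
    IsUnit (toL R s) := by
  have h1 : s * PowerSeries.invOfUnit s 1 = 1 := PowerSeries.mul_invOfUnit _ _ (by rw [h]; rfl)
  have h2 := congrArg (toL R) h1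
  rw [map_mul, map_one] at h2
  exact IsUnit.of_mul_eq_one _ h2

/-! #### Level 4 -/

/-- **Theta relation on the base line of level 4**, every coefficient ring:
`θ t₄ = - t₄ eps₄`. -/
theorem thetaFun_t4C : thetaFun R (t4C R) = -(t4C R * toL R eps4Z) := by
  have h := congrArg (coeffMap (Int.castRingHom R)) thetaFun_t4C_int
  simpa only [coeffMap_thetaFun_int, map_neg, map_mul, coeffMap_t4C_int, coeffMap_ofZ_eq_toL]
    using h

theorem coeff_zero_toL_eps4Z : (toL R eps4Z).coeff 0 = 1 := by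
  rw [coeff_zero_toL, constantCoeff_eps4Z, Int.cast_one]

theorem isUnit_toL_eps4Z : IsUnit (toL R eps4Z) :=
  isUnit_toL_of_constantCoeff R constantCoeff_eps4Z

/-- `eps₄ (t₄ + 32) = a₂ (t₄ + 16)`. -/
theorem toL_eps4Z_mul : toL R eps4Z * (t4C R + 32) = toL R a2Z * (t4C R + 16) := by
  have h := congrArg (coeffMap (Int.castRingHom R)) ofZ_eps4Z_mul
  simpa only [map_mul, map_add, map_ofNat, coeffMap_t4C_int, coeffMap_ofZ_eq_toL] using h

/-- `θ t₄ · (t₄ + 32) = - a₂ t₄ (t₄ + 16)`. -/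
theorem thetaFun_t4C_mul :
    thetaFun R (t4C R) * (t4C R + 32) = -(toL R a2Z * t4C R * (t4C R + 16)) := by
  have h := congrArg (coeffMap (Int.castRingHom R)) thetaFun_t4C_int_mul
  simpa only [coeffMap_thetaFun_int, map_neg, map_mul, map_add, map_ofNat, coeffMap_t4C_int,
    coeffMap_ofZ_eq_toL] using h

/-- `eps₄² = c₂ (t₄ + 16)`. -/
theorem toL_eps4Z_sq : toL R eps4Z ^ 2 = toL R c2Z * (t4C R + 16) := by
  have h := congrArg (coeffMap (Int.castRingHom R)) ofZ_eps4Z_sq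
  simpa only [map_mul, map_add, map_pow, map_ofNat, coeffMap_t4C_int, coeffMap_ofZ_eq_toL]
    using h

/-- `eps₄⁶ t₄⁴ = Δ (t₄ + 16)⁵`. -/
theorem toL_eps4Z_pow_six :
    toL R eps4Z ^ 6 * t4C R ^ 4 = toL R deltaSeries * (t4C R + 16) ^ 5 := by
  have h := congrArg (coeffMap (Int.castRingHom R)) ofZ_eps4Z_pow_six
  simpa only [map_mul, map_add, map_pow, map_ofNat, coeffMap_t4C_int, coeffMap_ofZ_eq_toL]
    using h

/-- **`(θ t₄)⁶ = t₄² (t₄ + 16)⁵ Δ`** over every coefficient ring. -/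
theorem thetaFun_t4C_pow_six :
    thetaFun R (t4C R) ^ 6 = t4C R ^ 2 * (t4C R + 16) ^ 5 * toL R deltaSeries := by
  have h := congrArg (coeffMap (Int.castRingHom R)) thetaFun_t4C_int_pow_six
  simpa only [coeffMap_thetaFun_int, map_mul, map_add, map_pow, map_ofNat, coeffMap_t4C_int,
    coeffMap_ofZ_eq_toL] using h

/-- `E₄ (t₄ + 16)² = eps₄² (t₄² + 256 t₄ + 4096)`. -/
theorem toL_eisenstein4_four :
    toL R eisenstein4 * (t4C R + 16) ^ 2 =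
      toL R eps4Z ^ 2 * (t4C R ^ 2 + 256 * t4C R + 4096) := by
  have h := congrArg (coeffMap (Int.castRingHom R)) ofZ_eisenstein4_four
  simpa only [map_mul, map_add, map_pow, map_ofNat, coeffMap_t4C_int, coeffMap_ofZ_eq_toL]
    using h

/-- **Chain rule on the base line of level 4**, every coefficient ring. -/
theorem thetaFun_jq_four :
    thetaFun R (jqModC R) * t4C R ^ 5 * (t4C R + 16) ^ 2 =
      (t4C R ^ 2 + 256 * t4C R + 4096) ^ 2 * (t4C R + 32) * (t4C R ^ 2 - 512 * t4C R - 8192)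
        * thetaFun R (t4C R) := by
  have h := congrArg (coeffMap (Int.castRingHom R)) thetaFun_jq_int_four
  simpa only [coeffMap_thetaFun_int, map_mul, map_add, map_sub, map_pow, map_ofNat,
    coeffMap_t4C_int, coeffMap_jqModC_int] using h

/-- `a₂ ≡ 1` when `3 = 0` (or `2 = 0`) in `R`. -/
theorem toL_a2Z_eq_one (h : (24 : R) = 0) : toL R a2Z = 1 := by
  rw [Fermat.Agent.Lib.helper3874.toL_apply,
    Fermat.Agent.S18.helper6894.map_a2Z_eq_one (Int.castRingHom R) (by simpa using h), map_one]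

/-- **Hasse input at `q = 3` on the base line of level 4**: if `3 = 0` in `R` then
`θ t₄ · (t₄ + 32) = - t₄ (t₄ + 16)`, i.e. `θ t̄₄ = - t̄₄ (t̄₄ + 1)/(t̄₄ + 2)`. -/
theorem thetaFun_t4C_of_three (h3 : (3 : R) = 0) :
    thetaFun R (t4C R) * (t4C R + 32) = -(t4C R * (t4C R + 16)) := by
  have h24 : (24 : R) = 0 := by
    have : (24 : R) = 3 * 8 := by norm_num
    rw [this, h3, zero_mul]
  rw [thetaFun_t4C_mul, toL_a2Z_eq_one R h24, one_mul]

/-- If `3 = 0` in `R`: `eps₄ (t₄ + 32) = t₄ + 16`. -/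
theorem toL_eps4Z_mul_of_three (h3 : (3 : R) = 0) :
    toL R eps4Z * (t4C R + 32) = t4C R + 16 := by
  have h24 : (24 : R) = 0 := by
    have : (24 : R) = 3 * 8 := by norm_num
    rw [this, h3, zero_mul]
  rw [toL_eps4Z_mul, toL_a2Z_eq_one R h24, one_mul]

/-! #### Level 9 -/

/-- **Theta relation on the base line of level 9**, every coefficient ring:
`θ t₉ = - t₉ eps₉`. -/
theorem thetaFun_t9C : thetaFun R (t9C R) = -(t9C R * toL R eps9Z) := by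
  have h := congrArg (coeffMap (Int.castRingHom R)) thetaFun_t9C_int
  simpa only [coeffMap_thetaFun_int, map_neg, map_mul, coeffMap_t9C_int, coeffMap_ofZ_eq_toL]
    using h

theorem coeff_zero_toL_eps9Z : (toL R eps9Z).coeff 0 = 1 := by
  rw [coeff_zero_toL, constantCoeff_eps9Z, Int.cast_one]

theorem isUnit_toL_eps9Z : IsUnit (toL R eps9Z) :=
  isUnit_toL_of_constantCoeff R constantCoeff_eps9Z

/-- `eps₉ (t₉ + 9)² = b₃ (t₉² + 9 t₉ + 27)`. -/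
theorem toL_eps9Z_mul :
    toL R eps9Z * (t9C R + 9) ^ 2 = toL R b3Z * (t9C R ^ 2 + 9 * t9C R + 27) := by
  have h := congrArg (coeffMap (Int.castRingHom R)) ofZ_eps9Z_mul
  simpa only [map_mul, map_add, map_pow, map_ofNat, coeffMap_t9C_int, coeffMap_ofZ_eq_toL]
    using h

/-- `θ t₉ · (t₉ + 9)² = - b₃ t₉ (t₉² + 9 t₉ + 27)`. -/
theorem thetaFun_t9C_mul :
    thetaFun R (t9C R) * (t9C R + 9) ^ 2 =
      -(toL R b3Z * t9C R * (t9C R ^ 2 + 9 * t9C R + 27)) := by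
  have h := congrArg (coeffMap (Int.castRingHom R)) thetaFun_t9C_int_mul
  simpa only [coeffMap_thetaFun_int, map_neg, map_mul, map_add, map_pow, map_ofNat,
    coeffMap_t9C_int, coeffMap_ofZ_eq_toL] using h

/-- `eps₉² (t₉ + 9) = c₃ (t₉² + 9 t₉ + 27)`. -/
theorem toL_eps9Z_sq :
    toL R eps9Z ^ 2 * (t9C R + 9) = toL R c3Z * (t9C R ^ 2 + 9 * t9C R + 27) := by
  have h := congrArg (coeffMap (Int.castRingHom R)) ofZ_eps9Z_sq
  simpa only [map_mul, map_add, map_pow, map_ofNat, coeffMap_t9C_int, coeffMap_ofZ_eq_toL]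
    using h

/-- `eps₉³ = d₃ (t₉² + 9 t₉ + 27)`. -/
theorem toL_eps9Z_cube :
    toL R eps9Z ^ 3 = toL R d3Z * (t9C R ^ 2 + 9 * t9C R + 27) := by
  have h := congrArg (coeffMap (Int.castRingHom R)) ofZ_eps9Z_cube
  simpa only [map_mul, map_add, map_pow, map_ofNat, coeffMap_t9C_int, coeffMap_ofZ_eq_toL]
    using h

/-- `eps₉⁶ t₉⁹ = Δ (t₉² + 9 t₉ + 27)⁵`. -/
theorem toL_eps9Z_pow_six :
    toL R eps9Z ^ 6 * t9C R ^ 9 = toL R deltaSeries * (t9C R ^ 2 + 9 * t9C R + 27) ^ 5 := by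
  have h := congrArg (coeffMap (Int.castRingHom R)) ofZ_eps9Z_pow_six
  simpa only [map_mul, map_add, map_pow, map_ofNat, coeffMap_t9C_int, coeffMap_ofZ_eq_toL]
    using h

/-- **`(θ t₉)⁶ t₉³ = (t₉² + 9 t₉ + 27)⁵ Δ`** over every coefficient ring. -/
theorem thetaFun_t9C_pow_six :
    thetaFun R (t9C R) ^ 6 * t9C R ^ 3 =
      (t9C R ^ 2 + 9 * t9C R + 27) ^ 5 * toL R deltaSeries := by
  have h := congrArg (coeffMap (Int.castRingHom R)) thetaFun_t9C_int_pow_six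
  simpa only [coeffMap_thetaFun_int, map_mul, map_add, map_pow, map_ofNat, coeffMap_t9C_int,
    coeffMap_ofZ_eq_toL] using h

/-- `E₄ (t₉²+9t₉+27)² = eps₉² (t₉+9) (t₉³+243t₉²+2187t₉+6561)`. -/
theorem toL_eisenstein4_nine :
    toL R eisenstein4 * (t9C R ^ 2 + 9 * t9C R + 27) ^ 2 =
      toL R eps9Z ^ 2 * (t9C R + 9)
        * (t9C R ^ 3 + 243 * t9C R ^ 2 + 2187 * t9C R + 6561) := by
  have h := congrArg (coeffMap (Int.castRingHom R)) ofZ_eisenstein4_nine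
  simpa only [map_mul, map_add, map_pow, map_ofNat, coeffMap_t9C_int, coeffMap_ofZ_eq_toL]
    using h

/-- **Chain rule on the base line of level 9**, every coefficient ring. -/
theorem thetaFun_jq_nine :
    thetaFun R (jqModC R) * t9C R ^ 10 * (t9C R ^ 2 + 9 * t9C R + 27) ^ 2 =
      ((t9C R + 9) * (t9C R ^ 3 + 243 * t9C R ^ 2 + 2187 * t9C R + 6561)) ^ 2
        * (t9C R ^ 6 - 486 * t9C R ^ 5 - 24057 * t9C R ^ 4 - 367416 * t9C R ^ 3
          - 2657205 * t9C R ^ 2 - 9565938 * t9C R - 14348907)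
        * thetaFun R (t9C R) := by
  have h := congrArg (coeffMap (Int.castRingHom R)) thetaFun_jq_int_nine
  simpa only [coeffMap_thetaFun_int, map_mul, map_add, map_sub, map_pow, map_ofNat,
    coeffMap_t9C_int, coeffMap_jqModC_int] using h

/-- `b₃ ≡ 1` when `2 = 0` (or `3 = 0`) in `R`. -/
theorem toL_b3Z_eq_one (h : (12 : R) = 0) : toL R b3Z = 1 := by
  rw [Fermat.Agent.Lib.helper3874.toL_apply,
    Fermat.Agent.S18.helper6894.map_b3Z_eq_one (Int.castRingHom R) (by simpa using h), map_one]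

/-- **Hasse input at `q = 2` on the base line of level 9**: if `2 = 0` in `R` then
`θ t₉ · (t₉ + 9)² = - t₉ (t₉² + 9 t₉ + 27)`, i.e. `θ t̄₉ = t̄₉ (t̄₉² + t̄₉ + 1)/(t̄₉ + 1)²`. -/
theorem thetaFun_t9C_of_two (h2 : (2 : R) = 0) :
    thetaFun R (t9C R) * (t9C R + 9) ^ 2 = -(t9C R * (t9C R ^ 2 + 9 * t9C R + 27)) := by
  have h12 : (12 : R) = 0 := by
    have : (12 : R) = 2 * 6 := by norm_num
    rw [this, h2, zero_mul]
  rw [thetaFun_t9C_mul, toL_b3Z_eq_one R h12, one_mul]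

/-- If `2 = 0` in `R`: `eps₉ (t₉ + 9)² = t₉² + 9 t₉ + 27`. -/
theorem toL_eps9Z_mul_of_two (h2 : (2 : R) = 0) :
    toL R eps9Z * (t9C R + 9) ^ 2 = t9C R ^ 2 + 9 * t9C R + 27 := by
  have h12 : (12 : R) = 0 := by
    have : (12 : R) = 2 * 6 := by norm_num
    rw [this, h2, zero_mul]
  rw [toL_eps9Z_mul, toL_b3Z_eq_one R h12, one_mul]

end General

/-! ### Eta-quotient forms: `eps₄ = (η(2z)¹⁰/(η(z)⁴η(4z)⁴))²`, `eps₉ t₉² = (η(z)³/η(3z))² Q(t₉)` -/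

section EtaForms

/-- In `ℤ⟦q⟧`, two series with constant term `1` and equal sixth powers are equal. -/
theorem eq_of_pow_six_eq {x y : PowerSeries ℤ} (hx : PowerSeries.constantCoeff x = 1)
    (hy : PowerSeries.constantCoeff y = 1) (h : x ^ 6 = y ^ 6) : x = y := by
  have hne : x ^ 5 + x ^ 4 * y + x ^ 3 * y ^ 2 + x ^ 2 * y ^ 3 + x * y ^ 4 + y ^ 5 ≠ 0 := by
    intro h0
    have := congrArg PowerSeries.constantCoeff h0
    simp [hx, hy] at this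
  have h2 : (x - y) *
      (x ^ 5 + x ^ 4 * y + x ^ 3 * y ^ 2 + x ^ 2 * y ^ 3 + x * y ^ 4 + y ^ 5) = 0 := by
    linear_combination h
  rcases mul_eq_zero.mp h2 with h3 | h3
  · exact sub_eq_zero.mp h3
  · exact absurd h3 hne

theorem toL_int_injective : Function.Injective (toL ℤ) := by
  intro a b h
  rw [← ofZ_eq_toL, ← ofZ_eq_toL] at h
  exact HahnSeries.ofPowerSeries_injective h

/-! #### Level 4: `eps₄ = (Θ²)²`, `Θ² = η(2z)¹⁰/(η(z)⁴ η(4z)⁴)` -/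

/-- The weight one form `Θ² = η(2z)¹⁰ / (η(z)⁴ η(4z)⁴)` as an integer power series. -/
def theta2Z : PowerSeries ℤ :=
  PowerSeries.expand 2 two_ne_zero etaProd ^ 10 * etaInv ^ 4 *
    PowerSeries.expand 4 four_ne_zero etaInv ^ 4

theorem constantCoeff_theta2Z : PowerSeries.constantCoeff theta2Z = 1 := by
  rw [theta2Z, map_mul, map_mul, map_pow, map_pow, map_pow, PowerSeries.constantCoeff_expand,
    PowerSeries.constantCoeff_expand, constantCoeff_etaProd,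
    Fermat.Agent.Lib.helper3874.constantCoeff_etaInv]
  norm_num

/-- `eps₄⁶ (q h₂)⁵ = η²⁴ (q t₄)⁶` in `ℤ⟦q⟧`. -/
theorem eps4Z_pow_six_mul : eps4Z ^ 6 * H2 ^ 5 = etaProd ^ 24 * T4 ^ 6 := by
  apply toL_int_injective
  have e1 := Fermat.Agent.Lib.helper3874.t4C_h2 ℤ
  have hE := ofZ_eps4Z_pow_six
  rw [ofZ_eq_toL, ofZ_eq_toL] at hE
  have hD : toL ℤ deltaSeries = qv ℤ * toL ℤ etaProd ^ 24 := by
    rw [deltaSeries, map_mul, map_pow, Fermat.Agent.Lib.helper3874.toL_X]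
  have h6 : toL ℤ eps4Z ^ 6 * h2C ℤ ^ 5 = toL ℤ deltaSeries * t4C ℤ ^ 6 := by
    apply mul_left_cancel₀ (pow_ne_zero 4 t4C_int_ne_zero)
    linear_combination h2C ℤ ^ 5 * hE + toL ℤ deltaSeries *
      ((h2C ℤ * (t4C ℤ + 16)) ^ 4 + (h2C ℤ * (t4C ℤ + 16)) ^ 3 * t4C ℤ ^ 2
        + (h2C ℤ * (t4C ℤ + 16)) ^ 2 * t4C ℤ ^ 4 + (h2C ℤ * (t4C ℤ + 16)) * t4C ℤ ^ 6
        + t4C ℤ ^ 8) * e1
  simp only [map_mul, map_pow, Fermat.Agent.Lib.helper3874.toL_H2,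
    Fermat.Agent.Lib.helper3874.toL_T4]
  rw [hD] at h6
  linear_combination qv ℤ ^ 5 * h6

/-- `eps₄ = (Θ²)²`: the weight two form of `θ t₄ = - t₄ eps₄` is the square of the eta quotient
`η(2z)¹⁰/(η(z)⁴ η(4z)⁴)`. -/
theorem theta2Z_sq : theta2Z ^ 2 = eps4Z := by
  have h1 := Fermat.Agent.Lib.helper3874.etaProd_mul_etaInv
  have h2 := Fermat.Agent.Lib.helper3874.expand_etaProd_mul_expand_etaInv 2 two_ne_zero
  have hP := eps4Z_pow_six_mul
  rw [H2, T4, etaQuot, etaQuot] at hP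
  have key : (theta2Z ^ 2) ^ 6 = eps4Z ^ 6 := by
    symm
    calc eps4Z ^ 6 = eps4Z ^ 6 * ((etaProd * etaInv) ^ 120 *
          (PowerSeries.expand 2 two_ne_zero etaProd *
            PowerSeries.expand 2 two_ne_zero etaInv) ^ 120) := by
          rw [h1, h2]; ring
      _ = (eps4Z ^ 6 * ((etaProd * PowerSeries.expand 2 two_ne_zero etaInv) ^ 24) ^ 5) *
            (PowerSeries.expand 2 two_ne_zero etaProd ^ 120 * etaInv ^ 120) := by ring
      _ = (etaProd ^ 24 * ((etaProd * PowerSeries.expand 4 four_ne_zero etaInv) ^ 8) ^ 6) *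
            (PowerSeries.expand 2 two_ne_zero etaProd ^ 120 * etaInv ^ 120) := by rw [hP]
      _ = (etaProd * etaInv) ^ 72 * (theta2Z ^ 2) ^ 6 := by rw [theta2Z]; ring
      _ = (theta2Z ^ 2) ^ 6 := by rw [h1]; ring
  exact eq_of_pow_six_eq (by rw [map_pow, constantCoeff_theta2Z, one_pow]) constantCoeff_eps4Z key

/-! #### Level 9: `eps₉ t₉² = b² (t₉² + 9 t₉ + 27)`, `b = η(z)³/η(3z)` -/

/-- The weight one form `b = η(z)³ / η(3z)` as an integer power series. -/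
def b9Z : PowerSeries ℤ := etaProd ^ 3 * PowerSeries.expand 3 three_ne_zero etaInv

theorem constantCoeff_b9Z : PowerSeries.constantCoeff b9Z = 1 := by
  rw [b9Z, map_mul, map_pow, PowerSeries.constantCoeff_expand, constantCoeff_etaProd,
    Fermat.Agent.Lib.helper3874.constantCoeff_etaInv]
  norm_num

/-- `Δ · (q h₃) = q b¹²`. -/
theorem deltaSeries_mul_H3 : deltaSeries * H3 = PowerSeries.X * b9Z ^ 12 := by
  rw [deltaSeries, H3, etaQuot, b9Z]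
  ring

/-- `b² ((q t₉)² + 9 q (q t₉) + 27 q²) = eps₉ (q t₉)²` in `ℤ⟦q⟧`. -/
theorem b9Z_sq_mul :
    b9Z ^ 2 * (T9 ^ 2 + 9 * PowerSeries.X * T9 + 27 * PowerSeries.X ^ 2) = eps9Z * T9 ^ 2 := by
  have c9 := Fermat.Agent.Lib.helper3874.constantCoeff_T9
  refine eq_of_pow_six_eq ?_ ?_ ?_
  · rw [map_mul, map_pow, constantCoeff_b9Z, map_add, map_add, map_pow, c9, map_mul, map_mul,
      map_mul, map_pow, PowerSeries.constantCoeff_X]
    norm_num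
  · rw [map_mul, map_pow, c9, constantCoeff_eps9Z]
    norm_num
  · apply toL_int_injective
    have e1 := Fermat.Agent.Lib.helper3874.t9C_h3 ℤ
    have hE := ofZ_eps9Z_pow_six
    rw [ofZ_eq_toL, ofZ_eq_toL] at hE
    have hD := congrArg (toL ℤ) deltaSeries_mul_H3
    simp only [map_mul, map_pow, Fermat.Agent.Lib.helper3874.toL_H3,
      Fermat.Agent.Lib.helper3874.toL_X] at hD
    have hD' : toL ℤ deltaSeries * h3C ℤ = toL ℤ b9Z ^ 12 :=
      Fermat.Agent.Lib.helper3874.qv_pow_cancel ℤ 1 (by linear_combination hD)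
    simp only [map_mul, map_pow, map_add, map_ofNat, Fermat.Agent.Lib.helper3874.toL_X,
      Fermat.Agent.Lib.helper3874.toL_T9]
    linear_combination (-(qv ℤ ^ 12 * (t9C ℤ ^ 2 + 9 * t9C ℤ + 27) ^ 6)) * hD'
      + qv ℤ ^ 12 * toL ℤ deltaSeries * (t9C ℤ ^ 2 + 9 * t9C ℤ + 27) ^ 5 * e1
      - qv ℤ ^ 12 * t9C ℤ ^ 3 * hE

variable (R : Type*) [CommRing R]

/-- **(I4) in eta-quotient form**, every commutative ring: `θ t₄ = - t₄ (Θ²)²`. -/
theorem thetaFun_t4C_theta2 : thetaFun R (t4C R) = -(t4C R * toL R theta2Z ^ 2) := by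
  rw [thetaFun_t4C, ← map_pow, theta2Z_sq]

/-- `Θ²` is a unit of `R((q))`. -/
theorem isUnit_toL_theta2Z : IsUnit (toL R theta2Z) :=
  isUnit_toL_of_constantCoeff R constantCoeff_theta2Z

/-- `b² (t₉² + 9 t₉ + 27) = eps₉ t₉²` in `R((q))`. -/
theorem toL_b9Z_sq_mul :
    toL R b9Z ^ 2 * (t9C R ^ 2 + 9 * t9C R + 27) = toL R eps9Z * t9C R ^ 2 := by
  have h := congrArg (toL R) b9Z_sq_mul
  simp only [map_mul, map_pow, map_add, map_ofNat, Fermat.Agent.Lib.helper3874.toL_X,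
    Fermat.Agent.Lib.helper3874.toL_T9] at h
  exact Fermat.Agent.Lib.helper3874.qv_pow_cancel R 2 (by linear_combination h)

/-- **(I9) in eta-quotient form**, every commutative ring:
`t₉ · θ t₉ = - b² (t₉² + 9 t₉ + 27)`, `b = η(z)³/η(3z)`. -/
theorem thetaFun_t9C_b9 :
    t9C R * thetaFun R (t9C R) = -(toL R b9Z ^ 2 * (t9C R ^ 2 + 9 * t9C R + 27)) := by
  rw [thetaFun_t9C, toL_b9Z_sq_mul]
  ring

/-- `b` is a unit of `R((q))`. -/
theorem isUnit_toL_b9Z : IsUnit (toL R b9Z) :=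
  isUnit_toL_of_constantCoeff R constantCoeff_b9Z

/-! #### The square of the theta unit `f(q)/f(q^N)` through `θ` (design #50/#97 (a)) -/

/-- Level 4, `f = Θ²`, `V = qExpand R N`:
`θ(V t₄) · t₄ · f² = N · θ t₄ · V t₄ · (V f)²`, i.e. `(f/Vf)² = N (θ t₄/θ(V t₄)) (V t₄/t₄)`. -/
theorem thetaFun_qExpand_t4C_mul (N : ℕ) [NeZero N] :
    thetaFun R (qExpand R N (t4C R)) * t4C R * toL R theta2Z ^ 2 =
      HahnSeries.C (N : R) * thetaFun R (t4C R) * qExpand R N (t4C R) *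
        qExpand R N (toL R theta2Z) ^ 2 := by
  rw [Fermat.Agent.Lib.helper9242.thetaFun_qExpand, thetaFun_t4C_theta2, map_neg, map_mul,
    map_pow]
  ring

/-- Level 9, `b = η(z)³/η(3z)`, `V = qExpand R N`, `Q(x) = x² + 9x + 27`:
`V t₉ · θ(V t₉) · b² Q(t₉) = N · (V b)² Q(V t₉) · t₉ · θ t₉`. -/
theorem thetaFun_qExpand_t9C_mul (N : ℕ) [NeZero N] :
    qExpand R N (t9C R) * thetaFun R (qExpand R N (t9C R)) *
        (toL R b9Z ^ 2 * (t9C R ^ 2 + 9 * t9C R + 27)) =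
      HahnSeries.C (N : R) *
        (qExpand R N (toL R b9Z) ^ 2 *
          (qExpand R N (t9C R) ^ 2 + 9 * qExpand R N (t9C R) + 27)) *
        (t9C R * thetaFun R (t9C R)) := by
  have h := congrArg (qExpand R N) (thetaFun_t9C_b9 R)
  simp only [map_mul, map_neg, map_pow, map_add, map_ofNat] at h
  rw [Fermat.Agent.Lib.helper9242.thetaFun_qExpand, thetaFun_t9C_b9]
  linear_combination HahnSeries.C (N : R) * (toL R b9Z ^ 2 * (t9C R ^ 2 + 9 * t9C R + 27)) * h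

end EtaForms

section UnitForm

variable (R : Type*) [CommRing R]

/-! #### The unit forms `θ t = - f² u` (shape of the theta-unit design, #210 (B)) -/

/-- `1/t₉ = q (η(9z)/η(z))³` as an integer power series. -/
def t9invZ : PowerSeries ℤ := PowerSeries.X * PowerSeries.invOfUnit T9 1

theorem t9C_mul_toL_t9invZ : t9C R * toL R t9invZ = 1 := by
  have h1 : T9 * PowerSeries.invOfUnit T9 1 = 1 :=
    PowerSeries.mul_invOfUnit _ _ (by rw [Fermat.Agent.Lib.helper3874.constantCoeff_T9]; rfl)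
  have h2 := congrArg (toL R) h1
  rw [map_mul, map_one, Fermat.Agent.Lib.helper3874.toL_T9] at h2
  rw [t9invZ, map_mul, Fermat.Agent.Lib.helper3874.toL_X]
  linear_combination h2

/-- `t₉` is a unit of `R((q))`. -/
theorem isUnit_t9C : IsUnit (t9C R) := IsUnit.of_mul_eq_one _ (t9C_mul_toL_t9invZ R)

/-- `u₉ = (t₉² + 9 t₉ + 27)/t₉ = t₉ + 9 + 27/t₉`. -/
def u9C : LaurentSeries R := t9C R + 9 + 27 * toL R t9invZ

theorem u9C_mul : u9C R * t9C R = t9C R ^ 2 + 9 * t9C R + 27 := by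
  rw [u9C]
  linear_combination 27 * t9C_mul_toL_t9invZ R

theorem coeffMap_u9C {S : Type*} [CommRing S] (f : R →+* S) : coeffMap f (u9C R) = u9C S := by
  rw [u9C, u9C, map_add, map_add, map_mul, map_ofNat, map_ofNat,
    Fermat.Agent.Lib.helper3874.coeffMap_t9C, Fermat.Agent.Lib.helper3874.coeffMap_toL]

/-- **(I9) in the unit form** `θ t₉ = - b² u₉`, `b = η(z)³/η(3z)`, `u₉ = (t₉²+9t₉+27)/t₉`. -/
theorem thetaFun_t9C_u9 : thetaFun R (t9C R) = -(toL R b9Z ^ 2 * u9C R) := by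
  apply (isUnit_t9C R).mul_left_cancel
  rw [thetaFun_t9C_b9, ← u9C_mul]
  ring

/-- **(I4) in the unit form** `θ t₄ = - (Θ²)² t₄`. -/
theorem thetaFun_t4C_u4 : thetaFun R (t4C R) = -(toL R theta2Z ^ 2 * t4C R) := by
  rw [thetaFun_t4C_theta2, mul_comm]

end UnitForm

section Bridges

/-! #### Characterisations of `theta2Z`, `b9Z` (bridges to other definitions of the same series) -/

/-- `Θ² · (η(z)⁴ η(4z)⁴) = η(2z)¹⁰`. -/
theorem theta2Z_mul :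
    theta2Z * (etaProd ^ 4 * PowerSeries.expand 4 four_ne_zero etaProd ^ 4) =
      PowerSeries.expand 2 two_ne_zero etaProd ^ 10 := by
  have h1 := Fermat.Agent.Lib.helper3874.etaProd_mul_etaInv
  have h4 := Fermat.Agent.Lib.helper3874.expand_etaProd_mul_expand_etaInv 4 four_ne_zero
  calc theta2Z * (etaProd ^ 4 * PowerSeries.expand 4 four_ne_zero etaProd ^ 4)
      = PowerSeries.expand 2 two_ne_zero etaProd ^ 10 * (etaProd * etaInv) ^ 4 *
          (PowerSeries.expand 4 four_ne_zero etaProd *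
            PowerSeries.expand 4 four_ne_zero etaInv) ^ 4 := by rw [theta2Z]; ring
    _ = _ := by rw [h1, h4]; ring

/-- Any integer series `s` with `s · η(z)⁴ η(4z)⁴ = η(2z)¹⁰` is `theta2Z`. -/
theorem eq_theta2Z_of_mul {s : PowerSeries ℤ}
    (h : s * (etaProd ^ 4 * PowerSeries.expand 4 four_ne_zero etaProd ^ 4) =
      PowerSeries.expand 2 two_ne_zero etaProd ^ 10) : s = theta2Z := by
  have hne : etaProd ^ 4 * PowerSeries.expand 4 four_ne_zero etaProd ^ 4 ≠ 0 := by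
    refine Fermat.Agent.Lib.helper3874.ne_zero_of_constantCoeff (c := 1) ?_ one_ne_zero
    rw [map_mul, map_pow, map_pow, PowerSeries.constantCoeff_expand, constantCoeff_etaProd]
    norm_num
  exact mul_right_cancel₀ hne (h.trans theta2Z_mul.symm)

/-- `theta2Z` in the `invOfUnit` form (the definition used by the analytic theta-unit files). -/
theorem theta2Z_eq_invOfUnit :
    theta2Z = PowerSeries.expand 2 two_ne_zero etaProd ^ 10 *
      PowerSeries.invOfUnit (etaProd ^ 4 * PowerSeries.expand 4 four_ne_zero etaProd ^ 4) 1 := by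
  symm
  apply eq_theta2Z_of_mul
  have hc : PowerSeries.constantCoeff (etaProd ^ 4 *
      PowerSeries.expand 4 four_ne_zero etaProd ^ 4) = ((1 : ℤˣ) : ℤ) := by
    rw [map_mul, map_pow, map_pow, PowerSeries.constantCoeff_expand, constantCoeff_etaProd]
    norm_num
  rw [mul_assoc, PowerSeries.invOfUnit_mul _ _ hc, mul_one]

/-- `b · η(3z) = η(z)³`. -/
theorem b9Z_mul : b9Z * PowerSeries.expand 3 three_ne_zero etaProd = etaProd ^ 3 := by
  have h3 := Fermat.Agent.Lib.helper3874.expand_etaProd_mul_expand_etaInv 3 three_ne_zero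
  calc b9Z * PowerSeries.expand 3 three_ne_zero etaProd
      = etaProd ^ 3 * (PowerSeries.expand 3 three_ne_zero etaProd *
          PowerSeries.expand 3 three_ne_zero etaInv) := by rw [b9Z]; ring
    _ = _ := by rw [h3, mul_one]

/-- Any integer series `s` with `s · η(3z) = η(z)³` is `b9Z`. -/
theorem eq_b9Z_of_mul {s : PowerSeries ℤ}
    (h : s * PowerSeries.expand 3 three_ne_zero etaProd = etaProd ^ 3) : s = b9Z := by
  have hne : PowerSeries.expand 3 three_ne_zero etaProd ≠ 0 := by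
    refine Fermat.Agent.Lib.helper3874.ne_zero_of_constantCoeff (c := 1) ?_ one_ne_zero
    rw [PowerSeries.constantCoeff_expand, constantCoeff_etaProd]
  exact mul_right_cancel₀ hne (h.trans b9Z_mul.symm)

/-- `b9Z` in the `invOfUnit` form. -/
theorem b9Z_eq_invOfUnit :
    b9Z = etaProd ^ 3 * PowerSeries.invOfUnit (PowerSeries.expand 3 three_ne_zero etaProd) 1 := by
  symm
  apply eq_b9Z_of_mul
  have hc : PowerSeries.constantCoeff (PowerSeries.expand 3 three_ne_zero etaProd) =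
      ((1 : ℤˣ) : ℤ) := by
    rw [PowerSeries.constantCoeff_expand, constantCoeff_etaProd]
    rfl
  rw [mul_assoc, PowerSeries.invOfUnit_mul _ _ hc, mul_one]

end Bridges

end

end Fermat.Agent.S36.helper1257
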