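import Mathlib

/-!
# S36 — seam U6 of PLAN v1 (findings #3449): CHART-1 TRANSFER  (helper1280)

Two charts `B0`, `B1` of a model inside a field `F`, with chart coordinate `x`
(`x ∈ B0`, `x⁻¹ ∈ B1`) and overlap chart `B01 = B0[x⁻¹] = B1[x]`.

A prime `P` of `B1` with `x⁻¹ ∉ P` (a "non-cuspidal" point of chart 1) has a twin prime
`twin P = P · B01 ∩ B0` of `B0` with the SAME local ring inside `F`.  Consequently every
pointwise statement in the vocabulary of `helper36_KillData`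
(`InP / LocAt / LocMax / Through / BranchReg / BranchVal`) at `(B1, P)` is equivalent to the same
statement at `(B0, twin P)`, and the pointwise fields of `KillData` (`lp`, `smooth`, `dich`,
`one_point`) at chart 1 follow from the same fields at chart 0 plus the cuspidal points
(`x⁻¹ ∈ P`) of chart 1.

`import Mathlib` only.  The six vocabulary definitions are restated with the bodies of
`Fermat.Agent.S36.helper36` verbatim, so every result here is `exact` against the corresponding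
`KillData` field up to unfolding.
-/

set_option autoImplicit false

namespace Fermat.Agent.S36.helper1280

/-! ## Vocabulary (bodies verbatim from `helper36_KillData`) -/

section Vocabulary

variable {F : Type*} [Field F]

/-- `y` is an element of the ideal `P` of the subring `B` of `F`. -/
def InP (B : Subring F) (P : Ideal B) (y : F) : Prop :=
  ∃ h : y ∈ B, (⟨y, h⟩ : B) ∈ P

/-- `y ∈ B_P`: the localisation of the subring `B` of the field `F` at `P`, inside `F`. -/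
def LocAt (B : Subring F) (P : Ideal B) (y : F) : Prop :=
  ∃ a s : F, a ∈ B ∧ s ∈ B ∧ ¬ InP B P s ∧ y * s = a

/-- `y ∈ P · B_P`. -/
def LocMax (B : Subring F) (P : Ideal B) (y : F) : Prop :=
  ∃ a s : F, InP B P a ∧ s ∈ B ∧ ¬ InP B P s ∧ y * s = a

/-- The centre of `V` on `B` lies in `P`. -/
def Through (B : Subring F) (P : Ideal B) (V : ValuationSubring F) : Prop :=
  ∀ b : F, b ∈ B → b ∈ V.nonunits → InP B P b

/-- `y ∈ B_P + 𝔪(V)`. -/
def BranchReg (B : Subring F) (P : Ideal B) (V : ValuationSubring F) (y : F) : Prop :=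
  ∃ m b : F, m ∈ V.nonunits ∧ LocAt B P b ∧ y = m + b

/-- `y - z ∈ P B_P + 𝔪(V)`. -/
def BranchVal (B : Subring F) (P : Ideal B) (V : ValuationSubring F) (y z : F) : Prop :=
  ∃ m p : F, m ∈ V.nonunits ∧ LocMax B P p ∧ y - z = m + p

end Vocabulary

/-! ## Elementary calculus of `InP` -/

section InPCalc

variable {F : Type*} [Field F] {B : Subring F} {P : Ideal B}

theorem InP.mem {y : F} (h : InP B P y) : y ∈ B := h.1

theorem inP_iff {y : F} (hy : y ∈ B) : InP B P y ↔ (⟨y, hy⟩ : B) ∈ P :=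
  ⟨fun ⟨_, h⟩ => h, fun h => ⟨hy, h⟩⟩

theorem inP_zero (B : Subring F) (P : Ideal B) : InP B P 0 :=
  ⟨B.zero_mem, P.zero_mem⟩

theorem InP.add {y z : F} (hy : InP B P y) (hz : InP B P z) : InP B P (y + z) :=
  ⟨B.add_mem hy.1 hz.1, P.add_mem hy.2 hz.2⟩

theorem InP.neg {y : F} (hy : InP B P y) : InP B P (-y) :=
  ⟨B.neg_mem hy.1, P.neg_mem hy.2⟩

theorem InP.sub {y z : F} (hy : InP B P y) (hz : InP B P z) : InP B P (y - z) :=
  ⟨B.sub_mem hy.1 hz.1, P.sub_mem hy.2 hz.2⟩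

theorem InP.mul_left {c y : F} (hc : c ∈ B) (hy : InP B P y) : InP B P (c * y) :=
  ⟨B.mul_mem hc hy.1, P.mul_mem_left ⟨c, hc⟩ hy.2⟩

theorem InP.mul_right {c y : F} (hy : InP B P y) (hc : c ∈ B) : InP B P (y * c) :=
  ⟨B.mul_mem hy.1 hc, P.mul_mem_right ⟨c, hc⟩ hy.2⟩

theorem InP.of_mul [P.IsPrime] {a b : F} (ha : a ∈ B) (hb : b ∈ B) (h : InP B P (a * b)) :
    InP B P a ∨ InP B P b := by
  have h1 : (⟨a, ha⟩ * ⟨b, hb⟩ : B) ∈ P := h.2
  rcases Ideal.IsPrime.mem_or_mem ‹P.IsPrime› h1 with h2 | h2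
  · exact Or.inl ⟨ha, h2⟩
  · exact Or.inr ⟨hb, h2⟩

theorem not_inP_one [P.IsPrime] : ¬ InP B P 1 := fun h =>
  (Ideal.IsPrime.ne_top ‹P.IsPrime›) ((Ideal.eq_top_iff_one P).2 h.2)

theorem not_inP_pow [P.IsPrime] {a : F} (ha : a ∈ B) (h : ¬ InP B P a) (n : ℕ) :
    ¬ InP B P (a ^ n) := by
  induction n with
  | zero => simpa using not_inP_one (B := B) (P := P)
  | succ n ih =>
    rw [pow_succ]
    intro hc
    rcases InP.of_mul (B.pow_mem ha n) ha hc with h' | h'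
    · exact ih h'
    · exact h h'

/-- `𝔪(V)` absorbs multiplication by elements of `V`. -/
theorem mul_mem_nonunits (V : ValuationSubring F) {w b : F} (hw : w ∈ V) (hb : b ∈ V.nonunits) :
    w * b ∈ V.nonunits := by
  rw [ValuationSubring.mem_nonunits_iff] at hb ⊢
  rw [map_mul]
  have h1 : V.valuation w ≤ 1 := (V.valuation_le_one_iff w).2 hw
  calc V.valuation w * V.valuation b ≤ 1 * V.valuation b := by gcongr
    _ = V.valuation b := one_mul _
    _ < 1 := hb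

end InPCalc

/-! ## The chart pair and the twin point -/

section Pair

variable {F : Type*} [Field F]

/-- Two charts `B0 ∋ x`, `B1 ∋ x⁻¹` with overlap `B01 = B0[x⁻¹] = B1[x]`
(`KillData` fields `x_ne, x_mem, xinv_mem, B_le_B01, glue0, glue1`). -/
structure ChartPair (B0 B1 B01 : Subring F) (x : F) : Prop where
  x_ne : x ≠ 0
  x_mem : x ∈ B0
  xinv_mem : x⁻¹ ∈ B1
  le0 : ∀ b : F, b ∈ B0 → b ∈ B01
  le1 : ∀ b : F, b ∈ B1 → b ∈ B01
  glue0 : ∀ y : F, y ∈ B01 → ∃ N : ℕ, x ^ N * y ∈ B0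
  glue1 : ∀ y : F, y ∈ B01 → ∃ N : ℕ, x⁻¹ ^ N * y ∈ B1

variable {B0 B1 B01 : Subring F} {x : F}

/-- The pair is symmetric under `(B0, B1, x) ↦ (B1, B0, x⁻¹)`. -/
theorem ChartPair.symm (h : ChartPair B0 B1 B01 x) : ChartPair B1 B0 B01 x⁻¹ where
  x_ne := inv_ne_zero h.x_ne
  x_mem := h.xinv_mem
  xinv_mem := by rw [inv_inv]; exact h.x_mem
  le0 := h.le1
  le1 := h.le0
  glue0 := h.glue1
  glue1 := by simpa only [inv_inv] using h.glue0

theorem ChartPair.glue0_ge (h : ChartPair B0 B1 B01 x) {y : F} (hy : y ∈ B01) :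
    ∃ N : ℕ, ∀ M : ℕ, N ≤ M → x ^ M * y ∈ B0 := by
  obtain ⟨N, hN⟩ := h.glue0 y hy
  refine ⟨N, fun M hM => ?_⟩
  obtain ⟨k, rfl⟩ := Nat.exists_eq_add_of_le hM
  have e : x ^ (N + k) * y = x ^ k * (x ^ N * y) := by ring
  rw [e]
  exact B0.mul_mem (B0.pow_mem h.x_mem k) hN

theorem ChartPair.glue1_ge (h : ChartPair B0 B1 B01 x) {y : F} (hy : y ∈ B01) :
    ∃ N : ℕ, ∀ M : ℕ, N ≤ M → x⁻¹ ^ M * y ∈ B1 := by
  obtain ⟨N, hN⟩ := h.glue1 y hy
  refine ⟨N, fun M hM => ?_⟩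
  obtain ⟨k, rfl⟩ := Nat.exists_eq_add_of_le hM
  have e : x⁻¹ ^ (N + k) * y = x⁻¹ ^ k * (x⁻¹ ^ N * y) := by ring
  rw [e]
  exact B1.mul_mem (B1.pow_mem h.xinv_mem k) hN

theorem ChartPair.inv_pow_mul_pow_mul (h : ChartPair B0 B1 B01 x) (M : ℕ) (s : F) :
    x⁻¹ ^ M * (x ^ M * s) = s := by
  rw [← mul_assoc, ← mul_pow, inv_mul_cancel₀ h.x_ne, one_pow, one_mul]

theorem ChartPair.pow_mul_inv_pow_mul (h : ChartPair B0 B1 B01 x) (M : ℕ) (s : F) :
    x ^ M * (x⁻¹ ^ M * s) = s := by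
  rw [← mul_assoc, ← mul_pow, mul_inv_cancel₀ h.x_ne, one_pow, one_mul]

/-- **The twin point**: `twin P = P · B01 ∩ B0`, for an ideal `P` of `B1`. -/
def twin (h : ChartPair B0 B1 B01 x) (P : Ideal B1) : Ideal B0 where
  carrier := {b | ∃ N : ℕ, InP B1 P (x⁻¹ ^ N * (b : F))}
  zero_mem' := ⟨0, by simpa using inP_zero B1 P⟩
  add_mem' := by
    rintro a b ⟨N, hN⟩ ⟨M, hM⟩
    refine ⟨N + M, ?_⟩
    have e : x⁻¹ ^ (N + M) * ((a + b : B0) : F)
        = x⁻¹ ^ M * (x⁻¹ ^ N * (a : F)) + x⁻¹ ^ N * (x⁻¹ ^ M * (b : F)) := by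
      push_cast; ring
    rw [e]
    exact (hN.mul_left (B1.pow_mem h.xinv_mem M)).add (hM.mul_left (B1.pow_mem h.xinv_mem N))
  smul_mem' := by
    rintro c b ⟨N, hN⟩
    obtain ⟨M, hM⟩ := h.glue1 c (h.le0 c c.2)
    refine ⟨M + N, ?_⟩
    have e : x⁻¹ ^ (M + N) * ((c • b : B0) : F) = (x⁻¹ ^ M * (c : F)) * (x⁻¹ ^ N * (b : F)) := by
      simp only [smul_eq_mul, Subring.coe_mul]; ring
    rw [e]
    exact hN.mul_left hM

theorem mem_twin (h : ChartPair B0 B1 B01 x) (P : Ideal B1) (b : B0) :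
    b ∈ twin h P ↔ ∃ N : ℕ, InP B1 P (x⁻¹ ^ N * (b : F)) := Iff.rfl

/-- Membership in the twin point, element form. -/
theorem inP_twin_iff (h : ChartPair B0 B1 B01 x) (P : Ideal B1) (y : F) :
    InP B0 (twin h P) y ↔ y ∈ B0 ∧ ∃ N : ℕ, InP B1 P (x⁻¹ ^ N * y) :=
  ⟨fun ⟨hy, hN⟩ => ⟨hy, hN⟩, fun ⟨hy, hN⟩ => ⟨hy, hN⟩⟩

variable (h : ChartPair B0 B1 B01 x) (P : Ideal B1)

include h in
/-- Key lemma: membership in `P · B01` can be tested with ANY exponent that lands in `B1`. -/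
theorem inP_of_exists [P.IsPrime] (hP : ¬ InP B1 P x⁻¹) {y : F} {N : ℕ}
    (hy : ∃ M : ℕ, InP B1 P (x⁻¹ ^ M * y)) (hN : x⁻¹ ^ N * y ∈ B1) :
    InP B1 P (x⁻¹ ^ N * y) := by
  obtain ⟨M, hM⟩ := hy
  have h1 : InP B1 P (x⁻¹ ^ M * (x⁻¹ ^ N * y)) := by
    have e : x⁻¹ ^ M * (x⁻¹ ^ N * y) = x⁻¹ ^ N * (x⁻¹ ^ M * y) := by ring
    rw [e]
    exact hM.mul_left (B1.pow_mem h.xinv_mem N)
  rcases InP.of_mul (B1.pow_mem h.xinv_mem M) hN h1 with h2 | h2
  · exact absurd h2 (not_inP_pow h.xinv_mem hP M)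
  · exact h2

/-- (T1) On `B0 ∩ B1` the twin point and the point have the same elements. -/
theorem inP_twin_iff_of_mem [P.IsPrime] (hP : ¬ InP B1 P x⁻¹) {y : F} (hy0 : y ∈ B0)
    (hy1 : y ∈ B1) : InP B0 (twin h P) y ↔ InP B1 P y := by
  rw [inP_twin_iff]
  constructor
  · rintro ⟨_, hN⟩
    have := inP_of_exists h P hP (N := 0) hN (by simpa using hy1)
    simpa using this
  · intro hy
    exact ⟨hy0, 0, by simpa using hy⟩

/-- (T1) The twin of a prime not containing `x⁻¹` is prime. -/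
theorem twin_isPrime [P.IsPrime] (hP : ¬ InP B1 P x⁻¹) : (twin h P).IsPrime := by
  rw [Ideal.isPrime_iff]
  refine ⟨?_, ?_⟩
  · intro htop
    have h1 : (1 : B0) ∈ twin h P := by rw [htop]; exact Submodule.mem_top
    have h2 : InP B1 P (x⁻¹ ^ 0 * ((1 : B0) : F)) :=
      inP_of_exists h P hP (N := 0) h1 (by simp)
    have h3 : InP B1 P 1 := by simpa using h2
    exact not_inP_one h3
  · intro a b hab
    obtain ⟨Ma, hMa⟩ := h.glue1 a (h.le0 a a.2)
    obtain ⟨Mb, hMb⟩ := h.glue1 b (h.le0 b b.2)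
    have e : x⁻¹ ^ (Ma + Mb) * ((a * b : B0) : F)
        = (x⁻¹ ^ Ma * (a : F)) * (x⁻¹ ^ Mb * (b : F)) := by
      push_cast; ring
    have h1 : InP B1 P (x⁻¹ ^ (Ma + Mb) * ((a * b : B0) : F)) :=
      inP_of_exists h P hP hab (by rw [e]; exact B1.mul_mem hMa hMb)
    rw [e] at h1
    rcases InP.of_mul hMa hMb h1 with h2 | h2
    · exact Or.inl ⟨Ma, h2⟩
    · exact Or.inr ⟨Mb, h2⟩

/-- (T1) `x` is a unit at the twin point. -/
theorem not_inP_twin_x [P.IsPrime] (hP : ¬ InP B1 P x⁻¹) : ¬ InP B0 (twin h P) x := by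
  rw [inP_twin_iff]
  rintro ⟨_, hN⟩
  have h1 : InP B1 P (x⁻¹ ^ 1 * x) :=
    inP_of_exists h P hP hN (by
      rw [pow_one, inv_mul_cancel₀ h.x_ne]; exact B1.one_mem)
  rw [pow_one, inv_mul_cancel₀ h.x_ne] at h1
  exact not_inP_one h1

/-- (T3) **Same local ring**: `B1_P = B0_{twin P}` inside `F`. -/
theorem locAt_iff [P.IsPrime] (hP : ¬ InP B1 P x⁻¹) (y : F) :
    LocAt B1 P y ↔ LocAt B0 (twin h P) y := by
  constructor
  · rintro ⟨a, s, ha, hs, hsP, hys⟩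
    obtain ⟨Na, hNa⟩ := h.glue0_ge (h.le1 a ha)
    obtain ⟨Ns, hNs⟩ := h.glue0_ge (h.le1 s hs)
    refine ⟨x ^ max Na Ns * a, x ^ max Na Ns * s, hNa _ (le_max_left _ _),
      hNs _ (le_max_right _ _), ?_, ?_⟩
    · rw [inP_twin_iff]
      rintro ⟨_, hK⟩
      apply hsP
      have h1 := inP_of_exists h P hP (N := max Na Ns) hK (by
        rw [h.inv_pow_mul_pow_mul]; exact hs)
      rwa [h.inv_pow_mul_pow_mul] at h1
    · rw [← hys]; ring
  · rintro ⟨a, s, ha, hs, hsP, hys⟩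
    obtain ⟨Na, hNa⟩ := h.glue1_ge (h.le0 a ha)
    obtain ⟨Ns, hNs⟩ := h.glue1_ge (h.le0 s hs)
    refine ⟨x⁻¹ ^ max Na Ns * a, x⁻¹ ^ max Na Ns * s, hNa _ (le_max_left _ _),
      hNs _ (le_max_right _ _), ?_, ?_⟩
    · intro hc
      exact hsP ((inP_twin_iff h P s).2 ⟨hs, _, hc⟩)
    · rw [← hys]; ring

/-- (T3) Same maximal ideal of the local ring: `P B1_P = (twin P) B0_{twin P}`. -/
theorem locMax_iff [P.IsPrime] (hP : ¬ InP B1 P x⁻¹) (y : F) :
    LocMax B1 P y ↔ LocMax B0 (twin h P) y := by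
  constructor
  · rintro ⟨a, s, ha, hs, hsP, hys⟩
    obtain ⟨Na, hNa⟩ := h.glue0_ge (h.le1 a ha.mem)
    obtain ⟨Ns, hNs⟩ := h.glue0_ge (h.le1 s hs)
    refine ⟨x ^ max Na Ns * a, x ^ max Na Ns * s, ?_, hNs _ (le_max_right _ _), ?_, ?_⟩
    · rw [inP_twin_iff]
      refine ⟨hNa _ (le_max_left _ _), max Na Ns, ?_⟩
      rw [h.inv_pow_mul_pow_mul]; exact ha
    · rw [inP_twin_iff]
      rintro ⟨_, hK⟩
      apply hsP
      have h1 := inP_of_exists h P hP (N := max Na Ns) hK (by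
        rw [h.inv_pow_mul_pow_mul]; exact hs)
      rwa [h.inv_pow_mul_pow_mul] at h1
    · rw [← hys]; ring
  · rintro ⟨a, s, ha, hs, hsP, hys⟩
    obtain ⟨ha0, hK⟩ := (inP_twin_iff h P a).1 ha
    obtain ⟨Na, hNa⟩ := h.glue1_ge (h.le0 a ha0)
    obtain ⟨Ns, hNs⟩ := h.glue1_ge (h.le0 s hs)
    refine ⟨x⁻¹ ^ max Na Ns * a, x⁻¹ ^ max Na Ns * s, ?_, hNs _ (le_max_right _ _), ?_, ?_⟩
    · exact inP_of_exists h P hP hK (hNa _ (le_max_left _ _))
    · intro hc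
      exact hsP ((inP_twin_iff h P s).2 ⟨hs, _, hc⟩)
    · rw [← hys]; ring

/-- (T3) A component passes through `P` iff it passes through the twin point. -/
theorem through_iff [P.IsPrime] (hP : ¬ InP B1 P x⁻¹) (V : ValuationSubring F) (hx : x ∈ V)
    (hxi : x⁻¹ ∈ V) : Through B1 P V ↔ Through B0 (twin h P) V := by
  constructor
  · intro hT b hb hbV
    obtain ⟨M, hM⟩ := h.glue1 b (h.le0 b hb)
    exact (inP_twin_iff h P b).2
      ⟨hb, M, hT _ hM (mul_mem_nonunits V (V.pow_mem hxi M) hbV)⟩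
  · intro hT b hb hbV
    obtain ⟨M, hM⟩ := h.glue0 b (h.le1 b hb)
    obtain ⟨_, hK⟩ := (inP_twin_iff h P _).1
      (hT _ hM (mul_mem_nonunits V (V.pow_mem hx M) hbV))
    have h1 := inP_of_exists h P hP (N := M) hK (by
      rw [h.inv_pow_mul_pow_mul]; exact hb)
    rwa [h.inv_pow_mul_pow_mul] at h1

/-- (T3) Branch regularity transfers. -/
theorem branchReg_iff [P.IsPrime] (hP : ¬ InP B1 P x⁻¹) (V : ValuationSubring F) (y : F) :
    BranchReg B1 P V y ↔ BranchReg B0 (twin h P) V y := by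
  constructor
  · rintro ⟨m, b, hm, hb, hy⟩
    exact ⟨m, b, hm, (locAt_iff h P hP b).1 hb, hy⟩
  · rintro ⟨m, b, hm, hb, hy⟩
    exact ⟨m, b, hm, (locAt_iff h P hP b).2 hb, hy⟩

/-- (T3) Branch values transfer. -/
theorem branchVal_iff [P.IsPrime] (hP : ¬ InP B1 P x⁻¹) (V : ValuationSubring F) (y z : F) :
    BranchVal B1 P V y z ↔ BranchVal B0 (twin h P) V y z := by
  constructor
  · rintro ⟨m, p, hm, hp, hy⟩
    exact ⟨m, p, hm, (locMax_iff h P hP p).1 hp, hy⟩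
  · rintro ⟨m, p, hm, hp, hy⟩
    exact ⟨m, p, hm, (locMax_iff h P hP p).2 hp, hy⟩

/-- (T2) **The twin point is a closed point** as soon as the residues at `P` are constants:
`C` a subring of `B0 ∩ B1` whose elements outside `P` are invertible in `C`, and every element
of `B1` is congruent to an element of `C` modulo `P`  (`KillData.resk`, `C` = image of `O`).
(Without such a hypothesis the statement is false: `R[x]`, `R[x⁻¹]`, `P = (π x⁻¹ - 1)`.) -/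
theorem twin_isMaximal [P.IsPrime] (hP : ¬ InP B1 P x⁻¹) (C : Subring F)
    (hC0 : ∀ z : F, z ∈ C → z ∈ B0) (hC1 : ∀ z : F, z ∈ C → z ∈ B1)
    (hCinv : ∀ z : F, z ∈ C → ¬ InP B1 P z → z⁻¹ ∈ C)
    (hres : ∀ b : F, b ∈ B1 → ∃ z : F, z ∈ C ∧ InP B1 P (b - z)) :
    (twin h P).IsMaximal := by
  rw [Ideal.isMaximal_iff]
  refine ⟨fun h1 => ?_, ?_⟩
  · exact (Ideal.IsPrime.ne_top (twin_isPrime h P hP)) ((Ideal.eq_top_iff_one _).2 h1)
  · intro J b hJ hb hbJ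
    -- `b ∉ twin P`; produce `c ∈ B0` with `b * c - 1 ∈ twin P`
    obtain ⟨M, hM⟩ := h.glue1 b (h.le0 b b.2)
    obtain ⟨z, hzC, hz⟩ := hres _ hM
    obtain ⟨z1, hz1C, hz1⟩ := hres _ h.xinv_mem
    have hz1P : ¬ InP B1 P z1 := by
      intro hc
      apply hP
      have := hz1.add hc
      simpa using this
    have hzP : ¬ InP B1 P z := by
      intro hc
      apply hb
      refine ⟨M, ?_⟩
      have := hz.add hc
      simpa using this
    have hzi : z⁻¹ ∈ C := hCinv z hzC hzP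
    have hz0 : z ≠ 0 := fun h0 => hzP (h0 ▸ inP_zero B1 P)
    -- `x⁻¹ ^ M ≡ z1 ^ M` modulo `P`
    have hpow : ∀ k : ℕ, InP B1 P (x⁻¹ ^ k - z1 ^ k) := by
      intro k
      induction k with
      | zero => simpa using inP_zero B1 P
      | succ k ih =>
        have e : x⁻¹ ^ (k + 1) - z1 ^ (k + 1)
            = x⁻¹ * (x⁻¹ ^ k - z1 ^ k) + z1 ^ k * (x⁻¹ - z1) := by ring
        rw [e]
        exact (ih.mul_left h.xinv_mem).add (hz1.mul_left (B1.pow_mem (hC1 _ hz1C) k))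
    set c : F := z⁻¹ * z1 ^ M with hc
    have hcC : c ∈ C := C.mul_mem hzi (C.pow_mem hz1C M)
    have hc0 : c ∈ B0 := hC0 _ hcC
    have hc1 : c ∈ B1 := hC1 _ hcC
    -- `b * c - 1 ∈ twin P`
    have hkey : (b * ⟨c, hc0⟩ - 1 : B0) ∈ twin h P := by
      refine ⟨M, ?_⟩
      have e : x⁻¹ ^ M * ((b * ⟨c, hc0⟩ - 1 : B0) : F)
          = c * (x⁻¹ ^ M * (b : F) - z) - (x⁻¹ ^ M - z1 ^ M) := by
        push_cast
        rw [hc]
        field_simp
        ring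
      rw [e]
      exact (hz.mul_left hc1).sub (hpow M)
    have h1 : (b * ⟨c, hc0⟩ - 1 : B0) ∈ J := hJ hkey
    have h2 : (b * ⟨c, hc0⟩ : B0) ∈ J := J.mul_mem_right _ hbJ
    have h3 : (1 : B0) ∈ J := by
      have := J.sub_mem h2 h1
      simpa using this
    exact h3

/-- (T5) The twin construction is involutive: the twin (w.r.t. the swapped pair) of the twin
point is the point.  So `P ↦ twin P` is a bijection from the primes of `B1` not containing `x⁻¹`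
onto the primes of `B0` not containing `x`. -/
theorem twin_symm_twin [P.IsPrime] (hP : ¬ InP B1 P x⁻¹) : twin h.symm (twin h P) = P := by
  ext b
  rw [mem_twin]
  constructor
  · rintro ⟨N, hN⟩
    rw [inv_inv] at hN
    obtain ⟨_, hK⟩ := (inP_twin_iff h P _).1 hN
    have h1 := inP_of_exists h P hP (N := N) hK (by
      rw [h.inv_pow_mul_pow_mul]; exact b.2)
    rw [h.inv_pow_mul_pow_mul] at h1
    exact h1.2
  · intro hb
    obtain ⟨N, hN⟩ := h.glue0 b (h.le1 b b.2)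
    refine ⟨N, ?_⟩
    rw [inv_inv]
    refine (inP_twin_iff h P _).2 ⟨hN, N, ?_⟩
    rw [h.inv_pow_mul_pow_mul]
    exact ⟨b.2, hb⟩

end Pair

/-! ## (T2') Closedness of the twin point for integral charts -/

section IntegralMax

open Polynomial

/-- A prime ideal `I` of `S` such that `S ⧸ I` is integral over `A0` and `I` contains the image
of a maximal ideal of `A0` is maximal. -/
theorem isMaximal_of_isIntegral_quotient {A0 S : Type*} [CommRing A0] [CommRing S]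
    [Algebra A0 S] (I : Ideal S) [I.IsPrime] (𝔪 : Ideal A0) [h𝔪max : 𝔪.IsMaximal]
    (h𝔪 : ∀ a ∈ 𝔪, algebraMap A0 S a ∈ I) [Algebra.IsIntegral A0 (S ⧸ I)] : I.IsMaximal := by
  have hcomap : 𝔪 = (⊥ : Ideal (S ⧸ I)).comap (algebraMap A0 (S ⧸ I)) := by
    refine h𝔪max.eq_of_le (Ideal.comap_ne_top _ bot_ne_top) fun a ha => ?_
    rw [Ideal.mem_comap, Ideal.mem_bot]
    exact Ideal.Quotient.eq_zero_iff_mem.2 (h𝔪 a ha)
  have hbot : (⊥ : Ideal (S ⧸ I)).IsMaximal :=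
    Ideal.isMaximal_of_isIntegral_of_isMaximal_comap (R := A0) ⊥ (hcomap ▸ h𝔪max)
  have hker : I = (⊥ : Ideal (S ⧸ I)).comap (Ideal.Quotient.mk I) := by
    rw [← RingHom.ker_eq_comap_bot, Ideal.mk_ker]
  rw [hker]
  exact Ideal.comap_isMaximal_of_surjective _ Ideal.Quotient.mk_surjective

/-- Integrality of a quotient `S ⧸ I` over `A0` through an intermediate ring `R` over which `S`
is integral and which is integral over `A0` modulo `I`. -/
theorem isIntegral_quotient_of_tower {A0 R S : Type*} [CommRing A0] [CommRing R] [CommRing S]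
    [Algebra A0 R] [Algebra R S] [Algebra A0 S] [IsScalarTower A0 R S] [Algebra.IsIntegral R S]
    (I : Ideal S) (hR : ∀ r : R, IsIntegral A0 (Ideal.Quotient.mk I (algebraMap R S r))) :
    Algebra.IsIntegral A0 (S ⧸ I) := by
  refine ⟨fun d => ?_⟩
  obtain ⟨s, rfl⟩ := Ideal.Quotient.mk_surjective d
  let T := integralClosure A0 (S ⧸ I)
  let φ : R →+* T := RingHom.codRestrict ((Ideal.Quotient.mk I).comp (algebraMap R S)) T hR
  have h1 : IsIntegral T (Ideal.Quotient.mk I s) :=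
    IsIntegral.map_of_comp_eq φ (Ideal.Quotient.mk I) (by ext r; rfl)
      (Algebra.IsIntegral.isIntegral (R := R) s)
  exact isIntegral_trans _ h1

variable {F : Type*} [Field F] {B0 B1 B01 : Subring F} {x : F}
  {A0 : Type*} [CommRing A0] [Algebra A0 F]

/-- A subring of `F` containing the image of `A0`, as an `A0`-algebra. -/
@[reducible] def algOfMem (B : Subring F) (hA : ∀ a : A0, algebraMap A0 F a ∈ B) : Algebra A0 B :=
  ((algebraMap A0 F).codRestrict B hA).toAlgebra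

/-- The inclusion of the subalgebra `A0[s]` of `F` into a subring `B` containing it. -/
def adjoinIncl (B : Subring F) (hA : ∀ a : A0, algebraMap A0 F a ∈ B) {s : F} (hs : s ∈ B) :
    Algebra.adjoin A0 ({s} : Set F) →+* B :=
  (Algebra.adjoin A0 ({s} : Set F)).val.toRingHom.codRestrict B (fun r => by
    have hle : Algebra.adjoin A0 ({s} : Set F) ≤
        ({ B.toSubsemiring with algebraMap_mem' := hA } : Subalgebra A0 F) :=
      Algebra.adjoin_le (Set.singleton_subset_iff.2 hs)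
    exact hle r.2)

/-- `B` is integral over `A0[s]` (as an algebra via `adjoinIncl`). -/
theorem isIntegral_adjoinIncl (B : Subring F) (hA : ∀ a : A0, algebraMap A0 F a ∈ B) {s : F}
    (hs : s ∈ B) (hB : ∀ b : F, b ∈ B → IsIntegral (Algebra.adjoin A0 ({s} : Set F)) b) :
    (adjoinIncl B hA hs).IsIntegral := by
  intro b
  obtain ⟨p, hp, hpb⟩ := hB b b.2
  refine ⟨p, hp, ?_⟩
  apply Subtype.val_injective
  show B.subtype (eval₂ (adjoinIncl B hA hs) b p) = 0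
  rw [Polynomial.hom_eval₂]
  exact hpb

/-- (T2') **The twin point is a closed point — integral form, no residue-field hypothesis.**
`B0`, `B1` integral over `A0[x]`, `A0[x⁻¹]` (e.g. the chart rings `chartRing A0 {x}`,
`chartRing A0 {x⁻¹}`), `𝔪` a maximal ideal of `A0` whose image lies in the maximal ideal `P` of
`B1` (a closed point of the special fibre), `x⁻¹ ∉ P`.  Then `twin P` is maximal.
(Proof: `x⁻¹` is invertible modulo `P` by an element of `A0[x⁻¹]`; reflecting gives a monic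
polynomial over `A0` killing `x` modulo `twin P`; so `B0 ⧸ twin P` is a domain integral over
the field `A0 ⧸ 𝔪`.) -/
theorem twin_isMaximal_of_integral (h : ChartPair B0 B1 B01 x)
    (hA0 : ∀ a : A0, algebraMap A0 F a ∈ B0) (hA1 : ∀ a : A0, algebraMap A0 F a ∈ B1)
    (hB0 : ∀ b : F, b ∈ B0 → IsIntegral (Algebra.adjoin A0 ({x} : Set F)) b)
    (hB1 : ∀ b : F, b ∈ B1 → IsIntegral (Algebra.adjoin A0 ({x⁻¹} : Set F)) b)
    (𝔪 : Ideal A0) [𝔪.IsMaximal] (P : Ideal B1) [P.IsMaximal]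
    (h𝔪 : ∀ a ∈ 𝔪, InP B1 P (algebraMap A0 F a)) (hP : ¬ InP B1 P x⁻¹) :
    (twin h P).IsMaximal := by
  have hPprime : P.IsPrime := Ideal.IsMaximal.isPrime ‹_›
  have htw : (twin h P).IsPrime := twin_isPrime h P hP
  -- Step 1: an inverse of `x⁻¹` modulo `P` inside `A0[x⁻¹]`
  obtain ⟨r, hr, hrP⟩ :
      ∃ r : F, r ∈ Algebra.adjoin A0 ({x⁻¹} : Set F) ∧ InP B1 P (1 - r * x⁻¹) := by
    have hmax : (P.comap (adjoinIncl B1 hA1 h.xinv_mem)).IsMaximal :=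
      Ideal.isMaximal_comap_of_isIntegral_of_isMaximal' _
        (isIntegral_adjoinIncl B1 hA1 h.xinv_mem hB1) P
    have hymem : x⁻¹ ∈ Algebra.adjoin A0 ({x⁻¹} : Set F) := Algebra.subset_adjoin rfl
    obtain ⟨y1, hy1def⟩ : ∃ y1 : Algebra.adjoin A0 ({x⁻¹} : Set F), (y1 : F) = x⁻¹ :=
      ⟨⟨x⁻¹, hymem⟩, rfl⟩
    have hy1 : y1 ∉ P.comap (adjoinIncl B1 hA1 h.xinv_mem) := by
      intro hc
      apply hP
      have hc' : adjoinIncl B1 hA1 h.xinv_mem y1 ∈ P := hc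
      have e : adjoinIncl B1 hA1 h.xinv_mem y1 = ⟨x⁻¹, h.xinv_mem⟩ := Subtype.ext hy1def
      rw [e] at hc'
      exact ⟨h.xinv_mem, hc'⟩
    obtain ⟨r, i, hi, hri⟩ := hmax.exists_inv hy1
    refine ⟨r, r.2, ?_⟩
    have hi' : i = 1 - r * y1 := by rw [← hri]; ring
    rw [hi'] at hi
    have hrB1 : (r : F) ∈ B1 := (adjoinIncl B1 hA1 h.xinv_mem r).2
    have hmem : (1 - (r : F) * x⁻¹) ∈ B1 := B1.sub_mem B1.one_mem (B1.mul_mem hrB1 h.xinv_mem)
    have hi2 : adjoinIncl B1 hA1 h.xinv_mem (1 - r * y1) ∈ P := hi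
    have e : adjoinIncl B1 hA1 h.xinv_mem (1 - r * y1) = ⟨1 - (r : F) * x⁻¹, hmem⟩ :=
      Subtype.ext (by
        have e0 : ((1 - r * y1 : Algebra.adjoin A0 ({x⁻¹} : Set F)) : F)
            = 1 - (r : F) * (y1 : F) := rfl
        show ((1 - r * y1 : Algebra.adjoin A0 ({x⁻¹} : Set F)) : F) = 1 - (r : F) * x⁻¹
        rw [e0, hy1def])
    rw [e] at hi2
    exact ⟨hmem, hi2⟩
  -- Step 2: the monic polynomial killing `x` modulo the twin point
  obtain ⟨hp, hhp⟩ : ∃ hp : A0[X], aeval x⁻¹ hp = r := by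
    rw [Algebra.adjoin_singleton_eq_range_aeval] at hr
    exact hr
  have hgmonic : (X ^ (hp.natDegree + 1) - hp.reflect hp.natDegree : A0[X]).Monic := by
    apply monic_X_pow_sub
    calc (hp.reflect hp.natDegree).degree ≤ (hp.reflect hp.natDegree).natDegree :=
          degree_le_natDegree
      _ ≤ (hp.natDegree : WithBot ℕ) := by
          exact_mod_cast (natDegree_reflect_le.trans (by simp))
      _ < ((hp.natDegree + 1 : ℕ) : WithBot ℕ) := by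
          exact_mod_cast Nat.lt_succ_self _
  have hkey : x⁻¹ ^ (hp.natDegree + 1) *
      aeval x (X ^ (hp.natDegree + 1) - hp.reflect hp.natDegree : A0[X]) = 1 - r * x⁻¹ := by
    let : Invertible x⁻¹ := ⟨x, mul_inv_cancel₀ h.x_ne, inv_mul_cancel₀ h.x_ne⟩
    have h1 := eval₂_reflect_mul_pow (algebraMap A0 F) x⁻¹ hp.natDegree hp le_rfl
    have h2 : aeval x (hp.reflect hp.natDegree) * x⁻¹ ^ hp.natDegree = r := by
      rw [← hhp]; exact h1
    simp only [map_sub, map_pow, aeval_X]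
    rw [mul_sub, ← mul_pow, inv_mul_cancel₀ h.x_ne, one_pow, ← h2]
    ring
  -- Step 3: `B0 ⧸ twin P` is integral over `A0`
  let alg0 : Algebra A0 ↥B0 := algOfMem B0 hA0
  let algR : Algebra ↥(Algebra.adjoin A0 ({x} : Set F)) ↥B0 :=
    (adjoinIncl B0 hA0 h.x_mem).toAlgebra
  have tower : IsScalarTower A0 ↥(Algebra.adjoin A0 ({x} : Set F)) ↥B0 :=
    IsScalarTower.of_algebraMap_eq (fun a => rfl)
  have hint : Algebra.IsIntegral ↥(Algebra.adjoin A0 ({x} : Set F)) ↥B0 :=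
    ⟨isIntegral_adjoinIncl B0 hA0 h.x_mem hB0⟩
  have hcoe : ∀ p : A0[X],
      ((eval₂ (algebraMap A0 ↥B0) (⟨x, h.x_mem⟩ : ↥B0) p : ↥B0) : F) = aeval x p := by
    intro p
    exact Polynomial.hom_eval₂ p (algebraMap A0 ↥B0) B0.subtype ⟨x, h.x_mem⟩
  have hmk : ∀ p : A0[X],
      Ideal.Quotient.mk (twin h P) (eval₂ (algebraMap A0 ↥B0) (⟨x, h.x_mem⟩ : ↥B0) p)
        = aeval (Ideal.Quotient.mk (twin h P) (⟨x, h.x_mem⟩ : ↥B0)) p := by
    intro p
    rw [Polynomial.hom_eval₂, aeval_def]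
    rfl
  have hx0 : IsIntegral A0 (Ideal.Quotient.mk (twin h P) (⟨x, h.x_mem⟩ : ↥B0)) := by
    refine ⟨_, hgmonic, ?_⟩
    rw [← aeval_def, ← hmk, Ideal.Quotient.eq_zero_iff_mem]
    refine ⟨hp.natDegree + 1, ?_⟩
    rw [hcoe, hkey]
    exact hrP
  have : Algebra.IsIntegral A0 (↥B0 ⧸ twin h P) := by
    refine isIntegral_quotient_of_tower (R := ↥(Algebra.adjoin A0 ({x} : Set F))) (twin h P)
      (fun r => ?_)
    obtain ⟨p, hp⟩ : ∃ p : A0[X], aeval x p = (r : F) := by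
      have hr2 : (r : F) ∈ (aeval x : A0[X] →ₐ[A0] F).range := by
        rw [← Algebra.adjoin_singleton_eq_range_aeval]
        exact r.2
      exact hr2
    have e3 : algebraMap ↥(Algebra.adjoin A0 ({x} : Set F)) ↥B0 r
        = eval₂ (algebraMap A0 ↥B0) (⟨x, h.x_mem⟩ : ↥B0) p := by
      apply Subtype.val_injective
      rw [hcoe p, hp]
      rfl
    rw [e3, hmk]
    exact (Algebra.adjoin_le (S := integralClosure A0 (↥B0 ⧸ twin h P))
      (Set.singleton_subset_iff.2 hx0)) (aeval_mem_adjoin_singleton A0 _)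
  -- Step 4: maximality
  refine isMaximal_of_isIntegral_quotient (twin h P) 𝔪 (fun a ha => ⟨0, ?_⟩)
  show InP B1 P (x⁻¹ ^ 0 * algebraMap A0 F a)
  rw [pow_zero, one_mul]
  exact h𝔪 a ha

end IntegralMax

/-! ## (T4) One-call transfers -/

section Transfers

variable {F : Type*} [Field F] {B0 B1 B01 : Subring F} {x : F}

/-- Residues at the closed points of chart 1 (those containing `π`) are constants from `C`
(`KillData.resk` at `i = 1`, see `resConst_of_resk`). -/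
structure ResConst (B0 B1 : Subring F) (π : F) (C : Subring F) : Prop where
  le0 : ∀ z : F, z ∈ C → z ∈ B0
  le1 : ∀ z : F, z ∈ C → z ∈ B1
  inv : ∀ P : Ideal B1, P.IsMaximal → InP B1 P π → ∀ z : F, z ∈ C → ¬ InP B1 P z → z⁻¹ ∈ C
  res : ∀ P : Ideal B1, P.IsMaximal → InP B1 P π →
    ∀ b : F, b ∈ B1 → ∃ z : F, z ∈ C ∧ InP B1 P (b - z)

/-- `ResConst` from the `KillData` fields `const_mem`, `resk` and `BaseDVR.unif`. -/
theorem resConst_of_resk {K : Type*} [Field K] [Algebra K F] (O : ValuationSubring K) (q : ℕ)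
    (hq : (q : K) ≠ 0) (hunif : ∀ c : K, c ∈ O.nonunits → c / (q : K) ∈ O)
    (hc0 : ∀ a : K, a ∈ O → algebraMap K F a ∈ B0)
    (hc1 : ∀ a : K, a ∈ O → algebraMap K F a ∈ B1)
    (hresk : ∀ P : Ideal B1, P.IsMaximal → InP B1 P (q : F) →
      ∀ b : F, b ∈ B1 → ∃ z : K, z ∈ O ∧ InP B1 P (b - algebraMap K F z)) :
    ResConst B0 B1 (q : F) (O.toSubring.map (algebraMap K F)) where
  le0 := by
    rintro z ⟨a, ha, rfl⟩
    exact hc0 a ha
  le1 := by
    rintro z ⟨a, ha, rfl⟩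
    exact hc1 a ha
  inv := by
    rintro P _ hqP z ⟨a, ha, rfl⟩ hz
    have ha' : a ∈ O := ha
    have hnon : a ∉ O.nonunits := by
      intro hc
      apply hz
      have e : algebraMap K F a = (q : F) * algebraMap K F (a / (q : K)) := by
        rw [← map_natCast (algebraMap K F) q, ← map_mul, mul_div_cancel₀ a hq]
      rw [e]
      exact hqP.mul_right (hc1 _ (hunif a hc))
    have hv : O.valuation a = 1 := by
      have h1 : O.valuation a ≤ 1 := (O.valuation_le_one_iff a).2 ha'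
      have h2 : ¬ O.valuation a < 1 := fun hc => hnon ((ValuationSubring.mem_nonunits_iff O).2 hc)
      exact le_antisymm h1 (not_lt.1 h2)
    refine ⟨a⁻¹, ?_, map_inv₀ _ _⟩
    show a⁻¹ ∈ O
    rw [← O.valuation_le_one_iff, map_inv₀, hv, inv_one]
  res := by
    intro P hP hqP b hb
    obtain ⟨z, hz, hzP⟩ := hresk P hP hqP b hb
    exact ⟨algebraMap K F z, ⟨z, hz, rfl⟩, hzP⟩

/-- **(T4) The transfer principle.**  Every closed point `P` of chart 1 (containing `π`) which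
is non-cuspidal (`x⁻¹ ∉ P`) has a closed point `P0` of chart 0 (containing `π`, not containing
`x`) with the same local ring, the same maximal ideal of the local ring, the same components
through it and the same branch data. -/
theorem exists_twin (h : ChartPair B0 B1 B01 x) {π : F} (hπ0 : π ∈ B0) {C : Subring F}
    (hC : ResConst B0 B1 π C) (P : Ideal B1) (hPm : P.IsMaximal) (hπ : InP B1 P π)
    (hP : ¬ InP B1 P x⁻¹) :
    ∃ P0 : Ideal B0, P0.IsMaximal ∧ InP B0 P0 π ∧ ¬ InP B0 P0 x ∧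
      (∀ y : F, y ∈ B0 → y ∈ B1 → (InP B0 P0 y ↔ InP B1 P y)) ∧
      (∀ y : F, LocAt B1 P y ↔ LocAt B0 P0 y) ∧
      (∀ y : F, LocMax B1 P y ↔ LocMax B0 P0 y) ∧
      (∀ V : ValuationSubring F, x ∈ V → x⁻¹ ∈ V → (Through B1 P V ↔ Through B0 P0 V)) ∧
      (∀ (V : ValuationSubring F) (y : F), BranchReg B1 P V y ↔ BranchReg B0 P0 V y) ∧
      (∀ (V : ValuationSubring F) (y z : F), BranchVal B1 P V y z ↔ BranchVal B0 P0 V y z) := by
  have : P.IsPrime := hPm.isPrime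
  refine ⟨twin h P, twin_isMaximal h P hP C hC.le0 hC.le1 (hC.inv P hPm hπ) (hC.res P hPm hπ),
    (inP_twin_iff_of_mem h P hP hπ0 hπ.mem).2 hπ, not_inP_twin_x h P hP,
    fun y hy0 hy1 => inP_twin_iff_of_mem h P hP hy0 hy1, locAt_iff h P hP, locMax_iff h P hP,
    fun V hx hxi => through_iff h P hP V hx hxi, branchReg_iff h P hP, branchVal_iff h P hP⟩

/-- **(T4') The transfer principle, integral form** (no residue-field hypothesis): for charts
integral over `A0[x]`, `A0[x⁻¹]` and a closed point `P` of chart 1 lying over a maximal ideal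
`𝔪` of `A0`, non-cuspidal (`x⁻¹ ∉ P`), the twin point is a closed point of chart 0 with the
same local data. -/
theorem exists_twin_of_integral (h : ChartPair B0 B1 B01 x) {A0 : Type*} [CommRing A0]
    [Algebra A0 F] (hA0 : ∀ a : A0, algebraMap A0 F a ∈ B0)
    (hA1 : ∀ a : A0, algebraMap A0 F a ∈ B1)
    (hB0 : ∀ b : F, b ∈ B0 → IsIntegral (Algebra.adjoin A0 ({x} : Set F)) b)
    (hB1 : ∀ b : F, b ∈ B1 → IsIntegral (Algebra.adjoin A0 ({x⁻¹} : Set F)) b)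
    (𝔪 : Ideal A0) [𝔪.IsMaximal] (P : Ideal B1) (hPm : P.IsMaximal)
    (h𝔪 : ∀ a ∈ 𝔪, InP B1 P (algebraMap A0 F a)) (hP : ¬ InP B1 P x⁻¹) :
    ∃ P0 : Ideal B0, P0 = twin h P ∧ P0.IsMaximal ∧ ¬ InP B0 P0 x ∧
      (∀ y : F, y ∈ B0 → y ∈ B1 → (InP B0 P0 y ↔ InP B1 P y)) ∧
      (∀ y : F, LocAt B1 P y ↔ LocAt B0 P0 y) ∧
      (∀ y : F, LocMax B1 P y ↔ LocMax B0 P0 y) ∧
      (∀ V : ValuationSubring F, x ∈ V → x⁻¹ ∈ V → (Through B1 P V ↔ Through B0 P0 V)) ∧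
      (∀ (V : ValuationSubring F) (y : F), BranchReg B1 P V y ↔ BranchReg B0 P0 V y) ∧
      (∀ (V : ValuationSubring F) (y z : F), BranchVal B1 P V y z ↔ BranchVal B0 P0 V y z) := by
  have : P.IsPrime := hPm.isPrime
  exact ⟨twin h P, rfl, twin_isMaximal_of_integral h hA0 hA1 hB0 hB1 𝔪 P h𝔪 hP,
    not_inP_twin_x h P hP, fun y hy0 hy1 => inP_twin_iff_of_mem h P hP hy0 hy1,
    locAt_iff h P hP, locMax_iff h P hP, fun V hx hxi => through_iff h P hP V hx hxi,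
    branchReg_iff h P hP, branchVal_iff h P hP⟩

/-- (T4) **`lp` at chart 1** from `lp` at chart 0 and at the cuspidal points of chart 1.
`Hyp n u` stands for the hypotheses on `(n, u)` of `KillData.lp`. -/
theorem lp_chart1 (h : ChartPair B0 B1 B01 x) {π : F} (hπ0 : π ∈ B0) {C : Subring F}
    (hC : ResConst B0 B1 π C) (Hyp : ℕ → F → Prop)
    (h0 : ∀ P0 : Ideal B0, P0.IsMaximal → InP B0 P0 π → ∀ (n : ℕ) (u : F), Hyp n u →
      ∃ g : F, g ≠ 0 ∧ LocAt B0 P0 (u / g ^ n) ∧ LocAt B0 P0 (g ^ n / u))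
    (hcusp : ∀ P : Ideal B1, P.IsMaximal → InP B1 P π → InP B1 P x⁻¹ →
      ∀ (n : ℕ) (u : F), Hyp n u →
        ∃ g : F, g ≠ 0 ∧ LocAt B1 P (u / g ^ n) ∧ LocAt B1 P (g ^ n / u)) :
    ∀ P : Ideal B1, P.IsMaximal → InP B1 P π → ∀ (n : ℕ) (u : F), Hyp n u →
      ∃ g : F, g ≠ 0 ∧ LocAt B1 P (u / g ^ n) ∧ LocAt B1 P (g ^ n / u) := by
  intro P hPm hπ n u hnu
  by_cases hP : InP B1 P x⁻¹
  · exact hcusp P hPm hπ hP n u hnu
  · obtain ⟨P0, hP0m, hπP0, -, -, hloc, -⟩ := exists_twin h hπ0 hC P hPm hπ hP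
    obtain ⟨g, hg, h1, h2⟩ := h0 P0 hP0m hπP0 n u hnu
    exact ⟨g, hg, (hloc _).2 h1, (hloc _).2 h2⟩

/-- (T4) **`smooth` at chart 1** from `smooth` at chart 0 and at the cuspidal points of
chart 1. -/
theorem smooth_chart1 (h : ChartPair B0 B1 B01 x) {π : F} (hπ0 : π ∈ B0) {C : Subring F}
    (hC : ResConst B0 B1 π C) {ι : Type*} (V : ι → ValuationSubring F)
    (hxV : ∀ c, x ∈ V c) (hxiV : ∀ c, x⁻¹ ∈ V c)
    (h0 : ∀ P0 : Ideal B0, P0.IsMaximal → InP B0 P0 π → ∀ c, Through B0 P0 (V c) →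
      ∀ y : F, y ∈ V c → BranchReg B0 P0 (V c) y ∨ (y⁻¹ ∈ V c ∧ BranchReg B0 P0 (V c) y⁻¹))
    (hcusp : ∀ P : Ideal B1, P.IsMaximal → InP B1 P π → InP B1 P x⁻¹ →
      ∀ c, Through B1 P (V c) →
        ∀ y : F, y ∈ V c → BranchReg B1 P (V c) y ∨ (y⁻¹ ∈ V c ∧ BranchReg B1 P (V c) y⁻¹)) :
    ∀ P : Ideal B1, P.IsMaximal → InP B1 P π → ∀ c, Through B1 P (V c) →
      ∀ y : F, y ∈ V c → BranchReg B1 P (V c) y ∨ (y⁻¹ ∈ V c ∧ BranchReg B1 P (V c) y⁻¹) := by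
  intro P hPm hπ c hT y hy
  by_cases hP : InP B1 P x⁻¹
  · exact hcusp P hPm hπ hP c hT y hy
  · obtain ⟨P0, hP0m, hπP0, -, -, -, -, hthr, hbr, -⟩ := exists_twin h hπ0 hC P hPm hπ hP
    rcases h0 P0 hP0m hπP0 c ((hthr _ (hxV c) (hxiV c)).1 hT) y hy with h1 | ⟨h1, h2⟩
    · exact Or.inl ((hbr _ _).2 h1)
    · exact Or.inr ⟨h1, (hbr _ _).2 h2⟩

/-- (T4) **`dich` at chart 1** from `dich` at chart 0 and at the cuspidal points of chart 1. -/
theorem dich_chart1 (h : ChartPair B0 B1 B01 x) {π : F} (hπ0 : π ∈ B0) {C : Subring F}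
    (hC : ResConst B0 B1 π C) {ι : Type*} (V : ι → ValuationSubring F)
    (hxV : ∀ c, x ∈ V c) (hxiV : ∀ c, x⁻¹ ∈ V c)
    (h0 : ∀ P0 : Ideal B0, P0.IsMaximal → InP B0 P0 π →
      (∀ c, Through B0 P0 (V c)) ∨
        ∃ c, Through B0 P0 (V c) ∧ ∀ c', Through B0 P0 (V c') → c' = c)
    (hcusp : ∀ P : Ideal B1, P.IsMaximal → InP B1 P π → InP B1 P x⁻¹ →
      (∀ c, Through B1 P (V c)) ∨
        ∃ c, Through B1 P (V c) ∧ ∀ c', Through B1 P (V c') → c' = c) :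
    ∀ P : Ideal B1, P.IsMaximal → InP B1 P π →
      (∀ c, Through B1 P (V c)) ∨
        ∃ c, Through B1 P (V c) ∧ ∀ c', Through B1 P (V c') → c' = c := by
  intro P hPm hπ
  by_cases hP : InP B1 P x⁻¹
  · exact hcusp P hPm hπ hP
  · obtain ⟨P0, hP0m, hπP0, -, -, -, -, hthr, -⟩ := exists_twin h hπ0 hC P hPm hπ hP
    rcases h0 P0 hP0m hπP0 with h1 | ⟨c, h1, h2⟩
    · exact Or.inl fun c => (hthr _ (hxV c) (hxiV c)).2 (h1 c)
    · exact Or.inr ⟨c, (hthr _ (hxV c) (hxiV c)).2 h1,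
        fun c' hc' => h2 c' ((hthr _ (hxV c') (hxiV c')).1 hc')⟩

/-- (T4) **`one_point` at a non-cuspidal point of chart 1**, pointwise form.  `ψ : F' → F` the
degeneracy map, `(B0', B1', x')` the charts of the lower level.  The two radical hypotheses say
that `ψ x'⁻¹` and `x⁻¹` have the same zero set on chart 1 (trivial for `ψ x' = x`). -/
theorem one_point_twin (h : ChartPair B0 B1 B01 x) {F' : Type*} [Field F'] {Φ : Type*}
    [FunLike Φ F' F] [RingHomClass Φ F' F] (ψ : Φ) {B0' B1' B01' : Subring F'} {x' : F'}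
    (h' : ChartPair B0' B1' B01' x') (hψ1 : ∀ b' : F', b' ∈ B1' → ψ b' ∈ B1)
    (hrad1 : ∃ (k : ℕ) (r : F), r ∈ B1 ∧ ψ x'⁻¹ ^ k = x⁻¹ * r)
    (hrad2 : ∃ (k : ℕ) (r : F), r ∈ B1 ∧ x⁻¹ ^ k = ψ x'⁻¹ * r)
    (P : Ideal B1) [P.IsPrime] (hP : ¬ InP B1 P x⁻¹)
    (h0 : ∀ b : F, b ∈ B0 → ¬ InP B0 (twin h P) b →
      ∃ (c : F) (b' : F'), c ∈ B0 ∧ b' ∈ B0' ∧ ¬ InP B0 (twin h P) (ψ b') ∧ b * c = ψ b') :
    ∀ b : F, b ∈ B1 → ¬ InP B1 P b →
      ∃ (c : F) (b' : F'), c ∈ B1 ∧ b' ∈ B1' ∧ ¬ InP B1 P (ψ b') ∧ b * c = ψ b' := by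
  intro b hb hbP
  obtain ⟨N, hN⟩ := h.glue0 b (h.le1 b hb)
  have hb0 : ¬ InP B0 (twin h P) (x ^ N * b) := by
    rw [inP_twin_iff]
    rintro ⟨_, hK⟩
    have h1 := inP_of_exists h P hP (N := N) hK (by rw [h.inv_pow_mul_pow_mul]; exact hb)
    rw [h.inv_pow_mul_pow_mul] at h1
    exact hbP h1
  obtain ⟨c0, b0', hc0, hb0', hψb0', hmul⟩ := h0 _ hN hb0
  have he1 : ψ x'⁻¹ ∈ B1 := hψ1 _ h'.xinv_mem
  obtain ⟨M, hM⟩ := h'.glue1 b0' (h'.le0 b0' hb0')
  obtain ⟨L, hL⟩ := h.glue1 (x ^ N * c0)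
    (B01.mul_mem (B01.pow_mem (h.le0 x h.x_mem) N) (h.le0 c0 hc0))
  obtain ⟨k, r, hr, hk⟩ := hrad1
  obtain ⟨k2, r2, hr2, hk2⟩ := hrad2
  refine ⟨ψ x'⁻¹ ^ (M + k * L) * (x ^ N * c0), x'⁻¹ ^ (M + k * L) * b0', ?_, ?_, ?_, ?_⟩
  · have e : ψ x'⁻¹ ^ (M + k * L) * (x ^ N * c0)
        = ψ x'⁻¹ ^ M * (r ^ L * (x⁻¹ ^ L * (x ^ N * c0))) := by
      rw [pow_add, pow_mul, hk]; ring
    rw [e]
    exact B1.mul_mem (B1.pow_mem he1 M) (B1.mul_mem (B1.pow_mem hr L) hL)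
  · have e : x'⁻¹ ^ (M + k * L) * b0' = x'⁻¹ ^ (k * L) * (x'⁻¹ ^ M * b0') := by ring
    rw [e]
    exact B1'.mul_mem (B1'.pow_mem h'.xinv_mem _) hM
  · intro hc
    apply hψb0'
    have hmem : ψ b0' ∈ B0 := by rw [← hmul]; exact B0.mul_mem hN hc0
    refine (inP_twin_iff h P _).2 ⟨hmem, k2 * (M + k * L), ?_⟩
    have e : x⁻¹ ^ (k2 * (M + k * L)) * ψ b0'
        = r2 ^ (M + k * L) * ψ (x'⁻¹ ^ (M + k * L) * b0') := by
      rw [pow_mul, hk2, map_mul, map_pow]; ring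
    rw [e]
    exact hc.mul_left (B1.pow_mem hr2 _)
  · rw [map_mul, map_pow, ← hmul]; ring

/-- (T4) **`one_point` at chart 1** (the `DegData` field, `i = 1`) from `one_point` at chart 0
and at the cuspidal points of chart 1. -/
theorem one_point_chart1 (h : ChartPair B0 B1 B01 x) {π : F} (hπ1 : π ∈ B1)
    {C : Subring F} (hC : ResConst B0 B1 π C) {F' : Type*} [Field F'] {Φ : Type*}
    [FunLike Φ F' F] [RingHomClass Φ F' F] (ψ : Φ) {B0' B1' B01' : Subring F'} {x' : F'}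
    (h' : ChartPair B0' B1' B01' x') (hψ1 : ∀ b' : F', b' ∈ B1' → ψ b' ∈ B1)
    (hrad1 : ∃ (k : ℕ) (r : F), r ∈ B1 ∧ ψ x'⁻¹ ^ k = x⁻¹ * r)
    (hrad2 : ∃ (k : ℕ) (r : F), r ∈ B1 ∧ x⁻¹ ^ k = ψ x'⁻¹ * r)
    (Va Vm Vb : ValuationSubring F) (hπa : π ∈ Va.nonunits)
    (hxa : x ∈ Va) (hxia : x⁻¹ ∈ Va) (hxm : x ∈ Vm) (hxim : x⁻¹ ∈ Vm)
    (hxb : x ∈ Vb) (hxib : x⁻¹ ∈ Vb)
    (h0 : ∀ P0 : Ideal B0, P0.IsMaximal → Through B0 P0 Va → Through B0 P0 Vm →
      Through B0 P0 Vb → ∀ b : F, b ∈ B0 → ¬ InP B0 P0 b →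
        ∃ (c : F) (b' : F'), c ∈ B0 ∧ b' ∈ B0' ∧ ¬ InP B0 P0 (ψ b') ∧ b * c = ψ b')
    (hcusp : ∀ P : Ideal B1, P.IsMaximal → InP B1 P x⁻¹ → Through B1 P Va → Through B1 P Vm →
      Through B1 P Vb → ∀ b : F, b ∈ B1 → ¬ InP B1 P b →
        ∃ (c : F) (b' : F'), c ∈ B1 ∧ b' ∈ B1' ∧ ¬ InP B1 P (ψ b') ∧ b * c = ψ b') :
    ∀ P : Ideal B1, P.IsMaximal → Through B1 P Va → Through B1 P Vm → Through B1 P Vb →
      ∀ b : F, b ∈ B1 → ¬ InP B1 P b →
        ∃ (c : F) (b' : F'), c ∈ B1 ∧ b' ∈ B1' ∧ ¬ InP B1 P (ψ b') ∧ b * c = ψ b' := by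
  intro P hPm hTa hTm hTb
  by_cases hP : InP B1 P x⁻¹
  · exact hcusp P hPm hP hTa hTm hTb
  · have : P.IsPrime := hPm.isPrime
    have hπ : InP B1 P π := hTa π hπ1 hπa
    have hmax : (twin h P).IsMaximal :=
      twin_isMaximal h P hP C hC.le0 hC.le1 (hC.inv P hPm hπ) (hC.res P hPm hπ)
    exact one_point_twin h ψ h' hψ1 hrad1 hrad2 P hP
      (h0 (twin h P) hmax ((through_iff h P hP Va hxa hxia).1 hTa)
        ((through_iff h P hP Vm hxm hxim).1 hTm) ((through_iff h P hP Vb hxb hxib).1 hTb))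

end Transfers

end Fermat.Agent.S36.helper1280
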