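import Mathlib
import Fermat.Agent.S36.helper4696_LPAlg

/-!
# S36-F3-LPGEOM (helper6136): the assembly of (LP) on the global chart ring

`B` is a noetherian integrally closed domain (a chart ring of the normal model), `P` a prime
ideal (a closed point of the special fibre).  No localisation type and no fraction field of
`B_P` occurs in any statement: "`I B_P = y B_P`" is written elementwise as `LocGen P I y`.

* `LocGen P I y`      : `y ∈ I` and every `a ∈ I` is a multiple of `y` up to some `s ∉ P`.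
* `LocFactorial P`    : every height-one prime of `B` inside `P` has a local generator at `P`
                        (`B_P` is factorial).
* `exists_dvd_of_forall_height_one_le` : Krull's lemma for `B_P`, elementwise.
* `locGen_of_forall_height_one`        : the divisor criterion for a local generator.
* `locGen_of_single`   (G1) : a single component of multiplicity one through `P`.
* `locGen_of_comap`    (G2) : pull-back of a local generator along a ring hom ((LP)(c)).
* `locGen_of_pow_dvd`  (G3) : ORD-MID (`T ^ m` divides `q` at `P`).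
* `locGen_of_thickness`(G4) : thickness one (`x₀ y₀ = q g`, `g ∉ P`).
* `locFactorial_of_locGen` (F) : one locally principal prime with Dedekind quotient
                        makes `B_P` factorial (lemma (a), elementwise).
* `exists_pow_mul_of_locFactorial` (C) : the consumer form `u = ε_P h_P ^ n`.
* `HasGoodComponent P`, `LPChart q n u`, `lpChart_of_hasGoodComponent` : (LP) as a Prop on a
  chart ring and its proof from the four kinds of closed points.
-/

set_option autoImplicit false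

namespace Fermat.Agent.S36.helper6136

open Fermat.Agent.S36.helper4696

variable {B : Type*} [CommRing B]

/-- `LocGen P I y`: the element `y ∈ I` generates `I` locally at `P` (`I B_P = y B_P`). -/
def LocGen (P I : Ideal B) (y : B) : Prop :=
  y ∈ I ∧ ∀ a ∈ I, ∃ s, s ∉ P ∧ y ∣ s * a

/-- `LocFactorial P`: every height-one prime inside `P` is principal locally at `P`. -/
def LocFactorial (P : Ideal B) : Prop :=
  ∀ Q : Ideal B, Q.IsPrime → Q.height = 1 → Q ≤ P → ∃ y, LocGen P Q y

theorem LocGen.mono {P P' I : Ideal B} {y : B} (h : LocGen P I y) (hP : P' ≤ P) :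
    LocGen P' I y :=
  ⟨h.1, fun a ha => by
    obtain ⟨s, hs, hd⟩ := h.2 a ha
    exact ⟨s, fun hs' => hs (hP hs'), hd⟩⟩

/-- A prime `Q ≤ P` containing a local generator (at `P`) of `p` contains `p`. -/
theorem LocGen.le_of_mem {P p Q : Ideal B} [Q.IsPrime] {y : B} (h : LocGen P p y) (hQP : Q ≤ P)
    (hyQ : y ∈ Q) : p ≤ Q := by
  intro a ha
  obtain ⟨s, hs, c, hc⟩ := h.2 a ha
  have : s * a ∈ Q := by rw [hc]; exact Q.mul_mem_right _ hyQ
  rcases Ideal.IsPrime.mem_or_mem ‹Q.IsPrime› this with h1 | h1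
  · exact absurd (hQP h1) hs
  · exact h1

section Krull

variable [IsDomain B] [IsNoetherianRing B] [IsIntegrallyClosed B]

/-- **Krull's lemma for `B_P`, elementwise.**  If `b ∣ s * a` with `s ∉ Q` for every height-one
prime `Q ≤ P`, then `b ∣ s * a` for some `s ∉ P`. -/
theorem exists_dvd_of_forall_height_one_le (P : Ideal B) [P.IsPrime] {a b : B} (hb : b ≠ 0)
    (h : ∀ Q : Ideal B, Q.IsPrime → Q.height = 1 → Q ≤ P → ∃ s, s ∉ Q ∧ b ∣ s * a) :
    ∃ s, s ∉ P ∧ b ∣ s * a := by
  classical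
  let R := Localization.AtPrime P
  have hle : P.primeCompl ≤ nonZeroDivisors B := by
    intro x hx
    exact mem_nonZeroDivisors_of_ne_zero (fun h0 => hx (h0 ▸ P.zero_mem))
  have hinj : Function.Injective (algebraMap B R) := IsLocalization.injective R hle
  have : IsDomain R := IsLocalization.isDomain_of_le_nonZeroDivisors R hle
  have : IsNoetherianRing R := IsLocalization.isNoetherianRing P.primeCompl R inferInstance
  have : IsIntegrallyClosed R := isIntegrallyClosed_of_isLocalization R P.primeCompl hle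
  have hbR : algebraMap B R b ≠ 0 := fun h0 => hb (hinj (by rw [h0, map_zero]))
  have hdvd : algebraMap B R b ∣ algebraMap B R a := by
    refine dvd_of_forall_height_one hbR ?_
    intro 𝔔 h𝔔 h𝔔1
    have hQ1 : (𝔔.comap (algebraMap B R)).height = 1 := by
      have := IsLocalization.height_under P.primeCompl 𝔔
      rw [Ideal.under_def] at this
      rw [this, h𝔔1]
    have hQP : 𝔔.comap (algebraMap B R) ≤ P := by
      intro x hx
      by_contra hxP
      have hu : IsUnit (algebraMap B R x) :=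
        IsLocalization.map_units R (⟨x, hxP⟩ : P.primeCompl)
      exact h𝔔.ne_top (Ideal.eq_top_of_isUnit_mem _ hx hu)
    obtain ⟨s, hs, hd⟩ := h _ (Ideal.comap_isPrime _ _) hQ1 hQP
    refine ⟨algebraMap B R s, hs, ?_⟩
    rw [← map_mul]
    exact map_dvd (algebraMap B R) hd
  obtain ⟨c, hc⟩ := hdvd
  obtain ⟨r, t, rfl⟩ := IsLocalization.exists_mk'_eq P.primeCompl c
  refine ⟨t, t.2, r, ?_⟩
  apply hinj
  have h1 : algebraMap B R a * algebraMap B R t = algebraMap B R b * algebraMap B R r := by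
    rw [hc, mul_assoc, IsLocalization.mk'_spec]
  rw [map_mul, map_mul, mul_comm, h1]

/-- **Divisor criterion for a local generator.**  `y ∈ p`, `y ≠ 0`, and at every height-one
prime `Q ≤ P` containing `y` the ideal `p` is generated by `y` locally at `Q`. -/
theorem locGen_of_forall_height_one (P p : Ideal B) [P.IsPrime] {y : B} (hy0 : y ≠ 0)
    (hyp : y ∈ p)
    (h : ∀ Q : Ideal B, Q.IsPrime → Q.height = 1 → Q ≤ P → y ∈ Q →
      ∀ a ∈ p, ∃ s, s ∉ Q ∧ y ∣ s * a) : LocGen P p y := by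
  refine ⟨hyp, fun a ha => ?_⟩
  refine exists_dvd_of_forall_height_one_le P hy0 ?_
  intro Q hQ hQ1 hQP
  by_cases hyQ : y ∈ Q
  · exact h Q hQ hQ1 hQP hyQ a ha
  · exact ⟨y, hyQ, dvd_mul_right y a⟩

end Krull

section Generators

variable [IsDomain B] [IsNoetherianRing B] [IsIntegrallyClosed B]

/-- **(G1) Single component.**  `q ∈ p`, `q` generates `p` locally at `p` (multiplicity one) and
`p` is the only height-one prime inside `P` containing `q`.  Then `q` generates `p` at `P`. -/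
theorem locGen_of_single (P p : Ideal B) [P.IsPrime] {q : B} (hq0 : q ≠ 0) (hqp : q ∈ p)
    (he : ∀ a ∈ p, ∃ s, s ∉ p ∧ q ∣ s * a)
    (hother : ∀ Q : Ideal B, Q.IsPrime → Q.height = 1 → Q ≤ P → q ∈ Q → Q = p) :
    LocGen P p q := by
  refine locGen_of_forall_height_one P p hq0 hqp ?_
  intro Q hQ hQ1 hQP hqQ a ha
  obtain rfl := hother Q hQ hQ1 hQP hqQ
  exact he a ha

/-- **(G3) ORD-MID.**  `T ∈ p` generates `p` locally at `p`, some power `T ^ m` (`m ≠ 0`)
divides `q` locally at `P` (`q / T ^ m ∈ B_P`), and `p` is the only height-one prime inside `P`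
containing `q`.  Then `T` generates `p` at `P`. -/
theorem locGen_of_pow_dvd (P p : Ideal B) [P.IsPrime] {q T : B} {m : ℕ} (hT0 : T ≠ 0)
    (hTp : T ∈ p) (hm : m ≠ 0) (hdvd : ∃ s, s ∉ P ∧ T ^ m ∣ s * q)
    (he : ∀ a ∈ p, ∃ s, s ∉ p ∧ T ∣ s * a)
    (hother : ∀ Q : Ideal B, Q.IsPrime → Q.height = 1 → Q ≤ P → q ∈ Q → Q = p) :
    LocGen P p T := by
  refine locGen_of_forall_height_one P p hT0 hTp ?_
  intro Q hQ hQ1 hQP hTQ a ha
  obtain ⟨s, hs, c, hc⟩ := hdvd
  have hsq : s * q ∈ Q := by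
    rw [hc]
    exact Q.mul_mem_right _ (Q.pow_mem_of_mem hTQ m (Nat.pos_of_ne_zero hm))
  have hqQ : q ∈ Q := by
    rcases hQ.mem_or_mem hsq with h1 | h1
    · exact absurd (hQP h1) hs
    · exact h1
  obtain rfl := hother Q hQ hQ1 hQP hqQ
  exact he a ha

/-- **(G2) Pull-back of a local generator** ((LP)(c)).  `φ : B'' →+* B` any ring hom (`α^*` or
`β^*`), `x` a local generator of `p''` at `P.comap φ`, `p` a prime of `B` inside `P` lying over
`p''` with `p B_p = φ(p'') B_p` (ramification index one), and `p` is the only height-one prime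
inside `P` whose contraction contains `p''`.  Then `φ x` generates `p` at `P`. -/
theorem locGen_of_comap {B'' : Type*} [CommRing B''] (φ : B'' →+* B) (P p : Ideal B)
    [P.IsPrime] [p.IsPrime] (hpP : p ≤ P) (p'' : Ideal B'') {x : B''}
    (hx : LocGen (P.comap φ) p'' x) (hle : p'' ≤ p.comap φ)
    (he : ∀ a ∈ p, ∃ s, s ∉ p ∧ s * a ∈ p''.map φ)
    (hother : ∀ Q : Ideal B, Q.IsPrime → Q.height = 1 → Q ≤ P → p'' ≤ Q.comap φ → Q = p) :
    LocGen P p (φ x) := by
  -- every element of `φ(p'') B` is a multiple of `φ x` locally at `P`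
  have key : ∀ z ∈ p''.map φ, ∃ t, t ∉ P ∧ φ x ∣ t * z := by
    intro z hz
    rw [Ideal.map] at hz
    induction hz using Submodule.span_induction with
    | mem z hz =>
      obtain ⟨a'', ha'', rfl⟩ := hz
      obtain ⟨s'', hs'', c, hc⟩ := hx.2 a'' ha''
      refine ⟨φ s'', hs'', φ c, ?_⟩
      rw [← map_mul, hc, map_mul]
    | zero => exact ⟨1, fun h1 => ‹P.IsPrime›.ne_top ((Ideal.eq_top_iff_one P).mpr h1), by simp⟩
    | add z₁ z₂ _ _ h₁ h₂ =>
      obtain ⟨t₁, ht₁, c₁, hc₁⟩ := h₁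
      obtain ⟨t₂, ht₂, c₂, hc₂⟩ := h₂
      refine ⟨t₁ * t₂, fun h => ?_, t₂ * c₁ + t₁ * c₂, ?_⟩
      · rcases ‹P.IsPrime›.mem_or_mem h with h | h
        · exact ht₁ h
        · exact ht₂ h
      · calc t₁ * t₂ * (z₁ + z₂) = t₂ * (t₁ * z₁) + t₁ * (t₂ * z₂) := by ring
          _ = φ x * (t₂ * c₁ + t₁ * c₂) := by rw [hc₁, hc₂]; ring
    | smul r z _ h =>
      obtain ⟨t, ht, c, hc⟩ := h
      refine ⟨t, ht, r * c, ?_⟩
      calc t * (r • z) = r * (t * z) := by rw [smul_eq_mul]; ring
        _ = φ x * (r * c) := by rw [hc]; ring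
  have hxp : φ x ∈ p := hle hx.1
  by_cases hx0 : φ x = 0
  · -- degenerate case: then `p = ⊥`
    refine ⟨hxp, fun a ha => ?_⟩
    obtain ⟨s, hs, hsa⟩ := he a ha
    obtain ⟨t, ht, c, hc⟩ := key _ hsa
    rw [hx0, zero_mul] at hc
    have hs0 : s ≠ 0 := fun h0 => hs (h0 ▸ p.zero_mem)
    have ht0 : t ≠ 0 := fun h0 => ht (h0 ▸ P.zero_mem)
    have ha0 : a = 0 := by
      rcases mul_eq_zero.mp hc with h | h
      · exact absurd h ht0
      · rcases mul_eq_zero.mp h with h | h
        · exact absurd h hs0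
        · exact h
    exact ⟨t, ht, by rw [ha0, mul_zero, hx0]⟩
  · refine locGen_of_forall_height_one P p hx0 hxp ?_
    intro Q hQ hQ1 hQP hxQ a ha
    have hQ'' : p'' ≤ Q.comap φ := by
      have : (Q.comap φ).IsPrime := Ideal.comap_isPrime φ Q
      exact hx.le_of_mem (Ideal.comap_mono hQP) hxQ
    obtain rfl := hother Q hQ hQ1 hQP hQ''
    obtain ⟨s, hs, hsa⟩ := he a ha
    obtain ⟨t, ht, c, hc⟩ := key _ hsa
    refine ⟨t * s, fun h => ?_, c, by rw [mul_assoc, hc]⟩
    rcases hQ.mem_or_mem h with h | h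
    · exact ht (hpP h)
    · exact hs h

/-- **(G4) Thickness one.**  `x₀ ∈ p₁`, `y₀ ∈ p₂`, `x₀ * y₀ = q * g` with `g ∉ P`; `q` generates
`p₁` at `p₁` and `p₂` at `p₂`, and `p₁`, `p₂` are the only height-one primes inside `P`
containing `q`.  Then `x₀` generates `p₁` and `y₀` generates `p₂` locally at `P`. -/
theorem locGen_of_thickness (P p₁ p₂ : Ideal B) [P.IsPrime] [p₁.IsPrime] [p₂.IsPrime]
    (hp₁ : p₁ ≤ P) (hp₂ : p₂ ≤ P) {q g x₀ y₀ : B} (hq0 : q ≠ 0) (hq₁ : q ∈ p₁) (hq₂ : q ∈ p₂)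
    (hx₀ : x₀ ∈ p₁) (hy₀ : y₀ ∈ p₂) (hxy : x₀ * y₀ = q * g) (hg : g ∉ P)
    (he₁ : ∀ a ∈ p₁, ∃ s, s ∉ p₁ ∧ q ∣ s * a) (he₂ : ∀ a ∈ p₂, ∃ s, s ∉ p₂ ∧ q ∣ s * a)
    (hother : ∀ Q : Ideal B, Q.IsPrime → Q.height = 1 → Q ≤ P → q ∈ Q → Q = p₁ ∨ Q = p₂) :
    LocGen P p₁ x₀ ∧ LocGen P p₂ y₀ := by
  have hg0 : g ≠ 0 := fun h0 => hg (h0 ▸ P.zero_mem)
  have hxy0 : x₀ * y₀ ≠ 0 := by rw [hxy]; exact mul_ne_zero hq0 hg0
  have hx0 : x₀ ≠ 0 := left_ne_zero_of_mul hxy0
  have hy0 : y₀ ≠ 0 := right_ne_zero_of_mul hxy0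
  -- two elements of the same `pᵢ` cannot have product `q * g`
  have aux : ∀ (p : Ideal B) [p.IsPrime], p ≤ P → q ∈ p →
      (∀ a ∈ p, ∃ s, s ∉ p ∧ q ∣ s * a) → x₀ ∈ p → y₀ ∈ p → False := by
    intro p hp hpP hqp he hx hy
    obtain ⟨s₁, hs₁, c₁, hc₁⟩ := he x₀ hx
    obtain ⟨s₂, hs₂, c₂, hc₂⟩ := he y₀ hy
    have h1 : q * (s₁ * s₂ * g) = q * (q * (c₁ * c₂)) := by
      calc q * (s₁ * s₂ * g) = s₁ * s₂ * (x₀ * y₀) := by rw [hxy]; ring
        _ = (s₁ * x₀) * (s₂ * y₀) := by ring
        _ = q * (q * (c₁ * c₂)) := by rw [hc₁, hc₂]; ring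
    have h2 : s₁ * s₂ * g = q * (c₁ * c₂) := mul_left_cancel₀ hq0 h1
    have h3 : s₁ * s₂ * g ∈ p := by rw [h2]; exact p.mul_mem_right _ hqp
    rcases hp.mem_or_mem h3 with h | h
    · rcases hp.mem_or_mem h with h | h
      · exact hs₁ h
      · exact hs₂ h
    · exact hg (hpP h)
  have hqQ : ∀ Q : Ideal B, Q.IsPrime → Q ≤ P → x₀ * y₀ ∈ Q → q ∈ Q := by
    intro Q hQ hQP h
    rw [hxy] at h
    rcases hQ.mem_or_mem h with h | h
    · exact h
    · exact absurd (hQP h) hg
  constructor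
  · refine locGen_of_forall_height_one P p₁ hx0 hx₀ ?_
    intro Q hQ hQ1 hQP hxQ a ha
    rcases hother Q hQ hQ1 hQP (hqQ Q hQ hQP (Q.mul_mem_right _ hxQ)) with rfl | rfl
    · obtain ⟨s, hs, c, hc⟩ := he₁ a ha
      refine ⟨g * s, fun h => ?_, y₀ * c, ?_⟩
      · rcases hQ.mem_or_mem h with h | h
        · exact hg (hQP h)
        · exact hs h
      · calc g * s * a = g * (s * a) := by ring
          _ = x₀ * (y₀ * c) := by rw [hc]; linear_combination (-c) * hxy
    · exact absurd (aux Q hQP hq₂ he₂ hxQ hy₀) id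
  · refine locGen_of_forall_height_one P p₂ hy0 hy₀ ?_
    intro Q hQ hQ1 hQP hyQ a ha
    rcases hother Q hQ hQ1 hQP (hqQ Q hQ hQP (Q.mul_mem_left _ hyQ)) with rfl | rfl
    · exact absurd (aux Q hQP hq₁ he₁ hx₀ hyQ) id
    · obtain ⟨s, hs, c, hc⟩ := he₂ a ha
      refine ⟨g * s, fun h => ?_, x₀ * c, ?_⟩
      · rcases hQ.mem_or_mem h with h | h
        · exact hg (hQP h)
        · exact hs h
      · calc g * s * a = g * (s * a) := by ring
          _ = y₀ * (x₀ * c) := by rw [hc]; linear_combination (-c) * hxy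

end Generators

section Factorial

/-- `LocPIRQuot P p`: every ideal of `(B ⧸ p)_P` is generated by the image of one of its
elements, written elementwise.  Holds as soon as `B ⧸ p` is a Dedekind domain
(`locPIRQuot_of_isDedekindDomain`): the component through `P` is a normal curve. -/
def LocPIRQuot (P p : Ideal B) : Prop :=
  ∀ I : Ideal B, ∃ z ∈ I, ∀ a ∈ I, ∃ s, s ∉ P ∧ ∃ b, s * a - z * b ∈ p

/-- A local Dedekind domain is a principal ideal ring. -/
theorem isPrincipalIdealRing_of_isLocalRing_of_isDedekindDomain (S : Type*) [CommRing S]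
    [IsDedekindDomain S] [IsLocalRing S] : IsPrincipalIdealRing S := by
  refine IsPrincipalIdealRing.of_finite_primes ?_
  refine Set.Finite.subset ((Set.finite_singleton (IsLocalRing.maximalIdeal S)).insert ⊥) ?_
  intro I hI
  by_cases hI0 : I = ⊥
  · exact Or.inl hI0
  · right
    have hmax : I.IsMaximal := Ring.DimensionLEOne.maximalOfPrime hI0 hI
    exact IsLocalRing.eq_maximalIdeal hmax

/-- In a local principal ideal domain, an ideal spanned by a set `T ∋ 0` is generated by one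
element of `T`. -/
theorem exists_mem_span_eq_of_isLocalRing (S : Type*) [CommRing S] [IsDomain S] [IsLocalRing S]
    [IsPrincipalIdealRing S] (T : Set S) (h0 : (0 : S) ∈ T) :
    ∃ z ∈ T, Ideal.span T = Ideal.span {z} := by
  obtain ⟨g, hg⟩ := (IsPrincipalIdealRing.principal (Ideal.span T)).principal
  change Ideal.span T = Ideal.span {g} at hg
  by_contra hcon
  push Not at hcon
  -- every element of `T` is `g` times a non-unit
  have hT : ∀ z ∈ T, z ∈ IsLocalRing.maximalIdeal S * Ideal.span {g} := by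
    intro z hz
    have hzg : z ∈ Ideal.span {g} := hg ▸ Ideal.subset_span hz
    obtain ⟨t, rfl⟩ := Ideal.mem_span_singleton'.mp hzg
    have ht : ¬ IsUnit t := by
      intro hu
      apply hcon _ hz
      rw [hg]
      exact (Ideal.span_singleton_eq_span_singleton.mpr
        (associated_unit_mul_left g t hu)).symm
    exact Ideal.mul_mem_mul ((IsLocalRing.mem_maximalIdeal t).mpr ht)
      (Ideal.mem_span_singleton_self g)
  have hle : Ideal.span {g} ≤ IsLocalRing.maximalIdeal S * Ideal.span {g} :=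
    calc Ideal.span {g} = Ideal.span T := hg.symm
      _ ≤ IsLocalRing.maximalIdeal S * Ideal.span {g} := Ideal.span_le.mpr hT
  have hg' := hle (Ideal.mem_span_singleton_self g)
  rw [Ideal.mem_mul_span_singleton] at hg'
  obtain ⟨m, hm, hmg⟩ := hg'
  have hg0 : g = 0 := by
    have h1 : (1 - m) * g = 0 := by rw [sub_mul, one_mul, hmg, sub_self]
    have hu : IsUnit (1 - m) := by
      by_contra hnu
      have h1m : (1 - m) ∈ IsLocalRing.maximalIdeal S := (IsLocalRing.mem_maximalIdeal _).mpr hnu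
      have : (1 : S) ∈ IsLocalRing.maximalIdeal S := by
        have h := Ideal.add_mem _ h1m hm
        rwa [sub_add_cancel] at h
      exact (IsLocalRing.maximalIdeal.isMaximal S).ne_top ((Ideal.eq_top_iff_one _).mpr this)
    exact (hu.mul_right_eq_zero).mp h1
  apply hcon 0 h0
  rw [hg, hg0]

/-- **(LP)(b), elementwise.**  If `B ⧸ p` is a Dedekind domain (the component is a normal
curve), its local ring at `P` is a principal ideal ring. -/
theorem locPIRQuot_of_isDedekindDomain (P p : Ideal B) [P.IsPrime] [p.IsPrime] (hpP : p ≤ P)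
    [IsDedekindDomain (B ⧸ p)] : LocPIRQuot P p := by
  classical
  intro I
  let mk := Ideal.Quotient.mk p
  have hmk : Function.Surjective mk := Ideal.Quotient.mk_surjective
  have hPbar : (P.map mk).IsPrime :=
    Ideal.map_isPrime_of_surjective hmk (by rw [Ideal.mk_ker]; exact hpP)
  let S := Localization.AtPrime (P.map mk)
  let ψ : B →+* S := (algebraMap (B ⧸ p) S).comp mk
  have hinj : Function.Injective (algebraMap (B ⧸ p) S) :=
    IsLocalization.injective S (P.map mk).primeCompl_le_nonZeroDivisors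
  have : IsPrincipalIdealRing S := isPrincipalIdealRing_of_isLocalRing_of_isDedekindDomain S
  obtain ⟨w, ⟨z, hz, rfl⟩, hspan⟩ := exists_mem_span_eq_of_isLocalRing S (ψ '' (I : Set B))
    ⟨0, I.zero_mem, map_zero ψ⟩
  refine ⟨z, hz, fun a ha => ?_⟩
  have haS : ψ a ∈ Ideal.span {ψ z} := hspan ▸ Ideal.subset_span ⟨a, ha, rfl⟩
  obtain ⟨r, hr⟩ := Ideal.mem_span_singleton'.mp haS
  obtain ⟨d', t', rfl⟩ := IsLocalization.exists_mk'_eq (P.map mk).primeCompl r
  obtain ⟨d, rfl⟩ := hmk d'
  obtain ⟨t, ht⟩ := hmk (t' : B ⧸ p)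
  have htP : t ∉ P := by
    intro h
    exact t'.2 (ht ▸ Ideal.mem_map_of_mem mk h)
  refine ⟨t, htP, d, ?_⟩
  rw [← Ideal.Quotient.eq]
  apply hinj
  have h1 : algebraMap (B ⧸ p) S (mk t) * ψ a = ψ z * algebraMap (B ⧸ p) S (mk d) := by
    rw [← hr, ht]
    calc algebraMap (B ⧸ p) S t' * (IsLocalization.mk' S (mk d) t' * ψ z)
        = ψ z * (IsLocalization.mk' S (mk d) t' * algebraMap (B ⧸ p) S t') := by ring
      _ = ψ z * algebraMap (B ⧸ p) S (mk d) := by rw [IsLocalization.mk'_spec]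
  simpa [ψ, map_mul] using h1

variable [IsDomain B] [IsNoetherianRing B]

/-- **Lemma (a), elementwise.**  `y` a local generator at `P` of the prime `p ≤ P`, the local
ring of `B ⧸ p` at `P` a principal ideal ring, and `Q` a prime with `y ∉ Q`.  Then `Q` is principal
locally at `P`. -/
theorem exists_locGen_of_notMem (P p Q : Ideal B) [P.IsPrime] [Q.IsPrime] {y : B}
    (hy : LocGen P p y) (hpP : p ≤ P) (hyQ : y ∉ Q) (hD : LocPIRQuot P p) :
    ∃ z, LocGen P Q z := by
  classical
  obtain ⟨z, hzQ, hz⟩ := hD Q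
  refine ⟨z, hzQ, ?_⟩
  -- (*) every `a ∈ Q` is in `(z) + y Q` locally at `P`
  have hstar : ∀ a ∈ Q, ∃ t, t ∉ P ∧ ∃ b c, c ∈ Q ∧ t * a = z * b + y * c := by
    intro a ha
    obtain ⟨s, hs, b, hb⟩ := hz a ha
    obtain ⟨s', hs', c, hc⟩ := hy.2 _ hb
    have hcQ : c ∈ Q := by
      have h1 : y * c ∈ Q := by
        rw [← hc]
        exact Q.mul_mem_left _ (Q.sub_mem (Q.mul_mem_left _ ha) (Q.mul_mem_right _ hzQ))
      rcases ‹Q.IsPrime›.mem_or_mem h1 with h | h
      · exact absurd h hyQ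
      · exact h
    refine ⟨s' * s, fun h => ?_, s' * b, c, hcQ, ?_⟩
    · rcases ‹P.IsPrime›.mem_or_mem h with h | h
      · exact hs' h
      · exact hs h
    · linear_combination hc
  let R := Localization.AtPrime P
  let f : B →+* R := algebraMap B R
  have hinj : Function.Injective f := IsLocalization.injective R P.primeCompl_le_nonZeroDivisors
  have hR : IsNoetherianRing R := IsLocalization.isNoetherianRing P.primeCompl R inferInstance
  have hyP : f y ∈ IsLocalRing.maximalIdeal R :=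
    (IsLocalization.AtPrime.to_map_mem_maximal_iff R P y).mpr (hpP hy.1)
  have hJ : Ideal.span {f y} ≤ Ideal.jacobson (⊥ : Ideal R) := by
    rw [IsLocalRing.jacobson_eq_maximalIdeal ⊥ bot_ne_top]
    exact (Ideal.span_singleton_le_iff_mem _).mpr hyP
  have hNN : Q.map f ≤ Ideal.span {f z} ⊔ Ideal.span {f y} • Q.map f := by
    rw [Ideal.map, Ideal.span_le]
    rintro _ ⟨a, ha, rfl⟩
    obtain ⟨t, ht, b, c, hc, hab⟩ := hstar a ha
    have hu : IsUnit (f t) := IsLocalization.map_units R (⟨t, ht⟩ : P.primeCompl)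
    obtain ⟨u, hu'⟩ := hu
    have hfa : f a = (↑u⁻¹ * f b) * f z + f y * (↑u⁻¹ * f c) := by
      have h2 : f t * f a = f z * f b + f y * f c := by
        rw [← map_mul, hab, map_add, map_mul, map_mul]
      have h3 : f a = ↑u⁻¹ * (f t * f a) := by
        rw [← hu', ← mul_assoc, Units.inv_mul, one_mul]
      rw [h3, h2]; ring
    rw [hfa]
    refine Submodule.add_mem_sup ?_ ?_
    · exact Ideal.mul_mem_left _ _ (Ideal.mem_span_singleton_self _)
    · exact Ideal.mul_mem_mul (Ideal.mem_span_singleton_self _)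
        (Ideal.mul_mem_left _ _ (Ideal.mem_map_of_mem f hc))
  have hfg : (Q.map f : Submodule R R).FG := (isNoetherianRing_iff_ideal_fg R).mp hR _
  have hle : Q.map f ≤ Ideal.span {f z} :=
    Submodule.le_of_le_smul_of_le_jacobson_bot hfg hJ hNN
  intro a ha
  obtain ⟨r, hr⟩ := Ideal.mem_span_singleton'.mp (hle (Ideal.mem_map_of_mem f ha))
  obtain ⟨c, t, rfl⟩ := IsLocalization.exists_mk'_eq P.primeCompl r
  refine ⟨t, t.2, c, ?_⟩
  apply hinj
  have h1 : f t * f a = f z * f c := by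
    rw [← hr]
    calc f t * (IsLocalization.mk' R c t * f z)
        = f z * (IsLocalization.mk' R c t * f t) := by ring
      _ = f z * f c := by rw [IsLocalization.mk'_spec]
  rw [map_mul, map_mul, h1]

/-- **(F) One principal component with normal quotient makes `B_P` factorial.**  `p ≤ P` a
prime with a nonzero local generator `y` at `P` such that the local ring of `B ⧸ p` at `P` is a
principal ideal ring.  Then every height-one prime inside `P` is principal locally at `P`. -/
theorem locFactorial_of_locGen (P p : Ideal B) [P.IsPrime] [p.IsPrime] {y : B} (hy0 : y ≠ 0)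
    (hy : LocGen P p y) (hpP : p ≤ P) (hD : LocPIRQuot P p) : LocFactorial P := by
  intro Q hQ hQ1 hQP
  by_cases hyQ : y ∈ Q
  · have hpQ : p ≤ Q := hy.le_of_mem hQP hyQ
    have hp0 : p ≠ ⊥ := fun h => hy0 (by simpa [h] using hy.1)
    have hpQ' : p = Q := by
      by_contra hne
      have hlt : p < Q := lt_of_le_of_ne hpQ hne
      have : Q.FiniteHeight := Q.finiteHeight_iff.mpr (Or.inr (by rw [hQ1]; simp))
      have h1 := Ideal.height_strict_mono_of_isPrime_of_isPrime hlt
      rw [hQ1] at h1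
      have h0 : p.height = 0 := by
        exact Order.lt_one_iff.mp h1
      exact hp0 (Ideal.height_eq_zero_iff_eq_bot.mp h0)
    exact ⟨y, hpQ' ▸ hy⟩
  · exact exists_locGen_of_notMem P p Q hy hpP hyQ hD

end Factorial

section UFD

variable {O : Type*} [CommRing O] [IsDomain O] [UniqueFactorizationMonoid O]

/-- In a UFD, a nonzero element all of whose prime multiplicities are divisible by `n` is a unit
times an `n`-th power. -/
theorem exists_eq_unit_mul_pow_of_dvd_multiplicity {n : ℕ} (c : O) (hc : c ≠ 0)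
    (h : ∀ π : O, Prime π → n ∣ multiplicity π c) : ∃ (c₀ : O) (ε : Oˣ), c = ε * c₀ ^ n := by
  induction c using UniqueFactorizationMonoid.induction_on_coprime with
  | h0 => exact absurd rfl hc
  | h1 hx => exact ⟨1, hx.unit, by simp⟩
  | hpr i hp =>
    rename_i p
    have hi : multiplicity p (p ^ i) = i := multiplicity_pow_self_of_prime hp i
    obtain ⟨k, hk⟩ := h p hp
    rw [hi] at hk
    exact ⟨p ^ k, 1, by rw [Units.val_one, one_mul, ← pow_mul, hk, mul_comm]⟩
  | hcp hxy hx hy =>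
    rename_i x y
    have hx0 : x ≠ 0 := left_ne_zero_of_mul hc
    have hy0 : y ≠ 0 := right_ne_zero_of_mul hc
    have key : ∀ π : O, Prime π → n ∣ multiplicity π x ∧ n ∣ multiplicity π y := by
      intro π hπ
      have hfin : FiniteMultiplicity π (x * y) := FiniteMultiplicity.of_prime_left hπ hc
      have hmul := multiplicity_mul hπ hfin
      have hd := h π hπ
      rw [hmul] at hd
      by_cases hπx : π ∣ x
      · have hπy : ¬ π ∣ y := fun hπy => hπ.not_isUnit (hxy hπx hπy)
        have h0 : multiplicity π y = 0 := multiplicity_eq_zero.mpr hπy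
        rw [h0, add_zero] at hd
        exact ⟨hd, h0 ▸ dvd_zero n⟩
      · have h0 : multiplicity π x = 0 := multiplicity_eq_zero.mpr hπx
        rw [h0, zero_add] at hd
        exact ⟨h0 ▸ dvd_zero n, hd⟩
    obtain ⟨x₀, ε₁, h₁⟩ := hx hx0 (fun π hπ => (key π hπ).1)
    obtain ⟨y₀, ε₂, h₂⟩ := hy hy0 (fun π hπ => (key π hπ).2)
    exact ⟨x₀ * y₀, ε₁ * ε₂, by rw [h₁, h₂, Units.val_mul]; ring⟩

/-- **Factorial consumer, inside a UFD.**  If for every prime `π` the fraction `c / d` is an
`n`-th power `(e / f) ^ n` times `a / b` with `π ∤ a`, `π ∤ b`, then `c / d` is a unit times an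
`n`-th power: `c * h₂ ^ n = ε * h₁ ^ n * d`. -/
theorem exists_unit_mul_pow_of_forall_prime {n : ℕ} (hn : n ≠ 0) (c d : O) (hc : c ≠ 0)
    (hd : d ≠ 0)
    (h : ∀ π : O, Prime π → ∃ e f a b : O, f ≠ 0 ∧ ¬ π ∣ a ∧ ¬ π ∣ b ∧
      c * b * f ^ n = e ^ n * a * d) :
    ∃ (h₁ h₂ : O) (ε : Oˣ), h₂ ≠ 0 ∧ c * h₂ ^ n = ε * h₁ ^ n * d := by
  obtain ⟨c', d', g, hrel, rfl, rfl⟩ := UniqueFactorizationMonoid.exists_reduced_factors c hc d
  have hg : g ≠ 0 := left_ne_zero_of_mul hc
  have hc' : c' ≠ 0 := right_ne_zero_of_mul hc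
  have hd' : d' ≠ 0 := right_ne_zero_of_mul hd
  have key : ∀ π : O, Prime π → n ∣ multiplicity π c' ∧ n ∣ multiplicity π d' := by
    intro π hπ
    obtain ⟨e, f, a, b, hf, ha, hb, heq⟩ := h π hπ
    have heq' : c' * b * f ^ n = e ^ n * a * d' := by
      apply mul_left_cancel₀ hg
      linear_combination heq
    have hb0 : b ≠ 0 := fun h0 => hb (h0 ▸ dvd_zero π)
    have ha0 : a ≠ 0 := fun h0 => ha (h0 ▸ dvd_zero π)
    have hL : c' * b * f ^ n ≠ 0 := mul_ne_zero (mul_ne_zero hc' hb0) (pow_ne_zero n hf)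
    have hR : e ^ n * a * d' ≠ 0 := heq' ▸ hL
    have he : e ≠ 0 := by
      intro h0
      exact hR (by rw [h0, zero_pow hn, zero_mul, zero_mul])
    have fin : ∀ z : O, z ≠ 0 → FiniteMultiplicity π z :=
      fun z hz => FiniteMultiplicity.of_prime_left hπ hz
    have mL : multiplicity π (c' * b * f ^ n) = multiplicity π c' + n * multiplicity π f := by
      rw [multiplicity_mul hπ (fin _ hL), multiplicity_mul hπ (fin _ (mul_ne_zero hc' hb0)),
        multiplicity_eq_zero.mpr hb, add_zero, (fin _ hf).multiplicity_pow hπ]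
    have mR : multiplicity π (e ^ n * a * d') = n * multiplicity π e + multiplicity π d' := by
      rw [multiplicity_mul hπ (fin _ hR),
        multiplicity_mul hπ (fin _ (mul_ne_zero (pow_ne_zero n he) ha0)),
        multiplicity_eq_zero.mpr ha, add_zero, (fin _ he).multiplicity_pow hπ]
    have hm : multiplicity π c' + n * multiplicity π f = n * multiplicity π e + multiplicity π d' := by
      rw [← mL, ← mR, heq']
    by_cases hπc : π ∣ c'
    · have hπd : ¬ π ∣ d' := fun hπd => hπ.not_isUnit (hrel hπc hπd)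
      have h0 : multiplicity π d' = 0 := multiplicity_eq_zero.mpr hπd
      rw [h0, add_zero] at hm
      refine ⟨?_, h0 ▸ dvd_zero n⟩
      have : n ∣ multiplicity π c' + n * multiplicity π f := hm ▸ dvd_mul_right n _
      exact (Nat.dvd_add_left (dvd_mul_right n _)).mp this
    · have h0 : multiplicity π c' = 0 := multiplicity_eq_zero.mpr hπc
      rw [h0, zero_add] at hm
      refine ⟨h0 ▸ dvd_zero n, ?_⟩
      have : n ∣ n * multiplicity π e + multiplicity π d' := hm ▸ dvd_mul_right n _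
      exact (Nat.dvd_add_right (dvd_mul_right n _)).mp this
  obtain ⟨h₁, ε₁, e₁⟩ := exists_eq_unit_mul_pow_of_dvd_multiplicity c' hc'
    (fun π hπ => (key π hπ).1)
  obtain ⟨h₂, ε₂, e₂⟩ := exists_eq_unit_mul_pow_of_dvd_multiplicity d' hd'
    (fun π hπ => (key π hπ).2)
  have hh₂ : h₂ ≠ 0 := by
    intro h0
    exact hd' (by rw [e₂, h0, zero_pow hn, mul_zero])
  refine ⟨h₁, h₂, ε₁ * ε₂⁻¹, hh₂, ?_⟩
  rw [e₁, e₂, Units.val_mul]
  have : (ε₂ : O) * (↑ε₂⁻¹ : O) = 1 := by rw [← Units.val_mul, mul_inv_cancel, Units.val_one]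
  linear_combination (-(g * ε₁ * h₁ ^ n * h₂ ^ n)) * this

end UFD

section Consumer

variable [IsDomain B] [IsNoetherianRing B]

omit [IsDomain B] [IsNoetherianRing B] in
/-- The contraction to `B` of a prime of `B_P` lies inside `P`. -/
theorem comap_localization_le (P : Ideal B) [P.IsPrime] (𝔔 : Ideal (Localization.AtPrime P))
    [h𝔔 : 𝔔.IsPrime] : 𝔔.comap (algebraMap B (Localization.AtPrime P)) ≤ P := by
  intro x hx
  by_contra hxP
  have hu : IsUnit (algebraMap B (Localization.AtPrime P) x) :=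
    IsLocalization.map_units (Localization.AtPrime P) (⟨x, hxP⟩ : P.primeCompl)
  exact h𝔔.ne_top (Ideal.eq_top_of_isUnit_mem _ hx hu)

omit [IsDomain B] [IsNoetherianRing B] in
/-- The contraction to `B` of a height-one prime of `B_P` has height one. -/
theorem height_comap_localization (P : Ideal B) [P.IsPrime] (𝔔 : Ideal (Localization.AtPrime P))
    (h1 : 𝔔.height = 1) : (𝔔.comap (algebraMap B (Localization.AtPrime P))).height = 1 := by
  have := IsLocalization.height_under P.primeCompl 𝔔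
  rw [Ideal.under_def] at this
  rw [this, h1]

/-- **`LocFactorial P` says that `B_P` is a unique factorisation domain.** -/
theorem ufd_localization_of_locFactorial (P : Ideal B) [P.IsPrime] (hP : LocFactorial P) :
    UniqueFactorizationMonoid (Localization.AtPrime P) := by
  classical
  let R := Localization.AtPrime P
  let f : B →+* R := algebraMap B R
  have hR : IsNoetherianRing R := IsLocalization.isNoetherianRing P.primeCompl R inferInstance
  refine UniqueFactorizationMonoid.of_forall_isPrincipal_of_height_eq_one ?_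
  intro 𝔔 h𝔔 h𝔔1
  obtain ⟨y, hy⟩ := hP _ (Ideal.comap_isPrime f 𝔔) (height_comap_localization P 𝔔 h𝔔1)
    (comap_localization_le P 𝔔)
  refine ⟨⟨f y, le_antisymm ?_ ?_⟩⟩
  · intro x hx
    obtain ⟨a, t, rfl⟩ := IsLocalization.exists_mk'_eq P.primeCompl x
    have ha : a ∈ 𝔔.comap f := by
      rw [Ideal.mem_comap, ← IsLocalization.mk'_spec R a t]
      exact 𝔔.mul_mem_right _ hx
    obtain ⟨s, hs, c, hc⟩ := hy.2 a ha
    rw [Submodule.mem_span_singleton]
    refine ⟨IsLocalization.mk' R c (⟨s, hs⟩ * t : P.primeCompl), ?_⟩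
    rw [smul_eq_mul, mul_comm, IsLocalization.mul_mk'_eq_mk'_of_mul, IsLocalization.mk'_eq_iff_eq]
    simp only [Submonoid.coe_mul]
    congr 1
    linear_combination (-(t : B)) * hc
  · rw [Submodule.span_singleton_le_iff_mem]
    exact hy.1

/-- **(C) The consumer form of (LP)** (`= D2-SEED (i)`).  `B_P` factorial, `u ∈ Frac B` nonzero
such that at every height-one prime `Q ≤ P` of `B` the element `u` is an `n`-th power times a
unit of `B_Q`.  Then `u = ε · h ^ n` with `ε = a / b` a unit of `B_P` (`a, b ∉ P`). -/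
theorem exists_pow_mul_of_locFactorial {F : Type*} [Field F] [Algebra B F] [IsFractionRing B F]
    (P : Ideal B) [P.IsPrime] (hP : LocFactorial P) {n : ℕ} (hn : n ≠ 0) {u : F} (hu : u ≠ 0)
    (hloc : ∀ Q : Ideal B, Q.IsPrime → Q.height = 1 → Q ≤ P →
      ∃ (w : F) (a b : B), a ∉ Q ∧ b ∉ Q ∧ u * algebraMap B F b = w ^ n * algebraMap B F a) :
    ∃ (h : F) (a b : B), h ≠ 0 ∧ a ∉ P ∧ b ∉ P ∧
      u * algebraMap B F b = h ^ n * algebraMap B F a := by
  classical
  let R := Localization.AtPrime P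
  let f : B →+* R := algebraMap B R
  let ι : B →+* F := algebraMap B F
  have hιinj : Function.Injective ι := IsFractionRing.injective B F
  have hfinj : Function.Injective f :=
    IsLocalization.injective R P.primeCompl_le_nonZeroDivisors
  have hR : IsNoetherianRing R := IsLocalization.isNoetherianRing P.primeCompl R inferInstance
  have hUFD : UniqueFactorizationMonoid R := ufd_localization_of_locFactorial P hP
  obtain ⟨c, d, hd, rfl⟩ := IsFractionRing.div_surjective (A := B) u
  have hd0 : d ≠ 0 := nonZeroDivisors.ne_zero hd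
  have hιd : ι d ≠ 0 := fun h0 => hd0 (hιinj (by rw [h0, map_zero]))
  have hc0 : c ≠ 0 := by
    rintro rfl
    exact hu (by simp)
  have hfc : f c ≠ 0 := fun h0 => hc0 (hfinj (by rw [h0, map_zero]))
  have hfd : f d ≠ 0 := fun h0 => hd0 (hfinj (by rw [h0, map_zero]))
  -- the hypothesis of the UFD lemma
  have hprime : ∀ π : R, Prime π → ∃ e f' a b : R, f' ≠ 0 ∧ ¬ π ∣ a ∧ ¬ π ∣ b ∧
      f c * b * f' ^ n = e ^ n * a * f d := by
    intro π hπ
    have h𝔔 : (Ideal.span {π} : Ideal R).IsPrime :=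
      (Ideal.span_singleton_prime hπ.ne_zero).mpr hπ
    have h𝔔1 : (Ideal.span {π} : Ideal R).height = 1 := by
      refine le_antisymm ?_ ?_
      · refine Ideal.height_le_one_of_isPrincipal_of_mem_minimalPrimes (Ideal.span {π}) _ ?_
        rw [Ideal.minimalPrimes_eq_subsingleton_self]
        exact Set.mem_singleton _
      · rw [Order.one_le_iff_ne_zero, Ne, Ideal.height_eq_zero_iff_eq_bot,
          Ideal.span_singleton_eq_bot]
        exact hπ.ne_zero
    obtain ⟨w, a, b, ha, hb, hw⟩ := hloc _ (Ideal.comap_isPrime f _)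
      (height_comap_localization P _ h𝔔1) (comap_localization_le P _)
    obtain ⟨e₀, f₀, hf₀, rfl⟩ := IsFractionRing.div_surjective (A := B) w
    have hf₀0 : f₀ ≠ 0 := nonZeroDivisors.ne_zero hf₀
    have hιf₀ : ι f₀ ≠ 0 := fun h0 => hf₀0 (hιinj (by rw [h0, map_zero]))
    have hB : c * b * f₀ ^ n = e₀ ^ n * a * d := by
      apply hιinj
      have hw' : ι c / ι d * ι b = (ι e₀ / ι f₀) ^ n * ι a := hw
      rw [div_pow, div_mul_eq_mul_div, div_mul_eq_mul_div,
        div_eq_div_iff hιd (pow_ne_zero n hιf₀)] at hw'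
      simp only [map_mul, map_pow]
      linear_combination hw'
    refine ⟨f e₀, f f₀, f a, f b, fun h0 => hf₀0 (hfinj (by rw [h0, map_zero])), ?_, ?_, ?_⟩
    · intro hdvd
      exact ha (Ideal.mem_comap.mpr (Ideal.mem_span_singleton.mpr hdvd))
    · intro hdvd
      exact hb (Ideal.mem_comap.mpr (Ideal.mem_span_singleton.mpr hdvd))
    · rw [← map_pow, ← map_pow, ← map_mul, ← map_mul, ← map_mul, ← map_mul, hB]
  obtain ⟨h₁, h₂, ε, hh₂, heq⟩ := exists_unit_mul_pow_of_forall_prime hn (f c) (f d) hfc hfd hprime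
  obtain ⟨x₁, t₁, rfl⟩ := IsLocalization.exists_mk'_eq P.primeCompl h₁
  obtain ⟨x₂, t₂, rfl⟩ := IsLocalization.exists_mk'_eq P.primeCompl h₂
  obtain ⟨a₀, b₀, hε⟩ := IsLocalization.exists_mk'_eq P.primeCompl (ε : R)
  have H1 : IsLocalization.mk' R x₁ t₁ * f t₁ = f x₁ := IsLocalization.mk'_spec R x₁ t₁
  have H2 : IsLocalization.mk' R x₂ t₂ * f t₂ = f x₂ := IsLocalization.mk'_spec R x₂ t₂
  have H3 : (ε : R) * f b₀ = f a₀ := by rw [← hε]; exact IsLocalization.mk'_spec R a₀ b₀
  have ha₀ : a₀ ∉ P := by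
    have hu1 : IsUnit (f a₀) := by
      rw [← H3]
      exact ε.isUnit.mul (IsLocalization.map_units R b₀)
    exact (IsLocalization.AtPrime.isUnit_to_map_iff R P a₀).mp hu1
  have hb₀0 : (b₀ : B) ≠ 0 := fun h0 => b₀.2 (h0 ▸ P.zero_mem)
  have ht₁0 : (t₁ : B) ≠ 0 := fun h0 => t₁.2 (h0 ▸ P.zero_mem)
  have ht₂0 : (t₂ : B) ≠ 0 := fun h0 => t₂.2 (h0 ▸ P.zero_mem)
  have hx₂0 : x₂ ≠ 0 := by
    rintro rfl
    exact hh₂ (by simp)
  have hBeq : c * x₂ ^ n * (t₁ : B) ^ n * b₀ = a₀ * x₁ ^ n * (t₂ : B) ^ n * d := by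
    apply hfinj
    simp only [map_mul, map_pow]
    rw [← H1, ← H2, ← H3, mul_pow, mul_pow]
    linear_combination (f t₂ ^ n * f t₁ ^ n * f b₀) * heq
  have hx₁0 : x₁ ≠ 0 := by
    rintro rfl
    rw [zero_pow hn, mul_zero, zero_mul, zero_mul] at hBeq
    exact mul_ne_zero (mul_ne_zero (mul_ne_zero hc0 (pow_ne_zero n hx₂0)) (pow_ne_zero n ht₁0))
      hb₀0 hBeq
  have hιne : ∀ z : B, z ≠ 0 → ι z ≠ 0 := fun z hz h0 => hz (hιinj (by rw [h0, map_zero]))
  have hden : ι (x₂ * t₁) ≠ 0 := hιne _ (mul_ne_zero hx₂0 ht₁0)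
  refine ⟨ι (x₁ * t₂) / ι (x₂ * t₁), a₀, b₀,
    div_ne_zero (hιne _ (mul_ne_zero hx₁0 ht₂0)) hden, ha₀, b₀.2, ?_⟩
  have hF := congrArg ι hBeq
  simp only [map_mul, map_pow] at hF
  show ι c / ι d * ι b₀ = (ι (x₁ * t₂) / ι (x₂ * t₁)) ^ n * ι a₀
  rw [div_pow, div_mul_eq_mul_div, div_mul_eq_mul_div, div_eq_div_iff hιd (pow_ne_zero n hden)]
  simp only [map_mul, mul_pow]
  linear_combination hF

end Consumer

/-! ## (LP) as a Prop on a chart ring, and the four kinds of closed points -/

section Chart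

/-- `HasGoodComponent P`: through the closed point `P` passes a component `p` (a prime `p ≤ P`)
which is principal locally at `P`, with nonzero generator, and whose coordinate ring `B ⧸ p` is
locally at `P` a principal ideal ring (e.g. `B ⧸ p` Dedekind).  This is the common output of
the four kinds of closed points of the special fibre:
(i) ordinary points of `C_∞`, `C_0` and their cusps (`locGen_of_single`, generator `q`),
(ii) ordinary points and cusps of `C_mid` (`locGen_of_pow_dvd`, generator `T`, `T ^ (q-1) ∼ q`),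
(iii) the triple points (`locGen_of_comap`, generator `β^* x`, `x` from thickness one at level
`q`, `locGen_of_thickness`). -/
def HasGoodComponent (P : Ideal B) : Prop :=
  ∃ (p : Ideal B) (y : B), p.IsPrime ∧ p ≤ P ∧ y ≠ 0 ∧ LocGen P p y ∧ LocPIRQuot P p

variable [IsDomain B] [IsNoetherianRing B]

theorem locFactorial_of_hasGoodComponent (P : Ideal B) [P.IsPrime] (h : HasGoodComponent P) :
    LocFactorial P := by
  obtain ⟨p, y, hp, hpP, hy0, hy, hD⟩ := h
  exact locFactorial_of_locGen P p hy0 hy hpP hD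

/-- Kind (i): a single component of multiplicity one through `P` with normal coordinate ring. -/
theorem hasGoodComponent_of_single [IsIntegrallyClosed B] (P p : Ideal B) [P.IsPrime]
    [p.IsPrime] (hpP : p ≤ P) [IsDedekindDomain (B ⧸ p)] {q : B} (hq0 : q ≠ 0) (hqp : q ∈ p)
    (he : ∀ a ∈ p, ∃ s, s ∉ p ∧ q ∣ s * a)
    (hother : ∀ Q : Ideal B, Q.IsPrime → Q.height = 1 → Q ≤ P → q ∈ Q → Q = p) :
    HasGoodComponent P :=
  ⟨p, q, inferInstance, hpP, hq0, locGen_of_single P p hq0 hqp he hother,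
    locPIRQuot_of_isDedekindDomain P p hpP⟩

/-- Kind (ii): ORD-MID (also the cusps of `C_mid`, with `T` replaced by `Π_j / j`). -/
theorem hasGoodComponent_of_pow_dvd [IsIntegrallyClosed B] (P p : Ideal B) [P.IsPrime]
    [p.IsPrime] (hpP : p ≤ P) [IsDedekindDomain (B ⧸ p)] {q T : B} {m : ℕ} (hT0 : T ≠ 0)
    (hTp : T ∈ p) (hm : m ≠ 0) (hdvd : ∃ s, s ∉ P ∧ T ^ m ∣ s * q)
    (he : ∀ a ∈ p, ∃ s, s ∉ p ∧ T ∣ s * a)
    (hother : ∀ Q : Ideal B, Q.IsPrime → Q.height = 1 → Q ≤ P → q ∈ Q → Q = p) :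
    HasGoodComponent P :=
  ⟨p, T, inferInstance, hpP, hT0, locGen_of_pow_dvd P p hT0 hTp hm hdvd he hother,
    locPIRQuot_of_isDedekindDomain P p hpP⟩

/-- Kind (iii): the triple points, by pull-back of a level-`q` generator along `φ = β^*`
(or `α^*`). -/
theorem hasGoodComponent_of_comap [IsIntegrallyClosed B] {B'' : Type*} [CommRing B'']
    (φ : B'' →+* B) (hφ : Function.Injective φ) (P p : Ideal B) [P.IsPrime] [p.IsPrime]
    (hpP : p ≤ P) [IsDedekindDomain (B ⧸ p)] (p'' : Ideal B'') {x : B''} (hx0 : x ≠ 0)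
    (hx : LocGen (P.comap φ) p'' x) (hle : p'' ≤ p.comap φ)
    (he : ∀ a ∈ p, ∃ s, s ∉ p ∧ s * a ∈ p''.map φ)
    (hother : ∀ Q : Ideal B, Q.IsPrime → Q.height = 1 → Q ≤ P → p'' ≤ Q.comap φ → Q = p) :
    HasGoodComponent P :=
  ⟨p, φ x, inferInstance, hpP, fun h0 => hx0 (hφ (by rw [h0, map_zero])),
    locGen_of_comap φ P p hpP p'' hx hle he hother, locPIRQuot_of_isDedekindDomain P p hpP⟩

variable {F : Type*} [Field F] [Algebra B F] [IsFractionRing B F]

/-- **(LP) as a Prop** for a chart ring `B ⊆ F = Frac B`, a base uniformiser `q`, an exponent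
`n` and a function `u`: at every closed point `P` of the special fibre (maximal ideal
containing `q`) there is `h ≠ 0` with `u / h ^ n` a unit of `B_P`.
This is hypothesis (i) of `helper4913.exists_seed` (D2-SEED). -/
def LPChart (q : B) (n : ℕ) (u : F) : Prop :=
  ∀ P : Ideal B, P.IsMaximal → q ∈ P →
    ∃ (h : F) (a b : B), h ≠ 0 ∧ a ∉ P ∧ b ∉ P ∧
      u * algebraMap B F b = h ^ n * algebraMap B F a

/-- **(LP) on a chart** from the local structure at the closed points: if every closed point of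
the special fibre has a good component, then every nonzero `u` which at every height-one prime
`Q` of `B` is an `n`-th power times a unit of `B_Q` satisfies (LP). -/
theorem lpChart_of_hasGoodComponent (q : B)
    (hgood : ∀ P : Ideal B, P.IsMaximal → q ∈ P → HasGoodComponent P)
    {n : ℕ} (hn : n ≠ 0) {u : F} (hu : u ≠ 0)
    (hloc : ∀ Q : Ideal B, Q.IsPrime → Q.height = 1 →
      ∃ (w : F) (a b : B), a ∉ Q ∧ b ∉ Q ∧ u * algebraMap B F b = w ^ n * algebraMap B F a) :
    LPChart q n u := by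
  intro P hPmax hqP
  have : P.IsPrime := hPmax.isPrime
  exact exists_pow_mul_of_locFactorial P
    (locFactorial_of_hasGoodComponent P (hgood P hPmax hqP)) hn hu
    (fun Q hQ hQ1 _ => hloc Q hQ hQ1)

end Chart

/-- The shape of hypothesis (i) of `helper4913.exists_seed` (D2-SEED), for a chart ring given
as a subring `B` of the field `F`. -/
theorem LPChart.exists_seed_shape {F : Type*} [Field F] (B : Subring F) {q : B} {n : ℕ} {u : F}
    (h : LPChart (B := B) (F := F) q n u) (P : Ideal B) (hP : P.IsMaximal) (hq : q ∈ P) :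
    ∃ h : F, h ≠ 0 ∧ ∃ b s : B, b ∉ P ∧ s ∉ P ∧ u * (s : F) = (b : F) * h ^ n := by
  obtain ⟨h, a, b, hh, ha, hb, heq⟩ := h P hP hq
  exact ⟨h, hh, a, b, ha, hb, by rw [mul_comm (a : F)]; exact heq⟩

end Fermat.Agent.S36.helper6136
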