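import Fermat.Agent.S36.helper1280_ChartTransferLP
import Fermat.Agent.S36.helper6136_LPGeom

/-!
# S36 — seam U6 (CHART-1 TRANSFER) in the LP-CASES hypothesis shapes  (helper1280)

The `lp` field of `helper36.KillData` is obtained by `helper8039.lpProp_of_cases_baseDVR` from
instance-level inputs stated on BOTH charts `chart O x i`, `i : Fin 2`.  This file reduces the
chart-1 half of every such input to chart 0 and, for the pointwise ones, to the closed points of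
chart 1 containing `x⁻¹` (the cusps over `x = ∞`):

* `centre` (body of `helper8039.centre` verbatim), `mem_centre_iff`, `centre_le_iff`,
  `centre_le_twin_iff`;
* abstract transfers along a `ChartPair` at a prime `P` of chart 1 with `x⁻¹ ∉ P`:
  `th_twin` ((TH): `x₀ y₀ = q g`, `g ∉ P`), `mid_twin` ((MID): generator of the centre of
  `V_mid`), `pir_twin` ((B): `helper6136.LocPIRQuot`), and the global `loc_twin` ((LOC));
* the same for the chart rings of a coordinate `x`, in the EXACT shapes of the hypotheses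
  `hTH`, `hMID`, `hPIR`, `hloc0`/`hloc2`/`hloc'` of `helper8039.lpProp_of_cases_baseDVR`:
  `th_all_of_chart0`, `mid_all_of_chart0`, `pir_all_of_chart0`, `loc_all_of_chart0`.
-/

set_option autoImplicit false

namespace Fermat.Agent.S36.helper1280

open Fermat.Agent.S36.helper248 (chartRing)
open Fermat.Agent.S36.helper6136 (LocPIRQuot)
open Fermat.Agent.S18

/-! ## The centre of a valuation subring on a chart -/

section Centre

variable {F : Type*} [Field F]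

/-- (verbatim `helper8039.centre`) The centre on the subring `B` of the valuation subring `V`:
the ideal of `B` generated by the elements of `B` that are non-units of `V`. -/
def centre (B : Subring F) (V : ValuationSubring F) : Ideal B :=
  Ideal.span {b : B | (b : F) ∈ V.nonunits}

theorem subset_centre {B : Subring F} {V : ValuationSubring F} {b : B}
    (hb : (b : F) ∈ V.nonunits) : b ∈ centre B V :=
  Ideal.subset_span hb

theorem mem_centre_iff {B : Subring F} {V : ValuationSubring F} (hBV : ∀ b ∈ B, b ∈ V) (b : B) :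
    b ∈ centre B V ↔ (b : F) ∈ V.nonunits := by
  constructor
  · intro hb
    unfold centre at hb
    induction hb using Submodule.span_induction with
    | mem y hy => exact hy
    | zero =>
      rw [ValuationSubring.mem_nonunits_iff]
      simp
    | add y z _ _ hy hz =>
      rw [ValuationSubring.mem_nonunits_iff] at hy hz ⊢
      rw [Subring.coe_add]
      exact lt_of_le_of_lt (Valuation.map_add _ _ _) (max_lt hy hz)
    | smul c y _ hy =>
      rw [smul_eq_mul, Subring.coe_mul]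
      exact mul_mem_nonunits V (hBV _ c.2) hy
  · exact subset_centre

/-- `centre B V ≤ P` iff `V` passes through `P`. -/
theorem centre_le_iff {B : Subring F} {V : ValuationSubring F} (P : Ideal B) :
    centre B V ≤ P ↔ Through B P V := by
  constructor
  · intro h b hb hbV
    exact ⟨hb, h (subset_centre (b := ⟨b, hb⟩) hbV)⟩
  · intro h
    unfold centre
    rw [Ideal.span_le]
    intro b hb
    obtain ⟨_, hP⟩ := h b b.2 hb
    exact hP

end Centre

/-! ## Abstract transfers along a chart pair -/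

section Pair

variable {F : Type*} [Field F] {B0 B1 B01 : Subring F} {x : F}
variable (h : ChartPair B0 B1 B01 x) (P : Ideal B1)

/-- A component passes through `P` iff it passes through the twin point (centre form). -/
theorem centre_le_twin_iff [P.IsPrime] (hP : ¬ InP B1 P x⁻¹) (V : ValuationSubring F)
    (hx : x ∈ V) (hxi : x⁻¹ ∈ V) : centre B1 V ≤ P ↔ centre B0 V ≤ twin h P := by
  rw [centre_le_iff, centre_le_iff]
  exact through_iff h P hP V hx hxi

/-- **(TH) transfers**: thickness one at the twin point gives thickness one at `P`. -/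
theorem th_twin (V0 V1 : ValuationSubring F) (hB0V0 : ∀ b ∈ B0, b ∈ V0)
    (hB0V1 : ∀ b ∈ B0, b ∈ V1) (hx0 : x⁻¹ ∈ V0) (hx1 : x⁻¹ ∈ V1) (q : ℕ)
    (H : ∃ x₀ ∈ centre B0 V0, ∃ y₀ ∈ centre B0 V1, ∃ g, g ∉ twin h P ∧
      x₀ * y₀ = (q : B0) * g) :
    ∃ x₀ ∈ centre B1 V0, ∃ y₀ ∈ centre B1 V1, ∃ g, g ∉ P ∧ x₀ * y₀ = (q : B1) * g := by
  obtain ⟨x₀, hx₀, y₀, hy₀, g, hg, hxy⟩ := H
  obtain ⟨Nx, hNx⟩ := h.glue1_ge (h.le0 x₀ x₀.2)
  obtain ⟨Ny, hNy⟩ := h.glue1_ge (h.le0 y₀ y₀.2)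
  obtain ⟨Ng, hNg⟩ := h.glue1_ge (h.le0 g g.2)
  have h1 : Nx ≤ max (max Nx Ny) Ng := le_trans (le_max_left _ _) (le_max_left _ _)
  have h2 : Ny ≤ max (max Nx Ny) Ng := le_trans (le_max_right _ _) (le_max_left _ _)
  have h3 : Ng ≤ max (max Nx Ny) Ng + max (max Nx Ny) Ng :=
    le_trans (le_max_right _ _) (Nat.le_add_right _ _)
  generalize max (max Nx Ny) Ng = N at h1 h2 h3
  have hxyF : (x₀ : F) * (y₀ : F) = (q : F) * (g : F) := by
    have := congrArg (fun z : B0 => (z : F)) hxy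
    simpa only [Subring.coe_mul, Subring.coe_natCast] using this
  refine ⟨⟨_, hNx N h1⟩,
    subset_centre (mul_mem_nonunits V0 (V0.pow_mem hx0 N) ((mem_centre_iff hB0V0 x₀).1 hx₀)),
    ⟨_, hNy N h2⟩,
    subset_centre (mul_mem_nonunits V1 (V1.pow_mem hx1 N) ((mem_centre_iff hB0V1 y₀).1 hy₀)),
    ⟨_, hNg (N + N) h3⟩, fun hc => hg ⟨N + N, hNg _ h3, hc⟩, ?_⟩
  apply Subtype.ext
  simp only [Subring.coe_mul, Subring.coe_natCast]
  rw [pow_add]
  linear_combination (x⁻¹ ^ N * x⁻¹ ^ N) * hxyF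

/-- **(MID) transfers**: a local generator of the centre of `V` at the twin point, with
`T ^ m ∣ s * q`, gives one at `P`. -/
theorem mid_twin (V : ValuationSubring F) (hB0V : ∀ b ∈ B0, b ∈ V) (hB1V : ∀ b ∈ B1, b ∈ V)
    (hx : x ∈ V) (hxi : x⁻¹ ∈ V) (q : ℕ)
    (H : ∃ T ∈ centre B0 V, T ≠ 0 ∧
      (∃ m : ℕ, m ≠ 0 ∧ ∃ s, s ∉ twin h P ∧ T ^ m ∣ s * (q : B0)) ∧
      ∀ a ∈ centre B0 V, ∃ s, s ∉ centre B0 V ∧ T ∣ s * a) :
    ∃ T ∈ centre B1 V, T ≠ 0 ∧
      (∃ m : ℕ, m ≠ 0 ∧ ∃ s, s ∉ P ∧ T ^ m ∣ s * (q : B1)) ∧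
      ∀ a ∈ centre B1 V, ∃ s, s ∉ centre B1 V ∧ T ∣ s * a := by
  obtain ⟨T, hT, hT0, ⟨m, hm, s, hs, r, hr⟩, hgen⟩ := H
  obtain ⟨N, hN⟩ := h.glue1 T (h.le0 T T.2)
  have hTF : (T : F) ≠ 0 := fun h0 => hT0 (Subtype.ext h0)
  have hxi0 : x⁻¹ ≠ 0 := inv_ne_zero h.x_ne
  refine ⟨⟨_, hN⟩,
    subset_centre (mul_mem_nonunits V (V.pow_mem hxi N) ((mem_centre_iff hB0V T).1 hT)),
    ?_, ?_, ?_⟩
  · intro h0
    have h0' : x⁻¹ ^ N * (T : F) = 0 := congrArg (fun z : B1 => (z : F)) h0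
    exact (mul_ne_zero (pow_ne_zero N hxi0) hTF) h0'
  · obtain ⟨Ns, hNs⟩ := h.glue1_ge (h.le0 s s.2)
    obtain ⟨Nr, hNr⟩ := h.glue1_ge (h.le0 r r.2)
    have hrF : (s : F) * (q : F) = (T : F) ^ m * (r : F) := by
      have := congrArg (fun z : B0 => (z : F)) hr
      simpa only [Subring.coe_mul, Subring.coe_pow, Subring.coe_natCast] using this
    have h1 : Ns ≤ N * m + max Ns Nr := le_trans (le_max_left _ _) (Nat.le_add_left _ _)
    have h2 : Nr ≤ max Ns Nr := le_max_right _ _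
    generalize max Ns Nr = M at h1 h2
    refine ⟨m, hm, ⟨_, hNs (N * m + M) h1⟩, fun hc => hs ⟨_, _, hc⟩, ⟨_, hNr M h2⟩, ?_⟩
    apply Subtype.ext
    simp only [Subring.coe_mul, Subring.coe_pow, Subring.coe_natCast]
    rw [pow_add, pow_mul, mul_pow]
    linear_combination ((x⁻¹ ^ N) ^ m * x⁻¹ ^ M) * hrF
  · intro a ha
    have haV : (a : F) ∈ V.nonunits := (mem_centre_iff hB1V a).1 ha
    obtain ⟨j, hj⟩ := h.glue0 a (h.le1 a a.2)
    have ha0 : (⟨_, hj⟩ : B0) ∈ centre B0 V :=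
      subset_centre (mul_mem_nonunits V (V.pow_mem hx j) haV)
    obtain ⟨s, hs, r, hr⟩ := hgen _ ha0
    obtain ⟨Ns, hNs⟩ := h.glue1_ge (h.le0 s s.2)
    obtain ⟨Nr, hNr⟩ := h.glue1_ge (h.le0 r r.2)
    have hrF : (s : F) * (x ^ j * (a : F)) = (T : F) * (r : F) := by
      have := congrArg (fun z : B0 => (z : F)) hr
      simpa only [Subring.coe_mul] using this
    have h1 : Ns ≤ N + max Ns Nr := le_trans (le_max_left _ _) (Nat.le_add_left _ _)
    have h2 : Nr ≤ j + max Ns Nr := le_trans (le_max_right _ _) (Nat.le_add_left _ _)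
    generalize max Ns Nr = M at h1 h2
    refine ⟨⟨_, hNs (N + M) h1⟩, ?_, ⟨_, hNr (j + M) h2⟩, ?_⟩
    · intro hc
      have hcV : x⁻¹ ^ (N + M) * (s : F) ∈ V.nonunits := (mem_centre_iff hB1V _).1 hc
      apply hs
      apply subset_centre
      have e : (s : F) = x ^ (N + M) * (x⁻¹ ^ (N + M) * (s : F)) :=
        (h.pow_mul_inv_pow_mul _ _).symm
      rw [e]
      exact mul_mem_nonunits V (V.pow_mem hx _) hcV
    · apply Subtype.ext
      simp only [Subring.coe_mul]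
      have hxx : x⁻¹ ^ j * x ^ j = 1 := by
        rw [← mul_pow, inv_mul_cancel₀ h.x_ne, one_pow]
      rw [pow_add, pow_add]
      linear_combination (x⁻¹ ^ N * x⁻¹ ^ M * x⁻¹ ^ j) * hrF
        - (x⁻¹ ^ N * x⁻¹ ^ M * (s : F) * (a : F)) * hxx

/-- **(B) transfers**: `LocPIRQuot` at the twin point gives `LocPIRQuot` at `P`. -/
theorem pir_twin (V : ValuationSubring F) (hB0V : ∀ b ∈ B0, b ∈ V) (hxi : x⁻¹ ∈ V)
    (H : LocPIRQuot (twin h P) (centre B0 V)) : LocPIRQuot P (centre B1 V) := by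
  intro I
  obtain ⟨z, ⟨N, hNz, hzI⟩, hz⟩ := H (twin h I)
  refine ⟨⟨_, hNz⟩, hzI, ?_⟩
  intro a ha
  obtain ⟨j, hj⟩ := h.glue0 a (h.le1 a a.2)
  have ha0 : (⟨_, hj⟩ : B0) ∈ twin h I := by
    refine ⟨j, ?_⟩
    show InP B1 I (x⁻¹ ^ j * (x ^ j * (a : F)))
    rw [h.inv_pow_mul_pow_mul]
    exact ⟨a.2, ha⟩
  obtain ⟨s, hs, b, hb⟩ := hz _ ha0
  have hcV : ((s * ⟨_, hj⟩ - z * b : B0) : F) ∈ V.nonunits := (mem_centre_iff hB0V _).1 hb
  obtain ⟨Ns, hNs⟩ := h.glue1_ge (h.le0 s s.2)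
  obtain ⟨Nb, hNb⟩ := h.glue1_ge (h.le0 b b.2)
  obtain ⟨Nc, hNc⟩ := h.glue1_ge (h.le0 _ (s * ⟨_, hj⟩ - z * b : B0).2)
  have h1 : Ns ≤ N + max (max Ns Nb) Nc :=
    le_trans (le_trans (le_max_left _ _) (le_max_left _ _)) (Nat.le_add_left _ _)
  have h2 : Nb ≤ j + max (max Ns Nb) Nc :=
    le_trans (le_trans (le_max_right _ _) (le_max_left _ _)) (Nat.le_add_left _ _)
  have h3 : Nc ≤ j + N + max (max Ns Nb) Nc := le_trans (le_max_right _ _) (Nat.le_add_left _ _)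
  generalize max (max Ns Nb) Nc = M at h1 h2 h3
  refine ⟨⟨_, hNs (N + M) h1⟩, fun hc => hs ⟨_, _, hc⟩, ⟨_, hNb (j + M) h2⟩, ?_⟩
  have e : ((⟨_, hNs (N + M) h1⟩ : B1) * a - ⟨_, hNz⟩ * ⟨_, hNb (j + M) h2⟩ : B1)
      = ⟨_, hNc (j + N + M) h3⟩ := by
    apply Subtype.ext
    show x⁻¹ ^ (N + M) * (s : F) * (a : F) - x⁻¹ ^ N * (z : F) * (x⁻¹ ^ (j + M) * (b : F))
      = x⁻¹ ^ (j + N + M) * ((s : F) * (x ^ j * (a : F)) - (z : F) * (b : F))
    have hxx : x⁻¹ ^ j * x ^ j = 1 := by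
      rw [← mul_pow, inv_mul_cancel₀ h.x_ne, one_pow]
    rw [pow_add, pow_add, pow_add, pow_add]
    linear_combination (-(x⁻¹ ^ N * x⁻¹ ^ M * (s : F) * (a : F))) * hxx
  rw [e]
  exact subset_centre (mul_mem_nonunits V (V.pow_mem hxi _) hcV)

include h in
/-- **(LOC) transfers globally**: if `V` is a localisation of chart 0 it is one of chart 1. -/
theorem loc_twin (V : ValuationSubring F) (hx : x ∈ V)
    (H : ∀ y ∈ V, ∃ a s : B0, (s : F) ∉ V.nonunits ∧ y * s = a) :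
    ∀ y ∈ V, ∃ a s : B1, (s : F) ∉ V.nonunits ∧ y * s = a := by
  intro y hy
  obtain ⟨a, s, hs, hys⟩ := H y hy
  obtain ⟨Na, hNa⟩ := h.glue1_ge (h.le0 a a.2)
  obtain ⟨Ns, hNs⟩ := h.glue1_ge (h.le0 s s.2)
  refine ⟨⟨_, hNa (max Na Ns) (le_max_left _ _)⟩, ⟨_, hNs (max Na Ns) (le_max_right _ _)⟩,
    ?_, ?_⟩
  · intro hc
    apply hs
    have e : (s : F) = x ^ (max Na Ns) * (x⁻¹ ^ (max Na Ns) * (s : F)) :=
      (h.pow_mul_inv_pow_mul _ _).symm
    rw [e]
    exact mul_mem_nonunits V (V.pow_mem hx _) hc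
  · show y * (x⁻¹ ^ (max Na Ns) * (s : F)) = x⁻¹ ^ (max Na Ns) * (a : F)
    rw [← hys]; ring

end Pair

/-! ## The chart rings of a coordinate, in the shapes of `helper8039.lpProp_of_cases` -/

section Charts

variable {K F : Type*} [Field K] [Field F] [Algebra K F]

/-- A chart ring lies in every valuation subring containing the base and the coordinates. -/
theorem chartRing_le_valSubring {A0 L : Type*} [CommRing A0] [Field L] [Algebra A0 L]
    (s : Set L) (V : ValuationSubring L) (hconst : ∀ a : A0, algebraMap A0 L a ∈ V)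
    (hs : ∀ y ∈ s, y ∈ V) : ∀ b : L, b ∈ chartRing A0 s → b ∈ V := by
  intro b hb
  let V' : Subalgebra A0 L := { V.toSubring with algebraMap_mem' := hconst }
  have hle : Algebra.adjoin A0 s ≤ V' := Algebra.adjoin_le hs
  let f : ↥(Algebra.adjoin A0 s) →+* ↥V :=
    { toFun := fun y => ⟨y.1, hle y.2⟩
      map_one' := rfl
      map_mul' := fun _ _ => rfl
      map_zero' := rfl
      map_add' := fun _ _ => rfl }
  have h1 : IsIntegral ↥V b := helper5377.isIntegral_of_ringHom f (by ext; rfl) hb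
  obtain ⟨y, hy⟩ := IsIntegrallyClosed.isIntegral_iff.mp h1
  rw [← hy]
  exact y.2

/-- The charts lie in every valuation subring containing `O` at which `x` is a unit. -/
theorem chart_le_valSubring (O : ValuationSubring K) (x : F) (W : ValuationSubring F)
    (hconst : ∀ a : K, a ∈ O → algebraMap K F a ∈ W) (hxW : x ∈ W ∧ x⁻¹ ∈ W) (i : Fin 2) :
    ∀ b ∈ chart O x i, b ∈ W := by
  intro b hb
  refine chartRing_le_valSubring (A0 := O) _ W (fun a => hconst a a.2) ?_ b hb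
  intro y hy
  by_cases hi : i = 0
  · rw [if_pos hi, Set.mem_singleton_iff] at hy
    rw [hy]; exact hxW.1
  · rw [if_neg hi, Set.mem_singleton_iff] at hy
    rw [hy]; exact hxW.2

/-- The maximal ideal of `O` lies in every ideal of a chart ring containing `q`
(`q` a uniformiser of `O`: `BaseDVR.q_ne`, `BaseDVR.unif`). -/
theorem maximalIdeal_inP (O : ValuationSubring K) (q : ℕ) (hq : (q : K) ≠ 0)
    (hunif : ∀ c : K, c ∈ O.nonunits → c / (q : K) ∈ O) (s : Set F)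
    (P : Ideal (chartRing O s)) (hqP : (q : chartRing O s) ∈ P) :
    ∀ a ∈ IsLocalRing.maximalIdeal O, InP (chartRing O s) P (algebraMap O F a) := by
  intro a ha
  have ha' : (a : K) ∈ O.nonunits := by
    rw [ValuationSubring.mem_nonunits_iff_exists_mem_maximalIdeal]
    exact ⟨a.2, ha⟩
  have e : algebraMap O F a
      = algebraMap O F (⟨(a : K) / (q : K), hunif _ ha'⟩ : O) * (q : F) := by
    show algebraMap K F (a : K) = algebraMap K F ((a : K) / (q : K)) * (q : F)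
    rw [← map_natCast (algebraMap K F) q, ← map_mul, div_mul_cancel₀ _ hq]
  refine ⟨helper248.algebraMap_mem_chartRing _ a, ?_⟩
  have e' : (⟨algebraMap O F a, helper248.algebraMap_mem_chartRing s a⟩ : chartRing O s)
      = ⟨_, helper248.algebraMap_mem_chartRing s (⟨(a : K) / (q : K), hunif _ ha'⟩ : O)⟩
        * (q : chartRing O s) :=
    Subtype.ext (by rw [Subring.coe_mul, Subring.coe_natCast]; exact e)
  rw [e']
  exact P.mul_mem_left _ hqP

/-- The twin of a closed point of the special fibre of chart 1 not containing `x⁻¹`. -/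
theorem twin_isMaximal_chart (O : ValuationSubring K) (q : ℕ) (hq : (q : K) ≠ 0)
    (hunif : ∀ c : K, c ∈ O.nonunits → c / (q : K) ∈ O) (x : F) (hx : x ≠ 0)
    (P : Ideal (chartRing O ({x⁻¹} : Set F))) (hPm : P.IsMaximal)
    (hqP : (q : chartRing O ({x⁻¹} : Set F)) ∈ P)
    (hP : ¬ InP (chartRing O ({x⁻¹} : Set F)) P x⁻¹) :
    (twin (chartPair_chartRing (A0 := O) x hx) P).IsMaximal :=
  twin_isMaximal_chartRing x hx (IsLocalRing.maximalIdeal O) P
    (maximalIdeal_inP O q hq hunif _ P hqP) hP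

/-! ### (TH) -/

/-- (TH) at a closed point of chart 1 not containing `x⁻¹`, from (TH) on chart 0. -/
theorem th_chartRing1 (O : ValuationSubring K) (q : ℕ) (hq : (q : K) ≠ 0)
    (hunif : ∀ c : K, c ∈ O.nonunits → c / (q : K) ∈ O) (x : F) (hx : x ≠ 0)
    (V0 V1 : ValuationSubring F)
    (hconst0 : ∀ a : K, a ∈ O → algebraMap K F a ∈ V0)
    (hconst1 : ∀ a : K, a ∈ O → algebraMap K F a ∈ V1)
    (hxV0 : x ∈ V0 ∧ x⁻¹ ∈ V0) (hxV1 : x ∈ V1 ∧ x⁻¹ ∈ V1) (hqV0 : (q : F) ∈ V0.nonunits)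
    (h0 : ∀ P : Ideal (chartRing O ({x} : Set F)), P.IsMaximal →
      centre (chartRing O ({x} : Set F)) V0 ≤ P → centre (chartRing O ({x} : Set F)) V1 ≤ P →
      ∃ x₀ ∈ centre (chartRing O ({x} : Set F)) V0,
        ∃ y₀ ∈ centre (chartRing O ({x} : Set F)) V1, ∃ g, g ∉ P ∧
          x₀ * y₀ = (q : chartRing O ({x} : Set F)) * g)
    (P : Ideal (chartRing O ({x⁻¹} : Set F))) (hPm : P.IsMaximal)
    (hc0 : centre (chartRing O ({x⁻¹} : Set F)) V0 ≤ P)
    (hc1 : centre (chartRing O ({x⁻¹} : Set F)) V1 ≤ P)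
    (hP : ¬ InP (chartRing O ({x⁻¹} : Set F)) P x⁻¹) :
    ∃ x₀ ∈ centre (chartRing O ({x⁻¹} : Set F)) V0,
      ∃ y₀ ∈ centre (chartRing O ({x⁻¹} : Set F)) V1, ∃ g, g ∉ P ∧
        x₀ * y₀ = (q : chartRing O ({x⁻¹} : Set F)) * g := by
  have hPp : P.IsPrime := hPm.isPrime
  have hpair := chartPair_chartRing (A0 := O) x hx
  have hqP : (q : chartRing O ({x⁻¹} : Set F)) ∈ P :=
    hc0 (subset_centre (by rw [Subring.coe_natCast]; exact hqV0))
  have hmax := twin_isMaximal_chart O q hq hunif x hx P hPm hqP hP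
  have hB0V0 := chartRing_le_valSubring (A0 := O) ({x} : Set F) V0 (fun a => hconst0 a a.2)
    (fun y hy => by rw [Set.mem_singleton_iff] at hy; rw [hy]; exact hxV0.1)
  have hB0V1 := chartRing_le_valSubring (A0 := O) ({x} : Set F) V1 (fun a => hconst1 a a.2)
    (fun y hy => by rw [Set.mem_singleton_iff] at hy; rw [hy]; exact hxV1.1)
  exact th_twin hpair P V0 V1 hB0V0 hB0V1 hxV0.2 hxV1.2 q
    (h0 (twin hpair P) hmax ((centre_le_twin_iff hpair P hP V0 hxV0.1 hxV0.2).1 hc0)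
      ((centre_le_twin_iff hpair P hP V1 hxV1.1 hxV1.2).1 hc1))

/-- **`hTH` on both charts** from chart 0 and the closed points of chart 1 containing `x⁻¹`
(the cusps over `x = ∞`).  The conclusion is the hypothesis `hTH` of
`helper8039.lpProp_of_cases_baseDVR` verbatim (`V0 = V' 0`, `V1 = V' 1`). -/
theorem th_all_of_chart0 (O : ValuationSubring K) (q : ℕ) (hq : (q : K) ≠ 0)
    (hunif : ∀ c : K, c ∈ O.nonunits → c / (q : K) ∈ O) (x : F) (hx : x ≠ 0)
    (V0 V1 : ValuationSubring F)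
    (hconst0 : ∀ a : K, a ∈ O → algebraMap K F a ∈ V0)
    (hconst1 : ∀ a : K, a ∈ O → algebraMap K F a ∈ V1)
    (hxV0 : x ∈ V0 ∧ x⁻¹ ∈ V0) (hxV1 : x ∈ V1 ∧ x⁻¹ ∈ V1) (hqV0 : (q : F) ∈ V0.nonunits)
    (h0 : ∀ P : Ideal (chart O x 0), P.IsMaximal →
      centre (chart O x 0) V0 ≤ P → centre (chart O x 0) V1 ≤ P →
      ∃ x₀ ∈ centre (chart O x 0) V0, ∃ y₀ ∈ centre (chart O x 0) V1, ∃ g, g ∉ P ∧
        x₀ * y₀ = (q : chart O x 0) * g)
    (hcusp : ∀ P : Ideal (chart O x 1), P.IsMaximal →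
      centre (chart O x 1) V0 ≤ P → centre (chart O x 1) V1 ≤ P → InP (chart O x 1) P x⁻¹ →
      ∃ x₀ ∈ centre (chart O x 1) V0, ∃ y₀ ∈ centre (chart O x 1) V1, ∃ g, g ∉ P ∧
        x₀ * y₀ = (q : chart O x 1) * g) :
    ∀ (i : Fin 2) (P : Ideal (chart O x i)), P.IsMaximal →
      centre (chart O x i) V0 ≤ P → centre (chart O x i) V1 ≤ P →
      ∃ x₀ ∈ centre (chart O x i) V0, ∃ y₀ ∈ centre (chart O x i) V1, ∃ g, g ∉ P ∧
        x₀ * y₀ = (q : chart O x i) * g := by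
  intro i
  fin_cases i
  · exact h0
  · intro P hPm hc0 hc1
    by_cases hP : InP (chart O x 1) P x⁻¹
    · exact hcusp P hPm hc0 hc1 hP
    · exact th_chartRing1 O q hq hunif x hx V0 V1 hconst0 hconst1 hxV0 hxV1 hqV0 h0 P hPm
        hc0 hc1 hP

/-! ### (MID) -/

/-- (MID) at a closed point of chart 1 not containing `x⁻¹`, from (MID) on chart 0. -/
theorem mid_chartRing1 (O : ValuationSubring K) (q : ℕ) (hq : (q : K) ≠ 0)
    (hunif : ∀ c : K, c ∈ O.nonunits → c / (q : K) ∈ O) (x : F) (hx : x ≠ 0)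
    (Vm Va Vb : ValuationSubring F)
    (hconst : ∀ a : K, a ∈ O → algebraMap K F a ∈ Vm)
    (hxVm : x ∈ Vm ∧ x⁻¹ ∈ Vm) (hxVa : x ∈ Va ∧ x⁻¹ ∈ Va) (hxVb : x ∈ Vb ∧ x⁻¹ ∈ Vb)
    (hqVm : (q : F) ∈ Vm.nonunits)
    (h0 : ∀ P : Ideal (chartRing O ({x} : Set F)), P.IsMaximal →
      centre (chartRing O ({x} : Set F)) Vm ≤ P → ¬ centre (chartRing O ({x} : Set F)) Va ≤ P →
      ¬ centre (chartRing O ({x} : Set F)) Vb ≤ P →
      ∃ T ∈ centre (chartRing O ({x} : Set F)) Vm, T ≠ 0 ∧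
        (∃ m : ℕ, m ≠ 0 ∧ ∃ s, s ∉ P ∧ T ^ m ∣ s * (q : chartRing O ({x} : Set F))) ∧
        ∀ a ∈ centre (chartRing O ({x} : Set F)) Vm,
          ∃ s, s ∉ centre (chartRing O ({x} : Set F)) Vm ∧ T ∣ s * a)
    (P : Ideal (chartRing O ({x⁻¹} : Set F))) (hPm : P.IsMaximal)
    (hcm : centre (chartRing O ({x⁻¹} : Set F)) Vm ≤ P)
    (hca : ¬ centre (chartRing O ({x⁻¹} : Set F)) Va ≤ P)
    (hcb : ¬ centre (chartRing O ({x⁻¹} : Set F)) Vb ≤ P)
    (hP : ¬ InP (chartRing O ({x⁻¹} : Set F)) P x⁻¹) :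
    ∃ T ∈ centre (chartRing O ({x⁻¹} : Set F)) Vm, T ≠ 0 ∧
      (∃ m : ℕ, m ≠ 0 ∧ ∃ s, s ∉ P ∧ T ^ m ∣ s * (q : chartRing O ({x⁻¹} : Set F))) ∧
      ∀ a ∈ centre (chartRing O ({x⁻¹} : Set F)) Vm,
        ∃ s, s ∉ centre (chartRing O ({x⁻¹} : Set F)) Vm ∧ T ∣ s * a := by
  have hPp : P.IsPrime := hPm.isPrime
  have hpair := chartPair_chartRing (A0 := O) x hx
  have hqP : (q : chartRing O ({x⁻¹} : Set F)) ∈ P :=
    hcm (subset_centre (by rw [Subring.coe_natCast]; exact hqVm))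
  have hmax := twin_isMaximal_chart O q hq hunif x hx P hPm hqP hP
  have hB0V := chartRing_le_valSubring (A0 := O) ({x} : Set F) Vm (fun a => hconst a a.2)
    (fun y hy => by rw [Set.mem_singleton_iff] at hy; rw [hy]; exact hxVm.1)
  have hB1V := chartRing_le_valSubring (A0 := O) ({x⁻¹} : Set F) Vm (fun a => hconst a a.2)
    (fun y hy => by rw [Set.mem_singleton_iff] at hy; rw [hy]; exact hxVm.2)
  exact mid_twin hpair P Vm hB0V hB1V hxVm.1 hxVm.2 q
    (h0 (twin hpair P) hmax ((centre_le_twin_iff hpair P hP Vm hxVm.1 hxVm.2).1 hcm)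
      (fun hc => hca ((centre_le_twin_iff hpair P hP Va hxVa.1 hxVa.2).2 hc))
      (fun hc => hcb ((centre_le_twin_iff hpair P hP Vb hxVb.1 hxVb.2).2 hc)))

/-- **`hMID` on both charts** from chart 0 and the closed points of chart 1 containing `x⁻¹`.
The conclusion is the hypothesis `hMID` of `helper8039.lpProp_of_cases_baseDVR` verbatim
(`Vm = V 1`, `Va = V 0`, `Vb = V 2`). -/
theorem mid_all_of_chart0 (O : ValuationSubring K) (q : ℕ) (hq : (q : K) ≠ 0)
    (hunif : ∀ c : K, c ∈ O.nonunits → c / (q : K) ∈ O) (x : F) (hx : x ≠ 0)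
    (Vm Va Vb : ValuationSubring F)
    (hconst : ∀ a : K, a ∈ O → algebraMap K F a ∈ Vm)
    (hxVm : x ∈ Vm ∧ x⁻¹ ∈ Vm) (hxVa : x ∈ Va ∧ x⁻¹ ∈ Va) (hxVb : x ∈ Vb ∧ x⁻¹ ∈ Vb)
    (hqVm : (q : F) ∈ Vm.nonunits)
    (h0 : ∀ P : Ideal (chart O x 0), P.IsMaximal →
      centre (chart O x 0) Vm ≤ P → ¬ centre (chart O x 0) Va ≤ P →
      ¬ centre (chart O x 0) Vb ≤ P →
      ∃ T ∈ centre (chart O x 0) Vm, T ≠ 0 ∧
        (∃ m : ℕ, m ≠ 0 ∧ ∃ s, s ∉ P ∧ T ^ m ∣ s * (q : chart O x 0)) ∧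
        ∀ a ∈ centre (chart O x 0) Vm, ∃ s, s ∉ centre (chart O x 0) Vm ∧ T ∣ s * a)
    (hcusp : ∀ P : Ideal (chart O x 1), P.IsMaximal →
      centre (chart O x 1) Vm ≤ P → ¬ centre (chart O x 1) Va ≤ P →
      ¬ centre (chart O x 1) Vb ≤ P → InP (chart O x 1) P x⁻¹ →
      ∃ T ∈ centre (chart O x 1) Vm, T ≠ 0 ∧
        (∃ m : ℕ, m ≠ 0 ∧ ∃ s, s ∉ P ∧ T ^ m ∣ s * (q : chart O x 1)) ∧
        ∀ a ∈ centre (chart O x 1) Vm, ∃ s, s ∉ centre (chart O x 1) Vm ∧ T ∣ s * a) :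
    ∀ (i : Fin 2) (P : Ideal (chart O x i)), P.IsMaximal →
      centre (chart O x i) Vm ≤ P → ¬ centre (chart O x i) Va ≤ P →
      ¬ centre (chart O x i) Vb ≤ P →
      ∃ T ∈ centre (chart O x i) Vm, T ≠ 0 ∧
        (∃ m : ℕ, m ≠ 0 ∧ ∃ s, s ∉ P ∧ T ^ m ∣ s * (q : chart O x i)) ∧
        ∀ a ∈ centre (chart O x i) Vm, ∃ s, s ∉ centre (chart O x i) Vm ∧ T ∣ s * a := by
  intro i
  fin_cases i
  · exact h0
  · intro P hPm hcm hca hcb
    by_cases hP : InP (chart O x 1) P x⁻¹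
    · exact hcusp P hPm hcm hca hcb hP
    · exact mid_chartRing1 O q hq hunif x hx Vm Va Vb hconst hxVm hxVa hxVb hqVm h0 P hPm
        hcm hca hcb hP

/-! ### (B) -/

/-- (B) at a closed point of chart 1 not containing `x⁻¹`, from (B) on chart 0. -/
theorem pir_chartRing1 (O : ValuationSubring K) (q : ℕ) (hq : (q : K) ≠ 0)
    (hunif : ∀ c : K, c ∈ O.nonunits → c / (q : K) ∈ O) (x : F) (hx : x ≠ 0)
    (W : ValuationSubring F) (hconst : ∀ a : K, a ∈ O → algebraMap K F a ∈ W)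
    (hxW : x ∈ W ∧ x⁻¹ ∈ W) (hqW : (q : F) ∈ W.nonunits)
    (h0 : ∀ P : Ideal (chartRing O ({x} : Set F)), P.IsMaximal →
      centre (chartRing O ({x} : Set F)) W ≤ P →
      LocPIRQuot P (centre (chartRing O ({x} : Set F)) W))
    (P : Ideal (chartRing O ({x⁻¹} : Set F))) (hPm : P.IsMaximal)
    (hc : centre (chartRing O ({x⁻¹} : Set F)) W ≤ P)
    (hP : ¬ InP (chartRing O ({x⁻¹} : Set F)) P x⁻¹) :
    LocPIRQuot P (centre (chartRing O ({x⁻¹} : Set F)) W) := by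
  have hPp : P.IsPrime := hPm.isPrime
  have hpair := chartPair_chartRing (A0 := O) x hx
  have hqP : (q : chartRing O ({x⁻¹} : Set F)) ∈ P :=
    hc (subset_centre (by rw [Subring.coe_natCast]; exact hqW))
  have hmax := twin_isMaximal_chart O q hq hunif x hx P hPm hqP hP
  have hB0V := chartRing_le_valSubring (A0 := O) ({x} : Set F) W (fun a => hconst a a.2)
    (fun y hy => by rw [Set.mem_singleton_iff] at hy; rw [hy]; exact hxW.1)
  exact pir_twin hpair P W hB0V hxW.2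
    (h0 (twin hpair P) hmax ((centre_le_twin_iff hpair P hP W hxW.1 hxW.2).1 hc))

/-- **`hPIR` on both charts** from chart 0 and the closed points of chart 1 containing `x⁻¹`.
The conclusion is the hypothesis `hPIR` of `helper8039.lpProp_of_cases_baseDVR` verbatim
(`ι = Fin 3`). -/
theorem pir_all_of_chart0 (O : ValuationSubring K) (q : ℕ) (hq : (q : K) ≠ 0)
    (hunif : ∀ c : K, c ∈ O.nonunits → c / (q : K) ∈ O) (x : F) (hx : x ≠ 0)
    {ι : Type*} (V : ι → ValuationSubring F)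
    (hconst : ∀ (c : ι) (a : K), a ∈ O → algebraMap K F a ∈ V c)
    (hxV : ∀ c, x ∈ V c ∧ x⁻¹ ∈ V c) (hqV : ∀ c, (q : F) ∈ (V c).nonunits)
    (h0 : ∀ (c : ι) (P : Ideal (chart O x 0)), P.IsMaximal →
      centre (chart O x 0) (V c) ≤ P → LocPIRQuot P (centre (chart O x 0) (V c)))
    (hcusp : ∀ (c : ι) (P : Ideal (chart O x 1)), P.IsMaximal →
      centre (chart O x 1) (V c) ≤ P → InP (chart O x 1) P x⁻¹ →
      LocPIRQuot P (centre (chart O x 1) (V c))) :
    ∀ (i : Fin 2) (c : ι) (P : Ideal (chart O x i)), P.IsMaximal →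
      centre (chart O x i) (V c) ≤ P → LocPIRQuot P (centre (chart O x i) (V c)) := by
  intro i
  fin_cases i
  · exact h0
  · intro c P hPm hc
    by_cases hP : InP (chart O x 1) P x⁻¹
    · exact hcusp c P hPm hc hP
    · exact pir_chartRing1 O q hq hunif x hx (V c) (hconst c) (hxV c) (hqV c) (h0 c) P hPm
        hc hP

/-! ### (LOC) -/

/-- **`hloc` on both charts** from chart 0 (no cusp input at all).  The conclusion is the
hypothesis `hloc0` / `hloc2` / `hloc' · c` of `helper8039.lpProp_of_cases_baseDVR` verbatim. -/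
theorem loc_all_of_chart0 (O : ValuationSubring K) (x : F) (hx : x ≠ 0) (W : ValuationSubring F)
    (hxW : x ∈ W)
    (h0 : ∀ y ∈ W, ∃ a s : chart O x 0, (s : F) ∉ W.nonunits ∧ y * s = a) :
    ∀ i : Fin 2, ∀ y ∈ W, ∃ a s : chart O x i, (s : F) ∉ W.nonunits ∧ y * s = a := by
  intro i
  fin_cases i
  · exact h0
  · exact loc_twin (chartPair_chartRing (A0 := O) x hx) W hxW h0

/-- The same from chart 1. -/
theorem loc_all_of_chart1 (O : ValuationSubring K) (x : F) (hx : x ≠ 0) (W : ValuationSubring F)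
    (hxW : x⁻¹ ∈ W)
    (h1 : ∀ y ∈ W, ∃ a s : chart O x 1, (s : F) ∉ W.nonunits ∧ y * s = a) :
    ∀ i : Fin 2, ∀ y ∈ W, ∃ a s : chart O x i, (s : F) ∉ W.nonunits ∧ y * s = a := by
  intro i
  fin_cases i
  · exact loc_twin (chartPair_chartRing (A0 := O) x hx).symm W hxW h1
  · exact h1

end Charts

end Fermat.Agent.S36.helper1280
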