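import Fermat.Agent.S36.helper1280_ChartTransfer
import Fermat.Agent.S36.helper248_RootLatticeChart

/-!
# S36 — seam U6 (CHART-1 TRANSFER), chart-ring instance and the `LPProp` shape  (helper1280)

On top of `helper1280_ChartTransfer` (abstract twin point) and the landed chart rings
`helper248.chartRing A0 s` (integral closure of `A0[s]`):

* `chartPair_chartRing` : the charts `chartRing A0 {t}`, `chartRing A0 {t⁻¹}` with overlap
  `chartRing A0 {t, t⁻¹}` form a `ChartPair` for every `t ≠ 0` (no other hypothesis);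
* `twin_isMaximal_chartRing` : the twin of a closed point of the special fibre of chart 1 not
  containing `t⁻¹` is a closed point of chart 0 (no residue-field, finiteness or noetherian
  hypothesis);
* `lp_seed_chart1` : (LP) in the SEED SHAPE of `helper36.LPProp` / `helper4913.exists_seed`
  (`u * s = b * g ^ n`, `b s ∈ B ∖ P`) at EVERY closed point of chart 1, from the same statement
  at the closed points of chart 0 and at the closed points of chart 1 containing `t⁻¹`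
  (the cusps over `t = ∞`);
* `lpProp_of_chart0_of_cusp` : the same in the exact shape of `helper36.LPProp`
  (`chart`, `HorDiv`, `LPProp` restated with the bodies of `helper36_KillData` v2 verbatim).
-/

set_option autoImplicit false

namespace Fermat.Agent.S36.helper1280

open Fermat.Agent.S36.helper248 (chartRing)
open Fermat.Agent.S18

section ChartRing

variable {A0 L : Type*} [CommRing A0] [Field L] [Algebra A0 L]

/-- The two chart rings of a coordinate `t ≠ 0` and their overlap form a `ChartPair`. -/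
theorem chartPair_chartRing (t : L) (ht0 : t ≠ 0) :
    ChartPair (chartRing A0 ({t} : Set L)) (chartRing A0 ({t⁻¹} : Set L))
      (chartRing A0 ({t, t⁻¹} : Set L)) t where
  x_ne := ht0
  x_mem := helper248.mem_chartRing_of_mem rfl
  xinv_mem := helper248.mem_chartRing_of_mem rfl
  le0 := fun _ hb => helper248.chartRing_mono (fun _ hz => Or.inl hz) hb
  le1 := fun _ hb => helper248.chartRing_mono (fun _ hz => Or.inr hz) hb
  glue0 := fun y hy => by
    obtain ⟨N, hN⟩ := helper5377.exists_pow_mul_isIntegral t ht0 hy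
    exact ⟨N, hN N le_rfl⟩
  glue1 := fun y hy => by
    have hy' : IsIntegral (Algebra.adjoin A0 ({t⁻¹, t⁻¹⁻¹} : Set L)) y := by
      refine helper5377.isIntegral_adjoin_mono ?_ hy
      rintro z (rfl | hz)
      · right; rw [Set.mem_singleton_iff, inv_inv]
      · left; exact hz
    obtain ⟨N, hN⟩ := helper5377.exists_pow_mul_isIntegral t⁻¹ (inv_ne_zero ht0) hy'
    exact ⟨N, hN N le_rfl⟩

/-- The twin of a closed point `P` of the special fibre of chart 1 (over the maximal ideal `𝔪`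
of `A0`) with `t⁻¹ ∉ P` is a closed point of chart 0. -/
theorem twin_isMaximal_chartRing (t : L) (ht0 : t ≠ 0) (𝔪 : Ideal A0) [𝔪.IsMaximal]
    (P : Ideal (chartRing A0 ({t⁻¹} : Set L))) [P.IsMaximal]
    (h𝔪 : ∀ a ∈ 𝔪, InP (chartRing A0 ({t⁻¹} : Set L)) P (algebraMap A0 L a))
    (hP : ¬ InP (chartRing A0 ({t⁻¹} : Set L)) P t⁻¹) :
    (twin (chartPair_chartRing (A0 := A0) t ht0) P).IsMaximal :=
  twin_isMaximal_of_integral (chartPair_chartRing (A0 := A0) t ht0)
    (helper248.algebraMap_mem_chartRing _) (helper248.algebraMap_mem_chartRing _)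
    (fun _ hb => hb) (fun _ hb => hb) 𝔪 P h𝔪 hP

/-- **(LP), seed shape, at chart 1** from chart 0 and the cusps over `t = ∞`.

`V c` the vertical valuations (`t` a unit at each), `𝔪` a maximal ideal of `A0` mapping into
every `𝔪(V c)`; closed points of the special fibre = maximal ideals containing the vertical
ideal `{b | ∀ c, b ∈ 𝔪(V c)}`; `Hyp n u` stands for the hypotheses on `(n, u)`. -/
theorem lp_seed_chart1 (t : L) (ht0 : t ≠ 0) {ι : Type*} (V : ι → ValuationSubring L)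
    (htV : ∀ c, t⁻¹ ∈ V c) (𝔪 : Ideal A0) [𝔪.IsMaximal]
    (h𝔪 : ∀ a ∈ 𝔪, ∀ c, algebraMap A0 L a ∈ (V c).nonunits) (Hyp : ℕ → L → Prop)
    (h0 : ∀ P0 : Ideal (chartRing A0 ({t} : Set L)), P0.IsMaximal →
      (∀ b : chartRing A0 ({t} : Set L), (∀ c, (b : L) ∈ (V c).nonunits) → b ∈ P0) →
      ∀ (n : ℕ) (u : L), Hyp n u →
        ∃ g : L, g ≠ 0 ∧ ∃ b s : chartRing A0 ({t} : Set L),
          b ∉ P0 ∧ s ∉ P0 ∧ u * (s : L) = (b : L) * g ^ n)
    (hcusp : ∀ P : Ideal (chartRing A0 ({t⁻¹} : Set L)), P.IsMaximal →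
      (∀ b : chartRing A0 ({t⁻¹} : Set L), (∀ c, (b : L) ∈ (V c).nonunits) → b ∈ P) →
      InP (chartRing A0 ({t⁻¹} : Set L)) P t⁻¹ →
      ∀ (n : ℕ) (u : L), Hyp n u →
        ∃ g : L, g ≠ 0 ∧ ∃ b s : chartRing A0 ({t⁻¹} : Set L),
          b ∉ P ∧ s ∉ P ∧ u * (s : L) = (b : L) * g ^ n) :
    ∀ P : Ideal (chartRing A0 ({t⁻¹} : Set L)), P.IsMaximal →
      (∀ b : chartRing A0 ({t⁻¹} : Set L), (∀ c, (b : L) ∈ (V c).nonunits) → b ∈ P) →
      ∀ (n : ℕ) (u : L), Hyp n u →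
        ∃ g : L, g ≠ 0 ∧ ∃ b s : chartRing A0 ({t⁻¹} : Set L),
          b ∉ P ∧ s ∉ P ∧ u * (s : L) = (b : L) * g ^ n := by
  intro P hPm hvert n u hnu
  by_cases hP : InP (chartRing A0 ({t⁻¹} : Set L)) P t⁻¹
  · exact hcusp P hPm hvert hP n u hnu
  · have hPp : P.IsPrime := hPm.isPrime
    have hpair := chartPair_chartRing (A0 := A0) t ht0
    have h𝔪P : ∀ a ∈ 𝔪, InP (chartRing A0 ({t⁻¹} : Set L)) P (algebraMap A0 L a) :=
      fun a ha => ⟨helper248.algebraMap_mem_chartRing _ a, hvert _ (h𝔪 a ha)⟩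
    have hmax : (twin hpair P).IsMaximal := twin_isMaximal_chartRing t ht0 𝔪 P h𝔪P hP
    have hvert0 : ∀ b : chartRing A0 ({t} : Set L), (∀ c, (b : L) ∈ (V c).nonunits) →
        b ∈ twin hpair P := by
      intro b hb
      obtain ⟨N, hN⟩ := hpair.glue1 b (hpair.le0 b b.2)
      exact ⟨N, hN, hvert ⟨_, hN⟩ fun c => mul_mem_nonunits (V c) ((V c).pow_mem (htV c) N) (hb c)⟩
    obtain ⟨g, hg, b0, s0, hb0, hs0, hus⟩ := h0 (twin hpair P) hmax hvert0 n u hnu
    obtain ⟨Nb, hNb⟩ := hpair.glue1_ge (hpair.le0 b0 b0.2)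
    obtain ⟨Ns, hNs⟩ := hpair.glue1_ge (hpair.le0 s0 s0.2)
    refine ⟨g, hg, ⟨_, hNb (max Nb Ns) (le_max_left _ _)⟩, ⟨_, hNs (max Nb Ns) (le_max_right _ _)⟩,
      ?_, ?_, ?_⟩
    · intro hc
      exact hb0 ⟨max Nb Ns, hNb _ (le_max_left _ _), hc⟩
    · intro hc
      exact hs0 ⟨max Nb Ns, hNs _ (le_max_right _ _), hc⟩
    · show u * (t⁻¹ ^ max Nb Ns * (s0 : L)) = t⁻¹ ^ max Nb Ns * (b0 : L) * g ^ n
      rw [mul_assoc, ← hus]; ring

end ChartRing

/-! ## The exact shape of `helper36.LPProp` (bodies of `helper36_KillData` v2 verbatim) -/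

section LPPropShape

variable {F : Type*} [Field F] {K : Type*} [Field K] [Algebra K F]

/-- (verbatim `helper36.HorDiv`) -/
def HorDiv (K : Type*) {F : Type*} [Field F] [Field K] [Algebra K F] (n : ℕ) (u : F) : Prop :=
  ∀ W : ValuationSubring F, (∀ a : K, algebraMap K F a ∈ W) → W ≠ ⊤ → IsPrincipalIdealRing W →
    ∃ g : F, g ≠ 0 ∧ u / g ^ n ∈ W ∧ g ^ n / u ∈ W

/-- (verbatim `helper36.chart`) -/
def chart (O : ValuationSubring K) (x : F) (i : Fin 2) : Subring F :=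
  chartRing O (if i = 0 then ({x} : Set F) else {x⁻¹})

/-- (verbatim `helper36.LPProp`) -/
def LPProp (O : ValuationSubring K) (x : F) {ι : Type*} (V : ι → ValuationSubring F) : Prop :=
  ∀ (i : Fin 2) (P : Ideal (chart O x i)), P.IsMaximal →
    (∀ b : chart O x i, (∀ c, (b : F) ∈ (V c).nonunits) → b ∈ P) →
    ∀ (n : ℕ) (u : F), 0 < n → u ≠ 0 → (∀ c, u ∈ V c ∧ u⁻¹ ∈ V c) → HorDiv K n u →
      ∃ h : F, h ≠ 0 ∧ ∃ b s : chart O x i, b ∉ P ∧ s ∉ P ∧ u * (s : F) = (b : F) * h ^ n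

/-- `LPProp` restricted to the chart `i` and to the closed points satisfying `Q`. -/
def LPAt (O : ValuationSubring K) (x : F) {ι : Type*} (V : ι → ValuationSubring F) (i : Fin 2)
    (Q : Ideal (chart O x i) → Prop) : Prop :=
  ∀ P : Ideal (chart O x i), P.IsMaximal →
    (∀ b : chart O x i, (∀ c, (b : F) ∈ (V c).nonunits) → b ∈ P) → Q P →
    ∀ (n : ℕ) (u : F), 0 < n → u ≠ 0 → (∀ c, u ∈ V c ∧ u⁻¹ ∈ V c) → HorDiv K n u →
      ∃ h : F, h ≠ 0 ∧ ∃ b s : chart O x i, b ∉ P ∧ s ∉ P ∧ u * (s : F) = (b : F) * h ^ n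

theorem lpProp_iff (O : ValuationSubring K) (x : F) {ι : Type*} (V : ι → ValuationSubring F) :
    LPProp O x V ↔ LPAt O x V 0 (fun _ => True) ∧ LPAt O x V 1 (fun _ => True) := by
  constructor
  · intro h
    exact ⟨fun P hP hv _ => h 0 P hP hv, fun P hP hv _ => h 1 P hP hv⟩
  · rintro ⟨h0, h1⟩ i
    fin_cases i
    · exact fun P hP hv => h0 P hP hv trivial
    · exact fun P hP hv => h1 P hP hv trivial

/-- **`LPProp` from chart 0 and the cusps over `x = ∞` of chart 1.**  `hOV`: the maximal ideal of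
`O` maps into every `𝔪(V c)` (see `maximalIdeal_mem_nonunits`). -/
theorem lpProp_of_chart0_of_cusp (O : ValuationSubring K) (x : F) (hx : x ≠ 0) {ι : Type*}
    (V : ι → ValuationSubring F) (hxV : ∀ c, x ∈ V c ∧ x⁻¹ ∈ V c)
    (hOV : ∀ a ∈ IsLocalRing.maximalIdeal O, ∀ c, algebraMap O F a ∈ (V c).nonunits)
    (h0 : LPAt O x V 0 (fun _ => True))
    (hcusp : LPAt O x V 1 (fun P => InP (chart O x 1) P x⁻¹)) : LPProp O x V := by
  rw [lpProp_iff]
  refine ⟨h0, ?_⟩
  intro P hPm hvert _ n u hn hu hV hH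
  exact lp_seed_chart1 (A0 := O) x hx V (fun c => (hxV c).2) (IsLocalRing.maximalIdeal O) hOV
    (fun n u => 0 < n ∧ u ≠ 0 ∧ (∀ c, u ∈ V c ∧ u⁻¹ ∈ V c) ∧ HorDiv K n u)
    (fun P0 hP0 hv0 n u ⟨h1, h2, h3, h4⟩ => h0 P0 hP0 hv0 trivial n u h1 h2 h3 h4)
    (fun P1 hP1 hv1 hc n u ⟨h1, h2, h3, h4⟩ => hcusp P1 hP1 hv1 hc n u h1 h2 h3 h4)
    P hPm hvert n u ⟨hn, hu, hV, hH⟩

/-- The hypothesis `hOV` from the `KillData` / `BaseDVR` facts: `q` a uniformiser of `O`
(`unif`), constants of `O` are integral at `V` (`const_V`) and `q ∈ 𝔪(V)`. -/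
theorem maximalIdeal_mem_nonunits (O : ValuationSubring K) (q : ℕ) (hq : (q : K) ≠ 0)
    (hunif : ∀ c : K, c ∈ O.nonunits → c / (q : K) ∈ O) (V : ValuationSubring F)
    (hconst : ∀ a : K, a ∈ O → algebraMap K F a ∈ V) (hqV : (q : F) ∈ V.nonunits) :
    ∀ a ∈ IsLocalRing.maximalIdeal O, algebraMap O F a ∈ V.nonunits := by
  intro a ha
  have ha' : (a : K) ∈ O.nonunits := by
    rw [ValuationSubring.mem_nonunits_iff_exists_mem_maximalIdeal]
    exact ⟨a.2, ha⟩
  have e : algebraMap O F a = algebraMap K F ((a : K) / (q : K)) * (q : F) := by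
    rw [← map_natCast (algebraMap K F) q, ← map_mul, div_mul_cancel₀ _ hq]
    rfl
  rw [e]
  exact mul_mem_nonunits V (hconst _ (hunif _ ha')) hqV

end LPPropShape

end Fermat.Agent.S36.helper1280
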