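import Mathlib
import Fermat.Prelude.Def_CuspForm_HeckeGaloisRepDatum
import Fermat.Prelude.Def_CuspForm_Newforms
import Fermat.Prelude.Def_GaloisRep_LocalConditions
import Fermat.Prelude.Def_GaloisRep_Residual
import Fermat.Agent.S30.helper1094_E1
import Fermat.Agent.S30.helper501_Occ
import Fermat.Agent.S30.helper767_TateFin
import Fermat.Agent.S30.helper54_Final

/-!
# S36: the algebraic side, on top of the landed S30 core (helper1335)

Frozen statement S36 (Carayol at `q² ∥ M`): a newform `g` of level `M` has an attached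
`lam`-adic representation `ρ` which is NOT unipotent on inertia at any prime `q ≠ lam` with
`v_q(M) = 2`.  Route: findings #3001 (also #2979, #2973, #3010).

This file is the S36 twin of the landed S35 files `S35/helper1307_CoreQ`, `helper1307_E1Q`.
The frozen statement is split along ONE interface, `EigenDatumK`: an S30 eigen-datum
(`S30.helper54.EigenDatum`: a nonzero finite free module `M` with a continuous Galois action
and the Eichler-Shimura relation at the good Frobenius lifts) such that, for every prime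
`q ≠ p` with `v_q(N) = 2`, the inertia group of some valuation ring over `q` fixes NO nonzero
vector of `M`.

The algebra: the S30 core produces `ρ'` of rank two, either the restriction of the action to a
saturated stable sublattice `Λ ⊆ M` of rank two, or `ψ ⊕ ε ψ⁻¹` for the character `ψ` of a
stable saturated line `Λ ⊆ M`; in both cases `charpoly (ρ' g) = X² - t(g) X + ε(g)` where
`g² - t(g) g + ε(g) = 0` on `M`.  If `ρ'` were unipotent on an inertia group `I` then `t = 2`,
`ε = 1` on `I`, and `I` would fix a nonzero vector of `Λ ⊆ M`: in rank one because the scalar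
`ψ` satisfies `(ψ - 1)² = 0`, in rank two by Kolchin's theorem for `2 × 2` matrices.  So the
hypotheses `lam ≠ 2` and "every attached representation is residually absolutely irreducible and
odd" of the frozen statement are NOT needed.

* `kolchin_fin_two`            : Kolchin for `2 × 2` matrices over a domain (explicit);
* `exists_fixed_of_quad`       : the fixed vector in the S30 core situation;
* `baseChange_forall_ker_eq_zero`, `baseChange_fixed_eq_zero` : a zero common kernel (no common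
  fixed vector) survives a flat base change of a finite module over a noetherian ring;
* `EigenDatumK`, `conclusionK_of_eigenDatumK` : `Stmt_GenCheb → EigenDatumK → ConclusionK`;
* `JDatumK`, `eigenDatumK_of_jDatumK` : the abstract Jacobian datum (sub-object form) with the
  clause `(kill)`: inertia-fixed `p`-power torsion is killed by a fixed nonzero integer;
* `Stmt_JK`, `result_of_jk`     : the frozen statement S36 from `Stmt_JK` ALONE.

The kernel-operator form and the reduction to the S30 machine statements are in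
`S36/helper1335_KerOpsK`.
-/

set_option autoImplicit false

open Polynomial
open scoped TensorProduct

namespace Fermat.Agent.S36.helper1335

/-! ### Kolchin's theorem for `2 × 2` matrices -/

section Kolchin

variable {R : Type*} [CommRing R] [IsDomain R]

/-- **Kolchin, rank two.**  A multiplicatively closed set of `2 × 2` matrices over a domain all of
whose elements have trace `2` and determinant `1` has a common nonzero fixed vector. -/
theorem kolchin_fin_two (S : Set (Matrix (Fin 2) (Fin 2) R))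
    (htr : ∀ A ∈ S, A.trace = 2) (hdet : ∀ A ∈ S, A.det = 1)
    (hmul : ∀ A ∈ S, ∀ B ∈ S, (A * B).trace = 2) :
    ∃ v : Fin 2 → R, v ≠ 0 ∧ ∀ A ∈ S, A.mulVec v = v := by
  classical
  -- the entries of an element of `S`
  have key : ∀ A ∈ S, A 1 1 = 2 - A 0 0 ∧ (A 0 0 - 1) ^ 2 + A 0 1 * A 1 0 = 0 := by
    intro A hA
    have h1 := htr A hA
    have h2 := hdet A hA
    rw [Matrix.trace_fin_two] at h1
    rw [Matrix.det_fin_two] at h2
    have h3 : A 1 1 = 2 - A 0 0 := by linear_combination h1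
    refine ⟨h3, ?_⟩
    rw [h3] at h2
    linear_combination (-1 : R) * h2
  have key2 : ∀ A ∈ S, ∀ B ∈ S,
      2 * (A 0 0 - 1) * (B 0 0 - 1) + A 0 1 * B 1 0 + A 1 0 * B 0 1 = 0 := by
    intro A hA B hB
    have h := hmul A hA B hB
    rw [Matrix.trace_fin_two, Matrix.mul_apply, Matrix.mul_apply, Fin.sum_univ_two,
      Fin.sum_univ_two, (key A hA).1, (key B hB).1] at h
    linear_combination h
  have fixed_iff : ∀ (A : Matrix (Fin 2) (Fin 2) R) (v : Fin 2 → R),
      A 1 1 = 2 - A 0 0 → (A 0 0 - 1) * v 0 + A 0 1 * v 1 = 0 →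
      A 1 0 * v 0 - (A 0 0 - 1) * v 1 = 0 → A.mulVec v = v := by
    intro A v h11 e0 e1
    funext i
    fin_cases i
    · simp only [Matrix.mulVec, dotProduct, Fin.sum_univ_two, Fin.zero_eta]
      linear_combination e0
    · simp only [Matrix.mulVec, dotProduct, Fin.sum_univ_two, Fin.mk_one, h11]
      linear_combination e1
  by_cases hall : ∀ A ∈ S, A 0 0 = 1 ∧ A 0 1 = 0 ∧ A 1 0 = 0
  · refine ⟨![1, 0], ?_, fun A hA => ?_⟩
    · intro h
      have := congrFun h 0
      simp at this
    · obtain ⟨h00, h01, h10⟩ := hall A hA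
      refine fixed_iff A _ (key A hA).1 ?_ ?_
      · simp [h00, h01]
      · simp [h00, h10]
  · push Not at hall
    obtain ⟨A₀, hA₀, hne⟩ := hall
    obtain ⟨h11, hq⟩ := key A₀ hA₀
    set p := A₀ 0 0 - 1 with hp
    set q := A₀ 0 1 with hq'
    set r := A₀ 1 0 with hr'
    by_cases hq0 : q = 0
    · -- then `p = 0` and `r ≠ 0`
      have hp0 : p = 0 := by
        rw [hq0, zero_mul, add_zero] at hq
        exact pow_eq_zero_iff (two_ne_zero) |>.mp hq
      have hr0 : r ≠ 0 := by
        intro hr0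
        exact hne (by linear_combination hp0) hq0 hr0
      refine ⟨![0, r], ?_, fun B hB => ?_⟩
      · intro h
        have := congrFun h 1
        simp at this
        exact hr0 this
      · obtain ⟨hB11, hBq⟩ := key B hB
        have h1 := key2 A₀ hA₀ B hB
        rw [← hp, ← hq', ← hr', hp0, hq0] at h1
        have hB01 : B 0 1 = 0 := by
          have : r * B 0 1 = 0 := by linear_combination h1
          exact (mul_eq_zero.mp this).resolve_left hr0
        have hB00 : B 0 0 - 1 = 0 := by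
          rw [hB01, zero_mul, add_zero] at hBq
          exact pow_eq_zero_iff (two_ne_zero) |>.mp hBq
        refine fixed_iff B _ hB11 ?_ ?_
        · simp [hB01]
        · simp [hB00]
    · refine ⟨![q, -p], ?_, fun B hB => ?_⟩
      · intro h
        have := congrFun h 0
        simp at this
        exact hq0 this
      · obtain ⟨hB11, hBq⟩ := key B hB
        have h1 := key2 A₀ hA₀ B hB
        rw [← hp, ← hq', ← hr'] at h1
        set p' := B 0 0 - 1 with hp'
        set q' := B 0 1 with hq''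
        set r' := B 1 0 with hr''
        -- `(p' q - q' p)² = 0`
        have hX : p' * q - q' * p = 0 := by
          have : (p' * q - q' * p) ^ 2 = 0 := by
            linear_combination q ^ 2 * hBq - q' * q * h1 + q' ^ 2 * hq
          exact pow_eq_zero_iff (two_ne_zero) |>.mp this
        have hY : r' * q + p' * p = 0 := by
          have : q * (r' * q + p' * p) = 0 := by
            linear_combination q * h1 - q' * hq - p * hX
          exact (mul_eq_zero.mp this).resolve_left hq0
        refine fixed_iff B _ hB11 ?_ ?_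
        · simp only [Matrix.cons_val_zero, Matrix.cons_val_one]
          linear_combination hX
        · simp only [Matrix.cons_val_zero, Matrix.cons_val_one]
          linear_combination hY

end Kolchin

/-! ### Coefficients of quadratic polynomials -/

section Quad

variable {R : Type*} [CommRing R]

theorem quad_coeffs {a b a' b' : R}
    (h : (X ^ 2 - C a * X + C b : R[X]) = X ^ 2 - C a' * X + C b') : a = a' ∧ b = b' := by
  have h1 := congrArg (fun f : R[X] => f.coeff 1) h
  have h0 := congrArg (fun f : R[X] => f.coeff 0) h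
  simp [coeff_X_pow] at h1 h0
  exact ⟨h1, h0⟩

theorem unipotent_quad : ((X - 1) ^ 2 : R[X]) = X ^ 2 - C (2 : R) * X + C (1 : R) := by
  rw [map_one, map_ofNat]
  ring

/-- If `X² - t X + e = (X - 1)²` then `t = 2` and `e = 1`. -/
theorem quad_eq_unipotent {t e : R} (h : (X ^ 2 - C t * X + C e : R[X]) = (X - 1) ^ 2) :
    t = 2 ∧ e = 1 := by
  rw [unipotent_quad] at h
  exact quad_coeffs h

end Quad

/-! ### A fixed vector for a subgroup acting unipotently -/

section Fixed

variable {R : Type*} [CommRing R] [IsDomain R] [IsPrincipalIdealRing R]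
  {M : Type*} [AddCommGroup M] [Module R M] [Module.Free R M] [Module.Finite R M]
  {G : Type*} [Group G]

open Fermat.Agent.S30.helper2646 in
/-- **Fixed vector.**  In the situation of the S30 core (every `g` satisfies
`g² - t(g) g + ε(g) = 0` on a nonzero finite free module, `c` an odd involution), a subgroup `H`
all of whose elements have `t = 2`, `ε = 1` (i.e. "characteristic polynomial `(X - 1)²`") fixes a
nonzero vector of the module. -/
theorem exists_fixed_of_quad [Nontrivial M]
    (h2 : (2 : R) ≠ 0) (ρ : G →* Module.End R M) (t : G → R) (ε : G →* Rˣ) (c : G)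
    (hrel : ∀ g m, ρ g (ρ g m) - t g • ρ g m + (ε g : R) • m = 0)
    (hc : c * c = 1) (hεc : (ε c : R) = -1)
    (H : Subgroup G) (hH : ∀ h ∈ H, t h = 2 ∧ (ε h : R) = 1) :
    ∃ m : M, m ≠ 0 ∧ ∀ h ∈ H, ρ h m = m := by
  classical
  obtain ⟨Λ, hstab, hsat, hrank⟩ := exists_stable_lattice h2 ρ t ε c hrel hc hεc
  have : Module.Finite R Λ := inferInstance
  have : Module.Free R Λ := Module.free_of_finite_type_torsion_free'
  have hrelΛ : ∀ g (m : Λ), restrictRep ρ Λ hstab g (restrictRep ρ Λ hstab g m)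
      - t g • restrictRep ρ Λ hstab g m + (ε g : R) • m = 0 := by
    intro g m
    apply Subtype.ext
    exact hrel g m
  rcases hrank with h1 | ⟨h2', u, u', hu, hu', hu0, hu'0, s, hs, hcu, hcu'⟩
  · -- rank one: every element of `H` acts by a scalar `ψ` with `(ψ - 1)² = 0`
    let b := Module.finBasisOfFinrankEq R Λ h1
    have hb0 : b 0 ≠ 0 := b.ne_zero 0
    have hx : ∀ y : Λ, y = b.repr y 0 • b 0 := by
      intro y
      conv_lhs => rw [← b.sum_repr y]
      rw [Fin.sum_univ_one]
    refine ⟨((b 0 : Λ) : M), fun h => hb0 (Subtype.ext h), fun h hh => ?_⟩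
    obtain ⟨ht, hε⟩ := hH h hh
    set ψ : R := b.repr (restrictRep ρ Λ hstab h (b 0)) 0 with hψ
    have h0 : restrictRep ρ Λ hstab h (b 0) = ψ • b 0 := hx _
    have h3 := hrelΛ h (b 0)
    rw [h0, map_smul, h0, ht, hε, smul_smul, smul_smul, ← sub_smul, ← add_smul] at h3
    have h4 : ψ * ψ - 2 * ψ + 1 = 0 := (smul_eq_zero.mp h3).resolve_right hb0
    have h5 : (ψ - 1) ^ 2 = 0 := by linear_combination h4
    have h6 : ψ = 1 := sub_eq_zero.mp (pow_eq_zero_iff two_ne_zero |>.mp h5)
    have h7 := congrArg (fun y : Λ => (y : M)) h0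
    simp only [restrictRep_coe, h6, one_smul] at h7
    exact h7
  · -- rank two: Kolchin
    have hs0 : s ≠ 0 := by
      rintro rfl
      simp at hs
    have hns : ∀ a : R, restrictRep ρ Λ hstab c ≠ a • (1 : Module.End R Λ) := by
      intro a ha
      have e1 : ρ c u = a • u :=
        congrArg (fun f : Module.End R Λ => ((f ⟨u, hu⟩ : Λ) : M)) ha
      have e2 : ρ c u' = a • u' :=
        congrArg (fun f : Module.End R Λ => ((f ⟨u', hu'⟩ : Λ) : M)) ha
      rw [hcu] at e1
      rw [hcu'] at e2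
      have a1 : (s - a) • u = 0 := by rw [sub_smul, e1, sub_self]
      have a2 : (s + a) • u' = 0 := by
        rw [add_smul, ← e2]
        simp
      have b1 : s - a = 0 := (smul_eq_zero.mp a1).resolve_right hu0
      have b2 : s + a = 0 := (smul_eq_zero.mp a2).resolve_right hu'0
      have : 2 * s = 0 := by linear_combination b1 + b2
      exact mul_ne_zero h2 hs0 this
    have hchar := charpoly_of_rank_two h2' (restrictRep ρ Λ hstab) t ε c hrelΛ hc hεc hns
    let b := Module.finBasisOfFinrankEq R Λ h2'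
    let Φ : Module.End R Λ → Matrix (Fin 2) (Fin 2) R := LinearMap.toMatrix b b
    have htd : ∀ g : G, (Φ (restrictRep ρ Λ hstab g)).trace = t g ∧
        (Φ (restrictRep ρ Λ hstab g)).det = (ε g : R) := by
      intro g
      have h3 := hchar g
      rw [← LinearMap.charpoly_toMatrix (restrictRep ρ Λ hstab g) b, Matrix.charpoly_fin_two] at h3
      exact quad_coeffs h3
    obtain ⟨v, hv0, hv⟩ := kolchin_fin_two
      {A : Matrix (Fin 2) (Fin 2) R | ∃ h ∈ H, A = Φ (restrictRep ρ Λ hstab h)}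
      (by
        rintro A ⟨h, hh, rfl⟩
        rw [(htd h).1, (hH h hh).1])
      (by
        rintro A ⟨h, hh, rfl⟩
        rw [(htd h).2, (hH h hh).2])
      (by
        rintro A ⟨h, hh, rfl⟩ B ⟨h', hh', rfl⟩
        have e : Φ (restrictRep ρ Λ hstab h) * Φ (restrictRep ρ Λ hstab h')
            = Φ (restrictRep ρ Λ hstab (h * h')) := by
          rw [map_mul]
          exact (LinearMap.toMatrix_mul b _ _).symm
        rw [e, (htd (h * h')).1, (hH (h * h') (H.mul_mem hh hh')).1])
    let x : Λ := b.equivFun.symm v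
    have hxe : b.equivFun x = v := b.equivFun.apply_symm_apply v
    have hx0 : x ≠ 0 := by
      intro h
      apply hv0
      rw [← hxe, h, map_zero]
    refine ⟨(x : M), fun h => hx0 (Subtype.ext h), fun h hh => ?_⟩
    have h3 := hv _ ⟨h, hh, rfl⟩
    have h4 : restrictRep ρ Λ hstab h x = x := by
      apply b.equivFun.injective
      have h5 := LinearMap.toMatrix_mulVec_repr b b (restrictRep ρ Λ hstab h) x
      have h6 : (b.repr x : Fin 2 → R) = v := by
        rw [← Module.Basis.equivFun_apply]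
        exact hxe
      rw [h6] at h5
      funext i
      rw [Module.Basis.equivFun_apply, Module.Basis.equivFun_apply, ← h5, h6]
      exact congrFun h3 i
    have h7 := congrArg (fun y : Λ => (y : M)) h4
    simpa only [restrictRep_coe] using h7

end Fixed

/-! ### Base change of "no fixed vectors" -/

section BaseChangeFixed

variable {R : Type*} [CommRing R] [IsNoetherianRing R]
  {O : Type*} [CommRing O] [Algebra R O] [Module.Flat R O]
  {T : Type*} [AddCommGroup T] [Module R T] [Module.Finite R T]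

/-- **Common kernel, base change.**  `T` a finite module over a noetherian ring `R`, `Z` a set
of endomorphisms of `T` whose common kernel is zero, `O` a flat `R`-algebra: the common kernel of
the base-changed endomorphisms in `O ⊗ T` is zero.  (Finitely many elements of `Z` span all of
them, and a finite intersection of kernels commutes with flat base change.) -/
theorem baseChange_forall_ker_eq_zero (Z : Set (Module.End R T))
    (hZ : ∀ t : T, (∀ z ∈ Z, z t = 0) → t = 0)
    (v : O ⊗[R] T) (hv : ∀ z ∈ Z, z.baseChange O v = 0) : v = 0 := by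
  classical
  have hN : IsNoetherian R (Module.End R T) := inferInstance
  obtain ⟨s', hs's, hspan⟩ :=
    (Submodule.fg_span_iff_fg_span_finset_subset Z).mp (hN.noetherian _)
  have hA : ∀ t : T, (∀ g ∈ s', g t = 0) → t = 0 := by
    intro t ht
    refine hZ t fun z hz => ?_
    have hmem : z ∈ Submodule.span R Z := Submodule.subset_span hz
    rw [hspan] at hmem
    have hker : ∀ g ∈ Submodule.span R (↑s' : Set (Module.End R T)), g t = 0 := by
      intro g hg
      induction hg using Submodule.span_induction with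
      | mem g hg => exact ht g hg
      | zero => simp
      | add x y _ _ hx hy => simp [hx, hy]
      | smul r x _ hx => simp [hx]
    exact hker _ hmem
  let Φ : T →ₗ[R] (s' → T) := LinearMap.pi fun g => (g : Module.End R T)
  have hΦ : Function.Injective Φ := by
    rw [← LinearMap.ker_eq_bot, LinearMap.ker_eq_bot']
    intro t ht
    refine hA t fun g hg => ?_
    exact congrFun ht ⟨g, hg⟩
  have hΦ' : Function.Injective (Φ.baseChange O) := by
    rw [LinearMap.baseChange_eq_ltensor]
    exact Module.Flat.lTensor_preserves_injective_linearMap Φ hΦ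
  have key : ∀ (w : O ⊗[R] T) (g : s'),
      TensorProduct.piRight R O O (fun _ : s' => T) (Φ.baseChange O w) g
        = (g : Module.End R T).baseChange O w := by
    intro w g
    induction w using TensorProduct.induction_on with
    | zero => simp
    | tmul c t => simp [Φ]
    | add x y hx hy => simp only [map_add, Pi.add_apply, hx, hy]
  apply hΦ'
  rw [map_zero]
  apply (TensorProduct.piRight R O O (fun _ : s' => T)).injective
  rw [map_zero]
  funext g
  rw [key v g, hv g (hs's g.2)]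
  rfl

/-- **No fixed vectors, base change.**  A set `F` of endomorphisms of `T` without a common
nonzero fixed vector has no common nonzero fixed vector in `O ⊗ T` after a flat base change. -/
theorem baseChange_fixed_eq_zero (F : Set (Module.End R T))
    (hF : ∀ t : T, (∀ f ∈ F, f t = t) → t = 0)
    (v : O ⊗[R] T) (hv : ∀ f ∈ F, f.baseChange O v = v) : v = 0 := by
  refine baseChange_forall_ker_eq_zero (O := O) ((fun f : Module.End R T => f - 1) '' F) ?_ v ?_
  · intro t ht
    refine hF t fun f hf => ?_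
    have h1 := ht (f - 1) ⟨f, hf, rfl⟩
    rw [LinearMap.sub_apply, Module.End.one_apply] at h1
    exact sub_eq_zero.mp h1
  · rintro _ ⟨f, hf, rfl⟩
    rw [LinearMap.baseChange_sub, LinearMap.baseChange_one, LinearMap.sub_apply, hv f hf,
      Module.End.one_apply, sub_self]

end BaseChangeFixed

/-! ### The eigen-lattice package with the "no fixed vectors" clause -/

section EigenLatticeK

open Fermat.Agent.S30.helper4204

universe u

variable {R : Type*} [CommRing R] [IsNoetherianRing R]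
variable {O : Type u} [CommRing O] [Algebra R O] [Module.Flat R O]
variable {T : Type u} [AddCommGroup T] [Module R T]
variable {ι : Type*}

/-- **Eigen-lattice package with the "no fixed vectors" clause.**  The statement of
`helper4204.exists_eigenLattice_rep` with one more inherited property: a subset `H` of the
monoid without nonzero fixed vectors in `T` has no nonzero fixed vectors in the eigen-lattice
of `O ⊗ T`. -/
theorem exists_eigenLattice_repK [IsDomain O] [IsPrincipalIdealRing O]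
    [Module.Free R T] [Module.Finite R T] {G : Type*} [Monoid G]
    (ρ : G →* Module.End R T) (τ : ι → Module.End R T) (hcomm : ∀ g i, Commute (ρ g) (τ i))
    (a : ι → O) (π : R) (hπ : algebraMap R O π ≠ 0) :
    ∃ (M : Type u) (_ : AddCommGroup M) (_ : Module O M) (_ : Module.Free O M)
      (_ : Module.Finite O M) (ρ' : G →* Module.End O M),
      (Nontrivial M ↔ ∃ x : O ⊗[R] T, x ≠ 0 ∧ ∀ i, (τ i).baseChange O x = a i • x) ∧
      (∀ g, ρ g = 1 → ρ' g = 1) ∧
      (∀ g i (c : R), ρ g * ρ g - τ i * ρ g + c • (1 : Module.End R T) = 0 →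
        ρ' g * ρ' g - a i • ρ' g + algebraMap R O c • (1 : Module.End O M) = 0) ∧
      (∀ g (n : ℕ), (∀ t : T, ∃ y : T, ρ g t - t = π ^ n • y) →
        ∀ I : Ideal O, algebraMap R O π ∈ I → ∀ v : M, ρ' g v - v ∈ (I ^ n) • (⊤ : Submodule O M)) ∧
      (∀ H : Set G, (∀ t : T, (∀ g ∈ H, ρ g t = t) → t = 0) →
        ∀ v : M, (∀ g ∈ H, ρ' g v = v) → v = 0) := by
  set σ : ι → Module.End O (O ⊗[R] T) := fun i => (τ i).baseChange O with hσ
  have hc : ∀ g i, Commute (baseChangeRep O ρ g) (σ i) := fun g i => commute_baseChange (hcomm g i)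
  refine ⟨eigenLattice σ a, inferInstance, inferInstance, inferInstance, inferInstance,
    eigRep σ a (baseChangeRep O ρ) hc, nontrivial_eigenLattice_iff, ?_, ?_, ?_, ?_⟩
  · intro g hg
    exact eigRep_eq_one σ a _ hc (by rw [baseChangeRep_apply, hg, LinearMap.baseChange_one])
  · intro g i c h
    exact eigRep_quadratic σ a _ hc (i := i) (baseChange_quadratic h)
  · intro g n h I hI v
    exact eigRep_sub_mem σ a _ hc hπ (fun x => exists_baseChange_sub_eq_smul h x) I hI v
  · intro H hH v hv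
    apply Subtype.ext
    refine baseChange_fixed_eq_zero (O := O) (ρ '' H) ?_ (v : O ⊗[R] T) ?_
    · intro t ht
      exact hH t fun g hg => ht (ρ g) ⟨g, hg, rfl⟩
    · rintro f ⟨g, hg, rfl⟩
      have h1 := congrArg (fun y : eigenLattice σ a => (y : O ⊗[R] T)) (hv g hg)
      simpa only [coe_eigRep, baseChangeRep_apply] using h1

end EigenLatticeK

/-! ### The interface -/

open Fermat.Agent.S30.helper54 Fermat.Agent.Lib.helper4786 Fermat.Agent.Lib.helper9377
  Fermat.Agent.S30.helper4204 Fermat.Agent.S30.helper1094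

/-- **Eigen-datum without inertia invariants at the primes `q² ∥ N`**: an S30 eigen-datum
(`helper54.EigenDatum`) such that, for every prime `q ≠ p` with `v_q(N) = 2`, the inertia group
of SOME valuation ring over `q` fixes no nonzero vector of the module. -/
def EigenDatumK (p N : ℕ) (S : Finset ℕ) (R : Type) [CommRing R] [IsLocalRing R] (a : ℕ → R) :
    Prop :=
  ∃ (M : Type) (_ : AddCommGroup M) (_ : Module R M) (_ : Module.Free R M) (_ : Module.Finite R M)
    (ρ : Gal →* Module.End R M),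
    Nontrivial M ∧ GaloisActionIsAdicContinuous R ρ ∧
    (∀ q : ℕ, q.Prime → ¬ q ∣ N → q ≠ p →
      ∀ A : ValuationSubring (AlgebraicClosure ℚ), A.LiesOverPrime q →
        ∀ σ ∈ A.inertiaSubgroupIn ℚ, ρ σ = 1) ∧
    (∀ ℓ : ℕ, ℓ.Prime → ¬ ℓ ∣ N → ℓ ∉ S →
      ∀ A : ValuationSubring (AlgebraicClosure ℚ), A.LiesOverPrime ℓ →
        ∀ σ : Gal, A.IsFrobeniusAt σ ℓ → ρ σ * ρ σ - a ℓ • ρ σ + (ℓ : R) • 1 = 0) ∧
    (∀ q : ℕ, q.Prime → q ≠ p → N.factorization q = 2 →
      ∃ A : ValuationSubring (AlgebraicClosure ℚ), A.LiesOverPrime q ∧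
        ∀ m : M, (∀ σ ∈ A.inertiaSubgroupIn ℚ, ρ σ m = m) → m = 0)

/-- An `EigenDatumK` is in particular an S30 `EigenDatum`. -/
theorem EigenDatumK.eigenDatum {p N : ℕ} {S : Finset ℕ} {R : Type} [CommRing R] [IsLocalRing R]
    {a : ℕ → R} (h : EigenDatumK p N S R a) : EigenDatum p N S R a := by
  obtain ⟨M, i1, i2, i3, i4, ρ, hnt, hcont, hunr, hfrob, -⟩ := h
  exact ⟨M, i1, i2, i3, i4, ρ, hnt, hcont, hunr, hfrob⟩

/-- The conclusion of the frozen statement S36 for a family of eigenvalues `a`, over the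
coefficient ring itself. -/
def ConclusionK (p N : ℕ) (S : Finset ℕ) (𝒪' : Type) [CommRing 𝒪'] [IsLocalRing 𝒪']
    (a : ℕ → 𝒪') : Prop :=
  ∃ ρ : GaloisRepAdic 𝒪',
    (∀ ℓ : ℕ, ℓ.Prime → ¬ ℓ ∣ N → ℓ ∉ (↑S : Set ℕ) →
      ∀ A : ValuationSubring (AlgebraicClosure ℚ), A.LiesOverPrime ℓ →
        ∀ σ : AlgebraicClosure ℚ ≃ₐ[ℚ] AlgebraicClosure ℚ, A.IsFrobeniusAt σ ℓ →
          LinearMap.charpoly (ρ.ρ σ) = X ^ 2 - C (a ℓ) * X + C ((ℓ : 𝒪'))) ∧
    (∀ q : ℕ, q.Prime → ¬ q ∣ N → q ≠ p → ρ.IsUnramifiedAt q) ∧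
    (∀ q : ℕ, q.Prime → q ≠ p → N.factorization q = 2 → ¬ ρ.IsUnipotentOnInertiaAt q)

/-! ### The core -/

/-- **The algebraic core of S36**: generator-Chebotarev and an eigen-datum without inertia
invariants at the primes `q² ∥ N` give a two-dimensional representation over the same ring with
the exact characteristic polynomials at the good primes which is NOT unipotent on inertia at any
prime `q ≠ p` with `q² ∥ N`.  (No hypothesis on the residual representation is needed: in the
rank-one case of the S30 extraction the character itself would be trivial on inertia.) -/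
theorem conclusionK_of_eigenDatumK (p : ℕ) [Fact p.Prime] (N : ℕ) [NeZero N] (S : Finset ℕ)
    (hpS : p ∈ S)
    (𝒪' : Type) [CommRing 𝒪'] [IsDomain 𝒪'] [IsDiscreteValuationRing 𝒪']
    [IsAdicComplete (IsLocalRing.maximalIdeal 𝒪') 𝒪'] [Finite (IsLocalRing.ResidueField 𝒪')]
    [CharZero 𝒪'] (hp𝒪' : (p : 𝒪') ∈ IsLocalRing.maximalIdeal 𝒪') (a : ℕ → 𝒪')
    (hG : Stmt_GenCheb) (hE : EigenDatumK p N S 𝒪' a) : ConclusionK p N S 𝒪' a := by
  obtain ⟨M, i1, i2, i3, i4, ρ, hnt, hcont, hunr, hfrob, hK⟩ := hE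
  obtain ⟨ε, hεc, hεu, hεf, hεo⟩ := stmt_Cyclo p 𝒪' hp𝒪'
  -- QUAD: a quadratic relation for every element
  have hquad : ∀ g : Gal, ∃ t : 𝒪', ρ g * ρ g - t • ρ g + ((ε g : 𝒪'ˣ) : 𝒪') • 1 = 0 := by
    intro g
    refine Fermat.Agent.S30.helper3194.exists_quadratic_of_genCheb hG ρ hcont ε hεc
      (S ∪ N.primeFactors) a ?_ g
    intro ℓ hℓ hℓT A hA σ hσ
    have hℓS : ℓ ∉ S := fun h => hℓT (Finset.mem_union_left _ h)
    have hℓN : ¬ ℓ ∣ N := fun h =>
      hℓT (Finset.mem_union_right _ (Nat.mem_primeFactors.mpr ⟨hℓ, h, NeZero.ne N⟩))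
    have hℓp : ℓ ≠ p := fun h => hℓS (h ▸ hpS)
    rw [hεf ℓ hℓ hℓp A hA σ hσ]
    exact hfrob ℓ hℓ hℓN hℓS A hA σ hσ
  choose t ht using hquad
  have hrel : ∀ (g : Gal) (m : M), ρ g (ρ g m) - t g • ρ g m + ((ε g : 𝒪'ˣ) : 𝒪') • m = 0 := by
    intro g m
    have h := congrArg (fun f : Module.End 𝒪' M => f m) (ht g)
    simpa using h
  have h2 : (2 : 𝒪') ≠ 0 := two_ne_zero
  have hεc' : ((ε complexConjugation : 𝒪'ˣ) : 𝒪') = -1 := by
    rw [hεo, Units.val_neg, Units.val_one]
  obtain ⟨V, j1, j2, j3, j4, ρ', hrank, hchar, htriv, hcong⟩ :=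
    Fermat.Agent.S30.helper2646.abstract_core h2 ρ t ε complexConjugation hrel
      complexConjugation_mul_self hεc'
  -- the scalar at a good Frobenius lift is the prescribed one
  have ht_frob : ∀ ℓ : ℕ, ℓ.Prime → ¬ ℓ ∣ N → ℓ ∉ S →
      ∀ A : ValuationSubring (AlgebraicClosure ℚ), A.LiesOverPrime ℓ →
        ∀ σ : Gal, A.IsFrobeniusAt σ ℓ → t σ = a ℓ ∧ ((ε σ : 𝒪'ˣ) : 𝒪') = (ℓ : 𝒪') := by
    intro ℓ hℓ hℓN hℓS A hA σ hσ
    have hℓp : ℓ ≠ p := fun h => hℓS (h ▸ hpS)
    have hεσ : ((ε σ : 𝒪'ˣ) : 𝒪') = (ℓ : 𝒪') := hεf ℓ hℓ hℓp A hA σ hσ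
    refine ⟨?_, hεσ⟩
    obtain ⟨m, hm⟩ := exists_ne (0 : M)
    have e1 := hrel σ (ρ σ⁻¹ m)
    have e2 := congrArg (fun f : Module.End 𝒪' M => f (ρ σ⁻¹ m)) (hfrob ℓ hℓ hℓN hℓS A hA σ hσ)
    have e3 : ρ σ (ρ σ⁻¹ m) = m := by
      rw [← Module.End.mul_apply, ← map_mul, mul_inv_cancel, map_one, Module.End.one_apply]
    rw [hεσ, e3] at e1
    simp only [LinearMap.add_apply, LinearMap.sub_apply, Module.End.mul_apply,
      LinearMap.smul_apply, Module.End.one_apply, LinearMap.zero_apply] at e2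
    rw [e3] at e2
    have e4 : (t σ - a ℓ) • m = 0 := by
      rw [sub_smul]
      have : t σ • m - a ℓ • m = (ρ σ m - a ℓ • m + (ℓ : 𝒪') • ρ σ⁻¹ m)
          - (ρ σ m - t σ • m + (ℓ : 𝒪') • ρ σ⁻¹ m) := by abel
      rw [this, e1, e2, sub_zero]
    rcases smul_eq_zero.mp e4 with h | h
    · exact sub_eq_zero.mp h
    · exact absurd h hm
  -- the representation
  let R : GaloisRepAdic 𝒪' :=
    { V := V
      finrank_eq := hrank
      ρ := ρ'
      isAdicContinuous := by
        intro n
        obtain ⟨L₁, hL₁, h₁⟩ := hcont n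
        obtain ⟨L₂, hL₂, h₂⟩ := hεc n
        have : FiniteDimensional ℚ (L₁ ⊔ L₂ : IntermediateField ℚ (AlgebraicClosure ℚ)) :=
          IntermediateField.finiteDimensional_sup L₁ L₂
        refine ⟨L₁ ⊔ L₂, inferInstance, fun σ hσ v => ?_⟩
        exact hcong (IsLocalRing.maximalIdeal 𝒪' ^ n) σ
          (h₁ σ fun x hx => hσ x ((le_sup_left : L₁ ≤ L₁ ⊔ L₂) hx))
          (h₂ σ fun x hx => hσ x ((le_sup_right : L₂ ≤ L₁ ⊔ L₂) hx)) v }
  refine ⟨R, ?_, ?_, ?_⟩
  · intro ℓ hℓ hℓN hℓS A hA σ hσ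
    obtain ⟨e1, e2⟩ := ht_frob ℓ hℓ hℓN (by simpa using hℓS) A hA σ hσ
    show LinearMap.charpoly (ρ' σ) = _
    rw [hchar σ, e1, e2]
  · intro q hq hqN hqp P hP σ hσ
    show ρ' σ = 1
    refine htriv σ (hunr q hq hqN hqp P hP σ hσ) ?_
    rw [hεu q hq hqp P hP σ hσ, Units.val_one]
  · -- not unipotent on inertia at `q² ∥ N`: a unipotent inertia group would fix a vector
    intro q hq hqp hfact hU
    obtain ⟨A, hA, hfix⟩ := hK q hq hqp hfact
    obtain ⟨m, hm0, hm⟩ := exists_fixed_of_quad h2 ρ t ε complexConjugation hrel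
      complexConjugation_mul_self hεc' (A.inertiaSubgroupIn ℚ) (fun σ hσ => by
        have h3 : LinearMap.charpoly (ρ' σ) = (X - 1) ^ 2 := hU A hA σ hσ
        rw [hchar σ] at h3
        exact quad_eq_unipotent h3)
    exact hm0 (hfix m hm)

/-! ### The abstract Jacobian datum -/

/-- **Abstract Jacobian datum without inertia invariants at `q² ∥ N`**: the S30 interface
`helper1094.JDatum` together with ONE more clause on the `p`-power torsion of `J`: for every
prime `q ≠ p` with `v_q(N) = 2` there are a valuation ring `A` over `q` and a nonzero integer `c`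
such that every `p`-power torsion point fixed by the inertia group of `A` is killed by `c`.

Intended instance (findings #3001, #2979): `J :=` the subgroup of `J₀(M)` killed by the two
degeneracy push-forwards `J₀(M) → J₀(M / q)` for all `q² ∥ M`, `q ≠ p` (it contains the
`g`-part for a newform `g`), with `c = (q + 1)(q - 1)(q² - 1) ·` (degree of an auxiliary
level). -/
def JDatumK (p N : ℕ) (S : Finset ℕ) (𝒪' : Type) [CommRing 𝒪'] (a : ℕ → 𝒪') : Prop :=
  ∃ (J : Type) (_ : AddCommGroup J) (_ : DistribMulAction Gal J) (τ : ℕ → J →+ J),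
    -- (fin) finitely many `p`-torsion points
    Set.Finite {x : J | p • x = 0} ∧
    -- (lev) open stabilisers on `p`-power torsion
    (∀ x : J, (∃ n : ℕ, p ^ n • x = 0) →
      ∃ L : IntermediateField ℚ (AlgebraicClosure ℚ), FiniteDimensional ℚ L ∧
        ∀ σ : Gal, (∀ y ∈ L, σ y = y) → σ • x = x) ∧
    -- (comm) the operators commute with the Galois action
    (∀ ℓ : ℕ, ℓ.Prime → ¬ ℓ ∣ N → ℓ ∉ S → ∀ (σ : Gal) (x : J), σ • τ ℓ x = τ ℓ (σ • x)) ∧
    -- (unr) inertia at `q ∤ N p` acts trivially on `p`-power torsion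
    (∀ q : ℕ, q.Prime → ¬ q ∣ N → q ≠ p →
      ∀ A : ValuationSubring (AlgebraicClosure ℚ), A.LiesOverPrime q →
        ∀ σ ∈ A.inertiaSubgroupIn ℚ, ∀ x : J, (∃ n : ℕ, p ^ n • x = 0) → σ • x = x) ∧
    -- (frob) Eichler–Shimura relation on `p`-power torsion
    (∀ ℓ : ℕ, ℓ.Prime → ¬ ℓ ∣ N → ℓ ∉ S →
      ∀ A : ValuationSubring (AlgebraicClosure ℚ), A.LiesOverPrime ℓ →
        ∀ σ : Gal, A.IsFrobeniusAt σ ℓ → ∀ x : J, (∃ n : ℕ, p ^ n • x = 0) →
          σ • σ • x - τ ℓ (σ • x) + ℓ • x = 0) ∧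
    -- (kill) inertia-fixed `p`-power torsion is killed by a fixed integer, at the primes `q² ∥ N`
    (∀ q : ℕ, q.Prime → q ≠ p → N.factorization q = 2 →
      ∃ A : ValuationSubring (AlgebraicClosure ℚ), A.LiesOverPrime q ∧ ∃ c : ℕ, c ≠ 0 ∧
        ∀ x : J, (∃ n : ℕ, p ^ n • x = 0) →
          (∀ σ ∈ A.inertiaSubgroupIn ℚ, σ • x = x) → c • x = 0) ∧
    -- (occ) a lattice with a faithful ring action and level-wise equivariant injections
    ∃ (Λ : Type) (_ : AddCommGroup Λ) (_ : Module.Free ℤ Λ) (_ : Module.Finite ℤ Λ)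
      (R : Type) (_ : CommRing R) (_ : Module R Λ) (t : ℕ → R) (χ : R →+* 𝒪')
      (ι : ℕ → Λ →+ J),
      (∀ r : R, (∀ x : Λ, r • x = 0) → r = 0) ∧
      (∀ ℓ : ℕ, ℓ.Prime → ¬ ℓ ∣ N → ℓ ∉ S → χ (t ℓ) = a ℓ) ∧
      (∀ (n : ℕ) (x : Λ), p ^ n • ι n x = 0) ∧
      (∀ (n : ℕ) (x : Λ), ι n x = 0 → ∃ y : Λ, x = p ^ n • y) ∧
      (∀ (n : ℕ) (x : Λ), p • ι (n + 1) x = ι n x) ∧
      (∀ ℓ : ℕ, ℓ.Prime → ¬ ℓ ∣ N → ℓ ∉ S → ∀ (n : ℕ) (x : Λ), ι n (t ℓ • x) = τ ℓ (ι n x))

/-- A `JDatumK` is in particular an S30 `JDatum`. -/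
theorem JDatumK.jDatum {p N : ℕ} {S : Finset ℕ} {𝒪' : Type} [CommRing 𝒪'] {a : ℕ → 𝒪'}
    (h : JDatumK p N S 𝒪' a) : JDatum p N S 𝒪' a := by
  obtain ⟨J, i1, i2, τ, hfin, hlev, hcomm, hunr, hfrob, -, hocc⟩ := h
  exact ⟨J, i1, i2, τ, hfin, hlev, hcomm, hunr, hfrob, hocc⟩

/-! ### The glue -/

/-- **E1-K**: an abstract Jacobian datum without inertia invariants at `q² ∥ N` gives an
eigen-datum without inertia invariants at `q² ∥ N`. -/
theorem eigenDatumK_of_jDatumK
    (p : ℕ) [Fact p.Prime] (N : ℕ) (S : Finset ℕ)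
    (𝒪' : Type) [CommRing 𝒪'] [IsDomain 𝒪'] [IsDiscreteValuationRing 𝒪']
    [IsAdicComplete (IsLocalRing.maximalIdeal 𝒪') 𝒪'] [Finite (IsLocalRing.ResidueField 𝒪')]
    [CharZero 𝒪'] (hp𝒪' : (p : 𝒪') ∈ IsLocalRing.maximalIdeal 𝒪') (a : ℕ → 𝒪')
    (hJ : JDatumK p N S 𝒪' a) : EigenDatumK p N S 𝒪' a := by
  obtain ⟨J, iJ1, iJ2, τ, hfin, hlev, hcomm, hunr, hfrob, hkillJ, Λ, iΛ1, iΛ2, iΛ3, R, iR1, iR2, t,
    χ, ι, hfaith, hχ, hι1, hι2, hι3, hι4⟩ := hJ
  have hp : p.Prime := Fact.out
  -- the `ℤ_p`-algebra structures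
  let alg𝒪 : Algebra ℤ_[p] 𝒪' := padicIntAlgebra p 𝒪' hp𝒪'
  have hinj : Function.Injective (algebraMap ℤ_[p] 𝒪') :=
    algebraMap_padicIntAlgebra_injective p 𝒪' hp𝒪'
  have htf𝒪 : Module.IsTorsionFree ℤ_[p] 𝒪' := by
    rw [Module.isTorsionFree_iff_smul_eq_zero]
    intro r x hrx
    rw [Algebra.smul_def, mul_eq_zero] at hrx
    rcases hrx with h | h
    · left
      exact hinj (by rw [h, map_zero])
    · exact Or.inr h
  have hflat : Module.Flat ℤ_[p] 𝒪' := inferInstance
  -- the Tate module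
  have hTfin : Module.Finite ℤ_[p] (tateModule J p) :=
    Fermat.Agent.S30.helper767.tateModule_finite_of_finite J p hfin
  have hTtf : Module.IsTorsionFree ℤ_[p] (tateModule J p) :=
    Fermat.Agent.S30.helper1094.tateModule_isTorsionFree J p
  have hTfree : Module.Free ℤ_[p] (tateModule J p) := Module.free_of_finite_type_torsion_free'
  -- the actions
  let ρ : Gal →* Module.End ℤ_[p] (tateModule J p) := tateRep J p Gal
  let ι' : Type := {ℓ : ℕ // ℓ.Prime ∧ ¬ ℓ ∣ N ∧ ℓ ∉ S}
  let τ' : ι' → Module.End ℤ_[p] (tateModule J p) := fun i => tateEnd J p (τ i.1)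
  have hc : ∀ g i, Commute (ρ g) (τ' i) := by
    intro g i
    show ρ g * τ' i = τ' i * ρ g
    ext x n
    exact hcomm i.1 i.2.1 i.2.2.1 i.2.2.2 g (x.1 n)
  have hp0 : algebraMap ℤ_[p] 𝒪' (p : ℤ_[p]) ≠ 0 := by
    rw [map_natCast]
    exact Nat.cast_ne_zero.2 hp.ne_zero
  obtain ⟨M, iM1, iM2, iM3, iM4, ρ', hnt, h1, hq, hcg, hfixK⟩ :=
    exists_eigenLattice_repK (O := 𝒪') ρ τ' hc (fun i => a i.1) (p : ℤ_[p]) hp0
  refine ⟨M, iM1, iM2, iM3, iM4, ρ', ?_, ?_, ?_, ?_, ?_⟩
  · -- nontriviality: occurrence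
    rw [hnt]
    exact Fermat.Agent.S30.helper501.exists_eigenvector_tateModule_of_pred p hfaith
      (algebraMap_padicIntAlgebra_injective p 𝒪' hp𝒪') χ
      (fun ℓ : ℕ => ℓ.Prime ∧ ¬ ℓ ∣ N ∧ ℓ ∉ S) a t τ ι
      (fun ℓ h => hχ ℓ h.1 h.2.1 h.2.2) hι1 hι2 hι3 (fun ℓ h n x => hι4 ℓ h.1 h.2.1 h.2.2 n x)
  · -- continuity
    intro n
    obtain ⟨L, hL, hLσ⟩ := exists_common_level {x : J | p ^ n • x = 0}
      (finite_pow_torsion p hfin n) (fun x hx => hlev x ⟨n, hx⟩)
    refine ⟨L, hL, fun σ hσ v => ?_⟩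
    refine hcg σ n (fun x => ?_) (IsLocalRing.maximalIdeal 𝒪') (by rw [map_natCast]; exact hp𝒪') v
    refine (tateModule.apply_eq_zero_iff (ρ σ x - x) n).mp ?_
    show σ • x.1 n - x.1 n = 0
    rw [hLσ σ hσ (x.1 n) (tateModule.pow_smul_apply x n), sub_self]
  · -- unramified
    intro q hq' hqN hqp A hA σ hσ
    exact h1 σ (tateRep_eq_one_of_forall σ fun x hx => hunr q hq' hqN hqp A hA σ hσ x hx)
  · -- Frobenius
    intro ℓ hℓ hℓN hℓS A hA σ hσ
    have hrel : ρ σ * ρ σ - τ' ⟨ℓ, hℓ, hℓN, hℓS⟩ * ρ σ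
        + (ℓ : ℤ_[p]) • (1 : Module.End ℤ_[p] (tateModule J p)) = 0 := by
      ext x n
      have h2 := hfrob ℓ hℓ hℓN hℓS A hA σ hσ (x.1 n) ⟨n, tateModule.pow_smul_apply x n⟩
      rw [LinearMap.add_apply, LinearMap.sub_apply, LinearMap.smul_apply, Module.End.one_apply]
      show (σ • σ • x.1 n - τ ℓ (σ • x.1 n)) + ((ℓ : ℤ_[p]) • x).1 n = 0
      rw [tateModule.natCast_smul_apply]
      exact h2
    have := hq σ ⟨ℓ, hℓ, hℓN, hℓS⟩ (ℓ : ℤ_[p]) hrel
    rw [map_natCast] at this
    exact this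
  · -- no inertia invariants at the primes `q² ∥ N`
    intro q hq' hqp hfact
    obtain ⟨A, hA, c, hc0, hkill⟩ := hkillJ q hq' hqp hfact
    refine ⟨A, hA, fun m hm => ?_⟩
    refine hfixK (↑(A.inertiaSubgroupIn ℚ) : Set Gal) ?_ m hm
    intro x hx
    have h3 : ∀ n : ℕ, c • x.1 n = 0 := by
      intro n
      refine hkill (x.1 n) ⟨n, tateModule.pow_smul_apply x n⟩ fun σ hσ => ?_
      have h4 := congrArg (fun y : tateModule J p => y.1 n) (hx σ hσ)
      exact h4
    have h5 : (c : ℤ_[p]) • x = 0 := by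
      apply tateModule.ext
      intro n
      rw [tateModule.natCast_smul_apply]
      exact h3 n
    exact (smul_eq_zero.mp h5).resolve_left (Nat.cast_ne_zero.mpr hc0)

/-! ### The frozen statement -/

/-- **Geometric side of S36, abstract form**: the eigensystem of a newform has an abstract
Jacobian datum without inertia invariants at the primes `q² ∥ M`, `q ≠ lam`. -/
def Stmt_JK : Prop :=
  ∀ {M : ℕ} [NeZero M] {g : CuspForm (CongruenceSubgroup.Gamma0 M) 2} (_hg : g.IsNewform)
    (lam : ℕ) [Fact lam.Prime] (S : Finset ℕ)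
    (O' : Type) [CommRing O'] [IsDomain O'] [IsDiscreteValuationRing O']
    [IsAdicComplete (IsLocalRing.maximalIdeal O') O'] [Finite (IsLocalRing.ResidueField O')]
    [CharZero O'] (_hlamO' : (lam : O') ∈ IsLocalRing.maximalIdeal O')
    (chig : CuspForm.heckeAlgebra M 2 (↑S : Set ℕ) →+* ℂ)
    (_hchig : ∀ (ℓ : ℕ) (hℓ : ℓ.Prime) (hℓM : ¬ ℓ ∣ M) (hℓS : ℓ ∉ (↑S : Set ℕ)),
      chig (CuspForm.heckeAlgebra.T hℓ hℓM hℓS) = ModularFormClass.qCoeff g ℓ)
    (iota : chig.range →+* O')
    (_hlamS : lam ∈ S) (_hMS : ∀ q : ℕ, q.Prime → q ∣ M → q ∈ S),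
    JDatumK lam M S O' (eigenvalue (iota.comp chig.rangeRestrict))

/-- **The frozen statement S36 from `Stmt_JK` alone** (generator-Chebotarev is the landed
`helper54.stmt_GenCheb`; the coefficient ring is not extended; the hypotheses `lam ≠ 2` and
"every attached representation is residually absolutely irreducible and odd" of the frozen
statement are not used). -/
theorem result_of_jk (hJ : Stmt_JK)
    {M : ℕ} [NeZero M] {g : CuspForm (CongruenceSubgroup.Gamma0 M) 2} (hg : g.IsNewform)
    (lam : ℕ) [Fact lam.Prime]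
    (S : Finset ℕ)
    (O' : Type) [CommRing O'] [IsDomain O'] [IsDiscreteValuationRing O']
    [IsAdicComplete (IsLocalRing.maximalIdeal O') O'] [Finite (IsLocalRing.ResidueField O')]
    [CharZero O'] (hlamO' : (lam : O') ∈ IsLocalRing.maximalIdeal O')
    (chig : CuspForm.heckeAlgebra M 2 (↑S : Set ℕ) →+* ℂ)
    (hchig : ∀ (ℓ : ℕ) (hℓ : ℓ.Prime) (hℓM : ¬ ℓ ∣ M) (hℓS : ℓ ∉ (↑S : Set ℕ)),
      chig (CuspForm.heckeAlgebra.T hℓ hℓM hℓS) = ModularFormClass.qCoeff g ℓ)
    (iota : chig.range →+* O')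
    (hlamS : lam ∈ S) (hMS : ∀ q : ℕ, q.Prime → q ∣ M → q ∈ S)
    :
    ∃ (O'' : Type) (_ : CommRing O'') (_ : IsDomain O'') (_ : IsDiscreteValuationRing O'')
      (_ : IsAdicComplete (IsLocalRing.maximalIdeal O'') O'') (_ : Finite (IsLocalRing.ResidueField O''))
      (_ : CharZero O'') (_ : Algebra O' O'') (_ : Module.Finite O' O'') (_ : IsLocalHom (algebraMap O' O'')),
      Function.Injective (algebraMap O' O'') ∧
      ∃ ρ : GaloisRepAdic O'',
        (∀ (ℓ : ℕ) (hℓ : ℓ.Prime) (hℓM : ¬ ℓ ∣ M) (hℓS : ℓ ∉ (↑S : Set ℕ)),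
          ∀ A : ValuationSubring (AlgebraicClosure ℚ), A.LiesOverPrime ℓ →
            ∀ σ : AlgebraicClosure ℚ ≃ₐ[ℚ] AlgebraicClosure ℚ, A.IsFrobeniusAt σ ℓ →
              LinearMap.charpoly (ρ.ρ σ) =
                X ^ 2 - C (algebraMap O' O'' ((iota.comp chig.rangeRestrict) (CuspForm.heckeAlgebra.T hℓ hℓM hℓS))) * X
                  + C ((ℓ : O''))) ∧
        (∀ q : ℕ, q.Prime → q ≠ lam → M.factorization q = 2 → ¬ ρ.IsUnipotentOnInertiaAt q) := by
  obtain ⟨ρ, h1, -, h3⟩ :=
    conclusionK_of_eigenDatumK lam M S hlamS O' hlamO' (eigenvalue (iota.comp chig.rangeRestrict))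
      stmt_GenCheb
      (eigenDatumK_of_jDatumK lam M S O' hlamO' _
        (hJ hg lam S O' hlamO' chig hchig iota hlamS hMS))
  refine ⟨O', inferInstance, inferInstance, inferInstance, inferInstance, inferInstance,
    inferInstance, Algebra.id O', inferInstance, ?_, Function.injective_id, ρ, ?_, h3⟩
  · show IsLocalHom (RingHom.id O')
    infer_instance
  · intro ℓ hℓ hℓM hℓS A hA σ hσ
    rw [h1 ℓ hℓ hℓM hℓS A hA σ hσ, eigenvalue_eq (iota.comp chig.rangeRestrict) hℓ hℓM hℓS]
    rfl

end Fermat.Agent.S36.helper1335
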