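/-
S36-KILL-WRAP, the `K`-level norm maps (helper6961).

For a subgroup `I` of `Gal(ℚ̄/ℚ)`, `K = ℚ̄^I`, and a `ℚ̄`-algebra map `ψ` between two function fields
`laurentBaseChange ℚ̄ F₀ → laurentBaseChange ℚ̄ F₀'` commuting with the coefficientwise Galois
action, the norm along `ψ` of (the image over `ℚ̄` of) a function over `K` is `I`-fixed, hence
comes from a unique function over `K`:

* `normK I F₀ F₀' ψ hψ : laurentBaseChange K F₀' →* laurentBaseChange K F₀` with
  `layerHom_normK : lh (normK y) = normAlong ψ (lh y)`;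
* `normK_map` : `normK (ψK a) = a ^ finrankAlong ℚ̄ ψ` for every map `ψK` over `K` compatible with
  `ψ`;
* the modular instances `normKα I N ℓ`, `normKβ I N ℓ : FKI I (N * ℓ) →* FKI I N` (norms along the
  two degeneracy maps), `layerHom_normKα/β`, `normKα_heckeAlphaBar`, `normKβ_heckeBetaBar`;
* `killFFAt_of_killK'` : the wrapper `helper6961.killFFAt_of_killK` with these norm maps: the
  `K`-level (KILL) statement for `normKα`, `normKβ` gives `helper1335.KillFFAt`.
-/
import Fermat.Agent.S36.helper6961_KillWrap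

set_option autoImplicit false
set_option linter.style.haveILetI false
set_option linter.unusedSectionVars false

noncomputable section

namespace Fermat.Agent.S36.helper6961

open ModularCurve AlgebraicCurve HahnSeries
open Fermat.Agent.S29.helper8217
open Fermat.Agent.S37.helper5651

section NormK

variable (I : Subgroup GQ) (F₀ F₀' : IntermediateField ℚ (LaurentSeries ℚ))
variable (ψ : laurentBaseChange Qb F₀ →ₐ[Qb] laurentBaseChange Qb F₀')
  (hψ : ∀ (σ : GQ) (x : laurentBaseChange Qb F₀),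
    arithmeticRingAut F₀' σ (ψ x) = ψ (arithmeticRingAut F₀ σ x))

include hψ in
/-- The norm of a function over `K = ℚ̄^I` comes from a function over `K`. -/
theorem exists_layerHom_eq_normAlong (y : laurentBaseChange (KI I) F₀') :
    ∃ v : laurentBaseChange (KI I) F₀, layerHom F₀ (algebraMap (KI I) Qb) v
      = normAlong ψ (layerHom F₀' (algebraMap (KI I) Qb) y) := by
  refine exists_layerHom_eq_of_fixed I F₀ _ fun σ hσ => ?_
  rw [arithmeticRingAut_normAlong F₀ F₀' ψ hψ σ,
    arithmeticRingAut_layerHom_of_fix F₀' (algebraMap (KI I) Qb) σ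
      (fun c => apply_algebraMap_KI I hσ c)]

/-- **The norm along `ψ` on the function fields over `K = ℚ̄^I`** (by descent from `ℚ̄`). -/
def normK : laurentBaseChange (KI I) F₀' →* laurentBaseChange (KI I) F₀ where
  toFun y := Classical.choose (exists_layerHom_eq_normAlong I F₀ F₀' ψ hψ y)
  map_one' := by
    apply layerHom_injective F₀ (algebraMap (KI I) Qb)
    rw [Classical.choose_spec (exists_layerHom_eq_normAlong I F₀ F₀' ψ hψ 1), map_one, map_one]
    letI := algebraAlong ψ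
    exact map_one (Algebra.norm (laurentBaseChange Qb F₀))
  map_mul' x y := by
    apply layerHom_injective F₀ (algebraMap (KI I) Qb)
    rw [Classical.choose_spec (exists_layerHom_eq_normAlong I F₀ F₀' ψ hψ (x * y)), map_mul,
      map_mul, Classical.choose_spec (exists_layerHom_eq_normAlong I F₀ F₀' ψ hψ x),
      Classical.choose_spec (exists_layerHom_eq_normAlong I F₀ F₀' ψ hψ y), normAlong_mul]

theorem layerHom_normK (y : laurentBaseChange (KI I) F₀') :
    layerHom F₀ (algebraMap (KI I) Qb) (normK I F₀ F₀' ψ hψ y)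
      = normAlong ψ (layerHom F₀' (algebraMap (KI I) Qb) y) :=
  Classical.choose_spec (exists_layerHom_eq_normAlong I F₀ F₀' ψ hψ y)

/-- The norm of an element coming from below is its power by the degree (over `ℚ̄`). -/
theorem normK_map (ψK : laurentBaseChange (KI I) F₀ →+* laurentBaseChange (KI I) F₀')
    (hψK : ∀ a, layerHom F₀' (algebraMap (KI I) Qb) (ψK a)
      = ψ (layerHom F₀ (algebraMap (KI I) Qb) a))
    (a : laurentBaseChange (KI I) F₀) :
    normK I F₀ F₀' ψ hψ (ψK a) = a ^ finrankAlong Qb ψ := by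
  apply layerHom_injective F₀ (algebraMap (KI I) Qb)
  rw [layerHom_normK, hψK, map_pow]
  letI := algebraAlong ψ
  exact Algebra.norm_algebraMap (S := laurentBaseChange Qb F₀')
    (layerHom F₀ (algebraMap (KI I) Qb) a)

theorem normK_ne_zero {y : laurentBaseChange (KI I) F₀'} (hy : y ≠ 0) :
    normK I F₀ F₀' ψ hψ y ≠ 0 := by
  intro h0
  have h1 := layerHom_normK I F₀ F₀' ψ hψ y
  rw [h0, map_zero] at h1
  refine normAlong_ne_zero F₀ F₀' ψ (x := layerHom F₀' (algebraMap (KI I) Qb) y) ?_ h1.symm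
  exact fun h2 => hy (layerHom_injective F₀' (algebraMap (KI I) Qb) (by rw [h2, map_zero]))

end NormK

section Modular

variable (I : Subgroup GQ) (N ℓ : ℕ) [NeZero N] [NeZero ℓ]

/-- The norm along the degeneracy map `α` on the function fields over `K = ℚ̄^I`. -/
def normKα : FKI I (N * ℓ) →* FKI I N :=
  normK I (modularFunctionFieldFull N) (modularFunctionFieldFull (N * ℓ)) (heckeAlphaBar Qb N ℓ)
    (fun σ x => arithmeticRingAut_heckeAlphaBar N ℓ σ x)

/-- The norm along the degeneracy map `β` on the function fields over `K = ℚ̄^I`. -/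
def normKβ : FKI I (N * ℓ) →* FKI I N :=
  normK I (modularFunctionFieldFull N) (modularFunctionFieldFull (N * ℓ)) (heckeBetaBar Qb N ℓ)
    (fun σ x => arithmeticRingAut_heckeBetaBar N ℓ σ x)

theorem layerHom_normKα (y : FKI I (N * ℓ)) :
    layerHom (modularFunctionFieldFull N) (algebraMap (KI I) Qb) (normKα I N ℓ y)
      = normAlong (heckeAlphaBar Qb N ℓ)
        (layerHom (modularFunctionFieldFull (N * ℓ)) (algebraMap (KI I) Qb) y) :=
  layerHom_normK I _ _ _ _ y

theorem layerHom_normKβ (y : FKI I (N * ℓ)) :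
    layerHom (modularFunctionFieldFull N) (algebraMap (KI I) Qb) (normKβ I N ℓ y)
      = normAlong (heckeBetaBar Qb N ℓ)
        (layerHom (modularFunctionFieldFull (N * ℓ)) (algebraMap (KI I) Qb) y) :=
  layerHom_normK I _ _ _ _ y

/-- `N_α (α a) = a ^ [F_{Nℓ} : α F_N]` over `K`. -/
theorem normKα_heckeAlphaBar (a : FKI I N) :
    normKα I N ℓ (heckeAlphaBar (KI I) N ℓ a) = a ^ finrankAlong Qb (heckeAlphaBar Qb N ℓ) :=
  normK_map I _ _ _ _ (heckeAlphaBar (KI I) N ℓ : FKI I N →+* FKI I (N * ℓ))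
    (fun x => layerHom_heckeAlphaBar N ℓ (algebraMap (KI I) Qb) x) a

/-- `N_β (β a) = a ^ [F_{Nℓ} : β F_N]` over `K`. -/
theorem normKβ_heckeBetaBar (a : FKI I N) :
    normKβ I N ℓ (heckeBetaBar (KI I) N ℓ a) = a ^ finrankAlong Qb (heckeBetaBar Qb N ℓ) :=
  normK_map I _ _ _ _ (heckeBetaBar (KI I) N ℓ : FKI I N →+* FKI I (N * ℓ))
    (fun x => layerHom_heckeBetaBar N ℓ (algebraMap (KI I) Qb) x) a

end Modular

section Wrap

variable (M₁ q : ℕ) [NeZero M₁] [NeZero q]

/-- **S36-KILL-WRAP with the `K`-level norm maps `normKα`, `normKβ`**: the (KILL) statement for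
the function fields over `K = ℚ̄^I` (`I` the inertia group of `A`) gives the captain's
`helper1335.KillFFAt M₁ q lam A c`. -/
theorem killFFAt_of_killK' (lam : ℕ) (hlam : lam ≠ 0) (A : ValuationSubring Qb) (c : ℕ)
    (hkill : ∀ (n : ℕ) (y : FKI (A.inertiaSubgroupIn ℚ) (M₁ * q)), y ≠ 0 →
      (y : LaurentSeries (KI (A.inertiaSubgroupIn ℚ))).leadingCoeff = 1 →
      (∀ P₀ : Place (KI (A.inertiaSubgroupIn ℚ)) (FKI (A.inertiaSubgroupIn ℚ) (M₁ * q)),
        ((lam ^ n : ℕ) : ℤ) ∣ P₀.ord y) →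
      (∃ (κ : KI (A.inertiaSubgroupIn ℚ)) (w : FKI (A.inertiaSubgroupIn ℚ) M₁), κ ≠ 0 ∧ w ≠ 0 ∧
        normKα (A.inertiaSubgroupIn ℚ) M₁ q y
          = algebraMap (KI (A.inertiaSubgroupIn ℚ)) (FKI (A.inertiaSubgroupIn ℚ) M₁) κ
            * w ^ (lam ^ n)) →
      (∃ (κ : KI (A.inertiaSubgroupIn ℚ)) (w : FKI (A.inertiaSubgroupIn ℚ) M₁), κ ≠ 0 ∧ w ≠ 0 ∧
        normKβ (A.inertiaSubgroupIn ℚ) M₁ q y
          = algebraMap (KI (A.inertiaSubgroupIn ℚ)) (FKI (A.inertiaSubgroupIn ℚ) M₁) κ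
            * w ^ (lam ^ n)) →
      ∃ (κ : KI (A.inertiaSubgroupIn ℚ)) (h : FKI (A.inertiaSubgroupIn ℚ) (M₁ * q)),
        y ^ c = algebraMap (KI (A.inertiaSubgroupIn ℚ))
          (FKI (A.inertiaSubgroupIn ℚ) (M₁ * q)) κ * h ^ (lam ^ n)) :
    Fermat.Agent.S36.helper1335.KillFFAt M₁ q lam A c :=
  killFFAt_of_killK M₁ q lam hlam A c
    (normKα (A.inertiaSubgroupIn ℚ) M₁ q) (normKβ (A.inertiaSubgroupIn ℚ) M₁ q)
    (fun y => layerHom_normKα (A.inertiaSubgroupIn ℚ) M₁ q y)
    (fun y => layerHom_normKβ (A.inertiaSubgroupIn ℚ) M₁ q y) hkill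

end Wrap

end Fermat.Agent.S36.helper6961
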