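import Fermat.Agent.S36.helper1359_NormLayer
import Fermat.Agent.S36.helper6961_NormK

/-!
# S36-KILL-WRAP (N2), wiring (helper1359)

On the function fields over `K = ℚ̄^I` the norm maps `helper6961.normKα`, `helper6961.normKβ`
(defined by descent from `ℚ̄`) ARE the genuine norms along `heckeAlphaBar K N ℓ`,
`heckeBetaBar K N ℓ`; and the wrapper `helper6961.killFFAt_of_killK` with the genuine `K`-level
norms is one call.

* `normKα_eq_normAlong`, `normKβ_eq_normAlong`;
* `finrankAlong_heckeAlphaBar_KI`, `finrankAlong_heckeBetaBar_KI` : the degrees over `K`;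
* `killFFAt_of_killK_normAlong` : the `K`-level (KILL) statement for the genuine norms gives
  `helper1335.KillFFAt`.
-/

set_option autoImplicit false
set_option synthInstance.maxHeartbeats 400000

open ModularCurve AlgebraicCurve

namespace Fermat.Agent.S36.helper1359

open Fermat.Agent.S36.helper6961 (Qb GQ KI FKI normKα normKβ)
open Fermat.Agent.S37.helper5651 (layerHom)

section Identify

variable (I : Subgroup GQ) (N ℓ : ℕ) [NeZero N] [NeZero ℓ]

/-- The descended norm along `α` is the genuine norm of the extension over `K = ℚ̄^I`. -/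
theorem normKα_eq_normAlong :
    normKα I N ℓ = Fermat.Agent.S29.helper36.normAlong (heckeAlphaBar (KI I) N ℓ) := by
  refine MonoidHom.ext fun y => ?_
  apply Fermat.Agent.S37.helper5651.layerHom_injective (modularFunctionFieldFull N)
    (algebraMap (KI I) Qb)
  rw [Fermat.Agent.S36.helper6961.layerHom_normKα, layerHom_normAlong_heckeAlphaBar]
  rfl

/-- The descended norm along `β` is the genuine norm of the extension over `K = ℚ̄^I`. -/
theorem normKβ_eq_normAlong :
    normKβ I N ℓ = Fermat.Agent.S29.helper36.normAlong (heckeBetaBar (KI I) N ℓ) := by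
  refine MonoidHom.ext fun y => ?_
  apply Fermat.Agent.S37.helper5651.layerHom_injective (modularFunctionFieldFull N)
    (algebraMap (KI I) Qb)
  rw [Fermat.Agent.S36.helper6961.layerHom_normKβ, layerHom_normAlong_heckeBetaBar]
  rfl

/-- The degree of `α` over `K = ℚ̄^I` is the degree over `ℚ̄`. -/
theorem finrankAlong_heckeAlphaBar_KI (I : Subgroup GQ) (N ℓ : ℕ) [NeZero N] [NeZero ℓ] :
    finrankAlong (KI I) (heckeAlphaBar (KI I) N ℓ) = finrankAlong Qb (heckeAlphaBar Qb N ℓ) :=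
  finrankAlong_heckeAlphaBar_layer (algebraMap (KI I) Qb) N ℓ

/-- The degree of `β` over `K = ℚ̄^I` is the degree over `ℚ̄`. -/
theorem finrankAlong_heckeBetaBar_KI (I : Subgroup GQ) (N ℓ : ℕ) [NeZero N] [NeZero ℓ] :
    finrankAlong (KI I) (heckeBetaBar (KI I) N ℓ) = finrankAlong Qb (heckeBetaBar Qb N ℓ) :=
  finrankAlong_heckeBetaBar_layer (algebraMap (KI I) Qb) N ℓ

end Identify

section Wrap

variable (M₁ q : ℕ) [NeZero M₁] [NeZero q]

set_option maxHeartbeats 1600000 in
/-- **S36-KILL-WRAP with the genuine `K`-level norms**: the (KILL) statement for the function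
fields over `K = ℚ̄^I` (`I` the inertia group of `A`), with the norms
`normAlong (heckeAlphaBar K M₁ q)`, `normAlong (heckeBetaBar K M₁ q)` of the two degeneracy maps
over `K`, gives the captain's `helper1335.KillFFAt M₁ q lam A c`. -/
theorem killFFAt_of_killK_normAlong (lam : ℕ) (hlam : lam ≠ 0) (A : ValuationSubring Qb) (c : ℕ)
    (hkill : ∀ (n : ℕ) (y : FKI (A.inertiaSubgroupIn ℚ) (M₁ * q)), y ≠ 0 →
      (y : LaurentSeries (KI (A.inertiaSubgroupIn ℚ))).leadingCoeff = 1 →
      (∀ P₀ : Place (KI (A.inertiaSubgroupIn ℚ)) (FKI (A.inertiaSubgroupIn ℚ) (M₁ * q)),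
        ((lam ^ n : ℕ) : ℤ) ∣ P₀.ord y) →
      (∃ (κ : KI (A.inertiaSubgroupIn ℚ)) (w : FKI (A.inertiaSubgroupIn ℚ) M₁), κ ≠ 0 ∧ w ≠ 0 ∧
        Fermat.Agent.S29.helper36.normAlong (heckeAlphaBar (KI (A.inertiaSubgroupIn ℚ)) M₁ q) y
          = algebraMap (KI (A.inertiaSubgroupIn ℚ)) (FKI (A.inertiaSubgroupIn ℚ) M₁) κ
            * w ^ (lam ^ n)) →
      (∃ (κ : KI (A.inertiaSubgroupIn ℚ)) (w : FKI (A.inertiaSubgroupIn ℚ) M₁), κ ≠ 0 ∧ w ≠ 0 ∧
        Fermat.Agent.S29.helper36.normAlong (heckeBetaBar (KI (A.inertiaSubgroupIn ℚ)) M₁ q) y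
          = algebraMap (KI (A.inertiaSubgroupIn ℚ)) (FKI (A.inertiaSubgroupIn ℚ) M₁) κ
            * w ^ (lam ^ n)) →
      ∃ (κ : KI (A.inertiaSubgroupIn ℚ)) (h : FKI (A.inertiaSubgroupIn ℚ) (M₁ * q)),
        y ^ c = algebraMap (KI (A.inertiaSubgroupIn ℚ))
          (FKI (A.inertiaSubgroupIn ℚ) (M₁ * q)) κ * h ^ (lam ^ n)) :
    Fermat.Agent.S36.helper1335.KillFFAt M₁ q lam A c :=
  Fermat.Agent.S36.helper6961.killFFAt_of_killK M₁ q lam hlam A c
    (fun y => Fermat.Agent.S29.helper36.normAlong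
      (heckeAlphaBar (KI (A.inertiaSubgroupIn ℚ)) M₁ q) y)
    (fun y => Fermat.Agent.S29.helper36.normAlong
      (heckeBetaBar (KI (A.inertiaSubgroupIn ℚ)) M₁ q) y)
    (fun y => layerHom_normAlong8217_heckeAlphaBar _ M₁ q y)
    (fun y => layerHom_normAlong8217_heckeBetaBar _ M₁ q y) hkill

end Wrap

end Fermat.Agent.S36.helper1359
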