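import Mathlib
import Fermat.Agent.S19.helper1821_BaseRing
import Fermat.Agent.S58.helper6024_Unram
import Fermat.Agent.Lib.helper6879_ResidueQbar

/-!
# S36: the base ring `O = A ∩ K`, `K = ℚ̄^I`, as a `BaseDVR`  (helper225)

For a valuation subring `A` of `ℚ̄` over a prime `q`, let `K` be the inertia field of `A`
(`S58.helper6024.inertiaFixedField A`) and `O = A ∩ K` (`inertiaValuationSubring A`).  This file
supplies the facts that the structure `helper36.BaseDVR O q` of the (KILL) assembly asks
for, on landed names only, WITHOUT importing the assembly: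

* `natCast_ne_zero`        : `(q : K) ≠ 0`;
* `natCast_mem_nonunits`   : `(q : K) ∈ O.nonunits`;
* `div_natCast_mem`        : `c ∈ O.nonunits → c / q ∈ O`  (`q` is a uniformiser);
* `isAlgClosed_residueField` : the residue field of `O` is algebraically closed;
* `isDiscreteValuationRing`, `isNoetherianRing` : `O` is a discrete valuation ring (transported
  from `S19.helper1821.R0 A` along `ringEquivR0`);
* `baseDVR_facts`          : the conjunction, in the order of the fields of `BaseDVR` (v2).

The residue field of `O` is compared with that of `A` (algebraically closed: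
`Lib.helper6879.isAlgClosed_residueField`) through `residueEquiv`; surjectivity is the landed
`S19.helper1821.exists_sub_mem_nonunits` (every element of `A` is congruent to an inertia-fixed
one).
-/

set_option autoImplicit false

namespace Fermat.Agent.S36.helper225

open Fermat.Agent.S58.helper6024

local notation "Qb" => AlgebraicClosure ℚ

variable (A : ValuationSubring Qb)

/-- The inclusion `O = A ∩ K → A`. -/
def inclO : inertiaValuationSubring A →+* A where
  toFun x := ⟨((x : inertiaFixedField A) : Qb), x.2⟩
  map_one' := rfl
  map_mul' _ _ := rfl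
  map_zero' := rfl
  map_add' _ _ := rfl

@[simp] theorem coe_inclO (x : inertiaValuationSubring A) :
    ((inclO A x : A) : Qb) = ((x : inertiaFixedField A) : Qb) := rfl

theorem inclO_injective : Function.Injective (inclO A) := by
  intro x y h
  apply Subtype.ext
  apply Subtype.ext
  exact congrArg (fun z : A => (z : Qb)) h

/-- The inclusion `O → A` is a local homomorphism. -/
instance isLocalHom_inclO : IsLocalHom (inclO A) where
  map_nonunit x hx := by
    obtain ⟨y, hy⟩ := hx.exists_right_inv
    have h1 : (((x : inertiaFixedField A) : Qb)) * (y : Qb) = 1 := by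
      have h2 := congrArg (fun z : A => (z : Qb)) hy
      simpa using h2
    have hx0 : ((x : inertiaFixedField A) : Qb) ≠ 0 := left_ne_zero_of_mul_eq_one h1
    have hxK : (x : inertiaFixedField A) ≠ 0 := by
      intro h
      apply hx0
      rw [h]
      rfl
    have hinv : (((x : inertiaFixedField A)⁻¹ : inertiaFixedField A) : Qb) = (y : Qb) := by
      push_cast
      exact (eq_inv_of_mul_eq_one_right h1).symm
    have hmem : (x : inertiaFixedField A)⁻¹ ∈ inertiaValuationSubring A := by
      change (((x : inertiaFixedField A)⁻¹ : inertiaFixedField A) : Qb) ∈ A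
      rw [hinv]
      exact y.2
    refine IsUnit.of_mul_eq_one (⟨(x : inertiaFixedField A)⁻¹, hmem⟩ : inertiaValuationSubring A) ?_
    apply Subtype.ext
    change (x : inertiaFixedField A) * (x : inertiaFixedField A)⁻¹ = 1
    exact mul_inv_cancel₀ hxK

/-- The comparison of residue fields `κ(O) → κ(A)`. -/
noncomputable def residueMap :
    IsLocalRing.ResidueField (inertiaValuationSubring A) →+* IsLocalRing.ResidueField A :=
  IsLocalRing.ResidueField.map (inclO A)

theorem residueMap_residue (x : inertiaValuationSubring A) :
    residueMap A (IsLocalRing.residue _ x) = IsLocalRing.residue A (inclO A x) :=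
  IsLocalRing.ResidueField.map_residue (inclO A) x

theorem residueMap_injective : Function.Injective (residueMap A) :=
  (residueMap A).injective

/-- Every residue class of `A` contains an inertia-fixed element. -/
theorem residueMap_surjective {q : ℕ} (hq : q.Prime) (hA : A.LiesOverPrime q) :
    Function.Surjective (residueMap A) := by
  intro z
  obtain ⟨a, rfl⟩ := IsLocalRing.residue_surjective z
  obtain ⟨r, hr, hra⟩ := Fermat.Agent.S19.helper1821.exists_sub_mem_nonunits hq hA a.2
  have hrK : r ∈ inertiaFixedField A := by
    rw [IntermediateField.mem_fixedField_iff]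
    intro σ hσ
    exact hr.2 σ hσ
  let o : inertiaValuationSubring A := ⟨⟨r, hrK⟩, hr.1⟩
  refine ⟨IsLocalRing.residue _ o, ?_⟩
  rw [residueMap_residue]
  symm
  rw [← sub_eq_zero, ← map_sub, IsLocalRing.residue_eq_zero_iff]
  exact (ValuationSubring.coe_mem_nonunits_iff (A := A)).mp hra

/-- The residue fields of `O = A ∩ K` and of `A` coincide. -/
noncomputable def residueEquiv {q : ℕ} (hq : q.Prime) (hA : A.LiesOverPrime q) :
    IsLocalRing.ResidueField (inertiaValuationSubring A) ≃+* IsLocalRing.ResidueField A :=
  RingEquiv.ofBijective (residueMap A) ⟨residueMap_injective A, residueMap_surjective A hq hA⟩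

/-- **The residue field of `O = A ∩ ℚ̄^I` is algebraically closed.** -/
theorem isAlgClosed_residueField {q : ℕ} (hq : q.Prime) (hA : A.LiesOverPrime q) :
    IsAlgClosed (IsLocalRing.ResidueField (inertiaValuationSubring A)) := by
  have : IsAlgClosed (IsLocalRing.ResidueField A) :=
    Fermat.Agent.Lib.helper6879.isAlgClosed_residueField A
  exact IsAlgClosed.of_ringEquiv _ _ (residueEquiv A hq hA).symm

theorem natCast_ne_zero {q : ℕ} (hq : q.Prime) : ((q : ℕ) : inertiaFixedField A) ≠ 0 :=
  Nat.cast_ne_zero.mpr hq.ne_zero

/-- `q` is a non-unit of `O`. -/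
theorem natCast_mem_nonunits {q : ℕ} (hq : q.Prime) (hA : A.LiesOverPrime q) :
    ((q : ℕ) : inertiaFixedField A) ∈ (inertiaValuationSubring A).nonunits := by
  rw [ValuationSubring.mem_nonunits_iff]
  exact (unram_fixedField A hq hA).1

/-- `q` is a uniformiser of `O`. -/
theorem div_natCast_mem {q : ℕ} (hq : q.Prime) (hA : A.LiesOverPrime q)
    (c : inertiaFixedField A) (hc : c ∈ (inertiaValuationSubring A).nonunits) :
    c / ((q : ℕ) : inertiaFixedField A) ∈ inertiaValuationSubring A := by
  rw [← ValuationSubring.valuation_le_one_iff]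
  exact (unram_fixedField A hq hA).2 c ((ValuationSubring.mem_nonunits_iff _).mp hc)

/-! ### `O` is a discrete valuation ring -/

/-- `O = A ∩ K` as the subring `R0 A` of `ℚ̄` (the vocabulary of `S19.helper1821`). -/
def ringEquivR0 : inertiaValuationSubring A ≃+* Fermat.Agent.S19.helper1821.R0 A where
  toFun x := ⟨((x : inertiaFixedField A) : Qb), x.2, fun σ hσ =>
    (IntermediateField.mem_fixedField_iff _ _).mp (x : inertiaFixedField A).2 σ hσ⟩
  invFun r := ⟨⟨(r : Qb), (IntermediateField.mem_fixedField_iff _ _).mpr fun σ hσ => r.2.2 σ hσ⟩,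
    r.2.1⟩
  left_inv _ := rfl
  right_inv _ := rfl
  map_mul' _ _ := rfl
  map_add' _ _ := rfl

@[simp] theorem coe_ringEquivR0 (x : inertiaValuationSubring A) :
    ((ringEquivR0 A x : Fermat.Agent.S19.helper1821.R0 A) : Qb) =
      ((x : inertiaFixedField A) : Qb) := rfl

/-- **`O = A ∩ ℚ̄^I` is a discrete valuation ring.** -/
theorem isDiscreteValuationRing {q : ℕ} (hq : q.Prime) (hA : A.LiesOverPrime q) :
    IsDiscreteValuationRing (inertiaValuationSubring A) := by
  have h := Fermat.Agent.S19.helper1821.isDiscreteValuationRing hq hA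
  exact IsDiscreteValuationRing.RingEquivClass.isDiscreteValuationRing (ringEquivR0 A).symm

/-- `O = A ∩ ℚ̄^I` is noetherian. -/
theorem isNoetherianRing {q : ℕ} (hq : q.Prime) (hA : A.LiesOverPrime q) :
    IsNoetherianRing (inertiaValuationSubring A) := by
  have := isDiscreteValuationRing A hq hA
  infer_instance

/-- The six fields of `helper36.BaseDVR (inertiaValuationSubring A) q` (datum v2), in order:
`prime`, `q_ne`, `q_mem`, `unif`, `noeth`, `algClosed`. -/
theorem baseDVR_facts {q : ℕ} (hq : q.Prime) (hA : A.LiesOverPrime q) :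
    q.Prime ∧ ((q : ℕ) : inertiaFixedField A) ≠ 0 ∧
      ((q : ℕ) : inertiaFixedField A) ∈ (inertiaValuationSubring A).nonunits ∧
      (∀ c : inertiaFixedField A, c ∈ (inertiaValuationSubring A).nonunits →
        c / ((q : ℕ) : inertiaFixedField A) ∈ inertiaValuationSubring A) ∧
      IsNoetherianRing (inertiaValuationSubring A) ∧
      IsAlgClosed (IsLocalRing.ResidueField (inertiaValuationSubring A)) :=
  ⟨hq, natCast_ne_zero A hq, natCast_mem_nonunits A hq hA, div_natCast_mem A hq hA,
    isNoetherianRing A hq hA, isAlgClosed_residueField A hq hA⟩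

end Fermat.Agent.S36.helper225
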