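/-
S36, route #3001 (Carayol step (KILL)), STEP (3) IN THE LIFTED VOCABULARY
(helper2454, board row S36-ROOTS-LIFT).  Mathlib only.

`exists_roots_of_norms` PRODUCES the `n`-th roots `GI`, `Gm`, `G0` of the Kummer function `u`
modulo the three valuations `vI` (component `∞`), `vm` (component `mid`), `v0` (component `0`),
which `Fermat.Agent.S36.helper9004.glue_const` (step (4)) and the seed theorems of
`Fermat.Agent.S36.helper4913` (step (5)) take as hypotheses.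

Vocabulary: valuations of a field `F`, a subfield `Fα` (function field of the lower level along
`α`), multiplicative maps `Nα`, `Nβ : F → F` (the two norms).  The hypotheses `nr1`, `nr2α`,
`same`, `resI`, `resm`, `hNαmem` are the fields `nr1`, `nr2`, `same`, `resa`, `resm`, `mem` of
`helper9004.NormData vI vm v0 Fα Nα q`, and `nr2β` is the field `nr2` of
`helper9004.NormData v0 vm vI Fβ Nβ q`; they are passed as plain arguments, so this file imports
nothing but Mathlib.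
-/
import Mathlib

set_option autoImplicit false

namespace Fermat.Agent.S36.helper2454

/-! ### Congruences modulo the maximal ideal of a valuation -/

section Calc

variable {F : Type*} [Field F] {Γ : Type*} [LinearOrderedCommGroupWithZero Γ] (v : Valuation F Γ)

theorem vc_mul_lt {a b : Γ} (ha : a ≤ 1) (hb : b < 1) : a * b < 1 :=
  calc a * b ≤ 1 * b := mul_le_mul' ha le_rfl
    _ = b := one_mul b
    _ < 1 := hb

theorem vc_symm {x y : F} (h : v (x - y) < 1) : v (y - x) < 1 := by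
  rwa [Valuation.map_sub_swap]

theorem vc_trans {x y z : F} (h1 : v (x - y) < 1) (h2 : v (y - z) < 1) : v (x - z) < 1 := by
  have e : x - z = (x - y) + (y - z) := by ring
  rw [e]
  exact v.map_add_lt h1 h2

theorem vc_unit {x y : F} (hx : v x = 1) (h : v (x - y) < 1) : v y = 1 := by
  have h' : v (x - y) < v x := by rw [hx]; exact h
  have h2 := v.map_sub_eq_of_lt_left h'
  rw [sub_sub_cancel] at h2
  rw [h2, hx]

theorem vc_le {x y : F} (hx : v x ≤ 1) (h : v (x - y) < 1) : v y ≤ 1 := by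
  have e : y = x - (x - y) := by ring
  rw [e]
  exact le_trans (v.map_sub _ _) (max_le hx h.le)

theorem vc_mul {x x' y y' : F} (hx : v x ≤ 1) (hy' : v y' ≤ 1) (h1 : v (x - x') < 1)
    (h2 : v (y - y') < 1) : v (x * y - x' * y') < 1 := by
  have e : x * y - x' * y' = x * (y - y') + (x - x') * y' := by ring
  rw [e]
  refine v.map_add_lt ?_ ?_
  · rw [map_mul]
    exact vc_mul_lt hx h2
  · rw [map_mul, mul_comm]
    exact vc_mul_lt hy' h1

theorem vc_pow {x x' : F} (hx : v x ≤ 1) (h : v (x - x') < 1) (m : ℕ) :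
    v (x ^ m - x' ^ m) < 1 := by
  have hx' : v x' ≤ 1 := vc_le v hx h
  induction m with
  | zero => simp
  | succ m ih =>
    rw [pow_succ, pow_succ]
    exact vc_mul v (by rw [map_pow]; exact pow_le_one' hx m) hx' ih h

theorem vc_inv {x x' : F} (hx : v x = 1) (h : v (x - x') < 1) : v (x⁻¹ - x'⁻¹) < 1 := by
  have hx' : v x' = 1 := vc_unit v hx h
  have hx0 : x ≠ 0 := by
    rintro rfl
    rw [map_zero] at hx
    exact zero_ne_one hx
  have hx'0 : x' ≠ 0 := by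
    rintro rfl
    rw [map_zero] at hx'
    exact zero_ne_one hx'
  have e : x⁻¹ - x'⁻¹ = (x' - x) * (x⁻¹ * x'⁻¹) := by
    field_simp
  rw [e, map_mul, map_mul, map_inv₀, map_inv₀, hx, hx', inv_one, mul_one, mul_one]
  exact vc_symm v h

theorem vc_zpow {x x' : F} (hx : v x = 1) (h : v (x - x') < 1) (z : ℤ) :
    v (x ^ z - x' ^ z) < 1 := by
  cases z with
  | ofNat m =>
    simp only [Int.ofNat_eq_natCast, zpow_natCast]
    exact vc_pow v hx.le h m
  | negSucc m =>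
    simp only [zpow_negSucc]
    refine vc_inv v ?_ (vc_pow v hx.le h (m + 1))
    rw [map_pow, hx, one_pow]

theorem vc_pow_eq_one {x : F} {n : ℕ} (hn : n ≠ 0) (h : v (x ^ n) = 1) : v x = 1 := by
  rw [map_pow] at h
  rcases lt_trichotomy (v x) 1 with h1 | h1 | h1
  · exact absurd h (pow_lt_one' h1 hn).ne
  · exact h1
  · exact absurd h (one_lt_pow' h1 hn).ne'

theorem vc_ne_zero {x : F} (h : v x = 1) : x ≠ 0 := by
  rintro rfl
  rw [map_zero] at h
  exact zero_ne_one h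

/-- **Coprime root extraction modulo a valuation.**  If `y ^ n ≡ u ^ q` with `u` a unit and
`gcd (n, q) = 1`, then `u` is an `n`-th power modulo the valuation. -/
theorem exists_root_of_coprime {n q : ℕ} (hnq : Nat.Coprime n q) {u y : F} (hu : v u = 1)
    (h : v (y ^ n - u ^ q) < 1) : ∃ G : F, v (G ^ n - u) < 1 := by
  have hu0 : u ≠ 0 := vc_ne_zero v hu
  have huq : v (u ^ q) = 1 := by rw [map_pow, hu, one_pow]
  have hyn : v (y ^ n) = 1 := vc_unit v huq (vc_symm v h)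
  have hab : (n : ℤ) * Nat.gcdA n q + (q : ℤ) * Nat.gcdB n q = 1 := by
    have h' := Nat.gcd_eq_gcd_ab n q
    rw [Nat.Coprime.gcd_eq_one hnq] at h'
    exact_mod_cast h'.symm
  refine ⟨u ^ Nat.gcdA n q * y ^ Nat.gcdB n q, ?_⟩
  have e1 : (u ^ Nat.gcdA n q * y ^ Nat.gcdB n q) ^ n
      = u ^ ((n : ℤ) * Nat.gcdA n q) * (y ^ n) ^ Nat.gcdB n q := by
    have h1 : (u ^ Nat.gcdA n q) ^ n = u ^ ((n : ℤ) * Nat.gcdA n q) := by
      rw [← zpow_natCast (u ^ Nat.gcdA n q) n, ← zpow_mul, mul_comm]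
    have h2 : (y ^ Nat.gcdB n q) ^ n = (y ^ n) ^ Nat.gcdB n q := by
      rw [← zpow_natCast (y ^ Nat.gcdB n q) n, ← zpow_mul, mul_comm, zpow_mul, zpow_natCast]
    rw [mul_pow, h1, h2]
  have e2 : u = u ^ ((n : ℤ) * Nat.gcdA n q) * (u ^ q) ^ Nat.gcdB n q := by
    rw [← zpow_natCast u q, ← zpow_mul, ← zpow_add₀ hu0, hab, zpow_one]
  have e3 : (u ^ Nat.gcdA n q * y ^ Nat.gcdB n q) ^ n - u
      = u ^ ((n : ℤ) * Nat.gcdA n q) * ((y ^ n) ^ Nat.gcdB n q - (u ^ q) ^ Nat.gcdB n q) := by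
    rw [e1, mul_sub, ← e2]
  rw [e3, map_mul, map_zpow₀, hu, one_zpow, one_mul]
  exact vc_zpow v hyn h _

end Calc

/-! ### Step (3): the reductions of the Kummer function are `n`-th powers -/

section Roots

variable {F : Type*} [Field F]

/-- **Inseparable leg.**  `vb` is the valuation with purely inseparable residue extension of
degree `q` along the degeneracy map with norm `N` (`nr2` is the field `nr2` of
`helper9004.NormData`).  If `N u = c * w ^ n` with `c` a unit which is an `n`-th power modulo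
`vb`, and `gcd (n, q) = 1`, then the unit `u` is an `n`-th power modulo `vb`. -/
theorem exists_root_insep {Γb : Type*} [LinearOrderedCommGroupWithZero Γb]
    (vb : Valuation F Γb) (N : F → F) (q n : ℕ) (hnq : Nat.Coprime n q)
    (nr2 : ∀ f : F, vb f = 1 → vb (N f - f ^ q) < 1)
    (u : F) (hu : vb u = 1) (c w : F) (hT : N u = c * w ^ n)
    (d : F) (hd : vb (d ^ n - c) < 1) (hc : vb c = 1) :
    ∃ G : F, vb (G ^ n - u) < 1 := by
  have h1 : vb (c * w ^ n - u ^ q) < 1 := by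
    have := nr2 u hu
    rwa [hT] at this
  have huq : vb (u ^ q) = 1 := by rw [map_pow, hu, one_pow]
  have hcw : vb (c * w ^ n) = 1 := vc_unit vb huq (vc_symm vb h1)
  have hwn : vb (w ^ n) = 1 := by
    rw [map_mul, hc, one_mul] at hcw
    exact hcw
  have h2 : vb ((d * w) ^ n - c * w ^ n) < 1 := by
    have e : (d * w) ^ n - c * w ^ n = (d ^ n - c) * w ^ n := by ring
    rw [e, map_mul, hwn, mul_one]
    exact hd
  exact exists_root_of_coprime vb hnq hu (vc_trans vb h2 h1)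

/-- For `y` in the subfield `F'` on which `va` and `vm` induce the same valuation ring
(`same`), `va y = 1` implies `vm y = 1`. -/
theorem same_unit {Γa Γm : Type*} [LinearOrderedCommGroupWithZero Γa]
    [LinearOrderedCommGroupWithZero Γm] (va : Valuation F Γa) (vm : Valuation F Γm)
    (F' : Subfield F) (hsame : ∀ y ∈ F', va y < 1 ↔ vm y < 1) {y : F} (hy : y ∈ F')
    (h : va y = 1) : vm y = 1 := by
  have hy0 : y ≠ 0 := vc_ne_zero va h
  have h1 : ¬ vm y < 1 := fun h' => absurd ((hsame y hy).mpr h') (by rw [h]; exact lt_irrefl _)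
  have hinv : va y⁻¹ = 1 := by rw [map_inv₀, h, inv_one]
  have h2 : ¬ vm y⁻¹ < 1 := fun h' =>
    absurd ((hsame y⁻¹ (F'.inv_mem hy)).mpr h') (by rw [hinv]; exact lt_irrefl _)
  have hm0 : vm y ≠ 0 := (Valuation.ne_zero_iff vm).mpr hy0
  rcases lt_trichotomy (vm y) 1 with h3 | h3 | h3
  · exact absurd h3 h1
  · exact h3
  · exfalso
    apply h2
    rw [map_inv₀]
    exact inv_lt_one_of_one_lt₀ h3

/-- **Split leg.**  `va` (`e = 1`) and `vm` (`e = q - 1`) are the two valuations over one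
valuation of the subfield `F'`, both of residue degree one (`resa`, `resm`), with the
norm-residue congruence `nr1` (fields of `helper9004.NormData`).  If `N u = c * w ^ n` with
`w ∈ F'`, `c` a unit which is an `n`-th power modulo `vm`, and `u` is an `n`-th power modulo
`va`, then `u ^ (q - 1)` is an `n`-th power modulo `vm`. -/
theorem exists_root_split {Γa Γm : Type*} [LinearOrderedCommGroupWithZero Γa]
    [LinearOrderedCommGroupWithZero Γm] (va : Valuation F Γa) (vm : Valuation F Γm)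
    (F' : Subfield F) (N : F → F) (q n : ℕ) (hn : 0 < n)
    (hmem : ∀ x, N x ∈ F')
    (hsame : ∀ y ∈ F', va y < 1 ↔ vm y < 1)
    (nr1 : ∀ f a₁ a₂ : F, va f = 1 → vm f = 1 → a₁ ∈ F' → a₂ ∈ F' → va (f - a₁) < 1 →
      vm (f - a₂) < 1 → va (N f - a₁ * a₂ ^ (q - 1)) < 1)
    (resa : ∀ x : F, va x ≤ 1 → ∃ a ∈ F', va (x - a) < 1)
    (resm : ∀ x : F, vm x ≤ 1 → ∃ a ∈ F', vm (x - a) < 1)
    (u : F) (hua : va u = 1) (hum : vm u = 1) (c w : F) (hw : w ∈ F') (hT : N u = c * w ^ n)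
    (d : F) (hd : vm (d ^ n - c) < 1) (hc : va c = 1)
    (Ga : F) (hGa : va (Ga ^ n - u) < 1) :
    ∃ Gm : F, vm (Gm ^ n - u ^ (q - 1)) < 1 := by
  have hn0 : n ≠ 0 := Nat.pos_iff_ne_zero.mp hn
  -- `Ga` is a unit at `va`; lift it to `b ∈ F'`
  have hGan : va (Ga ^ n) = 1 := vc_unit va hua (vc_symm va hGa)
  have hGa1 : va Ga = 1 := vc_pow_eq_one va hn0 hGan
  obtain ⟨b, hbF, hGab⟩ := resa Ga hGa1.le
  have hb1 : va b = 1 := vc_unit va hGa1 hGab
  have hbm : vm b = 1 := same_unit va vm F' hsame hbF hb1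
  -- `u ≡ b ^ n` at `va`
  have hub : va (u - b ^ n) < 1 :=
    vc_trans va (vc_symm va hGa) (vc_pow va hGa1.le hGab n)
  -- lift `u` at `vm`
  obtain ⟨a₂, ha₂F, hua₂⟩ := resm u hum.le
  have ha₂m : vm a₂ = 1 := vc_unit vm hum hua₂
  have ha₂a : va a₂ = 1 :=
    same_unit vm va F' (fun y hy => (hsame y hy).symm) ha₂F ha₂m
  -- the norm-residue congruence at `va`, transported to `vm`
  have hnr : va (N u - b ^ n * a₂ ^ (q - 1)) < 1 :=
    nr1 u (b ^ n) a₂ hua hum (F'.pow_mem hbF n) ha₂F hub hua₂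
  have hdiffF : N u - b ^ n * a₂ ^ (q - 1) ∈ F' :=
    F'.sub_mem (hmem u) (F'.mul_mem (F'.pow_mem hbF n) (F'.pow_mem ha₂F _))
  have hnrm : vm (N u - b ^ n * a₂ ^ (q - 1)) < 1 := (hsame _ hdiffF).mp hnr
  -- `w` is a unit at `va`, hence at `vm`
  have hrhs : va (b ^ n * a₂ ^ (q - 1)) = 1 := by
    rw [map_mul, map_pow, map_pow, hb1, ha₂a, one_pow, one_pow, one_mul]
  have hNu : va (N u) = 1 := vc_unit va hrhs (vc_symm va hnr)
  have hwn : va (w ^ n) = 1 := by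
    rw [hT, map_mul, hc, one_mul] at hNu
    exact hNu
  have hw1 : va w = 1 := vc_pow_eq_one va hn0 hwn
  have hwm : vm w = 1 := same_unit va vm F' hsame hw hw1
  have hwmn : vm (w ^ n) = 1 := by rw [map_pow, hwm, one_pow]
  have hbmn : vm (b ^ n) = 1 := by rw [map_pow, hbm, one_pow]
  have hb0 : b ≠ 0 := vc_ne_zero vm hbm
  refine ⟨d * w / b, ?_⟩
  -- `(d w) ^ n ≡ c w ^ n = N u ≡ b ^ n a₂ ^ (q - 1) ≡ b ^ n u ^ (q - 1)` at `vm`
  have h1 : vm ((d * w) ^ n - N u) < 1 := by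
    have e : (d * w) ^ n - N u = (d ^ n - c) * w ^ n := by rw [hT]; ring
    rw [e, map_mul, hwmn, mul_one]
    exact hd
  have h2 : vm (b ^ n * a₂ ^ (q - 1) - b ^ n * u ^ (q - 1)) < 1 := by
    have e : b ^ n * a₂ ^ (q - 1) - b ^ n * u ^ (q - 1)
        = b ^ n * (a₂ ^ (q - 1) - u ^ (q - 1)) := by ring
    rw [e, map_mul, hbmn, one_mul]
    exact vc_symm vm (vc_pow vm hum.le hua₂ (q - 1))
  have h3 : vm ((d * w) ^ n - b ^ n * u ^ (q - 1)) < 1 :=
    vc_trans vm (vc_trans vm h1 hnrm) h2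
  have e : (d * w / b) ^ n - u ^ (q - 1)
      = (b ^ n)⁻¹ * ((d * w) ^ n - b ^ n * u ^ (q - 1)) := by
    have hbn0 : b ^ n ≠ 0 := pow_ne_zero n hb0
    rw [div_pow, mul_sub, ← mul_assoc, inv_mul_cancel₀ hbn0, one_mul, div_eq_inv_mul]
  rw [e, map_mul, map_inv₀, hbmn, inv_one, one_mul]
  exact h3

variable {ΓI Γm Γ0 : Type*} [LinearOrderedCommGroupWithZero ΓI]
  [LinearOrderedCommGroupWithZero Γm] [LinearOrderedCommGroupWithZero Γ0]

/-- **Step (3) of route #3001 in the lifted vocabulary.**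

`vI`, `vm`, `v0` are the three components (`∞`, `mid`, `0`) of the fibre at level `q² M'`,
`Fα` the copy of the function field of level `q M'` along `α`, `Nα`, `Nβ` the two norms.  The
hypotheses `hmem`, `hsame`, `nr1`, `nr2α`, `resI`, `resm` are the fields `mem`, `same`, `nr1`,
`nr2`, `resa`, `resm` of `helper9004.NormData vI vm v0 Fα Nα q`, and `nr2β` is the field `nr2` of
`helper9004.NormData v0 vm vI Fβ Nβ q`.

If `u` is a unit at the three valuations with `Nα u = cα * wα ^ n` and `Nβ u = cβ * wβ ^ n`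
(both degeneracy push-forwards of the Kummer class are trivial), the constants `cα`, `cβ` are
units which are `n`-th powers modulo the valuations, and `gcd (n, q) = 1`, then `u` is an `n`-th
power modulo `vI` and modulo `v0`, and `u ^ (q - 1)` is an `n`-th power modulo `vm`. -/
theorem exists_roots_of_norms
    (vI : Valuation F ΓI) (vm : Valuation F Γm) (v0 : Valuation F Γ0)
    (Fα : Subfield F) (Nα Nβ : F → F) (q n : ℕ) (hn : 0 < n) (hnq : Nat.Coprime n q)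
    (hmem : ∀ x, Nα x ∈ Fα)
    (hsame : ∀ y ∈ Fα, vI y < 1 ↔ vm y < 1)
    (nr1 : ∀ f a₁ a₂ : F, vI f = 1 → vm f = 1 → a₁ ∈ Fα → a₂ ∈ Fα → vI (f - a₁) < 1 →
      vm (f - a₂) < 1 → vI (Nα f - a₁ * a₂ ^ (q - 1)) < 1)
    (nr2α : ∀ f : F, v0 f = 1 → v0 (Nα f - f ^ q) < 1)
    (resI : ∀ x : F, vI x ≤ 1 → ∃ a ∈ Fα, vI (x - a) < 1)
    (resm : ∀ x : F, vm x ≤ 1 → ∃ a ∈ Fα, vm (x - a) < 1)
    (nr2β : ∀ f : F, vI f = 1 → vI (Nβ f - f ^ q) < 1)
    (u : F) (huI : vI u = 1) (hum : vm u = 1) (hu0 : v0 u = 1)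
    (cα wα cβ wβ : F) (hwα : wα ∈ Fα)
    (hTα : Nα u = cα * wα ^ n) (hTβ : Nβ u = cβ * wβ ^ n)
    (dα dβ : F) (hdα0 : v0 (dα ^ n - cα) < 1) (hdαm : vm (dα ^ n - cα) < 1)
    (hdβI : vI (dβ ^ n - cβ) < 1)
    (hcα0 : v0 cα = 1) (hcαI : vI cα = 1) (hcβI : vI cβ = 1) :
    ∃ GI Gm G0 : F, vI (GI ^ n - u) < 1 ∧ vm (Gm ^ n - u ^ (q - 1)) < 1 ∧
      v0 (G0 ^ n - u) < 1 := by
  obtain ⟨G0, hG0⟩ := exists_root_insep v0 Nα q n hnq nr2α u hu0 cα wα hTα dα hdα0 hcα0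
  obtain ⟨GI, hGI⟩ := exists_root_insep vI Nβ q n hnq nr2β u huI cβ wβ hTβ dβ hdβI hcβI
  obtain ⟨Gm, hGm⟩ := exists_root_split vI vm Fα Nα q n hn hmem hsame nr1 resI resm u huI hum
    cα wα hwα hTα dα hdαm hcαI GI hGI
  exact ⟨GI, Gm, G0, hGI, hGm, hG0⟩

/-- The norm identity for a power: `N u = c * w ^ n` gives `N (u ^ m) = c ^ m * (w ^ m) ^ n`
(`hN1`, `hNmul` are the fields `map_one`, `map_mul` of `helper9004.NormData`). -/
theorem norm_pow_of_norm (N : F → F) (hN1 : N 1 = 1) (hNmul : ∀ x y, N (x * y) = N x * N y)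
    (u c w : F) (n m : ℕ) (hT : N u = c * w ^ n) : N (u ^ m) = c ^ m * (w ^ m) ^ n := by
  have hpow : ∀ k : ℕ, N (u ^ k) = N u ^ k := by
    intro k
    induction k with
    | zero => rw [pow_zero, pow_zero, hN1]
    | succ k ih => rw [pow_succ, hNmul, ih, pow_succ]
  rw [hpow, hT, mul_pow, ← pow_mul, ← pow_mul, mul_comm n m]

/-- A unit of the ring of constants `Cst` (integral at `v`) has valuation one. -/
theorem val_eq_one_of_const {Γ : Type*} [LinearOrderedCommGroupWithZero Γ] (v : Valuation F Γ)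
    (Cst : Subring F) (hC : ∀ x ∈ Cst, v x ≤ 1) {c : F} (hc : c ∈ Cst) (hcinv : c⁻¹ ∈ Cst)
    (hc0 : c ≠ 0) : v c = 1 := by
  have h1 : v c ≤ 1 := hC c hc
  have h2 : v c⁻¹ ≤ 1 := hC _ hcinv
  have hv0 : v c ≠ 0 := (Valuation.ne_zero_iff v).mpr hc0
  rw [map_inv₀] at h2
  rcases lt_or_eq_of_le h1 with h3 | h3
  · exact absurd h2 (not_le.mpr (one_lt_inv₀ (zero_lt_iff.mpr hv0) |>.mpr h3))
  · exact h3

/-- **Step (3), in the exact input shape of `helper9004.seedLocal_of_glue` / `glue_const`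
applied to `u ^ (q - 1)`.**

`v 0 = v_∞`, `v 1 = v_mid`, `v 2 = v_0`.  `Cst` is the ring of constants (`hC`, `hCst` are the
hypotheses of the same names of `seedLocal_of_glue`) and `hroot` says that its residue field is
closed under `n`-th roots (the residue field of `O` is algebraically closed).  Then
`u ^ (q - 1)` has an `n`-th root `G c` modulo each of the three valuations. -/
theorem exists_roots_pow_of_norms {Γ : Fin 3 → Type*} [∀ c, LinearOrderedCommGroupWithZero (Γ c)]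
    (v : ∀ c, Valuation F (Γ c))
    (Fα : Subfield F) (Nα Nβ : F → F) (q n : ℕ) (hn : 0 < n) (hnq : Nat.Coprime n q)
    (hmem : ∀ x, Nα x ∈ Fα)
    (hsame : ∀ y ∈ Fα, v 0 y < 1 ↔ v 1 y < 1)
    (nr1 : ∀ f a₁ a₂ : F, v 0 f = 1 → v 1 f = 1 → a₁ ∈ Fα → a₂ ∈ Fα → v 0 (f - a₁) < 1 →
      v 1 (f - a₂) < 1 → v 0 (Nα f - a₁ * a₂ ^ (q - 1)) < 1)
    (nr2α : ∀ f : F, v 2 f = 1 → v 2 (Nα f - f ^ q) < 1)
    (resI : ∀ x : F, v 0 x ≤ 1 → ∃ a ∈ Fα, v 0 (x - a) < 1)
    (resm : ∀ x : F, v 1 x ≤ 1 → ∃ a ∈ Fα, v 1 (x - a) < 1)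
    (nr2β : ∀ f : F, v 0 f = 1 → v 0 (Nβ f - f ^ q) < 1)
    (Cst : Subring F) (hC : ∀ c, ∀ x ∈ Cst, v c x ≤ 1)
    (hCst : ∀ x ∈ Cst, (v 0 x < 1 ↔ v 1 x < 1) ∧ (v 1 x < 1 ↔ v 2 x < 1))
    (hroot : ∀ c ∈ Cst, c⁻¹ ∈ Cst → ∃ d ∈ Cst, v 0 (d ^ n - c) < 1)
    (u : F) (hu : ∀ c, v c u = 1)
    (cα wα cβ wβ : F)
    (hcα : cα ∈ Cst) (hcαinv : cα⁻¹ ∈ Cst) (hcα0 : cα ≠ 0) (hwα : wα ∈ Fα)
    (hTα : Nα u = cα * wα ^ n)
    (hcβ : cβ ∈ Cst) (hcβinv : cβ⁻¹ ∈ Cst) (hcβ0 : cβ ≠ 0)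
    (hTβ : Nβ u = cβ * wβ ^ n) :
    ∃ G : Fin 3 → F, ∀ c, v c (G c ^ n - u ^ (q - 1)) < 1 := by
  obtain ⟨dα, hdα, hdαI⟩ := hroot cα hcα hcαinv
  obtain ⟨dβ, hdβ, hdβI⟩ := hroot cβ hcβ hcβinv
  have hdαC : dα ^ n - cα ∈ Cst := Cst.sub_mem (Cst.pow_mem hdα n) hcα
  have hdαm : v 1 (dα ^ n - cα) < 1 := (hCst _ hdαC).1.mp hdαI
  have hdα0 : v 2 (dα ^ n - cα) < 1 := (hCst _ hdαC).2.mp hdαm
  obtain ⟨GI, Gm, G0, hGI, hGm, hG0⟩ := exists_roots_of_norms (v 0) (v 1) (v 2) Fα Nα Nβ q n hn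
    hnq hmem hsame nr1 nr2α resI resm nr2β u (hu 0) (hu 1) (hu 2) cα wα cβ wβ hwα hTα hTβ dα dβ
    hdα0 hdαm hdβI (val_eq_one_of_const (v 2) Cst (hC 2) hcα hcαinv hcα0)
    (val_eq_one_of_const (v 0) Cst (hC 0) hcα hcαinv hcα0)
    (val_eq_one_of_const (v 0) Cst (hC 0) hcβ hcβinv hcβ0)
  have hpowI : v 0 ((GI ^ (q - 1)) ^ n - u ^ (q - 1)) < 1 := by
    have e : (GI ^ (q - 1)) ^ n = (GI ^ n) ^ (q - 1) := by
      rw [← pow_mul, ← pow_mul, mul_comm]
    rw [e]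
    exact vc_pow (v 0) (vc_unit (v 0) (hu 0) (vc_symm (v 0) hGI)).le hGI (q - 1)
  have hpow0 : v 2 ((G0 ^ (q - 1)) ^ n - u ^ (q - 1)) < 1 := by
    have e : (G0 ^ (q - 1)) ^ n = (G0 ^ n) ^ (q - 1) := by
      rw [← pow_mul, ← pow_mul, mul_comm]
    rw [e]
    exact vc_pow (v 2) (vc_unit (v 2) (hu 2) (vc_symm (v 2) hG0)).le hG0 (q - 1)
  refine ⟨![GI ^ (q - 1), Gm, G0 ^ (q - 1)], ?_⟩
  intro c
  fin_cases c
  · exact hpowI
  · exact hGm
  · exact hpow0

end Roots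

end Fermat.Agent.S36.helper2454
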