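import Fermat.Agent.S36.helper4913_SeedGlue
import Fermat.Agent.S36.helper1730_NewtonCore

/-!
# S36 (D2): the three seed hypotheses of the Newton core on a pair of charts

`exists_seeds_nilMod` produces, from the local data of `exists_seed` on the two charts `B0`, `B1`
(same valuations `v c`, same lifts `G c` of the `n`-th roots of the reductions of `u`), seeds
`a0`, `b0` satisfying the hypotheses `seed0`, `seed1` and `ov` of
`Fermat.Agent.S36.helper1730.newton_core` verbatim.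
-/

namespace Fermat.Agent.S36.helper4913

open Fermat.Agent.S36.helper1730

variable {F : Type*} [Field F]

/-- The local hypothesis of `exists_seed` on the chart `B`: at every maximal ideal `P` of `B`
containing `{b ∈ B | ∀ c, v c b < 1}` there are `h ≠ 0` with `u / h ^ n` a unit of `B_P`
(`u * s = b * h ^ n`, `b, s ∈ B \ P`) and `z ∈ B` such that for every `c` whose centre lies in
`P` the function `G c / h` is congruent modulo `v c` to `z + b / s` with `b ∈ P`, `s ∈ B \ P`. -/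
def SeedLocal (B : Subring F) (n : ℕ) {ι : Type*} {Γ : ι → Type*}
    [∀ c, LinearOrderedCommGroupWithZero (Γ c)] (v : ∀ c, Valuation F (Γ c)) (u : F)
    (G : ι → F) : Prop :=
  ∀ P : Ideal B, P.IsMaximal → (∀ b : B, (∀ c, v c (b : F) < 1) → b ∈ P) →
    ∃ h : F, h ≠ 0 ∧ (∃ b s : B, b ∉ P ∧ s ∉ P ∧ u * (s : F) = (b : F) * h ^ n) ∧
      ∃ z : B, ∀ c, (∀ b : B, v c (b : F) < 1 → b ∈ P) →
        ∃ b s : B, b ∈ P ∧ s ∉ P ∧ v c ((G c / h - (z : F)) * (s : F) - (b : F)) < 1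

/-- One chart: the seed in the `NilMod` vocabulary of the Newton core. -/
theorem exists_seed_nilMod (q : F) (B : Subring F) (n : ℕ) (hn0 : (n : F) ≠ 0)
    (hnB : (n : F)⁻¹ ∈ B) (hroot : ∀ x : F, x ^ n ∈ B → x ∈ B)
    {ι : Type*} [Finite ι] {Γ : ι → Type*} [∀ c, LinearOrderedCommGroupWithZero (Γ c)]
    (v : ∀ c, Valuation F (Γ c)) (hBv : ∀ c, ∀ b ∈ B, v c b ≤ 1)
    (hJ : ∀ x ∈ B, (∀ c, v c x < 1) → NilMod B q x)
    (u : F) (hu : ∀ c, v c u = 1) (G : ι → F) (hG : ∀ c, v c (G c ^ n - u) < 1)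
    (hloc : SeedLocal B n v u G) :
    ∃ a : F, a ^ n * u ∈ B ∧ (∀ c, v c (a * G c - 1) < 1) ∧ NilMod B q (a ^ n * u - 1) := by
  obtain ⟨a, ha, haG, hav⟩ :=
    exists_seed B n hn0 hnB hroot v (fun c b => hBv c b b.2) u hu G hG hloc
  exact ⟨a, ha, haG, hJ _ (B.sub_mem ha B.one_mem) hav⟩

/-- **The seeds of the Newton core on a pair of charts.**  `B0`, `B1 ≤ B01` subrings of `F`
closed under `n`-th roots, `v c` finitely many valuations `≤ 1` on `B01`, such that on each of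
the three rings an element of valuation `< 1` everywhere lies in `rad (q)` (`NilMod`).  If `u`
is a unit at every `v c`, `G c ^ n ≡ u` modulo `v c`, and the local hypothesis `SeedLocal`
(local generators and trivial glueing datum) holds on `B0` and on `B1`, then there are seeds
`a0`, `b0` with the hypotheses `seed0`, `seed1`, `ov` of `helper1730.newton_core`. -/
theorem exists_seeds_nilMod (q : F) (n : ℕ) (hn0 : (n : F) ≠ 0) (u : F)
    (B0 B1 B01 : Subring F) (h0 : B0 ≤ B01) (h1 : B1 ≤ B01)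
    (hnB0 : (n : F)⁻¹ ∈ B0) (hnB1 : (n : F)⁻¹ ∈ B1)
    (hroot0 : ∀ x : F, x ^ n ∈ B0 → x ∈ B0) (hroot1 : ∀ x : F, x ^ n ∈ B1 → x ∈ B1)
    (hroot01 : ∀ x : F, x ^ n ∈ B01 → x ∈ B01)
    {ι : Type*} [Finite ι] {Γ : ι → Type*} [∀ c, LinearOrderedCommGroupWithZero (Γ c)]
    (v : ∀ c, Valuation F (Γ c)) (hBv : ∀ c, ∀ b ∈ B01, v c b ≤ 1)
    (hJ0 : ∀ x ∈ B0, (∀ c, v c x < 1) → NilMod B0 q x)
    (hJ1 : ∀ x ∈ B1, (∀ c, v c x < 1) → NilMod B1 q x)
    (hJ01 : ∀ x ∈ B01, (∀ c, v c x < 1) → NilMod B01 q x)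
    (hu : ∀ c, v c u = 1) (G : ι → F) (hG : ∀ c, v c (G c ^ n - u) < 1)
    (hloc0 : SeedLocal B0 n v u G) (hloc1 : SeedLocal B1 n v u G) :
    ∃ a0 b0 : F, a0 ^ n * u ∈ B0 ∧ b0 ^ n * u ∈ B1 ∧ NilMod B0 q (a0 ^ n * u - 1) ∧
      NilMod B1 q (b0 ^ n * u - 1) ∧ NilMod B01 q (a0 * b0 ^ (n - 1) * u - 1) := by
  have hn : n ≠ 0 := by
    rintro rfl
    simp at hn0
  obtain ⟨a0, ha0, ha0G, hs0⟩ := exists_seed_nilMod q B0 n hn0 hnB0 hroot0 v
    (fun c b hb => hBv c b (h0 hb)) hJ0 u hu G hG hloc0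
  obtain ⟨b0, hb0, hb0G, hs1⟩ := exists_seed_nilMod q B1 n hn0 hnB1 hroot1 v
    (fun c b hb => hBv c b (h1 hb)) hJ1 u hu G hG hloc1
  refine ⟨a0, b0, ha0, hb0, hs0, hs1, hJ01 _ (B01.sub_mem ?_ B01.one_mem) fun c =>
    val_overlap_lt_one (v c) hn (hu c) (hG c) (ha0G c) (hb0G c)⟩
  apply hroot01
  have e : (a0 * b0 ^ (n - 1) * u) ^ n = (a0 ^ n * u) * (b0 ^ n * u) ^ (n - 1) := by
    obtain ⟨k, rfl⟩ : ∃ k, n = k + 1 := Nat.exists_eq_succ_of_ne_zero hn
    rw [Nat.add_sub_cancel]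
    ring
  rw [e]
  exact B01.mul_mem (h0 ha0) (B01.pow_mem (h1 hb0) _)

end Fermat.Agent.S36.helper4913
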