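/-
S36, (KILL) abstract assembly, END half (helper2781; split of helper36, team_s36_chat #315).

`kill_end_core`: over a discrete valuation ring `O` of `K` (given as a noetherian valuation
subring) with the non-unit `q`, on the normal two-chart model `B 0 = chartRing O {x}`,
`B 1 = chartRing O {x⁻¹}`, `B01 = chartRing O {x, x⁻¹}` of a function field `F / K(x)`:
if `u` is a unit at finitely many valuations `V c` which dominate the overlap chart and cut out
the radical of `q` on the three chart rings, the reductions of `u` are `n`-th powers (`G c`),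
and the local seed hypothesis `helper4913.SeedLocal` holds on both charts, then
`u = κ * w ^ n` with `κ ∈ K` nonzero.

Pure wiring of the landed bricks `helper4913.exists_seeds_nilMod` (D2-SEED) and
`helper248.kummer_chart` (Newton core, normal two-chart model).
-/
import Fermat.Agent.S36.helper4913_SeedCharts
import Fermat.Agent.S36.helper248_RootLatticeChart

set_option autoImplicit false

namespace Fermat.Agent.S36.helper2781

open Fermat.Agent.S36.helper1730 Fermat.Agent.S36.helper248 Fermat.Agent.S36.helper4913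

variable {K F : Type*} [Field K] [Field F] [Algebra K F]

/-- A chart ring over `O` lies in every valuation subring of `F` which contains the constants
of `O` and the chart coordinates (valuation subrings are integrally closed). -/
theorem mem_valuationSubring_of_mem_chartRing (O : ValuationSubring K) (W : ValuationSubring F)
    (hO : ∀ a : K, a ∈ O → algebraMap K F a ∈ W) (s : Set F) (hs : ∀ y ∈ s, y ∈ W) {b : F}
    (hb : b ∈ chartRing O s) : b ∈ W := by
  let S : Subalgebra O F :=
    { W.toSubring with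
      algebraMap_mem' := fun a => hO a a.2 }
  have hle : Algebra.adjoin O s ≤ S := Algebra.adjoin_le hs
  let f : ↥(Algebra.adjoin O s) →+* W :=
    { toFun := fun y => ⟨y.1, hle y.2⟩
      map_one' := rfl
      map_mul' := fun _ _ => rfl
      map_zero' := rfl
      map_add' := fun _ _ => rfl }
  have h1 : IsIntegral W b :=
    Fermat.Agent.S18.helper5377.isIntegral_of_ringHom f (by ext; rfl) (mem_chartRing.mp hb)
  obtain ⟨y, hy⟩ := (IsIntegrallyClosed.isIntegral_iff (R := W) (K := F)).mp h1
  rw [← hy]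
  exact y.2

/-- A field with a valuation subring in which a prime number `q ≠ 0` is a non-unit has
characteristic zero. -/
theorem charZero_of_natCast_mem_nonunits (O : ValuationSubring K) (q : ℕ) (hq : q.Prime)
    (hq0 : (q : K) ≠ 0) (hqO : (q : K) ∈ O.nonunits) : CharZero K := by
  obtain ⟨p, hp⟩ := CharP.exists K
  rcases CharP.char_is_prime_or_zero K p with hpp | rfl
  · exfalso
    have hcop : Nat.Coprime q p := by
      rw [Nat.coprime_primes hq hpp]
      rintro rfl
      exact hq0 (CharP.cast_eq_zero K q)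
    have h1 : ((q ^ p.totient : ℕ) : K) = ((1 : ℕ) : K) :=
      (CharP.natCast_eq_natCast K p).mpr (Nat.ModEq.pow_totient hcop)
    rw [Nat.cast_pow, Nat.cast_one] at h1
    have h2 : O.valuation (q : K) < 1 := (ValuationSubring.mem_nonunits_iff O).mp hqO
    have h3 : O.valuation ((q : K) ^ p.totient) < 1 := by
      rw [map_pow]
      exact pow_lt_one₀ zero_le h2 (Nat.totient_pos.mpr hpp.pos).ne'
    rw [h1, map_one] at h3
    exact lt_irrefl _ h3
  · exact CharP.charP_to_charZero K

/-- A natural number prime to the residue characteristic is a unit of `O`. -/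
theorem natCast_inv_mem_of_coprime (O : ValuationSubring K) (q n : ℕ)
    (hqO : (q : K) ∈ O.nonunits) (h : Nat.Coprime n q) : (n : K)⁻¹ ∈ O := by
  have hq : O.valuation (q : K) < 1 := (ValuationSubring.mem_nonunits_iff O).mp hqO
  have hn : O.valuation (n : K) ≤ 1 := (O.valuation_le_one_iff _).mpr (natCast_mem O n)
  rcases hn.lt_or_eq with hn | hn
  · exfalso
    obtain ⟨a, b, hab⟩ := (Nat.isCoprime_iff_coprime.mpr h)
    have e : (a : K) * (n : K) + (b : K) * (q : K) = 1 := by exact_mod_cast congrArg (Int.cast : ℤ → K) hab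
    have ha : O.valuation (a : K) ≤ 1 := (O.valuation_le_one_iff _).mpr (intCast_mem O a)
    have hb : O.valuation (b : K) ≤ 1 := (O.valuation_le_one_iff _).mpr (intCast_mem O b)
    have h1 : O.valuation ((a : K) * (n : K)) < 1 := by
      rw [map_mul]
      exact mul_lt_one_of_nonneg_of_lt_one_right ha zero_le hn
    have h2 : O.valuation ((b : K) * (q : K)) < 1 := by
      rw [map_mul]
      exact mul_lt_one_of_nonneg_of_lt_one_right hb zero_le hq
    have h3 := Valuation.map_add_lt _ h1 h2
    rw [e, map_one] at h3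
    exact lt_irrefl _ h3
  · refine (O.valuation_le_one_iff _).mp ?_
    rw [map_inv₀, hn, inv_one]

/-- **END half of (KILL), carrier-free core.** -/
theorem kill_end_core [CharZero K] (O : ValuationSubring K) [IsNoetherianRing O]
    (x : F) (hx : Transcendental K x)
    [FiniteDimensional (IntermediateField.adjoin K ({x} : Set F)) F]
    (hK : ∀ y : F, IsAlgebraic K y → y ∈ (algebraMap K F).range)
    (q : ℕ) (hq0 : (q : K) ≠ 0) (hqO : (q : K) ∈ O.nonunits)
    (n : ℕ) (hn0 : 0 < n) (hnO : (n : K)⁻¹ ∈ O)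
    {ι : Type*} [Finite ι] (V : ι → ValuationSubring F)
    (hBV : ∀ c, ∀ b ∈ chartRing O ({x, x⁻¹} : Set F), b ∈ V c)
    (hJ0 : ∀ y ∈ chartRing O ({x} : Set F), (∀ c, (V c).valuation y < 1) →
      NilMod (chartRing O ({x} : Set F)) (q : F) y)
    (hJ1 : ∀ y ∈ chartRing O ({x⁻¹} : Set F), (∀ c, (V c).valuation y < 1) →
      NilMod (chartRing O ({x⁻¹} : Set F)) (q : F) y)
    (hJ01 : ∀ y ∈ chartRing O ({x, x⁻¹} : Set F), (∀ c, (V c).valuation y < 1) →
      NilMod (chartRing O ({x, x⁻¹} : Set F)) (q : F) y)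
    (u : F) (hu0 : u ≠ 0) (hu : ∀ c, (V c).valuation u = 1)
    (G : ι → F) (hG : ∀ c, (V c).valuation (G c ^ n - u) < 1)
    (hloc0 : SeedLocal (chartRing O ({x} : Set F)) n (fun c => (V c).valuation) u G)
    (hloc1 : SeedLocal (chartRing O ({x⁻¹} : Set F)) n (fun c => (V c).valuation) u G) :
    ∃ κ : K, κ ≠ 0 ∧ ∃ w : F, u = algebraMap K F κ * w ^ n := by
  have hnK : (n : K) ≠ 0 := Nat.cast_ne_zero.mpr hn0.ne'
  have hnF : (n : F) ≠ 0 := by
    have h := (algebraMap K F).injective.ne (a₂ := 0) hnK
    rwa [map_natCast, map_zero] at h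
  -- `1 / n` in the chart rings
  have hninv : ∀ s : Set F, (n : F)⁻¹ ∈ chartRing O s := by
    intro s
    have h := algebraMap_mem_chartRing (A0 := O) (L := F) s ⟨(n : K)⁻¹, hnO⟩
    have e : algebraMap O F ⟨(n : K)⁻¹, hnO⟩ = (n : F)⁻¹ := by
      show algebraMap K F ((n : K)⁻¹) = (n : F)⁻¹
      rw [map_inv₀, map_natCast]
    rwa [e] at h
  have hsub0 : ({x} : Set F) ⊆ {x, x⁻¹} := fun z hz => Or.inl hz
  have hsub1 : ({x⁻¹} : Set F) ⊆ {x, x⁻¹} := fun z hz => Or.inr hz
  have hroot : ∀ s : Set F, ∀ y : F, y ^ n ∈ chartRing O s → y ∈ chartRing O s :=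
    fun s y hy => (intClosedIn_chartRing (A0 := O) s).mem_of_pow_mem hn0 hy
  obtain ⟨a0, b0, -, -, seed0, seed1, ov⟩ :=
    exists_seeds_nilMod (q : F) n hnF u
      (chartRing O ({x} : Set F)) (chartRing O ({x⁻¹} : Set F))
      (chartRing O ({x, x⁻¹} : Set F)) (chartRing_mono hsub0) (chartRing_mono hsub1)
      (hninv _) (hninv _) (hroot _) (hroot _) (hroot _)
      (fun c => (V c).valuation)
      (fun c b hb => ((V c).valuation_le_one_iff b).mpr (hBV c b hb))
      hJ0 hJ1 hJ01 hu G hG hloc0 hloc1
  -- the uniformiser as an element of `O`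
  have hqmem : (q : K) ∈ O := O.nonunits_le hqO
  have hqF : algebraMap O F ⟨(q : K), hqmem⟩ = (q : F) := by
    show algebraMap K F (q : K) = (q : F)
    rw [map_natCast]
  have hqu : ¬ IsUnit (⟨(q : K), hqmem⟩ : O) := by
    intro h
    have h1 : ((⟨(q : K), hqmem⟩ : O) : K) ∈ O.nonunits := hqO
    rw [ValuationSubring.coe_mem_nonunits_iff] at h1
    exact h1 h
  have hv : (n : O) * (⟨(n : K)⁻¹, hnO⟩ : O) = 1 := by
    apply Subtype.ext
    show ((n : O) : K) * (n : K)⁻¹ = 1
    have : ((n : O) : K) = (n : K) := map_natCast O.subtype n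
    rw [this, mul_inv_cancel₀ hnK]
  obtain ⟨κ, hκ, w, hw⟩ := kummer_chart (A0 := O) (K0 := K) (L := F) x hx hK
    ⟨(q : K), hqmem⟩ (fun h => hq0 (congrArg Subtype.val h)) hqu n hn0 ⟨(n : K)⁻¹, hnO⟩ hv
    u hu0 a0 b0 (by rw [hqF]; exact seed0) (by rw [hqF]; exact seed1) (by rw [hqF]; exact ov)
  exact ⟨(κ : K), fun h => hκ (Subtype.ext h), w, hw⟩

end Fermat.Agent.S36.helper2781
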