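/-
S36, (KILL) abstract assembly, END half on the datum `helper36.KillData` (v2)
(helper2781; split of helper36, team_s36_chat #315).

`kill_of_seedLocal`: from `D : KillData O q α β Nα Nβ` over a base `BaseDVR O q`, a function `u`
which is a unit at the three vertical valuations, roots `G c` of its reductions, and the local
seed hypothesis `helper4913.SeedLocal` on the two charts, conclude `u = κ * w ^ n` with
`κ ∈ K` nonzero.  (= `helper4913.exists_seeds_nilMod` + `helper248.kummer_chart`.)
-/
import Fermat.Agent.S36.helper36_KillData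
import Fermat.Agent.S36.helper2781_KillEnd

set_option autoImplicit false

namespace Fermat.Agent.S36.helper2781

open Fermat.Agent.S36.helper1730 Fermat.Agent.S36.helper248 Fermat.Agent.S36.helper4913
open Fermat.Agent.S36.helper36

variable {K F F' : Type*} [Field K] [Field F] [Field F'] [Algebra K F] [Algebra K F']

/-- The overlap chart lies in each of the three vertical valuation subrings. -/
theorem chart01_le_V {O : ValuationSubring K} {q : ℕ} {α β : F' →ₐ[K] F}
    {Nα Nβ : F →* F'} (D : KillData O q α β Nα Nβ) (c : Fin 3) {b : F}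
    (hb : b ∈ chart01 O D.x) : b ∈ D.V c := by
  refine mem_valuationSubring_of_mem_chartRing O (D.V c) (D.const_V c) _ ?_ hb
  rintro y (rfl | rfl)
  · exact (D.x_V c).1
  · exact (D.x_V c).2

/-- **END half of (KILL)** on `helper36.KillData`: seeds on the two charts give
`u ∈ K^× · F^n`. -/
theorem kill_of_seedLocal {O : ValuationSubring K} {q : ℕ} {α β : F' →ₐ[K] F}
    {Nα Nβ : F →* F'} (hO : BaseDVR O q) (D : KillData O q α β Nα Nβ)
    (n : ℕ) (hn0 : 0 < n) (hnq : Nat.Coprime n q)
    (u : F) (hu0 : u ≠ 0) (hu : ∀ c, u ∈ D.V c ∧ u⁻¹ ∈ D.V c)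
    (G : Fin 3 → F) (hG : ∀ c, (D.V c).valuation (G c ^ n - u) < 1)
    (hloc0 : SeedLocal (chart O D.x 0) n (fun c => (D.V c).valuation) u G)
    (hloc1 : SeedLocal (chart O D.x 1) n (fun c => (D.V c).valuation) u G) :
    ∃ κ : K, κ ≠ 0 ∧ ∃ w : F, u = algebraMap K F κ * w ^ n := by
  have : CharZero K := charZero_of_natCast_mem_nonunits O q hO.prime hO.q_ne hO.q_mem
  have : IsNoetherianRing O := hO.noeth
  have := D.x_fin
  have hu1 : ∀ c, (D.V c).valuation u = 1 := by
    intro c
    have h1 : (D.V c).valuation u ≤ 1 := ((D.V c).valuation_le_one_iff u).mpr (hu c).1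
    have h2 : (D.V c).valuation u⁻¹ ≤ 1 := ((D.V c).valuation_le_one_iff _).mpr (hu c).2
    rw [map_inv₀] at h2
    have hpos : 0 < (D.V c).valuation u := zero_lt_iff.mpr ((map_ne_zero _).mpr hu0)
    exact le_antisymm h1 ((inv_le_one₀ hpos).mp h2)
  exact kill_end_core O D.x D.x_trans D.const_closed q hO.q_ne hO.q_mem n hn0
    (natCast_inv_mem_of_coprime O q n hO.q_mem hnq) D.V
    (fun c b hb => chart01_le_V D c hb)
    (fun y hy hv => D.rad 0 y hy hv)
    (fun y hy hv => D.rad 1 y hy hv)
    (fun y hy hv => D.rad01 y hy hv)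
    u hu0 hu1 G hG hloc0 hloc1

end Fermat.Agent.S36.helper2781
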