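import Fermat.Agent.S36.helper4913_SeedCharts

/-!
# S36 (D2): the local seed hypothesis from root-closed branches and equal branch values

`seedLocal_of_values` produces the hypothesis `SeedLocal` of `exists_seeds_nilMod` from

* (LP): at every maximal ideal `P ⊇ {b ∈ B | ∀ c, v c b < 1}` an `h ≠ 0` with `u / h ^ n` a unit
  of `B_P`;
* (BI): for every component `c`, the reduction of `B` along `v c` is closed under `n`-th roots in
  the residue field of `v c` (lifted form: `g ^ n ≡ b` with `b ∈ B` implies `g ≡ r` with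
  `r ∈ B`); this holds when the reduced component is normal;
* (EV): at every `P`, for two DIFFERENT components `c ≠ c'` through `P`, the functions `G c / h`
  and `G c' / h` have the same value at `P` (whenever `G c / h ≡ r / s` along `c` and
  `G c' / h ≡ r' / s'` along `c'` with `s, s' ∉ P`, then `r * s' - r' * s ∈ P`).

At a point lying on one component only, (EV) is empty: nothing beyond (LP) and (BI) is needed.
-/

namespace Fermat.Agent.S36.helper4913

variable {F : Type*} [Field F]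

theorem seedLocal_of_values (B : Subring F) (n : ℕ) (hn0 : n ≠ 0)
    {ι : Type*} {Γ : ι → Type*} [∀ c, LinearOrderedCommGroupWithZero (Γ c)]
    (v : ∀ c, Valuation F (Γ c)) (hBv : ∀ c, ∀ b : B, v c (b : F) ≤ 1)
    (u : F) (hu : ∀ c, v c u = 1) (G : ι → F) (hG : ∀ c, v c (G c ^ n - u) < 1)
    (hBI : ∀ c, ∀ g : F, (∃ b : B, v c (g ^ n - (b : F)) < 1) → ∃ r : B, v c (g - (r : F)) < 1)
    (hloc : ∀ P : Ideal B, P.IsMaximal → (∀ b : B, (∀ c, v c (b : F) < 1) → b ∈ P) →
      ∃ h : F, h ≠ 0 ∧ (∃ b s : B, b ∉ P ∧ s ∉ P ∧ u * (s : F) = (b : F) * h ^ n) ∧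
        ∀ c c', c ≠ c' → (∀ b : B, v c (b : F) < 1 → b ∈ P) →
          (∀ b : B, v c' (b : F) < 1 → b ∈ P) →
          ∀ r s r' s' : B, s ∉ P → s' ∉ P → v c (G c / h * (s : F) - (r : F)) < 1 →
            v c' (G c' / h * (s' : F) - (r' : F)) < 1 → r * s' - r' * s ∈ P) :
    SeedLocal B n v u G := by
  classical
  intro P hPmax hJP
  have hPprime : P.IsPrime := hPmax.isPrime
  obtain ⟨h, hh0, ⟨bε, sε, hbε, hsε, hεeq⟩, hEV⟩ := hloc P hPmax hJP
  refine ⟨h, hh0, ⟨bε, sε, hbε, hsε, hεeq⟩, ?_⟩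
  have hval1 : ∀ c, (∀ b : B, v c (b : F) < 1 → b ∈ P) → ∀ s : B, s ∉ P → v c (s : F) = 1 :=
    fun c hc s hs => le_antisymm (hBv c s) (not_lt.1 fun hlt => hs (hc s hlt))
  have hhn0 : h ^ n ≠ 0 := pow_ne_zero _ hh0
  have hh1 : ∀ c, (∀ b : B, v c (b : F) < 1 → b ∈ P) → v c (h ^ n) = 1 := by
    intro c hc
    have := congrArg (v c) hεeq
    rw [map_mul, map_mul, hu c, hval1 c hc sε hsε, hval1 c hc bε hbε, one_mul, one_mul] at this
    exact this.symm
  -- along every component through `P`, `sε * (G c / h)` is congruent to an element of `B`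
  have hr : ∀ c, (∀ b : B, v c (b : F) < 1 → b ∈ P) →
      ∃ r : B, v c (G c / h * (sε : F) - (r : F)) < 1 := by
    intro c hc
    apply hBI c
    refine ⟨bε * sε ^ (n - 1), ?_⟩
    have e : (G c / h * (sε : F)) ^ n - ((bε * sε ^ (n - 1) : B) : F)
        = ((sε : F) ^ n * (h ^ n)⁻¹) * (G c ^ n - u) := by
      obtain ⟨k, rfl⟩ : ∃ k, n = k + 1 := Nat.exists_eq_succ_of_ne_zero hn0
      rw [Nat.add_sub_cancel]
      push_cast
      have e1 : (bε : F) = u * (sε : F) * (h ^ (k + 1))⁻¹ := by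
        rw [hεeq, mul_assoc, mul_inv_cancel₀ hhn0, mul_one]
      rw [e1, div_eq_mul_inv, mul_pow, mul_pow, inv_pow]
      ring
    rw [e]
    refine val_mul_lt_one_of_le_of_lt _ (val_mul_le_one _ (val_pow_le_one _ (hBv c sε) n) ?_)
      (hG c)
    exact (val_inv_eq_one _ (hh1 c hc)).le
  by_cases hex : ∃ c₀, ∀ b : B, v c₀ (b : F) < 1 → b ∈ P
  · obtain ⟨c₀, hc₀⟩ := hex
    obtain ⟨r₀, hr₀⟩ := hr c₀ hc₀
    obtain ⟨t, i, hi, hti⟩ := hPmax.exists_inv hsε
    -- `t * sε + i = 1` with `i ∈ P`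
    refine ⟨r₀ * t, fun c hc => ?_⟩
    obtain ⟨r, hrc⟩ := hr c hc
    refine ⟨r - r₀ * t * sε, sε, ?_, hsε, ?_⟩
    · have hdiff : r - r₀ ∈ P := by
        by_cases hcc : c = c₀
        · subst hcc
          -- same component: `r ≡ r₀` modulo `v c`, hence modulo `P`
          apply hc
          have e : ((r - r₀ : B) : F)
              = (G c / h * (sε : F) - (r₀ : F)) - (G c / h * (sε : F) - (r : F)) := by
            push_cast
            ring
          rw [e]
          exact val_sub_lt_one _ hr₀ hrc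
        · have h1 := hEV c c₀ hcc hc hc₀ r sε r₀ sε hsε hsε hrc hr₀
          have e : r * sε - r₀ * sε = (r - r₀) * sε := by ring
          rw [e] at h1
          exact (hPprime.mem_or_mem h1).resolve_right hsε
      have e : r - r₀ * t * sε = (r - r₀) + r₀ * i := by
        have : i = 1 - t * sε := by rw [← hti]; ring
        rw [this]
        ring
      rw [e]
      exact P.add_mem hdiff (P.mul_mem_left _ hi)
    · have e : (G c / h - ((r₀ * t : B) : F)) * (sε : F) - ((r - r₀ * t * sε : B) : F)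
          = G c / h * (sε : F) - (r : F) := by
        push_cast
        ring
      rw [e]
      exact hrc
  · exact ⟨0, fun c hc => absurd ⟨c, hc⟩ hex⟩

end Fermat.Agent.S36.helper4913
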