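/-
S36-GLUE4 (helper9004): abstract core of step (4) of route #3001 — the glueing constants of an
inertia-fixed Kummer class at the triple points of the level `q² M'` fibre are killed by `q² - 1`
as soon as both degeneracy norms of the class are trivial.

Everything is stated in a "lifted" vocabulary: valuations of a field `F`, subrings of `F`
(local rings of closed points, constants), a subfield `F'` (the function field of the lower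
level) and a multiplicative map `N : F → F` with values in `F'` (the norm).  No residue fields.

* `Cong v x y` : `v (x - y) < 1`  (congruence modulo the maximal ideal of `v`).
* `BV v O ev x ξ` : `x` has branch value `ξ` at the point `O` along the component `v`:
  there is `z ∈ O` with `x ≡ z` modulo `v` and `ev z = ξ`.
* `local_relation` : the relation `ξa * ξm ^ (q - 1) * ev θb = ξb ^ q * ev θa` at one point, for
  one degeneracy map (`(a, m, b) = (∞, mid, 0)` for `α`, `(0, mid, ∞)` for `β`).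
* `exists_theta_a`, `exists_theta_b` : the constants `θa`, `θb` (independent of the point).
* `pow_relation` : the two relations give `x ^ (q²-1) * (t₁ t₃^q) = y ^ (q²-1) * (t₂ t₄^q)` etc.
-/
import Mathlib

set_option autoImplicit false

namespace Fermat.Agent.S36.helper9004

/-! ### Congruences modulo the maximal ideal of a valuation -/

section Cong

variable {F : Type*} [Field F] {Γ : Type*} [LinearOrderedCommGroupWithZero Γ]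

/-- `x ≡ y` modulo the maximal ideal of the valuation `v`. -/
def Cong (v : Valuation F Γ) (x y : F) : Prop := v (x - y) < 1

variable {v : Valuation F Γ}

theorem Cong.refl (x : F) : Cong v x x := by
  unfold Cong
  rw [sub_self, map_zero]
  exact zero_lt_one

theorem Cong.symm {x y : F} (h : Cong v x y) : Cong v y x := by
  unfold Cong at *
  rwa [Valuation.map_sub_swap]

theorem Cong.trans {x y z : F} (h1 : Cong v x y) (h2 : Cong v y z) : Cong v x z := by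
  unfold Cong at *
  have : x - z = (x - y) + (y - z) := by ring
  rw [this]
  exact Valuation.map_add_lt v h1 h2

theorem Cong.le_one {x y : F} (h : Cong v x y) (hx : v x ≤ 1) : v y ≤ 1 := by
  have : y = x - (x - y) := by ring
  rw [this]
  exact Valuation.map_sub_le v hx (le_of_lt h)

theorem Cong.le_one' {x y : F} (h : Cong v x y) (hy : v y ≤ 1) : v x ≤ 1 :=
  h.symm.le_one hy

theorem Cong.eq_one {x y : F} (h : Cong v x y) (hx : v x = 1) : v y = 1 := by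
  have h1 : v y ≤ 1 := h.le_one (le_of_eq hx)
  rcases lt_or_eq_of_le h1 with h2 | h2
  · exfalso
    have : x = (x - y) + y := by ring
    have h3 : v x < 1 := by
      rw [this]
      exact Valuation.map_add_lt v h h2
    rw [hx] at h3
    exact lt_irrefl _ h3
  · exact h2

theorem Cong.eq_one' {x y : F} (h : Cong v x y) (hy : v y = 1) : v x = 1 :=
  h.symm.eq_one hy

theorem mul_lt_one_of_le_of_lt {a b : Γ} (ha : a ≤ 1) (hb : b < 1) : a * b < 1 :=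
  calc a * b ≤ 1 * b := mul_le_mul' ha le_rfl
    _ = b := one_mul b
    _ < 1 := hb

theorem Cong.mul {x x' y y' : F} (hx : v x ≤ 1) (hy' : v y' ≤ 1) (h1 : Cong v x x')
    (h2 : Cong v y y') : Cong v (x * y) (x' * y') := by
  unfold Cong at *
  have : x * y - x' * y' = x * (y - y') + y' * (x - x') := by ring
  rw [this]
  apply Valuation.map_add_lt
  · rw [map_mul]
    exact mul_lt_one_of_le_of_lt hx h2
  · rw [map_mul]
    exact mul_lt_one_of_le_of_lt hy' h1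

theorem Cong.pow {x x' : F} (hx : v x ≤ 1) (h : Cong v x x') (m : ℕ) :
    Cong v (x ^ m) (x' ^ m) := by
  have hx' : v x' ≤ 1 := h.le_one hx
  induction m with
  | zero => simpa using Cong.refl (v := v) (1 : F)
  | succ m ih =>
    rw [pow_succ, pow_succ]
    refine Cong.mul ?_ hx' ih h
    rw [map_pow]
    exact pow_le_one' hx m

theorem Cong.inv {x x' : F} (hx : v x = 1) (h : Cong v x x') : Cong v x⁻¹ x'⁻¹ := by
  have hx' : v x' = 1 := h.eq_one hx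
  have hx0 : x ≠ 0 := by
    intro h0
    rw [h0, map_zero] at hx
    exact zero_ne_one hx
  have hx'0 : x' ≠ 0 := by
    intro h0
    rw [h0, map_zero] at hx'
    exact zero_ne_one hx'
  unfold Cong at *
  have : x⁻¹ - x'⁻¹ = (x' - x) * (x⁻¹ * x'⁻¹) := by
    field_simp
  rw [this, map_mul, map_mul, map_inv₀, map_inv₀, hx, hx', inv_one, mul_one, mul_one,
    Valuation.map_sub_swap]
  exact h

theorem Cong.div {x x' y y' : F} (hx : v x ≤ 1) (hy : v y = 1) (h1 : Cong v x x')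
    (h2 : Cong v y y') : Cong v (x / y) (x' / y') := by
  rw [div_eq_mul_inv, div_eq_mul_inv]
  refine Cong.mul hx ?_ h1 (Cong.inv hy h2)
  rw [map_inv₀, h2.eq_one hy, inv_one]

theorem Cong.mul_left {y y' : F} (x : F) (hx : v x ≤ 1) (h : Cong v y y') :
    Cong v (x * y) (x * y') := by
  unfold Cong at *
  rw [← mul_sub, map_mul]
  exact mul_lt_one_of_le_of_lt hx h

theorem Cong.mul_right {x x' : F} (y : F) (hy : v y ≤ 1) (h : Cong v x x') :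
    Cong v (x * y) (x' * y) := by
  rw [mul_comm x y, mul_comm x' y]
  exact Cong.mul_left y hy h

theorem Cong.div_right {x x' : F} (y : F) (hy : v y = 1) (h : Cong v x x') :
    Cong v (x / y) (x' / y) := by
  rw [div_eq_mul_inv, div_eq_mul_inv]
  refine Cong.mul_right _ ?_ h
  rw [map_inv₀, hy, inv_one]

theorem val_pow_eq_one {x : F} {m : ℕ} (hm : m ≠ 0) (h : v (x ^ m) = 1) : v x = 1 := by
  rw [map_pow] at h
  exact (pow_eq_one_iff_of_nonneg zero_le hm).mp h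

end Cong

/-! ### Branch values -/

section BV

variable {F : Type*} [Field F] {Γ : Type*} [LinearOrderedCommGroupWithZero Γ]
  {k : Type*} [CommRing k]

/-- `x` has branch value `ξ` at the point `O` (a subring of `F`, with evaluation `ev`) along the
component `v`: there is `z ∈ O` with `x ≡ z` modulo the maximal ideal of `v` and `ev z = ξ`. -/
def BV (v : Valuation F Γ) (O : Subring F) (ev : O →+* k) (x : F) (ξ : k) : Prop :=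
  ∃ z : O, Cong v x (z : F) ∧ ev z = ξ

variable {v : Valuation F Γ} {O : Subring F} {ev : O →+* k}

theorem BV.of_mem (z : O) : BV v O ev (z : F) (ev z) :=
  ⟨z, Cong.refl _, rfl⟩

theorem BV.le_one (hO : ∀ z ∈ O, v z ≤ 1) {x : F} {ξ : k} (h : BV v O ev x ξ) : v x ≤ 1 := by
  obtain ⟨z, hz, -⟩ := h
  exact hz.le_one' (hO z z.2)

theorem BV.congr {x x' : F} {ξ : k} (h : BV v O ev x ξ) (hx : Cong v x x') : BV v O ev x' ξ := by
  obtain ⟨z, hz, hξ⟩ := h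
  exact ⟨z, hx.symm.trans hz, hξ⟩

theorem BV.mul (hO : ∀ z ∈ O, v z ≤ 1) {x x' : F} {ξ ξ' : k} (h : BV v O ev x ξ)
    (h' : BV v O ev x' ξ') : BV v O ev (x * x') (ξ * ξ') := by
  have hx : v x ≤ 1 := h.le_one hO
  obtain ⟨z, hz, hξ⟩ := h
  obtain ⟨z', hz', hξ'⟩ := h'
  refine ⟨z * z', ?_, by rw [map_mul, hξ, hξ']⟩
  rw [Subring.coe_mul]
  exact Cong.mul hx (hO z' z'.2) hz hz'

theorem BV.pow (hO : ∀ z ∈ O, v z ≤ 1) {x : F} {ξ : k} (h : BV v O ev x ξ) (m : ℕ) :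
    BV v O ev (x ^ m) (ξ ^ m) := by
  induction m with
  | zero =>
    rw [pow_zero, pow_zero]
    have := BV.of_mem (v := v) (ev := ev) (1 : O)
    rwa [map_one, Subring.coe_one] at this
  | succ m ih =>
    rw [pow_succ, pow_succ]
    exact BV.mul hO ih h

theorem BV.unique (hev : ∀ z : O, v (z : F) < 1 → ev z = 0) {x : F} {ξ ξ' : k}
    (h : BV v O ev x ξ) (h' : BV v O ev x ξ') : ξ = ξ' := by
  obtain ⟨z, hz, hξ⟩ := h
  obtain ⟨z', hz', hξ'⟩ := h'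
  have h1 : Cong v (z : F) (z' : F) := hz.symm.trans hz'
  have h2 : ev (z - z') = 0 := hev (z - z') (by push_cast; exact h1)
  rw [map_sub, sub_eq_zero] at h2
  rw [← hξ, ← hξ', h2]

/-- Two elements of `O` that are congruent modulo `v` have the same value. -/
theorem ev_eq_of_cong (hev : ∀ z : O, v (z : F) < 1 → ev z = 0) {z z' : O}
    (h : Cong v (z : F) (z' : F)) : ev z = ev z' := by
  have h2 : ev (z - z') = 0 := hev (z - z') (by push_cast; exact h)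
  rwa [map_sub, sub_eq_zero] at h2

end BV

/-! ### Small valuation lemmas -/

section Aux

variable {F : Type*} [Field F] {Γ Γ' : Type*} [LinearOrderedCommGroupWithZero Γ]
  [LinearOrderedCommGroupWithZero Γ']

theorem ne_zero_of_val_eq_one {v : Valuation F Γ} {x : F} (h : v x = 1) : x ≠ 0 := by
  intro h0
  rw [h0, map_zero] at h
  exact zero_ne_one h

/-- A unit of a subring on which `v ≤ 1` has valuation one. -/
theorem val_eq_one_of_unit {v : Valuation F Γ} {O : Subring F} (hO : ∀ z ∈ O, v z ≤ 1) {x : F}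
    (hx0 : x ≠ 0) (hx : x ∈ O) (hx' : x⁻¹ ∈ O) : v x = 1 := by
  have h1 : v x ≤ 1 := hO x hx
  have h2 : v x⁻¹ ≤ 1 := hO _ hx'
  have h3 : v x * v x⁻¹ = 1 := by
    rw [← map_mul, mul_inv_cancel₀ hx0, map_one]
  rcases lt_or_eq_of_le h1 with h4 | h4
  · exfalso
    have : v x * v x⁻¹ < 1 := by
      rw [mul_comm]
      exact mul_lt_one_of_le_of_lt h2 h4
    rw [h3] at this
    exact lt_irrefl _ this
  · exact h4

/-- If `u` and `u / h ^ n` have valuation one (`n ≠ 0`), so does `h`. -/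
theorem val_eq_one_of_div_pow {v : Valuation F Γ} {u h : F} {n : ℕ} (hn : n ≠ 0) (hu : v u = 1)
    (hε : v (u / h ^ n) = 1) : v h = 1 := by
  have hh0 : h ≠ 0 := by
    intro h0
    rw [h0, zero_pow hn, div_zero, map_zero] at hε
    exact zero_ne_one hε
  have h1 : v (h ^ n) = 1 := by
    have h2 : u = u / h ^ n * h ^ n := by
      field_simp
    have h3 : v u = v (u / h ^ n) * v (h ^ n) := by
      rw [← map_mul, ← h2]
    rw [hu, hε, one_mul] at h3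
    exact h3.symm
  exact val_pow_eq_one hn h1

theorem le_one_iff_not_inv_lt {v : Valuation F Γ} {y : F} (hy0 : y ≠ 0) :
    v y ≤ 1 ↔ ¬ v y⁻¹ < 1 := by
  have h3 : v y * v y⁻¹ = 1 := by
    rw [← map_mul, mul_inv_cancel₀ hy0, map_one]
  constructor
  · intro h1 h2
    have : v y * v y⁻¹ < 1 := mul_lt_one_of_le_of_lt h1 h2
    rw [h3] at this
    exact lt_irrefl _ this
  · intro h1
    by_contra h2
    apply h1
    have h2' : 1 < v y := lt_of_not_ge h2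
    have h4 : v y⁻¹ = (v y)⁻¹ := map_inv₀ v y
    rw [h4]
    exact inv_lt_one_of_one_lt₀ h2'

variable {va : Valuation F Γ} {vm : Valuation F Γ'} {F' : Subfield F}

/-- Two valuations with the same maximal ideal on the subfield `F'` have the same valuation ring
on `F'`. -/
theorem same_le (hsame : ∀ y ∈ F', va y < 1 ↔ vm y < 1) {y : F} (hy : y ∈ F') :
    va y ≤ 1 ↔ vm y ≤ 1 := by
  by_cases hy0 : y = 0
  · rw [hy0, map_zero, map_zero]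
    exact ⟨fun _ => zero_le_one, fun _ => zero_le_one⟩
  · rw [le_one_iff_not_inv_lt hy0, le_one_iff_not_inv_lt hy0, hsame _ (F'.inv_mem hy)]

theorem same_eq (hsame : ∀ y ∈ F', va y < 1 ↔ vm y < 1) {y : F} (hy : y ∈ F') :
    va y = 1 ↔ vm y = 1 := by
  have h1 := same_le hsame hy
  have h2 := hsame y hy
  constructor
  · intro h
    have h3 : vm y ≤ 1 := h1.mp (le_of_eq h)
    rcases lt_or_eq_of_le h3 with h4 | h4
    · have := h2.mpr h4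
      rw [h] at this
      exact absurd this (lt_irrefl _)
    · exact h4
  · intro h
    have h3 : va y ≤ 1 := h1.mpr (le_of_eq h)
    rcases lt_or_eq_of_le h3 with h4 | h4
    · have := h2.mp h4
      rw [h] at this
      exact absurd this (lt_irrefl _)
    · exact h4

end Aux

/-! ### The local relation at one point, for one degeneracy map -/

section Local

variable {F : Type*} [Field F] {Γa Γm Γb : Type*} [LinearOrderedCommGroupWithZero Γa]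
  [LinearOrderedCommGroupWithZero Γm] [LinearOrderedCommGroupWithZero Γb]

/-- A multiplicative map commutes with powers. -/
theorem map_pow_of_mul {N : F → F} (hN1 : N 1 = 1) (hNmul : ∀ x y, N (x * y) = N x * N y)
    (x : F) (m : ℕ) : N (x ^ m) = N x ^ m := by
  induction m with
  | zero => rw [pow_zero, pow_zero, hN1]
  | succ m ih => rw [pow_succ, pow_succ, hNmul, ih]

/-- **Local relation** (step (4) of route #3001 at one point, for one degeneracy map).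

`va`, `vm`, `vb` are the three components through the point (`(a, m, b) = (∞, mid, 0)` for `α`,
`(0, mid, ∞)` for `β`); `F'` is the function field of the lower level, `N` the norm; `O` is the
local ring of the point, `O'` the local ring of its image; `u = ε h ^ n` with `ε ∈ Oˣ`;
`N u = c' w ^ n`; `Ga`, `Gm`, `Gb` are `n`-th roots of `u` modulo the three valuations, with
branch values `ξa`, `ξm`, `ξb` of `G / h`; `θa`, `θb` are the constants with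
`a₁ a₂ ^ (q - 1) ≡ θa w` modulo `va` and `Gb ^ q ≡ θb w` modulo `vb`.  Then
`ξa * ξm ^ (q - 1) * ev θb = ξb ^ q * ev θa`. -/
theorem local_relation
    (va : Valuation F Γa) (vm : Valuation F Γm) (vb : Valuation F Γb)
    (F' : Subfield F) (N : F → F) (q n : ℕ) (hn : 0 < n)
    (hN1 : N 1 = 1) (hNmul : ∀ x y, N (x * y) = N x * N y) (hNF' : ∀ x, N x ∈ F')
    (hsame : ∀ y ∈ F', va y < 1 ↔ vm y < 1)
    (NR1 : ∀ f a₁ a₂ : F, va f = 1 → vm f = 1 → a₁ ∈ F' → a₂ ∈ F' → va (f - a₁) < 1 →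
      vm (f - a₂) < 1 → va (N f - a₁ * a₂ ^ (q - 1)) < 1)
    (NR2 : ∀ f : F, vb f = 1 → vb (N f - f ^ q) < 1)
    (RESa : ∀ x : F, va x ≤ 1 → ∃ a ∈ F', va (x - a) < 1)
    (RESm : ∀ x : F, vm x ≤ 1 → ∃ a ∈ F', vm (x - a) < 1)
    (O O' : Subring F) (hO' : O' ≤ O) (hO'F' : ∀ x ∈ O', x ∈ F')
    (hOa : ∀ z ∈ O, va z ≤ 1) (hOm : ∀ z ∈ O, vm z ≤ 1) (hOb : ∀ z ∈ O, vb z ≤ 1)
    {k : Type*} [CommRing k] (ev : O →+* k)
    (heva : ∀ z : O, va (z : F) < 1 → ev z = 0)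
    (hevm : ∀ z : O, vm (z : F) < 1 → ev z = 0)
    (hevb : ∀ z : O, vb (z : F) < 1 → ev z = 0)
    (PTa : ∀ z ∈ O, ∃ z' ∈ O', va (z - z') < 1)
    (PTm : ∀ z ∈ O, ∃ z' ∈ O', vm (z - z') < 1)
    (hNunit : ∀ x ∈ O, x⁻¹ ∈ O → N x ∈ O' ∧ (N x)⁻¹ ∈ O')
    (hroot : ∀ y ∈ F', y ^ n ∈ O' → y ∈ O')
    (u h c' w : F) (hu : u ≠ 0) (hh : h ≠ 0)
    (hua : va u = 1) (hum : vm u = 1) (hub : vb u = 1)
    (hε : u / h ^ n ∈ O) (hε' : (u / h ^ n)⁻¹ ∈ O)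
    (hc' : c' ∈ O') (hc'inv : c'⁻¹ ∈ O') (hc'0 : c' ≠ 0) (hw : w ∈ F')
    (hTRIV : N u = c' * w ^ n)
    (Ga Gm Gb a₁ a₂ θa θb : F) (ha₂ : a₂ ∈ F')
    (hGa₁ : va (Ga - a₁) < 1) (hGm₂ : vm (Gm - a₂) < 1)
    (hθa : θa ∈ O') (hθb : θb ∈ O')
    (hΛa : va (a₁ * a₂ ^ (q - 1) - θa * w) < 1) (hΛb : vb (Gb ^ q - θb * w) < 1)
    (ξa ξm ξb : k) (hξa : BV va O ev (Ga / h) ξa) (hξm : BV vm O ev (Gm / h) ξm)
    (hξb : BV vb O ev (Gb / h) ξb) :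
    ξa * ξm ^ (q - 1) * ev ⟨θb, hO' hθb⟩ = ξb ^ q * ev ⟨θa, hO' hθa⟩ := by
  have hn0 : n ≠ 0 := Nat.pos_iff_ne_zero.mp hn
  have hε0 : u / h ^ n ≠ 0 := div_ne_zero hu (pow_ne_zero n hh)
  -- `h` is a unit at the three valuations
  have hha : va h = 1 := val_eq_one_of_div_pow hn0 hua (val_eq_one_of_unit hOa hε0 hε hε')
  have hhm : vm h = 1 := val_eq_one_of_div_pow hn0 hum (val_eq_one_of_unit hOm hε0 hε hε')
  have hhb : vb h = 1 := val_eq_one_of_div_pow hn0 hub (val_eq_one_of_unit hOb hε0 hε hε')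
  -- lifts of `h` to `F'`
  obtain ⟨b₁, hb₁F, hb₁⟩ := RESa h (le_of_eq hha)
  obtain ⟨b₂, hb₂F, hb₂⟩ := RESm h (le_of_eq hhm)
  have hb₁c : Cong va h b₁ := hb₁
  have hb₂c : Cong vm h b₂ := hb₂
  have hb₁a : va b₁ = 1 := hb₁c.eq_one hha
  have hb₂m : vm b₂ = 1 := hb₂c.eq_one hhm
  have hb₂a : va b₂ = 1 := (same_eq hsame hb₂F).mpr hb₂m
  have hb₁0 : b₁ ≠ 0 := ne_zero_of_val_eq_one hb₁a
  have hb₂0 : b₂ ≠ 0 := ne_zero_of_val_eq_one hb₂a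
  -- the norm of `h` at `va`
  have hNh : Cong va (N h) (b₁ * b₂ ^ (q - 1)) := NR1 h b₁ b₂ hha hhm hb₁F hb₂F hb₁ hb₂
  have hbb : va (b₁ * b₂ ^ (q - 1)) = 1 := by
    rw [map_mul, map_pow, hb₁a, hb₂a, one_pow, one_mul]
  have hNha : va (N h) = 1 := hNh.eq_one' hbb
  have hNh0 : N h ≠ 0 := ne_zero_of_val_eq_one hNha
  -- `ω = w / N h` is a unit of `O'`
  have hNε := hNunit _ hε hε'
  have hu_eq : u = u / h ^ n * h ^ n := by
    field_simp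
  have hNu : N u = N (u / h ^ n) * N h ^ n := by
    conv_lhs => rw [hu_eq]
    rw [hNmul, map_pow_of_mul hN1 hNmul]
  have hNε0 : N (u / h ^ n) ≠ 0 := by
    intro h0
    have h1 : N (u / h ^ n * (u / h ^ n)⁻¹) = N (u / h ^ n) * N (u / h ^ n)⁻¹ := hNmul _ _
    rw [mul_inv_cancel₀ hε0, hN1, h0, zero_mul] at h1
    exact one_ne_zero h1
  have hw0 : w ≠ 0 := by
    intro h0
    rw [hNu, h0, zero_pow hn0, mul_zero] at hTRIV
    exact mul_ne_zero hNε0 (pow_ne_zero n hNh0) hTRIV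
  have hωF : w / N h ∈ F' := F'.div_mem hw (hNF' h)
  have hωn : (w / N h) ^ n = N (u / h ^ n) * c'⁻¹ := by
    rw [hNu] at hTRIV
    rw [div_pow]
    field_simp
    rw [mul_comm (w ^ n) c', ← hTRIV]
    ring
  have hωO : w / N h ∈ O' := hroot _ hωF (by rw [hωn]; exact O'.mul_mem hNε.1 hc'inv)
  have hωinvO : (w / N h)⁻¹ ∈ O' := by
    refine hroot _ (F'.inv_mem hωF) ?_
    rw [inv_pow, hωn, mul_inv, inv_inv]
    exact O'.mul_mem hNε.2 hc'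
  -- the branch values
  obtain ⟨za, hza, hξa'⟩ := hξa
  obtain ⟨zm, hzm, hξm'⟩ := hξm
  obtain ⟨zb, hzb, hξb'⟩ := hξb
  obtain ⟨za', hza'O, hza'⟩ := PTa za za.2
  obtain ⟨zm', hzm'O, hzm'⟩ := PTm zm zm.2
  have hza'c : Cong va (za : F) za' := hza'
  have hzm'c : Cong vm (zm : F) zm' := hzm'
  have hev_a : ev ⟨za', hO' hza'O⟩ = ξa := by
    rw [← hξa']
    exact (ev_eq_of_cong heva (z := za) (z' := ⟨za', hO' hza'O⟩) hza'c).symm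
  have hev_m : ev ⟨zm', hO' hzm'O⟩ = ξm := by
    rw [← hξm']
    exact (ev_eq_of_cong hevm (z := zm) (z' := ⟨zm', hO' hzm'O⟩) hzm'c).symm
  -- `a₁ / b₁ ≡ za'` modulo `va`
  have hGa_le : va Ga ≤ 1 := by
    have h1 := hza.le_one' (hOa za za.2)
    rwa [map_div₀, hha, div_one] at h1
  have hGm_le : vm Gm ≤ 1 := by
    have h1 := hzm.le_one' (hOm zm zm.2)
    rwa [map_div₀, hhm, div_one] at h1
  have hGb_le : vb Gb ≤ 1 := by
    have h1 := hzb.le_one' (hOb zb zb.2)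
    rwa [map_div₀, hhb, div_one] at h1
  have h1 : Cong va (a₁ / b₁) za' := by
    have hc1 : Cong va (Ga / h) (a₁ / b₁) := Cong.div hGa_le hha hGa₁ hb₁c
    exact hc1.symm.trans (hza.trans hza'c)
  have h2m : Cong vm (a₂ / b₂) zm' := by
    have hc1 : Cong vm (Gm / h) (a₂ / b₂) := Cong.div hGm_le hhm hGm₂ hb₂c
    exact hc1.symm.trans (hzm.trans hzm'c)
  have h2 : Cong va (a₂ / b₂) zm' :=
    (hsame _ (F'.sub_mem (F'.div_mem ha₂ hb₂F) (hO'F' _ hzm'O))).mpr h2m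
  have hza'_le : va za' ≤ 1 := hOa _ (hO' hza'O)
  have hzm'_le : va zm' ≤ 1 := hOa _ (hO' hzm'O)
  have h3 : Cong va ((a₁ / b₁) * (a₂ / b₂) ^ (q - 1)) (za' * zm' ^ (q - 1)) := by
    refine Cong.mul (h1.le_one' hza'_le) ?_ h1 (Cong.pow (h2.le_one' hzm'_le) h2 _)
    rw [map_pow]
    exact pow_le_one' hzm'_le _
  have h4 : (a₁ / b₁) * (a₂ / b₂) ^ (q - 1) = (a₁ * a₂ ^ (q - 1)) / (b₁ * b₂ ^ (q - 1)) := by
    rw [div_pow, div_mul_div_comm]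
  have ha₁_le : va a₁ ≤ 1 := Cong.le_one hGa₁ hGa_le
  have ha₂_le : va a₂ ≤ 1 := (same_le hsame ha₂).mpr (Cong.le_one hGm₂ hGm_le)
  have hΛ_le : va (a₁ * a₂ ^ (q - 1)) ≤ 1 := by
    rw [map_mul, map_pow]
    exact mul_le_one' ha₁_le (pow_le_one' ha₂_le _)
  have h5 : Cong va ((a₁ * a₂ ^ (q - 1)) / N h) ((a₁ * a₂ ^ (q - 1)) / (b₁ * b₂ ^ (q - 1))) :=
    Cong.div hΛ_le hNha (Cong.refl _) hNh
  have h6 : Cong va ((a₁ * a₂ ^ (q - 1)) / N h) (θa * w / N h) := Cong.div_right _ hNha hΛa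
  have h7 : Cong va (θa * (w / N h)) (za' * zm' ^ (q - 1)) := by
    rw [← mul_div_assoc]
    refine h6.symm.trans (h5.trans ?_)
    rw [← h4]
    exact h3
  have hA : ev (⟨θa, hO' hθa⟩ * ⟨w / N h, hO' hωO⟩) = ξa * ξm ^ (q - 1) := by
    have h8 := ev_eq_of_cong heva (z := ⟨θa, hO' hθa⟩ * ⟨w / N h, hO' hωO⟩)
      (z' := ⟨za', hO' hza'O⟩ * ⟨zm', hO' hzm'O⟩ ^ (q - 1)) (by push_cast; exact h7)
    rw [h8, map_mul, map_pow, hev_a, hev_m]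
  -- the `b`-side
  have hNhb : Cong vb (N h) (h ^ q) := NR2 h hhb
  have hhq : vb (h ^ q) = 1 := by rw [map_pow, hhb, one_pow]
  have hNhb1 : vb (N h) = 1 := hNhb.eq_one' hhq
  have hGbq_le : vb (Gb ^ q) ≤ 1 := by
    rw [map_pow]
    exact pow_le_one' hGb_le _
  have h9 : Cong vb (Gb ^ q / N h) (θb * w / N h) := Cong.div_right _ hNhb1 hΛb
  have h10 : Cong vb (Gb ^ q / N h) (Gb ^ q / h ^ q) :=
    Cong.div hGbq_le hNhb1 (Cong.refl _) hNhb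
  have h11 : Cong vb (Gb ^ q / h ^ q) ((zb : F) ^ q) := by
    rw [← div_pow]
    exact Cong.pow (hzb.le_one' (hOb zb zb.2)) hzb q
  have h12 : Cong vb (θb * (w / N h)) ((zb : F) ^ q) := by
    rw [← mul_div_assoc]
    exact h9.symm.trans (h10.trans h11)
  have hB : ev (⟨θb, hO' hθb⟩ * ⟨w / N h, hO' hωO⟩) = ξb ^ q := by
    have h13 := ev_eq_of_cong hevb (z := ⟨θb, hO' hθb⟩ * ⟨w / N h, hO' hωO⟩)
      (z' := zb ^ q) (by push_cast; exact h12)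
    rw [h13, map_pow, hξb']
  rw [map_mul] at hA hB
  rw [← hA, ← hB]
  ring

end Local

/-! ### The constants `θ` (independent of the point) -/

section Theta

variable {F : Type*} [Field F] {Γ Γ' : Type*} [LinearOrderedCommGroupWithZero Γ]
  [LinearOrderedCommGroupWithZero Γ']

/-- If `Λ ^ n ≡ c' w ^ n` modulo `v` with `Λ`, `c'` units, and the residue field of `v` has no
new `n`-th roots of constants (`CONST`), then `Λ ≡ θ w` for a constant unit `θ` with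
`θ ^ n ≡ c'`. -/
theorem theta_of_pow_cong (v : Valuation F Γ) (n : ℕ) (hn : 0 < n) (Cst : Subring F)
    (c' w Λ : F) (hc' : v c' = 1) (hΛ : v Λ = 1) (hcong : Cong v (c' * w ^ n) (Λ ^ n))
    (CONST : ∀ y : F, v (y ^ n - c') < 1 → ∃ θ ∈ Cst, θ⁻¹ ∈ Cst ∧ v (y - θ) < 1) :
    ∃ θ ∈ Cst, θ⁻¹ ∈ Cst ∧ v (Λ - θ * w) < 1 ∧ v (θ ^ n - c') < 1 := by
  have hn0 : n ≠ 0 := Nat.pos_iff_ne_zero.mp hn
  have hΛn : v (Λ ^ n) = 1 := by rw [map_pow, hΛ, one_pow]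
  have hcw : v (c' * w ^ n) = 1 := hcong.eq_one' hΛn
  have hwn : v (w ^ n) = 1 := by
    rw [map_mul, hc', one_mul] at hcw
    exact hcw
  have hw : v w = 1 := val_pow_eq_one hn0 hwn
  have hw0 : w ≠ 0 := ne_zero_of_val_eq_one hw
  have hy : v ((Λ / w) ^ n - c') < 1 := by
    have h1 : (Λ / w) ^ n - c' = (Λ ^ n - c' * w ^ n) / w ^ n := by
      rw [div_pow]
      field_simp
    rw [h1, map_div₀, hwn, div_one]
    exact hcong.symm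
  obtain ⟨θ, hθ, hθinv, hθy⟩ := CONST _ hy
  refine ⟨θ, hθ, hθinv, ?_, ?_⟩
  · have h1 : Λ - θ * w = (Λ / w - θ) * w := by
      field_simp
    rw [h1, map_mul, hw, mul_one]
    exact hθy
  · have hyc : Cong v (Λ / w) θ := hθy
    have hy1 : v (Λ / w) = 1 := by rw [map_div₀, hΛ, hw, div_one]
    have h2 : Cong v ((Λ / w) ^ n) (θ ^ n) := Cong.pow (le_of_eq hy1) hyc n
    exact h2.symm.trans hy

variable {va : Valuation F Γ} {vm : Valuation F Γ'}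

/-- The constant `θa` of the `a`-side: `a₁ a₂ ^ (q - 1) ≡ θa w` modulo `va`. -/
theorem exists_theta_a (va : Valuation F Γ) (vm : Valuation F Γ') (F' : Subfield F) (N : F → F)
    (q n : ℕ) (hn : 0 < n)
    (hsame : ∀ y ∈ F', va y < 1 ↔ vm y < 1)
    (NR1 : ∀ f a₁ a₂ : F, va f = 1 → vm f = 1 → a₁ ∈ F' → a₂ ∈ F' → va (f - a₁) < 1 →
      vm (f - a₂) < 1 → va (N f - a₁ * a₂ ^ (q - 1)) < 1)
    (Cst : Subring F) (u c' w : F) (hua : va u = 1) (hum : vm u = 1) (hc'a : va c' = 1)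
    (hTRIV : N u = c' * w ^ n)
    (CONST : ∀ y : F, va (y ^ n - c') < 1 → ∃ θ ∈ Cst, θ⁻¹ ∈ Cst ∧ va (y - θ) < 1)
    (Ga Gm a₁ a₂ : F) (ha₁ : a₁ ∈ F') (ha₂ : a₂ ∈ F')
    (hGa : va (Ga ^ n - u) < 1) (hGm : vm (Gm ^ n - u) < 1)
    (hGa₁ : va (Ga - a₁) < 1) (hGm₂ : vm (Gm - a₂) < 1) :
    ∃ θ ∈ Cst, θ⁻¹ ∈ Cst ∧ va (a₁ * a₂ ^ (q - 1) - θ * w) < 1 ∧ va (θ ^ n - c') < 1 := by
  have hn0 : n ≠ 0 := Nat.pos_iff_ne_zero.mp hn
  have hGac : Cong va (Ga ^ n) u := hGa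
  have hGmc : Cong vm (Gm ^ n) u := hGm
  have hGa1 : va Ga = 1 := val_pow_eq_one hn0 (hGac.eq_one' hua)
  have hGm1 : vm Gm = 1 := val_pow_eq_one hn0 (hGmc.eq_one' hum)
  have hGa₁c : Cong va Ga a₁ := hGa₁
  have hGm₂c : Cong vm Gm a₂ := hGm₂
  have ha₁1 : va a₁ = 1 := hGa₁c.eq_one hGa1
  have ha₂m : vm a₂ = 1 := hGm₂c.eq_one hGm1
  have ha₂1 : va a₂ = 1 := (same_eq hsame ha₂).mpr ha₂m
  have h1 : Cong va u (a₁ ^ n) := hGac.symm.trans (Cong.pow (le_of_eq hGa1) hGa₁c n)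
  have h2 : Cong vm u (a₂ ^ n) := hGmc.symm.trans (Cong.pow (le_of_eq hGm1) hGm₂c n)
  have h3 : Cong va (N u) (a₁ ^ n * (a₂ ^ n) ^ (q - 1)) :=
    NR1 u (a₁ ^ n) (a₂ ^ n) hua hum (F'.pow_mem ha₁ n) (F'.pow_mem ha₂ n) h1 h2
  have h4 : a₁ ^ n * (a₂ ^ n) ^ (q - 1) = (a₁ * a₂ ^ (q - 1)) ^ n := by
    rw [mul_pow, ← pow_mul, ← pow_mul, mul_comm n (q - 1)]
  rw [h4, hTRIV] at h3
  have hΛ : va (a₁ * a₂ ^ (q - 1)) = 1 := by
    rw [map_mul, map_pow, ha₁1, ha₂1, one_pow, one_mul]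
  exact theta_of_pow_cong va n hn Cst c' w _ hc'a hΛ h3 CONST

/-- The constant `θb` of the `b`-side: `Gb ^ q ≡ θb w` modulo `vb`. -/
theorem exists_theta_b (vb : Valuation F Γ) (N : F → F) (q n : ℕ) (hn : 0 < n)
    (NR2 : ∀ f : F, vb f = 1 → vb (N f - f ^ q) < 1)
    (Cst : Subring F) (u c' w : F) (hub : vb u = 1) (hc'b : vb c' = 1)
    (hTRIV : N u = c' * w ^ n)
    (CONST : ∀ y : F, vb (y ^ n - c') < 1 → ∃ θ ∈ Cst, θ⁻¹ ∈ Cst ∧ vb (y - θ) < 1)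
    (Gb : F) (hGb : vb (Gb ^ n - u) < 1) :
    ∃ θ ∈ Cst, θ⁻¹ ∈ Cst ∧ vb (Gb ^ q - θ * w) < 1 ∧ vb (θ ^ n - c') < 1 := by
  have hn0 : n ≠ 0 := Nat.pos_iff_ne_zero.mp hn
  have hGbc : Cong vb (Gb ^ n) u := hGb
  have hGbn : vb (Gb ^ n) = 1 := hGbc.eq_one' hub
  have hGb1 : vb Gb = 1 := val_pow_eq_one hn0 hGbn
  have h1 : Cong vb (N u) (u ^ q) := NR2 u hub
  have h2 : Cong vb ((Gb ^ n) ^ q) (u ^ q) := Cong.pow (le_of_eq hGbn) hGbc q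
  have h3 : (Gb ^ n) ^ q = (Gb ^ q) ^ n := by
    rw [← pow_mul, ← pow_mul, mul_comm]
  rw [h3] at h2
  have h4 : Cong vb (c' * w ^ n) ((Gb ^ q) ^ n) := by
    rw [← hTRIV]
    exact h1.trans h2.symm
  have hΛ : vb (Gb ^ q) = 1 := by rw [map_pow, hGb1, one_pow]
  exact theta_of_pow_cong vb n hn Cst c' w _ hc'b hΛ h4 CONST

end Theta

/-! ### The two relations combined -/

section Combine

/-- Pure algebra: the relation of `α` and the relation of `β` give the `(q² - 1)`-th power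
relation between the first and the middle branch value (`q = p + 1`, `q² - 1 = p (p + 2)`). -/
theorem pow_relation {k : Type*} [CommRing k] (p : ℕ) (x y z t₁ t₂ t₃ t₄ : k)
    (hA : x * y ^ p * t₂ = z ^ (p + 1) * t₁) (hB : z * y ^ p * t₄ = x ^ (p + 1) * t₃) :
    x * (y ^ (p * (p + 2)) * (t₂ * t₄ ^ (p + 1))) =
      x * (x ^ (p * (p + 2)) * (t₁ * t₃ ^ (p + 1))) := by
  have h1 : x * (y ^ (p * (p + 2)) * (t₂ * t₄ ^ (p + 1))) =
      (x * y ^ p * t₂) * (y ^ p * t₄) ^ (p + 1) := by ring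
  have h2 : z ^ (p + 1) * t₁ * (y ^ p * t₄) ^ (p + 1) = t₁ * (z * y ^ p * t₄) ^ (p + 1) := by
    ring
  rw [h1, hA, h2, hB]
  ring

/-- Unit congruences are stable under the operations used for the twisting constants. -/
theorem cong_ratio {F : Type*} [Field F] {Γ : Type*} [LinearOrderedCommGroupWithZero Γ]
    (v : Valuation F Γ) (n q : ℕ) {θ₁ θ₂ θ₃ θ₄ cα cβ : F} (hcα : v cα = 1) (hcβ : v cβ = 1)
    (h1 : Cong v (θ₁ ^ n) cα) (h2 : Cong v (θ₂ ^ n) cα) (h3 : Cong v (θ₃ ^ n) cβ)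
    (h4 : Cong v (θ₄ ^ n) cβ) :
    Cong v ((θ₂ * θ₄ ^ q * θ₁⁻¹ * (θ₃⁻¹) ^ q) ^ n) 1 := by
  have e1 : v (θ₁ ^ n) = 1 := h1.eq_one' hcα
  have e2 : v (θ₂ ^ n) = 1 := h2.eq_one' hcα
  have e3 : v (θ₃ ^ n) = 1 := h3.eq_one' hcβ
  have e4 : v (θ₄ ^ n) = 1 := h4.eq_one' hcβ
  have hcα0 : cα ≠ 0 := ne_zero_of_val_eq_one hcα
  have hcβ0 : cβ ≠ 0 := ne_zero_of_val_eq_one hcβ
  have hL : (θ₂ * θ₄ ^ q * θ₁⁻¹ * (θ₃⁻¹) ^ q) ^ n =
      θ₂ ^ n * (θ₄ ^ n) ^ q * (θ₁ ^ n)⁻¹ * ((θ₃ ^ n)⁻¹) ^ q := by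
    ring
  have hR : (1 : F) = cα * cβ ^ q * cα⁻¹ * (cβ⁻¹) ^ q := by
    rw [inv_pow]
    field_simp
  rw [hL, hR]
  have i1 : Cong v (θ₁ ^ n)⁻¹ cα⁻¹ := Cong.inv e1 h1
  have i3 : Cong v (θ₃ ^ n)⁻¹ cβ⁻¹ := Cong.inv e3 h3
  have ei3 : v (θ₃ ^ n)⁻¹ = 1 := by rw [map_inv₀, e3, inv_one]
  have p4 : Cong v ((θ₄ ^ n) ^ q) (cβ ^ q) := Cong.pow (le_of_eq e4) h4 q
  have p3 : Cong v (((θ₃ ^ n)⁻¹) ^ q) ((cβ⁻¹) ^ q) := Cong.pow (le_of_eq ei3) i3 q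
  have hcβq : v (cβ ^ q) = 1 := by rw [map_pow, hcβ, one_pow]
  have hcαi : v cα⁻¹ = 1 := by rw [map_inv₀, hcα, inv_one]
  have hcβiq : v ((cβ⁻¹) ^ q) = 1 := by rw [map_pow, map_inv₀, hcβ, inv_one, one_pow]
  have m1 : Cong v (θ₂ ^ n * (θ₄ ^ n) ^ q) (cα * cβ ^ q) :=
    Cong.mul (le_of_eq e2) (le_of_eq hcβq) h2 p4
  have m1v : v (θ₂ ^ n * (θ₄ ^ n) ^ q) = 1 := by
    rw [map_mul, e2, map_pow, e4, one_pow, one_mul]
  have m2 : Cong v (θ₂ ^ n * (θ₄ ^ n) ^ q * (θ₁ ^ n)⁻¹) (cα * cβ ^ q * cα⁻¹) :=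
    Cong.mul (le_of_eq m1v) (le_of_eq hcαi) m1 i1
  have m2v : v (θ₂ ^ n * (θ₄ ^ n) ^ q * (θ₁ ^ n)⁻¹) = 1 := by
    rw [map_mul, m1v, map_inv₀, e1, inv_one, one_mul]
  exact Cong.mul (le_of_eq m2v) (le_of_eq hcβiq) m2 p3

end Combine

/-! ### Packaged hypotheses -/

section Data

variable {F : Type*} [Field F] {Γa Γm Γb : Type*} [LinearOrderedCommGroupWithZero Γa]
  [LinearOrderedCommGroupWithZero Γm] [LinearOrderedCommGroupWithZero Γb]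

/-- Global hypotheses for one degeneracy map, in lifted form.  `va`, `vm` are the two valuations
of `F` over one valuation of `F'` (`e = 1, q - 1`, both `f = 1`), `vb` the valuation with purely
inseparable residue extension of degree `q`; `N` is the norm `F → F'`. -/
structure NormData (va : Valuation F Γa) (vm : Valuation F Γm) (vb : Valuation F Γb)
    (F' : Subfield F) (N : F → F) (q : ℕ) : Prop where
  map_one : N 1 = 1
  map_mul : ∀ x y, N (x * y) = N x * N y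
  mem : ∀ x, N x ∈ F'
  same : ∀ y ∈ F', va y < 1 ↔ vm y < 1
  nr1 : ∀ f a₁ a₂ : F, va f = 1 → vm f = 1 → a₁ ∈ F' → a₂ ∈ F' → va (f - a₁) < 1 →
    vm (f - a₂) < 1 → va (N f - a₁ * a₂ ^ (q - 1)) < 1
  nr2 : ∀ f : F, vb f = 1 → vb (N f - f ^ q) < 1
  resa : ∀ x : F, va x ≤ 1 → ∃ a ∈ F', va (x - a) < 1
  resm : ∀ x : F, vm x ≤ 1 → ∃ a ∈ F', vm (x - a) < 1

/-- Hypotheses at one point for one degeneracy map: `O` is the local ring of the point, `O'` the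
local ring of its image (inside `F'`). -/
structure PointData (va : Valuation F Γa) (vm : Valuation F Γm)
    (F' : Subfield F) (N : F → F) (n : ℕ) (O O' : Subring F) : Prop where
  le : O' ≤ O
  mem : ∀ x ∈ O', x ∈ F'
  pta : ∀ z ∈ O, ∃ z' ∈ O', va (z - z') < 1
  ptm : ∀ z ∈ O, ∃ z' ∈ O', vm (z - z') < 1
  unit : ∀ x ∈ O, x⁻¹ ∈ O → N x ∈ O' ∧ (N x)⁻¹ ∈ O'
  root : ∀ y ∈ F', y ^ n ∈ O' → y ∈ O'

end Data

section BVmore

variable {F : Type*} [Field F] {Γ : Type*} [LinearOrderedCommGroupWithZero Γ]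
  {k : Type*} [Field k] {v : Valuation F Γ} {O : Subring F} {ev : O →+* k}

theorem ev_mul_inv {x : F} (hx0 : x ≠ 0) (hx : x ∈ O) (hx' : x⁻¹ ∈ O) :
    ev ⟨x, hx⟩ * ev ⟨x⁻¹, hx'⟩ = 1 := by
  rw [← map_mul]
  have : (⟨x, hx⟩ : O) * ⟨x⁻¹, hx'⟩ = 1 := by
    apply Subtype.ext
    push_cast
    exact mul_inv_cancel₀ hx0
  rw [this, map_one]

/-- The branch value of an `n`-th root of `u` divided by a local generator is nonzero. -/
theorem BV.ne_zero_of_pow (hO : ∀ z ∈ O, v z ≤ 1) (hev : ∀ z : O, v (z : F) < 1 → ev z = 0)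
    {n : ℕ} (hn : n ≠ 0) {u h G : F} (hu : v u = 1) (hh : h ≠ 0)
    (hε : u / h ^ n ∈ O) (hε' : (u / h ^ n)⁻¹ ∈ O) (hG : v (G ^ n - u) < 1) {ξ : k}
    (hξ : BV v O ev (G / h) ξ) : ξ ≠ 0 := by
  have hu0 : u ≠ 0 := ne_zero_of_val_eq_one hu
  have hε0 : u / h ^ n ≠ 0 := div_ne_zero hu0 (pow_ne_zero n hh)
  have hh1 : v h = 1 := val_eq_one_of_div_pow hn hu (val_eq_one_of_unit hO hε0 hε hε')
  have hhn : v (h ^ n) = 1 := by rw [map_pow, hh1, one_pow]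
  have h1 : BV v O ev ((G / h) ^ n) (ξ ^ n) := hξ.pow hO n
  have hGc : Cong v (G ^ n) u := hG
  have h2 : Cong v ((G / h) ^ n) (u / h ^ n) := by
    rw [div_pow]
    exact Cong.div_right _ hhn hGc
  have h3 : BV v O ev (u / h ^ n) (ξ ^ n) := h1.congr h2
  have h4 : BV v O ev (u / h ^ n) (ev ⟨u / h ^ n, hε⟩) := BV.of_mem (v := v) (ev := ev) ⟨_, hε⟩
  have h5 : ξ ^ n = ev ⟨u / h ^ n, hε⟩ := BV.unique hev h3 h4
  have h6 := ev_mul_inv (ev := ev) hε0 hε hε'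
  intro h0
  rw [h0, zero_pow hn] at h5
  rw [← h5, zero_mul] at h6
  exact zero_ne_one h6

end BVmore

/-! ### The glueing constants are killed by `q² - 1` -/

section Main

variable {F : Type*} [Field F] {ΓI Γm Γ0 : Type*} [LinearOrderedCommGroupWithZero ΓI]
  [LinearOrderedCommGroupWithZero Γm] [LinearOrderedCommGroupWithZero Γ0]

/-- **Step (4) of route #3001, abstract form.**

`vI`, `vm`, `v0` are the three components of the fibre at level `q² M'`; `Fα`, `Fβ` the two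
copies of the function field of level `q M'`, `Nα`, `Nβ` the two norms; `Cst` the ring of
constants.  `u` is a unit at the three valuations with `Nα u = cα wα ^ n`, `Nβ u = cβ wβ ^ n`
(both degeneracy push-forwards of the class are trivial) and `GI`, `Gm`, `G0` are `n`-th roots of
`u` modulo the three valuations.

Then there are constants `k₁`, `k₂` (independent of any point) such that the twisted roots
`GI ^ Q`, `k₁ Gm ^ Q`, `k₁ k₂ G0 ^ Q` of `u ^ Q` (`Q = q² - 1`) have EQUAL branch values at every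
point `O` through which all three components pass: for every local generator `h`
(`u / h ^ n ∈ Oˣ`) such that the `G / h` have branch values at all, the three quotients
`GI ^ Q / h ^ Q`, `k₁ Gm ^ Q / h ^ Q`, `k₁ k₂ G0 ^ Q / h ^ Q` have one common branch value. -/
theorem glue_const
    (vI : Valuation F ΓI) (vm : Valuation F Γm) (v0 : Valuation F Γ0)
    (Fα Fβ : Subfield F) (Nα Nβ : F → F) (q n : ℕ) (hq : 0 < q) (hn : 0 < n)
    (hα : NormData vI vm v0 Fα Nα q) (hβ : NormData v0 vm vI Fβ Nβ q)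
    (Cst : Subring F)
    (hCI : ∀ x ∈ Cst, vI x ≤ 1) (hCm : ∀ x ∈ Cst, vm x ≤ 1) (hC0 : ∀ x ∈ Cst, v0 x ≤ 1)
    (hCst : ∀ x ∈ Cst, (vI x < 1 ↔ vm x < 1) ∧ (vm x < 1 ↔ v0 x < 1))
    (u : F) (huI : vI u = 1) (hum : vm u = 1) (hu0 : v0 u = 1)
    (cα wα cβ wβ : F)
    (hcα : cα ∈ Cst) (hcαinv : cα⁻¹ ∈ Cst) (hcα0 : cα ≠ 0) (hwα : wα ∈ Fα)
    (hTα : Nα u = cα * wα ^ n)
    (hcβ : cβ ∈ Cst) (hcβinv : cβ⁻¹ ∈ Cst) (hcβ0 : cβ ≠ 0) (hwβ : wβ ∈ Fβ)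
    (hTβ : Nβ u = cβ * wβ ^ n)
    (CONSTIα : ∀ y : F, vI (y ^ n - cα) < 1 → ∃ θ ∈ Cst, θ⁻¹ ∈ Cst ∧ vI (y - θ) < 1)
    (CONST0α : ∀ y : F, v0 (y ^ n - cα) < 1 → ∃ θ ∈ Cst, θ⁻¹ ∈ Cst ∧ v0 (y - θ) < 1)
    (CONST0β : ∀ y : F, v0 (y ^ n - cβ) < 1 → ∃ θ ∈ Cst, θ⁻¹ ∈ Cst ∧ v0 (y - θ) < 1)
    (CONSTIβ : ∀ y : F, vI (y ^ n - cβ) < 1 → ∃ θ ∈ Cst, θ⁻¹ ∈ Cst ∧ vI (y - θ) < 1)
    (GI Gm G0 : F) (hGI : vI (GI ^ n - u) < 1) (hGm : vm (Gm ^ n - u) < 1)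
    (hG0 : v0 (G0 ^ n - u) < 1) :
    ∃ k₁ k₂ : F, k₁ ∈ Cst ∧ k₂ ∈ Cst ∧
      vm ((k₁ * Gm ^ (q ^ 2 - 1)) ^ n - u ^ (q ^ 2 - 1)) < 1 ∧
      v0 ((k₁ * k₂ * G0 ^ (q ^ 2 - 1)) ^ n - u ^ (q ^ 2 - 1)) < 1 ∧
      ∀ (O Oα Oβ : Subring F) (k : Type*) [Field k] (ev : O →+* k) (h : F),
        Cst ≤ Oα → Cst ≤ Oβ →
        PointData vI vm Fα Nα n O Oα → PointData v0 vm Fβ Nβ n O Oβ →
        (∀ z ∈ O, vI z ≤ 1) → (∀ z ∈ O, vm z ≤ 1) → (∀ z ∈ O, v0 z ≤ 1) →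
        (∀ z : O, vI (z : F) < 1 → ev z = 0) → (∀ z : O, vm (z : F) < 1 → ev z = 0) →
        (∀ z : O, v0 (z : F) < 1 → ev z = 0) →
        h ≠ 0 → u / h ^ n ∈ O → (u / h ^ n)⁻¹ ∈ O →
        (∃ ξ, BV vI O ev (GI / h) ξ) → (∃ ξ, BV vm O ev (Gm / h) ξ) →
        (∃ ξ, BV v0 O ev (G0 / h) ξ) →
        ∃ ξ : k, BV vI O ev (GI ^ (q ^ 2 - 1) / h ^ (q ^ 2 - 1)) ξ ∧
          BV vm O ev (k₁ * Gm ^ (q ^ 2 - 1) / h ^ (q ^ 2 - 1)) ξ ∧
          BV v0 O ev (k₁ * k₂ * G0 ^ (q ^ 2 - 1) / h ^ (q ^ 2 - 1)) ξ := by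
  have hn0 : n ≠ 0 := Nat.pos_iff_ne_zero.mp hn
  obtain ⟨p, rfl⟩ : ∃ p, q = p + 1 := ⟨q - 1, by omega⟩
  have hQ : (p + 1) ^ 2 - 1 = p * (p + 2) := by
    have : (p + 1) ^ 2 = p * (p + 2) + 1 := by ring
    omega
  have hp1 : p + 1 - 1 = p := by omega
  rw [hQ]
  have hu0' : u ≠ 0 := ne_zero_of_val_eq_one huI
  -- units
  have hGIc : Cong vI (GI ^ n) u := hGI
  have hGmc : Cong vm (Gm ^ n) u := hGm
  have hG0c : Cong v0 (G0 ^ n) u := hG0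
  have hGI1 : vI GI = 1 := val_pow_eq_one hn0 (hGIc.eq_one' huI)
  have hGm1 : vm Gm = 1 := val_pow_eq_one hn0 (hGmc.eq_one' hum)
  have hG01 : v0 G0 = 1 := val_pow_eq_one hn0 (hG0c.eq_one' hu0)
  -- valuations of the constants
  have hcαI : vI cα = 1 := val_eq_one_of_unit hCI hcα0 hcα hcαinv
  have hcαm : vm cα = 1 := val_eq_one_of_unit hCm hcα0 hcα hcαinv
  have hcα00 : v0 cα = 1 := val_eq_one_of_unit hC0 hcα0 hcα hcαinv
  have hcβI : vI cβ = 1 := val_eq_one_of_unit hCI hcβ0 hcβ hcβinv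
  have hcβm : vm cβ = 1 := val_eq_one_of_unit hCm hcβ0 hcβ hcβinv
  have hcβ00 : v0 cβ = 1 := val_eq_one_of_unit hC0 hcβ0 hcβ hcβinv
  -- lifts to `Fα` and `Fβ`
  obtain ⟨a₁, ha₁, hGIa₁⟩ := hα.resa GI (le_of_eq hGI1)
  obtain ⟨a₂, ha₂, hGma₂⟩ := hα.resm Gm (le_of_eq hGm1)
  obtain ⟨b₁, hb₁, hG0b₁⟩ := hβ.resa G0 (le_of_eq hG01)
  obtain ⟨b₂, hb₂, hGmb₂⟩ := hβ.resm Gm (le_of_eq hGm1)
  -- the four constants
  obtain ⟨θ₁, hθ₁, hθ₁i, hΛ₁, hθ₁n⟩ := exists_theta_a vI vm Fα Nα (p + 1) n hn hα.same hα.nr1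
    Cst u cα wα huI hum hcαI hTα CONSTIα GI Gm a₁ a₂ ha₁ ha₂ hGI hGm hGIa₁ hGma₂
  obtain ⟨θ₂, hθ₂, hθ₂i, hΛ₂, hθ₂n⟩ := exists_theta_b v0 Nα (p + 1) n hn hα.nr2
    Cst u cα wα hu0 hcα00 hTα CONST0α G0 hG0
  obtain ⟨θ₃, hθ₃, hθ₃i, hΛ₃, hθ₃n⟩ := exists_theta_a v0 vm Fβ Nβ (p + 1) n hn hβ.same hβ.nr1
    Cst u cβ wβ hu0 hum hcβ00 hTβ CONST0β G0 Gm b₁ b₂ hb₁ hb₂ hG0 hGm hG0b₁ hGmb₂
  obtain ⟨θ₄, hθ₄, hθ₄i, hΛ₄, hθ₄n⟩ := exists_theta_b vI Nβ (p + 1) n hn hβ.nr2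
    Cst u cβ wβ huI hcβI hTβ CONSTIβ GI hGI
  -- the congruences `θ ^ n ≡ c` at all three valuations
  have hd₁ : θ₁ ^ n - cα ∈ Cst := Cst.sub_mem (Cst.pow_mem hθ₁ n) hcα
  have hd₂ : θ₂ ^ n - cα ∈ Cst := Cst.sub_mem (Cst.pow_mem hθ₂ n) hcα
  have hd₃ : θ₃ ^ n - cβ ∈ Cst := Cst.sub_mem (Cst.pow_mem hθ₃ n) hcβ
  have hd₄ : θ₄ ^ n - cβ ∈ Cst := Cst.sub_mem (Cst.pow_mem hθ₄ n) hcβ
  have c1m : Cong vm (θ₁ ^ n) cα := ((hCst _ hd₁).1).mp hθ₁n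
  have c10 : Cong v0 (θ₁ ^ n) cα := ((hCst _ hd₁).2).mp c1m
  have c20 : Cong v0 (θ₂ ^ n) cα := hθ₂n
  have c2m : Cong vm (θ₂ ^ n) cα := ((hCst _ hd₂).2).mpr hθ₂n
  have c30 : Cong v0 (θ₃ ^ n) cβ := hθ₃n
  have c3m : Cong vm (θ₃ ^ n) cβ := ((hCst _ hd₃).2).mpr hθ₃n
  have c4m : Cong vm (θ₄ ^ n) cβ := ((hCst _ hd₄).1).mp hθ₄n
  have c40 : Cong v0 (θ₄ ^ n) cβ := ((hCst _ hd₄).2).mp c4m
  -- the constants are nonzero
  have hθ₁0 : θ₁ ≠ 0 := by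
    have : vm (θ₁ ^ n) = 1 := c1m.eq_one' hcαm
    exact ne_zero_of_val_eq_one (val_pow_eq_one hn0 this)
  have hθ₂0 : θ₂ ≠ 0 := by
    have : vm (θ₂ ^ n) = 1 := c2m.eq_one' hcαm
    exact ne_zero_of_val_eq_one (val_pow_eq_one hn0 this)
  have hθ₃0 : θ₃ ≠ 0 := by
    have : vm (θ₃ ^ n) = 1 := c3m.eq_one' hcβm
    exact ne_zero_of_val_eq_one (val_pow_eq_one hn0 this)
  have hθ₄0 : θ₄ ≠ 0 := by
    have : vm (θ₄ ^ n) = 1 := c4m.eq_one' hcβm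
    exact ne_zero_of_val_eq_one (val_pow_eq_one hn0 this)
  -- the twisting constants
  refine ⟨θ₂ * θ₄ ^ (p + 1) * θ₁⁻¹ * (θ₃⁻¹) ^ (p + 1), θ₃ * θ₁ ^ (p + 1) * θ₄⁻¹ * (θ₂⁻¹) ^ (p + 1),
    ?_, ?_, ?_, ?_, ?_⟩
  · exact Cst.mul_mem (Cst.mul_mem (Cst.mul_mem hθ₂ (Cst.pow_mem hθ₄ _)) hθ₁i)
      (Cst.pow_mem hθ₃i _)
  · exact Cst.mul_mem (Cst.mul_mem (Cst.mul_mem hθ₃ (Cst.pow_mem hθ₁ _)) hθ₄i)
      (Cst.pow_mem hθ₂i _)
  · -- `(k₁ Gm ^ Q) ^ n ≡ u ^ Q` modulo `vm`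
    have hk : Cong vm ((θ₂ * θ₄ ^ (p + 1) * θ₁⁻¹ * (θ₃⁻¹) ^ (p + 1)) ^ n) 1 :=
      cong_ratio vm n (p + 1) hcαm hcβm c1m c2m c3m c4m
    have hk1 : vm ((θ₂ * θ₄ ^ (p + 1) * θ₁⁻¹ * (θ₃⁻¹) ^ (p + 1)) ^ n) = 1 :=
      hk.eq_one' (map_one vm)
    have hGQ : Cong vm ((Gm ^ n) ^ (p * (p + 2))) (u ^ (p * (p + 2))) :=
      Cong.pow (le_of_eq (hGmc.eq_one' hum)) hGmc _
    have huQ : vm (u ^ (p * (p + 2))) = 1 := by rw [map_pow, hum, one_pow]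
    have h1 := Cong.mul (le_of_eq hk1) (le_of_eq huQ) hk hGQ
    have e1 : (θ₂ * θ₄ ^ (p + 1) * θ₁⁻¹ * (θ₃⁻¹) ^ (p + 1) * Gm ^ (p * (p + 2))) ^ n =
        (θ₂ * θ₄ ^ (p + 1) * θ₁⁻¹ * (θ₃⁻¹) ^ (p + 1)) ^ n * (Gm ^ n) ^ (p * (p + 2)) := by
      ring
    rw [one_mul] at h1
    rw [e1]
    exact h1
  · -- `(k₁ k₂ G0 ^ Q) ^ n ≡ u ^ Q` modulo `v0`
    have hk : Cong v0 ((θ₂ * θ₄ ^ (p + 1) * θ₁⁻¹ * (θ₃⁻¹) ^ (p + 1)) ^ n) 1 :=
      cong_ratio v0 n (p + 1) hcα00 hcβ00 c10 c20 c30 c40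
    have hk' : Cong v0 ((θ₃ * θ₁ ^ (p + 1) * θ₄⁻¹ * (θ₂⁻¹) ^ (p + 1)) ^ n) 1 :=
      cong_ratio v0 n (p + 1) hcβ00 hcα00 c40 c30 c20 c10
    have hk1 : v0 ((θ₂ * θ₄ ^ (p + 1) * θ₁⁻¹ * (θ₃⁻¹) ^ (p + 1)) ^ n) = 1 :=
      hk.eq_one' (map_one v0)
    have hk'1 : v0 ((θ₃ * θ₁ ^ (p + 1) * θ₄⁻¹ * (θ₂⁻¹) ^ (p + 1)) ^ n) = 1 :=
      hk'.eq_one' (map_one v0)
    have hkk := Cong.mul (le_of_eq hk1) (le_of_eq (map_one v0)) hk hk'
    rw [one_mul] at hkk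
    have hkk1 : v0 ((θ₂ * θ₄ ^ (p + 1) * θ₁⁻¹ * (θ₃⁻¹) ^ (p + 1)) ^ n *
        (θ₃ * θ₁ ^ (p + 1) * θ₄⁻¹ * (θ₂⁻¹) ^ (p + 1)) ^ n) = 1 := by
      rw [map_mul, hk1, hk'1, one_mul]
    have hGQ : Cong v0 ((G0 ^ n) ^ (p * (p + 2))) (u ^ (p * (p + 2))) :=
      Cong.pow (le_of_eq (hG0c.eq_one' hu0)) hG0c _
    have huQ : v0 (u ^ (p * (p + 2))) = 1 := by rw [map_pow, hu0, one_pow]
    have h1 := Cong.mul (le_of_eq hkk1) (le_of_eq huQ) hkk hGQ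
    have e1 : (θ₂ * θ₄ ^ (p + 1) * θ₁⁻¹ * (θ₃⁻¹) ^ (p + 1) *
        (θ₃ * θ₁ ^ (p + 1) * θ₄⁻¹ * (θ₂⁻¹) ^ (p + 1)) * G0 ^ (p * (p + 2))) ^ n =
        (θ₂ * θ₄ ^ (p + 1) * θ₁⁻¹ * (θ₃⁻¹) ^ (p + 1)) ^ n *
          (θ₃ * θ₁ ^ (p + 1) * θ₄⁻¹ * (θ₂⁻¹) ^ (p + 1)) ^ n * (G0 ^ n) ^ (p * (p + 2)) := by
      ring
    rw [one_mul] at h1
    rw [e1]
    exact h1
  · -- the points
    intro O Oα Oβ k _ ev h hCα hCβ PDα PDβ hOI hOm hO0 hevI hevm hev0 hh hε hε' hx hy hz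
    obtain ⟨x, hx⟩ := hx
    obtain ⟨y, hy⟩ := hy
    obtain ⟨z, hz⟩ := hz
    have hCO : Cst ≤ O := fun c hc => PDα.le (hCα hc)
    -- the two local relations
    have relA := local_relation vI vm v0 Fα Nα (p + 1) n hn hα.map_one hα.map_mul hα.mem
      hα.same hα.nr1 hα.nr2 hα.resa hα.resm O Oα PDα.le PDα.mem hOI hOm hO0 ev hevI hevm hev0
      PDα.pta PDα.ptm PDα.unit PDα.root u h cα wα hu0' hh huI hum hu0 hε hε' (hCα hcα)
      (hCα hcαinv) hcα0 hwα hTα GI Gm G0 a₁ a₂ θ₁ θ₂ ha₂ hGIa₁ hGma₂ (hCα hθ₁) (hCα hθ₂)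
      hΛ₁ hΛ₂ x y z hx hy hz
    have relB := local_relation v0 vm vI Fβ Nβ (p + 1) n hn hβ.map_one hβ.map_mul hβ.mem
      hβ.same hβ.nr1 hβ.nr2 hβ.resa hβ.resm O Oβ PDβ.le PDβ.mem hO0 hOm hOI ev hev0 hevm hevI
      PDβ.pta PDβ.ptm PDβ.unit PDβ.root u h cβ wβ hu0' hh hu0 hum huI hε hε' (hCβ hcβ)
      (hCβ hcβinv) hcβ0 hwβ hTβ G0 Gm GI b₁ b₂ θ₃ θ₄ hb₂ hG0b₁ hGmb₂ (hCβ hθ₃) (hCβ hθ₄)
      hΛ₃ hΛ₄ z y x hz hy hx
    rw [hp1] at relA relB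
    -- the values of the constants
    set t₁ : k := ev ⟨θ₁, hCO hθ₁⟩ with ht₁
    set t₂ : k := ev ⟨θ₂, hCO hθ₂⟩ with ht₂
    set t₃ : k := ev ⟨θ₃, hCO hθ₃⟩ with ht₃
    set t₄ : k := ev ⟨θ₄, hCO hθ₄⟩ with ht₄
    set s₁ : k := ev ⟨θ₁⁻¹, hCO hθ₁i⟩ with hs₁
    set s₂ : k := ev ⟨θ₂⁻¹, hCO hθ₂i⟩ with hs₂
    set s₃ : k := ev ⟨θ₃⁻¹, hCO hθ₃i⟩ with hs₃
    set s₄ : k := ev ⟨θ₄⁻¹, hCO hθ₄i⟩ with hs₄
    have hts₁ : t₁ * s₁ = 1 := ev_mul_inv hθ₁0 (hCO hθ₁) (hCO hθ₁i)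
    have hts₂ : t₂ * s₂ = 1 := ev_mul_inv hθ₂0 (hCO hθ₂) (hCO hθ₂i)
    have hts₃ : t₃ * s₃ = 1 := ev_mul_inv hθ₃0 (hCO hθ₃) (hCO hθ₃i)
    have hts₄ : t₄ * s₄ = 1 := ev_mul_inv hθ₄0 (hCO hθ₄) (hCO hθ₄i)
    have relA' : x * y ^ p * t₂ = z ^ (p + 1) * t₁ := relA
    have relB' : z * y ^ p * t₄ = x ^ (p + 1) * t₃ := relB
    -- the branch values are nonzero
    have hx0 : x ≠ 0 := BV.ne_zero_of_pow hOI hevI hn0 huI hh hε hε' hGI hx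
    have hz0 : z ≠ 0 := BV.ne_zero_of_pow hO0 hev0 hn0 hu0 hh hε hε' hG0 hz
    have e1 := mul_left_cancel₀ hx0 (pow_relation p x y z t₁ t₂ t₃ t₄ relA' relB')
    have e2 := mul_left_cancel₀ hz0 (pow_relation p z y x t₃ t₄ t₁ t₂ relB' relA')
    -- the values of the twisting constants
    have hk₁O : θ₂ * θ₄ ^ (p + 1) * θ₁⁻¹ * (θ₃⁻¹) ^ (p + 1) ∈ O :=
      O.mul_mem (O.mul_mem (O.mul_mem (hCO hθ₂) (O.pow_mem (hCO hθ₄) _)) (hCO hθ₁i))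
        (O.pow_mem (hCO hθ₃i) _)
    have hk₂O : θ₃ * θ₁ ^ (p + 1) * θ₄⁻¹ * (θ₂⁻¹) ^ (p + 1) ∈ O :=
      O.mul_mem (O.mul_mem (O.mul_mem (hCO hθ₃) (O.pow_mem (hCO hθ₁) _)) (hCO hθ₄i))
        (O.pow_mem (hCO hθ₂i) _)
    have hevk₁ : ev ⟨_, hk₁O⟩ = t₂ * t₄ ^ (p + 1) * s₁ * s₃ ^ (p + 1) := by
      have : (⟨_, hk₁O⟩ : O) = ⟨θ₂, hCO hθ₂⟩ * ⟨θ₄, hCO hθ₄⟩ ^ (p + 1) * ⟨θ₁⁻¹, hCO hθ₁i⟩ *
          ⟨θ₃⁻¹, hCO hθ₃i⟩ ^ (p + 1) := by
        apply Subtype.ext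
        push_cast
        rfl
      rw [this, map_mul, map_mul, map_mul, map_pow, map_pow]
    have hevk₂ : ev ⟨_, hk₂O⟩ = t₃ * t₁ ^ (p + 1) * s₄ * s₂ ^ (p + 1) := by
      have : (⟨_, hk₂O⟩ : O) = ⟨θ₃, hCO hθ₃⟩ * ⟨θ₁, hCO hθ₁⟩ ^ (p + 1) * ⟨θ₄⁻¹, hCO hθ₄i⟩ *
          ⟨θ₂⁻¹, hCO hθ₂i⟩ ^ (p + 1) := by
        apply Subtype.ext
        push_cast
        rfl
      rw [this, map_mul, map_mul, map_mul, map_pow, map_pow]
    -- `x ^ Q = ev k₁ * y ^ Q`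
    have hxy : x ^ (p * (p + 2)) = ev ⟨_, hk₁O⟩ * y ^ (p * (p + 2)) := by
      rw [hevk₁]
      calc x ^ (p * (p + 2)) = x ^ (p * (p + 2)) * (t₁ * t₃ ^ (p + 1)) * (s₁ * s₃ ^ (p + 1)) := by
            have : t₁ * t₃ ^ (p + 1) * (s₁ * s₃ ^ (p + 1)) = (t₁ * s₁) * (t₃ * s₃) ^ (p + 1) := by
              ring
            rw [mul_assoc, this, hts₁, hts₃, one_pow, mul_one, mul_one]
        _ = y ^ (p * (p + 2)) * (t₂ * t₄ ^ (p + 1)) * (s₁ * s₃ ^ (p + 1)) := by rw [← e1]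
        _ = t₂ * t₄ ^ (p + 1) * s₁ * s₃ ^ (p + 1) * y ^ (p * (p + 2)) := by ring
    -- `y ^ Q = ev k₂ * z ^ Q`
    have hyz : y ^ (p * (p + 2)) = ev ⟨_, hk₂O⟩ * z ^ (p * (p + 2)) := by
      rw [hevk₂]
      calc y ^ (p * (p + 2)) = y ^ (p * (p + 2)) * (t₄ * t₂ ^ (p + 1)) * (s₄ * s₂ ^ (p + 1)) := by
            have : t₄ * t₂ ^ (p + 1) * (s₄ * s₂ ^ (p + 1)) = (t₄ * s₄) * (t₂ * s₂) ^ (p + 1) := by
              ring
            rw [mul_assoc, this, hts₄, hts₂, one_pow, mul_one, mul_one]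
        _ = z ^ (p * (p + 2)) * (t₃ * t₁ ^ (p + 1)) * (s₄ * s₂ ^ (p + 1)) := by rw [← e2]
        _ = t₃ * t₁ ^ (p + 1) * s₄ * s₂ ^ (p + 1) * z ^ (p * (p + 2)) := by ring
    refine ⟨x ^ (p * (p + 2)), ?_, ?_, ?_⟩
    · have h1 := hx.pow hOI (p * (p + 2))
      rwa [div_pow] at h1
    · have h1 := BV.mul hOm (BV.of_mem (v := vm) (ev := ev) ⟨_, hk₁O⟩) (hy.pow hOm (p * (p + 2)))
      rw [← hxy, div_pow, ← mul_div_assoc] at h1
      exact h1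
    · have hkkO : θ₂ * θ₄ ^ (p + 1) * θ₁⁻¹ * (θ₃⁻¹) ^ (p + 1) *
          (θ₃ * θ₁ ^ (p + 1) * θ₄⁻¹ * (θ₂⁻¹) ^ (p + 1)) ∈ O := O.mul_mem hk₁O hk₂O
      have h1 := BV.mul hO0 (BV.of_mem (v := v0) (ev := ev) ⟨_, hkkO⟩)
        (hz.pow hO0 (p * (p + 2)))
      have h2 : ev ⟨_, hkkO⟩ * z ^ (p * (p + 2)) = x ^ (p * (p + 2)) := by
        have : (⟨_, hkkO⟩ : O) = ⟨_, hk₁O⟩ * ⟨_, hk₂O⟩ := rfl
        rw [this, map_mul, mul_assoc, ← hyz, ← hxy]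
      rw [h2, div_pow, ← mul_div_assoc] at h1
      exact h1

end Main

end Fermat.Agent.S36.helper9004
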