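import Mathlib
import Fermat.Agent.S36.helper36_KillData
import Fermat.Agent.S36.helper4913_SeedBranch
import Fermat.Agent.S36.helper9004_GlueConst
import Fermat.Agent.S36.helper1013_VertKill
import Fermat.Agent.S36.helper2454_RootsLift
import Fermat.Agent.S36.helper2781_KillEndData

/-!
# S36 — abstract assembly of (KILL) from the datum `KillData`  (helper36, KILL-ASM)

Adapters from `DegData` / `KillData` (`helper36_KillData`) to the compiled bricks:

* `DegData.normData` : `helper9004.NormData` (global norm hypotheses of `glue_const`);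
* `DegData.pointData` : `helper9004.PointData` at a triple point;
* `exists_const_root` : the `CONST` hypotheses of `glue_const` from the algebraically closed
  residue field of the base;
* `KillData.seedLocal` : `helper4913.SeedLocal` on both charts for the twisted roots produced by
  `glue_const`.
-/

set_option autoImplicit false

namespace Fermat.Agent.S36.helper36

open Fermat.Agent.S36.helper1013 (IsOrd)
open Fermat.Agent.S36.helper248 (chartRing)
open Fermat.Agent.S36.helper1730 (NilMod)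

section Val

variable {F : Type*} [Field F]

theorem val_eq_one_of_mem (A : ValuationSubring F) {y : F} (hy0 : y ≠ 0) (hy : y ∈ A)
    (hy' : y⁻¹ ∈ A) : A.valuation y = 1 := by
  have h1 : A.valuation y ≤ 1 := (A.valuation_le_one_iff y).2 hy
  have h2 : A.valuation y⁻¹ ≤ 1 := (A.valuation_le_one_iff _).2 hy'
  rw [map_inv₀] at h2
  have h3 : A.valuation y ≠ 0 := (Valuation.ne_zero_iff _).2 hy0
  exact le_antisymm h1 ((inv_le_one₀ (zero_lt_iff.2 h3)).1 h2)

theorem mem_of_val_eq_one (A : ValuationSubring F) {y : F} (h : A.valuation y = 1) :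
    y ∈ A ∧ y⁻¹ ∈ A := by
  refine ⟨(A.valuation_le_one_iff y).1 h.le, (A.valuation_le_one_iff _).1 ?_⟩
  rw [map_inv₀, h, inv_one]

theorem val_eq_one_of_mem_of_notMem (A : ValuationSubring F) {y : F} (hy : y ∈ A)
    (hy' : y ∉ A.nonunits) : A.valuation y = 1 := by
  rcases lt_or_eq_of_le ((A.valuation_le_one_iff y).2 hy) with h | h
  · exact absurd (A.mem_nonunits_iff.2 h) hy'
  · exact h

end Val

section Const

open Polynomial

theorem exists_val_lt_one_of_prod {F : Type*} [Field F] {Γ : Type*}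
    [LinearOrderedCommGroupWithZero Γ] (v : Valuation F Γ) (m : Multiset F)
    (h : v m.prod < 1) : ∃ a ∈ m, v a < 1 := by
  induction m using Multiset.induction_on with
  | empty => simp at h
  | cons a m ih =>
    rw [Multiset.prod_cons, map_mul] at h
    by_cases ha : v a < 1
    · exact ⟨a, Multiset.mem_cons_self _ _, ha⟩
    · have ha' : 1 ≤ v a := not_lt.1 ha
      have hm : v m.prod < 1 := by
        by_contra hm
        have hm' : 1 ≤ v m.prod := not_lt.1 hm
        exact absurd h (not_lt.2 (one_le_mul_of_one_le_of_one_le ha' hm'))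
      obtain ⟨b, hb, hb'⟩ := ih hm
      exact ⟨b, Multiset.mem_cons_of_mem hb, hb'⟩

/-- **CONST**: the residue field of the base `O` is algebraically closed, so an `n`-th root, in
the residue field of a valuation `W` of `F` extending `O`, of a unit constant is a constant. -/
theorem exists_const_root {K F : Type*} [Field K] [Field F] [Algebra K F]
    (O : ValuationSubring K) (hk : IsAlgClosed (IsLocalRing.ResidueField O))
    (W : ValuationSubring F) (hOW : ∀ a : K, a ∈ O → algebraMap K F a ∈ W)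
    (hmW : ∀ a : K, a ∈ O.nonunits → algebraMap K F a ∈ W.nonunits)
    {n : ℕ} (hn : 0 < n) (c : K) (hc : c ∈ O) (hc' : c⁻¹ ∈ O) (hc0 : c ≠ 0) (y : F)
    (hy : W.valuation (y ^ n - algebraMap K F c) < 1) :
    ∃ θ ∈ O.toSubring.map (algebraMap K F), θ⁻¹ ∈ O.toSubring.map (algebraMap K F) ∧
      W.valuation (y - θ) < 1 := by
  classical
  have := hk
  let res : O →+* IsLocalRing.ResidueField O := IsLocalRing.residue O
  have hres : Function.Surjective res := IsLocalRing.residue_surjective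
  let c₀ : O := ⟨c, hc⟩
  let p : Polynomial (IsLocalRing.ResidueField O) := X ^ n - C (res c₀)
  have hp : p.Monic := monic_X_pow_sub_C _ hn.ne'
  have hprod : p = (p.roots.map (fun a => X - C a)).prod :=
    (IsAlgClosed.splits p).eq_prod_roots_of_monic hp
  let sec : IsLocalRing.ResidueField O → O := Function.surjInv hres
  have hsec : ∀ a, res (sec a) = a := Function.surjInv_eq hres
  let g : Polynomial O := (p.roots.map (fun a => X - C (sec a))).prod
  have hg : g.map res = p := by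
    rw [Polynomial.map_multiset_prod, Multiset.map_map]
    conv_rhs => rw [hprod]
    congr 1
    apply Multiset.map_congr rfl
    intro a _
    simp [hsec]
  let h : Polynomial O := X ^ n - C c₀ - g
  have hh : h.map res = 0 := by
    simp only [h, Polynomial.map_sub, Polynomial.map_pow, Polynomial.map_X, Polynomial.map_C, hg]
    simp [p]
  have hcoef : ∀ j, ((h.coeff j : O) : K) ∈ O.nonunits := by
    intro j
    have h0 : res (h.coeff j) = 0 := by
      rw [← Polynomial.coeff_map, hh, Polynomial.coeff_zero]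
    rw [IsLocalRing.residue_eq_zero_iff] at h0
    exact ValuationSubring.coe_mem_nonunits_iff.2 h0
  have hcW : W.valuation (algebraMap K F c) = 1 :=
    val_eq_one_of_mem W ((_root_.map_ne_zero _).2 hc0) (hOW c hc) (by
      rw [← map_inv₀]
      exact hOW _ hc')
  have hyn : W.valuation (y ^ n) = 1 := by
    have e : y ^ n = algebraMap K F c + (y ^ n - algebraMap K F c) := by ring
    rw [e, Valuation.map_add_eq_of_lt_left, hcW]
    rw [hcW]
    exact hy
  have hy1 : W.valuation y ≤ 1 := by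
    by_contra hlt
    have hlt' : 1 < W.valuation y := not_le.1 hlt
    have h2 := one_lt_pow₀ hlt' hn.ne'
    rw [map_pow] at hyn
    exact absurd hyn h2.ne'
  have haeval : Polynomial.aeval y h = y ^ n - algebraMap K F c
      - (p.roots.map (fun a => y - algebraMap K F ((sec a : O) : K))).prod := by
    simp only [h, g, map_sub, map_pow, Polynomial.aeval_X, Polynomial.aeval_C]
    rw [map_multiset_prod, Multiset.map_map]
    congr 2
    apply Multiset.map_congr rfl
    intro a _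
    simp only [Function.comp_apply, map_sub, Polynomial.aeval_X, Polynomial.aeval_C]
    rfl
  have hsmall : W.valuation (Polynomial.aeval y h) < 1 := by
    rw [Polynomial.aeval_eq_sum_range]
    apply Valuation.map_sum_lt _ one_ne_zero
    intro j _
    rw [Algebra.smul_def, map_mul, map_pow]
    have h1 : W.valuation (algebraMap O F (h.coeff j)) < 1 :=
      W.mem_nonunits_iff.1 (hmW _ (hcoef j))
    have h2 : W.valuation y ^ j ≤ 1 := pow_le_one₀ zero_le hy1
    calc W.valuation (algebraMap O F (h.coeff j)) * W.valuation y ^ j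
        ≤ W.valuation (algebraMap O F (h.coeff j)) * 1 := by gcongr
      _ < 1 := by rwa [mul_one]
  have hprodlt : W.valuation (p.roots.map (fun a => y - algebraMap K F ((sec a : O) : K))).prod
      < 1 := by
    have e : (p.roots.map (fun a => y - algebraMap K F ((sec a : O) : K))).prod
        = (y ^ n - algebraMap K F c) - Polynomial.aeval y h := by
      rw [haeval]
      ring
    rw [e]
    exact Valuation.map_sub_lt _ hy hsmall
  obtain ⟨t, ht, htlt⟩ := exists_val_lt_one_of_prod _ _ hprodlt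
  obtain ⟨a, ha, rfl⟩ := Multiset.mem_map.1 ht
  have hroot : a ^ n = res c₀ := by
    have := (Polynomial.mem_roots hp.ne_zero).1 ha
    simpa [p, sub_eq_zero] using this
  have hc₀ : res c₀ ≠ 0 := by
    have e : c₀ * ⟨c⁻¹, hc'⟩ = 1 := by
      apply Subtype.ext
      show c * c⁻¹ = 1
      exact mul_inv_cancel₀ hc0
    intro h0
    have := congrArg res e
    rw [map_mul, h0, zero_mul, map_one] at this
    exact zero_ne_one this
  have ha0 : a ≠ 0 := by
    rintro rfl
    rw [zero_pow hn.ne'] at hroot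
    exact hc₀ hroot.symm
  have hunit : IsUnit (sec a) := by
    by_contra hnu
    have : sec a ∈ IsLocalRing.maximalIdeal O := (IsLocalRing.mem_maximalIdeal _).2 hnu
    rw [← IsLocalRing.residue_eq_zero_iff] at this
    exact ha0 ((hsec a).symm.trans this)
  obtain ⟨w, hw⟩ := hunit.exists_right_inv
  have hw' : ((sec a : O) : K) * (w : K) = 1 := by
    have := congrArg Subtype.val hw
    simpa using this
  refine ⟨algebraMap K F ((sec a : O) : K), ⟨_, (sec a).2, rfl⟩, ⟨(w : K), w.2, ?_⟩, htlt⟩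
  show algebraMap K F (w : K) = (algebraMap K F ((sec a : O) : K))⁻¹
  rw [← map_inv₀]
  congr 1
  exact eq_inv_of_mul_eq_one_right hw'

end Const

namespace DegData

variable {K F F' : Type*} [Field K] [Field F] [Field F'] [Algebra K F] [Algebra K F']
  {q : ℕ} {ψ : F' →ₐ[K] F} {Nm : F →* F'} {Va Vm Vb : ValuationSubring F}
  {V1 V2 : ValuationSubring F'} {orda ordm ordb : F → ℤ} {ord1 ord2 : F' → ℤ}
  {B : Fin 2 → Subring F} {B' : Fin 2 → Subring F'}

theorem nonunits_a (D : DegData q ψ Nm Va Vm Vb V1 V2 orda ordm ordb ord1 ord2 B B') (a : F') :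
    ψ a ∈ Va.nonunits ↔ a ∈ V1.nonunits := by
  rw [ValuationSubring.mem_nonunits_iff_or, ValuationSubring.mem_nonunits_iff_or, map_eq_zero,
    ← map_inv₀, D.mem_a]

theorem nonunits_m (D : DegData q ψ Nm Va Vm Vb V1 V2 orda ordm ordb ord1 ord2 B B') (a : F') :
    ψ a ∈ Vm.nonunits ↔ a ∈ V1.nonunits := by
  rw [ValuationSubring.mem_nonunits_iff_or, ValuationSubring.mem_nonunits_iff_or, map_eq_zero,
    ← map_inv₀, D.mem_m]

/-- The global norm hypotheses of `helper9004.glue_const` for one degeneracy map. -/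
theorem normData (D : DegData q ψ Nm Va Vm Vb V1 V2 orda ordm ordb ord1 ord2 B B') :
    helper9004.NormData Va.valuation Vm.valuation Vb.valuation (ψ : F' →+* F).fieldRange
      (fun y => ψ (Nm y)) q where
  map_one := by simp
  map_mul := fun x y => by simp
  mem := fun x => ⟨Nm x, rfl⟩
  same := by
    rintro y ⟨a, rfl⟩
    rw [← ValuationSubring.mem_nonunits_iff, ← ValuationSubring.mem_nonunits_iff]
    exact (D.nonunits_a a).trans (D.nonunits_m a).symm
  nr1 := by
    rintro f a₁ a₂ hfa hfm ⟨a, rfl⟩ ⟨b, rfl⟩ h1 h2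
    obtain ⟨hf, hf'⟩ := mem_of_val_eq_one Va hfa
    obtain ⟨hg, hg'⟩ := mem_of_val_eq_one Vm hfm
    have h1' : ψ a - f ∈ Va.nonunits := by
      rw [ValuationSubring.mem_nonunits_iff, Valuation.map_sub_swap]
      exact h1
    have h2' : ψ b - f ∈ Vm.nonunits := by
      rw [ValuationSubring.mem_nonunits_iff, Valuation.map_sub_swap]
      exact h2
    have ha : a ∈ V1 := by
      rw [← D.mem_a]
      have : ψ a = (ψ a - f) + f := by ring
      rw [this]
      exact Va.add_mem _ _ (ValuationSubring.nonunits_le h1') hf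
    have hb : b ∈ V1 := by
      rw [← D.mem_m]
      have : ψ b = (ψ b - f) + f := by ring
      rw [this]
      exact Vm.add_mem _ _ (ValuationSubring.nonunits_le h2') hg
    have h3 := (D.nonunits_a _).2 (D.norm_split f hf hf' hg hg' a b ha hb h1' h2')
    rw [ValuationSubring.mem_nonunits_iff] at h3
    simpa using h3
  nr2 := by
    intro f hf
    obtain ⟨hf1, hf2⟩ := mem_of_val_eq_one Vb hf
    exact Vb.mem_nonunits_iff.1 (D.norm_insep f hf1 hf2)
  resa := by
    intro y hy
    obtain ⟨a, -, h⟩ := D.lift_a y ((Va.valuation_le_one_iff y).1 hy)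
    refine ⟨ψ a, ⟨a, rfl⟩, ?_⟩
    rw [Valuation.map_sub_swap]
    exact Va.mem_nonunits_iff.1 h
  resm := by
    intro y hy
    obtain ⟨a, -, h⟩ := D.lift_m y ((Vm.valuation_le_one_iff y).1 hy)
    refine ⟨ψ a, ⟨a, rfl⟩, ?_⟩
    rw [Valuation.map_sub_swap]
    exact Vm.mem_nonunits_iff.1 h

/-- The ring homomorphism of chart rings induced by the degeneracy map. -/
def chartHom (D : DegData q ψ Nm Va Vm Vb V1 V2 orda ordm ordb ord1 ord2 B B') (i : Fin 2) :
    B' i →+* B i :=
  (ψ : F' →+* F).restrict (B' i) (B i) (D.map_chart i)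

theorem chartHom_coe (D : DegData q ψ Nm Va Vm Vb V1 V2 orda ordm ordb ord1 ord2 B B')
    (i : Fin 2) (b : B' i) : ((D.chartHom i b : B i) : F) = ψ (b : F') := rfl

/-- Along a component `W` through `P` (`W = Va` or `Vm`) every element of the local ring at `P`
is congruent to an element of the local ring of the image point. -/
theorem pt_aux (D : DegData q ψ Nm Va Vm Vb V1 V2 orda ordm ordb ord1 ord2 B B') (i : Fin 2)
    (W : ValuationSubring F) (hBW : ∀ b ∈ B i, b ∈ W)
    (hred : ∀ b : F, b ∈ B i → ∃ b' : F', b' ∈ B' i ∧ ψ b' - b ∈ W.nonunits)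
    (P : Ideal (B i)) [hP : P.IsPrime] (hT : Through (B i) P W) :
    ∀ z ∈ helper4913.locSubring (B i) P,
      ∃ z' ∈ (helper4913.locSubring (B' i) (P.comap (D.chartHom i))).map (ψ : F' →+* F),
        W.valuation (z - z') < 1 := by
  rintro z ⟨b, s, hs, h⟩
  obtain ⟨b₁, hb₁, hb₁a⟩ := hred b b.2
  obtain ⟨s₁, hs₁, hs₁a⟩ := hred s s.2
  have hs₁P : D.chartHom i ⟨s₁, hs₁⟩ ∉ P := by
    intro hmem
    apply hs
    have h1 : D.chartHom i ⟨s₁, hs₁⟩ - s ∈ P := hT _ hs₁a
    have h2 : s = D.chartHom i ⟨s₁, hs₁⟩ - (D.chartHom i ⟨s₁, hs₁⟩ - s) := by ring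
    rw [h2]
    exact P.sub_mem hmem h1
  have hs1 : W.valuation (s : F) = 1 :=
    val_eq_one_of_mem_of_notMem W (hBW _ s.2) (fun hmem => hs (hT s hmem))
  have hb1 : W.valuation (b : F) ≤ 1 := (W.valuation_le_one_iff _).2 (hBW _ b.2)
  have hsa : W.valuation (ψ s₁ - s) < 1 := W.mem_nonunits_iff.1 hs₁a
  have hba : W.valuation (ψ b₁ - b) < 1 := W.mem_nonunits_iff.1 hb₁a
  have hψs1 : W.valuation (ψ s₁) = 1 := by
    have e : ψ s₁ = (s : F) + (ψ s₁ - s) := by ring
    rw [e, Valuation.map_add_eq_of_lt_left, hs1]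
    rw [hs1]
    exact hsa
  have hs0 : (s : F) ≠ 0 := by
    intro h0
    rw [h0, map_zero] at hs1
    exact zero_ne_one hs1
  have hψs0 : ψ s₁ ≠ 0 := by
    intro h0
    rw [h0, map_zero] at hψs1
    exact zero_ne_one hψs1
  have hs₁0 : s₁ ≠ 0 := by
    rintro rfl
    exact hψs0 (map_zero ψ)
  refine ⟨ψ (b₁ / s₁), ⟨b₁ / s₁, ⟨⟨b₁, hb₁⟩, ⟨s₁, hs₁⟩, hs₁P, ?_⟩, rfl⟩, ?_⟩
  · show b₁ / s₁ * s₁ = b₁
    field_simp
  · have hz : z = (b : F) / (s : F) := by
      rw [eq_div_iff hs0]
      exact h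
    have key : z - ψ (b₁ / s₁)
        = ((b : F) * (ψ s₁ - s) - (s : F) * (ψ b₁ - b)) / ((s : F) * ψ s₁) := by
      rw [hz, map_div₀]
      field_simp
      ring
    rw [key, map_div₀, map_mul, hs1, hψs1, one_mul, div_one]
    exact Valuation.map_sub_lt _ (helper4913.val_mul_lt_one_of_le_of_lt _ hb1 hsa)
      (helper4913.val_mul_lt_one_of_le_of_lt _ hs1.le hba)

/-- The hypotheses of `helper9004.glue_const` at a triple point `P` of the chart `B i`, for one
degeneracy map: `O` = the local ring at `P`, `O'` = the image of the local ring at the image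
point one level down. -/
theorem pointData (D : DegData q ψ Nm Va Vm Vb V1 V2 orda ordm ordb ord1 ord2 B B')
    (hq : 0 < q) {n : ℕ} (hn : 0 < n) (i : Fin 2)
    (hBa : ∀ b ∈ B i, b ∈ Va) (hBm : ∀ b ∈ B i, b ∈ Vm)
    (hroot' : ∀ y : F', y ^ n ∈ B' i → y ∈ B' i)
    (P : Ideal (B i)) [hP : P.IsPrime] (hPmax : P.IsMaximal)
    (hTa : Through (B i) P Va) (hTm : Through (B i) P Vm) (hTb : Through (B i) P Vb) :
    helper9004.PointData Va.valuation Vm.valuation (ψ : F' →+* F).fieldRange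
      (fun y => ψ (Nm y)) n (helper4913.locSubring (B i) P)
      ((helper4913.locSubring (B' i) (P.comap (D.chartHom i))).map (ψ : F' →+* F)) where
  le := by
    rintro z ⟨y, ⟨b', s', hs', h⟩, rfl⟩
    refine ⟨D.chartHom i b', D.chartHom i s', hs', ?_⟩
    show ψ y * ψ (s' : F') = ψ (b' : F')
    rw [← map_mul, h]
  mem := by
    rintro z ⟨y, -, rfl⟩
    exact ⟨y, rfl⟩
  pta := D.pt_aux i Va hBa (D.red_a i) P hTa
  ptm := D.pt_aux i Vm hBm (D.red_m i) P hTm
  unit := by
    intro x hx hx'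
    have hNinv : ∀ y : F, y ≠ 0 → Nm y⁻¹ = (Nm y)⁻¹ := by
      intro y hy
      apply eq_inv_of_mul_eq_one_left
      rw [← map_mul, inv_mul_cancel₀ hy, map_one]
    by_cases hx0 : x = 0
    · subst hx0
      have h0 : Nm 0 = 0 := by
        have := D.norm_map 0
        rwa [map_zero, zero_pow hq.ne'] at this
      simp only [h0, map_zero, inv_zero]
      exact ⟨Subring.zero_mem _, Subring.zero_mem _⟩
    obtain ⟨b, s, hs, h⟩ := hx
    obtain ⟨b₂, s₂, hs₂, h₂⟩ := hx'
    have hbP : b ∉ P := by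
      intro hb
      have e : s * s₂ = b * b₂ := by
        apply Subtype.ext
        push_cast
        rw [← h, ← h₂]
        field_simp
      have hmem : s * s₂ ∈ P := by
        rw [e]
        exact P.mul_mem_right _ hb
      exact (hP.mem_or_mem hmem).elim hs hs₂
    obtain ⟨c, d, b', hd, hdψ, hbc⟩ := D.one_point i P hPmax hTa hTm hTb b hbP
    obtain ⟨c₂, d₂, s', hd₂, hd₂ψ, hsc⟩ := D.one_point i P hPmax hTa hTm hTb s hs
    have hs'P : s' ∉ P.comap (D.chartHom i) := by
      intro hmem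
      apply hd₂
      have e : D.chartHom i s' = d₂ := Subtype.ext hd₂ψ.symm
      rw [← e]
      exact hmem
    have hb'P : b' ∉ P.comap (D.chartHom i) := by
      intro hmem
      apply hd
      have e : D.chartHom i b' = d := Subtype.ext hdψ.symm
      rw [← e]
      exact hmem
    have key : ∀ (y : F) (e : B i) (t' : B' i), t' ∉ P.comap (D.chartHom i) →
        y * ψ (t' : F') = (e : F) →
        Nm y ∈ helper4913.locSubring (B' i) (P.comap (D.chartHom i)) := by
      intro y e t' ht' hy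
      refine ⟨⟨Nm (e : F), D.norm_chart i _ e.2⟩, t' ^ q, ?_, ?_⟩
      · exact fun hmem => ht' (Ideal.IsPrime.mem_of_pow_mem inferInstance _ hmem)
      · push_cast
        rw [← hy, map_mul, D.norm_map]
    have hs0 : (s : F) ≠ 0 := by
      intro h0
      apply hs
      have : s = 0 := Subtype.ext h0
      rw [this]
      exact P.zero_mem
    have h1 : x * ψ (s' : F') = ((b * c₂ : B i) : F) := by
      rw [← hd₂ψ, ← hsc]
      push_cast
      rw [← h]
      ring
    have h2 : x⁻¹ * ψ (b' : F') = ((s * c : B i) : F) := by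
      rw [← hdψ, ← hbc]
      push_cast
      rw [← h]
      field_simp
    refine ⟨⟨Nm x, key x _ s' hs'P h1, rfl⟩, ⟨Nm x⁻¹, key x⁻¹ _ b' hb'P h2, ?_⟩⟩
    show ψ (Nm x⁻¹) = (ψ (Nm x))⁻¹
    rw [hNinv x hx0, map_inv₀]
  root := by
    rintro y ⟨a, rfl⟩ ⟨a', ha', haeq⟩
    have e : a' = a ^ n := by
      apply (ψ : F' →+* F).injective
      rw [haeq, map_pow]
    subst e
    obtain ⟨b', s', hs', h⟩ := ha'
    refine ⟨a, ⟨⟨a * s', ?_⟩, s', hs', rfl⟩, rfl⟩
    apply hroot'
    have e : (a * (s' : F')) ^ n = (b' : F') * (s' : F') ^ (n - 1) := by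
      obtain ⟨k, rfl⟩ : ∃ k, n = k + 1 := ⟨n - 1, by omega⟩
      rw [← h, Nat.add_sub_cancel]
      ring
    rw [e]
    exact (B' i).mul_mem b'.2 ((B' i).pow_mem s'.2 _)

end DegData

section Chart

variable {K F : Type*} [Field K] [Field F] [Algebra K F]

/-- A chart ring of `O[s]` is contained in every valuation subring containing `O` and `s`. -/
theorem chartRing_le_valuationSubring (O : ValuationSubring K) (W : ValuationSubring F)
    (hOW : ∀ a : K, a ∈ O → algebraMap K F a ∈ W) (s : Set F) (hs : ∀ y ∈ s, y ∈ W) :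
    ∀ b ∈ chartRing O s, b ∈ W := by
  intro b hb
  have hle : ∀ y ∈ Algebra.adjoin O s, y ∈ W := by
    intro y hy
    induction hy using Algebra.adjoin_induction with
    | mem z hz => exact hs z hz
    | algebraMap r => exact hOW _ r.2
    | add _ _ _ _ h1 h2 => exact W.add_mem _ _ h1 h2
    | mul _ _ _ _ h1 h2 => exact W.mul_mem _ _ h1 h2
  let f : Algebra.adjoin O s →+* W :=
    { toFun := fun y => ⟨y.1, hle y.1 y.2⟩
      map_one' := rfl
      map_mul' := fun _ _ => rfl
      map_zero' := rfl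
      map_add' := fun _ _ => rfl }
  have hxV : IsIntegral W b :=
    Fermat.Agent.S18.helper5377.isIntegral_of_ringHom f (by ext; rfl) hb
  obtain ⟨y, hy⟩ :=
    (isIntegrallyClosedIn_iff.mp (inferInstance : IsIntegrallyClosedIn W F)).2 hxV
  rw [← hy]
  exact y.2

theorem chart_le_chart01 (O : ValuationSubring K) (x : F) (i : Fin 2) :
    chart O x i ≤ chart01 O x := by
  apply helper248.chartRing_mono
  intro z hz
  split_ifs at hz with h
  · exact Or.inl hz
  · exact Or.inr hz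

theorem const_mem_chartRing (O : ValuationSubring K) (s : Set F) (a : K) (ha : a ∈ O) :
    algebraMap K F a ∈ chartRing O s :=
  helper248.algebraMap_mem_chartRing s (⟨a, ha⟩ : O)

end Chart

namespace KillData

variable {K F F' : Type*} [Field K] [Field F] [Field F'] [Algebra K F] [Algebra K F']
  {O : ValuationSubring K} {q : ℕ} {α β : F' →ₐ[K] F} {Nα Nβ : F →* F'}

theorem chart01_le_V (D : KillData O q α β Nα Nβ) (c : Fin 3) :
    ∀ b ∈ chart01 O D.x, b ∈ D.V c := by
  apply chartRing_le_valuationSubring O (D.V c) (D.const_V c)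
  intro y hy
  rcases hy with rfl | rfl
  · exact (D.x_V c).1
  · exact (D.x_V c).2

theorem chart_le_V (D : KillData O q α β Nα Nβ) (i : Fin 2) (c : Fin 3) :
    ∀ b ∈ chart O D.x i, b ∈ D.V c :=
  fun b hb => D.chart01_le_V c b (chart_le_chart01 O D.x i hb)

theorem q_ne (_D : KillData O q α β Nα Nβ) (hO : BaseDVR O q) : (q : F) ≠ 0 := by
  have h : (q : F) = algebraMap K F (q : K) := by simp
  rw [h]
  exact (map_ne_zero _).2 hO.q_ne

theorem q_nonunit (D : KillData O q α β Nα Nβ) (hO : BaseDVR O q) (c : Fin 3) :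
    (q : F) ∈ (D.V c).nonunits := by
  have hq0 := D.q_ne hO
  have hpos : 0 < D.ord c (q : F) := by
    have h2 : (2 : ℤ) ≤ q := by exact_mod_cast hO.prime.two_le
    fin_cases c
    · simp [D.ord_q0]
    · simp only [Fin.mk_one, D.ord_q1]
      omega
    · simp [D.ord_q2]
  rw [ValuationSubring.mem_nonunits_iff_or]
  right
  rw [D.mem_V c _ (inv_ne_zero hq0), (D.hord c).map_inv hq0]
  omega

theorem const_nonunit (D : KillData O q α β Nα Nβ) (hO : BaseDVR O q) (c : Fin 3) (a : K)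
    (ha : a ∈ O.nonunits) : algebraMap K F a ∈ (D.V c).nonunits := by
  have h1 := D.const_V c _ (hO.unif a ha)
  have h2 := D.q_nonunit hO c
  have e : algebraMap K F a = (q : F) * algebraMap K F (a / (q : K)) := by
    rw [map_div₀, map_natCast]
    field_simp [D.q_ne hO]
  rw [e, ValuationSubring.mem_nonunits_iff, map_mul]
  rw [ValuationSubring.mem_nonunits_iff] at h2
  rw [← ValuationSubring.valuation_le_one_iff] at h1
  calc (D.V c).valuation (q : F) * (D.V c).valuation (algebraMap K F (a / (q : K)))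
      ≤ (D.V c).valuation (q : F) * 1 := by gcongr
    _ < 1 := by rwa [mul_one]

theorem const_val_lt_one_iff (D : KillData O q α β Nα Nβ) (hO : BaseDVR O q) (c : Fin 3) (a : K)
    (ha : a ∈ O) : (D.V c).valuation (algebraMap K F a) < 1 ↔ a ∈ O.nonunits := by
  constructor
  · intro h
    by_contra hnu
    rw [ValuationSubring.mem_nonunits_iff_or, not_or, not_not] at hnu
    have h1 := val_eq_one_of_mem (D.V c) ((map_ne_zero _).2 hnu.1) (D.const_V c a ha) (by
      rw [← map_inv₀]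
      exact D.const_V c _ hnu.2)
    rw [h1] at h
    exact lt_irrefl _ h
  · intro h
    exact (D.V c).mem_nonunits_iff.1 (D.const_nonunit hO c a h)

theorem div_mem_locSubring {F : Type*} [Field F] (B : Subring F) (P : Ideal B) [P.IsPrime]
    (r s : B) (hs : s ∉ P) : (r : F) / (s : F) ∈ helper4913.locSubring B P := by
  refine ⟨r, s, hs, ?_⟩
  have hs0 : (s : F) ≠ 0 := by
    intro h0
    apply hs
    have : s = 0 := Subtype.ext h0
    rw [this]
    exact P.zero_mem
  field_simp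

/-- **Steps (4)+(D2) of (KILL), abstract form**: if `u` is a unit at the three vertical
valuations, horizontally an `n`-th power, both norms of `u` are unit constants times `n`-th
powers and `G c` are `n`-th roots of `u` modulo the three valuations, then the twisted roots
`G' = (GI ^ Q, k₁ Gm ^ Q, k₁ k₂ G0 ^ Q)` of `u ^ Q` (`Q = q² - 1`) produced by
`helper9004.glue_const` satisfy the local seed hypothesis `helper4913.SeedLocal` on both
charts. -/
theorem exists_seedLocal (D : KillData O q α β Nα Nβ) (hO : BaseDVR O q) {n : ℕ} (hn : 0 < n)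
    (u : F) (hu0 : u ≠ 0) (hu : ∀ c, u ∈ D.V c ∧ u⁻¹ ∈ D.V c) (hdiv : HorDiv K n u)
    (cα cβ : K) (wα wβ : F')
    (hcα : cα ∈ O) (hcα' : cα⁻¹ ∈ O) (hcα0 : cα ≠ 0)
    (hcβ : cβ ∈ O) (hcβ' : cβ⁻¹ ∈ O) (hcβ0 : cβ ≠ 0)
    (hTα : Nα u = algebraMap K F' cα * wα ^ n) (hTβ : Nβ u = algebraMap K F' cβ * wβ ^ n)
    (G : Fin 3 → F) (hG : ∀ c, (D.V c).valuation (G c ^ n - u) < 1) :
    ∃ G' : Fin 3 → F, (∀ c, (D.V c).valuation (G' c ^ n - u ^ (q ^ 2 - 1)) < 1) ∧
      ∀ i, helper4913.SeedLocal (chart O D.x i) n (fun c => (D.V c).valuation)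
        (u ^ (q ^ 2 - 1)) G' := by
  classical
  set Cst : Subring F := O.toSubring.map (algebraMap K F) with hCst
  have huv : ∀ c, (D.V c).valuation u = 1 :=
    fun c => val_eq_one_of_mem _ hu0 (hu c).1 (hu c).2
  have hCv : ∀ c, ∀ x ∈ Cst, (D.V c).valuation x ≤ 1 := by
    rintro c x ⟨a, ha, rfl⟩
    exact ((D.V c).valuation_le_one_iff _).2 (D.const_V c a ha)
  have hClt : ∀ c c', ∀ x ∈ Cst,
      ((D.V c).valuation x < 1 ↔ (D.V c').valuation x < 1) := by
    rintro c c' x ⟨a, ha, rfl⟩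
    exact (D.const_val_lt_one_iff hO c a ha).trans (D.const_val_lt_one_iff hO c' a ha).symm
  have hCONST : ∀ c (e : K), e ∈ O → e⁻¹ ∈ O → e ≠ 0 → ∀ y : F,
      (D.V c).valuation (y ^ n - algebraMap K F e) < 1 →
        ∃ θ ∈ Cst, θ⁻¹ ∈ Cst ∧ (D.V c).valuation (y - θ) < 1 :=
    fun c e he he' he0 y hy => exists_const_root O hO.algClosed (D.V c) (D.const_V c)
      (D.const_nonunit hO c) hn e he he' he0 y hy
  have hmemC : ∀ e : K, e ∈ O → algebraMap K F e ∈ Cst := fun e he => ⟨e, he, rfl⟩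
  obtain ⟨k₁, k₂, hk₁, hk₂, hGm', hG0', hpt⟩ := helper9004.glue_const
    (D.V 0).valuation (D.V 1).valuation (D.V 2).valuation
    (α : F' →+* F).fieldRange (β : F' →+* F).fieldRange (fun y => α (Nα y)) (fun y => β (Nβ y))
    q n hO.prime.pos hn D.degα.normData D.degβ.normData Cst (hCv 0) (hCv 1) (hCv 2)
    (fun x hx => ⟨hClt 0 1 x hx, hClt 1 2 x hx⟩)
    u (huv 0) (huv 1) (huv 2)
    (algebraMap K F cα) (α wα) (algebraMap K F cβ) (β wβ)
    (hmemC cα hcα) (by rw [← map_inv₀]; exact hmemC _ hcα') ((map_ne_zero _).2 hcα0) ⟨wα, rfl⟩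
    (by show α (Nα u) = _; rw [hTα, map_mul, map_pow, AlgHom.commutes])
    (hmemC cβ hcβ) (by rw [← map_inv₀]; exact hmemC _ hcβ') ((map_ne_zero _).2 hcβ0) ⟨wβ, rfl⟩
    (by show β (Nβ u) = _; rw [hTβ, map_mul, map_pow, AlgHom.commutes])
    (hCONST 0 cα hcα hcα' hcα0) (hCONST 2 cα hcα hcα' hcα0) (hCONST 2 cβ hcβ hcβ' hcβ0)
    (hCONST 0 cβ hcβ hcβ' hcβ0)
    (G 0) (G 1) (G 2) (hG 0) (hG 1) (hG 2)
  set Q := q ^ 2 - 1 with hQ
  let G' : Fin 3 → F := ![G 0 ^ Q, k₁ * G 1 ^ Q, k₁ * k₂ * G 2 ^ Q]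
  have hG' : ∀ c, (D.V c).valuation (G' c ^ n - u ^ Q) < 1 := by
    intro c
    fin_cases c
    · show (D.V 0).valuation ((G 0 ^ Q) ^ n - u ^ Q) < 1
      have h1 : helper9004.Cong (D.V 0).valuation (G 0 ^ n) u := hG 0
      have h2 := helper9004.Cong.pow (h1.le_one' (huv 0).le) h1 Q
      have e : (G 0 ^ Q) ^ n = (G 0 ^ n) ^ Q := by
        rw [← pow_mul, ← pow_mul, mul_comm]
      rw [e]
      exact h2
    · exact hGm'
    · exact hG0'
  refine ⟨G', hG', fun i => ?_⟩
  have hBv : ∀ c, ∀ b : chart O D.x i, (D.V c).valuation (b : F) ≤ 1 :=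
    fun c b => ((D.V c).valuation_le_one_iff _).2 (D.chart_le_V i c b b.2)
  have hBI : ∀ c, ∀ g : F, (∃ b : chart O D.x i, (D.V c).valuation (g ^ n - (b : F)) < 1) →
      ∃ r : chart O D.x i, (D.V c).valuation (g - (r : F)) < 1 := by
    rintro c g ⟨b, hb⟩
    obtain ⟨r, hr, hgr⟩ := D.red_root i c n g hn ⟨b, b.2, (D.V c).mem_nonunits_iff.2 hb⟩
    exact ⟨⟨r, hr⟩, (D.V c).mem_nonunits_iff.1 hgr⟩
  have huQ : ∀ c, (D.V c).valuation (u ^ Q) = 1 := fun c => by rw [map_pow, huv c, one_pow]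
  refine helper4913.seedLocal_of_values (chart O D.x i) n hn.ne' (fun c => (D.V c).valuation)
    hBv (u ^ Q) huQ G' hG' hBI ?_
  intro P hPmax hJ
  have hPprime : P.IsPrime := hPmax.isPrime
  obtain ⟨h, hh0, b, s, hb, hs, hus⟩ := D.lp i P hPmax
    (fun b hb => hJ b (fun c => (D.V c).mem_nonunits_iff.1 (hb c))) n u hn hu0 hu hdiv
  refine ⟨h ^ Q, pow_ne_zero _ hh0, ⟨b ^ Q, s ^ Q,
    fun hmem => hb (hPprime.mem_of_pow_mem _ hmem),
    fun hmem => hs (hPprime.mem_of_pow_mem _ hmem), ?_⟩, ?_⟩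
  · push_cast
    rw [← mul_pow, hus, mul_pow, ← pow_mul, ← pow_mul, mul_comm n Q]
  intro c c' hcc' hTc hTc' r s₁ r' s₁' hs₁ hs₁' hr hr'
  -- all three components pass through `P`
  have hT : ∀ c'', Through (chart O D.x i) P (D.V c'') :=
    D.dich i P hPmax c c' hcc' (fun b hb => hTc b ((D.V c).mem_nonunits_iff.1 hb))
      (fun b hb => hTc' b ((D.V c').mem_nonunits_iff.1 hb))
  have hTv : ∀ c'', ∀ b : chart O D.x i, (D.V c'').valuation (b : F) < 1 → b ∈ P :=
    fun c'' b hb => hT c'' b ((D.V c'').mem_nonunits_iff.2 hb)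
  have hval1 : ∀ c'' (t : chart O D.x i), t ∉ P → (D.V c'').valuation (t : F) = 1 :=
    fun c'' t ht => le_antisymm (hBv c'' t) (not_lt.1 fun hlt => ht (hTv c'' t hlt))
  -- the local ring and its evaluation
  let OP := helper4913.locSubring (chart O D.x i) P
  let ev : OP →+* IsLocalRing.ResidueField OP := IsLocalRing.residue OP
  have hOP : ∀ c'', ∀ z ∈ OP, (D.V c'').valuation z ≤ 1 :=
    fun c'' z hz => helper4913.val_le_one_of_mem_locSubring _ P _ (hBv c'') (hTv c'') hz
  have hev : ∀ c'', ∀ z : OP, (D.V c'').valuation (z : F) < 1 → ev z = 0 := by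
    intro c'' z hz
    exact (IsLocalRing.residue_eq_zero_iff _).2
      (helper4913.mem_maximalIdeal_of_val_lt_one _ P _ (hBv c'') (hTv c'') z hz)
  have hhn : ∀ c'', (D.V c'').valuation (h ^ n) = 1 := by
    intro c''
    have := congrArg (D.V c'').valuation hus
    rw [map_mul, map_mul, huv c'', hval1 c'' s hs, hval1 c'' b hb, one_mul, one_mul] at this
    exact this.symm
  have hhn0 : h ^ n ≠ 0 := pow_ne_zero _ hh0
  have hεeq : u / h ^ n * (s : F) = (b : F) := by
    rw [div_mul_eq_mul_div, hus, mul_div_assoc, div_self hhn0, mul_one]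
  have hε : u / h ^ n ∈ OP := ⟨b, s, hs, hεeq⟩
  have hε' : (u / h ^ n)⁻¹ ∈ OP := helper4913.inv_mem_locSubring _ P hb hεeq
  -- branch values exist
  have hs0 : (s : F) ≠ 0 := by
    intro h0
    have := hval1 0 s hs
    rw [h0, map_zero] at this
    exact zero_ne_one this
  have hbr : ∀ c'', ∃ ξ, helper9004.BV (D.V c'').valuation OP ev (G c'' / h) ξ := by
    intro c''
    have hcong : (D.V c'').valuation ((G c'' / h * (s : F)) ^ n
        - ((b * s ^ (n - 1) : chart O D.x i) : F)) < 1 := by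
      have e : (G c'' / h * (s : F)) ^ n - ((b * s ^ (n - 1) : chart O D.x i) : F)
          = ((s : F) ^ n * (h ^ n)⁻¹) * (G c'' ^ n - u) := by
        obtain ⟨k, rfl⟩ : ∃ k, n = k + 1 := Nat.exists_eq_succ_of_ne_zero hn.ne'
        rw [Nat.add_sub_cancel]
        push_cast
        have e1 : (b : F) = u * (s : F) * (h ^ (k + 1))⁻¹ := by
          rw [hus, mul_assoc, mul_inv_cancel₀ hhn0, mul_one]
        rw [e1, div_eq_mul_inv, mul_pow, mul_pow, inv_pow]
        ring
      rw [e]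
      refine helper4913.val_mul_lt_one_of_le_of_lt _ (helper4913.val_mul_le_one _
        (helper4913.val_pow_le_one _ (hBv c'' s) n) ?_) (hG c'')
      rw [map_inv₀, hhn c'', inv_one]
    obtain ⟨r₀, hr₀⟩ := hBI c'' (G c'' / h * (s : F)) ⟨b * s ^ (n - 1), hcong⟩
    refine ⟨ev ⟨(r₀ : F) / (s : F), div_mem_locSubring _ P r₀ s hs⟩, ⟨_, ?_, rfl⟩⟩
    show (D.V c'').valuation (G c'' / h - (r₀ : F) / (s : F)) < 1
    have e : G c'' / h - (r₀ : F) / (s : F) = (G c'' / h * (s : F) - (r₀ : F)) / (s : F) := by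
      field_simp
    rw [e, map_div₀, hval1 c'' s hs, div_one]
    exact hr₀
  -- the two point data
  have hrootB' : ∀ y : F', y ^ n ∈ chart O D.x' i → y ∈ chart O D.x' i :=
    fun y hy => (helper248.intClosedIn_chartRing _).mem_of_pow_mem hn hy
  have hPα := D.degα.pointData hO.prime.pos hn i (D.chart_le_V i 0) (D.chart_le_V i 1) hrootB'
    P hPmax (hT 0) (hT 1) (hT 2)
  have hPβ := D.degβ.pointData hO.prime.pos hn i (D.chart_le_V i 2) (D.chart_le_V i 1) hrootB'
    P hPmax (hT 2) (hT 1) (hT 0)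
  have hCα : Cst ≤ (helper4913.locSubring (chart O D.x' i)
      (P.comap (D.degα.chartHom i))).map (α : F' →+* F) := by
    rintro x ⟨a, ha, rfl⟩
    refine ⟨algebraMap K F' a, helper4913.subring_le_locSubring _ _
      (const_mem_chartRing O _ a ha), ?_⟩
    exact AlgHom.commutes α a
  have hCβ : Cst ≤ (helper4913.locSubring (chart O D.x' i)
      (P.comap (D.degβ.chartHom i))).map (β : F' →+* F) := by
    rintro x ⟨a, ha, rfl⟩
    refine ⟨algebraMap K F' a, helper4913.subring_le_locSubring _ _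
      (const_mem_chartRing O _ a ha), ?_⟩
    exact AlgHom.commutes β a
  obtain ⟨ξ, hξ0, hξ1, hξ2⟩ := hpt OP _ _ (IsLocalRing.ResidueField OP) ev h hCα hCβ hPα hPβ
    (hOP 0) (hOP 1) (hOP 2) (hev 0) (hev 1) (hev 2) hh0 hε hε' (hbr 0) (hbr 1) (hbr 2)
  have hξ : ∀ c'', helper9004.BV (D.V c'').valuation OP ev (G' c'' / h ^ Q) ξ := by
    intro c''
    fin_cases c''
    · exact hξ0
    · exact hξ1
    · exact hξ2
  have hbv : ∀ c'' (r s₁ : chart O D.x i) (hs₁ : s₁ ∉ P),
      (D.V c'').valuation (G' c'' / h ^ Q * (s₁ : F) - (r : F)) < 1 →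
        ξ = ev ⟨(r : F) / (s₁ : F), div_mem_locSubring _ P r s₁ hs₁⟩ := by
    intro c'' r s₁ hs₁ hr
    refine helper9004.BV.unique (hev c'') (hξ c'') ⟨_, ?_, rfl⟩
    show (D.V c'').valuation (G' c'' / h ^ Q - (r : F) / (s₁ : F)) < 1
    have hs₁0 : (s₁ : F) ≠ 0 := by
      intro h0
      have := hval1 0 s₁ hs₁
      rw [h0, map_zero] at this
      exact zero_ne_one this
    have e : G' c'' / h ^ Q - (r : F) / (s₁ : F)
        = (G' c'' / h ^ Q * (s₁ : F) - (r : F)) / (s₁ : F) := by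
      field_simp
    rw [e, map_div₀, hval1 c'' s₁ hs₁, div_one]
    exact hr
  have h1 := hbv c r s₁ hs₁ hr
  have h2 := hbv c' r' s₁' hs₁' hr'
  have h3 : ev (⟨(r : F) / (s₁ : F), div_mem_locSubring _ P r s₁ hs₁⟩
      - ⟨(r' : F) / (s₁' : F), div_mem_locSubring _ P r' s₁' hs₁'⟩) = 0 := by
    rw [map_sub, ← h1, ← h2, sub_self]
  rw [IsLocalRing.residue_eq_zero_iff, helper4913.mem_maximalIdeal_locSubring_iff] at h3
  obtain ⟨b₀, s₀, hb₀, hs₀, h4⟩ := h3
  have hs₁0 : (s₁ : F) ≠ 0 := by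
    intro h0
    have := hval1 0 s₁ hs₁
    rw [h0, map_zero] at this
    exact zero_ne_one this
  have hs₁'0 : (s₁' : F) ≠ 0 := by
    intro h0
    have := hval1 0 s₁' hs₁'
    rw [h0, map_zero] at this
    exact zero_ne_one this
  have h5 : (r * s₁' - r' * s₁) * s₀ = b₀ * (s₁ * s₁') := by
    apply Subtype.ext
    push_cast
    rw [← h4]
    push_cast
    field_simp
  have h6 : (r * s₁' - r' * s₁) * s₀ ∈ P := by
    rw [h5]
    exact P.mul_mem_right _ hb₀
  exact (hPprime.mem_or_mem h6).resolve_right hs₀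

theorem horDiv_pow {K F : Type*} [Field K] [Field F] [Algebra K F] {n : ℕ} {u : F}
    (h : HorDiv K n u) (k : ℕ) : HorDiv K n (u ^ k) := by
  intro W hW hWtop hWpid
  obtain ⟨g, hg, h1, h2⟩ := h W hW hWtop hWpid
  refine ⟨g ^ k, pow_ne_zero _ hg, ?_, ?_⟩
  · have e : u ^ k / (g ^ k) ^ n = (u / g ^ n) ^ k := by
      rw [div_pow, ← pow_mul, ← pow_mul, mul_comm]
    rw [e]
    exact pow_mem h1 k
  · have e : (g ^ k) ^ n / u ^ k = (g ^ n / u) ^ k := by
      rw [div_pow, ← pow_mul, ← pow_mul, mul_comm]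
    rw [e]
    exact pow_mem h2 k

/-- **(KILL), abstract form.**  Let `D` be the geometric datum of `X₀(q² M'')` over the discrete
valuation ring `O` (uniformiser `q`, algebraically closed residue field), `n` prime to `q`, and
`u ≠ 0` a function whose horizontal orders are all divisible by `n` and whose two degeneracy
norms are constants times `n`-th powers.  Then `u ^ ((q+1)(q-1)(q²-1))` is a constant times an
`n`-th power.

Steps: (2) `helper1013.killData_vert_norm_of_base` (vertical part), (3)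
`helper2454.exists_roots_pow_of_norms` (roots of the reductions), (4)+(D2) `exists_seedLocal`
(`helper9004.glue_const` + `helper4913.seedLocal_of_values`), (D1)
`helper2781.kill_of_seedLocal` (`helper4913.exists_seeds_nilMod` + `helper248.kummer_chart`). -/
theorem kill (D : KillData O q α β Nα Nβ) (hO : BaseDVR O q) {n : ℕ} (hn : 0 < n)
    (hnq : Nat.Coprime n q) (u : F) (hu : u ≠ 0) (hhor : HorDiv K n u)
    (a a' : K) (w w' : F')
    (hNα : Nα u = algebraMap K F' a * w ^ n) (hNβ : Nβ u = algebraMap K F' a' * w' ^ n) :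
    ∃ (κ : K) (t : F), κ ≠ 0 ∧
      u ^ ((q + 1) * ((q - 1) * (q ^ 2 - 1))) = algebraMap K F κ * t ^ n := by
  have hNu : Nα u ≠ 0 := helper1013.monoidHom_map_ne_zero Nα hu
  have hNu' : Nβ u ≠ 0 := helper1013.monoidHom_map_ne_zero Nβ hu
  have ha : a ≠ 0 := by
    rintro rfl
    rw [map_zero, zero_mul] at hNα
    exact hNu hNα
  have hw : w ≠ 0 := by
    rintro rfl
    rw [zero_pow hn.ne', mul_zero] at hNα
    exact hNu hNα
  have ha' : a' ≠ 0 := by
    rintro rfl
    rw [map_zero, zero_mul] at hNβ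
    exact hNu' hNβ
  have hw' : w' ≠ 0 := by
    rintro rfl
    rw [zero_pow hn.ne', mul_zero] at hNβ
    exact hNu' hNβ
  -- step (2)
  obtain ⟨s, z, U, hz, hU0, hUdef, hUunit, hUhor, ⟨b, w1, hb, hbO, hbO', -, -, hNαU⟩,
    ⟨b', w1', hb', hb'O, hb'O', -, -, hNβU⟩⟩ :=
    helper1013.killData_vert_norm_of_base D hO n u hu hhor a a' ha ha' w w' hw hw' hNα hNβ
  -- step (3)
  have hα := D.degα.normData
  have hβ := D.degβ.normData
  have hUv : ∀ c, (D.V c).valuation U = 1 :=
    fun c => val_eq_one_of_mem _ hU0 (hUunit c).1 (hUunit c).2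
  have hCv : ∀ c, ∀ x ∈ O.toSubring.map (algebraMap K F), (D.V c).valuation x ≤ 1 := by
    rintro c x ⟨e, he, rfl⟩
    exact ((D.V c).valuation_le_one_iff _).2 (D.const_V c e he)
  have hClt : ∀ c c', ∀ x ∈ O.toSubring.map (algebraMap K F),
      ((D.V c).valuation x < 1 ↔ (D.V c').valuation x < 1) := by
    rintro c c' x ⟨e, he, rfl⟩
    exact (D.const_val_lt_one_iff hO c e he).trans (D.const_val_lt_one_iff hO c' e he).symm
  have hmemC : ∀ e : K, e ∈ O → algebraMap K F e ∈ O.toSubring.map (algebraMap K F) :=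
    fun e he => ⟨e, he, rfl⟩
  have hroot : ∀ c ∈ O.toSubring.map (algebraMap K F), c⁻¹ ∈ O.toSubring.map (algebraMap K F) →
      ∃ d ∈ O.toSubring.map (algebraMap K F), (D.V 0).valuation (d ^ n - c) < 1 := by
    rintro c ⟨e, he, rfl⟩ -
    have := hO.algClosed
    obtain ⟨ρ, hρ⟩ := IsAlgClosed.exists_pow_nat_eq (IsLocalRing.residue O ⟨e, he⟩) hn
    obtain ⟨d₀, rfl⟩ := IsLocalRing.residue_surjective ρ
    refine ⟨algebraMap K F (d₀ : K), hmemC _ d₀.2, ?_⟩
    have h0 : IsLocalRing.residue O (d₀ ^ n - ⟨e, he⟩) = 0 := by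
      rw [map_sub, map_pow, hρ, sub_self]
    rw [IsLocalRing.residue_eq_zero_iff] at h0
    have h1 : ((d₀ ^ n - ⟨e, he⟩ : O) : K) ∈ O.nonunits :=
      ValuationSubring.coe_mem_nonunits_iff.2 h0
    have h2 := D.const_nonunit hO 0 _ h1
    rw [ValuationSubring.mem_nonunits_iff] at h2
    have e2 : algebraMap K F (((d₀ ^ n - ⟨e, he⟩ : O) : K))
        = algebraMap K F (d₀ : K) ^ n - algebraMap K F e := by
      have e3 : ((d₀ ^ n - ⟨e, he⟩ : O) : K) = (d₀ : K) ^ n - e := rfl
      rw [e3, map_sub, map_pow]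
    rw [e2] at h2
    exact h2
  have hTα : (fun y => α (Nα y)) U = algebraMap K F b * (α w1) ^ n := by
    show α (Nα U) = _
    rw [hNαU, map_mul, map_pow, AlgHom.commutes]
  have hTβ : (fun y => β (Nβ y)) U = algebraMap K F b' * (β w1') ^ n := by
    show β (Nβ U) = _
    rw [hNβU, map_mul, map_pow, AlgHom.commutes]
  obtain ⟨G, hG⟩ := helper2454.exists_roots_pow_of_norms (fun c => (D.V c).valuation)
    (α : F' →+* F).fieldRange (fun y => α (Nα y)) (fun y => β (Nβ y)) q n hn hnq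
    hα.mem hα.same hα.nr1 hα.nr2 hα.resa hα.resm hβ.nr2
    (O.toSubring.map (algebraMap K F)) hCv (fun x hx => ⟨hClt 0 1 x hx, hClt 1 2 x hx⟩) hroot
    U hUv (algebraMap K F b) (α w1) (algebraMap K F b') (β w1')
    (hmemC b hbO) (by rw [← map_inv₀]; exact hmemC _ hbO') ((map_ne_zero _).2 hb) ⟨w1, rfl⟩ hTα
    (hmemC b' hb'O) (by rw [← map_inv₀]; exact hmemC _ hb'O') ((map_ne_zero _).2 hb') hTβ
  -- steps (4) + (D2) for `U ^ (q - 1)`
  have hU3unit : ∀ c, U ^ (q - 1) ∈ D.V c ∧ (U ^ (q - 1))⁻¹ ∈ D.V c := by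
    intro c
    refine ⟨pow_mem (hUunit c).1 _, ?_⟩
    rw [← inv_pow]
    exact pow_mem (hUunit c).2 _
  have hNα3 : Nα (U ^ (q - 1)) = algebraMap K F' (b ^ (q - 1)) * (w1 ^ (q - 1)) ^ n := by
    rw [map_pow, hNαU, mul_pow, map_pow, ← pow_mul, ← pow_mul, mul_comm n (q - 1)]
  have hNβ3 : Nβ (U ^ (q - 1)) = algebraMap K F' (b' ^ (q - 1)) * (w1' ^ (q - 1)) ^ n := by
    rw [map_pow, hNβU, mul_pow, map_pow, ← pow_mul, ← pow_mul, mul_comm n (q - 1)]
  obtain ⟨G', hG', hloc⟩ := D.exists_seedLocal hO hn (U ^ (q - 1)) (pow_ne_zero _ hU0) hU3unit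
    (horDiv_pow hUhor _) (b ^ (q - 1)) (b' ^ (q - 1)) (w1 ^ (q - 1)) (w1' ^ (q - 1))
    (pow_mem hbO _) (by rw [← inv_pow]; exact pow_mem hbO' _) (pow_ne_zero _ hb)
    (pow_mem hb'O _) (by rw [← inv_pow]; exact pow_mem hb'O' _) (pow_ne_zero _ hb')
    hNα3 hNβ3 G hG
  -- (D1)
  have hU4unit : ∀ c, (U ^ (q - 1)) ^ (q ^ 2 - 1) ∈ D.V c ∧
      ((U ^ (q - 1)) ^ (q ^ 2 - 1))⁻¹ ∈ D.V c := by
    intro c
    refine ⟨pow_mem (hU3unit c).1 _, ?_⟩
    rw [← inv_pow]
    exact pow_mem (hU3unit c).2 _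
  obtain ⟨κ, hκ, w₀, hw₀⟩ := helper2781.kill_of_seedLocal hO D n hn hnq
    ((U ^ (q - 1)) ^ (q ^ 2 - 1)) (pow_ne_zero _ (pow_ne_zero _ hU0)) hU4unit G' hG'
    (hloc 0) (hloc 1)
  -- conclusion
  have hqF : (q : F) ≠ 0 := D.q_ne hO
  set m : ℕ := (q - 1) * (q ^ 2 - 1) with hm
  have e1 : U ^ m = algebraMap K F κ * w₀ ^ n := by
    rw [hm, pow_mul]
    exact hw₀
  have hz1 : (z ^ (-(n : ℤ))) ^ m * (z ^ m) ^ n = 1 := by
    rw [zpow_neg, zpow_natCast, inv_pow, ← pow_mul, ← pow_mul, mul_comm m n,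
      inv_mul_cancel₀ (pow_ne_zero _ hz)]
  have hq1 : ((q : F) ^ (-s)) ^ m * ((q : F) ^ s) ^ m = 1 := by
    rw [← mul_pow, ← zpow_add₀ hqF, neg_add_cancel, zpow_zero, one_pow]
  have e2 : u ^ ((q + 1) * m) = U ^ m * ((q : F) ^ s) ^ m * (z ^ m) ^ n := by
    calc u ^ ((q + 1) * m) = (u ^ (q + 1)) ^ m := pow_mul _ _ _
      _ = (u ^ (q + 1)) ^ m * (((q : F) ^ (-s)) ^ m * ((q : F) ^ s) ^ m)
          * ((z ^ (-(n : ℤ))) ^ m * (z ^ m) ^ n) := by rw [hq1, hz1, mul_one, mul_one]
      _ = U ^ m * ((q : F) ^ s) ^ m * (z ^ m) ^ n := by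
        rw [hUdef]
        ring
  refine ⟨κ * ((q : K) ^ s) ^ m, w₀ * z ^ m,
    mul_ne_zero hκ (pow_ne_zero _ (zpow_ne_zero _ hO.q_ne)), ?_⟩
  rw [e2, e1, map_mul, map_pow, map_zpow₀, map_natCast, mul_pow]
  ring

end KillData

end Fermat.Agent.S36.helper36
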