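import Fermat.Agent.S29.helper8217_KummerClass
import Fermat.Agent.S29.helper36_KummerCorr
import Fermat.Agent.S37.helper5162_HeckeInputsModular
import Fermat.Prelude.Def_FLTPrelim_Ramification

/-!
# S36: the statement (KILL) in function-field form (helper1335, captain's Spec)

The ONE geometric statement of S36 (findings #3001, ruling #1 of `team_s36_chat`), stated on
landed names only, at the LITERAL level `M₁ * q` with `q ∣ M₁`, `¬ q² ∣ M₁`
(so `q² ∥ M₁ * q`):

`α = heckeAlphaBar Kbar M₁ q`, `β = heckeBetaBar Kbar M₁ q : F_{M₁} → F_{M₁ q}` are the two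
degeneracy maps, `normAlong α`, `normAlong β : F_{M₁ q} → F_{M₁}` the norms (`= α_*`, `β_*` on
Kummer classes).

`KillFFAt M₁ q lam A c`: for every `n` and every `lam ^ n`-Kummer function `u` of level `M₁ q`
whose class in `J₀(M₁ q)` is fixed by the inertia group of `A` and whose two norms are
`(constant) * (lam ^ n-th power)`, the function `u ^ c` is `(constant) * (lam ^ n-th power)`.

* `Stmt_KillFF`    : for all `M₁, q, lam ≠ q`, `A ∣ q` there is `c ≠ 0` with `KillFFAt`;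
* `Stmt_KillFFAux` : the same under the auxiliary-level hypothesis `AuxOK M₁ q`
  (`4 ∣ M₁` for `q` odd, `9 ∣ M₁` for `q = 2`: no elliptic points, base line `t₄` / `t₉`).
  This is what the geometry proves; the auxiliary level is removed by a norm argument.
-/

set_option autoImplicit false

namespace Fermat.Agent.S36.helper1335

open ModularCurve AlgebraicCurve
open Fermat.Agent.S29.helper8217 (IsKummer kummerClass)
open Fermat.Agent.S29.helper8217 (normAlong)

/-- `ℚ̄`. -/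
abbrev QbarK : Type := AlgebraicClosure ℚ

/-- The function field of `X₀(N)` over `ℚ̄`. -/
abbrev FNK (N : ℕ) : Type := ↥(modularFunctionFieldBar N)

/-- **(KILL) at `(M₁, q, lam, A)` with constant `c`, function-field form.** -/
def KillFFAt (M₁ q lam : ℕ) [NeZero M₁] [NeZero q] (A : ValuationSubring QbarK) (c : ℕ) : Prop :=
  ∀ (n : ℕ) (u : FNK (M₁ * q)), IsKummer QbarK (lam ^ n) u →
    (∀ σ ∈ A.inertiaSubgroupIn ℚ,
      σ • kummerClass QbarK (lam ^ n) u = kummerClass QbarK (lam ^ n) u) →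
    (∃ (a : QbarK) (w : FNK M₁),
      normAlong (heckeAlphaBar QbarK M₁ q) u = algebraMap QbarK (FNK M₁) a * w ^ (lam ^ n)) →
    (∃ (a : QbarK) (w : FNK M₁),
      normAlong (heckeBetaBar QbarK M₁ q) u = algebraMap QbarK (FNK M₁) a * w ^ (lam ^ n)) →
    ∃ (a : QbarK) (w : FNK (M₁ * q)),
      u ^ c = algebraMap QbarK (FNK (M₁ * q)) a * w ^ (lam ^ n)

/-- **(KILL), function-field form**: at every level `M₁ * q` with `q ∥ M₁`. -/
def Stmt_KillFF : Prop :=
  ∀ (M₁ q : ℕ) [NeZero M₁] [NeZero q], q.Prime → q ∣ M₁ → ¬ q ^ 2 ∣ M₁ →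
    ∀ lam : ℕ, lam.Prime → lam ≠ q →
      ∀ A : ValuationSubring QbarK, A.LiesOverPrime q → ∃ c : ℕ, c ≠ 0 ∧ KillFFAt M₁ q lam A c

/-- The auxiliary-level hypothesis: `4 ∣ M₁` for odd `q`, `9 ∣ M₁` for `q = 2`. -/
def AuxOK (M₁ q : ℕ) : Prop := (q ≠ 2 → 4 ∣ M₁) ∧ (q = 2 → 9 ∣ M₁)

/-- **(KILL), function-field form, at auxiliary level** (what the geometry proves). -/
def Stmt_KillFFAux : Prop :=
  ∀ (M₁ q : ℕ) [NeZero M₁] [NeZero q], q.Prime → q ∣ M₁ → ¬ q ^ 2 ∣ M₁ → AuxOK M₁ q →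
    ∀ lam : ℕ, lam.Prime → lam ≠ q →
      ∀ A : ValuationSubring QbarK, A.LiesOverPrime q → ∃ c : ℕ, c ≠ 0 ∧ KillFFAt M₁ q lam A c

theorem stmt_KillFFAux_of_killFF (h : Stmt_KillFF) : Stmt_KillFFAux :=
  fun M₁ q _ _ hq hqM hq2 _ lam hlam hne A hA => h M₁ q hq hqM hq2 lam hlam hne A hA

end Fermat.Agent.S36.helper1335
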