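/-
S36-F1 (helper508): PULL-BACK GAUSS VALUATIONS.

For a field `F` and a ring hom `σ : F →+* L((t))` all of whose nonzero values are normalisable
(`helper8991.IsNormalizable A π`, i.e. `C c * ι X / ι Y` with `red X, red Y ≠ 0`), the pull-back of
the Gauss ring along `σ` is a valuation subring of `F` whose value group is that of `A`.

The construction is agnostic of the embedding, so that it serves every chart of the level
`q² M'` function field: the expansion at `∞` (inclusion), at `0` (inclusion after the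
Atkin–Lehner involution) and at the middle cusps (any construction of the mid-cusp embeddings).

* `pullGauss A π σ hσ : ValuationSubring F`, `pullRed : pullGauss →+* k((t))`;
* `isUnit_iff_pullRed_ne_zero`, `pullRed_eq_zero_iff`, `exists_const_mul_unit`,
  `algebraMap_mem_pullGauss_iff`;
* `pullVal A π σ hσ hC hπ0 : Valuation F A.ValueGroup` with the COMMON value group of `A`:
  `pullVal_algebraMap`, `pullVal_le_one_iff`, `pullVal_lt_one_iff`, `exists_pullVal_eq`;
* functoriality: `pullGauss_comap`, `pullVal_comap` (pre-composition), `pullVal_postcomp`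
  (post-composition with a coefficientwise operation such as `t ↦ ζ t` or `t ↦ t ^ n`),
  `pullVal_eq_of_le` (equality criterion).
-/
import Mathlib
import Fermat.Agent.S18.helper8991_GaussInst
import Fermat.Agent.S28.helper328_PrimeSpec

set_option autoImplicit false

open HahnSeries ModularCurve

noncomputable section

namespace Fermat.Agent.S36.helper508

open Fermat.Agent.S18.helper8991

section PullGauss

variable {L : Type*} [Field L] (A : ValuationSubring L) {k : Type*} [Field k] (π : A →+* k)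
variable {F : Type*} [Field F] (σ : F →+* LaurentSeries L)
  (hσ : ∀ x : F, x ≠ 0 → IsNormalizable A π (σ x))

/-- The pull-back of the Gauss ring along `σ`. -/
def pullGauss : ValuationSubring F where
  toSubring := (gaussRing A π).comap σ
  mem_or_inv_mem' := by
    intro x
    by_cases hx : x = 0
    · left
      rw [hx]
      exact Subring.zero_mem _
    · rcases (hσ x hx).mem_or_inv_mem with h | h
      · left; exact h
      · right
        show σ x⁻¹ ∈ gaussRing A π
        rw [map_inv₀]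
        exact h

theorem mem_pullGauss_iff (x : F) : x ∈ pullGauss A π σ hσ ↔ σ x ∈ gaussRing A π := Iff.rfl

/-- The reduction map of the pull-back Gauss ring, with values in `k((t))`. -/
def pullRed : ↥(pullGauss A π σ hσ) →+* LaurentSeries k :=
  (gaussRho A π).comp
    { toFun := fun f => ⟨σ (f : F), f.2⟩
      map_one' := Subtype.ext (map_one σ)
      map_mul' := fun a b => Subtype.ext (map_mul σ (a : F) (b : F))
      map_zero' := Subtype.ext (map_zero σ)
      map_add' := fun a b => Subtype.ext (map_add σ (a : F) (b : F)) }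

theorem pullRed_eq (f : ↥(pullGauss A π σ hσ)) {X Y : LaurentSeries A} (hY : red A π Y ≠ 0)
    (h : σ (f : F) * inc A Y = inc A X) :
    pullRed A π σ hσ f = red A π X / red A π Y :=
  gaussRho_eq A π ⟨σ (f : F), f.2⟩ hY h

theorem pullRed_mul_red (f : ↥(pullGauss A π σ hσ)) {X Y : LaurentSeries A}
    (hY : red A π Y ≠ 0) (h : σ (f : F) * inc A Y = inc A X) :
    pullRed A π σ hσ f * red A π Y = red A π X := by
  rw [pullRed_eq A π σ hσ f hY h, div_mul_cancel₀ _ hY]

/-- An element whose image is an integral series is in the pull-back Gauss ring. -/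
theorem mem_pullGauss_of_inc {x : F} {y : LaurentSeries A} (h : σ x = inc A y) :
    x ∈ pullGauss A π σ hσ := by
  show σ x ∈ gaussRing A π
  rw [h]
  exact inc_mem_gaussRing A π y

/-- ... and its reduction is the coefficientwise reduction. -/
theorem pullRed_of_inc {x : F} {y : LaurentSeries A} (h : σ x = inc A y) :
    pullRed A π σ hσ ⟨x, mem_pullGauss_of_inc A π σ hσ h⟩ = red A π y := by
  have h1 : σ x * inc A 1 = inc A y := by rw [map_one, mul_one, h]
  have hY : red A π (1 : LaurentSeries A) ≠ 0 := by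
    rw [map_one]
    exact one_ne_zero
  have h2 := pullRed_eq A π σ hσ ⟨x, mem_pullGauss_of_inc A π σ hσ h⟩ hY h1
  rw [h2, map_one, div_one]

/-- Units of the pull-back Gauss ring are exactly the elements with nonzero reduction. -/
theorem isUnit_iff_pullRed_ne_zero (f : ↥(pullGauss A π σ hσ)) :
    IsUnit f ↔ pullRed A π σ hσ f ≠ 0 := by
  constructor
  · intro hu
    exact (hu.map (pullRed A π σ hσ)).ne_zero
  · intro hf
    have hinv : (σ (f : F))⁻¹ ∈ gaussRing A π :=
      inv_mem_gaussRing_of_gaussRho_ne_zero A π ⟨σ (f : F), f.2⟩ hf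
    have hf0 : (f : F) ≠ 0 := by
      intro h0
      apply hf
      have : f = 0 := Subtype.ext h0
      rw [this, map_zero]
    have hmem : (f : F)⁻¹ ∈ pullGauss A π σ hσ := by
      show σ (f : F)⁻¹ ∈ gaussRing A π
      rw [map_inv₀]
      exact hinv
    refine IsUnit.of_mul_eq_one (⟨(f : F)⁻¹, hmem⟩ : ↥(pullGauss A π σ hσ)) ?_
    apply Subtype.ext
    show (f : F) * (f : F)⁻¹ = 1
    exact mul_inv_cancel₀ hf0

/-- The kernel of the reduction map is the maximal ideal. -/
theorem pullRed_eq_zero_iff (f : ↥(pullGauss A π σ hσ)) :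
    pullRed A π σ hσ f = 0 ↔ f ∈ IsLocalRing.maximalIdeal ↥(pullGauss A π σ hσ) := by
  rw [IsLocalRing.mem_maximalIdeal, mem_nonunits_iff, isUnit_iff_pullRed_ne_zero, not_not]

/-- The inverse of an element with nonzero reduction lies in the pull-back Gauss ring. -/
theorem inv_mem_pullGauss (f : ↥(pullGauss A π σ hσ)) (hf : pullRed A π σ hσ f ≠ 0) :
    (f : F)⁻¹ ∈ pullGauss A π σ hσ := by
  show σ (f : F)⁻¹ ∈ gaussRing A π
  rw [map_inv₀]
  exact inv_mem_gaussRing_of_gaussRho_ne_zero A π ⟨σ (f : F), f.2⟩ hf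

theorem pullRed_inv (f : ↥(pullGauss A π σ hσ)) (hf : pullRed A π σ hσ f ≠ 0) :
    pullRed A π σ hσ ⟨(f : F)⁻¹, inv_mem_pullGauss A π σ hσ f hf⟩ = (pullRed A π σ hσ f)⁻¹ := by
  have hf0 : (f : F) ≠ 0 := by
    intro h0
    apply hf
    have : f = 0 := Subtype.ext h0
    rw [this, map_zero]
  have h1 : f * ⟨(f : F)⁻¹, inv_mem_pullGauss A π σ hσ f hf⟩ = 1 := by
    apply Subtype.ext
    show (f : F) * (f : F)⁻¹ = 1
    exact mul_inv_cancel₀ hf0
  have h2 := congrArg (pullRed A π σ hσ) h1
  rw [map_mul, map_one] at h2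
  exact eq_inv_of_mul_eq_one_right h2

/-! ### Constants -/

section Const

variable [Algebra L F] (hC : ∀ c : L, σ (algebraMap L F c) = HahnSeries.C c)
include hC

/-- Constants of `A` lie in the pull-back Gauss ring. -/
theorem algebraMap_mem_pullGauss {c : L} (hc : c ∈ A) :
    algebraMap L F c ∈ pullGauss A π σ hσ := by
  show σ (algebraMap L F c) ∈ gaussRing A π
  rw [hC, ← inc_C A ⟨c, hc⟩]
  exact inc_mem_gaussRing A π _

theorem pullRed_algebraMap {c : L} (hc : c ∈ A) :
    pullRed A π σ hσ ⟨algebraMap L F c, algebraMap_mem_pullGauss A π σ hσ hC hc⟩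
      = HahnSeries.C (π ⟨c, hc⟩) := by
  have h : σ (algebraMap L F c) = inc A (HahnSeries.C (⟨c, hc⟩ : A)) := by
    rw [hC, inc_C]
  have h2 := pullRed_of_inc A π σ hσ h
  rw [red_C] at h2
  exact h2

/-- Every nonzero element of `F` is a constant times an element of the pull-back Gauss ring with
nonzero reduction. -/
theorem exists_const_mul_unit (f : F) (hf : f ≠ 0) :
    ∃ (c : L) (u : ↥(pullGauss A π σ hσ)), c ≠ 0 ∧ pullRed A π σ hσ u ≠ 0 ∧
      f = algebraMap L F c * (u : F) := by
  obtain ⟨c, X, Y, hc, hX, hY, h⟩ := hσ f hf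
  have hu : σ (algebraMap L F c⁻¹ * f) * inc A Y = inc A X := by
    rw [map_mul, hC, mul_assoc, h, C_inv_mul_C_mul hc]
  have hmem : algebraMap L F c⁻¹ * f ∈ pullGauss A π σ hσ := ⟨X, Y, hY, hu⟩
  refine ⟨c, ⟨_, hmem⟩, hc, ?_, ?_⟩
  · rw [pullRed_eq A π σ hσ ⟨_, hmem⟩ hY hu]
    exact div_ne_zero hX hY
  · show f = algebraMap L F c * (algebraMap L F c⁻¹ * f)
    rw [← mul_assoc, ← map_mul, mul_inv_cancel₀ hc, map_one, one_mul]

variable (hπ0 : ∀ a : A, a ∈ IsLocalRing.maximalIdeal A → π a = 0)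
include hπ0

/-- A constant lies in the pull-back Gauss ring iff it lies in `A`. -/
theorem algebraMap_mem_pullGauss_iff (c : L) :
    algebraMap L F c ∈ pullGauss A π σ hσ ↔ c ∈ A := by
  refine ⟨fun hmem => ?_, fun hc => algebraMap_mem_pullGauss A π σ hσ hC hc⟩
  by_contra hcA
  have hci : c⁻¹ ∈ A := (A.mem_or_inv_mem c).resolve_left hcA
  have hc0 : c ≠ 0 := fun h0 => hcA (h0 ▸ A.zero_mem)
  have hmax : (⟨c⁻¹, hci⟩ : A) ∈ IsLocalRing.maximalIdeal A := by
    rw [IsLocalRing.mem_maximalIdeal, mem_nonunits_iff]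
    intro hunit
    obtain ⟨d, hd⟩ := hunit.exists_right_inv
    apply hcA
    have h2 : c⁻¹ * (d : L) = 1 := congrArg Subtype.val hd
    have h3 : c = (d : L) := by
      have := eq_inv_of_mul_eq_one_left h2
      rw [inv_eq_iff_eq_inv] at this
      rw [this, inv_inv]
    rw [h3]
    exact d.2
  have h1 : pullRed A π σ hσ ⟨algebraMap L F c⁻¹, algebraMap_mem_pullGauss A π σ hσ hC hci⟩
      = 0 := by
    rw [pullRed_algebraMap A π σ hσ hC hci, hπ0 _ hmax, map_zero]
  have h2 : (⟨algebraMap L F c, hmem⟩ : ↥(pullGauss A π σ hσ))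
      * ⟨algebraMap L F c⁻¹, algebraMap_mem_pullGauss A π σ hσ hC hci⟩ = 1 := by
    apply Subtype.ext
    show algebraMap L F c * algebraMap L F c⁻¹ = 1
    rw [← map_mul, mul_inv_cancel₀ hc0, map_one]
  have h3 := congrArg (pullRed A π σ hσ) h2
  rw [map_mul, h1, mul_zero, map_one] at h3
  exact zero_ne_one h3

end Const

/-! ### The valuation with the value group of `A` -/

section Val

variable [Algebra L F] (hC : ∀ c : L, σ (algebraMap L F c) = HahnSeries.C c)
  (hπ0 : ∀ a : A, a ∈ IsLocalRing.maximalIdeal A → π a = 0)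

open Classical in
/-- A constant `c` with `x = c * unit` (and `0` for `x = 0`). -/
def pullConst (x : F) : L :=
  if hx : x = 0 then 0 else (exists_const_mul_unit A π σ hσ hC x hx).choose

include hπ0 in
/-- The value of the constant does not depend on the normal form. -/
theorem valuation_pullConst_eq {x : F} {c : L} (u : ↥(pullGauss A π σ hσ))
    (hu : pullRed A π σ hσ u ≠ 0) (hx : x = algebraMap L F c * (u : F)) :
    A.valuation (pullConst A π σ hσ hC x) = A.valuation c := by
  have hu0 : (u : F) ≠ 0 := by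
    intro h0
    apply hu
    have : u = 0 := Subtype.ext h0
    rw [this, map_zero]
  by_cases hx0 : x = 0
  · have hc : c = 0 := by
      rw [hx0] at hx
      rcases mul_eq_zero.mp hx.symm with h | h
      · exact (map_eq_zero _).mp h
      · exact absurd h hu0
    rw [pullConst, dif_pos hx0, hc]
  · rw [pullConst, dif_neg hx0]
    obtain ⟨u₀, hc₀, hu₀, hx₀⟩ := (exists_const_mul_unit A π σ hσ hC x hx0).choose_spec
    generalize (exists_const_mul_unit A π σ hσ hC x hx0).choose = c₀ at hc₀ hx₀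
    have hu₀0 : (u₀ : F) ≠ 0 := by
      intro h0
      apply hu₀
      have : u₀ = 0 := Subtype.ext h0
      rw [this, map_zero]
    have hc : c ≠ 0 := by
      rintro rfl
      rw [map_zero, zero_mul] at hx
      exact hx0 hx
    have hcF : algebraMap L F c ≠ 0 := fun h => hc ((map_eq_zero _).mp h)
    have hc₀F : algebraMap L F c₀ ≠ 0 := fun h => hc₀ ((map_eq_zero _).mp h)
    have hrel : algebraMap L F c₀ * (u₀ : F) = algebraMap L F c * (u : F) := by
      rw [← hx₀, ← hx]
    have h1 : algebraMap L F (c₀ / c) ∈ pullGauss A π σ hσ := by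
      have e : algebraMap L F (c₀ / c) = (u : F) * (u₀ : F)⁻¹ := by
        rw [map_div₀, div_eq_iff hcF, eq_comm]
        calc (u : F) * (u₀ : F)⁻¹ * algebraMap L F c
            = algebraMap L F c * (u : F) * (u₀ : F)⁻¹ := by ring
          _ = algebraMap L F c₀ * (u₀ : F) * (u₀ : F)⁻¹ := by rw [hrel]
          _ = algebraMap L F c₀ := by rw [mul_assoc, mul_inv_cancel₀ hu₀0, mul_one]
      rw [e]
      exact mul_mem u.2 (inv_mem_pullGauss A π σ hσ u₀ hu₀)
    have h2 : algebraMap L F (c / c₀) ∈ pullGauss A π σ hσ := by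
      have e : algebraMap L F (c / c₀) = (u₀ : F) * (u : F)⁻¹ := by
        rw [map_div₀, div_eq_iff hc₀F, eq_comm]
        calc (u₀ : F) * (u : F)⁻¹ * algebraMap L F c₀
            = algebraMap L F c₀ * (u₀ : F) * (u : F)⁻¹ := by ring
          _ = algebraMap L F c * (u : F) * (u : F)⁻¹ := by rw [hrel]
          _ = algebraMap L F c := by rw [mul_assoc, mul_inv_cancel₀ hu0, mul_one]
      rw [e]
      exact mul_mem u₀.2 (inv_mem_pullGauss A π σ hσ u hu)
    have h1' : c₀ / c ∈ A := (algebraMap_mem_pullGauss_iff A π σ hσ hC hπ0 _).mp h1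
    have h2' : c / c₀ ∈ A := (algebraMap_mem_pullGauss_iff A π σ hσ hC hπ0 _).mp h2
    have e1 : A.valuation (c₀ / c) ≤ 1 := (A.valuation_le_one_iff _).mpr h1'
    have e2 : A.valuation (c / c₀) ≤ 1 := (A.valuation_le_one_iff _).mpr h2'
    rw [map_div₀] at e1 e2
    have hvc : A.valuation c ≠ 0 := (Valuation.ne_zero_iff _).mpr hc
    have hvc₀ : A.valuation c₀ ≠ 0 := (Valuation.ne_zero_iff _).mpr hc₀
    exact le_antisymm ((div_le_one₀ (zero_lt_iff.mpr hvc)).mp e1)
      ((div_le_one₀ (zero_lt_iff.mpr hvc₀)).mp e2)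

include hπ0

/-- The pull-back Gauss valuation as a monoid-with-zero hom into the value group of `A`. -/
def pullValHom : F →*₀ A.ValueGroup where
  toFun x := A.valuation (pullConst A π σ hσ hC x)
  map_zero' := by rw [pullConst, dif_pos rfl, map_zero]
  map_one' := by
    have h := valuation_pullConst_eq A π σ hσ hC hπ0 (x := 1) (c := 1) 1
      (by rw [map_one]; exact one_ne_zero) (by rw [map_one, one_mul]; rfl)
    rw [h, map_one]
  map_mul' := by
    intro x y
    by_cases hx : x = 0
    · rw [hx, zero_mul, pullConst, dif_pos rfl, map_zero, zero_mul]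
    by_cases hy : y = 0
    · rw [hy, mul_zero, pullConst, dif_pos rfl, map_zero, mul_zero]
    obtain ⟨c, u, hc, hu, hxu⟩ := exists_const_mul_unit A π σ hσ hC x hx
    obtain ⟨d, w, hd, hw, hyw⟩ := exists_const_mul_unit A π σ hσ hC y hy
    rw [valuation_pullConst_eq A π σ hσ hC hπ0 u hu hxu,
      valuation_pullConst_eq A π σ hσ hC hπ0 w hw hyw,
      valuation_pullConst_eq A π σ hσ hC hπ0 (x := x * y) (c := c * d) (u * w)
        (by rw [map_mul]; exact mul_ne_zero hu hw)
        (by rw [hxu, hyw, map_mul]; show _ = _ * ((u : F) * (w : F)); ring),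
      map_mul]

theorem pullValHom_eq_of {x : F} {c : L} (u : ↥(pullGauss A π σ hσ))
    (hu : pullRed A π σ hσ u ≠ 0) (hx : x = algebraMap L F c * (u : F)) :
    pullValHom A π σ hσ hC hπ0 x = A.valuation c :=
  valuation_pullConst_eq A π σ hσ hC hπ0 u hu hx

theorem pullValHom_le_one_iff (x : F) :
    pullValHom A π σ hσ hC hπ0 x ≤ 1 ↔ x ∈ pullGauss A π σ hσ := by
  by_cases hx : x = 0
  · rw [hx, map_zero]
    exact ⟨fun _ => (pullGauss A π σ hσ).zero_mem, fun _ => zero_le_one⟩
  obtain ⟨c, u, hc, hu, hxu⟩ := exists_const_mul_unit A π σ hσ hC x hx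
  rw [pullValHom_eq_of A π σ hσ hC hπ0 u hu hxu, A.valuation_le_one_iff,
    ← algebraMap_mem_pullGauss_iff A π σ hσ hC hπ0 c]
  constructor
  · intro h
    rw [hxu]
    exact mul_mem h u.2
  · intro h
    have hu0 : (u : F) ≠ 0 := by
      intro h0
      apply hu
      have : u = 0 := Subtype.ext h0
      rw [this, map_zero]
    have e : algebraMap L F c = x * (u : F)⁻¹ := by
      rw [hxu, mul_assoc, mul_inv_cancel₀ hu0, mul_one]
    rw [e]
    exact mul_mem h (inv_mem_pullGauss A π σ hσ u hu)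

/-- **The pull-back Gauss valuation**, with values in the value group of `A`. -/
def pullVal : Valuation F A.ValueGroup :=
  { pullValHom A π σ hσ hC hπ0 with
    map_add_le_max' := by
      have key : ∀ x y : F, pullValHom A π σ hσ hC hπ0 x ≤ pullValHom A π σ hσ hC hπ0 y →
          pullValHom A π σ hσ hC hπ0 (x + y) ≤ pullValHom A π σ hσ hC hπ0 y := by
        intro x y h
        by_cases hy : y = 0
        · rw [hy, map_zero] at h
          have hx0 : pullValHom A π σ hσ hC hπ0 x = 0 := le_zero_iff.mp h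
          have hx : x = 0 := by
            by_contra hx
            exact (map_ne_zero (pullValHom A π σ hσ hC hπ0)).mpr hx hx0
          rw [hx, hy, add_zero]
        · have hvy : pullValHom A π σ hσ hC hπ0 y ≠ 0 :=
            (map_ne_zero (pullValHom A π σ hσ hC hπ0)).mpr hy
          have h1 : pullValHom A π σ hσ hC hπ0 (x / y) ≤ 1 := by
            rw [map_div₀]
            exact (div_le_one₀ (zero_lt_iff.mpr hvy)).mpr h
          have h2 : x / y + 1 ∈ pullGauss A π σ hσ :=
            add_mem ((pullValHom_le_one_iff A π σ hσ hC hπ0 _).mp h1)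
              (one_mem (pullGauss A π σ hσ))
          have h3 : pullValHom A π σ hσ hC hπ0 (x / y + 1) ≤ 1 :=
            (pullValHom_le_one_iff A π σ hσ hC hπ0 _).mpr h2
          have h4 : x + y = (x / y + 1) * y := by
            field_simp
          calc pullValHom A π σ hσ hC hπ0 (x + y)
              = pullValHom A π σ hσ hC hπ0 (x / y + 1) * pullValHom A π σ hσ hC hπ0 y := by
                rw [h4, map_mul]
            _ ≤ 1 * pullValHom A π σ hσ hC hπ0 y := mul_le_mul_left h3 _
            _ = pullValHom A π σ hσ hC hπ0 y := one_mul _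
      intro x y
      rcases le_total (pullValHom A π σ hσ hC hπ0 x) (pullValHom A π σ hσ hC hπ0 y) with h | h
      · exact le_trans (key x y h) (le_max_right _ _)
      · rw [add_comm]
        exact le_trans (key y x h) (le_max_left _ _) }

theorem pullVal_apply (x : F) :
    pullVal A π σ hσ hC hπ0 x = A.valuation (pullConst A π σ hσ hC x) := rfl

/-- `pullVal (c * u) = v_A(c)` for `u` with nonzero reduction. -/
theorem pullVal_eq_of {x : F} {c : L} (u : ↥(pullGauss A π σ hσ))
    (hu : pullRed A π σ hσ u ≠ 0) (hx : x = algebraMap L F c * (u : F)) :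
    pullVal A π σ hσ hC hπ0 x = A.valuation c :=
  valuation_pullConst_eq A π σ hσ hC hπ0 u hu hx

/-- (hL) the pull-back Gauss valuation restricts to the valuation of `A` on constants. -/
theorem pullVal_algebraMap (c : L) :
    pullVal A π σ hσ hC hπ0 (algebraMap L F c) = A.valuation c :=
  pullVal_eq_of A π σ hσ hC hπ0 (x := algebraMap L F c) (c := c) 1
    (by rw [map_one]; exact one_ne_zero)
    (by show algebraMap L F c = algebraMap L F c * (1 : F); rw [mul_one])

/-- (hball) the closed unit ball of the pull-back Gauss valuation is the pull-back Gauss ring. -/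
theorem pullVal_le_one_iff (x : F) :
    pullVal A π σ hσ hC hπ0 x ≤ 1 ↔ x ∈ pullGauss A π σ hσ :=
  pullValHom_le_one_iff A π σ hσ hC hπ0 x

/-- (hopen) the open unit ball is the kernel of the reduction map. -/
theorem pullVal_lt_one_iff (x : F) :
    pullVal A π σ hσ hC hπ0 x < 1 ↔
      ∃ h : x ∈ pullGauss A π σ hσ, pullRed A π σ hσ ⟨x, h⟩ = 0 := by
  by_cases hx : x = 0
  · subst hx
    rw [map_zero]
    exact ⟨fun _ => ⟨zero_mem _, map_zero _⟩, fun _ => zero_lt_one⟩
  obtain ⟨c, u, hc, hu, hxu⟩ := exists_const_mul_unit A π σ hσ hC x hx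
  have hu0 : (u : F) ≠ 0 := by
    intro h0
    apply hu
    have : u = 0 := Subtype.ext h0
    rw [this, map_zero]
  rw [pullVal_eq_of A π σ hσ hC hπ0 u hu hxu]
  constructor
  · intro hlt
    have hcA : c ∈ A := (A.valuation_le_one_iff c).mp hlt.le
    have hmax : (⟨c, hcA⟩ : A) ∈ IsLocalRing.maximalIdeal A :=
      (A.valuation_lt_one_iff ⟨c, hcA⟩).mpr hlt
    have hxmem : x ∈ pullGauss A π σ hσ := by
      rw [hxu]
      exact mul_mem (algebraMap_mem_pullGauss A π σ hσ hC hcA) u.2
    refine ⟨hxmem, ?_⟩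
    have e : (⟨x, hxmem⟩ : ↥(pullGauss A π σ hσ))
        = ⟨algebraMap L F c, algebraMap_mem_pullGauss A π σ hσ hC hcA⟩ * u := Subtype.ext hxu
    rw [e, map_mul, pullRed_algebraMap A π σ hσ hC hcA, hπ0 _ hmax, map_zero, zero_mul]
  · rintro ⟨hxmem, hred⟩
    have hcV : algebraMap L F c ∈ pullGauss A π σ hσ := by
      have e : algebraMap L F c = x * (u : F)⁻¹ := by
        rw [hxu, mul_assoc, mul_inv_cancel₀ hu0, mul_one]
      rw [e]
      exact mul_mem hxmem (inv_mem_pullGauss A π σ hσ u hu)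
    have hcA : c ∈ A := (algebraMap_mem_pullGauss_iff A π σ hσ hC hπ0 c).mp hcV
    have e : (⟨x, hxmem⟩ : ↥(pullGauss A π σ hσ))
        = ⟨algebraMap L F c, algebraMap_mem_pullGauss A π σ hσ hC hcA⟩ * u := Subtype.ext hxu
    rw [e, map_mul, pullRed_algebraMap A π σ hσ hC hcA] at hred
    have h0 : HahnSeries.C (π ⟨c, hcA⟩) = (0 : LaurentSeries k) :=
      (mul_eq_zero.mp hred).resolve_right hu
    have hπc : π ⟨c, hcA⟩ = 0 := HahnSeries.C_injective (by rw [h0, map_zero])
    refine (A.valuation_lt_one_iff ⟨c, hcA⟩).mp ?_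
    rw [IsLocalRing.mem_maximalIdeal, mem_nonunits_iff]
    intro hunit
    exact (hunit.map π).ne_zero hπc

/-- The unit sphere: elements of the pull-back Gauss ring with nonzero reduction. -/
theorem pullVal_eq_one_iff (x : F) :
    pullVal A π σ hσ hC hπ0 x = 1 ↔
      ∃ h : x ∈ pullGauss A π σ hσ, pullRed A π σ hσ ⟨x, h⟩ ≠ 0 := by
  constructor
  · intro h1
    have hmem : x ∈ pullGauss A π σ hσ := (pullVal_le_one_iff A π σ hσ hC hπ0 x).mp h1.le
    refine ⟨hmem, fun h0 => ?_⟩
    have hlt : pullVal A π σ hσ hC hπ0 x < 1 :=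
      (pullVal_lt_one_iff A π σ hσ hC hπ0 x).mpr ⟨hmem, h0⟩
    exact absurd h1 hlt.ne
  · rintro ⟨hmem, hne⟩
    have hle : pullVal A π σ hσ hC hπ0 x ≤ 1 := (pullVal_le_one_iff A π σ hσ hC hπ0 x).mpr hmem
    rcases lt_or_eq_of_le hle with hlt | heq
    · obtain ⟨h', h0⟩ := (pullVal_lt_one_iff A π σ hσ hC hπ0 x).mp hlt
      exact absurd h0 hne
    · exact heq

/-- (hVG) the value group of the pull-back Gauss valuation is that of `A`. -/
theorem exists_pullVal_eq {x : F} (hx : x ≠ 0) :
    ∃ c : L, c ≠ 0 ∧ pullVal A π σ hσ hC hπ0 x = A.valuation c := by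
  obtain ⟨c, u, hc, hu, hxu⟩ := exists_const_mul_unit A π σ hσ hC x hx
  exact ⟨c, hc, pullVal_eq_of A π σ hσ hC hπ0 u hu hxu⟩

/-- The pull-back Gauss valuation is equivalent to the valuation of its valuation subring. -/
theorem pullVal_isEquiv :
    (pullVal A π σ hσ hC hπ0).IsEquiv (pullGauss A π σ hσ).valuation := by
  rw [Valuation.isEquiv_iff_val_le_one]
  intro x
  rw [pullVal_le_one_iff, ValuationSubring.valuation_le_one_iff]

/-- EQUALITY CRITERION: a pull-back Gauss valuation whose ring contains the ring of another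
one is equal to it. -/
theorem pullVal_eq_of_le {σ' : F →+* LaurentSeries L}
    (hσ' : ∀ x : F, x ≠ 0 → IsNormalizable A π (σ' x))
    (hC' : ∀ c : L, σ' (algebraMap L F c) = HahnSeries.C c)
    (hle : ∀ x : F, x ∈ pullGauss A π σ hσ → x ∈ pullGauss A π σ' hσ') :
    pullVal A π σ' hσ' hC' hπ0 = pullVal A π σ hσ hC hπ0 := by
  ext x
  by_cases hx : x = 0
  · rw [hx, map_zero, map_zero]
  obtain ⟨c, u, hc, hu, hxu⟩ := exists_const_mul_unit A π σ hσ hC x hx
  have hu0 : (u : F) ≠ 0 := by
    intro h0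
    apply hu
    have : u = 0 := Subtype.ext h0
    rw [this, map_zero]
  rw [pullVal_eq_of A π σ hσ hC hπ0 u hu hxu]
  have h1 : pullVal A π σ' hσ' hC' hπ0 (u : F) ≤ 1 :=
    (pullVal_le_one_iff A π σ' hσ' hC' hπ0 _).mpr (hle _ u.2)
  have h2 : pullVal A π σ' hσ' hC' hπ0 (u : F)⁻¹ ≤ 1 :=
    (pullVal_le_one_iff A π σ' hσ' hC' hπ0 _).mpr (hle _ (inv_mem_pullGauss A π σ hσ u hu))
  have hv0 : pullVal A π σ' hσ' hC' hπ0 (u : F) ≠ 0 := (Valuation.ne_zero_iff _).mpr hu0
  have h3 : pullVal A π σ' hσ' hC' hπ0 (u : F) = 1 := by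
    refine le_antisymm h1 ?_
    rw [map_inv₀] at h2
    exact (inv_le_one₀ (zero_lt_iff.mpr hv0)).mp h2
  rw [hxu, map_mul, pullVal_algebraMap, h3, mul_one]

include hC in
theorem pullGauss_eq_of_le {σ' : F →+* LaurentSeries L}
    (hσ' : ∀ x : F, x ≠ 0 → IsNormalizable A π (σ' x))
    (hC' : ∀ c : L, σ' (algebraMap L F c) = HahnSeries.C c)
    (hle : ∀ x : F, x ∈ pullGauss A π σ hσ → x ∈ pullGauss A π σ' hσ') :
    pullGauss A π σ' hσ' = pullGauss A π σ hσ := by
  ext x
  rw [← pullVal_le_one_iff A π σ' hσ' hC' hπ0, ← pullVal_le_one_iff A π σ hσ hC hπ0,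
    pullVal_eq_of_le A π σ hσ hC hπ0 hσ' hC' hle]

end Val

/-! ### Pre-composition -/

section Comp

variable {F' : Type*} [Field F'] (φ : F' →+* F)

include hσ in
theorem isNormalizable_comp (x : F') (hx : x ≠ 0) : IsNormalizable A π ((σ.comp φ) x) :=
  hσ (φ x) ((map_ne_zero φ).mpr hx)

variable (hσ' : ∀ x : F', x ≠ 0 → IsNormalizable A π ((σ.comp φ) x))

/-- Restriction: the pull-back Gauss ring along `σ ∘ φ` is the comap along `φ`. -/
theorem pullGauss_comp :
    pullGauss A π (σ.comp φ) hσ' = (pullGauss A π σ hσ).comap φ := by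
  ext x
  exact Iff.rfl

theorem pullRed_comp (x : ↥(pullGauss A π (σ.comp φ) hσ')) :
    pullRed A π (σ.comp φ) hσ' x = pullRed A π σ hσ ⟨φ (x : F'), x.2⟩ := rfl

theorem pullVal_comp [Algebra L F] [Algebra L F']
    (hC : ∀ c : L, σ (algebraMap L F c) = HahnSeries.C c)
    (hπ0 : ∀ a : A, a ∈ IsLocalRing.maximalIdeal A → π a = 0)
    (hφ : ∀ c : L, φ (algebraMap L F' c) = algebraMap L F c)
    (hC' : ∀ c : L, (σ.comp φ) (algebraMap L F' c) = HahnSeries.C c) :
    pullVal A π (σ.comp φ) hσ' hC' hπ0 = (pullVal A π σ hσ hC hπ0).comap φ := by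
  ext x
  rw [Valuation.comap_apply]
  by_cases hx : x = 0
  · rw [hx, map_zero, map_zero, map_zero]
  obtain ⟨c, u, hc, hu, hxu⟩ := exists_const_mul_unit A π (σ.comp φ) hσ' hC' x hx
  rw [pullVal_eq_of A π (σ.comp φ) hσ' hC' hπ0 u hu hxu]
  symm
  exact pullVal_eq_of A π σ hσ hC hπ0 (x := φ x) (c := c) ⟨φ (u : F'), u.2⟩ hu
    (by rw [hxu, map_mul, hφ])

end Comp

/-! ### Post-composition with a coefficientwise operation -/

section PostComp

variable (τ : LaurentSeries L →+* LaurentSeries L) (τA : LaurentSeries A →+* LaurentSeries A)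
  (τk : LaurentSeries k →+* LaurentSeries k)
  (h1 : ∀ X : LaurentSeries A, τ (inc A X) = inc A (τA X))
  (h2 : ∀ X : LaurentSeries A, red A π (τA X) = τk (red A π X))
  (h3 : Function.Injective τk)

omit [Field F] in
include h2 h3 in
theorem red_postcomp_ne_zero {X : LaurentSeries A} (hX : red A π X ≠ 0) :
    red A π (τA X) ≠ 0 := by
  rw [h2]
  exact fun h0 => hX (h3 (by rw [h0, map_zero]))

include h1 h2 h3

theorem mem_gaussRing_postcomp {f : LaurentSeries L} (hf : f ∈ gaussRing A π) :
    τ f ∈ gaussRing A π := by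
  obtain ⟨X, Y, hY, h⟩ := hf
  exact ⟨τA X, τA Y, red_postcomp_ne_zero A π τA τk h2 h3 hY, by rw [← h1, ← map_mul, h, h1]⟩

theorem gaussRho_postcomp (f : ↥(gaussRing A π)) :
    gaussRho A π ⟨τ (f : LaurentSeries L), mem_gaussRing_postcomp A π τ τA τk h1 h2 h3 f.2⟩
      = τk (gaussRho A π f) := by
  obtain ⟨X, Y, hY, h⟩ := f.2
  have h' : τ (f : LaurentSeries L) * inc A (τA Y) = inc A (τA X) := by
    rw [← h1, ← map_mul, h, h1]
  rw [gaussRho_eq A π f hY h,
    gaussRho_eq A π ⟨τ (f : LaurentSeries L), _⟩ (red_postcomp_ne_zero A π τA τk h2 h3 hY) h',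
    h2, h2, map_div₀]

theorem isNormalizable_postcomp (h4 : ∀ c : L, τ (HahnSeries.C c) = HahnSeries.C c)
    {f : LaurentSeries L} (hf : IsNormalizable A π f) : IsNormalizable A π (τ f) := by
  obtain ⟨c, X, Y, hc, hX, hY, h⟩ := hf
  refine ⟨c, τA X, τA Y, hc, red_postcomp_ne_zero A π τA τk h2 h3 hX,
    red_postcomp_ne_zero A π τA τk h2 h3 hY, ?_⟩
  rw [← h1, ← map_mul, h, map_mul, h4, h1]

variable (hσ'' : ∀ x : F, x ≠ 0 → IsNormalizable A π ((τ.comp σ) x))

theorem mem_pullGauss_postcomp {x : F} (hx : x ∈ pullGauss A π σ hσ) :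
    x ∈ pullGauss A π (τ.comp σ) hσ'' :=
  mem_gaussRing_postcomp A π τ τA τk h1 h2 h3 hx

theorem pullRed_postcomp (x : ↥(pullGauss A π σ hσ)) :
    pullRed A π (τ.comp σ) hσ'' ⟨(x : F), mem_pullGauss_postcomp A π σ hσ τ τA τk h1 h2 h3 hσ'' x.2⟩
      = τk (pullRed A π σ hσ x) :=
  gaussRho_postcomp A π τ τA τk h1 h2 h3 ⟨σ (x : F), x.2⟩

/-- Post-composition with a coefficientwise operation does not change the Gauss ring. -/
theorem pullGauss_postcomp :
    pullGauss A π (τ.comp σ) hσ'' = pullGauss A π σ hσ := by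
  ext x
  constructor
  · intro hx
    by_contra hnot
    have hx0 : x ≠ 0 := by
      rintro rfl
      exact hnot (zero_mem _)
    have hinv : x⁻¹ ∈ pullGauss A π σ hσ :=
      ((pullGauss A π σ hσ).mem_or_inv_mem x).resolve_left hnot
    have hred : pullRed A π σ hσ ⟨x⁻¹, hinv⟩ = 0 := by
      by_contra hne
      have := inv_mem_pullGauss A π σ hσ ⟨x⁻¹, hinv⟩ hne
      rw [inv_inv] at this
      exact hnot this
    have h5 := pullRed_postcomp A π σ hσ τ τA τk h1 h2 h3 hσ'' ⟨x⁻¹, hinv⟩
    rw [hred, map_zero] at h5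
    have h6 : (⟨x, hx⟩ : ↥(pullGauss A π (τ.comp σ) hσ''))
        * ⟨x⁻¹, mem_pullGauss_postcomp A π σ hσ τ τA τk h1 h2 h3 hσ'' hinv⟩ = 1 := by
      apply Subtype.ext
      show x * x⁻¹ = 1
      exact mul_inv_cancel₀ hx0
    have h7 := congrArg (pullRed A π (τ.comp σ) hσ'') h6
    rw [map_mul, h5, mul_zero, map_one] at h7
    exact zero_ne_one h7
  · exact fun hx => mem_pullGauss_postcomp A π σ hσ τ τA τk h1 h2 h3 hσ'' hx

theorem pullVal_postcomp [Algebra L F]
    (hC : ∀ c : L, σ (algebraMap L F c) = HahnSeries.C c)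
    (hπ0 : ∀ a : A, a ∈ IsLocalRing.maximalIdeal A → π a = 0)
    (hC'' : ∀ c : L, (τ.comp σ) (algebraMap L F c) = HahnSeries.C c) :
    pullVal A π (τ.comp σ) hσ'' hC'' hπ0 = pullVal A π σ hσ hC hπ0 :=
  pullVal_eq_of_le A π σ hσ hC hπ0 hσ'' hC''
    (fun _ hx => mem_pullGauss_postcomp A π σ hσ τ τA τk h1 h2 h3 hσ'' hx)

end PostComp

end PullGauss

/-! ### The two coefficientwise operations: `t ↦ t ^ n` and `t ↦ ζ t` -/

section Ops

open Fermat.Agent.S28.helper328 (twist twist_coeff)

theorem coeffMap_qExpand {R S : Type*} [CommRing R] [CommRing S] (f : R →+* S) (n : ℕ)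
    [NeZero n] (x : LaurentSeries R) : coeffMap f (qExpand R n x) = qExpand S n (coeffMap f x) := by
  ext m
  by_cases hm : (n : ℤ) ∣ m
  · obtain ⟨m, rfl⟩ := hm
    rw [coeffMap_coeff, qExpand_coeff_mul, qExpand_coeff_mul, coeffMap_coeff]
  · rw [coeffMap_coeff, qExpand_coeff_of_not_dvd n _ hm, qExpand_coeff_of_not_dvd n _ hm,
      map_zero]

theorem coeffMap_twistU {R S : Type*} [CommRing R] [CommRing S] (f : R →+* S) (ζ : Rˣ)
    (x : LaurentSeries R) : coeffMap f (twist ζ x) = twist (Units.map (f : R →* S) ζ) (coeffMap f x) := by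
  ext m
  rw [coeffMap_coeff, twist_coeff, twist_coeff, coeffMap_coeff, map_mul, ← map_zpow]
  rfl

theorem twist_injective {R : Type*} [CommRing R] (ζ : Rˣ) : Function.Injective (twist ζ) := by
  rw [injective_iff_map_eq_zero]
  intro x hx
  ext m
  have h := congrArg (fun y : LaurentSeries R => y.coeff m) hx
  simp only [twist_coeff, HahnSeries.coeff_zero] at h
  rw [HahnSeries.coeff_zero]
  exact (Units.mul_right_eq_zero _).mp h

theorem twist_C {R : Type*} [CommRing R] (ζ : Rˣ) (c : R) :
    twist ζ (HahnSeries.C c : LaurentSeries R) = HahnSeries.C c := by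
  ext m
  rw [twist_coeff, HahnSeries.C_apply, HahnSeries.coeff_single]
  split_ifs with h
  · subst h
    rw [zpow_zero, Units.val_one, one_mul]
  · rw [mul_zero]

theorem twist_one {R : Type*} [CommRing R] (x : LaurentSeries R) : twist (1 : Rˣ) x = x := by
  ext m
  rw [twist_coeff, one_zpow, Units.val_one, one_mul]

theorem twist_twist {R : Type*} [CommRing R] (ζ ξ : Rˣ) (x : LaurentSeries R) :
    twist ζ (twist ξ x) = twist (ζ * ξ) x := by
  ext m
  rw [twist_coeff, twist_coeff, twist_coeff, mul_zpow, Units.val_mul, mul_assoc]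

/-- Series in `t ^ n` are fixed by `t ↦ ζ t` when `ζ ^ n = 1`. -/
theorem twist_qExpand {R : Type*} [CommRing R] (ζ : Rˣ) (n : ℕ) [NeZero n] (hζ : ζ ^ n = 1)
    (x : LaurentSeries R) : twist ζ (qExpand R n x) = qExpand R n x := by
  ext m
  rw [twist_coeff]
  by_cases hm : (n : ℤ) ∣ m
  · obtain ⟨m, rfl⟩ := hm
    rw [zpow_mul, zpow_natCast, hζ, one_zpow, Units.val_one, one_mul]
  · rw [qExpand_coeff_of_not_dvd n _ hm, mul_zero]

variable {L : Type*} [Field L] (A : ValuationSubring L) {k : Type*} [Field k] (π : A →+* k)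
variable {F : Type*} [Field F] (σ : F →+* LaurentSeries L)
  (hσ : ∀ x : F, x ≠ 0 → IsNormalizable A π (σ x))

/-! #### `t ↦ t ^ n` -/

section QExpand

variable (n : ℕ) [NeZero n]

theorem isNormalizable_qExpand {f : LaurentSeries L} (hf : IsNormalizable A π f) :
    IsNormalizable A π (qExpand L n f) :=
  isNormalizable_postcomp A π (qExpand L n) (qExpand A n) (qExpand k n)
    (fun X => (coeffMap_qExpand _ n X).symm) (fun X => coeffMap_qExpand _ n X)
    (qExpand_injective n) (fun c => qExpand_C n c) hf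

theorem mem_gaussRing_qExpand {f : LaurentSeries L} (hf : f ∈ gaussRing A π) :
    qExpand L n f ∈ gaussRing A π :=
  mem_gaussRing_postcomp A π (qExpand L n) (qExpand A n) (qExpand k n)
    (fun X => (coeffMap_qExpand _ n X).symm) (fun X => coeffMap_qExpand _ n X)
    (qExpand_injective n) hf

theorem gaussRho_qExpand (f : ↥(gaussRing A π)) :
    gaussRho A π ⟨qExpand L n (f : LaurentSeries L), mem_gaussRing_qExpand A π n f.2⟩
      = qExpand k n (gaussRho A π f) :=
  gaussRho_postcomp A π (qExpand L n) (qExpand A n) (qExpand k n)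
    (fun X => (coeffMap_qExpand _ n X).symm) (fun X => coeffMap_qExpand _ n X)
    (qExpand_injective n) f

variable (hσ'' : ∀ x : F, x ≠ 0 → IsNormalizable A π (((qExpand L n).comp σ) x))

theorem pullGauss_qExpand :
    pullGauss A π ((qExpand L n).comp σ) hσ'' = pullGauss A π σ hσ :=
  pullGauss_postcomp A π σ hσ (qExpand L n) (qExpand A n) (qExpand k n)
    (fun X => (coeffMap_qExpand _ n X).symm) (fun X => coeffMap_qExpand _ n X)
    (qExpand_injective n) hσ''

theorem mem_pullGauss_qExpand {x : F} (hx : x ∈ pullGauss A π σ hσ) :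
    x ∈ pullGauss A π ((qExpand L n).comp σ) hσ'' := by
  rw [pullGauss_qExpand A π σ hσ n hσ'']
  exact hx

theorem pullRed_qExpand (x : ↥(pullGauss A π σ hσ)) :
    pullRed A π ((qExpand L n).comp σ) hσ'' ⟨(x : F), mem_pullGauss_qExpand A π σ hσ n hσ'' x.2⟩
      = qExpand k n (pullRed A π σ hσ x) :=
  pullRed_postcomp A π σ hσ (qExpand L n) (qExpand A n) (qExpand k n)
    (fun X => (coeffMap_qExpand _ n X).symm) (fun X => coeffMap_qExpand _ n X)
    (qExpand_injective n) hσ'' x

theorem pullVal_qExpand [Algebra L F]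
    (hC : ∀ c : L, σ (algebraMap L F c) = HahnSeries.C c)
    (hπ0 : ∀ a : A, a ∈ IsLocalRing.maximalIdeal A → π a = 0)
    (hC'' : ∀ c : L, ((qExpand L n).comp σ) (algebraMap L F c) = HahnSeries.C c) :
    pullVal A π ((qExpand L n).comp σ) hσ'' hC'' hπ0 = pullVal A π σ hσ hC hπ0 :=
  pullVal_postcomp A π σ hσ (qExpand L n) (qExpand A n) (qExpand k n)
    (fun X => (coeffMap_qExpand _ n X).symm) (fun X => coeffMap_qExpand _ n X)
    (qExpand_injective n) hσ'' hC hπ0 hC''

end QExpand

/-! #### `t ↦ ζ t` for a unit `ζ` of `A` -/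

section Twist

variable (ζ : Aˣ)

/-- The unit of `L` underlying a unit of `A`. -/
abbrev unitL : Lˣ := Units.map (A.subtype : A →* L) ζ

/-- The unit of `k` underlying a unit of `A`. -/
abbrev unitK : kˣ := Units.map (π : A →* k) ζ

theorem isNormalizable_twist {f : LaurentSeries L} (hf : IsNormalizable A π f) :
    IsNormalizable A π (twist (unitL A ζ) f) :=
  isNormalizable_postcomp A π (twist (unitL A ζ)) (twist ζ) (twist (unitK A π ζ))
    (fun X => (coeffMap_twistU _ ζ X).symm) (fun X => coeffMap_twistU _ ζ X)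
    (twist_injective _) (fun c => twist_C _ c) hf

theorem mem_gaussRing_twist {f : LaurentSeries L} (hf : f ∈ gaussRing A π) :
    twist (unitL A ζ) f ∈ gaussRing A π :=
  mem_gaussRing_postcomp A π (twist (unitL A ζ)) (twist ζ) (twist (unitK A π ζ))
    (fun X => (coeffMap_twistU _ ζ X).symm) (fun X => coeffMap_twistU _ ζ X)
    (twist_injective _) hf

theorem gaussRho_twist (f : ↥(gaussRing A π)) :
    gaussRho A π ⟨twist (unitL A ζ) (f : LaurentSeries L), mem_gaussRing_twist A π ζ f.2⟩
      = twist (unitK A π ζ) (gaussRho A π f) :=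
  gaussRho_postcomp A π (twist (unitL A ζ)) (twist ζ) (twist (unitK A π ζ))
    (fun X => (coeffMap_twistU _ ζ X).symm) (fun X => coeffMap_twistU _ ζ X)
    (twist_injective _) f

variable (hσ'' : ∀ x : F, x ≠ 0 → IsNormalizable A π (((twist (unitL A ζ)).comp σ) x))

theorem pullGauss_twist :
    pullGauss A π ((twist (unitL A ζ)).comp σ) hσ'' = pullGauss A π σ hσ :=
  pullGauss_postcomp A π σ hσ (twist (unitL A ζ)) (twist ζ) (twist (unitK A π ζ))
    (fun X => (coeffMap_twistU _ ζ X).symm) (fun X => coeffMap_twistU _ ζ X)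
    (twist_injective _) hσ''

theorem mem_pullGauss_twist {x : F} (hx : x ∈ pullGauss A π σ hσ) :
    x ∈ pullGauss A π ((twist (unitL A ζ)).comp σ) hσ'' := by
  rw [pullGauss_twist A π σ hσ ζ hσ'']
  exact hx

theorem pullRed_twist (x : ↥(pullGauss A π σ hσ)) :
    pullRed A π ((twist (unitL A ζ)).comp σ) hσ'' ⟨(x : F), mem_pullGauss_twist A π σ hσ ζ hσ'' x.2⟩
      = twist (unitK A π ζ) (pullRed A π σ hσ x) :=
  pullRed_postcomp A π σ hσ (twist (unitL A ζ)) (twist ζ) (twist (unitK A π ζ))
    (fun X => (coeffMap_twistU _ ζ X).symm) (fun X => coeffMap_twistU _ ζ X)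
    (twist_injective _) hσ'' x

/-- If `ζ` reduces to `1` (a `q`-th root of unity in residue characteristic `q`), the twist
does not change the reduction. -/
theorem pullRed_twist_of_map_eq_one (hζ : π (ζ : A) = 1) (x : ↥(pullGauss A π σ hσ)) :
    pullRed A π ((twist (unitL A ζ)).comp σ) hσ'' ⟨(x : F), mem_pullGauss_twist A π σ hσ ζ hσ'' x.2⟩
      = pullRed A π σ hσ x := by
  rw [pullRed_twist]
  have h1 : unitK A π ζ = 1 := Units.ext hζ
  rw [h1, twist_one]

theorem pullVal_twist [Algebra L F]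
    (hC : ∀ c : L, σ (algebraMap L F c) = HahnSeries.C c)
    (hπ0 : ∀ a : A, a ∈ IsLocalRing.maximalIdeal A → π a = 0)
    (hC'' : ∀ c : L, ((twist (unitL A ζ)).comp σ) (algebraMap L F c) = HahnSeries.C c) :
    pullVal A π ((twist (unitL A ζ)).comp σ) hσ'' hC'' hπ0 = pullVal A π σ hσ hC hπ0 :=
  pullVal_postcomp A π σ hσ (twist (unitL A ζ)) (twist ζ) (twist (unitK A π ζ))
    (fun X => (coeffMap_twistU _ ζ X).symm) (fun X => coeffMap_twistU _ ζ X)
    (twist_injective _) hσ'' hC hπ0 hC''

end Twist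

end Ops

/-! ### The chart at `∞`: the inclusion of the modular function field -/

section Instance

variable {L : Type*} [Field L] [Algebra ℚ L] (A : ValuationSubring L) {k : Type*} [Field k]
  (π : A →+* k)

/-- The inclusion of the level-`N` function field into `L((t))`, as a ring hom. -/
def inclFull (N : ℕ) : ↥(laurentBaseChange L (modularFunctionFieldFull N)) →+* LaurentSeries L :=
  (laurentBaseChange L (modularFunctionFieldFull N)).val.toRingHom

@[simp] theorem inclFull_apply (N : ℕ) (x : ↥(laurentBaseChange L (modularFunctionFieldFull N))) :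
    inclFull N x = (x : LaurentSeries L) := rfl

theorem inclFull_normalizable (N : ℕ) (x : ↥(laurentBaseChange L (modularFunctionFieldFull N)))
    (hx : x ≠ 0) : IsNormalizable A π (inclFull N x) :=
  isNormalizable_of_mem_full A π N x.2 (fun h => hx (Subtype.ext h))

theorem inclFull_algebraMap (N : ℕ) (c : L) :
    inclFull N (algebraMap L ↥(laurentBaseChange L (modularFunctionFieldFull N)) c)
      = HahnSeries.C c :=
  (C_eq_algebraMap c).symm

/-- The pull-back Gauss ring along the inclusion is the landed `helper8991.gaussF`. -/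
theorem pullGauss_inclFull (N : ℕ) :
    pullGauss A π (inclFull N) (inclFull_normalizable A π N) = gaussF A π N := by
  ext x
  exact Iff.rfl

theorem pullRed_inclFull (N : ℕ) (x : ↥(gaussF A π N)) :
    pullRed A π (inclFull N) (inclFull_normalizable A π N) ⟨(x : _), x.2⟩ = gaussFRed A π N x :=
  rfl

end Instance

end Fermat.Agent.S36.helper508
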