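import Fermat.Agent.S18.helper987_ConjExp
import Fermat.Agent.S18.helper8991_GaussInst
import Fermat.Agent.S28.helper328_PrimeSpec
import Fermat.Agent.S37.helper5666_KroneckerSeries
import Fermat.Prelude.Def_ModularCurve_HeckeOperator

/-!
# S36-F1 (E): the mid-cusp embeddings of `F_N`, `N = q² M'` (helper987)

For a prime `q ∤ M'`, `N = q² M'` and a primitive `q`-th root of unity `ζ ∈ ℚ̄`, the expansion of
`F_N = ℚ̄(X₀(N))` at the cusp `1 / (q M' c')` (width one) is a ring homomorphism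
`midExp ζ : FN N →+* ℚ̄((t))` with

* `midExp ζ x = x` for `x` in the subfield `F_{qM'}` (the `α`-subfield);
* `midExp ζ (V_{q²} y) = y(ζ t)` for `y ∈ F_{M'}` (`V_{q²} y = y(t^{q²})`), in particular
  `j(t^{q² d'}) ↦ j((ζ t)^{d'})` for `d' ∣ M'`;
* `qExpand N ∘ midExp ζ = helper987.cosetExpK N g` for a matrix `g = [[1, 0], [q M' c', 1]]`
  (the analytic conjugate expansion of S24 / S18-CUSPEXP).

Everything is derived from the landed `Fermat.Agent.S18.helper987.cosetExpK_jBarD_gcd`.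
-/

set_option autoImplicit false
set_option linter.style.haveILetI false

open Complex
open UpperHalfPlane hiding I
open ModularCurve CongruenceSubgroup
open scoped Real MatrixGroups

noncomputable section

namespace Fermat.Agent.S36.helper987

open Fermat.Agent.S24 Fermat.Agent.S24.helper24 Fermat.Agent.S24.helper504
open Fermat.Agent.S18.helper987
open Fermat.Agent.S37.helper5666

/-! ## Generalities -/

/-- `F_d ⊆ F_M` for `d ∣ M`. -/
theorem fnBar_mono {d M : ℕ} (h : d ∣ M) :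
    modularFunctionFieldBar d ≤ modularFunctionFieldBar M := by
  show laurentBaseChange Kbar (modularFunctionFieldFull d)
    ≤ laurentBaseChange Kbar (modularFunctionFieldFull M)
  rw [helper3176.laurentBaseChange_full_eq_adjoin, helper3176.laurentBaseChange_full_eq_adjoin]
  apply IntermediateField.adjoin.mono
  intro x hx
  rw [helper3176.mem_genSet_iff] at hx ⊢
  obtain ⟨e, he0, he, rfl⟩ := hx
  exact ⟨e, he0, he.trans h, rfl⟩

/-- The coefficient twist of S24 is the rotation `x(t) ↦ x(u t)`. -/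
theorem twist_eq_rot (u : Kbarˣ) (x : LaurentSeries Kbar) :
    helper504.twist (u : Kbar) x = rot u x := by
  ext n
  rw [helper504.twist_coeff, rot_coeff, Units.val_zpow_eq_zpow_val]

theorem twist_one (x : LaurentSeries Kbar) : helper504.twist (1 : Kbar) x = x := by
  ext n
  rw [helper504.twist_coeff, one_zpow, one_mul]

theorem jSeries_eq_qExpand_jK (d : ℕ) [NeZero d] : jSeries d = qExpand Kbar d jK :=
  helper3176.jSeries_eq_qExpand d

/-- The lower unipotent matrix `[[1, 0], [c, 1]]`. -/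
def lowerUni (c : ℤ) : SL(2, ℤ) :=
  ⟨!![1, 0; c, 1], by rw [Matrix.det_fin_two_of]; ring⟩

@[simp] theorem lowerUni_10 (c : ℤ) : lowerUni c 1 0 = c := rfl
@[simp] theorem lowerUni_11 (c : ℤ) : lowerUni c 1 1 = 1 := rfl

/-! ## The expansion at `[[1, 0], [c, 1]]` on the generators -/

/-- **Alpha side**: if `d ∣ c` then `j(q^d)` has the same expansion at `[[1, 0], [c, 1]]` as at
the base cusp. -/
theorem cosetExpK_lowerUni_jBarD_of_dvd (N : ℕ) [NeZero N] (c : ℤ) (d : ℕ) [NeZero d]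
    (hd : d ∣ N) (hdc : (d : ℤ) ∣ c) :
    cosetExpK N (lowerUni c) (jBarD N d hd) = qExpand Kbar N (jSeries d) := by
  obtain ⟨a, b, d', m, ha, hd', hm, ζ, hprod, hb, hmd, hgcd, -, hζ1, -, h⟩ :=
    cosetExpK_jBarD_gcd N (lowerUni c) d hd
  rw [lowerUni_10] at hgcd
  have hda : a = d := by
    rw [hgcd]
    exact Nat.gcd_eq_left (Int.natCast_dvd.mp hdc)
  have hd0 : d ≠ 0 := NeZero.ne d
  have hd'1 : d' = 1 := by
    rw [hda] at hprod
    exact Nat.eq_of_mul_eq_mul_left (Nat.pos_of_ne_zero hd0) (hprod.trans (mul_one d).symm)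
  have hζ : ζ = 1 := by rw [hd'1, pow_one] at hζ1; exact hζ1
  have hm' : m = N * d := by
    rw [hd'1, mul_one, hda] at hmd
    rw [hmd, mul_comm]
  rw [h, hζ, twist_one, jSeries_eq_qExpand_jK, qExpand_qExpand]
  exact qExpand_congr hm' _

/-- **Mid side**: for `N = q² M'`, `c = q M' c'`, `q ∣ c' M' B - 1` and a `q`-th root of unity
`ζ` with `κ ζ = exp(2πi B / q)`, the expansion of `j(q^{q² d''})`, `d'' ∣ M'`, at
`[[1, 0], [c, 1]]` is `j((ζ t)^{d''})` (read in `u = t^(1/N)`). -/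
theorem cosetExpK_lowerUni_jBarD_sq (q M' N : ℕ) [Fact q.Prime] [NeZero M'] [NeZero N]
    (hqM : ¬ q ∣ M') (c' : ℤ) (B : ℕ) (hB : (q : ℤ) ∣ c' * M' * B - 1)
    (ζ : Kbarˣ) (hζB : kappa (ζ : Kbar) = cexp (2 * π * Complex.I * B / q))
    (d : ℕ) [NeZero d] (hd : d ∣ N) (d'' : ℕ) [NeZero d''] (hd'' : d'' ∣ M')
    (hdd : d = q ^ 2 * d'') :
    cosetExpK N (lowerUni (q * M' * c')) (jBarD N d hd) =
      qExpand Kbar N (rot ζ (jSeries d'')) := by
  have hq : q.Prime := Fact.out
  have hq0 : q ≠ 0 := hq.ne_zero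
  have hd''0 : d'' ≠ 0 := NeZero.ne d''
  obtain ⟨e, he⟩ := hd''
  -- `q ∤ c'`
  have hqc' : ¬ (q : ℤ) ∣ c' := by
    intro hdiv
    have h1 : (q : ℤ) ∣ c' * M' * B := Dvd.dvd.mul_right (Dvd.dvd.mul_right hdiv _) _
    have h2 : (q : ℤ) ∣ 1 := by
      have := dvd_sub h1 hB
      rwa [sub_sub_cancel] at this
    have h3 : q ∣ 1 := Int.natCast_dvd_natCast.mp (by exact_mod_cast h2)
    exact hq.one_lt.ne' (Nat.dvd_one.mp h3)
  obtain ⟨a, b, d', m, ha, hd', hm, ζ₁, hprod, hb, hmd, hgcd, hcong, hζ1, hζ₁, h⟩ :=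
    cosetExpK_jBarD_gcd N (lowerUni (q * M' * c')) d hd
  rw [lowerUni_10] at hgcd hcong
  rw [lowerUni_11] at hcong
  -- `q d'' ∣ a`
  have hnat : ((q : ℤ) * M' * c').natAbs = q * M' * c'.natAbs := by
    rw [Int.natAbs_mul, Int.natAbs_mul, Int.natAbs_natCast, Int.natAbs_natCast]
  have hqd_a : q * d'' ∣ a := by
    rw [hgcd, hnat]
    apply Nat.dvd_gcd
    · rw [hdd]
      exact ⟨q, by ring⟩
    · rw [he]
      exact ⟨e * c'.natAbs, by ring⟩
  obtain ⟨k, hk⟩ := hqd_a
  have hkd' : k * d' = q := by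
    have h1 : q * d'' * (k * d') = q * d'' * q := by
      calc q * d'' * (k * d') = a * d' := by rw [hk]; ring
        _ = d := hprod
        _ = q * d'' * q := by rw [hdd]; ring
    exact Nat.eq_of_mul_eq_mul_left (Nat.pos_of_ne_zero (Nat.mul_ne_zero hq0 hd''0)) h1
  have hk1 : k = 1 := by
    have hkq : k ∣ q := ⟨d', hkd'.symm⟩
    rcases (Nat.dvd_prime hq).mp hkq with h1 | h1
    · exact h1
    · exfalso
      -- `a = q² d''` divides `q M' |c'|`
      have ha_dvd : a ∣ q * M' * c'.natAbs := by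
        rw [← hnat, hgcd]
        exact Nat.gcd_dvd_right _ _
      rw [hk, h1, he] at ha_dvd
      have h2 : q * d'' * q ∣ q * d'' * (e * c'.natAbs) := by
        have e1 : q * (d'' * e) * c'.natAbs = q * d'' * (e * c'.natAbs) := by ring
        rwa [e1] at ha_dvd
      have h3 : q ∣ e * c'.natAbs :=
        (Nat.mul_dvd_mul_iff_left (Nat.pos_of_ne_zero (Nat.mul_ne_zero hq0 hd''0))).mp h2
      rcases (Nat.Prime.dvd_mul hq).mp h3 with h4 | h4
      · exact hqM (he ▸ Dvd.dvd.mul_left h4 d'')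
      · exact hqc' (Int.natCast_dvd.mpr h4)
  have had : a = q * d'' := by rw [hk, hk1, mul_one]
  have hd'q : d' = q := by rw [hk1, one_mul] at hkd'; exact hkd'
  have hm' : m = N * d'' := by
    rw [hd'q, had] at hmd
    have h1 : q * m = q * (N * d'') := by
      calc q * m = m * q := by ring
        _ = q * d'' * N := hmd
        _ = q * (N * d'') := by ring
    exact Nat.eq_of_mul_eq_mul_left (Nat.pos_of_ne_zero hq0) h1
  -- the congruence for `b`
  have hbB : (q : ℤ) ∣ (B : ℤ) * d'' - b := by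
    have h1 : ((q : ℤ) * (q * d'')) ∣ (q * d'') * (1 - e * c' * b) := by
      have e1 : ((d : ℕ) : ℤ) = (q : ℤ) * (q * d'') := by rw [hdd]; push_cast; ring
      have e2 : (a : ℤ) * 1 - (q : ℤ) * M' * c' * b = (q * d'') * (1 - e * c' * b) := by
        rw [had, he]; push_cast; ring
      rw [← e1, ← e2]
      exact hcong
    have h2 : (q : ℤ) ∣ 1 - e * c' * b := by
      have hne : ((q : ℤ) * d'') ≠ 0 := by
        exact_mod_cast Nat.mul_ne_zero hq0 hd''0
      have h1' : ((q : ℤ) * d'') * q ∣ (q * d'') * (1 - e * c' * b) := by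
        have e3 : (q : ℤ) * (q * d'') = ((q : ℤ) * d'') * q := by ring
        rwa [e3] at h1
      exact (mul_dvd_mul_iff_left hne).mp h1'
    have h3 : (q : ℤ) ∣ c' * (d'' * e) * B - 1 := by
      have : ((M' : ℕ) : ℤ) = (d'' : ℤ) * e := by rw [he]; push_cast; ring
      rwa [this] at hB
    have e4 : (B : ℤ) * d'' - b = (1 - e * c' * b) * (B * d'') + (c' * (d'' * e) * B - 1) * b := by
      ring
    rw [e4]
    exact dvd_add (Dvd.dvd.mul_right h2 _) (Dvd.dvd.mul_right h3 _)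
  -- identification of the root of unity
  have hζeq : ζ₁ = ((ζ ^ d'' : Kbarˣ) : Kbar) := by
    apply kappa.injective
    rw [hζ₁, Units.val_pow_eq_pow_val, map_pow, hζB, ← Complex.exp_nat_mul, hd'q]
    obtain ⟨t, ht⟩ := hbB
    have hqC : (q : ℂ) ≠ 0 := Nat.cast_ne_zero.mpr hq0
    have e5 : (d'' : ℂ) * (2 * π * Complex.I * B / q) =
        2 * π * Complex.I * b / q + t * (2 * π * Complex.I) := by
      have h4 : ((B : ℂ) * d'' - b) = q * t := by exact_mod_cast ht
      have h5 : (B : ℂ) * d'' = b + q * t := by linear_combination h4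
      have h6 : (d'' : ℂ) * (2 * π * Complex.I * B / q) =
          2 * π * Complex.I * ((B : ℂ) * d'') / q := by ring
      rw [h6, h5]
      field_simp
    rw [e5, Complex.exp_add, Complex.exp_int_mul_two_pi_mul_I, mul_one]
  rw [h, hζeq, twist_eq_rot, jSeries_eq_qExpand_jK, rot_qExpand, qExpand_qExpand]
  exact qExpand_congr hm' _

/-! ## Arithmetic of the level `q² M'` -/

/-- A divisor of `q² M'` divides `q M'` or is `q² d''` with `d'' ∣ M'`. -/
theorem dvd_sq_mul_cases {q M' d : ℕ} (hq : q.Prime) (hd : d ∣ q ^ 2 * M') :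
    d ∣ q * M' ∨ ∃ d'', d'' ∣ M' ∧ d = q ^ 2 * d'' := by
  obtain ⟨d₁, d₂, h1, h2, rfl⟩ := (Nat.dvd_mul).mp hd
  obtain ⟨i, hi, rfl⟩ := (Nat.dvd_prime_pow hq).mp h1
  rcases Nat.lt_or_ge i 2 with hlt | hge
  · left
    refine Nat.mul_dvd_mul ?_ h2
    have : i ≤ 1 := by omega
    calc q ^ i ∣ q ^ 1 := Nat.pow_dvd_pow q this
      _ = q := pow_one q
  · right
    have : i = 2 := le_antisymm hi hge
    subst this
    exact ⟨d₂, h2, rfl⟩

/-- `j(q^{m d}) = V_m (j(q^d))`. -/
theorem jSeries_mul (m d : ℕ) [NeZero m] [NeZero d] [NeZero (m * d)] :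
    jSeries (m * d) = qExpand Kbar m (jSeries d) := by
  rw [jSeries_eq_qExpand_jK, jSeries_eq_qExpand_jK, qExpand_qExpand]

/-- `V_m F_{M'} ⊆ F_N` when `N = m M'`. -/
theorem qExpand_mem_fnBar {m M' N : ℕ} [NeZero m] [NeZero M'] (hN : N = m * M')
    (y : FN M') : qExpand Kbar m (y : LaurentSeries Kbar) ∈ modularFunctionFieldBar N := by
  have h := (heckeBetaBar Kbar M' m y).2
  rw [coe_heckeBetaBar] at h
  rw [hN, Nat.mul_comm]
  exact h

/-- `V_m : F_{M'} → F_N` (`N = m M'`) as a ring homomorphism. -/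
def vHom {m M' N : ℕ} [NeZero m] [NeZero M'] (hN : N = m * M') : FN M' →+* FN N where
  toFun y := ⟨qExpand Kbar m (y : LaurentSeries Kbar), qExpand_mem_fnBar hN y⟩
  map_one' := Subtype.ext (map_one (qExpand Kbar m))
  map_mul' _ _ := Subtype.ext (map_mul (qExpand Kbar m) _ _)
  map_zero' := Subtype.ext (map_zero (qExpand Kbar m))
  map_add' _ _ := Subtype.ext (map_add (qExpand Kbar m) _ _)

theorem coe_vHom {m M' N : ℕ} [NeZero m] [NeZero M'] (hN : N = m * M') (y : FN M') :
    ((vHom hN y : FN N) : LaurentSeries Kbar) = qExpand Kbar m (y : LaurentSeries Kbar) := rfl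

/-- The inclusion `F_d → F_N` (`d ∣ N`) as a ring homomorphism. -/
def inclHom {d N : ℕ} (h : d ∣ N) : FN d →+* FN N :=
  (IntermediateField.inclusion (fnBar_mono h)).toRingHom

theorem coe_inclHom {d N : ℕ} (h : d ∣ N) (x : FN d) :
    ((inclHom h x : FN N) : LaurentSeries Kbar) = (x : LaurentSeries Kbar) :=
  IntermediateField.coe_inclusion _ x

theorem inclHom_algebraMap {d N : ℕ} (h : d ∣ N) (c : Kbar) :
    inclHom h (algebraMap Kbar (FN d) c) = algebraMap Kbar (FN N) c :=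
  (IntermediateField.inclusion (fnBar_mono h)).commutes c

theorem coe_algebraMap_FN (N : ℕ) (c : Kbar) :
    ((algebraMap Kbar (FN N) c : FN N) : LaurentSeries Kbar) = HahnSeries.C c := by
  show algebraMap Kbar (LaurentSeries Kbar) c = HahnSeries.C c
  rw [algebraMap_laurentSeries_eq_single, HahnSeries.C_apply]

/-! ## The mid-cusp embedding -/

section Mid

variable (q M' N : ℕ) [Fact q.Prime] [NeZero M'] [NeZero N]

omit [NeZero M'] in
/-- The data of a mid cusp for the primitive `q`-th root of unity `ζ`: `c'` prime to `q` and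
`B` with `κ ζ = exp(2πi B / q)`, `c' M' B ≡ 1 (mod q)`. -/
theorem exists_mid_data (hqM : ¬ q ∣ M') (ζ : Kbarˣ) (hζ : IsPrimitiveRoot (ζ : Kbar) q) :
    ∃ (c' : ℤ) (B : ℕ), (q : ℤ) ∣ c' * M' * B - 1 ∧
      kappa (ζ : Kbar) = cexp (2 * π * Complex.I * B / q) := by
  have hq : q.Prime := Fact.out
  have hκ : IsPrimitiveRoot (kappa (ζ : Kbar)) q := hζ.map_of_injective kappa.injective
  obtain ⟨B, -, hBq, hB⟩ := (Complex.isPrimitiveRoot_iff _ q hq.ne_zero).mp hκ
  have hcop : (M' * B).Coprime q :=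
    Nat.Coprime.mul_left ((Nat.Prime.coprime_iff_not_dvd hq).mpr hqM).symm hBq
  obtain ⟨c₀, -, hc₀⟩ := Nat.exists_mul_mod_eq_one_of_coprime hcop hq.one_lt
  refine ⟨c₀, B, ?_, ?_⟩
  · have h1 : 1 ≡ M' * B * c₀ [MOD q] := by
      unfold Nat.ModEq
      rw [hc₀, Nat.mod_eq_of_lt hq.one_lt]
    have h2 := (Nat.modEq_iff_dvd).mp h1
    have e : ((c₀ : ℤ) * M' * B - 1) = ((M' * B * c₀ : ℕ) : ℤ) - ((1 : ℕ) : ℤ) := by
      push_cast; ring
    rw [e]
    exact h2
  · rw [← hB]
    congr 1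
    ring

variable {q M' N}

/-- Every conjugate expansion at `[[1, 0], [q M' c', 1]]` is a series in `t = u^N`. -/
theorem cosetExpK_mid_mem_range (hqM : ¬ q ∣ M') (hN : N = q ^ 2 * M') (c' : ℤ) (B : ℕ)
    (hB : (q : ℤ) ∣ c' * M' * B - 1) (ζ : Kbarˣ)
    (hζB : kappa (ζ : Kbar) = cexp (2 * π * Complex.I * B / q)) (x : FN N) :
    cosetExpK N (lowerUni (q * M' * c')) x ∈ (qExpand Kbar N).fieldRange := by
  have hq : q.Prime := Fact.out
  have hgen : ∀ a : helper3176.AN N,
      cosetExpK N (lowerUni (q * M' * c')) (a : FN N) ∈ (qExpand Kbar N).fieldRange := by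
    rintro ⟨a, ha⟩
    show cosetExpK N (lowerUni (q * M' * c')) a ∈ (qExpand Kbar N).fieldRange
    unfold helper3176.AN at ha
    induction ha using Algebra.adjoin_induction with
    | mem x hx =>
        obtain ⟨d, hd0, hd, rfl⟩ := hx
        rcases dvd_sq_mul_cases hq (hN ▸ hd) with h1 | ⟨d'', hd'', hdd⟩
        · rw [cosetExpK_lowerUni_jBarD_of_dvd N _ d hd
            (Dvd.dvd.mul_right (by exact_mod_cast h1) c')]
          exact ⟨_, rfl⟩
        · haveI : NeZero d'' := ⟨by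
            rintro rfl
            rw [mul_zero] at hdd
            exact (NeZero.ne d) hdd⟩
          rw [cosetExpK_lowerUni_jBarD_sq q M' N hqM c' B hB ζ hζB d hd d'' hd'' hdd]
          exact ⟨_, rfl⟩
    | algebraMap c =>
        rw [cosetExpK_algebraMap]
        exact ⟨HahnSeries.C c, qExpand_C N c⟩
    | add x y _ _ hx hy => rw [map_add]; exact add_mem hx hy
    | mul x y _ _ hx hy => rw [map_mul]; exact mul_mem hx hy
  obtain ⟨a, b, -, rfl⟩ := helper3176.exists_div_AN N x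
  rw [map_div₀]
  exact div_mem (hgen a) (hgen b)

/-- **Existence of the mid-cusp embedding** for a primitive `q`-th root of unity `ζ`. -/
theorem exists_midExp (hqM : ¬ q ∣ M') (hN : N = q ^ 2 * M') (ζ : Kbarˣ)
    (hζ : IsPrimitiveRoot (ζ : Kbar) q) :
    ∃ φ : FN N →+* LaurentSeries Kbar,
      (∃ c' : ℤ, ¬ (q : ℤ) ∣ c' ∧
        ∀ x, qExpand Kbar N (φ x) = cosetExpK N (lowerUni (q * M' * c')) x) ∧
      (∀ (d : ℕ) [NeZero d] (hd : d ∣ N), d ∣ q * M' → φ (jBarD N d hd) = jSeries d) ∧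
      (∀ (d : ℕ) [NeZero d] (hd : d ∣ N) (d'' : ℕ) [NeZero d''], d'' ∣ M' → d = q ^ 2 * d'' →
        φ (jBarD N d hd) = rot ζ (jSeries d'')) := by
  have hq : q.Prime := Fact.out
  obtain ⟨c', B, hB, hζB⟩ := exists_mid_data q M' hqM ζ hζ
  have hqc' : ¬ (q : ℤ) ∣ c' := by
    intro hdiv
    have h1 : (q : ℤ) ∣ c' * M' * B := Dvd.dvd.mul_right (Dvd.dvd.mul_right hdiv _) _
    have h2 : (q : ℤ) ∣ 1 := by
      have := dvd_sub h1 hB
      rwa [sub_sub_cancel] at this
    have h3 : q ∣ 1 := Int.natCast_dvd_natCast.mp (by exact_mod_cast h2)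
    exact hq.one_lt.ne' (Nat.dvd_one.mp h3)
  let g := lowerUni (q * M' * c')
  have hmem := cosetExpK_mid_mem_range hqM hN c' B hB ζ hζB
  let φ : FN N →+* LaurentSeries Kbar :=
    ((qExpand Kbar N).rangeRestrictFieldEquiv.symm.toRingHom).comp
      ((cosetExpK N g).codRestrict (qExpand Kbar N).fieldRange.toSubring hmem)
  have hφ : ∀ x, qExpand Kbar N (φ x) = cosetExpK N g x := fun x =>
    (qExpand Kbar N).rangeRestrictFieldEquiv_apply_symm_apply
      (((cosetExpK N g).codRestrict (qExpand Kbar N).fieldRange.toSubring hmem) x)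
  refine ⟨φ, ⟨c', hqc', hφ⟩, ?_, ?_⟩
  · intro d _ hd hdq
    apply qExpand_injective (R := Kbar) N
    rw [hφ]
    exact cosetExpK_lowerUni_jBarD_of_dvd N _ d hd (Dvd.dvd.mul_right (by exact_mod_cast hdq) c')
  · intro d _ hd d'' _ hd'' hdd
    apply qExpand_injective (R := Kbar) N
    rw [hφ]
    exact cosetExpK_lowerUni_jBarD_sq q M' N hqM c' B hB ζ hζB d hd d'' hd'' hdd

/-- **The mid-cusp embedding** `midExp ζ : F_N → ℚ̄((t))`, `N = q² M'`, for a primitive `q`-th
root of unity `ζ`: the expansion at the cusp `1 / (q M' c')`, `c' M' B ≡ 1 (mod q)` where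
`ζ = exp(2πi B / q)`. -/
def midExp (hqM : ¬ q ∣ M') (hN : N = q ^ 2 * M') (ζ : Kbarˣ)
    (hζ : IsPrimitiveRoot (ζ : Kbar) q) : FN N →+* LaurentSeries Kbar :=
  Classical.choose (exists_midExp hqM hN ζ hζ)

section API

variable (hqM : ¬ q ∣ M') (hN : N = q ^ 2 * M') (ζ : Kbarˣ) (hζ : IsPrimitiveRoot (ζ : Kbar) q)

/-- Link with the analytic conjugate expansions of S24 / S18-CUSPEXP. -/
theorem exists_qExpand_midExp :
    ∃ c' : ℤ, ¬ (q : ℤ) ∣ c' ∧
      ∀ x, qExpand Kbar N (midExp hqM hN ζ hζ x) = cosetExpK N (lowerUni (q * M' * c')) x :=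
  (Classical.choose_spec (exists_midExp hqM hN ζ hζ)).1

/-- `midExp ζ (j(t^d)) = j(t^d)` for `d ∣ q M'`. -/
theorem midExp_jBarD_of_dvd (d : ℕ) [NeZero d] (hd : d ∣ N) (hdq : d ∣ q * M') :
    midExp hqM hN ζ hζ (jBarD N d hd) = jSeries d :=
  (Classical.choose_spec (exists_midExp hqM hN ζ hζ)).2.1 d hd hdq

/-- `midExp ζ (j(t^{q² d''})) = j((ζ t)^{d''})` for `d'' ∣ M'`. -/
theorem midExp_jBarD_sq (d : ℕ) [NeZero d] (hd : d ∣ N) (d'' : ℕ) [NeZero d'']
    (hd'' : d'' ∣ M') (hdd : d = q ^ 2 * d'') :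
    midExp hqM hN ζ hζ (jBarD N d hd) = rot ζ (jSeries d'') :=
  (Classical.choose_spec (exists_midExp hqM hN ζ hζ)).2.2 d hd d'' hd'' hdd

theorem midExp_injective : Function.Injective (midExp hqM hN ζ hζ) :=
  (midExp hqM hN ζ hζ).injective

theorem midExp_algebraMap (c : Kbar) :
    midExp hqM hN ζ hζ (algebraMap Kbar (FN N) c) = HahnSeries.C c := by
  obtain ⟨c', -, h⟩ := exists_qExpand_midExp hqM hN ζ hζ
  apply qExpand_injective (R := Kbar) N
  rw [h, cosetExpK_algebraMap, qExpand_C]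

/-- **Uniqueness**: a ring homomorphism with the values of `midExp ζ` on the constants and on
the generators `j(t^d)`, `d ∣ N`, is `midExp ζ`. -/
theorem eq_midExp (ψ : FN N →+* LaurentSeries Kbar)
    (hc : ∀ c : Kbar, ψ (algebraMap Kbar (FN N) c) = HahnSeries.C c)
    (h1 : ∀ (d : ℕ) [NeZero d] (hd : d ∣ N), d ∣ q * M' → ψ (jBarD N d hd) = jSeries d)
    (h2 : ∀ (d : ℕ) [NeZero d] (hd : d ∣ N) (d'' : ℕ) [NeZero d''], d'' ∣ M' →
      d = q ^ 2 * d'' → ψ (jBarD N d hd) = rot ζ (jSeries d'')) :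
    ψ = midExp hqM hN ζ hζ := by
  have hq : q.Prime := Fact.out
  apply helper3176.ringHom_ext_of_gen
  · intro c
    rw [hc, midExp_algebraMap]
  · intro d _ hd
    rcases dvd_sq_mul_cases hq (hN ▸ hd) with hdq | ⟨d'', hd'', hdd⟩
    · rw [h1 d hd hdq, midExp_jBarD_of_dvd hqM hN ζ hζ d hd hdq]
    · haveI : NeZero d'' := ⟨by
        rintro rfl
        rw [mul_zero] at hdd
        exact (NeZero.ne d) hdd⟩
      rw [h2 d hd d'' hd'' hdd, midExp_jBarD_sq hqM hN ζ hζ d hd d'' hd'' hdd]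

omit [Fact q.Prime] [NeZero M'] [NeZero N] in
include hN in
theorem mul_dvd_level : q * M' ∣ N := by
  rw [hN]
  exact ⟨q, by ring⟩

/-- **`midExp ζ` is the identity on the `α`-subfield `F_{qM'}`**, ring hom form. -/
theorem midExp_comp_inclHom :
    (midExp hqM hN ζ hζ).comp (inclHom (mul_dvd_level hN)) =
      (modularFunctionFieldBar (q * M')).val.toRingHom := by
  have hq : q.Prime := Fact.out
  haveI : NeZero (q * M') := ⟨Nat.mul_ne_zero hq.ne_zero (NeZero.ne M')⟩
  apply helper3176.ringHom_ext_of_gen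
  · intro c
    rw [RingHom.comp_apply, inclHom_algebraMap, midExp_algebraMap]
    exact (coe_algebraMap_FN (q * M') c).symm
  · intro d _ hd
    rw [RingHom.comp_apply]
    have e : inclHom (mul_dvd_level hN) (jBarD (q * M') d hd) =
        jBarD N d (hd.trans (mul_dvd_level hN)) := Subtype.ext (coe_inclHom _ _)
    rw [e, midExp_jBarD_of_dvd hqM hN ζ hζ d _ hd]
    rfl

/-- **`midExp ζ x = x` for `x` in the `α`-subfield `F_{qM'}`.** -/
theorem midExp_of_mem (x : FN N)
    (hx : (x : LaurentSeries Kbar) ∈ modularFunctionFieldBar (q * M')) :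
    midExp hqM hN ζ hζ x = (x : LaurentSeries Kbar) := by
  have h := congrArg (fun f : FN (q * M') →+* LaurentSeries Kbar => f ⟨_, hx⟩)
    (midExp_comp_inclHom hqM hN ζ hζ)
  have e : inclHom (mul_dvd_level hN) ⟨(x : LaurentSeries Kbar), hx⟩ = x :=
    Subtype.ext (coe_inclHom _ _)
  simp only [RingHom.comp_apply] at h
  rw [e] at h
  exact h

/-- **`midExp ζ (V_{q²} y) = y(ζ t)` for `y ∈ F_{M'}`**, ring hom form. -/
theorem midExp_comp_vHom [NeZero (q ^ 2)] :
    (midExp hqM hN ζ hζ).comp (vHom hN) =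
      (rot ζ).comp (modularFunctionFieldBar M').val.toRingHom := by
  apply helper3176.ringHom_ext_of_gen
  · intro c
    rw [RingHom.comp_apply, RingHom.comp_apply]
    have e : vHom hN (algebraMap Kbar (FN M') c) = algebraMap Kbar (FN N) c := by
      apply Subtype.ext
      rw [coe_vHom, coe_algebraMap_FN, coe_algebraMap_FN, qExpand_C]
    rw [e, midExp_algebraMap]
    have e2 : (modularFunctionFieldBar M').val.toRingHom (algebraMap Kbar (FN M') c) =
        HahnSeries.C c := coe_algebraMap_FN M' c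
    rw [e2, HahnSeries.C_apply, rot_single, zpow_zero, Units.val_one, one_mul]
  · intro d _ hd
    rw [RingHom.comp_apply, RingHom.comp_apply]
    haveI : NeZero (q ^ 2 * d) := ⟨Nat.mul_ne_zero (NeZero.ne (q ^ 2)) (NeZero.ne d)⟩
    have hdN : q ^ 2 * d ∣ N := by
      rw [hN]
      exact Nat.mul_dvd_mul_left _ hd
    have e : vHom hN (jBarD M' d hd) = jBarD N (q ^ 2 * d) hdN := by
      apply Subtype.ext
      rw [coe_vHom, helper3176.coe_jBarD, helper3176.coe_jBarD, jSeries_mul]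
    rw [e, midExp_jBarD_sq hqM hN ζ hζ (q ^ 2 * d) hdN d hd rfl]
    rfl

/-- **`midExp ζ x = y(ζ t)` whenever `x = V_{q²} y`, `y ∈ F_{M'}`.** -/
theorem midExp_of_eq_qExpand [NeZero (q ^ 2)] (x : FN N) (y : FN M')
    (hxy : (x : LaurentSeries Kbar) = qExpand Kbar (q ^ 2) (y : LaurentSeries Kbar)) :
    midExp hqM hN ζ hζ x = rot ζ (y : LaurentSeries Kbar) := by
  have h := congrArg (fun f : FN M' →+* LaurentSeries Kbar => f y)
    (midExp_comp_vHom hqM hN ζ hζ)
  have e : vHom hN y = x := Subtype.ext (by rw [coe_vHom, hxy])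
  simp only [RingHom.comp_apply] at h
  rw [e] at h
  exact h

/-! ### Distinctness -/

theorem jSeries_one_coeff_neg_one : (jSeries 1).coeff (-1) = 1 := by
  rw [jSeries_eq_qExpand_jK, qExpand_one_apply]
  exact jK_coeff_neg_one

/-- `midExp ζ (j(t^{q²})) = j(ζ t)`. -/
theorem midExp_jBarD_sq_one [NeZero (q ^ 2)] (hd : q ^ 2 ∣ N) :
    midExp hqM hN ζ hζ (jBarD N (q ^ 2) hd) = rot ζ (jSeries 1) :=
  midExp_jBarD_sq hqM hN ζ hζ (q ^ 2) hd 1 (one_dvd M') (mul_one _).symm

include hN in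
omit [Fact q.Prime] [NeZero M'] [NeZero N] in
theorem sq_dvd_level : q ^ 2 ∣ N := by
  rw [hN]
  exact Dvd.intro _ rfl

/-- The mid-cusp embeddings of two different roots of unity are different. -/
theorem midExp_inj {ζ' : Kbarˣ} (hζ' : IsPrimitiveRoot (ζ' : Kbar) q)
    (h : midExp hqM hN ζ hζ = midExp hqM hN ζ' hζ') : ζ = ζ' := by
  have hq : q.Prime := Fact.out
  haveI : NeZero (q ^ 2) := ⟨pow_ne_zero 2 hq.ne_zero⟩
  have h1 : (midExp hqM hN ζ hζ (jBarD N (q ^ 2) (sq_dvd_level hN))).coeff (-1) =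
      (midExp hqM hN ζ' hζ' (jBarD N (q ^ 2) (sq_dvd_level hN))).coeff (-1) := by rw [h]
  rw [midExp_jBarD_sq_one, midExp_jBarD_sq_one, rot_coeff, rot_coeff,
    jSeries_one_coeff_neg_one, mul_one, mul_one] at h1
  have h2 : (ζ ^ (-1 : ℤ) : Kbarˣ) = ζ' ^ (-1 : ℤ) := Units.ext h1
  rw [zpow_neg_one, zpow_neg_one] at h2
  exact inv_injective h2

/-- A mid-cusp embedding is not the inclusion `F_N ⊆ ℚ̄((t))`. -/
theorem midExp_ne_val :
    midExp hqM hN ζ hζ ≠ (modularFunctionFieldBar N).val.toRingHom := by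
  have hq : q.Prime := Fact.out
  haveI : NeZero (q ^ 2) := ⟨pow_ne_zero 2 hq.ne_zero⟩
  intro h
  have h1 : (midExp hqM hN ζ hζ (jBarD N (q ^ 2) (sq_dvd_level hN))).coeff (-1) =
      ((modularFunctionFieldBar N).val.toRingHom (jBarD N (q ^ 2) (sq_dvd_level hN))).coeff
        (-1) := by rw [h]
  rw [midExp_jBarD_sq_one, rot_coeff, jSeries_one_coeff_neg_one, mul_one] at h1
  have h2 : ((modularFunctionFieldBar N).val.toRingHom (jBarD N (q ^ 2) (sq_dvd_level hN))).coeff
      (-1) = 0 := by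
    show (jSeries (q ^ 2)).coeff (-1) = 0
    rw [jSeries_eq_qExpand_jK]
    apply qExpand_coeff_of_not_dvd
    intro hdvd
    have h3 : ((q ^ 2 : ℕ) : ℤ) ∣ 1 := (Int.dvd_neg).mp hdvd
    have h4 : q ^ 2 ∣ 1 := by exact_mod_cast h3
    have h5 : q ∣ 1 := (Dvd.intro _ (sq q).symm).trans h4
    exact hq.one_lt.ne' (Nat.dvd_one.mp h5)
  rw [h2] at h1
  exact Units.ne_zero _ h1

/-! ### The element `T = j(t^{d''}) - j(t^{q² d''})` -/

/-- `midExp ζ (j(t^{d''}) - j(t^{q² d''})) = x - x(ζ t)` with `x = j(t^{d''})`, `d'' ∣ M'`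
(the element whose mid-cusp value is `(1 - ζ) · (Gauss unit)`). -/
theorem midExp_jBarD_sub (d'' : ℕ) [NeZero d''] [NeZero (q ^ 2 * d'')] (hd'' : d'' ∣ M')
    (h1 : d'' ∣ N) (h2 : q ^ 2 * d'' ∣ N) :
    midExp hqM hN ζ hζ (jBarD N d'' h1 - jBarD N (q ^ 2 * d'') h2) =
      jSeries d'' - rot ζ (jSeries d'') := by
  rw [map_sub, midExp_jBarD_of_dvd hqM hN ζ hζ d'' h1 (hd''.mul_left q),
    midExp_jBarD_sq hqM hN ζ hζ (q ^ 2 * d'') h2 d'' hd'' rfl]

/-! ### Restriction along `β : y ↦ y(t^q)` (`F_{qM'} → F_N`) -/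

/-- A divisor of `q M'` divides `M'` or is `q d` with `d ∣ M'`. -/
theorem dvd_mul_cases {q M' e : ℕ} (hq : q.Prime) (he : e ∣ q * M') :
    e ∣ M' ∨ ∃ d, d ∣ M' ∧ e = q * d := by
  by_cases hqe : q ∣ e
  · right
    obtain ⟨d, rfl⟩ := hqe
    exact ⟨d, (Nat.mul_dvd_mul_iff_left hq.pos).mp he, rfl⟩
  · left
    exact (Nat.Coprime.dvd_mul_left ((Nat.Prime.coprime_iff_not_dvd hq).mpr hqe).symm).mp he

/-- **Restriction of `midExp ζ` along `β`**: on `V_q F_{qM'}` the mid-cusp embedding is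
`y(t^q) ↦ (W_q y)(ζ t)`, for any ring endomorphism `w` of `F_{qM'}` with the values of the
Atkin–Lehner involution `W_q` on the generators (`j(t^d) ↔ j(t^{qd})`, `d ∣ M'`; e.g.
`Fermat.Agent.S35.helper1219.atkinLehnerBar q M' h`). -/
theorem midExp_vHom_of_atkinLehner [NeZero q] [NeZero (q * M')] (hN2 : N = q * (q * M'))
    (w : FN (q * M') →+* FN (q * M'))
    (hwc : ∀ c : Kbar, w (algebraMap Kbar (FN (q * M')) c) = algebraMap Kbar (FN (q * M')) c)
    (hw1 : ∀ {d : ℕ} [NeZero d] [NeZero (q * d)] (hd : d ∣ M'),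
      w (jBarD (q * M') d (hd.mul_left q)) = jBarD (q * M') (q * d) (Nat.mul_dvd_mul_left q hd))
    (hw2 : ∀ {d : ℕ} [NeZero d] [NeZero (q * d)] (hd : d ∣ M'),
      w (jBarD (q * M') (q * d) (Nat.mul_dvd_mul_left q hd)) = jBarD (q * M') d (hd.mul_left q))
    (y : FN (q * M')) :
    midExp hqM hN ζ hζ (vHom hN2 y) = rot ζ ((w y : FN (q * M')) : LaurentSeries Kbar) := by
  have hq : q.Prime := Fact.out
  have hζq : ζ ^ q = 1 := Units.ext (by
    rw [Units.val_pow_eq_pow_val, Units.val_one]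
    exact hζ.pow_eq_one)
  have key : (midExp hqM hN ζ hζ).comp (vHom hN2) =
      ((rot ζ).comp (modularFunctionFieldBar (q * M')).val.toRingHom).comp w := by
    apply helper3176.ringHom_ext_of_gen
    · intro c
      simp only [RingHom.comp_apply]
      have e : vHom hN2 (algebraMap Kbar (FN (q * M')) c) = algebraMap Kbar (FN N) c := by
        apply Subtype.ext
        rw [coe_vHom, coe_algebraMap_FN, coe_algebraMap_FN, qExpand_C]
      rw [e, midExp_algebraMap, hwc]
      have e2 : (modularFunctionFieldBar (q * M')).val.toRingHom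
          (algebraMap Kbar (FN (q * M')) c) = HahnSeries.C c := coe_algebraMap_FN (q * M') c
      rw [e2, HahnSeries.C_apply, rot_single, zpow_zero, Units.val_one, one_mul]
    · intro e _ he
      simp only [RingHom.comp_apply]
      haveI : NeZero (q * e) := ⟨Nat.mul_ne_zero hq.ne_zero (NeZero.ne e)⟩
      have heN : q * e ∣ N := by
        rw [hN2]
        exact Nat.mul_dvd_mul_left q he
      have hv : vHom hN2 (jBarD (q * M') e he) = jBarD N (q * e) heN := by
        apply Subtype.ext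
        rw [coe_vHom, helper3176.coe_jBarD, helper3176.coe_jBarD, jSeries_mul]
      rw [hv]
      rcases dvd_mul_cases hq he with heM | ⟨d, hdM, rfl⟩
      · -- `e ∣ M'`
        rw [midExp_jBarD_of_dvd hqM hN ζ hζ (q * e) heN (Nat.mul_dvd_mul_left q heM)]
        have e1 : jBarD (q * M') e he = jBarD (q * M') e (heM.mul_left q) := rfl
        rw [e1, hw1 heM]
        show jSeries (q * e) = rot ζ (jSeries (q * e))
        rw [jSeries_mul q e, rot_qExpand_of_pow_eq_one q ζ hζq]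
      · -- `e = q d`, `d ∣ M'`
        haveI : NeZero d := ⟨by
          rintro rfl
          exact (NeZero.ne (q * 0)) (mul_zero q)⟩
        have hdd : q * (q * d) = q ^ 2 * d := by ring
        rw [midExp_jBarD_sq hqM hN ζ hζ (q * (q * d)) heN d hdM hdd]
        have e1 : jBarD (q * M') (q * d) he =
            jBarD (q * M') (q * d) (Nat.mul_dvd_mul_left q hdM) := rfl
        rw [e1, hw2 hdM]
        rfl
  exact congrArg (fun f : FN (q * M') →+* LaurentSeries Kbar => f y) key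

/-! ### (E5) Normalisability: the Gauss valuation pulls back along `midExp ζ` -/

omit [Fact q.Prime] [NeZero M'] [NeZero N] in
/-- The rotation of S37 is the twist of S28. -/
theorem rot_eq_twist (u : Kbarˣ) :
    rot u = Fermat.Agent.S28.helper328.twist u := by
  ext x n
  rfl

omit [Fact q.Prime] [NeZero M'] [NeZero N] in
/-- `j(t^d)` has finitely generated (integral) coefficients. -/
theorem jSeries_mem_fgCoeff (d : ℕ) [NeZero d] :
    jSeries d ∈ Fermat.Agent.S18.helper8991.fgCoeff Kbar := by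
  have h : jSeries d = jqNModC Kbar d := coeffMap_jqNModC (algebraMap ℚ Kbar) d
  rw [h]
  exact Fermat.Agent.S18.helper8991.jqNModC_mem_fgCoeff d

omit [Fact q.Prime] [NeZero M'] [NeZero N] in
/-- The rotation by a root of unity preserves series with finitely generated coefficients. -/
theorem rot_mem_fgCoeff {u : Kbarˣ} {n : ℕ} (hn : 0 < n) (hu : u ^ n = 1)
    {P : LaurentSeries Kbar} (hP : P ∈ Fermat.Agent.S18.helper8991.fgCoeff Kbar) :
    rot u P ∈ Fermat.Agent.S18.helper8991.fgCoeff Kbar := by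
  obtain ⟨M, hM, hPM⟩ := hP
  refine ⟨Submodule.span ℤ ((fun i : ℕ => ((u ^ i : Kbarˣ) : Kbar)) '' (Finset.range n : Set ℕ))
    * M, (Submodule.fg_span (Set.Finite.image _ (Finset.finite_toSet _))).mul hM, fun m => ?_⟩
  rw [rot_coeff]
  refine Submodule.mul_mem_mul (Submodule.subset_span ?_) (hPM m)
  have hn' : (n : ℤ) ≠ 0 := by exact_mod_cast hn.ne'
  have h0 : 0 ≤ m % (n : ℤ) := Int.emod_nonneg m hn'
  have h1 : m % (n : ℤ) < n := Int.emod_lt_of_pos m (by exact_mod_cast hn)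
  refine ⟨(m % (n : ℤ)).toNat, ?_, ?_⟩
  · rw [Finset.coe_range, Set.mem_Iio]
    omega
  · show ((u ^ (m % (n : ℤ)).toNat : Kbarˣ) : Kbar) = ((u ^ m : Kbarˣ) : Kbar)
    congr 1
    have h2 : m = (n : ℤ) * (m / (n : ℤ)) + m % (n : ℤ) := (Int.mul_ediv_add_emod m n).symm
    have h3 : u ^ m = u ^ (m % (n : ℤ)) := by
      conv_lhs => rw [h2]
      rw [zpow_add, zpow_mul, zpow_natCast, hu, one_zpow, one_mul]
    rw [h3, ← zpow_natCast, Int.toNat_of_nonneg h0]

/-- The image of `midExp ζ` lies in the field generated over `ℚ̄` by the series with finitely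
generated coefficients. -/
theorem midExp_mem_adjoin_fgCoeff (x : FN N) :
    midExp hqM hN ζ hζ x ∈ IntermediateField.adjoin Kbar
      (Fermat.Agent.S18.helper8991.fgCoeff Kbar : Set (LaurentSeries Kbar)) := by
  have hq : q.Prime := Fact.out
  have hζq : ζ ^ q = 1 := Units.ext (by
    rw [Units.val_pow_eq_pow_val, Units.val_one]
    exact hζ.pow_eq_one)
  have key : ∀ a : helper3176.AN N,
      midExp hqM hN ζ hζ (a : FN N) ∈ Fermat.Agent.S18.helper8991.fgCoeff Kbar := by
    rintro ⟨a, ha⟩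
    show midExp hqM hN ζ hζ a ∈ Fermat.Agent.S18.helper8991.fgCoeff Kbar
    unfold helper3176.AN at ha
    induction ha using Algebra.adjoin_induction with
    | mem x hx =>
        obtain ⟨d, hd0, hd, rfl⟩ := hx
        rcases dvd_sq_mul_cases hq (hN ▸ hd) with hdq | ⟨d'', hd'', hdd⟩
        · rw [midExp_jBarD_of_dvd hqM hN ζ hζ d hd hdq]
          exact jSeries_mem_fgCoeff d
        · haveI : NeZero d'' := ⟨by
            rintro rfl
            rw [mul_zero] at hdd
            exact (NeZero.ne d) hdd⟩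
          rw [midExp_jBarD_sq hqM hN ζ hζ d hd d'' hd'' hdd]
          exact rot_mem_fgCoeff hq.pos hζq (jSeries_mem_fgCoeff d'')
    | algebraMap c =>
        rw [midExp_algebraMap, Fermat.Agent.S18.helper8991.C_eq_algebraMap]
        exact Subalgebra.algebraMap_mem _ c
    | add x y _ _ hx hy =>
        rw [map_add]
        exact add_mem hx hy
    | mul x y _ _ hx hy =>
        rw [map_mul]
        exact mul_mem hx hy
  obtain ⟨a, b, -, rfl⟩ := helper3176.exists_div_AN N x
  rw [map_div₀]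
  exact div_mem (IntermediateField.subset_adjoin _ _ (key a))
    (IntermediateField.subset_adjoin _ _ (key b))

/-- **(E5)** Every nonzero value of `midExp ζ` is normalisable for every valuation subring `A`
of `ℚ̄`: the hypothesis `hσ` of the pull-back Gauss valuation along `midExp ζ`. -/
theorem midExp_isNormalizable (A : ValuationSubring Kbar) {k : Type*} [Field k] (res : A →+* k)
    (x : FN N) (hx : x ≠ 0) :
    Fermat.Agent.S18.helper8991.IsNormalizable A res (midExp hqM hN ζ hζ x) :=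
  Fermat.Agent.S18.helper8991.isNormalizable_of_mem_adjoin A res (subset_refl _)
    (midExp_mem_adjoin_fgCoeff hqM hN ζ hζ x)
    ((map_ne_zero (midExp hqM hN ζ hζ)).mpr hx)

end API

end Mid

end Fermat.Agent.S36.helper987
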