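import Fermat.Agent.S36.helper36_KillData
import Fermat.Agent.S36.helper1335_KillFF
import Fermat.Agent.S58.helper6024_Unram
import Fermat.Agent.S37.helper5651_FFK
import Fermat.Agent.S18.helper8991_GaussInst
import Fermat.Agent.S35.helper1219_AtkinLehnerHall
import Fermat.Agent.S36.helper508_PullGauss
import Fermat.Agent.S36.helper987_MidCuspExp
import Fermat.Agent.S37.helper530_RegFinT49

/-!
# S36 (KILL-INST): the concrete terms of the modular instance of `helper36.KillData` (helper405)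

Captain ruling #3 (`team_s36_chat` #319 (a)), plan #327 (1).  This file fixes the CONCRETE TERMS
on which every geometric input of (KILL) is stated, for

`M₁ q : ℕ`, `q` prime, `q ∣ M₁`, `¬ q ^ 2 ∣ M₁`, `helper1335.AuxOK M₁ q`,
`A : ValuationSubring ℚ̄` (lying over `q` in the theorems):

* `KI A`  = `ℚ̄^I`, the inertia field of `A`;  `OI A = A ∩ KI A`;
* `FK A N` = `laurentBaseChange (KI A) (modularFunctionFieldFull N)`; the two levels are
  `FK A (M₁ * q)` (literal product) and `FK A M₁`;  `lh A N : FK A N →+* FN N` the base change;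
* `αK`, `βK`, `NαK`, `NβK` : the degeneracy maps over `KI A` and the norms along them;
* `Wsq` = `W_{q²}` on `FN (M₁ * q)`, `Wq` = `W_q` on `FN M₁` (`helper1219.atkinLehnerHall`);
* `Vinf`, `Vmid`, `Vzero` (level `M₁ * q`), `Vinf'`, `Vzero'` (level `M₁`): the vertical
  valuation subrings, DEFINED BY RESTRICTION from `(ℚ̄, A)`:
  Gauss / Gauss along the mid-cusp embedding `helper987.midExp ζ` / Gauss after `W`;
  `VK = ![Vinf, Vmid, Vzero]`, `VK' = ![Vinf', Vzero']`;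
* `ordOf V` : the normalised order function of a valuation subring with a uniformiser
  (`= helper1013.unifOrd V ϖ` for EVERY uniformiser `ϖ`: `ordOf_eq`);
  `ordK c = ordOf (VK c)`, `ordK' c = ordOf (VK' c)`;
* `xK`, `xK'` : the base line `t₄` (`q ≠ 2`) resp. `t₉` (`q = 2`) at the two levels.

`KillInput` is the list of geometric inputs (one field per input, stated on these terms), and
`killData_of_input` assembles `helper36.KillData` from it.
-/

set_option autoImplicit false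
set_option linter.unusedSectionVars false

noncomputable section

namespace Fermat.Agent.S36.helper405

open ModularCurve
open Fermat.Agent.S24.helper24 (Kbar FN)
open Fermat.Agent.S36.helper1013 (IsOrd IsUnifOf UnitOf unifOrd)
open Fermat.Agent.S36.helper36 (KillData DegData chart chart01 Through LPProp HorDiv)
open Fermat.Agent.S36.helper1335 (AuxOK)
open Fermat.Agent.S18.helper8991 (gaussF)

/-! ## The normalised order function of a valuation subring with a uniformiser -/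

section OrdOf

variable {F : Type*} [Field F]

/-- The normalised order function of a valuation subring having a uniformiser (`0` otherwise).
It does not depend on the uniformiser: `ordOf_eq`. -/
def ordOf (V : ValuationSubring F) : F → ℤ := by
  classical
  exact if h : ∃ ϖ : F, IsUnifOf V ϖ then unifOrd V h.choose else 0

theorem ordOf_of_exists {V : ValuationSubring F} (h : ∃ ϖ : F, IsUnifOf V ϖ) :
    ordOf V = unifOrd V h.choose := by
  unfold ordOf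
  exact dif_pos h

/-- Two uniformisers of `V` differ by a unit. -/
theorem unifOrd_unif_eq_one {V : ValuationSubring F} {ϖ ϖ' : F} (h : IsUnifOf V ϖ)
    (h' : IsUnifOf V ϖ') : unifOrd V ϖ ϖ' = 1 := by
  have ho := Fermat.Agent.S36.helper1013.isOrd_unifOrd h
  have ho' := Fermat.Agent.S36.helper1013.isOrd_unifOrd h'
  have h0 := h.ne_zero
  have h0' := h'.ne_zero
  -- positivity both ways
  have pos : ∀ {a b : F}, IsUnifOf V a → IsUnifOf V b → 0 < unifOrd V a b := by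
    intro a b ha hb
    have hb0 := hb.ne_zero
    have h1 : 0 ≤ unifOrd V a b :=
      (Fermat.Agent.S36.helper1013.mem_iff_unifOrd_nonneg ha hb0).mp hb.1
    rcases h1.lt_or_eq with h2 | h2
    · exact h2
    · exfalso
      have hu := (Fermat.Agent.S36.helper1013.unifOrd_eq_zero_iff ha hb0).mp h2.symm
      exact hb.2.1 hu.2.2
  have hk : 0 < unifOrd V ϖ ϖ' := pos h h'
  have hl : 0 < unifOrd V ϖ' ϖ := pos h' h
  -- `ϖ' * ϖ ^ (-k)` is a unit, so its `ϖ'`-order is `0`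
  have hu := Fermat.Agent.S36.helper1013.unifOrd_spec h h0'
  have hz : unifOrd V ϖ' (ϖ' * ϖ ^ (-(unifOrd V ϖ ϖ'))) = 0 :=
    (Fermat.Agent.S36.helper1013.unifOrd_eq_zero_iff h' hu.1).mpr hu
  rw [ho'.map_mul _ _ h0' (zpow_ne_zero _ h0), ho'.map_zpow h0,
    Fermat.Agent.S36.helper1013.unifOrd_unif h'] at hz
  -- `1 = k * l` with `k, l > 0`
  have hkl : unifOrd V ϖ ϖ' * unifOrd V ϖ' ϖ = 1 := by linarith
  exact Int.eq_one_of_mul_eq_one_right hk.le hkl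

/-- The order function of a uniformiser does not depend on the uniformiser. -/
theorem unifOrd_eq_unifOrd {V : ValuationSubring F} {ϖ ϖ' : F} (h : IsUnifOf V ϖ)
    (h' : IsUnifOf V ϖ') : unifOrd V ϖ = unifOrd V ϖ' := by
  funext x
  by_cases hx : x = 0
  · subst hx
    have e : ∀ a : F, unifOrd V a 0 = 0 := by
      intro a
      unfold Fermat.Agent.S36.helper1013.unifOrd
      rw [dif_neg]
      rintro ⟨k, hk⟩
      exact hk.1 (zero_mul _)
    rw [e, e]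
  · have ho := Fermat.Agent.S36.helper1013.isOrd_unifOrd h
    have h0 := h.ne_zero
    have h0' := h'.ne_zero
    -- `x * ϖ' ^ (-k')` is a unit of `V`; compute its `ϖ`-order
    have hu := Fermat.Agent.S36.helper1013.unifOrd_spec h' hx
    have hz : unifOrd V ϖ (x * ϖ' ^ (-(unifOrd V ϖ' x))) = 0 :=
      (Fermat.Agent.S36.helper1013.unifOrd_eq_zero_iff h hu.1).mpr hu
    rw [ho.map_mul _ _ hx (zpow_ne_zero _ h0'), ho.map_zpow h0', unifOrd_unif_eq_one h h'] at hz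
    linarith

/-- `ordOf V` is the order function of ANY uniformiser of `V`. -/
theorem ordOf_eq {V : ValuationSubring F} {ϖ : F} (h : IsUnifOf V ϖ) :
    ordOf V = unifOrd V ϖ := by
  have hex : ∃ ϖ : F, IsUnifOf V ϖ := ⟨ϖ, h⟩
  rw [ordOf_of_exists hex]
  exact unifOrd_eq_unifOrd hex.choose_spec h

theorem isOrd_ordOf {V : ValuationSubring F} {ϖ : F} (h : IsUnifOf V ϖ) : IsOrd (ordOf V) := by
  rw [ordOf_eq h]
  exact Fermat.Agent.S36.helper1013.isOrd_unifOrd h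

theorem mem_iff_ordOf_nonneg {V : ValuationSubring F} {ϖ : F} (h : IsUnifOf V ϖ) {y : F}
    (hy : y ≠ 0) : y ∈ V ↔ 0 ≤ ordOf V y := by
  rw [ordOf_eq h]
  exact Fermat.Agent.S36.helper1013.mem_iff_unifOrd_nonneg h hy

theorem ordOf_unif {V : ValuationSubring F} {ϖ : F} (h : IsUnifOf V ϖ) : ordOf V ϖ = 1 := by
  rw [ordOf_eq h]
  exact Fermat.Agent.S36.helper1013.unifOrd_unif h

theorem ordOf_eq_zero_iff {V : ValuationSubring F} {ϖ : F} (h : IsUnifOf V ϖ) {y : F}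
    (hy : y ≠ 0) : ordOf V y = 0 ↔ UnitOf V y := by
  rw [ordOf_eq h]
  exact Fermat.Agent.S36.helper1013.unifOrd_eq_zero_iff h hy

/-- The order of an element `y` with `y = u * ϖ ^ k`, `u` a unit. -/
theorem ordOf_eq_of_unitOf {V : ValuationSubring F} {ϖ : F} (h : IsUnifOf V ϖ) {y : F} {k : ℤ}
    (hk : UnitOf V (y * ϖ ^ (-k))) : ordOf V y = k := by
  rw [ordOf_eq h]
  exact Fermat.Agent.S36.helper1013.unifOrd_eq h hk

/-- Distinct valuation subrings with uniformisers have independent order functions. -/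
theorem ordOf_ind {V W : ValuationSubring F} {ϖ ϖ' : F} (hV : IsUnifOf V ϖ) (hW : IsUnifOf W ϖ')
    (hne : V ≠ W) : ∃ y : F, y ≠ 0 ∧ 0 ≤ ordOf V y ∧ ordOf W y < 0 := by
  have hnle : ¬ V ≤ W := Fermat.Agent.S36.helper1013.unif_not_le hV hW hne
  obtain ⟨x, hxV, hxW⟩ := SetLike.not_le_iff_exists.mp hnle
  have hx0 : x ≠ 0 := fun h => hxW (h ▸ W.zero_mem)
  refine ⟨x, hx0, (mem_iff_ordOf_nonneg hV hx0).mp hxV, ?_⟩
  by_contra hneg
  exact hxW ((mem_iff_ordOf_nonneg hW hx0).mpr (not_lt.mp hneg))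

/-- The order of `e` when `T ^ m / e` is a unit, `T` a uniformiser. -/
theorem ordOf_of_pow_div_unit {V : ValuationSubring F} {T e : F} (hT : IsUnifOf V T) (m : ℕ)
    (he : e ≠ 0) (hu : UnitOf V (T ^ m / e)) : ordOf V e = m := by
  have ho := isOrd_ordOf hT
  have hz : ordOf V (T ^ m / e) = 0 := (ordOf_eq_zero_iff hT hu.1).mpr hu
  rw [ho.map_div (pow_ne_zero m hT.ne_zero) he, ho.map_pow hT.ne_zero, ordOf_unif hT] at hz
  linarith

end OrdOf

/-! ## The concrete terms -/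

section Terms

variable (A : ValuationSubring (AlgebraicClosure ℚ))

/-- `K = ℚ̄^I`: the inertia field of `A`. -/
abbrev KI : IntermediateField ℚ (AlgebraicClosure ℚ) :=
  Fermat.Agent.S58.helper6024.inertiaFixedField A

/-- `O = A ∩ K`. -/
abbrev OI : ValuationSubring (KI A) :=
  Fermat.Agent.S58.helper6024.inertiaValuationSubring A

/-- The function field of `X₀(N)` over `K = ℚ̄^I`. -/
abbrev FK (N : ℕ) : Type := ↥(laurentBaseChange (KI A) (modularFunctionFieldFull N))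

/-- Shortcut instance (the instance found by unification is this one; the search is slow). -/
instance instAlgebraFK (N : ℕ) : Algebra (KI A) (FK A N) :=
  SubalgebraClass.toAlgebra (laurentBaseChange (KI A) (modularFunctionFieldFull N))

/-- The base change `F_{N,K} → F_{N,ℚ̄}` (coefficientwise inclusion). -/
def lh (N : ℕ) : FK A N →+* FN N :=
  Fermat.Agent.S37.helper5651.layerHom (modularFunctionFieldFull N)
    (algebraMap (KI A) (AlgebraicClosure ℚ))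

variable (M₁ q : ℕ) [NeZero M₁] [NeZero q]

/-- `α : F_{M₁,K} → F_{M₁ q,K}` (inclusion). -/
abbrev αK : FK A M₁ →ₐ[KI A] FK A (M₁ * q) := heckeAlphaBar (KI A) M₁ q

/-- `β : F_{M₁,K} → F_{M₁ q,K}` (`t ↦ t ^ q`). -/
abbrev βK : FK A M₁ →ₐ[KI A] FK A (M₁ * q) := heckeBetaBar (KI A) M₁ q

/-- The norm along `α`. -/
abbrev NαK : FK A (M₁ * q) →* FK A M₁ := Fermat.Agent.S29.helper36.normAlong (αK A M₁ q)

/-- The norm along `β`. -/
abbrev NβK : FK A (M₁ * q) →* FK A M₁ := Fermat.Agent.S29.helper36.normAlong (βK A M₁ q)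

/-! ### The Atkin–Lehner involutions `W_{q²}` (level `M₁ * q`) and `W_q` (level `M₁`) -/

variable {M₁ q}

theorem sq_dvd_level (hqM : q ∣ M₁) : q * q ∣ M₁ * q :=
  Nat.mul_dvd_mul hqM (dvd_refl q)

theorem coprime_sq_level (hq : q.Prime) (hqM : q ∣ M₁) (hq2 : ¬ q ^ 2 ∣ M₁) :
    Nat.Coprime (q * q) (M₁ * q / (q * q)) := by
  obtain ⟨m, rfl⟩ := hqM
  have hm : ¬ q ∣ m := fun h => hq2 (by
    obtain ⟨r, rfl⟩ := h
    exact ⟨r, by ring⟩)
  have e : q * m * q / (q * q) = m := by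
    rw [show q * m * q = m * (q * q) by ring]
    exact Nat.mul_div_cancel m (Nat.mul_pos hq.pos hq.pos)
  rw [e]
  exact Nat.Coprime.mul_left ((Nat.Prime.coprime_iff_not_dvd hq).mpr hm)
    ((Nat.Prime.coprime_iff_not_dvd hq).mpr hm)

theorem coprime_level (hq : q.Prime) (hqM : q ∣ M₁) (hq2 : ¬ q ^ 2 ∣ M₁) :
    Nat.Coprime q (M₁ / q) := by
  obtain ⟨m, rfl⟩ := hqM
  have hm : ¬ q ∣ m := fun h => hq2 (by
    obtain ⟨r, rfl⟩ := h
    exact ⟨r, by ring⟩)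
  rw [Nat.mul_div_cancel_left m hq.pos]
  exact (Nat.Prime.coprime_iff_not_dvd hq).mpr hm

theorem not_dvd_div (hq : q.Prime) (hqM : q ∣ M₁) (hq2 : ¬ q ^ 2 ∣ M₁) : ¬ q ∣ M₁ / q :=
  (Nat.Prime.coprime_iff_not_dvd hq).mp (coprime_level hq hqM hq2)

theorem level_eq (hqM : q ∣ M₁) : M₁ * q = q ^ 2 * (M₁ / q) := by
  obtain ⟨m, rfl⟩ := hqM
  rcases Nat.eq_zero_or_pos q with h0 | h0
  · subst h0
    simp
  · rw [Nat.mul_div_cancel_left m h0]
    ring

theorem neZero_div (hqM : q ∣ M₁) : NeZero (M₁ / q) :=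
  ⟨fun h => (NeZero.ne M₁) (by
    obtain ⟨m, rfl⟩ := hqM
    rcases Nat.eq_zero_or_pos q with h0 | h0
    · subst h0
      simp
    · rw [Nat.mul_div_cancel_left m h0] at h
      rw [h, mul_zero])⟩

variable (M₁ q)

/-- `W_{q²}` on `F_{M₁ q,ℚ̄}` (`q² ∥ M₁ q`). -/
def Wsq (hq : q.Prime) (hqM : q ∣ M₁) (hq2 : ¬ q ^ 2 ∣ M₁) : FN (M₁ * q) ≃ₐ[Kbar] FN (M₁ * q) :=
  Fermat.Agent.S35.helper1219.atkinLehnerHall (M₁ * q) (q * q) (sq_dvd_level hqM)
    (coprime_sq_level hq hqM hq2)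

/-- `W_q` on `F_{M₁,ℚ̄}` (`q ∥ M₁`). -/
def Wq (hq : q.Prime) (hqM : q ∣ M₁) (hq2 : ¬ q ^ 2 ∣ M₁) : FN M₁ ≃ₐ[Kbar] FN M₁ :=
  Fermat.Agent.S35.helper1219.atkinLehnerHall M₁ q hqM (coprime_level hq hqM hq2)

/-! ### The mid-cusp embedding -/

omit [NeZero M₁] in
theorem exists_primRoot : ∃ ζ : Kbarˣ, IsPrimitiveRoot (ζ : Kbar) q := by
  obtain ⟨ζ, hζ⟩ := HasEnoughRootsOfUnity.exists_primitiveRoot Kbar q
  have h0 : ζ ≠ 0 := hζ.ne_zero (NeZero.ne q)
  exact ⟨Units.mk0 ζ h0, hζ⟩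

/-- A chosen primitive `q`-th root of unity of `ℚ̄`. -/
def midZeta : Kbarˣ := Classical.choose (exists_primRoot q)

omit [NeZero M₁] in
theorem midZeta_spec : IsPrimitiveRoot ((midZeta q : Kbarˣ) : Kbar) q :=
  Classical.choose_spec (exists_primRoot q)

/-- The mid-cusp embedding `F_{M₁ q,ℚ̄} → ℚ̄((t))` attached to a primitive `q`-th root of unity
`ζ` (`helper987.midExp` at `N = M₁ * q = q² (M₁ / q)`). -/
def midEmb (hq : q.Prime) (hqM : q ∣ M₁) (hq2 : ¬ q ^ 2 ∣ M₁) (ζ : Kbarˣ)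
    (hζ : IsPrimitiveRoot (ζ : Kbar) q) : FN (M₁ * q) →+* LaurentSeries Kbar :=
  @Fermat.Agent.S36.helper987.midExp q (M₁ / q) (M₁ * q) ⟨hq⟩ (neZero_div hqM) _
    (not_dvd_div hq hqM hq2) (level_eq hqM) ζ hζ

theorem midEmb_isNormalizable (hq : q.Prime) (hqM : q ∣ M₁) (hq2 : ¬ q ^ 2 ∣ M₁) (ζ : Kbarˣ)
    (hζ : IsPrimitiveRoot (ζ : Kbar) q) (x : FN (M₁ * q)) (hx : x ≠ 0) :
    Fermat.Agent.S18.helper8991.IsNormalizable A (IsLocalRing.residue A)
      (midEmb M₁ q hq hqM hq2 ζ hζ x) :=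
  @Fermat.Agent.S36.helper987.midExp_isNormalizable q (M₁ / q) (M₁ * q) ⟨hq⟩ (neZero_div hqM) _
    (not_dvd_div hq hqM hq2) (level_eq hqM) ζ hζ A _ _ (IsLocalRing.residue A) x hx

/-! ### The vertical valuation subrings, by restriction from `(ℚ̄, A)` -/

/-- `v_∞` at level `N`: the Gauss valuation of the expansion at `∞`. -/
def VinfAt (N : ℕ) : ValuationSubring (FK A N) :=
  (gaussF A (IsLocalRing.residue A) N).comap (lh A N)

theorem mem_VinfAt (N : ℕ) (f : FK A N) :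
    f ∈ VinfAt A N ↔ lh A N f ∈ gaussF A (IsLocalRing.residue A) N := Iff.rfl

/-- `v_∞` on `F = F_{M₁ q,K}`. -/
def Vinf : ValuationSubring (FK A (M₁ * q)) := VinfAt A (M₁ * q)

/-- `v'_∞` on `F' = F_{M₁,K}`. -/
def Vinf' : ValuationSubring (FK A M₁) := VinfAt A M₁

/-- `v_0` on `F`: the Gauss valuation after `W_{q²}`. -/
def Vzero (hq : q.Prime) (hqM : q ∣ M₁) (hq2 : ¬ q ^ 2 ∣ M₁) :
    ValuationSubring (FK A (M₁ * q)) :=
  ((gaussF A (IsLocalRing.residue A) (M₁ * q)).comap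
    (Wsq M₁ q hq hqM hq2).toAlgHom.toRingHom).comap (lh A (M₁ * q))

theorem mem_Vzero (hq : q.Prime) (hqM : q ∣ M₁) (hq2 : ¬ q ^ 2 ∣ M₁) (f : FK A (M₁ * q)) :
    f ∈ Vzero A M₁ q hq hqM hq2 ↔
      Wsq M₁ q hq hqM hq2 (lh A (M₁ * q) f) ∈ gaussF A (IsLocalRing.residue A) (M₁ * q) :=
  Iff.rfl

/-- `v'_0` on `F'`: the Gauss valuation after `W_q`. -/
def Vzero' (hq : q.Prime) (hqM : q ∣ M₁) (hq2 : ¬ q ^ 2 ∣ M₁) : ValuationSubring (FK A M₁) :=
  ((gaussF A (IsLocalRing.residue A) M₁).comap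
    (Wq M₁ q hq hqM hq2).toAlgHom.toRingHom).comap (lh A M₁)

theorem mem_Vzero' (hq : q.Prime) (hqM : q ∣ M₁) (hq2 : ¬ q ^ 2 ∣ M₁) (f : FK A M₁) :
    f ∈ Vzero' A M₁ q hq hqM hq2 ↔
      Wq M₁ q hq hqM hq2 (lh A M₁ f) ∈ gaussF A (IsLocalRing.residue A) M₁ :=
  Iff.rfl

/-- `v_mid` on `F` for the primitive `q`-th root of unity `ζ`: the Gauss valuation along the
mid-cusp embedding.  (Independent of `ζ` on `F = F_{M₁ q,K}`: the inertia group permutes the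
primitive `q`-th roots of unity transitively.) -/
def VmidOf (hq : q.Prime) (hqM : q ∣ M₁) (hq2 : ¬ q ^ 2 ∣ M₁) (ζ : Kbarˣ)
    (hζ : IsPrimitiveRoot (ζ : Kbar) q) : ValuationSubring (FK A (M₁ * q)) :=
  (Fermat.Agent.S36.helper508.pullGauss A (IsLocalRing.residue A)
    (midEmb M₁ q hq hqM hq2 ζ hζ) (midEmb_isNormalizable A M₁ q hq hqM hq2 ζ hζ)).comap
      (lh A (M₁ * q))

theorem mem_VmidOf (hq : q.Prime) (hqM : q ∣ M₁) (hq2 : ¬ q ^ 2 ∣ M₁) (ζ : Kbarˣ)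
    (hζ : IsPrimitiveRoot (ζ : Kbar) q) (f : FK A (M₁ * q)) :
    f ∈ VmidOf A M₁ q hq hqM hq2 ζ hζ ↔
      midEmb M₁ q hq hqM hq2 ζ hζ (lh A (M₁ * q) f)
        ∈ Fermat.Agent.S18.helper8991.gaussRing A (IsLocalRing.residue A) :=
  Iff.rfl

/-- `v_mid` on `F` (for the chosen root of unity `midZeta q`). -/
def Vmid (hq : q.Prime) (hqM : q ∣ M₁) (hq2 : ¬ q ^ 2 ∣ M₁) : ValuationSubring (FK A (M₁ * q)) :=
  VmidOf A M₁ q hq hqM hq2 (midZeta q) (midZeta_spec q)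

/-- `V = ![v_∞, v_mid, v_0]`. -/
def VK (hq : q.Prime) (hqM : q ∣ M₁) (hq2 : ¬ q ^ 2 ∣ M₁) :
    Fin 3 → ValuationSubring (FK A (M₁ * q)) :=
  ![Vinf A M₁ q, Vmid A M₁ q hq hqM hq2, Vzero A M₁ q hq hqM hq2]

/-- `V' = ![v'_∞, v'_0]`. -/
def VK' (hq : q.Prime) (hqM : q ∣ M₁) (hq2 : ¬ q ^ 2 ∣ M₁) : Fin 2 → ValuationSubring (FK A M₁) :=
  ![Vinf' A M₁, Vzero' A M₁ q hq hqM hq2]

@[simp] theorem VK_zero (hq : q.Prime) (hqM : q ∣ M₁) (hq2 : ¬ q ^ 2 ∣ M₁) :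
    VK A M₁ q hq hqM hq2 0 = Vinf A M₁ q := rfl

@[simp] theorem VK_one (hq : q.Prime) (hqM : q ∣ M₁) (hq2 : ¬ q ^ 2 ∣ M₁) :
    VK A M₁ q hq hqM hq2 1 = Vmid A M₁ q hq hqM hq2 := rfl

@[simp] theorem VK_two (hq : q.Prime) (hqM : q ∣ M₁) (hq2 : ¬ q ^ 2 ∣ M₁) :
    VK A M₁ q hq hqM hq2 2 = Vzero A M₁ q hq hqM hq2 := rfl

@[simp] theorem VK'_zero (hq : q.Prime) (hqM : q ∣ M₁) (hq2 : ¬ q ^ 2 ∣ M₁) :
    VK' A M₁ q hq hqM hq2 0 = Vinf' A M₁ := rfl

@[simp] theorem VK'_one (hq : q.Prime) (hqM : q ∣ M₁) (hq2 : ¬ q ^ 2 ∣ M₁) :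
    VK' A M₁ q hq hqM hq2 1 = Vzero' A M₁ q hq hqM hq2 := rfl

/-- The normalised order functions of `V`. -/
def ordK (hq : q.Prime) (hqM : q ∣ M₁) (hq2 : ¬ q ^ 2 ∣ M₁) : Fin 3 → FK A (M₁ * q) → ℤ :=
  fun c => ordOf (VK A M₁ q hq hqM hq2 c)

/-- The normalised order functions of `V'`. -/
def ordK' (hq : q.Prime) (hqM : q ∣ M₁) (hq2 : ¬ q ^ 2 ∣ M₁) : Fin 2 → FK A M₁ → ℤ :=
  fun c => ordOf (VK' A M₁ q hq hqM hq2 c)

/-! ### The base line -/

/-- The base line at level `M` over a field `K`: `t₄` for `q ≠ 2` (`4 ∣ M`), `t₉` for `q = 2`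
(`9 ∣ M`). -/
def baseLine (K : Type) [Field K] [Algebra ℚ K] (M : ℕ) [NeZero M] (q : ℕ)
    (h4 : q ≠ 2 → 4 ∣ M) (h9 : q = 2 → 9 ∣ M) :
    ↥(laurentBaseChange K (modularFunctionFieldFull M)) := by
  classical
  exact if h : q = 2 then Fermat.Agent.S37.helper530.t9F K M (h9 h)
    else Fermat.Agent.S37.helper530.t4F K M (h4 h)

theorem baseLine_of_ne (K : Type) [Field K] [Algebra ℚ K] (M : ℕ) [NeZero M] (q : ℕ)
    (h4 : q ≠ 2 → 4 ∣ M) (h9 : q = 2 → 9 ∣ M) (h : q ≠ 2) :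
    baseLine K M q h4 h9 = Fermat.Agent.S37.helper530.t4F K M (h4 h) := by
  unfold baseLine
  exact dif_neg h

theorem baseLine_of_eq (K : Type) [Field K] [Algebra ℚ K] (M : ℕ) [NeZero M] (q : ℕ)
    (h4 : q ≠ 2 → 4 ∣ M) (h9 : q = 2 → 9 ∣ M) (h : q = 2) :
    baseLine K M q h4 h9 = Fermat.Agent.S37.helper530.t9F K M (h9 h) := by
  unfold baseLine
  exact dif_pos h

/-- The chart coordinate `x` of `F = F_{M₁ q,K}`. -/
def xK (haux : AuxOK M₁ q) : FK A (M₁ * q) :=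
  baseLine (KI A) (M₁ * q) q (fun h => Dvd.dvd.mul_right (haux.1 h) q)
    (fun h => Dvd.dvd.mul_right (haux.2 h) q)

/-- The chart coordinate `x'` of `F' = F_{M₁,K}`. -/
def xK' (haux : AuxOK M₁ q) : FK A M₁ := baseLine (KI A) M₁ q haux.1 haux.2

/-! ### Constants -/

theorem residue_eq_zero_of_mem (a : A) (ha : a ∈ IsLocalRing.maximalIdeal A) :
    IsLocalRing.residue A a = 0 :=
  (IsLocalRing.residue_eq_zero_iff a).mpr ha

theorem lh_algebraMap (N : ℕ) (a : KI A) :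
    lh A N (algebraMap (KI A) (FK A N) a) = algebraMap Kbar (FN N) (a : Kbar) :=
  Fermat.Agent.S37.helper5651.layerHom_algebraMap (modularFunctionFieldFull N)
    (algebraMap (KI A) (AlgebraicClosure ℚ)) a

theorem lh_injective (N : ℕ) : Function.Injective (lh A N) := (lh A N).injective

theorem const_mem_VinfAt_iff (N : ℕ) (a : KI A) :
    algebraMap (KI A) (FK A N) a ∈ VinfAt A N ↔ a ∈ OI A := by
  rw [mem_VinfAt, lh_algebraMap]
  exact Fermat.Agent.S18.helper8991.algebraMap_mem_gaussF_iff A (IsLocalRing.residue A) N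
    (residue_eq_zero_of_mem A) (a : Kbar)

theorem const_mem_Vzero_iff (hq : q.Prime) (hqM : q ∣ M₁) (hq2 : ¬ q ^ 2 ∣ M₁) (a : KI A) :
    algebraMap (KI A) (FK A (M₁ * q)) a ∈ Vzero A M₁ q hq hqM hq2 ↔ a ∈ OI A := by
  rw [mem_Vzero, lh_algebraMap, AlgEquiv.commutes]
  exact Fermat.Agent.S18.helper8991.algebraMap_mem_gaussF_iff A (IsLocalRing.residue A) (M₁ * q)
    (residue_eq_zero_of_mem A) (a : Kbar)

theorem const_mem_Vzero'_iff (hq : q.Prime) (hqM : q ∣ M₁) (hq2 : ¬ q ^ 2 ∣ M₁) (a : KI A) :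
    algebraMap (KI A) (FK A M₁) a ∈ Vzero' A M₁ q hq hqM hq2 ↔ a ∈ OI A := by
  rw [mem_Vzero', lh_algebraMap, AlgEquiv.commutes]
  exact Fermat.Agent.S18.helper8991.algebraMap_mem_gaussF_iff A (IsLocalRing.residue A) M₁
    (residue_eq_zero_of_mem A) (a : Kbar)

theorem midEmb_algebraMap (hq : q.Prime) (hqM : q ∣ M₁) (hq2 : ¬ q ^ 2 ∣ M₁) (ζ : Kbarˣ)
    (hζ : IsPrimitiveRoot (ζ : Kbar) q) (c : Kbar) :
    midEmb M₁ q hq hqM hq2 ζ hζ (algebraMap Kbar (FN (M₁ * q)) c) = HahnSeries.C c :=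
  @Fermat.Agent.S36.helper987.midExp_algebraMap q (M₁ / q) (M₁ * q) ⟨hq⟩ (neZero_div hqM) _
    (not_dvd_div hq hqM hq2) (level_eq hqM) ζ hζ c

theorem const_mem_VmidOf_iff (hq : q.Prime) (hqM : q ∣ M₁) (hq2 : ¬ q ^ 2 ∣ M₁) (ζ : Kbarˣ)
    (hζ : IsPrimitiveRoot (ζ : Kbar) q) (a : KI A) :
    algebraMap (KI A) (FK A (M₁ * q)) a ∈ VmidOf A M₁ q hq hqM hq2 ζ hζ ↔ a ∈ OI A := by
  show lh A (M₁ * q) (algebraMap (KI A) (FK A (M₁ * q)) a) ∈
    Fermat.Agent.S36.helper508.pullGauss A (IsLocalRing.residue A)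
      (midEmb M₁ q hq hqM hq2 ζ hζ) (midEmb_isNormalizable A M₁ q hq hqM hq2 ζ hζ) ↔ _
  rw [lh_algebraMap]
  exact Fermat.Agent.S36.helper508.algebraMap_mem_pullGauss_iff A (IsLocalRing.residue A)
    (midEmb M₁ q hq hqM hq2 ζ hζ) (midEmb_isNormalizable A M₁ q hq hqM hq2 ζ hζ)
    (midEmb_algebraMap M₁ q hq hqM hq2 ζ hζ) (residue_eq_zero_of_mem A) (a : Kbar)

/-- `V c ∩ K = O` for the three vertical valuations. -/
theorem const_mem_VK_iff (hq : q.Prime) (hqM : q ∣ M₁) (hq2 : ¬ q ^ 2 ∣ M₁) (c : Fin 3)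
    (a : KI A) : algebraMap (KI A) (FK A (M₁ * q)) a ∈ VK A M₁ q hq hqM hq2 c ↔ a ∈ OI A := by
  fin_cases c
  · exact const_mem_VinfAt_iff A (M₁ * q) a
  · exact const_mem_VmidOf_iff A M₁ q hq hqM hq2 _ _ a
  · exact const_mem_Vzero_iff A M₁ q hq hqM hq2 a

/-- `V' c ∩ K = O` for the two vertical valuations of `F'`. -/
theorem const_mem_VK'_iff (hq : q.Prime) (hqM : q ∣ M₁) (hq2 : ¬ q ^ 2 ∣ M₁) (c : Fin 2)
    (a : KI A) : algebraMap (KI A) (FK A M₁) a ∈ VK' A M₁ q hq hqM hq2 c ↔ a ∈ OI A := by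
  fin_cases c
  · exact const_mem_VinfAt_iff A M₁ a
  · exact const_mem_Vzero'_iff A M₁ q hq hqM hq2 a

/-! ### The function field: `x` transcendental, `F / K(x)` finite, `K` algebraically closed -/

theorem baseLine_transcendental (K : Type) [Field K] [Algebra ℚ K] (M : ℕ) [NeZero M] (q : ℕ)
    (h4 : q ≠ 2 → 4 ∣ M) (h9 : q = 2 → 9 ∣ M) : Transcendental K (baseLine K M q h4 h9) := by
  by_cases h : q = 2
  · rw [baseLine_of_eq K M q h4 h9 h]
    exact Fermat.Agent.S37.helper530.transcendental_t9F K M (h9 h)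
  · rw [baseLine_of_ne K M q h4 h9 h]
    exact Fermat.Agent.S37.helper530.transcendental_t4F K M (h4 h)

theorem baseLine_finiteDimensional (K : Type) [Field K] [Algebra ℚ K] (M : ℕ) [NeZero M] (q : ℕ)
    (h4 : q ≠ 2 → 4 ∣ M) (h9 : q = 2 → 9 ∣ M) :
    FiniteDimensional (IntermediateField.adjoin K ({baseLine K M q h4 h9} :
      Set ↥(laurentBaseChange K (modularFunctionFieldFull M))))
      ↥(laurentBaseChange K (modularFunctionFieldFull M)) := by
  by_cases h : q = 2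
  · rw [baseLine_of_eq K M q h4 h9 h]
    exact Fermat.Agent.S37.helper530.finiteDimensional_t9F K M (h9 h)
  · rw [baseLine_of_ne K M q h4 h9 h]
    exact Fermat.Agent.S37.helper530.finiteDimensional_t4F K M (h4 h)

theorem const_closed_FK (N : ℕ) (y : FK A N) (hy : IsAlgebraic (KI A) y) :
    y ∈ (algebraMap (KI A) (FK A N)).range :=
  Fermat.Agent.S37.helper5651.mem_range_algebraMap_of_isAlgebraic
    (laurentBaseChange (KI A) (modularFunctionFieldFull N)) y hy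

end Terms

/-! ## The fields of `helper36.DegData` as standalone Props -/

namespace Deg

variable {K F F' : Type*} [Field K] [Field F] [Field F'] [Algebra K F] [Algebra K F']

/-- `N(ψ a) = a ^ q`. -/
def NormMap (q : ℕ) (ψ : F' →ₐ[K] F) (Nm : F →* F') : Prop := ∀ a : F', Nm (ψ a) = a ^ q

/-- `V ∩ ψ F' = ψ V1` (fields `mem_a`, `mem_m`, `mem_b`). -/
def MemOver (ψ : F' →ₐ[K] F) (V : ValuationSubring F) (V1 : ValuationSubring F') : Prop :=
  ∀ a : F', ψ a ∈ V ↔ a ∈ V1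

/-- Residue degree one of `V` over `V1` (fields `lift_a`, `lift_m`). -/
def Lift (ψ : F' →ₐ[K] F) (V : ValuationSubring F) (V1 : ValuationSubring F') : Prop :=
  ∀ h : F, h ∈ V → ∃ a : F', a ∈ V1 ∧ ψ a - h ∈ V.nonunits

/-- The norm–residue formula on the split side (field `norm_split`). -/
def NormSplit (q : ℕ) (ψ : F' →ₐ[K] F) (Nm : F →* F') (Va Vm : ValuationSubring F)
    (V1 : ValuationSubring F') : Prop :=
  ∀ h : F, h ∈ Va → h⁻¹ ∈ Va → h ∈ Vm → h⁻¹ ∈ Vm → ∀ a b : F', a ∈ V1 → b ∈ V1 →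
    ψ a - h ∈ Va.nonunits → ψ b - h ∈ Vm.nonunits → Nm h - a * b ^ (q - 1) ∈ V1.nonunits

/-- The norm–residue formula on the inseparable side (field `norm_insep`). -/
def NormInsep (q : ℕ) (ψ : F' →ₐ[K] F) (Nm : F →* F') (Vb : ValuationSubring F) : Prop :=
  ∀ h : F, h ∈ Vb → h⁻¹ ∈ Vb → ψ (Nm h) - h ^ q ∈ Vb.nonunits

/-- Order of a norm on the split side (field `ord_split`). -/
def OrdSplit (Nm : F →* F') (orda ordm : F → ℤ) (ord1 : F' → ℤ) : Prop :=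
  ∀ h : F, h ≠ 0 → ord1 (Nm h) = orda h + ordm h

/-- Order of a norm on the inseparable side (field `ord_insep`). -/
def OrdInsep (q : ℕ) (Nm : F →* F') (ordb : F → ℤ) (ord2 : F' → ℤ) : Prop :=
  ∀ h : F, h ≠ 0 → ord2 (Nm h) = (q : ℤ) * ordb h

/-- `ψ` maps the charts of `F'` into the charts of `F` (field `map_chart`). -/
def MapChart (ψ : F' →ₐ[K] F) (B : Fin 2 → Subring F) (B' : Fin 2 → Subring F') : Prop :=
  ∀ (i : Fin 2) (b : F'), b ∈ B' i → ψ b ∈ B i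

/-- Norms of integral elements are integral (field `norm_chart`). -/
def NormChart (Nm : F →* F') (B : Fin 2 → Subring F) (B' : Fin 2 → Subring F') : Prop :=
  ∀ (i : Fin 2) (b : F), b ∈ B i → Nm b ∈ B' i

/-- The reduction of `B i` along `V` is the reduction of `ψ (B' i)` (fields `red_a`, `red_m`). -/
def Red (ψ : F' →ₐ[K] F) (V : ValuationSubring F) (B : Fin 2 → Subring F)
    (B' : Fin 2 → Subring F') : Prop :=
  ∀ (i : Fin 2) (b : F), b ∈ B i → ∃ b' : F', b' ∈ B' i ∧ ψ b' - b ∈ V.nonunits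

/-- ONE POINT (field `one_point`). -/
def OnePoint (ψ : F' →ₐ[K] F) (Va Vm Vb : ValuationSubring F) (B : Fin 2 → Subring F)
    (B' : Fin 2 → Subring F') : Prop :=
  ∀ (i : Fin 2) (P : Ideal (B i)), P.IsMaximal →
    Through (B i) P Va → Through (B i) P Vm → Through (B i) P Vb →
    ∀ b : B i, b ∉ P → ∃ (c d : B i) (b' : B' i), d ∉ P ∧ (d : F) = ψ (b' : F') ∧ b * c = d

/-- `DegData` from its fields. -/
theorem degData_mk {q : ℕ} {ψ : F' →ₐ[K] F} {Nm : F →* F'} {Va Vm Vb : ValuationSubring F}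
    {V1 V2 : ValuationSubring F'} {orda ordm ordb : F → ℤ} {ord1 ord2 : F' → ℤ}
    {B : Fin 2 → Subring F} {B' : Fin 2 → Subring F'}
    (norm_map : NormMap q ψ Nm) (mem_a : MemOver ψ Va V1) (mem_m : MemOver ψ Vm V1)
    (mem_b : MemOver ψ Vb V2) (lift_a : Lift ψ Va V1) (lift_m : Lift ψ Vm V1)
    (norm_split : NormSplit q ψ Nm Va Vm V1) (norm_insep : NormInsep q ψ Nm Vb)
    (ord_split : OrdSplit Nm orda ordm ord1) (ord_insep : OrdInsep q Nm ordb ord2)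
    (map_chart : MapChart ψ B B') (norm_chart : NormChart Nm B B')
    (red_a : Red ψ Va B B') (red_m : Red ψ Vm B B') (one_point : OnePoint ψ Va Vm Vb B B') :
    DegData q ψ Nm Va Vm Vb V1 V2 orda ordm ordb ord1 ord2 B B' :=
  { norm_map := norm_map
    mem_a := mem_a
    mem_m := mem_m
    mem_b := mem_b
    lift_a := lift_a
    lift_m := lift_m
    norm_split := norm_split
    norm_insep := norm_insep
    ord_split := ord_split
    ord_insep := ord_insep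
    map_chart := map_chart
    norm_chart := norm_chart
    red_a := red_a
    red_m := red_m
    one_point := one_point }

end Deg

/-! ## The geometric inputs, stated on the concrete terms -/

section Input

variable (A : ValuationSubring (AlgebraicClosure ℚ)) (M₁ q : ℕ) [NeZero M₁] [NeZero q]
  (hq : q.Prime) (hqM : q ∣ M₁) (hq2 : ¬ q ^ 2 ∣ M₁) (haux : AuxOK M₁ q)

/-- The charts of `F` (`i = 0`: integral closure of `O[x]`; `i = 1`: of `O[x⁻¹]`). -/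
abbrev BK : Fin 2 → Subring (FK A (M₁ * q)) := chart (OI A) (xK A M₁ q haux)

/-- The charts of `F'`. -/
abbrev BK' : Fin 2 → Subring (FK A M₁) := chart (OI A) (xK' A M₁ q haux)

/-- **The list of geometric inputs of the modular instance of `helper36.KillData`**, each stated
on the concrete terms of this file.  (The remaining fields of `KillData` — `x_trans`, `x_fin`,
`const_closed`, `const_V`, and the whole `ord` block `hord`, `hord'`, `mem_V`, `mem_V'`,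
`ord_surj`, `ord_ind`, `ord_q0/1/2`, `ord'_q`, `ord'_const`, `ord'_unit` — are derived in
`killDataOf`.) -/
structure KillInput : Prop where
  -- the `ord` block: uniformisers
  /-- `q` is a uniformiser of `v_∞`. -/
  unif_inf : IsUnifOf (Vinf A M₁ q) (q : FK A (M₁ * q))
  /-- `v_mid` has a uniformiser `T` with `T ^ (q - 1) = q * unit`. -/
  unif_mid : ∃ T : FK A (M₁ * q), IsUnifOf (Vmid A M₁ q hq hqM hq2) T ∧
    UnitOf (Vmid A M₁ q hq hqM hq2) (T ^ (q - 1) / (q : FK A (M₁ * q)))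
  /-- `q` is a uniformiser of `v_0`. -/
  unif_zero : IsUnifOf (Vzero A M₁ q hq hqM hq2) (q : FK A (M₁ * q))
  /-- `q` is a uniformiser of `v'_∞`. -/
  unif_inf' : IsUnifOf (Vinf' A M₁) (q : FK A M₁)
  /-- `q` is a uniformiser of `v'_0`. -/
  unif_zero' : IsUnifOf (Vzero' A M₁ q hq hqM hq2) (q : FK A M₁)
  /-- the three valuations are pairwise distinct. -/
  ne_inf_mid : Vinf A M₁ q ≠ Vmid A M₁ q hq hqM hq2
  ne_inf_zero : Vinf A M₁ q ≠ Vzero A M₁ q hq hqM hq2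
  ne_mid_zero : Vmid A M₁ q hq hqM hq2 ≠ Vzero A M₁ q hq hqM hq2
  -- charts
  /-- the base line is a unit at the three valuations. -/
  x_V : ∀ c : Fin 3, xK A M₁ q haux ∈ VK A M₁ q hq hqM hq2 c ∧
    (xK A M₁ q haux)⁻¹ ∈ VK A M₁ q hq hqM hq2 c
  rad : ∀ (i : Fin 2) (y : FK A (M₁ * q)), y ∈ BK A M₁ q haux i →
    (∀ c, y ∈ (VK A M₁ q hq hqM hq2 c).nonunits) →
    Fermat.Agent.S36.helper1730.NilMod (BK A M₁ q haux i) (q : FK A (M₁ * q)) y
  rad01 : ∀ y : FK A (M₁ * q), y ∈ chart01 (OI A) (xK A M₁ q haux) →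
    (∀ c, y ∈ (VK A M₁ q hq hqM hq2 c).nonunits) →
    Fermat.Agent.S36.helper1730.NilMod (chart01 (OI A) (xK A M₁ q haux)) (q : FK A (M₁ * q)) y
  red_root : ∀ (i : Fin 2) (c : Fin 3) (n : ℕ) (g : FK A (M₁ * q)), 0 < n →
    (∃ b : FK A (M₁ * q), b ∈ BK A M₁ q haux i ∧
      g ^ n - b ∈ (VK A M₁ q hq hqM hq2 c).nonunits) →
    ∃ r : FK A (M₁ * q), r ∈ BK A M₁ q haux i ∧ g - r ∈ (VK A M₁ q hq hqM hq2 c).nonunits
  dich : ∀ (i : Fin 2) (P : Ideal (BK A M₁ q haux i)), P.IsMaximal → ∀ c c' : Fin 3, c ≠ c' →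
    Through (BK A M₁ q haux i) P (VK A M₁ q hq hqM hq2 c) →
    Through (BK A M₁ q haux i) P (VK A M₁ q hq hqM hq2 c') →
    ∀ c'', Through (BK A M₁ q haux i) P (VK A M₁ q hq hqM hq2 c'')
  lp : LPProp (OI A) (xK A M₁ q haux) (VK A M₁ q hq hqM hq2)
  -- the degeneracy map `α`: `v_∞, v_mid` over `v'_∞`; `v_0` over `v'_0`
  α_norm_map : Deg.NormMap q (αK A M₁ q) (NαK A M₁ q)
  α_mem_inf : Deg.MemOver (αK A M₁ q) (Vinf A M₁ q) (Vinf' A M₁)
  α_mem_mid : Deg.MemOver (αK A M₁ q) (Vmid A M₁ q hq hqM hq2) (Vinf' A M₁)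
  α_mem_zero : Deg.MemOver (αK A M₁ q) (Vzero A M₁ q hq hqM hq2) (Vzero' A M₁ q hq hqM hq2)
  α_lift_inf : Deg.Lift (αK A M₁ q) (Vinf A M₁ q) (Vinf' A M₁)
  α_lift_mid : Deg.Lift (αK A M₁ q) (Vmid A M₁ q hq hqM hq2) (Vinf' A M₁)
  α_norm_split : Deg.NormSplit q (αK A M₁ q) (NαK A M₁ q) (Vinf A M₁ q)
    (Vmid A M₁ q hq hqM hq2) (Vinf' A M₁)
  α_norm_insep : Deg.NormInsep q (αK A M₁ q) (NαK A M₁ q) (Vzero A M₁ q hq hqM hq2)
  α_ord_split : Deg.OrdSplit (NαK A M₁ q) (ordOf (Vinf A M₁ q))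
    (ordOf (Vmid A M₁ q hq hqM hq2)) (ordOf (Vinf' A M₁))
  α_ord_insep : Deg.OrdInsep q (NαK A M₁ q) (ordOf (Vzero A M₁ q hq hqM hq2))
    (ordOf (Vzero' A M₁ q hq hqM hq2))
  α_map_chart : Deg.MapChart (αK A M₁ q) (BK A M₁ q haux) (BK' A M₁ q haux)
  α_norm_chart : Deg.NormChart (NαK A M₁ q) (BK A M₁ q haux) (BK' A M₁ q haux)
  α_red_inf : Deg.Red (αK A M₁ q) (Vinf A M₁ q) (BK A M₁ q haux) (BK' A M₁ q haux)
  α_red_mid : Deg.Red (αK A M₁ q) (Vmid A M₁ q hq hqM hq2) (BK A M₁ q haux) (BK' A M₁ q haux)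
  α_one_point : Deg.OnePoint (αK A M₁ q) (Vinf A M₁ q) (Vmid A M₁ q hq hqM hq2)
    (Vzero A M₁ q hq hqM hq2) (BK A M₁ q haux) (BK' A M₁ q haux)
  -- the degeneracy map `β`: `v_0, v_mid` over `v'_0`; `v_∞` over `v'_∞`
  β_norm_map : Deg.NormMap q (βK A M₁ q) (NβK A M₁ q)
  β_mem_zero : Deg.MemOver (βK A M₁ q) (Vzero A M₁ q hq hqM hq2) (Vzero' A M₁ q hq hqM hq2)
  β_mem_mid : Deg.MemOver (βK A M₁ q) (Vmid A M₁ q hq hqM hq2) (Vzero' A M₁ q hq hqM hq2)
  β_mem_inf : Deg.MemOver (βK A M₁ q) (Vinf A M₁ q) (Vinf' A M₁)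
  β_lift_zero : Deg.Lift (βK A M₁ q) (Vzero A M₁ q hq hqM hq2) (Vzero' A M₁ q hq hqM hq2)
  β_lift_mid : Deg.Lift (βK A M₁ q) (Vmid A M₁ q hq hqM hq2) (Vzero' A M₁ q hq hqM hq2)
  β_norm_split : Deg.NormSplit q (βK A M₁ q) (NβK A M₁ q) (Vzero A M₁ q hq hqM hq2)
    (Vmid A M₁ q hq hqM hq2) (Vzero' A M₁ q hq hqM hq2)
  β_norm_insep : Deg.NormInsep q (βK A M₁ q) (NβK A M₁ q) (Vinf A M₁ q)
  β_ord_split : Deg.OrdSplit (NβK A M₁ q) (ordOf (Vzero A M₁ q hq hqM hq2))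
    (ordOf (Vmid A M₁ q hq hqM hq2)) (ordOf (Vzero' A M₁ q hq hqM hq2))
  β_ord_insep : Deg.OrdInsep q (NβK A M₁ q) (ordOf (Vinf A M₁ q)) (ordOf (Vinf' A M₁))
  β_map_chart : Deg.MapChart (βK A M₁ q) (BK A M₁ q haux) (BK' A M₁ q haux)
  β_norm_chart : Deg.NormChart (NβK A M₁ q) (BK A M₁ q haux) (BK' A M₁ q haux)
  β_red_zero : Deg.Red (βK A M₁ q) (Vzero A M₁ q hq hqM hq2) (BK A M₁ q haux) (BK' A M₁ q haux)
  β_red_mid : Deg.Red (βK A M₁ q) (Vmid A M₁ q hq hqM hq2) (BK A M₁ q haux) (BK' A M₁ q haux)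
  β_one_point : Deg.OnePoint (βK A M₁ q) (Vzero A M₁ q hq hqM hq2) (Vmid A M₁ q hq hqM hq2)
    (Vinf A M₁ q) (BK A M₁ q haux) (BK' A M₁ q haux)

end Input

/-! ## Assembly -/

section Assembly

variable {A : ValuationSubring (AlgebraicClosure ℚ)} {M₁ q : ℕ} [NeZero M₁] [NeZero q]
  {hq : q.Prime} {hqM : q ∣ M₁} {hq2 : ¬ q ^ 2 ∣ M₁} {haux : AuxOK M₁ q}

theorem natCast_ne_zero_FK (A : ValuationSubring (AlgebraicClosure ℚ)) (N : ℕ) {n : ℕ}
    (hn : n ≠ 0) : (n : FK A N) ≠ 0 := by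
  have e : (n : FK A N) = algebraMap (KI A) (FK A N) (n : KI A) := (map_natCast _ n).symm
  rw [e]
  intro h0
  have h1 : (n : KI A) = 0 := (algebraMap (KI A) (FK A N)).injective (by rw [h0, map_zero])
  have h2 : ((n : KI A) : AlgebraicClosure ℚ) = 0 := by rw [h1]; rfl
  have h3 : ((n : ℕ) : AlgebraicClosure ℚ) = 0 := by exact_mod_cast h2
  exact hn (Nat.cast_eq_zero.mp h3)

theorem KillInput.exists_unif (h : KillInput A M₁ q hq hqM hq2 haux) (c : Fin 3) :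
    ∃ ϖ : FK A (M₁ * q), IsUnifOf (VK A M₁ q hq hqM hq2 c) ϖ := by
  fin_cases c
  · exact ⟨_, h.unif_inf⟩
  · obtain ⟨T, hT, -⟩ := h.unif_mid
    exact ⟨T, hT⟩
  · exact ⟨_, h.unif_zero⟩

theorem KillInput.unif' (h : KillInput A M₁ q hq hqM hq2 haux) (c : Fin 2) :
    IsUnifOf (VK' A M₁ q hq hqM hq2 c) (q : FK A M₁) := by
  fin_cases c
  · exact h.unif_inf'
  · exact h.unif_zero'

theorem KillInput.VK_injective (h : KillInput A M₁ q hq hqM hq2 haux) :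
    Function.Injective (VK A M₁ q hq hqM hq2) := by
  intro i j hij
  fin_cases i <;> fin_cases j
  · rfl
  · exact absurd hij h.ne_inf_mid
  · exact absurd hij h.ne_inf_zero
  · exact absurd hij.symm h.ne_inf_mid
  · rfl
  · exact absurd hij h.ne_mid_zero
  · exact absurd hij.symm h.ne_inf_zero
  · exact absurd hij.symm h.ne_mid_zero
  · rfl

/-- A constant which is a unit at `V' c` is a unit of `O`, hence a unit at `V' c'`. -/
theorem unitOf_const_iff (A : ValuationSubring (AlgebraicClosure ℚ)) (M₁ q : ℕ) [NeZero M₁]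
    [NeZero q] (hq : q.Prime) (hqM : q ∣ M₁) (hq2 : ¬ q ^ 2 ∣ M₁) (c : Fin 2) (b : KI A) :
    UnitOf (VK' A M₁ q hq hqM hq2 c) (algebraMap (KI A) (FK A M₁) b) ↔
      b ≠ 0 ∧ b ∈ OI A ∧ b⁻¹ ∈ OI A := by
  unfold Fermat.Agent.S36.helper1013.UnitOf
  rw [← map_inv₀, const_mem_VK'_iff, const_mem_VK'_iff, map_ne_zero_iff _
    (algebraMap (KI A) (FK A M₁)).injective]

theorem KillInput.ord'_const (h : KillInput A M₁ q hq hqM hq2 haux) (a : KI A) (ha : a ≠ 0) :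
    ordK' A M₁ q hq hqM hq2 0 (algebraMap (KI A) (FK A M₁) a)
      = ordK' A M₁ q hq hqM hq2 1 (algebraMap (KI A) (FK A M₁) a) := by
  have hy : algebraMap (KI A) (FK A M₁) a ≠ 0 :=
    (map_ne_zero_iff _ (algebraMap (KI A) (FK A M₁)).injective).mpr ha
  obtain ⟨k, hk⟩ := (h.unif' 0).2.2 _ hy
  have e : algebraMap (KI A) (FK A M₁) a * (q : FK A M₁) ^ (-k)
      = algebraMap (KI A) (FK A M₁) (a * (q : KI A) ^ (-k)) := by
    rw [map_mul, map_zpow₀, map_natCast]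
  have hk1 : UnitOf (VK' A M₁ q hq hqM hq2 1)
      (algebraMap (KI A) (FK A M₁) a * (q : FK A M₁) ^ (-k)) := by
    rw [e] at hk ⊢
    exact (unitOf_const_iff A M₁ q hq hqM hq2 1 _).mpr
      ((unitOf_const_iff A M₁ q hq hqM hq2 0 _).mp hk)
  show ordOf _ _ = ordOf _ _
  rw [ordOf_eq_of_unitOf (h.unif' 0) hk, ordOf_eq_of_unitOf (h.unif' 1) hk1]

theorem KillInput.ord'_unit (h : KillInput A M₁ q hq hqM hq2 haux) (a : KI A) (ha : a ≠ 0)
    (h0 : ordK' A M₁ q hq hqM hq2 0 (algebraMap (KI A) (FK A M₁) a) = 0) :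
    a ∈ OI A ∧ a⁻¹ ∈ OI A := by
  have hy : algebraMap (KI A) (FK A M₁) a ≠ 0 :=
    (map_ne_zero_iff _ (algebraMap (KI A) (FK A M₁)).injective).mpr ha
  have hu := (ordOf_eq_zero_iff (h.unif' 0) hy).mp h0
  exact ((unitOf_const_iff A M₁ q hq hqM hq2 0 a).mp hu).2

theorem KillInput.ord_q1 (h : KillInput A M₁ q hq hqM hq2 haux) :
    ordK A M₁ q hq hqM hq2 1 (q : FK A (M₁ * q)) = (q : ℤ) - 1 := by
  obtain ⟨T, hT, hu⟩ := h.unif_mid
  have e := ordOf_of_pow_div_unit hT (q - 1) (natCast_ne_zero_FK A (M₁ * q) hq.ne_zero) hu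
  show ordOf (Vmid A M₁ q hq hqM hq2) _ = _
  rw [e, Nat.cast_sub hq.one_le, Nat.cast_one]

/-- **The modular instance of `helper36.KillData`**, from the list of geometric inputs. -/
def killDataOf (h : KillInput A M₁ q hq hqM hq2 haux) :
    KillData (OI A) q (αK A M₁ q) (βK A M₁ q) (NαK A M₁ q) (NβK A M₁ q) where
  V := VK A M₁ q hq hqM hq2
  V' := VK' A M₁ q hq hqM hq2
  ord := ordK A M₁ q hq hqM hq2
  ord' := ordK' A M₁ q hq hqM hq2
  x := xK A M₁ q haux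
  x' := xK' A M₁ q haux
  x_trans := baseLine_transcendental _ _ _ _ _
  x_fin := baseLine_finiteDimensional _ _ _ _ _
  const_closed := const_closed_FK A (M₁ * q)
  hord := fun c => by
    obtain ⟨ϖ, hϖ⟩ := h.exists_unif c
    exact isOrd_ordOf hϖ
  hord' := fun c => isOrd_ordOf (h.unif' c)
  mem_V := fun c y hy => by
    obtain ⟨ϖ, hϖ⟩ := h.exists_unif c
    exact mem_iff_ordOf_nonneg hϖ hy
  mem_V' := fun c y hy => mem_iff_ordOf_nonneg (h.unif' c) hy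
  ord_surj := fun c => by
    obtain ⟨ϖ, hϖ⟩ := h.exists_unif c
    exact ⟨ϖ, hϖ.ne_zero, ordOf_unif hϖ⟩
  ord_ind := fun i j hij => by
    obtain ⟨ϖ, hϖ⟩ := h.exists_unif i
    obtain ⟨ϖ', hϖ'⟩ := h.exists_unif j
    exact ordOf_ind hϖ hϖ' (fun e => hij (h.VK_injective e))
  ord_q0 := ordOf_unif h.unif_inf
  ord_q1 := h.ord_q1
  ord_q2 := ordOf_unif h.unif_zero
  ord'_q := fun c => ordOf_unif (h.unif' c)
  ord'_const := h.ord'_const
  ord'_unit := h.ord'_unit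
  const_V := fun c a ha => (const_mem_VK_iff A M₁ q hq hqM hq2 c a).mpr ha
  x_V := h.x_V
  rad := h.rad
  rad01 := h.rad01
  red_root := h.red_root
  dich := h.dich
  lp := h.lp
  degα := Deg.degData_mk h.α_norm_map h.α_mem_inf h.α_mem_mid h.α_mem_zero h.α_lift_inf
    h.α_lift_mid h.α_norm_split h.α_norm_insep h.α_ord_split h.α_ord_insep h.α_map_chart
    h.α_norm_chart h.α_red_inf h.α_red_mid h.α_one_point
  degβ := Deg.degData_mk h.β_norm_map h.β_mem_zero h.β_mem_mid h.β_mem_inf h.β_lift_zero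
    h.β_lift_mid h.β_norm_split h.β_norm_insep h.β_ord_split h.β_ord_insep h.β_map_chart
    h.β_norm_chart h.β_red_zero h.β_red_mid h.β_one_point

theorem nonempty_killData (h : KillInput A M₁ q hq hqM hq2 haux) :
    Nonempty (KillData (OI A) q (αK A M₁ q) (βK A M₁ q) (NαK A M₁ q) (NβK A M₁ q)) :=
  ⟨killDataOf h⟩

end Assembly

end Fermat.Agent.S36.helper405
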