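/-
S36-KILL-WRAP, final step (helper6961): `helper1335.Stmt_KillFFAux` from the abstract (KILL)
theorem at the concrete terms.

`KillShape I N q Nα Nβ c` is, VERBATIM, the statement of `helper36.KillData.kill` (with
`helper36.HorDiv` unfolded) at the concrete terms of captain's ruling #3:

  `K = ℚ̄^I`, `F = FKI I (N * q)`, `F' = FKI I N` (function fields of `X₀(N q)`, `X₀(N)` over `K`),
  norm maps `Nα Nβ : F →* F'`, exponent `c`.

* `killFFAt_of_killShape` : `KillShape` for norm maps compatible with the norms over `ℚ̄` gives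
  `helper1335.KillFFAt N q lam A c` for every prime `lam ≠ q`;
* `killFFAt_of_killShape'` : the same for the landed `K`-level norm maps `normKα`, `normKβ`;
* `stmt_KillFFAux_of_killShape` : hence `helper1335.Stmt_KillFFAux` with
  `c = (q + 1) * ((q - 1) * (q ^ 2 - 1))`.

So with `D : helper36.KillData O q α β Nα Nβ` and `hO : helper36.BaseDVR O q` at these terms,
`fun hn hnq u hu hhor a a' w w' h h' => D.kill hO hn hnq u hu hhor a a' w w' h h'` is a proof of
`KillShape`.
-/
import Fermat.Agent.S36.helper6961_NormK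

set_option autoImplicit false
set_option linter.style.haveILetI false
set_option linter.unusedSectionVars false

noncomputable section

namespace Fermat.Agent.S36.helper6961

open ModularCurve AlgebraicCurve HahnSeries
open Fermat.Agent.S29.helper8217
open Fermat.Agent.S37.helper5651

section Final

variable (N q : ℕ) [NeZero N] [NeZero q]

/-- The statement of the abstract (KILL) theorem at the concrete terms: for every `n` prime to
`q`, every nonzero `u` of the function field of `X₀(N q)` over `K = ℚ̄^I` which is an `n`-th power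
times a unit at every valuation ring of a place over `K` and whose two norms are
`constant * n-th power` satisfies `u ^ c = constant * n-th power`. -/
def KillShape (I : Subgroup GQ) (Nα Nβ : FKI I (N * q) →* FKI I N) (c : ℕ) : Prop :=
  ∀ {n : ℕ}, 0 < n → Nat.Coprime n q → ∀ u : FKI I (N * q), u ≠ 0 →
    (∀ W : ValuationSubring (FKI I (N * q)),
      (∀ a : KI I, algebraMap (KI I) (FKI I (N * q)) a ∈ W) → W ≠ ⊤ → IsPrincipalIdealRing W →
      ∃ g : FKI I (N * q), g ≠ 0 ∧ u / g ^ n ∈ W ∧ g ^ n / u ∈ W) →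
    ∀ (a a' : KI I) (w w' : FKI I N),
      Nα u = algebraMap (KI I) (FKI I N) a * w ^ n →
      Nβ u = algebraMap (KI I) (FKI I N) a' * w' ^ n →
      ∃ (κ : KI I) (t : FKI I (N * q)), κ ≠ 0 ∧
        u ^ c = algebraMap (KI I) (FKI I (N * q)) κ * t ^ n

/-- **(KILL) at the concrete terms gives the captain's `KillFFAt`.** -/
theorem killFFAt_of_killShape {lam : ℕ} (hq : q.Prime) (hlam : lam.Prime) (hne : lam ≠ q)
    (A : ValuationSubring Qb) (c : ℕ)
    (Nα Nβ : FKI (A.inertiaSubgroupIn ℚ) (N * q) →* FKI (A.inertiaSubgroupIn ℚ) N)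
    (hNα : ∀ y : FKI (A.inertiaSubgroupIn ℚ) (N * q),
      layerHom (modularFunctionFieldFull N) (algebraMap (KI (A.inertiaSubgroupIn ℚ)) Qb) (Nα y)
        = normAlong (heckeAlphaBar Qb N q)
          (layerHom (modularFunctionFieldFull (N * q))
            (algebraMap (KI (A.inertiaSubgroupIn ℚ)) Qb) y))
    (hNβ : ∀ y : FKI (A.inertiaSubgroupIn ℚ) (N * q),
      layerHom (modularFunctionFieldFull N) (algebraMap (KI (A.inertiaSubgroupIn ℚ)) Qb) (Nβ y)
        = normAlong (heckeBetaBar Qb N q)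
          (layerHom (modularFunctionFieldFull (N * q))
            (algebraMap (KI (A.inertiaSubgroupIn ℚ)) Qb) y))
    (hkill : KillShape N q (A.inertiaSubgroupIn ℚ) Nα Nβ c) :
    Fermat.Agent.S36.helper1335.KillFFAt N q lam A c := by
  refine killFFAt_of_killK N q lam hlam.ne_zero A c (fun y => Nα y) (fun y => Nβ y) hNα hNβ ?_
  intro n y hy0 _ hplaces hα hβ
  obtain ⟨a, w, -, -, haw⟩ := hα
  obtain ⟨a', w', -, -, haw'⟩ := hβ
  have hcop : Nat.Coprime (lam ^ n) q :=
    Nat.Coprime.pow_left n ((Nat.coprime_primes hlam hq).mpr hne)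
  obtain ⟨κ, t, -, ht⟩ := hkill (pow_pos hlam.pos n) hcop y hy0
    (fun W hK hW hpir => horDiv_of_forall_place (lam ^ n) y hy0 hplaces W hK hW hpir)
    a a' w w' haw haw'
  exact ⟨κ, t, ht⟩

/-- The same for the landed `K`-level norm maps `normKα`, `normKβ`. -/
theorem killFFAt_of_killShape' {lam : ℕ} (hq : q.Prime) (hlam : lam.Prime) (hne : lam ≠ q)
    (A : ValuationSubring Qb) (c : ℕ)
    (hkill : KillShape N q (A.inertiaSubgroupIn ℚ) (normKα (A.inertiaSubgroupIn ℚ) N q)
      (normKβ (A.inertiaSubgroupIn ℚ) N q) c) :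
    Fermat.Agent.S36.helper1335.KillFFAt N q lam A c :=
  killFFAt_of_killShape N q hq hlam hne A c _ _
    (fun y => layerHom_normKα (A.inertiaSubgroupIn ℚ) N q y)
    (fun y => layerHom_normKβ (A.inertiaSubgroupIn ℚ) N q y) hkill

end Final

/-- The exponent of the abstract (KILL) theorem is nonzero. -/
theorem killExponent_ne_zero {q : ℕ} (hq : q.Prime) :
    (q + 1) * ((q - 1) * (q ^ 2 - 1)) ≠ 0 := by
  have h2 : 2 ≤ q := hq.two_le
  have h1 : 0 < q - 1 := by omega
  have h3 : 0 < q ^ 2 - 1 := by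
    have : 4 ≤ q ^ 2 := by nlinarith
    omega
  positivity

/-- **Step (1) FINAL, generic in the norm maps.**  If at every auxiliary level `M₁ * q` and every
`A` over `q` there are norm maps over `K = ℚ̄^{I_A}`, compatible with the norms over `ℚ̄`, for which
the abstract (KILL) statement holds with exponent `(q + 1) * ((q - 1) * (q ^ 2 - 1))`, then
`helper1335.Stmt_KillFFAux` holds. -/
theorem stmt_KillFFAux_of_killShape
    (H : ∀ (M₁ q : ℕ) [NeZero M₁] [NeZero q], q.Prime → q ∣ M₁ → ¬ q ^ 2 ∣ M₁ →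
      Fermat.Agent.S36.helper1335.AuxOK M₁ q →
      ∀ A : ValuationSubring Qb, A.LiesOverPrime q →
        ∃ Nα Nβ : FKI (A.inertiaSubgroupIn ℚ) (M₁ * q) →* FKI (A.inertiaSubgroupIn ℚ) M₁,
          (∀ y : FKI (A.inertiaSubgroupIn ℚ) (M₁ * q),
            layerHom (modularFunctionFieldFull M₁)
                (algebraMap (KI (A.inertiaSubgroupIn ℚ)) Qb) (Nα y)
              = normAlong (heckeAlphaBar Qb M₁ q)
                (layerHom (modularFunctionFieldFull (M₁ * q))
                  (algebraMap (KI (A.inertiaSubgroupIn ℚ)) Qb) y)) ∧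
          (∀ y : FKI (A.inertiaSubgroupIn ℚ) (M₁ * q),
            layerHom (modularFunctionFieldFull M₁)
                (algebraMap (KI (A.inertiaSubgroupIn ℚ)) Qb) (Nβ y)
              = normAlong (heckeBetaBar Qb M₁ q)
                (layerHom (modularFunctionFieldFull (M₁ * q))
                  (algebraMap (KI (A.inertiaSubgroupIn ℚ)) Qb) y)) ∧
          KillShape M₁ q (A.inertiaSubgroupIn ℚ) Nα Nβ
            ((q + 1) * ((q - 1) * (q ^ 2 - 1)))) :
    Fermat.Agent.S36.helper1335.Stmt_KillFFAux := by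
  intro M₁ q _ _ hq hqM hq2 haux lam hlam hne A hA
  obtain ⟨Nα, Nβ, hNα, hNβ, hkill⟩ := H M₁ q hq hqM hq2 haux A hA
  exact ⟨_, killExponent_ne_zero hq,
    killFFAt_of_killShape M₁ q hq hlam hne A _ Nα Nβ hNα hNβ hkill⟩

/-- **Step (1) FINAL for the landed norm maps `normKα`, `normKβ`.** -/
theorem stmt_KillFFAux_of_killShape'
    (H : ∀ (M₁ q : ℕ) [NeZero M₁] [NeZero q], q.Prime → q ∣ M₁ → ¬ q ^ 2 ∣ M₁ →
      Fermat.Agent.S36.helper1335.AuxOK M₁ q →
      ∀ A : ValuationSubring Qb, A.LiesOverPrime q →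
        KillShape M₁ q (A.inertiaSubgroupIn ℚ) (normKα (A.inertiaSubgroupIn ℚ) M₁ q)
          (normKβ (A.inertiaSubgroupIn ℚ) M₁ q) ((q + 1) * ((q - 1) * (q ^ 2 - 1)))) :
    Fermat.Agent.S36.helper1335.Stmt_KillFFAux :=
  stmt_KillFFAux_of_killShape fun M₁ q _ _ hq hqM hq2 haux A hA =>
    ⟨_, _, fun y => layerHom_normKα (A.inertiaSubgroupIn ℚ) M₁ q y,
      fun y => layerHom_normKβ (A.inertiaSubgroupIn ℚ) M₁ q y, H M₁ q hq hqM hq2 haux A hA⟩

end Fermat.Agent.S36.helper6961
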