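/-
helper1335 (captain S36) — the FINAL SEAM of S36: the frozen statement S36 from the ONE remaining
proposition `Stmt_KillInput` = "the list of geometric inputs `helper405.KillInput` holds at every
auxiliary level and every valuation subring `A` of `ℚ̄` over `q`".

Chain (every piece kernel-checked):

* `helper405.killDataOf` : `KillInput → helper36.KillData` at the concrete terms
  (`K = ℚ̄^I`, `O = A ∩ K`, function fields of `X₀(M₁ q)`, `X₀(M₁)` over `K`, genuine norms);
* `helper225.baseDVR_facts` : `helper36.BaseDVR O q`;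
* `helper36.KillData.kill` : the abstract (KILL) theorem;
* `helper1359.normKα_eq_normAlong`, `normKβ_eq_normAlong` : the genuine `K`-level norms are the
  descended norm maps `helper6961.normKα`, `normKβ`;
* `helper6961.stmt_KillFFAux_of_killShape'` : (KILL) over `K` gives `Stmt_KillFFAux`;
* `helper1335.result_of_killFFAux` : `Stmt_KillFFAux →` frozen S36.

Results: `stmt_KillFFAux_of_killInput : Stmt_KillInput → Stmt_KillFFAux` and
`result_of_killInput : Stmt_KillInput → (frozen S36)`.
-/
import Fermat.Agent.S36.helper1335_Top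
import Fermat.Agent.S36.helper36_KillAsm
import Fermat.Agent.S36.helper405_KillTerms
import Fermat.Agent.S36.helper6961_KillFinal
import Fermat.Agent.S36.helper1359_NormLayerWrap
import Fermat.Agent.S36.helper225_BaseDVR

set_option autoImplicit false
set_option linter.style.haveILetI false
set_option linter.overlappingInstances false
set_option linter.unusedVariables false

open Polynomial
open CuspForm CuspForm.IsNewform

namespace Fermat.Agent.S36.helper1335

open ModularCurve AlgebraicCurve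

/-- **The one open proposition of S36**: the geometric inputs `helper405.KillInput` at every
auxiliary level `M₁ * q` (`q ∥ M₁`, `4 ∣ M₁` resp. `9 ∣ M₁`) and every valuation subring `A` of
`ℚ̄` over `q`. -/
def Stmt_KillInput : Prop :=
  ∀ (M₁ q : ℕ) [NeZero M₁] [NeZero q] (hq : q.Prime) (hqM : q ∣ M₁) (hq2 : ¬ q ^ 2 ∣ M₁)
    (haux : AuxOK M₁ q) (A : ValuationSubring (AlgebraicClosure ℚ)), A.LiesOverPrime q →
      Fermat.Agent.S36.helper405.KillInput A M₁ q hq hqM hq2 haux

/-- The base `O = A ∩ ℚ̄^I` is a discrete valuation ring with uniformiser `q` and algebraically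
closed residue field. -/
theorem baseDVR_OI {q : ℕ} (hq : q.Prime) (A : ValuationSubring (AlgebraicClosure ℚ))
    (hA : A.LiesOverPrime q) :
    Fermat.Agent.S36.helper36.BaseDVR (Fermat.Agent.S36.helper405.OI A) q := by
  obtain ⟨h1, h2, h3, h4, h5, h6⟩ := Fermat.Agent.S36.helper225.baseDVR_facts A hq hA
  exact ⟨h1, h2, h3, h4, h5, h6⟩

/-- **(KILL) at auxiliary level from the geometric inputs.** -/
theorem stmt_KillFFAux_of_killInput (H : Stmt_KillInput) : Stmt_KillFFAux := by
  refine Fermat.Agent.S36.helper6961.stmt_KillFFAux_of_killShape' ?_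
  intro M₁ q _ _ hq hqM hq2 haux A hA
  have hin := H M₁ q hq hqM hq2 haux A hA
  have hbase := baseDVR_OI hq A hA
  rw [Fermat.Agent.S36.helper1359.normKα_eq_normAlong,
    Fermat.Agent.S36.helper1359.normKβ_eq_normAlong]
  intro n hn hnq u hu hhor a a' w w' h h'
  exact (Fermat.Agent.S36.helper405.killDataOf hin).kill hbase hn hnq u hu hhor a a' w w' h h'

/-- **Frozen S36 from the geometric inputs `Stmt_KillInput`.** -/
theorem result_of_killInput (H : Stmt_KillInput)
    {M : ℕ} [NeZero M] {g : CuspForm (CongruenceSubgroup.Gamma0 M) 2} (hg : g.IsNewform)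
    (lam : ℕ) [Fact lam.Prime]
    (S : Finset ℕ)
    (O' : Type) [CommRing O'] [IsDomain O'] [IsDiscreteValuationRing O']
    [IsAdicComplete (IsLocalRing.maximalIdeal O') O'] [Finite (IsLocalRing.ResidueField O')]
    [CharZero O'] (hlamO' : (lam : O') ∈ IsLocalRing.maximalIdeal O')
    (hlam2 : lam ≠ 2)
    (chig : CuspForm.heckeAlgebra M 2 (↑S : Set ℕ) →+* ℂ)
    (hchig : ∀ (ℓ : ℕ) (hℓ : ℓ.Prime) (hℓM : ¬ ℓ ∣ M) (hℓS : ℓ ∉ (↑S : Set ℕ)),
      chig (CuspForm.heckeAlgebra.T hℓ hℓM hℓS) = ModularFormClass.qCoeff g ℓ)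
    (iota : chig.range →+* O')
    (hlamS : lam ∈ S) (hMS : ∀ q : ℕ, q.Prime → q ∣ M → q ∈ S)
    (hres : ∀ (O'' : Type) [CommRing O''] [IsDomain O''] [IsDiscreteValuationRing O'']
      [IsAdicComplete (IsLocalRing.maximalIdeal O'') O''] [Finite (IsLocalRing.ResidueField O'')] [CharZero O'']
      [Algebra O' O''] [Module.Finite O' O''] [IsLocalHom (algebraMap O' O'')],
      Function.Injective (algebraMap O' O'') → ∀ (ρ : GaloisRepAdic O''),
      (∀ (ℓ : ℕ) (hℓ : ℓ.Prime) (hℓlam : ℓ ≠ lam) (hℓM : ¬ ℓ ∣ M) (hℓS : ℓ ∉ (↑S : Set ℕ)),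
        ∀ A : ValuationSubring (AlgebraicClosure ℚ), A.LiesOverPrime ℓ →
          ∀ σ : AlgebraicClosure ℚ ≃ₐ[ℚ] AlgebraicClosure ℚ, A.IsFrobeniusAt σ ℓ →
            LinearMap.charpoly (ρ.ρ σ) =
              X ^ 2 - C (algebraMap O' O'' ((iota.comp chig.rangeRestrict) (CuspForm.heckeAlgebra.T hℓ hℓM hℓS))) * X
                + C ((ℓ : O'')))
      → ρ.residual.IsAbsolutelyIrreducible ∧ ρ.residual.IsOdd)
    :
    ∃ (O'' : Type) (_ : CommRing O'') (_ : IsDomain O'') (_ : IsDiscreteValuationRing O'')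
      (_ : IsAdicComplete (IsLocalRing.maximalIdeal O'') O'') (_ : Finite (IsLocalRing.ResidueField O''))
      (_ : CharZero O'') (_ : Algebra O' O'') (_ : Module.Finite O' O'') (_ : IsLocalHom (algebraMap O' O'')),
      Function.Injective (algebraMap O' O'') ∧
      ∃ ρ : GaloisRepAdic O'',
        (∀ (ℓ : ℕ) (hℓ : ℓ.Prime) (hℓM : ¬ ℓ ∣ M) (hℓS : ℓ ∉ (↑S : Set ℕ)),
          ∀ A : ValuationSubring (AlgebraicClosure ℚ), A.LiesOverPrime ℓ →
            ∀ σ : AlgebraicClosure ℚ ≃ₐ[ℚ] AlgebraicClosure ℚ, A.IsFrobeniusAt σ ℓ →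
              LinearMap.charpoly (ρ.ρ σ) =
                X ^ 2 - C (algebraMap O' O'' ((iota.comp chig.rangeRestrict) (CuspForm.heckeAlgebra.T hℓ hℓM hℓS))) * X
                  + C ((ℓ : O''))) ∧
        (∀ q : ℕ, q.Prime → q ≠ lam → M.factorization q = 2 → ¬ ρ.IsUnipotentOnInertiaAt q) :=
  result_of_killFFAux (stmt_KillFFAux_of_killInput H)
    hg lam S O' hlamO' hlam2 chig hchig iota hlamS hMS hres

end Fermat.Agent.S36.helper1335
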