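import Mathlib
import Fermat.Agent.S30.helper1094_Eigen
import Fermat.Agent.S30.helper501_Transport
import Fermat.Agent.S36.helper1335_CoreK

/-!
# S36: the frozen statement from the S30 machine and ONE statement about `J₀(M)` (helper1335)

`helper1335_CoreK` reduces the frozen statement S36 to an eigen-datum without inertia
invariants at the primes `q² ∥ M` (`EigenDatumK`).  This file is the S36 twin of the landed S35
leaf `S35/helper1989_E1Q` ("kernel-operator form"):

* `JDatumKK p N S 𝒪' a` : the fields of the S30 `JDatum` (without the ring action on the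
  lattice), a family `B k` of additive operators on `J` commuting with the Galois action, the
  clause `(kill)`: for every prime `q ≠ p` with `v_q(N) = 2` the points of `p`-power order in
  the common kernel of the `B k` which are fixed by the inertia group of SOME valuation ring over
  `q` are killed by a fixed nonzero integer; and lattice-level occurrence of the eigensystem
  inside the kernel of the lattice twins `b k` of the `B k`;
* `eigenDatumK_of_jDatumKK` : `JDatumKK → EigenDatumK`, unconditional;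
* `Stmt_KerOpsK`, `stmt_JKK_of`, `result_of_kerOpsK` : the frozen statement S36 from the S30
  machine statements (U), (ES) at the good primes (`helper831.Stmt_UPow`, `Stmt_ESPow`) and ONE
  S36-specific statement about `J₀(M)`;
* `Stmt_DegOps`, `stmt_KerOpsK_of_deg` : the same statement prime by prime, with two operators
  `P q`, `Q q` for every prime `q ≠ lam` with `q² ∥ M`.

Intended instance (findings #3001, #2979, #2973): `P q = α^* α_*`, `Q q = β^* β_*` for the two
degeneracy maps `α, β : X₀(M) → X₀(M / q)`; on points of `lam`-power order their common kernel is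
the kernel of `(α_*, β_*)`, which contains the `g`-part for every newform `g` of level `M`
(Prelude `IsNewform`: the eigensystem does not occur at level `M / q`), and the clause `(kill)`
is the statement (KILL) of #3001: an inertia-fixed class of `lam`-power order killed by `α_*` and
`β_*` is killed by `(q + 1)(q - 1)(q² - 1) ·` (degree of an auxiliary level).
-/

set_option autoImplicit false
set_option linter.style.haveILetI false

open scoped TensorProduct

namespace Fermat.Agent.S36.helper1335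

open Fermat.Agent.S30.helper54 Fermat.Agent.Lib.helper4786 Fermat.Agent.Lib.helper9377
  Fermat.Agent.S30.helper4204

/-! ### The abstract Jacobian datum, kernel-operator form -/

/-- **Abstract Jacobian datum with kernel operators, without inertia invariants at `q² ∥ N`.**

The fields of the S30 `helper1094.JDatum` (without the ring action on the lattice), together with

* a family `B k` of additive operators on `J` commuting with the Galois action;
* `(kill)`: for every prime `q ≠ p` with `v_q(N) = 2` there are a valuation ring `A` over `q`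
  and a nonzero integer `c` such that every point of `p`-power order which is killed by all
  `B k` and fixed by the inertia group of `A` is killed by `c`;
* `(occ)`: a lattice `Λ` with operators `t ℓ`, `b k`, level-wise injections `Λ / p ^ n → J[p ^ n]`
  compatible in `n` and intertwining `t ℓ` with `τ ℓ` and `b k` with `B k`, and a nonzero
  element of `𝒪' ⊗ Λ` which is an eigenvector of the `t ℓ` with eigenvalues `a ℓ` and is killed
  by the `b k`.

No commutation between the `τ ℓ` and the `B k`, or among the `B k`, is required. -/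
def JDatumKK (p N : ℕ) (S : Finset ℕ) (𝒪' : Type) [CommRing 𝒪'] (a : ℕ → 𝒪') : Prop :=
  ∃ (J : Type) (_ : AddCommGroup J) (_ : DistribMulAction Gal J) (τ : ℕ → J →+ J)
    (κ : Type) (B : κ → J →+ J),
    -- (fin) finitely many `p`-torsion points
    Set.Finite {x : J | p • x = 0} ∧
    -- (lev) open stabilisers on `p`-power torsion
    (∀ x : J, (∃ n : ℕ, p ^ n • x = 0) →
      ∃ L : IntermediateField ℚ (AlgebraicClosure ℚ), FiniteDimensional ℚ L ∧
        ∀ σ : Gal, (∀ y ∈ L, σ y = y) → σ • x = x) ∧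
    -- (comm) the operators `τ ℓ` commute with the Galois action
    (∀ ℓ : ℕ, ℓ.Prime → ¬ ℓ ∣ N → ℓ ∉ S → ∀ (σ : Gal) (x : J), σ • τ ℓ x = τ ℓ (σ • x)) ∧
    -- (commB) the kernel operators commute with the Galois action
    (∀ (k : κ) (σ : Gal) (x : J), σ • B k x = B k (σ • x)) ∧
    -- (unr) inertia at `q ∤ N p` acts trivially on `p`-power torsion
    (∀ q : ℕ, q.Prime → ¬ q ∣ N → q ≠ p →
      ∀ A : ValuationSubring (AlgebraicClosure ℚ), A.LiesOverPrime q →
        ∀ σ ∈ A.inertiaSubgroupIn ℚ, ∀ x : J, (∃ n : ℕ, p ^ n • x = 0) → σ • x = x) ∧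
    -- (frob) Eichler–Shimura relation on `p`-power torsion
    (∀ ℓ : ℕ, ℓ.Prime → ¬ ℓ ∣ N → ℓ ∉ S →
      ∀ A : ValuationSubring (AlgebraicClosure ℚ), A.LiesOverPrime ℓ →
        ∀ σ : Gal, A.IsFrobeniusAt σ ℓ → ∀ x : J, (∃ n : ℕ, p ^ n • x = 0) →
          σ • σ • x - τ ℓ (σ • x) + ℓ • x = 0) ∧
    -- (kill) inertia-fixed `p`-power torsion in the common kernel is killed by a fixed integer
    (∀ q : ℕ, q.Prime → q ≠ p → N.factorization q = 2 →
      ∃ A : ValuationSubring (AlgebraicClosure ℚ), A.LiesOverPrime q ∧ ∃ c : ℕ, c ≠ 0 ∧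
        ∀ x : J, (∃ n : ℕ, p ^ n • x = 0) → (∀ k, B k x = 0) →
          (∀ σ ∈ A.inertiaSubgroupIn ℚ, σ • x = x) → c • x = 0) ∧
    -- (occ) a lattice with level-wise equivariant injections and an eigenvector in the kernel
    ∃ (Λ : Type) (_ : AddCommGroup Λ) (_ : Module.Free ℤ Λ) (_ : Module.Finite ℤ Λ)
      (t : ℕ → Module.End ℤ Λ) (b : κ → Module.End ℤ Λ) (ι : ℕ → Λ →+ J),
      (∀ (n : ℕ) (x : Λ), p ^ n • ι n x = 0) ∧
      (∀ (n : ℕ) (x : Λ), ι n x = 0 → ∃ y : Λ, x = p ^ n • y) ∧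
      (∀ (n : ℕ) (x : Λ), p • ι (n + 1) x = ι n x) ∧
      (∀ ℓ : ℕ, ℓ.Prime → ¬ ℓ ∣ N → ℓ ∉ S → ∀ (n : ℕ) (x : Λ), ι n (t ℓ x) = τ ℓ (ι n x)) ∧
      (∀ (k : κ) (n : ℕ) (x : Λ), ι n (b k x) = B k (ι n x)) ∧
      ∃ y : 𝒪' ⊗[ℤ] Λ, y ≠ 0 ∧
        (∀ ℓ : ℕ, ℓ.Prime → ¬ ℓ ∣ N → ℓ ∉ S → (t ℓ).baseChange 𝒪' y = a ℓ • y) ∧
        (∀ k : κ, (b k).baseChange 𝒪' y = 0)

/-! ### The glue -/

/-- **E1-KK**: an abstract Jacobian datum with kernel operators and the clause `(kill)` gives an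
eigen-datum without inertia invariants at the primes `q² ∥ N`. -/
theorem eigenDatumK_of_jDatumKK (p : ℕ) [Fact p.Prime] (N : ℕ) (S : Finset ℕ)
    (𝒪' : Type) [CommRing 𝒪'] [IsDomain 𝒪'] [IsDiscreteValuationRing 𝒪']
    [IsAdicComplete (IsLocalRing.maximalIdeal 𝒪') 𝒪'] [Finite (IsLocalRing.ResidueField 𝒪')]
    [CharZero 𝒪'] (hp𝒪' : (p : 𝒪') ∈ IsLocalRing.maximalIdeal 𝒪') (a : ℕ → 𝒪')
    (hJ : JDatumKK p N S 𝒪' a) : EigenDatumK p N S 𝒪' a := by
  obtain ⟨J, iJ1, iJ2, τ, κ, B, hfin, hlev, hcomm, hcommB, hunr, hfrob, hkillJ, Λ, iΛ1, iΛ2,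
    iΛ3, t, b, ι, hι1, hι2, hι3, hι4, hι5, y, hy0, hyt, hyb⟩ := hJ
  have hp : p.Prime := Fact.out
  -- the `ℤ_p`-algebra structure
  letI alg𝒪 : Algebra ℤ_[p] 𝒪' := padicIntAlgebra p 𝒪' hp𝒪'
  have hinj : Function.Injective (algebraMap ℤ_[p] 𝒪') :=
    algebraMap_padicIntAlgebra_injective p 𝒪' hp𝒪'
  haveI hOtf : Module.IsTorsionFree ℤ_[p] 𝒪' := by
    rw [Module.isTorsionFree_iff_smul_eq_zero]
    intro r x hrx
    rw [Algebra.smul_def, mul_eq_zero] at hrx
    rcases hrx with h | h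
    · exact Or.inl (hinj (by rw [h, map_zero]))
    · exact Or.inr h
  haveI hOflat : Module.Flat ℤ_[p] 𝒪' := inferInstance
  -- the Tate module
  haveI hTfin : Module.Finite ℤ_[p] (tateModule J p) :=
    Fermat.Agent.S30.helper767.tateModule_finite_of_finite J p hfin
  haveI hTtf : Module.IsTorsionFree ℤ_[p] (tateModule J p) :=
    Fermat.Agent.S30.helper1094.tateModule_isTorsionFree J p
  haveI hTfree : Module.Free ℤ_[p] (tateModule J p) := Module.free_of_finite_type_torsion_free'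
  -- the actions
  let ρ : Gal →* Module.End ℤ_[p] (tateModule J p) := tateRep J p Gal
  let ι' : Type := {ℓ : ℕ // ℓ.Prime ∧ ¬ ℓ ∣ N ∧ ℓ ∉ S}
  let τ' : ι' → Module.End ℤ_[p] (tateModule J p) := fun i => tateEnd J p (τ i.1)
  let β' : κ → Module.End ℤ_[p] (tateModule J p) := fun k => tateEnd J p (B k)
  let fam : ι' ⊕ κ → Module.End ℤ_[p] (tateModule J p) := Sum.elim τ' β'
  let eig : ι' ⊕ κ → 𝒪' := Sum.elim (fun i => a i.1) (fun _ => 0)
  have hc : ∀ g i, Commute (ρ g) (fam i) := by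
    intro g i
    rcases i with i | k
    · show ρ g * τ' i = τ' i * ρ g
      ext x n
      exact hcomm i.1 i.2.1 i.2.2.1 i.2.2.2 g (x.1 n)
    · show ρ g * β' k = β' k * ρ g
      ext x n
      exact hcommB k g (x.1 n)
  let σf : ι' ⊕ κ → Module.End 𝒪' (𝒪' ⊗[ℤ_[p]] tateModule J p) :=
    fun i => (fam i).baseChange 𝒪'
  have hcb : ∀ g i, Commute (baseChangeRep 𝒪' ρ g) (σf i) :=
    fun g i => commute_baseChange (hc g i)
  have hp0 : algebraMap ℤ_[p] 𝒪' (p : ℤ_[p]) ≠ 0 := by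
    rw [map_natCast]
    exact Nat.cast_ne_zero.2 hp.ne_zero
  refine ⟨eigenLattice σf eig, inferInstance, inferInstance, inferInstance, inferInstance,
    eigRep σf eig (baseChangeRep 𝒪' ρ) hcb, ?_, ?_, ?_, ?_, ?_⟩
  · -- nontriviality: occurrence, transported into the Tate module
    rw [nontrivial_eigenLattice_iff]
    let j : Λ →+ tateModule J p :=
      { toFun := fun x => ⟨fun n => ι n x, ⟨fun n => hι1 n x, fun n => hι3 n x⟩⟩
        map_zero' := by
          ext n
          exact map_zero (ι n)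
        map_add' := fun x y => by
          ext n
          exact map_add (ι n) x y }
    have hj : ∀ (x : Λ) (n : ℕ), (j x).1 n = ι n x := fun _ _ => rfl
    have hsat : ∀ x : Λ, (∃ z : tateModule J p, j x = (p : ℤ_[p]) • z) →
        ∃ z : Λ, x = (p : ℤ) • z := by
      rintro x ⟨z, hz⟩
      have h0 : ι 1 x = 0 := by
        rw [← hj x 1, hz, tateModule.natCast_smul_apply]
        have := tateModule.pow_smul_apply z 1
        rwa [pow_one] at this
      obtain ⟨w, hw⟩ := hι2 1 x h0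
      exact ⟨w, by rw [hw, pow_one, natCast_zsmul]⟩
    obtain ⟨v, hv0, hv⟩ := Fermat.Agent.S30.helper501.exists_eigenvector_transport p
      (Sum.elim (fun i : ι' => t i.1) b) fam j
      (by
        intro i x
        rcases i with i | k
        · ext n
          exact hι4 i.1 i.2.1 i.2.2.1 i.2.2.2 n x
        · ext n
          exact hι5 k n x)
      (fun z hz => tateModule.eq_zero_of_p_smul_eq_zero z hz) hsat hinj eig
      ⟨y, hy0, by
        intro i
        rcases i with i | k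
        · exact hyt i.1 i.2.1 i.2.2.1 i.2.2.2
        · show (b k).baseChange 𝒪' y = (0 : 𝒪') • y
          rw [hyb k, zero_smul]⟩
    exact ⟨v, hv0, hv⟩
  · -- continuity
    intro n
    obtain ⟨L, hL, hLσ⟩ := Fermat.Agent.S30.helper1094.exists_common_level
      {x : J | p ^ n • x = 0} (Fermat.Agent.S30.helper1094.finite_pow_torsion p hfin n)
      (fun x hx => hlev x ⟨n, hx⟩)
    refine ⟨L, hL, fun σ hσ v => ?_⟩
    refine eigRep_sub_mem σf eig (baseChangeRep 𝒪' ρ) hcb hp0 (n := n)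
      (fun x => exists_baseChange_sub_eq_smul (fun z => ?_) x) (IsLocalRing.maximalIdeal 𝒪')
      (by rw [map_natCast]; exact hp𝒪') v
    refine (tateModule.apply_eq_zero_iff (ρ σ z - z) n).mp ?_
    show σ • z.1 n - z.1 n = 0
    rw [hLσ σ hσ (z.1 n) (tateModule.pow_smul_apply z n), sub_self]
  · -- unramified
    intro q hq' hqN hqp A hA σ hσ
    refine eigRep_eq_one σf eig (baseChangeRep 𝒪' ρ) hcb ?_
    rw [baseChangeRep_apply,
      show ρ σ = 1 from tateRep_eq_one_of_forall σ fun x hx => hunr q hq' hqN hqp A hA σ hσ x hx,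
      LinearMap.baseChange_one]
  · -- Frobenius
    intro ℓ hℓ hℓN hℓS A hA σ hσ
    have hrel' : ρ σ * ρ σ - τ' ⟨ℓ, hℓ, hℓN, hℓS⟩ * ρ σ
        + (ℓ : ℤ_[p]) • (1 : Module.End ℤ_[p] (tateModule J p)) = 0 := by
      ext x n
      have h2 := hfrob ℓ hℓ hℓN hℓS A hA σ hσ (x.1 n) ⟨n, tateModule.pow_smul_apply x n⟩
      rw [LinearMap.add_apply, LinearMap.sub_apply, LinearMap.smul_apply, Module.End.one_apply]
      show (σ • σ • x.1 n - τ ℓ (σ • x.1 n)) + ((ℓ : ℤ_[p]) • x).1 n = 0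
      rw [tateModule.natCast_smul_apply]
      exact h2
    have h := eigRep_quadratic σf eig (baseChangeRep 𝒪' ρ) hcb (g := σ)
      (i := Sum.inl ⟨ℓ, hℓ, hℓN, hℓS⟩) (c := algebraMap ℤ_[p] 𝒪' (ℓ : ℤ_[p]))
      (baseChange_quadratic hrel')
    rw [map_natCast] at h
    exact h
  · -- no inertia invariants at the primes `q² ∥ N`
    intro q hq' hqp hfact
    obtain ⟨A, hA, c, hc0, hkill⟩ := hkillJ q hq' hqp hfact
    refine ⟨A, hA, fun m hm => Subtype.ext ?_⟩
    -- the common kernel in the Tate module of the `β' k` and the `ρ σ - 1`, `σ` in inertia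
    refine baseChange_forall_ker_eq_zero (O := 𝒪')
      (Set.range β' ∪ (fun σ : Gal => ρ σ - 1) '' (↑(A.inertiaSubgroupIn ℚ) : Set Gal)) ?_
      (m : 𝒪' ⊗[ℤ_[p]] tateModule J p) ?_
    · intro x hx
      have hxB : ∀ k, β' k x = 0 := fun k => hx _ (Or.inl ⟨k, rfl⟩)
      have hxI : ∀ σ ∈ A.inertiaSubgroupIn ℚ, ρ σ x = x := by
        intro σ hσ
        have h1 := hx _ (Or.inr ⟨σ, hσ, rfl⟩)
        rw [LinearMap.sub_apply, Module.End.one_apply] at h1
        exact sub_eq_zero.mp h1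
      have h3 : ∀ n : ℕ, c • x.1 n = 0 := by
        intro n
        refine hkill (x.1 n) ⟨n, tateModule.pow_smul_apply x n⟩ (fun k => ?_) (fun σ hσ => ?_)
        · exact congrArg (fun z : tateModule J p => z.1 n) (hxB k)
        · exact congrArg (fun z : tateModule J p => z.1 n) (hxI σ hσ)
      have h5 : (c : ℤ_[p]) • x = 0 := by
        apply tateModule.ext
        intro n
        rw [tateModule.natCast_smul_apply]
        exact h3 n
      exact (smul_eq_zero.mp h5).resolve_left (Nat.cast_ne_zero.mpr hc0)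
    · rintro z (⟨k, rfl⟩ | ⟨σ, hσ, rfl⟩)
      · have h1 := mem_eigenLattice.1 m.2 (Sum.inr k)
        have h2 : σf (Sum.inr k) (m : 𝒪' ⊗[ℤ_[p]] tateModule J p)
            = (0 : 𝒪') • (m : 𝒪' ⊗[ℤ_[p]] tateModule J p) := h1
        rw [zero_smul] at h2
        exact h2
      · have h1 := congrArg (fun y : eigenLattice σf eig => (y : 𝒪' ⊗[ℤ_[p]] tateModule J p))
          (hm σ hσ)
        simp only [coe_eigRep, baseChangeRep_apply] at h1
        rw [LinearMap.baseChange_sub, LinearMap.baseChange_one, LinearMap.sub_apply, h1,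
          Module.End.one_apply, sub_self]

/-! ### The frozen statement S36 from the machine statements -/

section Frozen

open ModularCurve Fermat.Agent.S30.helper1094 Fermat.Agent.S30.helper831

/-- **Geometric side of S36, kernel-operator form**: the eigensystem of a newform has an
abstract Jacobian datum with kernel operators and the clause `(kill)`. -/
def Stmt_JKK : Prop :=
  ∀ {M : ℕ} [NeZero M] {g : CuspForm (CongruenceSubgroup.Gamma0 M) 2} (_hg : g.IsNewform)
    (lam : ℕ) [Fact lam.Prime] (S : Finset ℕ)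
    (O' : Type) [CommRing O'] [IsDomain O'] [IsDiscreteValuationRing O']
    [IsAdicComplete (IsLocalRing.maximalIdeal O') O'] [Finite (IsLocalRing.ResidueField O')]
    [CharZero O'] (_hlamO' : (lam : O') ∈ IsLocalRing.maximalIdeal O')
    (chig : CuspForm.heckeAlgebra M 2 (↑S : Set ℕ) →+* ℂ)
    (_hchig : ∀ (ℓ : ℕ) (hℓ : ℓ.Prime) (hℓM : ¬ ℓ ∣ M) (hℓS : ℓ ∉ (↑S : Set ℕ)),
      chig (CuspForm.heckeAlgebra.T hℓ hℓM hℓS) = ModularFormClass.qCoeff g ℓ)
    (iota : chig.range →+* O')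
    (_hlamS : lam ∈ S) (_hMS : ∀ q : ℕ, q.Prime → q ∣ M → q ∈ S),
    JDatumKK lam M S O' (eigenvalue (iota.comp chig.rangeRestrict))

/-- **The S36-specific machine statement: kernel operators on `J₀(M)`.**

For every level `M`, prime `lam` and set `S` there are

* a family `B k` of additive operators on `J₀(M)` commuting with the Galois action
  (intended: `α^* α_*` and `β^* β_*` for the two degeneracy maps `X₀(M) → X₀(M / q)`, for the
  primes `q ≠ lam` with `q² ∥ M`);
* `(kill)`: for every prime `q ≠ lam` with `v_q(M) = 2` a valuation ring `A` over `q` and a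
  nonzero integer `c` such that every point `x` of `lam`-power order killed by all `B k` and
  fixed by the inertia group of `A` satisfies `c • x = 0`;
* a lattice `Λ` with operators `t ℓ`, `b k` and level-wise injections `Λ / lam ^ n → J₀(M)[lam ^ n]`,
  compatible in `n`, intertwining `t ℓ` with the Hecke operator at the good primes `ℓ` and `b k`
  with `B k`;
* `(occ)`: for every newform `g` of level `M` and every ring homomorphism `iota` from its
  coefficient ring to a complete DVR `O'` of residue characteristic `lam`, a nonzero element of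
  `O' ⊗ Λ` on which `t ℓ` acts by `iota (a_ℓ(g))` and which is killed by the `b k`. -/
def Stmt_KerOpsK : Prop :=
  ∀ (M : ℕ) [NeZero M] (lam : ℕ) [Fact lam.Prime] (S : Finset ℕ)
    (_hlamS : lam ∈ S) (_hMS : ∀ q : ℕ, q.Prime → q ∣ M → q ∈ S),
    ∃ (κ : Type) (B : κ → JZero M →+ JZero M),
      (∀ (k : κ) (σ : Gal) (x : JZero M), σ • B k x = B k (σ • x)) ∧
      (∀ q : ℕ, q.Prime → q ≠ lam → M.factorization q = 2 →
        ∃ A : ValuationSubring (AlgebraicClosure ℚ), A.LiesOverPrime q ∧ ∃ c : ℕ, c ≠ 0 ∧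
          ∀ x : JZero M, (∃ n : ℕ, lam ^ n • x = 0) → (∀ k, B k x = 0) →
            (∀ σ ∈ A.inertiaSubgroupIn ℚ, σ • x = x) → c • x = 0) ∧
      ∃ (Λ : Type) (_ : AddCommGroup Λ) (_ : Module.Free ℤ Λ) (_ : Module.Finite ℤ Λ)
        (t : ℕ → Module.End ℤ Λ) (b : κ → Module.End ℤ Λ) (ι : ℕ → Λ →+ JZero M),
        (∀ (n : ℕ) (x : Λ), lam ^ n • ι n x = 0) ∧
        (∀ (n : ℕ) (x : Λ), ι n x = 0 → ∃ y : Λ, x = lam ^ n • y) ∧
        (∀ (n : ℕ) (x : Λ), lam • ι (n + 1) x = ι n x) ∧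
        (∀ (ℓ : ℕ) (hℓ : ℓ.Prime), ¬ ℓ ∣ M → ℓ ∉ S → ∀ (n : ℕ) (x : Λ),
          ι n (t ℓ x) = heckeOperatorBar M ⟨ℓ, hℓ⟩ (ι n x)) ∧
        (∀ (k : κ) (n : ℕ) (x : Λ), ι n (b k x) = B k (ι n x)) ∧
        ∀ {g : CuspForm (CongruenceSubgroup.Gamma0 M) 2} (_hg : g.IsNewform)
          (O' : Type) [CommRing O'] [IsDomain O'] [IsDiscreteValuationRing O']
          [IsAdicComplete (IsLocalRing.maximalIdeal O') O'] [Finite (IsLocalRing.ResidueField O')]
          [CharZero O'] (_hlamO' : (lam : O') ∈ IsLocalRing.maximalIdeal O')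
          (chig : CuspForm.heckeAlgebra M 2 (↑S : Set ℕ) →+* ℂ)
          (_hchig : ∀ (ℓ : ℕ) (hℓ : ℓ.Prime) (hℓM : ¬ ℓ ∣ M) (hℓS : ℓ ∉ (↑S : Set ℕ)),
            chig (CuspForm.heckeAlgebra.T hℓ hℓM hℓS) = ModularFormClass.qCoeff g ℓ)
          (iota : chig.range →+* O'),
          ∃ y : O' ⊗[ℤ] Λ, y ≠ 0 ∧
            (∀ (ℓ : ℕ) (hℓ : ℓ.Prime) (hℓM : ¬ ℓ ∣ M) (hℓS : ℓ ∉ (↑S : Set ℕ)),
              (t ℓ).baseChange O' y
                = (iota.comp chig.rangeRestrict) (CuspForm.heckeAlgebra.T hℓ hℓM hℓS) • y) ∧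
            (∀ k : κ, (b k).baseChange O' y = 0)

/-- **`Stmt_JKK` from the machine statements**: the operator-wise (U), (ES) on `lam`-power
torsion at the good primes (the S30 machine statements) and the kernel operators. -/
theorem stmt_JKK_of (hU : Stmt_UPow) (hES : Stmt_ESPow) (hK : Stmt_KerOpsK) : Stmt_JKK := by
  intro M _ g hg lam _ S O' _ _ _ _ _ _ hlamO' chig hchig iota hlamS hMS
  have hp : lam.Prime := Fact.out
  have hNp : ∀ ℓ : ℕ, ℓ.Prime → ¬ ℓ ∣ M → ℓ ≠ lam → ¬ ℓ ∣ M * lam := by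
    intro ℓ hℓ hℓN hℓp hdvd
    rcases (Nat.Prime.dvd_mul hℓ).mp hdvd with h | h
    · exact hℓN h
    · exact hℓp ((Nat.prime_dvd_prime_iff_eq hℓ hp).mp h)
  have hSp : ∀ ℓ : ℕ, ℓ ∉ S → ℓ ≠ lam := fun ℓ hℓS h => hℓS (h ▸ hlamS)
  obtain ⟨κ, B, hcommB, hkill, Λ, i1, i2, i3, t, b, ι, hι1, hι2, hι3, hι4, hι5, hocc⟩ :=
    hK M lam S hlamS hMS
  obtain ⟨y, hy0, hyt, hyb⟩ := hocc hg O' hlamO' chig hchig iota
  refine ⟨JZero M, inferInstance, inferInstance, tauBar M, κ, B, stmt_TorsFin M lam,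
    fun x _ => Fermat.Agent.S30.helper30.stmt_FinLevel M x, ?_, hcommB, ?_, ?_, hkill, Λ, i1, i2,
    i3, t, b, ι, hι1, hι2, hι3, ?_, hι5, y, hy0, ?_, hyb⟩
  · intro ℓ hℓ _ _ σ x
    rw [tauBar_apply M hℓ, tauBar_apply M hℓ]
    exact Fermat.Agent.S30.helper30.stmt_GalHecke M ⟨ℓ, hℓ⟩ σ x
  · intro q hq hqN hqp A hA σ hσ x hx
    exact hU M lam hp q hq (hNp q hq hqN hqp) A hA σ hσ x hx
  · intro ℓ hℓ hℓN hℓS A hA σ hσ x hx
    rw [tauBar_apply M hℓ]
    exact hES M lam hp ℓ hℓ (hNp ℓ hℓ hℓN (hSp ℓ hℓS)) A hA σ hσ x hx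
  · intro ℓ hℓ hℓN hℓS n x
    rw [tauBar_apply M hℓ]
    exact hι4 ℓ hℓ hℓN hℓS n x
  · intro ℓ hℓ hℓN hℓS
    rw [eigenvalue_eq _ hℓ hℓN (by exact_mod_cast hℓS)]
    exact hyt ℓ hℓ hℓN (by exact_mod_cast hℓS)

open Polynomial in
/-- **The frozen statement S36** from the machine statements: (U), (ES) on `lam`-power torsion
at the good primes (shared with S30) and the kernel operators `Stmt_KerOpsK`.  The hypotheses
`lam ≠ 2` and "every attached representation is residually absolutely irreducible and odd" of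
the frozen statement are not needed. -/
theorem result_of_kerOpsK (hU : Stmt_UPow) (hES : Stmt_ESPow) (hK : Stmt_KerOpsK)
    {M : ℕ} [NeZero M] {g : CuspForm (CongruenceSubgroup.Gamma0 M) 2} (hg : g.IsNewform)
    (lam : ℕ) [Fact lam.Prime]
    (S : Finset ℕ)
    (O' : Type) [CommRing O'] [IsDomain O'] [IsDiscreteValuationRing O']
    [IsAdicComplete (IsLocalRing.maximalIdeal O') O'] [Finite (IsLocalRing.ResidueField O')]
    [CharZero O'] (hlamO' : (lam : O') ∈ IsLocalRing.maximalIdeal O')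
    (chig : CuspForm.heckeAlgebra M 2 (↑S : Set ℕ) →+* ℂ)
    (hchig : ∀ (ℓ : ℕ) (hℓ : ℓ.Prime) (hℓM : ¬ ℓ ∣ M) (hℓS : ℓ ∉ (↑S : Set ℕ)),
      chig (CuspForm.heckeAlgebra.T hℓ hℓM hℓS) = ModularFormClass.qCoeff g ℓ)
    (iota : chig.range →+* O')
    (hlamS : lam ∈ S) (hMS : ∀ q : ℕ, q.Prime → q ∣ M → q ∈ S)
    :
    ∃ (O'' : Type) (_ : CommRing O'') (_ : IsDomain O'') (_ : IsDiscreteValuationRing O'')
      (_ : IsAdicComplete (IsLocalRing.maximalIdeal O'') O'') (_ : Finite (IsLocalRing.ResidueField O''))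
      (_ : CharZero O'') (_ : Algebra O' O'') (_ : Module.Finite O' O'') (_ : IsLocalHom (algebraMap O' O'')),
      Function.Injective (algebraMap O' O'') ∧
      ∃ ρ : GaloisRepAdic O'',
        (∀ (ℓ : ℕ) (hℓ : ℓ.Prime) (hℓM : ¬ ℓ ∣ M) (hℓS : ℓ ∉ (↑S : Set ℕ)),
          ∀ A : ValuationSubring (AlgebraicClosure ℚ), A.LiesOverPrime ℓ →
            ∀ σ : AlgebraicClosure ℚ ≃ₐ[ℚ] AlgebraicClosure ℚ, A.IsFrobeniusAt σ ℓ →
              LinearMap.charpoly (ρ.ρ σ) =
                X ^ 2 - C (algebraMap O' O'' ((iota.comp chig.rangeRestrict) (CuspForm.heckeAlgebra.T hℓ hℓM hℓS))) * X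
                  + C ((ℓ : O''))) ∧
        (∀ q : ℕ, q.Prime → q ≠ lam → M.factorization q = 2 → ¬ ρ.IsUnipotentOnInertiaAt q) := by
  obtain ⟨ρ, h1, -, h3⟩ :=
    conclusionK_of_eigenDatumK lam M S hlamS O' hlamO' (eigenvalue (iota.comp chig.rangeRestrict))
      Fermat.Agent.S30.helper54.stmt_GenCheb
      (eigenDatumK_of_jDatumKK lam M S O' hlamO' _
        (stmt_JKK_of hU hES hK hg lam S O' hlamO' chig hchig iota hlamS hMS))
  refine ⟨O', inferInstance, inferInstance, inferInstance, inferInstance, inferInstance,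
    inferInstance, Algebra.id O', inferInstance, ?_, Function.injective_id, ρ, ?_, h3⟩
  · show IsLocalHom (RingHom.id O')
    infer_instance
  · intro ℓ hℓ hℓM hℓS A hA σ hσ
    rw [h1 ℓ hℓ hℓM hℓS A hA σ hσ, eigenvalue_eq (iota.comp chig.rangeRestrict) hℓ hℓM hℓS]
    rfl

/-! ### The statement prime by prime -/

/-- The primes `q ≠ lam` with `q² ∥ M`. -/
def SqPrime (lam M q : ℕ) : Prop := q.Prime ∧ q ≠ lam ∧ M.factorization q = 2

/-- **`Stmt_KerOpsK` prime by prime (degeneracy form)**: two families `P q`, `Q q` of additive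
operators on `J₀(M)` (only the values at the primes `q ≠ lam` with `q² ∥ M` matter; intended:
`P q = α^* α_*`, `Q q = β^* β_*` for the two degeneracy maps `α, β : X₀(M) → X₀(M / q)`); the
clause `(kill)` at `q` only involves the two operators AT `q`:

  `x` of `lam`-power order, `P q x = 0`, `Q q x = 0`, `x` fixed by inertia at `A ∣ q`
  `⟹ c • x = 0`.

This is the statement (KILL) of findings #3001 (= (NEWFIX) of #2979) in Prelude vocabulary. -/
def Stmt_DegOps : Prop :=
  ∀ (M : ℕ) [NeZero M] (lam : ℕ) [Fact lam.Prime] (S : Finset ℕ)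
    (_hlamS : lam ∈ S) (_hMS : ∀ q : ℕ, q.Prime → q ∣ M → q ∈ S),
    ∃ (P Q : ℕ → JZero M →+ JZero M),
      (∀ q : ℕ, SqPrime lam M q → ∀ (σ : Gal) (x : JZero M), σ • P q x = P q (σ • x)) ∧
      (∀ q : ℕ, SqPrime lam M q → ∀ (σ : Gal) (x : JZero M), σ • Q q x = Q q (σ • x)) ∧
      (∀ q : ℕ, SqPrime lam M q →
        ∃ A : ValuationSubring (AlgebraicClosure ℚ), A.LiesOverPrime q ∧ ∃ c : ℕ, c ≠ 0 ∧
          ∀ x : JZero M, (∃ n : ℕ, lam ^ n • x = 0) → P q x = 0 → Q q x = 0 →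
            (∀ σ ∈ A.inertiaSubgroupIn ℚ, σ • x = x) → c • x = 0) ∧
      ∃ (Λ : Type) (_ : AddCommGroup Λ) (_ : Module.Free ℤ Λ) (_ : Module.Finite ℤ Λ)
        (t pp qq : ℕ → Module.End ℤ Λ) (ι : ℕ → Λ →+ JZero M),
        (∀ (n : ℕ) (x : Λ), lam ^ n • ι n x = 0) ∧
        (∀ (n : ℕ) (x : Λ), ι n x = 0 → ∃ y : Λ, x = lam ^ n • y) ∧
        (∀ (n : ℕ) (x : Λ), lam • ι (n + 1) x = ι n x) ∧
        (∀ (ℓ : ℕ) (hℓ : ℓ.Prime), ¬ ℓ ∣ M → ℓ ∉ S → ∀ (n : ℕ) (x : Λ),
          ι n (t ℓ x) = heckeOperatorBar M ⟨ℓ, hℓ⟩ (ι n x)) ∧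
        (∀ q : ℕ, SqPrime lam M q → ∀ (n : ℕ) (x : Λ), ι n (pp q x) = P q (ι n x)) ∧
        (∀ q : ℕ, SqPrime lam M q → ∀ (n : ℕ) (x : Λ), ι n (qq q x) = Q q (ι n x)) ∧
        ∀ {g : CuspForm (CongruenceSubgroup.Gamma0 M) 2} (_hg : g.IsNewform)
          (O' : Type) [CommRing O'] [IsDomain O'] [IsDiscreteValuationRing O']
          [IsAdicComplete (IsLocalRing.maximalIdeal O') O'] [Finite (IsLocalRing.ResidueField O')]
          [CharZero O'] (_hlamO' : (lam : O') ∈ IsLocalRing.maximalIdeal O')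
          (chig : CuspForm.heckeAlgebra M 2 (↑S : Set ℕ) →+* ℂ)
          (_hchig : ∀ (ℓ : ℕ) (hℓ : ℓ.Prime) (hℓM : ¬ ℓ ∣ M) (hℓS : ℓ ∉ (↑S : Set ℕ)),
            chig (CuspForm.heckeAlgebra.T hℓ hℓM hℓS) = ModularFormClass.qCoeff g ℓ)
          (iota : chig.range →+* O'),
          ∃ y : O' ⊗[ℤ] Λ, y ≠ 0 ∧
            (∀ (ℓ : ℕ) (hℓ : ℓ.Prime) (hℓM : ¬ ℓ ∣ M) (hℓS : ℓ ∉ (↑S : Set ℕ)),
              (t ℓ).baseChange O' y
                = (iota.comp chig.rangeRestrict) (CuspForm.heckeAlgebra.T hℓ hℓM hℓS) • y) ∧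
            (∀ q : ℕ, SqPrime lam M q →
              (pp q).baseChange O' y = 0 ∧ (qq q).baseChange O' y = 0)

/-- `Stmt_KerOpsK` from its prime-by-prime form. -/
theorem stmt_KerOpsK_of_deg (h : Stmt_DegOps) : Stmt_KerOpsK := by
  intro M _ lam _ S hlamS hMS
  obtain ⟨P, Q, hgP, hgQ, hkill, Λ, i1, i2, i3, t, pp, qq, ι, hι1, hι2, hι3, hι4, hιp, hιq, hocc⟩ :=
    h M lam S hlamS hMS
  -- the kernel operators
  let B : {q : ℕ // SqPrime lam M q} × Bool → JZero M →+ JZero M := fun k =>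
    if k.2 then Q k.1.1 else P k.1.1
  let b : {q : ℕ // SqPrime lam M q} × Bool → Module.End ℤ Λ := fun k =>
    if k.2 then qq k.1.1 else pp k.1.1
  have hB0 : ∀ q : {q : ℕ // SqPrime lam M q}, B (q, false) = P q.1 := fun _ => rfl
  have hB1 : ∀ q : {q : ℕ // SqPrime lam M q}, B (q, true) = Q q.1 := fun _ => rfl
  have hb0 : ∀ q : {q : ℕ // SqPrime lam M q}, b (q, false) = pp q.1 := fun _ => rfl
  have hb1 : ∀ q : {q : ℕ // SqPrime lam M q}, b (q, true) = qq q.1 := fun _ => rfl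
  refine ⟨{q : ℕ // SqPrime lam M q} × Bool, B, ?_, ?_, Λ, i1, i2, i3, t, b, ι,
    hι1, hι2, hι3, hι4, ?_, ?_⟩
  · rintro ⟨q, c⟩ σ x
    cases c
    · rw [hB0]
      exact hgP q.1 q.2 σ x
    · rw [hB1]
      exact hgQ q.1 q.2 σ x
  · intro q hq hqp hfact
    have hsq : SqPrime lam M q := ⟨hq, hqp, hfact⟩
    obtain ⟨A, hA, c, hc0, hc⟩ := hkill q hsq
    refine ⟨A, hA, c, hc0, fun x hx hxB hxI => hc x hx ?_ ?_ hxI⟩
    · have := hxB (⟨q, hsq⟩, false)
      rwa [hB0] at this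
    · have := hxB (⟨q, hsq⟩, true)
      rwa [hB1] at this
  · rintro ⟨q, c⟩ n x
    cases c
    · rw [hb0, hB0]
      exact hιp q.1 q.2 n x
    · rw [hb1, hB1]
      exact hιq q.1 q.2 n x
  · intro g hg O' _ _ _ _ _ _ hlamO' chig hchig iota
    obtain ⟨y, hy0, hyt, hyq⟩ := hocc hg O' hlamO' chig hchig iota
    refine ⟨y, hy0, hyt, ?_⟩
    rintro ⟨q, c⟩
    cases c
    · rw [hb0]
      exact (hyq q.1 q.2).1
    · rw [hb1]
      exact (hyq q.1 q.2).2

end Frozen

end Fermat.Agent.S36.helper1335
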