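/-
S36 (F1 (N) / F6 / R1-NORMAB (NB)) -- THE `β`-NORM OF AN ARBITRARY FUNCTION OF LEVEL `M q`, `q ∣ M`.
Author: helper2106.  All proofs complete.

`Kbar = ℚ̄`, `FN M = modularFunctionFieldBar M ⊆ ℚ̄((t))`, `β = heckeBetaBar Kbar M q : F_M → F_{Mq}`
(`t ↦ t^q`).  For a prime `q ∣ M` the extension `F_{Mq} / β(F_M)` has degree `q` with basis
`1, j, …, j^(q-1)` (landed `S35/helper2106_UqBridge`), and for EVERY `x ∈ F_{Mq}` (not only for
`x = α u`, which is the case (B2) of the bridge file):

* `coe_normAlong_heckeBetaBar` : the `t`-expansion of `N_β x ∈ F_M` is the Kronecker norm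
  `kronNorm ζ q x`;
* `qExpand_coe_normAlong_heckeBetaBar` : product form `(N_β x)(t^q) = ∏_{b<q} x(ζ^b t)`
  (`= kronProd ζ q x`);
* `kronNorm_mem_of_mem` : `kronNorm ζ q` maps `F_{Mq}` into `F_M`.

In the application of S36 the level is `M q = q² M'` with `M = q M'`.
-/
import Fermat.Agent.S35.helper2106_UqBridge

set_option autoImplicit false
set_option linter.style.haveILetI false
set_option linter.unusedSectionVars false

namespace Fermat.Agent.S36.helper2106

open ModularCurve AlgebraicCurve Matrix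
open Fermat.Agent.S28.helper2082
open Fermat.Agent.S24.helper24 Fermat.Agent.S37.helper9343 Fermat.Agent.S37.helper5162
open Fermat.Agent.S35.helper2106
open Fermat.Agent.S29.helper36 (normAlong)

noncomputable section

variable (M q : ℕ) [NeZero M] [NeZero q]

/-- **The `β`-norm of an arbitrary function.**  For a prime `q ∣ M` and EVERY `x ∈ F_{Mq}`, the
`t`-expansion of the norm of `x` from `F_{Mq}` down to `F_M` along `β : t ↦ t^q` is the Kronecker
norm of the `t`-expansion of `x`: `(N_β x)(t^q) = ∏_{b<q} x(ζ^b t)`. -/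
theorem coe_normAlong_heckeBetaBar (hq : q.Prime) (hqM : q ∣ M) (ζ : Kbarˣ)
    (hζ : IsPrimitiveRoot ζ q) (x : FN (M * q)) :
    ((normAlong (heckeBetaBar Kbar M q) x : FN M) : LaurentSeries Kbar)
      = Fermat.Agent.S37.helper5666.kronNorm ζ q (x : LaurentSeries Kbar) := by
  classical
  letI := algebraAlong (heckeBetaBar Kbar M q)
  haveI : Module.Finite (FN M) (FN (M * q)) := finiteAlong_heckeBetaBar M q
  have hcard : Fintype.card (Fin q) = Module.finrank (FN M) (FN (M * q)) := by
    rw [Fintype.card_fin]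
    exact (finrankAlong_heckeBetaBar_of_dvd M q hq hqM).symm
  let b : Module.Basis (Fin q) (FN M) (FN (M * q)) :=
    basisOfLinearIndependentOfCardEqFinrank (linearIndependent_jPow M q) hcard
  have hb : ∀ i, b i = jPow M q i := fun i => by
    show (basisOfLinearIndependentOfCardEqFinrank (linearIndependent_jPow M q) hcard) i = _
    rw [coe_basisOfLinearIndependentOfCardEqFinrank]
  obtain ⟨A, hAdef⟩ : ∃ A : Matrix (Fin q) (Fin q) (FN M), A = Algebra.leftMulMatrix b x :=
    ⟨_, rfl⟩
  have hnorm : normAlong (heckeBetaBar Kbar M q) x = A.det := by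
    rw [hAdef]
    exact Algebra.norm_eq_matrix_det b x
  have hA : ∀ i, x * jPow M q i = ∑ k, A k i • jPow M q k := by
    intro i
    have h1 := b.sum_repr (x * b i)
    rw [← hb i, ← h1]
    refine Finset.sum_congr rfl fun k _ => ?_
    rw [hAdef, Algebra.leftMulMatrix_eq_repr_mul, hb k]
  have hA' : ∀ i : Fin q, (x : LaurentSeries Kbar) * JK ^ (i : ℕ)
      = ∑ k, qExpand Kbar q ((A.map (modularFunctionFieldBar M).val) k i) * JK ^ (k : ℕ) := by
    intro i
    have h1 : ((x * jPow M q i : FN (M * q)) : LaurentSeries Kbar)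
        = ((∑ k, A k i • jPow M q k : FN (M * q)) : LaurentSeries Kbar) :=
      congrArg (fun y : FN (M * q) => (y : LaurentSeries Kbar)) (hA i)
    rw [coe_sum_smul_jPow M q (fun k => A k i), IntermediateField.coe_mul, coe_jPow] at h1
    exact h1
  have key := det_secMat_eq_det q (x : LaurentSeries Kbar) (fun i => JK ^ (i : ℕ))
    (A.map (modularFunctionFieldBar M).val)
    (indep_pow_of_order q JK coeffEmb_jq_ne_zero order_JK) hA'
  rw [det_secMat_eq_kronNorm q ζ hζ] at key
  rw [key, hnorm]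
  exact RingHom.map_det (modularFunctionFieldBar M).val.toRingHom A

/-- Product form: `(N_β x)(t^q) = ∏_{b<q} x(ζ^b t)` for every `x ∈ F_{Mq}`. -/
theorem qExpand_coe_normAlong_heckeBetaBar (hq : q.Prime) (hqM : q ∣ M) (ζ : Kbarˣ)
    (hζ : IsPrimitiveRoot ζ q) (x : FN (M * q)) :
    qExpand Kbar q ((normAlong (heckeBetaBar Kbar M q) x : FN M) : LaurentSeries Kbar)
      = Fermat.Agent.S37.helper5666.kronProd ζ q (x : LaurentSeries Kbar) := by
  rw [coe_normAlong_heckeBetaBar M q hq hqM ζ hζ]
  exact Fermat.Agent.S37.helper5666.qExpand_kronNorm ζ q hζ.pow_eq_one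
    (Fermat.Agent.S37.helper5666.hreg_of_isPrimitiveRoot q ζ hζ) _

/-- For a prime `q ∣ M` the Kronecker norm maps the modular function field of level `M q` into
the one of level `M`. -/
theorem kronNorm_mem_of_mem (hq : q.Prime) (hqM : q ∣ M) (ζ : Kbarˣ) (hζ : IsPrimitiveRoot ζ q)
    {f : LaurentSeries Kbar} (hf : f ∈ modularFunctionFieldBar (M * q)) :
    Fermat.Agent.S37.helper5666.kronNorm ζ q f ∈ modularFunctionFieldBar M := by
  have h := coe_normAlong_heckeBetaBar M q hq hqM ζ hζ ⟨f, hf⟩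
  rw [← h]
  exact (normAlong (heckeBetaBar Kbar M q) ⟨f, hf⟩).2

end

end Fermat.Agent.S36.helper2106
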