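import Fermat.Agent.S35.helper1687_UqCong
import Fermat.Agent.S35.helper1219_AtkinLehnerPic
import Fermat.Agent.S36.helper2106_NormBeta
import Fermat.Agent.S37.helper6887_Fricke
import Fermat.Agent.S29.helper36_FunctionFieldL
import Fermat.Agent.S36.helper1335_KillFF

/-!
# S36: the seam between the `U_q` / Fricke kernel operators and the two degeneracy norms (helper253)

Level `M₁ * q` with `q` prime, `q ∣ M₁` (so `q² ∣ M₁ q`).  `α' = heckeAlphaBar Kbar M₁ q`
(inclusion) and `β' = heckeBetaBar Kbar M₁ q` (`t ↦ t^q`) are the two degeneracy maps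
`F_{M₁} → F_{M₁ q}`; `U_q = helper1687.uOp (M₁ * q) q` is the landed S35 operator on
`J₀(M₁ q)` and `W = helper6887.frickeBar (M₁ * q)` the Fricke involution.

* `uFun_eq_alpha_normBeta` : on functions `U_q u = α' (N_{β'} u)` (the operator `U_q` factors
  through level `M₁` when `q²` divides the level);
* `normAlong_heckeAlphaBar_apply` : `N_{α'} (α' y) = y ^ q`;
* `exists_normBeta_of_uOp_eq_zero` **(U1)** : if `u` is `n`-Kummer, `gcd(q, n) = 1` and
  `U_q [u] = 0`, then `N_{β'} u` is a divisor-free element times an `n`-th power;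
* `normAlong_heckeBetaBar_fricke` : `N_{β'} (W_{M₁ q} x) = W_{M₁} (N_{α'} x)`;
* `exists_normAlpha_of_uOp_fricke_eq_zero` **(U2)** : if `U_q (W [u]) = 0`, then `N_{α'} u` is a
  divisor-free element times an `n`-th power;
* `galois_fixed_iff` **(U3)** and `nsmul_kummerClass_eq_zero_of_pow` **(U4)** : the dictionary
  for "the class is fixed by `σ`" and "the class is killed by `e`";
* `KillFF`, `kill_of_killFF` **(U5)** : the function-field form of (KILL) at the literal level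
  `M₁ * q` gives the statement on `J₀(M₁ q)` for the kernel operators `U_q` and `U_q ∘ W`;
  `killJ_of_killFF` : the same for every level `M` with `q² ∥ M`;
* `kill_of_killFFAt`, `killJ_of_stmt_KillFF` : the same from the canonical statement
  `helper1335.KillFFAt` / `helper1335.Stmt_KillFF` (constants instead of divisor-free elements,
  class-level inertia hypothesis).
-/

set_option autoImplicit false
set_option linter.style.haveILetI false
set_option linter.unusedSectionVars false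

open ModularCurve AlgebraicCurve

namespace Fermat.Agent.S36.helper253

noncomputable section

local notation "Kbar" => AlgebraicClosure ℚ
local notation "GQ" => (AlgebraicClosure ℚ ≃ₐ[ℚ] AlgebraicClosure ℚ)
local notation "FN" => modularFunctionFieldBar

open Fermat.Agent.S29.helper8217 (IsKummer kummerClass)
open Fermat.Agent.S29.helper36 (normAlong)
open Fermat.Agent.S35.helper1687 (uFun uOp)
open Fermat.Agent.S37.helper6887 (frickeBar)
open Fermat.Agent.S35.helper1219 (picOfAlgEquiv)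

variable (M₁ q : ℕ) [NeZero M₁] [NeZero q]

/-- For a prime `q ∣ M₁` the operator `U_q` of level `M₁ q` factors through level `M₁`:
`U_q u = α' (N_{β'} u)` on functions. -/
theorem uFun_eq_alpha_normBeta (hq : q.Prime) (hqM₁ : q ∣ M₁) (u : FN (M₁ * q)) :
    uFun (M₁ * q) q u = heckeAlphaBar Kbar M₁ q (normAlong (heckeBetaBar Kbar M₁ q) u) := by
  obtain ⟨ζ, hζ⟩ := Fermat.Agent.S35.helper1687.exists_primitiveRoot_unit q
  apply Subtype.ext
  rw [Fermat.Agent.S35.helper1687.uFun_eq_uNorm,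
    Fermat.Agent.S35.helper2106.coe_uNorm (M₁ * q) q hq (dvd_mul_left q M₁) ζ hζ,
    coe_heckeAlphaBar,
    Fermat.Agent.S36.helper2106.coe_normAlong_heckeBetaBar M₁ q hq hqM₁ ζ hζ]

/-- `[F_{M₁ q} : α'(F_{M₁})] = q` for a prime `q ∣ M₁`. -/
theorem finrankAlong_heckeAlphaBar_eq (hq : q.Prime) (hqM₁ : q ∣ M₁) :
    finrankAlong Kbar (heckeAlphaBar Kbar M₁ q) = q := by
  rw [← Fermat.Agent.S37.helper6887.finrankAlong_heckeBetaBar_eq]
  exact Fermat.Agent.S35.helper2106.finrankAlong_heckeBetaBar_of_dvd M₁ q hq hqM₁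

/-- `N_{α'} (α' y) = y ^ q`. -/
theorem normAlong_heckeAlphaBar_apply (hq : q.Prime) (hqM₁ : q ∣ M₁) (y : FN M₁) :
    normAlong (heckeAlphaBar Kbar M₁ q) (heckeAlphaBar Kbar M₁ q y) = y ^ q := by
  have hfr := finrankAlong_heckeAlphaBar_eq M₁ q hq hqM₁
  unfold finrankAlong at hfr
  letI := algebraAlong (heckeAlphaBar Kbar M₁ q)
  show Algebra.norm (FN M₁) (algebraMap (FN M₁) (FN (M₁ * q)) y) = y ^ q
  rw [Algebra.norm_algebraMap, hfr]

/-- The norm along `ψ` of a divisor-free element is divisor-free. -/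
theorem ord_normAlong_eq_zero {K F F' : Type*} [Field K] [Field F] [Field F'] [Algebra K F]
    [Algebra K F'] [HasPrincipalDivisors K F] [HasPrincipalDivisors K F']
    (ψ : F →ₐ[K] F') (hψ : ψ.toRingHom.IsIntegral)
    (hfin : FiniteAlong K ψ) (hN : NormFormulaAlong K ψ hfin) {c : F'} (hc : c ≠ 0)
    (hcv : ∀ v : Place K F', v.ord c = 0) (v : Place K F) : v.ord (normAlong ψ c) = 0 := by
  have h := Fermat.Agent.S29.helper36.pushforwardAlong_ordDiv ψ hψ hfin hN hc
  have h0 : Fermat.Agent.S29.helper36.ordDiv K c = 0 := by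
    ext w
    rw [Fermat.Agent.S29.helper36.ordDiv_apply, hcv w]
    rfl
  rw [h0, map_zero] at h
  have h1 := congrArg (fun D : Divisor K F => D v) h
  simp only [Fermat.Agent.S29.helper36.ordDiv_apply] at h1
  exact h1.symm

/-- Bezout for "divisor-free times an `n`-th power": if `y ^ q` is of this shape and
`gcd(q, n) = 1`, then so is `y`. -/
theorem exists_eq_mul_pow_of_pow {K F : Type*} [Field K] [Field F] [Algebra K F]
    {q n : ℕ} (hqn : Nat.Coprime q n) {y w c : F} (hy : y ≠ 0) (hw : w ≠ 0) (hc : c ≠ 0)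
    (hcv : ∀ v : Place K F, v.ord c = 0) (h : y ^ q = c * w ^ n) :
    ∃ w' c' : F, w' ≠ 0 ∧ c' ≠ 0 ∧ (∀ v : Place K F, v.ord c' = 0) ∧ y = c' * w' ^ n := by
  obtain ⟨a, b, hab⟩ : ∃ a b : ℤ, a * (q : ℤ) + b * (n : ℤ) = 1 :=
    (Nat.isCoprime_iff_coprime.mpr hqn)
  refine ⟨w ^ a * y ^ b, c ^ a, mul_ne_zero (zpow_ne_zero a hw) (zpow_ne_zero b hy),
    zpow_ne_zero a hc, fun v => ?_, ?_⟩
  · rw [v.ord_zpow, hcv v, mul_zero]
  · have h1 : y = y ^ (a * (q : ℤ) + b * (n : ℤ)) := by rw [hab, zpow_one]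
    rw [zpow_add₀ hy, mul_comm a, zpow_mul, zpow_natCast, h, mul_zpow, mul_comm b, zpow_mul,
      zpow_natCast] at h1
    rw [mul_pow, ← zpow_natCast (w ^ a) n, ← zpow_mul, mul_comm a, zpow_mul, zpow_natCast,
      ← zpow_natCast (y ^ b) n, ← zpow_mul, mul_comm b, zpow_mul, zpow_natCast]
    rw [← mul_assoc]
    exact h1

/-- **(U1)** For a prime `q ∣ M₁` and an `n`-Kummer function `u` of level `M₁ q` with
`gcd(q, n) = 1`: if `U_q` kills the class of `u`, then the `β'`-norm of `u` (to level `M₁`) is a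
divisor-free element times an `n`-th power. -/
theorem exists_normBeta_of_uOp_eq_zero (hq : q.Prime) (hqM₁ : q ∣ M₁) {n : ℕ} (hn : n ≠ 0)
    (hqn : Nat.Coprime q n) {u : FN (M₁ * q)} (hk : IsKummer Kbar n u)
    (h0 : uOp (M₁ * q) q (kummerClass Kbar n u) = 0) :
    ∃ w c : FN M₁, w ≠ 0 ∧ c ≠ 0 ∧ (∀ v : Place Kbar (FN M₁), v.ord c = 0) ∧
      normAlong (heckeBetaBar Kbar M₁ q) u = c * w ^ n := by
  obtain ⟨hk', hU⟩ := Fermat.Agent.S35.helper1687.uOp_kummerClass (M := M₁ * q) (q := q) hn hk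
  rw [hU] at h0
  obtain ⟨w, c, hw, hc, hcv, huw⟩ :=
    (Fermat.Agent.S29.helper8217.kummerClass_eq_zero_iff hn hk').mp h0
  rw [uFun_eq_alpha_normBeta M₁ q hq hqM₁ u] at huw
  have hy : normAlong (heckeBetaBar Kbar M₁ q) u ≠ 0 :=
    Fermat.Agent.S29.helper36.normAlong_ne_zero _
      (Fermat.Agent.S37.helper5162.finiteAlong_heckeBetaBar M₁ q) hk.ne_zero
  have hfinα := Fermat.Agent.S37.helper5162.finiteAlong_heckeAlphaBar (N := M₁) (ℓ := q)
  have h1 := congrArg (normAlong (heckeAlphaBar Kbar M₁ q)) huw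
  rw [normAlong_heckeAlphaBar_apply M₁ q hq hqM₁, map_mul, map_pow] at h1
  exact exists_eq_mul_pow_of_pow hqn hy
    (Fermat.Agent.S29.helper36.normAlong_ne_zero _ hfinα hw)
    (Fermat.Agent.S29.helper36.normAlong_ne_zero _ hfinα hc)
    (ord_normAlong_eq_zero (heckeAlphaBar Kbar M₁ q)
      (Fermat.Agent.S37.helper5162.heckeAlphaBarIntegral M₁ q) hfinα
      (Fermat.Agent.S37.helper8426.normFormulaAlong_heckeAlphaBar M₁ q) hc hcv) h1

/-- `α' ∘ W_{M₁} = W_{M₁ q} ∘ β'`. -/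
theorem heckeAlphaBar_fricke (z : FN M₁) :
    heckeAlphaBar Kbar M₁ q (frickeBar M₁ z) = frickeBar (M₁ * q) (heckeBetaBar Kbar M₁ q z) := by
  rw [Fermat.Agent.S37.helper6887.heckeBetaBar_eq_fricke]
  show _ = frickeBar (M₁ * q) (frickeBar (M₁ * q) (heckeAlphaBar Kbar M₁ q (frickeBar M₁ z)))
  rw [Fermat.Agent.S37.helper6887.frickeBar_frickeBar]

/-- `N_{β'} (W_{M₁ q} x) = W_{M₁} (N_{α'} x)`: the Fricke involutions exchange the two
degeneracy norms. -/
theorem normAlong_heckeBetaBar_fricke (x : FN (M₁ * q)) :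
    normAlong (heckeBetaBar Kbar M₁ q) (frickeBar (M₁ * q) x)
      = frickeBar M₁ (normAlong (heckeAlphaBar Kbar M₁ q) x) := by
  have key := @Algebra.norm_eq_of_equiv_equiv (FN M₁) (FN (M₁ * q)) (FN M₁) (FN (M₁ * q)) _ _ _ _
    (algebraAlong (heckeBetaBar Kbar M₁ q)) (algebraAlong (heckeAlphaBar Kbar M₁ q))
    (frickeBar M₁).toRingEquiv (frickeBar (M₁ * q)).toRingEquiv
    (RingHom.ext fun z => heckeAlphaBar_fricke M₁ q z) (frickeBar (M₁ * q) x)
  have h2 : (frickeBar (M₁ * q)).toRingEquiv (frickeBar (M₁ * q) x) = x :=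
    Fermat.Agent.S37.helper6887.frickeBar_frickeBar (M₁ * q) x
  rw [h2] at key
  exact key

/-- **(U2)** For a prime `q ∣ M₁` and an `n`-Kummer function `u` of level `M₁ q` with
`gcd(q, n) = 1`: if `U_q` kills the Fricke transform of the class of `u`, then the `α'`-norm of
`u` (to level `M₁`) is a divisor-free element times an `n`-th power. -/
theorem exists_normAlpha_of_uOp_fricke_eq_zero (hq : q.Prime) (hqM₁ : q ∣ M₁) {n : ℕ}
    (hn : n ≠ 0) (hqn : Nat.Coprime q n) {u : FN (M₁ * q)} (hk : IsKummer Kbar n u)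
    (h0 : uOp (M₁ * q) q
      (picOfAlgEquiv (M₁ * q) (frickeBar (M₁ * q)) (kummerClass Kbar n u)) = 0) :
    ∃ w c : FN M₁, w ≠ 0 ∧ c ≠ 0 ∧ (∀ v : Place Kbar (FN M₁), v.ord c = 0) ∧
      normAlong (heckeAlphaBar Kbar M₁ q) u = c * w ^ n := by
  rw [Fermat.Agent.S35.helper1219.picOfAlgEquiv_kummerClass] at h0
  have hk' : IsKummer Kbar n (frickeBar (M₁ * q) u) :=
    (Fermat.Agent.S29.helper8217.isKummer_smul_iff
      (SemilinearAut.ofAlgAut (frickeBar (M₁ * q)))).mpr hk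
  obtain ⟨w, c, hw, hc, hcv, h⟩ := exists_normBeta_of_uOp_eq_zero M₁ q hq hqM₁ hn hqn hk' h0
  rw [normAlong_heckeBetaBar_fricke] at h
  refine ⟨frickeBar M₁ w, frickeBar M₁ c, by simpa using hw, by simpa using hc, fun v => ?_, ?_⟩
  · have h1 := Fermat.Agent.S29.helper36.ord_semilinear_smul
      (SemilinearAut.ofAlgAut (frickeBar M₁)) c v
    rw [hcv] at h1
    exact h1
  · have h1 := congrArg (frickeBar M₁) h
    rw [Fermat.Agent.S37.helper6887.frickeBar_frickeBar, map_mul, map_pow] at h1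
    exact h1

/-! ### The dictionary for Galois-fixed classes and for classes killed by an integer -/

section Dictionary

variable {M : ℕ} [NeZero M]

/-- **(U3)** The class of an `n`-Kummer function is fixed by `σ` iff `σ u = u * (c * w ^ n)`
with `c` divisor-free. -/
theorem galois_fixed_iff {n : ℕ} (hn : n ≠ 0) {u : FN M} (hk : IsKummer Kbar n u) (σ : GQ) :
    σ • kummerClass Kbar n u = kummerClass Kbar n u ↔
      ∃ w c : FN M, w ≠ 0 ∧ c ≠ 0 ∧ (∀ v : Place Kbar (FN M), v.ord c = 0) ∧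
        arithmeticGalois (modularFunctionFieldFull M) σ • u = u * (c * w ^ n) := by
  rw [Fermat.Agent.S29.helper8217.galois_smul_kummerClass,
    Fermat.Agent.S29.helper8217.kummerClass_eq_iff hn
      ((Fermat.Agent.S29.helper8217.isKummer_smul_iff _).mpr hk) hk]

/-- **(U4)** If `u ^ e` is a divisor-free element times an `n`-th power, then `e` kills the
class of `u`. -/
theorem nsmul_kummerClass_eq_zero_of_pow {n : ℕ} (hn : n ≠ 0) {u : FN M}
    (hk : IsKummer Kbar n u) {e : ℕ}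
    (h : ∃ w c : FN M, w ≠ 0 ∧ c ≠ 0 ∧ (∀ v : Place Kbar (FN M), v.ord c = 0) ∧
      u ^ e = c * w ^ n) :
    e • kummerClass Kbar n u = 0 := by
  rw [← Fermat.Agent.S29.helper8217.kummerClass_pow hk e]
  exact (Fermat.Agent.S29.helper8217.kummerClass_eq_zero_iff hn (hk.pow e)).mpr h

end Dictionary

/-! ### The assembly -/

/-- **The function-field form of (KILL)** at the literal level `M₁ * q`, for the prime `lam`, the
valuation subring `A` of `ℚ̄` and the constant `e`: an `lam ^ k`-Kummer function `u` of level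
`M₁ q` whose two degeneracy norms to level `M₁` are divisor-free elements times `lam ^ k`-th
powers and whose class is fixed by the inertia group of `A` (i.e. `σ u = u * (c * w ^ (lam ^ k))`
for all `σ` in the inertia group) has `u ^ e` a divisor-free element times a `lam ^ k`-th
power. -/
def KillFF (lam : ℕ) (A : ValuationSubring Kbar) (e : ℕ) : Prop :=
  ∀ (k : ℕ) (u : FN (M₁ * q)), IsKummer Kbar (lam ^ k) u →
    (∃ w c : FN M₁, w ≠ 0 ∧ c ≠ 0 ∧ (∀ v : Place Kbar (FN M₁), v.ord c = 0) ∧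
      normAlong (heckeAlphaBar Kbar M₁ q) u = c * w ^ (lam ^ k)) →
    (∃ w c : FN M₁, w ≠ 0 ∧ c ≠ 0 ∧ (∀ v : Place Kbar (FN M₁), v.ord c = 0) ∧
      normAlong (heckeBetaBar Kbar M₁ q) u = c * w ^ (lam ^ k)) →
    (∀ σ ∈ A.inertiaSubgroupIn ℚ, ∃ w c : FN (M₁ * q), w ≠ 0 ∧ c ≠ 0 ∧
      (∀ v : Place Kbar (FN (M₁ * q)), v.ord c = 0) ∧
      arithmeticGalois (modularFunctionFieldFull (M₁ * q)) σ • u = u * (c * w ^ (lam ^ k))) →
    ∃ w c : FN (M₁ * q), w ≠ 0 ∧ c ≠ 0 ∧ (∀ v : Place Kbar (FN (M₁ * q)), v.ord c = 0) ∧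
      u ^ e = c * w ^ (lam ^ k)

/-- **(U5)**, literal level: the function-field form of (KILL) gives (KILL) on `J₀(M₁ q)` for
the kernel operators `U_q` and `U_q ∘ W` (`W` the Fricke involution). -/
theorem kill_of_killFF (hq : q.Prime) (hqM₁ : q ∣ M₁) {lam : ℕ} (hlam : lam.Prime)
    (hne : lam ≠ q) (A : ValuationSubring Kbar) {e : ℕ} (hFF : KillFF M₁ q lam A e)
    (x : JZero (M₁ * q)) (hx : ∃ n : ℕ, lam ^ n • x = 0) (h1 : uOp (M₁ * q) q x = 0)
    (h2 : uOp (M₁ * q) q (picOfAlgEquiv (M₁ * q) (frickeBar (M₁ * q)) x) = 0)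
    (hI : ∀ σ ∈ A.inertiaSubgroupIn ℚ, σ • x = x) : e • x = 0 := by
  obtain ⟨k, hk⟩ := hx
  have hn : lam ^ k ≠ 0 := pow_ne_zero k hlam.ne_zero
  have hqn : Nat.Coprime q (lam ^ k) :=
    Nat.Coprime.pow_right k ((Nat.coprime_primes hq hlam).mpr (Ne.symm hne))
  have hxt : x ∈ Pic0.torsion Kbar (FN (M₁ * q)) (lam ^ k) := by
    rw [Pic0.mem_torsion, natCast_zsmul]
    exact hk
  obtain ⟨u, hu, rfl⟩ := Fermat.Agent.S29.helper8217.exists_kummerClass_eq hn hxt
  exact nsmul_kummerClass_eq_zero_of_pow hn hu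
    (hFF k u hu (exists_normAlpha_of_uOp_fricke_eq_zero M₁ q hq hqM₁ hn hqn hu h2)
      (exists_normBeta_of_uOp_eq_zero M₁ q hq hqM₁ hn hqn hu h1)
      (fun σ hσ => (galois_fixed_iff hn hu σ).mp (hI σ hσ)))

/-- **(U5)**, any level `M = M₁ * q`. -/
theorem kill_of_killFF_of_eq {M : ℕ} [NeZero M] (hM : M = M₁ * q) (hq : q.Prime) (hqM₁ : q ∣ M₁)
    {lam : ℕ} (hlam : lam.Prime) (hne : lam ≠ q) (A : ValuationSubring Kbar) {e : ℕ}
    (hFF : KillFF M₁ q lam A e) (x : JZero M) (hx : ∃ n : ℕ, lam ^ n • x = 0)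
    (h1 : uOp M q x = 0) (h2 : uOp M q (picOfAlgEquiv M (frickeBar M) x) = 0)
    (hI : ∀ σ ∈ A.inertiaSubgroupIn ℚ, σ • x = x) : e • x = 0 := by
  subst hM
  exact kill_of_killFF M₁ q hq hqM₁ hlam hne A hFF x hx h1 h2 hI

/-- **(U5)**, the statement on `J₀(M)` for every level `M` with `q² ∥ M`: (KILL) for the kernel
operators `U_q = helper1687.uOp M q` and `U_q ∘ W_M` (`W_M` the action of the Fricke involution
`helper6887.frickeBar M` on `J₀(M)`), from the function-field form at the levels `M₁ * q` with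
`q ∥ M₁`. -/
theorem killJ_of_killFF
    (h : ∀ (M₁ q : ℕ) [NeZero M₁] [NeZero q], q.Prime → M₁.factorization q = 1 →
      ∀ lam : ℕ, lam.Prime → lam ≠ q → ∀ A : ValuationSubring Kbar, A.LiesOverPrime q →
        ∃ e : ℕ, e ≠ 0 ∧ KillFF M₁ q lam A e)
    (M : ℕ) [NeZero M] (q : ℕ) [NeZero q] (hq : q.Prime) (hM : M.factorization q = 2)
    (lam : ℕ) (hlam : lam.Prime) (hne : lam ≠ q) (A : ValuationSubring Kbar)
    (hA : A.LiesOverPrime q) :
    ∃ c : ℕ, c ≠ 0 ∧ ∀ x : JZero M, (∃ n : ℕ, lam ^ n • x = 0) → uOp M q x = 0 →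
      uOp M q (picOfAlgEquiv M (frickeBar M) x) = 0 →
      (∀ σ ∈ A.inertiaSubgroupIn ℚ, σ • x = x) → c • x = 0 := by
  have hqM : q ∣ M := Nat.dvd_of_factorization_pos (by rw [hM]; norm_num)
  have hMeq : M = M / q * q := (Nat.div_mul_cancel hqM).symm
  have hM₁0 : M / q ≠ 0 := fun h0 => NeZero.ne M (by rw [hMeq, h0, zero_mul])
  haveI : NeZero (M / q) := ⟨hM₁0⟩
  have hfac : (M / q).factorization q = 1 := by
    rw [Nat.factorization_div hqM, Finsupp.tsub_apply, hM, hq.factorization_self]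
  have hqM₁ : q ∣ M / q := Nat.dvd_of_factorization_pos (by rw [hfac]; norm_num)
  obtain ⟨e, he, hFF⟩ := h (M / q) q hq hfac lam hlam hne A hA
  exact ⟨e, he, fun x hx h1 h2 hI =>
    kill_of_killFF_of_eq (M / q) q hMeq hq hqM₁ hlam hne A hFF x hx h1 h2 hI⟩

/-! ### From the canonical statement `helper1335.Stmt_KillFF` -/

/-- A divisor-free element times an `n`-th power is a constant times an `n`-th power. -/
theorem exists_const_of_ord_eq_zero {M : ℕ} [NeZero M] {n : ℕ} {y : FN M}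
    (h : ∃ w c : FN M, w ≠ 0 ∧ c ≠ 0 ∧ (∀ v : Place Kbar (FN M), v.ord c = 0) ∧ y = c * w ^ n) :
    ∃ (a : Kbar) (w : FN M), y = algebraMap Kbar (FN M) a * w ^ n := by
  obtain ⟨w, c, -, -, hcv, rfl⟩ := h
  obtain ⟨a, rfl⟩ := Fermat.Agent.S29.helper36.exists_algebraMap_eq_of_ord_eq_zero Kbar M hcv
  exact ⟨a, w, rfl⟩

/-- A nonzero constant times an `n`-th power (`n ≠ 0`) equal to a nonzero element is a
divisor-free element times an `n`-th power. -/
theorem exists_ord_eq_zero_of_const {M : ℕ} [NeZero M] {n : ℕ} {y : FN M} (hy : y ≠ 0)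
    (h : ∃ (a : Kbar) (w : FN M), y = algebraMap Kbar (FN M) a * w ^ n) :
    ∃ w c : FN M, w ≠ 0 ∧ c ≠ 0 ∧ (∀ v : Place Kbar (FN M), v.ord c = 0) ∧ y = c * w ^ n := by
  obtain ⟨a, w, rfl⟩ := h
  by_cases hw : w = 0
  · exact ⟨1, algebraMap Kbar (FN M) a * w ^ n, one_ne_zero, hy,
      fun v => by
        have h0 : algebraMap Kbar (FN M) a ≠ 0 := left_ne_zero_of_mul hy
        have h1 : w ^ n ≠ 0 := right_ne_zero_of_mul hy
        have hn : n = 0 := by
          by_contra hn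
          exact h1 (by rw [hw, zero_pow hn])
        rw [hn, pow_zero, mul_one]
        exact Fermat.Agent.S29.helper8217.ord_algebraMap v a,
      by rw [one_pow, mul_one]⟩
  · exact ⟨w, algebraMap Kbar (FN M) a, hw, left_ne_zero_of_mul hy,
      fun v => Fermat.Agent.S29.helper8217.ord_algebraMap v a, rfl⟩

/-- The canonical function-field (KILL) at `(M₁, q, lam, A)` with constant `e`
(`helper1335.KillFFAt`) gives (KILL) on `J₀(M₁ q)` for the kernel operators `U_q` and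
`U_q ∘ W`. -/
theorem kill_of_killFFAt (hq : q.Prime) (hqM₁ : q ∣ M₁) {lam : ℕ} (hlam : lam.Prime)
    (hne : lam ≠ q) (A : ValuationSubring Kbar) {e : ℕ}
    (hFF : Fermat.Agent.S36.helper1335.KillFFAt M₁ q lam A e)
    (x : JZero (M₁ * q)) (hx : ∃ n : ℕ, lam ^ n • x = 0) (h1 : uOp (M₁ * q) q x = 0)
    (h2 : uOp (M₁ * q) q (picOfAlgEquiv (M₁ * q) (frickeBar (M₁ * q)) x) = 0)
    (hI : ∀ σ ∈ A.inertiaSubgroupIn ℚ, σ • x = x) : e • x = 0 := by
  obtain ⟨k, hk⟩ := hx
  have hn : lam ^ k ≠ 0 := pow_ne_zero k hlam.ne_zero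
  have hqn : Nat.Coprime q (lam ^ k) :=
    Nat.Coprime.pow_right k ((Nat.coprime_primes hq hlam).mpr (Ne.symm hne))
  have hxt : x ∈ Pic0.torsion Kbar (FN (M₁ * q)) (lam ^ k) := by
    rw [Pic0.mem_torsion, natCast_zsmul]
    exact hk
  obtain ⟨u, hu, rfl⟩ := Fermat.Agent.S29.helper8217.exists_kummerClass_eq hn hxt
  have hconc := hFF k u hu hI
    (exists_const_of_ord_eq_zero
      (exists_normAlpha_of_uOp_fricke_eq_zero M₁ q hq hqM₁ hn hqn hu h2))
    (exists_const_of_ord_eq_zero (exists_normBeta_of_uOp_eq_zero M₁ q hq hqM₁ hn hqn hu h1))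
  exact nsmul_kummerClass_eq_zero_of_pow hn hu
    (exists_ord_eq_zero_of_const (pow_ne_zero e hu.ne_zero) hconc)

/-- The same at any level `M = M₁ * q`. -/
theorem kill_of_killFFAt_of_eq {M : ℕ} [NeZero M] (hM : M = M₁ * q) (hq : q.Prime)
    (hqM₁ : q ∣ M₁) {lam : ℕ} (hlam : lam.Prime) (hne : lam ≠ q) (A : ValuationSubring Kbar)
    {e : ℕ} (hFF : Fermat.Agent.S36.helper1335.KillFFAt M₁ q lam A e) (x : JZero M)
    (hx : ∃ n : ℕ, lam ^ n • x = 0) (h1 : uOp M q x = 0)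
    (h2 : uOp M q (picOfAlgEquiv M (frickeBar M) x) = 0)
    (hI : ∀ σ ∈ A.inertiaSubgroupIn ℚ, σ • x = x) : e • x = 0 := by
  subst hM
  exact kill_of_killFFAt M₁ q hq hqM₁ hlam hne A hFF x hx h1 h2 hI

/-- **(KILL) on `J₀(M)` for the kernel operators `U_q`, `U_q ∘ W_M` from the canonical
function-field statement `helper1335.Stmt_KillFF`**: for every level `M`, every prime `q` with
`q² ∥ M`, every prime `lam ≠ q` and every valuation subring `A` of `ℚ̄` over `q` there is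
`c ≠ 0` killing every point of `lam`-power order of `J₀(M)` which is killed by `U_q` and by
`U_q ∘ W_M` and fixed by the inertia group of `A`. -/
theorem killJ_of_stmt_KillFF (h : Fermat.Agent.S36.helper1335.Stmt_KillFF)
    (M : ℕ) [NeZero M] (q : ℕ) [NeZero q] (hq : q.Prime) (hM : M.factorization q = 2)
    (lam : ℕ) (hlam : lam.Prime) (hne : lam ≠ q) (A : ValuationSubring Kbar)
    (hA : A.LiesOverPrime q) :
    ∃ c : ℕ, c ≠ 0 ∧ ∀ x : JZero M, (∃ n : ℕ, lam ^ n • x = 0) → uOp M q x = 0 →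
      uOp M q (picOfAlgEquiv M (frickeBar M) x) = 0 →
      (∀ σ ∈ A.inertiaSubgroupIn ℚ, σ • x = x) → c • x = 0 := by
  have hqM : q ∣ M := Nat.dvd_of_factorization_pos (by rw [hM]; norm_num)
  have hMeq : M = M / q * q := (Nat.div_mul_cancel hqM).symm
  have hM₁0 : M / q ≠ 0 := fun h0 => NeZero.ne M (by rw [hMeq, h0, zero_mul])
  haveI : NeZero (M / q) := ⟨hM₁0⟩
  have hfac : (M / q).factorization q = 1 := by
    rw [Nat.factorization_div hqM, Finsupp.tsub_apply, hM, hq.factorization_self]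
  have hqM₁ : q ∣ M / q := Nat.dvd_of_factorization_pos (by rw [hfac]; norm_num)
  have hq2 : ¬ q ^ 2 ∣ M / q := by
    rw [hq.pow_dvd_iff_le_factorization hM₁0, hfac]
    norm_num
  obtain ⟨e, he, hFF⟩ := h (M / q) q hq hqM₁ hq2 lam hlam hne A hA
  exact ⟨e, he, fun x hx h1 h2 hI =>
    kill_of_killFFAt_of_eq (M / q) q hMeq hq hqM₁ hlam hne A hFF x hx h1 h2 hI⟩

end

end Fermat.Agent.S36.helper253
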