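/-
helper3353 — S36, leaf OCC-LAT, occurrence clause for the `U_q` / Atkin–Lehner kernel operators
(the MACHINE-UF operator family `U_q`, `U_q ∘ W` of team_s36_chat #120).

* `heckeTLin_wLin` : the Atkin–Lehner operator `wLin N d` (`d : ALData N Q`, ANY exact divisor
  `Q` of `N`, e.g. the Fricke involution `Q = N`) commutes with the Prelude `T_ℓ`, `ℓ ∤ N`;
* `heckeULin_wLin_eq_zero_of_isNewform` : for a Prelude newform `g` of level `M`, a prime `q`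
  with `q² ∣ M` and ANY `d : ALData M Q`:  `U_q (W_Q g) = 0`  (and `heckeULin_eq_zero_of_isNewform`:
  `U_q g = 0`);
* `exists_uw_cocycle` : the abstract eigen-cocycle killed by the lattice twins `latU`,
  `latU * latW`;
* `exists_newform_cocycle_uf` : **the (occ) clause of `helper1195.LatOps`** for `Λ = Lam M`,
  `t = latTAll M`, `ba q = latUAll M q`, `bb q = latUAll M q * latW M d`.
-/
import Fermat.Agent.S35.helper3353_OccNew
import Fermat.Agent.S36.helper8619_NewQ2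

set_option autoImplicit false

open CongruenceSubgroup ModularCurve UpperHalfPlane Matrix.SpecialLinearGroup
open scoped MatrixGroups ModularForm TensorProduct

namespace Fermat.Agent.S36.helper3353

open Fermat.Agent.S31.helper6356 Fermat.Agent.S35.helper3353

noncomputable section

/-! ### Forms side -/

section Forms

/-- **`W_Q` commutes with `T_ℓ`** on `S₂(Γ₀(N))`, for every exact divisor `Q` of `N` (Bezout data
`d : ALData N Q`) and every prime `ℓ ∤ N`. -/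
theorem heckeTLin_wLin {N Q : ℕ} [NeZero N] (d : ALData N Q) {ℓ : ℕ} (hℓ : ℓ.Prime)
    (hℓN : ¬ ℓ ∣ N) (f : CuspForm (Gamma0 N) 2) :
    CuspForm.heckeTLin 2 hℓ hℓN (wLin N d f) = wLin N d (CuspForm.heckeTLin 2 hℓ hℓN f) := by
  have hdet : (Q : ℤ) * d.x * 1 - (d.N' : ℤ) * d.y * 1 = 1 := by
    have := d.bez
    linarith
  have hW : ((d.gl : GL (Fin 2) ℝ) : Matrix (Fin 2) (Fin 2) ℝ)
      = !![(Q : ℝ) * ((d.x : ℤ) : ℝ), ((d.y : ℤ) : ℝ); (N : ℝ) * ((1 : ℤ) : ℝ),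
          (Q : ℝ) * ((1 : ℤ) : ℝ)] := by
    ext i j
    fin_cases i <;> fin_cases j <;> simp [ALData.gl, ALData.mat]
  apply DFunLike.coe_injective
  rw [CuspForm.coe_heckeTLin_apply, coe_wLin, coe_wLin, CuspForm.coe_heckeTLin_apply]
  exact (Fermat.Agent.S35.helper1462.heckeT_slash_of_val d.hN d.Q_ne_zero hdet d.gl hW hℓ hℓN
    (Fermat.Agent.S35.helper1462.cuspForm_slash_eq f)).symm

/-- Function form: `U_q (W_Q g) = 0` for a Prelude newform `g` of level `M`, a prime `q` with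
`q² ∣ M` and any Atkin–Lehner operator `W_Q` of level `M`. -/
theorem heckeU_wLin_eq_zero_of_isNewform {M Q q : ℕ} [NeZero M] (d : ALData M Q) (hq : q.Prime)
    (hq2 : q ^ 2 ∣ M) {g : CuspForm (Gamma0 M) 2} (hg : g.IsNewform) :
    ModularForm.heckeU 2 q ⇑(wLin M d g) = 0 := by
  have hM : M ≠ 0 := NeZero.ne M
  obtain ⟨M1, rfl⟩ : ∃ M1, M = q * M1 := (dvd_trans (dvd_pow_self q two_ne_zero) hq2)
  have hqM1 : q ∣ M1 := by
    rw [pow_two] at hq2
    exact Nat.dvd_of_mul_dvd_mul_left hq.pos hq2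
  have hM1 : M1 ≠ 0 := fun h => hM (by rw [h, mul_zero])
  have h := Fermat.Agent.S36.helper8619.trBeta_eq_zero_of_eigen hq hqM1 hM1 hg
    (wLin (q * M1) d g) (fun ℓ hℓ hℓN => by
      rw [heckeTLin_wLin d hℓ hℓN g,
        Fermat.Agent.S29.helper7617.heckeTLin_apply_eq_smul hg.1 hℓ hℓN, map_smul])
  rw [← Fermat.Agent.S36.helper8619.coe_trBeta hq hqM1 hM1, h]
  rfl

variable (M : ℕ) [NeZero M]

/-- **`U_q g = 0`** for a Prelude newform `g` of level `M` and a prime `q` with `q² ∣ M`. -/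
theorem heckeULin_eq_zero_of_isNewform {q : ℕ} (hq : q.Prime) (hqM : q ∣ M) (hq2 : q ^ 2 ∣ M)
    {g : CuspForm (Gamma0 M) 2} (hg : g.IsNewform) : CuspForm.heckeULin 2 hqM g = 0 :=
  DFunLike.coe_injective
    (Fermat.Agent.S36.helper8619.heckeU_eq_zero_of_isNewform_of_sq_dvd (NeZero.ne M) hq hq2 hg)

/-- **`U_q (W_Q g) = 0`** for a Prelude newform `g` of level `M`, a prime `q` with `q² ∣ M` and
any Atkin–Lehner operator `W_Q = wLin M d`, `d : ALData M Q` (e.g. the Fricke involution,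
`Q = M`). -/
theorem heckeULin_wLin_eq_zero_of_isNewform {Q q : ℕ} (d : ALData M Q) (hq : q.Prime)
    (hqM : q ∣ M) (hq2 : q ^ 2 ∣ M) {g : CuspForm (Gamma0 M) 2} (hg : g.IsNewform) :
    CuspForm.heckeULin 2 hqM (wLin M d g) = 0 :=
  DFunLike.coe_injective (heckeU_wLin_eq_zero_of_isNewform d hq hq2 hg)

end Forms

/-! ### The eigen-cocycle killed by `U_q` and `U_q W` -/

section Occ

variable (N : ℕ) [NeZero N]

/-- **The eigen-cocycle killed by `U_q` and `U_q ∘ W`** (abstract form).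
`g ≠ 0` a cusp form of weight two on `Γ₀(N)` with `T_l g = a l • g` for the primes `l ∤ N`,
`l ∉ S` (`a l` in a subring `R₀ ⊆ ℂ`), and with `U_q g = 0`, `U_q (W g) = 0` for the primes `q`
of a set `QQ` of prime divisors of `N` (`W = wLin N d` a fixed Atkin–Lehner operator).  Then for
EVERY ring homomorphism `φ : R₀ → O` to a domain there is a nonzero `y : O ⊗[ℤ] Lam N` with
`T_l y = φ (a l) • y` for all good `l`, killed by `latU N q` and by `latU N q * latW N d` for all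
`q ∈ QQ` simultaneously. -/
theorem exists_uw_cocycle {Q : ℕ} (d : ALData N Q) (S : Set ℕ) (g : S2 N) (hg0 : g ≠ 0)
    (R₀ : Subring ℂ) (a : ℕ → R₀)
    (hT : ∀ (l : ℕ) (hl : l.Prime) (hlN : ¬ l ∣ N), l ∉ S →
      CuspForm.heckeTLin 2 hl hlN g = (a l : ℂ) • g)
    (QQ : Set ℕ) (hQQ : ∀ q ∈ QQ, q.Prime ∧ q ∣ N)
    (hUW : ∀ (q : ℕ) (hq : q ∈ QQ),
      CuspForm.heckeULin 2 (hQQ q hq).2 g = 0 ∧
      CuspForm.heckeULin 2 (hQQ q hq).2 (wLin N d g) = 0)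
    {O : Type*} [CommRing O] [IsDomain O] (φ : R₀ →+* O) :
    ∃ y : O ⊗[ℤ] Lam N, y ≠ 0 ∧
      (∀ (l : ℕ) (hl : l.Prime) (hlN : ¬ l ∣ N), l ∉ S →
        (@latT N _ l ⟨hl⟩ hlN).baseChange O y = φ (a l) • y) ∧
      ∀ (q : ℕ) (hq : q ∈ QQ),
        (@latU N _ q ⟨(hQQ q hq).1⟩ (hQQ q hq).2).baseChange O y = 0 ∧
        (@latU N _ q ⟨(hQQ q hq).1⟩ (hQQ q hq).2 * latW N d).baseChange O y = 0 := by
  classical
  let I : Type := {l : ℕ // l.Prime ∧ ¬ l ∣ N ∧ l ∉ S} ⊕ ({q : ℕ // q ∈ QQ} ⊕ {q : ℕ // q ∈ QQ})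
  let t : I → Module.End ℤ (Lam N) := fun i =>
    match i with
    | Sum.inl l => @latT N _ l.1 ⟨l.2.1⟩ l.2.2.1
    | Sum.inr (Sum.inl q) => @latU N _ q.1 ⟨(hQQ q.1 q.2).1⟩ (hQQ q.1 q.2).2
    | Sum.inr (Sum.inr q) => @latU N _ q.1 ⟨(hQQ q.1 q.2).1⟩ (hQQ q.1 q.2).2 * latW N d
  let T : I → Module.End ℂ (S2 N) := fun i =>
    match i with
    | Sum.inl l => CuspForm.heckeTLin 2 l.2.1 l.2.2.1
    | Sum.inr (Sum.inl q) => CuspForm.heckeULin 2 (hQQ q.1 q.2).2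
    | Sum.inr (Sum.inr q) => CuspForm.heckeULin 2 (hQQ q.1 q.2).2 * wLin N d
  let a' : I → R₀ := fun i =>
    match i with
    | Sum.inl l => a l.1
    | Sum.inr _ => 0
  have hcompat : ∀ i ψ, jLam N (t i ψ) = conjEnd N (T i) (jLam N ψ) := by
    rintro (l | q | q) ψ
    · have : Fact l.1.Prime := ⟨l.2.1⟩
      exact jLam_latT N l.1 l.2.2.1 ψ
    · have : Fact q.1.Prime := ⟨(hQQ q.1 q.2).1⟩
      exact jLam_latU N q.1 (hQQ q.1 q.2).2 ψ
    · have : Fact q.1.Prime := ⟨(hQQ q.1 q.2).1⟩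
      show jLam N ((latU N q.1 (hQQ q.1 q.2).2 * latW N d) ψ)
        = conjEnd N (CuspForm.heckeULin 2 (hQQ q.1 q.2).2 * wLin N d) (jLam N ψ)
      rw [Module.End.mul_apply, map_mul, Module.End.mul_apply, jLam_latU, jLam_latW]
  have hg : ∀ i, T i g = (R₀.subtype (a' i)) • g := by
    rintro (l | q | q)
    · exact hT l.1 l.2.1 l.2.2.1 l.2.2.2
    · show CuspForm.heckeULin 2 (hQQ q.1 q.2).2 g = (R₀.subtype (0 : R₀)) • g
      rw [map_zero, zero_smul]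
      exact (hUW q.1 q.2).1
    · show (CuspForm.heckeULin 2 (hQQ q.1 q.2).2 * wLin N d) g = (R₀.subtype (0 : R₀)) • g
      rw [map_zero, zero_smul, Module.End.mul_apply]
      exact (hUW q.1 q.2).2
  obtain ⟨y, hy0, hy⟩ := exists_eigen_cocycle N t T hcompat g hg0 R₀.subtype
    Subtype.val_injective a' hg φ
  refine ⟨y, hy0, fun l hl hlN hlS => hy (Sum.inl ⟨l, hl, hlN, hlS⟩), fun q hq => ⟨?_, ?_⟩⟩
  · have h := hy (Sum.inr (Sum.inl ⟨q, hq⟩))
    rw [show φ (a' (Sum.inr (Sum.inl ⟨q, hq⟩))) = 0 from map_zero φ, zero_smul] at h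
    exact h
  · have h := hy (Sum.inr (Sum.inr ⟨q, hq⟩))
    rw [show φ (a' (Sum.inr (Sum.inr ⟨q, hq⟩))) = 0 from map_zero φ, zero_smul] at h
    exact h

variable (M : ℕ) [NeZero M]

/-- **The (occ) clause of `helper1195.LatOps`** for the kernel operators `U_q`, `U_q ∘ W`
(`W` the Fricke involution, or any Atkin–Lehner involution `latW M d`): lattice `Λ = Lam M`,
`t = latTAll M`, `ba q = latUAll M q`, `bb q = latUAll M q * latW M d`.
For a Prelude newform `g` of level `M`, a character `chig` of the Hecke algebra away from `S`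
with `chig (T_ℓ) = a_ℓ(g)` and ANY ring homomorphism `iota : chig.range →+* O'` to a domain `O'`,
there is a nonzero `y : O' ⊗[ℤ] Lam M` with `t_ℓ y = iota (chig T_ℓ) • y` for the good primes,
killed by both twins for every prime `q` with `q² ∣ M`. -/
theorem exists_newform_cocycle_uf {Q : ℕ} (d : ALData M Q) {g : CuspForm (Gamma0 M) 2}
    (hg : g.IsNewform) (S : Set ℕ)
    {O' : Type*} [CommRing O'] [IsDomain O']
    (chig : CuspForm.heckeAlgebra M 2 S →+* ℂ)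
    (hchig : ∀ (ℓ : ℕ) (hℓ : ℓ.Prime) (hℓM : ¬ ℓ ∣ M) (hℓS : ℓ ∉ S),
      chig (CuspForm.heckeAlgebra.T hℓ hℓM hℓS) = ModularFormClass.qCoeff g ℓ)
    (iota : chig.range →+* O') :
    ∃ y : O' ⊗[ℤ] Lam M, y ≠ 0 ∧
      (∀ (ℓ : ℕ) (hℓ : ℓ.Prime) (hℓM : ¬ ℓ ∣ M) (hℓS : ℓ ∉ S),
        (latTAll M ℓ).baseChange O' y
          = (iota.comp chig.rangeRestrict) (CuspForm.heckeAlgebra.T hℓ hℓM hℓS) • y) ∧
      (∀ q : ℕ, q.Prime → q ^ 2 ∣ M →
        (latUAll M q).baseChange O' y = 0 ∧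
        (latUAll M q * latW M d).baseChange O' y = 0) := by
  classical
  let a : ℕ → chig.range := fun ℓ =>
    if h : ℓ.Prime ∧ ¬ ℓ ∣ M ∧ ℓ ∉ S then
      chig.rangeRestrict (CuspForm.heckeAlgebra.T h.1 h.2.1 h.2.2)
    else 0
  have ha : ∀ (ℓ : ℕ) (hℓ : ℓ.Prime) (hℓM : ¬ ℓ ∣ M) (hℓS : ℓ ∉ S),
      a ℓ = chig.rangeRestrict (CuspForm.heckeAlgebra.T hℓ hℓM hℓS) :=
    fun ℓ hℓ hℓM hℓS => dif_pos ⟨hℓ, hℓM, hℓS⟩
  have hT : ∀ (l : ℕ) (hl : l.Prime) (hlN : ¬ l ∣ M), l ∉ S →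
      CuspForm.heckeTLin 2 hl hlN g = ((a l : chig.range) : ℂ) • g := by
    intro l hl hlN hlS
    rw [ha l hl hlN hlS, RingHom.coe_rangeRestrict, hchig l hl hlN hlS]
    exact Fermat.Agent.S29.helper7617.heckeTLin_apply_eq_smul hg.1 hl hlN
  let QQ : Set ℕ := {q | q.Prime ∧ q ^ 2 ∣ M}
  have hdvd : ∀ q : ℕ, q ^ 2 ∣ M → q ∣ M := fun q h => dvd_trans (dvd_pow_self q two_ne_zero) h
  have hQQ : ∀ q ∈ QQ, q.Prime ∧ q ∣ M := fun q hq => ⟨hq.1, hdvd q hq.2⟩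
  obtain ⟨y, hy0, hyT, hyQ⟩ := exists_uw_cocycle M d S g hg.ne_zero chig.range a hT QQ hQQ
    (fun q hq => ⟨heckeULin_eq_zero_of_isNewform M hq.1 (hdvd q hq.2) hq.2 hg,
      heckeULin_wLin_eq_zero_of_isNewform M d hq.1 (hdvd q hq.2) hq.2 hg⟩) iota
  refine ⟨y, hy0, ?_, ?_⟩
  · intro ℓ hℓ hℓM hℓS
    rw [latTAll_eq M hℓ hℓM, hyT ℓ hℓ hℓM hℓS, ha ℓ hℓ hℓM hℓS]
    rfl
  · intro q hq hq2
    have hqQ : q ∈ QQ := ⟨hq, hq2⟩
    obtain ⟨h1, h2⟩ := hyQ q hqQ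
    rw [latUAll_eq M hq (hdvd q hq2)]
    exact ⟨h1, h2⟩

end Occ

end

end Fermat.Agent.S36.helper3353
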