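/-
helper983 — S36 (MACHINE-UF design of helper8523, team_s36_chat #120): the Fricke involution
`W_M` in the analytic Kummer machine of S35.

Level `M`; `helper6887.frickeBar M : FN M ≃ₐ[ℚ̄] FN M` is the Fricke involution of the function
field (`j(t^d) ↦ j(t^(M/d))`), `helper1219.picOfAlgEquiv M (frickeBar M)` its action on
`J₀(M)`.  On the lattice `Λ = helper6356.Lam M` the twin is `helper3353.latW M d` for ANY
`d : helper3353.ALData M M` (Bezout data `M x - y = 1`, matrix `d.gl = !![M x, y; M, M]`).

* `ev_fricke` : a standard realisation `E` satisfies `E (W_M a) = E a ∘ w` for every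
  `w ∈ GL₂(ℝ)⁺` acting as `τ ↦ -1/(M τ)`;
* `pullMerGL_fricke` : **(E-W) for the Fricke involution, for every `d : ALData M M`**;
* `multMer_fricke` : the clause of the multiplier relation;
* `compat_latW_fricke` : `KummerCorr.Compat (latW M d) (picOfAlgEquiv M (frickeBar M))`;
* `iotaUW_latW_fricke` : `ι_k (latW M d ψ) = picOfAlgEquiv M (frickeBar M) (ι_k ψ)` for the
  analytic Kummer maps `S35.helper983.iotaUW`;
* generic forms `iotaUW_algEquiv`, `compat_algEquiv` for ANY `ℚ̄`-algebra automorphism of the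
  function field with an analytic form.
-/
import Fermat.Agent.S35.helper983_IotaW
import Fermat.Agent.S35.helper1219_AtkinLehnerPic
import Fermat.Agent.S37.helper6887_Fricke

set_option autoImplicit false

open UpperHalfPlane CongruenceSubgroup Matrix.SpecialLinearGroup
open scoped MatrixGroups Manifold

namespace Fermat.Agent.S36.helper983

open ModularCurve AlgebraicCurve ModularForm
open Fermat.Agent.S24 Fermat.Agent.S24.helper24 Fermat.Agent.S24.helper182
open Fermat.Agent.S29.helper8217 Fermat.Agent.S16.helper2138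
open Fermat.Agent.S29.helper2982 Fermat.Agent.S29.helper3343
open Fermat.Agent.S31.helper2756 Fermat.Agent.S31.helper6356
open Fermat.Agent.S35.helper3353 Fermat.Agent.S35.helper983 Fermat.Agent.S35.helper835
open Fermat.Agent.S37.helper6887

/-! ### The Fricke matrix -/

/-- The Fricke point map `τ ↦ -1/(M τ)` as an element of `GL₂(ℝ)⁺`: `S * diag(M, 1)`. -/
noncomputable def frickeGL (M : ℕ) : GL (Fin 2) ℝ :=
  mapGL ℝ ModularGroup.S * heckeDiagMatrix M

theorem frickeGL_det_pos (M : ℕ) : 0 < (frickeGL M).det.val :=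
  det_mapGL_mul_pos (det_heckeDiagMatrix_pos M) _

theorem frickeGL_smul (M : ℕ) [NeZero M] (τ : ℍ) : frickeGL M • τ = frickePt M τ := by
  have e2 : heckeDiagMatrix M • τ = helper504.hpt M 0 1 τ := by
    apply UpperHalfPlane.ext
    rw [helper504.coe_hpt, coe_heckeDiagMatrix_smul (NeZero.ne M)]
    push_cast
    ring
  rw [frickeGL, mul_smul, e2]
  rfl

/-! ### (E-W) for the Fricke involution -/

section Ev

variable {κ : Kbar →+* ℂ} (M : ℕ) [NeZero M]

/-- **(E-W) for the Fricke involution**: for a standard realisation `E` of level `M` and any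
`w ∈ GL₂(ℝ)⁺` acting as `τ ↦ -1/(M τ)`, the Fricke involution is realised by the pull-back along
`w`. -/
theorem ev_fricke {E : FN M →+* Mer} (hE : IsStdEv κ M E)
    (w : GL (Fin 2) ℝ) (hw : 0 < w.det.val)
    (hact : ∀ τ : ℍ, w • τ = frickePt M τ) (a : FN M) :
    E (frickeBar M a) = pullGLMer w hw (E a) := by
  have key : E.comp ((frickeBar M : FN M →ₐ[Kbar] FN M) : FN M →+* FN M)
      = (pullGLMer w hw).comp E := by
    refine helper3176.ringHom_ext_of_gen M (fun c => ?_) (fun D _ hD => ?_)
    · show E (frickeBar M (algebraMap Kbar (FN M) c))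
        = pullGLMer w hw (E (algebraMap Kbar (FN M) c))
      rw [AlgEquiv.commutes, hE.const, pullGLMer_constM]
    · show E (frickeBar M (jBarD M D hD)) = pullGLMer w hw (E (jBarD M D hD))
      obtain ⟨e, he⟩ := hD
      have hne : NeZero e := ⟨fun h => NeZero.ne M (by rw [he, h, mul_zero])⟩
      have hfb := frickeBar_jBarD M D e he.symm
      rw [hfb, hE.gen, hE.gen, pullGLMer_algebraMap]
      refine congrArg (algebraMap Hol Mer) (Subtype.ext (funext fun τ => ?_))
      show jFun (helper1944.mulPt e τ) = jFun (helper1944.mulPt D (w • τ))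
      subst he
      have h1 := jd_frickePt D e τ
      rw [helper504.jd_apply, helper504.jd_apply] at h1
      have e1 : helper504.hpt e 0 1 τ = helper1944.mulPt e τ := by
        apply UpperHalfPlane.ext
        rw [helper504.coe_hpt, helper1944.coe_mulPt (NeZero.pos _)]
        push_cast
        ring
      have e3 : helper504.hpt D 0 1 (frickePt (D * e) τ) = helper1944.mulPt D (w • τ) := by
        rw [hact τ]
        apply UpperHalfPlane.ext
        rw [helper504.coe_hpt, helper1944.coe_mulPt (NeZero.pos _)]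
        push_cast
        ring
      rw [e1, e3] at h1
      exact h1.symm
  exact congrArg (fun φ : FN M →+* Mer => φ a) key

/-- (E-W) for the Fricke involution and the matrix `frickeGL M = S * diag(M, 1)`, for the landed
evaluation `helper288.evMer` transported to `helper182.Mer`. -/
theorem evMer288_fricke (a : FN M) :
    Fermat.Agent.S29.helper2122.merEquiv.symm (Fermat.Agent.S29.helper288.evMer M
        (frickeBar M a))
      = pullGLMer (frickeGL M) (frickeGL_det_pos M) (Fermat.Agent.S29.helper2122.merEquiv.symm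
          (Fermat.Agent.S29.helper288.evMer M a)) :=
  ev_fricke M (isStdEv_evMer' M) _ _ (frickeGL_smul M) a

end Ev

/-! ### (E-W) for the matrix of an `ALData M M` -/

section EW

open Fermat.Agent.S29.helper2122

/-- **(E-W) for the Fricke involution, any Bezout datum**: for `d : ALData M M` (so `N' = 1`,
`M x - y = 1`), the evaluation of `W_M u` is the evaluation of `u` composed with the matrix
`d.gl = !![M x, y; M, M]`.  (`d.gl = δ * S * diag(M, 1)` with `δ ∈ Γ₀(M)`, absorbed by the
invariance of evaluations.) -/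
theorem pullMerGL_fricke (M : ℕ) [NeZero M] (d : ALData M M) (u : FN M) :
    PullMerGL M d.gl d.det_gl_pos (fun u => frickeBar M u) u := by
  unfold PullMerGL
  simp only []
  rw [evMer288_fricke M u]
  have hN' : d.N' = 1 := by
    have h := d.hN
    have hM : M ≠ 0 := NeZero.ne M
    exact (Nat.eq_of_mul_eq_mul_left (Nat.pos_of_ne_zero hM) (by rw [mul_one]; exact h)).symm
  set δ : SL(2, ℤ) := alSL d * (ModularGroup.S)⁻¹ with hδdef
  have hδ : δ ∈ Gamma0 M := by
    rw [Fermat.Agent.S16.helper2138.mem_Gamma0_iff_dvd]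
    have h0 : δ 1 0 = -(M : ℤ) := by
      have e3 : alSL d 1 0 = (d.N' : ℤ) := rfl
      have e4 : alSL d 1 1 = (M : ℤ) := rfl
      rw [hδdef, Matrix.SpecialLinearGroup.coe_mul, Matrix.SpecialLinearGroup.coe_inv,
        Matrix.adjugate_fin_two, Matrix.mul_apply, Fin.sum_univ_two]
      simp [e3, e4, ModularGroup.S]
    rw [h0]
    exact (dvd_refl _).neg_right
  have hgl : d.gl = mapGL ℝ δ * frickeGL M := by
    rw [gl_eq_alSL_mul, frickeGL, ← mul_assoc, ← map_mul, hδdef, inv_mul_cancel_right]
  rw [pullGLMer_congr hgl d.det_gl_pos (det_mapGL_mul_pos (frickeGL_det_pos M) δ),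
    ← pullGLMer_pullMer δ _ (frickeGL_det_pos M)]
  congr 1
  exact ((isStdEv_evMer' M).pullMer_eq hδ u).symm

end EW

/-! ### Generic: a `ℚ̄`-algebra automorphism with an analytic form -/

section Generic

variable {N : ℕ} [NeZero N]

/-- Equivariance of the analytic Kummer maps for ANY `ℚ̄`-algebra automorphism `W` of the function
field with an analytic form `ev (W u) = ev u ∘ w`, `w` normalising `Γ₀(N)` (one-coset system `C`):
on `J₀(N)` the operator is `helper1219.picOfAlgEquiv N W`. -/
theorem iotaUW_algEquiv {p : ℕ} (hp : p ≠ 0) (W : FN N ≃ₐ[Kbar] FN N)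
    (C : Corr (Gamma0 N) Unit) (hpos : ∀ i, 0 < (C.α i).det.val)
    (hEW : ∀ u : FN N, PullMerGL N (C.α ()) (hpos ()) (fun u => W u) u)
    (T : Module.End ℤ (Lam N))
    (hT : ∀ ψ : Lam N, ((T ψ : Lam N) : Additive (Gamma0 N) →+ ℤ) =
      C.op ℤ (ψ : Additive (Gamma0 N) →+ ℤ))
    (k : ℕ) (ψ : Lam N) :
    iotaUW N p hp k (T ψ)
      = Fermat.Agent.S35.helper1219.picOfAlgEquiv N W (iotaUW N p hp k ψ) :=
  iotaUW_conj hp (SemilinearAut.ofAlgAut W) C hpos hEW T hT k ψ

/-- Level-wise form of `iotaUW_algEquiv`. -/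
theorem compat_algEquiv {n : ℕ} (hn : n ≠ 0) {ζ : ℂˣ} (hMS : MultSpec N n (MultMer N n ζ))
    (W : FN N ≃ₐ[Kbar] FN N)
    (C : Corr (Gamma0 N) Unit) (hpos : ∀ i, 0 < (C.α i).det.val)
    (hEW : ∀ u : FN N, PullMerGL N (C.α ()) (hpos ()) (fun u => W u) u)
    (T : Module.End ℤ (Lam N))
    (hT : ∀ ψ : Lam N, ((T ψ : Lam N) : Additive (Gamma0 N) →+ ℤ) =
      C.op ℤ (ψ : Additive (Gamma0 N) →+ ℤ)) :
    (kummerCorr_JZero hn hMS).Compat T
      (AddMonoidHom.toIntLinearMap (Fermat.Agent.S35.helper1219.picOfAlgEquiv N W)) :=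
  compat_conj hn hMS (SemilinearAut.ofAlgAut W) C hpos hEW T hT

end Generic

/-! ### The Fricke involution in the Kummer machine -/

section Final

variable (M : ℕ) [NeZero M] (d : ALData M M)

/-- **Fricke clause of the multiplier relation**: `W_M` on functions, `helper3353.heckeHomW M d`
(`ψ ↦ ψ ∘ conj d.gl`) on exponents. -/
theorem multMer_fricke {n : ℕ} {ζ : ℂˣ} {u : FN M} {ψ : Additive (Gamma0 M) →+ ℤ}
    (hm : MultMer M n ζ u ψ) :
    MultMer M n ζ (frickeBar M u) (heckeHomW M d ℤ ψ) :=
  MultMer.conj (corrOne d.gl d.normalizes) (fun _ => d.det_gl_pos)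
    (fun u => frickeBar M u) (pullMerGL_fricke M d u) hm

/-- **(CW) for the Fricke involution**: at every modulus `n ≠ 0`, the Kummer correspondence of the
concrete multiplier relation intertwines `helper3353.latW M d` (`d : ALData M M`) with the action
of the Fricke involution on `J₀(M)`. -/
theorem compat_latW_fricke {n : ℕ} (hn : n ≠ 0) {ζ : ℂˣ}
    (hMS : MultSpec M n (MultMer M n ζ)) :
    (kummerCorr_JZero hn hMS).Compat (latW M d)
      (AddMonoidHom.toIntLinearMap
        (Fermat.Agent.S35.helper1219.picOfAlgEquiv M (frickeBar M))) :=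
  compat_algEquiv hn hMS (frickeBar M) (corrOne d.gl d.normalizes)
    (fun _ => d.det_gl_pos) (fun u => pullMerGL_fricke M d u) (latW M d) (fun _ => rfl)

/-- **Fricke-equivariance of the analytic Kummer maps**: for every `d : ALData M M`,
`ι_k (latW M d ψ) = W_M (ι_k ψ)`. -/
theorem iotaUW_latW_fricke {p : ℕ} (hp : p ≠ 0) (k : ℕ) (ψ : Lam M) :
    iotaUW M p hp k (latW M d ψ)
      = Fermat.Agent.S35.helper1219.picOfAlgEquiv M (frickeBar M) (iotaUW M p hp k ψ) :=
  iotaUW_algEquiv hp (frickeBar M) (corrOne d.gl d.normalizes)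
    (fun _ => d.det_gl_pos) (fun u => pullMerGL_fricke M d u) (latW M d) (fun _ => rfl) k ψ

/-- An `ALData M M` always exists (`x = 1`, `y = M - 1`). -/
def frickeData (M : ℕ) : ALData M M :=
  ⟨1, 1, (M : ℤ) - 1, (mul_one M).symm, by push_cast; ring⟩

end Final

end Fermat.Agent.S36.helper983
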