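/-
helper3353 — S36, leaf OCC-LAT / (hlat): the lattice clause `helper1195.LatOps` of the S36 wiring
`helper1195.stmt_KerOpsC_of_ops`.

* `latOps_of_compat` (generic): for ANY total families `Ba Bb : ℕ → J₀(M) →+ J₀(M)` of kernel
  operators and lattice twins `ba bb : ℕ → End_ℤ (Lam M)` on the lattice of integral parabolic
  homs, `LatOps M lam S Ba Bb` follows from
  - the level-wise compatibilities `(corrAt M hn).Compat (ba q) (Ba q)`, `... (bb q) (Bb q)` with
    the canonical Kummer correspondence at every modulus `n ≠ 0` (at the primes `q` with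
    `SqPrime lam M q` only), and
  - the occurrence clause for `latTAll M`, `ba`, `bb`.
  The lattice is `Λ = Lam M`, the Hecke twins are `latTAll M`, the tower `ι n` is
  `helper3346.exists_tower`.
* `latOps_uf` : **the instance for the kernel operators `U_q`, `U_q ∘ W_M`** (`W_M` the Fricke
  involution on `J₀(M)`), UNCONDITIONAL: twins `latUAll M q`, `latUAll M q * latW M d`; total
  families `fun q => helper2039.uJ M q` and `uwJ M` (`latOps_uf_of_eq`: any total families agreeing
  with `helper1687.uOp M q`, `uOp M q ∘ W_M` at the primes `q ≠ lam` with `q² ∥ M`).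
* `galOps_uf` (`galOps_uf_of_eq`) : **(hgal)** for the same families: `U_q` and the Fricke
  involution (`frickeBar_arithmeticRingAut`: it is defined over `ℚ`) commute with the Galois
  action on `J₀(M)`.

So `helper1195.result_of_ops (fun M _ q => helper2039.uJ M q) (fun M _ => uwJ M)
(fun M _ lam => galOps_uf M lam) hkill (fun M _ lam _ S _ _ => latOps_uf M lam S)` is the frozen
S36 from the single hypothesis `hkill : ∀ M lam, KillOps M lam (fun q => uJ M q) (uwJ M)`.
-/
import Fermat.Agent.S36.helper1195_KerOpsWire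
import Fermat.Agent.S36.helper3353_OccUF
import Fermat.Agent.S36.helper983_FrickeW
import Fermat.Agent.S35.helper3346_LatCompat
import Fermat.Agent.S35.helper2039_Spec

set_option autoImplicit false
set_option linter.style.haveILetI false

open CongruenceSubgroup
open scoped TensorProduct

namespace Fermat.Agent.S36.helper3353

open ModularCurve AlgebraicCurve
open Fermat.Agent.S31.helper2756 Fermat.Agent.S31.helper6356
open Fermat.Agent.S35.helper3353 Fermat.Agent.S35.helper3346
open Fermat.Agent.S36.helper1195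

/-- **(hlat), generic form.**  `LatOps` for the lattice `Lam M` of integral parabolic homs from
the level-wise compatibilities of the twins and the occurrence clause. -/
theorem latOps_of_compat (M : ℕ) [NeZero M] (lam : ℕ) [Fact lam.Prime] (S : Finset ℕ)
    (Ba Bb : ℕ → JZero M →+ JZero M) (ba bb : ℕ → Module.End ℤ (Lam M))
    (hCa : ∀ q : ℕ, SqPrime lam M q → ∀ (n : ℕ) (hn : n ≠ 0),
      (corrAt M hn).Compat (ba q) (AddMonoidHom.toIntLinearMap (Ba q)))
    (hCb : ∀ q : ℕ, SqPrime lam M q → ∀ (n : ℕ) (hn : n ≠ 0),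
      (corrAt M hn).Compat (bb q) (AddMonoidHom.toIntLinearMap (Bb q)))
    (hocc : ∀ {g : CuspForm (Gamma0 M) 2} (_hg : g.IsNewform)
      (O' : Type) [CommRing O'] [IsDomain O']
      (chig : CuspForm.heckeAlgebra M 2 (↑S : Set ℕ) →+* ℂ)
      (_hchig : ∀ (ℓ : ℕ) (hℓ : ℓ.Prime) (hℓM : ¬ ℓ ∣ M) (hℓS : ℓ ∉ (↑S : Set ℕ)),
        chig (CuspForm.heckeAlgebra.T hℓ hℓM hℓS) = ModularFormClass.qCoeff g ℓ)
      (iota : chig.range →+* O'),
      ∃ y : O' ⊗[ℤ] Lam M, y ≠ 0 ∧
        (∀ (ℓ : ℕ) (hℓ : ℓ.Prime) (hℓM : ¬ ℓ ∣ M) (hℓS : ℓ ∉ (↑S : Set ℕ)),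
          (latTAll M ℓ).baseChange O' y
            = (iota.comp chig.rangeRestrict) (CuspForm.heckeAlgebra.T hℓ hℓM hℓS) • y) ∧
        (∀ q : ℕ, SqPrime lam M q →
          (ba q).baseChange O' y = 0 ∧ (bb q).baseChange O' y = 0)) :
    LatOps M lam S Ba Bb := by
  have hlam : lam ≠ 0 := (Fact.out : lam.Prime).ne_zero
  let κ : Type := {q : ℕ // SqPrime lam M q} × Bool
  let b : κ → Module.End ℤ (Lam M) := fun k => if k.2 then bb k.1.1 else ba k.1.1
  let B : κ → JZero M →+ JZero M := fun k => if k.2 then Bb k.1.1 else Ba k.1.1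
  have hC : ∀ (k : κ) (n : ℕ) (hn : n ≠ 0),
      (corrAt M hn).Compat (b k) (AddMonoidHom.toIntLinearMap (B k)) := by
    rintro ⟨⟨q, hsq⟩, c⟩ n hn
    cases c
    · exact hCa q hsq n hn
    · exact hCb q hsq n hn
  obtain ⟨ι, h1, h2, h3, h4, h5⟩ := exists_tower M lam hlam (↑S : Set ℕ) b B hC
  refine ⟨Lam M, inferInstance, inferInstance, inferInstance, latTAll M, ba, bb, ι, h1, h2, h3,
    ?_, ?_, ?_, ?_⟩
  · intro ℓ hℓ hℓM hℓS n x
    have hℓS' : ℓ ∉ (↑S : Set ℕ) := by exact_mod_cast hℓS
    have e : latTAll M ℓ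
        = heckeLatticeHom M (↑S : Set ℕ) (CuspForm.heckeAlgebra.T hℓ hℓM hℓS') := by
      rw [latTAll_eq M hℓ hℓM]
      haveI : Fact ℓ.Prime := ⟨hℓ⟩
      exact (heckeLatticeHom_T M (↑S : Set ℕ) hℓM hℓS').symm
    rw [e]
    exact h4 ℓ hℓ hℓM hℓS' n x
  · intro q hsq n x
    exact h5 (⟨q, hsq⟩, false) n x
  · intro q hsq n x
    exact h5 (⟨q, hsq⟩, true) n x
  · intro g hg O' _ _ _ _ _ _ _ chig hchig iota
    exact hocc hg O' chig hchig iota

/-- `q² ∣ M` for the primes of `SqPrime`. -/
theorem sq_dvd_of_sqPrime {lam M q : ℕ} (h : SqPrime lam M q) : q ^ 2 ∣ M := by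
  have h2 := h.2.2
  have := Nat.ordProj_dvd M q
  rwa [h2] at this

/-! ### The instance `U_q`, `U_q ∘ W_M` -/

section UF

variable (M : ℕ) [NeZero M]

/-- The Fricke involution on `J₀(M)`. -/
noncomputable abbrev frickeJ : JZero M →+ JZero M :=
  Fermat.Agent.S35.helper1219.picOfAlgEquiv M (Fermat.Agent.S37.helper6887.frickeBar M)

/-- **(hlat) for the kernel operators `U_q`, `U_q ∘ W_M`**, for ANY total families `Ba`, `Bb`
agreeing with the canonical `helper1687.uOp M q` and `uOp M q ∘ W_M` at the primes `q ≠ lam`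
with `q² ∥ M`.  Lattice `Lam M`, twins `latTAll M`, `latUAll M q`, `latUAll M q * latW M d` with
`d = helper983.frickeData M`. -/
theorem latOps_uf_of_eq (lam : ℕ) [Fact lam.Prime] (S : Finset ℕ)
    (Ba Bb : ℕ → JZero M →+ JZero M)
    (hBa : ∀ (q : ℕ) (hq : SqPrime lam M q),
      Ba q = @Fermat.Agent.S35.helper1687.uOp M q _ ⟨hq.1.ne_zero⟩)
    (hBb : ∀ (q : ℕ) (hq : SqPrime lam M q),
      Bb q = (@Fermat.Agent.S35.helper1687.uOp M q _ ⟨hq.1.ne_zero⟩).comp (frickeJ M)) :
    LatOps M lam S Ba Bb := by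
  let d : ALData M M := Fermat.Agent.S36.helper983.frickeData M
  refine latOps_of_compat M lam S Ba Bb (latUAll M) (fun q => latUAll M q * latW M d)
    ?_ ?_ ?_
  · intro q hsq n hn
    haveI : Fact q.Prime := ⟨hsq.1⟩
    rw [latUAll_eq M hsq.1 hsq.dvd, hBa q hsq]
    exact compat_U M q hsq.dvd hn
  · intro q hsq n hn
    haveI : Fact q.Prime := ⟨hsq.1⟩
    show (corrAt M hn).Compat (latUAll M q * latW M d) (AddMonoidHom.toIntLinearMap (Bb q))
    rw [latUAll_eq M hsq.1 hsq.dvd, hBb q hsq]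
    have h1 := compat_U M q hsq.dvd hn
    have h2 : (corrAt M hn).Compat (latW M d) (AddMonoidHom.toIntLinearMap (frickeJ M)) :=
      Fermat.Agent.S36.helper983.compat_latW_fricke M d hn
        (multSpec_all hn (zetaU_isPrimitiveRoot hn))
    exact h1.mul h2
  · intro g hg O' _ _ chig hchig iota
    obtain ⟨y, hy0, hyT, hyQ⟩ := exists_newform_cocycle_uf M d hg (↑S : Set ℕ) chig hchig iota
    exact ⟨y, hy0, hyT, fun q hsq => hyQ q hsq.1 (sq_dvd_of_sqPrime hsq)⟩

/-- The total family `q ↦ U_q ∘ W_M` on `J₀(M)` (`U_q = helper2039.uJ M q`, the landed total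
family of S35; `W_M` the Fricke involution). -/
noncomputable def uwJ (q : ℕ) : JZero M →+ JZero M :=
  (Fermat.Agent.S35.helper2039.uJ M q).comp (frickeJ M)

/-- **(hlat) for the total families `helper2039.uJ M`, `uwJ M`.** -/
theorem latOps_uf (lam : ℕ) [Fact lam.Prime] (S : Finset ℕ) :
    LatOps M lam S (fun q => Fermat.Agent.S35.helper2039.uJ M q) (uwJ M) := by
  refine latOps_uf_of_eq M lam S _ _ (fun q hq => ?_) (fun q hq => ?_)
  · haveI : NeZero q := ⟨hq.1.ne_zero⟩
    exact Fermat.Agent.S35.helper2039.uJ_eq M q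
  · haveI : NeZero q := ⟨hq.1.ne_zero⟩
    show (Fermat.Agent.S35.helper2039.uJ M q).comp (frickeJ M) = _
    rw [Fermat.Agent.S35.helper2039.uJ_eq M q]

/-! ### Galois-equivariance of the same operator families -/

open Fermat.Agent.S24 Fermat.Agent.S24.helper24 in
/-- **The Fricke involution is defined over `ℚ`**: it commutes with the coefficientwise action
of `Gal(ℚ̄/ℚ)` on the function field of `X₀(M)`. -/
theorem frickeBar_arithmeticRingAut (σ : Kbar ≃ₐ[ℚ] Kbar) (z : FN M) :
    Fermat.Agent.S37.helper6887.frickeBar M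
        (arithmeticRingAut (modularFunctionFieldFull M) σ z)
      = arithmeticRingAut (modularFunctionFieldFull M) σ
        (Fermat.Agent.S37.helper6887.frickeBar M z) := by
  have hh : ((Fermat.Agent.S37.helper6887.frickeBar M : FN M ≃+* FN M) : FN M →+* FN M).comp
        ((arithmeticRingAut (modularFunctionFieldFull M) σ : FN M ≃+* FN M) : FN M →+* FN M)
      = ((arithmeticRingAut (modularFunctionFieldFull M) σ : FN M ≃+* FN M) : FN M →+* FN M).comp
        ((Fermat.Agent.S37.helper6887.frickeBar M : FN M ≃+* FN M) : FN M →+* FN M) := by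
    refine helper3176.ringHom_ext_of_gen M ?_ ?_
    · intro c
      show Fermat.Agent.S37.helper6887.frickeBar M
          (arithmeticRingAut (modularFunctionFieldFull M) σ (algebraMap Kbar (FN M) c))
        = arithmeticRingAut (modularFunctionFieldFull M) σ
          (Fermat.Agent.S37.helper6887.frickeBar M (algebraMap Kbar (FN M) c))
      rw [arithmeticRingAut_algebraMap, AlgEquiv.commutes, AlgEquiv.commutes,
        arithmeticRingAut_algebraMap]
    · intro D _ hD
      show Fermat.Agent.S37.helper6887.frickeBar M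
          (arithmeticRingAut (modularFunctionFieldFull M) σ (jBarD M D hD))
        = arithmeticRingAut (modularFunctionFieldFull M) σ
          (Fermat.Agent.S37.helper6887.frickeBar M (jBarD M D hD))
      obtain ⟨e, he⟩ := hD
      haveI : NeZero e := ⟨by
        rintro rfl
        exact NeZero.ne M (by rw [he, mul_zero])⟩
      rw [Fermat.Agent.S35.helper1219.arithmeticRingAut_jBarD,
        Fermat.Agent.S37.helper6887.frickeBar_jBarD M D e he.symm,
        Fermat.Agent.S35.helper1219.arithmeticRingAut_jBarD]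
  exact congrArg (fun f : FN M →+* FN M => f z) hh

/-- The Fricke involution on `J₀(M)` commutes with the Galois action. -/
theorem galois_smul_frickeJ (σ : AlgebraicClosure ℚ ≃ₐ[ℚ] AlgebraicClosure ℚ) (x : JZero M) :
    σ • frickeJ M x = frickeJ M (σ • x) :=
  Fermat.Agent.S35.helper1219.smul_picOfAlgEquiv M (Fermat.Agent.S37.helper6887.frickeBar M)
    (frickeBar_arithmeticRingAut M) σ x

/-- **(hgal) for the kernel operators `U_q`, `U_q ∘ W_M`**, for ANY total families `Ba`, `Bb`
agreeing with the canonical `helper1687.uOp M q` and `uOp M q ∘ W_M` at the primes `q ≠ lam`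
with `q² ∥ M`. -/
theorem galOps_uf_of_eq (lam : ℕ) (Ba Bb : ℕ → JZero M →+ JZero M)
    (hBa : ∀ (q : ℕ) (hq : SqPrime lam M q),
      Ba q = @Fermat.Agent.S35.helper1687.uOp M q _ ⟨hq.1.ne_zero⟩)
    (hBb : ∀ (q : ℕ) (hq : SqPrime lam M q),
      Bb q = (@Fermat.Agent.S35.helper1687.uOp M q _ ⟨hq.1.ne_zero⟩).comp (frickeJ M)) :
    GalOps M lam Ba Bb := by
  intro q hq σ x
  haveI : NeZero q := ⟨hq.1.ne_zero⟩
  rw [hBa q hq, hBb q hq]
  refine ⟨Fermat.Agent.S35.helper1687.galois_smul_uOp σ x, ?_⟩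
  show σ • Fermat.Agent.S35.helper1687.uOp M q (frickeJ M x)
    = Fermat.Agent.S35.helper1687.uOp M q (frickeJ M (σ • x))
  rw [Fermat.Agent.S35.helper1687.galois_smul_uOp σ (frickeJ M x), galois_smul_frickeJ]

/-- **(hgal) for the total families `helper2039.uJ M`, `uwJ M`.** -/
theorem galOps_uf (lam : ℕ) :
    GalOps M lam (fun q => Fermat.Agent.S35.helper2039.uJ M q) (uwJ M) := by
  intro q _ σ x
  refine ⟨Fermat.Agent.S35.helper2039.galois_smul_uJ M q σ x, ?_⟩
  show σ • Fermat.Agent.S35.helper2039.uJ M q (frickeJ M x)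
    = Fermat.Agent.S35.helper2039.uJ M q (frickeJ M (σ • x))
  rw [Fermat.Agent.S35.helper2039.galois_smul_uJ M q σ (frickeJ M x), galois_smul_frickeJ]

end UF

end Fermat.Agent.S36.helper3353
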