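import Mathlib

/-!
# S36-AUXLEVEL, part 1 (helper3495): norms and base change, Mathlib only

The auxiliary-level descent of (KILL) (findings #3001, F2 "thickness 1 at an auxiliary level")
needs: the norm along a degeneracy map at level `N` agrees with the norm along the degeneracy map
at the auxiliary level `N'` on functions of level `N`.  Field-theoretically this is the statement
that the square

```
   F  ──→ F'
   ↑      ↑
   E  ──→ E'
```

is a "base-change square": `[F' : E'] = [F : E]` and `F' = E' · F`.

* `norm_algebraMap_of_span`       : in such a square, `N_{F'/E'} (u) = N_{F/E} (u)` for `u ∈ F`;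
* `span_range_eq_top_of_prime`    : if `[F' : E']` is prime and `F ⊄ E'`, then `F' = E' · F`
                                    (as an `E'`-span);
* `norm_algebraMap_of_prime`      : the two combined;
* `pow_finrank_eq_of_eq_mul_pow`  : if `u ∈ F` is `c · w ^ n` in a finite extension `F'`
                                    (`c` a constant), then `u ^ [F' : F] = c' · w' ^ n` in `F`;
* `kill_descent`                  : the abstract module form of the descent of (KILL).
-/

set_option autoImplicit false

namespace Fermat.Agent.S36.helper3495

open Module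

section NormBaseChange

variable {E F E' F' : Type*} [Field E] [Field F] [Field E'] [Field F']
  [Algebra E F] [Algebra E E'] [Algebra E' F'] [Algebra F F'] [Algebra E F']
  [IsScalarTower E F F'] [IsScalarTower E E' F']

/-- `F → F'` is semilinear over `E → E'`. -/
theorem algebraMap_smul_eq (e : E) (x : F) :
    algebraMap F F' (e • x) = algebraMap E E' e • algebraMap F F' x := by
  rw [Algebra.smul_def, map_mul, ← IsScalarTower.algebraMap_apply E F F',
    IsScalarTower.algebraMap_apply E E' F', ← Algebra.smul_def]

/-- **Norm and base change.**  If `[F' : E'] = [F : E]` and `F'` is spanned over `E'` by (the image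
of) `F`, then `N_{F'/E'} (u) = N_{F/E} (u)` for every `u ∈ F`. -/
theorem norm_algebraMap_of_span [Module.Finite E F]
    (hrank : finrank E' F' = finrank E F)
    (hgen : Submodule.span E' (Set.range (algebraMap F F')) = ⊤) (u : F) :
    Algebra.norm E' (algebraMap F F' u) = algebraMap E E' (Algebra.norm E u) := by
  classical
  let b : Basis (Fin (finrank E F)) E F := Module.finBasis E F
  have hspan : ⊤ ≤ Submodule.span E' (Set.range fun i => algebraMap F F' (b i)) := by
    rw [← hgen, Submodule.span_le]
    rintro _ ⟨f, rfl⟩
    rw [← b.sum_repr f, map_sum]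
    refine Submodule.sum_mem _ fun i _ => ?_
    rw [algebraMap_smul_eq (E' := E')]
    exact Submodule.smul_mem _ _ (Submodule.subset_span ⟨i, rfl⟩)
  let b' : Basis (Fin (finrank E F)) E' F' :=
    basisOfTopLeSpanOfCardEqFinrank (fun i => algebraMap F F' (b i)) hspan
      (by rw [Fintype.card_fin, hrank])
  have hb' : ∀ i, b' i = algebraMap F F' (b i) := fun i => by
    simp only [b', coe_basisOfTopLeSpanOfCardEqFinrank]
  rw [Algebra.norm_eq_matrix_det b', Algebra.norm_eq_matrix_det b, RingHom.map_det]
  congr 1
  ext i j
  rw [Algebra.leftMulMatrix_eq_repr_mul, RingHom.mapMatrix_apply, Matrix.map_apply,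
    Algebra.leftMulMatrix_eq_repr_mul]
  have key : algebraMap F F' u * b' j
      = ∑ k, algebraMap E E' (b.repr (u * b j) k) • b' k := by
    rw [hb', ← map_mul]
    conv_lhs => rw [← b.sum_repr (u * b j)]
    rw [map_sum]
    refine Finset.sum_congr rfl fun k _ => ?_
    rw [algebraMap_smul_eq (E' := E'), hb']
  rw [key, b'.repr_sum_self]

omit [Algebra E E'] [Algebra E F'] [IsScalarTower E F F'] [IsScalarTower E E' F'] [Algebra E F] in
/-- **Prime degree.**  If `[F' : E']` is prime and some element of `F` is not in (the image of)
`E'`, then `F'` is spanned over `E'` by `F`. -/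
theorem span_range_eq_top_of_prime
    (hp : (finrank E' F').Prime)
    (hx : ∃ x : F, algebraMap F F' x ∉ Set.range (algebraMap E' F')) :
    Submodule.span E' (Set.range (algebraMap F F')) = ⊤ := by
  have : Module.Finite E' F' := Module.finite_of_finrank_pos hp.pos
  have := IntermediateField.isSimpleOrder_of_finrank_prime E' F' hp
  -- every element of the image of `F` is algebraic over `E'`
  have halg : ∀ y ∈ Set.range (algebraMap F F'), IsAlgebraic E' y := fun y _ =>
    Algebra.IsAlgebraic.isAlgebraic y
  have hadj : IntermediateField.adjoin E' (Set.range (algebraMap F F')) = ⊤ := by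
    rcases eq_bot_or_eq_top (IntermediateField.adjoin E' (Set.range (algebraMap F F'))) with h | h
    · exfalso
      obtain ⟨x, hx⟩ := hx
      have hmem : algebraMap F F' x ∈ IntermediateField.adjoin E' (Set.range (algebraMap F F')) :=
        IntermediateField.subset_adjoin _ _ ⟨x, rfl⟩
      rw [h, IntermediateField.mem_bot] at hmem
      exact hx hmem
    · exact h
  have h1 := IntermediateField.adjoin_toSubalgebra_of_isAlgebraic halg
  rw [hadj, IntermediateField.top_toSubalgebra] at h1
  have h2 := Algebra.adjoin_eq_span (R := E') (s := Set.range (algebraMap F F'))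
  rw [← h1, Algebra.top_toSubmodule] at h2
  have h3 : (Submonoid.closure (Set.range (algebraMap F F')) : Set F')
      = Set.range (algebraMap F F') := by
    have : Set.range (algebraMap F F')
        = ((algebraMap F F').rangeS.toSubmonoid : Set F') := rfl
    rw [this, Submonoid.closure_eq]
  rw [h2, h3]

/-- **Norm and base change, prime degree.** -/
theorem norm_algebraMap_of_prime [Module.Finite E F]
    (hrank : finrank E' F' = finrank E F) (hp : (finrank E F).Prime)
    (hx : ∃ x : F, algebraMap F F' x ∉ Set.range (algebraMap E' F')) (u : F) :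
    Algebra.norm E' (algebraMap F F' u) = algebraMap E E' (Algebra.norm E u) :=
  norm_algebraMap_of_span hrank (span_range_eq_top_of_prime (by rw [hrank]; exact hp) hx) u

end NormBaseChange

section NormPow

variable {K F F' : Type*} [Field K] [Field F] [Field F'] [Algebra K F] [Algebra F F']
  [Algebra K F'] [IsScalarTower K F F']

/-- If `u ∈ F` is (constant) · (`n`-th power) in a finite extension `F'`, then `u ^ [F' : F]` is
(constant) · (`n`-th power) in `F`.  No coprimality is needed. -/
theorem pow_finrank_eq_of_eq_mul_pow {n : ℕ} {u : F} {w : F'} {c : K}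
    (h : algebraMap F F' u = algebraMap K F' c * w ^ n) :
    u ^ finrank F F' = algebraMap K F (c ^ finrank F F') * (Algebra.norm F w) ^ n := by
  have h1 := congrArg (Algebra.norm F) h
  rw [Algebra.norm_algebraMap, map_mul, map_pow, IsScalarTower.algebraMap_apply K F F',
    Algebra.norm_algebraMap] at h1
  rw [h1, map_pow]

end NormPow

section ModuleForm

/-- **Abstract descent of (KILL).**  `up : J → J₂` (pull-back to the auxiliary level),
`down : J₂ → J` (push-forward) with `down ∘ up = d`, `up` equivariant for the elements of `I`,
kernel maps `k i` on `J` and `k₂ i` on `J₂` with `k₂ i ∘ up = u i ∘ k i`.  If every `n`-torsion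
point of `J₂` fixed by `I` and killed by all `k₂ i` is killed by `c`, then every `n`-torsion point
of `J` fixed by `I` and killed by all `k i` is killed by `c * d`. -/
theorem kill_descent {J J₂ G ι : Type*} [AddCommGroup J] [AddCommGroup J₂] [SMul G J] [SMul G J₂]
    {K K₂ : ι → Type*} [∀ i, AddCommGroup (K i)] [∀ i, AddCommGroup (K₂ i)]
    (I : Set G) (up : J →+ J₂) (down : J₂ →+ J) (d : ℕ) (hdu : ∀ x, down (up x) = d • x)
    (hup : ∀ s ∈ I, ∀ x, up (s • x) = s • up x)
    (k : ∀ i, J →+ K i) (k₂ : ∀ i, J₂ →+ K₂ i) (u : ∀ i, K i →+ K₂ i)
    (hk : ∀ i x, k₂ i (up x) = u i (k i x)) (n c : ℕ)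
    (h₂ : ∀ y : J₂, n • y = 0 → (∀ s ∈ I, s • y = y) → (∀ i, k₂ i y = 0) → c • y = 0)
    (x : J) (hn : n • x = 0) (hI : ∀ s ∈ I, s • x = x) (hx : ∀ i, k i x = 0) :
    (c * d) • x = 0 := by
  have h := h₂ (up x) (by rw [← map_nsmul, hn, map_zero])
    (fun s hs => by rw [← hup s hs, hI s hs]) (fun i => by rw [hk, hx, map_zero])
  have h' := congrArg down h
  rw [map_nsmul, hdu, map_zero] at h'
  rw [mul_smul]
  exact h'

end ModuleForm

end Fermat.Agent.S36.helper3495
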