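import Mathlib
import Fermat.Agent.S36.helper3495_NormBaseChange
import Fermat.Agent.S24.helper504_CuspEv
import Fermat.Agent.S37.helper6887_Fricke
import Fermat.Agent.S37.helper5162_HeckeInputsModular
import Fermat.Agent.S29.helper8217_KummerClass

/-!
# S36-AUXLEVEL, part 2 (helper3495): descent of (KILL) from an auxiliary level

`Kbar = AlgebraicClosure ℚ`, `FN M = modularFunctionFieldBar M = ℚ̄(j(q^d) : d ∣ M)`.
-/

set_option autoImplicit false
set_option linter.style.haveILetI false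

open ModularCurve AlgebraicCurve CongruenceSubgroup IntermediateField
open scoped MatrixGroups

noncomputable section

namespace Fermat.Agent.S36.helper3495

open Fermat.Agent.S24 Fermat.Agent.S24.helper24 Fermat.Agent.S24.helper504
open Fermat.Agent.S29.helper8217

/-! ## Level inclusions -/

theorem bar_le_of_dvd {N N' : ℕ} [NeZero N] [NeZero N'] (h : N ∣ N') :
    modularFunctionFieldBar N ≤ modularFunctionFieldBar N' := by
  show laurentBaseChange Kbar (modularFunctionFieldFull N)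
    ≤ laurentBaseChange Kbar (modularFunctionFieldFull N')
  rw [laurentBaseChange, IntermediateField.adjoin_le_iff]
  rintro _ ⟨y, hy, rfl⟩
  exact coeffEmb_mem_laurentBaseChange Kbar (full_degeneracy_le h hy)

/-- The inclusion `F_N ⊆ F_N'` for `N ∣ N'`. -/
def lvl {N N' : ℕ} [NeZero N] [NeZero N'] (h : N ∣ N') : FN N →ₐ[Kbar] FN N' :=
  IntermediateField.inclusion (bar_le_of_dvd h)

@[simp]
theorem coe_lvl {N N' : ℕ} [NeZero N] [NeZero N'] (h : N ∣ N') (x : FN N) :
    ((lvl h x : FN N') : LaurentSeries Kbar) = (x : LaurentSeries Kbar) :=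
  IntermediateField.coe_inclusion _ x

theorem lvl_jBarD {N N' : ℕ} [NeZero N] [NeZero N'] (h : N ∣ N') (d : ℕ) [NeZero d]
    (hd : d ∣ N) : lvl h (jBarD N d hd) = jBarD N' d (hd.trans h) :=
  Subtype.ext (coe_lvl h _)

theorem lvl_mul_right (N m : ℕ) [NeZero N] [NeZero m] :
    lvl (dvd_mul_right N m) = heckeAlphaBar Kbar N m := rfl

/-! ## Non-containment: `F_A ⊆ F_B` forces `A ∣ B` -/

/-- If `F_A ⊆ F_B` (inside `ℚ̄((q))`) then `Γ₀(B) ⊆ Γ₀(A)`. -/
theorem gamma0_le_of_bar_le {A B : ℕ} [NeZero A] [NeZero B]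
    (h : modularFunctionFieldBar A ≤ modularFunctionFieldBar B) : Gamma0 B ≤ Gamma0 A := by
  intro γ hγ
  haveI : NeZero (A * B) := ⟨Nat.mul_ne_zero (NeZero.ne A) (NeZero.ne B)⟩
  have hAC : A ∣ A * B := dvd_mul_right A B
  have hBC : B ∣ A * B := dvd_mul_left B A
  -- the two expansions agree on `F_B`
  have key : (cosetExp (A * B) γ).comp (lvl hBC).toRingHom
      = (cosetExp (A * B) 1).comp (lvl hBC).toRingHom := by
    apply helper3176.ringHom_ext_of_gen B
    · intro c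
      rw [RingHom.comp_apply, RingHom.comp_apply, AlgHom.toRingHom_eq_coe, RingHom.coe_coe,
        AlgHom.commutes, cosetExp_algebraMap, cosetExp_algebraMap]
    · intro d _ hd
      have e : (fun τ => jd d (γ • τ)) = fun τ => jd d ((1 : SL(2, ℤ)) • τ) := by
        funext τ
        rw [one_smul, jd_apply, jd_apply]
        exact J_hpt_smul_of_mem_Gamma0 hd jFun_smul hγ τ
      rw [RingHom.comp_apply, RingHom.comp_apply, AlgHom.toRingHom_eq_coe, RingHom.coe_coe,
        lvl_jBarD, cosetExp_jBarD, cosetExp_jBarD, e]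
  -- `j(q^A)` lies in `F_B`
  let x : FN B := ⟨(jBarD A A dvd_rfl : FN A), h (jBarD A A dvd_rfl).2⟩
  have hx : lvl hBC x = jBarD (A * B) A hAC := Subtype.ext (coe_lvl hBC x)
  have h1 := congrArg (fun φ : FN B →+* LaurentSeries ℂ => φ x) key
  simp only [RingHom.comp_apply, AlgHom.toRingHom_eq_coe, RingHom.coe_coe] at h1
  have h1' : cosetExp (A * B) γ (jBarD (A * B) A hAC)
      = cosetExp (A * B) 1 (jBarD (A * B) A hAC) := by
    rw [← hx]; exact h1
  rw [cosetExp_jBarD, cosetExp_jBarD] at h1'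
  have h2 : (⟨fun τ => jd A (γ • τ), pull_jd_isCuspMer hAC γ⟩ : helper315.cuspMer (A * B))
      = ⟨fun τ => jd A ((1 : SL(2, ℤ)) • τ), pull_jd_isCuspMer hAC 1⟩ :=
    helper315.cuspExp_injective (A * B) h1'
  have h3 := mul_inv_mem_Gamma0_of_forall_eq A hasQExpZ_jFun
    (fun k hk => coeffEmb_jq_coeff_of_lt hk) coeffEmb_jq_coeff_neg_one jFun_smul γ 1
    (fun τ => congrFun (congrArg Subtype.val h2) τ)
  simpa using h3

/-- If `F_A ⊆ F_B` (inside `ℚ̄((q))`) then `A ∣ B`. -/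
theorem dvd_of_bar_le {A B : ℕ} [NeZero A] [NeZero B]
    (h : modularFunctionFieldBar A ≤ modularFunctionFieldBar B) : A ∣ B := by
  have h1 := gamma0_le_of_bar_le h
  let γ : SL(2, ℤ) := ⟨!![1, 0; (B : ℤ), 1], by simp [Matrix.det_fin_two]⟩
  have hγ : γ ∈ Gamma0 B := by
    rw [Gamma0_mem]
    show (((B : ℤ) : ℤ) : ZMod B) = 0
    simp
  have h2 := h1 hγ
  rw [Gamma0_mem] at h2
  have h3 : (((B : ℤ) : ℤ) : ZMod A) = 0 := h2
  exact Int.natCast_dvd_natCast.mp ((ZMod.intCast_zmod_eq_zero_iff_dvd _ _).mp h3)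

/-! ## Degrees and finiteness -/

theorem lvl_jBar {N N' : ℕ} [NeZero N] [NeZero N'] (h : N ∣ N') : lvl h (jBar N) = jBar N' :=
  lvl_jBarD h 1 (one_dvd N)

/-- The degree `[F_N' : F_N]` of the level inclusion. -/
def lvlDeg {N N' : ℕ} [NeZero N] [NeZero N'] (h : N ∣ N') : ℕ := finrankAlong Kbar (lvl h)

/-- `ψ(N) * [F_N' : F_N] = ψ(N')`. -/
theorem dedekindPsi_mul_lvlDeg {N N' : ℕ} [NeZero N] [NeZero N'] (h : N ∣ N') :
    dedekindPsi N * lvlDeg h = dedekindPsi N' := by
  have h1 := Fermat.Agent.S37.helper6887.finrank_mul_finrankAlong (lvl h) (jBar N)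
  rw [lvl_jBar, Fermat.Agent.S37.helper6887.finrank_jBar,
    Fermat.Agent.S37.helper6887.finrank_jBar] at h1
  exact h1

theorem lvlDeg_ne_zero {N N' : ℕ} [NeZero N] [NeZero N'] (h : N ∣ N') : lvlDeg h ≠ 0 := by
  intro h0
  have h1 := dedekindPsi_mul_lvlDeg h
  rw [h0, mul_zero] at h1
  exact (Fermat.Agent.S37.helper6887.dedekindPsi_pos (NeZero.ne N')).ne h1

theorem finiteAlong_lvl {N N' : ℕ} [NeZero N] [NeZero N'] (h : N ∣ N') :
    FiniteAlong Kbar (lvl h) := by
  obtain ⟨m, rfl⟩ := h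
  haveI : NeZero m := ⟨fun h0 => NeZero.ne (N * m) (by rw [h0, mul_zero])⟩
  exact Fermat.Agent.S37.helper5162.finiteAlong_heckeAlphaBar N m

theorem isIntegral_lvl {N N' : ℕ} [NeZero N] [NeZero N'] (h : N ∣ N') :
    (lvl h).toRingHom.IsIntegral :=
  Fermat.Agent.S37.helper5162.isIntegral_of_finiteAlong _ (finiteAlong_lvl h)

/-- `[F_{N q} : α F_N] = q` for a prime `q ∣ N`. -/
theorem finrankAlong_alpha_of_dvd {N q : ℕ} [NeZero N] [NeZero q] (hq : q.Prime) (hqN : q ∣ N) :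
    finrankAlong Kbar (heckeAlphaBar Kbar N q) = q := by
  have h := Fermat.Agent.S37.helper6887.finrankAlong_heckeAlphaBar N q
  rw [Fermat.Agent.Lib.helper1356.dedekindPsi_mul_prime_of_dvd hq (NeZero.ne N) hqN,
    mul_comm q] at h
  exact Nat.eq_of_mul_eq_mul_left (Fermat.Agent.S37.helper6887.dedekindPsi_pos (NeZero.ne N)) h

/-- `[F_{N q} : β F_N] = q` for a prime `q ∣ N`. -/
theorem finrankAlong_beta_of_dvd {N q : ℕ} [NeZero N] [NeZero q] (hq : q.Prime) (hqN : q ∣ N) :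
    finrankAlong Kbar (heckeBetaBar Kbar N q) = q := by
  rw [Fermat.Agent.S37.helper6887.finrankAlong_heckeBetaBar_eq]
  exact finrankAlong_alpha_of_dvd hq hqN

/-! ## Norm compatibility with the auxiliary level -/

theorem lvl_alpha_comm {N N' q : ℕ} [NeZero N] [NeZero N'] [NeZero q] (h : N ∣ N') (x : FN N) :
    lvl (Nat.mul_dvd_mul_right h q) (heckeAlphaBar Kbar N q x)
      = heckeAlphaBar Kbar N' q (lvl h x) :=
  Subtype.ext (by rw [coe_lvl, coe_heckeAlphaBar, coe_heckeAlphaBar, coe_lvl])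

theorem lvl_beta_comm {N N' q : ℕ} [NeZero N] [NeZero N'] [NeZero q] (h : N ∣ N') (x : FN N) :
    lvl (Nat.mul_dvd_mul_right h q) (heckeBetaBar Kbar N q x)
      = heckeBetaBar Kbar N' q (lvl h x) :=
  Subtype.ext (by rw [coe_lvl, coe_heckeBetaBar, coe_heckeBetaBar, coe_lvl])

/-- **`α`-norm and level change.**  `q` prime, `q ∣ N ∣ N'`, `N q ∤ N'` (i.e. `v_q(N') = v_q(N)`).
For `u ∈ F_{N q}`, the norm of `u` along `α : F_N' → F_{N' q}` is the norm along
`α : F_N → F_{N q}`. -/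
theorem normAlong_alpha_lvl {N N' q : ℕ} [NeZero N] [NeZero N'] [NeZero q] (hq : q.Prime)
    (h : N ∣ N') (hqN : q ∣ N) (hnd : ¬ N * q ∣ N') (u : FN (N * q)) :
    normAlong (heckeAlphaBar Kbar N' q) (lvl (Nat.mul_dvd_mul_right h q) u)
      = lvl h (normAlong (heckeAlphaBar Kbar N q) u) := by
  have h' : N * q ∣ N' * q := Nat.mul_dvd_mul_right h q
  letI a1 : Algebra (FN N) (FN (N * q)) := algebraAlong (heckeAlphaBar Kbar N q)
  letI a2 : Algebra (FN N') (FN (N' * q)) := algebraAlong (heckeAlphaBar Kbar N' q)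
  letI a3 : Algebra (FN N) (FN N') := (lvl h).toRingHom.toAlgebra
  letI a4 : Algebra (FN (N * q)) (FN (N' * q)) := (lvl h').toRingHom.toAlgebra
  letI a5 : Algebra (FN N) (FN (N' * q)) :=
    ((lvl h').toRingHom.comp (heckeAlphaBar Kbar N q).toRingHom).toAlgebra
  haveI t1 : IsScalarTower (FN N) (FN (N * q)) (FN (N' * q)) :=
    IsScalarTower.of_algebraMap_eq fun x => rfl
  haveI t2 : IsScalarTower (FN N) (FN N') (FN (N' * q)) :=
    IsScalarTower.of_algebraMap_eq fun x => by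
      show lvl h' (heckeAlphaBar Kbar N q x) = heckeAlphaBar Kbar N' q (lvl h x)
      exact lvl_alpha_comm h x
  haveI fin : Module.Finite (FN N) (FN (N * q)) :=
    Fermat.Agent.S37.helper5162.finiteAlong_heckeAlphaBar N q
  have hq' : q ∣ N' := hqN.trans h
  have hrank : Module.finrank (FN N') (FN (N' * q)) = Module.finrank (FN N) (FN (N * q)) :=
    (finrankAlong_alpha_of_dvd hq hq').trans (finrankAlong_alpha_of_dvd hq hqN).symm
  have hp : (Module.finrank (FN N) (FN (N * q))).Prime := by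
    have e : Module.finrank (FN N) (FN (N * q)) = q := finrankAlong_alpha_of_dvd hq hqN
    rw [e]; exact hq
  have hx : ∃ x : FN (N * q),
      algebraMap (FN (N * q)) (FN (N' * q)) x ∉ Set.range (algebraMap (FN N') (FN (N' * q))) := by
    by_contra hcon
    push Not at hcon
    apply hnd
    apply dvd_of_bar_le
    intro y hy
    obtain ⟨z, hz⟩ := hcon ⟨y, hy⟩
    have hz1 : heckeAlphaBar Kbar N' q z = lvl h' ⟨y, hy⟩ := hz
    have hz' := congrArg Subtype.val hz1
    rw [coe_heckeAlphaBar, coe_lvl] at hz'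
    have hz'' : ((z : FN N') : LaurentSeries Kbar) = y := hz'
    rw [← hz'']
    exact z.2
  exact norm_algebraMap_of_prime hrank hp hx u

/-- **`β`-norm and level change.**  `q` prime, `q ∣ N ∣ N'`.  For `u ∈ F_{N q}`, the norm of `u`
along `β : F_N' → F_{N' q}` (`q ↦ q^q`) is the norm along `β : F_N → F_{N q}`. -/
theorem normAlong_beta_lvl {N N' q : ℕ} [NeZero N] [NeZero N'] [NeZero q] (hq : q.Prime)
    (h : N ∣ N') (hqN : q ∣ N) (u : FN (N * q)) :
    normAlong (heckeBetaBar Kbar N' q) (lvl (Nat.mul_dvd_mul_right h q) u)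
      = lvl h (normAlong (heckeBetaBar Kbar N q) u) := by
  have h' : N * q ∣ N' * q := Nat.mul_dvd_mul_right h q
  letI a1 : Algebra (FN N) (FN (N * q)) := algebraAlong (heckeBetaBar Kbar N q)
  letI a2 : Algebra (FN N') (FN (N' * q)) := algebraAlong (heckeBetaBar Kbar N' q)
  letI a3 : Algebra (FN N) (FN N') := (lvl h).toRingHom.toAlgebra
  letI a4 : Algebra (FN (N * q)) (FN (N' * q)) := (lvl h').toRingHom.toAlgebra
  letI a5 : Algebra (FN N) (FN (N' * q)) :=
    ((lvl h').toRingHom.comp (heckeBetaBar Kbar N q).toRingHom).toAlgebra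
  haveI t1 : IsScalarTower (FN N) (FN (N * q)) (FN (N' * q)) :=
    IsScalarTower.of_algebraMap_eq fun x => rfl
  haveI t2 : IsScalarTower (FN N) (FN N') (FN (N' * q)) :=
    IsScalarTower.of_algebraMap_eq fun x => by
      show lvl h' (heckeBetaBar Kbar N q x) = heckeBetaBar Kbar N' q (lvl h x)
      exact lvl_beta_comm h x
  haveI fin : Module.Finite (FN N) (FN (N * q)) :=
    Fermat.Agent.S37.helper5162.finiteAlong_heckeBetaBar N q
  have hq' : q ∣ N' := hqN.trans h
  have hrank : Module.finrank (FN N') (FN (N' * q)) = Module.finrank (FN N) (FN (N * q)) :=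
    (finrankAlong_beta_of_dvd hq hq').trans (finrankAlong_beta_of_dvd hq hqN).symm
  have hp : (Module.finrank (FN N) (FN (N * q))).Prime := by
    have e : Module.finrank (FN N) (FN (N * q)) = q := finrankAlong_beta_of_dvd hq hqN
    rw [e]; exact hq
  have hx : ∃ x : FN (N * q),
      algebraMap (FN (N * q)) (FN (N' * q)) x ∉ Set.range (algebraMap (FN N') (FN (N' * q))) := by
    refine ⟨jBar (N * q), ?_⟩
    rintro ⟨z, hz⟩
    have hz1 : heckeBetaBar Kbar N' q z = lvl h' (jBar (N * q)) := hz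
    have hz' := congrArg Subtype.val hz1
    rw [coe_heckeBetaBar, coe_lvl, coe_jBar] at hz'
    have hc := congrArg (fun s : LaurentSeries Kbar => s.coeff (-1)) hz'
    have hnot : ¬ ((q : ℕ) : ℤ) ∣ (-1 : ℤ) := by
      intro hdvd
      have h1 : ((q : ℕ) : ℤ) ∣ 1 := (dvd_neg.mp hdvd)
      have h2 : q ∣ 1 := by exact_mod_cast h1
      exact hq.one_lt.ne' (Nat.dvd_one.mp h2)
    have h1 := helper3176.coeff_coeffEmb_jq_pow_self Kbar 1
    rw [pow_one, Nat.cast_one] at h1
    rw [qExpand_coeff_of_not_dvd q _ hnot, h1] at hc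
    exact zero_ne_one hc
  exact norm_algebraMap_of_prime hrank hp hx u

/-! ## The function-field form of (KILL) and its descent -/

theorem lvl_galois_smul {N N' : ℕ} [NeZero N] [NeZero N'] (h : N ∣ N')
    (σ : Kbar ≃ₐ[ℚ] Kbar) (x : FN N) :
    lvl h (arithmeticGalois (modularFunctionFieldFull N) σ • x)
      = arithmeticGalois (modularFunctionFieldFull N') σ • lvl h x :=
  Subtype.ext (by
    rw [coe_lvl, coe_arithmeticGalois_smul, coe_arithmeticGalois_smul, coe_lvl])

/-- `u` is a constant times an `n`-th power in `F_M`. -/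
def IsConstMulPow {M : ℕ} (n : ℕ) (u : FN M) : Prop :=
  ∃ (a : Kbar) (w : FN M), u = algebraMap Kbar (FN M) a * w ^ n

theorem IsConstMulPow.lvl {N N' : ℕ} [NeZero N] [NeZero N'] (h : N ∣ N') {n : ℕ} {u : FN N}
    (hu : IsConstMulPow n u) : IsConstMulPow n (lvl h u) := by
  obtain ⟨a, w, rfl⟩ := hu
  exact ⟨a, Fermat.Agent.S36.helper3495.lvl h w, by rw [map_mul, map_pow, AlgHom.commutes]⟩

/-- **(KILL), function-field form**, at level `N q` with respect to the two degeneracy maps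
`α, β : F_N → F_{N q}` and a set `I` of Galois automorphisms (an inertia group):

an `n`-Kummer function `u ∈ F_{N q}` whose class is fixed by `I` and whose norms along `α` and
`β` are (constant) · (`n`-th power) has `u ^ c` = (constant) · (`n`-th power).

In terms of `J₀(N q)`: a point `x` of order `n` fixed by `I` with `α_* x = β_* x = 0` is killed
by `c`. -/
def KillFF (N q : ℕ) [NeZero N] [NeZero q] (I : Set (Kbar ≃ₐ[ℚ] Kbar)) (c : ℕ) : Prop :=
  ∀ (n : ℕ) (u : FN (N * q)), IsKummer Kbar n u →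
    (∀ σ ∈ I, ∃ (a : Kbar) (w : FN (N * q)),
      arithmeticGalois (modularFunctionFieldFull (N * q)) σ • u
        = algebraMap Kbar (FN (N * q)) a * u * w ^ n) →
    IsConstMulPow n (normAlong (heckeAlphaBar Kbar N q) u) →
    IsConstMulPow n (normAlong (heckeBetaBar Kbar N q) u) →
    IsConstMulPow n (u ^ c)

/-- **Auxiliary-level descent of (KILL).**  `q` prime, `q ∣ N ∣ N'`, `N q ∤ N'` (i.e.
`v_q(N') = v_q(N)`).  (KILL) at level `N' q` with constant `c` implies (KILL) at level `N q` with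
constant `c * [F_{N' q} : F_{N q}]`. -/
theorem killFF_descent {N N' q : ℕ} [NeZero N] [NeZero N'] [NeZero q] (hq : q.Prime)
    (h : N ∣ N') (hqN : q ∣ N) (hnd : ¬ N * q ∣ N') (I : Set (Kbar ≃ₐ[ℚ] Kbar)) (c : ℕ)
    (H : KillFF N' q I c) : KillFF N q I (c * lvlDeg (Nat.mul_dvd_mul_right h q)) := by
  intro n u hK hI hα hβ
  have h' : N * q ∣ N' * q := Nat.mul_dvd_mul_right h q
  have hK' : IsKummer Kbar n (lvl h' u) := isKummer_map (lvl h') (isIntegral_lvl h') hK
  have hI' : ∀ σ ∈ I, ∃ (a : Kbar) (w : FN (N' * q)),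
      arithmeticGalois (modularFunctionFieldFull (N' * q)) σ • lvl h' u
        = algebraMap Kbar (FN (N' * q)) a * lvl h' u * w ^ n := by
    intro σ hσ
    obtain ⟨a, w, haw⟩ := hI σ hσ
    refine ⟨a, lvl h' w, ?_⟩
    rw [← lvl_galois_smul, haw, map_mul, map_mul, map_pow, AlgHom.commutes]
  have hα' : IsConstMulPow n (normAlong (heckeAlphaBar Kbar N' q) (lvl h' u)) := by
    rw [normAlong_alpha_lvl hq h hqN hnd]
    exact hα.lvl h
  have hβ' : IsConstMulPow n (normAlong (heckeBetaBar Kbar N' q) (lvl h' u)) := by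
    rw [normAlong_beta_lvl hq h hqN]
    exact hβ.lvl h
  obtain ⟨a, W, haW⟩ := H n (lvl h' u) hK' hI' hα' hβ'
  letI a4 : Algebra (FN (N * q)) (FN (N' * q)) := algebraAlong (lvl h')
  haveI : IsScalarTower Kbar (FN (N * q)) (FN (N' * q)) := isScalarTower_along (lvl h')
  have key := pow_finrank_eq_of_eq_mul_pow (K := Kbar) (F := FN (N * q)) (F' := FN (N' * q))
    (n := n) (u := u ^ c) (w := W) (c := a) (by
      show lvl h' (u ^ c) = _
      rw [map_pow, haW])
  refine ⟨a ^ lvlDeg h', Algebra.norm (FN (N * q)) W, ?_⟩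
  rw [pow_mul]
  exact key

/-- (KILL) at an auxiliary level gives (KILL) at the original level (some nonzero constant). -/
theorem exists_killFF_of_aux {N N' q : ℕ} [NeZero N] [NeZero N'] [NeZero q] (hq : q.Prime)
    (h : N ∣ N') (hqN : q ∣ N) (hnd : ¬ N * q ∣ N') (I : Set (Kbar ≃ₐ[ℚ] Kbar))
    (H : ∃ c : ℕ, c ≠ 0 ∧ KillFF N' q I c) : ∃ c : ℕ, c ≠ 0 ∧ KillFF N q I c := by
  obtain ⟨c, hc, Hc⟩ := H
  exact ⟨c * lvlDeg (Nat.mul_dvd_mul_right h q),
    Nat.mul_ne_zero hc (lvlDeg_ne_zero _), killFF_descent hq h hqN hnd I c Hc⟩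

/-! ## The auxiliary level -/

theorem not_mul_dvd_lcm {N q r : ℕ} (hN : N ≠ 0) (hr : ¬ q ∣ r) : ¬ N * q ∣ Nat.lcm N r := by
  intro h
  have h1 : N * q ∣ N * r := h.trans (Nat.lcm_dvd_mul N r)
  exact hr ((Nat.mul_dvd_mul_iff_left (Nat.pos_of_ne_zero hN)).mp h1)

/-- The auxiliary level `lcm(N, 4)` (`q ≠ 2`) resp. `lcm(N, 9)` (`q = 2`): it has no elliptic
points (`Fermat.Agent.S37.helper987.no_elliptic_of_dvd`) and the same `q`-adic valuation as
`N`. -/
def auxLevel (N q : ℕ) : ℕ := Nat.lcm N (if q = 2 then 9 else 4)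

theorem dvd_auxLevel (N q : ℕ) : N ∣ auxLevel N q := Nat.dvd_lcm_left _ _

theorem auxLevel_ne_zero (N q : ℕ) (hN : N ≠ 0) : auxLevel N q ≠ 0 := by
  unfold auxLevel
  split_ifs
  · exact Nat.lcm_ne_zero hN (by norm_num)
  · exact Nat.lcm_ne_zero hN (by norm_num)

instance auxLevel_neZero (N q : ℕ) [NeZero N] : NeZero (auxLevel N q) :=
  ⟨auxLevel_ne_zero N q (NeZero.ne N)⟩

theorem four_or_nine_dvd_auxLevel (N q : ℕ) : 4 ∣ auxLevel N q ∨ 9 ∣ auxLevel N q := by
  unfold auxLevel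
  split_ifs
  · exact Or.inr (Nat.dvd_lcm_right _ _)
  · exact Or.inl (Nat.dvd_lcm_right _ _)

theorem not_mul_dvd_auxLevel {N q : ℕ} (hq : q.Prime) (hN : N ≠ 0) : ¬ N * q ∣ auxLevel N q := by
  unfold auxLevel
  apply not_mul_dvd_lcm hN
  split_ifs with h2
  · subst h2
    norm_num
  · intro h4
    have h5 : q ∣ 2 := hq.dvd_of_dvd_pow (show q ∣ 2 ^ 2 by simpa using h4)
    exact h2 ((Nat.prime_dvd_prime_iff_eq hq Nat.prime_two).mp h5)

/-- **(KILL) may be proved at the auxiliary level** `auxLevel N q` (no elliptic points). -/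
theorem exists_killFF_of_auxLevel {N q : ℕ} [NeZero N] [NeZero q] (hq : q.Prime) (hqN : q ∣ N)
    (I : Set (Kbar ≃ₐ[ℚ] Kbar)) (H : ∃ c : ℕ, c ≠ 0 ∧ KillFF (auxLevel N q) q I c) :
    ∃ c : ℕ, c ≠ 0 ∧ KillFF N q I c :=
  exists_killFF_of_aux hq (dvd_auxLevel N q) hqN (not_mul_dvd_auxLevel hq (NeZero.ne N)) I H

end Fermat.Agent.S36.helper3495
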