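import Mathlib
import Fermat.Agent.S36.helper3495_AuxLevel
import Fermat.Agent.S36.helper1335_KillFF

/-!
# S36-AUXLEVEL, part 3 (helper3495): `Stmt_KillFFAux → Stmt_KillFF`

Step (2) of the S36 chain of record (captain's rulings #2/#3 in `team_s36_chat`): the
auxiliary-level hypothesis `AuxOK M₁ q` (`4 ∣ M₁` for odd `q`, `9 ∣ M₁` for `q = 2`) of the
geometric statement `helper1335.Stmt_KillFFAux` is removed by a norm argument.

For `M₁` with `q ∥ M₁` put `M₂ := auxLevel M₁ q = lcm(M₁, 4)` resp. `lcm(M₁, 9)`.  A function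
`u ∈ F_{M₁ q}` stays Kummer in `F_{M₂ q}`, its class stays fixed by inertia, and its norms along
`α, β : F_{M₂} → F_{M₂ q}` are the norms along `α, β : F_{M₁} → F_{M₁ q}`
(`normAlong_alpha_lvl`, `normAlong_beta_lvl`: both squares are base-change squares of degree `q`).
(KILL) at level `M₂ q` gives `u ^ c = a * w ^ (lam ^ n)` in `F_{M₂ q}`, and the norm down to
`F_{M₁ q}` gives `u ^ (c d) = a ^ d * N(w) ^ (lam ^ n)`, `d = [F_{M₂ q} : F_{M₁ q}]`.

* `killFFAt_descent`   : `KillFFAt N' q lam A c → KillFFAt N q lam A (c * [F_{N' q} : F_{N q}])`;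
* `stmt_KillFF_of_aux` : `helper1335.Stmt_KillFFAux → helper1335.Stmt_KillFF`.
-/

set_option autoImplicit false
set_option linter.style.haveILetI false

open ModularCurve AlgebraicCurve

noncomputable section

namespace Fermat.Agent.S36.helper3495

open Fermat.Agent.S24 Fermat.Agent.S24.helper24
open Fermat.Agent.S29.helper8217
open Fermat.Agent.S36.helper1335

/-- Divisor-free elements stay divisor-free at a higher level. -/
theorem ord_lvl_eq_zero {N N' : ℕ} [NeZero N] [NeZero N'] (h : N ∣ N') {c : FN N} (hc : c ≠ 0)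
    (hcv : ∀ v : Place Kbar (FN N), v.ord c = 0) (v : Place Kbar (FN N')) :
    v.ord (lvl h c) = 0 := by
  have hk0 : IsKummer Kbar 0 c := ⟨hc, fun v => by rw [hcv v]; exact dvd_zero _⟩
  have hk0' := isKummer_map (lvl h) (isIntegral_lvl h) hk0
  exact zero_dvd_iff.mp (by simpa using hk0'.2 v)

/-- **Auxiliary-level descent of the captain's (KILL).**  `q` prime, `q ∣ N ∣ N'`, `N q ∤ N'`
(i.e. `v_q(N') = v_q(N)`), `lam ≠ 0`. -/
theorem killFFAt_descent {N N' q lam : ℕ} [NeZero N] [NeZero N'] [NeZero q] (hq : q.Prime)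
    (hlam : lam ≠ 0) (h : N ∣ N') (hqN : q ∣ N) (hnd : ¬ N * q ∣ N')
    (A : ValuationSubring QbarK) (c : ℕ) (H : KillFFAt N' q lam A c) :
    KillFFAt N q lam A (c * lvlDeg (Nat.mul_dvd_mul_right h q)) := by
  intro n u hK hI hα hβ
  have h' : N * q ∣ N' * q := Nat.mul_dvd_mul_right h q
  have hn : lam ^ n ≠ 0 := pow_ne_zero n hlam
  have hK' : IsKummer Kbar (lam ^ n) (lvl h' u) := isKummer_map (lvl h') (isIntegral_lvl h') hK
  have hI' : ∀ σ ∈ A.inertiaSubgroupIn ℚ,
      σ • kummerClass QbarK (lam ^ n) (lvl h' u) = kummerClass QbarK (lam ^ n) (lvl h' u) := by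
    intro σ hσ
    have h1 := hI σ hσ
    rw [galois_smul_kummerClass] at h1 ⊢
    have hKσ : IsKummer Kbar (lam ^ n)
        (arithmeticGalois (modularFunctionFieldFull (N * q)) σ • u) :=
      (isKummer_smul_iff _).mpr hK
    have hKσ' : IsKummer Kbar (lam ^ n)
        (arithmeticGalois (modularFunctionFieldFull (N' * q)) σ • lvl h' u) :=
      (isKummer_smul_iff _).mpr hK'
    rw [kummerClass_eq_iff hn hKσ hK] at h1
    obtain ⟨w, c0, hw, hc0, hcv, hrel⟩ := h1
    rw [kummerClass_eq_iff hn hKσ' hK']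
    refine ⟨lvl h' w, lvl h' c0, (map_ne_zero _).mpr hw, (map_ne_zero _).mpr hc0,
      ord_lvl_eq_zero h' hc0 hcv, ?_⟩
    rw [← lvl_galois_smul, hrel, map_mul, map_mul, map_pow]
  have hα' : ∃ (a : QbarK) (w : FNK N'),
      normAlong (heckeAlphaBar QbarK N' q) (lvl h' u)
        = algebraMap QbarK (FNK N') a * w ^ (lam ^ n) := by
    obtain ⟨a, w, haw⟩ := hα
    refine ⟨a, lvl h w, ?_⟩
    rw [normAlong_alpha_lvl hq h hqN hnd, haw, map_mul, map_pow, AlgHom.commutes]
  have hβ' : ∃ (a : QbarK) (w : FNK N'),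
      normAlong (heckeBetaBar QbarK N' q) (lvl h' u)
        = algebraMap QbarK (FNK N') a * w ^ (lam ^ n) := by
    obtain ⟨a, w, haw⟩ := hβ
    refine ⟨a, lvl h w, ?_⟩
    rw [normAlong_beta_lvl hq h hqN, haw, map_mul, map_pow, AlgHom.commutes]
  obtain ⟨a, W, haW⟩ := H n (lvl h' u) hK' hI' hα' hβ'
  letI a4 : Algebra (FN (N * q)) (FN (N' * q)) := algebraAlong (lvl h')
  haveI : IsScalarTower Kbar (FN (N * q)) (FN (N' * q)) := isScalarTower_along (lvl h')
  have key := pow_finrank_eq_of_eq_mul_pow (K := Kbar) (F := FN (N * q)) (F' := FN (N' * q))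
    (n := lam ^ n) (u := u ^ c) (w := W) (c := a) (by
      show lvl h' (u ^ c) = _
      rw [map_pow, haW])
  refine ⟨a ^ lvlDeg h', Algebra.norm (FN (N * q)) W, ?_⟩
  rw [pow_mul]
  exact key

/-! ## The auxiliary level satisfies the hypotheses of `Stmt_KillFFAux` -/

theorem auxOK_auxLevel (N q : ℕ) : AuxOK (auxLevel N q) q := by
  unfold auxLevel
  constructor
  · intro h2
    rw [if_neg h2]
    exact Nat.dvd_lcm_right _ _
  · intro h2
    rw [if_pos h2]
    exact Nat.dvd_lcm_right _ _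

theorem not_dvd_auxMultiplier {q : ℕ} (hq : q.Prime) : ¬ q ∣ (if q = 2 then 9 else 4) := by
  split_ifs with h2
  · subst h2
    norm_num
  · intro h4
    have h5 : q ∣ 2 := hq.dvd_of_dvd_pow (show q ∣ 2 ^ 2 by simpa using h4)
    exact h2 ((Nat.prime_dvd_prime_iff_eq hq Nat.prime_two).mp h5)

theorem not_sq_dvd_auxLevel {N q : ℕ} (hq : q.Prime) (h2 : ¬ q ^ 2 ∣ N) :
    ¬ q ^ 2 ∣ auxLevel N q := by
  intro h
  apply h2
  have h1 : q ^ 2 ∣ N * (if q = 2 then 9 else 4) := h.trans (Nat.lcm_dvd_mul N _)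
  have hcop : Nat.Coprime (q ^ 2) (if q = 2 then 9 else 4) :=
    Nat.Coprime.pow_left 2 ((Nat.Prime.coprime_iff_not_dvd hq).mpr (not_dvd_auxMultiplier hq))
  exact hcop.dvd_of_dvd_mul_right h1

/-- **Step (2) of the S36 chain: the auxiliary level is removed.** -/
theorem stmt_KillFF_of_aux (H : Stmt_KillFFAux) : Stmt_KillFF := by
  intro M₁ q _ _ hq hqM hq2 lam hlam hne A hA
  obtain ⟨c, hc, Hc⟩ := H (auxLevel M₁ q) q hq (hqM.trans (dvd_auxLevel M₁ q))
    (not_sq_dvd_auxLevel hq hq2) (auxOK_auxLevel M₁ q) lam hlam hne A hA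
  exact ⟨c * lvlDeg (Nat.mul_dvd_mul_right (dvd_auxLevel M₁ q) q),
    Nat.mul_ne_zero hc (lvlDeg_ne_zero _),
    killFFAt_descent hq hlam.ne_zero (dvd_auxLevel M₁ q) hqM
      (not_mul_dvd_auxLevel hq (NeZero.ne M₁)) A c Hc⟩

end Fermat.Agent.S36.helper3495
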