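/-
helper1335 (captain S36) — the TOP TERM of S36: the frozen statement S36 from the ONE remaining
proposition `helper1335.Stmt_KillFFAux` (function-field form of (KILL) at an auxiliary level).

Chain (every piece kernel-checked on main):

* `helper1195.result_of_ops` : frozen S36 from `GalOps`, `KillOps`, `LatOps` for two total families
  of kernel operators on `J₀(M)`;
* `helper3353.galOps_uf`, `helper3353.latOps_uf` : `GalOps`, `LatOps` for the families
  `fun q => helper2039.uJ M q` (`= U_q`) and `helper3353.uwJ M` (`= U_q ∘ W_M`);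
* `helper253.killJ_of_stmt_KillFF` : (KILL) on `J₀(M)` for `U_q`, `U_q ∘ W_M` from
  `helper1335.Stmt_KillFF`;
* `helper3495.stmt_KillFF_of_aux` : `Stmt_KillFFAux → Stmt_KillFF` (auxiliary level).

Results:

* `killOps_uf_of_killFF : Stmt_KillFF → KillOps M lam (fun q => uJ M q) (uwJ M)`;
* `result_of_killFF  : Stmt_KillFF → (frozen S36)`;
* `result_of_killFFAux : Stmt_KillFFAux → (frozen S36)`.

So `Fermat/Agent/S36.lean` is `result := helper1335.result_of_killFFAux h hg lam S O' hlamO' hlam2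
chig hchig iota hlamS hMS hres` with `h : Stmt_KillFFAux` the proof of the function-field (KILL).
-/
import Fermat.Agent.S36.helper1195_Closed
import Fermat.Agent.S36.helper3353_LatOps
import Fermat.Agent.S36.helper253_UKillSeam
import Fermat.Agent.S36.helper3495_AuxKill
import Fermat.Agent.S36.helper1335_KillFF

set_option autoImplicit false
set_option linter.style.haveILetI false
set_option linter.overlappingInstances false
set_option linter.unusedVariables false

open Polynomial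
open CuspForm CuspForm.IsNewform

namespace Fermat.Agent.S36.helper1335

open ModularCurve AlgebraicCurve

/-- **(hkill) for the total families `U_q`, `U_q ∘ W_M`** from the canonical function-field
statement `Stmt_KillFF`. -/
theorem killOps_uf_of_killFF (h : Stmt_KillFF) (M : ℕ) [NeZero M] (lam : ℕ) [Fact lam.Prime] :
    Fermat.Agent.S36.helper1195.KillOps M lam
      (fun q => Fermat.Agent.S35.helper2039.uJ M q) (Fermat.Agent.S36.helper3353.uwJ M) := by
  intro q hsq A hA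
  haveI : NeZero q := ⟨hsq.1.ne_zero⟩
  obtain ⟨c, hc, hkill⟩ :=
    Fermat.Agent.S36.helper253.killJ_of_stmt_KillFF h M q hsq.1 hsq.2.2 lam Fact.out
      (Ne.symm hsq.2.1) A hA
  refine ⟨c, hc, fun x hx h1 h2 hI => hkill x hx ?_ ?_ hI⟩
  · have h1' : Fermat.Agent.S35.helper2039.uJ M q x = 0 := h1
    rwa [Fermat.Agent.S35.helper2039.uJ_eq M q] at h1'
  · have h2' : Fermat.Agent.S35.helper2039.uJ M q (Fermat.Agent.S36.helper3353.frickeJ M x) = 0 :=
      h2
    rwa [Fermat.Agent.S35.helper2039.uJ_eq M q] at h2'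

/-- **Frozen S36 from `Stmt_KillFF`.** -/
theorem result_of_killFF (h : Stmt_KillFF)
    {M : ℕ} [NeZero M] {g : CuspForm (CongruenceSubgroup.Gamma0 M) 2} (hg : g.IsNewform)
    (lam : ℕ) [Fact lam.Prime]
    (S : Finset ℕ)
    (O' : Type) [CommRing O'] [IsDomain O'] [IsDiscreteValuationRing O']
    [IsAdicComplete (IsLocalRing.maximalIdeal O') O'] [Finite (IsLocalRing.ResidueField O')]
    [CharZero O'] (hlamO' : (lam : O') ∈ IsLocalRing.maximalIdeal O')
    (hlam2 : lam ≠ 2)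
    (chig : CuspForm.heckeAlgebra M 2 (↑S : Set ℕ) →+* ℂ)
    (hchig : ∀ (ℓ : ℕ) (hℓ : ℓ.Prime) (hℓM : ¬ ℓ ∣ M) (hℓS : ℓ ∉ (↑S : Set ℕ)),
      chig (CuspForm.heckeAlgebra.T hℓ hℓM hℓS) = ModularFormClass.qCoeff g ℓ)
    (iota : chig.range →+* O')
    (hlamS : lam ∈ S) (hMS : ∀ q : ℕ, q.Prime → q ∣ M → q ∈ S)
    (hres : ∀ (O'' : Type) [CommRing O''] [IsDomain O''] [IsDiscreteValuationRing O'']
      [IsAdicComplete (IsLocalRing.maximalIdeal O'') O''] [Finite (IsLocalRing.ResidueField O'')] [CharZero O'']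
      [Algebra O' O''] [Module.Finite O' O''] [IsLocalHom (algebraMap O' O'')],
      Function.Injective (algebraMap O' O'') → ∀ (ρ : GaloisRepAdic O''),
      (∀ (ℓ : ℕ) (hℓ : ℓ.Prime) (hℓlam : ℓ ≠ lam) (hℓM : ¬ ℓ ∣ M) (hℓS : ℓ ∉ (↑S : Set ℕ)),
        ∀ A : ValuationSubring (AlgebraicClosure ℚ), A.LiesOverPrime ℓ →
          ∀ σ : AlgebraicClosure ℚ ≃ₐ[ℚ] AlgebraicClosure ℚ, A.IsFrobeniusAt σ ℓ →
            LinearMap.charpoly (ρ.ρ σ) =
              X ^ 2 - C (algebraMap O' O'' ((iota.comp chig.rangeRestrict) (CuspForm.heckeAlgebra.T hℓ hℓM hℓS))) * X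
                + C ((ℓ : O'')))
      → ρ.residual.IsAbsolutelyIrreducible ∧ ρ.residual.IsOdd)
    :
    ∃ (O'' : Type) (_ : CommRing O'') (_ : IsDomain O'') (_ : IsDiscreteValuationRing O'')
      (_ : IsAdicComplete (IsLocalRing.maximalIdeal O'') O'') (_ : Finite (IsLocalRing.ResidueField O''))
      (_ : CharZero O'') (_ : Algebra O' O'') (_ : Module.Finite O' O'') (_ : IsLocalHom (algebraMap O' O'')),
      Function.Injective (algebraMap O' O'') ∧
      ∃ ρ : GaloisRepAdic O'',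
        (∀ (ℓ : ℕ) (hℓ : ℓ.Prime) (hℓM : ¬ ℓ ∣ M) (hℓS : ℓ ∉ (↑S : Set ℕ)),
          ∀ A : ValuationSubring (AlgebraicClosure ℚ), A.LiesOverPrime ℓ →
            ∀ σ : AlgebraicClosure ℚ ≃ₐ[ℚ] AlgebraicClosure ℚ, A.IsFrobeniusAt σ ℓ →
              LinearMap.charpoly (ρ.ρ σ) =
                X ^ 2 - C (algebraMap O' O'' ((iota.comp chig.rangeRestrict) (CuspForm.heckeAlgebra.T hℓ hℓM hℓS))) * X
                  + C ((ℓ : O''))) ∧
        (∀ q : ℕ, q.Prime → q ≠ lam → M.factorization q = 2 → ¬ ρ.IsUnipotentOnInertiaAt q) :=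
  Fermat.Agent.S36.helper1195.result_of_ops
    (fun M _ q => Fermat.Agent.S35.helper2039.uJ M q)
    (fun M _ => Fermat.Agent.S36.helper3353.uwJ M)
    (fun M _ lam => Fermat.Agent.S36.helper3353.galOps_uf M lam)
    (fun M _ lam _ => killOps_uf_of_killFF h M lam)
    (fun M _ lam _ S _ _ => Fermat.Agent.S36.helper3353.latOps_uf M lam S)
    hg lam S O' hlamO' hlam2 chig hchig iota hlamS hMS hres

/-- **Frozen S36 from `Stmt_KillFFAux`** (the function-field (KILL) at auxiliary levels only). -/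
theorem result_of_killFFAux (h : Stmt_KillFFAux)
    {M : ℕ} [NeZero M] {g : CuspForm (CongruenceSubgroup.Gamma0 M) 2} (hg : g.IsNewform)
    (lam : ℕ) [Fact lam.Prime]
    (S : Finset ℕ)
    (O' : Type) [CommRing O'] [IsDomain O'] [IsDiscreteValuationRing O']
    [IsAdicComplete (IsLocalRing.maximalIdeal O') O'] [Finite (IsLocalRing.ResidueField O')]
    [CharZero O'] (hlamO' : (lam : O') ∈ IsLocalRing.maximalIdeal O')
    (hlam2 : lam ≠ 2)
    (chig : CuspForm.heckeAlgebra M 2 (↑S : Set ℕ) →+* ℂ)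
    (hchig : ∀ (ℓ : ℕ) (hℓ : ℓ.Prime) (hℓM : ¬ ℓ ∣ M) (hℓS : ℓ ∉ (↑S : Set ℕ)),
      chig (CuspForm.heckeAlgebra.T hℓ hℓM hℓS) = ModularFormClass.qCoeff g ℓ)
    (iota : chig.range →+* O')
    (hlamS : lam ∈ S) (hMS : ∀ q : ℕ, q.Prime → q ∣ M → q ∈ S)
    (hres : ∀ (O'' : Type) [CommRing O''] [IsDomain O''] [IsDiscreteValuationRing O'']
      [IsAdicComplete (IsLocalRing.maximalIdeal O'') O''] [Finite (IsLocalRing.ResidueField O'')] [CharZero O'']
      [Algebra O' O''] [Module.Finite O' O''] [IsLocalHom (algebraMap O' O'')],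
      Function.Injective (algebraMap O' O'') → ∀ (ρ : GaloisRepAdic O''),
      (∀ (ℓ : ℕ) (hℓ : ℓ.Prime) (hℓlam : ℓ ≠ lam) (hℓM : ¬ ℓ ∣ M) (hℓS : ℓ ∉ (↑S : Set ℕ)),
        ∀ A : ValuationSubring (AlgebraicClosure ℚ), A.LiesOverPrime ℓ →
          ∀ σ : AlgebraicClosure ℚ ≃ₐ[ℚ] AlgebraicClosure ℚ, A.IsFrobeniusAt σ ℓ →
            LinearMap.charpoly (ρ.ρ σ) =
              X ^ 2 - C (algebraMap O' O'' ((iota.comp chig.rangeRestrict) (CuspForm.heckeAlgebra.T hℓ hℓM hℓS))) * X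
                + C ((ℓ : O'')))
      → ρ.residual.IsAbsolutelyIrreducible ∧ ρ.residual.IsOdd)
    :
    ∃ (O'' : Type) (_ : CommRing O'') (_ : IsDomain O'') (_ : IsDiscreteValuationRing O'')
      (_ : IsAdicComplete (IsLocalRing.maximalIdeal O'') O'') (_ : Finite (IsLocalRing.ResidueField O''))
      (_ : CharZero O'') (_ : Algebra O' O'') (_ : Module.Finite O' O'') (_ : IsLocalHom (algebraMap O' O'')),
      Function.Injective (algebraMap O' O'') ∧
      ∃ ρ : GaloisRepAdic O'',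
        (∀ (ℓ : ℕ) (hℓ : ℓ.Prime) (hℓM : ¬ ℓ ∣ M) (hℓS : ℓ ∉ (↑S : Set ℕ)),
          ∀ A : ValuationSubring (AlgebraicClosure ℚ), A.LiesOverPrime ℓ →
            ∀ σ : AlgebraicClosure ℚ ≃ₐ[ℚ] AlgebraicClosure ℚ, A.IsFrobeniusAt σ ℓ →
              LinearMap.charpoly (ρ.ρ σ) =
                X ^ 2 - C (algebraMap O' O'' ((iota.comp chig.rangeRestrict) (CuspForm.heckeAlgebra.T hℓ hℓM hℓS))) * X
                  + C ((ℓ : O''))) ∧
        (∀ q : ℕ, q.Prime → q ≠ lam → M.factorization q = 2 → ¬ ρ.IsUnipotentOnInertiaAt q) :=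
  result_of_killFF (Fermat.Agent.S36.helper3495.stmt_KillFF_of_aux h)
    hg lam S O' hlamO' hlam2 chig hchig iota hlamS hMS hres

end Fermat.Agent.S36.helper1335
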