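import Fermat.Agent.S37.helper5651_FFK
import Fermat.Agent.S37.helper1588_FFK
import Fermat.Agent.S37.helper367_NormBC
import Fermat.Agent.S29.helper36_KummerCorr
import Fermat.Agent.S29.helper8217_KummerClass
import Fermat.Agent.S37.helper9342_NormTrickMod
import Fermat.Agent.S35.helper2106_UqBridge

/-!
# S36-KILL-WRAP (N2) (helper1359): norms commute with the constant-field extension

`F_{N,K} := laurentBaseChange K (modularFunctionFieldFull N)` for a field `K` of characteristic
zero, `layerHom ι : F_{N,K} → F_{N,L}` the coefficientwise map along `ι : K →+* L`.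

* `linearIndependent_layerHom` : linear disjointness — a family of `F_{N q,K}` which is linearly
  independent over `ψ(F_{N,K})` stays linearly independent over `Ψ(F_{N,L})`;
* `exists_repr_layerHom` : a finite spanning family stays spanning;
* `layerHom_normAlong_of_square` : the abstract norm compatibility;
* `layerHom_normAlong_heckeAlphaBar`, `layerHom_normAlong_heckeBetaBar` : **(N2)** — the norms
  along the two degeneracy maps commute with `layerHom ι`, for EVERY ring homomorphism
  `ι : K →+* L` of fields of characteristic zero and all `N`, `q` (no Galois theory, no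
  algebraicity, no finiteness hypothesis);
* `finrankAlong_heckeAlphaBar_layer`, `finrankAlong_heckeBetaBar_layer` : the degrees agree;
  `finiteAlong_heckeAlphaBar_layer`, `finiteAlong_heckeBetaBar_layer` : so does finiteness;
* `finrankAlong_heckeAlphaBar_of_dvd_layer`, `finiteAlong_heckeAlphaBar_of_dvd_layer` (and the
  `β` twins) : degree `q` and finiteness over every `K ↪ ℚ̄` at a prime `q ∣ N`;
* `normAlong_heckeAlphaBar_apply_self`, `normAlong_heckeBetaBar_apply_self` :
  `N(ψ a) = a ^ deg ψ` (the field `norm_map` of `DegData`).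
-/

set_option autoImplicit false
set_option linter.style.haveILetI false

open ModularCurve AlgebraicCurve IntermediateField

namespace Fermat.Agent.S36.helper1359

open Fermat.Agent.S37.helper1588 (dualMap)
open Fermat.Agent.S37.helper5651 (layerHom)

noncomputable section

section Abstract

/-- A finitely generated subspace of a field extension which is closed under multiplication and
contains `1` is closed under inverses. -/
theorem inv_mem_of_mul_mem_of_fg {A B : Type*} [Field A] [Field B] [Algebra A B]
    (S : Submodule A B) (hfin : S.FG) (hmul : ∀ x ∈ S, ∀ y ∈ S, x * y ∈ S) (h1 : (1 : B) ∈ S)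
    {d : B} (hd : d ∈ S) (hd0 : d ≠ 0) : d⁻¹ ∈ S := by
  haveI : Module.Finite A S := Module.Finite.iff_fg.mpr hfin
  let m : S →ₗ[A] S := (LinearMap.mulLeft A d).restrict (fun x hx => hmul d hd x hx)
  have hinj : Function.Injective m := by
    intro x y hxy
    have hxy' : d * (x : B) = d * (y : B) := congrArg Subtype.val hxy
    exact Subtype.ext (mul_left_cancel₀ hd0 hxy')
  obtain ⟨t, ht⟩ := LinearMap.surjective_of_injective hinj ⟨1, h1⟩
  have hdt : d * (t : B) = 1 := congrArg Subtype.val ht
  rw [inv_eq_of_mul_eq_one_right hdt]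
  exact t.2

/-- **Norms and degrees in a linearly disjoint square of fields.**  If `π₁ : B → B'` over
`π : A → A'` preserves linear independence and spanning of finite families, then it commutes
with the norms and the two degrees agree (no finiteness hypothesis). -/
theorem norm_map_of_linearDisjoint {A B A' B' : Type*} [Field A] [Field B] [Field A'] [Field B']
    [Algebra A B] [Algebra A' B'] (π : A →+* A') (π₁ : B →+* B')
    (hc : ∀ a, π₁ (algebraMap A B a) = algebraMap A' B' (π a))
    (hLI : ∀ (n : ℕ) (f : Fin n → B), LinearIndependent A f →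
      LinearIndependent A' (fun i => π₁ (f i)))
    (hSP : ∀ (n : ℕ) (f : Fin n → B),
      (∀ y : B, ∃ c : Fin n → A, y = ∑ i, algebraMap A B (c i) * f i) →
      ∀ z : B', ∃ c : Fin n → A', z = ∑ i, algebraMap A' B' (c i) * π₁ (f i))
    (y : B) :
    π (Algebra.norm A y) = Algebra.norm A' (π₁ y) ∧ Module.finrank A B = Module.finrank A' B'
      ∧ (Module.Finite A B ↔ Module.Finite A' B') := by
  classical
  by_cases hfin : Module.Finite A B
  · let b := Module.finBasis A B
    have hli := hLI _ b b.linearIndependent
    have hsp : ⊤ ≤ Submodule.span A' (Set.range fun i => π₁ (b i)) := by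
      intro z _
      obtain ⟨c, hc'⟩ := hSP _ b (fun y => ⟨fun i => b.repr y i, by
        conv_lhs => rw [← b.sum_repr y]
        exact Finset.sum_congr rfl fun i _ => Algebra.smul_def _ _⟩) z
      rw [hc']
      refine Submodule.sum_mem _ fun i _ => ?_
      rw [← Algebra.smul_def]
      exact Submodule.smul_mem _ _ (Submodule.subset_span ⟨i, rfl⟩)
    let b' := Module.Basis.mk hli hsp
    refine ⟨?_, ?_, ?_⟩
    · exact (Fermat.Agent.S37.helper367.norm_map_of_basis π π₁ hc b b'
        (fun i => Module.Basis.mk_apply hli hsp i) y).symm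
    · rw [Module.finrank_eq_card_basis b, Module.finrank_eq_card_basis b']
    · exact ⟨fun _ => Module.Finite.of_basis b', fun _ => hfin⟩
  · have hfin' : ¬ Module.Finite A' B' := by
      intro hL
      have hrank : (Cardinal.aleph0 : Cardinal) ≤ Module.rank A B := by
        by_contra hlt
        exact hfin (Module.rank_lt_aleph0_iff.mp (not_le.mp hlt))
      obtain ⟨g, hg⟩ := exists_linearIndependent_of_le_rank (n := Module.finrank A' B' + 1)
        (le_trans (le_of_lt (Cardinal.natCast_lt_aleph0)) hrank)
      have h2 := (hLI _ g hg).fintype_card_le_finrank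
      rw [Fintype.card_fin] at h2
      omega
    refine ⟨?_, ?_, ?_⟩
    · rw [Algebra.norm_eq_one_of_not_module_finite hfin,
        Algebra.norm_eq_one_of_not_module_finite hfin', map_one]
    · rw [Module.finrank_of_not_finite hfin, Module.finrank_of_not_finite hfin']
    · exact ⟨fun h => absurd h hfin, fun h => absurd h hfin'⟩

end Abstract

section Core

variable {K L : Type*} [Field K] [Field L] [Algebra ℚ K] [Algebra ℚ L] [Algebra K L]

/-- Clearing the denominator of an element of `F_L = L · F_K`. -/
theorem exists_denominator_layer (F₀ : IntermediateField ℚ (LaurentSeries ℚ))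
    (g : laurentBaseChange L F₀) :
    ∃ d : LaurentSeries L, d ≠ 0 ∧
      d ∈ Algebra.adjoin L
        (coeffMap (algebraMap K L) '' (laurentBaseChange K F₀ : Set (LaurentSeries K))) ∧
      (g : LaurentSeries L) * d ∈ Algebra.adjoin L
        (coeffMap (algebraMap K L) '' (laurentBaseChange K F₀ : Set (LaurentSeries K))) := by
  have hg : (g : LaurentSeries L) ∈ IntermediateField.adjoin L
      (coeffMap (algebraMap K L) '' (laurentBaseChange K F₀ : Set (LaurentSeries K))) := by
    rw [Fermat.Agent.S37.helper1588.adjoin_coeffMap_laurentBaseChange]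
    exact g.2
  obtain ⟨r, hr, d, hd, hrd⟩ := IntermediateField.mem_adjoin_iff_div.mp hg
  by_cases hd0 : d = 0
  · refine ⟨1, one_ne_zero, one_mem _, ?_⟩
    rw [hrd, hd0, div_zero, zero_mul]
    exact zero_mem _
  · refine ⟨d, hd0, hd, ?_⟩
    rw [hrd, div_mul_cancel₀ _ hd0]
    exact hr

variable {F₀ F₁ : IntermediateField ℚ (LaurentSeries ℚ)}

/-- **Linear disjointness.**  Let `ψ : F_{0,K} → F_{1,K}`, `Ψ : F_{0,L} → F_{1,L}` be given on
Laurent series by ring endomorphisms `θK`, `θL` which commute with the coefficientwise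
functionals.  A family of `F_{1,K}` which is linearly independent over `F_{0,K}` (through `ψ`)
stays linearly independent over `F_{0,L}` (through `Ψ`) after coefficient extension. -/
theorem linearIndependent_layerHom
    (ψ : laurentBaseChange K F₀ →ₐ[K] laurentBaseChange K F₁)
    (Ψ : laurentBaseChange L F₀ →ₐ[L] laurentBaseChange L F₁)
    (θK : LaurentSeries K →+* LaurentSeries K) (θL : LaurentSeries L →+* LaurentSeries L)
    (hψ : ∀ x, ((ψ x : laurentBaseChange K F₁) : LaurentSeries K) = θK (x : LaurentSeries K))
    (hΨ : ∀ x, ((Ψ x : laurentBaseChange L F₁) : LaurentSeries L) = θL (x : LaurentSeries L))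
    (hθ : ∀ (ϕ : Module.Dual K L) (a : LaurentSeries L), dualMap ϕ (θL a) = θK (dualMap ϕ a))
    {ι' : Type*} (f : ι' → laurentBaseChange K F₁)
    (hf : letI := algebraAlong ψ; LinearIndependent (laurentBaseChange K F₀) f) :
    letI := algebraAlong Ψ
    LinearIndependent (laurentBaseChange L F₀)
      (fun i => layerHom F₁ (algebraMap K L) (f i)) := by
  classical
  letI := algebraAlong ψ
  letI := algebraAlong Ψ
  rw [linearIndependent_iff']
  intro s g hg i hi
  choose d hd0 hdA hgd using fun j => exists_denominator_layer (K := K) F₀ (g j)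
  set R : ι' → LaurentSeries L :=
    fun j => (g j : LaurentSeries L) * d j * ∏ k ∈ s.erase j, d k with hR
  have hRA : ∀ j, R j ∈ Algebra.adjoin L
      (coeffMap (algebraMap K L) '' (laurentBaseChange K F₀ : Set (LaurentSeries K))) :=
    fun j => mul_mem (hgd j) (prod_mem fun k _ => hdA k)
  set D : LaurentSeries L := ∏ k ∈ s, d k with hD
  have hD0 : D ≠ 0 := Finset.prod_ne_zero_iff.mpr fun k _ => hd0 k
  have hRD : ∀ j ∈ s, R j = (g j : LaurentSeries L) * D := by
    intro j hj
    show (g j : LaurentSeries L) * d j * ∏ k ∈ s.erase j, d k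
      = (g j : LaurentSeries L) * ∏ k ∈ s, d k
    rw [← Finset.mul_prod_erase s d hj, mul_assoc]
  -- the relation as an identity of Laurent series
  have h1 : ∑ j ∈ s, θL (g j : LaurentSeries L)
      * coeffMap (algebraMap K L) (f j : LaurentSeries K) = 0 := by
    have h0 := congrArg (laurentBaseChange L F₁).val hg
    rw [map_sum, map_zero] at h0
    rw [← h0]
    refine Finset.sum_congr rfl fun j _ => ?_
    rw [Algebra.smul_def, map_mul]
    have hΨj : (laurentBaseChange L F₁).val
        (algebraMap (laurentBaseChange L F₀) (laurentBaseChange L F₁) (g j))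
        = θL (g j : LaurentSeries L) := hΨ (g j)
    rw [hΨj]
    rfl
  have h2 : ∑ j ∈ s, θL (R j) * coeffMap (algebraMap K L) (f j : LaurentSeries K) = 0 := by
    have h2' : ∑ j ∈ s, θL (R j) * coeffMap (algebraMap K L) (f j : LaurentSeries K)
        = θL D * ∑ j ∈ s, θL (g j : LaurentSeries L)
          * coeffMap (algebraMap K L) (f j : LaurentSeries K) := by
      rw [Finset.mul_sum]
      refine Finset.sum_congr rfl fun j hj => ?_
      rw [hRD j hj, map_mul]
      ring
    rw [h2', h1, mul_zero]
  -- apply the coefficientwise functionals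
  have h3 : ∀ ϕ : Module.Dual K L, ∀ j ∈ s, dualMap ϕ (R j) = 0 := by
    intro ϕ
    set ρ : ι' → laurentBaseChange K F₀ := fun j =>
      ⟨dualMap ϕ (R j), Fermat.Agent.S37.helper1588.dualMap_mem _ (hRA j) ϕ⟩ with hρ
    have h4 : ∑ j ∈ s, ρ j • f j = 0 := by
      apply Subtype.ext
      have h5 : (laurentBaseChange K F₁).val (∑ j ∈ s, ρ j • f j)
          = ∑ j ∈ s, θK (dualMap ϕ (R j)) * (f j : LaurentSeries K) := by
        rw [map_sum]
        refine Finset.sum_congr rfl fun j _ => ?_
        rw [Algebra.smul_def, map_mul]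
        have hψj : (laurentBaseChange K F₁).val
            (algebraMap (laurentBaseChange K F₀) (laurentBaseChange K F₁) (ρ j))
            = θK (ρ j : LaurentSeries K) := hψ (ρ j)
        rw [hψj]
        rfl
      have h6 : ∑ j ∈ s, θK (dualMap ϕ (R j)) * (f j : LaurentSeries K)
          = dualMap ϕ (∑ j ∈ s, θL (R j)
            * coeffMap (algebraMap K L) (f j : LaurentSeries K)) := by
        rw [map_sum]
        refine Finset.sum_congr rfl fun j _ => ?_
        rw [Fermat.Agent.S37.helper1588.dualMap_mul_coeffMap, hθ]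
      show (laurentBaseChange K F₁).val (∑ j ∈ s, ρ j • f j) = (0 : LaurentSeries K)
      rw [h5, h6, h2, map_zero]
    have h7 := linearIndependent_iff'.mp hf s ρ h4
    intro j hj
    exact congrArg Subtype.val (h7 j hj)
  have h8 : R i = 0 :=
    Fermat.Agent.S37.helper1588.eq_zero_of_forall_dualMap (K := K) fun ϕ => h3 ϕ i hi
  rw [hRD i hi] at h8
  exact Subtype.ext ((mul_eq_zero.mp h8).resolve_right hD0)

/-- **Spanning.**  If every element of `F_{1,K}` is a combination of the finite family `f` with
coefficients from `ψ(F_{0,K})`, then every element of `F_{1,L}` is a combination of the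
coefficient extensions of `f` with coefficients from `Ψ(F_{0,L})`. -/
theorem exists_repr_layerHom
    (ψ : laurentBaseChange K F₀ →ₐ[K] laurentBaseChange K F₁)
    (Ψ : laurentBaseChange L F₀ →ₐ[L] laurentBaseChange L F₁)
    (hsq : ∀ x, layerHom F₁ (algebraMap K L) (ψ x) = Ψ (layerHom F₀ (algebraMap K L) x))
    {ι' : Type*} [Fintype ι'] (f : ι' → laurentBaseChange K F₁)
    (hspan : ∀ y : laurentBaseChange K F₁, ∃ c : ι' → laurentBaseChange K F₀,
      y = ∑ i, ψ (c i) * f i)
    (z : laurentBaseChange L F₁) :
    ∃ c : ι' → laurentBaseChange L F₀,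
      z = ∑ i, Ψ (c i) * layerHom F₁ (algebraMap K L) (f i) := by
  classical
  letI := algebraAlong Ψ
  set v : ι' → laurentBaseChange L F₁ := fun i => layerHom F₁ (algebraMap K L) (f i) with hv
  set S : Submodule (laurentBaseChange L F₀) (laurentBaseChange L F₁) :=
    Submodule.span (laurentBaseChange L F₀) (Set.range v) with hS
  have hsmul : ∀ (c : laurentBaseChange L F₀) (x : laurentBaseChange L F₁), c • x = Ψ c * x :=
    fun c x => Algebra.smul_def c x
  -- (i) the layer lies in `S`
  have hi : ∀ y : laurentBaseChange K F₁, layerHom F₁ (algebraMap K L) y ∈ S := by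
    intro y
    obtain ⟨c, hc⟩ := hspan y
    rw [hc, map_sum]
    refine Submodule.sum_mem _ fun i _ => ?_
    rw [map_mul, hsq, ← hsmul]
    exact Submodule.smul_mem _ _ (Submodule.subset_span ⟨i, rfl⟩)
  -- (ii) `S` is closed under multiplication
  have hmul : ∀ x ∈ S, ∀ y ∈ S, x * y ∈ S := by
    intro x hx y hy
    induction hx using Submodule.span_induction with
    | mem x hx =>
      obtain ⟨i, rfl⟩ := hx
      induction hy using Submodule.span_induction with
      | mem y hy =>
        obtain ⟨j, rfl⟩ := hy
        show layerHom F₁ (algebraMap K L) (f i) * layerHom F₁ (algebraMap K L) (f j) ∈ S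
        rw [← map_mul]
        exact hi _
      | zero => rw [mul_zero]; exact zero_mem _
      | add y z _ _ hy hz => rw [mul_add]; exact add_mem hy hz
      | smul c y _ hy => rw [mul_smul_comm]; exact Submodule.smul_mem _ _ hy
    | zero => rw [zero_mul]; exact zero_mem _
    | add x z _ _ hx hz => rw [add_mul]; exact add_mem hx hz
    | smul c x _ hx => rw [smul_mul_assoc]; exact Submodule.smul_mem _ _ hx
  have h1 : (1 : laurentBaseChange L F₁) ∈ S := by
    have := hi 1
    rwa [map_one] at this
  -- (iii) the `L`-algebra generated by the layer lies in `S`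
  have hadj : ∀ a ∈ Algebra.adjoin L
      (coeffMap (algebraMap K L) '' (laurentBaseChange K F₁ : Set (LaurentSeries K))),
      ∃ h : a ∈ laurentBaseChange L F₁, (⟨a, h⟩ : laurentBaseChange L F₁) ∈ S := by
    intro a ha
    induction ha using Algebra.adjoin_induction with
    | mem a ha =>
      obtain ⟨y, hy, rfl⟩ := ha
      exact ⟨(layerHom F₁ (algebraMap K L) ⟨y, hy⟩).2, hi ⟨y, hy⟩⟩
    | algebraMap l =>
      refine ⟨IntermediateField.algebraMap_mem _ l, ?_⟩
      have hl : (⟨algebraMap L (LaurentSeries L) l, IntermediateField.algebraMap_mem _ l⟩ :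
          laurentBaseChange L F₁)
          = (algebraMap L (laurentBaseChange L F₀) l) • (1 : laurentBaseChange L F₁) := by
        rw [hsmul, mul_one, Ψ.commutes]
        rfl
      rw [hl]
      exact Submodule.smul_mem _ _ h1
    | add a b _ _ ha hb =>
      obtain ⟨ha1, ha2⟩ := ha
      obtain ⟨hb1, hb2⟩ := hb
      have hab : (⟨a + b, add_mem ha1 hb1⟩ : laurentBaseChange L F₁)
          = (⟨a, ha1⟩ : laurentBaseChange L F₁) + ⟨b, hb1⟩ := Subtype.ext rfl
      refine ⟨add_mem ha1 hb1, ?_⟩
      rw [hab]
      exact add_mem ha2 hb2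
    | mul a b _ _ ha hb =>
      obtain ⟨ha1, ha2⟩ := ha
      obtain ⟨hb1, hb2⟩ := hb
      have hab : (⟨a * b, mul_mem ha1 hb1⟩ : laurentBaseChange L F₁)
          = (⟨a, ha1⟩ : laurentBaseChange L F₁) * ⟨b, hb1⟩ := Subtype.ext rfl
      refine ⟨mul_mem ha1 hb1, ?_⟩
      rw [hab]
      exact hmul _ ha2 _ hb2
  -- (iv) `S` is closed under inverses (a finite-dimensional domain is a field)
  have hinv : ∀ d ∈ S, d ≠ 0 → d⁻¹ ∈ S := fun d hd hd0 =>
    inv_mem_of_mul_mem_of_fg S (Submodule.fg_span (Set.finite_range v)) hmul h1 hd hd0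
  -- (v) every element of `F_{1,L}` lies in `S`
  have hz : (z : LaurentSeries L) ∈ IntermediateField.adjoin L
      (coeffMap (algebraMap K L) '' (laurentBaseChange K F₁ : Set (LaurentSeries K))) := by
    rw [Fermat.Agent.S37.helper1588.adjoin_coeffMap_laurentBaseChange]
    exact z.2
  obtain ⟨r, hr, d, hd, hrd⟩ := IntermediateField.mem_adjoin_iff_div.mp hz
  obtain ⟨hr1, hr2⟩ := hadj r hr
  obtain ⟨hd1, hd2⟩ := hadj d hd
  have hzS : z ∈ S := by
    by_cases hd0 : d = 0
    · have hz0 : z = 0 := Subtype.ext (by rw [hrd, hd0, div_zero]; rfl)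
      rw [hz0]
      exact zero_mem _
    · have hd0' : (⟨d, hd1⟩ : laurentBaseChange L F₁) ≠ 0 :=
        fun h => hd0 (congrArg Subtype.val h)
      have hzrd : z = ⟨r, hr1⟩ * (⟨d, hd1⟩ : laurentBaseChange L F₁)⁻¹ := by
        apply Subtype.ext
        rw [hrd, div_eq_mul_inv]
        rfl
      rw [hzrd]
      exact hmul _ hr2 _ (hinv _ hd2 hd0')
  obtain ⟨c, hc⟩ := (Submodule.mem_span_range_iff_exists_fun _).mp hzS
  refine ⟨c, ?_⟩
  rw [← hc]
  exact Finset.sum_congr rfl fun i _ => hsmul _ _

/-- **Norms commute with the constant-field extension** (abstract form). -/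
theorem layerHom_normAlong_of_square
    (ψ : laurentBaseChange K F₀ →ₐ[K] laurentBaseChange K F₁)
    (Ψ : laurentBaseChange L F₀ →ₐ[L] laurentBaseChange L F₁)
    (θK : LaurentSeries K →+* LaurentSeries K) (θL : LaurentSeries L →+* LaurentSeries L)
    (hψ : ∀ x, ((ψ x : laurentBaseChange K F₁) : LaurentSeries K) = θK (x : LaurentSeries K))
    (hΨ : ∀ x, ((Ψ x : laurentBaseChange L F₁) : LaurentSeries L) = θL (x : LaurentSeries L))
    (hθ : ∀ (ϕ : Module.Dual K L) (a : LaurentSeries L), dualMap ϕ (θL a) = θK (dualMap ϕ a))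
    (hsq : ∀ x, layerHom F₁ (algebraMap K L) (ψ x) = Ψ (layerHom F₀ (algebraMap K L) x))
    (y : laurentBaseChange K F₁) :
    layerHom F₀ (algebraMap K L) (Fermat.Agent.S29.helper36.normAlong ψ y)
      = Fermat.Agent.S29.helper36.normAlong Ψ (layerHom F₁ (algebraMap K L) y)
    ∧ finrankAlong K ψ = finrankAlong L Ψ ∧ (FiniteAlong K ψ ↔ FiniteAlong L Ψ) := by
  letI := algebraAlong ψ
  letI := algebraAlong Ψ
  exact norm_map_of_linearDisjoint (layerHom F₀ (algebraMap K L)) (layerHom F₁ (algebraMap K L))
    (fun a => hsq a)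
    (fun n f hf => linearIndependent_layerHom ψ Ψ θK θL hψ hΨ hθ f hf)
    (fun n f hf z => exists_repr_layerHom ψ Ψ hsq f hf z) y

end Core

section Modular

variable {K L : Type*} [Field K] [Field L] [Algebra ℚ K] [Algebra ℚ L]

omit [Algebra ℚ K] [Algebra ℚ L] in
/-- Coefficientwise functionals commute with `t ↦ t ^ q`. -/
theorem dualMap_qExpand [Algebra K L] (q : ℕ) [NeZero q] (ϕ : Module.Dual K L)
    (a : LaurentSeries L) : dualMap ϕ (qExpand L q a) = qExpand K q (dualMap ϕ a) := by
  ext k
  by_cases hk : (q : ℤ) ∣ k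
  · obtain ⟨m, rfl⟩ := hk
    rw [Fermat.Agent.S37.helper1588.dualMap_coeff, qExpand_coeff_mul, qExpand_coeff_mul,
      Fermat.Agent.S37.helper1588.dualMap_coeff]
  · rw [Fermat.Agent.S37.helper1588.dualMap_coeff, qExpand_coeff_of_not_dvd q a hk,
      qExpand_coeff_of_not_dvd q _ hk, map_zero]

variable (ι : K →+* L) (N q : ℕ) [NeZero N] [NeZero q]

/-- The square of `α` with the layer maps: norm and degree. -/
theorem layer_square_heckeAlphaBar
    (y : laurentBaseChange K (modularFunctionFieldFull (N * q))) :
    layerHom (modularFunctionFieldFull N) ι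
        (Fermat.Agent.S29.helper36.normAlong (heckeAlphaBar K N q) y)
      = Fermat.Agent.S29.helper36.normAlong (heckeAlphaBar L N q)
          (layerHom (modularFunctionFieldFull (N * q)) ι y)
    ∧ finrankAlong K (heckeAlphaBar K N q) = finrankAlong L (heckeAlphaBar L N q)
    ∧ (FiniteAlong K (heckeAlphaBar K N q) ↔ FiniteAlong L (heckeAlphaBar L N q)) := by
  letI : Algebra K L := ι.toAlgebra
  exact layerHom_normAlong_of_square (heckeAlphaBar K N q) (heckeAlphaBar L N q)
    (RingHom.id _) (RingHom.id _)
    (fun x => coe_heckeAlphaBar N q x) (fun x => coe_heckeAlphaBar N q x) (fun ϕ a => rfl)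
    (fun x => Fermat.Agent.S37.helper5651.layerHom_heckeAlphaBar N q ι x) y

omit [NeZero N] in
/-- The square of `β` with the layer maps: norm and degree. -/
theorem layer_square_heckeBetaBar
    (y : laurentBaseChange K (modularFunctionFieldFull (N * q))) :
    layerHom (modularFunctionFieldFull N) ι
        (Fermat.Agent.S29.helper36.normAlong (heckeBetaBar K N q) y)
      = Fermat.Agent.S29.helper36.normAlong (heckeBetaBar L N q)
          (layerHom (modularFunctionFieldFull (N * q)) ι y)
    ∧ finrankAlong K (heckeBetaBar K N q) = finrankAlong L (heckeBetaBar L N q)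
    ∧ (FiniteAlong K (heckeBetaBar K N q) ↔ FiniteAlong L (heckeBetaBar L N q)) := by
  letI : Algebra K L := ι.toAlgebra
  exact layerHom_normAlong_of_square (heckeBetaBar K N q) (heckeBetaBar L N q)
    (qExpand K q) (qExpand L q)
    (fun x => coe_heckeBetaBar N q x) (fun x => coe_heckeBetaBar N q x)
    (fun ϕ a => dualMap_qExpand q ϕ a)
    (fun x => Fermat.Agent.S37.helper5651.layerHom_heckeBetaBar N q ι x) y

/-- **(N2-α)** The norm along `α = heckeAlphaBar` commutes with the constant-field extension
`layerHom ι`, for every ring homomorphism `ι : K →+* L` of fields of characteristic zero. -/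
theorem layerHom_normAlong_heckeAlphaBar
    (y : laurentBaseChange K (modularFunctionFieldFull (N * q))) :
    layerHom (modularFunctionFieldFull N) ι
        (Fermat.Agent.S29.helper36.normAlong (heckeAlphaBar K N q) y)
      = Fermat.Agent.S29.helper36.normAlong (heckeAlphaBar L N q)
          (layerHom (modularFunctionFieldFull (N * q)) ι y) :=
  (layer_square_heckeAlphaBar ι N q y).1

omit [NeZero N] in
/-- **(N2-β)** The norm along `β = heckeBetaBar` commutes with the constant-field extension
`layerHom ι`. -/
theorem layerHom_normAlong_heckeBetaBar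
    (y : laurentBaseChange K (modularFunctionFieldFull (N * q))) :
    layerHom (modularFunctionFieldFull N) ι
        (Fermat.Agent.S29.helper36.normAlong (heckeBetaBar K N q) y)
      = Fermat.Agent.S29.helper36.normAlong (heckeBetaBar L N q)
          (layerHom (modularFunctionFieldFull (N * q)) ι y) :=
  (layer_square_heckeBetaBar ι N q y).1

/-- (N2-α), in the function form `S29.helper8217.normAlong` used by `helper1335.KillFFAt`. -/
theorem layerHom_normAlong8217_heckeAlphaBar
    (y : laurentBaseChange K (modularFunctionFieldFull (N * q))) :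
    layerHom (modularFunctionFieldFull N) ι
        (Fermat.Agent.S29.helper8217.normAlong (heckeAlphaBar K N q) y)
      = Fermat.Agent.S29.helper8217.normAlong (heckeAlphaBar L N q)
          (layerHom (modularFunctionFieldFull (N * q)) ι y) :=
  layerHom_normAlong_heckeAlphaBar ι N q y

omit [NeZero N] in
/-- (N2-β), in the function form `S29.helper8217.normAlong` used by `helper1335.KillFFAt`. -/
theorem layerHom_normAlong8217_heckeBetaBar
    (y : laurentBaseChange K (modularFunctionFieldFull (N * q))) :
    layerHom (modularFunctionFieldFull N) ι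
        (Fermat.Agent.S29.helper8217.normAlong (heckeBetaBar K N q) y)
      = Fermat.Agent.S29.helper8217.normAlong (heckeBetaBar L N q)
          (layerHom (modularFunctionFieldFull (N * q)) ι y) :=
  layerHom_normAlong_heckeBetaBar ι N q y

/-- **(N2-deg, α)** The degree of `α` does not depend on the constant field. -/
theorem finrankAlong_heckeAlphaBar_layer (ι : K →+* L) (N q : ℕ) [NeZero N] [NeZero q] :
    finrankAlong K (heckeAlphaBar K N q) = finrankAlong L (heckeAlphaBar L N q) :=
  (layer_square_heckeAlphaBar ι N q 1).2.1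

/-- **(N2-deg, β)** The degree of `β` does not depend on the constant field. -/
theorem finrankAlong_heckeBetaBar_layer (ι : K →+* L) (N q : ℕ) [NeZero N] [NeZero q] :
    finrankAlong K (heckeBetaBar K N q) = finrankAlong L (heckeBetaBar L N q) :=
  (layer_square_heckeBetaBar ι N q 1).2.1

/-- **(N2-fin, α)** Finiteness of `α` does not depend on the constant field. -/
theorem finiteAlong_heckeAlphaBar_layer (ι : K →+* L) (N q : ℕ) [NeZero N] [NeZero q] :
    FiniteAlong K (heckeAlphaBar K N q) ↔ FiniteAlong L (heckeAlphaBar L N q) :=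
  (layer_square_heckeAlphaBar ι N q 1).2.2

/-- **(N2-fin, β)** Finiteness of `β` does not depend on the constant field. -/
theorem finiteAlong_heckeBetaBar_layer (ι : K →+* L) (N q : ℕ) [NeZero N] [NeZero q] :
    FiniteAlong K (heckeBetaBar K N q) ↔ FiniteAlong L (heckeBetaBar L N q) :=
  (layer_square_heckeBetaBar ι N q 1).2.2

end Modular

section NormMap

/-- `N(ψ a) = a ^ deg ψ` for the norm along a homomorphism of fields. -/
theorem normAlong_apply_self {K F F' : Type*} [Field K] [Field F] [Field F'] [Algebra K F]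
    [Algebra K F'] (ψ : F →ₐ[K] F') (a : F) :
    Fermat.Agent.S29.helper36.normAlong ψ (ψ a) = a ^ finrankAlong K ψ := by
  letI := algebraAlong ψ
  exact Algebra.norm_algebraMap a

variable {K : Type*} [Field K] [Algebra ℚ K]

/-- The degree of `α` over `K` at a prime `q ∣ N` is `q`. -/
theorem finrankAlong_heckeAlphaBar_of_dvd_layer (ι : K →+* AlgebraicClosure ℚ) (N q : ℕ)
    [NeZero N] [NeZero q] (hq : q.Prime) (hqN : q ∣ N) :
    finrankAlong K (heckeAlphaBar K N q) = q := by
  rw [finrankAlong_heckeAlphaBar_layer ι N q]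
  exact Fermat.Agent.S37.helper9342.finrankAlong_heckeAlphaBar_of_dvd N hq hqN

/-- The degree of `β` over `K` at a prime `q ∣ N` is `q`. -/
theorem finrankAlong_heckeBetaBar_of_dvd_layer (ι : K →+* AlgebraicClosure ℚ) (N q : ℕ)
    [NeZero N] [NeZero q] (hq : q.Prime) (hqN : q ∣ N) :
    finrankAlong K (heckeBetaBar K N q) = q := by
  rw [finrankAlong_heckeBetaBar_layer ι N q]
  exact Fermat.Agent.S35.helper2106.finrankAlong_heckeBetaBar_of_dvd N q hq hqN

/-- `α` is finite over `K` at a prime `q ∣ N` (of degree `q`). -/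
theorem finiteAlong_heckeAlphaBar_of_dvd_layer (ι : K →+* AlgebraicClosure ℚ) (N q : ℕ)
    [NeZero N] [NeZero q] (hq : q.Prime) (hqN : q ∣ N) :
    FiniteAlong K (heckeAlphaBar K N q) := by
  have h := finrankAlong_heckeAlphaBar_of_dvd_layer ι N q hq hqN
  letI := algebraAlong (heckeAlphaBar K N q)
  exact Module.finite_of_finrank_pos (lt_of_lt_of_eq hq.pos h.symm)

/-- `β` is finite over `K` at a prime `q ∣ N` (of degree `q`). -/
theorem finiteAlong_heckeBetaBar_of_dvd_layer (ι : K →+* AlgebraicClosure ℚ) (N q : ℕ)
    [NeZero N] [NeZero q] (hq : q.Prime) (hqN : q ∣ N) :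
    FiniteAlong K (heckeBetaBar K N q) := by
  have h := finrankAlong_heckeBetaBar_of_dvd_layer ι N q hq hqN
  letI := algebraAlong (heckeBetaBar K N q)
  exact Module.finite_of_finrank_pos (lt_of_lt_of_eq hq.pos h.symm)

/-- **`DegData.norm_map` for `α` over `K`**: `N_α (α a) = a ^ q` at a prime `q ∣ N`. -/
theorem normAlong_heckeAlphaBar_apply_self (ι : K →+* AlgebraicClosure ℚ) (N q : ℕ)
    [NeZero N] [NeZero q] (hq : q.Prime) (hqN : q ∣ N)
    (a : laurentBaseChange K (modularFunctionFieldFull N)) :
    Fermat.Agent.S29.helper36.normAlong (heckeAlphaBar K N q) (heckeAlphaBar K N q a) = a ^ q := by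
  rw [normAlong_apply_self, finrankAlong_heckeAlphaBar_of_dvd_layer ι N q hq hqN]

/-- **`DegData.norm_map` for `β` over `K`**: `N_β (β a) = a ^ q` at a prime `q ∣ N`. -/
theorem normAlong_heckeBetaBar_apply_self (ι : K →+* AlgebraicClosure ℚ) (N q : ℕ)
    [NeZero N] [NeZero q] (hq : q.Prime) (hqN : q ∣ N)
    (a : laurentBaseChange K (modularFunctionFieldFull N)) :
    Fermat.Agent.S29.helper36.normAlong (heckeBetaBar K N q) (heckeBetaBar K N q a) = a ^ q := by
  rw [normAlong_apply_self, finrankAlong_heckeBetaBar_of_dvd_layer ι N q hq hqN]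

end NormMap

end

end Fermat.Agent.S36.helper1359
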