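/-
S36 (route #3001, captain ruling #172): S36-CHARTS (C4) = the CHART <-> VALUATION DICTIONARY.
Board row #2257, helper4551.

Setting of record (`helper248_RootLatticeChart`): `A0` a noetherian integrally closed domain with
fraction field `K0` of characteristic zero, `L` a field finite over `K0(t)`, `t` transcendental,
`chartRing A0 {t}` = integral closure of `A0[t]` in `L`.  For a prime element `q` of `A0`, the
valuation rings `V` of `L` lying over the Gauss valuation ring `A0[t]_(q)` of `K0(t)`
(`IsGaussExt A0 t q V`) are exactly the local rings of the chart at the minimal primes over `q`: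

* `GaussOver`, `centre`, `GaussOver.centre_mem_minimalPrimes`,
  `exists_gaussOver_of_mem_minimalPrimes`, `GaussOver.exists_mul_eq`,
  `mem_radical_of_forall_gaussOver`, `exists_algebraMap_eq_of_forall_gaussOver` :
  the abstract statements for an integral extension `R ⊆ B` of integrally closed domains,
  `B` noetherian with fraction field `L`, and a prime element `π` of `R`.
* `IsGaussExt` and the chart forms (second half of the file).
-/
import Mathlib
import Fermat.Agent.S36.helper248_RootLatticeChart
import Fermat.Agent.S36.helper4696_LPAlg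

set_option autoImplicit false

namespace Fermat.Agent.S36.helper4551

open IsLocalRing

/-! ## Height-one primes of a noetherian integrally closed domain -/

section HeightOne

variable {B : Type*} [CommRing B] [IsDomain B]

/-- In a noetherian domain, a minimal prime over a nonzero principal ideal has height one. -/
theorem height_eq_one_of_mem_minimalPrimes [IsNoetherianRing B] {a : B} (ha : a ≠ 0)
    {P : Ideal B} (hP : P ∈ (Ideal.span {a}).minimalPrimes) : P.height = 1 := by
  have h1 : P.height ≤ 1 :=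
    Ideal.height_le_one_of_isPrincipal_of_mem_minimalPrimes (Ideal.span {a}) P hP
  have h0 : P.height ≠ 0 := by
    rw [Ne, Ideal.height_eq_zero_iff_eq_bot]
    rintro rfl
    exact ha (by simpa using hP.1.2 (Ideal.mem_span_singleton_self a))
  exact le_antisymm h1 (Order.one_le_iff_pos.mpr (pos_iff_ne_zero.mpr h0))

/-- A height-one prime containing `a ≠ 0` is a minimal prime over `(a)`. -/
theorem mem_minimalPrimes_of_height_eq_one {a : B}
    {P : Ideal B} [hPp : P.IsPrime] (hP : P.height = 1) (ha0 : a ≠ 0) (ha : a ∈ P) :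
    P ∈ (Ideal.span {a}).minimalPrimes := by
  refine ⟨⟨hPp, (Ideal.span_singleton_le_iff_mem _).mpr ha⟩, ?_⟩
  rintro Q ⟨hQ, hQa⟩ hQP
  by_contra hne
  have hlt : Q < P := lt_of_le_of_ne hQP (fun h => hne (h ▸ le_rfl))
  have hfin : P.FiniteHeight :=
    (Ideal.finiteHeight_iff _).mpr (Or.inr (by rw [hP]; exact ENat.one_ne_top))
  have h1 := Ideal.height_strict_mono_of_isPrime_of_isPrime hlt
  rw [hP, Order.lt_one_iff, Ideal.height_eq_zero_iff_eq_bot] at h1
  subst h1
  exact ha0 (by simpa using hQa (Ideal.mem_span_singleton_self a))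

/-- The localization of a noetherian integrally closed domain at a height-one prime is a
valuation ring. -/
theorem valuationRing_localization_atPrime [IsNoetherianRing B] [IsIntegrallyClosed B]
    (P : Ideal B) [P.IsPrime] (hP : P.height = 1) : ValuationRing (Localization.AtPrime P) := by
  have htfae := tfae_of_isNoetherianRing_of_isLocalRing_of_isDomain (Localization.AtPrime P)
  have hIC : IsIntegrallyClosed (Localization.AtPrime P) :=
    isIntegrallyClosed_of_isLocalization _ P.primeCompl P.primeCompl_le_nonZeroDivisors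
  have h13 := htfae.out 1 3
  apply h13.mpr
  refine ⟨hIC, ?_⟩
  intro Q hQ0 hQ
  have hQmap := IsLocalization.map_under P.primeCompl (Localization.AtPrime P) Q
  set Q' := Ideal.under B Q with hQ'
  have hQ'prime : Q'.IsPrime := Ideal.IsPrime.under B Q
  have hQ'le : Q' ≤ P := by
    intro b hb
    by_contra hbP
    have hu : IsUnit (algebraMap B (Localization.AtPrime P) b) :=
      IsLocalization.map_units (Localization.AtPrime P) (⟨b, hbP⟩ : P.primeCompl)
    exact hQ.ne_top (Ideal.eq_top_of_isUnit_mem _ hb hu)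
  have hQ'ne : Q' ≠ ⊥ := by
    intro h
    apply hQ0
    rw [← hQmap, h, Ideal.map_bot]
  have hQ'P : Q' = P := by
    by_contra hne
    have hlt : Q' < P := lt_of_le_of_ne hQ'le hne
    have hfin : P.FiniteHeight :=
      (Ideal.finiteHeight_iff _).mpr (Or.inr (by rw [hP]; exact ENat.one_ne_top))
    have h1 := Ideal.height_strict_mono_of_isPrime_of_isPrime hlt
    rw [hP, Order.lt_one_iff, Ideal.height_eq_zero_iff_eq_bot] at h1
    exact hQ'ne h1
  rw [← hQmap, hQ'P]
  exact IsLocalization.AtPrime.map_eq_maximalIdeal P (Localization.AtPrime P)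

end HeightOne

/-! ## The abstract dictionary -/

section Abstract

variable {R B L : Type*} [CommRing R] [CommRing B] [Field L]
  [Algebra R B] [Algebra B L] [Algebra R L] [IsScalarTower R B L]

/-- A valuation ring contains every element integral over a ring it contains. -/
theorem mem_valuationSubring_of_isIntegral (V : ValuationSubring L)
    (hR : ∀ r : R, algebraMap R L r ∈ V) {x : L} (hx : IsIntegral R x) : x ∈ V := by
  let f : R →+* V :=
    { toFun := fun r => ⟨algebraMap R L r, hR r⟩
      map_one' := Subtype.ext (map_one _)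
      map_mul' := fun a b => Subtype.ext (map_mul _ a b)
      map_zero' := Subtype.ext (map_zero _)
      map_add' := fun a b => Subtype.ext (map_add _ a b) }
  have h1 : IsIntegral V x :=
    Fermat.Agent.S18.helper5377.isIntegral_of_ringHom f (by ext; rfl) hx
  obtain ⟨y, rfl⟩ := (IsIntegrallyClosed.isIntegral_iff (R := V) (K := L)).mp h1
  exact y.2

/-- `V` contains (the image of) `R` and its maximal ideal meets `R` in `(π)`:
`V` lies over the valuation ring `R_(π)`. -/
def GaussOver (π : R) (V : ValuationSubring L) : Prop :=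
  (∀ r : R, algebraMap R L r ∈ V) ∧ ∀ r : R, algebraMap R L r ∈ V.nonunits ↔ π ∣ r

variable {π : R} {V : ValuationSubring L}

theorem GaussOver.algebraMap_mem [Algebra.IsIntegral R B] (h : GaussOver π V) (b : B) :
    algebraMap B L b ∈ V := by
  refine mem_valuationSubring_of_isIntegral V h.1 ?_
  have := (Algebra.IsIntegral.isIntegral (R := R) b).map (IsScalarTower.toAlgHom R B L)
  simpa using this

/-- The centre on `B` of a valuation ring containing `B`. -/
def centre (V : ValuationSubring L) (hV : ∀ b : B, algebraMap B L b ∈ V) : Ideal B :=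
  (maximalIdeal V).comap ((algebraMap B L).codRestrict V hV)

theorem mem_centre {hV : ∀ b : B, algebraMap B L b ∈ V} {b : B} :
    b ∈ centre V hV ↔ algebraMap B L b ∈ V.nonunits := by
  rw [centre, Ideal.mem_comap, ← ValuationSubring.coe_mem_nonunits_iff]
  rfl

instance centre_isPrime (hV : ∀ b : B, algebraMap B L b ∈ V) : (centre V hV).IsPrime :=
  Ideal.comap_isPrime _ _

theorem GaussOver.algebraMap_mem_centre [Algebra.IsIntegral R B] (h : GaussOver π V) :
    algebraMap R B π ∈ centre V h.algebraMap_mem := by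
  rw [mem_centre, ← IsScalarTower.algebraMap_apply]
  exact (h.2 π).mpr dvd_rfl

/-- The centre of a valuation ring over `R_(π)` is a minimal prime over `π B`. -/
theorem GaussOver.centre_mem_minimalPrimes [Algebra.IsIntegral R B] (h : GaussOver π V) :
    centre V h.algebraMap_mem ∈ (Ideal.span {algebraMap R B π}).minimalPrimes := by
  refine ⟨⟨inferInstance, (Ideal.span_singleton_le_iff_mem _).mpr h.algebraMap_mem_centre⟩, ?_⟩
  rintro Q ⟨hQ, hQπ⟩ hQP
  by_contra hne
  obtain ⟨x, hxP, hxQ⟩ := Set.not_subset.mp hne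
  have hlt := Ideal.comap_lt_comap_of_integral_mem_sdiff (R := R) hQP ⟨hxP, hxQ⟩
    (Algebra.IsIntegral.isIntegral x)
  refine hlt.not_ge ?_
  intro r hr
  rw [Ideal.mem_comap, mem_centre, ← IsScalarTower.algebraMap_apply] at hr
  obtain ⟨c, rfl⟩ := (h.2 r).mp hr
  rw [Ideal.mem_comap, map_mul]
  exact Ideal.mul_mem_right _ _ ((Ideal.span_singleton_le_iff_mem _).mp hQπ)

section Domain

variable [IsDomain R] [IsIntegrallyClosed R] [IsDomain B] [IsNoetherianRing B]
  [FaithfulSMul R B] [Algebra.IsIntegral R B] [IsFractionRing B L]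

/-- **Every minimal prime of `B` over `π` is the centre of a valuation ring over `R_(π)`.** -/
theorem exists_gaussOver_of_mem_minimalPrimes (hπ0 : π ≠ 0) (hπ : (Ideal.span {π}).IsPrime)
    (P : Ideal B) (hP : P ∈ (Ideal.span {algebraMap R B π}).minimalPrimes) :
    ∃ V : ValuationSubring L, GaussOver π V ∧ ∀ b : B, b ∈ P ↔ algebraMap B L b ∈ V.nonunits := by
  have hPp : P.IsPrime := hP.1.1
  have hπB0 : algebraMap R B π ≠ 0 := fun h =>
    hπ0 ((FaithfulSMul.algebraMap_injective R B) (by rw [h, map_zero]))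
  have hπP : algebraMap R B π ∈ P := hP.1.2 (Ideal.mem_span_singleton_self _)
  have hP1 : P.height = 1 := height_eq_one_of_mem_minimalPrimes hπB0 hP
  have hunder : P.under R = Ideal.span {π} :=
    helper4696.under_eq_span_singleton_of_height_one π hπ0 hπ P hP1 hπP
  have hinj : Function.Injective (algebraMap B L) := IsFractionRing.injective B L
  have hg : ∀ y : P.primeCompl, IsUnit (algebraMap B L y) := by
    rintro ⟨y, hy⟩
    refine IsUnit.mk0 _ ?_
    intro h0
    apply hy
    have : y = 0 := hinj (by rw [h0, map_zero])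
    rw [this]
    exact P.zero_mem
  let f : Localization.AtPrime P →+* L := IsLocalization.lift (M := P.primeCompl) hg
  have hf : ∀ b : B, f (algebraMap B (Localization.AtPrime P) b) = algebraMap B L b :=
    fun b => IsLocalization.lift_eq hg b
  obtain ⟨V, hfV, hloc⟩ := IsLocalRing.exists_factor_valuationRing f
  have hBV : ∀ b : B, algebraMap B L b ∈ V := fun b => hf b ▸ hfV _
  have hiff : ∀ b : B, b ∈ P ↔ algebraMap B L b ∈ V.nonunits := by
    intro b
    have hcoe : algebraMap B L b ∈ V.nonunits ↔
        ¬ IsUnit (f.codRestrict V.toSubring hfV (algebraMap B (Localization.AtPrime P) b)) := by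
      have h1 : ((f.codRestrict V.toSubring hfV (algebraMap B (Localization.AtPrime P) b) : V) : L)
          = algebraMap B L b := hf b
      rw [← h1]
      exact ValuationSubring.coe_mem_nonunits_iff.trans (IsLocalRing.mem_maximalIdeal _)
    rw [hcoe]
    constructor
    · intro hb hu
      have hu' : IsUnit (algebraMap B (Localization.AtPrime P) b) := hloc.map_nonunit _ hu
      have hmem : algebraMap B (Localization.AtPrime P) b ∈ maximalIdeal (Localization.AtPrime P) :=
        (IsLocalization.AtPrime.to_map_mem_maximal_iff (Localization.AtPrime P) P b).mpr hb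
      exact (IsLocalRing.mem_maximalIdeal _).mp hmem hu'
    · intro hnu
      by_contra hb
      have hu : IsUnit (algebraMap B (Localization.AtPrime P) b) :=
        IsLocalization.map_units (Localization.AtPrime P) (⟨b, hb⟩ : P.primeCompl)
      exact hnu (hu.map _)
  refine ⟨V, ⟨fun r => ?_, fun r => ?_⟩, hiff⟩
  · rw [IsScalarTower.algebraMap_apply R B L]
    exact hBV _
  · rw [IsScalarTower.algebraMap_apply R B L, ← hiff, ← Ideal.mem_span_singleton, ← hunder]
    rfl

omit [IsDomain R] [IsIntegrallyClosed R] in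
/-- **A valuation ring over `R_(π)` is the local ring of `B` at its centre**: every element of
`V` is a fraction `a / s` with `a, s ∈ B`, `s` a unit of `V`. -/
theorem GaussOver.exists_mul_eq [IsIntegrallyClosed B] (hπ0 : π ≠ 0) (h : GaussOver π V)
    {x : L} (hx : x ∈ V) :
    ∃ a s : B, algebraMap B L s ∉ V.nonunits ∧ x * algebraMap B L s = algebraMap B L a := by
  by_cases hx0 : x = 0
  · refine ⟨0, 1, ?_, by rw [hx0, zero_mul, map_zero]⟩
    rw [map_one]
    exact fun h1 => V.valuation.map_one.not_lt (V.valuation_lt_one_iff ⟨1, V.one_mem⟩ |>.mp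
      (ValuationSubring.coe_mem_nonunits_iff.mp h1))
  set P : Ideal B := centre V h.algebraMap_mem with hPdef
  have hπB0 : algebraMap R B π ≠ 0 := fun h0 =>
    hπ0 ((FaithfulSMul.algebraMap_injective R B) (by rw [h0, map_zero]))
  have hP1 : P.height = 1 := height_eq_one_of_mem_minimalPrimes hπB0 h.centre_mem_minimalPrimes
  have hVR : ValuationRing (Localization.AtPrime P) := valuationRing_localization_atPrime P hP1
  have hinj : Function.Injective (algebraMap B L) := IsFractionRing.injective B L
  have hg : ∀ y : P.primeCompl, IsUnit (algebraMap B L y) := by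
    rintro ⟨y, hy⟩
    refine IsUnit.mk0 _ ?_
    intro h0
    apply hy
    have : y = 0 := hinj (by rw [h0, map_zero])
    rw [this]
    exact P.zero_mem
  let f : Localization.AtPrime P →+* L := IsLocalization.lift (M := P.primeCompl) hg
  have hf : ∀ b : B, f (algebraMap B (Localization.AtPrime P) b) = algebraMap B L b :=
    fun b => IsLocalization.lift_eq hg b
  let _ : Algebra (Localization.AtPrime P) L := f.toAlgebra
  have : IsScalarTower B (Localization.AtPrime P) L :=
    IsScalarTower.of_algebraMap_eq (fun b => (hf b).symm)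
  have : IsFractionRing (Localization.AtPrime P) L :=
    IsFractionRing.isFractionRing_of_isDomain_of_isLocalization P.primeCompl
      (Localization.AtPrime P) L
  -- fractions with denominator outside `P`
  have hfrac : ∀ y : Localization.AtPrime P, ∃ a s : B, s ∉ P ∧
      algebraMap (Localization.AtPrime P) L y * algebraMap B L s = algebraMap B L a := by
    intro y
    obtain ⟨a, s, rfl⟩ := IsLocalization.exists_mk'_eq P.primeCompl y
    refine ⟨a, s.1, s.2, ?_⟩
    have := congrArg (algebraMap (Localization.AtPrime P) L)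
      (IsLocalization.mk'_spec (Localization.AtPrime P) a s)
    rw [map_mul, ← IsScalarTower.algebraMap_apply, ← IsScalarTower.algebraMap_apply] at this
    exact this
  have hval : ∀ b : B, b ∉ P → V.valuation (algebraMap B L b) = 1 := by
    intro b hb
    have hle : V.valuation (algebraMap B L b) ≤ 1 :=
      (V.valuation_le_one_iff _).mpr (h.algebraMap_mem b)
    refine le_antisymm hle (not_lt.mp fun hlt => hb ?_)
    rw [hPdef, mem_centre]
    exact (V.valuation_lt_one_iff ⟨_, h.algebraMap_mem b⟩ |>.mpr hlt) |>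
      ValuationSubring.coe_mem_nonunits_iff.mpr
  have hnon : ∀ b : B, b ∉ P → algebraMap B L b ∉ V.nonunits := fun b hb hb' => hb (by
    rw [hPdef, mem_centre]; exact hb')
  rcases ValuationRing.isInteger_or_isInteger (Localization.AtPrime P) x with ⟨y, hy⟩ | ⟨y, hy⟩
  · obtain ⟨a, s, hs, has⟩ := hfrac y
    exact ⟨a, s, hnon s hs, by rw [← hy]; exact has⟩
  · obtain ⟨a, s, hs, has⟩ := hfrac y
    have hy' : algebraMap (Localization.AtPrime P) L y = x⁻¹ := hy
    rw [hy'] at has
    -- `x⁻¹ * s = a`
    by_cases ha : a ∈ P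
    · exfalso
      have hva : V.valuation (algebraMap B L a) < 1 := by
        have : algebraMap B L a ∈ V.nonunits := by rw [← mem_centre]; exact ha
        exact (V.valuation_lt_one_iff ⟨_, h.algebraMap_mem a⟩).mp
          (ValuationSubring.coe_mem_nonunits_iff.mp this)
      have hvx : V.valuation x ≤ 1 := (V.valuation_le_one_iff _).mpr hx
      have hvs := hval s hs
      have hmul : V.valuation x⁻¹ * V.valuation (algebraMap B L s)
          = V.valuation (algebraMap B L a) := by rw [← map_mul, has]
      rw [hvs, mul_one, map_inv₀] at hmul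
      have hx0' : V.valuation x ≠ 0 := (Valuation.ne_zero_iff _).mpr hx0
      have h1 : (V.valuation x)⁻¹ < 1 := hmul ▸ hva
      have h2 : 1 ≤ (V.valuation x)⁻¹ := (one_le_inv₀ (zero_lt_iff.mpr hx0')).mpr hvx
      exact absurd h1 (not_lt.mpr h2)
    · refine ⟨s, a, hnon a ha, ?_⟩
      rw [← has]
      field_simp

/-- **Radical form.** An element of `B` lying in the maximal ideal of every valuation ring over
`R_(π)` is nilpotent modulo `π B`. -/
theorem mem_radical_of_forall_gaussOver (hπ0 : π ≠ 0) (hπ : (Ideal.span {π}).IsPrime) (b : B)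
    (hb : ∀ V : ValuationSubring L, GaussOver π V → algebraMap B L b ∈ V.nonunits) :
    b ∈ (Ideal.span {algebraMap R B π}).radical := by
  rw [← Ideal.sInf_minimalPrimes, Ideal.mem_sInf]
  intro P hP
  obtain ⟨V, hV, hPV⟩ := exists_gaussOver_of_mem_minimalPrimes (L := L) hπ0 hπ P hP
  exact (hPV b).mpr (hb V hV)

/-- **Krull, valuation form.** If `π ^ N * x ∈ B` and `x` lies in every valuation ring over
`R_(π)`, then `x ∈ B`. -/
theorem exists_algebraMap_eq_of_forall_gaussOver [IsIntegrallyClosed B] (hπ0 : π ≠ 0)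
    (hπ : (Ideal.span {π}).IsPrime) (x : L) (N : ℕ) (c : B)
    (hc : algebraMap R L π ^ N * x = algebraMap B L c)
    (hx : ∀ V : ValuationSubring L, GaussOver π V → x ∈ V) : ∃ b : B, algebraMap B L b = x := by
  have hπB0 : algebraMap R B π ≠ 0 := fun h0 =>
    hπ0 ((FaithfulSMul.algebraMap_injective R B) (by rw [h0, map_zero]))
  refine helper4696.mem_range_of_forall_height_one L x ?_
  intro P hP hP1
  by_cases hπP : algebraMap R B π ∈ P
  · have hmin : P ∈ (Ideal.span {algebraMap R B π}).minimalPrimes :=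
      mem_minimalPrimes_of_height_eq_one hP1 hπB0 hπP
    obtain ⟨V, hV, hPV⟩ := exists_gaussOver_of_mem_minimalPrimes (L := L) hπ0 hπ P hmin
    obtain ⟨a, s, hs, has⟩ := hV.exists_mul_eq (B := B) hπ0 (hx V hV)
    exact ⟨a, s, fun hsP => hs ((hPV s).mp hsP), has⟩
  · refine ⟨c, algebraMap R B π ^ N, fun hmem => hπP (hP.mem_of_pow_mem _ hmem), ?_⟩
    rw [map_pow, ← IsScalarTower.algebraMap_apply, mul_comm]
    exact hc

end Domain

end Abstract

/-! ## Valuation-ring generalities -/

section ValGen

variable {L : Type*} [Field L] (V : ValuationSubring L)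

theorem mem_nonunits_iff_val {x : L} : x ∈ V.nonunits ↔ V.valuation x < 1 :=
  Iff.rfl

theorem mul_mem_nonunits_left {x y : L} (hx : x ∈ V.nonunits) (hy : y ∈ V) :
    x * y ∈ V.nonunits := by
  rw [mem_nonunits_iff_val] at hx ⊢
  have hy' : V.valuation y ≤ 1 := (V.valuation_le_one_iff _).mpr hy
  rw [map_mul]
  exact mul_lt_one_of_lt_of_le hx hy'

theorem one_notMem_nonunits : (1 : L) ∉ V.nonunits := by
  rw [mem_nonunits_iff_val, map_one]
  exact lt_irrefl _

theorem inv_mem_of_notMem_nonunits {x : L} (hx : x ∈ V) (hx' : x ∉ V.nonunits) : x⁻¹ ∈ V := by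
  rw [mem_nonunits_iff_val, not_lt] at hx'
  have h1 : V.valuation x = 1 := le_antisymm ((V.valuation_le_one_iff _).mpr hx) hx'
  rw [← V.valuation_le_one_iff, map_inv₀, h1, inv_one]

end ValGen

/-! ## The chart form -/

section Chart

open Polynomial
open Fermat.Agent.S36.helper248 Fermat.Agent.S36.helper1730 Fermat.Agent.S18

/-- `V` is an extension to `L` of the Gauss valuation of `A0[t]` attached to `q`:
`V ⊇ A0[t]`, `q ∈ m_V`, and the residue class of `t` is transcendental over `A0 / q`
(a polynomial in `t` with coefficients in `A0` lies in `m_V` only if all its coefficients are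
divisible by `q`). -/
def IsGaussExt (A0 : Type*) {L : Type*} [CommRing A0] [Field L] [Algebra A0 L] (t : L) (q : A0)
    (V : ValuationSubring L) : Prop :=
  (∀ a : A0, algebraMap A0 L a ∈ V) ∧ t ∈ V ∧ algebraMap A0 L q ∈ V.nonunits ∧
    ∀ f : A0[X], aeval t f ∈ V.nonunits → ∀ n, q ∣ f.coeff n

variable {A0 L : Type*} [CommRing A0] [Field L] [Algebra A0 L]
variable {t : L} {q : A0} {V : ValuationSubring L}

theorem IsGaussExt.aeval_mem (h : IsGaussExt A0 t q V) (f : A0[X]) : aeval t f ∈ V := by
  rw [aeval_eq_sum_range]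
  refine sum_mem fun i _ => ?_
  rw [Algebra.smul_def]
  exact V.mul_mem _ _ (h.1 _) (pow_mem h.2.1 i)

theorem IsGaussExt.adjoin_le (h : IsGaussExt A0 t q V) {y : L}
    (hy : y ∈ Algebra.adjoin A0 ({t} : Set L)) : y ∈ V := by
  rw [Algebra.adjoin_singleton_eq_range_aeval] at hy
  obtain ⟨f, rfl⟩ := hy
  exact h.aeval_mem f

/-- The chart ring is contained in every Gauss extension. -/
theorem IsGaussExt.chartRing_le (h : IsGaussExt A0 t q V) :
    chartRing A0 ({t} : Set L) ≤ V.toSubring := fun _ hx =>
  mem_valuationSubring_of_isIntegral (R := ↥(Algebra.adjoin A0 ({t} : Set L))) V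
    (fun r => h.adjoin_le r.2) hx

theorem IsGaussExt.not_dvd_one (h : IsGaussExt A0 t q V) : ¬ q ∣ 1 := by
  rintro ⟨c, hc⟩
  have h1 : algebraMap A0 L q * algebraMap A0 L c = 1 := by rw [← map_mul, ← hc, map_one]
  exact one_notMem_nonunits V (h1 ▸ mul_mem_nonunits_left V h.2.2.1 (h.1 c))

theorem IsGaussExt.notMem_nonunits (h : IsGaussExt A0 t q V) : t ∉ V.nonunits := by
  intro ht
  have := h.2.2.2 X (by rwa [aeval_X]) 1
  rw [coeff_X_one] at this
  exact h.not_dvd_one this

theorem IsGaussExt.inv_mem (h : IsGaussExt A0 t q V) : t⁻¹ ∈ V :=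
  inv_mem_of_notMem_nonunits V h.2.1 h.notMem_nonunits

/-- A Gauss extension lies over `A0[t]_(q)` in the sense of `GaussOver`. -/
theorem IsGaussExt.gaussOver (h : IsGaussExt A0 t q V) :
    GaussOver (R := ↥(Algebra.adjoin A0 ({t} : Set L)))
      (algebraMap A0 ↥(Algebra.adjoin A0 ({t} : Set L)) q) V := by
  refine ⟨fun r => h.adjoin_le r.2, fun r => ⟨fun hr => ?_, ?_⟩⟩
  · obtain ⟨y, hy⟩ := r
    have hy' := hy
    rw [Algebra.adjoin_singleton_eq_range_aeval] at hy'
    obtain ⟨f, rfl⟩ := hy'
    have hdiv : C q ∣ f := (C_dvd_iff_dvd_coeff q f).mpr (h.2.2.2 f hr)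
    obtain ⟨g, rfl⟩ := hdiv
    refine ⟨⟨aeval t g, ?_⟩, Subtype.ext ?_⟩
    · rw [Algebra.adjoin_singleton_eq_range_aeval]
      exact ⟨g, rfl⟩
    · show aeval t (C q * g) = algebraMap A0 L q * aeval t g
      rw [map_mul, aeval_C]
  · rintro ⟨c, rfl⟩
    exact mul_mem_nonunits_left V h.2.2.1 (h.adjoin_le c.2)

/-- Conversely, for `t` transcendental, a valuation ring over `A0[t]_(q)` is a Gauss
extension. -/
theorem isGaussExt_of_gaussOver (ht : Transcendental A0 t)
    (h : GaussOver (R := ↥(Algebra.adjoin A0 ({t} : Set L)))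
      (algebraMap A0 ↥(Algebra.adjoin A0 ({t} : Set L)) q) V) : IsGaussExt A0 t q V := by
  have htmem : t ∈ Algebra.adjoin A0 ({t} : Set L) := Algebra.subset_adjoin (Set.mem_singleton t)
  refine ⟨fun a => h.1 (algebraMap A0 _ a), h.1 ⟨t, htmem⟩, (h.2 _).mpr dvd_rfl, ?_⟩
  intro f hf n
  have hfmem : aeval t f ∈ Algebra.adjoin A0 ({t} : Set L) := by
    rw [Algebra.adjoin_singleton_eq_range_aeval]
    exact ⟨f, rfl⟩
  obtain ⟨⟨c, hc⟩, hcf⟩ := (h.2 ⟨aeval t f, hfmem⟩).mp hf
  have hc' := hc
  rw [Algebra.adjoin_singleton_eq_range_aeval] at hc'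
  obtain ⟨g, rfl⟩ := hc'
  have h1 : aeval t f = aeval t (C q * g) := by
    have := congrArg Subtype.val hcf
    rw [map_mul, aeval_C]
    exact this
  have h2 : f = C q * g := transcendental_iff_injective.mp ht h1
  rw [h2, coeff_C_mul]
  exact dvd_mul_right _ _

end Chart

/-! ## The rings `A0[t]` and `chartRing A0 {t}` -/

section ChartRing

open Polynomial
open Fermat.Agent.S36.helper248 Fermat.Agent.S36.helper1730 Fermat.Agent.S18

variable {A0 L : Type*} [CommRing A0] [Field L] [Algebra A0 L]

/-- `A0[X] ≃+* A0[t]` for `t` transcendental over `A0`. -/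
noncomputable def adjoinEquiv (t : L) (ht : Transcendental A0 t) :
    A0[X] ≃+* ↥(Algebra.adjoin A0 ({t} : Set L)) :=
  RingEquiv.ofBijective
    ((aeval t : A0[X] →ₐ[A0] L).toRingHom.codRestrict (Algebra.adjoin A0 ({t} : Set L))
      (fun f => by rw [Algebra.adjoin_singleton_eq_range_aeval]; exact ⟨f, rfl⟩))
    ⟨fun f g hfg => transcendental_iff_injective.mp ht (congrArg Subtype.val hfg),
      fun ⟨x, hx⟩ => by
        have hx' := hx
        rw [Algebra.adjoin_singleton_eq_range_aeval] at hx'
        obtain ⟨f, hf⟩ := hx'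
        exact ⟨f, Subtype.ext hf⟩⟩

theorem adjoinEquiv_C (t : L) (ht : Transcendental A0 t) (a : A0) :
    adjoinEquiv t ht (C a) = algebraMap A0 ↥(Algebra.adjoin A0 ({t} : Set L)) a :=
  Subtype.ext (aeval_C t a)

theorem isIntegrallyClosed_adjoin [IsDomain A0] [IsIntegrallyClosed A0] (t : L)
    (ht : Transcendental A0 t) : IsIntegrallyClosed ↥(Algebra.adjoin A0 ({t} : Set L)) :=
  IsIntegrallyClosed.of_equiv (adjoinEquiv t ht)

theorem isNoetherianRing_adjoin [IsNoetherianRing A0] (t : L) (ht : Transcendental A0 t) :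
    IsNoetherianRing ↥(Algebra.adjoin A0 ({t} : Set L)) :=
  isNoetherianRing_of_ringEquiv _ (adjoinEquiv t ht)

theorem prime_algebraMap_adjoin [IsDomain A0] (t : L) (ht : Transcendental A0 t) {q : A0}
    (hq : Prime q) : Prime (algebraMap A0 ↥(Algebra.adjoin A0 ({t} : Set L)) q) := by
  rw [← adjoinEquiv_C t ht]
  exact (MulEquiv.prime_iff (adjoinEquiv t ht)).mpr (prime_C_iff.mpr hq)

/-- The inclusion `A0[t] → chartRing A0 {t}`. -/
def adjoinToChart (A0 : Type*) {L : Type*} [CommRing A0] [Field L] [Algebra A0 L] (t : L) :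
    ↥(Algebra.adjoin A0 ({t} : Set L)) →+* ↥(chartRing A0 ({t} : Set L)) where
  toFun x := ⟨x.1, helper5377.isIntegral_adjoin_of_mem x.2⟩
  map_one' := rfl
  map_mul' _ _ := rfl
  map_zero' := rfl
  map_add' _ _ := rfl

/-- The `A0[t]`-algebra structure of the chart ring (a local instance in this file). -/
@[reducible] def chartAlgebra (A0 : Type*) {L : Type*} [CommRing A0] [Field L] [Algebra A0 L]
    (t : L) : Algebra ↥(Algebra.adjoin A0 ({t} : Set L)) ↥(chartRing A0 ({t} : Set L)) :=
  (adjoinToChart A0 t).toAlgebra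

attribute [local instance] chartAlgebra

theorem chart_isScalarTower (t : L) :
    IsScalarTower ↥(Algebra.adjoin A0 ({t} : Set L)) ↥(chartRing A0 ({t} : Set L)) L :=
  IsScalarTower.of_algebraMap_eq (fun _ => rfl)

attribute [local instance] chart_isScalarTower

theorem chart_isIntegral (t : L) :
    Algebra.IsIntegral ↥(Algebra.adjoin A0 ({t} : Set L)) ↥(chartRing A0 ({t} : Set L)) :=
  ⟨fun b => (isIntegral_algebraMap_iff
    (B := L) (A := ↥(chartRing A0 ({t} : Set L))) Subtype.val_injective).mp b.2⟩

theorem chart_faithfulSMul (t : L) :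
    FaithfulSMul ↥(Algebra.adjoin A0 ({t} : Set L)) ↥(chartRing A0 ({t} : Set L)) :=
  (faithfulSMul_iff_algebraMap_injective _ _).mpr fun _ _ h =>
    Subtype.ext (congrArg (fun z : ↥(chartRing A0 ({t} : Set L)) => (z : L)) h)

attribute [local instance] chart_isIntegral chart_faithfulSMul

section Frac

variable (K0 : Type*) [IsDomain A0] [Field K0] [Algebra A0 K0] [IsFractionRing A0 K0]
  [Algebra K0 L] [IsScalarTower A0 K0 L]

/-- (C3) `L` is the fraction field of the chart ring. -/
theorem isFractionRing_chartRing (t : L)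
    [FiniteDimensional (IntermediateField.adjoin K0 ({t} : Set L)) L] :
    IsFractionRing ↥(chartRing A0 ({t} : Set L)) L := by
  refine IsFractionRing.of_field _ _ fun z => ?_
  obtain ⟨e, he0, he, hez⟩ := exists_denominator (A0 := A0) (K0 := K0) t z
  refine ⟨⟨e * z, hez⟩, ⟨e, he⟩, ?_⟩
  show z = e * z / e
  field_simp

/-- (C3) The chart ring is an integrally closed domain. -/
theorem isIntegrallyClosed_chartRing (t : L)
    [FiniteDimensional (IntermediateField.adjoin K0 ({t} : Set L)) L] :
    IsIntegrallyClosed ↥(chartRing A0 ({t} : Set L)) := by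
  have := isFractionRing_chartRing (A0 := A0) K0 t
  exact (isIntegrallyClosed_iff L).mpr fun {x} hx =>
    ⟨⟨x, intClosedIn_chartRing _ x hx⟩, rfl⟩

/-- (C3) The chart ring is noetherian. -/
theorem isNoetherianRing_chartRing [IsIntegrallyClosed A0] [IsNoetherianRing A0] [CharZero K0]
    (t : L) (ht : Transcendental A0 t)
    [FiniteDimensional (IntermediateField.adjoin K0 ({t} : Set L)) L] :
    IsNoetherianRing ↥(chartRing A0 ({t} : Set L)) := by
  have hfin := helper5377.finite_integralClosure_adjoin (A0 := A0) (K0 := K0) t ht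
  have hN : IsNoetherianRing ↥(Algebra.adjoin A0 ({t} : Set L)) := isNoetherianRing_adjoin t ht
  have h1 : IsNoetherian ↥(Algebra.adjoin A0 ({t} : Set L))
      ↥(integralClosure (Algebra.adjoin A0 ({t} : Set L)) L) :=
    isNoetherian_of_isNoetherianRing_of_finite _ _
  have h2 : IsNoetherianRing ↥(integralClosure (Algebra.adjoin A0 ({t} : Set L)) L) :=
    isNoetherian_of_tower ↥(Algebra.adjoin A0 ({t} : Set L)) h1
  let e : ↥(integralClosure (Algebra.adjoin A0 ({t} : Set L)) L) →+*
      ↥(chartRing A0 ({t} : Set L)) :=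
    { toFun := fun x => ⟨x.1, x.2⟩
      map_one' := rfl
      map_mul' := fun _ _ => rfl
      map_zero' := rfl
      map_add' := fun _ _ => rfl }
  exact isNoetherianRing_of_surjective _ _ e (fun x => ⟨⟨x.1, x.2⟩, rfl⟩)

end Frac

section Main

variable (K0 : Type*) [IsDomain A0] [IsIntegrallyClosed A0] [IsNoetherianRing A0]
  [Field K0] [Algebra A0 K0] [IsFractionRing A0 K0] [CharZero K0]
  [Algebra K0 L] [IsScalarTower A0 K0 L]

/-- **(D2) A Gauss extension is the local ring of the chart at its centre**: every element of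
`V` is `a / s` with `a, s` in the chart ring and `s` a unit of `V`. -/
theorem IsGaussExt.exists_mul_eq (t : L) (ht : Transcendental K0 t)
    [FiniteDimensional (IntermediateField.adjoin K0 ({t} : Set L)) L] {q : A0} (hq : Prime q)
    {V : ValuationSubring L} (h : IsGaussExt A0 t q V) {x : L} (hx : x ∈ V) :
    ∃ a s : L, a ∈ chartRing A0 ({t} : Set L) ∧ s ∈ chartRing A0 ({t} : Set L) ∧
      s ∉ V.nonunits ∧ x * s = a := by
  have htA : Transcendental A0 t := ht.restrictScalars (IsFractionRing.injective A0 K0)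
  have := isFractionRing_chartRing (A0 := A0) K0 t
  have := isIntegrallyClosed_chartRing (A0 := A0) K0 t
  have := isNoetherianRing_chartRing (A0 := A0) K0 t htA
  have hπ0 : algebraMap A0 ↥(Algebra.adjoin A0 ({t} : Set L)) q ≠ 0 :=
    (prime_algebraMap_adjoin t htA hq).ne_zero
  obtain ⟨a, s, hs, has⟩ :=
    GaussOver.exists_mul_eq (B := ↥(chartRing A0 ({t} : Set L))) hπ0 h.gaussOver hx
  exact ⟨a, s, a.2, s.2, hs, has⟩

/-- **(D3) Every minimal prime of the chart ring over `q` is the centre of a Gauss
extension.** -/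
theorem exists_isGaussExt_of_mem_minimalPrimes (t : L) (ht : Transcendental K0 t)
    [FiniteDimensional (IntermediateField.adjoin K0 ({t} : Set L)) L] {q : A0} (hq : Prime q)
    (P : Ideal ↥(chartRing A0 ({t} : Set L)))
    (hP : P ∈ (Ideal.span {(⟨algebraMap A0 L q, algebraMap_mem_chartRing _ q⟩ :
      ↥(chartRing A0 ({t} : Set L)))}).minimalPrimes) :
    ∃ V : ValuationSubring L, IsGaussExt A0 t q V ∧
      ∀ b : ↥(chartRing A0 ({t} : Set L)), b ∈ P ↔ (b : L) ∈ V.nonunits := by
  have htA : Transcendental A0 t := ht.restrictScalars (IsFractionRing.injective A0 K0)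
  have := isFractionRing_chartRing (A0 := A0) K0 t
  have := isNoetherianRing_chartRing (A0 := A0) K0 t htA
  have := isIntegrallyClosed_adjoin t htA
  have hπ := prime_algebraMap_adjoin t htA hq
  obtain ⟨V, hV, hPV⟩ := exists_gaussOver_of_mem_minimalPrimes (L := L) hπ.ne_zero
    ((Ideal.span_singleton_prime hπ.ne_zero).mpr hπ) P hP
  exact ⟨V, isGaussExt_of_gaussOver htA hV, hPV⟩

/-- **(V) Every height-one prime of the chart ring containing `q` is the centre of a Gauss
extension.** -/
theorem exists_isGaussExt_of_height_eq_one (t : L) (ht : Transcendental K0 t)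
    [FiniteDimensional (IntermediateField.adjoin K0 ({t} : Set L)) L] {q : A0} (hq : Prime q)
    (P : Ideal ↥(chartRing A0 ({t} : Set L))) [P.IsPrime] (hP1 : P.height = 1)
    (hqP : (⟨algebraMap A0 L q, algebraMap_mem_chartRing _ q⟩ :
      ↥(chartRing A0 ({t} : Set L))) ∈ P) :
    ∃ V : ValuationSubring L, IsGaussExt A0 t q V ∧
      ∀ b : ↥(chartRing A0 ({t} : Set L)), b ∈ P ↔ (b : L) ∈ V.nonunits := by
  have hinj : Function.Injective (algebraMap A0 L) :=
    helper5377.algebraMap_injective_of_tower A0 K0 L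
  refine exists_isGaussExt_of_mem_minimalPrimes K0 t ht hq P
    (mem_minimalPrimes_of_height_eq_one hP1 ?_ hqP)
  intro h0
  exact hq.ne_zero (hinj ((congrArg Subtype.val h0).trans (map_zero _).symm))

/-- **(D1) The centre of a Gauss extension is a height-one prime of the chart ring.** -/
theorem IsGaussExt.exists_height_eq_one (t : L) (ht : Transcendental K0 t)
    [FiniteDimensional (IntermediateField.adjoin K0 ({t} : Set L)) L] {q : A0} (hq : Prime q)
    {V : ValuationSubring L} (h : IsGaussExt A0 t q V) :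
    ∃ P : Ideal ↥(chartRing A0 ({t} : Set L)), P.IsPrime ∧ P.height = 1 ∧
      (⟨algebraMap A0 L q, algebraMap_mem_chartRing _ q⟩ : ↥(chartRing A0 ({t} : Set L))) ∈ P ∧
      ∀ b : ↥(chartRing A0 ({t} : Set L)), b ∈ P ↔ (b : L) ∈ V.nonunits := by
  have htA : Transcendental A0 t := ht.restrictScalars (IsFractionRing.injective A0 K0)
  have := isNoetherianRing_chartRing (A0 := A0) K0 t htA
  have hπ := prime_algebraMap_adjoin t htA hq
  have hπB0 : algebraMap ↥(Algebra.adjoin A0 ({t} : Set L)) ↥(chartRing A0 ({t} : Set L))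
      (algebraMap A0 ↥(Algebra.adjoin A0 ({t} : Set L)) q) ≠ 0 := fun h0 =>
    hπ.ne_zero ((FaithfulSMul.algebraMap_injective _ _) (by rw [h0, map_zero]))
  refine ⟨centre V (h.gaussOver.algebraMap_mem (B := ↥(chartRing A0 ({t} : Set L)))),
    inferInstance, height_eq_one_of_mem_minimalPrimes hπB0 h.gaussOver.centre_mem_minimalPrimes,
    h.gaussOver.algebraMap_mem_centre, fun b => mem_centre⟩

/-- **(D4) Radical form**: an element of the chart ring lying in the maximal ideal of every
Gauss extension is nilpotent modulo `q`. -/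
theorem nilMod_of_forall_isGaussExt (t : L) (ht : Transcendental K0 t)
    [FiniteDimensional (IntermediateField.adjoin K0 ({t} : Set L)) L] {q : A0} (hq : Prime q)
    {x : L} (hx : x ∈ chartRing A0 ({t} : Set L))
    (h : ∀ V : ValuationSubring L, IsGaussExt A0 t q V → x ∈ V.nonunits) :
    NilMod (chartRing A0 ({t} : Set L)) (algebraMap A0 L q) x := by
  have htA : Transcendental A0 t := ht.restrictScalars (IsFractionRing.injective A0 K0)
  have := isFractionRing_chartRing (A0 := A0) K0 t
  have := isNoetherianRing_chartRing (A0 := A0) K0 t htA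
  have := isIntegrallyClosed_adjoin t htA
  have hπ := prime_algebraMap_adjoin t htA hq
  have hrad := mem_radical_of_forall_gaussOver (L := L) hπ.ne_zero
    ((Ideal.span_singleton_prime hπ.ne_zero).mpr hπ) (⟨x, hx⟩ : ↥(chartRing A0 ({t} : Set L)))
    (fun V hV => h V (isGaussExt_of_gaussOver htA hV))
  exact (nilMod_iff_radical (algebraMap_mem_chartRing _ q)).mpr ⟨hx, hrad⟩

/-- **(D5) Krull, valuation form**: if `q ^ N * x` lies in the chart ring and `x` lies in every
Gauss extension, then `x` lies in the chart ring. -/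
theorem mem_chartRing_of_forall_isGaussExt (t : L) (ht : Transcendental K0 t)
    [FiniteDimensional (IntermediateField.adjoin K0 ({t} : Set L)) L] {q : A0} (hq : Prime q)
    (x : L) (N : ℕ) (hN : algebraMap A0 L q ^ N * x ∈ chartRing A0 ({t} : Set L))
    (hx : ∀ V : ValuationSubring L, IsGaussExt A0 t q V → x ∈ V) :
    x ∈ chartRing A0 ({t} : Set L) := by
  have htA : Transcendental A0 t := ht.restrictScalars (IsFractionRing.injective A0 K0)
  have := isFractionRing_chartRing (A0 := A0) K0 t
  have := isIntegrallyClosed_chartRing (A0 := A0) K0 t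
  have := isNoetherianRing_chartRing (A0 := A0) K0 t htA
  have := isIntegrallyClosed_adjoin t htA
  have hπ := prime_algebraMap_adjoin t htA hq
  obtain ⟨b, hb⟩ := exists_algebraMap_eq_of_forall_gaussOver
    (R := ↥(Algebra.adjoin A0 ({t} : Set L))) (B := ↥(chartRing A0 ({t} : Set L)))
    hπ.ne_zero ((Ideal.span_singleton_prime hπ.ne_zero).mpr hπ) x N ⟨_, hN⟩ rfl
    (fun V hV => hx V (isGaussExt_of_gaussOver htA hV))
  exact hb ▸ b.2

/-! ## The chart at infinity, the overlap, and the seeds' radical hypotheses -/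

section Inv

omit [IsIntegrallyClosed A0] [IsNoetherianRing A0] [CharZero K0] [IsDomain A0]
  [IsFractionRing A0 K0] in
theorem transcendental_inv {t : L} (ht : Transcendental K0 t) : Transcendental K0 t⁻¹ :=
  fun h => ht (by simpa using h.inv)

omit [IsIntegrallyClosed A0] [IsNoetherianRing A0] [CharZero K0] [IsDomain A0]
  [IsFractionRing A0 K0] in
theorem finiteDimensional_adjoin_inv (t : L)
    [FiniteDimensional (IntermediateField.adjoin K0 ({t} : Set L)) L] :
    FiniteDimensional (IntermediateField.adjoin K0 ({t⁻¹} : Set L)) L := by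
  have e : IntermediateField.adjoin K0 ({t⁻¹} : Set L) = IntermediateField.adjoin K0 ({t} : Set L) :=
    le_antisymm
      (IntermediateField.adjoin_simple_le_iff.mpr
        (inv_mem (IntermediateField.mem_adjoin_simple_self K0 t)))
      (IntermediateField.adjoin_simple_le_iff.mpr
        (by simpa using inv_mem (IntermediateField.mem_adjoin_simple_self K0 t⁻¹)))
  rw [e]
  infer_instance

end Inv

end Main

section GaussInv

variable {t : L} {q : A0} {V : ValuationSubring L}

/-- A Gauss extension for `t` is a Gauss extension for `t⁻¹`. -/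
theorem IsGaussExt.inv (ht0 : t ≠ 0) (h : IsGaussExt A0 t q V) : IsGaussExt A0 t⁻¹ q V := by
  refine ⟨h.1, h.inv_mem, h.2.2.1, ?_⟩
  intro f hf n
  let _ : Invertible t⁻¹ := invertibleOfNonzero (inv_ne_zero ht0)
  have hinv : ⅟(t⁻¹) = t := by rw [invOf_eq_inv, inv_inv]
  have key : aeval t f.reverse * t⁻¹ ^ f.natDegree = aeval t⁻¹ f := by
    have := eval₂_reverse_mul_pow (algebraMap A0 L) t⁻¹ f
    rw [hinv] at this
    exact this
  have key2 : aeval t f.reverse = aeval t⁻¹ f * t ^ f.natDegree := by
    rw [← key, mul_assoc, ← mul_pow, inv_mul_cancel₀ ht0, one_pow, mul_one]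
  have hrev : aeval t f.reverse ∈ V.nonunits := by
    rw [key2]
    exact mul_mem_nonunits_left V hf (pow_mem h.2.1 _)
  by_cases hn : n ≤ f.natDegree
  · have := h.2.2.2 f.reverse hrev (revAt f.natDegree n)
    rwa [coeff_reverse, revAt_invol] at this
  · rw [coeff_eq_zero_of_natDegree_lt (not_le.mp hn)]
    exact dvd_zero q

/-- (D6) Gauss extensions for `t` and for `t⁻¹` coincide. -/
theorem isGaussExt_inv_iff (ht0 : t ≠ 0) : IsGaussExt A0 t⁻¹ q V ↔ IsGaussExt A0 t q V :=
  ⟨fun h => by simpa using h.inv (inv_ne_zero ht0), fun h => h.inv ht0⟩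

end GaussInv

section Seeds

variable (K0 : Type*) [IsDomain A0] [IsIntegrallyClosed A0] [IsNoetherianRing A0]
  [Field K0] [Algebra A0 K0] [IsFractionRing A0 K0] [CharZero K0]
  [Algebra K0 L] [IsScalarTower A0 K0 L]

/-- (D4) on the chart at infinity. -/
theorem nilMod_inv_of_forall_isGaussExt (t : L) (ht : Transcendental K0 t)
    [FiniteDimensional (IntermediateField.adjoin K0 ({t} : Set L)) L] {q : A0} (hq : Prime q)
    {x : L} (hx : x ∈ chartRing A0 ({t⁻¹} : Set L))
    (h : ∀ V : ValuationSubring L, IsGaussExt A0 t q V → x ∈ V.nonunits) :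
    NilMod (chartRing A0 ({t⁻¹} : Set L)) (algebraMap A0 L q) x := by
  have ht0 : t ≠ 0 := by
    rintro rfl
    exact ht ⟨Polynomial.X, Polynomial.X_ne_zero, by simp⟩
  have := finiteDimensional_adjoin_inv K0 t
  exact nilMod_of_forall_isGaussExt K0 t⁻¹ (transcendental_inv K0 ht) hq hx
    (fun V hV => h V ((isGaussExt_inv_iff ht0).mp hV))

/-- (D4) on the overlap `A0[t, t⁻¹]`. -/
theorem nilMod_overlap_of_forall_isGaussExt (t : L) (ht : Transcendental K0 t)
    [FiniteDimensional (IntermediateField.adjoin K0 ({t} : Set L)) L] {q : A0} (hq : Prime q)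
    {x : L} (hx : x ∈ chartRing A0 ({t, t⁻¹} : Set L))
    (h : ∀ V : ValuationSubring L, IsGaussExt A0 t q V → x ∈ V.nonunits) :
    NilMod (chartRing A0 ({t, t⁻¹} : Set L)) (algebraMap A0 L q) x := by
  have ht0 : t ≠ 0 := by
    rintro rfl
    exact ht ⟨Polynomial.X, Polynomial.X_ne_zero, by simp⟩
  obtain ⟨n, hn⟩ := helper5377.exists_pow_mul_isIntegral (A0 := A0) t ht0 hx
  have hy : t ^ n * x ∈ chartRing A0 ({t} : Set L) := hn n le_rfl
  have hnil := nilMod_of_forall_isGaussExt K0 t ht hq hy (fun V hV => by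
    rw [mul_comm]
    exact mul_mem_nonunits_left V (h V hV) (pow_mem hV.2.1 n))
  obtain ⟨-, e, r, hr, hre⟩ := hnil
  have hsub0 : ({t} : Set L) ⊆ {t, t⁻¹} := fun z hz => Or.inl hz
  have htinv : t⁻¹ ∈ chartRing A0 ({t, t⁻¹} : Set L) := mem_chartRing_of_mem (Or.inr rfl)
  refine ⟨hx, e, r * t⁻¹ ^ (n * e), Subring.mul_mem _ (chartRing_mono hsub0 hr)
    (Subring.pow_mem _ htinv _), ?_⟩
  have h1 : x ^ e = (t ^ n * x) ^ e * t⁻¹ ^ (n * e) := by
    rw [mul_pow, ← pow_mul, mul_comm (t ^ (n * e)), mul_assoc, ← mul_pow, mul_inv_cancel₀ ht0,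
      one_pow, mul_one]
  rw [h1, hre, mul_assoc]

/-- **The radical hypotheses `hJ0`, `hJ1`, `hJ01` of `helper4913.exists_seeds_nilMod`**, from
the single statement (ALLEXT): every Gauss extension of `L` is (contains the open unit ball of)
one of the valuations `v c`. -/
theorem hJ_of_allExt (t : L) (ht : Transcendental K0 t)
    [FiniteDimensional (IntermediateField.adjoin K0 ({t} : Set L)) L] {q : A0} (hq : Prime q)
    {ι : Type*} {Γ : ι → Type*} [∀ c, LinearOrderedCommGroupWithZero (Γ c)]
    (v : ∀ c, Valuation L (Γ c))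
    (hall : ∀ V : ValuationSubring L, IsGaussExt A0 t q V →
      ∃ c, ∀ x : L, v c x < 1 → x ∈ V.nonunits) :
    (∀ x ∈ chartRing A0 ({t} : Set L), (∀ c, v c x < 1) →
        NilMod (chartRing A0 ({t} : Set L)) (algebraMap A0 L q) x) ∧
      (∀ x ∈ chartRing A0 ({t⁻¹} : Set L), (∀ c, v c x < 1) →
        NilMod (chartRing A0 ({t⁻¹} : Set L)) (algebraMap A0 L q) x) ∧
      (∀ x ∈ chartRing A0 ({t, t⁻¹} : Set L), (∀ c, v c x < 1) →
        NilMod (chartRing A0 ({t, t⁻¹} : Set L)) (algebraMap A0 L q) x) := by
  have key : ∀ x : L, (∀ c, v c x < 1) →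
      ∀ V : ValuationSubring L, IsGaussExt A0 t q V → x ∈ V.nonunits := by
    intro x hx V hV
    obtain ⟨c, hc⟩ := hall V hV
    exact hc x (hx c)
  exact ⟨fun x hx hv => nilMod_of_forall_isGaussExt K0 t ht hq hx (key x hv),
    fun x hx hv => nilMod_inv_of_forall_isGaussExt K0 t ht hq hx (key x hv),
    fun x hx hv => nilMod_overlap_of_forall_isGaussExt K0 t ht hq hx (key x hv)⟩

/-- **(E) `e = 1` gives a local generator.**  If `q` generates the maximal ideal of the Gauss
extension `V`, then `q` generates its centre on the chart locally at the centre: for every `a`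
in the chart ring and in `m_V` there are `s, b` in the chart ring, `s` a unit of `V`, with
`s * a = q * b`. -/
theorem IsGaussExt.exists_mul_eq_of_unramified (t : L) (ht : Transcendental K0 t)
    [FiniteDimensional (IntermediateField.adjoin K0 ({t} : Set L)) L] {q : A0} (hq : Prime q)
    {V : ValuationSubring L} (h : IsGaussExt A0 t q V)
    (he : ∀ x ∈ V.nonunits, ∃ y ∈ V, x = algebraMap A0 L q * y) {a : L} (ha : a ∈ V.nonunits) :
    ∃ s b : L, s ∈ chartRing A0 ({t} : Set L) ∧ b ∈ chartRing A0 ({t} : Set L) ∧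
      s ∉ V.nonunits ∧ s * a = algebraMap A0 L q * b := by
  obtain ⟨y, hy, rfl⟩ := he a ha
  obtain ⟨b, s, hb, hs, hsV, hys⟩ := h.exists_mul_eq K0 t ht hq hy
  exact ⟨s, b, hs, hb, hsV, by rw [← hys]; ring⟩

end Seeds

end ChartRing

end Fermat.Agent.S36.helper4551
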