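/-
S36-CHARTS (board row #2257, helper4551): adapters from the chart <-> valuation dictionary
`helper4551_ChartVal` to the field shapes of `helper36.KillData` (base `O : ValuationSubring K`,
charts `chartRing O {x}`, `chartRing O {x⁻¹}`, `chartRing O {x, x⁻¹}`, the prime `(q : F)`), and
the change of base line (`V` Gauss for `t` and `j * D(t) = N(t)` ⟹ `V` Gauss for `j`).
-/
import Mathlib
import Fermat.Agent.S36.helper4551_ChartVal

set_option autoImplicit false

namespace Fermat.Agent.S36.helper4551

open Polynomial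
open Fermat.Agent.S36.helper248 (chartRing)
open Fermat.Agent.S36.helper1730 (NilMod)

/-! ## Change of base line -/

section BaseLine

variable {A0 L : Type*} [CommRing A0] [Field L] [Algebra A0 L]
variable {t j : L} {q : A0} {V : ValuationSubring L}

theorem homog_degree_lt (i m n dN dD : ℕ) (him : i < m) (hmn : m ≤ n) (hd : dD < dN) :
    i * dN + (n - i) * dD < m * dN + (n - m) * dD := by
  obtain ⟨e, rfl⟩ : ∃ e, m = i + e + 1 := ⟨m - i - 1, by omega⟩
  obtain ⟨r, rfl⟩ : ∃ r, n = i + e + 1 + r := ⟨n - (i + e + 1), by omega⟩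
  have h1 : i + e + 1 + r - i = e + 1 + r := by omega
  have h2 : i + e + 1 + r - (i + e + 1) = r := by omega
  rw [h1, h2]
  have h3 : (e + 1) * dD < (e + 1) * dN := Nat.mul_lt_mul_of_pos_left hd (by omega)
  nlinarith

theorem zero_mem_nonunits (V : ValuationSubring L) : (0 : L) ∈ V.nonunits := by
  rw [mem_nonunits_iff_val, map_zero]
  exact zero_lt_one

/-- A monic polynomial in `t` is a unit of every Gauss extension. -/
theorem IsGaussExt.aeval_monic_notMem (h : IsGaussExt A0 t q V) {D : A0[X]} (hD : D.Monic) :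
    aeval t D ∉ V.nonunits := by
  intro hmem
  have := h.2.2.2 D hmem D.natDegree
  rw [hD.coeff_natDegree] at this
  exact h.not_dvd_one this

/-- **Change of base line.**  If `V` is a Gauss extension for `t` and `j = N(t) / D(t)` with
`N`, `D` monic and `deg D < deg N`, then `V` is a Gauss extension for `j`. -/
theorem IsGaussExt.of_monic_rel (h : IsGaussExt A0 t q V) (N D : A0[X]) (hN : N.Monic)
    (hD : D.Monic) (hdeg : D.natDegree < N.natDegree) (hrel : j * aeval t D = aeval t N) :
    IsGaussExt A0 j q V := by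
  have hDu : aeval t D ∉ V.nonunits := h.aeval_monic_notMem hD
  have hD0 : aeval t D ≠ 0 := fun h0 => hDu (h0 ▸ zero_mem_nonunits V)
  have hDinv : (aeval t D)⁻¹ ∈ V := inv_mem_of_notMem_nonunits V (h.aeval_mem D) hDu
  have hj : j = aeval t N * (aeval t D)⁻¹ := by
    rw [← hrel, mul_assoc, mul_inv_cancel₀ hD0, mul_one]
  have hjV : j ∈ V := by
    rw [hj]
    exact V.mul_mem _ _ (h.aeval_mem N) hDinv
  refine ⟨h.1, hjV, h.2.2.1, ?_⟩
  intro f hf
  set n := f.natDegree with hn
  set dN := N.natDegree with hdN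
  set dD := D.natDegree with hdD
  -- the homogenised polynomial
  set G : A0[X] := ∑ i ∈ Finset.range (n + 1), C (f.coeff i) * (N ^ i * D ^ (n - i)) with hG
  have hGt : aeval t G = aeval t D ^ n * aeval j f := by
    have hjf : aeval j f = ∑ i ∈ Finset.range (n + 1), f.coeff i • j ^ i := aeval_eq_sum_range j
    rw [hG, map_sum, hjf, Finset.mul_sum]
    refine Finset.sum_congr rfl fun i hi => ?_
    have hi' : i ≤ n := Nat.lt_succ_iff.mp (Finset.mem_range.mp hi)
    rw [map_mul, map_mul, map_pow, map_pow, aeval_C, ← hrel, Algebra.smul_def]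
    have : aeval t D ^ n = aeval t D ^ i * aeval t D ^ (n - i) := by
      rw [← pow_add, Nat.add_sub_cancel' hi']
    rw [this]
    ring
  have hGmem : aeval t G ∈ V.nonunits := by
    rw [hGt, mul_comm]
    exact mul_mem_nonunits_left V hf (pow_mem (h.aeval_mem D) n)
  have hGdiv : ∀ k, q ∣ G.coeff k := h.2.2.2 G hGmem
  have hmonic : ∀ i, (N ^ i * D ^ (n - i)).Monic := fun i => (hN.pow i).mul (hD.pow (n - i))
  have hnat : ∀ i, (N ^ i * D ^ (n - i)).natDegree = i * dN + (n - i) * dD := by
    intro i
    rw [(hN.pow i).natDegree_mul (hD.pow (n - i)), hN.natDegree_pow, hD.natDegree_pow]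
  have hcoeff : ∀ k, G.coeff k
      = ∑ i ∈ Finset.range (n + 1), f.coeff i * (N ^ i * D ^ (n - i)).coeff k := by
    intro k
    rw [hG, finsetSum_coeff]
    exact Finset.sum_congr rfl fun i _ => coeff_C_mul _
  -- downward induction
  have key : ∀ d i, i + d = n → q ∣ f.coeff i := by
    intro d
    induction d using Nat.strong_induction_on with
    | _ d ih =>
      intro m hm
      have hmn : m ≤ n := by omega
      have hmem : m ∈ Finset.range (n + 1) := Finset.mem_range.mpr (by omega)
      have hk := hGdiv (m * dN + (n - m) * dD)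
      rw [hcoeff, ← Finset.add_sum_erase _ _ hmem] at hk
      have hrest : q ∣ ∑ i ∈ (Finset.range (n + 1)).erase m,
          f.coeff i * (N ^ i * D ^ (n - i)).coeff (m * dN + (n - m) * dD) := by
        refine Finset.dvd_sum fun i hi => ?_
        obtain ⟨hne, hir⟩ := Finset.mem_erase.mp hi
        have hin : i ≤ n := Nat.lt_succ_iff.mp (Finset.mem_range.mp hir)
        rcases lt_or_gt_of_ne hne with hlt | hgt
        · -- `i < m`: the coefficient vanishes
          have hlt' : (N ^ i * D ^ (n - i)).natDegree < m * dN + (n - m) * dD := by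
            rw [hnat]
            exact homog_degree_lt i m n dN dD hlt hmn hdeg
          rw [coeff_eq_zero_of_natDegree_lt hlt', mul_zero]
          exact dvd_zero q
        · -- `m < i`: induction hypothesis
          exact Dvd.dvd.mul_right (ih (n - i) (by omega) i (by omega)) _
      have hm1 : (N ^ m * D ^ (n - m)).coeff (m * dN + (n - m) * dD) = 1 := by
        rw [← hnat m]
        exact (hmonic m).coeff_natDegree
      rw [hm1, mul_one] at hk
      exact (dvd_add_left hrest).mp hk
  intro i
  by_cases hi : i ≤ n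
  · exact key (n - i) i (by omega)
  · rw [coeff_eq_zero_of_natDegree_lt (not_le.mp hi)]
    exact dvd_zero q

end BaseLine

/-! ## Base `O : ValuationSubring K` -/

section Base

variable {K : Type*} [Field K] (O : ValuationSubring K)

theorem mem_of_mem_nonunits {c : K} (hc : c ∈ O.nonunits) : c ∈ O :=
  (O.valuation_le_one_iff c).mp (le_of_lt hc)

/-- Divisibility by a uniformiser in `O`. -/
theorem natCast_dvd_iff (q : ℕ) (hq_ne : (q : K) ≠ 0) (hq_mem : (q : K) ∈ O.nonunits)
    (hunif : ∀ c : K, c ∈ O.nonunits → c / (q : K) ∈ O) (a : O) :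
    ((q : ℕ) : O) ∣ a ↔ (a : K) ∈ O.nonunits := by
  constructor
  · rintro ⟨c, rfl⟩
    have : ((((q : ℕ) : O) * c : O) : K) = (q : K) * (c : K) := by push_cast; rfl
    rw [this]
    exact mul_mem_nonunits_left O hq_mem c.2
  · intro ha
    refine ⟨⟨(a : K) / (q : K), hunif _ ha⟩, Subtype.ext ?_⟩
    push_cast
    rw [mul_div_cancel₀ _ hq_ne]

/-- **A uniformiser of `O` is a prime element** (`BaseDVR.q_ne`, `.q_mem`, `.unif` shapes). -/
theorem prime_natCast_of_unif (q : ℕ) (hq_ne : (q : K) ≠ 0) (hq_mem : (q : K) ∈ O.nonunits)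
    (hunif : ∀ c : K, c ∈ O.nonunits → c / (q : K) ∈ O) : Prime ((q : ℕ) : O) := by
  have hdvd := natCast_dvd_iff O q hq_ne hq_mem hunif
  refine ⟨?_, ?_, ?_⟩
  · intro h0
    apply hq_ne
    have := congrArg (fun z : O => (z : K)) h0
    simpa using this
  · intro hu
    have h1 : ((q : ℕ) : O) ∣ 1 := hu.dvd
    rw [hdvd] at h1
    exact one_notMem_nonunits O (by simpa using h1)
  · intro a b hab
    rw [hdvd] at hab ⊢
    rw [hdvd]
    by_contra hcon
    rw [not_or] at hcon
    obtain ⟨ha, hb⟩ := hcon
    rw [mem_nonunits_iff_val, not_lt] at ha hb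
    have ha1 : O.valuation (a : K) = 1 := le_antisymm ((O.valuation_le_one_iff _).mpr a.2) ha
    have hb1 : O.valuation (b : K) = 1 := le_antisymm ((O.valuation_le_one_iff _).mpr b.2) hb
    have hab' : O.valuation ((a : K) * (b : K)) < 1 := by
      have : (((a * b : O)) : K) = (a : K) * (b : K) := rfl
      rw [← this]
      exact hab
    rw [map_mul, ha1, hb1, one_mul] at hab'
    exact lt_irrefl _ hab'

variable {F : Type*} [Field F] [Algebra K F] [CharZero K] [IsNoetherianRing O]

/-- **The fields `rad` and `rad01` of `helper36.KillData`** from (ALLEXT): every Gauss extension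
of `F` for the chart coordinate `x` contains the open unit ball of one of the `V c`
(e.g. is equal to one of the `V c`). -/
theorem rad_of_allExt (x : F) (hx : Transcendental K x)
    [FiniteDimensional (IntermediateField.adjoin K ({x} : Set F)) F] (q : ℕ)
    (hq : Prime ((q : ℕ) : O)) {ι : Type*} (V : ι → ValuationSubring F)
    (hall : ∀ W : ValuationSubring F, IsGaussExt O x ((q : ℕ) : O) W →
      ∃ c, ∀ y ∈ (V c).nonunits, y ∈ W.nonunits) :
    (∀ (i : Fin 2) (y : F), y ∈ chartRing O (if i = 0 then ({x} : Set F) else {x⁻¹}) →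
        (∀ c, y ∈ (V c).nonunits) →
        NilMod (chartRing O (if i = 0 then ({x} : Set F) else {x⁻¹})) (q : F) y) ∧
      (∀ y : F, y ∈ chartRing O ({x, x⁻¹} : Set F) → (∀ c, y ∈ (V c).nonunits) →
        NilMod (chartRing O ({x, x⁻¹} : Set F)) (q : F) y) := by
  have hcast : algebraMap O F ((q : ℕ) : O) = (q : F) := map_natCast _ q
  have key : ∀ y : F, (∀ c, y ∈ (V c).nonunits) →
      ∀ W : ValuationSubring F, IsGaussExt O x ((q : ℕ) : O) W → y ∈ W.nonunits := by
    intro y hy W hW
    obtain ⟨c, hc⟩ := hall W hW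
    exact hc y (hy c)
  refine ⟨fun i y hy hv => ?_, fun y hy hv => ?_⟩
  · by_cases hi : i = 0
    · rw [if_pos hi] at hy ⊢
      rw [← hcast]
      exact nilMod_of_forall_isGaussExt K x hx hq hy (key y hv)
    · rw [if_neg hi] at hy ⊢
      rw [← hcast]
      exact nilMod_inv_of_forall_isGaussExt K x hx hq hy (key y hv)
  · rw [← hcast]
    exact nilMod_overlap_of_forall_isGaussExt K x hx hq hy (key y hv)

omit [CharZero K] [IsNoetherianRing O] in
/-- (ALLEXT) on the line of `j` gives (ALLEXT) on the line of `x` when `j = N(x) / D(x)` with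
`N`, `D` monic over `O`, `deg D < deg N`. -/
theorem allExt_of_monic_rel {x j : F} {π : O} (N D : O[X]) (hN : N.Monic) (hD : D.Monic)
    (hdeg : D.natDegree < N.natDegree) (hrel : j * aeval x D = aeval x N)
    {P : ValuationSubring F → Prop}
    (hall : ∀ W : ValuationSubring F, IsGaussExt O j π W → P W) :
    ∀ W : ValuationSubring F, IsGaussExt O x π W → P W :=
  fun W hW => hall W (hW.of_monic_rel N D hN hD hdeg hrel)

end Base

end Fermat.Agent.S36.helper4551
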