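/-
S36-CHARTS (board row #2257, helper4551): the chart <-> valuation dictionary of
`helper4551_ChartVal` in the shapes of its consumers, for a base `O : ValuationSubring K`, the two
charts `chartRing O {x}`, `chartRing O {x⁻¹}` of one base line (`= helper36.chart O x i`), and the
prime `(q : ℕ)`:

* `loc_chart_of_isGaussExt` : (LOC) a Gauss extension is the local ring of either chart at its
  centre (subtype form, both charts);
* `exists_centre_of_height_one` : (COMPL) every height-one prime of either chart containing `q`
  is the centre of one of the `V c`, from completeness of the list among the Gauss extensions;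
* `mem_chart_of_forall_mem` : (KRULL) `q ^ m * y` in the chart and `y ∈ V c` for all `c` give
  `y` in the chart;
* `isGaussExt_comap` : transport of the Gauss property along a ring homomorphism.
-/
import Mathlib
import Fermat.Agent.S36.helper4551_ChartKill

set_option autoImplicit false

namespace Fermat.Agent.S36.helper4551

open Polynomial
open Fermat.Agent.S36.helper248 (chartRing)

/-! ## Transport of the Gauss property -/

section Comap

variable {L L' : Type*} [Field L] [Field L']

theorem mem_nonunits_iff_inv_notMem (V : ValuationSubring L) {y : L} (hy : y ≠ 0) :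
    y ∈ V.nonunits ↔ y⁻¹ ∉ V := by
  rw [mem_nonunits_iff_val, ← ValuationSubring.valuation_le_one_iff, map_inv₀, not_le]
  have hv : V.valuation y ≠ 0 := (_root_.map_ne_zero _).mpr hy
  constructor
  · intro h
    exact (one_lt_inv₀ (zero_lt_iff.mpr hv)).mpr h
  · intro h
    exact (one_lt_inv₀ (zero_lt_iff.mpr hv)).mp h

theorem mem_nonunits_comap_iff (φ : L →+* L') (W' : ValuationSubring L') (y : L) :
    y ∈ (W'.comap φ).nonunits ↔ φ y ∈ W'.nonunits := by
  by_cases hy : y = 0
  · subst hy
    rw [map_zero]
    exact ⟨fun _ => zero_mem_nonunits W', fun _ => zero_mem_nonunits _⟩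
  · have hφy : φ y ≠ 0 := (_root_.map_ne_zero φ).mpr hy
    rw [mem_nonunits_iff_inv_notMem _ hy, mem_nonunits_iff_inv_notMem _ hφy,
      ValuationSubring.mem_comap, map_inv₀]

variable {A0 : Type*} [CommRing A0] [Algebra A0 L]

/-- **Transport of the Gauss property along a ring homomorphism** `φ : L →+* L'`: the pull-back
`W'.comap φ` is a Gauss extension for `x` as soon as the four defining properties hold after
applying `φ`. -/
theorem isGaussExt_comap (φ : L →+* L') (W' : ValuationSubring L') (x : L) (q : A0)
    (h1 : ∀ a : A0, φ (algebraMap A0 L a) ∈ W') (h2 : φ x ∈ W')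
    (h3 : φ (algebraMap A0 L q) ∈ W'.nonunits)
    (h4 : ∀ f : A0[X], φ (aeval x f) ∈ W'.nonunits → ∀ n, q ∣ f.coeff n) :
    IsGaussExt A0 x q (W'.comap φ) :=
  ⟨fun a => h1 a, h2, (mem_nonunits_comap_iff φ W' _).mpr h3,
    fun f hf => h4 f ((mem_nonunits_comap_iff φ W' _).mp hf)⟩

/-- Transport along an automorphism (or any ring homomorphism) commuting with the constants:
if `W'` is a Gauss extension for `φ x`, then `W'.comap φ` is a Gauss extension for `x`. -/
theorem IsGaussExt.comap [Algebra A0 L'] (φ : L →+* L')
    (hφ : ∀ a : A0, φ (algebraMap A0 L a) = algebraMap A0 L' a) {W' : ValuationSubring L'}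
    {x : L} {q : A0} (h : IsGaussExt A0 (φ x) q W') : IsGaussExt A0 x q (W'.comap φ) := by
  have hae : ∀ f : A0[X], φ (aeval x f) = aeval (φ x) f := by
    intro f
    rw [aeval_def, aeval_def, hom_eval₂]
    congr 1
    exact RingHom.ext hφ
  refine isGaussExt_comap φ W' x q (fun a => ?_) h.2.1 ?_ (fun f hf => ?_)
  · rw [hφ]; exact h.1 a
  · rw [hφ]; exact h.2.2.1
  · rw [hae] at hf
    exact h.2.2.2 f hf

end Comap

/-! ## The two charts over `O : ValuationSubring K` -/

section Loc

variable {K F : Type*} [Field K] [Field F] [Algebra K F] [CharZero K] (O : ValuationSubring K)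
  [IsNoetherianRing O]

omit [CharZero K] [IsNoetherianRing O] in
theorem ne_zero_of_transcendental {x : F} (hx : Transcendental K x) : x ≠ 0 := by
  rintro rfl
  exact hx isAlgebraic_zero

omit [CharZero K] [IsNoetherianRing O] in
/-- A Gauss extension for `x` is a Gauss extension for the coordinate of either chart. -/
theorem isGaussExt_chartCoord {x : F} (hx : Transcendental K x) {q : O} {W : ValuationSubring F}
    (hW : IsGaussExt O x q W) (i : Fin 2) : IsGaussExt O (if i = 0 then x else x⁻¹) q W := by
  by_cases hi : i = 0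
  · rw [if_pos hi]; exact hW
  · rw [if_neg hi]; exact hW.inv (ne_zero_of_transcendental hx)

omit [CharZero K] [IsNoetherianRing O] in
theorem chartSet_eq (x : F) (i : Fin 2) :
    (if i = 0 then ({x} : Set F) else {x⁻¹}) = {if i = 0 then x else x⁻¹} := by
  by_cases hi : i = 0
  · rw [if_pos hi, if_pos hi]
  · rw [if_neg hi, if_neg hi]

omit [CharZero K] [IsNoetherianRing O] in
theorem transcendental_chartCoord {x : F} (hx : Transcendental K x) (i : Fin 2) :
    Transcendental K (if i = 0 then x else x⁻¹) := by
  by_cases hi : i = 0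
  · rw [if_pos hi]; exact hx
  · rw [if_neg hi]; exact transcendental_inv K hx

omit [CharZero K] [IsNoetherianRing O] in
theorem finiteDimensional_chartCoord (x : F)
    [FiniteDimensional (IntermediateField.adjoin K ({x} : Set F)) F] (i : Fin 2) :
    FiniteDimensional
      (IntermediateField.adjoin K ({if i = 0 then x else x⁻¹} : Set F)) F := by
  by_cases hi : i = 0
  · rw [if_pos hi]; infer_instance
  · rw [if_neg hi]; exact finiteDimensional_adjoin_inv K x

/-- **(LOC), both charts, subtype form** (the shape of `hloc0`, `hloc2`, `hloc'` of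
`helper8039.lpProp_of_cases`): a Gauss extension `W` for `x` is the local ring of the chart
`chartRing O {x}` (`i = 0`) resp. `chartRing O {x⁻¹}` (`i = 1`) at its centre. -/
theorem loc_chart_of_isGaussExt (x : F) (hx : Transcendental K x)
    [FiniteDimensional (IntermediateField.adjoin K ({x} : Set F)) F] (q : ℕ)
    (hq : Prime ((q : ℕ) : O)) (W : ValuationSubring F)
    (hW : IsGaussExt O x ((q : ℕ) : O) W) :
    ∀ i : Fin 2, ∀ y ∈ W,
      ∃ a s : ↥(chartRing O (if i = 0 then ({x} : Set F) else {x⁻¹})),
        (s : F) ∉ W.nonunits ∧ y * (s : F) = (a : F) := by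
  intro i y hy
  have hfin := finiteDimensional_chartCoord (K := K) x i
  obtain ⟨a, s, ha, hs, hsW, h⟩ := (isGaussExt_chartCoord O hx hW i).exists_mul_eq K
    (if i = 0 then x else x⁻¹) (transcendental_chartCoord hx i) hq hy
  rw [← chartSet_eq] at ha hs
  exact ⟨⟨a, ha⟩, ⟨s, hs⟩, hsW, h⟩

/-- **(COMPL), both charts**: if every Gauss extension for `x` is one of the `V c`, then every
height-one prime of either chart containing `q` is the centre of one of the `V c`. -/
theorem exists_centre_of_height_one (x : F) (hx : Transcendental K x)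
    [FiniteDimensional (IntermediateField.adjoin K ({x} : Set F)) F] (q : ℕ)
    (hq : Prime ((q : ℕ) : O)) {ι : Type*} (V : ι → ValuationSubring F)
    (hall : ∀ W : ValuationSubring F, IsGaussExt O x ((q : ℕ) : O) W → ∃ c, W = V c)
    (i : Fin 2) (P : Ideal ↥(chartRing O (if i = 0 then ({x} : Set F) else {x⁻¹})))
    (hP : P.IsPrime) (hP1 : P.height = 1)
    (hqP : ((q : ℕ) : ↥(chartRing O (if i = 0 then ({x} : Set F) else {x⁻¹}))) ∈ P) :
    ∃ c, ∀ b : ↥(chartRing O (if i = 0 then ({x} : Set F) else {x⁻¹})),
      b ∈ P ↔ (b : F) ∈ (V c).nonunits := by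
  have hfin := finiteDimensional_chartCoord (K := K) x i
  have key : ∀ (S : Set F) (hS : S = {if i = 0 then x else x⁻¹}) (P : Ideal ↥(chartRing O S))
      [P.IsPrime], P.height = 1 → ((q : ℕ) : ↥(chartRing O S)) ∈ P →
      ∃ W : ValuationSubring F, IsGaussExt O (if i = 0 then x else x⁻¹) ((q : ℕ) : O) W ∧
        ∀ b : ↥(chartRing O S), b ∈ P ↔ (b : F) ∈ W.nonunits := by
    intro S hS
    subst hS
    intro P _ hP1 hqP
    refine exists_isGaussExt_of_height_eq_one K (if i = 0 then x else x⁻¹)
      (transcendental_chartCoord hx i) hq P hP1 ?_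
    have : (⟨algebraMap O F ((q : ℕ) : O), helper248.algebraMap_mem_chartRing _ _⟩ :
        ↥(chartRing O ({if i = 0 then x else x⁻¹} : Set F))) = ((q : ℕ) : _) := by
      apply Subtype.ext
      simp
    rw [this]
    exact hqP
  obtain ⟨W, hW, hPW⟩ := key _ (chartSet_eq x i) P hP1 hqP
  have hWx : IsGaussExt O x ((q : ℕ) : O) W := by
    by_cases hi : i = 0
    · rw [if_pos hi] at hW; exact hW
    · rw [if_neg hi] at hW
      exact (isGaussExt_inv_iff (ne_zero_of_transcendental hx)).mp hW
  obtain ⟨c, rfl⟩ := hall W hWx
  exact ⟨c, hPW⟩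

/-- **(KRULL), both charts**: if every Gauss extension for `x` contains one of the `V c`
(e.g. is one of them), then an element `y` of `F` with `q ^ m * y` in the chart which lies in
every `V c` lies in the chart. -/
theorem mem_chart_of_forall_mem (x : F) (hx : Transcendental K x)
    [FiniteDimensional (IntermediateField.adjoin K ({x} : Set F)) F] (q : ℕ)
    (hq : Prime ((q : ℕ) : O)) {ι : Type*} (V : ι → ValuationSubring F)
    (hall : ∀ W : ValuationSubring F, IsGaussExt O x ((q : ℕ) : O) W → ∃ c, V c ≤ W)
    (i : Fin 2) (y : F) (m : ℕ)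
    (hm : (q : F) ^ m * y ∈ chartRing O (if i = 0 then ({x} : Set F) else {x⁻¹}))
    (hy : ∀ c, y ∈ V c) :
    y ∈ chartRing O (if i = 0 then ({x} : Set F) else {x⁻¹}) := by
  have hfin := finiteDimensional_chartCoord (K := K) x i
  rw [chartSet_eq] at hm ⊢
  refine mem_chartRing_of_forall_isGaussExt K (if i = 0 then x else x⁻¹)
    (transcendental_chartCoord hx i) hq y m ?_ ?_
  · have : algebraMap O F ((q : ℕ) : O) = (q : F) := map_natCast _ q
    rw [this]
    exact hm
  · intro W hW
    have hWx : IsGaussExt O x ((q : ℕ) : O) W := by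
      by_cases hi : i = 0
      · rw [if_pos hi] at hW; exact hW
      · rw [if_neg hi] at hW
        exact (isGaussExt_inv_iff (ne_zero_of_transcendental hx)).mp hW
    obtain ⟨c, hc⟩ := hall W hWx
    exact hc (hy c)

end Loc

end Fermat.Agent.S36.helper4551
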