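/-
S36-CHARTS (board row #2257, helper4551): **the `q`-expansion Gauss rings are Gauss extensions
for the chart coordinates** (instance-level input of (LOC) for `v_∞`, `v_0`, `v'_∞`, `v'_0`).

`helper8991.gaussF A π N` is the `q`-expansion Gauss valuation subring of
`F_L(N) = laurentBaseChange L (modularFunctionFieldFull N)` attached to a valuation subring `A` of
the coefficient field `L` with reduction map `π : A →+* k`.

* `gaussF_map_coeff_eq_zero` : the Gauss condition at `gaussF A π N` for an element `g` whose
  expansion is an integral series with transcendental reduction;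
* `isGaussExt_comap_gaussF` : for ANY field `F` over `K`, `O ⊆ K` the restriction of `A` along
  `ι : K →+* L`, with uniformiser the prime number `q`, and ANY ring homomorphism
  `ψ : F →+* F_L(N)` which is `ι` on the constants (the coefficientwise embedding, possibly
  composed with an Atkin–Lehner involution on either side): if the expansion of `ψ x` is an
  integer series `Z` whose reduction is transcendental over `k`, then `(gaussF A π N).comap ψ` is
  a Gauss extension (`helper4551.IsGaussExt`) for `x`;
* `isGaussExt_gaussF` : the special case `F = F_K(N)`, `ψ = id`;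
* the reductions of `t₄`, `t₉` and of their `q ↦ q ^ d` twists are transcendental over every
  field (`transcendental_t4Z`, `transcendental_t9Z`, `transcendental_qExpand_t4Z`,
  `transcendental_qExpand_t9Z`).
-/
import Mathlib
import Fermat.Agent.S36.helper4551_ChartLoc
import Fermat.Agent.S37.helper9536_Haupt49Inst
import Fermat.Agent.Lib.helper3874_Hauptmodul
import Fermat.Agent.S18.helper8991_GaussInst
import Fermat.Agent.S28.helper3292_JqFacts
import Fermat.Prelude.Thm_ModularCurve_coeffMap_qExpand

set_option autoImplicit false

noncomputable section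

namespace Fermat.Agent.S36.helper4551

open ModularCurve Polynomial
open Fermat.Agent.S18.helper8991 (inc red gaussF gaussFRed mem_gaussF_iff gaussFRed_eq
  gaussFRed_eq_zero_iff algebraMap_mem_gaussF_iff)

/-! ### Series facts -/

section Series

theorem coeffMap_aeval_series {R S : Type*} [CommRing R] [CommRing S] (f : R →+* S)
    (x : LaurentSeries R) (p : R[X]) :
    coeffMap f (aeval x p) = aeval (coeffMap f x) (p.map f) := by
  rw [Polynomial.aeval_def, Polynomial.aeval_def, Polynomial.hom_eval₂, Polynomial.eval₂_map]
  congr 1
  exact RingHom.ext fun a => Fermat.Agent.S28.helper3292.coeffMap_algebraMap' f a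

theorem coeffMap_intCast_comp {R S : Type*} [CommRing R] [CommRing S] (f : R →+* S)
    (Z : LaurentSeries ℤ) :
    coeffMap f (coeffMap (Int.castRingHom R) Z) = coeffMap (Int.castRingHom S) Z := by
  rw [coeffMap_coeffMap]
  exact coeffMap_congr (RingHom.ext_int _ _) Z

/-- `q ↦ q ^ d` preserves transcendence over the constants. -/
theorem transcendental_qExpand {k : Type*} [Field k] (d : ℕ) [NeZero d] {f : LaurentSeries k}
    (hf : Transcendental k f) : Transcendental k (qExpand k d f) := by
  intro halg
  apply hf
  have h : IsAlgebraic k (qExpandAlgHomC k d f) := halg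
  exact (isAlgebraic_algHom_iff (qExpandAlgHomC k d) (qExpandAlgHomC k d).injective).mp h

open Fermat.Agent.S37.helper9536 (t4Z t9Z coeffMap_t4Z coeffMap_t9Z)
open Fermat.Agent.Lib.helper3874 (transcendental_t4C transcendental_t9C)

/-- The reduction of `t₄` is transcendental over every field. -/
theorem transcendental_t4Z (k : Type*) [Field k] :
    Transcendental k (coeffMap (Int.castRingHom k) t4Z) := by
  rw [coeffMap_t4Z]
  exact transcendental_t4C k

/-- The reduction of `t₉` is transcendental over every field. -/
theorem transcendental_t9Z (k : Type*) [Field k] :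
    Transcendental k (coeffMap (Int.castRingHom k) t9Z) := by
  rw [coeffMap_t9Z]
  exact transcendental_t9C k

/-- The reduction of `t₄(q ^ d)` is transcendental over every field. -/
theorem transcendental_qExpand_t4Z (k : Type*) [Field k] (d : ℕ) [NeZero d] :
    Transcendental k (coeffMap (Int.castRingHom k) (qExpand ℤ d t4Z)) := by
  rw [coeffMap_qExpand]
  exact transcendental_qExpand d (transcendental_t4Z k)

/-- The reduction of `t₉(q ^ d)` is transcendental over every field. -/
theorem transcendental_qExpand_t9Z (k : Type*) [Field k] (d : ℕ) [NeZero d] :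
    Transcendental k (coeffMap (Int.castRingHom k) (qExpand ℤ d t9Z)) := by
  rw [coeffMap_qExpand]
  exact transcendental_qExpand d (transcendental_t9Z k)

end Series

/-! ### The Gauss condition at the `q`-expansion Gauss ring -/

section GaussF

variable {L : Type*} [Field L] [Algebra ℚ L] (A : ValuationSubring L) {k : Type*} [Field k]
  (π : A →+* k) (N : ℕ)

/-- **Gauss condition at `gaussF`.**  If the expansion of `g` is an integral series with
transcendental reduction, a polynomial in `g` with coefficients in `A` which is a non-unit of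
the Gauss ring has all its coefficients in the kernel of `π`. -/
theorem gaussF_map_coeff_eq_zero (g : ↥(laurentBaseChange L (modularFunctionFieldFull N)))
    (X : LaurentSeries A) (hg : (g : LaurentSeries L) = inc A X)
    (htr : Transcendental k (red A π X)) (P : A[X])
    (hP : aeval g (P.map A.subtype) ∈ (gaussF A π N).nonunits) (n : ℕ) :
    π (P.coeff n) = 0 := by
  have hcoe : ((aeval g (P.map A.subtype) :
      ↥(laurentBaseChange L (modularFunctionFieldFull N))) : LaurentSeries L)
      = inc A (aeval X P) := by
    have h1 : ((aeval g (P.map A.subtype) :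
        ↥(laurentBaseChange L (modularFunctionFieldFull N))) : LaurentSeries L)
        = aeval (g : LaurentSeries L) (P.map A.subtype) :=
      (Polynomial.aeval_algHom_apply
        (laurentBaseChange L (modularFunctionFieldFull N)).val g (P.map A.subtype)).symm
    rw [h1, hg]
    exact (coeffMap_aeval_series A.subtype X P).symm
  have hmem : aeval g (P.map A.subtype) ∈ gaussF A π N :=
    (mem_gaussF_iff A π N _).mpr ⟨aeval X P, 1, by simp, by simp [hcoe]⟩
  have hred : gaussFRed A π N ⟨_, hmem⟩ = red A π (aeval X P) := by
    rw [gaussFRed_eq A π N ⟨_, hmem⟩ (X := aeval X P) (Y := 1) (by simp) (by simp [hcoe])]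
    simp
  have h0 : gaussFRed A π N ⟨_, hmem⟩ = 0 := by
    rw [gaussFRed_eq_zero_iff]
    obtain ⟨h', hh⟩ := ValuationSubring.mem_nonunits_iff_exists_mem_maximalIdeal.mp hP
    exact hh
  rw [hred] at h0
  have h2 : aeval (red A π X) (P.map π) = 0 := by
    rw [← coeffMap_aeval_series π X P]
    exact h0
  have hP0 : P.map π = 0 := by
    by_contra hne
    exact htr ⟨P.map π, hne, h2⟩
  have := congrArg (fun p : k[X] => p.coeff n) hP0
  simpa [Polynomial.coeff_map] using this

end GaussF

/-! ### Pull-back to a field over `K` -/

section Comap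

variable {L : Type*} [Field L] [Algebra ℚ L] (A : ValuationSubring L) {k : Type*} [Field k]
  (π : A →+* k) (N : ℕ)
variable {K : Type*} [Field K] (O : ValuationSubring K) (ι : K →+* L)
variable {F : Type*} [Field F] [Algebra K F]

/-- **The pull-back of the `q`-expansion Gauss ring is a Gauss extension for `x`**, for every
`x` whose image has an integer expansion with transcendental reduction.

`O` is the restriction of `A` along `ι` (`hO`), with uniformiser the prime number `q`
(`BaseDVR.q_ne`, `.q_mem`, `.unif` shapes); `ψ` is any ring homomorphism into the function field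
over `L` which is `ι` on the constants. -/
theorem isGaussExt_comap_gaussF (hO : ∀ a : K, a ∈ O ↔ ι a ∈ A)
    (hπ : ∀ a : A, π a = 0 ↔ (a : L) ∈ A.nonunits)
    (q : ℕ) (hq_ne : (q : K) ≠ 0) (hq_mem : (q : K) ∈ O.nonunits)
    (hunif : ∀ c : K, c ∈ O.nonunits → c / (q : K) ∈ O)
    (ψ : F →+* ↥(laurentBaseChange L (modularFunctionFieldFull N)))
    (hψc : ∀ a : K, ψ (algebraMap K F a)
      = algebraMap L ↥(laurentBaseChange L (modularFunctionFieldFull N)) (ι a))
    (x : F) (Z : LaurentSeries ℤ)
    (hψx : ((ψ x : ↥(laurentBaseChange L (modularFunctionFieldFull N))) : LaurentSeries L)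
      = coeffMap (Int.castRingHom L) Z)
    (htr : Transcendental k (coeffMap (Int.castRingHom k) Z)) :
    IsGaussExt O x ((q : ℕ) : O) ((gaussF A π N).comap ψ) := by
  have hπ0 : ∀ a : A, a ∈ IsLocalRing.maximalIdeal A → π a = 0 := by
    intro a ha
    rw [hπ]
    exact ValuationSubring.mem_nonunits_iff_exists_mem_maximalIdeal.mpr ⟨a.2, ha⟩
  -- nonunits of `O` and of `A`
  have hnon : ∀ a : K, a ∈ O.nonunits ↔ ι a ∈ A.nonunits := by
    intro a
    by_cases ha : a = 0
    · subst ha
      rw [map_zero]
      exact ⟨fun _ => zero_mem_nonunits A, fun _ => zero_mem_nonunits O⟩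
    · have hιa : ι a ≠ 0 := (_root_.map_ne_zero ι).mpr ha
      rw [mem_nonunits_iff_inv_notMem O ha, mem_nonunits_iff_inv_notMem A hιa, hO, map_inv₀]
  -- constants of `A` in the Gauss ring
  have hconstA : ∀ c : L, c ∈ A.nonunits →
      algebraMap L ↥(laurentBaseChange L (modularFunctionFieldFull N)) c
        ∈ (gaussF A π N).nonunits := by
    intro c hc
    by_cases hc0 : c = 0
    · subst hc0
      rw [map_zero]
      exact zero_mem_nonunits _
    · have hne : algebraMap L ↥(laurentBaseChange L (modularFunctionFieldFull N)) c ≠ 0 :=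
        (_root_.map_ne_zero _).mpr hc0
      rw [mem_nonunits_iff_inv_notMem _ hne, ← map_inv₀, algebraMap_mem_gaussF_iff A π N hπ0]
      exact (mem_nonunits_iff_inv_notMem A hc0).mp hc
  have hX : ((ψ x : ↥(laurentBaseChange L (modularFunctionFieldFull N))) : LaurentSeries L)
      = inc A (coeffMap (Int.castRingHom A) Z) := by
    rw [hψx]
    exact (coeffMap_intCast_comp A.subtype Z).symm
  have htr' : Transcendental k (red A π (coeffMap (Int.castRingHom A) Z)) := by
    have : red A π (coeffMap (Int.castRingHom A) Z) = coeffMap (Int.castRingHom k) Z :=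
      coeffMap_intCast_comp π Z
    rw [this]
    exact htr
  have halg : ∀ a : O, ψ (algebraMap O F a)
      = algebraMap L ↥(laurentBaseChange L (modularFunctionFieldFull N)) (ι (a : K)) := by
    intro a
    rw [← hψc]
    rfl
  refine isGaussExt_comap ψ (gaussF A π N) x ((q : ℕ) : O) (fun a => ?_) ?_ ?_ (fun f hf n => ?_)
  · rw [halg, algebraMap_mem_gaussF_iff A π N hπ0]
    exact (hO _).mp a.2
  · exact (mem_gaussF_iff A π N _).mpr ⟨coeffMap (Int.castRingHom A) Z, 1, by simp, by simp [hX]⟩
  · rw [halg]
    apply hconstA
    have : (((q : ℕ) : O) : K) = (q : K) := by push_cast; rfl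
    rw [this]
    exact (hnon _).mp hq_mem
  · -- the Gauss condition
    let ιO : O →+* A := (ι.comp O.subtype).codRestrict A.toSubring (fun a => (hO _).mp a.2)
    have hιO : ∀ a : O, ((ιO a : A) : L) = ι (a : K) := fun a => rfl
    have hae : ψ (aeval x f) = aeval (ψ x) ((f.map ιO).map A.subtype) := by
      rw [aeval_def, aeval_def, hom_eval₂, Polynomial.map_map, eval₂_map]
      congr 1
      refine RingHom.ext fun a => ?_
      rw [RingHom.comp_apply, halg]
      rfl
    rw [hae] at hf
    have h0 := gaussF_map_coeff_eq_zero A π N (ψ x) _ hX htr' (f.map ιO) hf n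
    rw [Polynomial.coeff_map, hπ, hιO] at h0
    exact (natCast_dvd_iff O q hq_ne hq_mem hunif _).mpr ((hnon _).mpr h0)

/-- The same for a pull-back in two steps, `ψ : F →+* F_L(N)` followed by a ring endomorphism
`w` of `F_L(N)` fixing the constants (an Atkin–Lehner involution): the valuation ring
`((gaussF A π N).comap w).comap ψ` is a Gauss extension for `x` as soon as the expansion of
`w (ψ x)` is an integer series with transcendental reduction. -/
theorem isGaussExt_comap_comap_gaussF (hO : ∀ a : K, a ∈ O ↔ ι a ∈ A)
    (hπ : ∀ a : A, π a = 0 ↔ (a : L) ∈ A.nonunits)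
    (q : ℕ) (hq_ne : (q : K) ≠ 0) (hq_mem : (q : K) ∈ O.nonunits)
    (hunif : ∀ c : K, c ∈ O.nonunits → c / (q : K) ∈ O)
    (ψ : F →+* ↥(laurentBaseChange L (modularFunctionFieldFull N)))
    (hψc : ∀ a : K, ψ (algebraMap K F a)
      = algebraMap L ↥(laurentBaseChange L (modularFunctionFieldFull N)) (ι a))
    (w : ↥(laurentBaseChange L (modularFunctionFieldFull N)) →+*
      ↥(laurentBaseChange L (modularFunctionFieldFull N)))
    (hwc : ∀ c : L, w (algebraMap L ↥(laurentBaseChange L (modularFunctionFieldFull N)) c)
      = algebraMap L ↥(laurentBaseChange L (modularFunctionFieldFull N)) c)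
    (x : F) (Z : LaurentSeries ℤ)
    (hwx : ((w (ψ x) : ↥(laurentBaseChange L (modularFunctionFieldFull N))) : LaurentSeries L)
      = coeffMap (Int.castRingHom L) Z)
    (htr : Transcendental k (coeffMap (Int.castRingHom k) Z)) :
    IsGaussExt O x ((q : ℕ) : O) (((gaussF A π N).comap w).comap ψ) := by
  have h := isGaussExt_comap_gaussF A π N O ι hO hπ q hq_ne hq_mem hunif (w.comp ψ)
    (fun a => by rw [RingHom.comp_apply, hψc, hwc]) x Z hwx htr
  have hc : (gaussF A π N).comap (w.comp ψ) = ((gaussF A π N).comap w).comap ψ := by
    ext y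
    rw [ValuationSubring.mem_comap, ValuationSubring.mem_comap, ValuationSubring.mem_comap,
      RingHom.comp_apply]
  rwa [hc] at h

end Comap

/-! ### Pull-back along a coefficientwise embedding `F_K(N) → F_L(N)` -/

section Coeffwise

variable {L : Type*} [Field L] [Algebra ℚ L] (A : ValuationSubring L) {k : Type*} [Field k]
  (π : A →+* k) (N : ℕ)
variable {K : Type*} [Field K] [Algebra ℚ K] (O : ValuationSubring K) (ι : K →+* L)

/-- Shortcut (the term found by instance search, registered locally to keep the search cheap). -/
local instance algebraFKCoeffwise :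
    Algebra K ↥(laurentBaseChange K (modularFunctionFieldFull N)) :=
  SubalgebraClass.toAlgebra (laurentBaseChange K (modularFunctionFieldFull N))

/-- A coefficientwise embedding is `ι` on the constants. -/
theorem coeffwise_algebraMap
    (ψ : ↥(laurentBaseChange K (modularFunctionFieldFull N)) →+*
      ↥(laurentBaseChange L (modularFunctionFieldFull N)))
    (hψ : ∀ y : ↥(laurentBaseChange K (modularFunctionFieldFull N)),
      ((ψ y : ↥(laurentBaseChange L (modularFunctionFieldFull N))) : LaurentSeries L)
        = coeffMap ι (y : LaurentSeries K)) (a : K) :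
    ψ (algebraMap K ↥(laurentBaseChange K (modularFunctionFieldFull N)) a)
      = algebraMap L ↥(laurentBaseChange L (modularFunctionFieldFull N)) (ι a) := by
  apply Subtype.ext
  rw [hψ]
  show coeffMap ι (algebraMap K (LaurentSeries K) a) = algebraMap L (LaurentSeries L) (ι a)
  rw [algebraMap_laurentSeries_eq_single, algebraMap_laurentSeries_eq_single, coeffMap_single]

/-- **`v_∞` restricted from `(L, A)`** (the ruled definition `V 0 = (gaussF A π N).comap lh`,
`lh` the coefficientwise embedding `helper5651.layerHom` / `helper6594.embK`) is a Gauss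
extension for every `x` with an integer expansion whose reduction is transcendental. -/
theorem isGaussExt_comap_gaussF_coeffwise (hO : ∀ a : K, a ∈ O ↔ ι a ∈ A)
    (hπ : ∀ a : A, π a = 0 ↔ (a : L) ∈ A.nonunits)
    (q : ℕ) (hq_ne : (q : K) ≠ 0) (hq_mem : (q : K) ∈ O.nonunits)
    (hunif : ∀ c : K, c ∈ O.nonunits → c / (q : K) ∈ O)
    (ψ : ↥(laurentBaseChange K (modularFunctionFieldFull N)) →+*
      ↥(laurentBaseChange L (modularFunctionFieldFull N)))
    (hψ : ∀ y : ↥(laurentBaseChange K (modularFunctionFieldFull N)),
      ((ψ y : ↥(laurentBaseChange L (modularFunctionFieldFull N))) : LaurentSeries L)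
        = coeffMap ι (y : LaurentSeries K))
    (x : ↥(laurentBaseChange K (modularFunctionFieldFull N))) (Z : LaurentSeries ℤ)
    (hx : (x : LaurentSeries K) = coeffMap (Int.castRingHom K) Z)
    (htr : Transcendental k (coeffMap (Int.castRingHom k) Z)) :
    IsGaussExt O x ((q : ℕ) : O) ((gaussF A π N).comap ψ) :=
  isGaussExt_comap_gaussF A π N O ι hO hπ q hq_ne hq_mem hunif ψ
    (coeffwise_algebraMap N ι ψ hψ) x Z
    (by rw [hψ, hx]; exact coeffMap_intCast_comp ι Z) htr

end Coeffwise

/-! ### The function field over `K` itself -/

section Direct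

variable {K : Type*} [Field K] [Algebra ℚ K] (O : ValuationSubring K) {k : Type*} [Field k]
  (π : O →+* k) (N : ℕ)

/-- Shortcut (the term found by instance search, registered locally to keep the search cheap). -/
local instance algebraFKDirect :
    Algebra K ↥(laurentBaseChange K (modularFunctionFieldFull N)) :=
  SubalgebraClass.toAlgebra (laurentBaseChange K (modularFunctionFieldFull N))

/-- **The `q`-expansion Gauss ring of `F_K(N)` over `O` is a Gauss extension** for every `x`
with an integer expansion whose reduction is transcendental over the residue field. -/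
theorem isGaussExt_gaussF (hπ : ∀ a : O, π a = 0 ↔ (a : K) ∈ O.nonunits)
    (q : ℕ) (hq_ne : (q : K) ≠ 0) (hq_mem : (q : K) ∈ O.nonunits)
    (hunif : ∀ c : K, c ∈ O.nonunits → c / (q : K) ∈ O)
    (x : ↥(laurentBaseChange K (modularFunctionFieldFull N))) (Z : LaurentSeries ℤ)
    (hx : (x : LaurentSeries K) = coeffMap (Int.castRingHom K) Z)
    (htr : Transcendental k (coeffMap (Int.castRingHom k) Z)) :
    IsGaussExt O x ((q : ℕ) : O) (gaussF O π N) := by
  have h := isGaussExt_comap_gaussF O π N O (RingHom.id K) (fun _ => Iff.rfl) hπ q hq_ne hq_mem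
    hunif (RingHom.id _) (fun _ => rfl) x Z hx htr
  have hc : (gaussF O π N).comap (RingHom.id _) = gaussF O π N := by
    ext y
    rfl
  rwa [hc] at h

end Direct

end Fermat.Agent.S36.helper4551
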