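/-
S36, block LP, item `loc_mid` (s36_open #12, helper1638): **(LOC) of the chart rings at `v_mid`**
on the terms of record (`helper405_KillTerms`).

`loc_mid` : every element of `Vmid` is `a / s` with `a, s` in the chart ring `BK i` and `s` a unit
of `Vmid` (the shape of `loc_inf` / `loc_zero`, i.e. of the hypothesis `hloc_mid` of
`helper8039.mid_of_loc` / `mid_of_val`).

Route (formal):
* `v'_∞ = (gaussF A π M₁).comap lh` is a Gauss extension for the base line `x'` of level `M₁`
  (`helper4551.isGaussExt_comap_gaussF_coeffwise`: the expansion of `x'` is the integer series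
  `t₄` resp. `t₉`, with transcendental reduction);
* every clause of `IsGaussExt O x q V` only involves elements of `O[x]`; since `x = α x'` and
  `Vmid ∩ α F' = α v'_∞` (the table `α_mem_mid`, a field of `helper405.KillInput`), `Vmid` is a
  Gauss extension for `x` (`isGaussExt_map_of_comap`);
* a Gauss extension is the local ring of either chart at its centre
  (`helper4551.loc_chart_of_isGaussExt`).
-/
import Fermat.Agent.S36.helper405_KillTerms
import Fermat.Agent.S36.helper4551_ChartGaussInst
import Fermat.Agent.S36.helper225_BaseDVR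

set_option autoImplicit false

noncomputable section

namespace Fermat.Agent.S36.helper1638

open ModularCurve Polynomial
open Fermat.Agent.S24.helper24 (Kbar FN)
open Fermat.Agent.S36.helper36 (chart)
open Fermat.Agent.S36.helper1335 (AuxOK)
open Fermat.Agent.S36.helper405
open Fermat.Agent.S36.helper4551 (IsGaussExt)
open Fermat.Agent.S18.helper8991 (gaussF)

/-! ## Transport of the Gauss property from a pull-back -/

section Transport

variable {L L' : Type*} [Field L] [Field L'] {A0 : Type*} [CommRing A0] [Algebra A0 L]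
  [Algebra A0 L']

/-- If the pull-back `W'.comap φ` is a Gauss extension for `x`, then `W'` is a Gauss extension for
`φ x` (`φ` commuting with the constants): every clause of `IsGaussExt` lives in `A0[x]`. -/
theorem isGaussExt_map_of_comap (φ : L →+* L')
    (hφ : ∀ a : A0, φ (algebraMap A0 L a) = algebraMap A0 L' a) {W' : ValuationSubring L'}
    {x : L} {q : A0} (h : IsGaussExt A0 x q (W'.comap φ)) : IsGaussExt A0 (φ x) q W' := by
  have hae : ∀ f : A0[X], φ (aeval x f) = aeval (φ x) f := by
    intro f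
    rw [aeval_def, aeval_def, hom_eval₂]
    congr 1
    exact RingHom.ext hφ
  refine ⟨fun a => ?_, h.2.1, ?_, fun f hf => ?_⟩
  · rw [← hφ]
    exact h.1 a
  · rw [← hφ]
    exact (Fermat.Agent.S36.helper4551.mem_nonunits_comap_iff φ W' _).mp h.2.2.1
  · refine h.2.2.2 f ((Fermat.Agent.S36.helper4551.mem_nonunits_comap_iff φ W' _).mpr ?_)
    rw [hae]
    exact hf

end Transport

/-! ## The concrete terms -/

section Inst

variable (A : ValuationSubring (AlgebraicClosure ℚ)) (M₁ q : ℕ) [NeZero M₁] [NeZero q]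

/-- Shortcut (the term found by instance search in the generic setting `O : ValuationSubring K`,
`[Algebra K F]`; the search at the concrete types is slow). -/
local instance instAlgebraOIFK (N : ℕ) : Algebra ↥(OI A) (FK A N) :=
  Algebra.ofSubsemiring (OI A)

/-- The integer series of the base line: `t₉` for `q = 2`, `t₄` otherwise. -/
def baseZ (q : ℕ) : LaurentSeries ℤ := by
  classical
  exact if q = 2 then Fermat.Agent.S37.helper9536.t9Z else Fermat.Agent.S37.helper9536.t4Z

theorem coe_baseLine (K : Type) [Field K] [Algebra ℚ K] (M : ℕ) [NeZero M] (q : ℕ)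
    (h4 : q ≠ 2 → 4 ∣ M) (h9 : q = 2 → 9 ∣ M) :
    ((baseLine K M q h4 h9 : ↥(laurentBaseChange K (modularFunctionFieldFull M))) :
      LaurentSeries K) = coeffMap (Int.castRingHom K) (baseZ q) := by
  by_cases h : q = 2
  · rw [baseLine_of_eq K M q h4 h9 h, Fermat.Agent.S37.helper530.coe_t9F]
    unfold baseZ
    rw [if_pos h]
    exact (Fermat.Agent.S37.helper9536.coeffMap_t9Z K).symm
  · rw [baseLine_of_ne K M q h4 h9 h, Fermat.Agent.S37.helper530.coe_t4F]
    unfold baseZ
    rw [if_neg h]
    exact (Fermat.Agent.S37.helper9536.coeffMap_t4Z K).symm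

theorem transcendental_baseZ (k : Type*) [Field k] (q : ℕ) :
    Transcendental k (coeffMap (Int.castRingHom k) (baseZ q)) := by
  by_cases h : q = 2
  · unfold baseZ
    rw [if_pos h]
    exact Fermat.Agent.S36.helper4551.transcendental_t9Z k
  · unfold baseZ
    rw [if_neg h]
    exact Fermat.Agent.S36.helper4551.transcendental_t4Z k

/-- `x = α x'`: the base line of level `M₁ q` is the base line of level `M₁`. -/
theorem xK_eq_αK_xK' (haux : AuxOK M₁ q) :
    xK A M₁ q haux = αK A M₁ q (xK' A M₁ q haux) := by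
  apply Subtype.ext
  rw [coe_heckeAlphaBar]
  unfold xK xK'
  rw [coe_baseLine, coe_baseLine]

omit [NeZero q] in
/-- `v'_∞` is a Gauss extension for the base line `x'` of level `M₁`. -/
theorem isGaussExt_Vinf'_xK' (hq : q.Prime) (haux : AuxOK M₁ q) (hA : A.LiesOverPrime q) :
    IsGaussExt (OI A) (xK' A M₁ q haux) ((q : ℕ) : OI A) (Vinf' A M₁) := by
  have hb := Fermat.Agent.S36.helper225.baseDVR_facts A hq hA
  have hπ : ∀ a : A, IsLocalRing.residue A a = 0 ↔ (a : AlgebraicClosure ℚ) ∈ A.nonunits := by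
    intro a
    rw [IsLocalRing.residue_eq_zero_iff, ValuationSubring.mem_nonunits_iff_exists_mem_maximalIdeal]
    exact ⟨fun h => ⟨a.2, h⟩, fun ⟨_, h⟩ => h⟩
  exact Fermat.Agent.S36.helper4551.isGaussExt_comap_gaussF_coeffwise A (IsLocalRing.residue A) M₁
    (OI A) (algebraMap (KI A) (AlgebraicClosure ℚ)) (fun _ => Iff.rfl) hπ q hb.2.1 hb.2.2.1
    hb.2.2.2.1 (lh A M₁) (fun _ => rfl) (xK' A M₁ q haux) (baseZ q)
    (coe_baseLine (KI A) M₁ q haux.1 haux.2) (transcendental_baseZ _ q)

variable (hq : q.Prime) (hqM : q ∣ M₁) (hq2 : ¬ q ^ 2 ∣ M₁) (haux : AuxOK M₁ q)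

/-- **`v_mid` is a Gauss extension for the base line `x`** (from the table `α_mem_mid`). -/
theorem isGaussExt_Vmid_xK (hA : A.LiesOverPrime q)
    (α_mem_mid : Deg.MemOver (αK A M₁ q) (Vmid A M₁ q hq hqM hq2) (Vinf' A M₁)) :
    IsGaussExt (OI A) (xK A M₁ q haux) ((q : ℕ) : OI A) (Vmid A M₁ q hq hqM hq2) := by
  have hV : Vinf' A M₁ = (Vmid A M₁ q hq hqM hq2).comap (αK A M₁ q).toRingHom := by
    ext a
    rw [ValuationSubring.mem_comap]
    exact (α_mem_mid a).symm
  have h := isGaussExt_Vinf'_xK' A M₁ q hq haux hA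
  rw [hV] at h
  have hc : ∀ a : ↥(OI A), (αK A M₁ q).toRingHom (algebraMap ↥(OI A) (FK A M₁) a)
      = algebraMap ↥(OI A) (FK A (M₁ * q)) a :=
    fun a => (αK A M₁ q).commutes ((a : ↥(OI A)) : KI A)
  have h2 := isGaussExt_map_of_comap (A0 := ↥(OI A)) (αK A M₁ q).toRingHom hc h
  rw [xK_eq_αK_xK']
  exact h2

/-- **(LOC) at `v_mid`** (s36_open #12): `Vmid` is the local ring of either chart ring `BK i` at
its centre.  The hypothesis is the field `α_mem_mid` of `helper405.KillInput`, verbatim. -/
theorem loc_mid (hA : A.LiesOverPrime q)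
    (α_mem_mid : Deg.MemOver (αK A M₁ q) (Vmid A M₁ q hq hqM hq2) (Vinf' A M₁)) :
    ∀ i : Fin 2, ∀ y ∈ Vmid A M₁ q hq hqM hq2, ∃ a s : BK A M₁ q haux i,
      (s : FK A (M₁ * q)) ∉ (Vmid A M₁ q hq hqM hq2).nonunits ∧ y * s = a := by
  have hb := Fermat.Agent.S36.helper225.baseDVR_facts A hq hA
  have : IsNoetherianRing (OI A) := hb.2.2.2.2.1
  have hx : Transcendental (KI A) (xK A M₁ q haux) := baseLine_transcendental _ _ _ _ _
  have hfin : FiniteDimensional (IntermediateField.adjoin (KI A)
      ({xK A M₁ q haux} : Set (FK A (M₁ * q)))) (FK A (M₁ * q)) :=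
    baseLine_finiteDimensional _ _ _ _ _
  have hqp : Prime ((q : ℕ) : OI A) :=
    Fermat.Agent.S36.helper4551.prime_natCast_of_unif (OI A) q hb.2.1 hb.2.2.1 hb.2.2.2.1
  exact Fermat.Agent.S36.helper4551.loc_chart_of_isGaussExt (OI A) (xK A M₁ q haux) hx q hqp
    (Vmid A M₁ q hq hqM hq2) (isGaussExt_Vmid_xK A M₁ q hq hqM hq2 haux hA α_mem_mid)

end Inst

end Fermat.Agent.S36.helper1638
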