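/-
S36-CUSP-LP, abstract kit (helper5229).

The local algebra at the CUSPIDAL closed points of the three components of the special fibre
of the normal model at level `q² M''`, in a carrier-free vocabulary:

* `F` a field, `O : Subring F` a LOCAL subring which is integrally closed in `F`
  (the local ring `B_P` of a chart ring at a closed point `P`);
* valuation subrings `V` of `F` (the vertical valuations `v_∞`, `v_mid`, `v_0`);
* three elements `j, jq, jqq` (the functions `j(z), j(qz), j(q² z)`) tied by one relation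
  `Φ` of Kronecker shape.

Everything is elementwise in `F`; no localisation type, no residue field.
-/
import Mathlib

set_option autoImplicit false

namespace Fermat.Agent.S36.helper5229

open Polynomial

variable {F : Type*} [Field F]

/-! ## Local subrings of a field, elementwise -/

/-- `x` is a non-unit of the subring `O` of the field `F` (`x ∈ 𝔪_O` when `O` is local). -/
def NonUnit (O : Subring F) (x : F) : Prop := x ∈ O ∧ (x = 0 ∨ x⁻¹ ∉ O)

/-- `O` is a local subring of `F`: its non-units are closed under addition. -/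
def IsLocalSub (O : Subring F) : Prop :=
  ∀ x y : F, NonUnit O x → NonUnit O y → NonUnit O (x + y)

/-- `O` is integrally closed in `F`, elementwise. -/
def IntClosedIn (O : Subring F) : Prop := ∀ x : F, IsIntegral O x → x ∈ O

section Basic

variable {O : Subring F} {x y r : F}

theorem NonUnit.mem (h : NonUnit O x) : x ∈ O := h.1

theorem nonUnit_zero : NonUnit O (0 : F) := ⟨O.zero_mem, Or.inl rfl⟩

theorem not_nonUnit_one : ¬ NonUnit O (1 : F) := by
  rintro ⟨-, h | h⟩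
  · exact one_ne_zero h
  · exact h (by rw [inv_one]; exact O.one_mem)

theorem NonUnit.mul_left (h : NonUnit O x) (hr : r ∈ O) : NonUnit O (r * x) := by
  refine ⟨O.mul_mem hr h.1, ?_⟩
  by_cases h0 : r * x = 0
  · exact Or.inl h0
  · right
    intro hinv
    have hr0 : r ≠ 0 := fun h' => h0 (by rw [h', zero_mul])
    have hx0 : x ≠ 0 := fun h' => h0 (by rw [h', mul_zero])
    rcases h.2 with h2 | h2
    · exact hx0 h2
    · apply h2
      have : x⁻¹ = r * (r * x)⁻¹ := by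
        rw [mul_inv, ← mul_assoc, mul_inv_cancel₀ hr0, one_mul]
      rw [this]
      exact O.mul_mem hr hinv

theorem NonUnit.mul_right (h : NonUnit O x) (hr : r ∈ O) : NonUnit O (x * r) := by
  rw [mul_comm]; exact h.mul_left hr

theorem NonUnit.neg (h : NonUnit O x) : NonUnit O (-x) := by
  have := h.mul_left (O.neg_mem O.one_mem)
  rwa [neg_one_mul] at this

theorem NonUnit.pow (h : NonUnit O x) {n : ℕ} (hn : n ≠ 0) : NonUnit O (x ^ n) := by
  obtain ⟨m, rfl⟩ := Nat.exists_eq_succ_of_ne_zero hn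
  rw [pow_succ]
  exact h.mul_left (O.pow_mem h.1 m)

/-- A member of `O` which is not a non-unit is a unit of `O`. -/
theorem inv_mem_of_not_nonUnit (hx : x ∈ O) (h : ¬ NonUnit O x) : x ≠ 0 ∧ x⁻¹ ∈ O := by
  constructor
  · rintro rfl; exact h nonUnit_zero
  · by_contra h'; exact h ⟨hx, Or.inr h'⟩

theorem not_nonUnit_of_inv_mem (hx0 : x ≠ 0) (hx : x⁻¹ ∈ O) : ¬ NonUnit O x := by
  rintro ⟨-, h | h⟩
  · exact hx0 h
  · exact h hx

theorem nonUnit_of_pow (hx : x ∈ O) {n : ℕ} (h : NonUnit O (x ^ n)) : NonUnit O x := by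
  by_contra hc
  obtain ⟨h0, hinv⟩ := inv_mem_of_not_nonUnit hx hc
  exact not_nonUnit_of_inv_mem (pow_ne_zero n h0) (by rw [← inv_pow]; exact O.pow_mem hinv n) h

theorem IsLocalSub.sub (hO : IsLocalSub O) (hx : NonUnit O x) (hy : NonUnit O y) :
    NonUnit O (x - y) := by
  rw [sub_eq_add_neg]; exact hO _ _ hx hy.neg

/-- In a local subring, a unit plus a non-unit is a unit. -/
theorem IsLocalSub.not_nonUnit_add (hO : IsLocalSub O) (hx : ¬ NonUnit O x) (hy : NonUnit O y) :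
    ¬ NonUnit O (x + y) := by
  intro h
  apply hx
  have := hO.sub h hy
  rwa [add_sub_cancel_right] at this

/-- In a local subring, `u ≡ 1` modulo a non-unit is a unit. -/
theorem IsLocalSub.not_nonUnit_of_sub_one (hO : IsLocalSub O) (h : NonUnit O (x - 1)) :
    ¬ NonUnit O x := by
  have := hO.not_nonUnit_add (x := 1) (y := x - 1) not_nonUnit_one h
  rwa [add_sub_cancel] at this

/-- The centre of a valuation subring containing `O` consists of non-units of `O`. -/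
theorem nonUnit_of_mem_nonunits (V : ValuationSubring F) (hOV : O ≤ V.toSubring) (hx : x ∈ O)
    (hxV : x ∈ V.nonunits) : NonUnit O x := by
  refine ⟨hx, ?_⟩
  by_cases h0 : x = 0
  · exact Or.inl h0
  · right
    intro hinv
    have h1 : V.valuation x < 1 := V.mem_nonunits_iff.mp hxV
    have h2 : V.valuation x⁻¹ ≤ 1 := (V.valuation_le_one_iff _).mpr (hOV hinv)
    have h3 : V.valuation x * V.valuation x⁻¹ = 1 := by
      rw [← map_mul, mul_inv_cancel₀ h0, map_one]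
    have h4 : V.valuation x * V.valuation x⁻¹ < 1 := by
      calc V.valuation x * V.valuation x⁻¹ ≤ V.valuation x * 1 := mul_le_mul' le_rfl h2
        _ = V.valuation x := mul_one _
        _ < 1 := h1
    exact absurd h3 (ne_of_lt h4)

/-- A local ring structure on `O` (Mathlib's `IsLocalRing`) gives `IsLocalSub`. -/
theorem isLocalSub_of_isLocalRing (O : Subring F) [IsLocalRing O] : IsLocalSub O := by
  have key : ∀ z : F, NonUnit O z ↔ ∃ hz : z ∈ O, (⟨z, hz⟩ : O) ∈ nonunits O := by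
    intro z
    constructor
    · rintro ⟨hz, h⟩
      refine ⟨hz, ?_⟩
      intro hu
      obtain ⟨⟨w, hw⟩, hzw⟩ := hu.exists_right_inv
      have hzw' : z * w = 1 := congrArg Subtype.val hzw
      have hz0 : z ≠ 0 := fun h0 => by rw [h0, zero_mul] at hzw'; exact zero_ne_one hzw'
      rcases h with h | h
      · exact hz0 h
      · apply h
        have : z⁻¹ = w := by
          rw [← mul_one z⁻¹, ← hzw', ← mul_assoc, inv_mul_cancel₀ hz0, one_mul]
        rw [this]; exact hw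
    · rintro ⟨hz, h⟩
      refine ⟨hz, ?_⟩
      by_cases h0 : z = 0
      · exact Or.inl h0
      · right
        intro hinv
        apply h
        refine IsUnit.of_mul_eq_one (⟨z⁻¹, hinv⟩ : O) ?_
        exact Subtype.ext (mul_inv_cancel₀ h0)
  intro x y hx hy
  obtain ⟨hx', hxn⟩ := (key x).mp hx
  obtain ⟨hy', hyn⟩ := (key y).mp hy
  exact (key _).mpr ⟨O.add_mem hx' hy', IsLocalRing.nonunits_add hxn hyn⟩

theorem intClosedIn_of_isIntegrallyClosedIn (O : Subring F) [IsIntegrallyClosedIn O F] :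
    IntClosedIn O := fun _ hx => Subring.isIntegrallyClosedIn_iff.mp ‹_› hx

end Basic

/-! ## Integrality lemmas -/

section Integrality

variable {O : Subring F}

/-- If `x ^ n + ∑_{k<n} g k * x ^ k = 0` with all `g k ∈ O`, then `x` is integral over `O`. -/
theorem isIntegral_of_monic_rel (O : Subring F) (x : F) (n : ℕ) (g : ℕ → F)
    (hg : ∀ k, k < n → g k ∈ O) (h : x ^ n + ∑ k ∈ Finset.range n, g k * x ^ k = 0) :
    IsIntegral O x := by
  classical
  let c : ℕ → O := fun k => if hk : k < n then ⟨g k, hg k hk⟩ else 0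
  have hc : ∀ k, k < n → ((c k : O) : F) = g k := by
    intro k hk
    simp only [c, dif_pos hk]
  refine ⟨X ^ n + ∑ k ∈ Finset.range n, C (c k) * X ^ k, ?_, ?_⟩
  · refine monic_of_natDegree_le_of_coeff_eq_one n ?_ ?_
    · refine natDegree_add_le_of_degree_le (natDegree_X_pow_le n) ?_
      refine natDegree_sum_le_of_forall_le _ _ fun k hk => ?_
      exact (natDegree_C_mul_X_pow_le _ _).trans (Finset.mem_range.mp hk).le
    · rw [coeff_add, coeff_X_pow_self, finsetSum_coeff, Finset.sum_eq_zero, add_zero]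
      intro k hk
      rw [coeff_C_mul_X_pow, if_neg (Finset.mem_range.mp hk).ne']
  · rw [eval₂_add, eval₂_X_pow, eval₂_finsetSum, ← h]
    congr 1
    refine Finset.sum_congr rfl fun k hk => ?_
    rw [eval₂_mul, eval₂_C, eval₂_X_pow]
    congr 1
    exact hc k (Finset.mem_range.mp hk)

/-- **Reverse lemma.** If `a` is a non-unit of the integrally closed local subring `O` and
`a * Q(y) = 1` for a polynomial `Q` with coefficients in `O`, then `y⁻¹` is a non-unit of `O`. -/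
theorem nonUnit_inv_of_mul_eval₂_eq_one (hO : IsLocalSub O) (hic : IntClosedIn O) {a y : F}
    (ha : NonUnit O a) (hy : y ≠ 0) (Q : O[X]) (h : a * Q.eval₂ O.subtype y = 1) :
    NonUnit O y⁻¹ := by
  have ha0 : a ≠ 0 := by
    rintro rfl
    rw [zero_mul] at h
    exact zero_ne_one h
  let _ : Invertible y := invertibleOfNonzero hy
  have hrev := eval₂_reverse_mul_pow O.subtype y Q
  rw [invOf_eq_inv] at hrev
  set D := Q.natDegree with hD
  set R := Q.reverse with hR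
  set b := y⁻¹ with hb
  have hRD : R.natDegree < D + 1 := Nat.lt_succ_of_le (reverse_natDegree_le Q)
  have hbD : b ^ D = a * R.eval₂ O.subtype b := by
    have h1 : a * (R.eval₂ O.subtype b * y ^ D) = 1 := by rw [hrev]; exact h
    have hyD : y ^ D ≠ 0 := pow_ne_zero _ hy
    have h2 : a * R.eval₂ O.subtype b = (y ^ D)⁻¹ :=
      eq_inv_of_mul_eq_one_left (by rw [mul_assoc]; exact h1)
    rw [h2, hb, inv_pow]
  have hexp : R.eval₂ O.subtype b
      = ∑ k ∈ Finset.range D, ((R.coeff k : O) : F) * b ^ k + ((R.coeff D : O) : F) * b ^ D := by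
    rw [eval₂_eq_sum_range' O.subtype hRD, Finset.sum_range_succ]
    rfl
  -- the unit `u = 1 - a * R_D`
  set rD : F := ((R.coeff D : O) : F) with hrD
  have hrDO : rD ∈ O := (R.coeff D).2
  set u : F := 1 - a * rD with hu
  have huO : u ∈ O := O.sub_mem O.one_mem (O.mul_mem ha.1 hrDO)
  have hun : ¬ NonUnit O u := by
    have h1 : NonUnit O (-(a * rD)) := (ha.mul_right hrDO).neg
    have := hO.not_nonUnit_add (x := 1) (y := -(a * rD)) not_nonUnit_one h1
    rwa [← sub_eq_add_neg] at this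
  obtain ⟨hu0, huinv⟩ := inv_mem_of_not_nonUnit huO hun
  -- monic relation for `b`
  have hrel : b ^ D + ∑ k ∈ Finset.range D, (-(u⁻¹ * a * ((R.coeff k : O) : F))) * b ^ k = 0 := by
    have h3 : u * b ^ D = a * ∑ k ∈ Finset.range D, ((R.coeff k : O) : F) * b ^ k := by
      have h4 := hbD
      rw [hexp, mul_add] at h4
      calc u * b ^ D = b ^ D - a * (rD * b ^ D) := by rw [hu]; ring
        _ = a * ∑ k ∈ Finset.range D, ((R.coeff k : O) : F) * b ^ k := by
          rw [sub_eq_iff_eq_add]; exact h4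
    have h5 : b ^ D = u⁻¹ * (a * ∑ k ∈ Finset.range D, ((R.coeff k : O) : F) * b ^ k) := by
      rw [← h3, ← mul_assoc, inv_mul_cancel₀ hu0, one_mul]
    rw [h5, Finset.mul_sum, Finset.mul_sum, ← Finset.sum_add_distrib]
    refine Finset.sum_eq_zero fun k _ => ?_
    ring
  have hbO : b ∈ O := by
    apply hic
    refine isIntegral_of_monic_rel O b D (fun k => -(u⁻¹ * a * ((R.coeff k : O) : F))) ?_ hrel
    intro k _
    exact O.neg_mem (O.mul_mem (O.mul_mem huinv ha.1) (R.coeff k).2)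
  refine ⟨hbO, Or.inr ?_⟩
  intro hinv
  rw [hb, inv_inv] at hinv
  have hQy : Q.eval₂ O.subtype y ∈ O := by
    have := eval₂_at_apply (p := Q) O.subtype (⟨y, hinv⟩ : O)
    have h6 : O.subtype (⟨y, hinv⟩ : O) = y := rfl
    rw [h6] at this
    rw [this]
    exact (Q.eval (⟨y, hinv⟩ : O)).2
  have h7 : a⁻¹ = Q.eval₂ O.subtype y := (eq_inv_of_mul_eq_one_right h).symm
  exact not_nonUnit_of_inv_mem ha0 (by rw [h7]; exact hQy) ha

/-- `p(a⁻¹) * a ^ N ∈ O` for an integer polynomial `p` of degree `≤ N` and `a ∈ O`, `a ≠ 0`. -/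
theorem eval₂_inv_mul_pow_mem {a : F} (haO : a ∈ O) (ha0 : a ≠ 0) (p : Polynomial ℤ) {N : ℕ}
    (hN : p.natDegree ≤ N) : p.eval₂ (Int.castRingHom F) a⁻¹ * a ^ N ∈ O := by
  rw [eval₂_eq_sum_range, Finset.sum_mul]
  refine O.sum_mem fun l hl => ?_
  have hlN : l ≤ N := (Nat.lt_succ_iff.mp (Finset.mem_range.mp hl)).trans hN
  have hN' : a ^ N = a ^ (N - l) * a ^ l := by rw [← pow_add, Nat.sub_add_cancel hlN]
  have h2 : a⁻¹ ^ l * a ^ N = a ^ (N - l) := by
    rw [hN', inv_pow, mul_comm (a ^ (N - l)), ← mul_assoc,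
      inv_mul_cancel₀ (pow_ne_zero _ ha0), one_mul]
  have h1 : (Int.castRingHom F) (p.coeff l) * a⁻¹ ^ l * a ^ N
      = (Int.castRingHom F) (p.coeff l) * a ^ (N - l) := by
    rw [mul_assoc, h2]
  rw [h1]
  exact O.mul_mem (by rw [eq_intCast]; exact intCast_mem O _) (O.pow_mem haO _)

end Integrality

/-! ## Two-variable integer relations -/

section Relations

variable {O : Subring F}

/-- Evaluation of `Φ ∈ ℤ[X][Y]` at `(x, y)`: inner variable `↦ x`, outer variable `↦ y`.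
This is `(Φ.map (evalZ x)).eval y` in the vocabulary of `S37/helper9343_JIntegral`. -/
noncomputable def ev2 (Φ : Polynomial (Polynomial ℤ)) (x y : F) : F :=
  (Φ.map (Polynomial.eval₂RingHom (Int.castRingHom F) x)).eval y

theorem ev2_def (Φ : Polynomial (Polynomial ℤ)) (x y : F) :
    ev2 Φ x y = (Φ.map (Polynomial.eval₂RingHom (Int.castRingHom F) x)).eval y := rfl

theorem ev2_eq_sum {Φ : Polynomial (Polynomial ℤ)} (hΦ : Φ.Monic) (x y : F) :
    ev2 Φ x y = ∑ k ∈ Finset.range (Φ.natDegree + 1),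
      (Φ.coeff k).eval₂ (Int.castRingHom F) x * y ^ k := by
  rw [ev2, eval_eq_sum_range, hΦ.natDegree_map]
  refine Finset.sum_congr rfl fun k _ => ?_
  rw [coeff_map]
  rfl

/-- If `y` is a nonzero element such that `a⁻¹` is integral over `ℤ[y]` through a monic
`Ψ ∈ ℤ[X][Y]` (`Ψ(y, a⁻¹) = 0`) and `a` is a non-unit of `O`, then `y⁻¹` is a non-unit of `O`:
"`j` integral over `ℤ[j_q]` and `1/j ∈ 𝔪_P` give `1/j_q ∈ 𝔪_P`". -/
theorem nonUnit_inv_of_rel (hO : IsLocalSub O) (hic : IntClosedIn O) {a y : F}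
    (ha : NonUnit O a) (ha0 : a ≠ 0) (hy : y ≠ 0) (Ψ : Polynomial (Polynomial ℤ)) (hΨ : Ψ.Monic)
    (hrel : ev2 Ψ y a⁻¹ = 0) : NonUnit O y⁻¹ := by
  classical
  set n := Ψ.natDegree with hn
  set P : ℕ → F := fun i => (Ψ.coeff i).eval₂ (Int.castRingHom F) y with hP
  have hsum : ∑ i ∈ Finset.range (n + 1), P i * a⁻¹ ^ i = 0 := by
    rw [← hrel, ev2_eq_sum hΨ]
  have hPn : P n = 1 := by
    simp only [hP, hn]
    rw [show Ψ.coeff Ψ.natDegree = 1 from hΨ.coeff_natDegree, eval₂_one]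
  -- multiply by `a ^ n`
  have hsum2 : ∑ i ∈ Finset.range n, P i * a ^ (n - i) = -1 := by
    have h1 : (∑ i ∈ Finset.range (n + 1), P i * a⁻¹ ^ i) * a ^ n = 0 := by rw [hsum, zero_mul]
    rw [Finset.sum_mul, Finset.sum_range_succ, hPn, one_mul, inv_pow,
      inv_mul_cancel₀ (pow_ne_zero _ ha0)] at h1
    rw [eq_neg_iff_add_eq_zero, ← h1]
    congr 1
    refine Finset.sum_congr rfl fun i hi => ?_
    have hin : i ≤ n := (Finset.mem_range.mp hi).le
    have hN' : a ^ n = a ^ (n - i) * a ^ i := by rw [← pow_add, Nat.sub_add_cancel hin]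
    rw [mul_assoc]
    congr 1
    rw [hN', inv_pow, mul_comm (a ^ (n - i)), ← mul_assoc,
      inv_mul_cancel₀ (pow_ne_zero _ ha0), one_mul]
  -- the polynomial `Q`
  let cf : ℕ → O := fun i => ⟨a ^ (n - 1 - i), O.pow_mem ha.1 _⟩
  let Q : O[X] := -∑ i ∈ Finset.range n, C (cf i) * (Ψ.coeff i).map (Int.castRingHom O)
  have hcomp : O.subtype.comp (Int.castRingHom O) = Int.castRingHom F := RingHom.ext_int _ _
  have hQ : Q.eval₂ O.subtype y = -∑ i ∈ Finset.range n, a ^ (n - 1 - i) * P i := by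
    simp only [Q]
    rw [eval₂_neg, eval₂_finsetSum]
    congr 1
    refine Finset.sum_congr rfl fun i _ => ?_
    rw [eval₂_mul, eval₂_C, eval₂_map, hcomp]
    rfl
  refine nonUnit_inv_of_mul_eval₂_eq_one hO hic ha hy Q ?_
  rw [hQ, mul_neg, Finset.mul_sum, neg_eq_iff_eq_neg, ← hsum2]
  refine Finset.sum_congr rfl fun i hi => ?_
  have hin : i < n := Finset.mem_range.mp hi
  have : n - i = (n - 1 - i) + 1 := by omega
  rw [this, pow_succ]
  ring

/-- **Kronecker shape** of the modular equation of prime level `q`, in the weak weighted form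
that the cusp analysis needs: `Φ ∈ ℤ[X][Y]` is monic of degree `q + 1` in `Y` and the coefficient
of `Y ^ k` has `X`-degree at most `q * (q + 1 - k)` (weights `wt X = 1`, `wt Y = q`, total
weight `≤ q (q + 1)`). The true modular polynomial has `deg_X ≤ q` for `1 ≤ k ≤ q` and
`≤ q + 1` for `k = 0`. -/
structure KronShape (q : ℕ) (Φ : Polynomial (Polynomial ℤ)) : Prop where
  monic : Φ.Monic
  natDegree_eq : Φ.natDegree = q + 1
  natDegree_coeff_le : ∀ k, k ≤ q → (Φ.coeff k).natDegree ≤ q * (q + 1 - k)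

/-- **Integrality from the shape**: if `Φ(x, y) = 0` with `Φ` of Kronecker shape and `x⁻¹ ∈ O`,
then `y / x ^ q ∈ O` ("`j_q / j^q` is integral over `ℤ[1/j]`"). -/
theorem mul_inv_pow_mem_of_shape (hic : IntClosedIn O) {q : ℕ} {Φ : Polynomial (Polynomial ℤ)}
    (hΦ : KronShape q Φ) {x y : F} (hx : x ≠ 0) (hxO : x⁻¹ ∈ O) (hrel : ev2 Φ x y = 0) :
    y * x⁻¹ ^ q ∈ O := by
  classical
  set a := x⁻¹ with ha
  have ha0 : a ≠ 0 := inv_ne_zero hx
  have hxa : x = a⁻¹ := by rw [ha, inv_inv]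
  set P : ℕ → F := fun k => (Φ.coeff k).eval₂ (Int.castRingHom F) x with hP
  set γ : ℕ → F := fun k => P k * a ^ (q * (q + 1 - k)) with hγ
  set e := y * a ^ q with he
  have hsum : ∑ k ∈ Finset.range (q + 1 + 1), P k * y ^ k = 0 := by
    rw [← hrel, ev2_eq_sum hΦ.monic, hΦ.natDegree_eq]
  have hP1 : P (q + 1) = 1 := by
    simp only [hP]
    rw [← hΦ.natDegree_eq, show Φ.coeff Φ.natDegree = 1 from hΦ.monic.coeff_natDegree, eval₂_one]
  have hterm : ∀ k, k ≤ q + 1 → γ k * e ^ k = P k * y ^ k * a ^ (q * (q + 1)) := by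
    intro k hk
    simp only [hγ, he]
    have : q * (q + 1) = q * (q + 1 - k) + q * k := by
      rw [← Nat.mul_add, Nat.sub_add_cancel hk]
    rw [this, pow_add, mul_pow, ← pow_mul]
    ring
  have hrel2 : e ^ (q + 1) + ∑ k ∈ Finset.range (q + 1), γ k * e ^ k = 0 := by
    have h1 : ∑ k ∈ Finset.range (q + 1 + 1), γ k * e ^ k = 0 := by
      rw [Finset.sum_congr rfl fun k hk => hterm k (Nat.lt_succ_iff.mp (Finset.mem_range.mp hk)),
        ← Finset.sum_mul, hsum, zero_mul]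
    rw [Finset.sum_range_succ] at h1
    have h2 : γ (q + 1) = 1 := by
      simp only [hγ]
      rw [hP1, Nat.sub_self, Nat.mul_zero, pow_zero, mul_one]
    rw [h2, one_mul, add_comm] at h1
    exact h1
  apply hic
  refine isIntegral_of_monic_rel O e (q + 1) γ ?_ hrel2
  intro k hk
  have hkq : k ≤ q := Nat.lt_succ_iff.mp hk
  simp only [hγ, hP]
  rw [hxa]
  exact eval₂_inv_mul_pow_mem hxO ha0 _ (hΦ.natDegree_coeff_le k hkq)

end Relations

/-! ## Congruence to `1` modulo a valuation subring -/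

/-- `u ≡ 1` modulo the maximal ideal of the valuation subring `V`. -/
def Cong (V : ValuationSubring F) (u : F) : Prop := u - 1 ∈ V.nonunits

section Cong

variable {V : ValuationSubring F} {u w : F}

theorem Cong.valuation_sub_lt (h : Cong V u) : V.valuation (u - 1) < 1 :=
  V.mem_nonunits_iff.mp h

theorem Cong.valuation_eq_one (h : Cong V u) : V.valuation u = 1 := by
  have := V.valuation.map_one_add_of_lt h.valuation_sub_lt
  rwa [add_sub_cancel] at this

theorem Cong.mem (h : Cong V u) : u ∈ V :=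
  (V.valuation_le_one_iff u).mp h.valuation_eq_one.le

theorem Cong.ne_zero (h : Cong V u) : u ≠ 0 := by
  rintro rfl
  have := h.valuation_eq_one
  rw [map_zero] at this
  exact zero_ne_one this

theorem cong_one : Cong V (1 : F) := by
  rw [Cong, sub_self]
  exact V.nonunits.zero_mem

theorem Cong.mul (h : Cong V u) (h' : Cong V w) : Cong V (u * w) := by
  rw [Cong, V.mem_nonunits_iff]
  have e : u * w - 1 = (u - 1) * w + (w - 1) := by ring
  rw [e]
  refine lt_of_le_of_lt (V.valuation.map_add _ _) (max_lt ?_ h'.valuation_sub_lt)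
  rw [map_mul, h'.valuation_eq_one, mul_one]
  exact h.valuation_sub_lt

theorem Cong.inv (h : Cong V u) : Cong V u⁻¹ := by
  rw [Cong, V.mem_nonunits_iff]
  have hu0 := h.ne_zero
  have e : u⁻¹ - 1 = (1 - u) * u⁻¹ := by field_simp
  rw [e, map_mul, map_inv₀, h.valuation_eq_one, inv_one, mul_one, Valuation.map_sub_swap]
  exact h.valuation_sub_lt

theorem Cong.pow (h : Cong V u) (n : ℕ) : Cong V (u ^ n) := by
  induction n with
  | zero => rw [pow_zero]; exact cong_one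
  | succ n ih => rw [pow_succ]; exact ih.mul h

/-- `x * (u - 1)` is a non-unit of `V` for `x ∈ V`, `u ≡ 1`. -/
theorem Cong.mul_sub_mem_nonunits (h : Cong V u) {x : F} (hx : x ∈ V) :
    x * u - x ∈ V.nonunits := by
  rw [V.mem_nonunits_iff]
  have e : x * u - x = x * (u - 1) := by ring
  rw [e, map_mul]
  calc V.valuation x * V.valuation (u - 1) ≤ 1 * V.valuation (u - 1) :=
        mul_le_mul' ((V.valuation_le_one_iff x).mpr hx) le_rfl
    _ = V.valuation (u - 1) := one_mul _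
    _ < 1 := h.valuation_sub_lt

end Cong

/-! ## The cusp setting -/

section Cusp

variable {O : Subring F}

theorem mem_of_pow_mem (hic : IntClosedIn O) {x : F} {n : ℕ} (hn : n ≠ 0) (h : x ^ n ∈ O) :
    x ∈ O := by
  apply hic
  refine ⟨X ^ n - C (⟨x ^ n, h⟩ : O), monic_X_pow_sub_C _ hn, ?_⟩
  rw [eval₂_sub, eval₂_X_pow, eval₂_C]
  exact sub_self _

theorem eval₂_int_mem {a : F} (haO : a ∈ O) (p : Polynomial ℤ) :
    p.eval₂ (Int.castRingHom F) a ∈ O := by
  rw [eval₂_eq_sum_range]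
  exact O.sum_mem fun l _ =>
    O.mul_mem (by rw [eq_intCast]; exact intCast_mem O _) (O.pow_mem haO _)

/-- An integer polynomial whose constant term is prime to `q`, evaluated at a non-unit of the
local subring `O` in which `q` is a non-unit, is a unit of `O`. -/
theorem not_nonUnit_eval₂ (hO : IsLocalSub O) {a : F} (ha : NonUnit O a) {q : ℕ}
    (hqO : NonUnit O (q : F)) (A : Polynomial ℤ) (hA : IsCoprime (A.eval 0) (q : ℤ)) :
    ¬ NonUnit O (A.eval₂ (Int.castRingHom F) a) := by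
  obtain ⟨s, t, hst⟩ := hA
  set n : ℤ := A.eval 0 with hn
  have hnO : (n : F) ∈ O := intCast_mem O n
  have hn1 : ¬ NonUnit O (n : F) := by
    intro hnn
    have h1 : NonUnit O ((s : F) * (n : F)) := hnn.mul_left (intCast_mem O s)
    have h2 : NonUnit O ((t : F) * (q : F)) := hqO.mul_left (intCast_mem O t)
    have h3 := hO _ _ h1 h2
    have h4 : (s : F) * (n : F) + (t : F) * (q : F) = 1 := by
      have := congrArg (Int.cast : ℤ → F) hst
      push_cast at this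
      exact this
    rw [h4] at h3
    exact not_nonUnit_one h3
  have hdecomp : A.eval₂ (Int.castRingHom F) a
      = (n : F) + A.divX.eval₂ (Int.castRingHom F) a * a := by
    conv_lhs => rw [← divX_mul_X_add A]
    rw [eval₂_add, eval₂_mul, eval₂_X, eval₂_C, add_comm, hn, coeff_zero_eq_eval_zero]
    rfl
  rw [hdecomp]
  exact hO.not_nonUnit_add hn1 (ha.mul_left (eval₂_int_mem ha.1 _))

/-- **The cusp setting.** `O` is a local subring of `F`, integrally closed in `F`; `j, jq, jqq`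
are nonzero elements tied by the relations `Φ(j, jq) = Φ(jq, j) = Φ(jq, jqq) = Φ(jqq, jq) = 0`
for a `Φ ∈ ℤ[X][Y]` of Kronecker shape, and `1/j` is a non-unit of `O` (the point is cuspidal). -/
structure CuspCore (q : ℕ) (O : Subring F) (Φ : Polynomial (Polynomial ℤ)) (j jq jqq : F) :
    Prop where
  isLocal : IsLocalSub O
  intClosed : IntClosedIn O
  shape : KronShape q Φ
  j_ne : j ≠ 0
  jq_ne : jq ≠ 0
  jqq_ne : jqq ≠ 0
  rel1 : ev2 Φ j jq = 0
  rel2 : ev2 Φ jq j = 0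
  rel3 : ev2 Φ jq jqq = 0
  rel4 : ev2 Φ jqq jq = 0
  cusp : NonUnit O j⁻¹

namespace CuspCore

variable {q : ℕ} {Φ : Polynomial (Polynomial ℤ)} {j jq jqq : F}

/-- (C1) `1/j_q` is a non-unit of `O`. -/
theorem nonUnit_inv_jq (h : CuspCore q O Φ j jq jqq) : NonUnit O jq⁻¹ :=
  nonUnit_inv_of_rel h.isLocal h.intClosed h.cusp (inv_ne_zero h.j_ne) h.jq_ne Φ h.shape.monic
    (by rw [inv_inv]; exact h.rel2)

/-- (C1) `1/j_{q²}` is a non-unit of `O`. -/
theorem nonUnit_inv_jqq (h : CuspCore q O Φ j jq jqq) : NonUnit O jqq⁻¹ :=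
  nonUnit_inv_of_rel h.isLocal h.intClosed h.nonUnit_inv_jq (inv_ne_zero h.jq_ne) h.jqq_ne Φ
    h.shape.monic (by rw [inv_inv]; exact h.rel4)

/-- (C1) `e₁ = j_q / j^q ∈ O`. -/
theorem e1_mem (h : CuspCore q O Φ j jq jqq) : jq * j⁻¹ ^ q ∈ O :=
  mul_inv_pow_mem_of_shape h.intClosed h.shape h.j_ne h.cusp.1 h.rel1

/-- (C1) `e₁' = j / j_q^q ∈ O`. -/
theorem e1'_mem (h : CuspCore q O Φ j jq jqq) : j * jq⁻¹ ^ q ∈ O :=
  mul_inv_pow_mem_of_shape h.intClosed h.shape h.jq_ne h.nonUnit_inv_jq.1 h.rel2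

/-- (C1) `e₂ = j_{q²} / j_q^q ∈ O`. -/
theorem e2_mem (h : CuspCore q O Φ j jq jqq) : jqq * jq⁻¹ ^ q ∈ O :=
  mul_inv_pow_mem_of_shape h.intClosed h.shape h.jq_ne h.nonUnit_inv_jq.1 h.rel3

/-- (C1) `e₂' = j_q / j_{q²}^q ∈ O`. -/
theorem e2'_mem (h : CuspCore q O Φ j jq jqq) : jq * jqq⁻¹ ^ q ∈ O :=
  mul_inv_pow_mem_of_shape h.intClosed h.shape h.jqq_ne h.nonUnit_inv_jqq.1 h.rel4

/-- (C2) **Incidence, first form.** A cuspidal `O` cannot lie in a valuation subring `V` where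
`j_q / j^q ≡ 1` and in a valuation subring `V'` where `j / j_q^q ≡ 1`
(`(V, V') = (V_∞, V_0)` or `(V_mid, V_0)`). -/
theorem not_le_of_cong_e1 (h : CuspCore q O Φ j jq jqq) (hq : 2 ≤ q)
    (V V' : ValuationSubring F) (hV : O ≤ V.toSubring) (hV' : O ≤ V'.toSubring)
    (c : Cong V (jq * j⁻¹ ^ q)) (c' : Cong V' (j * jq⁻¹ ^ q)) : False := by
  have he1 := h.e1_mem
  have hb := h.nonUnit_inv_jq
  set b := jq⁻¹ with hbdef
  have hjb : jq * b = 1 := mul_inv_cancel₀ h.jq_ne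
  -- `e₁` is a unit of `O`
  have hunit : ¬ NonUnit O (jq * j⁻¹ ^ q) :=
    h.isLocal.not_nonUnit_of_sub_one
      (nonUnit_of_mem_nonunits V hV (O.sub_mem he1 O.one_mem) c)
  -- `e₁ = u⁻¹ ^ q * b ^ (q * q - 1)` with `u = j * b ^ q ≡ 1` in `V'`
  have hqq : q * q = (q * q - 1) + 1 := by
    have : 1 ≤ q * q := Nat.one_le_iff_ne_zero.mpr (by positivity)
    omega
  have hqq0 : q * q - 1 ≠ 0 := by
    have : 4 ≤ q * q := Nat.mul_le_mul hq hq
    omega
  have key : jq * j⁻¹ ^ q = b ^ (q * q - 1) * (j * b ^ q)⁻¹ ^ q := by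
    have hb0 : b ≠ 0 := inv_ne_zero h.jq_ne
    have h1 : (j * b ^ q)⁻¹ ^ q = j⁻¹ ^ q * jq ^ (q * q) := by
      rw [mul_inv, mul_pow, ← inv_pow b, hbdef, inv_inv, ← pow_mul]
    rw [h1]
    have h2 : b ^ (q * q - 1) * jq ^ (q * q) = jq := by
      have h3 : jq ^ (q * q) = jq ^ (q * q - 1) * jq := by rw [← pow_succ, ← hqq]
      rw [h3, ← mul_assoc, ← mul_pow, mul_comm b jq, hjb, one_pow, one_mul]
    calc jq * j⁻¹ ^ q = j⁻¹ ^ q * (b ^ (q * q - 1) * jq ^ (q * q)) := by rw [h2, mul_comm]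
      _ = b ^ (q * q - 1) * (j⁻¹ ^ q * jq ^ (q * q)) := by ring
  have hnon : NonUnit O (jq * j⁻¹ ^ q - b ^ (q * q - 1)) := by
    refine nonUnit_of_mem_nonunits V' hV' (O.sub_mem he1 (O.pow_mem hb.1 _)) ?_
    rw [key]
    exact (c'.inv.pow q).mul_sub_mem_nonunits (V'.pow_mem (hV' hb.1) _)
  have := h.isLocal _ _ hnon (hb.pow hqq0)
  rw [sub_add_cancel] at this
  exact hunit this

/-- (C2) **Incidence, second form.** A cuspidal `O` cannot lie in a valuation subring `V` where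
`j_{q²} / j_q^q ≡ 1` and in a valuation subring `V'` where `j_q / j^q ≡ 1` and
`j_{q²} / j ≡ 1` (`(V, V') = (V_∞, V_mid)`). -/
theorem not_le_of_cong_e2 (h : CuspCore q O Φ j jq jqq) (hq : 2 ≤ q)
    (V V' : ValuationSubring F) (hV : O ≤ V.toSubring) (hV' : O ≤ V'.toSubring)
    (c : Cong V (jqq * jq⁻¹ ^ q)) (c1 : Cong V' (jq * j⁻¹ ^ q)) (c2 : Cong V' (jqq * j⁻¹)) :
    False := by
  have he2 := h.e2_mem
  have ha := h.cusp
  set a := j⁻¹ with hadef
  have ha0 : a ≠ 0 := inv_ne_zero h.j_ne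
  have hunit : ¬ NonUnit O (jqq * jq⁻¹ ^ q) :=
    h.isLocal.not_nonUnit_of_sub_one
      (nonUnit_of_mem_nonunits V hV (O.sub_mem he2 O.one_mem) c)
  have hqq : q * q = (q * q - 1) + 1 := by
    have : 1 ≤ q * q := Nat.one_le_iff_ne_zero.mpr (by positivity)
    omega
  have hqq0 : q * q - 1 ≠ 0 := by
    have : 4 ≤ q * q := Nat.mul_le_mul hq hq
    omega
  -- `e₂ = a ^ (q * q - 1) * w`, `w = (jqq * a) * (jq * a ^ q)⁻¹ ^ q ≡ 1` in `V'`
  have key : jqq * jq⁻¹ ^ q = a ^ (q * q - 1) * ((jqq * a) * (jq * a ^ q)⁻¹ ^ q) := by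
    have h1 : (jq * a ^ q)⁻¹ ^ q = jq⁻¹ ^ q * j ^ (q * q) := by
      rw [mul_inv, mul_pow, ← inv_pow a, hadef, inv_inv, ← pow_mul]
    rw [h1]
    have h2 : a ^ (q * q - 1) * a * j ^ (q * q) = 1 := by
      rw [← pow_succ, ← hqq, ← mul_pow, hadef, inv_mul_cancel₀ h.j_ne, one_pow]
    calc jqq * jq⁻¹ ^ q = jqq * jq⁻¹ ^ q * (a ^ (q * q - 1) * a * j ^ (q * q)) := by
          rw [h2, mul_one]
      _ = a ^ (q * q - 1) * (jqq * a * (jq⁻¹ ^ q * j ^ (q * q))) := by ring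
  have hnon : NonUnit O (jqq * jq⁻¹ ^ q - a ^ (q * q - 1)) := by
    refine nonUnit_of_mem_nonunits V' hV' (O.sub_mem he2 (O.pow_mem ha.1 _)) ?_
    rw [key]
    exact (c2.mul (c1.inv.pow q)).mul_sub_mem_nonunits (V'.pow_mem (hV' ha.1) _)
  have := h.isLocal _ _ hnon (ha.pow hqq0)
  rw [sub_add_cancel] at this
  exact hunit this

/-- (C3a) At a cuspidal `O` lying in a valuation subring `V` with `j_q / j^q ≡ 1` and
`j_{q²} / j ≡ 1` (a cusp of `C_mid`), `ρ = j_{q²} / j` is a unit of `O`. -/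
theorem rho_mem (h : CuspCore q O Φ j jq jqq) (hq : q ≠ 0) (V : ValuationSubring F)
    (hV : O ≤ V.toSubring) (c1 : Cong V (jq * j⁻¹ ^ q)) (c2 : Cong V (jqq * j⁻¹)) :
    jqq * j⁻¹ ∈ O ∧ j * jqq⁻¹ ∈ O := by
  have he1 := h.e1_mem
  have he2' := h.e2'_mem
  have hu1 : ¬ NonUnit O (jq * j⁻¹ ^ q) :=
    h.isLocal.not_nonUnit_of_sub_one
      (nonUnit_of_mem_nonunits V hV (O.sub_mem he1 O.one_mem) c1)
  obtain ⟨h10, h1inv⟩ := inv_mem_of_not_nonUnit he1 hu1
  have e2'eq : jq * jqq⁻¹ ^ q = (jq * j⁻¹ ^ q) * (jqq * j⁻¹)⁻¹ ^ q := by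
    rw [mul_inv, inv_inv, mul_pow, mul_assoc, mul_comm (jqq⁻¹ ^ q), ← mul_assoc (j⁻¹ ^ q),
      ← mul_pow, inv_mul_cancel₀ h.j_ne, one_pow, one_mul]
  have c3 : Cong V (jq * jqq⁻¹ ^ q) := by
    rw [e2'eq]; exact c1.mul (c2.inv.pow q)
  have hu2 : ¬ NonUnit O (jq * jqq⁻¹ ^ q) :=
    h.isLocal.not_nonUnit_of_sub_one
      (nonUnit_of_mem_nonunits V hV (O.sub_mem he2' O.one_mem) c3)
  obtain ⟨h20, h2inv⟩ := inv_mem_of_not_nonUnit he2' hu2
  constructor
  · apply mem_of_pow_mem h.intClosed hq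
    have : (jqq * j⁻¹) ^ q = (jq * j⁻¹ ^ q) * (jq * jqq⁻¹ ^ q)⁻¹ := by
      rw [mul_inv, ← inv_pow jqq⁻¹, inv_inv, mul_pow]
      have := h.jq_ne
      field_simp
    rw [this]
    exact O.mul_mem he1 h2inv
  · apply mem_of_pow_mem h.intClosed hq
    have : (j * jqq⁻¹) ^ q = (jq * jqq⁻¹ ^ q) * (jq * j⁻¹ ^ q)⁻¹ := by
      rw [mul_inv, ← inv_pow j⁻¹, inv_inv, mul_pow]
      have := h.jq_ne
      field_simp
    rw [this]
    exact O.mul_mem he2' h1inv

end CuspCore

end Cusp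

/-! ## Generators of the centre of a vertical valuation at a cusp -/

section Generator

variable {O : Subring F}

/-- (C4) **Unramified centre.** If `O ≤ V`, `V` has ramification index one over `q`
(`x ∈ 𝔪_V ⟹ x / q ∈ V`) and `O` satisfies the local integrality transfer for `V`
(`x ∈ V`, `q x ∈ O ⟹ x ∈ O`), then the centre of `V` on `O` is generated by `q`. -/
theorem center_eq_span_natCast (V : ValuationSubring F) {q : ℕ} (hq0 : (q : F) ≠ 0)
    (hIT : ∀ x : F, x ∈ V → (q : F) * x ∈ O → x ∈ O)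
    (hram : ∀ x : F, x ∈ V.nonunits → x * (q : F)⁻¹ ∈ V) :
    ∀ x : F, x ∈ O → x ∈ V.nonunits → ∃ y : F, y ∈ O ∧ x = (q : F) * y := by
  intro x hxO hxV
  refine ⟨x * (q : F)⁻¹, hIT _ (hram x hxV) ?_, ?_⟩
  · rw [mul_comm x, ← mul_assoc, mul_inv_cancel₀ hq0, one_mul]; exact hxO
  · rw [mul_comm x, ← mul_assoc, mul_inv_cancel₀ hq0, one_mul]

/-- **Local integrality transfer from the global one.** `B` is the chart ring, `O` a
localisation of `B` (every element of `O` is `b / s` with `s ∈ B` a unit of `O`), `V₁, V₂, V₃`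
the vertical valuation subrings, and the chart satisfies
`x ∈ V₁ ∩ V₂ ∩ V₃`, `q x ∈ B ⟹ x ∈ B`. If `B` contains units `g₂, g₃` of `O` which are divisible
by `q` in `V₂`, resp. `V₃` (the point does not lie on the components `2`, `3`), then
`x ∈ V₁`, `q x ∈ O ⟹ x ∈ O`. -/
theorem localIT_of_globalIT {B : Subring F}
    (hloc : ∀ x : F, x ∈ O → ∃ s : F, s ∈ B ∧ s ≠ 0 ∧ s⁻¹ ∈ O ∧ s * x ∈ B) (hBO : B ≤ O)
    (V₁ V₂ V₃ : ValuationSubring F) (hB₁ : B ≤ V₁.toSubring) (hB₂ : B ≤ V₂.toSubring)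
    (hB₃ : B ≤ V₃.toSubring) {q : F} (hq0 : q ≠ 0)
    (hG : ∀ x : F, x ∈ V₁ → x ∈ V₂ → x ∈ V₃ → q * x ∈ B → x ∈ B)
    {g₂ g₃ : F} (hg₂ : g₂ ∈ B) (hg₂0 : g₂ ≠ 0) (hg₂i : g₂⁻¹ ∈ O) (hg₂q : g₂ * q⁻¹ ∈ V₂)
    (hg₃ : g₃ ∈ B) (hg₃0 : g₃ ≠ 0) (hg₃i : g₃⁻¹ ∈ O) (hg₃q : g₃ * q⁻¹ ∈ V₃) :
    ∀ x : F, x ∈ V₁ → q * x ∈ O → x ∈ O := by
  intro x hx₁ hqx
  obtain ⟨s, hsB, hs0, hsi, hsqx⟩ := hloc _ hqx
  set y := s * x with hy
  have hqy : q * y ∈ B := by
    have : q * y = s * (q * x) := by rw [hy]; ring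
    rw [this]; exact hsqx
  set z := g₂ * g₃ * y with hz
  have hz₁ : z ∈ V₁ :=
    V₁.mul_mem _ _ (V₁.mul_mem _ _ (hB₁ hg₂) (hB₁ hg₃)) (V₁.mul_mem _ _ (hB₁ hsB) hx₁)
  have hz₂ : z ∈ V₂ := by
    have : z = (g₂ * q⁻¹) * (g₃ * (q * y)) := by
      rw [hz]; field_simp
    rw [this]
    exact V₂.mul_mem _ _ hg₂q (V₂.mul_mem _ _ (hB₂ hg₃) (hB₂ hqy))
  have hz₃ : z ∈ V₃ := by
    have : z = (g₃ * q⁻¹) * (g₂ * (q * y)) := by
      rw [hz]; field_simp
    rw [this]
    exact V₃.mul_mem _ _ hg₃q (V₃.mul_mem _ _ (hB₃ hg₂) (hB₃ hqy))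
  have hqz : q * z ∈ B := by
    have : q * z = g₂ * g₃ * (q * y) := by rw [hz]; ring
    rw [this]
    exact B.mul_mem (B.mul_mem hg₂ hg₃) hqy
  have hzB : z ∈ B := hG z hz₁ hz₂ hz₃ hqz
  have hx : x = z * (g₂⁻¹ * g₃⁻¹ * s⁻¹) := by
    rw [hz, hy]; field_simp
  rw [hx]
  exact O.mul_mem (hBO hzB) (O.mul_mem (O.mul_mem hg₂i hg₃i) hsi)

namespace CuspCore

variable {q : ℕ} {Φ : Polynomial (Polynomial ℤ)} {j jq jqq : F}

/-- (C3) **The generator at a cusp of `C_mid`.** Let `O` be cuspidal with `O ≤ V` where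
`j_q / j^q ≡ 1` and `j_{q²} / j ≡ 1` mod `𝔪_V`. Put `T = j_{q²} / j - 1` (`= Π_j / j`). Assume

* (i) the local integrality transfer `x ∈ V`, `q x ∈ O ⟹ x ∈ O`;
* (ii) `e(V) = q - 1`: `x ∈ 𝔪_V ⟹ x ^ (q-1) / q ∈ V`;
* (iii) `T ^ (q-1) = q ε` with `B(1/j) ε ≡ A(1/j)` mod `𝔪_V` for integer polynomials `A, B`
  whose constant terms are prime to `q`.

Then `T ∈ O`, `ε` is a unit of `O` and the centre `𝔪_V ∩ O` of `V` on `O` is `T O`. -/
theorem mid_generator (h : CuspCore q O Φ j jq jqq) (hq : 2 ≤ q) (V : ValuationSubring F)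
    (hV : O ≤ V.toSubring) (c1 : Cong V (jq * j⁻¹ ^ q)) (c2 : Cong V (jqq * j⁻¹))
    (hqV : (q : F) ∈ V.nonunits) (hq0 : (q : F) ≠ 0)
    (hIT : ∀ x : F, x ∈ V → (q : F) * x ∈ O → x ∈ O)
    (hram : ∀ x : F, x ∈ V.nonunits → x ^ (q - 1) * (q : F)⁻¹ ∈ V)
    (A B : Polynomial ℤ) (hA : IsCoprime (A.eval 0) (q : ℤ)) (hB : IsCoprime (B.eval 0) (q : ℤ))
    (ε : F) (hε : (jqq * j⁻¹ - 1) ^ (q - 1) = (q : F) * ε)
    (hcong : B.eval₂ (Int.castRingHom F) j⁻¹ * ε - A.eval₂ (Int.castRingHom F) j⁻¹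
      ∈ V.nonunits) :
    jqq * j⁻¹ - 1 ∈ O ∧ jqq * j⁻¹ - 1 ∈ V.nonunits ∧ ε ∈ O ∧ ε ≠ 0 ∧ ε⁻¹ ∈ O ∧
      ∀ x : F, x ∈ O → x ∈ V.nonunits → ∃ y : F, y ∈ O ∧ x = (jqq * j⁻¹ - 1) * y := by
  have hq1 : q ≠ 0 := by omega
  have hρ := (h.rho_mem hq1 V hV c1 c2).1
  set T := jqq * j⁻¹ - 1 with hT
  have hTO : T ∈ O := O.sub_mem hρ O.one_mem
  have hTV : T ∈ V.nonunits := c2
  have ha := h.cusp
  set a := j⁻¹ with hadef
  have hqO : NonUnit O (q : F) := nonUnit_of_mem_nonunits V hV (natCast_mem O q) hqV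
  set Aa := A.eval₂ (Int.castRingHom F) a with hAa
  set Ba := B.eval₂ (Int.castRingHom F) a with hBa
  have hAaO : Aa ∈ O := eval₂_int_mem ha.1 A
  have hBaO : Ba ∈ O := eval₂_int_mem ha.1 B
  have hAu : ¬ NonUnit O Aa := not_nonUnit_eval₂ h.isLocal ha hqO A hA
  have hBu : ¬ NonUnit O Ba := not_nonUnit_eval₂ h.isLocal ha hqO B hB
  obtain ⟨hB0, hBinv⟩ := inv_mem_of_not_nonUnit hBaO hBu
  -- `ε ∈ V`
  have hεV : ε ∈ V := by
    have h1 : Ba * ε ∈ V := by
      have h2 : Ba * ε - Aa ∈ V := by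
        have := V.mem_nonunits_iff.mp hcong
        exact (V.valuation_le_one_iff _).mp this.le
      have h3 : Ba * ε = (Ba * ε - Aa) + Aa := by ring
      rw [h3]
      exact V.add_mem _ _ h2 (hV hAaO)
    have h4 : ε = Ba⁻¹ * (Ba * ε) := by
      rw [← mul_assoc, inv_mul_cancel₀ hB0, one_mul]
    rw [h4]
    exact V.mul_mem _ _ (hV hBinv) h1
  -- `ε ∈ O`
  have hεO : ε ∈ O := hIT ε hεV (by rw [← hε]; exact O.pow_mem hTO _)
  -- `ε` is a unit of `O`
  have hεu : ¬ NonUnit O ε := by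
    intro hn
    have h1 : NonUnit O (Ba * ε) := hn.mul_left hBaO
    have h2 : NonUnit O (Ba * ε - Aa) :=
      nonUnit_of_mem_nonunits V hV (O.sub_mem (O.mul_mem hBaO hεO) hAaO) hcong
    have h3 := h.isLocal.sub h1 h2
    rw [sub_sub_cancel] at h3
    exact hAu h3
  obtain ⟨hε0, hεinv⟩ := inv_mem_of_not_nonUnit hεO hεu
  refine ⟨hTO, hTV, hεO, hε0, hεinv, ?_⟩
  have hq2 : q - 1 = (q - 2) + 1 := by omega
  have hT0 : T ≠ 0 := by
    intro h0
    rw [h0, hq2, pow_succ, mul_zero] at hε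
    exact mul_ne_zero hq0 hε0 hε.symm
  have hqT : (q : F) * T⁻¹ = T ^ (q - 2) * ε⁻¹ := by
    have h1 : (q : F) = T ^ (q - 2) * T * ε⁻¹ := by
      rw [← pow_succ, ← hq2, hε, mul_assoc, mul_inv_cancel₀ hε0, mul_one]
    conv_lhs => rw [h1]
    rw [mul_assoc, mul_assoc, mul_comm ε⁻¹ T⁻¹, ← mul_assoc T, mul_inv_cancel₀ hT0, one_mul]
  intro x hxO hxV
  set y := x * T⁻¹ with hy
  have hyV : y ∈ V := by
    have h1 : y ^ (q - 1) = (x ^ (q - 1) * (q : F)⁻¹) * ε⁻¹ := by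
      rw [hy, mul_pow, inv_pow, hε, mul_inv, mul_assoc]
    have h2 : y ^ (q - 1) ∈ V := by
      rw [h1]
      exact V.mul_mem _ _ (hram x hxV) (hV hεinv)
    by_contra hyn
    have h3 : 1 < V.valuation y := by
      rw [← not_le]
      exact fun hle => hyn ((V.valuation_le_one_iff _).mp hle)
    have h4 : 1 < V.valuation (y ^ (q - 1)) := by
      rw [map_pow]
      exact one_lt_pow' h3 (by omega)
    exact absurd ((V.valuation_le_one_iff _).mpr h2) (not_le.mpr h4)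
  have hqy : (q : F) * y ∈ O := by
    have : (q : F) * y = x * (T ^ (q - 2) * ε⁻¹) := by
      rw [hy, ← hqT]; ring
    rw [this]
    exact O.mul_mem hxO (O.mul_mem (O.pow_mem hTO _) hεinv)
  refine ⟨y, hIT y hyV hqy, ?_⟩
  rw [hy, mul_comm x, ← mul_assoc, mul_inv_cancel₀ hT0, one_mul]

end CuspCore

end Generator

end Fermat.Agent.S36.helper5229
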