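/-
S36-MIDCUSP-ALG (helper1638).

The generator of the centre of `v_mid` at a cusp of the middle component, BY PURE ALGEBRA from the
Kronecker congruence `Φ_q(X, Y) = (X^q - Y)(X - Y^q) + q G(X, Y)` with `deg_X G, deg_Y G ≤ q`.

Vocabulary = `helper5229_CuspKit` (`NonUnit`, `IsLocalSub`, `Cong`, `ev2`, `CuspCore`).

Setting: `O` a local subring of the field `F`, `O ≤ V` a valuation subring; `s = 1/j` and `q`
non-units of `O`; `c = j_q s^q` and `ρ = j_{q²} s` in `O`, both `≡ 1` modulo `𝔪_V`; the two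
relations `Φ_q(j_q, j) = 0 = Φ_q(j_q, j_{q²})` in the shape above.  Then
`(ρ - 1)^(q-1) = q ε` with `ε` a UNIT of `O` (no `q`-series, no theta operator, no ramification
index, no integrality transfer is used for this).  With the local integrality transfer and
`e(V) = q - 1` the centre `𝔪_V ∩ O` is generated by `ρ - 1`.

Proof.  Put `Γ_a = g_a(j_q) s^(q²) ∈ O`, `U = s^(q²-1) ρ - c^q` (a unit of `O`), `b = ρ - 1`.
Multiplying the two relations by `s^q s^(q²)` gives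
  (I)   `(1 - c)(s^(q²-1) - c^q) + q ∑_a Γ_a s^(q-a) = 0`,
  (III) `(ρ^q - c) U + q ∑_a Γ_a s^(q-a) ρ^a = 0`.
(III) - (I) is divisible by `b`; after cancelling `b` and using `c - 1 ∈ q O` (from (I)) one gets
`(1 + ρ + ⋯ + ρ^(q-1)) (U + q Γ_q) = q z` with `z ∈ 𝔪_O`, and
`1 + ρ + ⋯ + ρ^(q-1) = b^(q-1) + q S(b)` with `S ∈ ℤ[X]`, `S(0) = 1`.
-/
import Mathlib
import Fermat.Agent.S36.helper5229_CuspKit

set_option autoImplicit false

namespace Fermat.Agent.S36.helper1638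

open Polynomial
open Fermat.Agent.S36.helper5229

variable {F : Type*} [Field F]

/-! ## The Kronecker-shape relation -/

/-- `KronRel q g y x`: the relation `(y^q - x)(y - x^q) + q ∑_{a ≤ q} g_a(x) y^a = 0`
(`x` the inner variable). For `Φ = (X^q - Y)(X - Y^q) + q G` this is `Φ(x, y) = 0` with
`g a = G.coeff a`. -/
def KronRel (q : ℕ) (g : ℕ → Polynomial ℤ) (y x : F) : Prop :=
  (y ^ q - x) * (y - x ^ q) +
    (q : F) * ∑ a ∈ Finset.range (q + 1), (g a).eval₂ (Int.castRingHom F) x * y ^ a = 0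

theorem kronRel_iff (q : ℕ) (g : ℕ → Polynomial ℤ) (y x : F) :
    KronRel q g y x ↔ (y ^ q - x) * (y - x ^ q) +
      (q : F) * ∑ a ∈ Finset.range (q + 1), (g a).eval₂ (Int.castRingHom F) x * y ^ a = 0 :=
  Iff.rfl

/-- `KronRel` in the `aeval` form (the unfolded `helper6414.KronRel`). -/
theorem kronRel_iff_aeval (q : ℕ) (g : ℕ → Polynomial ℤ) (y x : F) :
    KronRel q g y x ↔ (y ^ q - x) * (y - x ^ q) +
      (q : F) * ∑ a ∈ Finset.range (q + 1), Polynomial.aeval x (g a) * y ^ a = 0 := by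
  have e : ∀ a, Polynomial.aeval x (g a) = (g a).eval₂ (Int.castRingHom F) x := by
    intro a
    rw [aeval_def, algebraMap_int_eq]
  simp only [e]
  exact Iff.rfl

/-- `KronRel` for `g a = G.coeff a` in the `G`-form
`(y^q - x)(y - x^q) + q G(x, y) = 0` (`deg_Y G ≤ q`). -/
theorem kronRel_iff_map (q : ℕ) (G : Polynomial (Polynomial ℤ)) (hG : G.natDegree ≤ q)
    (y x : F) :
    KronRel q (fun a => G.coeff a) y x ↔ (y ^ q - x) * (y - x ^ q) +
      (q : F) * (G.map (Polynomial.eval₂RingHom (Int.castRingHom F) x)).eval y = 0 := by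
  have h1 : (G.map (Polynomial.eval₂RingHom (Int.castRingHom F) x)).eval y
      = ∑ a ∈ Finset.range (q + 1), (G.coeff a).eval₂ (Int.castRingHom F) x * y ^ a := by
    rw [eval_map, eval₂_eq_sum_range' _ (Nat.lt_succ_of_le hG)]
    rfl
  rw [h1]
  exact Iff.rfl

/-- A `KronRel` multiplied by `t₁ * t₂`, the factors distributed. -/
theorem KronRel.mul {q : ℕ} {g : ℕ → Polynomial ℤ} {y x : F} (h : KronRel q g y x) (t₁ t₂ : F) :
    (t₁ * (y ^ q - x)) * (t₂ * (y - x ^ q)) + (q : F) * ∑ a ∈ Finset.range (q + 1),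
      ((g a).eval₂ (Int.castRingHom F) x * t₂) * (t₁ * y ^ a) = 0 := by
  have h' : t₁ * t₂ * ((y ^ q - x) * (y - x ^ q) + (q : F) * ∑ a ∈ Finset.range (q + 1),
      (g a).eval₂ (Int.castRingHom F) x * y ^ a) = 0 := by
    rw [(kronRel_iff q g y x).mp h, mul_zero]
  have e : ∑ a ∈ Finset.range (q + 1), ((g a).eval₂ (Int.castRingHom F) x * t₂) * (t₁ * y ^ a)
      = t₁ * t₂ * ∑ a ∈ Finset.range (q + 1), (g a).eval₂ (Int.castRingHom F) x * y ^ a := by
    rw [Finset.mul_sum]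
    exact Finset.sum_congr rfl fun a _ => by ring
  rw [e]
  linear_combination h'

/-! ## Small lemmas -/

/-- A finite sum of non-units of a local subring is a non-unit. -/
theorem nonUnit_sum {O : Subring F} (hO : IsLocalSub O) {ι : Type*} (t : Finset ι) (f : ι → F)
    (h : ∀ i ∈ t, NonUnit O (f i)) : NonUnit O (∑ i ∈ t, f i) := by
  classical
  induction t using Finset.induction_on with
  | empty => rw [Finset.sum_empty]; exact nonUnit_zero
  | insert a t ha ih =>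
    rw [Finset.sum_insert ha]
    exact hO _ _ (h a (Finset.mem_insert_self a t))
      (ih fun i hi => h i (Finset.mem_insert_of_mem hi))

/-- `p(x) s^(q²) ∈ O` for an integer polynomial `p` of degree `≤ q`, `s ∈ O` and `x s^q ∈ O`. -/
theorem eval₂_mul_pow_mem {O : Subring F} {s x : F} (hs : s ∈ O) {q : ℕ} (hx : x * s ^ q ∈ O)
    (p : Polynomial ℤ) (hp : p.natDegree ≤ q) :
    p.eval₂ (Int.castRingHom F) x * s ^ (q * q) ∈ O := by
  rw [eval₂_eq_sum_range, Finset.sum_mul]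
  refine O.sum_mem fun i hi => ?_
  have hiq : i ≤ q := (Nat.lt_succ_iff.mp (Finset.mem_range.mp hi)).trans hp
  have e : (Int.castRingHom F) (p.coeff i) * x ^ i * s ^ (q * q)
      = (Int.castRingHom F) (p.coeff i) * ((x * s ^ q) ^ i * s ^ (q * (q - i))) := by
    have h1 : i + (q - i) = q := by omega
    have h2 : q * q = q * i + q * (q - i) := by rw [← Nat.mul_add, h1]
    rw [h2, pow_add, mul_pow, ← pow_mul]
    ring
  rw [e]
  exact O.mul_mem (by rw [eq_intCast]; exact intCast_mem O _)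
    (O.mul_mem (O.pow_mem hx _) (O.pow_mem hs _))

/-- `1 + (1+X) + ⋯ + (1+X)^(q-1) = X^(q-1) + q S(X)` with `S(0) = 1`, for `q` prime. -/
theorem exists_geom_sum_one_add {q : ℕ} (hq : q.Prime) :
    ∃ S : Polynomial ℤ, S.eval 0 = 1 ∧
      ∑ i ∈ Finset.range q, (1 + X : Polynomial ℤ) ^ i = X ^ (q - 1) + C (q : ℤ) * S := by
  have : Fact q.Prime := ⟨hq⟩
  have hq1 : q - 1 + 1 = q := Nat.sub_add_cancel hq.one_le
  set E : Polynomial ℤ := ∑ i ∈ Finset.range q, (1 + X) ^ i with hE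
  have hmap : (E - X ^ (q - 1)).map (Int.castRingHom (ZMod q)) = 0 := by
    have h2 : E.map (Int.castRingHom (ZMod q))
        = ∑ i ∈ Finset.range q, (1 + X : Polynomial (ZMod q)) ^ i := by
      rw [hE, Polynomial.map_sum]
      refine Finset.sum_congr rfl fun i _ => ?_
      rw [Polynomial.map_pow, Polynomial.map_add, Polynomial.map_one, Polynomial.map_X]
    have h1 : (E.map (Int.castRingHom (ZMod q))) * X = X ^ (q - 1) * X := by
      rw [← pow_succ, hq1, h2]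
      have h3 := geom_sum_mul (1 + X : Polynomial (ZMod q)) q
      rw [add_sub_cancel_left] at h3
      rw [h3, add_pow_char, one_pow]
      ring
    have h4 := mul_right_cancel₀ (X_ne_zero) h1
    rw [Polynomial.map_sub, h4, Polynomial.map_pow, Polynomial.map_X, sub_self]
  have hdvd : C (q : ℤ) ∣ E - X ^ (q - 1) := by
    rw [C_dvd_iff_dvd_coeff]
    intro n
    have h5 := congrArg (fun p => p.coeff n) hmap
    simp only [coeff_map, coeff_zero, eq_intCast] at h5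
    exact (ZMod.intCast_zmod_eq_zero_iff_dvd _ _).mp h5
  obtain ⟨S, hS⟩ := hdvd
  refine ⟨S, ?_, by rw [← hS]; ring⟩
  have h0 := congrArg (eval 0) hS
  have hE0 : eval 0 E = (q : ℤ) := by
    rw [hE, eval_finsetSum]
    simp
  have hq0 : q - 1 ≠ 0 := by have := hq.two_le; omega
  rw [eval_sub, hE0, eval_pow, eval_X, zero_pow hq0, sub_zero, eval_mul, eval_C] at h0
  have hqz : (q : ℤ) ≠ 0 := by exact_mod_cast hq.ne_zero
  have h6 : (q : ℤ) * 1 = (q : ℤ) * eval 0 S := by rw [mul_one]; exact h0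
  exact (mul_left_cancel₀ hqz h6).symm

/-! ## The core -/

/-- **Mid-cusp unit, core.** `O` local, `O ≤ V`; `s`, `q` non-units of `O`, `s ≠ 0`;
`c = j_q s^q` and `ρ = j₂ s` in `O` and `≡ 1` mod `𝔪_V`; `ρ ≠ 1`; the relations
`KronRel q g (1/s) j_q` and `KronRel q g j₂ j_q` with `deg g_a ≤ q`.  Then
`(ρ - 1)^(q-1) = q ε` with `ε` a unit of `O`. -/
theorem exists_unit_pow_eq_of_kronRel {O : Subring F} (hO : IsLocalSub O)
    (V : ValuationSubring F) (hV : O ≤ V.toSubring) {q : ℕ} (hq : q.Prime)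
    {s jq j2 : F} (hs : NonUnit O s) (hs0 : s ≠ 0) (hqO : NonUnit O (q : F))
    (g : ℕ → Polynomial ℤ) (hg : ∀ a, a ≤ q → (g a).natDegree ≤ q)
    (h1 : KronRel q g s⁻¹ jq) (h2 : KronRel q g j2 jq)
    (hcO : jq * s ^ q ∈ O) (hρO : j2 * s ∈ O)
    (c1 : Cong V (jq * s ^ q)) (c2 : Cong V (j2 * s)) (hT0 : j2 * s - 1 ≠ 0) :
    ∃ ε : F, ε ∈ O ∧ ε ≠ 0 ∧ ε⁻¹ ∈ O ∧ (j2 * s - 1) ^ (q - 1) = (q : F) * ε := by
  classical
  have hq2 : 2 ≤ q := hq.two_le
  obtain ⟨N1, hN1⟩ : ∃ N1, q * q = N1 + 1 :=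
    ⟨q * q - 1, by have : 4 ≤ q * q := Nat.mul_le_mul hq2 hq2; omega⟩
  have hN1pos : N1 ≠ 0 := by
    have : 4 ≤ q * q := Nat.mul_le_mul hq2 hq2
    omega
  have hss : s * s⁻¹ = 1 := mul_inv_cancel₀ hs0
  -- the coefficients `Γ_a`
  have hΓO : ∀ a, a ≤ q → (g a).eval₂ (Int.castRingHom F) jq * s ^ (q * q) ∈ O :=
    fun a ha => eval₂_mul_pow_mem hs.1 hcO (g a) (hg a ha)
  -- relation (I)
  have hI : (1 - jq * s ^ q) * (s ^ N1 - (jq * s ^ q) ^ q) + (q : F) *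
      ∑ a ∈ Finset.range (q + 1),
        ((g a).eval₂ (Int.castRingHom F) jq * s ^ (q * q)) * s ^ (q - a) = 0 := by
    have h := h1.mul (s ^ q) (s ^ (q * q))
    have e1 : s ^ q * (s⁻¹ ^ q - jq) = 1 - jq * s ^ q := by
      rw [mul_sub, ← mul_pow, hss, one_pow, mul_comm]
    have e2 : s ^ (q * q) * (s⁻¹ - jq ^ q) = s ^ N1 - (jq * s ^ q) ^ q := by
      rw [mul_pow, ← pow_mul, mul_sub, mul_comm (s ^ (q * q)) (jq ^ q)]
      congr 1
      rw [hN1, pow_succ, mul_assoc, hss, mul_one]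
    rw [e1, e2] at h
    rw [← h]
    congr 2
    refine Finset.sum_congr rfl fun a ha => ?_
    have haq : a ≤ q := Nat.lt_succ_iff.mp (Finset.mem_range.mp ha)
    have e3 : s ^ q * s⁻¹ ^ a = s ^ (q - a) := by
      have : s ^ q = s ^ (q - a) * s ^ a := by rw [← pow_add, Nat.sub_add_cancel haq]
      rw [this, mul_assoc, ← mul_pow, hss, one_pow, mul_one]
    rw [e3]
  -- relation (III)
  have hIII : ((j2 * s) ^ q - jq * s ^ q) * (s ^ N1 * (j2 * s) - (jq * s ^ q) ^ q) + (q : F) *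
      ∑ a ∈ Finset.range (q + 1),
        ((g a).eval₂ (Int.castRingHom F) jq * s ^ (q * q)) * s ^ (q - a) * (j2 * s) ^ a = 0 := by
    have h := h2.mul (s ^ q) (s ^ (q * q))
    have e1 : s ^ q * (j2 ^ q - jq) = (j2 * s) ^ q - jq * s ^ q := by
      rw [mul_pow]; ring
    have e2 : s ^ (q * q) * (j2 - jq ^ q) = s ^ N1 * (j2 * s) - (jq * s ^ q) ^ q := by
      rw [mul_pow, ← pow_mul, hN1, pow_succ]; ring
    rw [e1, e2] at h
    rw [← h]
    congr 2
    refine Finset.sum_congr rfl fun a ha => ?_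
    have haq : a ≤ q := Nat.lt_succ_iff.mp (Finset.mem_range.mp ha)
    have e3 : s ^ q * j2 ^ a = s ^ (q - a) * (j2 * s) ^ a := by
      have : s ^ q = s ^ (q - a) * s ^ a := by rw [← pow_add, Nat.sub_add_cancel haq]
      rw [this, mul_pow]; ring
    rw [e3]; ring
  -- abbreviations
  set c := jq * s ^ q with hc
  set ρ := j2 * s with hρ
  set Γ : ℕ → F := fun a => (g a).eval₂ (Int.castRingHom F) jq * s ^ (q * q) with hΓ
  have hΓO' : ∀ a, a ≤ q → Γ a ∈ O := hΓO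
  set b := ρ - 1 with hb
  have hbO : b ∈ O := O.sub_mem hρO O.one_mem
  have hbn : NonUnit O b := nonUnit_of_mem_nonunits V hV hbO c2
  have hcu : ¬ NonUnit O c :=
    hO.not_nonUnit_of_sub_one (nonUnit_of_mem_nonunits V hV (O.sub_mem hcO O.one_mem) c1)
  have hcqu : ¬ NonUnit O (c ^ q) := fun h => hcu (nonUnit_of_pow hcO h)
  have hsN : NonUnit O (s ^ N1) := hs.pow hN1pos
  -- the unit `U`
  set U := s ^ N1 * ρ - c ^ q with hU
  have hUO : U ∈ O := O.sub_mem (O.mul_mem hsN.1 hρO) (O.pow_mem hcO q)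
  have hUu : ¬ NonUnit O U := by
    intro h
    apply hcqu
    have h3 := hO.sub (hsN.mul_right hρO) h
    rwa [hU, sub_sub_cancel] at h3
  obtain ⟨hU0, hUinv⟩ := inv_mem_of_not_nonUnit hUO hUu
  -- the unit `D`
  set D := s ^ N1 - c ^ q with hD
  have hDO : D ∈ O := O.sub_mem hsN.1 (O.pow_mem hcO q)
  have hDu : ¬ NonUnit O D := by
    intro h
    apply hcqu
    have h3 := hO.sub hsN h
    rwa [hD, sub_sub_cancel] at h3
  obtain ⟨hD0, hDinv⟩ := inv_mem_of_not_nonUnit hDO hDu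
  -- the sums
  set S1 := ∑ a ∈ Finset.range (q + 1), Γ a * s ^ (q - a) with hS1
  set S3 := ∑ a ∈ Finset.range (q + 1), Γ a * s ^ (q - a) * ρ ^ a with hS3
  set Eg : ℕ → F := fun a => ∑ i ∈ Finset.range a, ρ ^ i with hEg
  have hEO : ∀ a, Eg a ∈ O := fun a => O.sum_mem fun i _ => O.pow_mem hρO i
  have hgeo : ∀ a, ρ ^ a - 1 = b * Eg a := by
    intro a
    rw [hb, mul_comm]
    exact (geom_sum_mul ρ a).symm
  set SE := ∑ a ∈ Finset.range (q + 1), Γ a * s ^ (q - a) * Eg a with hSE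
  have hS1O : S1 ∈ O := O.sum_mem fun a ha =>
    O.mul_mem (hΓO' a (Nat.lt_succ_iff.mp (Finset.mem_range.mp ha))) (O.pow_mem hs.1 _)
  have e3 : S3 - S1 = b * SE := by
    rw [hS3, hS1, hSE, ← Finset.sum_sub_distrib, Finset.mul_sum]
    refine Finset.sum_congr rfl fun a _ => ?_
    have := hgeo a
    linear_combination (Γ a * s ^ (q - a)) * this
  have e1 : D = U - s ^ N1 * b := by rw [hD, hU, hb]; ring
  have e2 := hgeo q
  -- (III) - (I), divided by `b`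
  have key : b * (Eg q * U + (1 - c) * s ^ N1 + (q : F) * SE) = 0 := by
    linear_combination hIII - hI - U * e2 + (1 - c) * e1 - (q : F) * e3
  have key2 : Eg q * U + (1 - c) * s ^ N1 + (q : F) * SE = 0 :=
    (mul_eq_zero.mp key).resolve_left hT0
  -- `c - 1 = q κ`
  set κ := S1 * D⁻¹ with hκ
  have hκO : κ ∈ O := O.mul_mem hS1O hDinv
  have hcκ : c - 1 = (q : F) * κ := by
    have h3 : (q : F) * S1 = (c - 1) * D := by linear_combination hI
    rw [hκ, ← mul_assoc, h3, mul_assoc, mul_inv_cancel₀ hD0, mul_one]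
  -- split off `a = q`
  set SE' := ∑ a ∈ Finset.range q, Γ a * s ^ (q - a) * Eg a with hSE'
  have hSEsplit : SE = SE' + Γ q * Eg q := by
    rw [hSE, Finset.sum_range_succ, Nat.sub_self, pow_zero, mul_one]
  have hSE'n : NonUnit O SE' := by
    refine nonUnit_sum hO _ _ fun a ha => ?_
    have haq : a < q := Finset.mem_range.mp ha
    have h3 : NonUnit O (s ^ (q - a)) := hs.pow (by omega)
    exact (h3.mul_left (hΓO' a haq.le)).mul_right (hEO a)
  -- the unit `W`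
  set W := U + (q : F) * Γ q with hW
  have hWO : W ∈ O := O.add_mem hUO (O.mul_mem hqO.1 (hΓO' q le_rfl))
  have hWu : ¬ NonUnit O W := hO.not_nonUnit_add hUu (hqO.mul_right (hΓO' q le_rfl))
  obtain ⟨hW0, hWinv⟩ := inv_mem_of_not_nonUnit hWO hWu
  set z := κ * s ^ N1 - SE' with hz
  have hzn : NonUnit O z := hO.sub (hsN.mul_left hκO) hSE'n
  have hEW : Eg q * W = (q : F) * z := by
    rw [hSEsplit] at key2
    linear_combination key2 + s ^ N1 * hcκ
  -- the geometric sum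
  obtain ⟨S, hS0, hSpoly⟩ := exists_geom_sum_one_add hq
  set Sb := S.eval₂ (Int.castRingHom F) b with hSb
  have hSbO : Sb ∈ O := eval₂_int_mem hbO S
  have hSbu : ¬ NonUnit O Sb :=
    not_nonUnit_eval₂ hO hbn hqO S (by rw [hS0]; exact isCoprime_one_left)
  have hEq : Eg q = b ^ (q - 1) + (q : F) * Sb := by
    have h3 := congrArg (Polynomial.eval₂ (Int.castRingHom F) b) hSpoly
    rw [eval₂_finsetSum, eval₂_add, eval₂_mul, eval₂_C, eval₂_X_pow] at h3
    have h4 : ∀ i, Polynomial.eval₂ (Int.castRingHom F) b ((1 + X : Polynomial ℤ) ^ i) = ρ ^ i := by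
      intro i
      rw [eval₂_pow, eval₂_add, eval₂_one, eval₂_X, hb, add_sub_cancel]
    rw [Finset.sum_congr rfl fun i _ => h4 i] at h3
    have h5 : Eg q = b ^ (q - 1) + (Int.castRingHom F) (q : ℤ) * Sb := h3
    rw [h5]
    simp
  -- conclusion
  have hfin : (b ^ (q - 1) + (q : F) * Sb) * W = (q : F) * z := by rw [← hEq]; exact hEW
  set ε := z * W⁻¹ - Sb with hε
  have hεO : ε ∈ O := O.sub_mem (O.mul_mem hzn.1 hWinv) hSbO
  have hεu : ¬ NonUnit O ε := by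
    intro h
    apply hSbu
    have h3 := hO.sub (hzn.mul_right hWinv) h
    rwa [hε, sub_sub_cancel] at h3
  obtain ⟨hε0, hεinv⟩ := inv_mem_of_not_nonUnit hεO hεu
  refine ⟨ε, hεO, hε0, hεinv, ?_⟩
  have h5 : b ^ (q - 1) = (b ^ (q - 1) + (q : F) * Sb) * W * W⁻¹ - (q : F) * Sb := by
    rw [mul_assoc, mul_inv_cancel₀ hW0]; ring
  rw [h5, hfin, hε]
  ring

/-! ## The generator of the centre -/

/-- If `T^(q-1) = q ε` with `ε` a unit of `O`, `T ∈ O`, `T ≠ 0`, then under the local integrality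
transfer for `V` and `e(V) = q - 1` the centre `𝔪_V ∩ O` of `V` on `O` is `T O`. -/
theorem center_eq_span_of_pow_eq {O : Subring F} (V : ValuationSubring F)
    (hV : O ≤ V.toSubring) {q : ℕ} (hq : 2 ≤ q) {T ε : F} (hTO : T ∈ O) (hT0 : T ≠ 0)
    (hε0 : ε ≠ 0) (hεinv : ε⁻¹ ∈ O) (hε : T ^ (q - 1) = (q : F) * ε)
    (hIT : ∀ x : F, x ∈ V → (q : F) * x ∈ O → x ∈ O)
    (hram : ∀ x : F, x ∈ V.nonunits → x ^ (q - 1) * (q : F)⁻¹ ∈ V) :
    ∀ x : F, x ∈ O → x ∈ V.nonunits → ∃ y : F, y ∈ O ∧ x = T * y := by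
  have hq2 : q - 1 = (q - 2) + 1 := by omega
  have hqT : (q : F) * T⁻¹ = T ^ (q - 2) * ε⁻¹ := by
    have h1 : (q : F) = T ^ (q - 2) * T * ε⁻¹ := by
      rw [← pow_succ, ← hq2, hε, mul_assoc, mul_inv_cancel₀ hε0, mul_one]
    conv_lhs => rw [h1]
    rw [mul_assoc, mul_assoc, mul_comm ε⁻¹ T⁻¹, ← mul_assoc T, mul_inv_cancel₀ hT0, one_mul]
  intro x hxO hxV
  set y := x * T⁻¹ with hy
  have hyV : y ∈ V := by
    have h1 : y ^ (q - 1) = (x ^ (q - 1) * (q : F)⁻¹) * ε⁻¹ := by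
      rw [hy, mul_pow, inv_pow, hε, mul_inv, mul_assoc]
    have h2 : y ^ (q - 1) ∈ V := by
      rw [h1]
      exact V.mul_mem _ _ (hram x hxV) (hV hεinv)
    by_contra hyn
    have h3 : 1 < V.valuation y := by
      rw [← not_le]
      exact fun hle => hyn ((V.valuation_le_one_iff _).mp hle)
    have h4 : 1 < V.valuation (y ^ (q - 1)) := by
      rw [map_pow]
      exact one_lt_pow' h3 (by omega)
    exact absurd ((V.valuation_le_one_iff _).mpr h2) (not_le.mpr h4)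
  have hqy : (q : F) * y ∈ O := by
    have : (q : F) * y = x * (T ^ (q - 2) * ε⁻¹) := by
      rw [hy, ← hqT]; ring
    rw [this]
    exact O.mul_mem hxO (O.mul_mem (O.pow_mem hTO _) hεinv)
  refine ⟨y, hIT y hyV hqy, ?_⟩
  rw [hy, mul_comm x, ← mul_assoc, mul_inv_cancel₀ hT0, one_mul]

/-! ## In the cusp setting of `helper5229_CuspKit` -/

/-- `ev2` of a polynomial in Kronecker-congruence form. -/
theorem ev2_kron_add (q : ℕ) (G : Polynomial (Polynomial ℤ)) (hG : G.natDegree ≤ q) (x y : F) :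
    ev2 ((C (X ^ q) - X) * (C X - X ^ q) + (q : Polynomial (Polynomial ℤ)) * G) x y
      = (y ^ q - x) * (y - x ^ q) + (q : F) * ∑ a ∈ Finset.range (q + 1),
          (G.coeff a).eval₂ (Int.castRingHom F) x * y ^ a := by
  rw [ev2_def]
  have h1 : (G.map (Polynomial.eval₂RingHom (Int.castRingHom F) x)).eval y
      = ∑ a ∈ Finset.range (q + 1), (G.coeff a).eval₂ (Int.castRingHom F) x * y ^ a := by
    rw [eval_map, eval₂_eq_sum_range' _ (Nat.lt_succ_of_le hG)]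
    rfl
  rw [Polynomial.map_add, Polynomial.map_mul, Polynomial.map_mul, eval_add, eval_mul, eval_mul,
    h1, Polynomial.map_natCast, eval_natCast]
  simp only [Polynomial.map_sub, Polynomial.map_pow, Polynomial.map_C, Polynomial.map_X,
    eval_sub, eval_pow, eval_C, eval_X, coe_eval₂RingHom, eval₂_X, eval₂_pow]
  ring

/-- `Φ(x, y) = 0` for `Φ = (X^q - Y)(X - Y^q) + q G` is `KronRel q (G.coeff ·) y x`. -/
theorem kronRel_of_ev2 {q : ℕ} {Φ G : Polynomial (Polynomial ℤ)}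
    (hΦ : Φ = (C (X ^ q) - X) * (C X - X ^ q) + (q : Polynomial (Polynomial ℤ)) * G)
    (hG : G.natDegree ≤ q) {x y : F} (h : ev2 Φ x y = 0) :
    KronRel q (fun a => G.coeff a) y x := by
  rw [hΦ, ev2_kron_add q G hG] at h
  exact h

namespace CuspCoreKron

variable {O : Subring F} {q : ℕ} {Φ : Polynomial (Polynomial ℤ)} {j jq jqq : F}

/-- **(C3)(iii) by pure algebra, `KronRel` form.** In the cusp setting, at a cusp of `C_mid`
(`O ≤ V`, `j_q / j^q ≡ 1`, `j_{q²} / j ≡ 1` mod `𝔪_V`), with `j_{q²} ≠ j` and the two Kronecker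
relations `KronRel q g j j_q`, `KronRel q g j_{q²} j_q` (`deg g_a ≤ q`):
`T = j_{q²} / j - 1` satisfies `T^(q-1) = q ε`, `ε` a unit of `O`.
(`k1`, `k2` are `helper6414.KronRel` via `kronRel_iff_aeval`; `Φ` is not used beyond `h`.) -/
theorem mid_unit_of_kronRel (h : CuspCore q O Φ j jq jqq) (hq : q.Prime)
    (V : ValuationSubring F) (hV : O ≤ V.toSubring) (c1 : Cong V (jq * j⁻¹ ^ q))
    (c2 : Cong V (jqq * j⁻¹)) (hqV : (q : F) ∈ V.nonunits) (hne : jqq ≠ j)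
    (g : ℕ → Polynomial ℤ) (hg : ∀ a, a ≤ q → (g a).natDegree ≤ q)
    (k1 : KronRel q g j jq) (k2 : KronRel q g jqq jq) :
    ∃ ε : F, ε ∈ O ∧ ε ≠ 0 ∧ ε⁻¹ ∈ O ∧ (jqq * j⁻¹ - 1) ^ (q - 1) = (q : F) * ε := by
  have hqO : NonUnit O (q : F) := nonUnit_of_mem_nonunits V hV (natCast_mem O q) hqV
  have hT0 : jqq * j⁻¹ - 1 ≠ 0 := by
    intro h0
    apply hne
    have h1 : jqq * j⁻¹ = 1 := sub_eq_zero.mp h0
    have h2 : jqq = jqq * j⁻¹ * j := by rw [mul_assoc, inv_mul_cancel₀ h.j_ne, mul_one]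
    rw [h2, h1, one_mul]
  have k1' : KronRel q g j⁻¹⁻¹ jq := by rw [inv_inv]; exact k1
  exact exists_unit_pow_eq_of_kronRel h.isLocal V hV hq h.cusp (inv_ne_zero h.j_ne) hqO
    g hg k1' k2 h.e1_mem (h.rho_mem hq.ne_zero V hV c1 c2).1 c1 c2 hT0

/-- **The generator at a cusp of `C_mid`, without any `q`-series input, `KronRel` form.** Same
conclusion as `helper5229.CuspCore.mid_generator`, hypothesis (iii) replaced by the two Kronecker
relations. -/
theorem mid_generator_of_kronRel (h : CuspCore q O Φ j jq jqq) (hq : q.Prime)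
    (V : ValuationSubring F) (hV : O ≤ V.toSubring) (c1 : Cong V (jq * j⁻¹ ^ q))
    (c2 : Cong V (jqq * j⁻¹)) (hqV : (q : F) ∈ V.nonunits) (hne : jqq ≠ j)
    (g : ℕ → Polynomial ℤ) (hg : ∀ a, a ≤ q → (g a).natDegree ≤ q)
    (k1 : KronRel q g j jq) (k2 : KronRel q g jqq jq)
    (hIT : ∀ x : F, x ∈ V → (q : F) * x ∈ O → x ∈ O)
    (hram : ∀ x : F, x ∈ V.nonunits → x ^ (q - 1) * (q : F)⁻¹ ∈ V) :
    jqq * j⁻¹ - 1 ∈ O ∧ jqq * j⁻¹ - 1 ∈ V.nonunits ∧
      (∃ ε : F, ε ∈ O ∧ ε ≠ 0 ∧ ε⁻¹ ∈ O ∧ (jqq * j⁻¹ - 1) ^ (q - 1) = (q : F) * ε) ∧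
      ∀ x : F, x ∈ O → x ∈ V.nonunits → ∃ y : F, y ∈ O ∧ x = (jqq * j⁻¹ - 1) * y := by
  obtain ⟨ε, hεO, hε0, hεinv, hε⟩ := mid_unit_of_kronRel h hq V hV c1 c2 hqV hne g hg k1 k2
  have hTO : jqq * j⁻¹ - 1 ∈ O := O.sub_mem (h.rho_mem hq.ne_zero V hV c1 c2).1 O.one_mem
  have hT0 : jqq * j⁻¹ - 1 ≠ 0 := by
    intro h0
    apply hne
    have h1 : jqq * j⁻¹ = 1 := sub_eq_zero.mp h0
    have h2 : jqq = jqq * j⁻¹ * j := by rw [mul_assoc, inv_mul_cancel₀ h.j_ne, mul_one]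
    rw [h2, h1, one_mul]
  exact ⟨hTO, c2, ⟨ε, hεO, hε0, hεinv, hε⟩,
    center_eq_span_of_pow_eq V hV hq.two_le hTO hT0 hε0 hεinv hε hIT hram⟩

/-- **(C3)(iii) by pure algebra, `Φ`-form**: `Φ = (X^q - Y)(X - Y^q) + q G` with `deg_Y G ≤ q`,
`deg_X G ≤ q`. -/
theorem mid_unit (h : CuspCore q O Φ j jq jqq) (hq : q.Prime) (V : ValuationSubring F)
    (hV : O ≤ V.toSubring) (c1 : Cong V (jq * j⁻¹ ^ q)) (c2 : Cong V (jqq * j⁻¹))
    (hqV : (q : F) ∈ V.nonunits) (hne : jqq ≠ j)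
    (G : Polynomial (Polynomial ℤ))
    (hΦ : Φ = (C (X ^ q) - X) * (C X - X ^ q) + (q : Polynomial (Polynomial ℤ)) * G)
    (hG : G.natDegree ≤ q) (hGc : ∀ a, a ≤ q → (G.coeff a).natDegree ≤ q) :
    ∃ ε : F, ε ∈ O ∧ ε ≠ 0 ∧ ε⁻¹ ∈ O ∧ (jqq * j⁻¹ - 1) ^ (q - 1) = (q : F) * ε :=
  mid_unit_of_kronRel h hq V hV c1 c2 hqV hne (fun a => G.coeff a) hGc
    (kronRel_of_ev2 hΦ hG h.rel2) (kronRel_of_ev2 hΦ hG h.rel3)

/-- **The generator at a cusp of `C_mid`, `Φ`-form.** -/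
theorem mid_generator (h : CuspCore q O Φ j jq jqq) (hq : q.Prime) (V : ValuationSubring F)
    (hV : O ≤ V.toSubring) (c1 : Cong V (jq * j⁻¹ ^ q)) (c2 : Cong V (jqq * j⁻¹))
    (hqV : (q : F) ∈ V.nonunits) (hne : jqq ≠ j)
    (G : Polynomial (Polynomial ℤ))
    (hΦ : Φ = (C (X ^ q) - X) * (C X - X ^ q) + (q : Polynomial (Polynomial ℤ)) * G)
    (hG : G.natDegree ≤ q) (hGc : ∀ a, a ≤ q → (G.coeff a).natDegree ≤ q)
    (hIT : ∀ x : F, x ∈ V → (q : F) * x ∈ O → x ∈ O)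
    (hram : ∀ x : F, x ∈ V.nonunits → x ^ (q - 1) * (q : F)⁻¹ ∈ V) :
    jqq * j⁻¹ - 1 ∈ O ∧ jqq * j⁻¹ - 1 ∈ V.nonunits ∧
      (∃ ε : F, ε ∈ O ∧ ε ≠ 0 ∧ ε⁻¹ ∈ O ∧ (jqq * j⁻¹ - 1) ^ (q - 1) = (q : F) * ε) ∧
      ∀ x : F, x ∈ O → x ∈ V.nonunits → ∃ y : F, y ∈ O ∧ x = (jqq * j⁻¹ - 1) * y :=
  mid_generator_of_kronRel h hq V hV c1 c2 hqV hne (fun a => G.coeff a) hGc
    (kronRel_of_ev2 hΦ hG h.rel2) (kronRel_of_ev2 hΦ hG h.rel3) hIT hram

end CuspCoreKron

end Fermat.Agent.S36.helper1638
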