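import Mathlib

/-!
# S36-PHISHAPE (helper6414): the Kronecker shape of a modular equation, by a Newton polygon

Let `K` be a field with an additive valuation `v : K → WithTop ℤ` which is trivial on the nonzero
integers, and let `J J' : K` with `v J = -1` and `v (J' - J ^ p) > -p` (model: `K = k((t))`,
`J = j(t)`, `J' = j(t^p)`).  Let `Φ ∈ ℤ[X][Y]` be monic of degree `p + 1` in `Y` with
`Φ(J, J') = 0 = Φ(J', J)`.  Then, writing `Φ = ∑ cₙ(X) Yⁿ`,

* `c₀` is monic of degree `p + 1`;
* `cₙ` has degree `≤ p` for `1 ≤ n ≤ p`;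
* the coefficient of `X ^ p` in `c_p` is `-1`,

i.e. `Φ = Y^(p+1) + X^(p+1) - X^p Y^p + ∑_{m, n ≤ p, (m, n) ≠ (p, p)} c_{mn} X^m Y^n`.

No irreducibility, no symmetry of `Φ`, no Kronecker congruence is used: only the two relations.
-/

set_option autoImplicit false

namespace Fermat.Agent.S36.helper6414

open Polynomial Finset

noncomputable section

section Val

variable {K : Type*} [Field K] (v : AddValuation K (WithTop ℤ))

theorem val_pow_of_eq {x : K} {e : ℤ} (hx : v x = (e : WithTop ℤ)) (i : ℕ) :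
    v (x ^ i) = ((e * i : ℤ) : WithTop ℤ) := by
  induction i with
  | zero => simp
  | succ i ih =>
    rw [pow_succ, AddValuation.map_mul, ih, hx, ← WithTop.coe_add]
    congr 1
    push_cast
    ring

theorem val_intCast_nonneg (hv0 : ∀ n : ℤ, n ≠ 0 → v (n : K) = 0) (n : ℤ) :
    (0 : WithTop ℤ) ≤ v (n : K) := by
  rcases eq_or_ne n 0 with rfl | h
  · simp
  · rw [hv0 n h]

theorem le_val_eval₂ (hv0 : ∀ n : ℤ, n ≠ 0 → v (n : K) = 0) {x : K} {e : ℤ} (he : e ≤ 0)
    (hx : v x = (e : WithTop ℤ)) (c : ℤ[X]) (d : ℕ) (hd : c.natDegree ≤ d) :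
    ((e * d : ℤ) : WithTop ℤ) ≤ v (c.eval₂ (Int.castRingHom K) x) := by
  rw [Polynomial.eval₂_eq_sum_range]
  apply AddValuation.map_le_sum
  intro i hi
  rw [AddValuation.map_mul, val_pow_of_eq v hx, eq_intCast]
  have hi' : i ≤ d := (Nat.lt_succ_iff.mp (Finset.mem_range.mp hi)).trans hd
  have h1 : e * (d : ℤ) ≤ e * (i : ℤ) :=
    mul_le_mul_of_nonpos_left (by exact_mod_cast hi') he
  calc ((e * d : ℤ) : WithTop ℤ) ≤ ((e * i : ℤ) : WithTop ℤ) := by exact_mod_cast h1
    _ = 0 + ((e * i : ℤ) : WithTop ℤ) := (zero_add _).symm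
    _ ≤ v ((c.coeff i : ℤ) : K) + ((e * i : ℤ) : WithTop ℤ) :=
        add_le_add_left (val_intCast_nonneg v hv0 _) _

theorem eval₂_split (x : K) (c : ℤ[X]) :
    c.eval₂ (Int.castRingHom K) x =
      (c.leadingCoeff : K) * x ^ c.natDegree + c.eraseLead.eval₂ (Int.castRingHom K) x := by
  conv_lhs => rw [← Polynomial.eraseLead_add_C_mul_X_pow c]
  rw [Polynomial.eval₂_add, Polynomial.eval₂_mul, Polynomial.eval₂_C, Polynomial.eval₂_X_pow,
    add_comm, eq_intCast]

theorem lt_val_eraseLead (hv0 : ∀ n : ℤ, n ≠ 0 → v (n : K) = 0) {x : K} {e : ℤ} (he : e < 0)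
    (hx : v x = (e : WithTop ℤ)) (c : ℤ[X]) :
    ((e * c.natDegree : ℤ) : WithTop ℤ) < v (c.eraseLead.eval₂ (Int.castRingHom K) x) := by
  rcases Nat.eq_zero_or_pos c.natDegree with h0 | hpos
  · have h1 : c.eraseLead = 0 := by
      rw [Polynomial.eq_C_of_natDegree_eq_zero h0, Polynomial.eraseLead_C]
    rw [h1, Polynomial.eval₂_zero, AddValuation.map_zero]
    exact WithTop.coe_lt_top _
  · have h1 := le_val_eval₂ v hv0 he.le hx c.eraseLead (c.natDegree - 1)
      (Polynomial.eraseLead_natDegree_le c)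
    refine lt_of_lt_of_le ?_ h1
    have h2 : ((c.natDegree - 1 : ℕ) : ℤ) = (c.natDegree : ℤ) - 1 := by omega
    have h3 : e * (c.natDegree : ℤ) < e * ((c.natDegree - 1 : ℕ) : ℤ) := by
      rw [h2]; nlinarith
    exact_mod_cast h3

theorem val_eval₂ (hv0 : ∀ n : ℤ, n ≠ 0 → v (n : K) = 0) {x : K} {e : ℤ} (he : e < 0)
    (hx : v x = (e : WithTop ℤ)) {c : ℤ[X]} (hc : c ≠ 0) :
    v (c.eval₂ (Int.castRingHom K) x) = ((e * c.natDegree : ℤ) : WithTop ℤ) := by
  have hlead : v ((c.leadingCoeff : K) * x ^ c.natDegree) = ((e * c.natDegree : ℤ) : WithTop ℤ) := by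
    rw [AddValuation.map_mul, hv0 _ (Polynomial.leadingCoeff_ne_zero.mpr hc), zero_add,
      val_pow_of_eq v hx]
  rw [eval₂_split, AddValuation.map_add_eq_of_lt_left, hlead]
  rw [hlead]
  exact lt_val_eraseLead v hv0 he hx c

/-- In a vanishing finite sum, no term has valuation strictly smaller than all the others. -/
theorem eq_zero_of_sum_eq_zero_of_lt {ι : Type*} [DecidableEq ι] (s : Finset ι) (a : ι → K)
    (hsum : ∑ i ∈ s, a i = 0) (i₀ : ι) (hi₀ : i₀ ∈ s)
    (h : ∀ i ∈ s, i ≠ i₀ → v (a i₀) < v (a i)) : a i₀ = 0 := by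
  by_contra hne
  have h1 : ∑ i ∈ s.erase i₀, a i = -a i₀ := by
    rw [← Finset.add_sum_erase s a hi₀] at hsum
    exact eq_neg_of_add_eq_zero_right hsum
  have h2 : v (a i₀) < v (∑ i ∈ s.erase i₀, a i) := by
    apply AddValuation.map_lt_sum v ((AddValuation.ne_top_iff v).mpr hne)
    intro i hi
    exact h i (Finset.mem_of_mem_erase hi) (Finset.ne_of_mem_erase hi)
  rw [h1, AddValuation.map_neg] at h2
  exact lt_irrefl _ h2


/-- Two dominant terms: if all other terms of a vanishing sum have valuation `> g`, so has the sum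
of the two remaining ones. -/
theorem lt_val_add_of_sum_eq_zero {ι : Type*} [DecidableEq ι] (s : Finset ι) (a : ι → K)
    (hsum : ∑ i ∈ s, a i = 0) (i₀ i₁ : ι) (hi₀ : i₀ ∈ s) (hi₁ : i₁ ∈ s) (hne : i₀ ≠ i₁)
    (g : WithTop ℤ) (hg : g ≠ ⊤) (h : ∀ i ∈ s, i ≠ i₀ → i ≠ i₁ → g < v (a i)) :
    g < v (a i₀ + a i₁) := by
  have hi₁' : i₁ ∈ s.erase i₀ := Finset.mem_erase.mpr ⟨hne.symm, hi₁⟩
  have h1 : ∑ i ∈ (s.erase i₀).erase i₁, a i = -(a i₀ + a i₁) := by
    rw [← Finset.add_sum_erase s a hi₀, ← Finset.add_sum_erase (s.erase i₀) a hi₁'] at hsum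
    rw [eq_neg_iff_add_eq_zero, ← hsum]
    ring
  have h2 : g < v (∑ i ∈ (s.erase i₀).erase i₁, a i) := by
    apply AddValuation.map_lt_sum v hg
    intro i hi
    have hi' := Finset.mem_of_mem_erase hi
    exact h i (Finset.mem_of_mem_erase hi') (Finset.ne_of_mem_erase hi') (Finset.ne_of_mem_erase hi)
  rwa [h1, AddValuation.map_neg] at h2

end Val

/-! ### Arithmetic of the weights -/

theorem pair_of_weight_eq {p a b m n : ℕ} (hp : 2 ≤ p) (hm : m ≤ p + 1) (hn : n ≤ p + 1)
    (hne : m ≠ n) (h : p * a + m = p * b + n) :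
    (m = 0 ∧ n = p ∧ a = b + 1) ∨ (m = p ∧ n = 0 ∧ b = a + 1) ∨
      (m = 1 ∧ n = p + 1 ∧ a = b + 1) ∨ (m = p + 1 ∧ n = 1 ∧ b = a + 1) := by
  rcases lt_trichotomy a b with hab | hab | hab
  · obtain ⟨k, rfl⟩ := Nat.exists_eq_add_of_lt hab
    have h1 : p * (a + k + 1) = p * a + p * k + p := by ring
    rw [h1] at h
    rcases Nat.eq_zero_or_pos k with rfl | hk
    · simp only [mul_zero, add_zero] at h
      rcases Nat.lt_or_ge n 1 with hn1 | hn1
      · right; left; omega
      · right; right; right; omega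
    · have h2 : p ≤ p * k := Nat.le_mul_of_pos_right p hk
      omega
  · subst hab; omega
  · obtain ⟨k, rfl⟩ := Nat.exists_eq_add_of_lt hab
    have h1 : p * (b + k + 1) = p * b + p * k + p := by ring
    rw [h1] at h
    rcases Nat.eq_zero_or_pos k with rfl | hk
    · simp only [mul_zero, add_zero] at h
      rcases Nat.lt_or_ge m 1 with hm1 | hm1
      · left; omega
      · right; right; left; omega
    · have h2 : p ≤ p * k := Nat.le_mul_of_pos_right p hk
      omega

/-! ### The shape theorem -/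

section Main

variable {K : Type*} [Field K] (v : AddValuation K (WithTop ℤ))

/-- **Kronecker shape by Newton polygon.**  `Φ ∈ ℤ[X][Y]` monic of degree `p + 1` in `Y` with
`Φ(J, J') = 0 = Φ(J', J)`, where `v J = -1` and `v (J' - J ^ p) > -p`: then `Φ.coeff 0` is monic
of degree `p + 1`, the coefficients `Φ.coeff n`, `1 ≤ n ≤ p`, have degree `≤ p`, and the
coefficient of `X ^ p Y ^ p` is `-1`. -/
theorem kronecker_shape (hv0 : ∀ n : ℤ, n ≠ 0 → v (n : K) = 0) (p : ℕ) (hp : 2 ≤ p) {J J' : K}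
    (hJ : v J = ((-1 : ℤ) : WithTop ℤ))
    (hJ' : ((-(p : ℤ) : ℤ) : WithTop ℤ) < v (J' - J ^ p))
    (Φ : Polynomial (Polynomial ℤ)) (hΦm : Φ.Monic) (hΦd : Φ.natDegree = p + 1)
    (h1 : (Φ.map (Polynomial.eval₂RingHom (Int.castRingHom K) J)).eval J' = 0)
    (h2 : (Φ.map (Polynomial.eval₂RingHom (Int.castRingHom K) J')).eval J = 0) :
    (Φ.coeff 0).Monic ∧ (Φ.coeff 0).natDegree = p + 1 ∧
      (∀ n, 1 ≤ n → n ≤ p → (Φ.coeff n).natDegree ≤ p) ∧ (Φ.coeff p).coeff p = -1 := by
  classical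
  -- valuations of `J ^ p` and `J'`
  have hJp : v (J ^ p) = ((-(p : ℤ) : ℤ) : WithTop ℤ) := by
    rw [val_pow_of_eq v hJ]; congr 1; ring
  have hJ'v : v J' = ((-(p : ℤ) : ℤ) : WithTop ℤ) := by
    have h : J' = J ^ p + (J' - J ^ p) := by ring
    rw [h, AddValuation.map_add_eq_of_lt_left, hJp]
    rw [hJp]; exact hJ'
  have hm1 : (-1 : ℤ) < 0 := by norm_num
  have hmp : (-(p : ℤ)) < 0 := by omega
  have hpp : 2 * p ≤ p * p := Nat.mul_le_mul_right p hp
  obtain ⟨d, hd⟩ : ∃ d : ℕ → ℕ, ∀ n, d n = (Φ.coeff n).natDegree := ⟨_, fun _ => rfl⟩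
  obtain ⟨A, hA⟩ : ∃ A : ℕ → K, ∀ n, A n = (Φ.coeff n).eval₂ (Int.castRingHom K) J :=
    ⟨_, fun _ => rfl⟩
  obtain ⟨B, hB⟩ : ∃ B : ℕ → K, ∀ n, B n = (Φ.coeff n).eval₂ (Int.castRingHom K) J' :=
    ⟨_, fun _ => rfl⟩
  -- the two vanishing sums
  have hS1 : ∑ n ∈ Finset.range (p + 2), A n * J' ^ n = 0 := by
    rw [← h1, Polynomial.eval_eq_sum_range' (n := p + 2)]
    · refine Finset.sum_congr rfl fun n _ => ?_
      rw [Polynomial.coeff_map, hA]; rfl
    · exact lt_of_le_of_lt Polynomial.natDegree_map_le (by omega)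
  have hS2 : ∑ n ∈ Finset.range (p + 2), B n * J ^ n = 0 := by
    rw [← h2, Polynomial.eval_eq_sum_range' (n := p + 2)]
    · refine Finset.sum_congr rfl fun n _ => ?_
      rw [Polynomial.coeff_map, hB]; rfl
    · exact lt_of_le_of_lt Polynomial.natDegree_map_le (by omega)
  have hcp1 : Φ.coeff (p + 1) = 1 := by rw [← hΦd]; exact hΦm.coeff_natDegree
  have hdp1 : d (p + 1) = 0 := by rw [hd, hcp1, Polynomial.natDegree_one]
  have hA1 : A (p + 1) = 1 := by rw [hA, hcp1, Polynomial.eval₂_one]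
  have hB1 : B (p + 1) = 1 := by rw [hB, hcp1, Polynomial.eval₂_one]
  have hc1 : Φ.coeff (p + 1) ≠ 0 := by rw [hcp1]; exact one_ne_zero
  -- valuations of the terms
  have hT1 : ∀ n, Φ.coeff n ≠ 0 →
      v (A n * J' ^ n) = ((-(d n : ℤ) - p * n : ℤ) : WithTop ℤ) := by
    intro n hn
    rw [AddValuation.map_mul, hA, val_eval₂ v hv0 hm1 hJ hn, val_pow_of_eq v hJ'v,
      ← WithTop.coe_add, hd]
    congr 1; ring
  have hT2 : ∀ n, Φ.coeff n ≠ 0 →
      v (B n * J ^ n) = ((-(p * d n : ℤ) - n : ℤ) : WithTop ℤ) := by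
    intro n hn
    rw [AddValuation.map_mul, hB, val_eval₂ v hv0 hmp hJ'v hn, val_pow_of_eq v hJ,
      ← WithTop.coe_add, hd]
    congr 1; ring
  have hT1z : ∀ n, Φ.coeff n = 0 → A n * J' ^ n = 0 := by
    intro n hn; rw [hA, hn, Polynomial.eval₂_zero, zero_mul]
  have hT2z : ∀ n, Φ.coeff n = 0 → B n * J ^ n = 0 := by
    intro n hn; rw [hB, hn, Polynomial.eval₂_zero, zero_mul]
  -- the support
  set S : Finset ℕ := (Finset.range (p + 2)).filter (fun n => Φ.coeff n ≠ 0) with hS
  have hmemS : ∀ n, n ∈ S ↔ n ≤ p + 1 ∧ Φ.coeff n ≠ 0 := by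
    intro n; rw [hS, Finset.mem_filter, Finset.mem_range]; constructor
    · rintro ⟨h, h'⟩; exact ⟨by omega, h'⟩
    · rintro ⟨h, h'⟩; exact ⟨by omega, h'⟩
  have hp1S : p + 1 ∈ S := (hmemS _).mpr ⟨le_rfl, hc1⟩
  -- Step A: relation 1, the term `n = p + 1` is not the unique minimum
  have hstepA : ∃ n₁ ∈ S, n₁ ≠ p + 1 ∧ p * (p + 1) ≤ d n₁ + p * n₁ := by
    by_contra hcon
    push Not at hcon
    have hz := eq_zero_of_sum_eq_zero_of_lt v (Finset.range (p + 2)) (fun n => A n * J' ^ n)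
      hS1 (p + 1) (Finset.mem_range.mpr (by omega)) ?_
    · have h3 := hT1 (p + 1) hc1
      rw [show A (p + 1) * J' ^ (p + 1) = 0 from hz, AddValuation.map_zero] at h3
      exact WithTop.top_ne_coe h3
    · intro i hi hip
      show v (A (p + 1) * J' ^ (p + 1)) < v (A i * J' ^ i)
      by_cases hci : Φ.coeff i = 0
      · rw [hT1z i hci, AddValuation.map_zero, hT1 (p + 1) hc1]; exact WithTop.coe_lt_top _
      · have hiS : i ∈ S := (hmemS i).mpr ⟨by have := Finset.mem_range.mp hi; omega, hci⟩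
        have h4 := hcon i hiS hip
        rw [hT1 (p + 1) hc1, hT1 i hci, hdp1, WithTop.coe_lt_coe]
        have h5 : ((d i + p * i : ℕ) : ℤ) < ((p * (p + 1) : ℕ) : ℤ) := by exact_mod_cast h4
        push_cast at h5 ⊢
        linarith
  obtain ⟨n₁, hn₁S, hn₁p, hn₁⟩ := hstepA
  have hn₁le : n₁ ≤ p := by have := ((hmemS n₁).mp hn₁S).1; omega
  -- Step B: relation 2, the maximal weight is attained twice
  obtain ⟨N, hNS, hNmax⟩ := Finset.exists_max_image S (fun n => p * d n + n) ⟨p + 1, hp1S⟩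
  have hN0 : Φ.coeff N ≠ 0 := ((hmemS N).mp hNS).2
  have hNle : N ≤ p + 1 := ((hmemS N).mp hNS).1
  have hex : ∃ n' ∈ S, n' ≠ N ∧ p * d n' + n' = p * d N + N := by
    by_contra hcon
    push Not at hcon
    have hz := eq_zero_of_sum_eq_zero_of_lt v (Finset.range (p + 2)) (fun n => B n * J ^ n)
      hS2 N (Finset.mem_range.mpr (by omega)) ?_
    · have h3 := hT2 N hN0
      rw [show B N * J ^ N = 0 from hz, AddValuation.map_zero] at h3
      exact WithTop.top_ne_coe h3
    · intro i hi hiN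
      show v (B N * J ^ N) < v (B i * J ^ i)
      by_cases hci : Φ.coeff i = 0
      · rw [hT2z i hci, AddValuation.map_zero, hT2 N hN0]; exact WithTop.coe_lt_top _
      · have hiS : i ∈ S := (hmemS i).mpr ⟨by have := Finset.mem_range.mp hi; omega, hci⟩
        have h3 : p * d i + i ≤ p * d N + N := hNmax i hiS
        have h4 := hcon i hiS hiN
        have h5 : p * d i + i < p * d N + N := lt_of_le_of_ne h3 h4
        rw [hT2 N hN0, hT2 i hci, WithTop.coe_lt_coe]
        have h6 : ((p * d i + i : ℕ) : ℤ) < ((p * d N + N : ℕ) : ℤ) := by exact_mod_cast h5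
        push_cast at h6 ⊢
        linarith
  obtain ⟨n', hn'S, hn'N, hn'eq⟩ := hex
  have hn'le : n' ≤ p + 1 := ((hmemS n').mp hn'S).1
  have hn'0 : Φ.coeff n' ≠ 0 := ((hmemS n').mp hn'S).2
  -- the key structural facts
  have hkey : Φ.coeff 0 ≠ 0 ∧ Φ.coeff p ≠ 0 ∧ d 0 = d p + 1 ∧
      ∀ n ∈ S, p * d n + n ≤ p * d 0 := by
    have hbad : p * d N + N = p + 1 → False := by
      intro hbad
      have h3 : p * d n₁ + n₁ ≤ p * d N + N := hNmax n₁ hn₁S
      have h4 : p * n₁ ≤ p * p := Nat.mul_le_mul_left p hn₁le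
      have h5 : p * (p + 1) = p * p + p := by ring
      have h6 : p ≤ d n₁ := by omega
      have h7 : p * p ≤ p * d n₁ := Nat.mul_le_mul_left p h6
      omega
    rcases pair_of_weight_eq hp hNle hn'le (Ne.symm hn'N) hn'eq.symm with
      ⟨hN, hn', hdd⟩ | ⟨hN, hn', hdd⟩ | ⟨hN, hn', hdd⟩ | ⟨hN, hn', hdd⟩
    · rw [hN] at hN0 hdd
      rw [hn'] at hn'0 hdd
      refine ⟨hN0, hn'0, hdd, fun n hn => ?_⟩
      have h3 : p * d n + n ≤ p * d N + N := hNmax n hn
      rw [hN] at h3
      omega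
    · rw [hN] at hN0 hdd
      rw [hn'] at hn'0 hdd
      refine ⟨hn'0, hN0, hdd, fun n hn => ?_⟩
      have h3 : p * d n + n ≤ p * d N + N := hNmax n hn
      rw [hN] at h3
      have h4 : p * d 0 = p * d p + p := by rw [hdd]; ring
      omega
    · exfalso; apply hbad
      rw [hN] at hdd ⊢
      rw [hn', hdp1] at hdd
      rw [hdd]
      ring
    · exfalso; apply hbad
      rw [hN, hdp1]; ring
  obtain ⟨hc0, hcp, hd0p, hW⟩ := hkey
  have h0S : 0 ∈ S := (hmemS 0).mpr ⟨by omega, hc0⟩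
  have hpS : p ∈ S := (hmemS p).mpr ⟨by omega, hcp⟩
  -- for `1 ≤ n ≤ p` in the support, `d n ≤ d p`
  have hdle : ∀ n ∈ S, 1 ≤ n → d n ≤ d p := by
    intro n hn hn1
    have h3 := hW n hn
    have h4 : p * d n < p * d 0 := by omega
    have h5 : d n < d 0 := Nat.lt_of_mul_lt_mul_left h4
    omega
  -- Step C: `d p = p`
  have hdp : d p = p := by
    rcases lt_trichotomy (d p) p with hlt | heq | hgt
    · -- the term `p + 1` would be the unique minimum of relation 1
      exfalso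
      have hz := eq_zero_of_sum_eq_zero_of_lt v (Finset.range (p + 2)) (fun n => A n * J' ^ n)
        hS1 (p + 1) (Finset.mem_range.mpr (by omega)) ?_
      · have h3 := hT1 (p + 1) hc1
        rw [show A (p + 1) * J' ^ (p + 1) = 0 from hz, AddValuation.map_zero] at h3
        exact WithTop.top_ne_coe h3
      · intro i hi hip
        show v (A (p + 1) * J' ^ (p + 1)) < v (A i * J' ^ i)
        by_cases hci : Φ.coeff i = 0
        · rw [hT1z i hci, AddValuation.map_zero, hT1 (p + 1) hc1]; exact WithTop.coe_lt_top _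
        · have hile : i ≤ p := by have := Finset.mem_range.mp hi; omega
          have hiS : i ∈ S := (hmemS i).mpr ⟨by omega, hci⟩
          rw [hT1 (p + 1) hc1, hT1 i hci, hdp1, WithTop.coe_lt_coe]
          have h4 : p * i ≤ p * p := Nat.mul_le_mul_left p hile
          have h5 : d i + p * i < p * p + p := by
            rcases Nat.eq_zero_or_pos i with rfl | hipos
            · omega
            · have := hdle i hiS hipos; omega
          have h6 : ((d i + p * i : ℕ) : ℤ) < ((p * p + p : ℕ) : ℤ) := by exact_mod_cast h5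
          push_cast at h6 ⊢
          nlinarith
    · exact heq
    · -- the term `p` would be the unique minimum of relation 1
      exfalso
      have hz := eq_zero_of_sum_eq_zero_of_lt v (Finset.range (p + 2)) (fun n => A n * J' ^ n)
        hS1 p (Finset.mem_range.mpr (by omega)) ?_
      · have h3 := hT1 p hcp
        rw [show A p * J' ^ p = 0 from hz, AddValuation.map_zero] at h3
        exact WithTop.top_ne_coe h3
      · intro i hi hip
        show v (A p * J' ^ p) < v (A i * J' ^ i)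
        by_cases hci : Φ.coeff i = 0
        · rw [hT1z i hci, AddValuation.map_zero, hT1 p hcp]; exact WithTop.coe_lt_top _
        · have hile : i ≤ p + 1 := by have := Finset.mem_range.mp hi; omega
          have hiS : i ∈ S := (hmemS i).mpr ⟨hile, hci⟩
          rw [hT1 p hcp, hT1 i hci, WithTop.coe_lt_coe]
          have h5 : d i + p * i < d p + p * p := by
            rcases Nat.lt_or_ge i (p + 1) with hlt' | hge'
            · have hilt : i + 1 ≤ p := by omega
              have h4 : p * (i + 1) ≤ p * p := Nat.mul_le_mul_left p hilt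
              have h4' : p * (i + 1) = p * i + p := by ring
              rcases Nat.eq_zero_or_pos i with rfl | hipos
              · omega
              · have := hdle i hiS hipos; omega
            · have hi1 : i = p + 1 := by omega
              subst hi1
              have h4' : p * (p + 1) = p * p + p := by ring
              omega
          have h6 : ((d i + p * i : ℕ) : ℤ) < ((d p + p * p : ℕ) : ℤ) := by exact_mod_cast h5
          push_cast at h6 ⊢
          linarith
  have hd0 : d 0 = p + 1 := by omega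
  have hdn : ∀ n, 1 ≤ n → n ≤ p → d n ≤ p := by
    intro n hn1 hnp
    by_cases hcn : Φ.coeff n = 0
    · rw [hd, hcn, Polynomial.natDegree_zero]; omega
    · have := hdle n ((hmemS n).mpr ⟨by omega, hcn⟩) hn1; omega
  have hnat0 : (Φ.coeff 0).natDegree = p + 1 := by rw [← hd]; exact hd0
  have hnatp : (Φ.coeff p).natDegree = p := by rw [← hd]; exact hdp
  -- (a) the coefficient of `X ^ p Y ^ p` is `-1`
  have ha : (Φ.coeff p).leadingCoeff = -1 := by
    obtain ⟨a, ha_def⟩ : ∃ a : ℤ, a = (Φ.coeff p).leadingCoeff := ⟨_, rfl⟩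
    rw [← ha_def]
    obtain ⟨rA, hrA⟩ : ∃ r : K, r = (Φ.coeff p).eraseLead.eval₂ (Int.castRingHom K) J :=
      ⟨_, rfl⟩
    have hAp : A p = (a : K) * J ^ p + rA := by
      rw [hA, eval₂_split J (Φ.coeff p), hnatp, hrA, ha_def]
    have hrAv : ((-(p : ℤ) : ℤ) : WithTop ℤ) < v rA := by
      have h3 := lt_val_eraseLead v hv0 hm1 hJ (Φ.coeff p)
      rw [hnatp] at h3
      rw [hrA]
      have h4 : ((-1 : ℤ) * (p : ℤ)) = -(p : ℤ) := by ring
      rwa [h4] at h3
    have hg : (((-((p : ℤ) * p) - p : ℤ)) : WithTop ℤ) <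
        v (A (p + 1) * J' ^ (p + 1) + A p * J' ^ p) := by
      apply lt_val_add_of_sum_eq_zero v (Finset.range (p + 2)) (fun n => A n * J' ^ n) hS1
        (p + 1) p (Finset.mem_range.mpr (by omega)) (Finset.mem_range.mpr (by omega))
        (by omega) _ WithTop.coe_ne_top
      intro i hi hi1 hi2
      show _ < v (A i * J' ^ i)
      by_cases hci : Φ.coeff i = 0
      · rw [hT1z i hci, AddValuation.map_zero]; exact WithTop.coe_lt_top _
      · have hile : i + 1 ≤ p := by have := Finset.mem_range.mp hi; omega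
        rw [hT1 i hci, WithTop.coe_lt_coe]
        have h4 : p * (i + 1) ≤ p * p := Nat.mul_le_mul_left p hile
        have h4' : p * (i + 1) = p * i + p := by ring
        have h5 : d i + p * i < p * p + p := by
          rcases Nat.eq_zero_or_pos i with rfl | hipos
          · omega
          · have := hdn i hipos (by omega); omega
        have h6 : ((d i + p * i : ℕ) : ℤ) < ((p * p + p : ℕ) : ℤ) := by exact_mod_cast h5
        push_cast at h6 ⊢
        linarith
    have hfac : A (p + 1) * J' ^ (p + 1) + A p * J' ^ p =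
        J' ^ p * (((1 + a : ℤ) : K) * J ^ p + (J' - J ^ p) + rA) := by
      rw [hA1, hAp]; push_cast; ring
    rw [hfac, AddValuation.map_mul, val_pow_of_eq v hJ'v] at hg
    have hg' : ((-(p : ℤ) : ℤ) : WithTop ℤ) <
        v (((1 + a : ℤ) : K) * J ^ p + (J' - J ^ p) + rA) := by
      have h7 : (((-((p : ℤ) * p) - p : ℤ)) : WithTop ℤ) =
          ((-(p : ℤ) * p : ℤ) : WithTop ℤ) + ((-(p : ℤ) : ℤ) : WithTop ℤ) := by
        rw [← WithTop.coe_add]; congr 1; ring
      rw [h7] at hg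
      exact (WithTop.add_lt_add_iff_left WithTop.coe_ne_top).mp hg
    have hmain : ((-(p : ℤ) : ℤ) : WithTop ℤ) < v (((1 + a : ℤ) : K) * J ^ p) := by
      have h8 : ((1 + a : ℤ) : K) * J ^ p =
          (((1 + a : ℤ) : K) * J ^ p + (J' - J ^ p) + rA) + (-(J' - J ^ p) + -rA) := by ring
      rw [h8]
      apply AddValuation.map_lt_add v hg'
      apply AddValuation.map_lt_add v
      · rwa [AddValuation.map_neg]
      · rwa [AddValuation.map_neg]
    by_contra hne
    have h9 : (1 + a : ℤ) ≠ 0 := by intro h; apply hne; omega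
    rw [AddValuation.map_mul, hv0 _ h9, zero_add, hJp] at hmain
    exact lt_irrefl _ hmain
  -- (b) `Φ.coeff 0` is monic
  have hb : (Φ.coeff 0).leadingCoeff = 1 := by
    obtain ⟨b, hb_def⟩ : ∃ b : ℤ, b = (Φ.coeff 0).leadingCoeff := ⟨_, rfl⟩
    rw [← hb_def]
    obtain ⟨r0, hr0⟩ : ∃ r : K, r = (Φ.coeff 0).eraseLead.eval₂ (Int.castRingHom K) J' :=
      ⟨_, rfl⟩
    obtain ⟨rp, hrp⟩ : ∃ r : K, r = (Φ.coeff p).eraseLead.eval₂ (Int.castRingHom K) J' :=
      ⟨_, rfl⟩
    have hB0 : B 0 = (b : K) * J' ^ (p + 1) + r0 := by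
      rw [hB, eval₂_split J' (Φ.coeff 0), hnat0, hr0, hb_def]
    have hBp : B p = ((-1 : ℤ) : K) * J' ^ p + rp := by
      rw [hB, eval₂_split J' (Φ.coeff p), hnatp, hrp, ha]
    have hr0v : ((-((p : ℤ) * p) - p : ℤ) : WithTop ℤ) < v r0 := by
      have h3 := lt_val_eraseLead v hv0 hmp hJ'v (Φ.coeff 0)
      rw [hnat0] at h3
      rw [hr0]
      have h4 : (-(p : ℤ) * ((p + 1 : ℕ) : ℤ)) = -((p : ℤ) * p) - p := by push_cast; ring
      rwa [h4] at h3
    have hrpv : ((-((p : ℤ) * p) : ℤ) : WithTop ℤ) < v rp := by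
      have h3 := lt_val_eraseLead v hv0 hmp hJ'v (Φ.coeff p)
      rw [hnatp] at h3
      rw [hrp]
      have h4 : (-(p : ℤ) * (p : ℤ)) = -((p : ℤ) * p) := by ring
      rwa [h4] at h3
    have hg : (((-((p : ℤ) * p) - p : ℤ)) : WithTop ℤ) < v (B 0 * J ^ 0 + B p * J ^ p) := by
      apply lt_val_add_of_sum_eq_zero v (Finset.range (p + 2)) (fun n => B n * J ^ n) hS2
        0 p (Finset.mem_range.mpr (by omega)) (Finset.mem_range.mpr (by omega))
        (by omega) _ WithTop.coe_ne_top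
      intro i hi hi1 hi2
      show _ < v (B i * J ^ i)
      by_cases hci : Φ.coeff i = 0
      · rw [hT2z i hci, AddValuation.map_zero]; exact WithTop.coe_lt_top _
      · rw [hT2 i hci, WithTop.coe_lt_coe]
        have hile : i ≤ p + 1 := by have := Finset.mem_range.mp hi; omega
        have h5 : p * d i + i < p * p + p := by
          rcases Nat.lt_or_ge i (p + 1) with hlt' | hge'
          · have h6 : d i ≤ p := hdn i (by omega) (by omega)
            have h7 : p * d i ≤ p * p := Nat.mul_le_mul_left p h6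
            omega
          · have hi1' : i = p + 1 := by omega
            rw [hi1', hdp1]; omega
        have h6 : ((p * d i + i : ℕ) : ℤ) < ((p * p + p : ℕ) : ℤ) := by exact_mod_cast h5
        push_cast at h6 ⊢
        linarith
    have hfac : J' ^ p * (((b - 1 : ℤ) : K) * J' + (J' - J ^ p)) =
        (B 0 * J ^ 0 + B p * J ^ p) + (-r0 + -(rp * J ^ p)) := by
      rw [hB0, hBp]; push_cast; ring
    have hrest : (((-((p : ℤ) * p) - p : ℤ)) : WithTop ℤ) < v (-r0 + -(rp * J ^ p)) := by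
      apply AddValuation.map_lt_add v
      · rwa [AddValuation.map_neg]
      · rw [AddValuation.map_neg, AddValuation.map_mul, hJp]
        have h7 : (((-((p : ℤ) * p) - p : ℤ)) : WithTop ℤ) =
            ((-((p : ℤ) * p) : ℤ) : WithTop ℤ) + ((-(p : ℤ) : ℤ) : WithTop ℤ) := by
          rw [← WithTop.coe_add]; congr 1
        rw [h7]
        exact WithTop.add_lt_add_right WithTop.coe_ne_top hrpv
    have hX : (((-((p : ℤ) * p) - p : ℤ)) : WithTop ℤ) <
        v (J' ^ p * (((b - 1 : ℤ) : K) * J' + (J' - J ^ p))) := by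
      rw [hfac]; exact AddValuation.map_lt_add v hg hrest
    rw [AddValuation.map_mul, val_pow_of_eq v hJ'v] at hX
    have hX' : ((-(p : ℤ) : ℤ) : WithTop ℤ) < v (((b - 1 : ℤ) : K) * J' + (J' - J ^ p)) := by
      have h7 : (((-((p : ℤ) * p) - p : ℤ)) : WithTop ℤ) =
          ((-(p : ℤ) * p : ℤ) : WithTop ℤ) + ((-(p : ℤ) : ℤ) : WithTop ℤ) := by
        rw [← WithTop.coe_add]; congr 1; ring
      rw [h7] at hX
      exact (WithTop.add_lt_add_iff_left WithTop.coe_ne_top).mp hX
    have hmain : ((-(p : ℤ) : ℤ) : WithTop ℤ) < v (((b - 1 : ℤ) : K) * J') := by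
      have h8 : ((b - 1 : ℤ) : K) * J' =
          (((b - 1 : ℤ) : K) * J' + (J' - J ^ p)) + -(J' - J ^ p) := by ring
      rw [h8]
      apply AddValuation.map_lt_add v hX'
      rwa [AddValuation.map_neg]
    by_contra hne
    have h9 : (b - 1 : ℤ) ≠ 0 := by intro h; apply hne; omega
    rw [AddValuation.map_mul, hv0 _ h9, zero_add, hJ'v] at hmain
    exact lt_irrefl _ hmain
  refine ⟨hb, hnat0, fun n hn1 hnp => ?_, ?_⟩
  · rw [← hd]; exact hdn n hn1 hnp
  · have h3 := ha
    rw [Polynomial.leadingCoeff, hnatp] at h3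
    exact h3

end Main

end

end Fermat.Agent.S36.helper6414
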