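import Fermat.Agent.S37.helper9343_JIntegral
import Fermat.Agent.S36.helper6414_PhiShape

/-!
# S36-PHISHAPE, instance (helper6414): the landed modular equation has the Kronecker shape

`Fermat.Agent.S28.helper28.primeRel` / `Fermat.Agent.S37.helper9343.exists_modularEquation` give a
monic `Φ ∈ ℤ[X][Y]` of degree `p + 1` in `Y` with `Φ(j, j_p) = 0 = Φ(j_p, j)`, with no information
on the inner degrees.  Here the same statements are proved together with the shape
`Φ = Y^(p+1) + X^(p+1) - X^p Y^p + ∑_{m, n ≤ p, (m, n) ≠ (p, p)} c_{mn} X^m Y^n`: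

* `addVal_intCast`, `addVal_jqModC`, `lt_addVal_qExpand_sub` : the three valuation inputs of
  `kronecker_shape` for the order valuation of `ℚ((t))`;
* `shape_of_rel` : EVERY monic `Φ` of degree `p + 1` with the two relations over `ℚ` has the shape;
* `exists_primeRel_shape` : the statement of `helper28.primeRel` with the shape;
* `exists_modularEquation_shape` : the statement of `helper9343.exists_modularEquation` (four
  relations in `FN M`, `p * p ∣ M`) with the shape.
-/

set_option autoImplicit false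

open ModularCurve Polynomial

namespace Fermat.Agent.S36.helper6414

open Fermat.Agent.S24.helper24 Fermat.Agent.S37.helper9343

noncomputable section

/-- The shape of a modular equation of level `p`. -/
def KroneckerShape (p : ℕ) (Φ : Polynomial (Polynomial ℤ)) : Prop :=
  (Φ.coeff 0).Monic ∧ (Φ.coeff 0).natDegree = p + 1 ∧
    (∀ n, 1 ≤ n → n ≤ p → (Φ.coeff n).natDegree ≤ p) ∧ (Φ.coeff p).coeff p = -1

/-- The order valuation of `ℚ((t))` is trivial on the nonzero integers. -/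
theorem addVal_intCast {n : ℤ} (hn : n ≠ 0) :
    HahnSeries.addVal ℤ ℚ ((n : ℤ) : LaurentSeries ℚ) = 0 := by
  have h1 : ((n : ℤ) : LaurentSeries ℚ) = HahnSeries.single (0 : ℤ) (n : ℚ) := by
    rw [← HahnSeries.C_apply, map_intCast]
  rw [HahnSeries.addVal_apply, h1, HahnSeries.orderTop_single (Int.cast_ne_zero.mpr hn)]
  rfl

/-- `j` has a simple pole. -/
theorem addVal_jqModC : HahnSeries.addVal ℤ ℚ (jqModC ℚ) = ((-1 : ℤ) : WithTop ℤ) := by
  rw [HahnSeries.addVal_apply]
  apply HahnSeries.orderTop_eq_of_le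
  · rw [HahnSeries.mem_support, ModularCurve.coeff_jqModC_neg_one]
    exact one_ne_zero
  · intro g hg
    by_contra hlt
    rw [not_le] at hlt
    have h1 := ModularCurve.coeff_jqModC_pow_of_lt ℚ (b := 1) (m := g) (by simpa using hlt)
    rw [pow_one] at h1
    exact (HahnSeries.mem_support _ _).mp hg h1

/-- `j(t^p) - j(t)^p` has order `> -p`. -/
theorem lt_addVal_qExpand_sub (p : ℕ) [NeZero p] :
    ((-(p : ℤ) : ℤ) : WithTop ℤ) <
      HahnSeries.addVal ℤ ℚ (qExpand ℚ p (jqModC ℚ) - jqModC ℚ ^ p) := by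
  rw [HahnSeries.addVal_apply]
  have hpos : (0 : ℤ) < p := by exact_mod_cast Nat.pos_of_ne_zero (NeZero.ne p)
  have h1 : ((-(p : ℤ) + 1 : ℤ) : WithTop ℤ) ≤
      (qExpand ℚ p (jqModC ℚ) - jqModC ℚ ^ p).orderTop := by
    rw [HahnSeries.le_orderTop_iff_forall]
    intro j hj
    have hj' : j ≤ -(p : ℤ) := by
      have := WithTop.coe_lt_coe.mp hj
      omega
    rw [HahnSeries.coeff_sub]
    rcases eq_or_lt_of_le hj' with rfl | hlt
    · rw [ModularCurve.coeff_jqModC_pow_self]
      have h2 : (-(p : ℤ)) = (p : ℤ) * (-1) := by ring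
      rw [h2, qExpand_coeff_mul, ModularCurve.coeff_jqModC_neg_one, sub_self]
    · rw [ModularCurve.coeff_jqModC_pow_of_lt ℚ hlt, sub_zero]
      by_cases hdvd : (p : ℤ) ∣ j
      · obtain ⟨k, rfl⟩ := hdvd
        rw [qExpand_coeff_mul]
        have hk : k < -((1 : ℕ) : ℤ) := by
          have : (p : ℤ) * k < (p : ℤ) * (-1) := by linarith
          have := lt_of_mul_lt_mul_left this hpos.le
          simpa using this
        have h3 := ModularCurve.coeff_jqModC_pow_of_lt ℚ (b := 1) hk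
        rwa [pow_one] at h3
      · exact qExpand_coeff_of_not_dvd p _ hdvd
  refine lt_of_lt_of_le ?_ h1
  exact WithTop.coe_lt_coe.mpr (by omega)

/-- **Every** monic `Φ ∈ ℤ[X][Y]` of degree `p + 1` in `Y` with `Φ(j, j_p) = 0 = Φ(j_p, j)` over
`ℚ` has the Kronecker shape. -/
theorem shape_of_rel (p : ℕ) [NeZero p] (hp : 2 ≤ p) (Φ : Polynomial (Polynomial ℤ))
    (hΦm : Φ.Monic) (hΦd : Φ.natDegree = p + 1)
    (h1 : (Φ.map (Fermat.Agent.S28.helper328.evalJ (jqModC ℚ))).eval
      (qExpand ℚ p (jqModC ℚ)) = 0)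
    (h2 : (Φ.map (Fermat.Agent.S28.helper328.evalJ (qExpand ℚ p (jqModC ℚ)))).eval
      (jqModC ℚ) = 0) : KroneckerShape p Φ :=
  kronecker_shape (HahnSeries.addVal ℤ ℚ) (fun _ hn => addVal_intCast hn) p hp addVal_jqModC
    (lt_addVal_qExpand_sub p) Φ hΦm hΦd h1 h2

/-- The statement of `helper28.primeRel` together with the Kronecker shape. -/
theorem exists_primeRel_shape (p : ℕ) [hp : Fact p.Prime] :
    ∃ Φ : Polynomial (Polynomial ℤ), Φ.Monic ∧ Φ.natDegree = p + 1 ∧
      (∀ (R : Type) [CommRing R],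
        (Φ.map (Fermat.Agent.S28.helper328.evalJ (jqModC R))).eval (qExpand R p (jqModC R)) = 0 ∧
        (Φ.map (Fermat.Agent.S28.helper328.evalJ (qExpand R p (jqModC R)))).eval (jqModC R) = 0) ∧
      KroneckerShape p Φ := by
  obtain ⟨Φ, hΦm, hΦdeg, hrel⟩ :=
    Fermat.Agent.S28.helper28.primeRel p (Fermat.Agent.S28.helper508.stmt_FormalPrime p)
  have : NeZero p := ⟨hp.out.ne_zero⟩
  exact ⟨Φ, hΦm, hΦdeg, hrel, shape_of_rel p hp.out.two_le Φ hΦm hΦdeg (hrel ℚ).1 (hrel ℚ).2⟩

/-- The statement of `helper9343.exists_modularEquation_series` (relations in `ℚ̄((q))`) together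
with the Kronecker shape. -/
theorem exists_modularEquation_series_shape (p : ℕ) [NeZero p] (hp : p.Prime) :
    ∃ Φ : Polynomial (Polynomial ℤ), Φ.Monic ∧ Φ.natDegree = p + 1 ∧
      (Φ.map (evalZ JK)).eval (qExpand Kbar p JK) = 0 ∧
      (Φ.map (evalZ (qExpand Kbar p JK))).eval JK = 0 ∧
      (Φ.map (evalZ (qExpand Kbar p JK))).eval (qExpand Kbar (p * p) JK) = 0 ∧
      (Φ.map (evalZ (qExpand Kbar (p * p) JK))).eval (qExpand Kbar p JK) = 0 ∧
      KroneckerShape p Φ := by
  have : Fact p.Prime := ⟨hp⟩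
  obtain ⟨Φ, hΦm, hΦdeg, hrel, hshape⟩ := exists_primeRel_shape p
  obtain ⟨hF1, hF2⟩ := hrel Kbar
  rw [← JK_eq_jqModC] at hF1 hF2
  have h1 : (Φ.map (evalZ JK)).eval (qExpand Kbar p JK) = 0 := hF1
  have h2 : (Φ.map (evalZ (qExpand Kbar p JK))).eval JK = 0 := hF2
  refine ⟨Φ, hΦm, hΦdeg, h1, h2, ?_, ?_, hshape⟩
  · have h3 := congrArg (qExpand Kbar p) h1
    rwa [map_eval_map_evalZ, map_zero, qExpand_qExpand] at h3
  · have h4 := congrArg (qExpand Kbar p) h2
    rwa [map_eval_map_evalZ, map_zero, qExpand_qExpand] at h4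

/-- **The modular equations in `FN M` with the Kronecker shape** (`p² ∣ M`): the statement of
`helper9343.exists_modularEquation` together with
`Φ = Y^(p+1) + X^(p+1) - X^p Y^p + ∑_{m, n ≤ p, (m, n) ≠ (p, p)} c_{mn} X^m Y^n`. -/
theorem exists_modularEquation_shape (p : ℕ) [NeZero p] (hp : p.Prime) (M : ℕ)
    (hM : p * p ∣ M) :
    ∃ Φ : Polynomial (Polynomial ℤ), Φ.Monic ∧ Φ.natDegree = p + 1 ∧
      (Φ.map (evalZ (jBar M))).eval (jBarD M p ((dvd_mul_left p p).trans hM)) = 0 ∧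
      (Φ.map (evalZ (jBarD M p ((dvd_mul_left p p).trans hM)))).eval (jBar M) = 0 ∧
      (Φ.map (evalZ (jBarD M p ((dvd_mul_left p p).trans hM)))).eval (jBarD M (p * p) hM) = 0 ∧
      (Φ.map (evalZ (jBarD M (p * p) hM))).eval (jBarD M p ((dvd_mul_left p p).trans hM)) = 0 ∧
      KroneckerShape p Φ := by
  obtain ⟨Φ, hΦm, hΦdeg, h1, h2, h3, h4, hshape⟩ := exists_modularEquation_series_shape p hp
  refine ⟨Φ, hΦm, hΦdeg, ?_, ?_, ?_, ?_, hshape⟩
  · apply eval_eq_zero_of_coe
    rw [coe_jBar', coe_jBarD']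
    exact h1
  · apply eval_eq_zero_of_coe
    rw [coe_jBar', coe_jBarD']
    exact h2
  · apply eval_eq_zero_of_coe
    rw [coe_jBarD', coe_jBarD']
    exact h3
  · apply eval_eq_zero_of_coe
    rw [coe_jBarD', coe_jBarD']
    exact h4

end

end Fermat.Agent.S36.helper6414
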