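/-
S36-TQ-INT (helper8566), final file: the chart stability under the second degeneracy map `β`,
UNCONDITIONALLY and in the consumers' shapes.

* `hauptLinked_t4_of_coe`, `hauptLinked_t9_of_coe` (cast-free: any level `N'` with `4 q ∣ N'`
  resp. `9 q ∣ N'`, any two elements with `q`-expansions `t(z)`, `t(qz)`), `hauptLinked_t4`,
  `hauptLinked_t9` (`α t`, `β t` at the Prelude level `N q`): `t(z)` and `t(qz)` have the same
  centres on every valuation ring in which `2` (resp. `3`) is invertible.  The Kronecker shape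
  of the modular polynomial is supplied by S36-PHISHAPE (helper6414).
* `natCast_inv_mem_of_prime_ne`, `exists_const_two_inv`, `exists_const_three_inv` : the constant
  `2⁻¹` (resp. `3⁻¹`) lies in a valuation ring `O` of residue characteristic `q ≠ 2` (resp. `≠ 3`).
* `HauptLinked.intPair`, `HauptLinked.chartRing_eq`, `HauptLinked.map_chart`,
  `HauptLinked.map_chart01` : the consequences for the landed `helper248.chartRing`.
* `intPair_of_coe`, `chartRing_eq_of_coe` (cast-free, base line `t4C` / `t9C` by cases on `q`),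
  `intPair_t4`, `intPair_t9`, `intPair_aux` : the four integrality facts
  `y ∈ chartRing O {x}`, `x ∈ chartRing O {y}`, `y⁻¹ ∈ chartRing O {x⁻¹}`,
  `x⁻¹ ∈ chartRing O {y⁻¹}` for `x = t(z)`, `y = t(qz)` (= hypothesis `IntPair` of the chart
  fields `map_chart`, `norm_chart`, `one_point` of the datum of (KILL)).
* `map_chart_of_coe`, `map_chart_aux` : `β` maps the chart rings of level `N` into those of
  level `N q` (the field `map_chart` for `β`, verbatim shape).
-/
import Fermat.Agent.S36.helper8566_HauptIntegralInst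
import Fermat.Agent.S36.helper6414_PhiShapeInst
import Fermat.Agent.S36.helper248_RootLatticeChart

set_option autoImplicit false

open Polynomial ModularCurve

namespace Fermat.Agent.S36.helper8566

open Fermat.Agent.S37.helper9536 (t4K t9K t4K_eq_t4C t9K_eq_t9C)
open Fermat.Agent.Lib.helper3874 (t4C t9C)
open Fermat.Agent.S36.helper248 (chartRing mem_chartRing mem_chartRing_of_mem)

noncomputable section

/-! ## The Kronecker shape, from S36-PHISHAPE -/

/-- The shape of helper6414 (with monicity and the outer degree) is `KronShape`. -/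
theorem kronShape_of_kroneckerShape {q : ℕ} {Φ : Polynomial ℤ[X]} (hm : Φ.Monic)
    (hd : Φ.natDegree = q + 1) (h : Fermat.Agent.S36.helper6414.KroneckerShape q Φ) :
    KronShape q Φ :=
  ⟨hm, hd, h.1, h.2.1, h.2.2.1, h.2.2.2⟩

/-- The modular equation of prime level `q`, with `KronShape`, over every commutative ring. -/
theorem exists_kronShape_rel (q : ℕ) [NeZero q] (hq : q.Prime) :
    ∃ Φ : Polynomial ℤ[X], KronShape q Φ ∧ ∀ (R : Type) [CommRing R],
      (Φ.map (evZ (jqModC R))).eval (qExpand R q (jqModC R)) = 0 := by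
  have : Fact q.Prime := ⟨hq⟩
  obtain ⟨Φ, hm, hd, hrel, hshape⟩ := Fermat.Agent.S36.helper6414.exists_primeRel_shape q
  exact ⟨Φ, kronShape_of_kroneckerShape hm hd hshape, fun R _ => (hrel R).1⟩

/-! ## The two linked pairs, unconditionally -/

section Linked

variable (L : Type) [Field L] [Algebra ℚ L] (N q : ℕ) [NeZero N] [NeZero q]

/-- **TQ-INT, level 4, cast-free.**  For a prime `q ≠ 2` and `4 q ∣ N'`, two elements of
`F_{N', L}` with `q`-expansions `t4(z)` and `t4(qz)` have the same centres on every valuation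
ring of the function field in which `2` is invertible. -/
theorem hauptLinked_t4_of_coe (N' : ℕ) [NeZero N'] (hq : q.Prime) (hq2 : q ≠ 2)
    (h4q : 4 * q ∣ N') (t t' : laurentBaseChange L (modularFunctionFieldFull N'))
    (ht : (t : LaurentSeries L) = t4K L)
    (ht' : (t' : LaurentSeries L) = qExpand L q (t4K L)) :
    HauptLinked (2 : laurentBaseChange L (modularFunctionFieldFull N')) t t' := by
  obtain ⟨Φ, hΦ, hrel⟩ := exists_kronShape_rel q hq
  exact hauptLinked_four_of_coe L q N' hq2 h4q hΦ (hrel L) t t' ht ht'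

/-- **TQ-INT, level 9, cast-free.**  For a prime `q ≠ 3` and `9 q ∣ N'`, two elements of
`F_{N', L}` with `q`-expansions `t9(z)` and `t9(qz)` have the same centres on every valuation
ring of the function field in which `3` is invertible. -/
theorem hauptLinked_t9_of_coe (N' : ℕ) [NeZero N'] (hq : q.Prime) (hq3 : q ≠ 3)
    (h9q : 9 * q ∣ N') (t t' : laurentBaseChange L (modularFunctionFieldFull N'))
    (ht : (t : LaurentSeries L) = t9K L)
    (ht' : (t' : LaurentSeries L) = qExpand L q (t9K L)) :
    HauptLinked (3 : laurentBaseChange L (modularFunctionFieldFull N')) t t' := by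
  obtain ⟨Φ, hΦ, hrel⟩ := exists_kronShape_rel q hq
  exact hauptLinked_nine_of_coe L q N' hq3 h9q hΦ (hrel L) t t' ht ht'

/-- **TQ-INT, level 4.**  For a prime `q ≠ 2` and `4 ∣ N`, the functions `t4(z) = α t` and
`t4(qz) = β t` of `F_{N q, L}` have the same centres on every valuation ring of the function
field in which `2` is invertible. -/
theorem hauptLinked_t4 (hq : q.Prime) (hq2 : q ≠ 2) (h4 : 4 ∣ N)
    (t : laurentBaseChange L (modularFunctionFieldFull N))
    (ht : (t : LaurentSeries L) = t4K L) :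
    HauptLinked (2 : laurentBaseChange L (modularFunctionFieldFull (N * q)))
      (heckeAlphaBar L N q t) (heckeBetaBar L N q t) := by
  obtain ⟨Φ, hΦ, hrel⟩ := exists_kronShape_rel q hq
  exact hauptLinked_four_heckeBeta L N q hq2 h4 hΦ (hrel L) t ht

/-- **TQ-INT, level 9.**  For a prime `q ≠ 3` and `9 ∣ N`, the functions `t9(z) = α t` and
`t9(qz) = β t` of `F_{N q, L}` have the same centres on every valuation ring of the function
field in which `3` is invertible. -/
theorem hauptLinked_t9 (hq : q.Prime) (hq3 : q ≠ 3) (h9 : 9 ∣ N)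
    (t : laurentBaseChange L (modularFunctionFieldFull N))
    (ht : (t : LaurentSeries L) = t9K L) :
    HauptLinked (3 : laurentBaseChange L (modularFunctionFieldFull (N * q)))
      (heckeAlphaBar L N q t) (heckeBetaBar L N q t) := by
  obtain ⟨Φ, hΦ, hrel⟩ := exists_kronShape_rel q hq
  exact hauptLinked_nine_heckeBeta L N q hq3 h9 hΦ (hrel L) t ht

end Linked

/-! ## The constants `2⁻¹`, `3⁻¹` -/

section Constants

variable {K : Type*} [Field K]

/-- In a valuation ring in which the prime `q` is not a unit, every other prime is a unit. -/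
theorem natCast_inv_mem_of_prime_ne (O : ValuationSubring K) {q l : ℕ} (hq : q.Prime)
    (hl : l.Prime) (hne : q ≠ l) (hqO : (q : K) ∈ O.nonunits) : ((l : K))⁻¹ ∈ O := by
  have hcop : Nat.Coprime q l := (Nat.coprime_primes hq hl).mpr hne
  have hb : (q : ℤ) * Nat.gcdA q l + (l : ℤ) * Nat.gcdB q l = 1 := by
    have := Nat.gcd_eq_gcd_ab q l
    rw [hcop.gcd_eq_one] at this
    exact_mod_cast this.symm
  have hbK : (q : K) * ((Nat.gcdA q l : ℤ) : K) + (l : K) * ((Nat.gcdB q l : ℤ) : K) = 1 := by
    have := congrArg (Int.cast : ℤ → K) hb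
    push_cast at this
    exact this
  have hqv : O.valuation (q : K) < 1 := hqO
  have hlv : O.valuation (l : K) ≤ 1 := val_natCast_le_one _ l
  have hl1 : O.valuation (l : K) = 1 := by
    refine le_antisymm hlv (not_lt.mp fun hlt => ?_)
    have h1 : O.valuation ((q : K) * ((Nat.gcdA q l : ℤ) : K)) < 1 := by
      rw [map_mul]
      exact mul_lt_one_of_lt_of_le hqv (val_intCast_le_one _ _)
    have h2 : O.valuation ((l : K) * ((Nat.gcdB q l : ℤ) : K)) < 1 := by
      rw [map_mul]
      exact mul_lt_one_of_lt_of_le hlt (val_intCast_le_one _ _)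
    have h3 := O.valuation.map_add_lt h1 h2
    rw [hbK, map_one] at h3
    exact lt_irrefl _ h3
  rw [← ValuationSubring.valuation_le_one_iff, map_inv₀, hl1, inv_one]

variable {F : Type*} [Field F] [Algebra K F]

/-- `2⁻¹` is a constant of `O` when the residue characteristic `q` is odd. -/
theorem exists_const_two_inv (O : ValuationSubring K) {q : ℕ} (hq : q.Prime) (hq2 : q ≠ 2)
    (hqO : (q : K) ∈ O.nonunits) : ∃ a : K, a ∈ O ∧ algebraMap K F a = (2 : F)⁻¹ := by
  refine ⟨((2 : ℕ) : K)⁻¹, natCast_inv_mem_of_prime_ne O hq Nat.prime_two hq2 hqO, ?_⟩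
  rw [map_inv₀, map_natCast, Nat.cast_ofNat]

/-- `3⁻¹` is a constant of `O` when the residue characteristic `q` is not `3`. -/
theorem exists_const_three_inv (O : ValuationSubring K) {q : ℕ} (hq : q.Prime) (hq3 : q ≠ 3)
    (hqO : (q : K) ∈ O.nonunits) : ∃ a : K, a ∈ O ∧ algebraMap K F a = (3 : F)⁻¹ := by
  refine ⟨((3 : ℕ) : K)⁻¹, natCast_inv_mem_of_prime_ne O hq Nat.prime_three hq3 hqO, ?_⟩
  rw [map_inv₀, map_natCast, Nat.cast_ofNat]

/-- The four integrality facts, in `chartRing` form, from a linked pair whose constant is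
invertible in `O`. -/
theorem HauptLinked.intPair {c t t' : F} (h : HauptLinked c t t') (O : ValuationSubring K)
    (hc : ∃ a : K, a ∈ O ∧ algebraMap K F a = c⁻¹) :
    t' ∈ chartRing O ({t} : Set F) ∧ t ∈ chartRing O ({t'} : Set F) ∧
      t'⁻¹ ∈ chartRing O ({t⁻¹} : Set F) ∧ t⁻¹ ∈ chartRing O ({t'⁻¹} : Set F) := by
  obtain ⟨a, haO, hac⟩ := hc
  have hc' : ∃ a : O, algebraMap O F a = c⁻¹ := ⟨⟨a, haO⟩, hac⟩
  refine ⟨?_, ?_, ?_, ?_⟩
  · exact (h.isIntegral_adjoin_iff O hc' t').1.mpr (mem_chartRing_of_mem rfl)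
  · exact (h.isIntegral_adjoin_iff O hc' t).1.mp (mem_chartRing_of_mem rfl)
  · exact (h.isIntegral_adjoin_iff O hc' t'⁻¹).2.1.mpr (mem_chartRing_of_mem rfl)
  · exact (h.isIntegral_adjoin_iff O hc' t⁻¹).2.1.mp (mem_chartRing_of_mem rfl)

/-- The chart rings of two linked coordinates coincide (both charts and the overlap). -/
theorem HauptLinked.chartRing_eq {c t t' : F} (h : HauptLinked c t t') (O : ValuationSubring K)
    (hc : ∃ a : K, a ∈ O ∧ algebraMap K F a = c⁻¹) :
    chartRing O ({t} : Set F) = chartRing O ({t'} : Set F) ∧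
      chartRing O ({t⁻¹} : Set F) = chartRing O ({t'⁻¹} : Set F) ∧
      chartRing O ({t, t⁻¹} : Set F) = chartRing O ({t', t'⁻¹} : Set F) := by
  obtain ⟨a, haO, hac⟩ := hc
  have hc' : ∃ a : O, algebraMap O F a = c⁻¹ := ⟨⟨a, haO⟩, hac⟩
  refine ⟨?_, ?_, ?_⟩
  · ext x; exact (h.isIntegral_adjoin_iff O hc' x).1
  · ext x; exact (h.isIntegral_adjoin_iff O hc' x).2.1
  · ext x; exact (h.isIntegral_adjoin_iff O hc' x).2.2

/-- **`map_chart` for the second degeneracy map**, in the shape of the datum of (KILL)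
(`chart O x i = chartRing O (if i = 0 then {x} else {x⁻¹})`): if `φ x'` and `ψ x'` are linked,
`ψ` maps the charts of the line `x'` into the charts of the line `φ x'`. -/
theorem HauptLinked.map_chart {F' : Type*} [Field F'] [Algebra K F'] (O : ValuationSubring K)
    (φ ψ : F' →ₐ[K] F) {c : F} {x' : F'} (h : HauptLinked c (φ x') (ψ x'))
    (hc : ∃ a : K, a ∈ O ∧ algebraMap K F a = c⁻¹) :
    ∀ (i : Fin 2) (b : F'), b ∈ chartRing O (if i = 0 then ({x'} : Set F') else {x'⁻¹}) →
      ψ b ∈ chartRing O (if i = 0 then ({φ x'} : Set F) else {(φ x')⁻¹}) := by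
  obtain ⟨a, haO, hac⟩ := hc
  have hc' : ∃ a : O, algebraMap O F a = c⁻¹ := ⟨⟨a, haO⟩, hac⟩
  let φO : F' →ₐ[O] F := { (φ : F' →+* F) with commutes' := fun a => φ.commutes (a : K) }
  let ψO : F' →ₐ[O] F := { (ψ : F' →+* F) with commutes' := fun a => ψ.commutes (a : K) }
  have key := fun b => HauptLinked.isIntegral_adjoin_map (x' := x') O φO ψO h hc' b
  intro i b hb
  by_cases hi : i = 0
  · rw [if_pos hi] at hb ⊢
    exact (key b).1 hb
  · rw [if_neg hi] at hb ⊢
    exact (key b).2.1 hb

/-- The same on the overlap chart. -/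
theorem HauptLinked.map_chart01 {F' : Type*} [Field F'] [Algebra K F'] (O : ValuationSubring K)
    (φ ψ : F' →ₐ[K] F) {c : F} {x' : F'} (h : HauptLinked c (φ x') (ψ x'))
    (hc : ∃ a : K, a ∈ O ∧ algebraMap K F a = c⁻¹) :
    ∀ b : F', b ∈ chartRing O ({x', x'⁻¹} : Set F') →
      ψ b ∈ chartRing O ({φ x', (φ x')⁻¹} : Set F) := by
  obtain ⟨a, haO, hac⟩ := hc
  have hc' : ∃ a : O, algebraMap O F a = c⁻¹ := ⟨⟨a, haO⟩, hac⟩
  let φO : F' →ₐ[O] F := { (φ : F' →+* F) with commutes' := fun a => φ.commutes (a : K) }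
  let ψO : F' →ₐ[O] F := { (ψ : F' →+* F) with commutes' := fun a => ψ.commutes (a : K) }
  have key := fun b => HauptLinked.isIntegral_adjoin_map (x' := x') O φO ψO h hc' b
  intro b hb
  exact (key b).2.2 hb

end Constants

/-! ## The consumers' shapes -/

section Charts

variable (K : Type) [Field K] [Algebra ℚ K] (O : ValuationSubring K) (N q : ℕ) [NeZero N]
  [NeZero q]

/-- **TQ-INT for `t4`, `chartRing` form** (`q` odd, `4 ∣ N`): `β x'` is integral over
`O[α x']`, `α x'` over `O[β x']`, and the same for the inverses. -/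
theorem intPair_t4 (hq : q.Prime) (hq2 : q ≠ 2) (hqO : (q : K) ∈ O.nonunits) (h4 : 4 ∣ N)
    (x' : laurentBaseChange K (modularFunctionFieldFull N))
    (hx' : (x' : LaurentSeries K) = t4K K) :
    heckeBetaBar K N q x' ∈ chartRing O
        ({heckeAlphaBar K N q x'} : Set (laurentBaseChange K (modularFunctionFieldFull (N * q)))) ∧
      heckeAlphaBar K N q x' ∈ chartRing O
        ({heckeBetaBar K N q x'} : Set (laurentBaseChange K (modularFunctionFieldFull (N * q)))) ∧
      (heckeBetaBar K N q x')⁻¹ ∈ chartRing O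
        ({(heckeAlphaBar K N q x')⁻¹} :
          Set (laurentBaseChange K (modularFunctionFieldFull (N * q)))) ∧
      (heckeAlphaBar K N q x')⁻¹ ∈ chartRing O
        ({(heckeBetaBar K N q x')⁻¹} :
          Set (laurentBaseChange K (modularFunctionFieldFull (N * q)))) :=
  (hauptLinked_t4 K N q hq hq2 h4 x' hx').intPair O (exists_const_two_inv O hq hq2 hqO)

/-- **TQ-INT for `t9`, `chartRing` form** (`q ≠ 3`, `9 ∣ N`). -/
theorem intPair_t9 (hq : q.Prime) (hq3 : q ≠ 3) (hqO : (q : K) ∈ O.nonunits) (h9 : 9 ∣ N)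
    (x' : laurentBaseChange K (modularFunctionFieldFull N))
    (hx' : (x' : LaurentSeries K) = t9K K) :
    heckeBetaBar K N q x' ∈ chartRing O
        ({heckeAlphaBar K N q x'} : Set (laurentBaseChange K (modularFunctionFieldFull (N * q)))) ∧
      heckeAlphaBar K N q x' ∈ chartRing O
        ({heckeBetaBar K N q x'} : Set (laurentBaseChange K (modularFunctionFieldFull (N * q)))) ∧
      (heckeBetaBar K N q x')⁻¹ ∈ chartRing O
        ({(heckeAlphaBar K N q x')⁻¹} :
          Set (laurentBaseChange K (modularFunctionFieldFull (N * q)))) ∧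
      (heckeAlphaBar K N q x')⁻¹ ∈ chartRing O
        ({(heckeBetaBar K N q x')⁻¹} :
          Set (laurentBaseChange K (modularFunctionFieldFull (N * q)))) :=
  (hauptLinked_t9 K N q hq hq3 h9 x' hx').intPair O (exists_const_three_inv O hq hq3 hqO)

/-- **TQ-INT at the auxiliary level** (`4 ∣ N`, `x' = t4` for `q` odd; `9 ∣ N`, `x' = t9` for
`q = 2`), in one statement. -/
theorem intPair_aux (hq : q.Prime) (hqO : (q : K) ∈ O.nonunits)
    (h4 : q ≠ 2 → 4 ∣ N) (h9 : q = 2 → 9 ∣ N)
    (x' : laurentBaseChange K (modularFunctionFieldFull N))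
    (hx4 : q ≠ 2 → (x' : LaurentSeries K) = t4K K)
    (hx9 : q = 2 → (x' : LaurentSeries K) = t9K K) :
    heckeBetaBar K N q x' ∈ chartRing O
        ({heckeAlphaBar K N q x'} : Set (laurentBaseChange K (modularFunctionFieldFull (N * q)))) ∧
      heckeAlphaBar K N q x' ∈ chartRing O
        ({heckeBetaBar K N q x'} : Set (laurentBaseChange K (modularFunctionFieldFull (N * q)))) ∧
      (heckeBetaBar K N q x')⁻¹ ∈ chartRing O
        ({(heckeAlphaBar K N q x')⁻¹} :
          Set (laurentBaseChange K (modularFunctionFieldFull (N * q)))) ∧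
      (heckeAlphaBar K N q x')⁻¹ ∈ chartRing O
        ({(heckeBetaBar K N q x')⁻¹} :
          Set (laurentBaseChange K (modularFunctionFieldFull (N * q)))) := by
  by_cases h2 : q = 2
  · exact intPair_t9 K O N q hq (by omega) hqO (h9 h2) x' (hx9 h2)
  · exact intPair_t4 K O N q hq h2 hqO (h4 h2) x' (hx4 h2)

/-- **`degβ.map_chart` at the auxiliary level**, verbatim shape
(`chart O x i = chartRing O (if i = 0 then {x} else {x⁻¹})`, `x = α x'`): `β` maps the chart
rings of level `N` into the chart rings of level `N q`. -/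
theorem map_chart_aux (hq : q.Prime) (hqO : (q : K) ∈ O.nonunits)
    (h4 : q ≠ 2 → 4 ∣ N) (h9 : q = 2 → 9 ∣ N)
    (x' : laurentBaseChange K (modularFunctionFieldFull N))
    (hx4 : q ≠ 2 → (x' : LaurentSeries K) = t4K K)
    (hx9 : q = 2 → (x' : LaurentSeries K) = t9K K) :
    ∀ (i : Fin 2) (b : laurentBaseChange K (modularFunctionFieldFull N)),
      b ∈ chartRing O (if i = 0 then
          ({x'} : Set (laurentBaseChange K (modularFunctionFieldFull N))) else {x'⁻¹}) →
        heckeBetaBar K N q b ∈ chartRing O (if i = 0 then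
          ({heckeAlphaBar K N q x'} :
            Set (laurentBaseChange K (modularFunctionFieldFull (N * q))))
          else {(heckeAlphaBar K N q x')⁻¹}) := by
  by_cases h2 : q = 2
  · exact (hauptLinked_t9 K N q hq (by omega) (h9 h2) x' (hx9 h2)).map_chart O
      (heckeAlphaBar K N q) (heckeBetaBar K N q) (exists_const_three_inv O hq (by omega) hqO)
  · exact (hauptLinked_t4 K N q hq h2 (h4 h2) x' (hx4 h2)).map_chart O
      (heckeAlphaBar K N q) (heckeBetaBar K N q) (exists_const_two_inv O hq h2 hqO)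

/-- **TQ-INT, cast-free form on the base line of record** (`t4C` for `q` odd, `t9C` for `q = 2`):
for `x, y ∈ F_{N', K}` with `x = t(z)` and `y = t(qz)` on `q`-expansions, `x` and `y` have the
same centres on every valuation ring of `F_{N', K}` containing `O`; hence the four integrality
facts. -/
theorem intPair_of_coe (N' : ℕ) [NeZero N'] (hq : q.Prime) (hqO : (q : K) ∈ O.nonunits)
    (h4 : q ≠ 2 → 4 * q ∣ N') (h9 : q = 2 → 9 * q ∣ N')
    (x y : laurentBaseChange K (modularFunctionFieldFull N'))
    (hx4 : q ≠ 2 → (x : LaurentSeries K) = t4C K) (hx9 : q = 2 → (x : LaurentSeries K) = t9C K)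
    (hy : (y : LaurentSeries K) = qExpand K q (x : LaurentSeries K)) :
    y ∈ chartRing O ({x} : Set (laurentBaseChange K (modularFunctionFieldFull N'))) ∧
      x ∈ chartRing O ({y} : Set (laurentBaseChange K (modularFunctionFieldFull N'))) ∧
      y⁻¹ ∈ chartRing O ({x⁻¹} : Set (laurentBaseChange K (modularFunctionFieldFull N'))) ∧
      x⁻¹ ∈ chartRing O ({y⁻¹} : Set (laurentBaseChange K (modularFunctionFieldFull N'))) := by
  have : CharZero K := algebraRat.charZero K
  by_cases h2 : q = 2
  · have hx : (x : LaurentSeries K) = t9K K := (hx9 h2).trans (t9K_eq_t9C three_ne_zero).symm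
    exact (hauptLinked_t9_of_coe K q N' hq (by omega) (h9 h2) x y hx (by rw [hy, hx])).intPair O
      (exists_const_three_inv O hq (by omega) hqO)
  · have hx : (x : LaurentSeries K) = t4K K := (hx4 h2).trans (t4K_eq_t4C two_ne_zero).symm
    exact (hauptLinked_t4_of_coe K q N' hq h2 (h4 h2) x y hx (by rw [hy, hx])).intPair O
      (exists_const_two_inv O hq h2 hqO)

/-- **TQ-INT, chart-ring equalities** (cast-free): the integral closures of `O[t(z)]` and
`O[t(qz)]` in `F_{N', K}` coincide, and so do those of `O[1/t(z)]`, `O[1/t(qz)]` and the overlap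
charts. -/
theorem chartRing_eq_of_coe (N' : ℕ) [NeZero N'] (hq : q.Prime) (hqO : (q : K) ∈ O.nonunits)
    (h4 : q ≠ 2 → 4 * q ∣ N') (h9 : q = 2 → 9 * q ∣ N')
    (x y : laurentBaseChange K (modularFunctionFieldFull N'))
    (hx4 : q ≠ 2 → (x : LaurentSeries K) = t4C K) (hx9 : q = 2 → (x : LaurentSeries K) = t9C K)
    (hy : (y : LaurentSeries K) = qExpand K q (x : LaurentSeries K)) :
    chartRing O ({x} : Set (laurentBaseChange K (modularFunctionFieldFull N'))) =
        chartRing O ({y} : Set (laurentBaseChange K (modularFunctionFieldFull N'))) ∧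
      chartRing O ({x⁻¹} : Set (laurentBaseChange K (modularFunctionFieldFull N'))) =
        chartRing O ({y⁻¹} : Set (laurentBaseChange K (modularFunctionFieldFull N'))) ∧
      chartRing O ({x, x⁻¹} : Set (laurentBaseChange K (modularFunctionFieldFull N'))) =
        chartRing O ({y, y⁻¹} : Set (laurentBaseChange K (modularFunctionFieldFull N'))) := by
  have : CharZero K := algebraRat.charZero K
  by_cases h2 : q = 2
  · have hx : (x : LaurentSeries K) = t9K K := (hx9 h2).trans (t9K_eq_t9C three_ne_zero).symm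
    exact (hauptLinked_t9_of_coe K q N' hq (by omega) (h9 h2) x y hx
      (by rw [hy, hx])).chartRing_eq O (exists_const_three_inv O hq (by omega) hqO)
  · have hx : (x : LaurentSeries K) = t4K K := (hx4 h2).trans (t4K_eq_t4C two_ne_zero).symm
    exact (hauptLinked_t4_of_coe K q N' hq h2 (h4 h2) x y hx
      (by rw [hy, hx])).chartRing_eq O (exists_const_two_inv O hq h2 hqO)

/-- **`degβ.map_chart` on the base line of record**, verbatim shape
(`chart O x i = chartRing O (if i = 0 then {x} else {x⁻¹})`): for `x' ∈ F_{N, K}` the base line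
(`t4C` for `q` odd, `t9C` for `q = 2`) and `x ∈ F_{N q, K}` the same function one level up,
`β` maps the charts of `x'` into the charts of `x`. -/
theorem map_chart_of_coe (hq : q.Prime) (hqO : (q : K) ∈ O.nonunits)
    (h4 : q ≠ 2 → 4 ∣ N) (h9 : q = 2 → 9 ∣ N)
    (x : laurentBaseChange K (modularFunctionFieldFull (N * q)))
    (x' : laurentBaseChange K (modularFunctionFieldFull N))
    (hx4 : q ≠ 2 → (x' : LaurentSeries K) = t4C K)
    (hx9 : q = 2 → (x' : LaurentSeries K) = t9C K)
    (hx : (x : LaurentSeries K) = (x' : LaurentSeries K)) :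
    ∀ (i : Fin 2) (b : laurentBaseChange K (modularFunctionFieldFull N)),
      b ∈ chartRing O (if i = 0 then
          ({x'} : Set (laurentBaseChange K (modularFunctionFieldFull N))) else {x'⁻¹}) →
        heckeBetaBar K N q b ∈ chartRing O (if i = 0 then
          ({x} : Set (laurentBaseChange K (modularFunctionFieldFull (N * q))))
          else {x⁻¹}) := by
  have : CharZero K := algebraRat.charZero K
  have hxα : heckeAlphaBar K N q x' = x := by
    apply Subtype.ext
    rw [coe_heckeAlphaBar, hx]
  rw [← hxα]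
  exact map_chart_aux K O N q hq hqO h4 h9 x'
    (fun h => (hx4 h).trans (t4K_eq_t4C two_ne_zero).symm)
    (fun h => (hx9 h).trans (t9K_eq_t9C three_ne_zero).symm)

end Charts

end

end Fermat.Agent.S36.helper8566
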