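import Mathlib

/-!
# S36 — "an integral element divides its norm", in `Subring` vocabulary  (helper9392)

Generic supplier of the hypothesis `hdvd` of `helper9392.one_point_field` (the proposed field
`norm_dvd` of `helper36.DegData`): for a finite field extension `L / E`, a subring `B'` of `E`
integrally closed in `E`, a subring `B` of `L` containing the image of `B'`, and `b ∈ B` integral
over `B'`, the norm `N_{L/E} b` is `b * c` with `c ∈ B`.  No separability, no fraction-field
hypothesis on `B'`, no finiteness of `B` over `B'`.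

Proof: the minimal polynomial `m` of `b` over `E` divides a monic polynomial over `B'`, so its
coefficients are integral over `B'` (`Polynomial.isIntegral_coeff_of_dvd`), hence in `B'`;
`N b = ((-1) ^ deg m * m(0)) ^ [L : E(b)]` (`Algebra.norm_eq_norm_adjoin`) and
`m(0) = - b * (m / X)(b)`.

* `exists_mul_eq_algebraMap_norm` : for `[Algebra E L]`;
* `exists_mul_eq_norm_along` : along a ring homomorphism `ψ : E →+* L`
  (the Prelude `algebraAlong ψ = ψ.toAlgebra` convention used by `normAlong`).
-/

set_option autoImplicit false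

namespace Fermat.Agent.S36.helper9392

open Polynomial

/-- evaluation of a polynomial with coefficients mapping into a subring at a point of the
subring stays in the subring. -/
theorem aeval_mem_subring {E L : Type*} [Field E] [Field L] [Algebra E L] (B : Subring L)
    {b : L} (hb : b ∈ B) (p : E[X]) (hp : ∀ i, algebraMap E L (p.coeff i) ∈ B) :
    aeval b p ∈ B := by
  rw [aeval_eq_sum_range]
  refine Subring.sum_mem B fun i _ => ?_
  rw [Algebra.smul_def]
  exact B.mul_mem (hp i) (B.pow_mem hb i)

/-- **An integral element divides its norm.** -/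
theorem exists_mul_eq_algebraMap_norm {E L : Type*} [Field E] [Field L] [Algebra E L]
    [FiniteDimensional E L] (B' : Subring E) (B : Subring L)
    (hB' : ∀ y : E, IsIntegral B' y → y ∈ B')
    (hmap : ∀ a : E, a ∈ B' → algebraMap E L a ∈ B) {b : L} (hb : b ∈ B)
    (hint : IsIntegral B' b) :
    ∃ c : L, c ∈ B ∧ b * c = algebraMap E L (Algebra.norm E b) := by
  classical
  have hbE : IsIntegral E b := IsIntegral.of_finite E b
  -- the minimal polynomial has coefficients in `B'`
  obtain ⟨p, hpm, hpb⟩ := hint
  have hpb' : aeval b (p.map (algebraMap B' E)) = 0 := by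
    rw [aeval_map_algebraMap]
    exact hpb
  have hdvd : minpoly E b ∣ p.map (algebraMap B' E) := minpoly.dvd E b hpb'
  have hcoef : ∀ i, (minpoly E b).coeff i ∈ B' := fun i =>
    hB' _ (isIntegral_coeff_of_dvd p (minpoly E b) hpm (minpoly.monic hbE) hdvd i)
  -- the cofactor
  set m := minpoly E b with hm
  have hm0 : aeval b m = 0 := minpoly.aeval E b
  have hsplit : m = m.divX * X + C (m.coeff 0) := (divX_mul_X_add m).symm
  have hr : aeval b m.divX ∈ B :=
    aeval_mem_subring B hb m.divX fun i => by
      rw [coeff_divX]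
      exact hmap _ (hcoef _)
  have ha0 : algebraMap E L (m.coeff 0) = - (b * aeval b m.divX) := by
    have h1 : aeval b m = aeval b m.divX * b + algebraMap E L (m.coeff 0) := by
      conv_lhs => rw [hsplit]
      simp [aeval_def]
    rw [hm0] at h1
    have h2 : algebraMap E L (m.coeff 0) = -(aeval b m.divX * b) := by
      rw [eq_neg_iff_add_eq_zero, add_comm]
      exact h1.symm
    rw [h2, mul_comm]
  -- the norm
  have hnorm : Algebra.norm E b =
      ((-1) ^ m.natDegree * m.coeff 0) ^ Module.finrank (IntermediateField.adjoin E {b}) L := by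
    rw [Algebra.norm_eq_norm_adjoin E b]
    congr 1
    have h := Algebra.PowerBasis.norm_gen_eq_coeff_zero_minpoly
      (IntermediateField.adjoin.powerBasis hbE)
    rw [IntermediateField.adjoin.powerBasis_gen, IntermediateField.minpoly_gen,
      IntermediateField.adjoin.powerBasis_dim] at h
    exact h
  have hk : 0 < Module.finrank (IntermediateField.adjoin E {b}) L := Module.finrank_pos
  obtain ⟨k, hk'⟩ : ∃ k, Module.finrank (IntermediateField.adjoin E {b}) L = k + 1 :=
    ⟨_, (Nat.succ_pred_eq_of_pos hk).symm⟩
  refine ⟨b ^ k * ((-1) ^ (m.natDegree + 1) * aeval b m.divX) ^ (k + 1), ?_, ?_⟩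
  · refine B.mul_mem (B.pow_mem hb k) (B.pow_mem (B.mul_mem ?_ hr) _)
    exact B.pow_mem (B.neg_mem B.one_mem) _
  · rw [hnorm, hk', map_pow, map_mul, map_pow, map_neg, map_one, ha0]
    ring

/-- The same along a ring homomorphism `ψ : E →+* L` (the convention of the Prelude
`AlgebraicCurve.algebraAlong` / `normAlong`): `b` integral over `ψ(B')` in the form of a monic
polynomial with coefficients in `B'`. -/
theorem exists_mul_eq_norm_along {E L : Type*} [Field E] [Field L] (ψ : E →+* L)
    (hfin : letI := ψ.toAlgebra; Module.Finite E L) (B' : Subring E) (B : Subring L)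
    (hB' : ∀ y : E, IsIntegral B' y → y ∈ B')
    (hmap : ∀ a : E, a ∈ B' → ψ a ∈ B) {b : L} (hb : b ∈ B)
    (hint : ∃ p : E[X], p.Monic ∧ (∀ i, p.coeff i ∈ B') ∧ p.eval₂ ψ b = 0) :
    ∃ c : L, c ∈ B ∧ b * c = ψ (letI := ψ.toAlgebra; Algebra.norm E b) := by
  let := ψ.toAlgebra
  have : Module.Finite E L := hfin
  obtain ⟨p, hpm, hpc, hpb⟩ := hint
  have hint' : IsIntegral B' b := by
    have hsub : (↑p.coeffs : Set E) ⊆ B' := by
      intro a ha
      obtain ⟨i, -, rfl⟩ := Polynomial.mem_coeffs_iff.mp (Finset.mem_coe.mp ha)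
      exact hpc i
    refine ⟨p.toSubring B' hsub, (monic_toSubring p B' hsub).mpr hpm, ?_⟩
    have h1 : (p.toSubring B' hsub).map (Subring.subtype B') = p := map_toSubring p B' hsub
    have h2 : (algebraMap B' L) = ψ.comp (Subring.subtype B') := rfl
    rw [h2, ← eval₂_map, h1]
    exact hpb
  exact exists_mul_eq_algebraMap_norm B' B hB' hmap hb hint'

end Fermat.Agent.S36.helper9392
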