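import Mathlib
import Fermat.Agent.S36.helper9392_NormDvd
import Fermat.Agent.S36.helper248_RootLatticeChart

/-!
# S36 — "`b ∣ ψ (N b)` in the chart ring", for the chart rings `helper248.chartRing`  (helper9392)

The hypothesis `hdvd` of `helper9392.one_point_field` (= the field `DegData.one_point` of
`helper36`) for chart rings: if `ψ : F' → F` is a finite extension of fields, `B' = chartRing A0 s'`
and `B = chartRing A0 s` (integral closures of `A0[s']`, `A0[s]`), `ψ` maps `B'` into `B`, the
constants of `A0` come from `B'` and every generator `y ∈ s` is integral over `ψ(B')`, then every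
`b ∈ B` divides `ψ (N_{F/F'} b)` in `B`.

* `isIntegral_of_mem_chartRing` : integrality over a subring `R ⊆ F` containing the constants
  over which the generators are integral (transitivity);
* `exists_monic_of_isIntegral_map` : `IsIntegral (B'.map ψ) b` in monic-polynomial form;
* `chartRing_norm_dvd` : the divisibility.
-/

set_option autoImplicit false

namespace Fermat.Agent.S36.helper9392

open Polynomial
open Fermat.Agent.S36.helper248 (chartRing)

section

variable {A0 F : Type*} [CommRing A0] [Field F] [Algebra A0 F]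

/-- An element of the chart ring `chartRing A0 s` is integral over every subring `R` of `F`
which contains the constants and over which the generators `s` are integral. -/
theorem isIntegral_of_mem_chartRing (s : Set F) (R : Subring F)
    (hA : ∀ a : A0, algebraMap A0 F a ∈ R) (hs : ∀ y ∈ s, IsIntegral R y)
    {b : F} (hb : b ∈ chartRing A0 s) : IsIntegral R b := by
  have hb' : IsIntegral (Algebra.adjoin A0 s) b := hb
  -- the integral closure of `R` in `F`, as an `A0`-subalgebra
  let W : Subalgebra A0 F :=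
    { (integralClosure R F).toSubring with
      algebraMap_mem' := fun a => by
        show IsIntegral R (algebraMap A0 F a)
        have : algebraMap A0 F a = algebraMap R F ⟨_, hA a⟩ := rfl
        rw [this]
        exact isIntegral_algebraMap }
  have hle : Algebra.adjoin A0 s ≤ W := Algebra.adjoin_le hs
  let f : ↥(Algebra.adjoin A0 s) →+* ↥(integralClosure R F) :=
    { toFun := fun y => ⟨y.1, hle y.2⟩
      map_one' := rfl
      map_mul' := fun _ _ => rfl
      map_zero' := rfl
      map_add' := fun _ _ => rfl }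
  obtain ⟨p, hp, hpb⟩ := hb'
  have hint : IsIntegral ↥(integralClosure R F) b := by
    refine ⟨p.map f, hp.map f, ?_⟩
    rw [eval₂_map]
    have hf : (algebraMap ↥(integralClosure R F) F).comp f
        = algebraMap ↥(Algebra.adjoin A0 s) F := by
      ext y; rfl
    rw [hf]
    exact hpb
  exact isIntegral_trans b hint

end

section

variable {F' F : Type*} [Field F'] [Field F]

/-- Integrality over the image `ψ(B')`, in monic-polynomial form. -/
theorem exists_monic_of_isIntegral_map (ψ : F' →+* F) (B' : Subring F') {b : F}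
    (hb : IsIntegral (B'.map ψ) b) :
    ∃ p : F'[X], p.Monic ∧ (∀ i, p.coeff i ∈ B') ∧ p.eval₂ ψ b = 0 := by
  obtain ⟨P, hP, hPb⟩ := hb
  let e : ↥B' ≃+* ↥(B'.map ψ) := B'.equivMapOfInjective ψ ψ.injective
  let g : ↥(B'.map ψ) →+* F' := B'.subtype.comp e.symm.toRingHom
  refine ⟨P.map g, hP.map g, fun i => ?_, ?_⟩
  · rw [coeff_map]
    exact (e.symm (P.coeff i)).2
  · rw [eval₂_map]
    have hg : ψ.comp g = algebraMap ↥(B'.map ψ) F := by
      ext y
      show ψ ((e.symm y : ↥B') : F') = (y : F)
      have h1 : ((e (e.symm y) : ↥(B'.map ψ)) : F) = ψ ((e.symm y : ↥B') : F') :=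
        Subring.coe_equivMapOfInjective_apply B' ψ ψ.injective (e.symm y)
      rw [← h1, RingEquiv.apply_symm_apply]
    rw [hg]
    exact hPb

variable {A0 : Type*} [CommRing A0] [Algebra A0 F'] [Algebra A0 F]

/-- **`b ∣ ψ (N b)` in the chart ring.**  `hconst` : `ψ` is `A0`-linear on constants;
`hmap` : `ψ` maps the lower chart into the upper chart; `hs` : the generators of the upper chart
are integral over the image of the lower chart. -/
theorem chartRing_norm_dvd (ψ : F' →+* F) (hfin : letI := ψ.toAlgebra; Module.Finite F' F)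
    (s' : Set F') (s : Set F)
    (hconst : ∀ a : A0, ψ (algebraMap A0 F' a) = algebraMap A0 F a)
    (hmap : ∀ a : F', a ∈ chartRing A0 s' → ψ a ∈ chartRing A0 s)
    (hs : ∀ y ∈ s, IsIntegral ((chartRing A0 s').map ψ) y)
    (b : F) (hb : b ∈ chartRing A0 s) :
    ∃ c : F, c ∈ chartRing A0 s ∧ b * c = ψ (letI := ψ.toAlgebra; Algebra.norm F' b) := by
  have hA : ∀ a : A0, algebraMap A0 F a ∈ (chartRing A0 s').map ψ := fun a =>
    ⟨algebraMap A0 F' a, helper248.algebraMap_mem_chartRing s' a, hconst a⟩
  have hint : IsIntegral ((chartRing A0 s').map ψ) b :=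
    isIntegral_of_mem_chartRing s _ hA hs hb
  exact exists_mul_eq_norm_along ψ hfin (chartRing A0 s') (chartRing A0 s)
    (helper248.intClosedIn_chartRing s') hmap hb
    (exists_monic_of_isIntegral_map ψ _ hint)

/-- `ψ` maps the chart ring `chartRing A0 s'` into `chartRing A0 (ψ '' s')`. -/
theorem map_mem_chartRing_image (ψ : F' →+* F)
    (hconst : ∀ a : A0, ψ (algebraMap A0 F' a) = algebraMap A0 F a) (s' : Set F')
    {b : F'} (hb : b ∈ chartRing A0 s') : ψ b ∈ chartRing A0 (ψ '' s') := by
  have hb' : IsIntegral (Algebra.adjoin A0 s') b := hb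
  -- `ψ` as an `A0`-algebra hom
  let ψa : F' →ₐ[A0] F := { ψ with commutes' := hconst }
  have hle : ∀ y : ↥(Algebra.adjoin A0 s'), ψ (y : F') ∈ Algebra.adjoin A0 (ψ '' s') := by
    intro y
    have h1 : ψa (y : F') ∈ (Algebra.adjoin A0 s').map ψa := ⟨y, y.2, rfl⟩
    rw [AlgHom.map_adjoin] at h1
    exact h1
  let f : ↥(Algebra.adjoin A0 s') →+* ↥(Algebra.adjoin A0 (ψ '' s')) :=
    { toFun := fun y => ⟨ψ (y : F'), hle y⟩
      map_one' := Subtype.ext (map_one ψ)
      map_mul' := fun _ _ => Subtype.ext (map_mul ψ _ _)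
      map_zero' := Subtype.ext (map_zero ψ)
      map_add' := fun _ _ => Subtype.ext (map_add ψ _ _) }
  obtain ⟨p, hp, hpb⟩ := hb'
  show IsIntegral (Algebra.adjoin A0 (ψ '' s')) (ψ b)
  refine ⟨p.map f, hp.map f, ?_⟩
  rw [eval₂_map]
  have hf : (algebraMap ↥(Algebra.adjoin A0 (ψ '' s')) F).comp f
      = ψ.comp (algebraMap ↥(Algebra.adjoin A0 s') F') := by
    ext y; rfl
  rw [hf, ← hom_eval₂, hpb, map_zero]

/-- `chartRing A0 s₁ ≤ chartRing A0 s₂` as soon as `s₁ ⊆ chartRing A0 s₂` (the integral closure
is idempotent). -/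
theorem chartRing_le_of_subset_chartRing {s₁ s₂ : Set F} (h : ∀ y ∈ s₁, y ∈ chartRing A0 s₂)
    {b : F} (hb : b ∈ chartRing A0 s₁) : b ∈ chartRing A0 s₂ :=
  helper248.intClosedIn_chartRing s₂ b
    (isIntegral_of_mem_chartRing s₁ (chartRing A0 s₂)
      (fun a => helper248.algebraMap_mem_chartRing s₂ a)
      (fun y hy => by
        have : y = algebraMap ↥(chartRing A0 s₂) F ⟨y, h y hy⟩ := rfl
        rw [this]
        exact isIntegral_algebraMap) hb)

/-- **`map_chart`** from integrality of the images of the generators. -/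
theorem map_chart_of_generators (ψ : F' →+* F)
    (hconst : ∀ a : A0, ψ (algebraMap A0 F' a) = algebraMap A0 F a) (s' : Set F') (s : Set F)
    (hs' : ∀ y ∈ s', ψ y ∈ chartRing A0 s) (b : F') (hb : b ∈ chartRing A0 s') :
    ψ b ∈ chartRing A0 s :=
  chartRing_le_of_subset_chartRing
    (fun z hz => by obtain ⟨y, hy, rfl⟩ := hz; exact hs' y hy)
    (map_mem_chartRing_image ψ hconst s' hb)

/-- the generators `s` of the upper chart are integral over the image of the lower chart as soon
as they lie in `chartRing A0 (ψ '' s')`. -/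
theorem isIntegral_map_chartRing_of_mem (ψ : F' →+* F)
    (hconst : ∀ a : A0, ψ (algebraMap A0 F' a) = algebraMap A0 F a) (s' : Set F') {y : F}
    (hy : y ∈ chartRing A0 (ψ '' s')) : IsIntegral ((chartRing A0 s').map ψ) y := by
  refine isIntegral_of_mem_chartRing (ψ '' s') _ (fun a => ?_) (fun z hz => ?_) hy
  · exact ⟨algebraMap A0 F' a, helper248.algebraMap_mem_chartRing s' a, hconst a⟩
  · obtain ⟨w, hw, rfl⟩ := hz
    have hmem : ψ w ∈ (chartRing A0 s').map ψ :=
      ⟨w, helper248.mem_chartRing_of_mem hw, rfl⟩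
    have : ψ w = algebraMap ↥((chartRing A0 s').map ψ) F ⟨ψ w, hmem⟩ := rfl
    rw [this]
    exact isIntegral_algebraMap

/-- **`norm_chart`** : the norm of an element of the upper chart lies in the lower chart, as soon
as the generators of the upper chart lie in `chartRing A0 (ψ '' s')`. -/
theorem norm_chart_of_generators (ψ : F' →+* F)
    (hconst : ∀ a : A0, ψ (algebraMap A0 F' a) = algebraMap A0 F a) (s' : Set F') (s : Set F)
    (hs : ∀ y ∈ s, y ∈ chartRing A0 (ψ '' s')) (b : F) (hb : b ∈ chartRing A0 s) :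
    (letI := ψ.toAlgebra; Algebra.norm F' b) ∈ chartRing A0 s' := by
  have hA : ∀ a : A0, algebraMap A0 F a ∈ (chartRing A0 s').map ψ := fun a =>
    ⟨algebraMap A0 F' a, helper248.algebraMap_mem_chartRing s' a, hconst a⟩
  have hint : IsIntegral ((chartRing A0 s').map ψ) b :=
    isIntegral_of_mem_chartRing s _ hA
      (fun y hy => isIntegral_map_chartRing_of_mem ψ hconst s' (hs y hy)) hb
  obtain ⟨p, hpm, hpc, hpb⟩ := exists_monic_of_isIntegral_map ψ _ hint
  let _ := ψ.toAlgebra
  have hint' : IsIntegral (chartRing A0 s') b := by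
    have hsub : (↑p.coeffs : Set F') ⊆ chartRing A0 s' := by
      intro a ha
      obtain ⟨i, -, rfl⟩ := Polynomial.mem_coeffs_iff.mp (Finset.mem_coe.mp ha)
      exact hpc i
    refine ⟨p.toSubring (chartRing A0 s') hsub,
      (monic_toSubring p (chartRing A0 s') hsub).mpr hpm, ?_⟩
    have h1 : (p.toSubring (chartRing A0 s') hsub).map (Subring.subtype (chartRing A0 s')) = p :=
      map_toSubring p (chartRing A0 s') hsub
    have h2 : (algebraMap (chartRing A0 s') F) = ψ.comp (Subring.subtype (chartRing A0 s')) := rfl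
    rw [h2, ← eval₂_map, h1]
    exact hpb
  exact helper248.intClosedIn_chartRing s' _ (Algebra.isIntegral_norm F' hint')

/-- **`b ∣ ψ (N b)` in the chart ring**, generator form of `chartRing_norm_dvd`. -/
theorem chartRing_norm_dvd_of_generators (ψ : F' →+* F)
    (hfin : letI := ψ.toAlgebra; Module.Finite F' F) (s' : Set F') (s : Set F)
    (hconst : ∀ a : A0, ψ (algebraMap A0 F' a) = algebraMap A0 F a)
    (hs' : ∀ y ∈ s', ψ y ∈ chartRing A0 s)
    (hs : ∀ y ∈ s, y ∈ chartRing A0 (ψ '' s'))
    (b : F) (hb : b ∈ chartRing A0 s) :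
    ∃ c : F, c ∈ chartRing A0 s ∧ b * c = ψ (letI := ψ.toAlgebra; Algebra.norm F' b) :=
  chartRing_norm_dvd ψ hfin s' s hconst (map_chart_of_generators ψ hconst s' s hs')
    (fun y hy => isIntegral_map_chartRing_of_mem ψ hconst s' (hs y hy)) b hb

end

end Fermat.Agent.S36.helper9392
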