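import Mathlib
import Fermat.Agent.S36.helper36_KillData

/-!
# S36 — the fields `dich` and `one_point` of `helper36.KillData` / `DegData` are consequences of
# the other fields  (helper9392; seam U3 of plan #3449; datum v2 = origin/helper36 55170aa8)

For ONE degeneracy map `ψ : F' → F` (`DegData`: `Va`, `Vm` over `V1`; `Vb` alone over `V2`,
purely inseparable) and a prime `P` of a chart ring `B`:

* `through_split_of_insep` : if `Vb` passes through `P` and one of `Va`, `Vm` does, then BOTH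
  `Va` and `Vm` do.  Proof: let `y ∈ B ∩ 𝔪(Va)` (or `𝔪(Vm)`).  If `y ∈ 𝔪(Vb)` then `y ∈ P`.
  Otherwise `y` is a unit at `Vb`; the norm `N y` lies in `B' ∩ 𝔪(V1)` (`ord_split`), so
  `ψ (N y) ∈ B ∩ 𝔪(Va) ∩ 𝔪(Vm) ⊆ P`; and `ψ (N y) - y ^ q ∈ B ∩ 𝔪(Vb) ⊆ P` (`norm_insep`, units
  only); hence `y ^ q ∈ P`.  No going-down, no completeness, no incidence count.
* `one_point_of_norm_dvd` : the conclusion of the field `DegData.one_point` for EVERY prime `P`
  through which `Vb` passes, from `norm_insep` (units only) and the generic divisibility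
  `b ∣ ψ (N b)` in `B` (supplier: `helper9392_NormDvd`).

For the three valuations: `dich_of_deg` = the field `KillData.dich` (a point on two components
lies on all three), with the two `DegData` as hypotheses; `chartRing_le_valuationSubring`
(= the hypothesis `B ≤ V c`, from `const_V` and `x_V`); `dich_field` = the field verbatim.
-/

set_option autoImplicit false

namespace Fermat.Agent.S36.helper9392

open Fermat.Agent.S36.helper1013 (IsOrd)
open Fermat.Agent.S36.helper248 (chartRing)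
open Fermat.Agent.S36.helper36

section Basic

variable {F : Type*} [Field F]

/-- For `y ≠ 0`: `y` is a non-unit of `V` iff `y⁻¹ ∉ V`. -/
theorem mem_nonunits_iff_inv_not_mem (V : ValuationSubring F) {y : F} (hy : y ≠ 0) :
    y ∈ V.nonunits ↔ y⁻¹ ∉ V := by
  rw [ValuationSubring.mem_nonunits_iff, ← ValuationSubring.valuation_le_one_iff, map_inv₀,
    not_le]
  have h0 : V.valuation y ≠ 0 := (Valuation.ne_zero_iff _).mpr hy
  have hpos : 0 < V.valuation y := zero_lt_iff.mpr h0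
  constructor
  · intro h
    exact (one_lt_inv₀ hpos).mpr h
  · intro h
    exact (one_lt_inv₀ hpos).mp h

/-- order form of non-units. -/
theorem mem_nonunits_iff_ord_pos (V : ValuationSubring F) (ord : F → ℤ) (hord : IsOrd ord)
    (hV : ∀ y : F, y ≠ 0 → (y ∈ V ↔ 0 ≤ ord y)) {y : F} (hy : y ≠ 0) :
    y ∈ V.nonunits ↔ 0 < ord y := by
  rw [mem_nonunits_iff_inv_not_mem V hy, hV y⁻¹ (inv_ne_zero hy), hord.map_inv hy]
  omega

/-- `0` is a non-unit. -/
theorem zero_mem_nonunits (V : ValuationSubring F) : (0 : F) ∈ V.nonunits := by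
  rw [ValuationSubring.mem_nonunits_iff, map_zero]
  exact zero_lt_one

/-- an element of `V` which is not a non-unit is non-zero with inverse in `V`. -/
theorem inv_mem_of_not_mem_nonunits (V : ValuationSubring F) {y : F}
    (hy : y ∉ V.nonunits) : y ≠ 0 ∧ y⁻¹ ∈ V := by
  have hy0 : y ≠ 0 := by
    rintro rfl
    exact hy (zero_mem_nonunits V)
  refine ⟨hy0, ?_⟩
  by_contra h
  exact hy ((mem_nonunits_iff_inv_not_mem V hy0).mpr h)

/-- A chart ring (integral closure of `A0[s]` in `F`) lies in every valuation subring containing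
`A0` and `s`. -/
theorem chartRing_le_valuationSubring {A0 : Type*} [CommRing A0] [Algebra A0 F] (s : Set F)
    (V : ValuationSubring F) (hA : ∀ a : A0, algebraMap A0 F a ∈ V) (hs : ∀ y ∈ s, y ∈ V)
    {b : F} (hb : b ∈ chartRing A0 s) : b ∈ V := by
  have hb' : IsIntegral (Algebra.adjoin A0 s) b := hb
  let W : Subalgebra A0 F := { V.toSubring with algebraMap_mem' := hA }
  have hle : Algebra.adjoin A0 s ≤ W := Algebra.adjoin_le hs
  let f : ↥(Algebra.adjoin A0 s) →+* ↥V :=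
    { toFun := fun y => ⟨y.1, hle y.2⟩
      map_one' := rfl
      map_mul' := fun _ _ => rfl
      map_zero' := rfl
      map_add' := fun _ _ => rfl }
  obtain ⟨p, hp, hpb⟩ := hb'
  have hint : IsIntegral ↥V b := by
    refine ⟨p.map f, hp.map f, ?_⟩
    rw [Polynomial.eval₂_map]
    have hf : (algebraMap ↥V F).comp f = algebraMap ↥(Algebra.adjoin A0 s) F := by
      ext y; rfl
    rw [hf]
    exact hpb
  obtain ⟨y, rfl⟩ := IsIntegrallyClosed.isIntegral_iff.mp hint
  exact y.2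

end Basic

section OneMap

variable {K F F' : Type*} [Field K] [Field F] [Field F'] [Algebra K F] [Algebra K F']

/-- **Half trichotomy along one degeneracy map.**  If the inseparable component `Vb` passes
through the prime `P` and one of the two split components `Va`, `Vm` does, then both do. -/
theorem through_split_of_insep (q : ℕ) (ψ : F' →ₐ[K] F) (Nm : F →* F')
    (Va Vm Vb : ValuationSubring F) (V1 : ValuationSubring F')
    (orda ordm : F → ℤ) (ord1 : F' → ℤ) (B : Subring F) (B' : Subring F')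
    (horda : IsOrd orda) (hordm : IsOrd ordm) (hord1 : IsOrd ord1)
    (hVa : ∀ y : F, y ≠ 0 → (y ∈ Va ↔ 0 ≤ orda y))
    (hVm : ∀ y : F, y ≠ 0 → (y ∈ Vm ↔ 0 ≤ ordm y))
    (hV1 : ∀ y : F', y ≠ 0 → (y ∈ V1 ↔ 0 ≤ ord1 y))
    (hBa : ∀ b : F, b ∈ B → b ∈ Va) (hBm : ∀ b : F, b ∈ B → b ∈ Vm)
    (hBb : ∀ b : F, b ∈ B → b ∈ Vb)
    (mem_a : ∀ a : F', ψ a ∈ Va ↔ a ∈ V1) (mem_m : ∀ a : F', ψ a ∈ Vm ↔ a ∈ V1)
    (norm_insep : ∀ h : F, h ∈ Vb → h⁻¹ ∈ Vb → ψ (Nm h) - h ^ q ∈ Vb.nonunits)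
    (ord_split : ∀ h : F, h ≠ 0 → ord1 (Nm h) = orda h + ordm h)
    (map_chart : ∀ b : F', b ∈ B' → ψ b ∈ B) (norm_chart : ∀ b : F, b ∈ B → Nm b ∈ B')
    (P : Ideal B) [P.IsPrime] (hb : Through B P Vb)
    (ham : Through B P Va ∨ Through B P Vm) :
    Through B P Va ∧ Through B P Vm := by
  -- the key claim: every `y ∈ B` of positive order at `Va` or at `Vm` lies in `P`
  have key : ∀ y : B, (y : F) ≠ 0 → (0 < orda y ∨ 0 < ordm y) → y ∈ P := by
    intro y hy0 hpos
    by_cases hyb : (y : F) ∈ Vb.nonunits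
    · exact hb y hyb
    obtain ⟨-, hyinv⟩ := inv_mem_of_not_mem_nonunits Vb hyb
    have hN0 : Nm (y : F) ≠ 0 := by
      intro h0
      have h1 : Nm (y : F) * Nm (y : F)⁻¹ = 1 := by
        rw [← map_mul, mul_inv_cancel₀ hy0, map_one]
      rw [h0, zero_mul] at h1
      exact zero_ne_one h1
    have hNB' : Nm (y : F) ∈ B' := norm_chart _ y.2
    have ha0 : 0 ≤ orda y := (hVa _ hy0).mp (hBa _ y.2)
    have hm0 : 0 ≤ ordm y := (hVm _ hy0).mp (hBm _ y.2)
    have hN1 : 0 < ord1 (Nm (y : F)) := by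
      rw [ord_split _ hy0]
      rcases hpos with h | h <;> omega
    have hψ0 : ψ (Nm (y : F)) ≠ 0 := by
      rw [Ne, map_eq_zero]; exact hN0
    have hNinv : (Nm (y : F))⁻¹ ∉ V1 := by
      rw [hV1 _ (inv_ne_zero hN0), hord1.map_inv hN0]
      omega
    have hψB : ψ (Nm (y : F)) ∈ B := map_chart _ hNB'
    have hψP : (⟨ψ (Nm (y : F)), hψB⟩ : B) ∈ P := by
      rcases ham with h | h
      · refine h _ ?_
        show ψ (Nm (y : F)) ∈ Va.nonunits
        rw [mem_nonunits_iff_inv_not_mem Va hψ0, ← map_inv₀, mem_a]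
        exact hNinv
      · refine h _ ?_
        show ψ (Nm (y : F)) ∈ Vm.nonunits
        rw [mem_nonunits_iff_inv_not_mem Vm hψ0, ← map_inv₀, mem_m]
        exact hNinv
    have hdiff : (⟨ψ (Nm (y : F)), hψB⟩ : B) - y ^ q ∈ P := by
      refine hb _ ?_
      show ψ (Nm (y : F)) - (y : F) ^ q ∈ Vb.nonunits
      exact norm_insep _ (hBb _ y.2) hyinv
    have hpow : y ^ q ∈ P := by
      have := P.sub_mem hψP hdiff
      simpa using this
    exact Ideal.IsPrime.mem_of_pow_mem inferInstance q hpow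
  constructor
  · intro y hy
    by_cases hy0 : (y : F) = 0
    · have : y = 0 := Subtype.ext hy0
      rw [this]; exact P.zero_mem
    · exact key y hy0 (Or.inl ((mem_nonunits_iff_ord_pos Va orda horda hVa hy0).mp hy))
  · intro y hy
    by_cases hy0 : (y : F) = 0
    · have : y = 0 := Subtype.ext hy0
      rw [this]; exact P.zero_mem
    · exact key y hy0 (Or.inr ((mem_nonunits_iff_ord_pos Vm ordm hordm hVm hy0).mp hy))

/-- **ONE POINT from the inseparable norm congruence.**  If the inseparable component `Vb`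
passes through the prime `P` of `B`, then every `b ∈ B \ P` divides in `B` an element `ψ b'`,
`b' ∈ B'`, outside `P` (namely `b' = N b`): `P` is the only prime of `B` above `P ∩ B'`.
`hdvd` is the generic fact `b ∣ ψ (N b)` in the integrally closed ring `B`
(`helper9392.exists_mul_eq_norm_along`). -/
theorem one_point_of_norm_dvd (q : ℕ) (ψ : F' →ₐ[K] F) (Nm : F →* F')
    (Vb : ValuationSubring F) (B : Subring F) (B' : Subring F')
    (hBb : ∀ b : F, b ∈ B → b ∈ Vb)
    (norm_insep : ∀ h : F, h ∈ Vb → h⁻¹ ∈ Vb → ψ (Nm h) - h ^ q ∈ Vb.nonunits)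
    (map_chart : ∀ b : F', b ∈ B' → ψ b ∈ B) (norm_chart : ∀ b : F, b ∈ B → Nm b ∈ B')
    (hdvd : ∀ b : F, b ∈ B → ∃ c : F, c ∈ B ∧ b * c = ψ (Nm b))
    (P : Ideal B) [P.IsPrime] (hb : Through B P Vb) (b : B) (hbP : b ∉ P) :
    ∃ (c d : B) (b' : B'), d ∉ P ∧ (d : F) = ψ (b' : F') ∧ b * c = d := by
  obtain ⟨c, hcB, hc⟩ := hdvd b b.2
  have hψB : ψ (Nm (b : F)) ∈ B := map_chart _ (norm_chart _ b.2)
  refine ⟨⟨c, hcB⟩, ⟨ψ (Nm (b : F)), hψB⟩, ⟨Nm (b : F), norm_chart _ b.2⟩, ?_, rfl,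
    Subtype.ext hc⟩
  intro hψP
  have hbu : (b : F) ∉ Vb.nonunits := fun h => hbP (hb b h)
  obtain ⟨-, hbinv⟩ := inv_mem_of_not_mem_nonunits Vb hbu
  have hdiff : (⟨ψ (Nm (b : F)), hψB⟩ : B) - b ^ q ∈ P := by
    refine hb _ ?_
    show ψ (Nm (b : F)) - (b : F) ^ q ∈ Vb.nonunits
    exact norm_insep _ (hBb _ b.2) hbinv
  have hpow : b ^ q ∈ P := by
    have := P.sub_mem hψP hdiff
    simpa using this
  exact hbP (Ideal.IsPrime.mem_of_pow_mem inferInstance q hpow)

end OneMap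

section Dich

variable {K F F' : Type*} [Field K] [Field F] [Field F'] [Algebra K F] [Algebra K F']

/-- **Global trichotomy** (the field `KillData.dich` of datum v2) from the two `DegData`:
a prime `P` of the chart `B i` through which two different components pass lies on all
three. -/
theorem dich_of_deg (q : ℕ) (α β : F' →ₐ[K] F) (Nα Nβ : F →* F')
    (V : Fin 3 → ValuationSubring F) (V' : Fin 2 → ValuationSubring F')
    (ord : Fin 3 → F → ℤ) (ord' : Fin 2 → F' → ℤ)
    (B : Fin 2 → Subring F) (B' : Fin 2 → Subring F')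
    (hord : ∀ c, IsOrd (ord c)) (hord' : ∀ c, IsOrd (ord' c))
    (mem_V : ∀ (c : Fin 3) (y : F), y ≠ 0 → (y ∈ V c ↔ 0 ≤ ord c y))
    (mem_V' : ∀ (c : Fin 2) (y : F'), y ≠ 0 → (y ∈ V' c ↔ 0 ≤ ord' c y))
    (B_le_V : ∀ (i : Fin 2) (c : Fin 3) (b : F), b ∈ B i → b ∈ V c)
    (degα : DegData q α Nα (V 0) (V 1) (V 2) (V' 0) (V' 1) (ord 0) (ord 1) (ord 2) (ord' 0)
      (ord' 1) B B')
    (degβ : DegData q β Nβ (V 2) (V 1) (V 0) (V' 1) (V' 0) (ord 2) (ord 1) (ord 0) (ord' 1)
      (ord' 0) B B')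
    (i : Fin 2) (P : Ideal (B i)) [P.IsPrime] (c c' : Fin 3) (hne : c ≠ c')
    (hc : Through (B i) P (V c)) (hc' : Through (B i) P (V c')) :
    ∀ c'', Through (B i) P (V c'') := by
  -- the two half trichotomies
  have hα : Through (B i) P (V 2) → (Through (B i) P (V 0) ∨ Through (B i) P (V 1)) →
      Through (B i) P (V 0) ∧ Through (B i) P (V 1) := fun h2 h01 =>
    through_split_of_insep q α Nα (V 0) (V 1) (V 2) (V' 0) (ord 0) (ord 1) (ord' 0) (B i) (B' i)
      (hord 0) (hord 1) (hord' 0) (mem_V 0) (mem_V 1) (mem_V' 0) (B_le_V i 0) (B_le_V i 1)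
      (B_le_V i 2) degα.mem_a degα.mem_m degα.norm_insep degα.ord_split (degα.map_chart i)
      (degα.norm_chart i) P h2 h01
  have hβ : Through (B i) P (V 0) → (Through (B i) P (V 2) ∨ Through (B i) P (V 1)) →
      Through (B i) P (V 2) ∧ Through (B i) P (V 1) := fun h0 h21 =>
    through_split_of_insep q β Nβ (V 2) (V 1) (V 0) (V' 1) (ord 2) (ord 1) (ord' 1) (B i) (B' i)
      (hord 2) (hord 1) (hord' 1) (mem_V 2) (mem_V 1) (mem_V' 1) (B_le_V i 2) (B_le_V i 1)
      (B_le_V i 0) degβ.mem_a degβ.mem_m degβ.norm_insep degβ.ord_split (degβ.map_chart i)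
      (degβ.norm_chart i) P h0 h21
  have h3 : Through (B i) P (V 0) ∧ Through (B i) P (V 1) ∧ Through (B i) P (V 2) := by
    fin_cases c <;> fin_cases c' <;> simp only [Fin.zero_eta, Fin.mk_one, Fin.reduceFinMk,
      ne_eq, not_true_eq_false] at hne hc hc' <;>
    first
      | exact absurd rfl hne
      | exact ⟨hc, hc', (hβ hc (Or.inr hc')).1⟩
      | exact ⟨(hα hc' (Or.inl hc)).1, (hα hc' (Or.inl hc)).2, hc'⟩
      | exact ⟨hc', hc, (hβ hc' (Or.inr hc)).1⟩
      | exact ⟨(hα hc' (Or.inr hc)).1, hc, hc'⟩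
      | exact ⟨hc', (hα hc (Or.inl hc')).2, hc⟩
      | exact ⟨(hα hc (Or.inr hc')).1, hc', hc⟩
  intro c''
  fin_cases c''
  · exact h3.1
  · exact h3.2.1
  · exact h3.2.2

end Dich

section FieldShape

variable {K F F' : Type*} [Field K] [Field F] [Field F'] [Algebra K F] [Algebra K F']

/-- `chart O x i ≤ V` for a valuation subring `V` containing `O` in which `x` is a unit
(the fields `const_V`, `x_V` of `KillData`). -/
theorem chart_le_of_const_of_unit (O : ValuationSubring K) (x : F) (V : ValuationSubring F)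
    (hconst : ∀ a : K, a ∈ O → algebraMap K F a ∈ V) (hx : x ∈ V ∧ x⁻¹ ∈ V) (i : Fin 2)
    (b : F) (hb : b ∈ chart O x i) : b ∈ V := by
  have hA : ∀ a : ↥O, algebraMap ↥O F a ∈ V := fun a => hconst (a : K) a.2
  have hs : ∀ y ∈ (if i = 0 then ({x} : Set F) else {x⁻¹}), y ∈ V := by
    intro y hy
    by_cases hi : i = 0
    · rw [if_pos hi] at hy
      rw [Set.mem_singleton_iff.mp hy]; exact hx.1
    · rw [if_neg hi] at hy
      rw [Set.mem_singleton_iff.mp hy]; exact hx.2
  exact chartRing_le_valuationSubring (A0 := ↥O) _ V hA hs hb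

/-- The field `KillData.dich` (datum v2), verbatim, from the fields `hord`, `hord'`, `mem_V`,
`mem_V'`, `const_V`, `x_V`, `degα`, `degβ` (of the `DegData` only `mem_a`, `mem_m`, `norm_insep`,
`ord_split`, `map_chart`, `norm_chart` are used). -/
theorem dich_field (O : ValuationSubring K) (q : ℕ) (α β : F' →ₐ[K] F) (Nα Nβ : F →* F')
    (V : Fin 3 → ValuationSubring F) (V' : Fin 2 → ValuationSubring F')
    (ord : Fin 3 → F → ℤ) (ord' : Fin 2 → F' → ℤ) (x : F) (x' : F')
    (hord : ∀ c, IsOrd (ord c)) (hord' : ∀ c, IsOrd (ord' c))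
    (mem_V : ∀ (c : Fin 3) (y : F), y ≠ 0 → (y ∈ V c ↔ 0 ≤ ord c y))
    (mem_V' : ∀ (c : Fin 2) (y : F'), y ≠ 0 → (y ∈ V' c ↔ 0 ≤ ord' c y))
    (const_V : ∀ (c : Fin 3) (a : K), a ∈ O → algebraMap K F a ∈ V c)
    (x_V : ∀ c : Fin 3, x ∈ V c ∧ x⁻¹ ∈ V c)
    (degα : DegData q α Nα (V 0) (V 1) (V 2) (V' 0) (V' 1) (ord 0) (ord 1) (ord 2) (ord' 0)
      (ord' 1) (chart O x) (chart O x'))
    (degβ : DegData q β Nβ (V 2) (V 1) (V 0) (V' 1) (V' 0) (ord 2) (ord 1) (ord 0) (ord' 1)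
      (ord' 0) (chart O x) (chart O x')) :
    ∀ (i : Fin 2) (P : Ideal (chart O x i)), P.IsMaximal → ∀ c c' : Fin 3, c ≠ c' →
      Through (chart O x i) P (V c) → Through (chart O x i) P (V c') →
        ∀ c'', Through (chart O x i) P (V c'') := by
  intro i P hP c c' hne hc hc'
  have : P.IsPrime := hP.isPrime
  exact dich_of_deg q α β Nα Nβ V V' ord ord' (chart O x) (chart O x') hord hord' mem_V mem_V'
    (fun i c b hb => chart_le_of_const_of_unit O x (V c) (const_V c) (x_V c) i b hb)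
    degα degβ i P c c' hne hc hc'

/-- The field `DegData.one_point` (datum v2), verbatim (and without using `Through … Va`,
`Through … Vm`), from `norm_insep`, `map_chart`, `norm_chart`, `B i ≤ Vb` and the generic
divisibility `b ∣ ψ (N b)` in `B i`. -/
theorem one_point_field (q : ℕ) (ψ : F' →ₐ[K] F) (Nm : F →* F')
    (Va Vm Vb : ValuationSubring F) (B : Fin 2 → Subring F) (B' : Fin 2 → Subring F')
    (hBb : ∀ (i : Fin 2) (b : F), b ∈ B i → b ∈ Vb)
    (norm_insep : ∀ h : F, h ∈ Vb → h⁻¹ ∈ Vb → ψ (Nm h) - h ^ q ∈ Vb.nonunits)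
    (map_chart : ∀ (i : Fin 2) (b : F'), b ∈ B' i → ψ b ∈ B i)
    (norm_chart : ∀ (i : Fin 2) (b : F), b ∈ B i → Nm b ∈ B' i)
    (hdvd : ∀ (i : Fin 2) (b : F), b ∈ B i → ∃ c : F, c ∈ B i ∧ b * c = ψ (Nm b)) :
    ∀ (i : Fin 2) (P : Ideal (B i)), P.IsMaximal →
      Through (B i) P Va → Through (B i) P Vm → Through (B i) P Vb →
      ∀ b : B i, b ∉ P → ∃ (c d : B i) (b' : B' i), d ∉ P ∧ (d : F) = ψ (b' : F') ∧ b * c = d := by
  intro i P hP _ _ hb b hbP
  have : P.IsPrime := hP.isPrime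
  exact one_point_of_norm_dvd q ψ Nm Vb (B i) (B' i) (hBb i) norm_insep (map_chart i)
    (norm_chart i) (hdvd i) P hb b hbP

end FieldShape

end Fermat.Agent.S36.helper9392
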