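import Mathlib
import Fermat.Agent.S36.helper9392_Trichotomy
import Fermat.Agent.S36.helper9392_ChartNorm

/-!
# S36 — the chart fields `map_chart`, `norm_chart`, `one_point` of `helper36.DegData` (datum v2)
# from the four integrality facts of the base line  (helper9392)

For one degeneracy map `ψ : F' →ₐ[K] F` with norm `Nm = Algebra.norm` along `ψ`, the chart
coordinates `x : F`, `x' : F'` and `O : ValuationSubring K`, the ONLY input about the charts is

* `IntPair O ψ x x'` : `ψ x' ∈ chartRing O {x}`, `x ∈ chartRing O {ψ x'}`,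
  `(ψ x')⁻¹ ∈ chartRing O {x⁻¹}`, `x⁻¹ ∈ chartRing O {(ψ x')⁻¹}`
  (for `α`: `ψ x' = x`, trivial — `intPair_of_eq`; for `β`: `t(qz)` and `t(z)` are integral over
  each other, and so are their inverses = TQ-INT).

Then `map_chart_field`, `norm_chart_field` and `one_point_chart` are the three `DegData` fields
verbatim (for `B = chart O x`, `B' = chart O x'`).
-/

set_option autoImplicit false

namespace Fermat.Agent.S36.helper9392

open Fermat.Agent.S36.helper248 (chartRing)
open Fermat.Agent.S36.helper36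

variable {K F F' : Type*} [Field K] [Field F] [Field F'] [Algebra K F] [Algebra K F']

/-- The four integrality facts linking the chart coordinates `x` (upstairs) and `ψ x'`
(the image of the coordinate downstairs). -/
structure IntPair (O : ValuationSubring K) (ψ : F' →ₐ[K] F) (x : F) (x' : F') : Prop where
  up0 : ψ x' ∈ chartRing O ({x} : Set F)
  down0 : x ∈ chartRing O ({ψ x'} : Set F)
  up1 : (ψ x')⁻¹ ∈ chartRing O ({x⁻¹} : Set F)
  down1 : x⁻¹ ∈ chartRing O ({(ψ x')⁻¹} : Set F)

/-- For `α` (`ψ x' = x`) the four facts are trivial. -/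
theorem intPair_of_eq (O : ValuationSubring K) (ψ : F' →ₐ[K] F) (x : F) (x' : F')
    (h : ψ x' = x) : IntPair O ψ x x' := by
  subst h
  exact ⟨helper248.mem_chartRing_of_mem rfl, helper248.mem_chartRing_of_mem rfl,
    helper248.mem_chartRing_of_mem rfl, helper248.mem_chartRing_of_mem rfl⟩

theorem hconst_valuationSubring (O : ValuationSubring K) (ψ : F' →ₐ[K] F) (a : ↥O) :
    ψ.toRingHom (algebraMap ↥O F' a) = algebraMap ↥O F a :=
  ψ.commutes (a : K)

/-- the generators of `chart O x' i` are sent into `chart O x i`, and the generators of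
`chart O x i` lie in the chart ring generated by the image of those of `chart O x' i`. -/
theorem IntPair.gens {O : ValuationSubring K} {ψ : F' →ₐ[K] F} {x : F} {x' : F'}
    (h : IntPair O ψ x x') (i : Fin 2) :
    (∀ y ∈ (if i = 0 then ({x'} : Set F') else {x'⁻¹}),
        ψ.toRingHom y ∈ chartRing O (if i = 0 then ({x} : Set F) else {x⁻¹})) ∧
      ∀ y ∈ (if i = 0 then ({x} : Set F) else {x⁻¹}),
        y ∈ chartRing O (ψ.toRingHom '' (if i = 0 then ({x'} : Set F') else {x'⁻¹})) := by
  by_cases hi : i = 0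
  · simp only [if_pos hi, Set.mem_singleton_iff, forall_eq, Set.image_singleton]
    exact ⟨h.up0, h.down0⟩
  · simp only [if_neg hi, Set.mem_singleton_iff, forall_eq, Set.image_singleton]
    refine ⟨?_, ?_⟩
    · show ψ x'⁻¹ ∈ _
      rw [map_inv₀]; exact h.up1
    · show x⁻¹ ∈ chartRing O ({ψ x'⁻¹} : Set F)
      rw [map_inv₀]; exact h.down1

/-- **`DegData.map_chart`**, verbatim. -/
theorem map_chart_field (O : ValuationSubring K) (ψ : F' →ₐ[K] F) (x : F) (x' : F')
    (h : IntPair O ψ x x') :
    ∀ (i : Fin 2) (b : F'), b ∈ chart O x' i → ψ b ∈ chart O x i := fun i b hb =>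
  map_chart_of_generators ψ.toRingHom (hconst_valuationSubring O ψ) _ _ (h.gens i).1 b hb

/-- **`DegData.norm_chart`**, verbatim, for `Nm = Algebra.norm` along `ψ`. -/
theorem norm_chart_field (O : ValuationSubring K) (ψ : F' →ₐ[K] F) (Nm : F →* F')
    (hNm : ∀ y : F, Nm y = (letI := ψ.toRingHom.toAlgebra; Algebra.norm F' y))
    (x : F) (x' : F') (h : IntPair O ψ x x') :
    ∀ (i : Fin 2) (b : F), b ∈ chart O x i → Nm b ∈ chart O x' i := fun i b hb => by
  rw [hNm]
  exact norm_chart_of_generators ψ.toRingHom (hconst_valuationSubring O ψ) _ _ (h.gens i).2 b hb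

/-- `b ∣ ψ (N b)` in the chart `chart O x i`. -/
theorem norm_dvd_chart (O : ValuationSubring K) (ψ : F' →ₐ[K] F) (Nm : F →* F')
    (hNm : ∀ y : F, Nm y = (letI := ψ.toRingHom.toAlgebra; Algebra.norm F' y))
    (hfin : letI := ψ.toRingHom.toAlgebra; Module.Finite F' F)
    (x : F) (x' : F') (h : IntPair O ψ x x') :
    ∀ (i : Fin 2) (b : F), b ∈ chart O x i → ∃ c : F, c ∈ chart O x i ∧ b * c = ψ (Nm b) :=
  fun i b hb => by
  rw [hNm]
  exact chartRing_norm_dvd_of_generators ψ.toRingHom hfin _ _ (hconst_valuationSubring O ψ)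
    (h.gens i).1 (h.gens i).2 b hb

/-- **`DegData.one_point`**, verbatim, for the charts of the base line: from `norm_insep`
(units only), `const_V`/`x_V` for `Vb`, finiteness of `ψ` and the four integrality facts. -/
theorem one_point_chart (O : ValuationSubring K) (q : ℕ) (ψ : F' →ₐ[K] F) (Nm : F →* F')
    (hNm : ∀ y : F, Nm y = (letI := ψ.toRingHom.toAlgebra; Algebra.norm F' y))
    (hfin : letI := ψ.toRingHom.toAlgebra; Module.Finite F' F)
    (Va Vm Vb : ValuationSubring F) (x : F) (x' : F')
    (const_Vb : ∀ a : K, a ∈ O → algebraMap K F a ∈ Vb) (x_Vb : x ∈ Vb ∧ x⁻¹ ∈ Vb)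
    (norm_insep : ∀ y : F, y ∈ Vb → y⁻¹ ∈ Vb → ψ (Nm y) - y ^ q ∈ Vb.nonunits)
    (h : IntPair O ψ x x') :
    ∀ (i : Fin 2) (P : Ideal (chart O x i)), P.IsMaximal →
      Through (chart O x i) P Va → Through (chart O x i) P Vm → Through (chart O x i) P Vb →
      ∀ b : chart O x i, b ∉ P →
        ∃ (c d : chart O x i) (b' : chart O x' i), d ∉ P ∧ (d : F) = ψ (b' : F') ∧ b * c = d :=
  one_point_field q ψ Nm Va Vm Vb (chart O x) (chart O x')
    (fun i b hb => chart_le_of_const_of_unit O x Vb const_Vb x_Vb i b hb) norm_insep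
    (map_chart_field O ψ x x' h) (norm_chart_field O ψ Nm hNm x x' h)
    (norm_dvd_chart O ψ Nm hNm hfin x x' h)

end Fermat.Agent.S36.helper9392
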