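import Fermat.Agent.S36.helper405_KillTerms
import Fermat.Agent.S36.helper9392_DegChart
import Fermat.Agent.S36.helper1359_NormLayer
import Fermat.Agent.S36.helper225_BaseDVR
import Fermat.Agent.S36.helper8566_HauptIntegralFinal

/-!
# S36 (KILL-INST, block POINT): the two `one_point` fields of `helper405.KillInput` (helper1891)

Captain ruling #4 (d): the fields `α_one_point` and `β_one_point` of `helper405.KillInput`,
VERBATIM, on the concrete terms of `helper405_KillTerms`.

Both are `helper9392.one_point_chart` applied to the concrete terms.  The seams are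

* `NαK`, `NβK` are `Algebra.norm` along `αK`, `βK` (definitional);
* `αK`, `βK` are finite (`helper1359`, degree `q`);
* `αK x' = x` (`αK_xK'`: the base line is the same series at the two levels), which gives the
  four integrality facts `IntPair` for `α`; for `β` they are TQ-INT (`helper8566.intPair_aux`);
* the constants of `OI A` lie in every `VK c` (`helper405.const_mem_VK_iff`).

The only inputs left are fields of OTHER blocks of `KillInput`, taken in their verbatim shape:
`x_V` (block UNIF) and `α_norm_insep` / `β_norm_insep` (blocks α-VAL / β-VAL).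
-/

set_option autoImplicit false
set_option linter.unusedSectionVars false
set_option linter.unusedVariables false

noncomputable section

namespace Fermat.Agent.S36.helper1891

open ModularCurve
open Fermat.Agent.S36.helper405
open Fermat.Agent.S36.helper1335 (AuxOK)
open Fermat.Agent.S36.helper9392 (IntPair)

variable (A : ValuationSubring (AlgebraicClosure ℚ)) (M₁ q : ℕ) [NeZero M₁] [NeZero q]
  (hq : q.Prime) (hqM : q ∣ M₁) (hq2 : ¬ q ^ 2 ∣ M₁) (haux : AuxOK M₁ q)

/-! ## Seams on the concrete terms -/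

/-- The `q`-expansion of the chart coordinate `x'` (level `M₁`) for `q ≠ 2`: `t₄`. -/
theorem coe_xK'_of_ne (h : q ≠ 2) :
    ((xK' A M₁ q haux : FK A M₁) : LaurentSeries (KI A)) =
      Fermat.Agent.Lib.helper3874.t4C (KI A) := by
  unfold xK'
  rw [baseLine_of_ne _ _ _ _ _ h]
  rfl

/-- The `q`-expansion of the chart coordinate `x'` (level `M₁`) for `q = 2`: `t₉`. -/
theorem coe_xK'_of_eq (h : q = 2) :
    ((xK' A M₁ q haux : FK A M₁) : LaurentSeries (KI A)) =
      Fermat.Agent.Lib.helper3874.t9C (KI A) := by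
  unfold xK'
  rw [baseLine_of_eq _ _ _ _ _ h]
  rfl

/-- The `q`-expansion of the chart coordinate `x` (level `M₁ * q`) for `q ≠ 2`: `t₄`. -/
theorem coe_xK_of_ne (h : q ≠ 2) :
    ((xK A M₁ q haux : FK A (M₁ * q)) : LaurentSeries (KI A)) =
      Fermat.Agent.Lib.helper3874.t4C (KI A) := by
  unfold xK
  rw [baseLine_of_ne _ _ _ _ _ h]
  rfl

/-- The `q`-expansion of the chart coordinate `x` (level `M₁ * q`) for `q = 2`: `t₉`. -/
theorem coe_xK_of_eq (h : q = 2) :
    ((xK A M₁ q haux : FK A (M₁ * q)) : LaurentSeries (KI A)) =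
      Fermat.Agent.Lib.helper3874.t9C (KI A) := by
  unfold xK
  rw [baseLine_of_eq _ _ _ _ _ h]
  rfl

/-- **`α x' = x`**: the base line is the same `q`-expansion at the two levels. -/
theorem αK_xK' : αK A M₁ q (xK' A M₁ q haux) = xK A M₁ q haux := by
  apply Subtype.ext
  rw [coe_heckeAlphaBar]
  by_cases h : q = 2
  · rw [coe_xK'_of_eq A M₁ q haux h, coe_xK_of_eq A M₁ q haux h]
  · rw [coe_xK'_of_ne A M₁ q haux h, coe_xK_of_ne A M₁ q haux h]

/-- The four integrality facts for `α` (trivial: `α x' = x`). -/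
theorem intPair_αK :
    IntPair (OI A) (αK A M₁ q) (xK A M₁ q haux) (xK' A M₁ q haux) :=
  Fermat.Agent.S36.helper9392.intPair_of_eq (OI A) (αK A M₁ q) (xK A M₁ q haux)
    (xK' A M₁ q haux) (αK_xK' A M₁ q haux)

/-- The four integrality facts for `β` = TQ-INT (`t(qz)` and `t(z)` are integral over each
other over `OI A`, and so are their inverses). -/
theorem intPair_βK (hq : q.Prime) (hA : A.LiesOverPrime q) :
    IntPair (OI A) (βK A M₁ q) (xK A M₁ q haux) (xK' A M₁ q haux) := by
  have h2 : ((2 : ℕ) : KI A) ≠ 0 := Nat.cast_ne_zero.mpr (by norm_num)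
  have h3 : ((3 : ℕ) : KI A) ≠ 0 := Nat.cast_ne_zero.mpr (by norm_num)
  have key := Fermat.Agent.S36.helper8566.intPair_aux (KI A) (OI A) M₁ q hq
    (Fermat.Agent.S36.helper225.natCast_mem_nonunits A hq hA) haux.1 haux.2
    (xK' A M₁ q haux)
    (fun h => by
      rw [coe_xK'_of_ne A M₁ q haux h]
      exact (Fermat.Agent.S37.helper9536.t4K_eq_t4C (K := KI A) (by exact_mod_cast h2)).symm)
    (fun h => by
      rw [coe_xK'_of_eq A M₁ q haux h]
      exact (Fermat.Agent.S37.helper9536.t9K_eq_t9C (K := KI A) (by exact_mod_cast h3)).symm)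
  have e : heckeAlphaBar (KI A) M₁ q (xK' A M₁ q haux) = xK A M₁ q haux := αK_xK' A M₁ q haux
  rw [e] at key
  exact ⟨key.1, key.2.1, key.2.2.1, key.2.2.2⟩

/-- `NαK` is the field norm along `αK`. -/
theorem NαK_eq_norm (y : FK A (M₁ * q)) :
    NαK A M₁ q y = (letI := (αK A M₁ q).toRingHom.toAlgebra; Algebra.norm (FK A M₁) y) := rfl

/-- `NβK` is the field norm along `βK`. -/
theorem NβK_eq_norm (y : FK A (M₁ * q)) :
    NβK A M₁ q y = (letI := (βK A M₁ q).toRingHom.toAlgebra; Algebra.norm (FK A M₁) y) := rfl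

/-- `αK` is finite. -/
theorem finite_αK (hq : q.Prime) (hqM : q ∣ M₁) :
    letI := (αK A M₁ q).toRingHom.toAlgebra; Module.Finite (FK A M₁) (FK A (M₁ * q)) :=
  Fermat.Agent.S36.helper1359.finiteAlong_heckeAlphaBar_of_dvd_layer
    (algebraMap (KI A) (AlgebraicClosure ℚ)) M₁ q hq hqM

/-- `βK` is finite. -/
theorem finite_βK (hq : q.Prime) (hqM : q ∣ M₁) :
    letI := (βK A M₁ q).toRingHom.toAlgebra; Module.Finite (FK A M₁) (FK A (M₁ * q)) :=
  Fermat.Agent.S36.helper1359.finiteAlong_heckeBetaBar_of_dvd_layer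
    (algebraMap (KI A) (AlgebraicClosure ℚ)) M₁ q hq hqM

/-! ## The two fields -/

/-- **`KillInput.α_one_point`**, verbatim, from the fields `x_V` and `α_norm_insep`. -/
theorem α_one_point_modular
    (x_V : ∀ c : Fin 3, xK A M₁ q haux ∈ VK A M₁ q hq hqM hq2 c ∧
      (xK A M₁ q haux)⁻¹ ∈ VK A M₁ q hq hqM hq2 c)
    (α_norm_insep : Deg.NormInsep q (αK A M₁ q) (NαK A M₁ q) (Vzero A M₁ q hq hqM hq2)) :
    Deg.OnePoint (αK A M₁ q) (Vinf A M₁ q) (Vmid A M₁ q hq hqM hq2)
      (Vzero A M₁ q hq hqM hq2) (BK A M₁ q haux) (BK' A M₁ q haux) :=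
  Fermat.Agent.S36.helper9392.one_point_chart (OI A) q (αK A M₁ q) (NαK A M₁ q)
    (NαK_eq_norm A M₁ q) (finite_αK A M₁ q hq hqM)
    (Vinf A M₁ q) (Vmid A M₁ q hq hqM hq2) (Vzero A M₁ q hq hqM hq2)
    (xK A M₁ q haux) (xK' A M₁ q haux)
    (fun a ha => (const_mem_Vzero_iff A M₁ q hq hqM hq2 a).mpr ha) (x_V 2) α_norm_insep
    (intPair_αK A M₁ q haux)

/-- **`KillInput.β_one_point`**, verbatim, from the fields `x_V` and `β_norm_insep`. -/
theorem β_one_point_modular (hA : A.LiesOverPrime q)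
    (x_V : ∀ c : Fin 3, xK A M₁ q haux ∈ VK A M₁ q hq hqM hq2 c ∧
      (xK A M₁ q haux)⁻¹ ∈ VK A M₁ q hq hqM hq2 c)
    (β_norm_insep : Deg.NormInsep q (βK A M₁ q) (NβK A M₁ q) (Vinf A M₁ q)) :
    Deg.OnePoint (βK A M₁ q) (Vzero A M₁ q hq hqM hq2) (Vmid A M₁ q hq hqM hq2)
      (Vinf A M₁ q) (BK A M₁ q haux) (BK' A M₁ q haux) :=
  Fermat.Agent.S36.helper9392.one_point_chart (OI A) q (βK A M₁ q) (NβK A M₁ q)
    (NβK_eq_norm A M₁ q) (finite_βK A M₁ q hq hqM)
    (Vzero A M₁ q hq hqM hq2) (Vmid A M₁ q hq hqM hq2) (Vinf A M₁ q)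
    (xK A M₁ q haux) (xK' A M₁ q haux)
    (fun a ha => (const_mem_VinfAt_iff A (M₁ * q) a).mpr ha) (x_V 0) β_norm_insep
    (intPair_βK A M₁ q haux hq hA)

/-! ## By-product: the four chart fields that need nothing but `IntPair`

(Block CHART, owner helper1413: these are here only because they are one call each of
`helper9392.map_chart_field` / `norm_chart_field` on the seams above.) -/

/-- **`KillInput.α_map_chart`**, verbatim, no hypothesis. -/
theorem α_map_chart_modular :
    Deg.MapChart (αK A M₁ q) (BK A M₁ q haux) (BK' A M₁ q haux) :=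
  Fermat.Agent.S36.helper9392.map_chart_field (OI A) (αK A M₁ q) (xK A M₁ q haux)
    (xK' A M₁ q haux) (intPair_αK A M₁ q haux)

/-- **`KillInput.β_map_chart`**, verbatim, no hypothesis. -/
theorem β_map_chart_modular (hq : q.Prime) (hA : A.LiesOverPrime q) :
    Deg.MapChart (βK A M₁ q) (BK A M₁ q haux) (BK' A M₁ q haux) :=
  Fermat.Agent.S36.helper9392.map_chart_field (OI A) (βK A M₁ q) (xK A M₁ q haux)
    (xK' A M₁ q haux) (intPair_βK A M₁ q haux hq hA)

/-- **`KillInput.α_norm_chart`**, verbatim, no hypothesis. -/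
theorem α_norm_chart_modular :
    Deg.NormChart (NαK A M₁ q) (BK A M₁ q haux) (BK' A M₁ q haux) :=
  Fermat.Agent.S36.helper9392.norm_chart_field (OI A) (αK A M₁ q) (NαK A M₁ q)
    (NαK_eq_norm A M₁ q) (xK A M₁ q haux) (xK' A M₁ q haux) (intPair_αK A M₁ q haux)

/-- **`KillInput.β_norm_chart`**, verbatim, no hypothesis. -/
theorem β_norm_chart_modular (hq : q.Prime) (hA : A.LiesOverPrime q) :
    Deg.NormChart (NβK A M₁ q) (BK A M₁ q haux) (BK' A M₁ q haux) :=
  Fermat.Agent.S36.helper9392.norm_chart_field (OI A) (βK A M₁ q) (NβK A M₁ q)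
    (NβK_eq_norm A M₁ q) (xK A M₁ q haux) (xK' A M₁ q haux) (intPair_βK A M₁ q haux hq hA)

end Fermat.Agent.S36.helper1891
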