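/-
S36-F2-ETAGEN (helper2008): the generic half of the theta-unit design.

A weight-zero eta quotient that is analytically invariant under `Γ₀(N)` has its (integer)
`q`-series in `modularFunctionFieldFull N`.  No growth estimate at cusps is needed: after
multiplying by the right `Δ(dτ)`'s all exponents are positive, the 24th power is a product of
level-raised discriminants, and boundedness at cusps passes to roots.
-/
import Mathlib
import Fermat.Agent.S28.helper4768_DegSturm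
import Fermat.Agent.S18.helper4053_RatioFull

open UpperHalfPlane ModularForm CongruenceSubgroup Matrix ModularCurve
open scoped MatrixGroups Manifold

namespace Fermat.Agent.S36.helper2008

open Fermat.Agent.S28.helper4768 (G0 toC IsQExp ofPS DeltaQ)

noncomputable section

/-! ### Boundedness at cusps passes to roots -/

theorem norm_slash_apply (f : ℍ → ℂ) (k : ℤ) (g : GL (Fin 2) ℝ) (τ : ℍ) :
    ‖(f ∣[k] g) τ‖ = ‖f (g • τ)‖ * |g.det.val| ^ (k - 1) * ‖denom g τ‖ ^ (-k) := by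
  rw [ModularForm.slash_apply, norm_mul, norm_mul, norm_σ, norm_zpow, norm_zpow]
  simp

theorem isBoundedAtImInfty_of_norm_pow {f G : ℍ → ℂ} {m : ℕ} (hm : m ≠ 0) (C : ℝ)
    (h : ∀ τ, ‖f τ‖ ^ m = C * ‖G τ‖) (hG : IsBoundedAtImInfty G) : IsBoundedAtImInfty f := by
  rw [isBoundedAtImInfty_iff] at hG ⊢
  obtain ⟨M, A, hMA⟩ := hG
  refine ⟨max 1 (|C| * M), A, fun z hz => ?_⟩
  by_contra hlt
  rw [not_le] at hlt
  have h1 : 1 < ‖f z‖ := lt_of_le_of_lt (le_max_left _ _) hlt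
  have h2 : ‖f z‖ ≤ ‖f z‖ ^ m := le_self_pow₀ h1.le hm
  have h3 : ‖f z‖ ^ m ≤ |C| * M := by
    rw [h z]
    calc C * ‖G z‖ ≤ |C| * ‖G z‖ := mul_le_mul_of_nonneg_right (le_abs_self C) (norm_nonneg _)
      _ ≤ |C| * M := mul_le_mul_of_nonneg_left (hMA z hz) (abs_nonneg C)
  exact absurd (lt_of_lt_of_le (lt_of_le_of_lt (le_max_right _ _) hlt) (h2.trans h3))
    (lt_irrefl _)

theorem norm_slash_pow (f G : ℍ → ℂ) (k : ℤ) (m : ℕ) (hfG : ∀ τ, f τ ^ m = G τ)
    (g : GL (Fin 2) ℝ) (τ : ℍ) :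
    ‖(f ∣[k] g) τ‖ ^ m = (|g.det.val| ^ (1 - (m : ℤ))) * ‖(G ∣[(m : ℤ) * k] g) τ‖ := by
  rw [norm_slash_apply, norm_slash_apply, ← hfG, norm_pow]
  have hd : |g.det.val| ≠ 0 := abs_ne_zero.mpr g.det_ne_zero
  have hden : ‖denom g τ‖ ≠ 0 := norm_ne_zero_iff.mpr (denom_ne_zero g τ)
  have h1 : (|g.det.val| ^ (k - 1)) ^ m =
      |g.det.val| ^ (1 - (m : ℤ)) * |g.det.val| ^ ((m : ℤ) * k - 1) := by
    rw [← zpow_natCast (|g.det.val| ^ (k - 1)) m, ← _root_.zpow_mul, ← zpow_add₀ hd]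
    congr 1
    ring
  have h2 : (‖denom g τ‖ ^ (-k)) ^ m = ‖denom g τ‖ ^ (-((m : ℤ) * k)) := by
    rw [← zpow_natCast (‖denom g τ‖ ^ (-k)) m, ← _root_.zpow_mul]
    congr 1
    ring
  rw [mul_pow, mul_pow, h1, h2]
  ring

theorem isBoundedAt_of_pow {f G : ℍ → ℂ} {k : ℤ} {m : ℕ} (hm : m ≠ 0)
    (hfG : ∀ τ, f τ ^ m = G τ) {c : OnePoint ℝ} (hG : c.IsBoundedAt G ((m : ℤ) * k)) :
    c.IsBoundedAt f k := fun g hg =>
  isBoundedAtImInfty_of_norm_pow hm _ (norm_slash_pow f G k m hfG g) (hG g hg)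

/-- **Roots of modular forms.** A holomorphic function which is weight-`k` invariant under `Γ`
and whose `m`-th power is (the function of) a modular form of weight `m * k` on `Γ` is a modular
form of weight `k` on `Γ`. -/
def modularFormOfPow {Γ : Subgroup (GL (Fin 2) ℝ)} {k : ℤ} {m : ℕ} (hm : m ≠ 0) (f : ℍ → ℂ)
    (hol : MDiff f) (hinv : ∀ γ ∈ Γ, f ∣[k] γ = f) (G : ModularForm Γ ((m : ℤ) * k))
    (hfG : ∀ τ, f τ ^ m = G τ) : ModularForm Γ k where
  toFun := f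
  slash_action_eq' := hinv
  holo' := hol
  bdd_at_cusps' hc := isBoundedAt_of_pow hm hfG (G.bdd_at_cusps' hc)

@[simp]
theorem modularFormOfPow_apply {Γ : Subgroup (GL (Fin 2) ℝ)} {k : ℤ} {m : ℕ} (hm : m ≠ 0)
    (f : ℍ → ℂ) (hol : MDiff f) (hinv : ∀ γ ∈ Γ, f ∣[k] γ = f) (G : ModularForm Γ ((m : ℤ) * k))
    (hfG : ∀ τ, f τ ^ m = G τ) (τ : ℍ) : modularFormOfPow hm f hol hinv G hfG τ = f τ := rfl

/-! ### Roots of `q`-expansions -/

theorem exists_root_of_pow_eq {a b : PowerSeries ℂ} {m : ℕ} (hm : m ≠ 0) (h : a ^ m = b ^ m) :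
    ∃ ζ : ℂ, ζ ^ m = 1 ∧ a = PowerSeries.C ζ * b := by
  obtain ⟨ζ₀, hζ⟩ : ∃ ζ₀ : ℂ, IsPrimitiveRoot ζ₀ m := ⟨_, Complex.isPrimitiveRoot_exp m hm⟩
  have hprim : IsPrimitiveRoot (PowerSeries.C ζ₀ : PowerSeries ℂ) m :=
    hζ.map_of_injective (f := (PowerSeries.C : ℂ →+* PowerSeries ℂ)) PowerSeries.C_injective
  have hfac := hprim.pow_sub_pow_eq_prod_sub_mul a b (Nat.pos_of_ne_zero hm)
  rw [h, sub_self] at hfac
  obtain ⟨μ, hμ, hμ0⟩ := Finset.prod_eq_zero_iff.mp hfac.symm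
  have hμ1 : μ ^ m = 1 := (Polynomial.mem_nthRootsFinset (Nat.pos_of_ne_zero hm) _).mp hμ
  have : NeZero m := ⟨hm⟩
  obtain ⟨i, -, hi⟩ := hprim.eq_pow_of_pow_eq_one hμ1
  refine ⟨ζ₀ ^ i, ?_, ?_⟩
  · rw [← pow_mul, mul_comm, pow_mul, hζ.pow_eq_one, one_pow]
  · rw [map_pow, hi]
    exact sub_eq_zero.mp hμ0

/-- If the `m`-th power of the `q`-expansion of a modular form on `Γ₀(N)` is the `m`-th power of a
rational series `P`, then `P` itself is the `q`-expansion of a modular form (a root-of-unity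
multiple of the given one). -/
theorem isQExp_of_pow {N : ℕ} {k : ℤ} {m : ℕ} (hm : m ≠ 0) (F : ModularForm (G0 N) k)
    (P : PowerSeries ℚ) (h : qExpansion 1 F ^ m = toC P ^ m) : IsQExp N k P := by
  obtain ⟨ζ, hζ, hF⟩ := exists_root_of_pow_eq hm h
  have hζ0 : ζ ≠ 0 := fun h0 => by
    rw [h0, zero_pow hm] at hζ
    exact zero_ne_one hζ
  refine ⟨ζ⁻¹ • F, ?_⟩
  have := ModularForm.qExpansion_smul one_pos
    (Fermat.Agent.S28.helper4768.one_mem_strictPeriods_G0 N) ζ⁻¹ F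
  rw [show (⇑(ζ⁻¹ • F) : ℍ → ℂ) = ζ⁻¹ • ⇑F from rfl, this, hF, PowerSeries.smul_eq_C_mul,
    ← mul_assoc, ← map_mul, inv_mul_cancel₀ hζ0, map_one, one_mul]

/-! ### Modular forms with prescribed function and `q`-expansion -/

/-- `g` is the function and `s` the `q`-expansion of a modular form of weight `k` on `Γ₀(N)`. -/
def IsMF (N : ℕ) (k : ℤ) (g : ℍ → ℂ) (s : PowerSeries ℂ) : Prop :=
  ∃ F : ModularForm (G0 N) k, ⇑F = g ∧ qExpansion 1 F = s

section IsMF

variable {N : ℕ} {k k' : ℤ} {g g' : ℍ → ℂ} {s s' : PowerSeries ℂ}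

theorem IsMF.congr (h : IsMF N k g s) (hk : k = k') (hg : g = g') (hs : s = s') :
    IsMF N k' g' s' := by
  subst hk hg hs
  exact h

theorem IsMF.mul (h : IsMF N k g s) (h' : IsMF N k' g' s') :
    IsMF N (k + k') (g * g') (s * s') := by
  obtain ⟨F, rfl, rfl⟩ := h
  obtain ⟨F', rfl, rfl⟩ := h'
  exact ⟨F.mul F', rfl, ModularForm.qExpansion_mul one_pos
    (Fermat.Agent.S28.helper4768.one_mem_strictPeriods_G0 N) F F'⟩

theorem IsMF.one (N : ℕ) : IsMF N 0 1 1 :=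
  ⟨1, rfl, ModularForm.qExpansion_one⟩

theorem IsMF.pow (h : IsMF N k g s) (n : ℕ) : IsMF N (n * k) (g ^ n) (s ^ n) := by
  induction n with
  | zero => exact (IsMF.one N).congr (by simp) (by simp) (by simp)
  | succ n ih => exact (ih.mul h).congr (by push_cast; ring) (pow_succ _ _).symm (pow_succ _ _).symm

theorem IsMF.smul (c : ℂ) (h : IsMF N k g s) : IsMF N k (c • g) (PowerSeries.C c * s) := by
  obtain ⟨F, rfl, rfl⟩ := h
  refine ⟨c • F, rfl, ?_⟩
  have := ModularForm.qExpansion_smul one_pos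
    (Fermat.Agent.S28.helper4768.one_mem_strictPeriods_G0 N) c F
  rw [show (⇑(c • F) : ℍ → ℂ) = c • ⇑F from rfl, this, PowerSeries.smul_eq_C_mul]

theorem IsMF.isQExp {P : PowerSeries ℚ} (h : IsMF N k g (toC P)) : IsQExp N k P := by
  obtain ⟨F, -, hF⟩ := h
  exact ⟨F, hF⟩

end IsMF

/-! ### The level-raised discriminant -/

open Fermat.Agent.S28.helper4768 (levelRaise levelRaise_apply qExpansion_levelRaise toC_DeltaQ)

/-- The Euler product `∏ (1 - Xⁿ)` with rational coefficients. -/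
def etaProdQ : PowerSeries ℚ := etaProd.map (Int.castRingHom ℚ)

theorem constantCoeff_etaProdQ : PowerSeries.constantCoeff etaProdQ = 1 := by
  rw [etaProdQ, ← PowerSeries.coeff_zero_eq_constantCoeff_apply, PowerSeries.coeff_map,
    PowerSeries.coeff_zero_eq_constantCoeff_apply, constantCoeff_etaProd]
  simp

theorem DeltaQ_eq : DeltaQ = PowerSeries.X * etaProdQ ^ 24 := by
  rw [DeltaQ, etaProdQ, map_pow]

theorem isMF_eta24 {N d : ℕ} (hd : d ∣ N) (hd0 : d ≠ 0) :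
    IsMF N 12 (fun τ : ℍ => η ((d : ℂ) * τ) ^ 24)
      (toC (PowerSeries.X ^ d * PowerSeries.expand d hd0 etaProdQ ^ 24)) := by
  have hdC : ((d : ℂ) ^ ((12 : ℤ) - 1)) ≠ 0 := zpow_ne_zero _ (by exact_mod_cast hd0)
  have h0 : IsMF N 12
      (⇑(levelRaise (N := N) hd hd0 (ModularFormClass.modularForm CuspForm.discriminant)))
      (qExpansion 1
        (levelRaise (N := N) hd hd0 (ModularFormClass.modularForm CuspForm.discriminant))) :=
    ⟨_, rfl, rfl⟩
  refine (h0.smul ((d : ℂ) ^ ((12 : ℤ) - 1))⁻¹).congr rfl ?_ ?_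
  · funext τ
    rw [Pi.smul_apply, smul_eq_mul, levelRaise_apply, ← mul_assoc, inv_mul_cancel₀ hdC, one_mul]
    show ModularForm.discriminant (heckeDiagMatrix d • τ) = _
    rw [ModularForm.discriminant, coe_heckeDiagMatrix_smul hd0]
  · have hΔ : qExpansion 1 (ModularFormClass.modularForm CuspForm.discriminant) = toC DeltaQ := by
      rw [toC_DeltaQ, ← Fermat.Agent.Lib.helper1348.qExpansion_discriminant_eq]
      rfl
    rw [qExpansion_levelRaise, ← mul_assoc, ← map_mul, inv_mul_cancel₀ hdC, map_one, one_mul,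
      hΔ, ← PowerSeries.map_expand, DeltaQ_eq, map_mul, map_pow, PowerSeries.expand_X]

/-! ### Eta products over lists of pairs `(d, e)` -/

/-- Total version of `PowerSeries.expand` (the identity for `d = 0`). -/
def ex (d : ℕ) : PowerSeries ℚ →+* PowerSeries ℚ :=
  if h : d = 0 then RingHom.id _
  else ((PowerSeries.expand d h : PowerSeries ℚ →ₐ[ℚ] PowerSeries ℚ) : PowerSeries ℚ →+* PowerSeries ℚ)

theorem ex_apply {d : ℕ} (h : d ≠ 0) (s : PowerSeries ℚ) : ex d s = PowerSeries.expand d h s := by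
  rw [ex, dif_neg h]
  rfl

theorem constantCoeff_ex (d : ℕ) (s : PowerSeries ℚ) :
    PowerSeries.constantCoeff (ex d s) = PowerSeries.constantCoeff s := by
  by_cases h : d = 0
  · rw [ex, dif_pos h]
    rfl
  · rw [ex_apply h, PowerSeries.constantCoeff_expand]

/-- The analytic eta product `∏ η(dτ)^e` over a list of pairs `(d, e)`. -/
def etaFun (l : List (ℕ × ℕ)) (τ : ℍ) : ℂ := (l.map fun p => η ((p.1 : ℂ) * τ) ^ p.2).prod

/-- The formal eta product `∏ E(X^d)^e`, `E = ∏ (1 - Xⁿ)`, over a list of pairs `(d, e)`. -/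
def etaPS (l : List (ℕ × ℕ)) : PowerSeries ℚ := (l.map fun p => ex p.1 etaProdQ ^ p.2).prod

/-- Twice the weight: `∑ e`. -/
def wt (l : List (ℕ × ℕ)) : ℕ := (l.map Prod.snd).sum

/-- `24` times the order at `∞`: `∑ d * e`. -/
def ord (l : List (ℕ × ℕ)) : ℕ := (l.map fun p => p.1 * p.2).sum

@[simp] theorem etaFun_nil (τ : ℍ) : etaFun [] τ = 1 := rfl

@[simp] theorem etaFun_cons (p : ℕ × ℕ) (l : List (ℕ × ℕ)) (τ : ℍ) :
    etaFun (p :: l) τ = η ((p.1 : ℂ) * τ) ^ p.2 * etaFun l τ := by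
  simp [etaFun]

@[simp] theorem etaPS_nil : etaPS [] = 1 := rfl

@[simp] theorem etaPS_cons (p : ℕ × ℕ) (l : List (ℕ × ℕ)) :
    etaPS (p :: l) = ex p.1 etaProdQ ^ p.2 * etaPS l := by
  simp [etaPS]

@[simp] theorem wt_nil : wt [] = 0 := rfl

@[simp] theorem wt_cons (p : ℕ × ℕ) (l : List (ℕ × ℕ)) : wt (p :: l) = p.2 + wt l := by
  simp [wt]

@[simp] theorem ord_nil : ord [] = 0 := rfl

@[simp] theorem ord_cons (p : ℕ × ℕ) (l : List (ℕ × ℕ)) : ord (p :: l) = p.1 * p.2 + ord l := by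
  simp [ord]

theorem constantCoeff_etaPS (l : List (ℕ × ℕ)) : PowerSeries.constantCoeff (etaPS l) = 1 := by
  induction l with
  | nil => simp
  | cons p l ih => simp [ih, constantCoeff_ex, constantCoeff_etaProdQ]

theorem etaPS_ne_zero (l : List (ℕ × ℕ)) : etaPS l ≠ 0 := fun h => by
  have := constantCoeff_etaPS l
  rw [h, map_zero] at this
  exact zero_ne_one this

theorem etaFun_ne_zero (l : List (ℕ × ℕ)) (hl : ∀ p ∈ l, p.1 ≠ 0) (τ : ℍ) : etaFun l τ ≠ 0 := by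
  induction l with
  | nil => simp
  | cons p l ih =>
    rw [etaFun_cons]
    refine mul_ne_zero (pow_ne_zero _ (eta_ne_zero ?_)) (ih fun q hq => hl q (List.mem_cons_of_mem _ hq))
    have hp : (0 : ℝ) < p.1 := by exact_mod_cast Nat.pos_of_ne_zero (hl p List.mem_cons_self)
    show 0 < ((p.1 : ℂ) * (τ : ℂ)).im
    rw [Complex.mul_im]
    simpa using mul_pos hp τ.im_pos

theorem mdifferentiable_eta_mul {d : ℕ} (hd : d ≠ 0) : MDiff (fun τ : ℍ => η ((d : ℂ) * τ)) := by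
  rw [UpperHalfPlane.mdifferentiable_iff]
  intro z hz
  have hd' : (0 : ℝ) < d := by exact_mod_cast Nat.pos_of_ne_zero hd
  have hz' : (d : ℂ) * z ∈ upperHalfPlaneSet := by
    show 0 < ((d : ℂ) * z).im
    rw [Complex.mul_im]
    simpa using mul_pos hd' hz
  have h1 : DifferentiableAt ℂ (fun w : ℂ => η ((d : ℂ) * w)) z :=
    (differentiableAt_eta_of_mem_upperHalfPlaneSet hz').comp z (by fun_prop)
  refine (h1.differentiableWithinAt).congr_of_eventuallyEq ?_ ?_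
  · filter_upwards [self_mem_nhdsWithin] with w hw
    simp only [Function.comp_apply]
    rw [ofComplex_apply_of_im_pos hw]
  · simp only [Function.comp_apply]
    rw [ofComplex_apply_of_im_pos hz]

theorem mdifferentiable_etaFun (l : List (ℕ × ℕ)) (hl : ∀ p ∈ l, p.1 ≠ 0) : MDiff (etaFun l) := by
  induction l with
  | nil => exact mdifferentiable_const
  | cons p l ih =>
    have h1 : MDiff (fun τ : ℍ => η ((p.1 : ℂ) * τ) ^ p.2) :=
      (mdifferentiable_eta_mul (hl p List.mem_cons_self)).pow p.2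
    have h2 := ih fun q hq => hl q (List.mem_cons_of_mem _ hq)
    have : etaFun (p :: l) = (fun τ : ℍ => η ((p.1 : ℂ) * τ) ^ p.2) * etaFun l := by
      funext τ
      simp
    rw [this]
    exact h1.mul h2

theorem isMF_etaFun_pow {N : ℕ} (hN : N ≠ 0) (l : List (ℕ × ℕ)) (hl : ∀ p ∈ l, p.1 ∣ N) :
    IsMF N (12 * (wt l : ℤ)) (fun τ => etaFun l τ ^ 24)
      (toC (PowerSeries.X ^ ord l * etaPS l ^ 24)) := by
  induction l with
  | nil =>
    refine (IsMF.one N).congr (by simp) ?_ (by simp)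
    funext τ
    simp
  | cons p l ih =>
    have hp : p.1 ∣ N := hl p List.mem_cons_self
    have hp0 : p.1 ≠ 0 := fun h => hN (by rw [h] at hp; exact zero_dvd_iff.mp hp)
    have h1 := (isMF_eta24 hp hp0).pow p.2
    have h2 := ih fun q hq => hl q (List.mem_cons_of_mem _ hq)
    refine (h1.mul h2).congr ?_ ?_ ?_
    · rw [wt_cons]
      push_cast
      ring
    · funext τ
      simp only [Pi.mul_apply, Pi.pow_apply, etaFun_cons]
      ring
    · rw [← map_pow, ← map_mul]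
      congr 1
      rw [ord_cons, etaPS_cons, ex_apply hp0]
      ring

/-! ### Main theorem -/

/-- The modular form `∏ η(dτ)^(a_d + 23 b_d)` attached to an invariant eta quotient, together
with its `q`-expansion up to a 24th root of unity. -/
theorem exists_modularForm_etaQuot (N : ℕ) [NeZero N] (A B : List (ℕ × ℕ))
    (hA : ∀ p ∈ A, p.1 ∣ N) (hB : ∀ p ∈ B, p.1 ∣ N) (hw : wt A = wt B) (ho : ord A = ord B)
    (hinv : ∀ γ ∈ Gamma0 N, ∀ τ : ℍ,
      etaFun A (γ • τ) / etaFun B (γ • τ) = etaFun A τ / etaFun B τ) :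
    ∃ F : ModularForm (G0 N) (12 * (wt B : ℤ)),
      (∀ τ, F τ = etaFun A τ * etaFun B τ ^ 23) ∧
      qExpansion 1 F ^ 24 = toC (PowerSeries.X ^ ord B * (etaPS A * etaPS B ^ 23)) ^ 24 := by
  have hN : N ≠ 0 := NeZero.ne N
  have hA0 : ∀ p ∈ A, p.1 ≠ 0 := fun p hp h => hN (by
    have := hA p hp
    rw [h] at this
    exact zero_dvd_iff.mp this)
  have hB0 : ∀ p ∈ B, p.1 ≠ 0 := fun p hp h => hN (by
    have := hB p hp
    rw [h] at this
    exact zero_dvd_iff.mp this)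
  obtain ⟨GB, hGB, -⟩ := isMF_etaFun_pow hN B hB
  have hf24 : IsMF N (((24 : ℕ) : ℤ) * (12 * (wt B : ℤ)))
      (fun τ => (etaFun A τ * etaFun B τ ^ 23) ^ 24)
      (toC (PowerSeries.X ^ ord B * (etaPS A * etaPS B ^ 23)) ^ 24) := by
    have h1 := isMF_etaFun_pow hN A hA
    have h2 := (isMF_etaFun_pow hN B hB).pow 23
    refine (h1.mul h2).congr ?_ ?_ ?_
    · rw [hw]
      push_cast
      ring
    · funext τ
      simp only [Pi.mul_apply, Pi.pow_apply]
      ring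
    · rw [← map_pow, ← map_mul, ← map_pow]
      congr 1
      rw [ho]
      ring
  obtain ⟨G, hG, hGq⟩ := hf24
  have hol : MDiff (fun τ => etaFun A τ * etaFun B τ ^ 23) :=
    (mdifferentiable_etaFun A hA0).mul ((mdifferentiable_etaFun B hB0).pow 23)
  have hinv' : ∀ γ ∈ G0 N, (fun τ => etaFun A τ * etaFun B τ ^ 23) ∣[12 * (wt B : ℤ)] γ =
      fun τ => etaFun A τ * etaFun B τ ^ 23 := by
    rintro _ ⟨γ, hγ, rfl⟩
    have hGB' := GB.slash_action_eq' _ ⟨γ, hγ, rfl⟩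
    funext τ
    have h3 : ((⇑GB) ∣[12 * (wt B : ℤ)] γ) τ = GB τ := congrFun hGB' τ
    change ((fun τ => etaFun A τ * etaFun B τ ^ 23) ∣[12 * (wt B : ℤ)] γ) τ = _
    rw [ModularForm.SL_slash_apply] at h3 ⊢
    rw [hGB] at h3
    have hBτ := etaFun_ne_zero B hB0 τ
    have hBγ := etaFun_ne_zero B hB0 (γ • τ)
    have e1 : etaFun A (γ • τ) * etaFun B (γ • τ) ^ 23 =
        (etaFun A (γ • τ) / etaFun B (γ • τ)) * etaFun B (γ • τ) ^ 24 := by
      field_simp
    have e2 : etaFun A τ * etaFun B τ ^ 23 = (etaFun A τ / etaFun B τ) * etaFun B τ ^ 24 := by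
      field_simp
    rw [e1, e2, hinv γ hγ τ, mul_assoc, h3]
  refine ⟨modularFormOfPow (m := 24) (by norm_num) _ hol hinv' G fun τ => (congrFun hG τ).symm,
    fun τ => rfl, ?_⟩
  rw [← hGq, ← ModularForm.qExpansion_pow one_pos
    (Fermat.Agent.S28.helper4768.one_mem_strictPeriods_G0 N)]
  congr 1
  funext τ
  rw [ModularForm.coe_pow]
  exact (congrFun hG τ).symm

/-- **Rational `q`-expansions of an invariant eta quotient**: numerator and denominator are
`q`-expansions of modular forms of the same weight on `Γ₀(N)`. -/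
theorem isQExp_etaQuot (N : ℕ) [NeZero N] (A B : List (ℕ × ℕ))
    (hA : ∀ p ∈ A, p.1 ∣ N) (hB : ∀ p ∈ B, p.1 ∣ N) (hw : wt A = wt B) (ho : ord A = ord B)
    (hinv : ∀ γ ∈ Gamma0 N, ∀ τ : ℍ,
      etaFun A (γ • τ) / etaFun B (γ • τ) = etaFun A τ / etaFun B τ) :
    IsQExp N (12 * (wt B : ℤ)) (PowerSeries.X ^ ord B * (etaPS A * etaPS B ^ 23)) ∧
      IsQExp N (12 * (wt B : ℤ)) (PowerSeries.X ^ ord B * etaPS B ^ 24) := by
  obtain ⟨F, -, hF⟩ := exists_modularForm_etaQuot N A B hA hB hw ho hinv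
  exact ⟨isQExp_of_pow (m := 24) (by norm_num) F _ hF,
    (isMF_etaFun_pow (NeZero.ne N) B hB).isQExp⟩

/-- **Generic half of the theta-unit design.** A weight-zero eta quotient
`∏ η(dτ)^(a_d) / ∏ η(dτ)^(b_d)` (`d ∣ N`, `∑ a = ∑ b`, `∑ d a_d = ∑ d b_d`) which is invariant
under `Γ₀(N)` as a function on the upper half plane has its formal `q`-series
`∏ E(X^d)^(a_d) / ∏ E(X^d)^(b_d)` in `modularFunctionFieldFull N`. -/
theorem etaQuot_mem_full (N : ℕ) [NeZero N] (A B : List (ℕ × ℕ))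
    (hA : ∀ p ∈ A, p.1 ∣ N) (hB : ∀ p ∈ B, p.1 ∣ N) (hw : wt A = wt B) (ho : ord A = ord B)
    (hinv : ∀ γ ∈ Gamma0 N, ∀ τ : ℍ,
      etaFun A (γ • τ) / etaFun B (γ • τ) = etaFun A τ / etaFun B τ) :
    ofPS (etaPS A) / ofPS (etaPS B) ∈ modularFunctionFieldFull N := by
  obtain ⟨hP, hQ⟩ := isQExp_etaQuot N A B hA hB hw ho hinv
  have hB0 : ofPS (etaPS B) ≠ 0 :=
    Fermat.Agent.S28.helper4768.ofPS_ne_zero (etaPS_ne_zero B)
  refine Fermat.Agent.S18.helper4053.mem_full_of_isQExp hP hQ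
    (mul_ne_zero (pow_ne_zero _ PowerSeries.X_ne_zero) (pow_ne_zero _ (etaPS_ne_zero B))) ?_
  rw [map_mul, map_mul, map_mul, map_pow, map_pow, map_pow]
  field_simp

/-! ### Integer forms -/

/-- Total version of `PowerSeries.expand` over `ℤ` (the identity for `d = 0`). -/
def exZ (d : ℕ) : PowerSeries ℤ →+* PowerSeries ℤ :=
  if h : d = 0 then RingHom.id _
  else ((PowerSeries.expand d h : PowerSeries ℤ →ₐ[ℤ] PowerSeries ℤ) : PowerSeries ℤ →+* PowerSeries ℤ)

theorem exZ_apply {d : ℕ} (h : d ≠ 0) (s : PowerSeries ℤ) :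
    exZ d s = PowerSeries.expand d h s := by
  rw [exZ, dif_neg h]
  rfl

theorem map_exZ (d : ℕ) (s : PowerSeries ℤ) :
    (exZ d s).map (Int.castRingHom ℚ) = ex d (s.map (Int.castRingHom ℚ)) := by
  by_cases h : d = 0
  · rw [exZ, ex, dif_pos h, dif_pos h]
    rfl
  · rw [exZ_apply h, ex_apply h, PowerSeries.map_expand]

theorem constantCoeff_exZ (d : ℕ) (s : PowerSeries ℤ) :
    PowerSeries.constantCoeff (exZ d s) = PowerSeries.constantCoeff s := by
  by_cases h : d = 0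
  · rw [exZ, dif_pos h]
    rfl
  · rw [exZ_apply h, PowerSeries.constantCoeff_expand]

/-- The formal eta product `∏ E(X^d)^e` with integer coefficients. -/
def etaPSZ (l : List (ℕ × ℕ)) : PowerSeries ℤ := (l.map fun p => exZ p.1 etaProd ^ p.2).prod

@[simp] theorem etaPSZ_nil : etaPSZ [] = 1 := rfl

@[simp] theorem etaPSZ_cons (p : ℕ × ℕ) (l : List (ℕ × ℕ)) :
    etaPSZ (p :: l) = exZ p.1 etaProd ^ p.2 * etaPSZ l := by
  simp [etaPSZ]

theorem map_etaPSZ (l : List (ℕ × ℕ)) : (etaPSZ l).map (Int.castRingHom ℚ) = etaPS l := by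
  induction l with
  | nil => simp
  | cons p l ih => rw [etaPSZ_cons, etaPS_cons, map_mul, map_pow, map_exZ, ih, etaProdQ]

theorem constantCoeff_etaPSZ (l : List (ℕ × ℕ)) : PowerSeries.constantCoeff (etaPSZ l) = 1 := by
  induction l with
  | nil => simp
  | cons p l ih => simp [ih, constantCoeff_exZ, constantCoeff_etaProd]

/-- The integer power series of the eta quotient `∏ E(X^d)^(a_d) / ∏ E(X^d)^(b_d)`. -/
def etaQuotZ (A B : List (ℕ × ℕ)) : PowerSeries ℤ :=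
  etaPSZ A * PowerSeries.invOfUnit (etaPSZ B) 1

theorem etaQuotZ_mul (A B : List (ℕ × ℕ)) : etaQuotZ A B * etaPSZ B = etaPSZ A := by
  rw [etaQuotZ, mul_assoc, PowerSeries.invOfUnit_mul _ _ (by simpa using constantCoeff_etaPSZ B),
    mul_one]

theorem constantCoeff_etaQuotZ (A B : List (ℕ × ℕ)) :
    PowerSeries.constantCoeff (etaQuotZ A B) = 1 := by
  have h := congrArg PowerSeries.constantCoeff (etaQuotZ_mul A B)
  rwa [map_mul, constantCoeff_etaPSZ, constantCoeff_etaPSZ, mul_one] at h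

theorem map_etaQuotZ_mul (A B : List (ℕ × ℕ)) :
    (etaQuotZ A B).map (Int.castRingHom ℚ) * etaPS B = etaPS A := by
  rw [← map_etaPSZ B, ← map_etaPSZ A, ← map_mul, etaQuotZ_mul]

theorem ofPS_map_etaQuotZ (A B : List (ℕ × ℕ)) :
    ofPS ((etaQuotZ A B).map (Int.castRingHom ℚ)) = ofPS (etaPS A) / ofPS (etaPS B) := by
  rw [eq_div_iff (Fermat.Agent.S28.helper4768.ofPS_ne_zero (etaPS_ne_zero B)), ← map_mul,
    map_etaQuotZ_mul]

/-- **Generic half, integer-series form.** Under the hypotheses of `etaQuot_mem_full`, the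
integer power series `etaQuotZ A B` (constant term `1`) lies in `modularFunctionFieldFull N`. -/
theorem etaQuotZ_mem_full (N : ℕ) [NeZero N] (A B : List (ℕ × ℕ))
    (hA : ∀ p ∈ A, p.1 ∣ N) (hB : ∀ p ∈ B, p.1 ∣ N) (hw : wt A = wt B) (ho : ord A = ord B)
    (hinv : ∀ γ ∈ Gamma0 N, ∀ τ : ℍ,
      etaFun A (γ • τ) / etaFun B (γ • τ) = etaFun A τ / etaFun B τ) :
    ofPS ((etaQuotZ A B).map (Int.castRingHom ℚ)) ∈ modularFunctionFieldFull N := by
  rw [ofPS_map_etaQuotZ]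
  exact etaQuot_mem_full N A B hA hB hw ho hinv

end

end Fermat.Agent.S36.helper2008
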