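import Fermat.Agent.S36.helper5460_UnitEngine
import Fermat.Agent.S18.helper4053_RatioFull
import Fermat.Agent.S18.helper20_CuspInt

/-!
# S36-F2-UNIT, part 2 (helper5460): the modular unit `Δ(q^d) / Δ(q)`

* `deltaQuot N d hd : FN N` — the element `Δ(q^d)/Δ(q)` of the function field of level `N`, `d ∣ N`
  (membership: landed `S18.helper4053.qExpand_DeltaL_div_mem_full`);
* `isAvatar_deltaQuot` — its analytic avatar is `τ ↦ Δ(dτ)/Δ(τ)`;
* `atkinLehnerBar_deltaQuot` — `W_q(u) * u = q⁻¹²` for `u = Δ(q^q)/Δ(q)` at level `q * M`.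
-/

set_option autoImplicit false

open Complex UpperHalfPlane ModularCurve CongruenceSubgroup
open scoped MatrixGroups

noncomputable section

namespace Fermat.Agent.S36.helper5460

open Fermat.Agent.S24.helper24 Fermat.Agent.S24.helper504 Fermat.Agent.S24
open Fermat.Agent.S35.helper1219
open Fermat.Agent.S28.helper4768 (DeltaL DeltaQ ofPS toC)
open Fermat.Agent.S28.helper407 (pt coe_pt)
open Fermat.Agent.S28.helper2908 (CM DeltaC)

local notation "Δ" => ModularForm.discriminant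

/-! ## The element -/

/-- The rational Laurent series `Δ(q^d) / Δ(q)`. -/
def deltaQuotQ (d : ℕ) [NeZero d] : LaurentSeries ℚ := qExpand ℚ d DeltaL / DeltaL

theorem deltaQuotQ_mem_full (N d : ℕ) [NeZero N] [NeZero d] (hd : d ∣ N) :
    deltaQuotQ d ∈ modularFunctionFieldFull N := by
  have h := Fermat.Agent.S18.helper4053.qExpand_DeltaL_div_mem_full (N := N) (d := d) (e := 1)
    hd (one_dvd N)
  rwa [qExpand_one_apply] at h

/-- `Δ(q^d) / Δ(q)` as an element of the function field of level `N` over `ℚ̄`, for `d ∣ N`. -/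
def deltaQuot (N d : ℕ) [NeZero N] [NeZero d] (hd : d ∣ N) : FN N :=
  ⟨coeffEmb Kbar (deltaQuotQ d),
    coeffEmb_mem_laurentBaseChange Kbar (deltaQuotQ_mem_full N d hd)⟩

theorem coe_deltaQuot (N d : ℕ) [NeZero N] [NeZero d] (hd : d ∣ N) :
    ((deltaQuot N d hd : FN N) : LaurentSeries Kbar) = coeffEmb Kbar (deltaQuotQ d) := rfl

/-! ## The analytic avatar -/

/-- `τ ↦ Δ(dτ) / Δ(τ)`. -/
def deltaQuotFun (d : ℕ) (τ : ℍ) : ℂ := Δ (pt d 0 1 τ) * (Δ τ)⁻¹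

theorem coeffEmb_DeltaL : coeffEmb ℂ DeltaL = DeltaC := by
  rw [coeffEmb, DeltaL, coeffMap_ofPowerSeries]
  show HahnSeries.ofPowerSeries ℤ ℂ (toC DeltaQ) = DeltaC
  rw [Fermat.Agent.S28.helper4768.toC_DeltaQ]
  rfl

theorem cm_deltaQuotFun (d : ℕ) [NeZero d] :
    CM (deltaQuotFun d) (qExpand ℂ d DeltaC * DeltaC⁻¹) := by
  have h1 := Fermat.Agent.S28.helper2908.cm_discriminant_pt d
  have h2 : CM (fun τ => (Δ τ)⁻¹) DeltaC⁻¹ := by
    have h := Fermat.Agent.S28.helper2908.cm_inv_discriminant_pt 1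
    rw [qExpand_one_apply] at h
    refine h.congr fun τ => ?_
    rw [Fermat.Agent.S28.helper407.pt_one_zero_one]
  exact (h1.mul h2).congr fun τ => rfl

theorem formalC_deltaQuot (N d : ℕ) [NeZero N] [NeZero d] (hd : d ∣ N) :
    formalC N (deltaQuot N d hd) = qExpand ℂ d DeltaC * DeltaC⁻¹ := by
  rw [formalC_apply, coe_deltaQuot, coeffMap_kappa_coeffEmb, deltaQuotQ, map_div₀,
    helper3176.coeffEmb_qExpand, coeffEmb_DeltaL, div_eq_mul_inv]

theorem isAvatar_deltaQuot (N d : ℕ) [NeZero N] [NeZero d] (hd : d ∣ N) :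
    IsAvatar N (deltaQuot N d hd) (deltaQuotFun d) := by
  obtain ⟨h1, h2⟩ := cm_deltaQuotFun d
  exact ⟨h1, by rw [h2, formalC_deltaQuot]⟩

theorem deltaQuotFun_ne_zero (d : ℕ) (τ : ℍ) : deltaQuotFun d τ ≠ 0 :=
  mul_ne_zero (ModularForm.discriminant_ne_zero _) (inv_ne_zero (ModularForm.discriminant_ne_zero _))

/-! ## The Atkin–Lehner relation -/

section AL

variable (q M : ℕ) [NeZero q] [NeZero M] (h : Nat.Coprime q M)

omit [NeZero M] in
/-- For `γ ∈ SL(2, ℤ)` with bottom row `(M, q)`: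
`Δ(q · γ(qτ)) / Δ(γ(qτ)) = q⁻¹² · Δ(τ) / Δ(qτ)`. -/
theorem deltaQuotFun_smul_hpt (γ : SL(2, ℤ)) (h10 : γ 1 0 = (M : ℤ)) (h11 : γ 1 1 = (q : ℤ))
    (τ : ℍ) :
    deltaQuotFun q (γ • hpt q 0 1 τ) * deltaQuotFun q τ = ((q : ℂ) ^ 12)⁻¹ := by
  have hq0 : 0 < q := Nat.pos_of_ne_zero (NeZero.ne q)
  have hqC : (q : ℂ) ≠ 0 := Nat.cast_ne_zero.mpr (NeZero.ne q)
  have hdet := γ.det_coe
  rw [Matrix.det_fin_two, h10, h11] at hdet
  -- the Hermite decomposition `diag(q, 1) * γ = γ' * [[1, 0], [0, q]]`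
  have hdet' : Matrix.det !![(q : ℤ) * γ 0 0, γ 0 1; (M : ℤ), 1] = 1 := by
    rw [Matrix.det_fin_two_of]
    linear_combination hdet
  let γ' : SL(2, ℤ) := ⟨!![(q : ℤ) * γ 0 0, γ 0 1; (M : ℤ), 1], hdet'⟩
  have hmat : !![(q : ℤ), 0; 0, 1] * (γ : Matrix (Fin 2) (Fin 2) ℤ) =
      (γ' : Matrix (Fin 2) (Fin 2) ℤ) * !![((1 : ℕ) : ℤ), ((0 : ℕ) : ℤ); 0, (q : ℤ)] := by
    ext i j
    fin_cases i <;> fin_cases j
    · simp [γ', Matrix.mul_apply, Fin.sum_univ_two]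
    · simp [γ', Matrix.mul_apply, Fin.sum_univ_two]
      ring
    · simp [γ', Matrix.mul_apply, Fin.sum_univ_two]
      exact h10
    · simp [γ', Matrix.mul_apply, Fin.sum_univ_two]
      rw [h11]
  set σ : ℍ := hpt q 0 1 τ with hσ
  have hσpt : σ = pt q 0 1 τ := by
    apply UpperHalfPlane.ext
    rw [hσ, coe_hpt, coe_pt hq0 one_pos]
  have hτ : pt 1 0 q σ = τ := by
    apply UpperHalfPlane.ext
    rw [coe_pt one_pos hq0, hσ, coe_hpt]
    simp only [Nat.cast_zero, Nat.cast_one, add_zero, div_one, one_mul]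
    field_simp
  have h1 := Fermat.Agent.S28.helper407.discriminant_pt_smul hq0 one_pos hq0 hmat σ
  rw [hτ] at h1
  have h2 := Fermat.Agent.S28.helper407.discriminant_smul γ σ
  have hne := Fermat.Agent.S28.helper407.denom_SL2Z_ne_zero γ σ
  have hΔτ : Δ τ ≠ 0 := ModularForm.discriminant_ne_zero τ
  have hΔσ : Δ σ ≠ 0 := ModularForm.discriminant_ne_zero σ
  unfold deltaQuotFun
  rw [h1, h2, ← hσpt]
  field_simp

/-- **`W_q(Δ(q^q)/Δ(q)) · Δ(q^q)/Δ(q) = q⁻¹²`** at level `q * M`. -/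
theorem atkinLehnerBar_deltaQuot :
    atkinLehnerBar q M h (deltaQuot (q * M) q (dvd_mul_right q M)) *
        deltaQuot (q * M) q (dvd_mul_right q M) =
      algebraMap Kbar (FN (q * M)) (((q : Kbar) ^ 12)⁻¹) := by
  refine atkinLehnerBar_mul_self_of_avatar q M h _ (deltaQuotFun q)
    (isAvatar_deltaQuot (q * M) q (dvd_mul_right q M)) _ fun τ => ?_
  rw [alGL_smul, deltaQuotFun_smul_hpt q M (alGamma q M h) (alGamma_one_zero q M h)
    (alGamma_one_one q M h) τ, map_inv₀, map_pow, map_natCast]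

end AL

/-! ## The general divisor: `W_q` on `Δ(q^d)/Δ(q)` and `Δ(q^(dq))/Δ(q)`, `d ∣ M` -/

/-- `τ ↦ Δ(τ) / Δ(dτ)`, the pointwise inverse of `deltaQuotFun d`. -/
def deltaQuotInvFun (d : ℕ) (τ : ℍ) : ℂ := Δ τ * (Δ (pt d 0 1 τ))⁻¹

theorem deltaQuotFun_mul_inv (d : ℕ) (τ : ℍ) : deltaQuotFun d τ * deltaQuotInvFun d τ = 1 := by
  have h1 : Δ τ ≠ 0 := ModularForm.discriminant_ne_zero τ
  have h2 : Δ (pt d 0 1 τ) ≠ 0 := ModularForm.discriminant_ne_zero _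
  unfold deltaQuotFun deltaQuotInvFun
  field_simp

theorem cm_deltaQuotInvFun (d : ℕ) [NeZero d] :
    CM (deltaQuotInvFun d) (DeltaC * (qExpand ℂ d DeltaC)⁻¹) :=
  (Fermat.Agent.S28.helper2908.cm_discriminant.mul
    (Fermat.Agent.S28.helper2908.cm_inv_discriminant_pt d)).congr fun _ => rfl

theorem isAvatar_deltaQuot_inv (N d : ℕ) [NeZero N] [NeZero d] (hd : d ∣ N) :
    IsAvatar N (deltaQuot N d hd)⁻¹ (deltaQuotInvFun d) :=
  (isAvatar_deltaQuot N d hd).inv (cm_deltaQuotInvFun d).1 (deltaQuotFun_mul_inv d)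

theorem deltaQuot_ne_zero (N d : ℕ) [NeZero N] [NeZero d] (hd : d ∣ N) :
    deltaQuot N d hd ≠ 0 := by
  intro h0
  have h1 := (isAvatar_deltaQuot N d hd).2
  rw [h0, map_zero] at h1
  have h2 := (helper315.cuspExpFun_eq_zero_iff one_pos (isAvatar_deltaQuot N d hd).1).mp h1
  exact deltaQuotFun_ne_zero d UpperHalfPlane.I (congrFun h2 _)

theorem pt_pt_one {a b : ℕ} (ha : 0 < a) (hb : 0 < b) (τ : ℍ) :
    pt a 0 1 (pt b 0 1 τ) = pt (a * b) 0 1 τ := by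
  apply UpperHalfPlane.ext
  rw [coe_pt ha one_pos, coe_pt hb one_pos, coe_pt (Nat.mul_pos ha hb) one_pos]
  push_cast
  ring

section ALgen

variable (q M : ℕ) [NeZero q] [NeZero M] (h : Nat.Coprime q M)

omit [NeZero M] in
/-- For `γ ∈ SL(2, ℤ)` with bottom row `(M, q)` and `d ∣ M`:
`Δ(d · γ(qτ)) / Δ(γ(qτ)) = Δ(dqτ) / Δ(qτ)`. -/
theorem deltaQuotFun_smul_hpt_left (γ : SL(2, ℤ)) (h10 : γ 1 0 = (M : ℤ))
    {d : ℕ} (hd0 : 0 < d) (hd : d ∣ M) (τ : ℍ) :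
    deltaQuotFun d (γ • hpt q 0 1 τ) = deltaQuotFun (d * q) τ * deltaQuotInvFun q τ := by
  have hq0 : 0 < q := Nat.pos_of_ne_zero (NeZero.ne q)
  set σ : ℍ := hpt q 0 1 τ with hσ
  have hσpt : σ = pt q 0 1 τ := by
    apply UpperHalfPlane.ext
    rw [hσ, coe_hpt, coe_pt hq0 one_pos]
  have hγ : γ ∈ Gamma0 M := by
    rw [Gamma0_mem, h10]
    simp
  have h1 := Fermat.Agent.S28.helper407.discriminant_pt_smul_of_mem_Gamma0 hd0 hd hγ σ
  have h2 := Fermat.Agent.S28.helper407.discriminant_smul γ σ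
  have hne := Fermat.Agent.S28.helper407.denom_SL2Z_ne_zero γ σ
  have hΔτ : Δ τ ≠ 0 := ModularForm.discriminant_ne_zero τ
  have hΔσ : Δ σ ≠ 0 := ModularForm.discriminant_ne_zero σ
  have h3 : pt d 0 1 σ = pt (d * q) 0 1 τ := by rw [hσpt, pt_pt_one hd0 hq0]
  unfold deltaQuotFun deltaQuotInvFun
  rw [h1, h2, h3, ← hσpt]
  field_simp

omit [NeZero M] in
/-- For `γ ∈ SL(2, ℤ)` with bottom row `(M, q)` and `d ∣ M`:
`Δ(dq · γ(qτ)) / Δ(γ(qτ)) = q⁻¹² Δ(dτ) / Δ(qτ)`. -/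
theorem deltaQuotFun_smul_hpt_right (γ : SL(2, ℤ)) (h10 : γ 1 0 = (M : ℤ))
    (h11 : γ 1 1 = (q : ℤ)) {d : ℕ} (hd0 : 0 < d) (hd : d ∣ M) (τ : ℍ) :
    deltaQuotFun (d * q) (γ • hpt q 0 1 τ) =
      ((q : ℂ) ^ 12)⁻¹ * (deltaQuotFun d τ * deltaQuotInvFun q τ) := by
  have hq0 : 0 < q := Nat.pos_of_ne_zero (NeZero.ne q)
  have hqC : (q : ℂ) ≠ 0 := Nat.cast_ne_zero.mpr (NeZero.ne q)
  obtain ⟨m, hm⟩ := hd
  have hdet := γ.det_coe
  rw [Matrix.det_fin_two, h10, h11] at hdet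
  have hdet' : Matrix.det !![(q : ℤ) * γ 0 0, (d : ℤ) * γ 0 1; (m : ℤ), 1] = 1 := by
    rw [Matrix.det_fin_two_of]
    have hM : (M : ℤ) = (d : ℤ) * (m : ℤ) := by exact_mod_cast hm
    rw [hM] at hdet
    linear_combination hdet
  let γ' : SL(2, ℤ) := ⟨!![(q : ℤ) * γ 0 0, (d : ℤ) * γ 0 1; (m : ℤ), 1], hdet'⟩
  have hmat : !![((d * q : ℕ) : ℤ), 0; 0, 1] * (γ : Matrix (Fin 2) (Fin 2) ℤ) =
      (γ' : Matrix (Fin 2) (Fin 2) ℤ) * !![(d : ℤ), ((0 : ℕ) : ℤ); 0, (q : ℤ)] := by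
    have hM : (M : ℤ) = (d : ℤ) * (m : ℤ) := by exact_mod_cast hm
    ext i j
    fin_cases i <;> fin_cases j
    · simp [γ', Matrix.mul_apply, Fin.sum_univ_two]
      ring
    · simp [γ', Matrix.mul_apply, Fin.sum_univ_two]
      ring
    · simp [γ', Matrix.mul_apply, Fin.sum_univ_two]
      rw [h10, hM]
      ring
    · simp [γ', Matrix.mul_apply, Fin.sum_univ_two]
      rw [h11]
  set σ : ℍ := hpt q 0 1 τ with hσ
  have hσpt : σ = pt q 0 1 τ := by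
    apply UpperHalfPlane.ext
    rw [hσ, coe_hpt, coe_pt hq0 one_pos]
  have hτ : pt d 0 q σ = pt d 0 1 τ := by
    apply UpperHalfPlane.ext
    rw [coe_pt hd0 hq0, coe_pt hd0 one_pos, hσ, coe_hpt]
    simp only [Nat.cast_zero, Nat.cast_one, add_zero, div_one]
    field_simp
  have h1 := Fermat.Agent.S28.helper407.discriminant_pt_smul (Nat.mul_pos hd0 hq0) hd0 hq0 hmat σ
  rw [hτ] at h1
  have h2 := Fermat.Agent.S28.helper407.discriminant_smul γ σ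
  have hne := Fermat.Agent.S28.helper407.denom_SL2Z_ne_zero γ σ
  have hΔτ : Δ τ ≠ 0 := ModularForm.discriminant_ne_zero τ
  have hΔσ : Δ σ ≠ 0 := ModularForm.discriminant_ne_zero σ
  unfold deltaQuotFun deltaQuotInvFun
  rw [h1, h2, ← hσpt]
  field_simp

/-- **`W_q(Δ(q^d)/Δ(q)) = Δ(q^(dq))/Δ(q^q)`** at level `q * M`, `d ∣ M`. -/
theorem atkinLehnerBar_deltaQuot_left {d : ℕ} [NeZero d] (hd : d ∣ M)
    (h1 : d ∣ q * M) (h2 : d * q ∣ q * M) :
    atkinLehnerBar q M h (deltaQuot (q * M) d h1) =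
      deltaQuot (q * M) (d * q) h2 / deltaQuot (q * M) q (dvd_mul_right q M) := by
  have hd0 : 0 < d := Nat.pos_of_ne_zero (NeZero.ne d)
  refine atkinLehnerBar_eq_of_avatar q M h _ _ (deltaQuotFun d)
    (deltaQuotFun (d * q) * deltaQuotInvFun q) (isAvatar_deltaQuot (q * M) d h1)
    ((isAvatar_deltaQuot (q * M) (d * q) h2).div (isAvatar_deltaQuot (q * M) q _)
      (cm_deltaQuotInvFun q).1 (deltaQuotFun_mul_inv q)) fun τ => ?_
  rw [alGL_smul, deltaQuotFun_smul_hpt_left q M (alGamma q M h) (alGamma_one_zero q M h) hd0 hd τ]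
  rfl

/-- **`W_q(Δ(q^(dq))/Δ(q)) = q⁻¹² Δ(q^d)/Δ(q^q)`** at level `q * M`, `d ∣ M`. -/
theorem atkinLehnerBar_deltaQuot_right {d : ℕ} [NeZero d] (hd : d ∣ M)
    (h1 : d ∣ q * M) (h2 : d * q ∣ q * M) :
    atkinLehnerBar q M h (deltaQuot (q * M) (d * q) h2) =
      algebraMap Kbar (FN (q * M)) (((q : Kbar) ^ 12)⁻¹) *
        (deltaQuot (q * M) d h1 / deltaQuot (q * M) q (dvd_mul_right q M)) := by
  have hd0 : 0 < d := Nat.pos_of_ne_zero (NeZero.ne d)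
  have hconst : IsAvatar (q * M) (algebraMap Kbar (FN (q * M)) (((q : Kbar) ^ 12)⁻¹))
      (fun _ => ((q : ℂ) ^ 12)⁻¹) := by
    refine ⟨(helper315.IsCuspHol.const 1 _).isCuspMer, ?_⟩
    rw [helper315.cuspExpFun_const one_pos, formalC_algebraMap]
    congr 1
    rw [map_inv₀, map_pow, map_natCast]
  refine atkinLehnerBar_eq_of_avatar q M h _ _ (deltaQuotFun (d * q))
    ((fun _ => ((q : ℂ) ^ 12)⁻¹) * (deltaQuotFun d * deltaQuotInvFun q))
    (isAvatar_deltaQuot (q * M) (d * q) h2)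
    (hconst.mul ((isAvatar_deltaQuot (q * M) d h1).div (isAvatar_deltaQuot (q * M) q _)
      (cm_deltaQuotInvFun q).1 (deltaQuotFun_mul_inv q))) fun τ => ?_
  rw [alGL_smul, deltaQuotFun_smul_hpt_right q M (alGamma q M h) (alGamma_one_zero q M h)
    (alGamma_one_one q M h) hd0 hd τ]
  rfl

/-- **The `d`-shifted unit** `y_d = Δ(q^d)/Δ(q^(dq))`, `d ∣ M`: `W_q(y_d) * y_d = q¹²`. -/
theorem atkinLehnerBar_deltaQuot_shift {d : ℕ} [NeZero d] (hd : d ∣ M)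
    (h1 : d ∣ q * M) (h2 : d * q ∣ q * M) :
    atkinLehnerBar q M h (deltaQuot (q * M) d h1 / deltaQuot (q * M) (d * q) h2) *
        (deltaQuot (q * M) d h1 / deltaQuot (q * M) (d * q) h2) =
      algebraMap Kbar (FN (q * M)) ((q : Kbar) ^ 12) := by
  have hq : ((q : Kbar) ^ 12) ≠ 0 := pow_ne_zero _ (Nat.cast_ne_zero.mpr (NeZero.ne q))
  have hqF : algebraMap Kbar (FN (q * M)) ((q : Kbar) ^ 12) ≠ 0 := by
    rw [Ne, map_eq_zero_iff _ (algebraMap Kbar (FN (q * M))).injective]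
    exact hq
  have ha := deltaQuot_ne_zero (q * M) d h1
  have hb := deltaQuot_ne_zero (q * M) (d * q) h2
  have hc := deltaQuot_ne_zero (q * M) q (dvd_mul_right q M)
  rw [map_div₀, atkinLehnerBar_deltaQuot_left q M h hd h1 h2,
    atkinLehnerBar_deltaQuot_right q M h hd h1 h2, map_inv₀]
  field_simp

end ALgen

end Fermat.Agent.S36.helper5460
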