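/-
S36-F2-ETAUNIT-W (helper2008): the Atkin–Lehner relation of the weight-one eta units, in
function-field vocabulary, purely algebraically.

For `f = ∏ E(x^d)^(r_d)` of weight one and level `M` (`q` coprime to `M`) and
`Y₀ = f(x)/f(x^q) ∈ FN (q * M)`:  `W_q(Y₀) * Y₀ = c * q` with `c ^ 24 = 1`.

Proof: `Y₀ ^ 24 = ∏ (Δ(x^d)/Δ(x^(dq)))^(r_d)` formally, `W_q(y_d) * y_d = q ^ 12` for
`y_d = Δ(x^d)/Δ(x^(dq))` (`helper5460.atkinLehnerBar_deltaQuot_shift`), and a 24th root of unity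
in the field `FN (q * M)` is a constant.
-/
import Mathlib
import Fermat.Agent.S36.helper2008_EtaQuot
import Fermat.Agent.S36.helper5460_DeltaUnit

open UpperHalfPlane ModularForm CongruenceSubgroup Matrix ModularCurve
open scoped MatrixGroups

namespace Fermat.Agent.S36.helper2008

open Fermat.Agent.S24.helper24 (Kbar FN)
open Fermat.Agent.S35.helper1219 (atkinLehnerBar)
open Fermat.Agent.S36.helper5460 (deltaQuotQ deltaQuot coe_deltaQuot deltaQuot_ne_zero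
  atkinLehnerBar_deltaQuot_shift)
open Fermat.Agent.S28.helper4768 (ofPS DeltaL DeltaQ DeltaL_ne_zero qExpand_ofPS ofPS_ne_zero)

noncomputable section

/-! ### Formal side: `(eta quotient)^24` as a `Δ`-quotient -/

/-- Total version of `helper5460.deltaQuotQ` (`1` for `d = 0`). -/
def dqQ (d : ℕ) : LaurentSeries ℚ :=
  if h : d = 0 then 1 else (haveI : NeZero d := ⟨h⟩; deltaQuotQ d)

theorem dqQ_of_neZero (d : ℕ) [NeZero d] : dqQ d = deltaQuotQ d := by
  rw [dqQ, dif_neg (NeZero.ne d)]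

theorem ofPS_ex_pow {d : ℕ} (hd : d ≠ 0) :
    ofPS (ex d etaProdQ) ^ 24 * ofPS PowerSeries.X ^ d = dqQ d * DeltaL := by
  have : NeZero d := ⟨hd⟩
  rw [dqQ_of_neZero, deltaQuotQ, div_mul_cancel₀ _ DeltaL_ne_zero, DeltaL, qExpand_ofPS,
    DeltaQ_eq, ex_apply hd]
  simp only [map_mul, map_pow, PowerSeries.expand_X]
  ring

/-- `∏ (Δ(x^d)/Δ(x))^e` over a list of pairs `(d, e)`. -/
def dProdQ (l : List (ℕ × ℕ)) : LaurentSeries ℚ := (l.map fun p => dqQ p.1 ^ p.2).prod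

@[simp] theorem dProdQ_nil : dProdQ [] = 1 := rfl

@[simp] theorem dProdQ_cons (p : ℕ × ℕ) (l : List (ℕ × ℕ)) :
    dProdQ (p :: l) = dqQ p.1 ^ p.2 * dProdQ l := by
  simp [dProdQ]

theorem ofPS_etaPS_pow (l : List (ℕ × ℕ)) (hl : ∀ p ∈ l, p.1 ≠ 0) :
    ofPS (etaPS l) ^ 24 * ofPS PowerSeries.X ^ ord l = dProdQ l * DeltaL ^ wt l := by
  induction l with
  | nil => simp
  | cons p l ih =>
    have h1 := ofPS_ex_pow (hl p List.mem_cons_self)
    have h2 := ih fun r hr => hl r (List.mem_cons_of_mem _ hr)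
    rw [etaPS_cons, ord_cons, wt_cons, dProdQ_cons, map_mul, map_pow]
    calc (ofPS (ex p.1 etaProdQ) ^ p.2 * ofPS (etaPS l)) ^ 24 *
          ofPS PowerSeries.X ^ (p.1 * p.2 + ord l)
        = (ofPS (ex p.1 etaProdQ) ^ 24 * ofPS PowerSeries.X ^ p.1) ^ p.2 *
            (ofPS (etaPS l) ^ 24 * ofPS PowerSeries.X ^ ord l) := by ring
      _ = dqQ p.1 ^ p.2 * dProdQ l * DeltaL ^ (p.2 + wt l) := by rw [h1, h2]; ring

/-- **The 24th power of a weight-zero eta quotient is a `Δ`-quotient.** -/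
theorem etaQuot_pow_24 (A B : List (ℕ × ℕ)) (hA : ∀ p ∈ A, p.1 ≠ 0) (hB : ∀ p ∈ B, p.1 ≠ 0)
    (hw : wt A = wt B) (ho : ord A = ord B) :
    (ofPS (etaPS A) / ofPS (etaPS B)) ^ 24 * dProdQ B = dProdQ A := by
  have hb : ofPS (etaPS B) ≠ 0 := ofPS_ne_zero (etaPS_ne_zero B)
  have hX : ofPS PowerSeries.X ≠ 0 := ofPS_ne_zero PowerSeries.X_ne_zero
  have h1 := ofPS_etaPS_pow A hA
  have h2 := ofPS_etaPS_pow B hB
  rw [hw, ho] at h1
  have hne : ofPS (etaPS B) ^ 24 * (ofPS PowerSeries.X ^ ord B * DeltaL ^ wt B) ≠ 0 :=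
    mul_ne_zero (pow_ne_zero _ hb) (mul_ne_zero (pow_ne_zero _ hX) (pow_ne_zero _ DeltaL_ne_zero))
  apply mul_right_cancel₀ hne
  rw [div_pow]
  calc ofPS (etaPS A) ^ 24 / ofPS (etaPS B) ^ 24 * dProdQ B *
        (ofPS (etaPS B) ^ 24 * (ofPS PowerSeries.X ^ ord B * DeltaL ^ wt B))
      = (ofPS (etaPS A) ^ 24 * ofPS PowerSeries.X ^ ord B) * (dProdQ B * DeltaL ^ wt B) := by
        field_simp
    _ = dProdQ A * (ofPS (etaPS B) ^ 24 * (ofPS PowerSeries.X ^ ord B * DeltaL ^ wt B)) := by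
        rw [h1, ← h2]; ring

theorem dProdQ_ne_zero (l : List (ℕ × ℕ)) (hl : ∀ p ∈ l, p.1 ≠ 0) : dProdQ l ≠ 0 := by
  intro h0
  have h := ofPS_etaPS_pow l hl
  rw [h0, zero_mul] at h
  exact mul_ne_zero (pow_ne_zero _ (ofPS_ne_zero (etaPS_ne_zero l)))
    (pow_ne_zero _ (ofPS_ne_zero PowerSeries.X_ne_zero)) h

/-! ### Function-field side -/

/-- Total version of `helper5460.deltaQuot` (`1` if `d ∤ N`). -/
def dq (N : ℕ) [NeZero N] (d : ℕ) : FN N :=
  if hd : d ∣ N then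
    (haveI : NeZero d := ⟨ne_zero_of_dvd_ne_zero (NeZero.ne N) hd⟩; deltaQuot N d hd)
  else 1

theorem dq_of_dvd (N d : ℕ) [NeZero N] [NeZero d] (hd : d ∣ N) : dq N d = deltaQuot N d hd := by
  rw [dq, dif_pos hd]

theorem coe_dq (N : ℕ) [NeZero N] {d : ℕ} (hd : d ∣ N) :
    ((dq N d : FN N) : LaurentSeries Kbar) = coeffEmb Kbar (dqQ d) := by
  have : NeZero d := ⟨ne_zero_of_dvd_ne_zero (NeZero.ne N) hd⟩
  rw [dq_of_dvd N d hd, coe_deltaQuot, dqQ_of_neZero]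

theorem dq_ne_zero (N : ℕ) [NeZero N] (d : ℕ) : dq N d ≠ 0 := by
  by_cases hd : d ∣ N
  · have : NeZero d := ⟨ne_zero_of_dvd_ne_zero (NeZero.ne N) hd⟩
    rw [dq_of_dvd N d hd]
    exact deltaQuot_ne_zero N d hd
  · rw [dq, dif_neg hd]
    exact one_ne_zero

/-- `∏ (Δ(x^d)/Δ(x))^e` in the function field of level `N`. -/
def dProd (N : ℕ) [NeZero N] (l : List (ℕ × ℕ)) : FN N := (l.map fun p => dq N p.1 ^ p.2).prod

@[simp] theorem dProd_nil (N : ℕ) [NeZero N] : dProd N [] = 1 := rfl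

@[simp] theorem dProd_cons (N : ℕ) [NeZero N] (p : ℕ × ℕ) (l : List (ℕ × ℕ)) :
    dProd N (p :: l) = dq N p.1 ^ p.2 * dProd N l := by
  simp [dProd]

theorem dProd_append (N : ℕ) [NeZero N] (l l' : List (ℕ × ℕ)) :
    dProd N (l ++ l') = dProd N l * dProd N l' := by
  simp [dProd]

theorem dProd_ne_zero (N : ℕ) [NeZero N] (l : List (ℕ × ℕ)) : dProd N l ≠ 0 := by
  induction l with
  | nil => simp
  | cons p l ih =>
    rw [dProd_cons]
    exact mul_ne_zero (pow_ne_zero _ (dq_ne_zero N p.1)) ih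

theorem coe_dProd (N : ℕ) [NeZero N] (l : List (ℕ × ℕ)) (hl : ∀ p ∈ l, p.1 ∣ N) :
    ((dProd N l : FN N) : LaurentSeries Kbar) = coeffEmb Kbar (dProdQ l) := by
  induction l with
  | nil => simp
  | cons p l ih =>
    rw [dProd_cons, dProdQ_cons, MulMemClass.coe_mul, SubmonoidClass.coe_pow,
      coe_dq N (hl p List.mem_cons_self), ih fun r hr => hl r (List.mem_cons_of_mem _ hr),
      map_mul, map_pow]

/-! ### Lists of `f(x)/f(x^q)` -/

/-- `(d, e) ↦ (d * q, e)`. -/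
def scale (q : ℕ) (l : List (ℕ × ℕ)) : List (ℕ × ℕ) := l.map fun p => (p.1 * q, p.2)

@[simp] theorem scale_nil (q : ℕ) : scale q [] = [] := rfl

@[simp] theorem scale_cons (q : ℕ) (p : ℕ × ℕ) (l : List (ℕ × ℕ)) :
    scale q (p :: l) = (p.1 * q, p.2) :: scale q l := rfl

theorem wt_scale (q : ℕ) (l : List (ℕ × ℕ)) : wt (scale q l) = wt l := by
  induction l with
  | nil => rfl
  | cons p l ih => rw [scale_cons, wt_cons, wt_cons, ih]

theorem ord_scale (q : ℕ) (l : List (ℕ × ℕ)) : ord (scale q l) = ord l * q := by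
  induction l with
  | nil => simp
  | cons p l ih =>
    rw [scale_cons, ord_cons, ord_cons, ih]
    ring

theorem wt_append (l l' : List (ℕ × ℕ)) : wt (l ++ l') = wt l + wt l' := by
  simp [wt]

theorem ord_append (l l' : List (ℕ × ℕ)) : ord (l ++ l') = ord l + ord l' := by
  simp [ord]

/-- Numerator list of `f(x)/f(x^q)` for `f = ∏_{A₀} E(x^d)^e / ∏_{B₀} E(x^d)^e`. -/
def unitA (q : ℕ) (A₀ B₀ : List (ℕ × ℕ)) : List (ℕ × ℕ) := A₀ ++ scale q B₀

/-- Denominator list of `f(x)/f(x^q)`. -/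
def unitB (q : ℕ) (A₀ B₀ : List (ℕ × ℕ)) : List (ℕ × ℕ) := B₀ ++ scale q A₀

/-! ### The Atkin–Lehner relation -/

theorem atkinLehnerBar_dProd_shift (q M : ℕ) [NeZero q] [NeZero M] (h : Nat.Coprime q M)
    (l : List (ℕ × ℕ)) (hl : ∀ p ∈ l, p.1 ∣ M) :
    atkinLehnerBar q M h (dProd (q * M) l / dProd (q * M) (scale q l)) *
        (dProd (q * M) l / dProd (q * M) (scale q l)) =
      algebraMap Kbar (FN (q * M)) ((q : Kbar) ^ (12 * wt l)) := by
  induction l with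
  | nil => simp
  | cons p l ih =>
    have hp : p.1 ∣ M := hl p List.mem_cons_self
    have : NeZero p.1 := ⟨ne_zero_of_dvd_ne_zero (NeZero.ne M) hp⟩
    have h1 : p.1 ∣ q * M := hp.mul_left q
    have h2 : p.1 * q ∣ q * M := by
      rw [mul_comm]
      exact Nat.mul_dvd_mul_left q hp
    have hs := atkinLehnerBar_deltaQuot_shift q M h hp h1 h2
    have ih' := ih fun r hr => hl r (List.mem_cons_of_mem _ hr)
    have e : dProd (q * M) (p :: l) / dProd (q * M) (scale q (p :: l)) =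
        (deltaQuot (q * M) p.1 h1 / deltaQuot (q * M) (p.1 * q) h2) ^ p.2 *
          (dProd (q * M) l / dProd (q * M) (scale q l)) := by
      rw [scale_cons, dProd_cons, dProd_cons, dq_of_dvd _ _ h1, dq_of_dvd _ _ h2, div_pow,
        div_mul_div_comm]
    rw [e, map_mul, map_pow]
    calc atkinLehnerBar q M h (deltaQuot (q * M) p.1 h1 / deltaQuot (q * M) (p.1 * q) h2) ^ p.2 *
          atkinLehnerBar q M h (dProd (q * M) l / dProd (q * M) (scale q l)) *
          ((deltaQuot (q * M) p.1 h1 / deltaQuot (q * M) (p.1 * q) h2) ^ p.2 *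
            (dProd (q * M) l / dProd (q * M) (scale q l)))
        = (atkinLehnerBar q M h (deltaQuot (q * M) p.1 h1 / deltaQuot (q * M) (p.1 * q) h2) *
            (deltaQuot (q * M) p.1 h1 / deltaQuot (q * M) (p.1 * q) h2)) ^ p.2 *
          (atkinLehnerBar q M h (dProd (q * M) l / dProd (q * M) (scale q l)) *
            (dProd (q * M) l / dProd (q * M) (scale q l))) := by ring
      _ = algebraMap Kbar (FN (q * M)) ((q : Kbar) ^ (12 * wt (p :: l))) := by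
        rw [hs, ih', wt_cons, ← map_pow, ← map_mul, ← pow_mul, ← pow_add]
        congr 2
        ring

/-- An element of a field containing an algebraically closed field `K` whose 24th power is `1`
is a constant. -/
theorem exists_const_of_pow_eq_one {K F : Type*} [Field K] [IsAlgClosed K] [Field F] [Algebra K F]
    {x : F} {n : ℕ} (hn : n ≠ 0) (hx : x ^ n = 1) : ∃ c : K, c ^ n = 1 ∧ x = algebraMap K F c := by
  have hint : IsIntegral K x := by
    refine ⟨Polynomial.X ^ n - 1, Polynomial.monic_X_pow_sub_C 1 hn, ?_⟩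
    simp [hx]
  have hdeg : (minpoly K x).degree = 1 :=
    IsAlgClosed.degree_eq_one_of_irreducible K (minpoly.irreducible hint)
  obtain ⟨c, hc⟩ := minpoly.mem_range_of_degree_eq_one K x hdeg
  refine ⟨c, ?_, hc.symm⟩
  apply (algebraMap K F).injective
  rw [map_pow, hc, hx, map_one]

/-- Field algebra behind `exists_atkinLehnerBar_mul_self`. -/
theorem pow_24_eq_one_aux {K F : Type*} [Field K] [Field F] [Algebra K F] (W : F →+* F)
    (Y a b sa sb : F) (qK : K) (wA wB : ℕ) (hq : qK ≠ 0) (hb : b ≠ 0) (hsa : sa ≠ 0)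
    (hsb : sb ≠ 0) (h24 : Y ^ 24 * (b * sa) = a * sb)
    (hWA : W (a / sa) * (a / sa) = algebraMap K F (qK ^ (12 * wA)))
    (hWB : W (b / sb) * (b / sb) = algebraMap K F (qK ^ (12 * wB))) (hw : wA = wB + 2) :
    (W Y * Y * (algebraMap K F qK)⁻¹) ^ 24 = 1 := by
  have hqF : algebraMap K F qK ≠ 0 := (map_ne_zero (algebraMap K F)).mpr hq
  have hY : Y ^ 24 = (a / sa) / (b / sb) := by
    rw [div_div_div_eq, eq_div_iff (mul_ne_zero hsa hb)]
    linear_combination h24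
  have hyB : b / sb ≠ 0 := div_ne_zero hb hsb
  have hWyB : W (b / sb) ≠ 0 := (map_ne_zero W).mpr hyB
  have h1 : W (Y ^ 24) * Y ^ 24 * (W (b / sb) * (b / sb)) = W (a / sa) * (a / sa) := by
    rw [hY, map_div₀]
    field_simp
  rw [hWA, hWB, hw] at h1
  have h2 : (W Y * Y) ^ 24 = algebraMap K F qK ^ 24 := by
    have e1 : (W Y * Y) ^ 24 = W (Y ^ 24) * Y ^ 24 := by rw [map_pow, mul_pow]
    rw [e1]
    apply mul_right_cancel₀ (b := algebraMap K F (qK ^ (12 * wB)))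
      ((map_ne_zero (algebraMap K F)).mpr (pow_ne_zero _ hq))
    rw [h1, ← map_pow, ← map_mul, ← pow_add]
    congr 2
    ring
  rw [mul_pow, h2, inv_pow, mul_inv_cancel₀ (pow_ne_zero _ hqF)]

/-- **The Atkin–Lehner relation of a weight-one eta unit**, function-field form.
`A₀`, `B₀` : numerator and denominator lists of `f` (level `M`, `wt A₀ = wt B₀ + 2`, i.e.
weight one; `ord A₀ = ord B₀`), `Y₀ ∈ FN (q * M)` with expansion `f(x)/f(x^q)`. Then
`W_q(Y₀) * Y₀ = c * q` with `c ^ 24 = 1`. -/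
theorem exists_atkinLehnerBar_mul_self (q M : ℕ) [NeZero q] [NeZero M] (h : Nat.Coprime q M)
    (A₀ B₀ : List (ℕ × ℕ)) (hA₀ : ∀ p ∈ A₀, p.1 ∣ M) (hB₀ : ∀ p ∈ B₀, p.1 ∣ M)
    (hw : wt A₀ = wt B₀ + 2) (ho : ord A₀ = ord B₀) (Y₀ : FN (q * M))
    (hY₀ : (Y₀ : LaurentSeries Kbar) =
      coeffEmb Kbar (ofPS (etaPS (unitA q A₀ B₀)) / ofPS (etaPS (unitB q A₀ B₀)))) :
    ∃ c : Kbar, c ^ 24 = 1 ∧
      atkinLehnerBar q M h Y₀ * Y₀ = algebraMap Kbar (FN (q * M)) (c * q) := by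
  have hM : M ≠ 0 := NeZero.ne M
  have hq : q ≠ 0 := NeZero.ne q
  have hqK : (q : Kbar) ≠ 0 := Nat.cast_ne_zero.mpr hq
  -- divisibility facts
  have hsA : ∀ p ∈ scale q A₀, p.1 ∣ q * M := by
    intro p hp
    obtain ⟨r, hr, rfl⟩ := List.mem_map.mp hp
    show r.1 * q ∣ q * M
    rw [mul_comm]
    exact Nat.mul_dvd_mul_left q (hA₀ r hr)
  have hsB : ∀ p ∈ scale q B₀, p.1 ∣ q * M := by
    intro p hp
    obtain ⟨r, hr, rfl⟩ := List.mem_map.mp hp
    show r.1 * q ∣ q * M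
    rw [mul_comm]
    exact Nat.mul_dvd_mul_left q (hB₀ r hr)
  have hA : ∀ p ∈ unitA q A₀ B₀, p.1 ∣ q * M := by
    intro p hp
    rcases List.mem_append.mp hp with hp | hp
    · exact (hA₀ p hp).mul_left q
    · exact hsB p hp
  have hB : ∀ p ∈ unitB q A₀ B₀, p.1 ∣ q * M := by
    intro p hp
    rcases List.mem_append.mp hp with hp | hp
    · exact (hB₀ p hp).mul_left q
    · exact hsA p hp
  have hN : q * M ≠ 0 := Nat.mul_ne_zero hq hM
  have hA0 : ∀ p ∈ unitA q A₀ B₀, p.1 ≠ 0 := fun p hp => ne_zero_of_dvd_ne_zero hN (hA p hp)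
  have hB0 : ∀ p ∈ unitB q A₀ B₀, p.1 ≠ 0 := fun p hp => ne_zero_of_dvd_ne_zero hN (hB p hp)
  have hwt : wt (unitA q A₀ B₀) = wt (unitB q A₀ B₀) := by
    rw [unitA, unitB, wt_append, wt_append, wt_scale, wt_scale, add_comm]
  have hord : ord (unitA q A₀ B₀) = ord (unitB q A₀ B₀) := by
    rw [unitA, unitB, ord_append, ord_append, ord_scale, ord_scale, ho]
  -- `Y₀ ^ 24` is the `Δ`-quotient
  have h24 : Y₀ ^ 24 * (dProd (q * M) B₀ * dProd (q * M) (scale q A₀)) =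
      dProd (q * M) A₀ * dProd (q * M) (scale q B₀) := by
    rw [← dProd_append, ← dProd_append]
    apply Subtype.ext
    rw [MulMemClass.coe_mul, SubmonoidClass.coe_pow, hY₀,
      coe_dProd (q * M) (B₀ ++ scale q A₀) hB, coe_dProd (q * M) (A₀ ++ scale q B₀) hA,
      ← map_pow, ← map_mul]
    exact congrArg _ (etaQuot_pow_24 _ _ hA0 hB0 hwt hord)
  have hx := pow_24_eq_one_aux (K := Kbar) (atkinLehnerBar q M h : FN (q * M) →+* FN (q * M))
    Y₀ (dProd (q * M) A₀) (dProd (q * M) B₀) (dProd (q * M) (scale q A₀))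
    (dProd (q * M) (scale q B₀)) (q : Kbar) (wt A₀) (wt B₀) hqK (dProd_ne_zero _ _)
    (dProd_ne_zero _ _) (dProd_ne_zero _ _) h24 (atkinLehnerBar_dProd_shift q M h A₀ hA₀)
    (atkinLehnerBar_dProd_shift q M h B₀ hB₀) hw
  obtain ⟨c, hc, hxc⟩ := exists_const_of_pow_eq_one (K := Kbar) (by norm_num : (24 : ℕ) ≠ 0) hx
  have hqF : algebraMap Kbar (FN (q * M)) (q : Kbar) ≠ 0 :=
    (map_ne_zero (algebraMap Kbar (FN (q * M)))).mpr hqK
  refine ⟨c, hc, ?_⟩
  rw [map_mul, ← hxc]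
  exact (inv_mul_cancel_right₀ hqF _).symm

/-- **Package: membership + Atkin–Lehner relation** for the eta unit `f(x)/f(x^q)` of a weight-one
eta quotient `f` of level `M`, given its analytic `Γ₀(q M)`-invariance. This is the input
structure of the level-`q²` consequences (`Y₀ : FN (q * M)`, `W_q(Y₀) * Y₀ = c * q`, `c ≠ 0`),
with the expansion of `Y₀` identified as the integer series `etaQuotZ` (constant term `1`). -/
theorem exists_etaUnit_atkinLehner (q M : ℕ) [NeZero q] [NeZero M] (h : Nat.Coprime q M)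
    (A₀ B₀ : List (ℕ × ℕ)) (hA₀ : ∀ p ∈ A₀, p.1 ∣ M) (hB₀ : ∀ p ∈ B₀, p.1 ∣ M)
    (hw : wt A₀ = wt B₀ + 2) (ho : ord A₀ = ord B₀)
    (hinv : ∀ γ ∈ Gamma0 (q * M), ∀ τ : ℍ,
      etaFun (unitA q A₀ B₀) (γ • τ) / etaFun (unitB q A₀ B₀) (γ • τ) =
        etaFun (unitA q A₀ B₀) τ / etaFun (unitB q A₀ B₀) τ) :
    ∃ (Y₀ : FN (q * M)) (c : Kbar), c ^ 24 = 1 ∧
      (Y₀ : LaurentSeries Kbar) = coeffEmb Kbar
        (ofPS ((etaQuotZ (unitA q A₀ B₀) (unitB q A₀ B₀)).map (Int.castRingHom ℚ))) ∧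
      atkinLehnerBar q M h Y₀ * Y₀ = algebraMap Kbar (FN (q * M)) (c * q) := by
  have hsA : ∀ p ∈ scale q A₀, p.1 ∣ q * M := by
    intro p hp
    obtain ⟨r, hr, rfl⟩ := List.mem_map.mp hp
    show r.1 * q ∣ q * M
    rw [mul_comm]
    exact Nat.mul_dvd_mul_left q (hA₀ r hr)
  have hsB : ∀ p ∈ scale q B₀, p.1 ∣ q * M := by
    intro p hp
    obtain ⟨r, hr, rfl⟩ := List.mem_map.mp hp
    show r.1 * q ∣ q * M
    rw [mul_comm]
    exact Nat.mul_dvd_mul_left q (hB₀ r hr)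
  have hA : ∀ p ∈ unitA q A₀ B₀, p.1 ∣ q * M := by
    intro p hp
    rcases List.mem_append.mp hp with hp | hp
    · exact (hA₀ p hp).mul_left q
    · exact hsB p hp
  have hB : ∀ p ∈ unitB q A₀ B₀, p.1 ∣ q * M := by
    intro p hp
    rcases List.mem_append.mp hp with hp | hp
    · exact (hB₀ p hp).mul_left q
    · exact hsA p hp
  have hwt : wt (unitA q A₀ B₀) = wt (unitB q A₀ B₀) := by
    rw [unitA, unitB, wt_append, wt_append, wt_scale, wt_scale, add_comm]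
  have hord : ord (unitA q A₀ B₀) = ord (unitB q A₀ B₀) := by
    rw [unitA, unitB, ord_append, ord_append, ord_scale, ord_scale, ho]
  have hmem := etaQuot_mem_full (q * M) _ _ hA hB hwt hord hinv
  let Y₀ : FN (q * M) := ⟨coeffEmb Kbar (ofPS (etaPS (unitA q A₀ B₀)) / ofPS (etaPS (unitB q A₀ B₀))),
    coeffEmb_mem_laurentBaseChange Kbar hmem⟩
  obtain ⟨c, hc, hW⟩ := exists_atkinLehnerBar_mul_self q M h A₀ B₀ hA₀ hB₀ hw ho Y₀ rfl
  exact ⟨Y₀, c, hc, by rw [ofPS_map_etaQuotZ], hW⟩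

end

end Fermat.Agent.S36.helper2008
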