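/-
S36-F2-ETANINE (helper4474): the level-9 weight-one eta quotient
`b(z) = η(z)^3 / η(3z)` and its transformation law, Mathlib only.
-/
import Mathlib

set_option autoImplicit false

namespace Fermat.Agent.S36.helper4474

open Complex ModularForm
open scoped Real ModularForm

noncomputable section

/-! ### Square roots -/

theorem sqrt_sq' (z : ℂ) : Complex.sqrt z ^ 2 = z := by
  unfold Complex.sqrt
  have h := Complex.cpow_nat_inv_pow z (n := 2) two_ne_zero
  exact_mod_cast h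

theorem sqrt_ne_zero' {z : ℂ} (hz : z ≠ 0) : Complex.sqrt z ≠ 0 := by
  intro h
  apply hz
  rw [← sqrt_sq' z, h]
  simp

/-- `√(r z) = √r √z` for a positive real `r`. -/
theorem sqrt_ofReal_mul {r : ℝ} (hr : 0 < r) {z : ℂ} (hz : z ≠ 0) :
    Complex.sqrt ((r : ℂ) * z) = Complex.sqrt (r : ℂ) * Complex.sqrt z := by
  have hr0 : (r : ℂ) ≠ 0 := by exact_mod_cast hr.ne'
  rw [sqrt_eq_exp (mul_ne_zero hr0 hz), sqrt_eq_exp hr0, sqrt_eq_exp hz, ← Complex.exp_add,
    Complex.log_ofReal_mul hr hz, Complex.ofReal_log hr.le]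
  ring_nf

/-- the constant `√3` as a complex number. -/
def s3 : ℂ := Complex.sqrt ((3 : ℝ) : ℂ)

theorem s3_sq : s3 ^ 2 = 3 := by
  unfold s3
  rw [sqrt_sq']
  norm_num

theorem s3_ne_zero : s3 ≠ 0 := by
  intro h
  have := s3_sq
  rw [h] at this
  norm_num at this

theorem sqrt_three_mul {z : ℂ} (hz : z ≠ 0) : Complex.sqrt (3 * z) = s3 * Complex.sqrt z := by
  have h := sqrt_ofReal_mul (r := 3) (by norm_num) hz
  simpa [s3] using h

theorem sqrtI_sq : Complex.sqrt I ^ 2 = I := sqrt_sq' I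

theorem sqrtI_ne_zero : Complex.sqrt I ≠ 0 := sqrt_ne_zero' I_ne_zero

/-! ### The two laws of `η` -/

/-- the 24-th root of unity `e^{2πi/24}`. -/
def zeta24 : ℂ := cexp (2 * π * I / 24)

theorem zeta24_ne_zero : zeta24 ≠ 0 := Complex.exp_ne_zero _

theorem eta_add_one (z : ℂ) : η (z + 1) = zeta24 * η z := by
  unfold ModularForm.eta zeta24
  have h1 : Function.Periodic.qParam 24 (z + 1)
      = cexp (2 * π * I / 24) * Function.Periodic.qParam 24 z := by
    simp only [Function.Periodic.qParam]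
    rw [← Complex.exp_add]
    congr 1
    push_cast
    ring
  have h2 : ∀ n : ℕ, ModularForm.eta_q n (z + 1) = ModularForm.eta_q n z := by
    intro n
    simp only [ModularForm.eta_q, Function.Periodic.qParam]
    congr 1
    have : 2 * (π : ℂ) * I * (z + 1) / ((1 : ℝ) : ℂ) = 2 * π * I * z / ((1 : ℝ) : ℂ) + 2 * π * I := by
      push_cast
      ring
    rw [this, Complex.exp_add, Complex.exp_two_pi_mul_I, mul_one]
  rw [h1]
  simp only [h2]
  ring

theorem eta_sub_one (z : ℂ) : η (z - 1) = zeta24⁻¹ * η z := by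
  have h := eta_add_one (z - 1)
  rw [sub_add_cancel] at h
  rw [h, ← mul_assoc, inv_mul_cancel₀ zeta24_ne_zero, one_mul]

theorem eta_S {z : ℂ} (hz : 0 < z.im) :
    η (-1 / z) = (Complex.sqrt I)⁻¹ * (Complex.sqrt z * η z) := by
  have h := eta_comp_eq_csqrt_I_inv (show z ∈ UpperHalfPlane.upperHalfPlaneSet from hz)
  simpa using h

/-! ### The functions `b` and `K` -/

/-- `b(z) = η(z)^3 / η(3z)`. -/
def bfun (z : ℂ) : ℂ := η z ^ 3 / η (3 * z)

/-- `K(z) = η(3z)^3 / η(z)`. -/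
def Kfun (z : ℂ) : ℂ := η (3 * z) ^ 3 / η z

theorem im_three_mul {z : ℂ} (hz : 0 < z.im) : 0 < (3 * z).im := by
  have : (3 * z).im = 3 * z.im := by simp
  rw [this]; positivity

theorem ne_zero_of_im_pos {z : ℂ} (hz : 0 < z.im) : z ≠ 0 := by
  intro h
  rw [h] at hz
  simp at hz

theorem eta_ne_zero_of_im_pos {z : ℂ} (hz : 0 < z.im) : η z ≠ 0 :=
  eta_ne_zero (show z ∈ UpperHalfPlane.upperHalfPlaneSet from hz)

theorem bfun_ne_zero {z : ℂ} (hz : 0 < z.im) : bfun z ≠ 0 :=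
  div_ne_zero (pow_ne_zero _ (eta_ne_zero_of_im_pos hz)) (eta_ne_zero_of_im_pos (im_three_mul hz))

theorem Kfun_ne_zero {z : ℂ} (hz : 0 < z.im) : Kfun z ≠ 0 :=
  div_ne_zero (pow_ne_zero _ (eta_ne_zero_of_im_pos (im_three_mul hz))) (eta_ne_zero_of_im_pos hz)

theorem differentiableAt_eta_of_im_pos {z : ℂ} (hz : 0 < z.im) : DifferentiableAt ℂ η z :=
  differentiableAt_eta_of_mem_upperHalfPlaneSet (show z ∈ UpperHalfPlane.upperHalfPlaneSet from hz)

theorem differentiableAt_bfun {z : ℂ} (hz : 0 < z.im) : DifferentiableAt ℂ bfun z := by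
  unfold bfun
  have h1 : DifferentiableAt ℂ η z := differentiableAt_eta_of_im_pos hz
  have h3 : DifferentiableAt ℂ (fun w : ℂ => η (3 * w)) z := by
    have hc : DifferentiableAt ℂ (fun w : ℂ => 3 * w) z := by fun_prop
    exact (differentiableAt_eta_of_im_pos (im_three_mul hz)).comp z hc
  exact (h1.pow 3).div h3 (eta_ne_zero_of_im_pos (im_three_mul hz))

theorem eta_add_three (z : ℂ) : η (z + 3) = zeta24 ^ 3 * η z := by
  have : z + 3 = z + 1 + 1 + 1 := by ring
  rw [this, eta_add_one, eta_add_one, eta_add_one]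
  ring

theorem eta_sub_three (z : ℂ) : η (z - 3) = (zeta24⁻¹) ^ 3 * η z := by
  have : z - 3 = z - 1 - 1 - 1 := by ring
  rw [this, eta_sub_one, eta_sub_one, eta_sub_one]
  ring

theorem bfun_add_one (z : ℂ) : bfun (z + 1) = bfun z := by
  unfold bfun
  have h3 : 3 * (z + 1) = 3 * z + 3 := by ring
  rw [h3, eta_add_three, eta_add_one]
  have hz : zeta24 ≠ 0 := zeta24_ne_zero
  by_cases h : η (3 * z) = 0
  · simp [h]
  · field_simp

theorem bfun_sub_one (z : ℂ) : bfun (z - 1) = bfun z := by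
  have h := bfun_add_one (z - 1)
  rw [sub_add_cancel] at h
  exact h.symm

theorem bfun_add_int (z : ℂ) (n : ℤ) : bfun (z + n) = bfun z := by
  induction n using Int.induction_on with
  | zero => simp
  | succ n ih =>
    have : z + ((n : ℤ) + 1 : ℤ) = z + (n : ℤ) + 1 := by push_cast; ring
    rw [this, bfun_add_one, ih]
  | pred n ih =>
    have : z + ((-(n : ℤ) - 1 : ℤ) : ℂ) = z + ((-(n : ℤ) : ℤ) : ℂ) - 1 := by push_cast; ring
    rw [this, bfun_sub_one, ih]

/-- `ω̄ = e^{-2πi/3}` as a power of `zeta24⁻¹`. -/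
def omegaBar : ℂ := (zeta24⁻¹) ^ 8

theorem zeta24_pow : zeta24 ^ 24 = 1 := by
  unfold zeta24
  rw [← Complex.exp_nat_mul]
  have : ((24 : ℕ) : ℂ) * (2 * π * I / 24) = 2 * π * I := by push_cast; ring
  rw [this, Complex.exp_two_pi_mul_I]

theorem omegaBar_pow_three : omegaBar ^ 3 = 1 := by
  unfold omegaBar
  rw [← pow_mul, inv_pow, zeta24_pow, inv_one]

theorem omegaBar_ne_zero : omegaBar ≠ 0 := pow_ne_zero _ (inv_ne_zero zeta24_ne_zero)

theorem Kfun_sub_one (z : ℂ) : Kfun (z - 1) = omegaBar * Kfun z := by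
  unfold Kfun omegaBar
  have h3 : 3 * (z - 1) = 3 * z - 3 := by ring
  rw [h3, eta_sub_three, eta_sub_one]
  have hz : zeta24 ≠ 0 := zeta24_ne_zero
  by_cases h : η z = 0
  · simp [h]
  · field_simp

/-! ### The Fricke-type laws -/

theorem im_neg_inv_pos {z : ℂ} (hz : 0 < z.im) : 0 < (-1 / z).im := by
  have h0 : z ≠ 0 := ne_zero_of_im_pos hz
  have hn : 0 < Complex.normSq z := Complex.normSq_pos.mpr h0
  rw [Complex.div_im]
  simp only [Complex.neg_im, Complex.one_im, Complex.neg_re, Complex.one_re]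
  have : -0 * z.re / Complex.normSq z - -1 * z.im / Complex.normSq z = z.im / Complex.normSq z := by
    ring
  rw [this]
  positivity

theorem alg_bW (r t s e1 e3 i z : ℂ) (hr : r ^ 2 = i) (ht : t ^ 2 = z) (hs : s ^ 2 = 3)
    (hi : i * i = -1) (hr0 : r ≠ 0) (ht0 : t ≠ 0) (he1 : e1 ≠ 0) :
    (r⁻¹ * (s * t * e3)) ^ 3 / (r⁻¹ * (t * e1)) = -i * 3 * s * z * (e3 ^ 3 / e1) := by
  subst hr ht
  have hr4 : r ^ 4 = -1 := by
    have : r ^ 4 = r ^ 2 * r ^ 2 := by ring
    rw [this, hi]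
  field_simp
  linear_combination (s * e3 ^ 3) * hs + (3 * s * e3 ^ 3) * hr4

theorem alg_KW (r t s e1 e3 i z : ℂ) (hr : r ^ 2 = i) (ht : t ^ 2 = z)
    (hi : i * i = -1) (hr0 : r ≠ 0) (ht0 : t ≠ 0) (hs0 : s ≠ 0) (he3 : e3 ≠ 0) :
    (r⁻¹ * (t * e1)) ^ 3 / (r⁻¹ * (s * t * e3)) = -i * (z / s) * (e1 ^ 3 / e3) := by
  subst hr ht
  have hr4 : r ^ 4 = -1 := by
    have : r ^ 4 = r ^ 2 * r ^ 2 := by ring
    rw [this, hi]
  field_simp
  linear_combination (e1 ^ 3) * hr4

theorem bfun_W {z : ℂ} (hz : 0 < z.im) :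
    bfun (-1 / (3 * z)) = -I * 3 * s3 * z * Kfun z := by
  have h0 : z ≠ 0 := ne_zero_of_im_pos hz
  have h3 : 0 < (3 * z).im := im_three_mul hz
  have e1 : η (-1 / (3 * z)) = (Complex.sqrt I)⁻¹ * (s3 * Complex.sqrt z * η (3 * z)) := by
    rw [eta_S h3, sqrt_three_mul h0]
  have e2 : η (3 * (-1 / (3 * z))) = (Complex.sqrt I)⁻¹ * (Complex.sqrt z * η z) := by
    have : 3 * (-1 / (3 * z)) = -1 / z := by field_simp
    rw [this, eta_S hz]
  unfold bfun Kfun
  rw [e1, e2]
  exact alg_bW (Complex.sqrt I) (Complex.sqrt z) s3 (η z) (η (3 * z)) I z sqrtI_sq (sqrt_sq' z)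
    s3_sq Complex.I_mul_I sqrtI_ne_zero (sqrt_ne_zero' h0) (eta_ne_zero_of_im_pos hz)

theorem Kfun_W {z : ℂ} (hz : 0 < z.im) :
    Kfun (-1 / (3 * z)) = -I * (z / s3) * bfun z := by
  have h0 : z ≠ 0 := ne_zero_of_im_pos hz
  have h3 : 0 < (3 * z).im := im_three_mul hz
  have e1 : η (-1 / (3 * z)) = (Complex.sqrt I)⁻¹ * (s3 * Complex.sqrt z * η (3 * z)) := by
    rw [eta_S h3, sqrt_three_mul h0]
  have e2 : η (3 * (-1 / (3 * z))) = (Complex.sqrt I)⁻¹ * (Complex.sqrt z * η z) := by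
    have : 3 * (-1 / (3 * z)) = -1 / z := by field_simp
    rw [this, eta_S hz]
  unfold bfun Kfun
  rw [e1, e2]
  exact alg_KW (Complex.sqrt I) (Complex.sqrt z) s3 (η z) (η (3 * z)) I z sqrtI_sq (sqrt_sq' z)
    Complex.I_mul_I sqrtI_ne_zero (sqrt_ne_zero' h0) s3_ne_zero
    (eta_ne_zero_of_im_pos h3)

/-- The law of `b` under `U = (1 0; 3 1)`. -/
theorem bfun_U {z : ℂ} (hz : 0 < z.im) :
    bfun (z / (3 * z + 1)) = omegaBar * (3 * z + 1) * bfun z := by
  have h0 : z ≠ 0 := ne_zero_of_im_pos hz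
  have h3 : 0 < (3 * z).im := im_three_mul hz
  have h31 : 3 * z + 1 ≠ 0 := by
    apply ne_zero_of_im_pos
    have : (3 * z + 1).im = (3 * z).im := by simp
    rw [this]; exact h3
  have hw1 : 0 < (-1 / (3 * z)).im := im_neg_inv_pos h3
  have hw : 0 < (-1 / (3 * z) - 1).im := by
    have : (-1 / (3 * z) - 1).im = (-1 / (3 * z)).im := by simp
    rw [this]; exact hw1
  have hzw : z / (3 * z + 1) = -1 / (3 * (-1 / (3 * z) - 1)) := by
    have hden : 3 * (-1 / (3 * z) - 1) = -(3 * z + 1) / z := by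
      field_simp
      ring
    rw [hden]
    field_simp
  rw [hzw, bfun_W hw, Kfun_sub_one, Kfun_W hz]
  have _hs : s3 ≠ 0 := s3_ne_zero
  have hI : I * I = -1 := Complex.I_mul_I
  field_simp
  linear_combination (-(3 * z + 1) * omegaBar * bfun z) * hI

/-! ### Möbius transformations with integer entries -/

theorem moebius_den_ne_zero (c d : ℤ) (hcd : c ≠ 0 ∨ d ≠ 0) {z : ℂ} (hz : 0 < z.im) :
    (c : ℂ) * z + d ≠ 0 := by
  intro h
  have him : ((c : ℂ) * z + d).im = c * z.im := by simp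
  have hre : ((c : ℂ) * z + d).re = c * z.re + d := by simp
  rw [h] at him hre
  simp only [Complex.zero_im, Complex.zero_re] at him hre
  have hc : (c : ℝ) = 0 := by
    rcases mul_eq_zero.mp him.symm with h1 | h1
    · exact h1
    · exact absurd h1 hz.ne'
  rw [hc] at hre
  have hd : (d : ℝ) = 0 := by linarith
  rcases hcd with h1 | h1
  · exact h1 (by exact_mod_cast hc)
  · exact h1 (by exact_mod_cast hd)

theorem moebius_den_ne_zero_of_det (a b c d : ℤ) (h : a * d - b * c = 1) {z : ℂ}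
    (hz : 0 < z.im) : (c : ℂ) * z + d ≠ 0 := by
  apply moebius_den_ne_zero c d _ hz
  by_contra hcon
  rw [not_or, not_not, not_not] at hcon
  rw [hcon.1, hcon.2] at h
  simp at h

theorem moebius_im_pos (a b c d : ℤ) (h : a * d - b * c = 1) {z : ℂ} (hz : 0 < z.im) :
    0 < (((a : ℂ) * z + b) / ((c : ℂ) * z + d)).im := by
  have hne : (c : ℂ) * z + d ≠ 0 := moebius_den_ne_zero_of_det a b c d h hz
  have hn : 0 < Complex.normSq ((c : ℂ) * z + d) := Complex.normSq_pos.mpr hne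
  rw [Complex.div_im]
  have h1 : ((a : ℂ) * z + b).im = a * z.im := by simp
  have h2 : ((a : ℂ) * z + b).re = a * z.re + b := by simp
  have h3 : ((c : ℂ) * z + d).im = c * z.im := by simp
  have h4 : ((c : ℂ) * z + d).re = c * z.re + d := by simp
  rw [h1, h2, h3, h4]
  have hdet : (a : ℝ) * d - b * c = 1 := by exact_mod_cast h
  have : (a : ℝ) * z.im * (c * z.re + d) / Complex.normSq ((c : ℂ) * z + d)
      - (a * z.re + b) * (c * z.im) / Complex.normSq ((c : ℂ) * z + d)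
      = z.im / Complex.normSq ((c : ℂ) * z + d) := by
    rw [← sub_div]
    congr 1
    linear_combination z.im * hdet
  rw [this]
  positivity

/-- The law of `b` under `U⁻¹ = (1 0; -3 1)`. -/
theorem bfun_U_inv {z : ℂ} (hz : 0 < z.im) :
    bfun (z / (-3 * z + 1)) = omegaBar⁻¹ * (-3 * z + 1) * bfun z := by
  have hne : ((-3 : ℤ) : ℂ) * z + (1 : ℤ) ≠ 0 :=
    moebius_den_ne_zero_of_det 1 0 (-3) 1 (by norm_num) hz
  have hne' : -3 * z + 1 ≠ 0 := by
    have := hne
    push_cast at this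
    exact this
  have him : 0 < (z / (-3 * z + 1)).im := by
    have := moebius_im_pos 1 0 (-3) 1 (by norm_num) hz
    push_cast at this
    simpa using this
  have hU := bfun_U him
  generalize hD : -3 * z + 1 = D at hne' him hU ⊢
  have hDz : 3 * z + D = 1 := by rw [← hD]; ring
  have h2 : 3 * (z / D) + 1 = 1 / D := by
    field_simp
    linear_combination hDz
  have h1 : z / D / (3 * (z / D) + 1) = z := by
    rw [h2]
    field_simp
  rw [h1, h2] at hU
  have hw : omegaBar ≠ 0 := omegaBar_ne_zero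
  rw [hU]
  field_simp

theorem omegaBar_zpow_three_mul (k : ℤ) : omegaBar ^ (3 * k) = 1 := by
  rw [zpow_mul]
  have : omegaBar ^ (3 : ℤ) = 1 := by
    have := omegaBar_pow_three
    exact_mod_cast this
  rw [this, one_zpow]

theorem omegaBar_zpow_congr {m n : ℤ} (h : (3 : ℤ) ∣ m - n) : omegaBar ^ m = omegaBar ^ n := by
  obtain ⟨k, hk⟩ := h
  have : m = n + 3 * k := by omega
  rw [this, zpow_add₀ omegaBar_ne_zero, omegaBar_zpow_three_mul, mul_one]

/-- The law of `b` under `U^s`, `s = ±1`. -/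
theorem bfun_U_pm (s : ℤ) (hs : s = 1 ∨ s = -1) {z : ℂ} (hz : 0 < z.im) :
    bfun (z / (3 * (s : ℂ) * z + 1)) = omegaBar ^ s * (3 * (s : ℂ) * z + 1) * bfun z := by
  rcases hs with rfl | rfl
  · have := bfun_U hz
    simpa using this
  · have := bfun_U_inv hz
    have e1 : (3 : ℂ) * ((-1 : ℤ) : ℂ) * z + 1 = -3 * z + 1 := by push_cast; ring
    rw [e1, this]
    simp

/-! ### The multiplier and the law on `Γ₀(3)` -/

/-- the quadratic character mod 3 (on integers prime to 3). -/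
def chi3 (d : ℤ) : ℂ := if d % 3 = 1 then 1 else -1

theorem chi3_add_three_mul (d k : ℤ) : chi3 (d + 3 * k) = chi3 d := by
  unfold chi3
  have : (d + 3 * k) % 3 = d % 3 := by omega
  rw [this]

/-- the multiplier of `b` on `Γ₀(3)` at a matrix with bottom row `(3c', d)`. -/
def mult (c' d : ℤ) : ℂ := omegaBar ^ (c' * d) * chi3 d

theorem mult_T (c' d s : ℤ) : mult c' (d - s * (3 * c')) = mult c' d := by
  unfold mult
  have h1 : chi3 (d - s * (3 * c')) = chi3 d := by
    have := chi3_add_three_mul d (-(s * c'))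
    rw [← this]
    congr 1
    ring
  have h2 : omegaBar ^ (c' * (d - s * (3 * c'))) = omegaBar ^ (c' * d) := by
    apply omegaBar_zpow_congr
    exact ⟨-(c' * s * c'), by ring⟩
  rw [h1, h2]

theorem three_dvd_sq_sub_one (d : ℤ) (hd : d % 3 ≠ 0) : (3 : ℤ) ∣ d * d - 1 := by
  have h12 : d % 3 = 1 ∨ d % 3 = 2 := by omega
  rcases h12 with h | h
  · obtain ⟨k, hk⟩ : ∃ k, d = 3 * k + 1 := ⟨d / 3, by omega⟩
    exact ⟨3 * k * k + 2 * k, by rw [hk]; ring⟩
  · obtain ⟨k, hk⟩ : ∃ k, d = 3 * k + 2 := ⟨d / 3, by omega⟩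
    exact ⟨3 * k * k + 4 * k + 1, by rw [hk]; ring⟩

theorem mult_U (c' d s : ℤ) (hd : d % 3 ≠ 0) :
    mult (c' - s * d) d * omegaBar ^ s = mult c' d := by
  unfold mult
  have h2 : omegaBar ^ ((c' - s * d) * d) * omegaBar ^ s = omegaBar ^ (c' * d) := by
    rw [← zpow_add₀ omegaBar_ne_zero]
    apply omegaBar_zpow_congr
    obtain ⟨k, hk⟩ := three_dvd_sq_sub_one d hd
    exact ⟨-(s * k), by linear_combination (-s) * hk⟩
  rw [← h2]
  ring

theorem mod_three_ne_zero_of_det (a b c' d : ℤ) (hdet : a * d - b * (3 * c') = 1) :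
    d % 3 ≠ 0 := by
  intro h
  obtain ⟨k, hk⟩ : ∃ k, d = 3 * k := ⟨d / 3, by omega⟩
  rw [hk] at hdet
  have : a * (3 * k) - b * (3 * c') = 3 * (a * k - b * c') := by ring
  omega

theorem bfun_gamma0_three_aux : ∀ (n : ℕ) (a b c' d : ℤ), c'.natAbs + d.natAbs = n →
    a * d - b * (3 * c') = 1 → ∀ z : ℂ, 0 < z.im →
    bfun (((a : ℂ) * z + b) / (3 * (c' : ℂ) * z + d))
      = mult c' d * (3 * (c' : ℂ) * z + d) * bfun z := by
  intro n
  induction n using Nat.strong_induction_on with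
  | _ n ih =>
    intro a b c' d hn hdet z hz
    by_cases hc : c' = 0
    · subst hc
      have had : a * d = 1 := by linear_combination hdet
      rcases Int.mul_eq_one_iff_eq_one_or_neg_one.mp had with ⟨rfl, rfl⟩ | ⟨rfl, rfl⟩
      · have e1 : ((1 : ℤ) : ℂ) * z + b = z + b := by push_cast; ring
        have e2 : 3 * ((0 : ℤ) : ℂ) * z + ((1 : ℤ) : ℂ) = 1 := by push_cast; ring
        rw [e1, e2, div_one, bfun_add_int]
        simp [mult, chi3]
      · have e1 : (((-1 : ℤ) : ℂ) * z + b) / (3 * ((0 : ℤ) : ℂ) * z + ((-1 : ℤ) : ℂ))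
            = z + ((-b : ℤ) : ℂ) := by
          push_cast
          field_simp
          ring
        have e2 : 3 * ((0 : ℤ) : ℂ) * z + ((-1 : ℤ) : ℂ) = -1 := by push_cast; ring
        rw [e1, e2, bfun_add_int]
        simp [mult, chi3]
    · have hd3 : d % 3 ≠ 0 := mod_three_ne_zero_of_det a b c' d hdet
      have hd0 : d ≠ 0 := by
        intro h
        rw [h] at hd3
        simp at hd3
      by_cases hcase : 3 * c'.natAbs < 2 * d.natAbs
      · -- a `T`-step
        obtain ⟨s, hs, hlt⟩ : ∃ s : ℤ, (s = 1 ∨ s = -1) ∧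
            (d - s * (3 * c')).natAbs < d.natAbs := by
          rcases lt_or_gt_of_ne hc with h1 | h1 <;> rcases lt_or_gt_of_ne hd0 with h2 | h2
          · exact ⟨1, Or.inl rfl, by omega⟩
          · exact ⟨-1, Or.inr rfl, by omega⟩
          · exact ⟨-1, Or.inr rfl, by omega⟩
          · exact ⟨1, Or.inl rfl, by omega⟩
        have hzs : 0 < (z + (s : ℂ)).im := by simpa using hz
        have ih' := ih (c'.natAbs + (d - s * (3 * c')).natAbs) (by omega) a (b - s * a) c'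
          (d - s * (3 * c')) rfl (by linear_combination hdet) (z + s) hzs
        rw [mult_T, bfun_add_int] at ih'
        have e1 : (a : ℂ) * (z + s) + ((b - s * a : ℤ) : ℂ) = a * z + b := by push_cast; ring
        have e2 : 3 * (c' : ℂ) * (z + s) + ((d - s * (3 * c') : ℤ) : ℂ) = 3 * c' * z + d := by
          push_cast; ring
        rw [e1, e2] at ih'
        exact ih'
      · -- a `U`-step
        obtain ⟨s, hs, hlt⟩ : ∃ s : ℤ, (s = 1 ∨ s = -1) ∧
            (c' - s * d).natAbs < c'.natAbs := by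
          rcases lt_or_gt_of_ne hc with h1 | h1 <;> rcases lt_or_gt_of_ne hd0 with h2 | h2
          · exact ⟨1, Or.inl rfl, by omega⟩
          · exact ⟨-1, Or.inr rfl, by omega⟩
          · exact ⟨-1, Or.inr rfl, by omega⟩
          · exact ⟨1, Or.inl rfl, by omega⟩
        have hz' : 0 < (z / (3 * (s : ℂ) * z + 1)).im := by
          have := moebius_im_pos 1 0 (3 * s) 1 (by ring) hz
          push_cast at this
          simpa using this
        have hden : 3 * (s : ℂ) * z + 1 ≠ 0 := by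
          have := moebius_den_ne_zero_of_det 1 0 (3 * s) 1 (by ring) hz
          push_cast at this
          simpa using this
        have hden2 : 3 * (c' : ℂ) * z + d ≠ 0 := by
          have := moebius_den_ne_zero_of_det a b (3 * c') d hdet hz
          push_cast at this
          exact this
        have ih' := ih ((c' - s * d).natAbs + d.natAbs) (by omega) (a - 3 * s * b) b
          (c' - s * d) d rfl (by linear_combination hdet) (z / (3 * s * z + 1)) hz'
        rw [bfun_U_pm s hs hz] at ih'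
        have en : ((a - 3 * s * b : ℤ) : ℂ) * (z / (3 * s * z + 1)) + b
            = (a * z + b) / (3 * s * z + 1) := by
          push_cast
          field_simp
          ring
        have ed : 3 * ((c' - s * d : ℤ) : ℂ) * (z / (3 * s * z + 1)) + d
            = (3 * c' * z + d) / (3 * s * z + 1) := by
          push_cast
          field_simp
          ring
        rw [en, ed, div_div_div_cancel_right₀ hden] at ih'
        rw [ih', ← mult_U c' d s hd3]
        generalize 3 * (s : ℂ) * z + 1 = D at hden ⊢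
        field_simp

/-- **The law of `b` on `Γ₀(3)`**, with the explicit multiplier. -/
theorem bfun_gamma0_three (a b c' d : ℤ) (hdet : a * d - b * (3 * c') = 1) {z : ℂ}
    (hz : 0 < z.im) :
    bfun (((a : ℂ) * z + b) / (3 * (c' : ℂ) * z + d))
      = mult c' d * (3 * (c' : ℂ) * z + d) * bfun z :=
  bfun_gamma0_three_aux _ a b c' d rfl hdet z hz

/-- **The law of `b` on `Γ₀(9)`**: weight one, character `χ₋₃`. -/
theorem bfun_gamma0_nine (a b c d : ℤ) (hdet : a * d - b * (9 * c) = 1) {z : ℂ}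
    (hz : 0 < z.im) :
    bfun (((a : ℂ) * z + b) / (9 * (c : ℂ) * z + d)) = chi3 d * (9 * (c : ℂ) * z + d) * bfun z := by
  have h := bfun_gamma0_three a b (3 * c) d (by linear_combination hdet) hz
  have e : 3 * ((3 * c : ℤ) : ℂ) * z + d = 9 * (c : ℂ) * z + d := by push_cast; ring
  rw [e] at h
  rw [h]
  unfold mult
  have : omegaBar ^ (3 * c * d) = 1 := by
    rw [mul_assoc]
    exact omegaBar_zpow_three_mul _
  rw [this, one_mul]

/-! ### The unit `y_q(z) = b(z) / b(q z)` of level `9 q` -/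

theorem chi3_ne_zero (d : ℤ) : chi3 d ≠ 0 := by
  unfold chi3
  split_ifs <;> norm_num

theorem chi3_mul (q d : ℤ) (hq : q % 3 ≠ 0) (hd : d % 3 ≠ 0) : chi3 (q * d) = chi3 q * chi3 d := by
  have hq' : q % 3 = 1 ∨ q % 3 = 2 := by omega
  have hd' : d % 3 = 1 ∨ d % 3 = 2 := by omega
  unfold chi3
  rcases hq' with hq' | hq' <;> rcases hd' with hd' | hd'
  · have : (q * d) % 3 = 1 := by rw [Int.mul_emod, hq', hd']; norm_num
    simp [this, hq', hd']
  · have : (q * d) % 3 = 2 := by rw [Int.mul_emod, hq', hd']; norm_num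
    simp [this, hq', hd']
  · have : (q * d) % 3 = 2 := by rw [Int.mul_emod, hq', hd']; norm_num
    simp [this, hq', hd']
  · have : (q * d) % 3 = 1 := by rw [Int.mul_emod, hq', hd']; norm_num
    simp [this, hq', hd']

/-- `y_q(z) = b(z) / b(q z)`. -/
def yfun (q : ℕ) (z : ℂ) : ℂ := bfun z / bfun (q * z)

theorem im_nat_mul {q : ℕ} (hq : 0 < q) {z : ℂ} (hz : 0 < z.im) : 0 < ((q : ℂ) * z).im := by
  have : ((q : ℂ) * z).im = q * z.im := by simp
  rw [this]
  have : (0 : ℝ) < q := by exact_mod_cast hq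
  positivity

theorem yfun_ne_zero {q : ℕ} (hq : 0 < q) {z : ℂ} (hz : 0 < z.im) : yfun q z ≠ 0 :=
  div_ne_zero (bfun_ne_zero hz) (bfun_ne_zero (im_nat_mul hq hz))

theorem differentiableAt_yfun {q : ℕ} (hq : 0 < q) {z : ℂ} (hz : 0 < z.im) :
    DifferentiableAt ℂ (yfun q) z := by
  unfold yfun
  have h1 : DifferentiableAt ℂ bfun z := differentiableAt_bfun hz
  have h2 : DifferentiableAt ℂ (fun w : ℂ => bfun ((q : ℂ) * w)) z := by
    have hc : DifferentiableAt ℂ (fun w : ℂ => (q : ℂ) * w) z := by fun_prop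
    exact (differentiableAt_bfun (im_nat_mul hq hz)).comp z hc
  exact h1.div h2 (bfun_ne_zero (im_nat_mul hq hz))

/-- **Invariance of `y_q` under `Γ₀(9q)`** (integer-matrix form). -/
theorem yfun_invariant {q : ℕ} (hq : 0 < q) (a b c d : ℤ) (hdet : a * d - b * (9 * q * c) = 1)
    {z : ℂ} (hz : 0 < z.im) :
    yfun q (((a : ℂ) * z + b) / (9 * (q : ℂ) * c * z + d)) = yfun q z := by
  have hqz : 0 < ((q : ℂ) * z).im := im_nat_mul hq hz
  have h1 := bfun_gamma0_nine a b (q * c) d (by linear_combination hdet) hz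
  have h2 := bfun_gamma0_nine a (q * b) c d (by linear_combination hdet) hqz
  have hden : 9 * ((q * c : ℤ) : ℂ) * z + d ≠ 0 := by
    have := moebius_den_ne_zero_of_det a b (9 * (q * c)) d (by linear_combination hdet) hz
    push_cast at this ⊢
    exact this
  have e1 : ((a : ℂ) * z + b) / (9 * (q : ℂ) * c * z + d)
      = ((a : ℂ) * z + b) / (9 * ((q * c : ℤ) : ℂ) * z + d) := by
    push_cast; ring_nf
  have e2 : (q : ℂ) * (((a : ℂ) * z + b) / (9 * ((q * c : ℤ) : ℂ) * z + d))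
      = ((a : ℂ) * ((q : ℂ) * z) + ((q * b : ℤ) : ℂ)) / (9 * (c : ℂ) * ((q : ℂ) * z) + d) := by
    push_cast
    rw [mul_div_assoc']
    congr 1 <;> ring
  have e3 : 9 * (c : ℂ) * ((q : ℂ) * z) + d = 9 * ((q * c : ℤ) : ℂ) * z + d := by
    push_cast; ring
  unfold yfun
  rw [e1, e2, h1, h2, e3]
  have hchi : chi3 d ≠ 0 := chi3_ne_zero d
  have hb : bfun ((q : ℂ) * z) ≠ 0 := bfun_ne_zero hqz
  field_simp

/-- **The Atkin–Lehner law of `y_q`**: `y_q(W z) · y_q(z) = χ₋₃(q) q` for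
`W = (q a, b; 9 q c, q d)` of determinant `q`. -/
theorem yfun_atkinLehner {q : ℕ} (hq : 0 < q) (a b c d : ℤ) (hdet : q * a * d - 9 * b * c = 1)
    {z : ℂ} (hz : 0 < z.im) :
    yfun q (((q : ℂ) * a * z + b) / (9 * (q : ℂ) * c * z + q * d)) * yfun q z
      = chi3 q * q := by
  have hqz : 0 < ((q : ℂ) * z).im := im_nat_mul hq hz
  have hq0 : (q : ℂ) ≠ 0 := by exact_mod_cast hq.ne'
  have hqd3 : ((q : ℤ) * d) % 3 ≠ 0 :=
    mod_three_ne_zero_of_det a b (3 * c) (q * d) (by linear_combination hdet)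
  have hq3 : (q : ℤ) % 3 ≠ 0 := by
    intro h
    apply hqd3
    rw [Int.mul_emod, h]
    simp
  have hd3 : d % 3 ≠ 0 := by
    intro h
    apply hqd3
    rw [Int.mul_emod, h]
    simp
  have h1 := bfun_gamma0_nine a b c (q * d) (by linear_combination hdet) hqz
  have h2 := bfun_gamma0_nine (q * a) b c d (by linear_combination hdet) hz
  have hden : 9 * (c : ℂ) * z + d ≠ 0 := by
    have := moebius_den_ne_zero_of_det (q * a) b (9 * c) d (by linear_combination hdet) hz
    push_cast at this ⊢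
    exact this
  have e1 : ((q : ℂ) * a * z + b) / (9 * (q : ℂ) * c * z + q * d)
      = ((a : ℂ) * ((q : ℂ) * z) + b) / (9 * (c : ℂ) * ((q : ℂ) * z) + ((q * d : ℤ) : ℂ)) := by
    push_cast
    congr 1 <;> ring
  have e2 : (q : ℂ) * (((a : ℂ) * ((q : ℂ) * z) + b)
      / (9 * (c : ℂ) * ((q : ℂ) * z) + ((q * d : ℤ) : ℂ)))
      = (((q * a : ℤ) : ℂ) * z + b) / (9 * (c : ℂ) * z + d) := by
    push_cast
    have : 9 * (c : ℂ) * ((q : ℂ) * z) + (q : ℂ) * d = (q : ℂ) * (9 * (c : ℂ) * z + d) := by ring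
    rw [this]
    field_simp
  have e3 : 9 * (c : ℂ) * ((q : ℂ) * z) + ((q * d : ℤ) : ℂ) = (q : ℂ) * (9 * (c : ℂ) * z + d) := by
    push_cast; ring
  unfold yfun
  rw [e1, e2, h1, h2, e3, chi3_mul q d hq3 hd3]
  have hchi : chi3 d ≠ 0 := chi3_ne_zero d
  have hb : bfun ((q : ℂ) * z) ≠ 0 := bfun_ne_zero hqz
  have hb' : bfun z ≠ 0 := bfun_ne_zero hz
  field_simp

/-! ### `SL(2, ℤ)` / upper-half-plane forms -/

open UpperHalfPlane in
theorem coe_smul_eq (g : Matrix.SpecialLinearGroup (Fin 2) ℤ) (z : ℍ) :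
    ((g • z : ℍ) : ℂ) = (((g 0 0 : ℤ) : ℂ) * z + ((g 0 1 : ℤ) : ℂ))
      / (((g 1 0 : ℤ) : ℂ) * z + ((g 1 1 : ℤ) : ℂ)) := by
  rw [UpperHalfPlane.specialLinearGroup_apply]
  simp

theorem det_eq_one' (g : Matrix.SpecialLinearGroup (Fin 2) ℤ) :
    g 0 0 * g 1 1 - g 0 1 * g 1 0 = 1 := by
  have := g.det_coe
  rw [Matrix.det_fin_two] at this
  exact this

theorem dvd_of_mem_Gamma0 {N : ℕ} {g : Matrix.SpecialLinearGroup (Fin 2) ℤ}
    (hg : g ∈ CongruenceSubgroup.Gamma0 N) : (N : ℤ) ∣ g 1 0 := by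
  rw [CongruenceSubgroup.Gamma0_mem] at hg
  exact (ZMod.intCast_zmod_eq_zero_iff_dvd _ _).mp hg

open UpperHalfPlane in
/-- **The law of `b` on `Γ₀(9)`**, `SL(2, ℤ)`-form: weight one, character `χ₋₃`. -/
theorem bfun_smul {g : Matrix.SpecialLinearGroup (Fin 2) ℤ}
    (hg : g ∈ CongruenceSubgroup.Gamma0 9) (z : ℍ) :
    bfun ((g • z : ℍ) : ℂ)
      = chi3 (g 1 1) * (((g 1 0 : ℤ) : ℂ) * z + ((g 1 1 : ℤ) : ℂ)) * bfun (z : ℂ) := by
  obtain ⟨c, hc⟩ := dvd_of_mem_Gamma0 hg
  have hdet := det_eq_one' g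
  rw [coe_smul_eq, hc]
  have h := bfun_gamma0_nine (g 0 0) (g 0 1) c (g 1 1) (by rw [hc] at hdet; linear_combination hdet)
    z.im_pos
  have e : (((9 : ℕ) : ℤ) * c : ℤ) = 9 * c := by norm_num
  rw [e]
  push_cast
  rw [h]

open UpperHalfPlane in
/-- **Invariance of `y_q = b(z)/b(qz)` under `Γ₀(9q)`**, `SL(2, ℤ)`-form. -/
theorem yfun_smul {q : ℕ} (hq : 0 < q) {g : Matrix.SpecialLinearGroup (Fin 2) ℤ}
    (hg : g ∈ CongruenceSubgroup.Gamma0 (9 * q)) (z : ℍ) :
    yfun q ((g • z : ℍ) : ℂ) = yfun q (z : ℂ) := by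
  obtain ⟨c, hc⟩ := dvd_of_mem_Gamma0 hg
  have hdet := det_eq_one' g
  rw [coe_smul_eq, hc]
  have h := yfun_invariant hq (g 0 0) (g 0 1) c (g 1 1)
    (by rw [hc] at hdet; push_cast at hdet; linear_combination hdet) z.im_pos
  push_cast
  rw [← h]

/-- `y_q` as an eta quotient. -/
theorem yfun_eq_eta {q : ℕ} (hq : 0 < q) {z : ℂ} (hz : 0 < z.im) :
    yfun q z = (η z ^ 3 * η (3 * q * z)) / (η (3 * z) * η (q * z) ^ 3) := by
  unfold yfun bfun
  have h1 : η (3 * z) ≠ 0 := eta_ne_zero_of_im_pos (im_three_mul hz)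
  have h2 : η ((q : ℂ) * z) ≠ 0 := eta_ne_zero_of_im_pos (im_nat_mul hq hz)
  have h3 : η (3 * ((q : ℂ) * z)) ≠ 0 :=
    eta_ne_zero_of_im_pos (im_three_mul (im_nat_mul hq hz))
  have e : (3 : ℂ) * q * z = 3 * (q * z) := by ring
  rw [e]
  field_simp

/-- `b^24` as a quotient of `η^24 = Δ`. -/
theorem bfun_pow_24 {z : ℂ} (hz : 0 < z.im) :
    bfun z ^ 24 * η (3 * z) ^ 24 = (η z ^ 24) ^ 3 := by
  unfold bfun
  have h1 : η (3 * z) ≠ 0 := eta_ne_zero_of_im_pos (im_three_mul hz)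
  field_simp

end

end Fermat.Agent.S36.helper4474
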