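/-
S36-F2-ETANINE, membership (helper4474): the level-9 eta unit `y_q = b(z)/b(qz)`,
`b = η(z)^3/η(3z)`, has its formal `q`-series in `modularFunctionFieldFull (9 q)`.
Instance of the generic half `helper2008.etaQuot_mem_full` on the analytic law of
`helper4474_EtaNine`.
-/
import Mathlib
import Fermat.Agent.S36.helper2008_EtaQuot
import Fermat.Agent.S36.helper4474_EtaNine

open UpperHalfPlane ModularForm CongruenceSubgroup Matrix ModularCurve
open scoped MatrixGroups Manifold

namespace Fermat.Agent.S36.helper4474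

open Fermat.Agent.S28.helper4768 (ofPS)
open Fermat.Agent.S36.helper2008 (etaFun etaPS etaFun_cons etaFun_nil etaPS_cons etaPS_nil
  ord_cons ord_nil etaQuot_mem_full isQExp_etaQuot etaProdQ ex ex_apply etaPS_ne_zero)

noncomputable section

/-- Numerator exponents of `b(z)/b(qz)`, `b = η(z)^3 / η(3z)`. -/
def nineA (q : ℕ) : List (ℕ × ℕ) := [(1, 3), (3 * q, 1)]

/-- Denominator exponents of `b(z)/b(qz)`. -/
def nineB (q : ℕ) : List (ℕ × ℕ) := [(3, 1), (q, 3)]

theorem etaFun_nine_div {q : ℕ} (hq : 0 < q) (τ : ℍ) :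
    etaFun (nineA q) τ / etaFun (nineB q) τ = yfun q (τ : ℂ) := by
  rw [yfun_eq_eta hq τ.im_pos]
  simp only [nineA, nineB, etaFun_cons, etaFun_nil, mul_one]
  push_cast
  rw [one_mul, pow_one, pow_one]

theorem nineA_dvd (q : ℕ) : ∀ p ∈ nineA q, p.1 ∣ 9 * q := by
  intro p hp
  simp only [nineA, List.mem_cons, List.not_mem_nil, or_false] at hp
  rcases hp with rfl | rfl
  · exact one_dvd _
  · exact ⟨3, by ring⟩

theorem nineB_dvd (q : ℕ) : ∀ p ∈ nineB q, p.1 ∣ 9 * q := by
  intro p hp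
  simp only [nineB, List.mem_cons, List.not_mem_nil, or_false] at hp
  rcases hp with rfl | rfl
  · exact ⟨3 * q, by ring⟩
  · exact ⟨9, by ring⟩

theorem nine_hinv {q : ℕ} (hq : 0 < q) : ∀ γ ∈ Gamma0 (9 * q), ∀ τ : ℍ,
    etaFun (nineA q) (γ • τ) / etaFun (nineB q) (γ • τ)
      = etaFun (nineA q) τ / etaFun (nineB q) τ := by
  intro γ hγ τ
  rw [etaFun_nine_div hq, etaFun_nine_div hq]
  exact yfun_smul hq hγ τ

/-- **The level-9 eta unit lies in the function field of `X₀(9q)`**: the formal series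
`E(x)^3 E(x^(3q)) / (E(x^3) E(x^q)^3)` of `b(z)/b(qz)` lies in `modularFunctionFieldFull (9 q)`
(every `q ≥ 1`; the case needed for Carayol at `q = 2` is level `18`). -/
theorem etaPS_nine_mem_full (q : ℕ) [NeZero q] :
    ofPS (etaPS (nineA q)) / ofPS (etaPS (nineB q)) ∈ modularFunctionFieldFull (9 * q) := by
  have hq : 0 < q := Nat.pos_of_ne_zero (NeZero.ne q)
  refine etaQuot_mem_full (9 * q) (nineA q) (nineB q) (nineA_dvd q) (nineB_dvd q) ?_ ?_
    (nine_hinv hq)
  · simp [nineA, nineB, Fermat.Agent.S36.helper2008.wt]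
  · simp only [nineA, nineB, ord_cons, ord_nil]
    ring

/-- The two `IsQExp` witnesses (for the `ℚ̄`-form and for integrality over `ℚ[j]`). -/
theorem isQExp_nine (q : ℕ) [NeZero q] :
    Fermat.Agent.S28.helper4768.IsQExp (9 * q) (12 * Fermat.Agent.S36.helper2008.wt (nineB q))
        (PowerSeries.X ^ Fermat.Agent.S36.helper2008.ord (nineB q)
          * (etaPS (nineA q) * etaPS (nineB q) ^ 23)) ∧
      Fermat.Agent.S28.helper4768.IsQExp (9 * q) (12 * Fermat.Agent.S36.helper2008.wt (nineB q))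
        (PowerSeries.X ^ Fermat.Agent.S36.helper2008.ord (nineB q) * etaPS (nineB q) ^ 24) := by
  have hq : 0 < q := Nat.pos_of_ne_zero (NeZero.ne q)
  refine isQExp_etaQuot (9 * q) (nineA q) (nineB q) (nineA_dvd q) (nineB_dvd q) ?_ ?_
    (nine_hinv hq)
  · simp [nineA, nineB, Fermat.Agent.S36.helper2008.wt]
  · simp only [nineA, nineB, ord_cons, ord_nil]
    ring

/-- **Integer-series consumer form.** ANY integer power series `Y` with
`Y · E(x^3) E(x^q)^3 = E(x)^3 E(x^(3q))` (i.e. the series of `b(x)/b(x^q)`, however it is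
defined) lies, over `ℚ`, in `modularFunctionFieldFull (9 q)`. -/
theorem ofPS_map_mem_full_of_mul_eq (q : ℕ) [NeZero q] (Y : PowerSeries ℤ)
    (hY : Y * (PowerSeries.expand 3 three_ne_zero etaProd
        * PowerSeries.expand q (NeZero.ne q) etaProd ^ 3)
      = etaProd ^ 3 * PowerSeries.expand (3 * q) (Nat.mul_ne_zero three_ne_zero (NeZero.ne q))
          etaProd) :
    ofPS (Y.map (Int.castRingHom ℚ)) ∈ modularFunctionFieldFull (9 * q) := by
  have hq : q ≠ 0 := NeZero.ne q
  have h3q : 3 * q ≠ 0 := Nat.mul_ne_zero three_ne_zero hq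
  have hB0 : ofPS (etaPS (nineB q)) ≠ 0 :=
    Fermat.Agent.S28.helper4768.ofPS_ne_zero (etaPS_ne_zero _)
  have hY' := congrArg (PowerSeries.map (Int.castRingHom ℚ)) hY
  rw [map_mul, map_mul, map_mul, map_pow, map_pow, PowerSeries.map_expand,
    PowerSeries.map_expand, PowerSeries.map_expand] at hY'
  have key : Y.map (Int.castRingHom ℚ) * etaPS (nineB q) = etaPS (nineA q) := by
    simp only [nineA, nineB, etaPS_cons, etaPS_nil, mul_one, pow_one]
    rw [ex_apply three_ne_zero, ex_apply hq, ex_apply one_ne_zero, ex_apply h3q,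
      PowerSeries.expand_one_apply]
    exact hY'
  have heq : ofPS (Y.map (Int.castRingHom ℚ))
      = ofPS (etaPS (nineA q)) / ofPS (etaPS (nineB q)) := by
    rw [eq_div_iff hB0, ← map_mul, key]
  rw [heq]
  exact etaPS_nine_mem_full q

end

end Fermat.Agent.S36.helper4474
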