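/-
S36-F2-ETAUNIT-W, level 9 (helper2008): the eta unit `b(x)/b(x^q)`, `b = E(x)^3/E(x^3)`, as an
element `Y₀` of `FN (q * M)` (`9 ∣ M`, `q` coprime to `M`) with `W_q(Y₀) * Y₀ = c * q`,
`c ^ 24 = 1`.
-/
import Mathlib
import Fermat.Agent.S36.helper2008_EtaUnitW
import Fermat.Agent.S36.helper4474_EtaNineMem
import Fermat.Agent.Lib.helper1356_Gamma0Index

open UpperHalfPlane ModularForm CongruenceSubgroup Matrix ModularCurve
open scoped MatrixGroups

namespace Fermat.Agent.S36.helper2008

open Fermat.Agent.S24.helper24 (Kbar FN)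
open Fermat.Agent.S35.helper1219 (atkinLehnerBar)
open Fermat.Agent.S28.helper4768 (ofPS)
open Fermat.Agent.S36.helper4474 (nineA nineB nine_hinv)

noncomputable section

theorem unitA_nine (q : ℕ) : unitA q [(1, 3)] [(3, 1)] = nineA q := rfl

theorem unitB_nine (q : ℕ) : unitB q [(1, 3)] [(3, 1)] = nineB q := by
  simp [unitB, scale, nineB]

/-- **Level 9 (in particular `q = 2`)**: the eta unit `Y₀ = b(x)/b(x^q)` in `FN (q * M)`, `9 ∣ M`,
with integer expansion `etaQuotZ (nineA q) (nineB q)` (constant term `1`) and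
`W_q(Y₀) * Y₀ = c * q`, `c ^ 24 = 1`. -/
theorem exists_nineUnit_atkinLehner (q M : ℕ) [NeZero q] [NeZero M] (h : Nat.Coprime q M)
    (h9 : 9 ∣ M) :
    ∃ (Y₀ : FN (q * M)) (c : Kbar), c ^ 24 = 1 ∧
      (Y₀ : LaurentSeries Kbar) = coeffEmb Kbar
        (ofPS ((etaQuotZ (nineA q) (nineB q)).map (Int.castRingHom ℚ))) ∧
      atkinLehnerBar q M h Y₀ * Y₀ = algebraMap Kbar (FN (q * M)) (c * q) := by
  have hq : 0 < q := Nat.pos_of_ne_zero (NeZero.ne q)
  have hdvd : 9 * q ∣ q * M := by
    rw [mul_comm 9 q]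
    exact Nat.mul_dvd_mul_left q h9
  have key := exists_etaUnit_atkinLehner q M h [(1, 3)] [(3, 1)]
    (by
      intro p hp
      simp only [List.mem_cons, List.not_mem_nil, or_false] at hp
      subst hp
      exact one_dvd _)
    (by
      intro p hp
      simp only [List.mem_cons, List.not_mem_nil, or_false] at hp
      subst hp
      exact (by norm_num : 3 ∣ 9).trans h9)
    (by simp) (by simp)
    (by
      rw [unitA_nine, unitB_nine]
      intro γ hγ τ
      exact nine_hinv hq γ (Fermat.Agent.Lib.helper1356.Gamma0_le_of_dvd hdvd hγ) τ)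
  rwa [unitA_nine, unitB_nine] at key

end

end Fermat.Agent.S36.helper2008
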