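/-
S36 (machine side, design of helper8523: kernel operators `U_q`, `U_q ∘ W` at `q² ∣ M`) --
`U_q = α'^* ∘ β'_*` ON FUNCTIONS AT A LEVEL `M₁ q` WITH `q ∣ M₁`.
Author: helper2106.  All proofs complete.

`Kbar = ℚ̄`, `FN M = modularFunctionFieldBar M ⊆ ℚ̄((t))`.  For a prime `q ∣ M₁` put
`α' = heckeAlphaBar Kbar M₁ q : F_{M₁} → F_{M₁ q}` (inclusion) and
`β' = heckeBetaBar Kbar M₁ q : F_{M₁} → F_{M₁ q}` (`t ↦ t^q`).  The multiplicative `U_q` of level
`M₁ q` (`uNorm (M₁ * q) q = helper1687.uFun (M₁ * q) q`, the function-level form of the canonical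
`uPic = helper1687.uOp` on `JZero (M₁ * q)`) satisfies, for EVERY `u ∈ F_{M₁ q}`:

* `uNorm_eq_alpha_norm` : `U_q u = α' (N_{β'} u)`;
* `coe_uNorm_eq_coe_norm` : the same on `t`-expansions;
* `normAlong_alpha_uNorm` (given `deg α' = q`): `N_{α'} (U_q u) = (N_{β'} u)^q`.
-/
import Fermat.Agent.S36.helper2106_NormBeta
import Fermat.Agent.S37.helper9342_NormTrickMod

set_option autoImplicit false
set_option linter.style.haveILetI false
set_option linter.unusedSectionVars false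

namespace Fermat.Agent.S36.helper2106

open ModularCurve AlgebraicCurve
open Fermat.Agent.S24.helper24 Fermat.Agent.S37.helper9343 Fermat.Agent.S37.helper5162
open Fermat.Agent.S35.helper2106
open Fermat.Agent.S29.helper36 (normAlong)

noncomputable section

variable (M₁ q : ℕ) [NeZero M₁] [NeZero q]

/-- There is a primitive `q`-th root of unity in `ℚ̄ˣ`. -/
theorem exists_primitiveRoot_units : ∃ ζ : Kbarˣ, IsPrimitiveRoot ζ q := by
  have : NeZero ((q : ℕ) : ℚ) := ⟨Nat.cast_ne_zero.mpr (NeZero.ne q)⟩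
  obtain ⟨ζ, hζ⟩ := HasEnoughRootsOfUnity.exists_primitiveRoot Kbar q
  exact ⟨(hζ.isUnit (NeZero.ne q)).unit, IsPrimitiveRoot.coe_units_iff.mp hζ⟩

/-- On `t`-expansions: `U_q u` (level `M₁ q`) and `N_{β'} u` (level `M₁`) are the same series. -/
theorem coe_uNorm_eq_coe_norm (hq : q.Prime) (hqM : q ∣ M₁) (u : FN (M₁ * q)) :
    ((uNorm (M₁ * q) q u : FN (M₁ * q)) : LaurentSeries Kbar)
      = ((normAlong (heckeBetaBar Kbar M₁ q) u : FN M₁) : LaurentSeries Kbar) := by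
  obtain ⟨ζ, hζ⟩ := exists_primitiveRoot_units q
  rw [coe_uNorm (M₁ * q) q hq (dvd_mul_left q M₁) ζ hζ u,
    coe_normAlong_heckeBetaBar M₁ q hq hqM ζ hζ u]

/-- **`U_q = α'^* ∘ β'_*` on functions** at a level `M₁ q` with `q ∣ M₁` (`q` prime): for every
`u ∈ F_{M₁ q}`, `U_q u = α' (N_{β'} u)`. -/
theorem uNorm_eq_alpha_norm (hq : q.Prime) (hqM : q ∣ M₁) (u : FN (M₁ * q)) :
    uNorm (M₁ * q) q u
      = heckeAlphaBar Kbar M₁ q (normAlong (heckeBetaBar Kbar M₁ q) u) := by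
  apply Subtype.ext
  have h := coe_uNorm_eq_coe_norm M₁ q hq hqM u
  rw [coe_heckeAlphaBar]
  exact h

/-- The norm along `ψ` of an element `ψ y` of the base field is `y ^ deg ψ`. -/
theorem normAlong_apply_self {K F F' : Type*} [Field K] [Field F] [Field F'] [Algebra K F]
    [Algebra K F'] (ψ : F →ₐ[K] F') (y : F) :
    normAlong ψ (ψ y) = y ^ finrankAlong K ψ := by
  letI := algebraAlong ψ
  exact Algebra.norm_algebraMap y

/-- **`α'_* ∘ U_q = q · β'_*` on functions**: for a prime `q ∣ M₁` and every `u ∈ F_{M₁ q}`,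
`N_{α'} (U_q u) = (N_{β'} u)^q`. -/
theorem normAlong_alpha_uNorm (hq : q.Prime) (hqM : q ∣ M₁) (u : FN (M₁ * q)) :
    normAlong (heckeAlphaBar Kbar M₁ q) (uNorm (M₁ * q) q u)
      = normAlong (heckeBetaBar Kbar M₁ q) u ^ q := by
  rw [uNorm_eq_alpha_norm M₁ q hq hqM u, normAlong_apply_self,
    Fermat.Agent.S37.helper9342.finrankAlong_heckeAlphaBar_of_dvd M₁ hq hqM]

end

end Fermat.Agent.S36.helper2106
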