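/-
S36, route #3001 (Carayol step (KILL)): CONSTANTS AND THE ALGEBRAICALLY CLOSED RESIDUE FIELD
(helper2454).  Imports Mathlib and `helper2454_RootsLift` (congruence calculus `vc_*`) only.

`O` is a valuation subring of the constant field `K` whose residue field is algebraically closed
(`K = ℚ̄^I`, `O = A ∩ K`), `F ⊇ K` a field with a valuation `v` which is `≤ 1` on `O` and `< 1`
on the maximal ideal of `O` (one of the three vertical valuations of the function field).

* `exists_root_mod`  (R) : every element of `O` is an `n`-th power modulo the maximal ideal.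
* `const_of_root`    (C) : an `n`-th root modulo `v` of a unit constant is congruent modulo `v` to
  a unit constant ("the constants are algebraically closed in the residue field of `v`", for
  roots of constants; no separability, no Hensel).
* `cst_*` : the same statements for the ring of constants `Cst = image of O in F`, in the binder
  shapes `hC`, `hCst`, `CONSTα`/`CONSTβ` of `helper9004.seedLocal_of_glue` and `hroot` of
  `helper2454.exists_roots_pow_of_norms`.
-/
import Fermat.Agent.S36.helper2454_RootsLift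

set_option autoImplicit false

namespace Fermat.Agent.S36.helper2454

open Polynomial

section ConstRoot

variable {K : Type*} [Field K] (O : ValuationSubring K)

/-- **(R)** Every element of `O` is an `n`-th power modulo the maximal ideal, when the residue
field of `O` is algebraically closed. -/
theorem exists_root_mod (hk : IsAlgClosed (IsLocalRing.ResidueField O)) (n : ℕ) (hn : 0 < n)
    (c : K) (hc : c ∈ O) : ∃ d ∈ O, d ^ n - c ∈ O.nonunits := by
  have := hk
  obtain ⟨r, hr⟩ := IsAlgClosed.exists_pow_nat_eq (IsLocalRing.residue O ⟨c, hc⟩) hn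
  obtain ⟨d, hd⟩ := IsLocalRing.residue_surjective (R := O) r
  refine ⟨(d : K), d.2, ?_⟩
  have h0 : IsLocalRing.residue O (d ^ n - ⟨c, hc⟩) = 0 := by
    rw [map_sub, map_pow, hd, hr, sub_self]
  have hmem : d ^ n - ⟨c, hc⟩ ∈ IsLocalRing.maximalIdeal O :=
    (IsLocalRing.residue_eq_zero_iff _).mp h0
  have := (ValuationSubring.coe_mem_nonunits_iff (A := O)).mpr hmem
  simpa using this

variable {F : Type*} [Field F] [Algebra K F] {Γ : Type*} [LinearOrderedCommGroupWithZero Γ]
  (v : Valuation F Γ)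

/-- A unit of `O` has valuation one in `F`. -/
theorem val_algebraMap_eq_one (hv : ∀ a : K, a ∈ O → v (algebraMap K F a) ≤ 1)
    {c : K} (hc : c ∈ O) (hc' : c⁻¹ ∈ O) (hc0 : c ≠ 0) : v (algebraMap K F c) = 1 := by
  have h1 := hv c hc
  have h2 := hv c⁻¹ hc'
  rw [map_inv₀, map_inv₀] at h2
  have hv0 : v (algebraMap K F c) ≠ 0 :=
    (Valuation.ne_zero_iff v).mpr ((map_ne_zero (algebraMap K F)).mpr hc0)
  rcases lt_or_eq_of_le h1 with h3 | h3
  · exact absurd h2 (not_le.mpr ((one_lt_inv₀ (zero_lt_iff.mpr hv0)).mpr h3))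
  · exact h3

/-- On `O`, `v < 1` exactly on the maximal ideal. -/
theorem val_algebraMap_lt_one_iff (hv : ∀ a : K, a ∈ O → v (algebraMap K F a) ≤ 1)
    (hv' : ∀ a : K, a ∈ O.nonunits → v (algebraMap K F a) < 1) {a : K} (ha : a ∈ O) :
    v (algebraMap K F a) < 1 ↔ a ∈ O.nonunits := by
  refine ⟨fun h => ?_, hv' a⟩
  by_contra hnot
  rw [ValuationSubring.mem_nonunits_iff_or] at hnot
  push Not at hnot
  have := val_algebraMap_eq_one O v hv ha hnot.2 hnot.1
  rw [this] at h
  exact lt_irrefl _ h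

/-- **(C)** An `n`-th root modulo `v` of a unit constant is a unit constant modulo `v`. -/
theorem const_of_root (hk : IsAlgClosed (IsLocalRing.ResidueField O))
    (hv : ∀ a : K, a ∈ O → v (algebraMap K F a) ≤ 1)
    (hv' : ∀ a : K, a ∈ O.nonunits → v (algebraMap K F a) < 1)
    (n : ℕ) (hn : 0 < n) (c : K) (hc : c ∈ O) (hc' : c⁻¹ ∈ O) (hc0 : c ≠ 0) (y : F)
    (hy : v (y ^ n - algebraMap K F c) < 1) :
    ∃ θ : K, θ ∈ O ∧ θ⁻¹ ∈ O ∧ v (y - algebraMap K F θ) < 1 := by
  have := hk
  have hn0 : n ≠ 0 := Nat.pos_iff_ne_zero.mp hn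
  have hc1 : v (algebraMap K F c) = 1 := val_algebraMap_eq_one O v hv hc hc' hc0
  have hyn : v (y ^ n) = 1 := vc_unit v hc1 (vc_symm v hy)
  have hy1 : v y = 1 := vc_pow_eq_one v hn0 hyn
  -- the polynomial `X ^ n - c̄` over the residue field splits
  set res := IsLocalRing.residue O with hres
  set p : (IsLocalRing.ResidueField O)[X] := X ^ n - C (res ⟨c, hc⟩) with hp
  have hpm : p.Monic := monic_X_pow_sub_C _ hn0
  have hfac : p = (p.roots.map fun a => X - C a).prod :=
    (IsAlgClosed.splits p).eq_prod_roots_of_monic hpm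
  -- lift the roots to `O`
  have hsurj : Function.Surjective res := IsLocalRing.residue_surjective
  let lift : IsLocalRing.ResidueField O → O := Function.surjInv hsurj
  have hlift : ∀ a, res (lift a) = a := Function.surjInv_eq hsurj
  let P : O[X] := (p.roots.map fun a => X - C (lift a)).prod
  let Q : O[X] := X ^ n - C ⟨c, hc⟩
  have hPmap : P.map res = p := by
    rw [hfac]
    simp only [P, Polynomial.map_multiset_prod, Multiset.map_map]
    congr 1
    refine Multiset.map_congr rfl (fun a _ => ?_)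
    simp [hlift]
  have hQmap : Q.map res = p := by
    simp [Q, hp]
  -- the difference has coefficients in the maximal ideal
  have hcoeff : ∀ i, v (algebraMap K F ((P - Q).coeff i : K)) < 1 := by
    intro i
    apply hv'
    rw [ValuationSubring.coe_mem_nonunits_iff, ← IsLocalRing.residue_eq_zero_iff, ← hres,
      ← Polynomial.coeff_map, Polynomial.map_sub, hPmap, hQmap, sub_self, coeff_zero]
  -- evaluate at `y`
  let φ : O →+* F := (algebraMap K F).comp O.subtype
  have hφ : ∀ a : O, φ a = algebraMap K F (a : K) := fun _ => rfl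
  have hevD : v (eval₂ φ y (P - Q)) < 1 := by
    rw [eval₂_eq_sum_range]
    refine Valuation.map_sum_lt v one_ne_zero (fun i _ => ?_)
    rw [map_mul, map_pow, hy1, one_pow, mul_one, hφ]
    exact hcoeff i
  have hevQ : eval₂ φ y Q = y ^ n - algebraMap K F c := by
    simp [Q, eval₂_sub, eval₂_pow, hφ]
  have hevP : eval₂ φ y P = (p.roots.map fun a => y - φ (lift a)).prod := by
    have h1 : eval₂ φ y P = (eval₂RingHom φ y) P := rfl
    rw [h1]
    simp only [P, map_multiset_prod, Multiset.map_map]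
    congr 1
    refine Multiset.map_congr rfl (fun a _ => ?_)
    simp [eval₂_sub]
  have hevP1 : v (eval₂ φ y P) < 1 := by
    have e : eval₂ φ y P = eval₂ φ y (P - Q) + eval₂ φ y Q := by
      rw [eval₂_sub, sub_add_cancel]
    rw [e, hevQ]
    exact v.map_add_lt hevD hy
  -- some factor has valuation `< 1`
  have hex : ∃ a ∈ p.roots, v (y - φ (lift a)) < 1 := by
    by_contra hno
    push Not at hno
    have hall : ∀ a ∈ p.roots, v (y - φ (lift a)) = 1 := by
      intro a ha
      refine le_antisymm ?_ (hno a ha)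
      refine le_trans (v.map_sub _ _) (max_le hy1.le ?_)
      rw [hφ]
      exact hv _ (lift a).2
    rw [hevP, map_multiset_prod, Multiset.map_map] at hevP1
    have hone : (p.roots.map (v ∘ fun a => y - φ (lift a))).prod = 1 := by
      apply Multiset.prod_eq_one
      intro x hx
      obtain ⟨a, ha, rfl⟩ := Multiset.mem_map.mp hx
      exact hall a ha
    rw [hone] at hevP1
    exact lt_irrefl _ hevP1
  obtain ⟨a, -, ha⟩ := hex
  refine ⟨(lift a : K), (lift a).2, ?_, ha⟩
  -- `lift a` is a unit of `O`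
  have hθ1 : v (algebraMap K F (lift a : K)) = 1 := vc_unit v hy1 ha
  have hnot : (lift a : K) ∉ O.nonunits := by
    intro hmem
    have := hv' _ hmem
    rw [hθ1] at this
    exact lt_irrefl _ this
  rw [ValuationSubring.mem_nonunits_iff_or] at hnot
  push Not at hnot
  exact hnot.2

end ConstRoot

/-! ### The ring of constants `Cst = image of O in F` -/

section Cst

variable {K : Type*} [Field K] (O : ValuationSubring K) {F : Type*} [Field F] [Algebra K F]

/-- The ring of constants: the image of `O` in `F`. -/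
def cst (F : Type*) [Field F] [Algebra K F] : Subring F := O.toSubring.map (algebraMap K F)

theorem mem_cst {x : F} : x ∈ cst O F ↔ ∃ a : K, a ∈ O ∧ algebraMap K F a = x := by
  unfold cst
  rw [Subring.mem_map]
  rfl

theorem algebraMap_mem_cst {a : K} (ha : a ∈ O) : algebraMap K F a ∈ cst O F :=
  (mem_cst O).mpr ⟨a, ha, rfl⟩

/-- A unit of `Cst` is the image of a unit of `O`. -/
theorem exists_unit_of_mem_cst {c : F} (hc : c ∈ cst O F) (hcinv : c⁻¹ ∈ cst O F) (hc0 : c ≠ 0) :
    ∃ a : K, a ∈ O ∧ a⁻¹ ∈ O ∧ a ≠ 0 ∧ algebraMap K F a = c := by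
  obtain ⟨a, ha, rfl⟩ := (mem_cst O).mp hc
  obtain ⟨b, hb, hb'⟩ := (mem_cst O).mp hcinv
  have ha0 : a ≠ 0 := fun h => hc0 (by rw [h, map_zero])
  have hab : b = a⁻¹ := by
    apply (algebraMap K F).injective
    rw [hb', map_inv₀]
  exact ⟨a, ha, hab ▸ hb, ha0, rfl⟩

variable {Γ : Type*} [LinearOrderedCommGroupWithZero Γ] (v : Valuation F Γ)

/-- `hC` of `helper9004.seedLocal_of_glue`. -/
theorem cst_le_one (hv : ∀ a : K, a ∈ O → v (algebraMap K F a) ≤ 1) :
    ∀ x ∈ cst O F, v x ≤ 1 := by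
  intro x hx
  obtain ⟨a, ha, rfl⟩ := (mem_cst O).mp hx
  exact hv a ha

/-- On `Cst`, `v < 1` is membership of the maximal ideal of `O`: the same condition for every
valuation `v` which is `≤ 1` on `O` and `< 1` on its maximal ideal. -/
theorem cst_lt_one_iff {Γ' : Type*} [LinearOrderedCommGroupWithZero Γ'] (v' : Valuation F Γ')
    (hv : ∀ a : K, a ∈ O → v (algebraMap K F a) ≤ 1)
    (hv' : ∀ a : K, a ∈ O.nonunits → v (algebraMap K F a) < 1)
    (hw : ∀ a : K, a ∈ O → v' (algebraMap K F a) ≤ 1)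
    (hw' : ∀ a : K, a ∈ O.nonunits → v' (algebraMap K F a) < 1) :
    ∀ x ∈ cst O F, v x < 1 ↔ v' x < 1 := by
  intro x hx
  obtain ⟨a, ha, rfl⟩ := (mem_cst O).mp hx
  rw [val_algebraMap_lt_one_iff O v hv hv' ha, val_algebraMap_lt_one_iff O v' hw hw' ha]

/-- `hCst` of `helper9004.seedLocal_of_glue`. -/
theorem cst_same {Γ : Fin 3 → Type*} [∀ c, LinearOrderedCommGroupWithZero (Γ c)]
    (v : ∀ c, Valuation F (Γ c))
    (hv : ∀ c, ∀ a : K, a ∈ O → v c (algebraMap K F a) ≤ 1)
    (hv' : ∀ c, ∀ a : K, a ∈ O.nonunits → v c (algebraMap K F a) < 1) :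
    ∀ x ∈ cst O F, (v 0 x < 1 ↔ v 1 x < 1) ∧ (v 1 x < 1 ↔ v 2 x < 1) := fun x hx =>
  ⟨cst_lt_one_iff O (v 0) (v 1) (hv 0) (hv' 0) (hv 1) (hv' 1) x hx,
    cst_lt_one_iff O (v 1) (v 2) (hv 1) (hv' 1) (hv 2) (hv' 2) x hx⟩

/-- `hroot` of `helper2454.exists_roots_pow_of_norms`. -/
theorem cst_root (hk : IsAlgClosed (IsLocalRing.ResidueField O))
    (hv' : ∀ a : K, a ∈ O.nonunits → v (algebraMap K F a) < 1) (n : ℕ) (hn : 0 < n) :
    ∀ c ∈ cst O F, c⁻¹ ∈ cst O F → ∃ d ∈ cst O F, v (d ^ n - c) < 1 := by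
  intro c hc _
  obtain ⟨a, ha, rfl⟩ := (mem_cst O).mp hc
  obtain ⟨d, hd, hda⟩ := exists_root_mod O hk n hn a ha
  refine ⟨algebraMap K F d, algebraMap_mem_cst O hd, ?_⟩
  have := hv' _ hda
  rwa [map_sub, map_pow] at this

/-- `CONSTα` / `CONSTβ` of `helper9004.seedLocal_of_glue` (at one valuation). -/
theorem cst_const (hk : IsAlgClosed (IsLocalRing.ResidueField O))
    (hv : ∀ a : K, a ∈ O → v (algebraMap K F a) ≤ 1)
    (hv' : ∀ a : K, a ∈ O.nonunits → v (algebraMap K F a) < 1) (n : ℕ) (hn : 0 < n)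
    {c : F} (hc : c ∈ cst O F) (hcinv : c⁻¹ ∈ cst O F) (hc0 : c ≠ 0) :
    ∀ y : F, v (y ^ n - c) < 1 → ∃ θ ∈ cst O F, θ⁻¹ ∈ cst O F ∧ v (y - θ) < 1 := by
  intro y hy
  obtain ⟨a, ha, ha', ha0, rfl⟩ := exists_unit_of_mem_cst O hc hcinv hc0
  obtain ⟨θ, hθ, hθ', hyθ⟩ := const_of_root O v hk hv hv' n hn a ha ha' ha0 y hy
  refine ⟨algebraMap K F θ, algebraMap_mem_cst O hθ, ?_, hyθ⟩
  rw [← map_inv₀]
  exact algebraMap_mem_cst O hθ'

end Cst

end Fermat.Agent.S36.helper2454
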