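/-
S36-GLUE5 (board #2020): the abstract core of step (5) of route #3001
("the glueing unit `e` lies in the local ring `R_P`", finite-etale / Nakayama step).

Main statement (`mem_range_of_pow_eq_of_sub_mem_jacobson`):
`R` a local ring, `S` an integral `R`-algebra, `n` invertible in `R`, `eps` a unit of `R`,
`e : S` with `e ^ n = eps` and `e - c` in the Jacobson radical of `S` for some `c : R`
(all branches carry the same residue value).  Then `e` comes from `R`.
-/
import Mathlib

set_option autoImplicit false

namespace Fermat.Agent.S36.helper2524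

open Polynomial

section Local

variable {R S : Type*} [CommRing R] [IsLocalRing R] [CommRing S] [Algebra R S]

/-- In an integral extension of a local ring the maximal ideal maps into the Jacobson radical. -/
theorem algebraMap_mem_jacobson_of_mem_maximalIdeal [Algebra.IsIntegral R S] {r : R}
    (hr : r ∈ IsLocalRing.maximalIdeal R) :
    algebraMap R S r ∈ (⊥ : Ideal S).jacobson := by
  rw [Ideal.jacobson, Ideal.mem_sInf]
  rintro M ⟨-, hM⟩
  have hmax : (M.comap (algebraMap R S)).IsMaximal :=
    Ideal.isMaximal_comap_of_isIntegral_of_isMaximal M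
  have h2 := IsLocalRing.eq_maximalIdeal hmax
  have h3 : r ∈ M.comap (algebraMap R S) := h2 ▸ hr
  exact h3

/-- A unit plus an element of the Jacobson radical is a unit. -/
theorem isUnit_add_of_mem_jacobson {A : Type*} [CommRing A] {u x : A} (hu : IsUnit u)
    (hx : x ∈ (⊥ : Ideal A).jacobson) : IsUnit (u + x) := by
  obtain ⟨v, rfl⟩ := hu
  have h := (Ideal.mem_jacobson_bot.mp hx) (↑v⁻¹ : A)
  have h2 : (v : A) + x = v * (x * (↑v⁻¹ : A) + 1) := by
    have : (v : A) * (↑v⁻¹ : A) = 1 := Units.mul_inv v
    linear_combination (-x) * this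
  rw [h2]
  exact v.isUnit.mul h

/-- A unit of a nontrivial ring is not in the Jacobson radical. -/
theorem not_mem_jacobson_of_isUnit {A : Type*} [CommRing A] [Nontrivial A] {u : A}
    (hu : IsUnit u) : u ∉ (⊥ : Ideal A).jacobson := by
  intro h
  have h1 : (⊥ : Ideal A).jacobson = ⊤ := Ideal.eq_top_of_isUnit_mem _ h hu
  rw [Ideal.jacobson_eq_top_iff] at h1
  exact bot_ne_top h1

/-- **Glueing lemma, local form** (step (5) of route #3001).
`R` local, `S` integral over `R`, `n` invertible in `R`, `e ^ n = eps` with `eps` a unit of `R`,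
and `e - c` in the Jacobson radical of `S` for some `c : R`.  Then `e` lies in the image of `R`. -/
theorem mem_range_of_pow_eq_of_sub_mem_jacobson [Algebra.IsIntegral R S]
    {n : ℕ} (hn : IsUnit (n : R)) {eps : R} (heps : IsUnit eps) {e : S}
    (he : e ^ n = algebraMap R S eps) {c : R}
    (hc : e - algebraMap R S c ∈ (⊥ : Ideal S).jacobson) :
    e ∈ (algebraMap R S).range := by
  rcases subsingleton_or_nontrivial S with hS | hS
  · exact ⟨0, Subsingleton.elim _ _⟩
  -- `n ≠ 0`
  have hn0 : n ≠ 0 := by
    rintro rfl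
    simp at hn
  -- `e` is a unit of `S`
  have heU : IsUnit e := by
    have : IsUnit (e ^ n) := he ▸ heps.map (algebraMap R S)
    exact (isUnit_pow_iff hn0).mp this
  -- `c` is a unit of `R`
  have hcU : IsUnit c := by
    by_contra hcn
    have hcm : c ∈ IsLocalRing.maximalIdeal R := (IsLocalRing.mem_maximalIdeal c).mpr hcn
    have h1 := algebraMap_mem_jacobson_of_mem_maximalIdeal (S := S) hcm
    have h2 : e ∈ (⊥ : Ideal S).jacobson := by
      have := Ideal.add_mem _ hc h1
      simpa using this
    exact not_mem_jacobson_of_isUnit heU h2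
  -- the finite subalgebra `T = R[e]`
  let T : Subalgebra R S := Algebra.adjoin R {e}
  have heT : e ∈ T := Algebra.self_mem_adjoin_singleton R e
  have heint : IsIntegral R e := Algebra.IsIntegral.isIntegral e
  have hTfg : T.toSubmodule.FG := heint.fg_adjoin_singleton
  let eT : T := ⟨e, heT⟩
  let cT : T := algebraMap R T c
  let tT : T := eT - cT
  obtain ⟨k, hk⟩ := powAddExpansion cT tT n
  let w : T := (n : T) * cT ^ (n - 1) + k * tT
  -- the key identity `t * w = eps - c ^ n`
  have hkey : tT * w = algebraMap R T (eps - c ^ n) := by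
    have h1 : (cT + tT) ^ n = algebraMap R T eps := by
      have : cT + tT = eT := by simp [tT]
      rw [this]
      apply Subtype.ext
      simpa [eT] using he
    have h2 : algebraMap R T (eps - c ^ n) = (cT + tT) ^ n - cT ^ n := by
      rw [h1]; simp [cT]
    rw [h2, hk]
    ring
  -- `t` is in the Jacobson radical of `S`
  have htS : (tT : S) ∈ (⊥ : Ideal S).jacobson := by
    simpa [tT, eT, cT] using hc
  -- `w` is a unit of `S`
  have hwS : IsUnit (w : S) := by
    have h1 : (w : S) = algebraMap R S ((n : R) * c ^ (n - 1)) + (k : S) * (tT : S) := by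
      simp [w, cT]
    rw [h1]
    refine isUnit_add_of_mem_jacobson ?_ (Ideal.mul_mem_left _ _ htS)
    exact (hn.mul (hcU.pow _)).map (algebraMap R S)
  -- hence a unit of `T` (integral injective ring homs are local)
  have hwT : IsUnit w := by
    have hint : (T.val : T →+* S).IsIntegral := by
      intro x
      have hx : IsIntegral R x := Algebra.IsIntegral.isIntegral x
      exact hx.tower_top
    have hloc : IsLocalHom (T.val : T →+* S) := hint.isLocalHom Subtype.val_injective
    exact hloc.map_nonunit w hwS
  -- `eps - c ^ n` lies in the maximal ideal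
  have hm : eps - c ^ n ∈ IsLocalRing.maximalIdeal R := by
    rw [IsLocalRing.mem_maximalIdeal]
    intro hU
    have h1 : IsUnit (algebraMap R S (eps - c ^ n)) := hU.map (algebraMap R S)
    have h2 : algebraMap R S (eps - c ^ n) = (tT : S) * (w : S) := by
      have := congrArg (Subtype.val) hkey
      simpa using this.symm
    have h3 : algebraMap R S (eps - c ^ n) ∈ (⊥ : Ideal S).jacobson := by
      rw [h2]; exact Ideal.mul_mem_right _ _ htS
    exact not_mem_jacobson_of_isUnit h1 h3
  -- Nakayama
  have hNak : T.toSubmodule ≤ LinearMap.range (Algebra.linearMap R S) ⊔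
      IsLocalRing.maximalIdeal R • T.toSubmodule := by
    intro x hx
    have hx' : x ∈ Algebra.adjoin R {e} := hx
    rw [Algebra.adjoin_singleton_eq_range_aeval] at hx'
    obtain ⟨p, rfl⟩ := hx'
    obtain ⟨z, hz⟩ := sub_dvd_eval_sub eT cT (p.map (algebraMap R T))
    obtain ⟨winv, hwinv⟩ := hwT.exists_right_inv
    -- `p(e) = p(c) + (eps - c^n) • (winv * z)`
    have h1 : (p.map (algebraMap R T)).eval eT
        = algebraMap R T (p.eval c) + (eps - c ^ n) • (winv * z) := by
      have h2 : (p.map (algebraMap R T)).eval cT = algebraMap R T (p.eval c) := by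
        simp [cT, Polynomial.eval_map, Polynomial.eval₂_at_apply]
      have h3 : (eps - c ^ n) • (winv * z) = tT * z := by
        rw [Algebra.smul_def, ← hkey]
        linear_combination (tT * z) * hwinv
      rw [h3, ← h2]
      have : eT - cT = tT := rfl
      rw [← this]
      linear_combination hz
    have h4 : (aeval e) p = (((p.map (algebraMap R T)).eval eT : T) : S) := by
      rw [Polynomial.eval_map, ← Polynomial.aeval_def]
      have : ((aeval eT p : T) : S) = aeval (eT : S) p := by
        rw [← Subalgebra.coe_val, ← Polynomial.aeval_algHom_apply]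
      rw [this]
    change (aeval e) p ∈ _
    rw [h4, h1]
    refine Submodule.mem_sup.mpr ⟨algebraMap R S (p.eval c), ⟨p.eval c, rfl⟩,
      (((eps - c ^ n) • (winv * z) : T) : S), ?_, ?_⟩
    · have : (((eps - c ^ n) • (winv * z) : T) : S) = (eps - c ^ n) • ((winv * z : T) : S) := rfl
      rw [this]
      exact Submodule.smul_mem_smul hm (winv * z).2
    · simp
  have hle := Submodule.le_of_le_smul_of_le_jacobson_bot hTfg
    (IsLocalRing.jacobson_eq_maximalIdeal ⊥ bot_ne_top).ge hNak
  obtain ⟨r, hr⟩ := hle heT
  exact ⟨r, hr⟩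

/-- Variant of `mem_range_of_pow_eq_of_sub_mem_jacobson` with the hypothesis stated on the
maximal ideals of `S` ("`e` has the residue value `c` at every point above the closed point"). -/
theorem mem_range_of_pow_eq_of_forall_isMaximal [Algebra.IsIntegral R S]
    {n : ℕ} (hn : IsUnit (n : R)) {eps : R} (heps : IsUnit eps) {e : S}
    (he : e ^ n = algebraMap R S eps) {c : R}
    (hc : ∀ M : Ideal S, M.IsMaximal → e - algebraMap R S c ∈ M) :
    e ∈ (algebraMap R S).range := by
  refine mem_range_of_pow_eq_of_sub_mem_jacobson hn heps he (c := c) ?_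
  rw [Ideal.jacobson, Ideal.mem_sInf]
  rintro M ⟨-, hM⟩
  exact hc M hM

/-- Unit form: the preimage of `e` can be taken to be a unit of `R` (for `S` nontrivial). -/
theorem exists_isUnit_algebraMap_eq_of_pow_eq [Algebra.IsIntegral R S] [Nontrivial S]
    {n : ℕ} (hn : IsUnit (n : R)) {eps : R} (heps : IsUnit eps) {e : S}
    (he : e ^ n = algebraMap R S eps) {c : R}
    (hc : e - algebraMap R S c ∈ (⊥ : Ideal S).jacobson) :
    ∃ r : R, IsUnit r ∧ algebraMap R S r = e := by
  obtain ⟨r, hr⟩ := mem_range_of_pow_eq_of_sub_mem_jacobson hn heps he hc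
  refine ⟨r, ?_, hr⟩
  have hn0 : n ≠ 0 := by
    rintro rfl
    simp at hn
  have heU : IsUnit e := by
    have : IsUnit (e ^ n) := he ▸ heps.map (algebraMap R S)
    exact (isUnit_pow_iff hn0).mp this
  by_contra hrn
  have hrm : r ∈ IsLocalRing.maximalIdeal R := (IsLocalRing.mem_maximalIdeal r).mpr hrn
  have h1 := algebraMap_mem_jacobson_of_mem_maximalIdeal (S := S) hrm
  rw [show algebraMap R S r = e from hr] at h1
  exact not_mem_jacobson_of_isUnit heU h1

end Local

section Pi

variable {R : Type*} [CommRing R] {ι : Type*} {S : ι → Type*} [∀ i, CommRing (S i)]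
  [∀ i, Algebra R (S i)]

/-- `Pi.single i a` is integral if `a` is. -/
theorem isIntegral_pi_single [DecidableEq ι] (i : ι) {a : S i} (ha : IsIntegral R a) :
    IsIntegral R (Pi.single i a : ∀ j, S j) := by
  obtain ⟨p, hp, hpa⟩ := ha
  refine ⟨X * p, monic_X.mul hp, ?_⟩
  funext j
  have key : ∀ q : R[X], (eval₂ (algebraMap R (∀ j, S j)) (Pi.single i a) q) j
      = eval₂ (algebraMap R (S j)) ((Pi.single i a : ∀ j, S j) j) q := by
    intro q
    have h1 := Polynomial.hom_eval₂ q (algebraMap R (∀ j, S j)) (Pi.evalRingHom S j)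
      (Pi.single i a)
    have h2 : (Pi.evalRingHom S j).comp (algebraMap R (∀ j, S j)) = algebraMap R (S j) := rfl
    rw [h2] at h1
    exact h1
  rw [key]
  by_cases h : j = i
  · subst h
    simp [eval₂_mul, hpa]
  · simp [eval₂_mul, Pi.single_eq_of_ne h]

/-- A finite product of integral algebras is integral. -/
theorem isIntegral_pi_of_finite [Finite ι] (h : ∀ i, Algebra.IsIntegral R (S i)) :
    Algebra.IsIntegral R (∀ i, S i) := by
  classical
  cases nonempty_fintype ι
  refine ⟨fun x => ?_⟩
  have hx : x = ∑ i, (Pi.single i (x i) : ∀ j, S j) := (Finset.univ_sum_single x).symm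
  rw [hx]
  exact IsIntegral.sum _ fun i _ => isIntegral_pi_single i ((h i).isIntegral (x i))

/-- Jacobson radical of a product of local rings: componentwise maximal ideals. -/
theorem mem_jacobson_pi_of_forall_mem_maximalIdeal [∀ i, IsLocalRing (S i)] {x : ∀ i, S i}
    (hx : ∀ i, x i ∈ IsLocalRing.maximalIdeal (S i)) :
    x ∈ (⊥ : Ideal (∀ i, S i)).jacobson := by
  rw [Ideal.mem_jacobson_bot]
  intro y
  rw [Pi.isUnit_iff]
  intro i
  have h1 : x i * y i ∈ IsLocalRing.maximalIdeal (S i) := Ideal.mul_mem_right _ _ (hx i)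
  have h2 : IsUnit (1 + x i * y i) := by
    by_contra hcon
    have h3 : 1 + x i * y i ∈ IsLocalRing.maximalIdeal (S i) :=
      (IsLocalRing.mem_maximalIdeal _).mpr hcon
    have h4 : (1 : S i) ∈ IsLocalRing.maximalIdeal (S i) := by
      have h5 : (1 : S i) = (1 + x i * y i) - x i * y i := by ring
      rw [h5]
      exact Ideal.sub_mem _ h3 h1
    exact (Ideal.ne_top_iff_one _).mp (IsLocalRing.maximalIdeal.isMaximal (S i)).ne_top h4
  simpa [add_comm] using h2

/-- **Glueing lemma, branch form.**  `R` local, `S i` finitely many local rings integral over `R`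
(the branches through the point), `e i ^ n = eps` on every branch with `eps` a unit of `R`,
`n` invertible in `R`, and all the `e i` have the same residue value `c`.  Then the tuple `e`
comes from ONE element of `R`. -/
theorem exists_algebraMap_eq_of_forall_sub_mem_maximalIdeal [IsLocalRing R] [Finite ι]
    [∀ i, IsLocalRing (S i)] [∀ i, Algebra.IsIntegral R (S i)]
    {n : ℕ} (hn : IsUnit (n : R)) {eps : R} (heps : IsUnit eps) (e : ∀ i, S i)
    (he : ∀ i, e i ^ n = algebraMap R (S i) eps) (c : R)
    (hc : ∀ i, e i - algebraMap R (S i) c ∈ IsLocalRing.maximalIdeal (S i)) :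
    ∃ r : R, ∀ i, algebraMap R (S i) r = e i := by
  have : Algebra.IsIntegral R (∀ i, S i) := isIntegral_pi_of_finite fun i => inferInstance
  have he' : e ^ n = algebraMap R (∀ i, S i) eps := by
    funext i
    simpa using he i
  have hc' : e - algebraMap R (∀ i, S i) c ∈ (⊥ : Ideal (∀ i, S i)).jacobson :=
    mem_jacobson_pi_of_forall_mem_maximalIdeal fun i => by simpa using hc i
  obtain ⟨r, hr⟩ := mem_range_of_pow_eq_of_sub_mem_jacobson hn heps he' hc'
  exact ⟨r, fun i => by simpa using congrFun hr i⟩

end Pi

end Fermat.Agent.S36.helper2524
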