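/-
S36 (route #3001, design D1), board row S36-CHARTS (#2248), helper2587:
the chart rings of the normal two-chart model (`helper248.chartRing A0 s`, copy of record of the
chart package) versus the GAUSS EXTENSIONS of the base line.

* (C4) `nilMod_chartRing_of_gaussExt` and its twins for the chart `t⁻¹` and the overlap: an
  element of a chart ring lying in the maximal ideal of every valuation subring `V` of `L` with
  `A0[t] ⊆ V` and `m_V ∩ A0[t] = q A0[t]` (`IsGaussExt`) is nilpotent modulo `q`
  (`helper1730.NilMod`).  With a family of valuations exhausting the Gauss extensions this is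
  the hypothesis `hJ0`, `hJ1`, `hJ01` of `helper4913.exists_seeds_nilMod` verbatim
  (`nilMod_of_forall_val_lt_one`).
* (C3) `isFractionRing_chartRing`, `isIntegrallyClosed_chartRing`, `isNoetherianRing_chartRing`:
  the ring-theoretic structure of the chart ring types, for the local principality lemmas.

Proof of (C4): `rad (q B)` is the intersection of the minimal primes `p` over `q B`; any
valuation subring `V` dominating `B_p` is a Gauss extension, because `p ∩ A0[t] = q A0[t]` by
going-down for the integral extension `A0[t] ⊆ B` of the integrally closed domain `A0[t]`.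
No height, no discrete valuation ring, no noetherian hypothesis is used there.
-/
import Fermat.Agent.S36.helper248_RootLatticeChart

set_option autoImplicit false

namespace Fermat.Agent.S36.helper2587

open Polynomial
open Fermat.Agent.S36.helper1730 (NilMod)
open Fermat.Agent.S36.helper248 (chartRing)

/-! ### Abstract layer (Mathlib only) -/

section Abstract

/-- A valuation subring dominating the localisation of `S` at a prime `p`, for an injective
ring hom `f : S → L` into a field. -/
theorem exists_valuationSubring_of_prime {S L : Type*} [CommRing S] [Field L] (f : S →+* L)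
    (hf : Function.Injective f) (p : Ideal S) [p.IsPrime] :
    ∃ V : ValuationSubring L, (∀ s, f s ∈ V) ∧ ∀ s, f s ∈ V.nonunits ↔ s ∈ p := by
  have hunit : ∀ y : p.primeCompl, IsUnit (f y) := fun y =>
    IsUnit.mk0 _ fun h => y.2 (by
      have h0 : (y : S) = 0 := hf (h.trans (map_zero f).symm)
      rw [h0]; exact p.zero_mem)
  let g : Localization.AtPrime p →+* L := IsLocalization.lift hunit
  have hg : ∀ s, g (algebraMap S (Localization.AtPrime p) s) = f s := fun s =>
    IsLocalization.lift_eq hunit s
  obtain ⟨V, hV, hloc⟩ := IsLocalRing.exists_factor_valuationRing g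
  refine ⟨V, fun s => hg s ▸ hV _, fun s => ?_⟩
  set a := algebraMap S (Localization.AtPrime p) s with ha
  set b : V := g.codRestrict V.toSubring hV a with hb
  have hbs : (b : L) = f s := hg s
  have hunit_iff : IsUnit b ↔ IsUnit a :=
    ⟨fun h => hloc.map_nonunit a h, fun h => h.map (g.codRestrict V.toSubring hV)⟩
  rw [← hbs, ValuationSubring.coe_mem_nonunits_iff, IsLocalRing.mem_maximalIdeal,
    mem_nonunits_iff, hunit_iff, ha, IsLocalization.AtPrime.isUnit_to_map_iff _ p s]
  exact not_not

/-- **Radical of a principal ideal via valuation subrings.**  `R ⊆ S` an integral extension of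
domains inside a field `L`, `R` integrally closed, `q` a prime element of `R`.  If `x ∈ S` lies
in the maximal ideal of every valuation subring `V ⊇ S` of `L` with `m_V ∩ R = q R`, then `x`
is nilpotent modulo `q S`. -/
theorem mem_radical_of_forall_valuationSubring {R S L : Type*} [CommRing R] [IsDomain R]
    [IsIntegrallyClosed R] [CommRing S] [IsDomain S] [Field L] [Algebra R S] [Algebra S L]
    [Algebra R L] [IsScalarTower R S L] [FaithfulSMul R S] [FaithfulSMul S L]
    [Algebra.IsIntegral R S] (q : R) (hq : Prime q) (x : S)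
    (hx : ∀ V : ValuationSubring L, (∀ s : S, algebraMap S L s ∈ V) →
      (∀ r : R, algebraMap R L r ∈ V.nonunits ↔ q ∣ r) → algebraMap S L x ∈ V.nonunits) :
    x ∈ (Ideal.span {algebraMap R S q}).radical := by
  rw [← Ideal.sInf_minimalPrimes, Ideal.mem_sInf]
  intro p hp
  have : p.IsPrime := hp.1.1
  have hqp : algebraMap R S q ∈ p := hp.1.2 (Ideal.subset_span rfl)
  have : (Ideal.span {q}).IsPrime := (Ideal.span_singleton_prime hq.ne_zero).mpr hq
  have hle : Ideal.span {q} ≤ p.under R := by
    rw [Ideal.span_singleton_le_iff_mem]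
    exact hqp
  have heq : p.under R = Ideal.span {q} := by
    by_contra hne
    have hlt : Ideal.span {q} < p.under R := lt_of_le_of_ne hle (Ne.symm hne)
    obtain ⟨P, hPlt, hPprime, hPover⟩ :=
      Ideal.exists_ideal_lt_liesOver_of_lt (p := Ideal.span {q}) (q := p.under R) p hlt
    have hqP : algebraMap R S q ∈ P := by
      have h1 : q ∈ P.under R := by
        rw [← hPover.over]; exact Ideal.subset_span rfl
      exact h1
    have hpP : p ≤ P :=
      hp.2 ⟨hPprime, (Ideal.span_singleton_le_iff_mem _).mpr hqP⟩ hPlt.le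
    exact absurd hPlt (not_lt_of_ge hpP)
  obtain ⟨V, hV, hVp⟩ := exists_valuationSubring_of_prime (algebraMap S L)
    (FaithfulSMul.algebraMap_injective S L) p
  refine (hVp x).mp (hx V hV fun r => ?_)
  rw [IsScalarTower.algebraMap_apply R S L, hVp, ← Ideal.mem_comap, ← Ideal.under_def, heq,
    Ideal.mem_span_singleton]

end Abstract

/-! ### Gauss extensions and the chart rings -/

section Gauss

variable {A0 L : Type*} [CommRing A0] [Field L] [Algebra A0 L]

/-- `V` is a **Gauss extension** for the coordinate `t` and the prime element `q` of `A0`: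
`A0[t] ⊆ V` and `m_V ∩ A0[t] = q A0[t]`, i.e. `V ∩ K0(t)` is the Gauss valuation ring of the
`q`-adic valuation. -/
def IsGaussExt (A0 : Type*) {L : Type*} [CommRing A0] [Field L] [Algebra A0 L] (t : L) (q : A0)
    (V : ValuationSubring L) : Prop :=
  (∀ a : A0, algebraMap A0 L a ∈ V) ∧ t ∈ V ∧ algebraMap A0 L q ∈ V.nonunits ∧
    ∀ p : A0[X], aeval t p ∈ V.nonunits → C q ∣ p

/-- In a Gauss extension the coordinate `t` is a unit. -/
theorem IsGaussExt.valuation_eq_one {t : L} {q : A0} {V : ValuationSubring L}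
    (h : IsGaussExt A0 t q V) : V.valuation t = 1 := by
  obtain ⟨hA, ht, hq, hp⟩ := h
  refine le_antisymm ((V.valuation_le_one_iff t).mpr ht) (not_lt.mp fun hlt => ?_)
  have hX : C q ∣ (X : A0[X]) := hp X (by rw [aeval_X]; exact V.mem_nonunits_iff.mpr hlt)
  have h1 : q ∣ (1 : A0) := by
    have := (C_dvd_iff_dvd_coeff q X).mp hX 1
    rwa [coeff_X_one] at this
  obtain ⟨c, hc⟩ := h1
  have h2 : V.valuation (algebraMap A0 L q) * V.valuation (algebraMap A0 L c) = 1 := by
    rw [← map_mul, ← map_mul, ← hc, map_one, map_one]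
  have h3 : V.valuation (algebraMap A0 L c) ≤ 1 := (V.valuation_le_one_iff _).mpr (hA c)
  have h4 : V.valuation (algebraMap A0 L q) < 1 := V.mem_nonunits_iff.mp hq
  have h5 : V.valuation (algebraMap A0 L q) * V.valuation (algebraMap A0 L c) < 1 := by
    calc V.valuation (algebraMap A0 L q) * V.valuation (algebraMap A0 L c)
        ≤ V.valuation (algebraMap A0 L q) * 1 := mul_le_mul_right h3 _
      _ < 1 := by rwa [mul_one]
  exact absurd h2 (ne_of_lt h5)

/-- A Gauss extension for `t` is a Gauss extension for `t⁻¹`. -/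
theorem IsGaussExt.inv {t : L} {q : A0} {V : ValuationSubring L} (h : IsGaussExt A0 t q V) :
    IsGaussExt A0 t⁻¹ q V := by
  have hv := h.valuation_eq_one
  obtain ⟨hA, ht, hq, hp⟩ := h
  have ht0 : t ≠ 0 := by
    rintro rfl
    rw [map_zero] at hv
    exact zero_ne_one hv
  refine ⟨hA, (V.valuation_le_one_iff _).mp (by rw [map_inv₀, hv, inv_one]), hq, fun p hpn => ?_⟩
  let _ := invertibleOfNonzero (inv_ne_zero ht0)
  have hrev : aeval t p.reverse * t⁻¹ ^ p.natDegree = aeval t⁻¹ p := by
    have := eval₂_reverse_mul_pow (algebraMap A0 L) t⁻¹ p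
    rwa [invOf_eq_inv, inv_inv] at this
  have hval : V.valuation (aeval t p.reverse) = V.valuation (aeval t⁻¹ p) := by
    rw [← hrev, map_mul, map_pow, map_inv₀, hv, inv_one, one_pow, mul_one]
  have hdvd : C q ∣ p.reverse := hp p.reverse (by
    rw [V.mem_nonunits_iff, hval]
    exact V.mem_nonunits_iff.mp hpn)
  rw [C_dvd_iff_dvd_coeff] at hdvd ⊢
  intro i
  by_cases hi : i ≤ p.natDegree
  · have := hdvd (revAt p.natDegree i)
    rwa [coeff_reverse, revAt_invol] at this
  · rw [coeff_eq_zero_of_natDegree_lt (not_le.mp hi)]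
    exact dvd_zero q

variable [IsDomain A0] [IsIntegrallyClosed A0]

/-- `A0[t] ≃ A0[X]` for a transcendental `t`. -/
noncomputable def adjoinEquiv (t : L) (ht : Transcendental A0 t) :
    A0[X] ≃ₐ[A0] Algebra.adjoin A0 ({t} : Set L) :=
  (AlgEquiv.ofInjective (aeval t) (transcendental_iff_injective.mp ht)).trans
    (Subalgebra.equivOfEq _ _ (Algebra.adjoin_singleton_eq_range_aeval A0 t).symm)

omit [IsDomain A0] [IsIntegrallyClosed A0] in
theorem coe_adjoinEquiv (t : L) (ht : Transcendental A0 t) (p : A0[X]) :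
    ((adjoinEquiv t ht p : Algebra.adjoin A0 ({t} : Set L)) : L) = aeval t p := rfl

/-- **(C4), chart `t`.**  An element of the chart ring lying in the maximal ideal of every
Gauss extension is nilpotent modulo `q`. -/
theorem nilMod_chartRing_of_gaussExt (t : L) (ht : Transcendental A0 t) (q : A0) (hq : Prime q)
    {x : L} (hx : x ∈ chartRing A0 ({t} : Set L))
    (h : ∀ V : ValuationSubring L, IsGaussExt A0 t q V → x ∈ V.nonunits) :
    NilMod (chartRing A0 ({t} : Set L)) (algebraMap A0 L q) x := by
  let e := adjoinEquiv t ht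
  have hIC : IsIntegrallyClosed (Algebra.adjoin A0 ({t} : Set L)) :=
    IsIntegrallyClosed.of_equiv e.toRingEquiv
  have hq0 : Prime (e (C q)) := (MulEquiv.prime_iff e).mpr (prime_C_iff.mpr hq)
  have hF1 : FaithfulSMul (Algebra.adjoin A0 ({t} : Set L))
      (integralClosure (Algebra.adjoin A0 ({t} : Set L)) L) :=
    (faithfulSMul_iff_algebraMap_injective _ _).mpr fun a b hab =>
      Subtype.ext (congrArg (fun z : integralClosure (Algebra.adjoin A0 ({t} : Set L)) L =>
        (z : L)) hab)
  have hF2 : FaithfulSMul (integralClosure (Algebra.adjoin A0 ({t} : Set L)) L) L :=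
    (faithfulSMul_iff_algebraMap_injective _ _).mpr Subtype.val_injective
  have hrad := mem_radical_of_forall_valuationSubring (R := Algebra.adjoin A0 ({t} : Set L))
    (S := integralClosure (Algebra.adjoin A0 ({t} : Set L)) L) (L := L) (e (C q)) hq0 ⟨x, hx⟩
    (fun V hS hR => h V ⟨fun a => hS (algebraMap A0 _ a),
      hS ⟨t, helper248.mem_chartRing_of_mem (A0 := A0) (s := ({t} : Set L)) rfl⟩,
      by
        have := (hR (e (C q))).mpr dvd_rfl
        rwa [show algebraMap (Algebra.adjoin A0 ({t} : Set L)) L (e (C q)) = algebraMap A0 L q from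
          (coe_adjoinEquiv t ht (C q)).trans (aeval_C t q)] at this,
      fun p hp => (map_dvd_iff e).mp ((hR (e p)).mp hp)⟩)
  obtain ⟨n, hn⟩ := hrad
  obtain ⟨r, hr⟩ := Ideal.mem_span_singleton'.mp hn
  refine ⟨hx, n, r, r.2, ?_⟩
  have := congrArg (fun z : integralClosure (Algebra.adjoin A0 ({t} : Set L)) L => (z : L)) hr
  have hq' : ((algebraMap (Algebra.adjoin A0 ({t} : Set L))
      (integralClosure (Algebra.adjoin A0 ({t} : Set L)) L) (e (C q)) :
      integralClosure (Algebra.adjoin A0 ({t} : Set L)) L) : L) = algebraMap A0 L q :=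
    (coe_adjoinEquiv t ht (C q)).trans (aeval_C t q)
  simp only [MulMemClass.coe_mul, SubmonoidClass.coe_pow] at this
  rw [hq'] at this
  rw [← this, mul_comm]

/-- **(C4), chart `t⁻¹`.**  Same predicate `IsGaussExt A0 t q`. -/
theorem nilMod_chartRing_inv_of_gaussExt (t : L) (ht : Transcendental A0 t) (q : A0)
    (hq : Prime q) {x : L} (hx : x ∈ chartRing A0 ({t⁻¹} : Set L))
    (h : ∀ V : ValuationSubring L, IsGaussExt A0 t q V → x ∈ V.nonunits) :
    NilMod (chartRing A0 ({t⁻¹} : Set L)) (algebraMap A0 L q) x := by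
  have ht' : Transcendental A0 t⁻¹ := fun halg => ht (IsAlgebraic.inv_iff.mp halg)
  refine nilMod_chartRing_of_gaussExt t⁻¹ ht' q hq hx fun V hV => h V ?_
  have := hV.inv
  rwa [inv_inv] at this

omit [IsIntegrallyClosed A0] in
theorem transcendental_ne_zero {t : L} (ht : Transcendental A0 t) : t ≠ 0 := by
  rintro rfl
  exact ht ⟨X, X_ne_zero, by rw [aeval_X]⟩

/-- **(C4), overlap chart.**  Same predicate `IsGaussExt A0 t q`. -/
theorem nilMod_chartRing_overlap_of_gaussExt (t : L) (ht : Transcendental A0 t) (q : A0)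
    (hq : Prime q) {x : L} (hx : x ∈ chartRing A0 ({t, t⁻¹} : Set L))
    (h : ∀ V : ValuationSubring L, IsGaussExt A0 t q V → x ∈ V.nonunits) :
    NilMod (chartRing A0 ({t, t⁻¹} : Set L)) (algebraMap A0 L q) x := by
  have ht0 : t ≠ 0 := transcendental_ne_zero ht
  obtain ⟨N, hN⟩ := Fermat.Agent.S18.helper5377.exists_pow_mul_isIntegral t ht0 hx
  have hN0 : t ^ N * x ∈ chartRing A0 ({t} : Set L) := hN N le_rfl
  have hnil := nilMod_chartRing_of_gaussExt t ht q hq hN0 fun V hV => by
    have h1 := V.mem_nonunits_iff.mp (h V hV)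
    rw [V.mem_nonunits_iff, map_mul, map_pow, hV.valuation_eq_one, one_pow, one_mul]
    exact h1
  obtain ⟨-, n, r, hr, hrn⟩ := hnil
  have hsub0 : ({t} : Set L) ⊆ {t, t⁻¹} := fun z hz => Or.inl hz
  have hinv : t⁻¹ ∈ chartRing A0 ({t, t⁻¹} : Set L) :=
    helper248.mem_chartRing_of_mem (Or.inr rfl)
  refine ⟨hx, n, r * t⁻¹ ^ (N * n), Subring.mul_mem _ (helper248.chartRing_mono hsub0 hr)
    (Subring.pow_mem _ hinv _), ?_⟩
  have e1 : x ^ n = (t ^ N * x) ^ n * t⁻¹ ^ (N * n) := by
    rw [mul_pow, ← pow_mul, inv_pow, mul_right_comm, mul_inv_cancel₀ (pow_ne_zero _ ht0), one_mul]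
  rw [e1, hrn, mul_assoc]

/-- **The hypotheses `hJ0`, `hJ1`, `hJ01` of `helper4913.exists_seeds_nilMod`.**  If a family of
valuations `v c` of `L` exhausts the Gauss extensions (every Gauss extension `V` contains the
open unit ball of some `v c` in its maximal ideal), then on each of the three chart rings an
element of valuation `< 1` at every `v c` is nilpotent modulo `q`. -/
theorem nilMod_of_forall_val_lt_one (t : L) (ht : Transcendental A0 t) (q : A0) (hq : Prime q)
    {ι : Type*} {Γ : ι → Type*} [∀ c, LinearOrderedCommGroupWithZero (Γ c)]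
    (v : ∀ c, Valuation L (Γ c))
    (hall : ∀ V : ValuationSubring L, IsGaussExt A0 t q V →
      ∃ c, ∀ y : L, v c y < 1 → y ∈ V.nonunits) :
    (∀ x ∈ chartRing A0 ({t} : Set L), (∀ c, v c x < 1) →
        NilMod (chartRing A0 ({t} : Set L)) (algebraMap A0 L q) x) ∧
      (∀ x ∈ chartRing A0 ({t⁻¹} : Set L), (∀ c, v c x < 1) →
        NilMod (chartRing A0 ({t⁻¹} : Set L)) (algebraMap A0 L q) x) ∧
      (∀ x ∈ chartRing A0 ({t, t⁻¹} : Set L), (∀ c, v c x < 1) →
        NilMod (chartRing A0 ({t, t⁻¹} : Set L)) (algebraMap A0 L q) x) := by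
  have key : ∀ x : L, (∀ c, v c x < 1) →
      ∀ V : ValuationSubring L, IsGaussExt A0 t q V → x ∈ V.nonunits := fun x hx V hV => by
    obtain ⟨c, hc⟩ := hall V hV
    exact hc x (hx c)
  exact ⟨fun x hx hv => nilMod_chartRing_of_gaussExt t ht q hq hx (key x hv),
    fun x hx hv => nilMod_chartRing_inv_of_gaussExt t ht q hq hx (key x hv),
    fun x hx hv => nilMod_chartRing_overlap_of_gaussExt t ht q hq hx (key x hv)⟩

/-- The same in `ValuationSubring` vocabulary (the fields `rad`, `rad01` of the datum of
KILL-ASM): if every Gauss extension `W` contains the maximal ideal of some `V c` in its maximal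
ideal (e.g. `W = V c`), then on each of the three chart rings an element of
`⋂ c, 𝔪 (V c)` is nilpotent modulo `q`. -/
theorem nilMod_of_forall_mem_nonunits (t : L) (ht : Transcendental A0 t) (q : A0) (hq : Prime q)
    {ι : Type*} (V : ι → ValuationSubring L)
    (hall : ∀ W : ValuationSubring L, IsGaussExt A0 t q W →
      ∃ c, ∀ y : L, y ∈ (V c).nonunits → y ∈ W.nonunits) :
    (∀ x ∈ chartRing A0 ({t} : Set L), (∀ c, x ∈ (V c).nonunits) →
        NilMod (chartRing A0 ({t} : Set L)) (algebraMap A0 L q) x) ∧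
      (∀ x ∈ chartRing A0 ({t⁻¹} : Set L), (∀ c, x ∈ (V c).nonunits) →
        NilMod (chartRing A0 ({t⁻¹} : Set L)) (algebraMap A0 L q) x) ∧
      (∀ x ∈ chartRing A0 ({t, t⁻¹} : Set L), (∀ c, x ∈ (V c).nonunits) →
        NilMod (chartRing A0 ({t, t⁻¹} : Set L)) (algebraMap A0 L q) x) := by
  have key : ∀ x : L, (∀ c, x ∈ (V c).nonunits) →
      ∀ W : ValuationSubring L, IsGaussExt A0 t q W → x ∈ W.nonunits := fun x hx W hW => by
    obtain ⟨c, hc⟩ := hall W hW
    exact hc x (hx c)
  exact ⟨fun x hx hv => nilMod_chartRing_of_gaussExt t ht q hq hx (key x hv),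
    fun x hx hv => nilMod_chartRing_inv_of_gaussExt t ht q hq hx (key x hv),
    fun x hx hv => nilMod_chartRing_overlap_of_gaussExt t ht q hq hx (key x hv)⟩

omit [IsDomain A0] [IsIntegrallyClosed A0] in
/-- Constructor for `IsGaussExt` from the subring form: `A0[t] ⊆ W`, `q ∈ 𝔪 W`, and every
element of `A0[t]` in `𝔪 W` is divisible by `q` in `A0[t]`. -/
theorem isGaussExt_of_adjoin (t : L) (ht : Transcendental A0 t) (q : A0) (W : ValuationSubring L)
    (hW : ∀ y ∈ Algebra.adjoin A0 ({t} : Set L), y ∈ W)
    (hq : algebraMap A0 L q ∈ W.nonunits)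
    (hdiv : ∀ y ∈ Algebra.adjoin A0 ({t} : Set L), y ∈ W.nonunits →
      ∃ z ∈ Algebra.adjoin A0 ({t} : Set L), y = algebraMap A0 L q * z) :
    IsGaussExt A0 t q W := by
  have hmem : ∀ p : A0[X], aeval t p ∈ Algebra.adjoin A0 ({t} : Set L) := fun p => by
    rw [Algebra.adjoin_singleton_eq_range_aeval]; exact ⟨p, rfl⟩
  refine ⟨fun a => hW _ (Subalgebra.algebraMap_mem _ a), hW _ (Algebra.subset_adjoin rfl), hq,
    fun p hp => ?_⟩
  obtain ⟨z, hz, hpz⟩ := hdiv _ (hmem p) hp
  rw [Algebra.adjoin_singleton_eq_range_aeval] at hz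
  obtain ⟨r, rfl⟩ := hz
  refine ⟨r, transcendental_iff_injective.mp ht ?_⟩
  rw [hpz, map_mul, aeval_C]
  rfl

end Gauss

/-! ### (C3) Ring-theoretic structure of the chart ring types -/

section Structure

variable {A0 K0 L : Type*} [CommRing A0] [IsDomain A0] [IsIntegrallyClosed A0]
  [IsNoetherianRing A0] [Field K0] [Algebra A0 K0] [IsFractionRing A0 K0] [CharZero K0]
  [Field L] [Algebra K0 L] [Algebra A0 L] [IsScalarTower A0 K0 L]

omit [IsIntegrallyClosed A0] [IsNoetherianRing A0] [CharZero K0] in
/-- `L` is the fraction field of the chart ring. -/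
theorem isFractionRing_chartRing (t : L)
    [FiniteDimensional (IntermediateField.adjoin K0 ({t} : Set L)) L] :
    IsFractionRing (chartRing A0 ({t} : Set L)) L := by
  refine IsFractionRing.of_field (R := chartRing A0 ({t} : Set L)) (K := L) fun z => ?_
  obtain ⟨e, he, he0, hez⟩ := helper248.exists_denominator (A0 := A0) (K0 := K0) t z
  refine ⟨⟨e * z, hez⟩, ⟨e, he0⟩, ?_⟩
  show z = e * z / e
  rw [mul_div_cancel_left₀ _ he]

omit [IsIntegrallyClosed A0] [IsNoetherianRing A0] [CharZero K0] in
/-- The chart ring is an integrally closed domain. -/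
theorem isIntegrallyClosed_chartRing (t : L)
    [FiniteDimensional (IntermediateField.adjoin K0 ({t} : Set L)) L] :
    IsIntegrallyClosed (chartRing A0 ({t} : Set L)) := by
  have := isFractionRing_chartRing (A0 := A0) (K0 := K0) t
  refine (isIntegrallyClosed_iff L).mpr fun {x} hx => ?_
  exact ⟨⟨x, helper248.intClosedIn_chartRing (A0 := A0) ({t} : Set L) x hx⟩, rfl⟩

/-- The chart ring is noetherian. -/
theorem isNoetherianRing_chartRing (t : L) (ht : Transcendental K0 t)
    [FiniteDimensional (IntermediateField.adjoin K0 ({t} : Set L)) L] :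
    IsNoetherianRing (chartRing A0 ({t} : Set L)) := by
  have htA : Transcendental A0 t := ht.restrictScalars (IsFractionRing.injective A0 K0)
  have hfin := Fermat.Agent.S18.helper5377.finite_integralClosure_adjoin (A0 := A0) (K0 := K0) t htA
  have hN0 : IsNoetherianRing (Algebra.adjoin A0 ({t} : Set L)) :=
    isNoetherianRing_of_ringEquiv A0[X] (adjoinEquiv t htA).toRingEquiv
  have hN1 : IsNoetherian (Algebra.adjoin A0 ({t} : Set L))
      (integralClosure (Algebra.adjoin A0 ({t} : Set L)) L) :=
    isNoetherian_of_isNoetherianRing_of_finite _ _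
  have hN2 : IsNoetherianRing (integralClosure (Algebra.adjoin A0 ({t} : Set L)) L) :=
    isNoetherianRing_iff.mpr (isNoetherian_of_tower (Algebra.adjoin A0 ({t} : Set L)) hN1)
  let f : ↥(integralClosure (Algebra.adjoin A0 ({t} : Set L)) L) ≃+*
      ↥(chartRing A0 ({t} : Set L)) :=
    { toFun := fun y => ⟨y.1, y.2⟩
      invFun := fun y => ⟨y.1, y.2⟩
      left_inv := fun _ => rfl
      right_inv := fun _ => rfl
      map_mul' := fun _ _ => rfl
      map_add' := fun _ _ => rfl }
  exact isNoetherianRing_of_ringEquiv _ f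

omit [IsDomain A0] [IsIntegrallyClosed A0] [IsNoetherianRing A0] [IsFractionRing A0 K0]
  [CharZero K0] [Algebra A0 K0] [Algebra A0 L] [IsScalarTower A0 K0 L] in
/-- `K0(t⁻¹) = K0(t)`: finiteness transfers to the chart `t⁻¹`. -/
theorem finiteDimensional_adjoin_inv (t : L)
    [FiniteDimensional (IntermediateField.adjoin K0 ({t} : Set L)) L] :
    FiniteDimensional (IntermediateField.adjoin K0 ({t⁻¹} : Set L)) L := by
  have h : IntermediateField.adjoin K0 ({t⁻¹} : Set L) = IntermediateField.adjoin K0 ({t} : Set L) := by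
    apply le_antisymm
    · rw [IntermediateField.adjoin_le_iff, Set.singleton_subset_iff]
      exact inv_mem (IntermediateField.mem_adjoin_simple_self K0 t)
    · rw [IntermediateField.adjoin_le_iff, Set.singleton_subset_iff]
      have := inv_mem (IntermediateField.mem_adjoin_simple_self K0 t⁻¹)
      rwa [inv_inv] at this
  have key : ∀ E : IntermediateField K0 L, E = IntermediateField.adjoin K0 ({t} : Set L) →
      FiniteDimensional E L := by
    rintro _ rfl
    infer_instance
  exact key _ h

end Structure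

end Fermat.Agent.S36.helper2587
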