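/-
S36 (route #3001, design D1), helper2587: the BRIDGE between the three vocabularies in which
"`W` is a Gauss extension of the base valuation ring `O` for the coordinate `x`" is stated, and
the exact-target adapters for the fields `rad`, `rad01` of the datum of KILL-ASM.

* (G1) `IsGaussExt ↥O x q W` (`helper2587_ChartsGauss`): `O[x] ⊆ W` and `p(x) ∈ 𝔪 W ⇒ q ∣ p`;
* (G2) `IsGaussAt O x W`: `W ∩ K = O`, `x ∈ W`, and a polynomial with coefficients in `O` whose
  value at `x` lies in `𝔪 W` has all coefficients in `𝔪 O` (residue of `x` transcendental);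
* (G3) `W.comap (algebraMap E F) = V0`, `E = K(x)`, `V0` the Gauss valuation ring of `E`.

`isGaussExt_iff_isGaussAt` is (G1) ↔ (G2) when `𝔪 O = q O`; `IsGaussAt.comap_eq` and
`IsGaussAt.of_comap_eq` are (G2) ↔ (G3); `IsGaussAt.div_mem_of_mem_nonunits` and
`IsGaussAt.exists_zpow` say that the Gauss ring of `K(x)` has uniformiser `q` as soon as `O`
has.  The theorems `killData_rad_of_*` conclude the radical fields (both charts, and the overlap
chart) from completeness of a family `V c` stated in any of the three vocabularies.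
`IsGaussAt.of_monic_rel` is the change of base line (`x = t4, t9` to `y = j`), and
`killData_rad_of_complete_line` the radical fields on the `x`-charts from completeness on the
`y`-line.
-/
import Fermat.Agent.S36.helper2587_ChartsGauss

set_option autoImplicit false

namespace Fermat.Agent.S36.helper2587

open Polynomial
open Fermat.Agent.S36.helper1730 (NilMod)
open Fermat.Agent.S36.helper248 (chartRing)

/-! ### Generalities on valuation subrings -/

section Generalities

variable {F : Type*} [Field F]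

/-- A nonzero element lies in the maximal ideal iff its inverse is not in the ring. -/
theorem mem_nonunits_iff_inv_notMem (A : ValuationSubring F) {z : F} (hz : z ≠ 0) :
    z ∈ A.nonunits ↔ z⁻¹ ∉ A := by
  have hpos : 0 < A.valuation z := zero_lt_iff.mpr ((Valuation.ne_zero_iff _).mpr hz)
  rw [A.mem_nonunits_iff, ← A.valuation_le_one_iff, map_inv₀, not_le, one_lt_inv₀ hpos]

theorem zero_mem_nonunits' (A : ValuationSubring F) : (0 : F) ∈ A.nonunits := by
  rw [A.mem_nonunits_iff, map_zero]
  exact zero_lt_one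

/-- Two valuation subrings with the same restriction along `f` have the same maximal ideal on
the image of `f`. -/
theorem map_mem_nonunits_iff_of_comap_eq {E : Type*} [Field E] (f : E →+* F)
    {W W' : ValuationSubring F} (h : W.comap f = W'.comap f) (z : E) :
    f z ∈ W.nonunits ↔ f z ∈ W'.nonunits := by
  by_cases hz : z = 0
  · subst hz
    rw [map_zero]
    exact ⟨fun _ => zero_mem_nonunits' W', fun _ => zero_mem_nonunits' W⟩
  · have hfz : f z ≠ 0 := (map_ne_zero f).mpr hz
    rw [mem_nonunits_iff_inv_notMem W hfz, mem_nonunits_iff_inv_notMem W' hfz, ← map_inv₀,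
      ← ValuationSubring.mem_comap, ← ValuationSubring.mem_comap, h]

theorem valuation_eq_one_iff_mem (A : ValuationSubring F) (z : F) :
    A.valuation z = 1 ↔ z ∈ A ∧ z ∉ A.nonunits := by
  rw [← A.valuation_le_one_iff, A.mem_nonunits_iff, not_lt]
  exact le_antisymm_iff

/-- The maximal ideal of a restriction. -/
theorem mem_nonunits_comap_iff {E : Type*} [Field E] (f : E →+* F) (W : ValuationSubring F)
    (z : E) : z ∈ (W.comap f).nonunits ↔ f z ∈ W.nonunits := by
  by_cases hz : z = 0
  · subst hz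
    rw [map_zero]
    exact ⟨fun _ => zero_mem_nonunits' W, fun _ => zero_mem_nonunits' _⟩
  · rw [mem_nonunits_iff_inv_notMem _ hz, mem_nonunits_iff_inv_notMem W ((map_ne_zero f).mpr hz),
      ValuationSubring.mem_comap, map_inv₀]

/-- Units of a restriction. -/
theorem valuation_comap_eq_one_iff {E : Type*} [Field E] (f : E →+* F) (W : ValuationSubring F)
    (z : E) : (W.comap f).valuation z = 1 ↔ W.valuation (f z) = 1 := by
  rw [valuation_eq_one_iff_mem, valuation_eq_one_iff_mem, mem_nonunits_comap_iff,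
    ValuationSubring.mem_comap]

end Generalities

/-! ### The three vocabularies -/

section Bridge

variable {K F : Type*} [Field K] [Field F] [Algebra K F]

/-- (G2) `W` is a Gauss extension of `O` for `x`: `W ∩ K = O`, `x ∈ W`, and the residue of `x`
is transcendental over the residue field of `O` (element-wise form: the body of
`helper9676.GaussCond` / `S35.helper1024.GaussElt`). -/
def IsGaussAt (O : ValuationSubring K) (x : F) (W : ValuationSubring F) : Prop :=
  W.comap (algebraMap K F) = O ∧ x ∈ W ∧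
    ∀ p : K[X], (∀ i, p.coeff i ∈ O) → aeval x p ∈ W.nonunits → ∀ i, p.coeff i ∈ O.nonunits

variable {O : ValuationSubring K} {x : F} {W W' : ValuationSubring F}

theorem IsGaussAt.algebraMap_mem_iff (h : IsGaussAt O x W) (a : K) :
    algebraMap K F a ∈ W ↔ a ∈ O := by
  rw [← h.1]
  exact Iff.rfl

theorem IsGaussAt.algebraMap_mem_nonunits_iff (h : IsGaussAt O x W) (a : K) :
    algebraMap K F a ∈ W.nonunits ↔ a ∈ O.nonunits := by
  by_cases ha : a = 0
  · subst ha
    rw [map_zero]
    exact ⟨fun _ => zero_mem_nonunits' O, fun _ => zero_mem_nonunits' W⟩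
  · rw [mem_nonunits_iff_inv_notMem W ((_root_.map_ne_zero _).mpr ha), mem_nonunits_iff_inv_notMem O ha,
      ← map_inv₀, h.algebraMap_mem_iff]

theorem IsGaussAt.valuation_algebraMap_le_one_iff (h : IsGaussAt O x W) (a : K) :
    W.valuation (algebraMap K F a) ≤ 1 ↔ a ∈ O := by
  rw [W.valuation_le_one_iff, h.algebraMap_mem_iff]

theorem IsGaussAt.valuation_algebraMap_lt_one_iff (h : IsGaussAt O x W) (a : K) :
    W.valuation (algebraMap K F a) < 1 ↔ a ∈ O.nonunits := by
  rw [← W.mem_nonunits_iff, h.algebraMap_mem_nonunits_iff]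

omit [Algebra K F] in
/-- A polynomial with coefficients in a valuation subring takes values in it. -/
theorem aeval_mem_of_coeff_mem [Algebra K F] (W : ValuationSubring F) {x : F} (hx : x ∈ W)
    (p : K[X]) (hp : ∀ i, algebraMap K F (p.coeff i) ∈ W) : aeval x p ∈ W := by
  rw [aeval_eq_sum_range]
  refine sum_mem fun i _ => ?_
  rw [Algebra.smul_def]
  exact mul_mem (hp i) (pow_mem hx i)

/-- A primitive polynomial over `O` takes a unit value at `x` in every Gauss extension. -/
theorem IsGaussAt.valuation_aeval_eq_one (h : IsGaussAt O x W) (p : K[X])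
    (hp : ∀ i, p.coeff i ∈ O) (i0 : ℕ) (hi0 : p.coeff i0 ∉ O.nonunits) :
    W.valuation (aeval x p) = 1 := by
  refine le_antisymm ((W.valuation_le_one_iff _).mpr
    (aeval_mem_of_coeff_mem W h.2.1 p fun i => (h.algebraMap_mem_iff _).mpr (hp i)))
    (not_lt.mp fun hlt => hi0 (h.2.2 p hp (W.mem_nonunits_iff.mpr hlt) i0))

omit [Algebra K F] in
/-- Primitive part of a nonzero polynomial over the fraction field of a valuation ring. -/
theorem exists_primitive (O : ValuationSubring K) (p : K[X]) (hp : p ≠ 0) :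
    ∃ (c : K) (p₁ : K[X]), c ≠ 0 ∧ p = C c * p₁ ∧ (∀ i, p₁.coeff i ∈ O) ∧
      ∃ i0, p₁.coeff i0 ∉ O.nonunits := by
  have hne : p.support.Nonempty := support_nonempty.mpr hp
  obtain ⟨i0, hi0, hmax⟩ :=
    Finset.exists_max_image p.support (fun i => O.valuation (p.coeff i)) hne
  have hc : p.coeff i0 ≠ 0 := mem_support_iff.mp hi0
  have hpos : 0 < O.valuation (p.coeff i0) := zero_lt_iff.mpr ((Valuation.ne_zero_iff _).mpr hc)
  refine ⟨p.coeff i0, C (p.coeff i0)⁻¹ * p, hc, ?_, fun i => ?_, i0, ?_⟩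
  · rw [← mul_assoc, ← C_mul, mul_inv_cancel₀ hc, C_1, one_mul]
  · rw [coeff_C_mul, ← O.valuation_le_one_iff, map_mul, map_inv₀]
    by_cases hi : i ∈ p.support
    · rw [inv_mul_le_one₀ hpos]
      exact hmax i hi
    · rw [notMem_support_iff.mp hi, map_zero, mul_zero]
      exact zero_le_one
  · rw [coeff_C_mul, inv_mul_cancel₀ hc, O.mem_nonunits_iff, map_one]
    exact lt_irrefl _

/-- A Gauss coordinate is transcendental over `K`. -/
theorem IsGaussAt.transcendental (h : IsGaussAt O x W) : Transcendental K x := by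
  rintro ⟨p, hp, hpx⟩
  obtain ⟨c, p₁, hc, rfl, hp₁, i0, hi0⟩ := exists_primitive O p hp
  have h1 := h.valuation_aeval_eq_one p₁ hp₁ i0 hi0
  rw [map_mul, aeval_C] at hpx
  rcases mul_eq_zero.mp hpx with h0 | h0
  · exact hc ((map_eq_zero _).mp h0)
  · rw [h0, map_zero] at h1
    exact zero_ne_one h1

/-- **Structure of `K(x)` at the Gauss extensions.**  An element `y = a(x) / b(x)` of `K(x)` is
a constant of `K` times an element which is a unit of EVERY Gauss extension of `O` for `x`. -/
theorem exists_const_mul_unit (O : ValuationSubring K) {x : F} (hx : Transcendental K x) (y : F)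
    (hy : ∃ a b : K[X], b ≠ 0 ∧ y * aeval x b = aeval x a) :
    ∃ (c : K) (u : F), y = algebraMap K F c * u ∧
      ∀ W : ValuationSubring F, IsGaussAt O x W → W.valuation u = 1 := by
  obtain ⟨a, b, hb, hab⟩ := hy
  have hbx : aeval x b ≠ 0 := fun h0 => hx ⟨b, hb, h0⟩
  by_cases ha : a = 0
  · subst ha
    refine ⟨0, 1, ?_, fun W _ => map_one _⟩
    rw [map_zero] at hab
    rcases mul_eq_zero.mp hab with h | h
    · rw [h, map_zero, zero_mul]
    · exact absurd h hbx
  · obtain ⟨α, a₁, hα, rfl, ha₁, i0, hi0⟩ := exists_primitive O a ha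
    obtain ⟨β, b₁, hβ, rfl, hb₁, j0, hj0⟩ := exists_primitive O b hb
    rw [map_mul, map_mul, aeval_C, aeval_C] at hab
    rw [map_mul, aeval_C] at hbx
    have hβF : algebraMap K F β ≠ 0 := (_root_.map_ne_zero _).mpr hβ
    have hb₁x : aeval x b₁ ≠ 0 := fun h0 => hbx (by rw [h0, mul_zero])
    refine ⟨α / β, aeval x a₁ / aeval x b₁, ?_, fun W hW => ?_⟩
    · rw [map_div₀]
      field_simp
      linear_combination hab
    · rw [map_div₀, hW.valuation_aeval_eq_one a₁ ha₁ i0 hi0,
        hW.valuation_aeval_eq_one b₁ hb₁ j0 hj0, div_one]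

/-- Two Gauss extensions contain the same elements of `K(x)`. -/
theorem IsGaussAt.mem_of_mem (hW : IsGaussAt O x W) (hW' : IsGaussAt O x W') (y : F)
    (hy : ∃ a b : K[X], b ≠ 0 ∧ y * aeval x b = aeval x a) (hyW : y ∈ W) : y ∈ W' := by
  obtain ⟨c, u, rfl, hu⟩ := exists_const_mul_unit O hW.transcendental y hy
  rw [← W.valuation_le_one_iff, map_mul, hu W hW, mul_one,
    hW.valuation_algebraMap_le_one_iff] at hyW
  rw [← W'.valuation_le_one_iff, map_mul, hu W' hW', mul_one,
    hW'.valuation_algebraMap_le_one_iff]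
  exact hyW

/-- The Gauss ring of `K(x)` has maximal ideal generated by `q` if `O` has. -/
theorem IsGaussAt.div_mem_of_mem_nonunits (hW : IsGaussAt O x W) (q : K)
    (hunif : ∀ c : K, c ∈ O.nonunits → c / q ∈ O) (y : F)
    (hy : ∃ a b : K[X], b ≠ 0 ∧ y * aeval x b = aeval x a) (hyW : y ∈ W.nonunits) :
    y / algebraMap K F q ∈ W := by
  obtain ⟨c, u, rfl, hu⟩ := exists_const_mul_unit O hW.transcendental y hy
  rw [W.mem_nonunits_iff, map_mul, hu W hW, mul_one,
    hW.valuation_algebraMap_lt_one_iff] at hyW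
  have h1 := hunif c hyW
  rw [← W.valuation_le_one_iff, mul_div_right_comm, ← map_div₀, map_mul, hu W hW, mul_one,
    hW.valuation_algebraMap_le_one_iff]
  exact h1

/-- The Gauss ring of `K(x)` is discrete with uniformiser `q` if `O` is: every nonzero element
of `K(x)` is a power of `q` times a unit of `W`. -/
theorem IsGaussAt.exists_zpow (hW : IsGaussAt O x W) (q : K)
    (hdisc : ∀ a : K, a ≠ 0 → ∃ n : ℤ, O.valuation (a / q ^ n) = 1) (y : F) (hy0 : y ≠ 0)
    (hy : ∃ a b : K[X], b ≠ 0 ∧ y * aeval x b = aeval x a) :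
    ∃ n : ℤ, W.valuation (y / algebraMap K F q ^ n) = 1 := by
  obtain ⟨c, u, rfl, hu⟩ := exists_const_mul_unit O hW.transcendental y hy
  have hc : c ≠ 0 := fun h => hy0 (by rw [h, map_zero, zero_mul])
  obtain ⟨n, hn⟩ := hdisc c hc
  refine ⟨n, ?_⟩
  have h1 : O.valuation (a := (c / q ^ n)) = 1 := hn
  have hle : W.valuation (algebraMap K F (c / q ^ n)) ≤ 1 :=
    (hW.valuation_algebraMap_le_one_iff _).mpr ((O.valuation_le_one_iff _).mp hn.le)
  have hnlt : ¬ W.valuation (algebraMap K F (c / q ^ n)) < 1 := fun hlt =>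
    absurd (O.mem_nonunits_iff.mp ((hW.valuation_algebraMap_lt_one_iff _).mp hlt)) (by
      rw [hn]; exact lt_irrefl _)
  have heq : W.valuation (algebraMap K F (c / q ^ n)) = 1 := le_antisymm hle (not_lt.mp hnlt)
  rw [mul_div_right_comm, map_mul, hu W hW, mul_one, ← map_zpow₀, ← map_div₀]
  exact heq

section Tower

variable {E : Type*} [Field E] [Algebra K E] [Algebra E F] [IsScalarTower K E F]

omit [Algebra K E] [IsScalarTower K E F] in
/-- (G2) ⟹ (G3): two Gauss extensions have the same restriction to a field `E` generated by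
`x` over `K`. -/
theorem IsGaussAt.comap_eq (hW : IsGaussAt O x W) (hW' : IsGaussAt O x W')
    (hE : ∀ y : E, ∃ a b : K[X], b ≠ 0 ∧ algebraMap E F y * aeval x b = aeval x a) :
    W.comap (algebraMap E F) = W'.comap (algebraMap E F) := by
  ext y
  exact ⟨fun h => hW.mem_of_mem hW' _ (hE y) h, fun h => hW'.mem_of_mem hW _ (hE y) h⟩

/-- (G3) ⟹ (G2): a valuation subring with the same restriction to `E ∋ x` as a Gauss extension
is a Gauss extension. -/
theorem IsGaussAt.of_comap_eq (hW' : IsGaussAt O x W') (xE : E) (hxE : algebraMap E F xE = x)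
    (h : W.comap (algebraMap E F) = W'.comap (algebraMap E F)) : IsGaussAt O x W := by
  have hmem : ∀ z : E, algebraMap E F z ∈ W ↔ algebraMap E F z ∈ W' := fun z => by
    rw [← ValuationSubring.mem_comap, h, ValuationSubring.mem_comap]
  refine ⟨?_, ?_, fun p hp hpn i => ?_⟩
  · ext a
    rw [ValuationSubring.mem_comap, IsScalarTower.algebraMap_apply K E F, hmem,
      ← IsScalarTower.algebraMap_apply, hW'.algebraMap_mem_iff]
  · rw [← hxE, hmem, hxE]
    exact hW'.2.1
  · refine hW'.2.2 p hp ?_ i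
    have e : aeval x p = algebraMap E F (aeval xE p) := by
      rw [← hxE, aeval_algebraMap_apply]
    rw [e] at hpn ⊢
    exact (map_mem_nonunits_iff_of_comap_eq (algebraMap E F) h _).mp hpn

/-- The Gauss ring of `E`: `q` is a nonunit. -/
theorem IsGaussAt.comap_mem_nonunits (hW : IsGaussAt O x W) {q : K} (hqm : q ∈ O.nonunits) :
    algebraMap K E q ∈ (W.comap (algebraMap E F)).nonunits := by
  rw [mem_nonunits_comap_iff, ← IsScalarTower.algebraMap_apply]
  exact (hW.algebraMap_mem_nonunits_iff q).mpr hqm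

/-- The Gauss ring of `E`: its maximal ideal is generated by `q` if that of `O` is. -/
theorem IsGaussAt.comap_div_mem (hW : IsGaussAt O x W) (q : K)
    (hunif : ∀ c : K, c ∈ O.nonunits → c / q ∈ O)
    (hE : ∀ y : E, ∃ a b : K[X], b ≠ 0 ∧ algebraMap E F y * aeval x b = aeval x a)
    (c : E) (hc : c ∈ (W.comap (algebraMap E F)).nonunits) :
    c / algebraMap K E q ∈ W.comap (algebraMap E F) := by
  rw [mem_nonunits_comap_iff] at hc
  rw [ValuationSubring.mem_comap, map_div₀, ← IsScalarTower.algebraMap_apply]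
  exact hW.div_mem_of_mem_nonunits q hunif _ (hE c) hc

/-- The Gauss ring of `E`: its value group is generated by the value of `q` if that of `O`
is. -/
theorem IsGaussAt.comap_valuation_eq_zpow (hW : IsGaussAt O x W) (q : K) (hq0 : q ≠ 0)
    (hdisc : ∀ a : K, a ≠ 0 → ∃ n : ℤ, O.valuation (a / q ^ n) = 1)
    (hE : ∀ y : E, ∃ a b : K[X], b ≠ 0 ∧ algebraMap E F y * aeval x b = aeval x a)
    (c : E) (hc : c ≠ 0) :
    ∃ n : ℤ, (W.comap (algebraMap E F)).valuation c =
      (W.comap (algebraMap E F)).valuation (algebraMap K E q) ^ n := by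
  obtain ⟨n, hn⟩ := hW.exists_zpow q hdisc (algebraMap E F c)
    ((_root_.map_ne_zero _).mpr hc) (hE c)
  refine ⟨n, ?_⟩
  have hqE : algebraMap K E q ≠ 0 := (_root_.map_ne_zero _).mpr hq0
  have h1 : (W.comap (algebraMap E F)).valuation (c / algebraMap K E q ^ n) = 1 := by
    rw [valuation_comap_eq_one_iff, map_div₀, map_zpow₀, ← IsScalarTower.algebraMap_apply]
    exact hn
  have hne : (W.comap (algebraMap E F)).valuation (algebraMap K E q ^ n) ≠ 0 :=
    (Valuation.ne_zero_iff _).mpr (zpow_ne_zero _ hqE)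
  rw [map_div₀, div_eq_one_iff_eq hne, map_zpow₀] at h1
  exact h1

end Tower

/-- The hypothesis `hE` of `IsGaussAt.comap_eq` for `E = K(x)` as an intermediate field. -/
theorem exists_frac_of_adjoin_simple (x : F) (y : IntermediateField.adjoin K ({x} : Set F)) :
    ∃ a b : K[X], b ≠ 0 ∧
      algebraMap (IntermediateField.adjoin K ({x} : Set F)) F y * aeval x b = aeval x a := by
  obtain ⟨r, s, hrs⟩ := (IntermediateField.mem_adjoin_simple_iff K (y : F)).mp y.2
  have hy : algebraMap (IntermediateField.adjoin K ({x} : Set F)) F y = (y : F) := rfl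
  by_cases hs : aeval x s = 0
  · refine ⟨0, 1, one_ne_zero, ?_⟩
    rw [hs, div_zero] at hrs
    rw [hy, hrs, zero_mul, map_zero]
  · refine ⟨r, s, fun h => hs (by rw [h, map_zero]), ?_⟩
    rw [hy, hrs, div_mul_cancel₀ _ hs]

/-! ### Discreteness of the base from the noetherian hypothesis -/

section Discrete

omit [Algebra K F] in
/-- A noetherian valuation ring whose maximal ideal is generated by `q ≠ 0` is discrete with
uniformiser `q`: every nonzero element of `K` is a power of `q` times a unit. -/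
theorem exists_zpow_of_noeth (O : ValuationSubring K) [IsNoetherianRing O] (q : K) (hq0 : q ≠ 0)
    (hqm : q ∈ O.nonunits) (hunif : ∀ c : K, c ∈ O.nonunits → c / q ∈ O) (a : K) (ha : a ≠ 0) :
    ∃ n : ℤ, O.valuation (a / q ^ n) = 1 := by
  have key : ∀ b : K, b ≠ 0 → b ∈ O → ∃ n : ℕ, O.valuation (b / q ^ n) = 1 := by
    intro b hb hbO
    by_contra hcon
    have hall : ∀ n : ℕ, b / q ^ n ∈ O := by
      intro n
      induction n with
      | zero => rwa [pow_zero, div_one]
      | succ n ih =>
        have hnon : b / q ^ n ∈ O.nonunits := by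
          by_contra hnn
          exact hcon ⟨n, (valuation_eq_one_iff_mem O _).mpr ⟨ih, hnn⟩⟩
        have := hunif _ hnon
        rwa [div_div, ← pow_succ] at this
    let qO : O := ⟨q, O.nonunits_le hqm⟩
    have hI : Ideal.span {qO} ≠ ⊤ := by
      rw [Ne, Ideal.span_singleton_eq_top]
      intro hu
      have : (qO : K) ∈ O.nonunits := hqm
      rw [ValuationSubring.coe_mem_nonunits_iff, IsLocalRing.mem_maximalIdeal,
        mem_nonunits_iff] at this
      exact this hu
    have hbot := Ideal.iInf_pow_eq_bot_of_isLocalRing (Ideal.span {qO}) hI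
    have hmem : (⟨b, hbO⟩ : O) ∈ ⨅ i : ℕ, Ideal.span {qO} ^ i := by
      rw [Ideal.mem_iInf]
      intro n
      rw [Ideal.span_singleton_pow, Ideal.mem_span_singleton]
      refine ⟨⟨b / q ^ n, hall n⟩, Subtype.ext ?_⟩
      show b = q ^ n * (b / q ^ n)
      field_simp
    rw [hbot, Ideal.mem_bot] at hmem
    exact hb (congrArg (fun z : O => (z : K)) hmem)
  by_cases haO : a ∈ O
  · obtain ⟨n, hn⟩ := key a ha haO
    exact ⟨n, by rwa [zpow_natCast]⟩
  · have hinv : a⁻¹ ∈ O := (O.mem_or_inv_mem a).resolve_left haO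
    obtain ⟨n, hn⟩ := key a⁻¹ (inv_ne_zero ha) hinv
    refine ⟨-(n : ℤ), ?_⟩
    have e : a / q ^ (-(n : ℤ)) = (a⁻¹ / q ^ n)⁻¹ := by
      rw [zpow_neg, zpow_natCast]
      field_simp
    rw [e, map_inv₀, hn, inv_one]

end Discrete

/-! ### (G1) ↔ (G2) and the radical fields -/

section Radical

variable (O : ValuationSubring K) (q : ℕ)

omit [Algebra K F] in
/-- `q` is a prime element of `O` when `𝔪 O = q O`, `q ≠ 0`. -/
theorem prime_natCast_of_unif (hq0 : (q : K) ≠ 0) (hqm : (q : K) ∈ O.nonunits)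
    (hunif : ∀ c : K, c ∈ O.nonunits → c / (q : K) ∈ O) : Prime ((q : ℕ) : O) := by
  have hcoe : (((q : ℕ) : O) : K) = (q : K) := rfl
  have hq0' : ((q : ℕ) : O) ≠ 0 := fun h => hq0 (by
    rw [← hcoe, h]; rfl)
  rw [← Ideal.span_singleton_prime hq0']
  have hspan : Ideal.span {((q : ℕ) : O)} = IsLocalRing.maximalIdeal O := by
    ext c
    rw [Ideal.mem_span_singleton, ← ValuationSubring.coe_mem_nonunits_iff]
    constructor
    · rintro ⟨d, rfl⟩
      have h1 : O.valuation (q : K) < 1 := O.mem_nonunits_iff.mp hqm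
      have h2 : O.valuation (d : K) ≤ 1 := (O.valuation_le_one_iff _).mpr d.2
      rw [O.mem_nonunits_iff]
      calc O.valuation ((((q : ℕ) : O) * d : O) : K)
          = O.valuation (q : K) * O.valuation (d : K) := by
            rw [← map_mul]; rfl
        _ ≤ O.valuation (q : K) * 1 := mul_le_mul_right h2 _
        _ < 1 := by rwa [mul_one]
    · intro hc
      refine ⟨⟨(c : K) / (q : K), hunif _ hc⟩, Subtype.ext ?_⟩
      show (c : K) = (q : K) * ((c : K) / (q : K))
      field_simp
  rw [hspan]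
  exact (IsLocalRing.maximalIdeal.isMaximal O).isPrime

/-- **(G1) ↔ (G2).**  For a valuation ring `O` with `𝔪 O = q O`, the predicate `IsGaussExt` of
the chart theorems is the element-wise Gauss condition over `O`. -/
theorem isGaussExt_iff_isGaussAt (hq0 : (q : K) ≠ 0) (hqm : (q : K) ∈ O.nonunits)
    (hunif : ∀ c : K, c ∈ O.nonunits → c / (q : K) ∈ O) (x : F) (W : ValuationSubring F) :
    IsGaussExt O x ((q : ℕ) : O) W ↔ IsGaussAt O x W := by
  have hcoe : (((q : ℕ) : O) : K) = (q : K) := rfl
  have hqF : algebraMap O F ((q : ℕ) : O) = algebraMap K F (q : K) := rfl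
  constructor
  · rintro ⟨hA, hx, hq, hp⟩
    rw [hqF] at hq
    have hmemO : ∀ a : K, a ∈ O → algebraMap K F a ∈ W := fun a ha => hA ⟨a, ha⟩
    have hnon : ∀ a : K, a ∈ O.nonunits → algebraMap K F a ∈ W.nonunits := fun a ha => by
      have h1 : a = (q : K) * (a / (q : K)) := by field_simp
      have h2 : W.valuation (algebraMap K F (q : K)) < 1 := W.mem_nonunits_iff.mp hq
      have h3 : W.valuation (algebraMap K F (a / (q : K))) ≤ 1 :=
        (W.valuation_le_one_iff _).mpr (hmemO _ (hunif a ha))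
      rw [h1, map_mul, W.mem_nonunits_iff, map_mul]
      calc W.valuation (algebraMap K F (q : K)) * W.valuation (algebraMap K F (a / (q : K)))
          ≤ W.valuation (algebraMap K F (q : K)) * 1 := mul_le_mul_right h3 _
        _ < 1 := by rwa [mul_one]
    refine ⟨?_, hx, fun p hpO hpn i => ?_⟩
    · ext a
      rw [ValuationSubring.mem_comap]
      refine ⟨fun ha => ?_, hmemO a⟩
      by_contra haO
      have ha0 : a ≠ 0 := fun h => haO (h ▸ O.zero_mem)
      have hinv : a⁻¹ ∈ O.nonunits := by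
        rw [mem_nonunits_iff_inv_notMem O (inv_ne_zero ha0), inv_inv]
        exact haO
      have h1 := hnon _ hinv
      rw [map_inv₀, mem_nonunits_iff_inv_notMem W
        (inv_ne_zero ((_root_.map_ne_zero _).mpr ha0)), inv_inv] at h1
      exact h1 ha
    · have hlift : p ∈ lifts (algebraMap O K) :=
        (lifts_iff_coeff_lifts p).mpr fun n => ⟨⟨p.coeff n, hpO n⟩, rfl⟩
      obtain ⟨p', rfl⟩ := (mem_lifts p).mp hlift
      rw [aeval_map_algebraMap] at hpn
      obtain ⟨r, hr⟩ := (C_dvd_iff_dvd_coeff _ _).mp (hp p' hpn) i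
      have h1 : O.valuation (q : K) < 1 := O.mem_nonunits_iff.mp hqm
      have h2 : O.valuation (r : K) ≤ 1 := (O.valuation_le_one_iff _).mpr r.2
      rw [coeff_map, hr, O.mem_nonunits_iff]
      calc O.valuation (algebraMap O K (((q : ℕ) : O) * r))
          = O.valuation (q : K) * O.valuation (r : K) := by
            rw [← map_mul]; rfl
        _ ≤ O.valuation (q : K) * 1 := mul_le_mul_right h2 _
        _ < 1 := by rwa [mul_one]
  · intro h
    refine ⟨fun a => (h.algebraMap_mem_iff _).mpr a.2, h.2.1, ?_, fun p hpn => ?_⟩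
    · rw [hqF]
      exact (h.algebraMap_mem_nonunits_iff _).mpr hqm
    · rw [C_dvd_iff_dvd_coeff]
      intro i
      have h1 := h.2.2 (p.map (algebraMap O K))
        (fun i => by rw [coeff_map]; exact (p.coeff i).2)
        (by rwa [aeval_map_algebraMap]) i
      rw [coeff_map] at h1
      refine ⟨⟨(p.coeff i : K) / (q : K), hunif _ h1⟩, Subtype.ext ?_⟩
      show ((p.coeff i : O) : K) = (q : K) * (((p.coeff i : O) : K) / (q : K))
      field_simp

variable {ι : Type*} (V : ι → ValuationSubring F)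

/-- **The fields `rad` and `rad01` of the datum of KILL-ASM, verbatim** (both charts of the base
line `x`, and the overlap chart), from the hypothesis that every Gauss extension of `O` for `x`
contains the maximal ideal of some `V c` in its maximal ideal. -/
theorem killData_rad_of_hall (hq0 : (q : K) ≠ 0) (hqm : (q : K) ∈ O.nonunits)
    (hunif : ∀ c : K, c ∈ O.nonunits → c / (q : K) ∈ O) (x : F) (hx : Transcendental K x)
    (hall : ∀ W : ValuationSubring F, IsGaussAt O x W →
      ∃ c, ∀ y : F, y ∈ (V c).nonunits → y ∈ W.nonunits) :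
    (∀ (i : Fin 2) (y : F), y ∈ chartRing O (if i = 0 then ({x} : Set F) else {x⁻¹}) →
        (∀ c, y ∈ (V c).nonunits) →
        NilMod (chartRing O (if i = 0 then ({x} : Set F) else {x⁻¹})) (q : F) y) ∧
      ∀ y : F, y ∈ chartRing O ({x, x⁻¹} : Set F) → (∀ c, y ∈ (V c).nonunits) →
        NilMod (chartRing O ({x, x⁻¹} : Set F)) (q : F) y := by
  have hqP := prime_natCast_of_unif O q hq0 hqm hunif
  have hxO : Transcendental O x := hx.restrictScalars (FaithfulSMul.algebraMap_injective O K)
  have hqF : algebraMap O F ((q : ℕ) : O) = (q : F) := map_natCast _ q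
  obtain ⟨h0, h1, h01⟩ := nilMod_of_forall_mem_nonunits x hxO ((q : ℕ) : O) hqP V
    (fun W hW => hall W ((isGaussExt_iff_isGaussAt O q hq0 hqm hunif x W).mp hW))
  rw [hqF] at h0 h1 h01
  refine ⟨fun i y hy hv => ?_, fun y hy hv => h01 y hy hv⟩
  by_cases hi : i = 0
  · rw [if_pos hi] at hy ⊢
    exact h0 y hy hv
  · rw [if_neg hi] at hy ⊢
    exact h1 y hy hv

/-- The radical fields from COMPLETENESS in the vocabulary (G2): every Gauss extension of `O`
for `x` is one of the `V c`. -/
theorem killData_rad_of_complete (hq0 : (q : K) ≠ 0) (hqm : (q : K) ∈ O.nonunits)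
    (hunif : ∀ c : K, c ∈ O.nonunits → c / (q : K) ∈ O) (x : F) (hx : Transcendental K x)
    (hcomp : ∀ W : ValuationSubring F, W.comap (algebraMap K F) = O →
      (x ∈ W ∧ ∀ p : K[X], (∀ i, p.coeff i ∈ O) → aeval x p ∈ W.nonunits →
        ∀ i, p.coeff i ∈ O.nonunits) → ∃ c, W = V c) :
    (∀ (i : Fin 2) (y : F), y ∈ chartRing O (if i = 0 then ({x} : Set F) else {x⁻¹}) →
        (∀ c, y ∈ (V c).nonunits) →
        NilMod (chartRing O (if i = 0 then ({x} : Set F) else {x⁻¹})) (q : F) y) ∧
      ∀ y : F, y ∈ chartRing O ({x, x⁻¹} : Set F) → (∀ c, y ∈ (V c).nonunits) →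
        NilMod (chartRing O ({x, x⁻¹} : Set F)) (q : F) y :=
  killData_rad_of_hall O q V hq0 hqm hunif x hx fun W hW => by
    obtain ⟨c, rfl⟩ := hcomp W hW.1 hW.2
    exact ⟨c, fun y hy => hy⟩

/-- The radical fields from COMPLETENESS in the vocabulary (G3): `E` a field generated by `x`
over `K` (e.g. `K(x)` as an intermediate field: `exists_frac_of_adjoin_simple`), `V0` the
restriction to `E` of ONE member `V c0` known to be a Gauss extension, and every valuation
subring of `F` restricting to `V0` is one of the `V c`. -/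
theorem killData_rad_of_complete_comap (hq0 : (q : K) ≠ 0) (hqm : (q : K) ∈ O.nonunits)
    (hunif : ∀ c : K, c ∈ O.nonunits → c / (q : K) ∈ O) (x : F) (hx : Transcendental K x)
    {E : Type*} [Field E] [Algebra E F]
    (hE : ∀ y : E, ∃ a b : K[X], b ≠ 0 ∧ algebraMap E F y * aeval x b = aeval x a)
    (V0 : ValuationSubring E) (c0 : ι) (hc0 : IsGaussAt O x (V c0))
    (hV0 : (V c0).comap (algebraMap E F) = V0)
    (hcomp : ∀ W : ValuationSubring F, W.comap (algebraMap E F) = V0 → ∃ c, W = V c) :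
    (∀ (i : Fin 2) (y : F), y ∈ chartRing O (if i = 0 then ({x} : Set F) else {x⁻¹}) →
        (∀ c, y ∈ (V c).nonunits) →
        NilMod (chartRing O (if i = 0 then ({x} : Set F) else {x⁻¹})) (q : F) y) ∧
      ∀ y : F, y ∈ chartRing O ({x, x⁻¹} : Set F) → (∀ c, y ∈ (V c).nonunits) →
        NilMod (chartRing O ({x, x⁻¹} : Set F)) (q : F) y :=
  killData_rad_of_hall O q V hq0 hqm hunif x hx fun W hW => by
    obtain ⟨c, rfl⟩ := hcomp W ((hW.comap_eq hc0 hE).trans hV0)
    exact ⟨c, fun y hy => hy⟩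

/-- The radical fields from COMPLETENESS in the weaker-hypothesis shape of the Dedekind count:
every valuation subring `W ≠ ⊤` of `F` containing the image of `V0` is one of the `V c`. -/
theorem killData_rad_of_complete_le (hq0 : (q : K) ≠ 0) (hqm : (q : K) ∈ O.nonunits)
    (hunif : ∀ c : K, c ∈ O.nonunits → c / (q : K) ∈ O) (x : F) (hx : Transcendental K x)
    {E : Type*} [Field E] [Algebra K E] [Algebra E F] [IsScalarTower K E F]
    (hE : ∀ y : E, ∃ a b : K[X], b ≠ 0 ∧ algebraMap E F y * aeval x b = aeval x a)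
    (V0 : ValuationSubring E) (c0 : ι) (hc0 : IsGaussAt O x (V c0))
    (hV0 : (V c0).comap (algebraMap E F) = V0)
    (hcomp : ∀ W : ValuationSubring F, (∀ a ∈ V0, algebraMap E F a ∈ W) → W ≠ ⊤ →
      ∃ c, W = V c) :
    (∀ (i : Fin 2) (y : F), y ∈ chartRing O (if i = 0 then ({x} : Set F) else {x⁻¹}) →
        (∀ c, y ∈ (V c).nonunits) →
        NilMod (chartRing O (if i = 0 then ({x} : Set F) else {x⁻¹})) (q : F) y) ∧
      ∀ y : F, y ∈ chartRing O ({x, x⁻¹} : Set F) → (∀ c, y ∈ (V c).nonunits) →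
        NilMod (chartRing O ({x, x⁻¹} : Set F)) (q : F) y :=
  killData_rad_of_complete_comap O q V hq0 hqm hunif x hx hE V0 c0 hc0 hV0 fun W hW => by
    refine hcomp W (fun a ha => ?_) ?_
    · rw [← hW] at ha
      exact ha
    · rintro rfl
      have hqF : algebraMap K F (q : K) ≠ 0 := (_root_.map_ne_zero _).mpr hq0
      have h1 : algebraMap K F (q : K) ∈ (V c0).nonunits :=
        (hc0.algebraMap_mem_nonunits_iff _).mpr hqm
      have h2 : (algebraMap K E (q : K))⁻¹ ∈ (V c0).comap (algebraMap E F) := by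
        rw [hV0, ← hW]
        exact ValuationSubring.mem_top _
      rw [ValuationSubring.mem_comap, map_inv₀, ← IsScalarTower.algebraMap_apply] at h2
      exact (mem_nonunits_iff_inv_notMem (V c0) hqF).mp h1 h2

end Radical

end Bridge

/-! ### Change of the base line -/

section BaseLine

variable {K F : Type*} [Field K] [Field F] [Algebra K F]
variable {O : ValuationSubring K} {x : F} {W : ValuationSubring F}

omit [Algebra K F] in
/-- Polynomials with coefficients in `O`, as the subsemiring `lifts`. -/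
theorem mem_lifts_iff_coeff_mem (O : ValuationSubring K) (p : K[X]) :
    p ∈ lifts (algebraMap O K) ↔ ∀ i, p.coeff i ∈ O := by
  rw [lifts_iff_coeff_lifts]
  exact ⟨fun h i => by obtain ⟨r, hr⟩ := h i; rw [← hr]; exact r.2,
    fun h i => ⟨⟨p.coeff i, h i⟩, rfl⟩⟩

/-- **Base-line change.**  If `W` is a Gauss extension of `O` for `x` and `y = a(x) / b(x)` with
`a, b` monic with coefficients in `O` and `deg b < deg a`, then `W` is a Gauss extension of `O`
for `y`.  (Example: `x = t4` or `t9`, `y = j`.) -/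
theorem IsGaussAt.of_monic_rel (hW : IsGaussAt O x W) (a b : K[X]) (ha : ∀ i, a.coeff i ∈ O)
    (hb : ∀ i, b.coeff i ∈ O) (ham : a.Monic) (hbm : b.Monic) (hdeg : b.natDegree < a.natDegree)
    (y : F) (hy : y * aeval x b = aeval x a) : IsGaussAt O y W := by
  have hone : (1 : K) ∉ O.nonunits := by
    rw [O.mem_nonunits_iff, map_one]; exact lt_irrefl _
  have hbv : W.valuation (aeval x b) = 1 :=
    hW.valuation_aeval_eq_one b hb b.natDegree (by rw [hbm.coeff_natDegree]; exact hone)
  have hbx : aeval x b ≠ 0 := fun h0 => by rw [h0, map_zero] at hbv; exact zero_ne_one hbv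
  have haW : aeval x a ∈ W :=
    aeval_mem_of_coeff_mem W hW.2.1 a fun i => (hW.algebraMap_mem_iff _).mpr (ha i)
  have hyW : y ∈ W := by
    rw [← W.valuation_le_one_iff]
    have h1 : W.valuation (y * aeval x b) ≤ 1 := by rw [hy]; exact (W.valuation_le_one_iff _).mpr haW
    rwa [map_mul, hbv, mul_one] at h1
  refine ⟨hW.1, hyW, fun p hp hpn => ?_⟩
  by_contra hcon
  rw [not_forall] at hcon
  obtain ⟨j0, hj0⟩ := hcon
  set n := p.natDegree with hn
  -- the homogenised composition
  set P : K[X] := ∑ i ∈ Finset.range (n + 1), C (p.coeff i) * (a ^ i * b ^ (n - i)) with hP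
  have hPO : ∀ i, P.coeff i ∈ O := by
    rw [← mem_lifts_iff_coeff_mem]
    refine Subsemiring.sum_mem _ fun i _ => Subsemiring.mul_mem _
      (C'_mem_lifts ⟨⟨p.coeff i, hp i⟩, rfl⟩)
      (Subsemiring.mul_mem _ (Subsemiring.pow_mem _ ((mem_lifts_iff_coeff_mem O a).mpr ha) _)
        (Subsemiring.pow_mem _ ((mem_lifts_iff_coeff_mem O b).mpr hb) _))
  have hPx : aeval x P = aeval x b ^ n * aeval y p := by
    rw [hP, map_sum, aeval_eq_sum_range (p := p) y, Finset.mul_sum]
    refine Finset.sum_congr rfl fun i hi => ?_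
    have hi' : i ≤ n := Nat.lt_succ_iff.mp (Finset.mem_range.mp hi)
    rw [map_mul, map_mul, map_pow, map_pow, aeval_C, ← hy, Algebra.smul_def,
      ← Nat.sub_add_cancel hi', pow_add, Nat.add_sub_cancel]
    ring
  have hPn : aeval x P ∈ W.nonunits := by
    rw [hPx, W.mem_nonunits_iff, map_mul, map_pow, hbv, one_pow, one_mul]
    exact W.mem_nonunits_iff.mp hpn
  have hPm := hW.2.2 P hPO hPn
  -- the largest index with a unit coefficient
  have hj0n : j0 ≤ n := by
    by_contra hlt
    rw [coeff_eq_zero_of_natDegree_lt (not_le.mp hlt)] at hj0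
    exact hj0 (zero_mem_nonunits' O)
  classical
  let S : Finset ℕ := (Finset.range (n + 1)).filter fun i => p.coeff i ∉ O.nonunits
  have hS : S.Nonempty := ⟨j0, Finset.mem_filter.mpr ⟨Finset.mem_range.mpr (Nat.lt_succ_of_le hj0n), hj0⟩⟩
  set i0 := S.max' hS with hi0
  have hi0S : i0 ∈ S := Finset.max'_mem S hS
  have hi0n : i0 ≤ n := Nat.lt_succ_iff.mp (Finset.mem_range.mp (Finset.mem_filter.mp hi0S).1)
  have hi0u : p.coeff i0 ∉ O.nonunits := (Finset.mem_filter.mp hi0S).2
  have hgt : ∀ i, i ≤ n → i0 < i → p.coeff i ∈ O.nonunits := by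
    intro i hin hlt
    by_contra hnot
    have : i ∈ S := Finset.mem_filter.mpr ⟨Finset.mem_range.mpr (Nat.lt_succ_of_le hin), hnot⟩
    exact absurd (Finset.le_max' S i this) (not_le.mpr hlt)
  -- degrees
  have hmon : ∀ i, (a ^ i * b ^ (n - i)).Monic := fun i => (ham.pow i).mul (hbm.pow _)
  have hnd : ∀ i, (a ^ i * b ^ (n - i)).natDegree = i * a.natDegree + (n - i) * b.natDegree :=
    fun i => by
      rw [(ham.pow i).natDegree_mul (hbm.pow _), ham.natDegree_pow, hbm.natDegree_pow]
  set D := i0 * a.natDegree + (n - i0) * b.natDegree with hD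
  have hcoeff : P.coeff D = p.coeff i0 +
      ∑ i ∈ (Finset.range (n + 1)).erase i0, p.coeff i * (a ^ i * b ^ (n - i)).coeff D := by
    rw [hP, finsetSum_coeff, ← Finset.add_sum_erase _ _
      (Finset.mem_range.mpr (Nat.lt_succ_of_le hi0n)), coeff_C_mul]
    congr 1
    · have := (hmon i0).coeff_natDegree
      rw [hnd i0] at this
      rw [this, mul_one]
    · exact Finset.sum_congr rfl fun i _ => coeff_C_mul _
  have hsum : O.valuation (∑ i ∈ (Finset.range (n + 1)).erase i0,
      p.coeff i * (a ^ i * b ^ (n - i)).coeff D) < 1 := by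
    refine Valuation.map_sum_lt _ one_ne_zero fun i hi => ?_
    have hin : i ≤ n := Nat.lt_succ_iff.mp (Finset.mem_range.mp (Finset.mem_of_mem_erase hi))
    have hne : i ≠ i0 := Finset.ne_of_mem_erase hi
    rcases lt_or_gt_of_ne hne with hlt | hgt'
    · -- i < i0 : the coefficient vanishes
      have hdlt : (a ^ i * b ^ (n - i)).natDegree < D := by
        obtain ⟨d, hd⟩ : ∃ d, i0 = i + d + 1 := ⟨i0 - i - 1, by omega⟩
        obtain ⟨m, hm⟩ : ∃ m, n = i0 + m := ⟨n - i0, by omega⟩
        have e1 : n - i = m + d + 1 := by omega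
        have e2 : n - i0 = m := by omega
        have h3 : (d + 1) * b.natDegree < (d + 1) * a.natDegree :=
          Nat.mul_lt_mul_of_pos_left hdeg (Nat.succ_pos d)
        rw [hnd i, hD, e1, e2, hd]
        nlinarith [h3]
      rw [coeff_eq_zero_of_natDegree_lt hdlt, mul_zero, map_zero]
      exact zero_lt_one
    · -- i0 < i : the coefficient of p is in the maximal ideal
      have h1 : O.valuation (p.coeff i) < 1 := O.mem_nonunits_iff.mp (hgt i hin hgt')
      have hcO : (a ^ i * b ^ (n - i)).coeff D ∈ O := by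
        have hm : a ^ i * b ^ (n - i) ∈ lifts (algebraMap O K) :=
          Subsemiring.mul_mem _ (Subsemiring.pow_mem _ ((mem_lifts_iff_coeff_mem O a).mpr ha) _)
            (Subsemiring.pow_mem _ ((mem_lifts_iff_coeff_mem O b).mpr hb) _)
        exact (mem_lifts_iff_coeff_mem O _).mp hm D
      have h2 : O.valuation ((a ^ i * b ^ (n - i)).coeff D) ≤ 1 :=
        (O.valuation_le_one_iff _).mpr hcO
      rw [map_mul]
      calc O.valuation (p.coeff i) * O.valuation ((a ^ i * b ^ (n - i)).coeff D)
          ≤ O.valuation (p.coeff i) * 1 := mul_le_mul_right h2 _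
        _ < 1 := by rwa [mul_one]
  have hPD : O.valuation (P.coeff D) < 1 := O.mem_nonunits_iff.mp (hPm D)
  have : p.coeff i0 = P.coeff D - ∑ i ∈ (Finset.range (n + 1)).erase i0,
      p.coeff i * (a ^ i * b ^ (n - i)).coeff D := by
    rw [hcoeff]; ring
  exact hi0u (O.mem_nonunits_iff.mpr (this ▸ Valuation.map_sub_lt _ hPD hsum))


/-- Base-line change for a relation with integer coefficients: `y * b(x) = a(x)`, `a, b ∈ ℤ[X]`
monic, `deg b < deg a`  (e.g. `j * (t4 ^ 4 * (t4 + 16)) = (t4 ^ 2 + 256 * t4 + 4096) ^ 3`). -/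
theorem IsGaussAt.of_monic_rel_int (hW : IsGaussAt O x W) (a b : ℤ[X]) (ham : a.Monic)
    (hbm : b.Monic) (hdeg : b.natDegree < a.natDegree) (y : F)
    (hy : y * aeval x b = aeval x a) : IsGaussAt O y W := by
  have hcast : ∀ c : ℤ[X], ∀ i, (c.map (Int.castRingHom K)).coeff i ∈ O := fun c i => by
    rw [coeff_map, eq_intCast]
    exact intCast_mem O _
  have hae : ∀ c : ℤ[X], aeval x (c.map (Int.castRingHom K)) = aeval x c := fun c => by
    rw [← algebraMap_int_eq, aeval_map_algebraMap]
  refine hW.of_monic_rel (a.map (Int.castRingHom K)) (b.map (Int.castRingHom K)) (hcast a)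
    (hcast b) (ham.map _) (hbm.map _) ?_ y ?_
  · rw [ham.natDegree_map, hbm.natDegree_map]
    exact hdeg
  · rw [hae, hae]
    exact hy

/-- **The radical fields on the charts of the line `x` from completeness on the line `y`**
(`x = t4` or `t9`, `y = j`): `y * b(x) = a(x)` with `a, b ∈ ℤ[X]` monic, `deg b < deg a`, and
every Gauss extension of `O` for `y` is one of the `V c`. -/
theorem killData_rad_of_complete_line (O : ValuationSubring K) (q : ℕ) {ι : Type*}
    (V : ι → ValuationSubring F) (hq0 : (q : K) ≠ 0) (hqm : (q : K) ∈ O.nonunits)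
    (hunif : ∀ c : K, c ∈ O.nonunits → c / (q : K) ∈ O) (x : F) (hx : Transcendental K x)
    (y : F) (a b : ℤ[X]) (ham : a.Monic) (hbm : b.Monic) (hdeg : b.natDegree < a.natDegree)
    (hy : y * aeval x b = aeval x a)
    (hcomp : ∀ W : ValuationSubring F, W.comap (algebraMap K F) = O →
      (y ∈ W ∧ ∀ p : K[X], (∀ i, p.coeff i ∈ O) → aeval y p ∈ W.nonunits →
        ∀ i, p.coeff i ∈ O.nonunits) → ∃ c, W = V c) :
    (∀ (i : Fin 2) (z : F), z ∈ chartRing O (if i = 0 then ({x} : Set F) else {x⁻¹}) →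
        (∀ c, z ∈ (V c).nonunits) →
        NilMod (chartRing O (if i = 0 then ({x} : Set F) else {x⁻¹})) (q : F) z) ∧
      ∀ z : F, z ∈ chartRing O ({x, x⁻¹} : Set F) → (∀ c, z ∈ (V c).nonunits) →
        NilMod (chartRing O ({x, x⁻¹} : Set F)) (q : F) z :=
  killData_rad_of_hall O q V hq0 hqm hunif x hx fun W hW => by
    have hj := hW.of_monic_rel_int a b ham hbm hdeg y hy
    obtain ⟨c, rfl⟩ := hcomp W hj.1 hj.2
    exact ⟨c, fun z hz => hz⟩

end BaseLine

/-! ### The lines `t4`, `t9` over the `j`-line -/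

section Lines

variable {K F : Type*} [Field K] [Field F] [Algebra K F]
variable {O : ValuationSubring K} {x : F} {W : ValuationSubring F}

theorem monic_t4_num : ((X ^ 2 + 256 * X + 4096 : ℤ[X]) ^ 3).Monic := by
  refine Monic.pow ?_ 3
  monicity!

theorem monic_t4_den : (X ^ 4 * (X + 16) : ℤ[X]).Monic := by
  refine (monic_X_pow 4).mul ?_
  monicity!

theorem natDegree_t4_num : ((X ^ 2 + 256 * X + 4096 : ℤ[X]) ^ 3).natDegree = 6 := by
  compute_degree!

theorem natDegree_t4_den : (X ^ 4 * (X + 16) : ℤ[X]).natDegree = 5 := by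
  compute_degree!

/-- The base-line change `t4 ↦ j`. -/
theorem IsGaussAt.of_t4_rel (hW : IsGaussAt O x W) (y : F)
    (hy : y * x ^ 4 * (x + 16) = (x ^ 2 + 256 * x + 4096) ^ 3) : IsGaussAt O y W := by
  refine hW.of_monic_rel_int ((X ^ 2 + 256 * X + 4096 : ℤ[X]) ^ 3) (X ^ 4 * (X + 16))
    monic_t4_num monic_t4_den (by rw [natDegree_t4_num, natDegree_t4_den]; norm_num) y ?_
  simp only [map_mul, map_pow, map_add, aeval_X, map_ofNat]
  rw [← mul_assoc]
  exact hy

theorem monic_t9_num :
    ((X + 9 : ℤ[X]) ^ 3 * (X ^ 3 + 243 * X ^ 2 + 2187 * X + 6561) ^ 3).Monic := by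
  refine Monic.mul (Monic.pow ?_ 3) (Monic.pow ?_ 3)
  · monicity!
  · monicity!

theorem monic_t9_den : (X ^ 9 * (X ^ 2 + 9 * X + 27) : ℤ[X]).Monic := by
  refine (monic_X_pow 9).mul ?_
  monicity!

theorem natDegree_t9_num :
    ((X + 9 : ℤ[X]) ^ 3 * (X ^ 3 + 243 * X ^ 2 + 2187 * X + 6561) ^ 3).natDegree = 12 := by
  compute_degree!

theorem natDegree_t9_den : (X ^ 9 * (X ^ 2 + 9 * X + 27) : ℤ[X]).natDegree = 11 := by
  compute_degree!

/-- The base-line change `t9 ↦ j`. -/
theorem IsGaussAt.of_t9_rel (hW : IsGaussAt O x W) (y : F)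
    (hy : y * x ^ 9 * (x ^ 2 + 9 * x + 27) =
      (x + 9) ^ 3 * (x ^ 3 + 243 * x ^ 2 + 2187 * x + 6561) ^ 3) : IsGaussAt O y W := by
  refine hW.of_monic_rel_int ((X + 9 : ℤ[X]) ^ 3 * (X ^ 3 + 243 * X ^ 2 + 2187 * X + 6561) ^ 3)
    (X ^ 9 * (X ^ 2 + 9 * X + 27)) monic_t9_num monic_t9_den
    (by rw [natDegree_t9_num, natDegree_t9_den]; norm_num) y ?_
  simp only [map_mul, map_pow, map_add, aeval_X, map_ofNat]
  rw [← mul_assoc]
  exact hy

end Lines

end Fermat.Agent.S36.helper2587
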