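import Fermat.Agent.S36.helper2882_LevelSquare
import Fermat.Agent.S36.helper1335_KillFF

/-!
# S36-AUXLEVEL, final transfer (helper2882): `Stmt_KillFFAux → Stmt_KillFF`

The auxiliary level of the canonical (KILL) statement of `helper1335_KillFF` is removed by a
norm argument at FUNCTION level, in ONE step for the multiplier `m = 4` (`q` odd) resp. `m = 9`
(`q = 2`):

* `u ∈ F_{M₁ q}` is pulled back to `u' = incl u ∈ F_{M₁ m q}`; it stays Kummer
  (`helper8217.isKummer_map`), its class stays fixed by inertia (`galois_fixed_incl`: the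
  coefficientwise Galois action commutes with the level inclusion, and equality of Kummer classes
  is an equation between functions which is preserved by `incl`);
* the norms along `α`, `β` commute with the level square
  (`heckeAlpha_square`, `heckeBeta_square` of `helper2882_LevelSquare`, `q ∤ m`);
* (KILL) at the auxiliary level `M₁ m` gives `u' ^ c = a * w ^ (lam ^ n)`, and the norm along
  `incl` gives `u ^ (c * d) = a ^ d * N(w) ^ (lam ^ n)`, `d = [F_{M₁ m q} : F_{M₁ q}]`.

Main results: `killFFAt_of_mul` (any multiplier `m` prime to `q`) and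
`stmt_KillFF_of_aux : helper1335.Stmt_KillFFAux → helper1335.Stmt_KillFF`.
-/

set_option autoImplicit false
set_option linter.style.haveILetI false

open ModularCurve AlgebraicCurve

namespace Fermat.Agent.S36.helper2882

open Fermat.Agent.S24.helper24
open Fermat.Agent.S37.helper5162
open Fermat.Agent.S29.helper2882
open Fermat.Agent.S29.helper8217 (IsKummer kummerClass normAlong)

/-! ## Generic facts: Kummer classes and norms along an algebra homomorphism -/

section Generic

variable {K F F' : Type*} [Field K] [Field F] [Field F'] [Algebra K F] [Algebra K F']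

/-- Divisor-free elements stay divisor-free under pull-back. -/
theorem ord_map_eq_zero (φ : F →ₐ[K] F') (hφ : φ.toRingHom.IsIntegral) {c : F}
    (h : ∀ v : Place K F, v.ord c = 0) (w : Place K F') : w.ord (φ c) = 0 := by
  letI := algebraAlong φ
  haveI := isScalarTower_along φ
  haveI := isIntegral_along φ hφ
  have h1 := w.ord_restrict (F := F) c
  rw [h (w.restrict F), mul_zero] at h1
  exact h1

/-- Equality of Kummer classes is preserved by pull-back along `φ`. -/
theorem kummerClass_map_eq [HasPrincipalDivisors K F] [HasPrincipalDivisors K F']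
    (φ : F →ₐ[K] F') (hφ : φ.toRingHom.IsIntegral) {n : ℕ} (hn : n ≠ 0) {u u' : F}
    (h : IsKummer K n u) (h' : IsKummer K n u')
    (he : kummerClass K n u = kummerClass K n u') :
    kummerClass K n (φ u) = kummerClass K n (φ u') := by
  obtain ⟨w, c, hw, hc, hcv, hu⟩ :=
    (Fermat.Agent.S29.helper8217.kummerClass_eq_iff hn h h').mp he
  refine (Fermat.Agent.S29.helper8217.kummerClass_eq_iff hn
    (Fermat.Agent.S29.helper8217.isKummer_map φ hφ h)
    (Fermat.Agent.S29.helper8217.isKummer_map φ hφ h')).mpr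
    ⟨φ w, φ c, ?_, ?_, ord_map_eq_zero φ hφ hcv, ?_⟩
  · exact (map_ne_zero φ).mpr hw
  · exact (map_ne_zero φ).mpr hc
  · rw [hu, map_mul, map_mul, map_pow]

/-- The norm along `ψ` of an element of the image of `ψ`. -/
theorem normAlong_map (ψ : F →ₐ[K] F') (x : F) :
    normAlong ψ (ψ x) = x ^ finrankAlong K ψ := by
  letI := algebraAlong ψ
  exact Algebra.norm_algebraMap (S := F') x

theorem normAlong_mul (ψ : F →ₐ[K] F') (x y : F') :
    normAlong ψ (x * y) = normAlong ψ x * normAlong ψ y := by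
  letI := algebraAlong ψ
  exact map_mul (Algebra.norm F) x y

theorem normAlong_pow (ψ : F →ₐ[K] F') (x : F') (k : ℕ) :
    normAlong ψ (x ^ k) = normAlong ψ x ^ k := by
  letI := algebraAlong ψ
  exact map_pow (Algebra.norm F) x k

/-- The norm along `ψ` of a constant. -/
theorem normAlong_algebraMap (ψ : F →ₐ[K] F') (a : K) :
    normAlong ψ (algebraMap K F' a) = algebraMap K F (a ^ finrankAlong K ψ) := by
  rw [← AlgHom.commutes ψ a, normAlong_map, map_pow]

end Generic

/-! ## The level inclusion and the Galois action -/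

section Modular

/-- The coefficientwise Galois action commutes with the level inclusion. -/
theorem arithmeticGalois_smul_incl {M M' : ℕ} [NeZero M] [NeZero M'] (h : M ∣ M')
    (σ : Kbar ≃ₐ[ℚ] Kbar) (x : FN M) :
    arithmeticGalois (modularFunctionFieldFull M') σ • incl h x
      = incl h (arithmeticGalois (modularFunctionFieldFull M) σ • x) := by
  apply Subtype.ext
  rw [coe_arithmeticGalois_smul, coe_incl, coe_incl, coe_arithmeticGalois_smul]

/-- A Kummer class fixed by `σ` stays fixed by `σ` after raising the level. -/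
theorem galois_fixed_incl {M M' : ℕ} [NeZero M] [NeZero M'] (h : M ∣ M')
    (σ : Kbar ≃ₐ[ℚ] Kbar) {n : ℕ} (hn : n ≠ 0) {u : FN M} (hu : IsKummer Kbar n u)
    (hfix : σ • kummerClass Kbar n u = kummerClass Kbar n u) :
    σ • kummerClass Kbar n (incl h u) = kummerClass Kbar n (incl h u) := by
  rw [Fermat.Agent.S29.helper8217.galois_smul_kummerClass] at hfix ⊢
  rw [arithmeticGalois_smul_incl]
  exact kummerClass_map_eq (incl h) (isIntegral_any _) hn
    ((Fermat.Agent.S29.helper8217.isKummer_smul_iff _).mpr hu) hu hfix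

/-- **Descent of (KILL) along an auxiliary multiplier `m` prime to `q`** (function form,
canonical Prop of `helper1335_KillFF`): (KILL) at `(M₁ m, q)` with constant `c` gives (KILL) at
`(M₁, q)` with constant `c * [F_{M₁ m q} : F_{M₁ q}]`. -/
theorem killFFAt_of_mul {M₁ q lam m : ℕ} [NeZero M₁] [NeZero q] [NeZero m] (hq : q.Prime)
    (hqm : ¬ q ∣ m) (hlam : lam ≠ 0) (A : ValuationSubring Kbar) {c : ℕ}
    (h₂ : M₁ * q ∣ M₁ * m * q)
    (h : Fermat.Agent.S36.helper1335.KillFFAt (M₁ * m) q lam A c) :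
    Fermat.Agent.S36.helper1335.KillFFAt M₁ q lam A (c * finrankAlong Kbar (incl h₂)) := by
  intro n u hu hfix hα hβ
  have h₁ : M₁ ∣ M₁ * m := dvd_mul_right _ _
  obtain ⟨hsqα, -⟩ := heckeAlpha_square (N := M₁) (m := m) (ℓ := q) hq hqm h₁ h₂
  obtain ⟨hsqβ, -⟩ := heckeBeta_square (N := M₁) (m := m) (ℓ := q) hq hqm h₁ h₂
  have hn : lam ^ n ≠ 0 := pow_ne_zero n hlam
  obtain ⟨a, w, hw⟩ := h n (incl h₂ u)
    (Fermat.Agent.S29.helper8217.isKummer_map (incl h₂) (isIntegral_any _) hu)
    (fun σ hσ => galois_fixed_incl h₂ σ hn hu (hfix σ hσ))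
    (by
      obtain ⟨a, w, hw⟩ := hα
      exact ⟨a, incl h₁ w, by rw [hsqα, hw, map_mul, map_pow, AlgHom.commutes]⟩)
    (by
      obtain ⟨a, w, hw⟩ := hβ
      exact ⟨a, incl h₁ w, by rw [hsqβ, hw, map_mul, map_pow, AlgHom.commutes]⟩)
  refine ⟨a ^ finrankAlong Kbar (incl h₂), normAlong (incl h₂) w, ?_⟩
  have h3 := congrArg (normAlong (incl h₂)) hw
  rw [← map_pow, normAlong_map, normAlong_mul, normAlong_pow, normAlong_algebraMap,
    ← pow_mul] at h3
  exact h3

/-- **Removal of the auxiliary level** (step (2) of the captain's chain):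
`Stmt_KillFFAux → Stmt_KillFF`. -/
theorem stmt_KillFF_of_aux (h : Fermat.Agent.S36.helper1335.Stmt_KillFFAux) :
    Fermat.Agent.S36.helper1335.Stmt_KillFF := by
  intro M₁ q _ _ hq hqM hq2 lam hlam hne A hA
  obtain ⟨m, hm0, hqm, haux⟩ :
      ∃ m : ℕ, m ≠ 0 ∧ ¬ q ∣ m ∧ Fermat.Agent.S36.helper1335.AuxOK (M₁ * m) q := by
    by_cases h2 : q = 2
    · refine ⟨9, by norm_num, ?_, fun h => absurd h2 h, fun _ => dvd_mul_left 9 M₁⟩
      rw [h2]; norm_num
    · refine ⟨4, by norm_num, ?_, fun _ => dvd_mul_left 4 M₁, fun h => absurd h h2⟩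
      intro hd
      have h4 : q ∣ 2 ^ 2 := hd
      exact h2 ((Nat.prime_dvd_prime_iff_eq hq Nat.prime_two).mp (hq.dvd_of_dvd_pow h4))
  haveI : NeZero m := ⟨hm0⟩
  have hq2' : ¬ q ^ 2 ∣ M₁ * m := fun hd =>
    hq2 ((Nat.Coprime.pow_left 2 ((Nat.Prime.coprime_iff_not_dvd hq).mpr hqm)).dvd_of_dvd_mul_right
      hd)
  obtain ⟨c, hc, hK⟩ := h (M₁ * m) q hq (hqM.mul_right m) hq2' haux lam hlam hne A hA
  have h₂ : M₁ * q ∣ M₁ * m * q := ⟨m, by ring⟩
  exact ⟨c * finrankAlong Kbar (incl h₂), mul_ne_zero hc (finrankAlong_pos _).ne',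
    killFFAt_of_mul hq hqm hlam.ne_zero A h₂ hK⟩

end Modular

end Fermat.Agent.S36.helper2882
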