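/-
S36-LEVELSQUARE (helper2882; brick for S36-AUXLEVEL, board rows 2238 / 2101):
the two CARTESIAN LEVEL SQUARES of modular function fields.

For a prime `ℓ` and an integer `m` prime to `ℓ`, the levels `N`, `N ℓ`, `N m`, `N m ℓ` form two
squares of function fields over `ℚ̄`,

      F_N   --a-->  F_{Nℓ}                 a  = inclusion            (square `alpha`)
       |b            |b₂                   a  = `f(q) ↦ f(q^ℓ)`      (square `beta`)
      F_{Nm} --a₂--> F_{Nmℓ}               b, b₂ = inclusions,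

and both are cartesian: `F_{Nmℓ}` is the compositum of `a₂ F_{Nm}` and `b₂ F_{Nℓ}` and
`[F_{Nmℓ} : a₂ F_{Nm}] = [F_{Nℓ} : a F_N]`.  Hence the norm along `a` commutes with the level
change (`normAlong a₂ (b₂ y) = b (normAlong a y)`) and, on divisors, `b^* a_* = a₂_* b₂^*`.

In S36 (`N = q M'`, `ℓ = q`, `m = M'' / M'`): the two degeneracy norms `N_α`, `N_β` from level
`q² M'` to level `q M'` commute with the passage to the auxiliary level `q² M''`.

Contents.
* `mem_Gamma0_of_iotaG_jBarD_eq`, `adjoin_eq_top_of_sep`, `mem_subfield_of_gen_pair` :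
  `F_M = ℚ̄(j, j(q^d₁), j(q^d₂))` whenever `lcm d₁ d₂ = M`
  (`Γ₀(d₁) ∩ Γ₀(d₂) = Γ₀(lcm d₁ d₂)` on the conjugate embeddings of the S24 cusp datum).
* `finrankAlong_comp` : the tower formula for degrees along algebra homomorphisms.
* `square_of_gen` : a commuting square of modular function fields with equal degrees which is
  generated by its two sides is cartesian (element form and divisor form).
* `square_alpha`, `square_beta` : the two squares above.
* `square_alpha'`, `square_beta'` : the same with arbitrary names for the four levels.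
* `heckeAlpha_square`, `heckeBeta_square` : the two squares for the Prelude degeneracy maps
  `heckeAlphaBar`, `heckeBetaBar`, in the `normAlong` vocabulary of `S29/helper8217_KummerClass`.
* `normAlong_eq_helper8217`, `normAlong_eq_helper36` : `rfl`-bridges between the `normAlong`s.
-/
import Fermat.Agent.S29.helper2882_HeckeCommSquare
import Fermat.Agent.S29.helper8217_KummerClass
import Fermat.Agent.S29.helper36_KummerCorr

set_option autoImplicit false
set_option linter.style.haveILetI false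

open ModularCurve AlgebraicCurve IntermediateField CongruenceSubgroup UpperHalfPlane
open scoped MatrixGroups

namespace Fermat.Agent.S36.helper2882

open Fermat.Agent.S24.helper24 Fermat.Agent.S24.helper1200 Fermat.Agent.S24.helper3176
open Fermat.Agent.S37.helper5162
open Fermat.Agent.S29.helper2882

noncomputable section

/-! ## Generation by two `j(q^d)` -/

section Embeddings

variable {N : ℕ} [NeZero N] {i0 : Kbar →+* ℂ} {ev : AN N →+* (ℍ → ℂ)}

/-- Two conjugate embeddings that agree on `j(q^d)`, `d ∣ N`, belong to the same coset of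
`Γ₀(d)`. -/
theorem mem_Gamma0_of_iotaG_jBarD_eq (h : IsEvGen N i0 ev) (d : ℕ) [NeZero d] (hd : d ∣ N)
    {g g' : SL(2, ℤ)}
    (hgg' : h.iotaG g (jBarD N d hd) = h.iotaG g' (jBarD N d hd)) : g⁻¹ * g' ∈ Gamma0 d := by
  have h1 : h.phi g ⟨jBarD N d hd, jBarD_mem_AN N d hd⟩
      = h.phi g' ⟨jBarD N d hd, jBarD_mem_AN N d hd⟩ := by
    rw [← h.iotaG_coe, ← h.iotaG_coe]
    exact hgg'
  rw [h.phi_apply, h.phi_apply] at h1
  have h2 := IsFractionRing.injective Hol Mer h1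
  have h3 : ∀ τ : ℍ, Fermat.Agent.S24.helper288.jFn (ofComplex ((d : ℂ) * ((g⁻¹ • τ : ℍ) : ℂ)))
      = Fermat.Agent.S24.helper288.jFn (ofComplex ((d : ℂ) * ((g'⁻¹ • τ : ℍ) : ℂ))) := by
    intro τ
    have h4 := congrArg (fun φ : Hol => (φ : ℍ → ℂ) τ) h2
    simp only [compHol_apply, h.evHol_apply] at h4
    rw [h.gen d hd] at h4
    rw [jFn_eq_jFun]
    exact h4
  have h5 := Fermat.Agent.S24.helper288.mul_inv_mem_Gamma0_of_jFn_eq d g⁻¹ g'⁻¹ h3
  simpa using h5

end Embeddings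

/-- `Γ₀(d₁) ∩ Γ₀(d₂) ⊆ Γ₀(lcm d₁ d₂)`. -/
theorem mem_Gamma0_lcm {d₁ d₂ : ℕ} {γ : SL(2, ℤ)} (h₁ : γ ∈ Gamma0 d₁) (h₂ : γ ∈ Gamma0 d₂) :
    γ ∈ Gamma0 (Nat.lcm d₁ d₂) := by
  rw [Gamma0_mem, ZMod.intCast_zmod_eq_zero_iff_dvd] at h₁ h₂ ⊢
  rw [Int.natCast_dvd] at h₁ h₂ ⊢
  exact Nat.lcm_dvd h₁ h₂

/-- **Separation criterion**: if the conjugate embeddings which agree on a set `S ⊆ F_N` lie in
one coset of `Γ₀(N)`, then `F_N = ℚ̄(j)(S)`. -/
theorem adjoin_eq_top_of_sep (N : ℕ) [NeZero N] (S : Set (FN N))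
    (hS : ∀ (i0 : Kbar →+* ℂ) (ev : AN N →+* (ℍ → ℂ)) (h : IsEvGen N i0 ev) (g g' : SL(2, ℤ)),
      (∀ y ∈ S, h.iotaG g y = h.iotaG g' y) → g⁻¹ * g' ∈ Gamma0 N) :
    IntermediateField.adjoin Kbar⟮jBar N⟯ S = ⊤ := by
  classical
  obtain ⟨i0, ev, h1, h2, h3⟩ := Fermat.Agent.S24.helper1200.stmt_EvGen N
  have h : IsEvGen N i0 ev := ⟨h1, h2, h3⟩
  haveI : FiniteDimensional Kbar⟮jBar N⟯ (FN N) := (stmt_JFinrank N).1
  have hfr : Module.finrank Kbar⟮jBar N⟯ (FN N) = Nat.card (XN N) := (stmt_JFinrank N).2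
  haveI : Finite (IntermediateField Kbar⟮jBar N⟯ (FN N)) :=
    Field.finite_intermediateField_of_exists_primitive_element _ _ ⟨jTop N, adjoin_jBar_jTop N⟩
  obtain ⟨θ, hθ⟩ := Field.exists_primitive_element_of_finite_intermediateField
    Kbar⟮jBar N⟯ (FN N) (IntermediateField.adjoin Kbar⟮jBar N⟯ S)
  have hSθ : ∀ y ∈ S, y ∈ Kbar⟮jBar N⟯⟮θ⟯ := fun y hy =>
    hθ ▸ IntermediateField.subset_adjoin _ _ hy
  rw [← hθ, Field.primitive_element_iff_minpoly_natDegree_eq]
  refine le_antisymm (minpoly.natDegree_le θ) ?_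
  rw [hfr]
  set m := minpoly Kbar⟮jBar N⟯ θ with hm
  let ρ : Kbar⟮jBar N⟯ →+* Mer := (h.iotaG 1).comp (algebraMap Kbar⟮jBar N⟯ (FN N))
  have hm0 : m.map ρ ≠ 0 :=
    (Polynomial.map_ne_zero_iff ρ.injective).mpr
      (minpoly.ne_zero (IsIntegral.of_finite Kbar⟮jBar N⟯ θ))
  let f : XN N → Mer := fun c => h.iotaG (Quotient.out c) θ
  have hf : Function.Injective f := by
    intro c c' hcc'
    have hmem : (Quotient.out c)⁻¹ * Quotient.out c' ∈ Gamma0 N := by
      refine hS i0 ev h _ _ fun y hy => ?_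
      have hle : (Kbar⟮jBar N⟯⟮θ⟯).toSubfield
          ≤ RingHom.eqLocusField (h.iotaG (Quotient.out c)) (h.iotaG (Quotient.out c')) := by
        rw [IntermediateField.adjoin_toSubfield, Subfield.closure_le]
        rintro x (⟨c0, rfl⟩ | hx)
        · exact iotaG_eq_of_mem_adjoin h _ _ c0.2
        · rw [Set.mem_singleton_iff] at hx
          subst hx
          exact hcc'
      exact hle (hSθ y hy)
    rw [← QuotientGroup.out_eq' c, ← QuotientGroup.out_eq' c']
    exact QuotientGroup.eq.mpr hmem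
  have hroot : ∀ c, f c ∈ (m.map ρ).roots := by
    intro c
    rw [Polynomial.mem_roots hm0, Polynomial.IsRoot, Polynomial.eval_map]
    have hcomp : ρ = (h.iotaG (Quotient.out c)).comp (algebraMap Kbar⟮jBar N⟯ (FN N)) := by
      ext y
      exact iotaG_eq_of_mem_adjoin h 1 (Quotient.out c) y.2
    have hev : Polynomial.eval₂ ρ (f c) m
        = h.iotaG (Quotient.out c) (Polynomial.aeval θ m) := by
      rw [Polynomial.aeval_def, Polynomial.hom_eval₂, hcomp]
    rw [hev, hm, minpoly.aeval, map_zero]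
  haveI : Fintype (XN N) := Fintype.ofFinite _
  have hcard := Polynomial.card_le_degree_of_subset_roots (p := m.map ρ)
    (Z := Finset.univ.image f) (fun x hx => by
      obtain ⟨c, -, rfl⟩ := Finset.mem_image.mp hx
      exact hroot c)
  rw [Finset.card_image_of_injective _ hf, Finset.card_univ,
    Polynomial.natDegree_map_eq_of_injective ρ.injective] at hcard
  rw [Nat.card_eq_fintype_card]
  exact hcard

/-- **(G₂)** A subfield of `F_M` containing the constants, `j`, `j(q^d₁)` and `j(q^d₂)` with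
`lcm d₁ d₂ = M` is everything. -/
theorem mem_subfield_of_gen_pair (M d₁ d₂ : ℕ) [NeZero M] [NeZero d₁] [NeZero d₂]
    (h₁ : d₁ ∣ M) (h₂ : d₂ ∣ M) (hl : Nat.lcm d₁ d₂ = M) (S : Subfield (FN M))
    (hc : ∀ c : Kbar, algebraMap Kbar (FN M) c ∈ S) (hj : jBar M ∈ S)
    (hj₁ : jBarD M d₁ h₁ ∈ S) (hj₂ : jBarD M d₂ h₂ ∈ S) (z : FN M) : z ∈ S := by
  have hK0 : Kbar⟮jBar M⟯ ≤ S.toIntermediateField hc := by
    rw [IntermediateField.adjoin_le_iff]
    intro x hx
    rw [Set.mem_singleton_iff] at hx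
    subst hx
    exact hj
  have hc' : ∀ y : Kbar⟮jBar M⟯, algebraMap Kbar⟮jBar M⟯ (FN M) y ∈ S := fun y => hK0 y.2
  have htop : IntermediateField.adjoin Kbar⟮jBar M⟯
      ({jBarD M d₁ h₁, jBarD M d₂ h₂} : Set (FN M)) = ⊤ := by
    refine adjoin_eq_top_of_sep M _ ?_
    intro i0 ev h g g' hgg'
    have e₁ := mem_Gamma0_of_iotaG_jBarD_eq h d₁ h₁ (hgg' _ (Set.mem_insert _ _))
    have e₂ := mem_Gamma0_of_iotaG_jBarD_eq h d₂ h₂
      (hgg' _ (Set.mem_insert_of_mem _ (Set.mem_singleton _)))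
    have e := mem_Gamma0_lcm e₁ e₂
    rwa [hl] at e
  have hle : IntermediateField.adjoin Kbar⟮jBar M⟯
      ({jBarD M d₁ h₁, jBarD M d₂ h₂} : Set (FN M)) ≤ S.toIntermediateField hc' := by
    rw [IntermediateField.adjoin_le_iff]
    rintro x (rfl | hx)
    · exact hj₁
    · rw [Set.mem_singleton_iff] at hx
      subst hx
      exact hj₂
  rw [htop] at hle
  exact hle (IntermediateField.mem_top (F := Kbar⟮jBar M⟯) (E := FN M) (x := z))

/-! ## Degrees -/

section Degrees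

/-- Tower formula for degrees along algebra homomorphisms. -/
theorem finrankAlong_comp {K E F₁ F : Type*} [Field K] [Field E] [Field F₁] [Field F]
    [Algebra K E] [Algebra K F₁] [Algebra K F] (φ : E →ₐ[K] F₁) (ψ : F₁ →ₐ[K] F) :
    finrankAlong K (ψ.comp φ) = finrankAlong K φ * finrankAlong K ψ := by
  letI := algebraAlong φ
  letI := algebraAlong ψ
  letI : Algebra E F := algebraAlong (ψ.comp φ)
  haveI : IsScalarTower E F₁ F := IsScalarTower.of_algebraMap_eq fun _ => rfl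
  exact (Module.finrank_mul_finrank E F₁ F).symm

/-- `ψ(N m ℓ) ψ(N) = ψ(N m) ψ(N ℓ)` for a prime `ℓ` not dividing `m`. -/
theorem dedekindPsi_square' {N m ℓ : ℕ} (hN : N ≠ 0) (hm : m ≠ 0) (hℓ : ℓ.Prime)
    (hℓm : ¬ ℓ ∣ m) :
    dedekindPsi (N * m * ℓ) * dedekindPsi N = dedekindPsi (N * m) * dedekindPsi (N * ℓ) := by
  have hiff : ℓ ∣ N * m ↔ ℓ ∣ N := by
    constructor
    · intro h
      rcases (Nat.Prime.dvd_mul hℓ).mp h with h | h
      · exact h
      · exact absurd h hℓm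
    · exact fun h => h.mul_right m
  rw [dedekindPsi_mul_prime (mul_ne_zero hN hm) hℓ, dedekindPsi_mul_prime hN hℓ]
  simp only [hiff]
  ring

/-- The inclusions `F_{Nm} ⊆ F_{Nmℓ}` and `F_N ⊆ F_{Nℓ}` have the same degree. -/
theorem finrankAlong_incl_eq {N m ℓ M : ℕ} [NeZero N] [NeZero m] [NeZero ℓ] [NeZero M]
    (hℓ : ℓ.Prime) (hℓm : ¬ ℓ ∣ m) (hM : N * m * ℓ = M)
    (h₁ : N ∣ N * ℓ) (h₂ : N * m ∣ M) :
    finrankAlong Kbar (incl h₂) = finrankAlong Kbar (incl h₁) := by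
  subst hM
  have e1 := card_mul_finrankAlong_incl h₁
  have e2 := card_mul_finrankAlong_incl h₂
  have hsq := dedekindPsi_square' (NeZero.ne N) (NeZero.ne m) hℓ hℓm
  have i1 := Fermat.Agent.S24.helper34.stmt_Index (N * m * ℓ)
  have i2 := Fermat.Agent.S24.helper34.stmt_Index N
  have i3 := Fermat.Agent.S24.helper34.stmt_Index (N * m)
  have i4 := Fermat.Agent.S24.helper34.stmt_Index (N * ℓ)
  rw [← i1, ← i2, ← i3, ← i4] at hsq
  have hpos1 := card_XN_pos N
  have hpos2 := card_XN_pos (N * m)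
  rw [← e1, ← e2] at hsq
  have h3 : Nat.card (XN (N * m)) * Nat.card (XN N) * finrankAlong Kbar (incl h₂)
      = Nat.card (XN (N * m)) * Nat.card (XN N) * finrankAlong Kbar (incl h₁) := by
    linarith
  exact Nat.eq_of_mul_eq_mul_left (Nat.mul_pos hpos2 hpos1) h3

/-- The inclusions `F_{Nℓ} ⊆ F_{Nmℓ}` and `F_N ⊆ F_{Nm}` have the same degree. -/
theorem finrankAlong_incl_eq' {N m ℓ M : ℕ} [NeZero N] [NeZero m] [NeZero ℓ] [NeZero M]
    (hℓ : ℓ.Prime) (hℓm : ¬ ℓ ∣ m) (hM : N * m * ℓ = M)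
    (hb : N ∣ N * m) (hb₂ : N * ℓ ∣ M) :
    finrankAlong Kbar (incl hb₂) = finrankAlong Kbar (incl hb) := by
  subst hM
  have e1 := card_mul_finrankAlong_incl hb
  have e2 := card_mul_finrankAlong_incl hb₂
  have hsq := dedekindPsi_square' (NeZero.ne N) (NeZero.ne m) hℓ hℓm
  have i1 := Fermat.Agent.S24.helper34.stmt_Index (N * m * ℓ)
  have i2 := Fermat.Agent.S24.helper34.stmt_Index N
  have i3 := Fermat.Agent.S24.helper34.stmt_Index (N * m)
  have i4 := Fermat.Agent.S24.helper34.stmt_Index (N * ℓ)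
  rw [← i1, ← i2, ← i3, ← i4] at hsq
  have hpos1 := card_XN_pos N
  have hpos2 := card_XN_pos (N * ℓ)
  rw [← e1, ← e2] at hsq
  have h3 : Nat.card (XN (N * ℓ)) * Nat.card (XN N) * finrankAlong Kbar (incl hb₂)
      = Nat.card (XN (N * ℓ)) * Nat.card (XN N) * finrankAlong Kbar (incl hb) := by
    linarith
  exact Nat.eq_of_mul_eq_mul_left (Nat.mul_pos hpos2 hpos1) h3

theorem finrankAlong_pos {N M : ℕ} [NeZero N] [NeZero M] (φ : FN N →ₐ[Kbar] FN M) :
    0 < finrankAlong Kbar φ := by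
  letI := algebraAlong φ
  haveI : Module.Finite (FN N) (FN M) := finiteAlong_any φ
  exact Module.finrank_pos

end Degrees

/-! ## Cartesian squares -/

section Squares

/-- **A commuting square of modular function fields with equal degrees which is generated by
its two sides is cartesian**: the norm along `a` commutes with the base change `b`, both on
functions and on divisors. -/
theorem square_of_gen {N₀ N₁ N₂ M : ℕ} [NeZero N₀] [NeZero N₁] [NeZero N₂] [NeZero M]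
    (a : FN N₀ →ₐ[Kbar] FN N₁) (b : FN N₀ →ₐ[Kbar] FN N₂)
    (a₂ : FN N₂ →ₐ[Kbar] FN M) (b₂ : FN N₁ →ₐ[Kbar] FN M)
    (hsq : ∀ x, b₂ (a x) = a₂ (b x))
    (hdeg : finrankAlong Kbar a₂ = finrankAlong Kbar a)
    (hgen : ∀ S : Subfield (FN M), (∀ y, a₂ y ∈ S) → (∀ x, b₂ x ∈ S) → ∀ z, z ∈ S) :
    (∀ y : FN N₁, Fermat.Agent.S29.helper2378.normAlong a₂ (b₂ y)
        = b (Fermat.Agent.S29.helper2378.normAlong a y)) ∧
    ∀ D : Divisor Kbar (FN N₁),
      Divisor.pullbackAlong b (isIntegral_any b)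
          (Divisor.pushforwardAlong a (isIntegral_any a) D)
        = Divisor.pushforwardAlong a₂ (isIntegral_any a₂)
          (Divisor.pullbackAlong b₂ (isIntegral_any b₂) D) := by
  have hgen' : ∀ z : FN M, ∃ (s : Finset (FN N₁)) (c : FN N₁ → FN N₂),
      z = ∑ x ∈ s, a₂ (c x) * b₂ x :=
    exists_sum_of_subfield_gen a₂ b₂ (finiteAlong_any a₂) hgen
  have hBC := Fermat.Agent.S29.helper2378.normAlong_comm_of_span a b b₂ a₂ hsq
    (finiteAlong_any a) hdeg hgen'
  refine ⟨hBC, fun D => ?_⟩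
  have key := Fermat.Agent.S29.helper2378.pullbackAlong_comp_pushforwardAlong_eq a b b₂ a₂
    (isIntegral_any a) (isIntegral_any b) (isIntegral_any b₂) (isIntegral_any a₂) hsq
    (finiteAlong_any a) (finiteAlong_any a₂) (normFormulaAlong_any a)
    (normFormulaAlong_any a₂) hBC (exists_sep a (isIntegral_any a))
  exact DFunLike.congr_fun key D

theorem incl_jBarD {M M' : ℕ} [NeZero M] [NeZero M'] (h : M ∣ M') (d : ℕ) [NeZero d]
    (hd : d ∣ M) : incl h (jBarD M d hd) = jBarD M' d (hd.trans h) := by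
  apply Subtype.ext
  rw [coe_incl, coe_jBarD, coe_jBarD]

/-- **The `alpha` square**: for a prime `ℓ ∤ m`, the norm from level `N ℓ` to level `N` along
the inclusion commutes with the passage to the levels `N m ℓ`, `N m`. -/
theorem square_alpha {N m ℓ M : ℕ} [NeZero N] [NeZero m] [NeZero ℓ] [NeZero M]
    (hℓ : ℓ.Prime) (hℓm : ¬ ℓ ∣ m) (hM : N * m * ℓ = M)
    (a : FN N →ₐ[Kbar] FN (N * ℓ)) (b : FN N →ₐ[Kbar] FN (N * m))
    (a₂ : FN (N * m) →ₐ[Kbar] FN M) (b₂ : FN (N * ℓ) →ₐ[Kbar] FN M)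
    (ha : ∀ x, ((a x : FN (N * ℓ)) : LaurentSeries Kbar) = (x : LaurentSeries Kbar))
    (hb : ∀ x, ((b x : FN (N * m)) : LaurentSeries Kbar) = (x : LaurentSeries Kbar))
    (ha₂ : ∀ x, ((a₂ x : FN M) : LaurentSeries Kbar) = (x : LaurentSeries Kbar))
    (hb₂ : ∀ x, ((b₂ x : FN M) : LaurentSeries Kbar) = (x : LaurentSeries Kbar)) :
    (∀ y : FN (N * ℓ), Fermat.Agent.S29.helper2378.normAlong a₂ (b₂ y)
        = b (Fermat.Agent.S29.helper2378.normAlong a y)) ∧
    ∀ D : Divisor Kbar (FN (N * ℓ)),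
      Divisor.pullbackAlong b (isIntegral_any b)
          (Divisor.pushforwardAlong a (isIntegral_any a) D)
        = Divisor.pushforwardAlong a₂ (isIntegral_any a₂)
          (Divisor.pullbackAlong b₂ (isIntegral_any b₂) D) := by
  have hd₁ : N ∣ N * ℓ := dvd_mul_right N ℓ
  have hd₂ : N * m ∣ M := by
    rw [← hM]
    exact dvd_mul_right (N * m) ℓ
  have hd₃ : N * ℓ ∣ M := by
    rw [← hM]
    exact ⟨m, by ring⟩
  have ea : a = incl hd₁ := eq_incl hd₁ a ha
  have ea₂ : a₂ = incl hd₂ := eq_incl hd₂ a₂ ha₂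
  have eb₂ : b₂ = incl hd₃ := eq_incl hd₃ b₂ hb₂
  have hlcm : Nat.lcm (N * m) (N * ℓ) = M := by
    rw [Nat.lcm_mul_left, ← hM]
    have hcop : Nat.Coprime m ℓ := ((Nat.Prime.coprime_iff_not_dvd hℓ).mpr hℓm).symm
    rw [hcop.lcm_eq_mul, mul_assoc]
  refine square_of_gen a b a₂ b₂ (fun x => Subtype.ext (by rw [hb₂, ha, ha₂, hb])) ?_ ?_
  · rw [ea, ea₂]
    exact finrankAlong_incl_eq hℓ hℓm hM hd₁ hd₂
  · intro S hS₂ hS₁ z
    refine mem_subfield_of_gen_pair M (N * m) (N * ℓ) hd₂ hd₃ hlcm S ?_ ?_ ?_ ?_ z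
    · intro c
      have h := hS₂ (algebraMap Kbar _ c)
      rwa [AlgHom.commutes] at h
    · have h := hS₂ (jBar (N * m))
      have e : a₂ (jBar (N * m)) = jBar M := Subtype.ext (by rw [ha₂, coe_jBar, coe_jBar])
      rwa [e] at h
    · have h := hS₂ (jBarD (N * m) (N * m) dvd_rfl)
      rwa [ea₂, incl_jBarD] at h
    · have h := hS₁ (jBarD (N * ℓ) (N * ℓ) dvd_rfl)
      rwa [eb₂, incl_jBarD] at h

/-- **The `beta` square**: for a prime `ℓ ∤ m`, the norm from level `N ℓ` to level `N` along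
`f(q) ↦ f(q^ℓ)` commutes with the passage to the levels `N m ℓ`, `N m`. -/
theorem square_beta {N m ℓ M : ℕ} [NeZero N] [NeZero m] [NeZero ℓ] [NeZero M]
    (hℓ : ℓ.Prime) (hℓm : ¬ ℓ ∣ m) (hM : N * m * ℓ = M)
    (a : FN N →ₐ[Kbar] FN (N * ℓ)) (b : FN N →ₐ[Kbar] FN (N * m))
    (a₂ : FN (N * m) →ₐ[Kbar] FN M) (b₂ : FN (N * ℓ) →ₐ[Kbar] FN M)
    (ha : ∀ x, ((a x : FN (N * ℓ)) : LaurentSeries Kbar)
      = qExpand Kbar ℓ (x : LaurentSeries Kbar))
    (hb : ∀ x, ((b x : FN (N * m)) : LaurentSeries Kbar) = (x : LaurentSeries Kbar))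
    (ha₂ : ∀ x, ((a₂ x : FN M) : LaurentSeries Kbar) = qExpand Kbar ℓ (x : LaurentSeries Kbar))
    (hb₂ : ∀ x, ((b₂ x : FN M) : LaurentSeries Kbar) = (x : LaurentSeries Kbar)) :
    (∀ y : FN (N * ℓ), Fermat.Agent.S29.helper2378.normAlong a₂ (b₂ y)
        = b (Fermat.Agent.S29.helper2378.normAlong a y)) ∧
    ∀ D : Divisor Kbar (FN (N * ℓ)),
      Divisor.pullbackAlong b (isIntegral_any b)
          (Divisor.pushforwardAlong a (isIntegral_any a) D)
        = Divisor.pushforwardAlong a₂ (isIntegral_any a₂)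
          (Divisor.pullbackAlong b₂ (isIntegral_any b₂) D) := by
  have hd₁ : N ∣ N * m := dvd_mul_right N m
  have hd₃ : N * ℓ ∣ M := by
    rw [← hM]
    exact ⟨m, by ring⟩
  have eb : b = incl hd₁ := eq_incl hd₁ b hb
  have eb₂ : b₂ = incl hd₃ := eq_incl hd₃ b₂ hb₂
  have hsq : ∀ x, b₂ (a x) = a₂ (b x) := fun x => Subtype.ext (by rw [hb₂, ha, ha₂, hb])
  have hcomp : b₂.comp a = a₂.comp b := AlgHom.ext hsq
  refine square_of_gen a b a₂ b₂ hsq ?_ ?_
  · have h1 := finrankAlong_comp a b₂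
    have h2 := finrankAlong_comp b a₂
    rw [hcomp] at h1
    have h3 : finrankAlong Kbar b₂ = finrankAlong Kbar b := by
      rw [eb, eb₂]
      exact finrankAlong_incl_eq' hℓ hℓm hM hd₁ hd₃
    have hpos := finrankAlong_pos b
    have h4 : finrankAlong Kbar b * finrankAlong Kbar a₂
        = finrankAlong Kbar b * finrankAlong Kbar a := by
      rw [← h2, h1, h3, mul_comm]
    exact Nat.eq_of_mul_eq_mul_left hpos h4
  · intro S hS₂ hS₁ z
    refine mem_subfield_of_gen M S ?_ ?_ ?_ z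
    · intro c
      have h := hS₂ (algebraMap Kbar _ c)
      rwa [AlgHom.commutes] at h
    · have h := hS₁ (jBar (N * ℓ))
      have e : b₂ (jBar (N * ℓ)) = jBar M := Subtype.ext (by rw [hb₂, coe_jBar, coe_jBar])
      rwa [e] at h
    · have h := hS₂ (jTop (N * m))
      have e : a₂ (jTop (N * m)) = jTop M := Subtype.ext (by
        rw [ha₂, coe_jTop, coe_jTop, jSeries_eq_qExpand, jSeries_eq_qExpand, qExpand_qExpand]
        exact qExpand_congr (by rw [← hM]; ring) _)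
      rwa [e] at h

end Squares

/-! ## General levels, the Prelude degeneracy maps, bridges -/

section Hecke

/-- The three `normAlong`s on main are the same function (`Algebra.norm` for `algebraAlong`). -/
theorem normAlong_eq_helper8217 {K F F' : Type*} [Field K] [Field F] [Field F'] [Algebra K F]
    [Algebra K F'] (ψ : F →ₐ[K] F') (x : F') :
    Fermat.Agent.S29.helper2378.normAlong ψ x = Fermat.Agent.S29.helper8217.normAlong ψ x := rfl

theorem normAlong_eq_helper36 {K F F' : Type*} [Field K] [Field F] [Field F'] [Algebra K F]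
    [Algebra K F'] (ψ : F →ₐ[K] F') (x : F') :
    Fermat.Agent.S29.helper2378.normAlong ψ x = Fermat.Agent.S29.helper36.normAlong ψ x := rfl

/-- The `alpha` square with arbitrary names for the four levels. -/
theorem square_alpha' {N N₁ N₂ M m ℓ : ℕ} [NeZero N] [NeZero N₁] [NeZero N₂] [NeZero M]
    [NeZero m] [NeZero ℓ] (hℓ : ℓ.Prime) (hℓm : ¬ ℓ ∣ m)
    (hN₁ : N * ℓ = N₁) (hN₂ : N * m = N₂) (hM : N * m * ℓ = M)
    (a : FN N →ₐ[Kbar] FN N₁) (b : FN N →ₐ[Kbar] FN N₂)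
    (a₂ : FN N₂ →ₐ[Kbar] FN M) (b₂ : FN N₁ →ₐ[Kbar] FN M)
    (ha : ∀ x, ((a x : FN N₁) : LaurentSeries Kbar) = (x : LaurentSeries Kbar))
    (hb : ∀ x, ((b x : FN N₂) : LaurentSeries Kbar) = (x : LaurentSeries Kbar))
    (ha₂ : ∀ x, ((a₂ x : FN M) : LaurentSeries Kbar) = (x : LaurentSeries Kbar))
    (hb₂ : ∀ x, ((b₂ x : FN M) : LaurentSeries Kbar) = (x : LaurentSeries Kbar)) :
    (∀ y : FN N₁, Fermat.Agent.S29.helper8217.normAlong a₂ (b₂ y)
        = b (Fermat.Agent.S29.helper8217.normAlong a y)) ∧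
    ∀ D : Divisor Kbar (FN N₁),
      Divisor.pullbackAlong b (isIntegral_any b)
          (Divisor.pushforwardAlong a (isIntegral_any a) D)
        = Divisor.pushforwardAlong a₂ (isIntegral_any a₂)
          (Divisor.pullbackAlong b₂ (isIntegral_any b₂) D) := by
  subst hN₁ hN₂
  exact square_alpha hℓ hℓm hM a b a₂ b₂ ha hb ha₂ hb₂

/-- The `beta` square with arbitrary names for the four levels. -/
theorem square_beta' {N N₁ N₂ M m ℓ : ℕ} [NeZero N] [NeZero N₁] [NeZero N₂] [NeZero M]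
    [NeZero m] [NeZero ℓ] (hℓ : ℓ.Prime) (hℓm : ¬ ℓ ∣ m)
    (hN₁ : N * ℓ = N₁) (hN₂ : N * m = N₂) (hM : N * m * ℓ = M)
    (a : FN N →ₐ[Kbar] FN N₁) (b : FN N →ₐ[Kbar] FN N₂)
    (a₂ : FN N₂ →ₐ[Kbar] FN M) (b₂ : FN N₁ →ₐ[Kbar] FN M)
    (ha : ∀ x, ((a x : FN N₁) : LaurentSeries Kbar) = qExpand Kbar ℓ (x : LaurentSeries Kbar))
    (hb : ∀ x, ((b x : FN N₂) : LaurentSeries Kbar) = (x : LaurentSeries Kbar))
    (ha₂ : ∀ x, ((a₂ x : FN M) : LaurentSeries Kbar) = qExpand Kbar ℓ (x : LaurentSeries Kbar))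
    (hb₂ : ∀ x, ((b₂ x : FN M) : LaurentSeries Kbar) = (x : LaurentSeries Kbar)) :
    (∀ y : FN N₁, Fermat.Agent.S29.helper8217.normAlong a₂ (b₂ y)
        = b (Fermat.Agent.S29.helper8217.normAlong a y)) ∧
    ∀ D : Divisor Kbar (FN N₁),
      Divisor.pullbackAlong b (isIntegral_any b)
          (Divisor.pushforwardAlong a (isIntegral_any a) D)
        = Divisor.pushforwardAlong a₂ (isIntegral_any a₂)
          (Divisor.pullbackAlong b₂ (isIntegral_any b₂) D) := by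
  subst hN₁ hN₂
  exact square_beta hℓ hℓm hM a b a₂ b₂ ha hb ha₂ hb₂

/-- **`N_α` commutes with the level change**: for a prime `ℓ ∤ m`, the norm along the Prelude
degeneracy map `heckeAlphaBar` (the inclusion `F_N ⊆ F_{Nℓ}`) commutes with the inclusions into
the levels `N m`, `N m ℓ`; divisor form `incl^* ∘ α_* = α_* ∘ incl^*`. -/
theorem heckeAlpha_square {N m ℓ : ℕ} [NeZero N] [NeZero m] [NeZero ℓ]
    (hℓ : ℓ.Prime) (hℓm : ¬ ℓ ∣ m) (h₁ : N ∣ N * m) (h₂ : N * ℓ ∣ N * m * ℓ) :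
    (∀ y : FN (N * ℓ),
      Fermat.Agent.S29.helper8217.normAlong (heckeAlphaBar Kbar (N * m) ℓ) (incl h₂ y)
        = incl h₁ (Fermat.Agent.S29.helper8217.normAlong (heckeAlphaBar Kbar N ℓ) y)) ∧
    ∀ D : Divisor Kbar (FN (N * ℓ)),
      Divisor.pullbackAlong (incl h₁) (isIntegral_any _)
          (Divisor.pushforwardAlong (heckeAlphaBar Kbar N ℓ) (isIntegral_any _) D)
        = Divisor.pushforwardAlong (heckeAlphaBar Kbar (N * m) ℓ) (isIntegral_any _)
          (Divisor.pullbackAlong (incl h₂) (isIntegral_any _) D) :=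
  square_alpha hℓ hℓm rfl (heckeAlphaBar Kbar N ℓ) (incl h₁) (heckeAlphaBar Kbar (N * m) ℓ)
    (incl h₂) (fun x => coe_heckeAlphaBar N ℓ x) (fun x => coe_incl h₁ x)
    (fun x => coe_heckeAlphaBar (N * m) ℓ x) (fun x => coe_incl h₂ x)

/-- **`N_β` commutes with the level change**: for a prime `ℓ ∤ m`, the norm along the Prelude
degeneracy map `heckeBetaBar` (`f(q) ↦ f(q^ℓ)`, `F_N → F_{Nℓ}`) commutes with the inclusions
into the levels `N m`, `N m ℓ`; divisor form `incl^* ∘ β_* = β_* ∘ incl^*`. -/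
theorem heckeBeta_square {N m ℓ : ℕ} [NeZero N] [NeZero m] [NeZero ℓ]
    (hℓ : ℓ.Prime) (hℓm : ¬ ℓ ∣ m) (h₁ : N ∣ N * m) (h₂ : N * ℓ ∣ N * m * ℓ) :
    (∀ y : FN (N * ℓ),
      Fermat.Agent.S29.helper8217.normAlong (heckeBetaBar Kbar (N * m) ℓ) (incl h₂ y)
        = incl h₁ (Fermat.Agent.S29.helper8217.normAlong (heckeBetaBar Kbar N ℓ) y)) ∧
    ∀ D : Divisor Kbar (FN (N * ℓ)),
      Divisor.pullbackAlong (incl h₁) (isIntegral_any _)
          (Divisor.pushforwardAlong (heckeBetaBar Kbar N ℓ) (isIntegral_any _) D)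
        = Divisor.pushforwardAlong (heckeBetaBar Kbar (N * m) ℓ) (isIntegral_any _)
          (Divisor.pullbackAlong (incl h₂) (isIntegral_any _) D) :=
  square_beta hℓ hℓm rfl (heckeBetaBar Kbar N ℓ) (incl h₁) (heckeBetaBar Kbar (N * m) ℓ)
    (incl h₂) (fun x => coe_heckeBetaBar N ℓ x) (fun x => coe_incl h₁ x)
    (fun x => coe_heckeBetaBar (N * m) ℓ x) (fun x => coe_incl h₂ x)

end Hecke

end

end Fermat.Agent.S36.helper2882
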