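/-
S36-F1L-INST, part (A) (helper3082): the degree-`q` equation of `T = j(t^(q²)) - j(t)` over the
ring `ℤ[j(t), j(t^q)]`, at the level of integral `q`-expansions.

`q` prime, `J = jqModC ℤ`, `Jq = J(t^q)`, `Jqq = J(t^(q²))`, `T = Jqq - J`, `u = J - Jq^q`.
From the modular polynomial `Φ` of level `q` (S28 `Stmt_FormalPrime`: root formula
`Φ(X, Jq) = (X - Jqq) * ∏_{b<q} (X - J(ω^b t))` over fields with a primitive `q`-th root `ω`):

* `Q(X) := Φ(X + J, Jq) / X` is monic of degree `q` with coefficients in `ℤ[J, Jq]`, `Q(T) = 0`;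
* `Q = X^q + u X^(q-1) + q G` with `G ∈ ℤ((t))[X]` of degree `≤ q - 1` (Kronecker congruence);
* `G(0) ≡ (J̄ - J̄(t^(q²))) * (θ J̄)^(q-1)` modulo `q`  (`∏_{b=1}^{q-1} (1 - ω^b) = q`).

So `T^(q-1) (T + u) + q G(T) = 0` with `u`, `G(0)` Gauss units: the hypotheses of the abstract
two-extension lemma (design F1-lite, findings #3185).  No root of unity occurs in a statement.
-/
import Mathlib
import Fermat.Prelude.Def_ModularCurve_X0ModL
import Fermat.Prelude.Thm_ModularCurve_coeffMap_qExpand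
import Fermat.Prelude.Thm_ModularCurve_coeff_jqModC_neg_one
import Fermat.Agent.S28.helper328_PrimeSpec
import Fermat.Agent.Lib.helper9242_LaurentTheta
import Fermat.Agent.Lib.helper54_Frobenius
import Fermat.Agent.S37.helper5666_KroneckerVal

set_option autoImplicit false

open ModularCurve Polynomial

namespace Fermat.Agent.S36.helper3082

open Fermat.Agent.S28.helper328 (twist Jsub evalJ Stmt_FormalPrime)
open Fermat.Agent.Lib.helper9242 (thetaFun)

noncomputable section

/-! ## 1. The difference quotient `(x(ζ t) - x(t)) / (ζ - 1)` -/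

section TwistQuot

variable {R : Type*} [CommRing R]

/-- `(ζ^n - 1) / (ζ - 1)` for `n : ℤ`, as an element of `R`. -/
def geomZ (ζ : Rˣ) (n : ℤ) : R :=
  if 0 ≤ n then ∑ i ∈ Finset.range n.toNat, (ζ : R) ^ i
  else -(((ζ ^ n : Rˣ) : R) * ∑ i ∈ Finset.range (-n).toNat, (ζ : R) ^ i)

theorem sub_one_mul_geomZ (ζ : Rˣ) (n : ℤ) :
    ((ζ : R) - 1) * geomZ ζ n = ((ζ ^ n : Rˣ) : R) - 1 := by
  unfold geomZ
  split_ifs with h
  · lift n to ℕ using h
    rw [Int.toNat_natCast, mul_comm, geom_sum_mul, zpow_natCast, Units.val_pow_eq_pow_val]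
  · have hn : 0 ≤ -n := by omega
    obtain ⟨m, hm⟩ := Int.eq_ofNat_of_zero_le hn
    rw [hm, Int.toNat_natCast]
    have h1 : ((ζ : R) - 1) * ∑ i ∈ Finset.range m, (ζ : R) ^ i = (ζ : R) ^ m - 1 := by
      rw [mul_comm, geom_sum_mul]
    have h2 : ((ζ ^ n : Rˣ) : R) * (ζ : R) ^ m = 1 := by
      rw [← Units.val_pow_eq_pow_val, ← Units.val_mul, ← zpow_natCast, ← zpow_add, ← hm]
      simp
    calc ((ζ : R) - 1) * -(((ζ ^ n : Rˣ) : R) * ∑ i ∈ Finset.range m, (ζ : R) ^ i)
        = -(((ζ ^ n : Rˣ) : R) * (((ζ : R) - 1) * ∑ i ∈ Finset.range m, (ζ : R) ^ i)) := by ring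
      _ = -(((ζ ^ n : Rˣ) : R) * ((ζ : R) ^ m - 1)) := by rw [h1]
      _ = ((ζ ^ n : Rˣ) : R) - ((ζ ^ n : Rˣ) : R) * (ζ : R) ^ m := by ring
      _ = ((ζ ^ n : Rˣ) : R) - 1 := by rw [h2]

theorem map_geomZ {k : Type*} [CommRing k] (φ : R →+* k) (ζ : Rˣ) (hφ : φ (ζ : R) = 1) (n : ℤ) :
    φ (geomZ ζ n) = (n : k) := by
  have hz : ∀ m : ℤ, φ ((ζ ^ m : Rˣ) : R) = 1 := by
    intro m
    have h1 : Units.map (φ : R →* k) ζ = 1 := Units.ext (by simpa using hφ)
    have h2 : φ ((ζ ^ m : Rˣ) : R) = ((Units.map (φ : R →* k) ζ ^ m : kˣ) : k) := by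
      rw [← map_zpow]; rfl
    rw [h2, h1, one_zpow, Units.val_one]
  unfold geomZ
  split_ifs with h
  · lift n to ℕ using h
    simp [hφ]
  · have hn : 0 ≤ -n := by omega
    obtain ⟨m, hm⟩ := Int.eq_ofNat_of_zero_le hn
    rw [hm, Int.toNat_natCast, map_neg, map_mul, hz, one_mul, map_sum]
    simp only [map_pow, hφ, one_pow, Finset.sum_const, Finset.card_range, nsmul_eq_mul, mul_one]
    have : (n : k) = -((m : ℤ) : k) := by rw [← hm]; push_cast; ring
    rw [this]; simp

/-- The series `(x(ζ t) - x(t)) / (ζ - 1)`. -/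
def twistQuot (ζ : Rˣ) (x : LaurentSeries R) : LaurentSeries R where
  coeff n := geomZ ζ n * x.coeff n
  isPWO_support' := x.isPWO_support.mono (fun n hn => by
    simp only [Function.mem_support, ne_eq] at hn ⊢
    exact fun h => hn (by rw [h, mul_zero]))

@[simp] theorem twistQuot_coeff (ζ : Rˣ) (x : LaurentSeries R) (n : ℤ) :
    (twistQuot ζ x).coeff n = geomZ ζ n * x.coeff n := rfl

theorem coeff_C_mul' (c : R) (x : LaurentSeries R) (n : ℤ) :
    (HahnSeries.C c * x).coeff n = c * x.coeff n := by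
  rw [HahnSeries.C_mul_eq_smul, HahnSeries.coeff_smul, smul_eq_mul]

/-- `x(ζ t) - x(t) = (ζ - 1) * twistQuot ζ x`. -/
theorem twist_sub_self (ζ : Rˣ) (x : LaurentSeries R) :
    twist ζ x - x = HahnSeries.C ((ζ : R) - 1) * twistQuot ζ x := by
  ext n
  rw [HahnSeries.coeff_sub, Fermat.Agent.S28.helper328.twist_coeff, coeff_C_mul', twistQuot_coeff,
    ← mul_assoc, sub_one_mul_geomZ]
  ring

/-- If `ζ ≡ 1` then `twistQuot ζ x ≡ θ x`. -/
theorem coeffMap_twistQuot {k : Type*} [CommRing k] (φ : R →+* k) (ζ : Rˣ) (hφ : φ (ζ : R) = 1)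
    (x : LaurentSeries R) :
    coeffMap φ (twistQuot ζ x) = thetaFun k (coeffMap φ x) := by
  ext n
  rw [coeffMap_coeff, twistQuot_coeff, map_mul, map_geomZ φ ζ hφ,
    Fermat.Agent.Lib.helper9242.thetaFun_coeff, coeffMap_coeff]

theorem coeffMap_twist {S : Type*} [CommRing S] (f : R →+* S) (ζ : Rˣ) (x : LaurentSeries R) :
    coeffMap f (twist ζ x) = twist (Units.map (f : R →* S) ζ) (coeffMap f x) := by
  ext n
  rw [coeffMap_coeff, Fermat.Agent.S28.helper328.twist_coeff,
    Fermat.Agent.S28.helper328.twist_coeff, coeffMap_coeff, map_mul, ← map_zpow]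
  rfl

theorem twist_one' (x : LaurentSeries R) : twist (1 : Rˣ) x = x := by
  ext n
  simp

theorem coeffMap_thetaFun {S : Type*} [CommRing S] (f : R →+* S) (x : LaurentSeries R) :
    coeffMap f (thetaFun R x) = thetaFun S (coeffMap f x) := by
  ext n
  simp [Fermat.Agent.Lib.helper9242.thetaFun_coeff]

end TwistQuot

/-! ## 2. Auxiliary algebra -/

section Aux

/-- `∏_{k=1}^{n} (1 - ζ^k) = n + 1` for a primitive `(n+1)`-th root of unity `ζ`. -/
theorem prod_one_sub_pow {R : Type*} [CommRing R] [IsDomain R] {n : ℕ} {ζ : R}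
    (hζ : IsPrimitiveRoot ζ (n + 1)) :
    ∏ k ∈ Finset.range n, (1 - ζ ^ (k + 1)) = (n : R) + 1 := by
  have h1 := X_pow_sub_C_eq_prod hζ (Nat.succ_pos n) (one_pow (n + 1) : (1 : R) ^ (n + 1) = 1)
  rw [Finset.prod_range_succ'] at h1
  have h2 : (X : R[X]) ^ (n + 1) - C 1 =
      (∑ i ∈ Finset.range (n + 1), (X : R[X]) ^ i) * (X - C 1) := by
    rw [map_one, geom_sum_mul]
  rw [h2] at h1
  simp only [pow_zero, mul_one] at h1
  have h3 := mul_right_cancel₀ (X_sub_C_ne_zero (1 : R)) h1
  have h4 := congrArg (Polynomial.eval 1) h3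
  simp only [Polynomial.eval_finsetSum, Polynomial.eval_prod, eval_pow, eval_X, one_pow,
    Finset.sum_const, Finset.card_range, nsmul_eq_mul, mul_one, eval_sub, eval_C] at h4
  rw [← h4]
  push_cast
  ring

/-- Coefficientwise division of an integral series by an integer. -/
def divInt (q : ℤ) (x : LaurentSeries ℤ) : LaurentSeries ℤ where
  coeff n := x.coeff n / q
  isPWO_support' := x.isPWO_support.mono (fun n hn => by
    simp only [Function.mem_support, ne_eq] at hn ⊢
    exact fun h => hn (by rw [h, Int.zero_ediv]))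

theorem C_mul_divInt (q : ℤ) (x : LaurentSeries ℤ) (h : ∀ n, q ∣ x.coeff n) :
    HahnSeries.C q * divInt q x = x := by
  ext n
  rw [coeff_C_mul']
  exact Int.mul_ediv_cancel' (h n)

theorem dvd_coeff_of_coeffMap_eq_zero (k : Type*) [CommRing k] (q : ℕ) [CharP k q]
    (x : LaurentSeries ℤ) (h : coeffMap (Int.castRingHom k) x = 0) (n : ℤ) :
    (q : ℤ) ∣ x.coeff n := by
  have h1 := congrArg (fun y => y.coeff n) h
  simp only [coeffMap_coeff, HahnSeries.coeff_zero] at h1
  exact (CharP.intCast_eq_zero_iff k q _).mp h1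

theorem ringHom_comp_evalJ' {R S : Type*} [CommRing R] [CommRing S]
    (g : LaurentSeries R →+* LaurentSeries S) (a : LaurentSeries R) :
    g.comp (evalJ a) = evalJ (g a) := by
  apply Polynomial.ringHom_ext
  · intro n
    simp [evalJ]
  · simp [evalJ]

theorem coeffMap_injective' {R S : Type*} [CommRing R] [CommRing S] (f : R →+* S)
    (hf : Function.Injective f) : Function.Injective (coeffMap f) := by
  intro x y h
  ext n
  have h1 := congrArg (fun z => z.coeff n) h
  simp only [coeffMap_coeff] at h1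
  exact hf h1

end Aux

/-! ## 3. The middle polynomial `(X - J(t^(q²))) * ∏_{b=1}^{q-1} (X - J(ω^b t))` -/

section MidPoly

variable (q : ℕ) [NeZero q]

/-- `(X - J(t^(q²))) * ∏_{b=1}^{q-1} (X - J(ω^b t))` over `A((t))`. -/
def midPoly (A : Type*) [CommRing A] (ω : Aˣ) : Polynomial (LaurentSeries A) :=
  (X - C (qExpand A (q * q) (jqModC A))) *
    ∏ b ∈ Finset.range (q - 1), (X - C (twist (ω ^ (b + 1)) (jqModC A)))

theorem midPoly_monic (A : Type*) [CommRing A] (ω : Aˣ) : (midPoly q A ω).Monic :=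
  (monic_X_sub_C _).mul (monic_prod_of_monic _ _ fun _ _ => monic_X_sub_C _)

theorem midPoly_natDegree (A : Type*) [CommRing A] [Nontrivial A] (ω : Aˣ) :
    (midPoly q A ω).natDegree = q := by
  rw [midPoly, Monic.natDegree_mul (monic_X_sub_C _)
    (monic_prod_of_monic _ _ fun _ _ => monic_X_sub_C _), natDegree_X_sub_C,
    natDegree_prod_of_monic _ _ fun _ _ => monic_X_sub_C _]
  simp only [natDegree_X_sub_C, Finset.sum_const, Finset.card_range, smul_eq_mul, mul_one]
  have := Nat.pos_of_ne_zero (NeZero.ne q)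
  omega

theorem map_midPoly {A B : Type*} [CommRing A] [CommRing B] (f : A →+* B) (ω : Aˣ) :
    (midPoly q A ω).map (coeffMap f) = midPoly q B (Units.map (f : A →* B) ω) := by
  rw [midPoly, midPoly, Polynomial.map_mul, Polynomial.map_sub, map_X, map_C, coeffMap_qExpand,
    coeffMap_jqModC, Polynomial.map_prod]
  congr 1
  refine Finset.prod_congr rfl fun b _ => ?_
  rw [Polynomial.map_sub, map_X, map_C, coeffMap_twist, coeffMap_jqModC, map_pow]

theorem midPoly_one (B : Type*) [CommRing B] :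
    midPoly q B 1 = (X - C (qExpand B (q * q) (jqModC B))) * (X - C (jqModC B)) ^ (q - 1) := by
  rw [midPoly]
  congr 1
  rw [Finset.prod_congr rfl (fun b _ => by rw [one_pow, twist_one']), Finset.prod_const,
    Finset.card_range]

theorem midPoly_eval_qq (A : Type*) [CommRing A] (ω : Aˣ) :
    (midPoly q A ω).eval (qExpand A (q * q) (jqModC A)) = 0 := by
  rw [midPoly, eval_mul, eval_sub, eval_X, eval_C, sub_self, zero_mul]

/-- The value at `J`: `(J - J(t^(q²))) * ∏_{b=1}^{q-1} (1 - ω^b) * ∏_b twistQuot (ω^b) J`. -/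
theorem midPoly_eval_j (A : Type*) [CommRing A] (ω : Aˣ) :
    (midPoly q A ω).eval (jqModC A) =
      HahnSeries.C (∏ b ∈ Finset.range (q - 1), (1 - (ω : A) ^ (b + 1))) *
        ((jqModC A - qExpand A (q * q) (jqModC A)) *
          ∏ b ∈ Finset.range (q - 1), twistQuot (ω ^ (b + 1)) (jqModC A)) := by
  have h : ∀ b : ℕ, jqModC A - twist (ω ^ (b + 1)) (jqModC A) =
      HahnSeries.C (1 - (ω : A) ^ (b + 1)) * twistQuot (ω ^ (b + 1)) (jqModC A) := by
    intro b
    have h1 := twist_sub_self (ω ^ (b + 1)) (jqModC A)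
    rw [Units.val_pow_eq_pow_val] at h1
    have h2 : (HahnSeries.C (1 - (ω : A) ^ (b + 1)) : LaurentSeries A) =
        -HahnSeries.C ((ω : A) ^ (b + 1) - 1) := by
      rw [← map_neg]; congr 1; ring
    rw [h2, neg_mul, ← h1]
    ring
  rw [midPoly, eval_mul, eval_sub, eval_X, eval_C, eval_prod]
  simp only [eval_sub, eval_X, eval_C]
  rw [Finset.prod_congr rfl (fun b _ => h b), Finset.prod_mul_distrib, map_prod]
  ring

end MidPoly

/-! ## 4. The modular polynomial at `J(t^q)` -/

section Root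

variable (q : ℕ) [hq : Fact q.Prime]

/-- The root formula of the S28 prime-level data (the last clause of `Stmt_FormalPrime`). -/
def RootFormula (Φ : Polynomial (Polynomial ℤ)) : Prop :=
  ∀ (k : Type) [Field k] (ω : kˣ), IsPrimitiveRoot ω q → ∀ (ξ : kˣ) (m : ℕ+),
    Φ.map (evalJ (Jsub k (ξ ^ q) (⟨q, hq.out.pos⟩ * m))) =
      (X - C (Jsub k (ξ ^ (q ^ 2)) (⟨q, hq.out.pos⟩ ^ 2 * m))) *
        ∏ b ∈ Finset.range q, (X - C (Jsub k (ω ^ b * ξ) m))

theorem exists_rootFormula (h : Stmt_FormalPrime q) :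
    ∃ Φ : Polynomial (Polynomial ℤ), RootFormula q Φ := by
  obtain ⟨Φ, G, T, Ψ, -, -, -, -, -, -, -, hroot⟩ := h
  exact ⟨Φ, hroot⟩

variable {q}

/-- `Φ(X, J(t^q)) = (X - J) * midPoly` over a field with a primitive `q`-th root of unity. -/
theorem root_formula_field {Φ : Polynomial (Polynomial ℤ)} (hroot : RootFormula q Φ)
    (k : Type) [Field k] (ω : kˣ) (hω : IsPrimitiveRoot ω q) :
    Φ.map (evalJ (qExpand k q (jqModC k))) = (X - C (jqModC k)) * midPoly q k ω := by
  have key := hroot k ω hω 1 1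
  have gen1 : ∀ (n : ℕ+) (_ : (n : ℕ) = q) (ζ : kˣ),
      Jsub k ζ (n * 1) = qExpand k q (twist ζ (jqModC k)) := by
    intro n hn ζ
    rw [Jsub]
    exact qExpand_congr (by rw [PNat.mul_coe, PNat.one_coe, mul_one, hn]) _
  have gen2 : ∀ (n : ℕ+) (_ : (n : ℕ) = q) (ζ : kˣ),
      Jsub k ζ (n ^ 2 * 1) = qExpand k (q * q) (twist ζ (jqModC k)) := by
    intro n hn ζ
    rw [Jsub]
    exact qExpand_congr (by rw [PNat.mul_coe, PNat.pow_coe, PNat.one_coe, mul_one, pow_two, hn]) _
  have e1 : Jsub k (1 ^ q) (⟨q, hq.out.pos⟩ * 1) = qExpand k q (jqModC k) := by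
    rw [gen1 ⟨q, hq.out.pos⟩ rfl, one_pow, twist_one']
  have e2 : Jsub k (1 ^ q ^ 2) (⟨q, hq.out.pos⟩ ^ 2 * 1) = qExpand k (q * q) (jqModC k) := by
    rw [gen2 ⟨q, hq.out.pos⟩ rfl, one_pow, twist_one']
  have e3 : ∀ b : ℕ, Jsub k (ω ^ b * 1) 1 = twist (ω ^ b) (jqModC k) := by
    intro b
    rw [Jsub, mul_one]
    exact qExpand_one_apply _
  have hsplit : ∀ f : ℕ → Polynomial (LaurentSeries k),
      ∏ b ∈ Finset.range q, f b = f 0 * ∏ b ∈ Finset.range (q - 1), f (b + 1) := by
    intro f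
    have : Finset.range q = Finset.range (q - 1 + 1) := by
      rw [Nat.sub_add_cancel hq.out.one_le]
    rw [this, Finset.prod_range_succ', mul_comm]
  rw [e1, e2] at key
  rw [key, midPoly, Finset.prod_congr rfl (fun b _ => by rw [e3 b]), hsplit, pow_zero, twist_one']
  ring

/-- Transfer of the root formula to a ring `A` embedded in such a field. -/
theorem root_formula_of_injective {Φ : Polynomial (Polynomial ℤ)} (hroot : RootFormula q Φ)
    {A : Type*} [CommRing A] (k : Type) [Field k] (f : A →+* k) (hf : Function.Injective f)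
    (ω : Aˣ) (hω : IsPrimitiveRoot (Units.map (f : A →* k) ω) q) :
    Φ.map (evalJ (qExpand A q (jqModC A))) = (X - C (jqModC A)) * midPoly q A ω := by
  apply Polynomial.map_injective (coeffMap f) (coeffMap_injective' f hf)
  rw [Polynomial.map_map, ringHom_comp_evalJ', coeffMap_qExpand, coeffMap_jqModC,
    root_formula_field hroot k _ hω, Polynomial.map_mul, Polynomial.map_sub, map_X, map_C,
    coeffMap_jqModC, map_midPoly]

end Root

/-! ## 5. The equation of `T = J(t^(q²)) - J(t)` -/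

section Main

/-- Division by `X - a` and translation by `a` preserve "coefficients in a subring". -/
theorem coeff_divByMonic_comp_mem {R : Type*} [CommRing R] (S : Subring R) (P : R[X])
    (hP : ∀ n, P.coeff n ∈ S) (a : R) (ha : a ∈ S) (n : ℕ) :
    ((P /ₘ (X - C a)).comp (X + C a)).coeff n ∈ S := by
  have hlift : P ∈ Polynomial.lifts S.subtype := by
    rw [Polynomial.lifts_iff_coeff_lifts]
    exact fun m => ⟨⟨P.coeff m, hP m⟩, rfl⟩
  obtain ⟨P', rfl⟩ := (Polynomial.mem_lifts P).mp hlift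
  have h1 : (X - C a : R[X]) = (X - C (⟨a, ha⟩ : S)).map S.subtype := by
    rw [Polynomial.map_sub, map_X, map_C]; rfl
  have h2 : (X + C a : R[X]) = (X + C (⟨a, ha⟩ : S)).map S.subtype := by
    rw [Polynomial.map_add, map_X, map_C]; rfl
  rw [h1, ← Polynomial.map_divByMonic S.subtype (monic_X_sub_C _), h2, ← Polynomial.map_comp,
    coeff_map]
  exact Subtype.property _

theorem evalJ_mem {R : Type*} [CommRing R] (S : Subring (LaurentSeries R)) (a : LaurentSeries R)
    (ha : a ∈ S) (p : Polynomial ℤ) : evalJ a p ∈ S := by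
  show Polynomial.eval₂ (Int.castRingHom (LaurentSeries R)) a p ∈ S
  rw [Polynomial.eval₂_eq_sum_range]
  exact Subring.sum_mem _ fun i _ => Subring.mul_mem _ (intCast_mem S _) (Subring.pow_mem _ ha _)

variable (q : ℕ) [hq : Fact q.Prime]

/-- The subring `ℤ[J(t), J(t^q)]` of `ℤ((t))`. -/
def jRing : Subring (LaurentSeries ℤ) :=
  Subring.closure {jqModC ℤ, qExpand ℤ q (jqModC ℤ)}

theorem j_mem_jRing : jqModC ℤ ∈ jRing q := Subring.subset_closure (Set.mem_insert _ _)

theorem jq_mem_jRing : qExpand ℤ q (jqModC ℤ) ∈ jRing q :=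
  Subring.subset_closure (Set.mem_insert_of_mem _ rfl)

/-- A valuation subring of `ℚ̄` over `q` with a primitive `q`-th root of unity `ω ≡ 1`. -/
theorem exists_setup :
    ∃ (O : ValuationSubring (AlgebraicClosure ℚ)) (ω : Oˣ),
      CharP (IsLocalRing.ResidueField O) q ∧ IsPrimitiveRoot (ω : O) q ∧
      IsPrimitiveRoot (Units.map ((O.subtype : O →+* AlgebraicClosure ℚ) :
        O →* AlgebraicClosure ℚ) ω) q ∧
      IsLocalRing.residue O (ω : O) = 1 := by
  obtain ⟨O, hO⟩ := Fermat.Agent.Lib.helper54.exists_liesOverPrime hq.out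
  obtain ⟨ζ, hζ⟩ : ∃ ζ : (AlgebraicClosure ℚ)ˣ, IsPrimitiveRoot ζ q := by
    obtain ⟨z, hz⟩ := HasEnoughRootsOfUnity.exists_primitiveRoot (AlgebraicClosure ℚ) q
    exact ⟨(hz.isUnit (NeZero.ne q)).unit, IsPrimitiveRoot.coe_units_iff.mp hz⟩
  obtain ⟨ω, hω⟩ := Fermat.Agent.S37.helper5666.exists_unit_of_pow_eq_one O ζ q (NeZero.ne q)
    hζ.pow_eq_one
  have hchar : CharP (IsLocalRing.ResidueField O) q := by
    have h0 : ((q : ℕ) : IsLocalRing.ResidueField O) = 0 := by
      obtain ⟨ha, hm⟩ := O.mem_nonunits_iff_exists_mem_maximalIdeal.mp hO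
      have e : ((q : ℕ) : IsLocalRing.ResidueField O) =
          IsLocalRing.residue O (⟨(q : AlgebraicClosure ℚ), ha⟩ : O) := by
        rw [← map_natCast (IsLocalRing.residue O) q]
        congr 1
      rw [e, IsLocalRing.residue_eq_zero_iff]
      exact hm
    exact (CharP.charP_iff_prime_eq_zero hq.out).mpr h0
  have hprim' : IsPrimitiveRoot (Units.map ((O.subtype : O →+* AlgebraicClosure ℚ) :
      O →* AlgebraicClosure ℚ) ω) q := by
    have : Units.map ((O.subtype : O →+* AlgebraicClosure ℚ) : O →* AlgebraicClosure ℚ) ω = ζ :=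
      hω
    rw [this]; exact hζ
  have hprimU : IsPrimitiveRoot ω q :=
    IsPrimitiveRoot.of_map_of_injective hprim' (Units.map_injective Subtype.val_injective)
  have hprim : IsPrimitiveRoot (ω : O) q := IsPrimitiveRoot.coe_units_iff.mpr hprimU
  have := hchar
  have : ExpChar (IsLocalRing.ResidueField O) q := ExpChar.prime hq.out
  exact ⟨O, ω, hchar, hprim, hprim',
    Fermat.Agent.S37.helper5666.map_unit_eq_one_of_pow_eq_one (IsLocalRing.residue O) q ω
      hprimU.pow_eq_one⟩

/-- **The equation of `T = J(t^(q²)) - J(t)` over `ℤ[J, J(t^q)]`** (series level). -/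
theorem exists_midEquation_of_rootFormula {Φ : Polynomial (Polynomial ℤ)}
    (hroot : RootFormula q Φ) :
    ∃ G : Polynomial (LaurentSeries ℤ),
      G.natDegree ≤ q - 1 ∧
      (∀ i, HahnSeries.C (q : ℤ) * G.coeff i ∈ jRing q) ∧
      (qExpand ℤ (q * q) (jqModC ℤ) - jqModC ℤ) ^ (q - 1) *
          ((qExpand ℤ (q * q) (jqModC ℤ) - jqModC ℤ) +
            (jqModC ℤ - qExpand ℤ q (jqModC ℤ) ^ q)) +
        HahnSeries.C (q : ℤ) * G.eval (qExpand ℤ (q * q) (jqModC ℤ) - jqModC ℤ) = 0 ∧
      coeffMap (Int.castRingHom (ZMod q)) (G.coeff 0) =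
        (jqModC (ZMod q) - qExpand (ZMod q) (q * q) (jqModC (ZMod q))) *
          thetaFun (ZMod q) (jqModC (ZMod q)) ^ (q - 1) := by
  classical
  have hq1 : q - 1 + 1 = q := Nat.sub_add_cancel hq.out.one_le
  have hq2 : 2 ≤ q := hq.out.two_le
  obtain ⟨O, ω, hchar, hprim, hprim', hres⟩ := exists_setup q
  have : ExpChar (IsLocalRing.ResidueField O) q := ExpChar.prime hq.out
  have hPO := root_formula_of_injective hroot (AlgebraicClosure ℚ) O.subtype
    Subtype.val_injective ω hprim'
  -- the three coefficient maps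
  have hcO : Function.Injective (coeffMap (Int.castRingHom O)) :=
    coeffMap_injective' _ (RingHom.injective_int (Int.castRingHom O))
  have hck : ∀ x : LaurentSeries ℤ, coeffMap (IsLocalRing.residue O) (coeffMap (Int.castRingHom O) x)
      = coeffMap (Int.castRingHom (IsLocalRing.ResidueField O)) x := fun x => by
    rw [coeffMap_coeffMap]; exact coeffMap_congr (RingHom.ext_int _ _) x
  have hckP : ∀ p : Polynomial (LaurentSeries ℤ),
      (p.map (coeffMap (Int.castRingHom O))).map (coeffMap (IsLocalRing.residue O)) =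
        p.map (coeffMap (Int.castRingHom (IsLocalRing.ResidueField O))) := fun p => by
    rw [Polynomial.map_map]
    exact congrArg (fun f => p.map f) (RingHom.ext hck)
  -- the integral polynomials
  have hPmap : (Φ.map (evalJ (qExpand ℤ q (jqModC ℤ)))).map (coeffMap (Int.castRingHom O)) =
      (X - C (jqModC O)) * midPoly q O ω := by
    rw [Polynomial.map_map, ringHom_comp_evalJ', coeffMap_qExpand, coeffMap_jqModC]
    exact hPO
  have hrootJ : (Φ.map (evalJ (qExpand ℤ q (jqModC ℤ)))).IsRoot (jqModC ℤ) := by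
    apply hcO
    rw [map_zero, ← Polynomial.eval_map_apply, hPmap, coeffMap_jqModC, eval_mul, eval_sub, eval_X,
      eval_C, sub_self, zero_mul]
  have hPM := Polynomial.mul_divByMonic_eq_iff_isRoot.mpr hrootJ
  have hMmap : ((Φ.map (evalJ (qExpand ℤ q (jqModC ℤ)))) /ₘ (X - C (jqModC ℤ))).map
      (coeffMap (Int.castRingHom O)) = midPoly q O ω := by
    have h1 : (X - C (jqModC O)) * ((Φ.map (evalJ (qExpand ℤ q (jqModC ℤ)))) /ₘ
        (X - C (jqModC ℤ))).map (coeffMap (Int.castRingHom O)) =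
        (X - C (jqModC O)) * midPoly q O ω := by
      rw [← hPmap]
      conv_rhs => rw [← hPM]
      rw [Polynomial.map_mul, Polynomial.map_sub, map_X, map_C, coeffMap_jqModC]
    exact mul_left_cancel₀ (X_sub_C_ne_zero _) h1
  generalize hM : (Φ.map (evalJ (qExpand ℤ q (jqModC ℤ)))) /ₘ (X - C (jqModC ℤ)) = M at hMmap hPM
  have hMcoeff : ∀ n, (M.comp (X + C (jqModC ℤ))).coeff n ∈ jRing q := by
    intro n
    rw [← hM]
    refine coeff_divByMonic_comp_mem (jRing q) _ (fun m => ?_) _ (j_mem_jRing q) n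
    rw [coeff_map]
    exact evalJ_mem _ _ (jq_mem_jRing q) _
  have hMmonic : M.Monic := monic_of_injective hcO (by rw [hMmap]; exact midPoly_monic q O ω)
  have hMdeg : M.natDegree = q := by
    rw [← natDegree_map_eq_of_injective hcO, hMmap, midPoly_natDegree]
  have hQmonic : (M.comp (X + C (jqModC ℤ))).Monic :=
    hMmonic.comp (monic_X_add_C _) (by rw [natDegree_X_add_C]; exact one_ne_zero)
  have hQdeg : (M.comp (X + C (jqModC ℤ))).natDegree = q := by
    rw [natDegree_comp, hMdeg, natDegree_X_add_C, mul_one]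
  have hQT : (M.comp (X + C (jqModC ℤ))).eval (qExpand ℤ (q * q) (jqModC ℤ) - jqModC ℤ) = 0 := by
    rw [eval_comp, eval_add, eval_X, eval_C, sub_add_cancel]
    apply hcO
    rw [map_zero, ← Polynomial.eval_map_apply, hMmap, coeffMap_qExpand, coeffMap_jqModC]
    exact midPoly_eval_qq q O ω
  -- reduction modulo `q`
  have hUone : Units.map ((IsLocalRing.residue O : O →+* IsLocalRing.ResidueField O) :
      O →* IsLocalRing.ResidueField O) ω = 1 := Units.ext (by simpa using hres)
  have hMk : M.map (coeffMap (Int.castRingHom (IsLocalRing.ResidueField O))) =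
      (X - C (qExpand (IsLocalRing.ResidueField O) (q * q) (jqModC (IsLocalRing.ResidueField O))))
        * (X - C (jqModC (IsLocalRing.ResidueField O))) ^ (q - 1) := by
    rw [← hckP, hMmap, map_midPoly, hUone, midPoly_one]
  have hFrob : qExpand (IsLocalRing.ResidueField O) q (jqModC (IsLocalRing.ResidueField O)) ^ q =
      qExpand (IsLocalRing.ResidueField O) (q * q) (jqModC (IsLocalRing.ResidueField O)) := by
    rw [Fermat.Agent.S37.helper5666.pow_expChar_eq_qExpand (IsLocalRing.ResidueField O) q,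
      coeffMap_qExpand, coeffMap_jqModC, qExpand_qExpand]
  have hDk : (M.comp (X + C (jqModC ℤ)) - X ^ q -
      C (jqModC ℤ - qExpand ℤ q (jqModC ℤ) ^ q) * X ^ (q - 1)).map
        (coeffMap (Int.castRingHom (IsLocalRing.ResidueField O))) = 0 := by
    rw [Polynomial.map_sub, Polynomial.map_sub, Polynomial.map_comp, hMk, Polynomial.map_add, map_X,
      map_C, Polynomial.map_pow, map_X, Polynomial.map_mul, map_C, Polynomial.map_pow, map_X,
      map_sub, map_pow, coeffMap_qExpand, coeffMap_jqModC, hFrob]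
    simp only [mul_comp, sub_comp, pow_comp, X_comp, C_comp, add_sub_cancel_right]
    have hX : (X : Polynomial (LaurentSeries (IsLocalRing.ResidueField O))) ^ q =
        X * X ^ (q - 1) := by rw [← pow_succ', hq1]
    rw [hX, map_sub]
    ring
  generalize hD : M.comp (X + C (jqModC ℤ)) - X ^ q -
      C (jqModC ℤ - qExpand ℤ q (jqModC ℤ) ^ q) * X ^ (q - 1) = D at hDk
  have hdvd : ∀ i n, (q : ℤ) ∣ (D.coeff i).coeff n := fun i n =>
    dvd_coeff_of_coeffMap_eq_zero (IsLocalRing.ResidueField O) q _ (by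
      have h1 := congrArg (fun p => p.coeff i) hDk
      simpa [coeff_map] using h1) n
  have hDhigh : ∀ n, q ≤ n → D.coeff n = 0 := by
    intro n hn
    rw [← hD, coeff_sub, coeff_sub, coeff_X_pow, coeff_C_mul_X_pow]
    rcases hn.eq_or_lt with rfl | hlt
    · have h1 : (M.comp (X + C (jqModC ℤ))).coeff q = 1 := by
        have := hQmonic.coeff_natDegree
        rwa [hQdeg] at this
      rw [h1, if_pos rfl, if_neg (by omega)]
      ring
    · rw [coeff_eq_zero_of_natDegree_lt (by rw [hQdeg]; exact hlt), if_neg (by omega),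
        if_neg (by omega)]
      ring
  -- the polynomial `G`
  refine ⟨∑ i ∈ Finset.range q, monomial i (divInt q (D.coeff i)), ?_, ?_, ?_, ?_⟩
  · refine natDegree_sum_le_of_forall_le _ _ fun i hi => (natDegree_monomial_le _).trans ?_
    have := Finset.mem_range.mp hi
    omega
  all_goals
    have hGcoeff : ∀ n, (∑ i ∈ Finset.range q, monomial i (divInt q (D.coeff i))).coeff n =
        if n < q then divInt q (D.coeff n) else 0 := by
      intro n
      simp only [finsetSum_coeff, coeff_monomial]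
      rw [Finset.sum_ite_eq' (Finset.range q) n]
      simp [Finset.mem_range]
    have hCG : ∀ n, HahnSeries.C (q : ℤ) *
        (∑ i ∈ Finset.range q, monomial i (divInt q (D.coeff i))).coeff n = D.coeff n := by
      intro n
      rw [hGcoeff]
      split_ifs with h
      · exact C_mul_divInt _ _ (hdvd n)
      · rw [mul_zero, hDhigh n (not_lt.mp h)]
  · intro i
    rw [hCG, ← hD, coeff_sub, coeff_sub, coeff_X_pow, coeff_C_mul_X_pow]
    refine Subring.sub_mem _ (Subring.sub_mem _ (hMcoeff i) ?_) ?_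
    · split_ifs
      · exact Subring.one_mem _
      · exact Subring.zero_mem _
    · split_ifs
      · exact Subring.sub_mem _ (j_mem_jRing q) (Subring.pow_mem _ (jq_mem_jRing q) _)
      · exact Subring.zero_mem _
  · have hCGp : C (HahnSeries.C (q : ℤ)) *
        (∑ i ∈ Finset.range q, monomial i (divInt q (D.coeff i))) = D := by
      ext n : 1
      rw [coeff_C_mul, hCG]
    have hDT : D.eval (qExpand ℤ (q * q) (jqModC ℤ) - jqModC ℤ) =
        0 - (qExpand ℤ (q * q) (jqModC ℤ) - jqModC ℤ) ^ q -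
          (jqModC ℤ - qExpand ℤ q (jqModC ℤ) ^ q) *
            (qExpand ℤ (q * q) (jqModC ℤ) - jqModC ℤ) ^ (q - 1) := by
      rw [← hD, eval_sub, eval_sub, hQT, eval_pow, eval_X, eval_mul, eval_C, eval_pow, eval_X]
    have h1 := congrArg (Polynomial.eval (qExpand ℤ (q * q) (jqModC ℤ) - jqModC ℤ)) hCGp
    rw [eval_mul, eval_C, hDT] at h1
    rw [h1]
    have hT : (qExpand ℤ (q * q) (jqModC ℤ) - jqModC ℤ) ^ q =
        (qExpand ℤ (q * q) (jqModC ℤ) - jqModC ℤ) ^ (q - 1) *
          (qExpand ℤ (q * q) (jqModC ℤ) - jqModC ℤ) := by rw [← pow_succ, hq1]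
    rw [hT]
    ring
  · -- the constant term
    have h0 : HahnSeries.C (q : ℤ) *
        (∑ i ∈ Finset.range q, monomial i (divInt q (D.coeff i))).coeff 0 = M.eval (jqModC ℤ) := by
      rw [hCG, ← hD, coeff_sub, coeff_sub, coeff_X_pow, coeff_C_mul_X_pow, if_neg (by omega),
        if_neg (by omega), sub_zero, sub_zero, coeff_zero_eq_eval_zero, eval_comp, eval_add, eval_X,
        eval_C, zero_add]
    generalize (∑ i ∈ Finset.range q, monomial i (divInt q (D.coeff i))).coeff 0 = g at h0 ⊢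
    have hprod : ∏ b ∈ Finset.range (q - 1), (1 - (ω : O) ^ (b + 1)) = (q : O) := by
      have h := prod_one_sub_pow (R := O) (n := q - 1) (ζ := (ω : O)) (by rw [hq1]; exact hprim)
      rw [h]
      have : ((q - 1 : ℕ) : O) + 1 = ((q - 1 + 1 : ℕ) : O) := by push_cast; ring
      rw [this, hq1]
    have h1 : HahnSeries.C (q : O) * coeffMap (Int.castRingHom O) g =
        HahnSeries.C (q : O) * ((jqModC O - qExpand O (q * q) (jqModC O)) *
          ∏ b ∈ Finset.range (q - 1), twistQuot (ω ^ (b + 1)) (jqModC O)) := by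
      have h2 := congrArg (coeffMap (Int.castRingHom O)) h0
      rw [map_mul, ← Polynomial.eval_map_apply, hMmap, coeffMap_jqModC, midPoly_eval_j, hprod] at h2
      rw [← h2]
      congr 1
      rw [HahnSeries.C_apply, HahnSeries.C_apply, coeffMap_single]
      simp
    have hCne : (HahnSeries.C (q : O) : LaurentSeries O) ≠ 0 := by
      intro h
      have h3 := congrArg (fun y => y.coeff 0) h
      simp only [HahnSeries.C_apply, HahnSeries.coeff_single_same, HahnSeries.coeff_zero] at h3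
      exact (NeZero.ne q) (by exact_mod_cast h3)
    have h3 := mul_left_cancel₀ hCne h1
    have h4 := congrArg (coeffMap (IsLocalRing.residue O)) h3
    rw [hck, map_mul, map_sub, coeffMap_qExpand, coeffMap_jqModC, map_prod] at h4
    have h5 : ∀ b : ℕ, coeffMap (IsLocalRing.residue O) (twistQuot (ω ^ (b + 1)) (jqModC O)) =
        thetaFun (IsLocalRing.ResidueField O) (jqModC (IsLocalRing.ResidueField O)) := by
      intro b
      rw [coeffMap_twistQuot (IsLocalRing.residue O) (ω ^ (b + 1))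
        (by rw [Units.val_pow_eq_pow_val, map_pow, hres, one_pow]), coeffMap_jqModC]
    rw [Finset.prod_congr rfl (fun b _ => h5 b), Finset.prod_const, Finset.card_range] at h4
    -- descend to `ZMod q`
    have hinj : Function.Injective (coeffMap (ZMod.castHom (dvd_refl q) (IsLocalRing.ResidueField O))) :=
      coeffMap_injective' _ (RingHom.injective _)
    apply hinj
    rw [coeffMap_coeffMap, coeffMap_congr (RingHom.ext_int _ (Int.castRingHom _)) g, h4, map_mul,
      map_sub, coeffMap_qExpand, coeffMap_jqModC, map_pow, coeffMap_thetaFun, coeffMap_jqModC]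

end Main

/-! ## 6. Reductions, nonvanishing and root exclusion -/

section Red

variable (q : ℕ) [hq : Fact q.Prime]

/-- The equation of `T`, from the S28 prime-level statement. -/
theorem exists_midEquation (h : Stmt_FormalPrime q) :
    ∃ G : Polynomial (LaurentSeries ℤ),
      G.natDegree ≤ q - 1 ∧
      (∀ i, HahnSeries.C (q : ℤ) * G.coeff i ∈ jRing q) ∧
      (qExpand ℤ (q * q) (jqModC ℤ) - jqModC ℤ) ^ (q - 1) *
          ((qExpand ℤ (q * q) (jqModC ℤ) - jqModC ℤ) +
            (jqModC ℤ - qExpand ℤ q (jqModC ℤ) ^ q)) +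
        HahnSeries.C (q : ℤ) * G.eval (qExpand ℤ (q * q) (jqModC ℤ) - jqModC ℤ) = 0 ∧
      coeffMap (Int.castRingHom (ZMod q)) (G.coeff 0) =
        (jqModC (ZMod q) - qExpand (ZMod q) (q * q) (jqModC (ZMod q))) *
          thetaFun (ZMod q) (jqModC (ZMod q)) ^ (q - 1) := by
  obtain ⟨Φ, hΦ⟩ := exists_rootFormula q h
  exact exists_midEquation_of_rootFormula q hΦ

theorem not_natCast_dvd_neg_one {n : ℕ} (hn : 2 ≤ n) : ¬ ((n : ℕ) : ℤ) ∣ -1 := by
  intro hd
  have h1 : ((n : ℕ) : ℤ) ∣ 1 := (dvd_neg).mp hd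
  have h2 : n ∣ 1 := by exact_mod_cast h1
  have := Nat.le_of_dvd one_pos h2
  omega

/-- `J(t) - J(t^(q²)) ≠ 0`. -/
theorem j_sub_jqq_ne_zero (k : Type*) [CommRing k] [Nontrivial k] :
    jqModC k - qExpand k (q * q) (jqModC k) ≠ 0 := by
  intro h
  have h1 : (jqModC k - qExpand k (q * q) (jqModC k)).coeff (-1) = 0 := by rw [h]; rfl
  have h2 : 2 ≤ q * q := by have := hq.out.two_le; nlinarith
  rw [HahnSeries.coeff_sub, coeff_jqModC_neg_one,
    qExpand_coeff_of_not_dvd _ _ (not_natCast_dvd_neg_one h2), sub_zero] at h1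
  exact one_ne_zero h1

/-- `θ J ≠ 0`. -/
theorem thetaFun_j_ne_zero (k : Type*) [CommRing k] [Nontrivial k] :
    thetaFun k (jqModC k) ≠ 0 := by
  intro h
  have h1 : (thetaFun k (jqModC k)).coeff (-1) = 0 := by rw [h]; rfl
  rw [Fermat.Agent.Lib.helper9242.thetaFun_coeff, coeff_jqModC_neg_one, mul_one] at h1
  have h2 : (1 : k) = 0 := by
    have := congrArg (fun x : k => -x) h1
    simp at this
  exact one_ne_zero h2

/-- In characteristic `q`, `J - J(t^q)^q` reduces to `J - J(t^(q²))`. -/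
theorem coeffMap_u (k : Type*) [CommRing k] [CharP k q] :
    coeffMap (Int.castRingHom k) (jqModC ℤ - qExpand ℤ q (jqModC ℤ) ^ q) =
      jqModC k - qExpand k (q * q) (jqModC k) := by
  have : ExpChar k q := ExpChar.prime hq.out
  rw [map_sub, map_pow, coeffMap_qExpand, coeffMap_jqModC,
    Fermat.Agent.S37.helper5666.pow_expChar_eq_qExpand k q, coeffMap_qExpand, coeffMap_jqModC,
    qExpand_qExpand]

/-- Transfer of the reduction of `G(0)` from `ZMod q` to any ring of characteristic `q`. -/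
theorem coeffMap_G0 (k : Type*) [CommRing k] [CharP k q] {g : LaurentSeries ℤ}
    (hg : coeffMap (Int.castRingHom (ZMod q)) g =
      (jqModC (ZMod q) - qExpand (ZMod q) (q * q) (jqModC (ZMod q))) *
        thetaFun (ZMod q) (jqModC (ZMod q)) ^ (q - 1)) :
    coeffMap (Int.castRingHom k) g =
      (jqModC k - qExpand k (q * q) (jqModC k)) * thetaFun k (jqModC k) ^ (q - 1) := by
  have h1 : coeffMap (Int.castRingHom k) g =
      coeffMap (ZMod.castHom (dvd_refl q) k) (coeffMap (Int.castRingHom (ZMod q)) g) := by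
    rw [coeffMap_coeffMap]
    exact coeffMap_congr (RingHom.ext_int _ _) g
  rw [h1, hg, map_mul, map_sub, map_pow, coeffMap_thetaFun, coeffMap_qExpand, coeffMap_jqModC]

/-- The reduction of `G(0)` is nonzero over a domain of characteristic `q`. -/
theorem coeffMap_G0_ne_zero (k : Type*) [CommRing k] [IsDomain k] [CharP k q]
    {g : LaurentSeries ℤ}
    (hg : coeffMap (Int.castRingHom (ZMod q)) g =
      (jqModC (ZMod q) - qExpand (ZMod q) (q * q) (jqModC (ZMod q))) *
        thetaFun (ZMod q) (jqModC (ZMod q)) ^ (q - 1)) :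
    coeffMap (Int.castRingHom k) g ≠ 0 := by
  rw [coeffMap_G0 q k hg]
  exact mul_ne_zero (j_sub_jqq_ne_zero q k) (pow_ne_zero _ (thetaFun_j_ne_zero k))

variable {q}

/-- **Root exclusion**: over a field with a primitive `q`-th root of unity, the only root of
`Φ(J(t), Y)` in `k((t))` is `J(t^q)`. -/
theorem eq_jq_of_isRoot {Φ : Polynomial (Polynomial ℤ)} (hroot : RootFormula q Φ)
    (k : Type) [Field k] (ω : kˣ) (hω : IsPrimitiveRoot ω q) (w : LaurentSeries k)
    (hw : (Φ.map (evalJ (jqModC k))).eval w = 0) : w = qExpand k q (jqModC k) := by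
  have h1 : (Φ.map (evalJ (qExpand k q (jqModC k)))).eval (qExpand k q w) = 0 := by
    rw [← ringHom_comp_evalJ' (qExpand k q) (jqModC k), ← Polynomial.map_map,
      Polynomial.eval_map_apply, hw, map_zero]
  rw [root_formula_field hroot k ω hω, midPoly, eval_mul, eval_mul, eval_sub, eval_X, eval_C,
    eval_sub, eval_X, eval_C, eval_prod] at h1
  have hq2 : 2 ≤ q := hq.out.two_le
  have hc : (qExpand k q w).coeff (-1) = 0 :=
    qExpand_coeff_of_not_dvd _ _ (not_natCast_dvd_neg_one hq2)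
  rcases mul_eq_zero.mp h1 with h3 | h2
  · exfalso
    have h4 := congrArg (fun x => x.coeff (-1)) (sub_eq_zero.mp h3)
    simp only [hc, coeff_jqModC_neg_one] at h4
    exact zero_ne_one h4
  rcases mul_eq_zero.mp h2 with h3 | h2
  · have h4 : qExpand k q w = qExpand k q (qExpand k q (jqModC k)) := by
      rw [qExpand_qExpand]; exact sub_eq_zero.mp h3
    exact qExpand_injective q h4
  · exfalso
    obtain ⟨b, -, hb⟩ := Finset.prod_eq_zero_iff.mp h2
    rw [eval_sub, eval_X, eval_C] at hb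
    have h4 := congrArg (fun x => x.coeff (-1)) (sub_eq_zero.mp hb)
    simp only [hc, Fermat.Agent.S28.helper328.twist_coeff, coeff_jqModC_neg_one, mul_one] at h4
    exact (Units.ne_zero _) h4.symm

end Red

end

end Fermat.Agent.S36.helper3082
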