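/-
helper3082 — S36-F1L-INST (board #2236), part (B).

The equation of `T = j(q²z) - j(z)` (file `helper3082_MidEquation`) inside the modular function
fields over an ARBITRARY base `(L, A, π)`:

* `F' = laurentBaseChange L (modularFunctionFieldFull N)`, `q ∣ N`,
* `F  = laurentBaseChange L (modularFunctionFieldFull (N * q))`, an `F'`-algebra along
  `heckeAlphaBar L N q`,
* `V' = helper8991.gaussF A π N` the Gauss valuation subring of `F'`.

We produce `midT : F`, `midU : F'` and a polynomial `G` over `F'` with Gauss-integral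
coefficients and unit constant term such that

  `T ^ (q - 1) * (T + u) + q * G(T) = 0`,

plus the facts "`q` is a uniformiser of `V'`" and "`V'` is archimedean" (from the corresponding
facts on `A`).  These are the fields `ϖ_ne … eq` of `helper8831.MidDatum`.
-/
import Mathlib
import Fermat.Prelude.Def_ModularCurve_HeckeOperator
import Fermat.Agent.S36.helper3082_MidEquation
import Fermat.Agent.S28.helper508_FormalPrime
import Fermat.Agent.S18.helper8991_GaussInst

open ModularCurve Polynomial AlgebraicCurve

namespace Fermat.Agent.S36.helper3082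

noncomputable section

set_option linter.style.haveILetI false

open Fermat.Agent.S18.helper8991 (gaussF gaussFRed inc red)

/-! ## 1. Integral series in the Gauss ring -/

section IntSeries

variable {L : Type*} [Field L] (A : ValuationSubring L) {k : Type*} [Field k] (π : A →+* k)

theorem coeffMap_C' {R S : Type*} [CommRing R] [CommRing S] (f : R →+* S) (c : R) :
    coeffMap f (HahnSeries.C c : LaurentSeries R) = (HahnSeries.C (f c) : LaurentSeries S) := by
  rw [HahnSeries.C_apply, HahnSeries.C_apply, coeffMap_single]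

theorem inc_coeffMap_int (x : LaurentSeries ℤ) :
    inc A (coeffMap (Int.castRingHom A) x) = coeffMap (Int.castRingHom L) x := by
  rw [coeffMap_coeffMap]
  exact coeffMap_congr (RingHom.ext_int _ _) x

theorem red_coeffMap_int (x : LaurentSeries ℤ) :
    red A π (coeffMap (Int.castRingHom A) x) = coeffMap (Int.castRingHom k) x := by
  rw [coeffMap_coeffMap]
  exact coeffMap_congr (RingHom.ext_int _ _) x

variable [Algebra ℚ L] (N : ℕ)

/-- An element of `F'` whose series has integer coefficients lies in the Gauss ring. -/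
theorem mem_gaussF_of_coe_eq (f : ↥(laurentBaseChange L (modularFunctionFieldFull N)))
    (x : LaurentSeries ℤ) (hf : (f : LaurentSeries L) = coeffMap (Int.castRingHom L) x) :
    f ∈ gaussF A π N := by
  rw [Fermat.Agent.S18.helper8991.mem_gaussF_iff]
  refine ⟨coeffMap (Int.castRingHom A) x, 1, ?_, ?_⟩
  · rw [map_one]; exact one_ne_zero
  · rw [map_one, mul_one, inc_coeffMap_int, hf]

/-- ... and its Gauss reduction is the coefficientwise reduction. -/
theorem gaussFRed_of_coe_eq (f : ↥(gaussF A π N)) (x : LaurentSeries ℤ)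
    (hf : ((f : ↥(laurentBaseChange L (modularFunctionFieldFull N))) : LaurentSeries L) =
      coeffMap (Int.castRingHom L) x) :
    gaussFRed A π N f = coeffMap (Int.castRingHom k) x := by
  have hY : red A π (1 : LaurentSeries A) ≠ 0 := by rw [map_one]; exact one_ne_zero
  have h : ((f : ↥(laurentBaseChange L (modularFunctionFieldFull N))) : LaurentSeries L) *
      inc A 1 = inc A (coeffMap (Int.castRingHom A) x) := by
    rw [map_one, mul_one, inc_coeffMap_int, hf]
  rw [Fermat.Agent.S18.helper8991.gaussFRed_eq A π N f hY h, map_one, div_one, red_coeffMap_int]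

theorem valuation_eq_one_of_red_ne_zero (f : ↥(laurentBaseChange L (modularFunctionFieldFull N)))
    (x : LaurentSeries ℤ) (hf : (f : LaurentSeries L) = coeffMap (Int.castRingHom L) x)
    (hx : coeffMap (Int.castRingHom k) x ≠ 0) : (gaussF A π N).valuation f = 1 := by
  have hmem := mem_gaussF_of_coe_eq A π N f x hf
  have hu : IsUnit (⟨f, hmem⟩ : ↥(gaussF A π N)) := by
    rw [Fermat.Agent.S18.helper8991.isUnit_iff_gaussFRed_ne_zero,
      gaussFRed_of_coe_eq A π N ⟨f, hmem⟩ x hf]
    exact hx
  exact ((gaussF A π N).valuation_eq_one_iff ⟨f, hmem⟩).mp hu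

theorem valuation_lt_one_of_red_eq_zero (f : ↥(laurentBaseChange L (modularFunctionFieldFull N)))
    (x : LaurentSeries ℤ) (hf : (f : LaurentSeries L) = coeffMap (Int.castRingHom L) x)
    (hx : coeffMap (Int.castRingHom k) x = 0) : (gaussF A π N).valuation f < 1 := by
  have hmem := mem_gaussF_of_coe_eq A π N f x hf
  have hm : (⟨f, hmem⟩ : ↥(gaussF A π N)) ∈ IsLocalRing.maximalIdeal ↥(gaussF A π N) := by
    rw [← Fermat.Agent.S18.helper8991.gaussFRed_eq_zero_iff,
      gaussFRed_of_coe_eq A π N ⟨f, hmem⟩ x hf]
    exact hx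
  exact ((gaussF A π N).valuation_lt_one_iff ⟨f, hmem⟩).mp hm

end IntSeries

/-! ## 2. The prime `q` in the Gauss ring -/

section Unif

variable {L : Type*} [Field L] [Algebra ℚ L] (A : ValuationSubring L) {k : Type*} [Field k]
  (π : A →+* k) (q : ℕ) (N : ℕ)

theorem natCast_ne_zero_FF (hq : q ≠ 0) :
    ((q : ℕ) : ↥(laurentBaseChange L (modularFunctionFieldFull N))) ≠ 0 := by
  have : CharZero L := algebraRat.charZero L
  have : CharZero ↥(laurentBaseChange L (modularFunctionFieldFull N)) :=
    charZero_of_injective_algebraMap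
      (algebraMap L ↥(laurentBaseChange L (modularFunctionFieldFull N))).injective
  exact Nat.cast_ne_zero.mpr hq

theorem coe_natCast_FF :
    ((((q : ℕ) : ↥(laurentBaseChange L (modularFunctionFieldFull N))) : LaurentSeries L)) =
      coeffMap (Int.castRingHom L) (HahnSeries.C (q : ℤ)) := by
  rw [coeffMap_C']
  have h1 : ((q : ℕ) : ↥(laurentBaseChange L (modularFunctionFieldFull N))) =
      algebraMap L ↥(laurentBaseChange L (modularFunctionFieldFull N)) (q : L) :=
    (map_natCast _ q).symm
  rw [h1]
  simp only [Int.coe_castRingHom, Int.cast_natCast]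
  rw [Fermat.Agent.S18.helper8991.C_eq_algebraMap]
  rfl

/-- `q` is a non-unit of the Gauss ring when the residue field has characteristic `q`. -/
theorem valuation_natCast_lt_one [CharP k q] :
    (gaussF A π N).valuation ((q : ℕ) : ↥(laurentBaseChange L (modularFunctionFieldFull N))) < 1 := by
  refine valuation_lt_one_of_red_eq_zero A π N _ _ (coe_natCast_FF q N) ?_
  rw [coeffMap_C']
  simp

/-- `q` generates the maximal ideal of the Gauss ring if it generates that of `A`. -/
theorem gaussF_unif (hunif : ∀ c : L, c ∈ A.nonunits → c / (q : L) ∈ A)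
    (x : ↥(laurentBaseChange L (modularFunctionFieldFull N)))
    (hx : (gaussF A π N).valuation x < 1) :
    x * ((q : ℕ) : ↥(laurentBaseChange L (modularFunctionFieldFull N)))⁻¹ ∈ gaussF A π N := by
  have hmem : x ∈ gaussF A π N :=
    ((gaussF A π N).valuation_le_one_iff x).mp hx.le
  have hmax : (⟨x, hmem⟩ : ↥(gaussF A π N)) ∈ IsLocalRing.maximalIdeal ↥(gaussF A π N) :=
    ((gaussF A π N).valuation_lt_one_iff ⟨x, hmem⟩).mpr hx
  have hred : gaussFRed A π N ⟨x, hmem⟩ = 0 :=
    (Fermat.Agent.S18.helper8991.gaussFRed_eq_zero_iff A π N _).mpr hmax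
  obtain ⟨c, g, hc, hxg⟩ :=
    Fermat.Agent.S18.helper8991.exists_maximalIdeal_mul_of_gaussFRed_eq_zero A π N ⟨x, hmem⟩ hred
  have hcq : (c : L) / (q : L) ∈ A :=
    hunif _ (A.mem_nonunits_iff_exists_mem_maximalIdeal.mpr ⟨c.2, hc⟩)
  have hx' : x * ((q : ℕ) : ↥(laurentBaseChange L (modularFunctionFieldFull N)))⁻¹ =
      algebraMap L ↥(laurentBaseChange L (modularFunctionFieldFull N)) ((c : L) / (q : L)) *
        (g : ↥(laurentBaseChange L (modularFunctionFieldFull N))) := by
    have : x = algebraMap L ↥(laurentBaseChange L (modularFunctionFieldFull N)) (c : L) *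
        (g : ↥(laurentBaseChange L (modularFunctionFieldFull N))) := hxg
    rw [this, map_div₀, map_natCast]
    ring
  rw [hx']
  exact (gaussF A π N).mul_mem _ _
    (Fermat.Agent.S18.helper8991.algebraMap_mem_gaussSubring A π _ _ hcq) g.2

/-- The Gauss valuation is archimedean with respect to `q` if `A` is. -/
theorem gaussF_arch (hπ0 : ∀ a : A, a ∈ IsLocalRing.maximalIdeal A → π a = 0)
    (harch : ∀ a : L, a ∈ A → a ≠ 0 → ∃ n : ℕ, a / (q : L) ^ n ∉ A)
    (c : ↥(laurentBaseChange L (modularFunctionFieldFull N))) (hc : c ∈ gaussF A π N)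
    (hc0 : c ≠ 0) :
    ∃ n : ℕ, c * (((q : ℕ) : ↥(laurentBaseChange L (modularFunctionFieldFull N)))⁻¹) ^ n ∉
      gaussF A π N := by
  obtain ⟨a, w, ha0, hw, hcw⟩ := Fermat.Agent.S18.helper8991.exists_const_mul_unit_F A π N c hc0
  have hwU : IsUnit w := (Fermat.Agent.S18.helper8991.isUnit_iff_gaussFRed_ne_zero A π N w).mpr hw
  obtain ⟨w', hw'⟩ := hwU.exists_right_inv
  have hw'' : (w : ↥(laurentBaseChange L (modularFunctionFieldFull N))) *
      (w' : ↥(laurentBaseChange L (modularFunctionFieldFull N))) = 1 := congrArg Subtype.val hw'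
  have key : ∀ b : L, algebraMap L ↥(laurentBaseChange L (modularFunctionFieldFull N)) b *
      (w : ↥(laurentBaseChange L (modularFunctionFieldFull N))) ∈ gaussF A π N → b ∈ A := by
    intro b hb
    rw [← Fermat.Agent.S18.helper8991.algebraMap_mem_gaussF_iff A π N hπ0]
    have h1 := (gaussF A π N).mul_mem _ _ hb w'.2
    rwa [mul_assoc, hw'', mul_one] at h1
  have haA : a ∈ A := key a (hcw ▸ hc)
  obtain ⟨n, hn⟩ := harch a haA ha0
  refine ⟨n, fun hmem => hn (key _ ?_)⟩
  have h2 : algebraMap L ↥(laurentBaseChange L (modularFunctionFieldFull N)) (a / (q : L) ^ n) *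
      (w : ↥(laurentBaseChange L (modularFunctionFieldFull N))) =
      c * (((q : ℕ) : ↥(laurentBaseChange L (modularFunctionFieldFull N)))⁻¹) ^ n := by
    rw [hcw, map_div₀, map_pow, map_natCast, inv_pow]
    ring
  rw [h2]
  exact hmem

omit [Algebra ℚ L] in
/-- A noetherian valuation ring in which `q` is a nonzero non-unit is archimedean w.r.t. `q`. -/
theorem arch_of_isNoetherianRing (hnoeth : IsNoetherianRing A) (hq0 : (q : L) ≠ 0)
    (hqA : (q : L) ∈ A.nonunits) (a : L) (ha : a ∈ A) (ha0 : a ≠ 0) :
    ∃ n : ℕ, a / (q : L) ^ n ∉ A := by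
  by_contra hcon
  have hcon : ∀ n : ℕ, a / (q : L) ^ n ∈ A := fun n => by
    by_contra h
    exact hcon ⟨n, h⟩
  have hqmem : (q : L) ∈ A := (A.mem_nonunits_iff_exists_mem_maximalIdeal.mp hqA).1
  have hI : Ideal.span {(⟨(q : L), hqmem⟩ : A)} ≠ ⊤ := by
    rw [Ne, Ideal.span_singleton_eq_top]
    intro hu
    obtain ⟨_, hm⟩ := A.mem_nonunits_iff_exists_mem_maximalIdeal.mp hqA
    exact (IsLocalRing.mem_maximalIdeal _).mp hm hu
  have hbot := Ideal.iInf_pow_eq_bot_of_isLocalRing (Ideal.span {(⟨(q : L), hqmem⟩ : A)}) hI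
  have hmem : (⟨a, ha⟩ : A) ∈ ⨅ i : ℕ, Ideal.span {(⟨(q : L), hqmem⟩ : A)} ^ i := by
    rw [Ideal.mem_iInf]
    intro n
    rw [Ideal.span_singleton_pow, Ideal.mem_span_singleton']
    refine ⟨⟨a / (q : L) ^ n, hcon n⟩, Subtype.ext ?_⟩
    show a / (q : L) ^ n * (q : L) ^ n = a
    rw [div_mul_cancel₀ _ (pow_ne_zero n hq0)]
  rw [hbot, Ideal.mem_bot] at hmem
  exact ha0 (congrArg Subtype.val hmem)

end Unif

/-! ## 2b. Coercions along the inclusion of levels -/

section Along

variable (L : Type*) [Field L] [Algebra ℚ L] (N ℓ : ℕ) [NeZero N] [NeZero ℓ]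

omit [Algebra ℚ L] in
theorem coe_algebraMap_IF (E : IntermediateField L (LaurentSeries L)) (y : E) :
    algebraMap E (LaurentSeries L) y = (y : LaurentSeries L) := rfl

theorem algebraMap_along_apply (x : ↥(laurentBaseChange L (modularFunctionFieldFull N))) :
    letI := algebraAlong (heckeAlphaBar L N ℓ)
    algebraMap ↥(laurentBaseChange L (modularFunctionFieldFull N))
      ↥(laurentBaseChange L (modularFunctionFieldFull (N * ℓ))) x = heckeAlphaBar L N ℓ x := rfl

theorem coe_algebraMap_along (x : ↥(laurentBaseChange L (modularFunctionFieldFull N))) :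
    letI := algebraAlong (heckeAlphaBar L N ℓ)
    algebraMap ↥(laurentBaseChange L (modularFunctionFieldFull (N * ℓ))) (LaurentSeries L)
      (algebraMap ↥(laurentBaseChange L (modularFunctionFieldFull N))
        ↥(laurentBaseChange L (modularFunctionFieldFull (N * ℓ))) x) = (x : LaurentSeries L) := by
  letI := algebraAlong (heckeAlphaBar L N ℓ)
  rw [coe_algebraMap_IF, algebraMap_along_apply, coe_heckeAlphaBar]

theorem algebraMap_comp_along :
    letI := algebraAlong (heckeAlphaBar L N ℓ)
    (algebraMap ↥(laurentBaseChange L (modularFunctionFieldFull (N * ℓ)))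
        (LaurentSeries L)).comp
      (algebraMap ↥(laurentBaseChange L (modularFunctionFieldFull N))
        ↥(laurentBaseChange L (modularFunctionFieldFull (N * ℓ)))) =
      algebraMap ↥(laurentBaseChange L (modularFunctionFieldFull N)) (LaurentSeries L) := by
  letI := algebraAlong (heckeAlphaBar L N ℓ)
  refine RingHom.ext fun x => ?_
  rw [RingHom.comp_apply, coe_algebraMap_along, coe_algebraMap_IF]

/-- The series of `aeval T G` (along the inclusion of levels). -/
theorem coe_aeval_along (T : ↥(laurentBaseChange L (modularFunctionFieldFull (N * ℓ))))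
    (G : Polynomial ↥(laurentBaseChange L (modularFunctionFieldFull N))) :
    letI := algebraAlong (heckeAlphaBar L N ℓ)
    algebraMap ↥(laurentBaseChange L (modularFunctionFieldFull (N * ℓ))) (LaurentSeries L)
        (Polynomial.aeval T G) =
      (G.map (algebraMap ↥(laurentBaseChange L (modularFunctionFieldFull N))
        (LaurentSeries L))).eval
        (algebraMap ↥(laurentBaseChange L (modularFunctionFieldFull (N * ℓ))) (LaurentSeries L)
          T) := by
  letI := algebraAlong (heckeAlphaBar L N ℓ)
  rw [Polynomial.aeval_def, Polynomial.hom_eval₂, algebraMap_comp_along,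
    Polynomial.eval₂_eq_eval_map]

end Along

/-! ## 3. The elements `T`, `u` and the polynomial `G` -/

section Elements

variable (L : Type*) [Field L] [Algebra ℚ L] (q : ℕ) [hq : Fact q.Prime] (N : ℕ)

/-- The image of `ℤ[J, J(t^q)]` lies in the level-`N` function field when `q ∣ N`. -/
theorem coeffMap_mem_of_mem_jRing (hqN : q ∣ N) {x : LaurentSeries ℤ} (hx : x ∈ jRing q) :
    coeffMap (Int.castRingHom L) x ∈ laurentBaseChange L (modularFunctionFieldFull N) := by
  rw [Fermat.Agent.S18.helper8991.laurentBaseChange_full_eq]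
  induction hx using Subring.closure_induction with
  | mem y hy =>
    rcases hy with rfl | hy
    · rw [coeffMap_jqModC]; exact jqModC_mem_full L N
    · rw [Set.mem_singleton_iff.mp hy, coeffMap_qExpand, coeffMap_jqModC]
      exact jqModCd_mem_full L N hqN
  | zero => rw [map_zero]; exact zero_mem _
  | one => rw [map_one]; exact one_mem _
  | add x y _ _ hx hy => rw [map_add]; exact add_mem hx hy
  | neg x _ hx => rw [map_neg]; exact neg_mem hx
  | mul x y _ _ hx hy => rw [map_mul]; exact mul_mem hx hy

/-- `T = j(q²z) - j(z)`, an element of the level-`N q` function field (`q ∣ N`). -/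
def midT (hqN : q ∣ N) : ↥(laurentBaseChange L (modularFunctionFieldFull (N * q))) :=
  ⟨qExpand L (q * q) (jqModC L) - jqModC L, by
    rw [Fermat.Agent.S18.helper8991.laurentBaseChange_full_eq]
    exact sub_mem (jqModCd_mem_full L (N * q) (Nat.mul_dvd_mul hqN dvd_rfl))
      (jqModC_mem_full L (N * q))⟩

@[simp] theorem coe_midT (hqN : q ∣ N) :
    ((midT L q N hqN : ↥(laurentBaseChange L (modularFunctionFieldFull (N * q)))) :
      LaurentSeries L) = qExpand L (q * q) (jqModC L) - jqModC L := rfl

/-- `u = j(z) - j(qz)^q`, an element of the level-`N` function field (`q ∣ N`). -/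
def midU (hqN : q ∣ N) : ↥(laurentBaseChange L (modularFunctionFieldFull N)) :=
  ⟨jqModC L - qExpand L q (jqModC L) ^ q, by
    rw [Fermat.Agent.S18.helper8991.laurentBaseChange_full_eq]
    exact sub_mem (jqModC_mem_full L N) (pow_mem (jqModCd_mem_full L N hqN) q)⟩

@[simp] theorem coe_midU (hqN : q ∣ N) :
    ((midU L q N hqN : ↥(laurentBaseChange L (modularFunctionFieldFull N))) : LaurentSeries L) =
      jqModC L - qExpand L q (jqModC L) ^ q := rfl

theorem coe_midT_eq_coeffMap (hqN : q ∣ N) :
    ((midT L q N hqN : ↥(laurentBaseChange L (modularFunctionFieldFull (N * q)))) :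
      LaurentSeries L) =
      coeffMap (Int.castRingHom L) (qExpand ℤ (q * q) (jqModC ℤ) - jqModC ℤ) := by
  rw [coe_midT, map_sub, coeffMap_qExpand, coeffMap_jqModC]

theorem coe_midU_eq_coeffMap (hqN : q ∣ N) :
    ((midU L q N hqN : ↥(laurentBaseChange L (modularFunctionFieldFull N))) : LaurentSeries L) =
      coeffMap (Int.castRingHom L) (jqModC ℤ - qExpand ℤ q (jqModC ℤ) ^ q) := by
  rw [coe_midU, map_sub, map_pow, coeffMap_qExpand, coeffMap_jqModC]

variable {L}
variable (A : ValuationSubring L) {k : Type*} [Field k] (π : A →+* k)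

/-- `u` is a Gauss unit (its reduction is `J - J(t^(q²)) ≠ 0`). -/
theorem valuation_midU [CharP k q] (hqN : q ∣ N) :
    (gaussF A π N).valuation (midU L q N hqN) = 1 := by
  refine valuation_eq_one_of_red_ne_zero A π N _ _ (coe_midU_eq_coeffMap L q N hqN) ?_
  rw [coeffMap_u q k]
  exact j_sub_jqq_ne_zero q k

/-- **The equation of `T` over the level-`N` function field**, with Gauss-integral coefficients
and unit constant term. -/
theorem exists_midPoly_FF [NeZero N] [CharP k q] (hqN : q ∣ N) :
    letI := algebraAlong (heckeAlphaBar L N q)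
    ∃ G : Polynomial ↥(laurentBaseChange L (modularFunctionFieldFull N)),
      G.natDegree ≤ q - 1 ∧ (∀ i, G.coeff i ∈ gaussF A π N) ∧
      (gaussF A π N).valuation (G.coeff 0) = 1 ∧
      midT L q N hqN ^ (q - 1) *
          (midT L q N hqN +
            algebraMap ↥(laurentBaseChange L (modularFunctionFieldFull N))
              ↥(laurentBaseChange L (modularFunctionFieldFull (N * q))) (midU L q N hqN)) +
        algebraMap ↥(laurentBaseChange L (modularFunctionFieldFull N))
            ↥(laurentBaseChange L (modularFunctionFieldFull (N * q)))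
            ((q : ℕ) : ↥(laurentBaseChange L (modularFunctionFieldFull N))) *
          Polynomial.aeval (midT L q N hqN) G = 0 := by
  letI := algebraAlong (heckeAlphaBar L N q)
  obtain ⟨G0, hdeg, hmem, heq, hG0⟩ :=
    exists_midEquation q (Fermat.Agent.S28.helper508.stmt_FormalPrime q)
  have hq0 : (q : L) ≠ 0 := by
    have : CharZero L := algebraRat.charZero L
    exact Nat.cast_ne_zero.mpr hq.out.ne_zero
  -- lift the polynomial to `F'`
  have hlift : G0.map (coeffMap (Int.castRingHom L)) ∈ Polynomial.lifts
      (algebraMap ↥(laurentBaseChange L (modularFunctionFieldFull N)) (LaurentSeries L)) := by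
    rw [Polynomial.lifts_iff_coeff_lifts]
    intro i
    rw [coeff_map]
    have h1 := coeffMap_mem_of_mem_jRing L q N hqN (hmem i)
    rw [map_mul, coeffMap_C'] at h1
    have h2 : (HahnSeries.C ((((q : ℤ) : L))⁻¹) : LaurentSeries L) ∈
        laurentBaseChange L (modularFunctionFieldFull N) := by
      rw [Fermat.Agent.S18.helper8991.C_eq_algebraMap]
      exact IntermediateField.algebraMap_mem _ _
    have h3 := mul_mem h2 h1
    have hq0' : (Int.castRingHom L) (q : ℤ) ≠ 0 := by simpa using hq0
    rw [← mul_assoc, ← map_mul, show (((q : ℤ) : L))⁻¹ * (Int.castRingHom L) (q : ℤ) = 1 from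
      inv_mul_cancel₀ hq0', map_one, one_mul] at h3
    exact ⟨⟨_, h3⟩, rfl⟩
  obtain ⟨G, hG⟩ := (Polynomial.mem_lifts _).mp hlift
  have hcoeff : ∀ i, ((G.coeff i : ↥(laurentBaseChange L (modularFunctionFieldFull N))) :
      LaurentSeries L) = coeffMap (Int.castRingHom L) (G0.coeff i) := fun i => by
    have h1 := congrArg (fun p => p.coeff i) hG
    simp only [coeff_map] at h1
    exact h1
  refine ⟨G, ?_, fun i => mem_gaussF_of_coe_eq A π N _ _ (hcoeff i),
    valuation_eq_one_of_red_ne_zero A π N _ _ (hcoeff 0) (coeffMap_G0_ne_zero q k hG0), ?_⟩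
  · rw [← natDegree_map_eq_of_injective
      (algebraMap ↥(laurentBaseChange L (modularFunctionFieldFull N)) (LaurentSeries L)).injective,
      hG]
    exact natDegree_map_le.trans hdeg
  · apply (algebraMap ↥(laurentBaseChange L (modularFunctionFieldFull (N * q)))
      (LaurentSeries L)).injective
    have hT : algebraMap ↥(laurentBaseChange L (modularFunctionFieldFull (N * q)))
        (LaurentSeries L) (midT L q N hqN) =
        coeffMap (Int.castRingHom L) (qExpand ℤ (q * q) (jqModC ℤ) - jqModC ℤ) := by
      rw [coe_algebraMap_IF, coe_midT_eq_coeffMap]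
    rw [map_zero, map_add, map_mul, map_pow, map_add, map_mul, coe_algebraMap_along,
      coe_algebraMap_along, coe_aeval_along, hG, hT, coe_midU_eq_coeffMap, coe_natCast_FF,
      Polynomial.eval_map_apply, ← map_pow, ← map_add, ← map_mul, ← map_mul, ← map_add, heq,
      map_zero]

end Elements

end

end Fermat.Agent.S36.helper3082
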