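import Mathlib

set_option autoImplicit false

namespace Fermat.Agent.S36.helper8831

open Polynomial

variable {F' F : Type*} [Field F'] [Field F] [Algebra F' F]

/-- A polynomial over `F'` with all coefficients in the valuation ring `V'`. -/
def IsInt (V' : ValuationSubring F') (g : F'[X]) : Prop := ∀ i, g.coeff i ∈ V'

namespace IsInt

variable {V' : ValuationSubring F'} {g h : F'[X]}

theorem zero : IsInt V' 0 := fun i => by
  rw [coeff_zero]; exact V'.zero_mem

theorem C {c : F'} (hc : c ∈ V') : IsInt V' (C c) := fun i => by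
  rw [coeff_C]; split_ifs
  · exact hc
  · exact V'.zero_mem

theorem one : IsInt V' 1 := by
  rw [← C_1]; exact IsInt.C V'.one_mem

theorem X : IsInt V' X := fun i => by
  rw [coeff_X]; split_ifs
  · exact V'.one_mem
  · exact V'.zero_mem

theorem add (hg : IsInt V' g) (hh : IsInt V' h) : IsInt V' (g + h) := fun i => by
  rw [coeff_add]; exact V'.add_mem _ _ (hg i) (hh i)

theorem neg (hg : IsInt V' g) : IsInt V' (-g) := fun i => by
  rw [coeff_neg]; exact V'.neg_mem _ (hg i)

theorem sub (hg : IsInt V' g) (hh : IsInt V' h) : IsInt V' (g - h) := by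
  rw [sub_eq_add_neg]; exact hg.add hh.neg

theorem mul (hg : IsInt V' g) (hh : IsInt V' h) : IsInt V' (g * h) := fun i => by
  rw [coeff_mul]
  exact sum_mem fun x _ => V'.mul_mem _ _ (hg _) (hh _)

theorem pow (hg : IsInt V' g) (n : ℕ) : IsInt V' (g ^ n) := by
  induction n with
  | zero => rw [pow_zero]; exact IsInt.one
  | succ n ih => rw [pow_succ]; exact ih.mul hg

theorem divX (hg : IsInt V' g) : IsInt V' g.divX := fun i => by
  rw [coeff_divX]; exact hg _

theorem comp (hg : IsInt V' g) (hh : IsInt V' h) : IsInt V' (g.comp h) := by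
  rw [comp_eq_sum_left, Polynomial.sum_def]
  intro i
  rw [finsetSum_coeff]
  refine sum_mem fun n _ => ?_
  exact (IsInt.C (hg n)).mul (hh.pow n) i

end IsInt

/-! ### Transfer between `V'` and a valuation ring `W` of `F` lying over it -/

section Transfer

variable {V' : ValuationSubring F'} {W : ValuationSubring F}

theorem map_mem_iff (hW : W.comap (algebraMap F' F) = V') (c : F') :
    algebraMap F' F c ∈ W ↔ c ∈ V' := by
  rw [← hW]; exact Iff.rfl

theorem val_map_le_one_iff (hW : W.comap (algebraMap F' F) = V') (c : F') :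
    W.valuation (algebraMap F' F c) ≤ 1 ↔ V'.valuation c ≤ 1 := by
  rw [W.valuation_le_one_iff, V'.valuation_le_one_iff, map_mem_iff hW]

theorem val_map_lt_one_iff (hW : W.comap (algebraMap F' F) = V') (c : F') :
    W.valuation (algebraMap F' F c) < 1 ↔ V'.valuation c < 1 := by
  rcases eq_or_ne c 0 with rfl | hc
  · simp
  · have hc' : algebraMap F' F c ≠ 0 := by
      rwa [Ne, map_eq_zero]
    have h1 := val_map_le_one_iff hW c⁻¹
    rw [map_inv₀, map_inv₀, map_inv₀] at h1
    rw [inv_le_one₀ (zero_lt_iff.mpr ((Valuation.ne_zero_iff _).mpr hc')),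
      inv_le_one₀ (zero_lt_iff.mpr ((Valuation.ne_zero_iff _).mpr hc))] at h1
    rw [← not_le, ← not_le, not_iff_not]
    exact h1

theorem val_map_eq_one_iff (hW : W.comap (algebraMap F' F) = V') (c : F') :
    W.valuation (algebraMap F' F c) = 1 ↔ V'.valuation c = 1 := by
  have h1 := val_map_le_one_iff hW c
  have h2 := val_map_lt_one_iff hW c
  constructor
  · intro h
    exact le_antisymm (h1.mp h.le) (not_lt.mp fun hlt => (h2.mpr hlt).ne h)
  · intro h
    exact le_antisymm (h1.mpr h.le) (not_lt.mp fun hlt => (h2.mp hlt).ne h)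

theorem aeval_mem (hW : W.comap (algebraMap F' F) = V') {Z : F} (hZ : Z ∈ W) {g : F'[X]}
    (hg : IsInt V' g) : aeval Z g ∈ W := by
  rw [aeval_eq_sum_range]
  refine sum_mem fun i _ => ?_
  rw [Algebra.smul_def]
  exact W.mul_mem _ _ ((map_mem_iff hW _).mpr (hg i)) (pow_mem hZ i)

theorem aeval_eq_divX (Z : F) (g : F'[X]) :
    aeval Z g = Z * aeval Z g.divX + algebraMap F' F (g.coeff 0) := by
  conv_lhs => rw [← divX_mul_X_add g]
  rw [map_add, map_mul, aeval_X, aeval_C, mul_comm]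

theorem val_mul_aeval_lt_one (hW : W.comap (algebraMap F' F) = V') {Z : F}
    (hZ : W.valuation Z < 1) {g : F'[X]} (hg : IsInt V' g) :
    W.valuation (Z * aeval Z g) < 1 := by
  have hZm : Z ∈ W := (W.valuation_le_one_iff Z).mp hZ.le
  have h1 : W.valuation (aeval Z g) ≤ 1 := (W.valuation_le_one_iff _).mpr (aeval_mem hW hZm hg)
  rw [map_mul]
  calc W.valuation Z * W.valuation (aeval Z g) ≤ W.valuation Z * 1 := mul_le_mul_right h1 _
    _ = W.valuation Z := mul_one _
    _ < 1 := hZ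

theorem val_aeval_lt_one_iff (hW : W.comap (algebraMap F' F) = V') {Z : F}
    (hZ : W.valuation Z < 1) {g : F'[X]} (hg : IsInt V' g) :
    W.valuation (aeval Z g) < 1 ↔ V'.valuation (g.coeff 0) < 1 := by
  have hr := val_mul_aeval_lt_one hW hZ hg.divX
  rw [← val_map_lt_one_iff hW]
  constructor
  · intro h
    have e : algebraMap F' F (g.coeff 0) = aeval Z g - Z * aeval Z g.divX := by
      rw [aeval_eq_divX Z g]; ring
    rw [e]
    exact Valuation.map_sub_lt _ h hr
  · intro h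
    rw [aeval_eq_divX Z g]
    exact Valuation.map_add_lt _ hr h

theorem val_aeval_eq_one_iff (hW : W.comap (algebraMap F' F) = V') {Z : F}
    (hZ : W.valuation Z < 1) {g : F'[X]} (hg : IsInt V' g) :
    W.valuation (aeval Z g) = 1 ↔ V'.valuation (g.coeff 0) = 1 := by
  have hZm : Z ∈ W := (W.valuation_le_one_iff Z).mp hZ.le
  have h1 : W.valuation (aeval Z g) ≤ 1 := (W.valuation_le_one_iff _).mpr (aeval_mem hW hZm hg)
  have h2 : V'.valuation (g.coeff 0) ≤ 1 := (V'.valuation_le_one_iff _).mpr (hg 0)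
  have h3 := val_aeval_lt_one_iff hW hZ hg
  rw [h1.lt_iff_ne, h2.lt_iff_ne] at h3
  exact not_iff_not.mp h3

/-- **Generic factorisation**: if every integral polynomial with non-unit constant term becomes,
after multiplication by a fixed "unit" `μ(Z)`, divisible by `P`, then every nonzero `g(Z)` is
`P ^ n` times a "unit" `a(Z)`, up to a "unit" `s(Z)`. -/
theorem exists_factor (hW : W.comap (algebraMap F' F) = V') {Z P : F}
    (hZ : W.valuation Z < 1) (hP0 : P ≠ 0)
    {μ : F'[X]} (hμ : IsInt V' μ) (hμ0 : V'.valuation (μ.coeff 0) = 1)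
    (hstep : ∀ g : F'[X], IsInt V' g → V'.valuation (g.coeff 0) < 1 →
      ∃ g1 : F'[X], IsInt V' g1 ∧ aeval Z μ * aeval Z g = P * aeval Z g1) :
    ∀ (M : ℕ) (g : F'[X]), IsInt V' g → W.valuation P ^ M < W.valuation (aeval Z g) →
      ∃ (n : ℕ) (s a : F'[X]), IsInt V' s ∧ IsInt V' a ∧ V'.valuation (s.coeff 0) = 1 ∧
        V'.valuation (a.coeff 0) = 1 ∧ aeval Z s * aeval Z g = P ^ n * aeval Z a := by
  have hZm : Z ∈ W := (W.valuation_le_one_iff Z).mp hZ.le
  intro M
  induction M with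
  | zero =>
    intro g hg hlt
    rw [pow_zero] at hlt
    exact absurd ((W.valuation_le_one_iff _).mpr (aeval_mem hW hZm hg)) (not_le.mpr hlt)
  | succ M ih =>
    intro g hg hlt
    by_cases h1 : V'.valuation (g.coeff 0) < 1
    · obtain ⟨g1, hg1, e1⟩ := hstep g hg h1
      have hμ1 : W.valuation (aeval Z μ) = 1 := (val_aeval_eq_one_iff hW hZ hμ).mpr hμ0
      have e2 : W.valuation (aeval Z g) = W.valuation P * W.valuation (aeval Z g1) := by
        have := congrArg W.valuation e1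
        rwa [map_mul, map_mul, hμ1, one_mul] at this
      have hPpos : 0 < W.valuation P := zero_lt_iff.mpr ((Valuation.ne_zero_iff _).mpr hP0)
      have hlt' : W.valuation P ^ M < W.valuation (aeval Z g1) := by
        rw [e2, pow_succ, mul_comm] at hlt
        exact lt_of_mul_lt_mul_left' hlt
      obtain ⟨n, s, a, hs, ha, hs0, ha0, e3⟩ := ih g1 hg1 hlt'
      refine ⟨n + 1, s * μ, a, hs.mul hμ, ha, ?_, ha0, ?_⟩
      · rw [mul_coeff_zero, map_mul, hs0, hμ0, one_mul]
      · rw [map_mul, mul_assoc, e1, pow_succ]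
        linear_combination P * e3
    · have h2 : V'.valuation (g.coeff 0) ≤ 1 := (V'.valuation_le_one_iff _).mpr (hg 0)
      refine ⟨0, 1, g, IsInt.one, hg, ?_, by rwa [h2.lt_iff_ne, not_not] at h1, ?_⟩
      · rw [coeff_one_zero, map_one]
      · rw [map_one, pow_zero]


/-! ### Elements congruent to a unit constant -/

/-- `y` is congruent, modulo the maximal ideal of `W`, to a unit of `V'`. -/
def ResUnit (W : ValuationSubring F) (V' : ValuationSubring F') (y : F) : Prop :=
  ∃ c : F', V'.valuation c = 1 ∧ W.valuation (y - algebraMap F' F c) < 1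

namespace ResUnit

variable {y y₁ y₂ : F}

theorem val (hW : W.comap (algebraMap F' F) = V') (h : ResUnit W V' y) : W.valuation y = 1 := by
  obtain ⟨c, hc, hyc⟩ := h
  have hc' := (val_map_eq_one_iff hW c).mpr hc
  have e : y = (y - algebraMap F' F c) + algebraMap F' F c := by ring
  rw [e, Valuation.map_add_eq_of_lt_right _ (by rw [hc']; exact hyc), hc']

theorem ne_zero (hW : W.comap (algebraMap F' F) = V') (h : ResUnit W V' y) : y ≠ 0 := by
  intro h0
  have := h.val hW
  rw [h0, map_zero] at this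
  exact zero_ne_one this

theorem mul (hW : W.comap (algebraMap F' F) = V') (h₁ : ResUnit W V' y₁)
    (h₂ : ResUnit W V' y₂) : ResUnit W V' (y₁ * y₂) := by
  have hv2 := h₂.val hW
  obtain ⟨c1, hc1, e1⟩ := h₁
  obtain ⟨c2, hc2, e2⟩ := h₂
  refine ⟨c1 * c2, by rw [map_mul, hc1, hc2, one_mul], ?_⟩
  have e : y₁ * y₂ - algebraMap F' F (c1 * c2) =
      (y₁ - algebraMap F' F c1) * y₂ + algebraMap F' F c1 * (y₂ - algebraMap F' F c2) := by
    rw [map_mul]; ring
  rw [e]
  apply Valuation.map_add_lt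
  · rw [map_mul, hv2, mul_one]; exact e1
  · rw [map_mul, (val_map_eq_one_iff hW c1).mpr hc1, one_mul]; exact e2

theorem inv (hW : W.comap (algebraMap F' F) = V') (h : ResUnit W V' y) :
    ResUnit W V' y⁻¹ := by
  have hv := h.val hW
  have hy0 := h.ne_zero hW
  obtain ⟨c, hc, e⟩ := h
  have hc0 : c ≠ 0 := by
    intro h0
    rw [h0, map_zero] at hc
    exact zero_ne_one hc
  have hιc : algebraMap F' F c ≠ 0 := by rwa [Ne, map_eq_zero]
  refine ⟨c⁻¹, by rw [map_inv₀, hc, inv_one], ?_⟩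
  have e' : y⁻¹ - algebraMap F' F c⁻¹ =
      -((y - algebraMap F' F c) * (y⁻¹ * (algebraMap F' F c)⁻¹)) := by
    rw [map_inv₀]; field_simp; ring
  rw [e', Valuation.map_neg, map_mul, map_mul, map_inv₀, map_inv₀, hv,
    (val_map_eq_one_iff hW c).mpr hc, inv_one, mul_one, mul_one]
  exact e

theorem one (W : ValuationSubring F) (V' : ValuationSubring F') : ResUnit W V' (1 : F) :=
  ⟨1, map_one _, by rw [map_one, sub_self, map_zero]; exact zero_lt_one⟩

theorem pow (hW : W.comap (algebraMap F' F) = V') (h : ResUnit W V' y) (n : ℕ) :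
    ResUnit W V' (y ^ n) := by
  induction n with
  | zero => rw [pow_zero]; exact ResUnit.one W V'
  | succ n ih => rw [pow_succ]; exact ih.mul hW h

theorem neg (h : ResUnit W V' y) : ResUnit W V' (-y) := by
  obtain ⟨c, hc, e⟩ := h
  refine ⟨-c, by rw [Valuation.map_neg, hc], ?_⟩
  have e' : -y - algebraMap F' F (-c) = -(y - algebraMap F' F c) := by rw [map_neg]; ring
  rw [e', Valuation.map_neg]
  exact e

end ResUnit

theorem resUnit_aeval (hW : W.comap (algebraMap F' F) = V') {Z : F}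
    (hZ : W.valuation Z < 1) {g : F'[X]} (hg : IsInt V' g)
    (hg0 : V'.valuation (g.coeff 0) = 1) : ResUnit W V' (aeval Z g) :=
  ⟨g.coeff 0, hg0, by
    rw [aeval_eq_divX Z g, add_sub_cancel_right]
    exact val_mul_aeval_lt_one hW hZ hg.divX⟩

/-- From `x * P ^ e = P ^ n * y` with `x ∈ W` and `y` a unit: `x = P ^ j * y`. -/
theorem exists_eq_pow_mul (hW : W.comap (algebraMap F' F) = V') {P : F} (hP0 : P ≠ 0)
    (hP : W.valuation P < 1) {x y : F} {e n : ℕ} (hy : ResUnit W V' y)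
    (h : x * P ^ e = P ^ n * y) (hx : x ∈ W) : ∃ j : ℕ, x = P ^ j * y := by
  have hv := congrArg W.valuation h
  rw [map_mul, map_mul, map_pow, map_pow, hy.val hW, mul_one] at hv
  have hPpos : 0 < W.valuation P := zero_lt_iff.mpr ((Valuation.ne_zero_iff _).mpr hP0)
  have hle : e ≤ n := by
    by_contra hcon
    have h4 := pow_lt_pow_right_of_lt_one₀ hPpos hP (not_le.mp hcon)
    have h5 : W.valuation P ^ n ≤ W.valuation P ^ e := by
      rw [← hv]
      calc W.valuation x * W.valuation P ^ e ≤ 1 * W.valuation P ^ e :=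
            mul_le_mul' ((W.valuation_le_one_iff _).mpr hx) le_rfl
        _ = W.valuation P ^ e := one_mul _
    exact absurd h5 (not_le.mpr h4)
  obtain ⟨j, rfl⟩ := Nat.exists_eq_add_of_le hle
  refine ⟨j, ?_⟩
  have e' : x * P ^ e = (P ^ j * y) * P ^ e := by rw [h, pow_add]; ring
  exact mul_right_cancel₀ (pow_ne_zero _ hP0) e'

theorem exists_residue_of_eq (hW : W.comap (algebraMap F' F) = V') {P : F}
    (hP : W.valuation P < 1) {x y : F} {j : ℕ} (hy : ResUnit W V' y) (h : x = P ^ j * y) :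
    ∃ c ∈ V', W.valuation (x - algebraMap F' F c) < 1 := by
  rcases j with _ | j
  · obtain ⟨c, hc, hyc⟩ := hy
    exact ⟨c, (V'.valuation_le_one_iff c).mp hc.le, by rw [h, pow_zero, one_mul]; exact hyc⟩
  · refine ⟨0, V'.zero_mem, ?_⟩
    rw [map_zero, sub_zero, h, map_mul, map_pow, hy.val hW, mul_one]
    exact pow_lt_one₀ zero_le hP (Nat.succ_ne_zero j)

theorem mul_inv_mem_of_eq (hW : W.comap (algebraMap F' F) = V') {P : F} (hP0 : P ≠ 0)
    (hP : W.valuation P < 1) {x y : F} {j : ℕ} (hy : ResUnit W V' y) (h : x = P ^ j * y)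
    (hx : W.valuation x < 1) : x * P⁻¹ ∈ W := by
  rcases j with _ | j
  · exfalso
    rw [h, pow_zero, one_mul, hy.val hW] at hx
    exact lt_irrefl _ hx
  · have e : x * P⁻¹ = P ^ j * y := by
      rw [h, pow_succ]; field_simp
    rw [e, ← W.valuation_le_one_iff, map_mul, map_pow, hy.val hW, mul_one]
    exact pow_le_one₀ zero_le hP.le

end Transfer


/-! ### The datum -/

/-- The level-`q²` datum in abstract form.  `V'` is a valuation ring of `F'` with maximal ideal
`(ϖ)` and archimedean value group, `T ∈ F` satisfies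
`T ^ (m+1) * (T + u) + ϖ * G(T) = 0` with `u`, `G(0)` units of `V'`, `G ∈ V'[X]` of degree
`≤ m + 1`, and `F = F'[T]`. -/
structure MidDatum (V' : ValuationSubring F') (ϖ u : F') (G : F'[X]) (m : ℕ) (T : F) : Prop where
  ϖ_ne : ϖ ≠ 0
  ϖ_lt : V'.valuation ϖ < 1
  unif : ∀ x : F', V'.valuation x < 1 → x * ϖ⁻¹ ∈ V'
  arch : ∀ c : F', c ∈ V' → c ≠ 0 → ∃ n : ℕ, c * ϖ⁻¹ ^ n ∉ V'
  u_unit : V'.valuation u = 1
  G_int : IsInt V' G
  G_deg : G.natDegree ≤ m + 1
  G_unit : V'.valuation (G.coeff 0) = 1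
  eq : T ^ (m + 1) * (T + algebraMap F' F u) + algebraMap F' F ϖ * aeval T G = 0
  gen : ∀ x : F, ∃ h : F'[X], aeval T h = x

namespace MidDatum

variable {V' : ValuationSubring F'} {ϖ u : F'} {G : F'[X]} {m : ℕ} {T : F}

theorem ϖ_mem (D : MidDatum V' ϖ u G m T) : ϖ ∈ V' :=
  (V'.valuation_le_one_iff _).mp D.ϖ_lt.le

theorem u_mem (D : MidDatum V' ϖ u G m T) : u ∈ V' :=
  (V'.valuation_le_one_iff _).mp D.u_unit.le

theorem u_ne (D : MidDatum V' ϖ u G m T) : u ≠ 0 := by
  intro h
  have := D.u_unit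
  rw [h, map_zero] at this
  exact zero_ne_one this

theorem T_ne (D : MidDatum V' ϖ u G m T) : T ≠ 0 := by
  intro h
  have e := D.eq
  have hG : aeval (0 : F) G = algebraMap F' F (G.coeff 0) := by
    rw [aeval_eq_divX, zero_mul, zero_add]
  rw [h, zero_pow (Nat.succ_ne_zero m), zero_mul, zero_add, hG, ← map_mul, map_eq_zero] at e
  rcases mul_eq_zero.mp e with h1 | h1
  · exact D.ϖ_ne h1
  · have := D.G_unit
    rw [h1, map_zero] at this
    exact zero_ne_one this

section Over

variable {W : ValuationSubring F}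

theorem val_ϖ_lt (D : MidDatum V' ϖ u G m T) (hW : W.comap (algebraMap F' F) = V') :
    W.valuation (algebraMap F' F ϖ) < 1 :=
  (val_map_lt_one_iff hW ϖ).mpr D.ϖ_lt

theorem val_ϖ_pos (D : MidDatum V' ϖ u G m T) :
    0 < W.valuation (algebraMap F' F ϖ) :=
  zero_lt_iff.mpr ((Valuation.ne_zero_iff _).mpr (by rw [Ne, map_eq_zero]; exact D.ϖ_ne))

theorem val_u (D : MidDatum V' ϖ u G m T) (hW : W.comap (algebraMap F' F) = V') :
    W.valuation (algebraMap F' F u) = 1 :=
  (val_map_eq_one_iff hW u).mpr D.u_unit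

/-- Bound for `g(T)` when `1 ≤ w(T)`. -/
theorem val_aeval_le_pow (hW : W.comap (algebraMap F' F) = V') {Z : F}
    (hZ : 1 ≤ W.valuation Z) {g : F'[X]} (hg : IsInt V' g) :
    W.valuation (aeval Z g) ≤ W.valuation Z ^ g.natDegree := by
  rw [aeval_eq_sum_range]
  refine Valuation.map_sum_le _ fun i hi => ?_
  rw [Algebra.smul_def, map_mul, map_pow]
  have h1 : W.valuation (algebraMap F' F (g.coeff i)) ≤ 1 :=
    (W.valuation_le_one_iff _).mpr ((map_mem_iff hW _).mpr (hg i))
  have h2 : W.valuation Z ^ i ≤ W.valuation Z ^ g.natDegree :=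
    pow_le_pow_right₀ hZ (Nat.lt_succ_iff.mp (Finset.mem_range.mp hi))
  calc W.valuation (algebraMap F' F (g.coeff i)) * W.valuation Z ^ i
      ≤ 1 * W.valuation Z ^ g.natDegree := mul_le_mul' h1 h2
    _ = W.valuation Z ^ g.natDegree := one_mul _

/-- `T` lies in every valuation ring of `F` over `V'`. -/
theorem T_mem (D : MidDatum V' ϖ u G m T) (hW : W.comap (algebraMap F' F) = V') : T ∈ W := by
  rw [← W.valuation_le_one_iff]
  by_contra hcon
  have hT : 1 < W.valuation T := not_le.mp hcon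
  have hTpos : 0 < W.valuation T := lt_trans zero_lt_one hT
  have e1 : T ^ (m + 1) * (T + algebraMap F' F u) = -(algebraMap F' F ϖ * aeval T G) := by
    linear_combination D.eq
  have h1 : W.valuation (T + algebraMap F' F u) = W.valuation T := by
    apply Valuation.map_add_eq_of_lt_left
    rw [D.val_u hW]; exact hT
  have h2 := congrArg W.valuation e1
  rw [map_mul, map_pow, h1, Valuation.map_neg, map_mul] at h2
  have h3 : W.valuation (aeval T G) ≤ W.valuation T ^ (m + 1) :=
    (val_aeval_le_pow hW hT.le D.G_int).trans (pow_le_pow_right₀ hT.le D.G_deg)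
  have hpowpos : 0 < W.valuation T ^ (m + 1) := pow_pos hTpos _
  have h4 : W.valuation (algebraMap F' F ϖ) * W.valuation (aeval T G)
      < W.valuation T ^ (m + 1) * W.valuation T := by
    calc W.valuation (algebraMap F' F ϖ) * W.valuation (aeval T G)
        ≤ 1 * W.valuation T ^ (m + 1) := mul_le_mul' (D.val_ϖ_lt hW).le h3
      _ = W.valuation T ^ (m + 1) * 1 := by rw [one_mul, mul_one]
      _ < W.valuation T ^ (m + 1) * W.valuation T := (mul_lt_mul_iff_of_pos_left hpowpos).mpr hT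
  rw [h2] at h4
  exact lt_irrefl _ h4

/-- The step for the middle type (`W`-independent): `G(T) * g(T) = T * g₁(T)` when `g(0)` is a
non-unit. -/
theorem mid_step (D : MidDatum V' ϖ u G m T) (g : F'[X]) (hg : IsInt V' g)
    (h0 : V'.valuation (g.coeff 0) < 1) :
    ∃ g1 : F'[X], IsInt V' g1 ∧ aeval T G * aeval T g = T * aeval T g1 := by
  obtain ⟨b, hb, hg0⟩ : ∃ b : F', b ∈ V' ∧
      algebraMap F' F (g.coeff 0) = algebraMap F' F ϖ * algebraMap F' F b := by
    refine ⟨g.coeff 0 * ϖ⁻¹, D.unif _ h0, ?_⟩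
    rw [← map_mul, mul_comm (g.coeff 0), ← mul_assoc, mul_inv_cancel₀ D.ϖ_ne, one_mul]
  refine ⟨-(X ^ m * (X + C u) * C b) + G * g.divX, ?_, ?_⟩
  · exact ((((IsInt.X.pow m).mul (IsInt.X.add (IsInt.C D.u_mem))).mul (IsInt.C hb)).neg).add
      (D.G_int.mul hg.divX)
  · rw [aeval_eq_divX T g]
    simp only [map_add, map_neg, map_mul, map_pow, aeval_X, aeval_C]
    linear_combination (algebraMap F' F b) * D.eq + aeval T G * hg0

/-- The step for the type at infinity (`W`-independent), in the variable `S = T + u`. -/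
theorem inf_step (D : MidDatum V' ϖ u G m T) (g : F'[X]) (hg : IsInt V' g)
    (h0 : V'.valuation (g.coeff 0) < 1) :
    ∃ g1 : F'[X], IsInt V' g1 ∧
      aeval (T + algebraMap F' F u) ((X - C u) ^ (m + 1)) * aeval (T + algebraMap F' F u) g =
        algebraMap F' F ϖ * aeval (T + algebraMap F' F u) g1 := by
  obtain ⟨b, hb, hg0⟩ : ∃ b : F', b ∈ V' ∧
      algebraMap F' F (g.coeff 0) = algebraMap F' F ϖ * algebraMap F' F b := by
    refine ⟨g.coeff 0 * ϖ⁻¹, D.unif _ h0, ?_⟩
    rw [← map_mul, mul_comm (g.coeff 0), ← mul_assoc, mul_inv_cancel₀ D.ϖ_ne, one_mul]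
  have hXu : IsInt V' (X - C u) := IsInt.X.sub (IsInt.C D.u_mem)
  have hT : aeval (T + algebraMap F' F u) (X - C u) = T := by
    simp
  have hGc : aeval (T + algebraMap F' F u) (G.comp (X - C u)) = aeval T G := by
    rw [aeval_comp, hT]
  refine ⟨(X - C u) ^ (m + 1) * C b - G.comp (X - C u) * g.divX, ?_, ?_⟩
  · exact ((hXu.pow _).mul (IsInt.C hb)).sub ((D.G_int.comp hXu).mul hg.divX)
  · rw [aeval_eq_divX (T + algebraMap F' F u) g]
    simp only [map_sub, map_mul, map_pow, hGc, hT, aeval_C]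
    linear_combination (aeval (T + algebraMap F' F u) g.divX) * D.eq +
      T ^ (m + 1) * hg0


/-! #### The two types -/

theorem mid_val_S (D : MidDatum V' ϖ u G m T) (hW : W.comap (algebraMap F' F) = V')
    (hT : W.valuation T < 1) : W.valuation (T + algebraMap F' F u) = 1 := by
  rw [Valuation.map_add_eq_of_lt_right _ (by rw [D.val_u hW]; exact hT), D.val_u hW]

theorem mid_val_G (D : MidDatum V' ϖ u G m T) (hW : W.comap (algebraMap F' F) = V')
    (hT : W.valuation T < 1) : W.valuation (aeval T G) = 1 :=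
  (val_aeval_eq_one_iff hW hT D.G_int).mpr D.G_unit

/-- Middle type: `T ^ (m+1)` and `ϖ` have the same valuation. -/
theorem mid_val_pow (D : MidDatum V' ϖ u G m T) (hW : W.comap (algebraMap F' F) = V')
    (hT : W.valuation T < 1) :
    W.valuation T ^ (m + 1) = W.valuation (algebraMap F' F ϖ) := by
  have e1 : T ^ (m + 1) * (T + algebraMap F' F u) = -(algebraMap F' F ϖ * aeval T G) := by
    linear_combination D.eq
  have h2 := congrArg W.valuation e1
  rwa [map_mul, map_pow, D.mid_val_S hW hT, mul_one, Valuation.map_neg, map_mul,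
    D.mid_val_G hW hT, mul_one] at h2

theorem inf_val_T (D : MidDatum V' ϖ u G m T) (hW : W.comap (algebraMap F' F) = V')
    (hS : W.valuation (T + algebraMap F' F u) < 1) : W.valuation T = 1 := by
  have e : T = (T + algebraMap F' F u) - algebraMap F' F u := by ring
  rw [e, Valuation.map_sub_eq_of_lt_right _ (by rw [D.val_u hW]; exact hS), D.val_u hW]

/-- Every valuation ring of `F` over `V'` is of middle type (`T` a non-unit) or of the type at
infinity (`T + u` a non-unit). -/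
theorem dichotomy (D : MidDatum V' ϖ u G m T) (hW : W.comap (algebraMap F' F) = V') :
    W.valuation T < 1 ∨ W.valuation (T + algebraMap F' F u) < 1 := by
  by_cases hT : W.valuation T < 1
  · exact Or.inl hT
  · right
    have hT1 : W.valuation T = 1 :=
      le_antisymm ((W.valuation_le_one_iff _).mpr (D.T_mem hW)) (not_lt.mp hT)
    have e1 : T ^ (m + 1) * (T + algebraMap F' F u) = -(algebraMap F' F ϖ * aeval T G) := by
      linear_combination D.eq
    have h2 := congrArg W.valuation e1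
    rw [map_mul, map_pow, hT1, one_pow, one_mul, Valuation.map_neg, map_mul] at h2
    rw [h2]
    have hG : W.valuation (aeval T G) ≤ 1 :=
      (W.valuation_le_one_iff _).mpr (aeval_mem hW (D.T_mem hW) D.G_int)
    calc W.valuation (algebraMap F' F ϖ) * W.valuation (aeval T G)
        ≤ W.valuation (algebraMap F' F ϖ) * 1 := mul_le_mul_right hG _
      _ = W.valuation (algebraMap F' F ϖ) := mul_one _
      _ < 1 := D.val_ϖ_lt hW

/-- The two types are exclusive. -/
theorem not_both (D : MidDatum V' ϖ u G m T) (hW : W.comap (algebraMap F' F) = V')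
    (hT : W.valuation T < 1) : ¬ W.valuation (T + algebraMap F' F u) < 1 := by
  rw [D.mid_val_S hW hT]; exact lt_irrefl 1

/-! #### Clearing denominators and the archimedean bound -/

theorem exists_pow_mul_mem (D : MidDatum V' ϖ u G m T) (d : F') :
    ∃ n : ℕ, ∀ k, n ≤ k → ϖ ^ k * d ∈ V' := by
  by_cases hd : d ∈ V'
  · exact ⟨0, fun k _ => V'.mul_mem _ _ (pow_mem D.ϖ_mem k) hd⟩
  · have hd0 : d ≠ 0 := fun h => hd (h ▸ V'.zero_mem)
    have hdi : d⁻¹ ∈ V' := (V'.mem_or_inv_mem d).resolve_left hd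
    obtain ⟨n, hn⟩ := D.arch d⁻¹ hdi (inv_ne_zero hd0)
    have h1 : ϖ ^ n * d ∈ V' := by
      have := (V'.mem_or_inv_mem (d⁻¹ * ϖ⁻¹ ^ n)).resolve_left hn
      have e : (d⁻¹ * ϖ⁻¹ ^ n)⁻¹ = ϖ ^ n * d := by
        rw [mul_inv, inv_inv, inv_pow, inv_inv, mul_comm]
      rwa [e] at this
    refine ⟨n, fun k hk => ?_⟩
    obtain ⟨j, rfl⟩ := Nat.exists_eq_add_of_le hk
    have e : ϖ ^ (n + j) * d = ϖ ^ j * (ϖ ^ n * d) := by ring
    rw [e]
    exact V'.mul_mem _ _ (pow_mem D.ϖ_mem j) h1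

theorem exists_isInt_C_mul (D : MidDatum V' ϖ u G m T) (h : F'[X]) :
    ∃ N : ℕ, ∀ k, N ≤ k → IsInt V' (C (ϖ ^ k) * h) := by
  induction h using Polynomial.induction_on' with
  | add p q hp hq =>
    obtain ⟨N1, h1⟩ := hp
    obtain ⟨N2, h2⟩ := hq
    refine ⟨max N1 N2, fun k hk => ?_⟩
    rw [mul_add]
    exact (h1 k (le_trans (le_max_left _ _) hk)).add (h2 k (le_trans (le_max_right _ _) hk))
  | monomial n a =>
    obtain ⟨N, hN⟩ := D.exists_pow_mul_mem a
    refine ⟨N, fun k hk i => ?_⟩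
    rw [C_mul_monomial, coeff_monomial]
    split_ifs
    · exact hN k hk
    · exact V'.zero_mem

/-- Archimedean bound: every nonzero element of `F` has valuation `> w(ϖ) ^ N` for some `N`. -/
theorem exists_pow_lt (D : MidDatum V' ϖ u G m T) (hW : W.comap (algebraMap F' F) = V')
    {x : F} (hx : x ≠ 0) :
    ∃ N : ℕ, W.valuation (algebraMap F' F ϖ) ^ N < W.valuation x := by
  obtain ⟨h, hh⟩ := D.gen x⁻¹
  obtain ⟨N, hN⟩ := D.exists_isInt_C_mul h
  have h1 : aeval T (C (ϖ ^ N) * h) ∈ W := aeval_mem hW (D.T_mem hW) (hN N le_rfl)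
  rw [map_mul, aeval_C, hh, map_pow] at h1
  have h2 := (W.valuation_le_one_iff _).mpr h1
  rw [map_mul, map_pow, map_inv₀] at h2
  have hxpos : 0 < W.valuation x := zero_lt_iff.mpr ((Valuation.ne_zero_iff _).mpr hx)
  have h3 : W.valuation (algebraMap F' F ϖ) ^ N ≤ W.valuation x := by
    rw [mul_inv_le_iff₀ hxpos, one_mul] at h2
    exact h2
  refine ⟨N + 1, lt_of_lt_of_le ?_ h3⟩
  rw [pow_succ]
  calc W.valuation (algebraMap F' F ϖ) ^ N * W.valuation (algebraMap F' F ϖ)
      < W.valuation (algebraMap F' F ϖ) ^ N * 1 :=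
        (mul_lt_mul_iff_of_pos_left (pow_pos D.val_ϖ_pos N)).mpr (D.val_ϖ_lt hW)
    _ = W.valuation (algebraMap F' F ϖ) ^ N := mul_one _

/-! #### Normal forms -/

/-- **Normal form, middle type** (the data `N n s a` do not depend on `W`). -/
theorem mid_normal_form (D : MidDatum V' ϖ u G m T) (hW : W.comap (algebraMap F' F) = V')
    (hT : W.valuation T < 1) {x : F} (hx : x ≠ 0) :
    ∃ (N n : ℕ) (s a : F'[X]), IsInt V' s ∧ IsInt V' a ∧ V'.valuation (s.coeff 0) = 1 ∧
      V'.valuation (a.coeff 0) = 1 ∧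
      aeval T s * algebraMap F' F ϖ ^ N * x = T ^ n * aeval T a := by
  obtain ⟨h, hh⟩ := D.gen x
  obtain ⟨N, hN⟩ := D.exists_isInt_C_mul h
  have hg := hN N le_rfl
  have e0 : aeval T (C (ϖ ^ N) * h) = algebraMap F' F ϖ ^ N * x := by
    rw [map_mul, aeval_C, hh, map_pow]
  have hϖ0 : algebraMap F' F ϖ ≠ 0 := by rw [Ne, map_eq_zero]; exact D.ϖ_ne
  have hne : aeval T (C (ϖ ^ N) * h) ≠ 0 := by
    rw [e0]; exact mul_ne_zero (pow_ne_zero _ hϖ0) hx
  obtain ⟨N', hN'⟩ := D.exists_pow_lt hW hne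
  rw [← D.mid_val_pow hW hT, ← pow_mul] at hN'
  obtain ⟨n, s, a, hs, ha, hs0, ha0, e⟩ :=
    exists_factor hW hT D.T_ne D.G_int D.G_unit D.mid_step _ _ hg hN'
  refine ⟨N, n, s, a, hs, ha, hs0, ha0, ?_⟩
  rw [mul_assoc, ← e0]
  exact e

/-- **Normal form, type at infinity**, in the variable `S = T + u`. -/
theorem inf_normal_form (D : MidDatum V' ϖ u G m T) (hW : W.comap (algebraMap F' F) = V')
    (hS : W.valuation (T + algebraMap F' F u) < 1) {x : F} (hx : x ≠ 0) :
    ∃ (N n : ℕ) (s a : F'[X]), IsInt V' s ∧ IsInt V' a ∧ V'.valuation (s.coeff 0) = 1 ∧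
      V'.valuation (a.coeff 0) = 1 ∧
      aeval (T + algebraMap F' F u) s * algebraMap F' F ϖ ^ N * x =
        algebraMap F' F ϖ ^ n * aeval (T + algebraMap F' F u) a := by
  obtain ⟨h, hh⟩ := D.gen x
  have hT : aeval (T + algebraMap F' F u) (X - C u) = T := by simp
  have hh' : aeval (T + algebraMap F' F u) (h.comp (X - C u)) = x := by
    rw [aeval_comp, hT, hh]
  obtain ⟨N, hN⟩ := D.exists_isInt_C_mul (h.comp (X - C u))
  have hg := hN N le_rfl
  have e0 : aeval (T + algebraMap F' F u) (C (ϖ ^ N) * h.comp (X - C u)) =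
      algebraMap F' F ϖ ^ N * x := by
    rw [map_mul, aeval_C, hh', map_pow]
  have hϖ0 : algebraMap F' F ϖ ≠ 0 := by rw [Ne, map_eq_zero]; exact D.ϖ_ne
  have hne : aeval (T + algebraMap F' F u) (C (ϖ ^ N) * h.comp (X - C u)) ≠ 0 := by
    rw [e0]; exact mul_ne_zero (pow_ne_zero _ hϖ0) hx
  obtain ⟨N', hN'⟩ := D.exists_pow_lt hW hne
  have hXu : IsInt V' (X - C u) := IsInt.X.sub (IsInt.C D.u_mem)
  have hμ0 : V'.valuation (((X - C u) ^ (m + 1)).coeff 0) = 1 := by
    rw [coeff_zero_eq_eval_zero, eval_pow, eval_sub, eval_X, eval_C, zero_sub, map_pow,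
      Valuation.map_neg, D.u_unit, one_pow]
  obtain ⟨n, s, a, hs, ha, hs0, ha0, e⟩ :=
    exists_factor hW hS hϖ0 (hXu.pow _) hμ0 D.inf_step _ _ hg hN'
  refine ⟨N, n, s, a, hs, ha, hs0, ha0, ?_⟩
  rw [mul_assoc, ← e0]
  exact e

/-- Membership in a valuation ring of middle type, read off from a normal form. -/
theorem mid_mem_iff (D : MidDatum V' ϖ u G m T) (hW : W.comap (algebraMap F' F) = V')
    (hT : W.valuation T < 1) {x : F} {N n : ℕ} {s a : F'[X]} (hs : IsInt V' s)
    (ha : IsInt V' a) (hs0 : V'.valuation (s.coeff 0) = 1) (ha0 : V'.valuation (a.coeff 0) = 1)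
    (e : aeval T s * algebraMap F' F ϖ ^ N * x = T ^ n * aeval T a) :
    x ∈ W ↔ (m + 1) * N ≤ n := by
  have h1 : W.valuation (aeval T s) = 1 := (val_aeval_eq_one_iff hW hT hs).mpr hs0
  have h2 : W.valuation (aeval T a) = 1 := (val_aeval_eq_one_iff hW hT ha).mpr ha0
  have h3 := congrArg W.valuation e
  rw [map_mul, map_mul, map_pow, h1, one_mul, map_mul, map_pow, h2, mul_one,
    ← D.mid_val_pow hW hT, ← pow_mul] at h3
  have hTpos : 0 < W.valuation T := zero_lt_iff.mpr ((Valuation.ne_zero_iff _).mpr D.T_ne)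
  rw [← W.valuation_le_one_iff]
  constructor
  · intro hx
    by_contra hcon
    have hlt : n < (m + 1) * N := not_le.mp hcon
    have h4 := pow_lt_pow_right_of_lt_one₀ hTpos hT hlt
    have h5 : W.valuation T ^ n ≤ W.valuation T ^ ((m + 1) * N) := by
      rw [← h3]
      calc W.valuation T ^ ((m + 1) * N) * W.valuation x
          ≤ W.valuation T ^ ((m + 1) * N) * 1 := mul_le_mul_right hx _
        _ = W.valuation T ^ ((m + 1) * N) := mul_one _
    exact absurd h5 (not_le.mpr h4)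
  · intro hle
    obtain ⟨j, rfl⟩ := Nat.exists_eq_add_of_le hle
    rw [pow_add] at h3
    have h5 : W.valuation x = W.valuation T ^ j :=
      mul_left_cancel₀ (pow_ne_zero _ hTpos.ne') h3
    rw [h5]
    exact pow_le_one₀ zero_le hT.le

/-- Membership in a valuation ring of the type at infinity, read off from a normal form. -/
theorem inf_mem_iff (D : MidDatum V' ϖ u G m T) (hW : W.comap (algebraMap F' F) = V')
    (hS : W.valuation (T + algebraMap F' F u) < 1) {x : F} {N n : ℕ} {s a : F'[X]}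
    (hs : IsInt V' s) (ha : IsInt V' a) (hs0 : V'.valuation (s.coeff 0) = 1)
    (ha0 : V'.valuation (a.coeff 0) = 1)
    (e : aeval (T + algebraMap F' F u) s * algebraMap F' F ϖ ^ N * x =
      algebraMap F' F ϖ ^ n * aeval (T + algebraMap F' F u) a) :
    x ∈ W ↔ N ≤ n := by
  have h1 : W.valuation (aeval (T + algebraMap F' F u) s) = 1 :=
    (val_aeval_eq_one_iff hW hS hs).mpr hs0
  have h2 : W.valuation (aeval (T + algebraMap F' F u) a) = 1 :=
    (val_aeval_eq_one_iff hW hS ha).mpr ha0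
  have h3 := congrArg W.valuation e
  rw [map_mul, map_mul, map_pow, h1, one_mul, map_mul, map_pow, h2, mul_one] at h3
  have hpos : 0 < W.valuation (algebraMap F' F ϖ) := D.val_ϖ_pos
  have hlt1 := D.val_ϖ_lt hW
  rw [← W.valuation_le_one_iff]
  constructor
  · intro hx
    by_contra hcon
    have hlt : n < N := not_le.mp hcon
    have h4 := pow_lt_pow_right_of_lt_one₀ hpos hlt1 hlt
    have h5 : W.valuation (algebraMap F' F ϖ) ^ n ≤ W.valuation (algebraMap F' F ϖ) ^ N := by
      rw [← h3]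
      calc W.valuation (algebraMap F' F ϖ) ^ N * W.valuation x
          ≤ W.valuation (algebraMap F' F ϖ) ^ N * 1 := mul_le_mul_right hx _
        _ = W.valuation (algebraMap F' F ϖ) ^ N := mul_one _
    exact absurd h5 (not_le.mpr h4)
  · intro hle
    obtain ⟨j, rfl⟩ := Nat.exists_eq_add_of_le hle
    rw [pow_add] at h3
    have h5 : W.valuation x = W.valuation (algebraMap F' F ϖ) ^ j :=
      mul_left_cancel₀ (pow_ne_zero _ hpos.ne') h3
    rw [h5]
    exact pow_le_one₀ zero_le hlt1.le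

/-! #### Structure of the two valuation rings -/

theorem mid_resUnit_S (D : MidDatum V' ϖ u G m T) (hT : W.valuation T < 1) :
    ResUnit W V' (T + algebraMap F' F u) :=
  ⟨u, D.u_unit, by rw [add_sub_cancel_right]; exact hT⟩

/-- Middle type: `T ^ (m+1) / ϖ` is congruent to the unit `-G(0)/u`. -/
theorem mid_resUnit_eps (D : MidDatum V' ϖ u G m T) (hW : W.comap (algebraMap F' F) = V')
    (hT : W.valuation T < 1) :
    ResUnit W V' (T ^ (m + 1) * (algebraMap F' F ϖ)⁻¹) := by
  have hS := D.mid_resUnit_S (W := W) hT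
  have hG : ResUnit W V' (aeval T G) := resUnit_aeval hW hT D.G_int D.G_unit
  have hS0 : T + algebraMap F' F u ≠ 0 := hS.ne_zero hW
  have hϖ0 : algebraMap F' F ϖ ≠ 0 := by rw [Ne, map_eq_zero]; exact D.ϖ_ne
  have e : T ^ (m + 1) * (algebraMap F' F ϖ)⁻¹ =
      -(aeval T G * (T + algebraMap F' F u)⁻¹) := by
    field_simp
    linear_combination D.eq
  rw [e]
  exact (hG.mul hW (hS.inv hW)).neg

/-- Explicit residue of `T ^ (m+1) / ϖ` in the middle valuation ring. -/
theorem mid_val_eps_add (D : MidDatum V' ϖ u G m T) (hW : W.comap (algebraMap F' F) = V')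
    (hT : W.valuation T < 1) :
    W.valuation (T ^ (m + 1) * (algebraMap F' F ϖ)⁻¹ + algebraMap F' F (G.coeff 0 * u⁻¹)) < 1 := by
  have hS := D.mid_resUnit_S (W := W) hT
  have hS0 : T + algebraMap F' F u ≠ 0 := hS.ne_zero hW
  have hϖ0 : algebraMap F' F ϖ ≠ 0 := by rw [Ne, map_eq_zero]; exact D.ϖ_ne
  have hu0 : algebraMap F' F u ≠ 0 := by rw [Ne, map_eq_zero]; exact D.u_ne
  have e : T ^ (m + 1) * (algebraMap F' F ϖ)⁻¹ + algebraMap F' F (G.coeff 0 * u⁻¹) =
      T * ((algebraMap F' F (G.coeff 0) - algebraMap F' F u * aeval T G.divX) *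
        ((T + algebraMap F' F u)⁻¹ * (algebraMap F' F u)⁻¹)) := by
    have e1 := aeval_eq_divX T G
    rw [map_mul, map_inv₀]
    field_simp
    linear_combination (algebraMap F' F u) * D.eq -
      (algebraMap F' F ϖ * algebraMap F' F u) * e1
  rw [e, map_mul, map_mul, map_mul, map_inv₀, map_inv₀, hS.val hW, D.val_u hW, inv_one,
    mul_one, mul_one]
  have h1 : W.valuation (algebraMap F' F (G.coeff 0) - algebraMap F' F u * aeval T G.divX) ≤ 1 := by
    rw [W.valuation_le_one_iff]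
    exact sub_mem ((map_mem_iff hW _).mpr (D.G_int 0))
      (W.mul_mem _ _ ((map_mem_iff hW _).mpr D.u_mem)
        (aeval_mem hW (D.T_mem hW) D.G_int.divX))
  calc W.valuation T * W.valuation (algebraMap F' F (G.coeff 0) -
        algebraMap F' F u * aeval T G.divX) ≤ W.valuation T * 1 := mul_le_mul_right h1 _
    _ = W.valuation T := mul_one _
    _ < 1 := hT

/-- **Structure, middle type**: every nonzero `x` is a power of `T` times a unit congruent to a
constant (`x = T ^ (n - e) * y`). -/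
theorem mid_structure (D : MidDatum V' ϖ u G m T) (hW : W.comap (algebraMap F' F) = V')
    (hT : W.valuation T < 1) {x : F} (hx : x ≠ 0) :
    ∃ (e n : ℕ) (y : F), ResUnit W V' y ∧ x * T ^ e = T ^ n * y := by
  obtain ⟨N, n, s, a, hs, ha, hs0, ha0, e⟩ := D.mid_normal_form hW hT hx
  have hsU := resUnit_aeval hW hT hs hs0
  have haU := resUnit_aeval hW hT ha ha0
  have hε := D.mid_resUnit_eps hW hT
  have hs0' : aeval T s ≠ 0 := hsU.ne_zero hW
  have hϖ0 : algebraMap F' F ϖ ≠ 0 := by rw [Ne, map_eq_zero]; exact D.ϖ_ne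
  refine ⟨(m + 1) * N, n, aeval T a * (T ^ (m + 1) * (algebraMap F' F ϖ)⁻¹) ^ N * (aeval T s)⁻¹,
    (haU.mul hW (hε.pow hW N)).mul hW (hsU.inv hW), ?_⟩
  rw [mul_pow, ← pow_mul, inv_pow]
  field_simp
  linear_combination (T ^ ((m + 1) * N)) * e

/-- **Structure, type at infinity**: every nonzero `x` is a power of `ϖ` times a unit congruent
to a constant. -/
theorem inf_structure (D : MidDatum V' ϖ u G m T) (hW : W.comap (algebraMap F' F) = V')
    (hS : W.valuation (T + algebraMap F' F u) < 1) {x : F} (hx : x ≠ 0) :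
    ∃ (e n : ℕ) (y : F), ResUnit W V' y ∧
      x * algebraMap F' F ϖ ^ e = algebraMap F' F ϖ ^ n * y := by
  obtain ⟨N, n, s, a, hs, ha, hs0, ha0, e⟩ := D.inf_normal_form hW hS hx
  have hsU := resUnit_aeval hW hS hs hs0
  have haU := resUnit_aeval hW hS ha ha0
  have hs0' : aeval (T + algebraMap F' F u) s ≠ 0 := hsU.ne_zero hW
  refine ⟨N, n, aeval (T + algebraMap F' F u) a * (aeval (T + algebraMap F' F u) s)⁻¹,
    haU.mul hW (hsU.inv hW), ?_⟩
  field_simp
  linear_combination e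

/-- Middle type: the residue field of `W` is that of `V'`. -/
theorem mid_residue (D : MidDatum V' ϖ u G m T) (hW : W.comap (algebraMap F' F) = V')
    (hT : W.valuation T < 1) {x : F} (hx : x ∈ W) :
    ∃ c ∈ V', W.valuation (x - algebraMap F' F c) < 1 := by
  rcases eq_or_ne x 0 with rfl | hx0
  · exact ⟨0, V'.zero_mem, by rw [map_zero, sub_zero, map_zero]; exact zero_lt_one⟩
  · obtain ⟨e, n, y, hy, h⟩ := D.mid_structure hW hT hx0
    obtain ⟨j, hj⟩ := exists_eq_pow_mul hW D.T_ne hT hy h hx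
    exact exists_residue_of_eq hW hT hy hj

/-- Middle type: `T` generates the maximal ideal of `W`. -/
theorem mid_uniformizer (D : MidDatum V' ϖ u G m T) (hW : W.comap (algebraMap F' F) = V')
    (hT : W.valuation T < 1) {x : F} (hx : W.valuation x < 1) : x * T⁻¹ ∈ W := by
  rcases eq_or_ne x 0 with rfl | hx0
  · rw [zero_mul]; exact W.zero_mem
  · obtain ⟨e, n, y, hy, h⟩ := D.mid_structure hW hT hx0
    obtain ⟨j, hj⟩ := exists_eq_pow_mul hW D.T_ne hT hy h ((W.valuation_le_one_iff _).mp hx.le)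
    exact mul_inv_mem_of_eq hW D.T_ne hT hy hj hx

/-- Type at infinity: the residue field of `W` is that of `V'`. -/
theorem inf_residue (D : MidDatum V' ϖ u G m T) (hW : W.comap (algebraMap F' F) = V')
    (hS : W.valuation (T + algebraMap F' F u) < 1) {x : F} (hx : x ∈ W) :
    ∃ c ∈ V', W.valuation (x - algebraMap F' F c) < 1 := by
  have hϖ0 : algebraMap F' F ϖ ≠ 0 := by rw [Ne, map_eq_zero]; exact D.ϖ_ne
  rcases eq_or_ne x 0 with rfl | hx0
  · exact ⟨0, V'.zero_mem, by rw [map_zero, sub_zero, map_zero]; exact zero_lt_one⟩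
  · obtain ⟨e, n, y, hy, h⟩ := D.inf_structure hW hS hx0
    obtain ⟨j, hj⟩ := exists_eq_pow_mul hW hϖ0 (D.val_ϖ_lt hW) hy h hx
    exact exists_residue_of_eq hW (D.val_ϖ_lt hW) hy hj

/-- Type at infinity: `ϖ` generates the maximal ideal of `W`. -/
theorem inf_uniformizer (D : MidDatum V' ϖ u G m T) (hW : W.comap (algebraMap F' F) = V')
    (hS : W.valuation (T + algebraMap F' F u) < 1) {x : F} (hx : W.valuation x < 1) :
    x * (algebraMap F' F ϖ)⁻¹ ∈ W := by
  have hϖ0 : algebraMap F' F ϖ ≠ 0 := by rw [Ne, map_eq_zero]; exact D.ϖ_ne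
  rcases eq_or_ne x 0 with rfl | hx0
  · rw [zero_mul]; exact W.zero_mem
  · obtain ⟨e, n, y, hy, h⟩ := D.inf_structure hW hS hx0
    obtain ⟨j, hj⟩ := exists_eq_pow_mul hW hϖ0 (D.val_ϖ_lt hW) hy h
      ((W.valuation_le_one_iff _).mp hx.le)
    exact mul_inv_mem_of_eq hW hϖ0 (D.val_ϖ_lt hW) hy hj hx

end Over

/-! #### Uniqueness -/

/-- **Uniqueness of the middle valuation ring.** -/
theorem mid_unique (D : MidDatum V' ϖ u G m T) {W₁ W₂ : ValuationSubring F}
    (h₁ : W₁.comap (algebraMap F' F) = V') (h₂ : W₂.comap (algebraMap F' F) = V')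
    (hT₁ : W₁.valuation T < 1) (hT₂ : W₂.valuation T < 1) : W₁ = W₂ := by
  ext x
  rcases eq_or_ne x 0 with rfl | hx
  · exact ⟨fun _ => W₂.zero_mem, fun _ => W₁.zero_mem⟩
  · obtain ⟨N, n, s, a, hs, ha, hs0, ha0, e⟩ := D.mid_normal_form h₁ hT₁ hx
    rw [D.mid_mem_iff h₁ hT₁ hs ha hs0 ha0 e, D.mid_mem_iff h₂ hT₂ hs ha hs0 ha0 e]

/-- **Uniqueness of the valuation ring at infinity.** -/
theorem inf_unique (D : MidDatum V' ϖ u G m T) {W₁ W₂ : ValuationSubring F}
    (h₁ : W₁.comap (algebraMap F' F) = V') (h₂ : W₂.comap (algebraMap F' F) = V')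
    (hS₁ : W₁.valuation (T + algebraMap F' F u) < 1)
    (hS₂ : W₂.valuation (T + algebraMap F' F u) < 1) : W₁ = W₂ := by
  ext x
  rcases eq_or_ne x 0 with rfl | hx
  · exact ⟨fun _ => W₂.zero_mem, fun _ => W₁.zero_mem⟩
  · obtain ⟨N, n, s, a, hs, ha, hs0, ha0, e⟩ := D.inf_normal_form h₁ hS₁ hx
    rw [D.inf_mem_iff h₁ hS₁ hs ha hs0 ha0 e, D.inf_mem_iff h₂ hS₂ hs ha hs0 ha0 e]

end MidDatum

/-! ### Existence of the two valuation rings -/

section Existence

variable {V' : ValuationSubring F'}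

theorem IsInt.eval_mem {g : F'[X]} (hg : IsInt V' g) {z : F'} (hz : z ∈ V') : g.eval z ∈ V' := by
  rw [eval_eq_sum_range]
  exact sum_mem fun i _ => mul_mem (hg i) (pow_mem hz i)

theorem IsInt.mem_lifts {g : F'[X]} (hg : IsInt V' g) : g ∈ lifts V'.subtype := by
  rw [lifts_iff_coeff_lifts]
  intro n
  exact ⟨⟨g.coeff n, hg n⟩, rfl⟩

theorem isInt_map (g₀ : (↥V')[X]) : IsInt V' (g₀.map V'.subtype) := fun i => by
  rw [coeff_map]; exact (g₀.coeff i).2

theorem IsInt.divByMonic {g Q : F'[X]} (hg : IsInt V' g) (hQ : IsInt V' Q) (hm : Q.Monic) :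
    IsInt V' (g /ₘ Q) := by
  obtain ⟨g₀, rfl⟩ := (Polynomial.mem_lifts _).mp hg.mem_lifts
  obtain ⟨Q₀, rfl, -, hQ₀⟩ := lifts_and_natDegree_eq_and_monic hQ.mem_lifts hm
  rw [← map_divByMonic _ hQ₀]
  exact isInt_map _

theorem IsInt.modByMonic {g Q : F'[X]} (hg : IsInt V' g) (hQ : IsInt V' Q) (hm : Q.Monic) :
    IsInt V' (g %ₘ Q) := by
  obtain ⟨g₀, rfl⟩ := (Polynomial.mem_lifts _).mp hg.mem_lifts
  obtain ⟨Q₀, rfl, -, hQ₀⟩ := lifts_and_natDegree_eq_and_monic hQ.mem_lifts hm
  rw [← map_modByMonic _ hQ₀]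
  exact isInt_map _

/-- The polynomial `X ^ (m+1) * (X + u) + ϖ * G` satisfied by `T`. -/
noncomputable def Qpoly (ϖ u : F') (G : F'[X]) (m : ℕ) : F'[X] :=
  X ^ (m + 1) * (X + C u) + C ϖ * G

theorem Qpoly_aux_natDegree (u : F') (m : ℕ) :
    (X ^ (m + 1) * (X + C u) : F'[X]).natDegree = m + 2 := by
  rw [Monic.natDegree_mul (monic_X_pow _) (monic_X_add_C u), natDegree_X_pow, natDegree_X_add_C]

theorem Qpoly_aux_lt (ϖ u : F') {G : F'[X]} {m : ℕ} (hG : G.natDegree ≤ m + 1) :
    (C ϖ * G).degree < (X ^ (m + 1) * (X + C u) : F'[X]).degree := by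
  have h1 : (X ^ (m + 1) * (X + C u) : F'[X]).Monic := (monic_X_pow _).mul (monic_X_add_C u)
  rw [degree_eq_natDegree h1.ne_zero, Qpoly_aux_natDegree]
  calc (C ϖ * G).degree ≤ ((C ϖ * G).natDegree : WithBot ℕ) := degree_le_natDegree
    _ ≤ ((m + 1 : ℕ) : WithBot ℕ) := by exact_mod_cast (natDegree_C_mul_le _ _).trans hG
    _ < ((m + 2 : ℕ) : WithBot ℕ) := by exact_mod_cast Nat.lt_succ_self _

theorem Qpoly_monic (ϖ u : F') {G : F'[X]} {m : ℕ} (hG : G.natDegree ≤ m + 1) :
    (Qpoly ϖ u G m).Monic :=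
  ((monic_X_pow _).mul (monic_X_add_C u)).add_of_left (Qpoly_aux_lt ϖ u hG)

theorem Qpoly_natDegree (ϖ u : F') {G : F'[X]} {m : ℕ} (hG : G.natDegree ≤ m + 1) :
    (Qpoly ϖ u G m).natDegree = m + 2 := by
  unfold Qpoly
  rw [natDegree_add_eq_left_of_degree_lt (Qpoly_aux_lt ϖ u hG), Qpoly_aux_natDegree]

theorem eval_Qpoly (ϖ u : F') (G : F'[X]) (m : ℕ) (z : F') :
    (Qpoly ϖ u G m).eval z = z ^ (m + 1) * (z + u) + ϖ * G.eval z := by
  simp [Qpoly]

/-- The subring `V'[T]` of `F`. -/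
def intSubring (V' : ValuationSubring F') (T : F) : Subring F where
  carrier := {x | ∃ g : F'[X], IsInt V' g ∧ aeval T g = x}
  mul_mem' := by
    rintro _ _ ⟨g, hg, rfl⟩ ⟨h, hh, rfl⟩
    exact ⟨g * h, hg.mul hh, map_mul _ _ _⟩
  one_mem' := ⟨1, IsInt.one, map_one _⟩
  add_mem' := by
    rintro _ _ ⟨g, hg, rfl⟩ ⟨h, hh, rfl⟩
    exact ⟨g + h, hg.add hh, map_add _ _ _⟩
  zero_mem' := ⟨0, IsInt.zero, map_zero _⟩
  neg_mem' := by
    rintro _ ⟨g, hg, rfl⟩
    exact ⟨-g, hg.neg, map_neg _ _⟩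

theorem mem_intSubring {T : F} {x : F} :
    x ∈ intSubring V' T ↔ ∃ g : F'[X], IsInt V' g ∧ aeval T g = x := Iff.rfl

end Existence

namespace MidDatum

variable {V' : ValuationSubring F'} {ϖ u : F'} {G : F'[X]} {m : ℕ} {T : F}

theorem aeval_Qpoly (D : MidDatum V' ϖ u G m T) : aeval T (Qpoly ϖ u G m) = 0 := by
  unfold Qpoly
  simp only [map_add, map_mul, map_pow, aeval_X, aeval_C]
  exact D.eq

theorem Qpoly_isInt (D : MidDatum V' ϖ u G m T) : IsInt V' (Qpoly ϖ u G m) :=
  ((IsInt.X.pow _).mul (IsInt.X.add (IsInt.C D.u_mem))).add ((IsInt.C D.ϖ_mem).mul D.G_int)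

/-- Integral polynomials killing `T` are integral multiples of `Qpoly`. -/
theorem exists_eq_Qpoly_mul (D : MidDatum V' ϖ u G m T)
    (hindep : ∀ r : F'[X], r.natDegree < m + 2 → aeval T r = 0 → r = 0)
    {g : F'[X]} (hg : IsInt V' g) (h0 : aeval T g = 0) :
    ∃ h : F'[X], IsInt V' h ∧ g = Qpoly ϖ u G m * h := by
  have hm := Qpoly_monic ϖ u D.G_deg
  have e := modByMonic_add_div g (Qpoly ϖ u G m)
  have hr : g %ₘ Qpoly ϖ u G m = 0 := by
    apply hindep
    · have h1 : Qpoly ϖ u G m ≠ 1 := by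
        intro h
        have h2 := congrArg natDegree h
        rw [Qpoly_natDegree ϖ u D.G_deg, natDegree_one] at h2
        omega
      have h3 := natDegree_modByMonic_lt g hm h1
      rwa [Qpoly_natDegree ϖ u D.G_deg] at h3
    · have h4 := congrArg (aeval T) e
      rw [map_add, map_mul, D.aeval_Qpoly, zero_mul, add_zero, h0] at h4
      exact h4
  refine ⟨g /ₘ Qpoly ϖ u G m, hg.divByMonic D.Qpoly_isInt hm, ?_⟩
  rw [hr, zero_add] at e
  exact e.symm

/-- Existence of a valuation ring of `F` over `V'` in which `T - z` is a non-unit, for a root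
`z ∈ V'` of `X ^ (m+1) * (X + u)`. -/
theorem exists_over (D : MidDatum V' ϖ u G m T)
    (hindep : ∀ r : F'[X], r.natDegree < m + 2 → aeval T r = 0 → r = 0)
    {z : F'} (hz : z ∈ V') (hQ : z ^ (m + 1) * (z + u) = 0) :
    ∃ W : ValuationSubring F, W.comap (algebraMap F' F) = V' ∧
      W.valuation (T - algebraMap F' F z) < 1 := by
  have hϖB : algebraMap F' F ϖ ∈ intSubring V' T := ⟨C ϖ, IsInt.C D.ϖ_mem, aeval_C _ _⟩
  have hZB : T - algebraMap F' F z ∈ intSubring V' T :=
    ⟨X - C z, IsInt.X.sub (IsInt.C hz), by simp⟩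
  have hI : Ideal.span ({⟨algebraMap F' F ϖ, hϖB⟩, ⟨T - algebraMap F' F z, hZB⟩} :
      Set (intSubring V' T)) ≠ ⊤ := by
    intro htop
    have h1 : (1 : intSubring V' T) ∈ Ideal.span
        ({⟨algebraMap F' F ϖ, hϖB⟩, ⟨T - algebraMap F' F z, hZB⟩} : Set (intSubring V' T)) := by
      rw [htop]; trivial
    obtain ⟨⟨_, a, ha, rfl⟩, ⟨_, b, hb, rfl⟩, hab⟩ := Ideal.mem_span_pair.mp h1
    have hab' : aeval T a * algebraMap F' F ϖ + aeval T b * (T - algebraMap F' F z) = 1 :=
      congrArg Subtype.val hab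
    have h0 : aeval T (a * C ϖ + b * (X - C z) - 1) = 0 := by
      simp only [map_sub, map_add, map_mul, aeval_C, aeval_X, map_one]
      rw [hab', sub_self]
    obtain ⟨h, hh, e⟩ := D.exists_eq_Qpoly_mul hindep
      (((ha.mul (IsInt.C D.ϖ_mem)).add (hb.mul (IsInt.X.sub (IsInt.C hz)))).sub IsInt.one) h0
    have e2 := congrArg (eval z) e
    simp only [eval_sub, eval_add, eval_mul, eval_C, eval_X, eval_one, sub_self, mul_zero,
      add_zero] at e2
    rw [eval_Qpoly, hQ, zero_add] at e2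
    have e3 : (1 : F') = ϖ * (a.eval z - G.eval z * h.eval z) := by linear_combination -e2
    have hmem : a.eval z - G.eval z * h.eval z ∈ V' :=
      sub_mem (ha.eval_mem hz) (mul_mem (D.G_int.eval_mem hz) (hh.eval_mem hz))
    have e4 := congrArg V'.valuation e3
    rw [map_one, map_mul] at e4
    have hlt : V'.valuation ϖ * V'.valuation (a.eval z - G.eval z * h.eval z) < 1 :=
      calc V'.valuation ϖ * V'.valuation (a.eval z - G.eval z * h.eval z)
          ≤ V'.valuation ϖ * 1 := mul_le_mul_right ((V'.valuation_le_one_iff _).mpr hmem) _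
        _ = V'.valuation ϖ := mul_one _
        _ < 1 := D.ϖ_lt
    rw [← e4] at hlt
    exact lt_irrefl _ hlt
  obtain ⟨W, hBW, hnon⟩ := Ideal.image_subset_nonunits_valuationSubring _ hI
  have hϖW : W.valuation (algebraMap F' F ϖ) < 1 :=
    hnon ⟨⟨_, hϖB⟩, Ideal.subset_span (by simp), rfl⟩
  have hZW : W.valuation (T - algebraMap F' F z) < 1 :=
    hnon ⟨⟨_, hZB⟩, Ideal.subset_span (by simp), rfl⟩
  refine ⟨W, ?_, hZW⟩
  ext x
  rw [ValuationSubring.mem_comap]
  constructor
  · intro hx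
    by_contra hxV
    have hx0 : x ≠ 0 := fun h => hxV (h ▸ V'.zero_mem)
    have hv : V'.valuation x⁻¹ < 1 := by
      rw [← Valuation.one_lt_val_iff _ hx0]
      exact not_le.mp fun h => hxV ((V'.valuation_le_one_iff _).mp h)
    have hc := D.unif x⁻¹ hv
    have hcW : algebraMap F' F (x⁻¹ * ϖ⁻¹) ∈ W :=
      hBW ⟨C (x⁻¹ * ϖ⁻¹), IsInt.C hc, aeval_C _ _⟩
    have h5 : algebraMap F' F ϖ⁻¹ ∈ W := by
      have h6 := W.mul_mem _ _ hx hcW
      rwa [← map_mul, ← mul_assoc, mul_inv_cancel₀ hx0, one_mul] at h6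
    have h7 : W.valuation (algebraMap F' F ϖ) * W.valuation (algebraMap F' F ϖ⁻¹) = 1 := by
      rw [← map_mul, ← map_mul, mul_inv_cancel₀ D.ϖ_ne, map_one, map_one]
    have h8 : W.valuation (algebraMap F' F ϖ) * W.valuation (algebraMap F' F ϖ⁻¹) < 1 :=
      calc W.valuation (algebraMap F' F ϖ) * W.valuation (algebraMap F' F ϖ⁻¹)
          ≤ W.valuation (algebraMap F' F ϖ) * 1 :=
            mul_le_mul_right ((W.valuation_le_one_iff _).mpr h5) _
        _ = W.valuation (algebraMap F' F ϖ) := mul_one _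
        _ < 1 := hϖW
    rw [h7] at h8
    exact lt_irrefl _ h8
  · intro hx
    exact hBW ⟨C x, IsInt.C hx, aeval_C _ _⟩

/-- Existence of the middle valuation ring. -/
theorem exists_mid (D : MidDatum V' ϖ u G m T)
    (hindep : ∀ r : F'[X], r.natDegree < m + 2 → aeval T r = 0 → r = 0) :
    ∃ W : ValuationSubring F, W.comap (algebraMap F' F) = V' ∧ W.valuation T < 1 := by
  obtain ⟨W, hW, h⟩ := D.exists_over hindep V'.zero_mem
    (by rw [zero_pow (Nat.succ_ne_zero m), zero_mul])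
  exact ⟨W, hW, by rwa [map_zero, sub_zero] at h⟩

/-- Existence of the valuation ring at infinity. -/
theorem exists_inf (D : MidDatum V' ϖ u G m T)
    (hindep : ∀ r : F'[X], r.natDegree < m + 2 → aeval T r = 0 → r = 0) :
    ∃ W : ValuationSubring F, W.comap (algebraMap F' F) = V' ∧
      W.valuation (T + algebraMap F' F u) < 1 := by
  obtain ⟨W, hW, h⟩ := D.exists_over hindep (z := -u) (neg_mem D.u_mem)
    (by rw [neg_add_cancel, mul_zero])
  exact ⟨W, hW, by rwa [map_neg, sub_neg_eq_add] at h⟩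

/-- **The two-extension theorem.**  Under `MidDatum` and linear independence of
`1, T, …, T ^ (m+1)` over `F'`, there are exactly two valuation rings of `F` over `V'`: the
middle one (`T` a non-unit) and the one at infinity (`T + u` a non-unit). -/
theorem exists_two (D : MidDatum V' ϖ u G m T)
    (hindep : ∀ r : F'[X], r.natDegree < m + 2 → aeval T r = 0 → r = 0) :
    ∃ Wmid Winf : ValuationSubring F,
      Wmid.comap (algebraMap F' F) = V' ∧ Winf.comap (algebraMap F' F) = V' ∧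
      Wmid.valuation T < 1 ∧ Winf.valuation (T + algebraMap F' F u) < 1 ∧ Wmid ≠ Winf ∧
      ∀ W : ValuationSubring F, W.comap (algebraMap F' F) = V' → W = Wmid ∨ W = Winf := by
  obtain ⟨Wm, hWm, hm⟩ := D.exists_mid hindep
  obtain ⟨Wi, hWi, hi⟩ := D.exists_inf hindep
  refine ⟨Wm, Wi, hWm, hWi, hm, hi, ?_, ?_⟩
  · rintro rfl
    exact D.not_both hWm hm hi
  · intro W hW
    rcases D.dichotomy hW with h | h
    · exact Or.inl (D.mid_unique hW hWm h hm)
    · exact Or.inr (D.inf_unique hW hWi h hi)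

/-- The independence hypothesis follows from `[F : F'] = m + 2`. -/
theorem indep_of_finrank (D : MidDatum V' ϖ u G m T) [FiniteDimensional F' F]
    (hfin : Module.finrank F' F = m + 2) :
    ∀ r : F'[X], r.natDegree < m + 2 → aeval T r = 0 → r = 0 := by
  intro r hr h0
  by_contra hne
  have hT : IsIntegral F' T := IsIntegral.of_finite F' T
  have htop : IntermediateField.adjoin F' {T} = ⊤ := by
    rw [eq_top_iff]
    intro x _
    obtain ⟨h, rfl⟩ := D.gen x
    exact IntermediateField.algebra_adjoin_le_adjoin F' {T} (aeval_mem_adjoin_singleton F' T)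
  have h1 := IntermediateField.adjoin.finrank hT
  rw [htop, IntermediateField.finrank_top', hfin] at h1
  have h2 := natDegree_le_natDegree (minpoly.degree_le_of_ne_zero F' T hne h0)
  omega

end MidDatum

end Fermat.Agent.S36.helper8831
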