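/-
helper3082 — S36-F1L-INST (board #2236), part (C): THE MODULAR INSTANCE of helper8831's
`MidDatum` (F1-lite, findings #3185).

Setting: `L` a field of characteristic zero with a ring hom `ι : L →+* ℚ̄`, `A` a valuation
subring of `L` with residue map `π : A →+* k`, `char k = q`, `q` a uniformiser of `A`
(`hunif`), `A` archimedean w.r.t. `q` (`harch`); a level `N` with `q ∣ N`, `¬ q ^ 2 ∣ N`;

  `F' = laurentBaseChange L (modularFunctionFieldFull N)`         (level `N = q M`),
  `F  = laurentBaseChange L (modularFunctionFieldFull (N * q))`   (level `q² M`),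

`F` an `F'`-algebra along `heckeAlphaBar L N q`, `V' = gaussF A π N`.

Main results:

* `finrank_along_of_dvd` : `[F : F'] = q`;
* `midT_not_mem_range` : `T = j(q²z) - j(z) ∉ F'`;
* `midDatum` : `∃ G, MidDatum V' q u G (q - 2) T` with `u = j - j(qz)^q`;
* `exists_midValuation` : there is exactly one valuation subring `Wmid ≠ gaussF A π (N * q)`
  of `F` over `V'`; `T` is a non-unit of `Wmid`, and `Wmid`, `gaussF A π (N * q)` are ALL the
  valuation subrings of `F` over `V'`;
* `midDatum_residue`, `exists_midValuation_residue` : the same for `π` the residue map of `A`,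
  from `q ∈ 𝔪_A`, `𝔪_A = q A`, `A` noetherian (the fields of `helper36.BaseDVR`).
-/
import Mathlib
import Fermat.Agent.S36.helper3082_MidEquationFF
import Fermat.Agent.S36.helper8831_MidValuation
import Fermat.Agent.S35.helper1219_AtkinLehnerFF
import Fermat.Agent.S29.helper36_FunctionFieldL
import Fermat.Agent.S29.helper6961_CoeffDescent
import Fermat.Agent.S37.helper9342_NormTrickMod

open ModularCurve Polynomial AlgebraicCurve

namespace Fermat.Agent.S36.helper3082

noncomputable section

set_option linter.style.haveILetI false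

open Fermat.Agent.S18.helper8991 (gaussF gaussFRed inc red)
open Fermat.Agent.S28.helper328 (evalJ)
open Fermat.Agent.S24.helper24 (Kbar FN jBarD)
open Fermat.Agent.S36.helper8831 (MidDatum IsInt)

/-! ## 1. Generation in prime degree -/

section Gen

/-- In an extension of prime degree, every element outside the base field generates the
extension as an algebra. -/
theorem gen_of_prime_finrank {F' F : Type*} [Field F'] [Field F] [Algebra F' F] {p : ℕ}
    (hp : p.Prime) (hfin : Module.finrank F' F = p) (T : F)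
    (hT : T ∉ (algebraMap F' F).range) : ∀ x : F, ∃ h : F'[X], aeval T h = x := by
  have hfd : FiniteDimensional F' F :=
    Module.finite_of_finrank_pos (by rw [hfin]; exact hp.pos)
  have hint : IsIntegral F' T := IsIntegral.of_finite F' T
  have hso := IntermediateField.isSimpleOrder_of_finrank_prime F' F (hfin ▸ hp)
  have htop : IntermediateField.adjoin F' {T} = ⊤ := by
    refine (eq_bot_or_eq_top (IntermediateField.adjoin F' {T})).resolve_left fun hbot => hT ?_
    have h1 : T ∈ (⊥ : IntermediateField F' F) :=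
      hbot ▸ IntermediateField.mem_adjoin_simple_self F' T
    exact IntermediateField.mem_bot.mp h1
  intro x
  have hx : x ∈ (IntermediateField.adjoin F' {T}).toSubalgebra := by
    rw [htop]; exact Algebra.mem_top
  rw [IntermediateField.adjoin_simple_toSubalgebra_of_isAlgebraic hint.isAlgebraic,
    Algebra.adjoin_singleton_eq_range_aeval] at hx
  exact hx

end Gen

/-! ## 2. Two-variable evaluation -/

section Ev2

/-- `Φ(a, z)` for `Φ ∈ ℤ[X][Y]`. -/
def ev2 {R : Type*} [CommRing R] (a z : R) : Polynomial (Polynomial ℤ) →+* R :=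
  Polynomial.eval₂RingHom (Polynomial.eval₂RingHom (Int.castRingHom R) a) z

theorem map_ev2 {R S : Type*} [CommRing R] [CommRing S] (f : R →+* S) (a z : R)
    (Φ : Polynomial (Polynomial ℤ)) : f (ev2 a z Φ) = ev2 (f a) (f z) Φ := by
  have h : f.comp (Polynomial.eval₂RingHom (Int.castRingHom R) a) =
      Polynomial.eval₂RingHom (Int.castRingHom S) (f a) := by
    apply Polynomial.ringHom_ext
    · intro n
      simp
    · simp
  rw [ev2, ev2, Polynomial.coe_eval₂RingHom, Polynomial.coe_eval₂RingHom, Polynomial.hom_eval₂, h]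

theorem ev2_eq_eval_map_evalJ {R : Type*} [CommRing R] (a z : LaurentSeries R)
    (Φ : Polynomial (Polynomial ℤ)) : ev2 a z Φ = (Φ.map (evalJ a)).eval z := by
  rw [ev2, Polynomial.coe_eval₂RingHom, Polynomial.eval₂_eq_eval_map]
  rfl

end Ev2

/-! ## 3. `j(q²z)` is not a function of level `q M` -/

section NotMem

variable (M q : ℕ) [NeZero M] [hq : Fact q.Prime]

theorem coe_jBarD_one (N : ℕ) :
    algebraMap (FN N) (LaurentSeries Kbar) (jBarD N 1 (one_dvd N)) = jqModC Kbar := by
  rw [coe_algebraMap_IF, Fermat.Agent.S24.helper3176.coe_jBarD, Fermat.Agent.S24.helper24.jSeries,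
    Fermat.Agent.S18.helper8991.coeffEmb_qExpand_jq, qExpand_one_apply]

theorem coe_jBarD_q (N : ℕ) (d : ℕ) [NeZero d] (hd : d ∣ N) :
    algebraMap (FN N) (LaurentSeries Kbar) (jBarD N d hd) = qExpand Kbar d (jqModC Kbar) := by
  rw [coe_algebraMap_IF, Fermat.Agent.S24.helper3176.coe_jBarD, Fermat.Agent.S24.helper24.jSeries,
    Fermat.Agent.S18.helper8991.coeffEmb_qExpand_jq]

/-- Over `ℚ̄`: `j(q²z) ∉ F_{qM}` for `q ∤ M`. -/
theorem jqq_not_mem_bar (h : Nat.Coprime q M) :
    qExpand Kbar (q * q) (jqModC Kbar) ∉ modularFunctionFieldBar (M * q) := by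
  intro hmem
  obtain ⟨Φ, hroot⟩ := exists_rootFormula q (Fermat.Agent.S28.helper508.stmt_FormalPrime q)
  obtain ⟨ζ, hζ⟩ : ∃ ζ : Kbarˣ, IsPrimitiveRoot ζ q := by
    obtain ⟨z, hz⟩ := HasEnoughRootsOfUnity.exists_primitiveRoot Kbar q
    exact ⟨(hz.isUnit (NeZero.ne q)).unit, IsPrimitiveRoot.coe_units_iff.mp hz⟩
  have hNZ : NeZero (1 * q) := ⟨by rw [one_mul]; exact NeZero.ne q⟩
  -- the Atkin–Lehner involution and its values on `j`, `j_q`
  have hW1 := Fermat.Agent.S35.helper1219.atkinLehnerBarR_jBarD_cofactor M q h (d := 1) (one_dvd M)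
  have hW2 := Fermat.Agent.S35.helper1219.atkinLehnerBarR_jBarD_mul_cofactor M q h (d := 1)
    (one_dvd M)
  have hjq : algebraMap (FN (M * q)) (LaurentSeries Kbar)
      (jBarD (M * q) (1 * q) (Nat.mul_dvd_mul_right (one_dvd M) q)) =
      qExpand Kbar q (jqModC Kbar) := by
    rw [coe_jBarD_q]
    exact qExpand_congr (one_mul q) _
  have hj1 : algebraMap (FN (M * q)) (LaurentSeries Kbar)
      (jBarD (M * q) 1 ((one_dvd M).mul_right q)) = jqModC Kbar := by
    rw [coe_jBarD_q, qExpand_one_apply]
  obtain ⟨z, hz⟩ : ∃ z : FN (M * q), algebraMap (FN (M * q)) (LaurentSeries Kbar) z =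
      qExpand Kbar (q * q) (jqModC Kbar) := ⟨⟨_, hmem⟩, rfl⟩
  -- Step 1: `Φ(j_q, j_{q²}) = 0` in `F_{qM}`
  have h1 : ev2 (qExpand Kbar q (jqModC Kbar)) (qExpand Kbar (q * q) (jqModC Kbar)) Φ = 0 := by
    rw [ev2_eq_eval_map_evalJ, root_formula_field hroot Kbar ζ hζ, eval_mul, midPoly_eval_qq,
      mul_zero]
  have h2 : ev2 (jBarD (M * q) (1 * q) (Nat.mul_dvd_mul_right (one_dvd M) q)) z Φ = 0 := by
    apply (algebraMap (FN (M * q)) (LaurentSeries Kbar)).injective
    rw [map_ev2, hjq, hz, h1, map_zero]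
  -- Step 2: apply `W_q`
  have h3 : ev2 (jBarD (M * q) 1 ((one_dvd M).mul_right q))
      (Fermat.Agent.S35.helper1219.atkinLehnerBarR M q h z) Φ = 0 := by
    have h4 := congrArg (fun x => (Fermat.Agent.S35.helper1219.atkinLehnerBarR M q h :
      FN (M * q) →+* FN (M * q)) x) h2
    simp only [map_ev2, map_zero] at h4
    rw [← hW2]
    exact h4
  -- Step 3: root exclusion
  have h5 : ev2 (jqModC Kbar) (algebraMap (FN (M * q)) (LaurentSeries Kbar)
      (Fermat.Agent.S35.helper1219.atkinLehnerBarR M q h z)) Φ = 0 := by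
    rw [← hj1, ← map_ev2, h3, map_zero]
  rw [ev2_eq_eval_map_evalJ] at h5
  have h6 := eq_jq_of_isRoot hroot Kbar ζ hζ _ h5
  have h7 : Fermat.Agent.S35.helper1219.atkinLehnerBarR M q h z =
      Fermat.Agent.S35.helper1219.atkinLehnerBarR M q h
        (jBarD (M * q) 1 ((one_dvd M).mul_right q)) := by
    apply (algebraMap (FN (M * q)) (LaurentSeries Kbar)).injective
    rw [h6, hW1, hjq]
  have h8 := (Fermat.Agent.S35.helper1219.atkinLehnerBarR M q h).injective h7
  have h9 := congrArg (algebraMap (FN (M * q)) (LaurentSeries Kbar)) h8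
  rw [hz, hj1] at h9
  exact j_sub_jqq_ne_zero q Kbar (by rw [h9, sub_self])

variable {L : Type*} [Field L] [Algebra ℚ L]

/-- Over any field `L` embedded in `ℚ̄`: `j(q²z) ∉ F_{qM}` for `q ∤ M`. -/
theorem jqq_not_mem (ι : L →+* Kbar) (h : Nat.Coprime q M) :
    qExpand L (q * q) (jqModC L) ∉ laurentBaseChange L (modularFunctionFieldFull (M * q)) := by
  intro hmem
  have h1 := Fermat.Agent.S29.helper6961.coeffMap_mem_laurentBaseChange_of_mem
    (modularFunctionFieldFull (M * q)) ι hmem
  rw [coeffMap_qExpand, coeffMap_jqModC] at h1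
  exact jqq_not_mem_bar M q h h1

/-- Over any field `L` embedded in `ℚ̄`: `j(q²z) ∉ F_N` for `q ∥ N`. -/
theorem jqq_not_mem_of_dvd (ι : L →+* Kbar) (N : ℕ) [NeZero N] (hqN : q ∣ N)
    (hq2 : ¬ q ^ 2 ∣ N) :
    qExpand L (q * q) (jqModC L) ∉ laurentBaseChange L (modularFunctionFieldFull N) := by
  obtain ⟨M, hM⟩ := hqN
  rw [mul_comm] at hM
  subst hM
  have hM0 : NeZero M := ⟨fun h0 => NeZero.ne (M * q) (by rw [h0, zero_mul])⟩
  have hcop : Nat.Coprime q M :=
    (Nat.Prime.coprime_iff_not_dvd hq.out).mpr fun hd =>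
      hq2 (by rw [pow_two]; exact Nat.mul_dvd_mul hd dvd_rfl)
  exact jqq_not_mem M q ι hcop

/-- `T = j(q²z) - j(z)` does not come from level `N` (`q ∥ N`). -/
theorem midT_not_mem_range (ι : L →+* Kbar) (N : ℕ) [NeZero N] (hqN : q ∣ N)
    (hq2 : ¬ q ^ 2 ∣ N) :
    letI := algebraAlong (heckeAlphaBar L N q)
    midT L q N hqN ∉
      (algebraMap ↥(laurentBaseChange L (modularFunctionFieldFull N))
        ↥(laurentBaseChange L (modularFunctionFieldFull (N * q)))).range := by
  letI := algebraAlong (heckeAlphaBar L N q)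
  rintro ⟨x, hx⟩
  apply jqq_not_mem_of_dvd q ι N hqN hq2
  have h1 := congrArg (algebraMap ↥(laurentBaseChange L (modularFunctionFieldFull (N * q)))
    (LaurentSeries L)) hx
  rw [coe_algebraMap_along, coe_algebraMap_IF, coe_midT] at h1
  have h2 : qExpand L (q * q) (jqModC L) = (x : LaurentSeries L) + jqModC L := by
    rw [h1]; ring
  rw [h2]
  refine add_mem x.2 ?_
  rw [Fermat.Agent.S18.helper8991.laurentBaseChange_full_eq]
  exact jqModC_mem_full L N

end NotMem

/-! ## 4. The degree -/

section Degree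

variable (L : Type) [Field L] [Algebra ℚ L] (N q : ℕ) [NeZero N] [hq : Fact q.Prime]

/-- `[F_{N q} : F_N] = q` over any field `L` of characteristic zero, for `q ∣ N`. -/
theorem finrankAlong_heckeAlphaBar_L (hqN : q ∣ N) :
    finrankAlong L (heckeAlphaBar L N q) = q := by
  have hc : CharZero L := algebraRat.charZero L
  have h := Fermat.Agent.S37.helper9342.finrank_adjoin_mul_finrankAlong (heckeAlphaBar L N q)
    (Fermat.Agent.S29.helper36.jL L N)
  have hj : heckeAlphaBar L N q (Fermat.Agent.S29.helper36.jL L N) =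
      Fermat.Agent.S29.helper36.jL L (N * q) := by
    apply Subtype.ext
    rw [coe_heckeAlphaBar, Fermat.Agent.S29.helper36.coe_jL, Fermat.Agent.S29.helper36.coe_jL]
  rw [hj, Fermat.Agent.S29.helper36.finrank_jL, Fermat.Agent.S29.helper36.finrank_jL,
    Fermat.Agent.Lib.helper1356.dedekindPsi_mul_prime_of_dvd hq.out (NeZero.ne N) hqN,
    mul_comm] at h
  exact Nat.eq_of_mul_eq_mul_right (Fermat.Agent.S37.helper9342.dedekindPsi_pos N) h

theorem finrank_along_of_dvd (hqN : q ∣ N) :
    letI := algebraAlong (heckeAlphaBar L N q)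
    Module.finrank ↥(laurentBaseChange L (modularFunctionFieldFull N))
      ↥(laurentBaseChange L (modularFunctionFieldFull (N * q))) = q :=
  finrankAlong_heckeAlphaBar_L L N q hqN

end Degree

/-! ## 5. The datum -/

section Datum

variable {L : Type} [Field L] [Algebra ℚ L] (A : ValuationSubring L)
  {k : Type*} [Field k] (π : A →+* k) (q : ℕ) [hq : Fact q.Prime]

/-- **The modular instance of `MidDatum`** at level `N q` (`q ∥ N`, i.e. level `q² M`) over
`(L, A)`. -/
theorem midDatum [CharP k q] (ι : L →+* Kbar)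
    (hπ0 : ∀ a : A, a ∈ IsLocalRing.maximalIdeal A → π a = 0)
    (hunif : ∀ c : L, c ∈ A.nonunits → c / (q : L) ∈ A)
    (harch : ∀ a : L, a ∈ A → a ≠ 0 → ∃ n : ℕ, a / (q : L) ^ n ∉ A)
    (N : ℕ) [NeZero N] (hqN : q ∣ N) (hq2 : ¬ q ^ 2 ∣ N) :
    letI := algebraAlong (heckeAlphaBar L N q)
    ∃ G : Polynomial ↥(laurentBaseChange L (modularFunctionFieldFull N)),
      MidDatum (gaussF A π N)
        ((q : ℕ) : ↥(laurentBaseChange L (modularFunctionFieldFull N)))
        (midU L q N hqN) G (q - 2) (midT L q N hqN) := by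
  letI := algebraAlong (heckeAlphaBar L N q)
  have hq2' : 2 ≤ q := hq.out.two_le
  have hm : q - 2 + 1 = q - 1 := by omega
  obtain ⟨G, hdeg, hint, hunit, heq⟩ := exists_midPoly_FF q N A π hqN
  refine ⟨G, ?_⟩
  refine
    { ϖ_ne := natCast_ne_zero_FF q N hq.out.ne_zero
      ϖ_lt := valuation_natCast_lt_one A π q N
      unif := gaussF_unif A π q N hunif
      arch := gaussF_arch A π q N hπ0 harch
      u_unit := valuation_midU q N A π hqN
      G_int := hint
      G_deg := by rw [hm]; exact hdeg
      G_unit := hunit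
      eq := by rw [hm]; exact heq
      gen := ?_ }
  refine gen_of_prime_finrank hq.out ?_ _ (midT_not_mem_range q ι N hqN hq2)
  exact finrank_along_of_dvd L N q hqN

/-- `gaussF` at level `N ℓ` lies over `gaussF` at level `N`. -/
theorem comap_gaussF_along (N ℓ : ℕ) [NeZero N] [NeZero ℓ] :
    letI := algebraAlong (heckeAlphaBar L N ℓ)
    (gaussF A π (N * ℓ)).comap
        (algebraMap ↥(laurentBaseChange L (modularFunctionFieldFull N))
          ↥(laurentBaseChange L (modularFunctionFieldFull (N * ℓ)))) = gaussF A π N := by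
  letI := algebraAlong (heckeAlphaBar L N ℓ)
  ext x
  rw [ValuationSubring.mem_comap, Fermat.Agent.S18.helper8991.mem_gaussF_iff,
    Fermat.Agent.S18.helper8991.mem_gaussF_iff, algebraMap_along_apply, coe_heckeAlphaBar]

/-- `T + u = j(q²z) - j(qz)^q` is a non-unit of `gaussF` at level `N q` (type at infinity). -/
theorem valuation_midT_add_midU_lt_one [CharP k q] (N : ℕ) [NeZero N] (hqN : q ∣ N) :
    letI := algebraAlong (heckeAlphaBar L N q)
    (gaussF A π (N * q)).valuation (midT L q N hqN +
      algebraMap ↥(laurentBaseChange L (modularFunctionFieldFull N))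
        ↥(laurentBaseChange L (modularFunctionFieldFull (N * q))) (midU L q N hqN)) < 1 := by
  letI := algebraAlong (heckeAlphaBar L N q)
  refine valuation_lt_one_of_red_eq_zero A π (N * q) _
    (qExpand ℤ (q * q) (jqModC ℤ) - qExpand ℤ q (jqModC ℤ) ^ q) ?_ ?_
  · show algebraMap ↥(laurentBaseChange L (modularFunctionFieldFull (N * q))) (LaurentSeries L)
      (midT L q N hqN + algebraMap ↥(laurentBaseChange L (modularFunctionFieldFull N))
        ↥(laurentBaseChange L (modularFunctionFieldFull (N * q))) (midU L q N hqN)) = _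
    rw [map_add, coe_algebraMap_along, coe_algebraMap_IF, coe_midT, coe_midU, map_sub, map_pow,
      coeffMap_qExpand, coeffMap_qExpand, coeffMap_jqModC]
    ring
  · have : ExpChar k q := ExpChar.prime hq.out
    rw [map_sub, map_pow, coeffMap_qExpand, coeffMap_qExpand, coeffMap_jqModC,
      Fermat.Agent.S37.helper5666.pow_expChar_eq_qExpand k q, coeffMap_qExpand, coeffMap_jqModC,
      qExpand_qExpand, sub_self]

/-- **The middle valuation at level `N q` (`q ∥ N`) over `(L, A)`**: besides the Gauss valuation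
subring `gaussF A π (N * q)`, there is exactly one more valuation subring `Wmid` of the
level-`N q` function field lying over the Gauss valuation subring of level `N`;
`T = j(q²z) - j(z)` is a non-unit of `Wmid`. -/
theorem exists_midValuation [CharP k q] (ι : L →+* Kbar)
    (hπ0 : ∀ a : A, a ∈ IsLocalRing.maximalIdeal A → π a = 0)
    (hunif : ∀ c : L, c ∈ A.nonunits → c / (q : L) ∈ A)
    (harch : ∀ a : L, a ∈ A → a ≠ 0 → ∃ n : ℕ, a / (q : L) ^ n ∉ A)
    (N : ℕ) [NeZero N] (hqN : q ∣ N) (hq2 : ¬ q ^ 2 ∣ N) :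
    letI := algebraAlong (heckeAlphaBar L N q)
    ∃ Wmid : ValuationSubring ↥(laurentBaseChange L (modularFunctionFieldFull (N * q))),
      Wmid.comap (algebraMap ↥(laurentBaseChange L (modularFunctionFieldFull N))
        ↥(laurentBaseChange L (modularFunctionFieldFull (N * q)))) = gaussF A π N ∧
      Wmid.valuation (midT L q N hqN) < 1 ∧
      Wmid ≠ gaussF A π (N * q) ∧
      ∀ W : ValuationSubring ↥(laurentBaseChange L (modularFunctionFieldFull (N * q))),
        W.comap (algebraMap ↥(laurentBaseChange L (modularFunctionFieldFull N))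
          ↥(laurentBaseChange L (modularFunctionFieldFull (N * q)))) = gaussF A π N →
        W = Wmid ∨ W = gaussF A π (N * q) := by
  letI := algebraAlong (heckeAlphaBar L N q)
  have hq2' : 2 ≤ q := hq.out.two_le
  obtain ⟨G, D⟩ := midDatum A π q ι hπ0 hunif harch N hqN hq2
  have hfin0 := finrank_along_of_dvd L N q hqN
  have hfd : FiniteDimensional ↥(laurentBaseChange L (modularFunctionFieldFull N))
      ↥(laurentBaseChange L (modularFunctionFieldFull (N * q))) :=
    Module.finite_of_finrank_pos (by rw [hfin0]; exact hq.out.pos)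
  have hfin : Module.finrank ↥(laurentBaseChange L (modularFunctionFieldFull N))
      ↥(laurentBaseChange L (modularFunctionFieldFull (N * q))) = q - 2 + 2 := by
    rw [hfin0]; omega
  obtain ⟨Wmid, Winf, hm, hi, hmT, hiS, hne, hall⟩ := D.exists_two (D.indep_of_finrank hfin)
  have hG : gaussF A π (N * q) = Winf :=
    D.inf_unique (comap_gaussF_along A π N q) hi
      (valuation_midT_add_midU_lt_one A π q N hqN) hiS
  rw [← hG] at hne hall
  exact ⟨Wmid, hm, hmT, hne, hall⟩

/-- `T` is a unit of the Gauss ring at level `N q` (its reduction is `J(t^(q²)) - J ≠ 0`). -/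
theorem valuation_midT_gaussF (N : ℕ) (hqN : q ∣ N) :
    (gaussF A π (N * q)).valuation (midT L q N hqN) = 1 := by
  refine valuation_eq_one_of_red_ne_zero A π (N * q) _ _ (coe_midT_eq_coeffMap L q N hqN) ?_
  rw [map_sub, coeffMap_qExpand, coeffMap_jqModC]
  intro h0
  exact j_sub_jqq_ne_zero q k (by rw [← neg_sub, h0, neg_zero])

/-- **Middle type certificate**: a valuation subring of the level-`N q` function field lying over
the Gauss ring of level `N` and different from the Gauss ring of level `N q` has `T` as a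
non-unit (so all the tables of `helper8831.MidDatum` for the middle type apply to it). -/
theorem valuation_midT_lt_one_of_ne [CharP k q] (ι : L →+* Kbar)
    (hπ0 : ∀ a : A, a ∈ IsLocalRing.maximalIdeal A → π a = 0)
    (hunif : ∀ c : L, c ∈ A.nonunits → c / (q : L) ∈ A)
    (harch : ∀ a : L, a ∈ A → a ≠ 0 → ∃ n : ℕ, a / (q : L) ^ n ∉ A)
    (N : ℕ) [NeZero N] (hqN : q ∣ N) (hq2 : ¬ q ^ 2 ∣ N)
    (W : ValuationSubring ↥(laurentBaseChange L (modularFunctionFieldFull (N * q)))) :
    letI := algebraAlong (heckeAlphaBar L N q)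
    W.comap (algebraMap ↥(laurentBaseChange L (modularFunctionFieldFull N))
      ↥(laurentBaseChange L (modularFunctionFieldFull (N * q)))) = gaussF A π N →
    W ≠ gaussF A π (N * q) → W.valuation (midT L q N hqN) < 1 := by
  letI := algebraAlong (heckeAlphaBar L N q)
  intro hW hne
  obtain ⟨G, D⟩ := midDatum A π q ι hπ0 hunif harch N hqN hq2
  rcases D.dichotomy hW with h | h
  · exact h
  · exact absurd (D.inf_unique hW (comap_gaussF_along A π N q) h
      (valuation_midT_add_midU_lt_one A π q N hqN)) hne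

end Datum

/-! ## 6. The residue map of `A` (shape of `BaseDVR`) -/

section Residue

variable {L : Type} [Field L] [Algebra ℚ L] (A : ValuationSubring L) (q : ℕ) [hq : Fact q.Prime]

omit [Algebra ℚ L] in
theorem charP_residueField_of_mem_nonunits (hqA : (q : L) ∈ A.nonunits) :
    CharP (IsLocalRing.ResidueField A) q := by
  have h0 : ((q : ℕ) : IsLocalRing.ResidueField A) = 0 := by
    obtain ⟨ha, hm⟩ := A.mem_nonunits_iff_exists_mem_maximalIdeal.mp hqA
    have e : ((q : ℕ) : IsLocalRing.ResidueField A) =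
        IsLocalRing.residue A (⟨(q : L), ha⟩ : A) := by
      rw [← map_natCast (IsLocalRing.residue A) q]
      congr 1
    rw [e, IsLocalRing.residue_eq_zero_iff]
    exact hm
  exact (CharP.charP_iff_prime_eq_zero hq.out).mpr h0

/-- `midDatum` for the residue map of `A`, from the `BaseDVR`-type hypotheses: `q ∈ 𝔪_A`,
`𝔪_A = q A`, `A` noetherian. -/
theorem midDatum_residue (ι : L →+* Kbar) (hqA : (q : L) ∈ A.nonunits)
    (hunif : ∀ c : L, c ∈ A.nonunits → c / (q : L) ∈ A) (hnoeth : IsNoetherianRing A)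
    (N : ℕ) [NeZero N] (hqN : q ∣ N) (hq2 : ¬ q ^ 2 ∣ N) :
    letI := algebraAlong (heckeAlphaBar L N q)
    ∃ G : Polynomial ↥(laurentBaseChange L (modularFunctionFieldFull N)),
      MidDatum (gaussF A (IsLocalRing.residue A) N)
        ((q : ℕ) : ↥(laurentBaseChange L (modularFunctionFieldFull N)))
        (midU L q N hqN) G (q - 2) (midT L q N hqN) := by
  have hchar := charP_residueField_of_mem_nonunits A q hqA
  have hq0 : (q : L) ≠ 0 := by
    have : CharZero L := algebraRat.charZero L
    exact Nat.cast_ne_zero.mpr hq.out.ne_zero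
  exact midDatum A (IsLocalRing.residue A) q ι
    (fun a ha => (IsLocalRing.residue_eq_zero_iff a).mpr ha) hunif
    (arch_of_isNoetherianRing A q hnoeth hq0 hqA) N hqN hq2

/-- `exists_midValuation` for the residue map of `A`, from the `BaseDVR`-type hypotheses. -/
theorem exists_midValuation_residue (ι : L →+* Kbar) (hqA : (q : L) ∈ A.nonunits)
    (hunif : ∀ c : L, c ∈ A.nonunits → c / (q : L) ∈ A) (hnoeth : IsNoetherianRing A)
    (N : ℕ) [NeZero N] (hqN : q ∣ N) (hq2 : ¬ q ^ 2 ∣ N) :
    letI := algebraAlong (heckeAlphaBar L N q)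
    ∃ Wmid : ValuationSubring ↥(laurentBaseChange L (modularFunctionFieldFull (N * q))),
      Wmid.comap (algebraMap ↥(laurentBaseChange L (modularFunctionFieldFull N))
        ↥(laurentBaseChange L (modularFunctionFieldFull (N * q)))) =
          gaussF A (IsLocalRing.residue A) N ∧
      Wmid.valuation (midT L q N hqN) < 1 ∧
      Wmid ≠ gaussF A (IsLocalRing.residue A) (N * q) ∧
      ∀ W : ValuationSubring ↥(laurentBaseChange L (modularFunctionFieldFull (N * q))),
        W.comap (algebraMap ↥(laurentBaseChange L (modularFunctionFieldFull N))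
          ↥(laurentBaseChange L (modularFunctionFieldFull (N * q)))) =
            gaussF A (IsLocalRing.residue A) N →
        W = Wmid ∨ W = gaussF A (IsLocalRing.residue A) (N * q) := by
  have hchar := charP_residueField_of_mem_nonunits A q hqA
  have hq0 : (q : L) ≠ 0 := by
    have : CharZero L := algebraRat.charZero L
    exact Nat.cast_ne_zero.mpr hq.out.ne_zero
  exact exists_midValuation A (IsLocalRing.residue A) q ι
    (fun a ha => (IsLocalRing.residue_eq_zero_iff a).mpr ha) hunif
    (arch_of_isNoetherianRing A q hnoeth hq0 hqA) N hqN hq2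

end Residue

end

end Fermat.Agent.S36.helper3082
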