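/-
helper3353 — S36, machine side closed for the kernel operators `U_q`, `U_q ∘ W_M`:

* `killOps_uf_of_killFF` : **(hkill)** `helper1335.Stmt_KillFF → KillOps M lam (uJ M ·) (uwJ M)`
  (one call of the landed seam `helper253.killJ_of_stmt_KillFF` per prime);
* `stmt_KerOpsC_of_killFF` : `helper1335.Stmt_KillFF → helper1195.Stmt_KerOpsC`
  (`helper1195.stmt_KerOpsC_of_ops` with `galOps_uf`, `killOps_uf_of_killFF`, `latOps_uf`);
* `result_of_killFF` : `helper1335.Stmt_KillFF → ` the frozen statement S36, binders verbatim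
  (`helper1195.result_of_ops`).

So S36 is the single Prop `helper1335.Stmt_KillFF` (the geometric statement (KILL)).
-/
import Fermat.Agent.S36.helper3353_LatOps
import Fermat.Agent.S36.helper253_UKillSeam
import Fermat.Agent.S36.helper1195_Closed

set_option autoImplicit false
set_option linter.style.haveILetI false
set_option linter.overlappingInstances false
set_option linter.unusedVariables false

open Polynomial
open CuspForm CuspForm.IsNewform

namespace Fermat.Agent.S36.helper3353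

open ModularCurve AlgebraicCurve
open Fermat.Agent.S36.helper1195

/-- **(hkill) for the total families `helper2039.uJ M`, `uwJ M`** from the canonical geometric
Prop `helper1335.Stmt_KillFF`. -/
theorem killOps_uf_of_killFF (h : Fermat.Agent.S36.helper1335.Stmt_KillFF)
    (M : ℕ) [NeZero M] (lam : ℕ) [Fact lam.Prime] :
    KillOps M lam (fun q => Fermat.Agent.S35.helper2039.uJ M q) (uwJ M) := by
  intro q hsq A hA
  haveI : NeZero q := ⟨hsq.1.ne_zero⟩
  obtain ⟨c, hc0, hc⟩ := Fermat.Agent.S36.helper253.killJ_of_stmt_KillFF h M q hsq.1 hsq.2.2 lam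
    Fact.out (Ne.symm hsq.2.1) A hA
  refine ⟨c, hc0, fun x hx h1 h2 hI => hc x hx ?_ ?_ hI⟩
  · have h1' : Fermat.Agent.S35.helper2039.uJ M q x = 0 := h1
    rwa [Fermat.Agent.S35.helper2039.uJ_eq M q] at h1'
  · have h2' : Fermat.Agent.S35.helper2039.uJ M q (frickeJ M x) = 0 := h2
    rwa [Fermat.Agent.S35.helper2039.uJ_eq M q] at h2'

/-- **`Stmt_KerOpsC` from (KILL)**: the machine side of S36 for the kernel operators `U_q`,
`U_q ∘ W_M`. -/
theorem stmt_KerOpsC_of_killFF (h : Fermat.Agent.S36.helper1335.Stmt_KillFF) : Stmt_KerOpsC :=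
  stmt_KerOpsC_of_ops (fun M _ q => Fermat.Agent.S35.helper2039.uJ M q) (fun M _ => uwJ M)
    (fun M _ lam => galOps_uf M lam) (fun M _ lam _ => killOps_uf_of_killFF h M lam)
    (fun M _ lam _ S _ _ => latOps_uf M lam S)

/-- **The frozen statement S36 from the single geometric Prop (KILL)** `helper1335.Stmt_KillFF`
(binders of the frozen statement verbatim). -/
theorem result_of_killFF (hKill : Fermat.Agent.S36.helper1335.Stmt_KillFF)
    {M : ℕ} [NeZero M] {g : CuspForm (CongruenceSubgroup.Gamma0 M) 2} (hg : g.IsNewform)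
    (lam : ℕ) [Fact lam.Prime]
    (S : Finset ℕ)
    (O' : Type) [CommRing O'] [IsDomain O'] [IsDiscreteValuationRing O']
    [IsAdicComplete (IsLocalRing.maximalIdeal O') O'] [Finite (IsLocalRing.ResidueField O')]
    [CharZero O'] (hlamO' : (lam : O') ∈ IsLocalRing.maximalIdeal O')
    (hlam2 : lam ≠ 2)
    (chig : CuspForm.heckeAlgebra M 2 (↑S : Set ℕ) →+* ℂ)
    (hchig : ∀ (ℓ : ℕ) (hℓ : ℓ.Prime) (hℓM : ¬ ℓ ∣ M) (hℓS : ℓ ∉ (↑S : Set ℕ)),
      chig (CuspForm.heckeAlgebra.T hℓ hℓM hℓS) = ModularFormClass.qCoeff g ℓ)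
    (iota : chig.range →+* O')
    (hlamS : lam ∈ S) (hMS : ∀ q : ℕ, q.Prime → q ∣ M → q ∈ S)
    (hres : ∀ (O'' : Type) [CommRing O''] [IsDomain O''] [IsDiscreteValuationRing O'']
      [IsAdicComplete (IsLocalRing.maximalIdeal O'') O''] [Finite (IsLocalRing.ResidueField O'')] [CharZero O'']
      [Algebra O' O''] [Module.Finite O' O''] [IsLocalHom (algebraMap O' O'')],
      Function.Injective (algebraMap O' O'') → ∀ (ρ : GaloisRepAdic O''),
      (∀ (ℓ : ℕ) (hℓ : ℓ.Prime) (hℓlam : ℓ ≠ lam) (hℓM : ¬ ℓ ∣ M) (hℓS : ℓ ∉ (↑S : Set ℕ)),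
        ∀ A : ValuationSubring (AlgebraicClosure ℚ), A.LiesOverPrime ℓ →
          ∀ σ : AlgebraicClosure ℚ ≃ₐ[ℚ] AlgebraicClosure ℚ, A.IsFrobeniusAt σ ℓ →
            LinearMap.charpoly (ρ.ρ σ) =
              X ^ 2 - C (algebraMap O' O'' ((iota.comp chig.rangeRestrict) (CuspForm.heckeAlgebra.T hℓ hℓM hℓS))) * X
                + C ((ℓ : O'')))
      → ρ.residual.IsAbsolutelyIrreducible ∧ ρ.residual.IsOdd)
    :
    ∃ (O'' : Type) (_ : CommRing O'') (_ : IsDomain O'') (_ : IsDiscreteValuationRing O'')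
      (_ : IsAdicComplete (IsLocalRing.maximalIdeal O'') O'') (_ : Finite (IsLocalRing.ResidueField O''))
      (_ : CharZero O'') (_ : Algebra O' O'') (_ : Module.Finite O' O'') (_ : IsLocalHom (algebraMap O' O'')),
      Function.Injective (algebraMap O' O'') ∧
      ∃ ρ : GaloisRepAdic O'',
        (∀ (ℓ : ℕ) (hℓ : ℓ.Prime) (hℓM : ¬ ℓ ∣ M) (hℓS : ℓ ∉ (↑S : Set ℕ)),
          ∀ A : ValuationSubring (AlgebraicClosure ℚ), A.LiesOverPrime ℓ →
            ∀ σ : AlgebraicClosure ℚ ≃ₐ[ℚ] AlgebraicClosure ℚ, A.IsFrobeniusAt σ ℓ →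
              LinearMap.charpoly (ρ.ρ σ) =
                X ^ 2 - C (algebraMap O' O'' ((iota.comp chig.rangeRestrict) (CuspForm.heckeAlgebra.T hℓ hℓM hℓS))) * X
                  + C ((ℓ : O''))) ∧
        (∀ q : ℕ, q.Prime → q ≠ lam → M.factorization q = 2 → ¬ ρ.IsUnipotentOnInertiaAt q) :=
  result_of_ops (fun M _ q => Fermat.Agent.S35.helper2039.uJ M q) (fun M _ => uwJ M)
    (fun M _ lam => galOps_uf M lam) (fun M _ lam _ => killOps_uf_of_killFF hKill M lam)
    (fun M _ lam _ S _ _ => latOps_uf M lam S)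
    hg lam S O' hlamO' hlam2 chig hchig iota hlamS hMS hres

end Fermat.Agent.S36.helper3353
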