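import Mathlib
import Fermat.Agent.S18.helper508_GaussMod
import Fermat.Agent.S18.helper8991_GaussInst
import Fermat.Agent.S35.helper1024_TwoVal
import Fermat.Agent.S35.helper1928_TwoValBasis

/-!
# S36-KWIT (helper3537): residual-independence witnesses over an ARBITRARY base `(L, A)`

The count cores of S36 (completeness of the list of Gauss extensions from `∑ e f = n`) take
lower-bound witnesses as hypotheses: residually independent families at the valuation rings of
the `L`-form `F = laurentBaseChange L (modularFunctionFieldFull N)` of the function field of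
`X₀(N)`.  On main such families existed only over `(ℚ̄, A)`.  Here they are produced for an
arbitrary coefficient field `L` (a `ℚ`-algebra) and an arbitrary valuation subring `A` of `L`
with residue map `π : A →+* k`, `char k = ℓ` — in particular for `L = ℚ̄^I`, `A = O_K`.

Main statements (`V = helper8991.gaussF A π N`, base ring
`baseRing A π N g = V.comap (algebraMap L⟮g⟯ F)`):

* `gaussElt_of_inc` : an integral series `g` with transcendental reduction is a Gauss element
  (`helper1024.GaussElt`) of `L⟮g⟯`;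
* `exists_rat_rel`, `exists_red_rel` : Gauss-integral elements of `L⟮g⟯` are quotients of
  integral polynomials in `g` with nonzero reduced denominator, and reduce accordingly;
* `resIndep_of_red` : residual independence over `baseRing` from polynomial independence of the
  reductions over `k[ḡ]`;
* `resIndep_basis` : the GAUSSMOD basis of level `M` (`ℓ ∤ M`, `M ∣ N`) is residually
  independent over the Gauss ring of `L(j)` at `gaussF A π N`  (`f`-witness of size `ψ(M)`);
* `resIndep_pow_basis` : the family `j ^ a * b i`, `a < m = ℓ ^ s`, is residually independent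
  over the Gauss ring of `L(j(t^m))`  (`f`-witness of size `ℓ^s ψ(M)`; after transport by
  the Atkin–Lehner involution this is the witness at `v_0`).
-/

set_option autoImplicit false

noncomputable section

namespace Fermat.Agent.S36.helper3537

open ModularCurve Polynomial IntermediateField
open Fermat.Agent.S28
open Fermat.Agent.S18 Fermat.Agent.S18.helper508 Fermat.Agent.S18.helper8991
open Fermat.Agent.S35 Fermat.Agent.S35.helper1024

/-! ### Integral elements of the `L`-form and their reductions -/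

section Integral

variable {L : Type*} [Field L] [Algebra ℚ L] (A : ValuationSubring L) {k : Type*} [Field k]
  (π : A →+* k) (N : ℕ)

/-- An element of the `L`-form whose expansion is an integral series lies in `gaussF`. -/
theorem mem_gaussF_of_inc (f : ↥(laurentBaseChange L (modularFunctionFieldFull N)))
    (y : LaurentSeries A) (h : (f : LaurentSeries L) = inc A y) : f ∈ gaussF A π N :=
  (mem_gaussF_iff A π N f).mpr ⟨y, 1, by simp, by simp [h]⟩

/-- ... and its reduction is the coefficientwise reduction. -/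
theorem gaussFRed_of_inc (f : ↥(gaussF A π N)) (y : LaurentSeries A)
    (h : ((f : ↥(laurentBaseChange L (modularFunctionFieldFull N))) : LaurentSeries L) = inc A y) :
    gaussFRed A π N f = red A π y := by
  rw [gaussFRed_eq A π N f (X := y) (Y := 1) (by simp) (by simp [h])]
  simp

theorem inc_zTo (z : LaurentSeries ℤ) : inc A (zTo A z) = zTo L z := coeffMap_zTo _ z

theorem red_zTo (z : LaurentSeries ℤ) : red A π (zTo A z) = zTo k z := coeffMap_zTo _ z

/-- Coercion to Laurent series commutes with polynomial evaluation. -/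
theorem coe_aeval (g : ↥(laurentBaseChange L (modularFunctionFieldFull N))) (p : L[X]) :
    ((aeval g p : ↥(laurentBaseChange L (modularFunctionFieldFull N))) : LaurentSeries L) =
      aeval (g : LaurentSeries L) p :=
  (Polynomial.aeval_algHom_apply (laurentBaseChange L (modularFunctionFieldFull N)).val g p).symm

/-- A polynomial with integral coefficients in an integral series is an integral series. -/
theorem coe_aeval_inc (g : ↥(laurentBaseChange L (modularFunctionFieldFull N)))
    (x : LaurentSeries A) (hg : (g : LaurentSeries L) = inc A x) (P : A[X]) :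
    ((aeval g (P.map A.subtype) : ↥(laurentBaseChange L (modularFunctionFieldFull N))) :
      LaurentSeries L) = inc A (aeval x P) := by
  rw [coe_aeval, hg]
  exact (helper1928.coeffMap_aeval A.subtype x P).symm

theorem aeval_mem_gaussF (g : ↥(laurentBaseChange L (modularFunctionFieldFull N)))
    (x : LaurentSeries A) (hg : (g : LaurentSeries L) = inc A x) (P : A[X]) :
    aeval g (P.map A.subtype) ∈ gaussF A π N :=
  mem_gaussF_of_inc A π N _ _ (coe_aeval_inc A N g x hg P)

theorem gaussFRed_aeval (g : ↥(laurentBaseChange L (modularFunctionFieldFull N)))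
    (x : LaurentSeries A) (hg : (g : LaurentSeries L) = inc A x) (P : A[X]) :
    gaussFRed A π N ⟨aeval g (P.map A.subtype), aeval_mem_gaussF A π N g x hg P⟩ =
      aeval (red A π x) (P.map π) := by
  rw [gaussFRed_of_inc A π N _ _ (coe_aeval_inc A N g x hg P)]
  exact helper1928.coeffMap_aeval π x P

end Integral

/-! ### The Gauss ring of `L⟮g⟯` and the Gauss lemma -/

section Gauss

variable {L : Type*} [Field L] [Algebra ℚ L] (A : ValuationSubring L) {k : Type*} [Field k]
  (π : A →+* k) (N : ℕ)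

omit [Algebra ℚ L] in
theorem mem_maximalIdeal_of_map_eq_zero {a : A} (h : π a = 0) :
    a ∈ IsLocalRing.maximalIdeal A := by
  by_contra hcon
  have hu : IsUnit a := by
    by_contra h'
    exact hcon ((IsLocalRing.mem_maximalIdeal a).mpr h')
  exact (hu.map π).ne_zero h

/-- Nonunits of `gaussF` are the elements with zero reduction. -/
theorem mem_nonunits_gaussF_iff (f : ↥(gaussF A π N)) :
    (f : ↥(laurentBaseChange L (modularFunctionFieldFull N))) ∈ (gaussF A π N).nonunits ↔
      gaussFRed A π N f = 0 := by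
  rw [gaussFRed_eq_zero_iff, ValuationSubring.mem_nonunits_iff_exists_mem_maximalIdeal]
  exact ⟨fun ⟨_, h⟩ => h, fun h => ⟨f.2, h⟩⟩

/-- Shortcut instance (the instance found by unification-heavy search, stated directly; open
this namespace to have it available cheaply). -/
scoped instance algebraAdjoinSimple
    (g : ↥(laurentBaseChange L (modularFunctionFieldFull N))) : Algebra L ↥L⟮g⟯ :=
  (L⟮g⟯).algebra'

/-- Shortcut instance, see `algebraAdjoinSimple`. -/
scoped instance isScalarTowerAdjoinSimple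
    (g : ↥(laurentBaseChange L (modularFunctionFieldFull N))) :
    IsScalarTower L ↥L⟮g⟯ ↥(laurentBaseChange L (modularFunctionFieldFull N)) :=
  isScalarTower_mid' L⟮g⟯

/-- The valuation ring of `L⟮g⟯` cut out by the Gauss ring `gaussF A π N`. -/
def baseRing (g : ↥(laurentBaseChange L (modularFunctionFieldFull N))) :
    ValuationSubring ↥L⟮g⟯ :=
  (gaussF A π N).comap
    (algebraMap ↥L⟮g⟯ ↥(laurentBaseChange L (modularFunctionFieldFull N)))

theorem comap_gaussF (g : ↥(laurentBaseChange L (modularFunctionFieldFull N))) :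
    (gaussF A π N).comap
      (algebraMap ↥L⟮g⟯ ↥(laurentBaseChange L (modularFunctionFieldFull N))) =
      baseRing A π N g := rfl

theorem mem_baseRing_iff (g : ↥(laurentBaseChange L (modularFunctionFieldFull N))) (a : ↥L⟮g⟯) :
    a ∈ baseRing A π N g ↔
      algebraMap ↥L⟮g⟯ ↥(laurentBaseChange L (modularFunctionFieldFull N)) a ∈ gaussF A π N :=
  Iff.rfl

/-- `baseRing` lies over `A`. -/
theorem comap_baseRing (hπ0 : ∀ a : A, a ∈ IsLocalRing.maximalIdeal A → π a = 0)
    (g : ↥(laurentBaseChange L (modularFunctionFieldFull N))) :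
    (baseRing A π N g).comap (algebraMap L ↥L⟮g⟯) = A := by
  ext c
  rw [ValuationSubring.mem_comap, mem_baseRing_iff, ← IsScalarTower.algebraMap_apply]
  exact algebraMap_mem_gaussF_iff A π N hπ0 c

/-- **Gauss element.**  An integral series `g = inc x` of the `L`-form whose reduction is
transcendental over `k` is a Gauss element of `L⟮g⟯` for `(A, baseRing)`. -/
theorem gaussElt_of_inc (g : ↥(laurentBaseChange L (modularFunctionFieldFull N)))
    (x : LaurentSeries A) (hg : (g : LaurentSeries L) = inc A x)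
    (htr : ∀ Q : k[X], aeval (red A π x) Q = 0 → Q = 0) :
    GaussElt A (baseRing A π N g) (AdjoinSimple.gen L g) := by
  refine ⟨?_, fun p hp hmem i => ?_⟩
  · rw [mem_baseRing_iff, AdjoinSimple.algebraMap_gen]
    exact mem_gaussF_of_inc A π N g x hg
  · obtain ⟨P, rfl⟩ := exists_map_subtype_eq A p hp
    have h1 := (mem_nonunits_iff_of_comap (comap_gaussF A π N g) _).mpr hmem
    rw [← aeval_algebraMap_apply, AdjoinSimple.algebraMap_gen] at h1
    have h2 := (mem_nonunits_gaussF_iff A π N ⟨_, aeval_mem_gaussF A π N g x hg P⟩).mp h1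
    rw [gaussFRed_aeval A π N g x hg P] at h2
    have h3 := htr _ h2
    have h4 : π (P.coeff i) = 0 := by
      have := congrArg (fun q => q.coeff i) h3
      simpa using this
    rw [Polynomial.coeff_map]
    exact ValuationSubring.mem_nonunits_iff_exists_mem_maximalIdeal.mpr
      ⟨_, mem_maximalIdeal_of_map_eq_zero A π h4⟩

/-- `gaussF` lies over `A`. -/
theorem comap_algebraMap_gaussF (hπ0 : ∀ a : A, a ∈ IsLocalRing.maximalIdeal A → π a = 0) :
    (gaussF A π N).comap
      (algebraMap L ↥(laurentBaseChange L (modularFunctionFieldFull N))) = A := by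
  ext c
  rw [ValuationSubring.mem_comap]
  exact algebraMap_mem_gaussF_iff A π N hπ0 c

/-- **Gauss element, in `F` itself.**  An integral series `g = inc x` whose reduction is
transcendental over `k` is a Gauss element of `F` for `(A, gaussF)`. -/
theorem gaussElt_F_of_inc (g : ↥(laurentBaseChange L (modularFunctionFieldFull N)))
    (x : LaurentSeries A) (hg : (g : LaurentSeries L) = inc A x)
    (htr : ∀ Q : k[X], aeval (red A π x) Q = 0 → Q = 0) :
    GaussElt A (gaussF A π N) g := by
  refine ⟨mem_gaussF_of_inc A π N g x hg, fun p hp hmem i => ?_⟩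
  obtain ⟨P, rfl⟩ := exists_map_subtype_eq A p hp
  have h2 := (mem_nonunits_gaussF_iff A π N ⟨_, aeval_mem_gaussF A π N g x hg P⟩).mp hmem
  rw [gaussFRed_aeval A π N g x hg P] at h2
  have h3 := htr _ h2
  have h4 : π (P.coeff i) = 0 := by
    have := congrArg (fun q => q.coeff i) h3
    simpa using this
  rw [Polynomial.coeff_map]
  exact ValuationSubring.mem_nonunits_iff_exists_mem_maximalIdeal.mpr
    ⟨_, mem_maximalIdeal_of_map_eq_zero A π h4⟩

end Gauss

/-! ### Rational normal form and residual independence -/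

section Rat

variable {L : Type*} [Field L] [Algebra ℚ L] (A : ValuationSubring L) {k : Type*} [Field k]
  (π : A →+* k) (N : ℕ)

/-- Elements of `L⟮g⟯` in the Gauss ring are quotients `P(g) / Q(g)` with `P, Q ∈ A[X]` and
`Q̄ ≠ 0`. -/
theorem exists_rat_rel (hπ0 : ∀ a : A, a ∈ IsLocalRing.maximalIdeal A → π a = 0)
    (g : ↥(laurentBaseChange L (modularFunctionFieldFull N)))
    (x : LaurentSeries A) (hg : (g : LaurentSeries L) = inc A x)
    (htr : ∀ Q : k[X], aeval (red A π x) Q = 0 → Q = 0)
    (a : ↥L⟮g⟯) (ha : a ∈ baseRing A π N g) :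
    ∃ P Q : A[X], Q.map π ≠ 0 ∧
      algebraMap ↥L⟮g⟯ ↥(laurentBaseChange L (modularFunctionFieldFull N)) a *
        aeval g (Q.map A.subtype) = aeval g (P.map A.subtype) := by
  have hG := gaussElt_of_inc A π N g x hg htr
  have hA := comap_baseRing A π N hπ0 g
  obtain ⟨r, s, hrs⟩ := (IntermediateField.mem_adjoin_simple_iff L _).mp a.2
  have hcoe : algebraMap ↥L⟮g⟯ ↥(laurentBaseChange L (modularFunctionFieldFull N)) a =
      aeval g r / aeval g s := hrs
  by_cases hs : aeval g s = 0
  · refine ⟨0, 1, ?_, ?_⟩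
    · rw [Polynomial.map_one]; exact one_ne_zero
    · rw [hcoe, hs, div_zero, zero_mul, Polynomial.map_zero, map_zero]
  · have hs0 : s ≠ 0 := by rintro rfl; exact hs (map_zero _)
    obtain ⟨m, hd0, -, hq, hqm⟩ := exists_max_coeff A hs0
    obtain ⟨Q, hQ⟩ := exists_map_subtype_eq A _ hq
    have hQm : (Q.map π).coeff m = 1 := by
      have h1 : Q.coeff m = 1 := by
        apply Subtype.ext
        have := congrArg (fun p => p.coeff m) hQ
        simp only [Polynomial.coeff_map] at this
        rw [hqm] at this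
        exact this
      rw [Polynomial.coeff_map, h1, map_one]
    have hQ0 : Q.map π ≠ 0 := fun h => by
      rw [h, Polynomial.coeff_zero] at hQm
      exact zero_ne_one hQm
    have key : algebraMap ↥L⟮g⟯ ↥(laurentBaseChange L (modularFunctionFieldFull N)) a *
        aeval g (C (s.coeff m)⁻¹ * s) = aeval g (C (s.coeff m)⁻¹ * r) := by
      rw [map_mul, map_mul, hcoe]
      field_simp
    have hmem : aeval (AdjoinSimple.gen L g) (C (s.coeff m)⁻¹ * r) ∈ baseRing A π N g := by
      rw [mem_baseRing_iff, ← aeval_algebraMap_apply, AdjoinSimple.algebraMap_gen, ← key]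
      refine (gaussF A π N).mul_mem _ _ ha ?_
      rw [← hQ]
      exact aeval_mem_gaussF A π N g x hg Q
    obtain ⟨P, hP⟩ := exists_map_subtype_eq A _ ((hG.aeval_mem_iff hA _).mp hmem)
    exact ⟨P, Q, hQ0, by rw [hP, hQ]; exact key⟩

/-- The reduction of a Gauss-integral element of `L⟮g⟯` is a quotient of polynomials in the
reduction of `g`. -/
theorem exists_red_rel (hπ0 : ∀ a : A, a ∈ IsLocalRing.maximalIdeal A → π a = 0)
    (g : ↥(laurentBaseChange L (modularFunctionFieldFull N)))
    (x : LaurentSeries A) (hg : (g : LaurentSeries L) = inc A x)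
    (htr : ∀ Q : k[X], aeval (red A π x) Q = 0 → Q = 0)
    (a : ↥L⟮g⟯)
    (ha : algebraMap ↥L⟮g⟯ ↥(laurentBaseChange L (modularFunctionFieldFull N)) a ∈
      gaussF A π N) :
    ∃ P Q : k[X], Q ≠ 0 ∧
      gaussFRed A π N ⟨_, ha⟩ * aeval (red A π x) Q = aeval (red A π x) P := by
  obtain ⟨P, Q, hQ, h⟩ := exists_rat_rel A π N hπ0 g x hg htr a ha
  refine ⟨P.map π, Q.map π, hQ, ?_⟩
  rw [← gaussFRed_aeval A π N g x hg Q, ← gaussFRed_aeval A π N g x hg P, ← map_mul]
  congr 1
  exact Subtype.ext h

/-- **Residual independence from the special fibre.**  Integral series `b i = inc (y i)` of the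
`L`-form whose reductions are linearly independent over `k[ḡ]` (polynomial coefficients) are
residually independent over the Gauss ring of `L⟮g⟯`. -/
theorem resIndep_of_red (hπ0 : ∀ a : A, a ∈ IsLocalRing.maximalIdeal A → π a = 0)
    (g : ↥(laurentBaseChange L (modularFunctionFieldFull N)))
    (x : LaurentSeries A) (hg : (g : LaurentSeries L) = inc A x)
    (htr : ∀ Q : k[X], aeval (red A π x) Q = 0 → Q = 0)
    {ι : Type*} [Fintype ι] (b : ι → ↥(laurentBaseChange L (modularFunctionFieldFull N)))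
    (y : ι → LaurentSeries A) (hb : ∀ i, (b i : LaurentSeries L) = inc A (y i))
    (hind : ∀ c : ι → k[X], ∑ i, aeval (red A π x) (c i) * red A π (y i) = 0 → c = 0) :
    ResIndep (baseRing A π N g) (gaussF A π N) b := by
  classical
  have hbV : ∀ i, b i ∈ gaussF A π N := fun i => mem_gaussF_of_inc A π N _ _ (hb i)
  refine ⟨hbV, fun a ha hsum i => ?_⟩
  choose P Q hQ hPQ using fun i => exists_red_rel A π N hπ0 g x hg htr (a i) (ha i)
  have hsumV : ∑ i, a i • b i ∈ gaussF A π N := (gaussF A π N).nonunits_subset hsum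
  have h0 : gaussFRed A π N ⟨∑ i, a i • b i, hsumV⟩ = 0 :=
    (mem_nonunits_gaussF_iff A π N ⟨_, hsumV⟩).mp hsum
  have h1 : gaussFRed A π N ⟨∑ i, a i • b i, hsumV⟩ =
      ∑ i, gaussFRed A π N ⟨_, ha i⟩ * red A π (y i) := by
    have : (⟨∑ i, a i • b i, hsumV⟩ : ↥(gaussF A π N)) =
        ∑ i, (⟨_, ha i⟩ : ↥(gaussF A π N)) * ⟨b i, hbV i⟩ := by
      apply Subtype.ext
      rw [AddSubmonoidClass.coe_finsetSum]
      refine Finset.sum_congr rfl fun i _ => ?_
      rw [Algebra.smul_def]
      rfl
    rw [this, map_sum]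
    refine Finset.sum_congr rfl fun i _ => ?_
    rw [map_mul, gaussFRed_of_inc A π N ⟨b i, hbV i⟩ (y i) (hb i)]
  rw [h1] at h0
  have hJ : ∀ i, aeval (red A π x) (Q i) ≠ 0 := fun i h => hQ i (htr _ h)
  have h2 : ∑ i, aeval (red A π x) (P i * ∏ j ∈ Finset.univ.erase i, Q j) * red A π (y i)
      = 0 := by
    have : ∀ i, aeval (red A π x) (P i * ∏ j ∈ Finset.univ.erase i, Q j) * red A π (y i) =
        (gaussFRed A π N ⟨_, ha i⟩ * red A π (y i)) * aeval (red A π x) (∏ j, Q j) := by
      intro i
      rw [← Finset.mul_prod_erase Finset.univ Q (Finset.mem_univ i), map_mul, map_mul, ← hPQ i]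
      ring
    rw [Finset.sum_congr rfl fun i _ => this i, ← Finset.sum_mul, h0, zero_mul]
  have h3 := congrFun (hind _ h2) i
  have hP : P i = 0 := by
    rcases mul_eq_zero.mp h3 with h | h
    · exact h
    · exact absurd h (Finset.prod_ne_zero_iff.mpr fun j _ => hQ j)
  have h4 : gaussFRed A π N ⟨_, ha i⟩ = 0 := by
    have := hPQ i
    rw [hP, map_zero] at this
    exact (mul_eq_zero.mp this).resolve_right (hJ i)
  exact (mem_nonunits_iff_of_comap (comap_gaussF A π N g) (a i)).mp
    ((mem_nonunits_gaussF_iff A π N ⟨_, ha i⟩).mpr h4)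

end Rat

/-! ### Pure algebra: the power family -/

section PowFamily

/-- If the `r i` are linearly independent over `k[J]` (polynomial coefficients), then the
family `J ^ a * r i`, `a < m`, is linearly independent over `k[J ^ m]`. -/
theorem pow_family_indep {k K : Type*} [Field k] [CommRing K] [Algebra k K] (J : K) (m : ℕ)
    (hm : 0 < m) {ι : Type*} [Fintype ι] (r : ι → K)
    (hind : ∀ c : ι → k[X], ∑ i, aeval J (c i) * r i = 0 → c = 0)
    (c : Fin m × ι → k[X])
    (h : ∑ e, aeval (J ^ m) (c e) * (J ^ (e.1 : ℕ) * r e.2) = 0) : c = 0 := by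
  classical
  have hterm : ∀ (a : Fin m) (i : ι),
      aeval (J ^ m) (c (a, i)) * (J ^ (a : ℕ) * r i) =
        aeval J (expand k m (c (a, i)) * X ^ (a : ℕ)) * r i := by
    intro a i
    rw [map_mul, map_pow, aeval_X, expand_aeval]
    ring
  have hsum : ∑ i, aeval J (∑ a : Fin m, expand k m (c (a, i)) * X ^ (a : ℕ)) * r i = 0 := by
    rw [← h, Fintype.sum_prod_type, Finset.sum_comm]
    refine Finset.sum_congr rfl fun i _ => ?_
    rw [map_sum, Finset.sum_mul]
    exact Finset.sum_congr rfl fun a _ => (hterm a i).symm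
  have hd := hind _ hsum
  funext ⟨a, i⟩
  ext n
  have h3 := congrArg (fun p : k[X] => p.coeff (m * n + a)) (congrFun hd i)
  simp only [Pi.zero_apply, coeff_zero, finsetSum_coeff] at h3
  rw [Finset.sum_eq_single a] at h3
  · rw [coeff_mul_X_pow', if_pos (Nat.le_add_left _ _), Nat.add_sub_cancel,
      coeff_expand hm, if_pos (dvd_mul_right _ _), Nat.mul_div_cancel_left _ hm] at h3
    simpa using h3
  · intro a' _ ha'
    rw [coeff_mul_X_pow']
    split_ifs with hle
    · rw [coeff_expand hm, if_neg]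
      rintro ⟨t, ht⟩
      apply ha'
      apply Fin.ext
      have e1 : m * n + (a : ℕ) = m * t + (a' : ℕ) := by omega
      have e2 := congrArg (· % m) e1
      simp only [Nat.mul_add_mod] at e2
      rw [Nat.mod_eq_of_lt a.2, Nat.mod_eq_of_lt a'.2] at e2
      exact e2.symm
    · rfl
  · intro h; exact absurd (Finset.mem_univ a) h

end PowFamily

/-! ### The concrete witnesses at the Gauss ring `gaussF A π N` -/

section Concrete

variable {L : Type*} [Field L] [Algebra ℚ L] (A : ValuationSubring L) {k : Type*} [Field k]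
  (π : A →+* k) (N : ℕ)

omit [Algebra ℚ L] in
theorem inc_jqModC : inc A (jqModC A) = jqModC L := coeffMap_jqModC _

omit [Algebra ℚ L] in
theorem red_jqModC : red A π (jqModC A) = jqModC k := coeffMap_jqModC _

theorem aeval_jqModC_eq_zero (Q : k[X]) (h : aeval (jqModC k) Q = 0) : Q = 0 := by
  by_contra hQ
  exact aeval_jqModC_ne_zero hQ h

/-- `j` is a Gauss element of `L(j)` for the Gauss ring. -/
theorem gaussElt_j (j : ↥(laurentBaseChange L (modularFunctionFieldFull N)))
    (hj : (j : LaurentSeries L) = jqModC L) :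
    GaussElt A (baseRing A π N j) (AdjoinSimple.gen L j) :=
  gaussElt_of_inc A π N j (jqModC A) (by rw [hj, inc_jqModC])
    (by rw [red_jqModC]; exact aeval_jqModC_eq_zero)

/-- **(W1)** Integer series whose reductions mod `ℓ` are linearly independent over `𝔽_ℓ[j̄]`
(e.g. the GAUSSMOD basis of a level `M ∣ N`, `ℓ ∤ M`) are residually independent over the
Gauss ring of `L(j)` at `gaussF A π N`, for every `(L, A)` with residue characteristic `ℓ`. -/
theorem resIndep_basis (hπ0 : ∀ a : A, a ∈ IsLocalRing.maximalIdeal A → π a = 0)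
    (ℓ : ℕ) [Fact ℓ.Prime] [CharP k ℓ]
    (j : ↥(laurentBaseChange L (modularFunctionFieldFull N)))
    (hj : (j : LaurentSeries L) = jqModC L)
    {n : ℕ} (bZ : Fin n → LaurentSeries ℤ) (hbZ : Spec.LinIndepModL ℓ bZ)
    (b : Fin n → ↥(laurentBaseChange L (modularFunctionFieldFull N)))
    (hb : ∀ i, (b i : LaurentSeries L) = zTo L (bZ i)) :
    ResIndep (baseRing A π N j) (gaussF A π N) b := by
  refine resIndep_of_red A π N hπ0 j (jqModC A) (by rw [hj, inc_jqModC]) ?_ b
    (fun i => zTo A (bZ i)) (fun i => by rw [hb i, inc_zTo]) ?_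
  · rw [red_jqModC]; exact aeval_jqModC_eq_zero
  · intro c hc
    simp only [red_jqModC, red_zTo] at hc
    exact linIndep_extend bZ hbZ k c hc

/-- In characteristic `ℓ`, the `ℓ ^ s`-th power of the reduction of an integer series `x(t)` is
`x(t ^ (ℓ ^ s))`. -/
theorem zTo_pow_char_pow (k : Type*) [Field k] (ℓ : ℕ) [Fact ℓ.Prime] [CharP k ℓ] (s : ℕ)
    (z : LaurentSeries ℤ) : zTo k z ^ (ℓ ^ s) = qExpand k (ℓ ^ s) (zTo k z) := by
  have : ExpChar k ℓ := ExpChar.prime Fact.out
  induction s with
  | zero => simp only [pow_zero, pow_one]; exact (qExpand_one_apply _).symm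
  | succ s ih =>
    calc zTo k z ^ (ℓ ^ (s + 1)) = (zTo k z ^ (ℓ ^ s)) ^ ℓ := by rw [pow_succ, pow_mul]
      _ = (qExpand k (ℓ ^ s) (zTo k z)) ^ ℓ := by rw [ih]
      _ = (zTo k (qExpand ℤ (ℓ ^ s) z)) ^ ℓ := by rw [helper1928.zTo_qExpand]
      _ = qExpand k ℓ (zTo k (qExpand ℤ (ℓ ^ s) z)) := helper1928.zTo_pow_char k ℓ _
      _ = qExpand k ℓ (qExpand k (ℓ ^ s) (zTo k z)) := by rw [helper1928.zTo_qExpand]
      _ = qExpand k (ℓ * ℓ ^ s) (zTo k z) := qExpand_qExpand _ _ _
      _ = qExpand k (ℓ ^ (s + 1)) (zTo k z) := qExpand_congr (by ring) _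

/-- **(W2), core.**  The family `j ^ a * b i`, `a < ℓ ^ s`, is residually independent over the
Gauss ring of `L(j(t ^ (ℓ ^ s)))` at `gaussF A π N`. -/
theorem resIndep_pow_basis (hπ0 : ∀ a : A, a ∈ IsLocalRing.maximalIdeal A → π a = 0)
    (ℓ : ℕ) [Fact ℓ.Prime] [CharP k ℓ] (s : ℕ)
    (jm : ↥(laurentBaseChange L (modularFunctionFieldFull N)))
    (hjm : (jm : LaurentSeries L) = qExpand L (ℓ ^ s) (jqModC L))
    {n : ℕ} (bZ : Fin n → LaurentSeries ℤ) (hbZ : Spec.LinIndepModL ℓ bZ)
    (c : Fin (ℓ ^ s) × Fin n → ↥(laurentBaseChange L (modularFunctionFieldFull N)))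
    (hc : ∀ e, (c e : LaurentSeries L) = jqModC L ^ (e.1 : ℕ) * zTo L (bZ e.2)) :
    ResIndep (baseRing A π N jm) (gaussF A π N) c := by
  have hpos : 0 < ℓ ^ s := pow_pos (Fact.out : ℓ.Prime).pos s
  have hred : red A π (qExpand A (ℓ ^ s) (jqModC A)) = jqModC k ^ (ℓ ^ s) := by
    rw [red, coeffMap_qExpand, coeffMap_jqModC, ← zTo_jqModC k, zTo_pow_char_pow]
  refine resIndep_of_red A π N hπ0 jm (qExpand A (ℓ ^ s) (jqModC A)) ?_ ?_ c
    (fun e => jqModC A ^ (e.1 : ℕ) * zTo A (bZ e.2)) ?_ ?_
  · rw [hjm, inc, coeffMap_qExpand, coeffMap_jqModC]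
  · rw [hred]
    intro Q hQ
    rw [← expand_aeval] at hQ
    exact expand_injective hpos
      ((aeval_jqModC_eq_zero _ hQ).trans (map_zero (expand k (ℓ ^ s))).symm)
  · intro e
    rw [hc e, map_mul, map_pow, inc_jqModC, inc_zTo]
  · intro c' h
    simp only [hred, map_mul, map_pow, red_jqModC, red_zTo] at h
    exact pow_family_indep (jqModC k) (ℓ ^ s) hpos (fun i => zTo k (bZ i))
      (linIndep_extend bZ hbZ k) c' h

/-- `j(t ^ (ℓ ^ s))` reduces to `j̄ ^ (ℓ ^ s)`. -/
theorem red_qExpand_jqModC (ℓ : ℕ) [Fact ℓ.Prime] [CharP k ℓ] (s : ℕ) :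
    red A π (qExpand A (ℓ ^ s) (jqModC A)) = jqModC k ^ (ℓ ^ s) := by
  rw [red, coeffMap_qExpand, coeffMap_jqModC, ← zTo_jqModC k, zTo_pow_char_pow]

omit [Algebra ℚ L] in
theorem inc_qExpand_jqModC (m : ℕ) [NeZero m] :
    inc A (qExpand A m (jqModC A)) = qExpand L m (jqModC L) := by
  rw [inc, coeffMap_qExpand, coeffMap_jqModC]

theorem aeval_jqModC_pow_eq_zero {m : ℕ} (hm : 0 < m) (Q : k[X])
    (h : aeval (jqModC k ^ m) Q = 0) : Q = 0 := by
  rw [← expand_aeval] at h
  exact expand_injective hm ((aeval_jqModC_eq_zero _ h).trans (map_zero (expand k m)).symm)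

/-- `j` is a Gauss element of `F` at `gaussF`. -/
theorem gaussElt_F_j (j : ↥(laurentBaseChange L (modularFunctionFieldFull N)))
    (hj : (j : LaurentSeries L) = jqModC L) : GaussElt A (gaussF A π N) j :=
  gaussElt_F_of_inc A π N j (jqModC A) (by rw [hj, inc_jqModC])
    (by rw [red_jqModC]; exact aeval_jqModC_eq_zero)

/-- `j(t ^ (ℓ ^ s))` is a Gauss element of `F` at `gaussF` (residue characteristic `ℓ`). -/
theorem gaussElt_F_jpow (ℓ : ℕ) [Fact ℓ.Prime] [CharP k ℓ] (s : ℕ)
    (jm : ↥(laurentBaseChange L (modularFunctionFieldFull N)))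
    (hjm : (jm : LaurentSeries L) = qExpand L (ℓ ^ s) (jqModC L)) :
    GaussElt A (gaussF A π N) jm :=
  gaussElt_F_of_inc A π N jm (qExpand A (ℓ ^ s) (jqModC A)) (by rw [hjm, inc_qExpand_jqModC])
    (by rw [red_qExpand_jqModC]
        exact aeval_jqModC_pow_eq_zero (pow_pos (Fact.out : ℓ.Prime).pos s))

/-- The generators of level `M` are generators of every multiple of `M`. -/
theorem genZ_mono {M N : ℕ} (h : M ∣ N) : helper1595.genZ M ⊆ helper1595.genZ N := by
  rintro x ⟨d, hd, hdM, rfl⟩
  exact ⟨d, hd, hdM.trans h, rfl⟩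

end Concrete

/-! ### Transport along an automorphism (abstract) -/

section Transport

variable {L F : Type*} [Field L] [Field F] [Algebra L F]
variable {A : ValuationSubring L} {V V' : ValuationSubring F} {x x' : F}

/-- Nonunits of a pulled-back valuation ring. -/
theorem mem_nonunits_comap_iff {E : Type*} [Field E] (f : E →+* F) (V : ValuationSubring F)
    (a : E) : a ∈ (V.comap f).nonunits ↔ f a ∈ V.nonunits := by
  rw [ValuationSubring.mem_nonunits_iff_or, ValuationSubring.mem_nonunits_iff_or,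
    ValuationSubring.mem_comap, map_inv₀, map_eq_zero]

/-- **Gauss rings of rational functions agree.**  For Gauss elements `x` (at `V`) and `x'`
(at `V'`) over the same `(L, A)`, a rational function `r / s` is integral at `x` iff it is
integral at `x'`. -/
theorem gaussElt_div_mem_iff (hx : GaussElt A V x) (hA : V.comap (algebraMap L F) = A)
    (hx' : GaussElt A V' x') (hA' : V'.comap (algebraMap L F) = A) (r s : L[X]) :
    aeval x r / aeval x s ∈ V ↔ aeval x' r / aeval x' s ∈ V' := by
  by_cases hs : s = 0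
  · subst hs
    simp only [map_zero, div_zero]
    exact ⟨fun _ => V'.zero_mem, fun _ => V.zero_mem⟩
  · obtain ⟨m, hd0, -, hq, hqm⟩ := exists_max_coeff A hs
    have hu : ∀ {W : ValuationSubring F} {y : F}, GaussElt A W y →
        W.comap (algebraMap L F) = A → W.valuation (aeval y (C (s.coeff m)⁻¹ * s)) = 1 := by
      intro W y hy hW
      have h1 : aeval y (C (s.coeff m)⁻¹ * s) ∈ W := hy.aeval_mem hW hq
      have h2 : aeval y (C (s.coeff m)⁻¹ * s) ∉ W.nonunits := fun h => by
        have := hy.2 _ hq h m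
        rw [hqm] at this
        exact one_notMem_nonunits A this
      exact le_antisymm ((W.valuation_le_one_iff _).mpr h1)
        (not_lt.mp fun hlt => h2 ((ValuationSubring.mem_nonunits_iff _).mpr hlt))
    have key : ∀ {W : ValuationSubring F} {y : F}, GaussElt A W y →
        W.comap (algebraMap L F) = A →
        (aeval y r / aeval y s ∈ W ↔ ∀ i, (C (s.coeff m)⁻¹ * r).coeff i ∈ A) := by
      intro W y hy hW
      rw [← hy.aeval_mem_iff hW]
      have hc : algebraMap L F (s.coeff m)⁻¹ ≠ 0 := by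
        rw [Ne, map_eq_zero, inv_eq_zero]
        exact hd0
      have e : aeval y r / aeval y s =
          aeval y (C (s.coeff m)⁻¹ * r) / aeval y (C (s.coeff m)⁻¹ * s) := by
        rw [map_mul, map_mul, aeval_C, mul_div_mul_left _ _ hc]
      rw [e, ← W.valuation_le_one_iff, ← W.valuation_le_one_iff, map_div₀, hu hy hW, div_one]
    rw [key hx hA, key hx' hA']

/-- An `L`-algebra automorphism maps `L⟮x⟯` into `L⟮w x⟯`. -/
theorem algEquiv_mem_adjoin_simple (w : F ≃ₐ[L] F) {a : F} (ha : a ∈ L⟮x⟯) : w a ∈ L⟮w x⟯ := by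
  obtain ⟨r, s, rfl⟩ := (IntermediateField.mem_adjoin_simple_iff L _).mp ha
  have hw : ∀ p : L[X], w (aeval x p) = aeval (w x) p := fun p =>
    (Polynomial.aeval_algHom_apply (w : F →ₐ[L] F) x p).symm
  rw [map_div₀, hw, hw]
  exact (IntermediateField.mem_adjoin_simple_iff L _).mpr ⟨r, s, rfl⟩

/-- **(T2)**  If `x` and `w x` are both Gauss elements at `V` (over `(L, A)`), then `V` and its
pull-back `V.comap w` cut out the same valuation ring of `L⟮x⟯`. -/
theorem comap_comap_eq_of_gaussElt (hx : GaussElt A V x) (hA : V.comap (algebraMap L F) = A)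
    (w : F ≃ₐ[L] F) (hwx : GaussElt A V (w x)) :
    (V.comap (w : F →+* F)).comap (algebraMap ↥L⟮x⟯ F) = V.comap (algebraMap ↥L⟮x⟯ F) := by
  ext a
  obtain ⟨r, s, hrs⟩ := (IntermediateField.mem_adjoin_simple_iff L _).mp a.2
  have hcoe : algebraMap ↥L⟮x⟯ F a = aeval x r / aeval x s := hrs
  rw [ValuationSubring.mem_comap, ValuationSubring.mem_comap, ValuationSubring.mem_comap, hcoe]
  have hw : (w : F →+* F) (aeval x r / aeval x s) = aeval (w x) r / aeval (w x) s := by
    rw [map_div₀]
    exact congrArg₂ (· / ·) (Polynomial.aeval_algHom_apply (w : F →ₐ[L] F) x r).symm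
      (Polynomial.aeval_algHom_apply (w : F →ₐ[L] F) x s).symm
  rw [hw]
  exact gaussElt_div_mem_iff hwx hA hx hA r s

/-- **(T1)**  Transport of residual independence along an automorphism: if `c` is residually
independent at `V` over the ring cut out on `L⟮w x⟯`, then `w⁻¹ ∘ c` is residually independent at
`V.comap w` over the ring cut out on `L⟮x⟯`. -/
theorem resIndep_comap_algEquiv (w : F ≃ₐ[L] F) (x : F) {ι : Type*} [Fintype ι] (c : ι → F)
    (h : ResIndep (V.comap (algebraMap ↥L⟮w x⟯ F)) V c) :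
    ResIndep ((V.comap (w : F →+* F)).comap (algebraMap ↥L⟮x⟯ F)) (V.comap (w : F →+* F))
      (fun i => w.symm (c i)) := by
  refine ⟨fun i => ?_, fun a ha hsum i => ?_⟩
  · rw [ValuationSubring.mem_comap]
    show w (w.symm (c i)) ∈ V
    rw [AlgEquiv.apply_symm_apply]
    exact h.1 i
  · have hmem : ∀ i, w (a i : F) ∈ L⟮w x⟯ := fun i => algEquiv_mem_adjoin_simple w (a i).2
    have h1 : ∀ i, (⟨w (a i : F), hmem i⟩ : ↥L⟮w x⟯) ∈ V.comap (algebraMap ↥L⟮w x⟯ F) :=
      fun i => ha i
    have h2 : ∑ i, (⟨w (a i : F), hmem i⟩ : ↥L⟮w x⟯) • c i ∈ V.nonunits := by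
      have h3 := (mem_nonunits_comap_iff (w : F →+* F) V _).mp hsum
      have h4 : (w : F →+* F) (∑ i, a i • w.symm (c i)) =
          ∑ i, (⟨w (a i : F), hmem i⟩ : ↥L⟮w x⟯) • c i := by
        rw [map_sum]
        refine Finset.sum_congr rfl fun i _ => ?_
        rw [Algebra.smul_def, Algebra.smul_def, map_mul]
        show w (a i : F) * w (w.symm (c i)) = w (a i : F) * c i
        rw [AlgEquiv.apply_symm_apply]
      rwa [h4] at h3
    have h5 := h.2 _ h1 h2 i
    have h6 : w (a i : F) ∈ V.nonunits := (mem_nonunits_comap_iff _ V _).mp h5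
    exact (mem_nonunits_comap_iff _ _ _).mpr ((mem_nonunits_comap_iff (w : F →+* F) V _).mpr h6)

/-- Gauss elements pull back along `L`-algebra homomorphisms. -/
theorem gaussElt_comap_iff {F' : Type*} [Field F'] [Algebra L F'] (φ : F' →ₐ[L] F)
    (V : ValuationSubring F) (y : F') :
    GaussElt A (V.comap (φ : F' →+* F)) y ↔ GaussElt A V (φ y) := by
  have h : ∀ p : L[X], (φ : F' →+* F) (aeval y p) = aeval (φ y) p := fun p =>
    (Polynomial.aeval_algHom_apply φ y p).symm
  constructor
  · rintro ⟨h1, h2⟩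
    refine ⟨h1, fun p hp hm => h2 p hp ((mem_nonunits_comap_iff _ V _).mpr ?_)⟩
    rw [h]
    exact hm
  · rintro ⟨h1, h2⟩
    refine ⟨h1, fun p hp hm => h2 p hp ?_⟩
    rw [← h]
    exact (mem_nonunits_comap_iff _ V _).mp hm

/-- Pull-back along an `L`-algebra homomorphism does not change the trace on `L`. -/
theorem comap_comap_algebraMap {F' : Type*} [Field F'] [Algebra L F'] (φ : F' →ₐ[L] F)
    (V : ValuationSubring F) :
    (V.comap (φ : F' →+* F)).comap (algebraMap L F') = V.comap (algebraMap L F) := by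
  ext c
  rw [ValuationSubring.mem_comap, ValuationSubring.mem_comap, ValuationSubring.mem_comap]
  have : (φ : F' →+* F) (algebraMap L F' c) = algebraMap L F c := φ.commutes c
  rw [this]

/-- Two valuation rings for which `x` is a Gauss element (over the same `(L, A)`) cut out the
same ring of `L⟮x⟯`. -/
theorem comap_adjoin_eq_of_gaussElt (hx : GaussElt A V x) (hA : V.comap (algebraMap L F) = A)
    (hx' : GaussElt A V' x) (hA' : V'.comap (algebraMap L F) = A) :
    V.comap (algebraMap ↥L⟮x⟯ F) = V'.comap (algebraMap ↥L⟮x⟯ F) := by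
  ext a
  obtain ⟨r, s, hrs⟩ := (IntermediateField.mem_adjoin_simple_iff L _).mp a.2
  have hcoe : algebraMap ↥L⟮x⟯ F a = aeval x r / aeval x s := hrs
  rw [ValuationSubring.mem_comap, ValuationSubring.mem_comap, hcoe]
  exact gaussElt_div_mem_iff hx hA hx' hA' r s

/-- Conversely: a valuation ring cutting out on `L⟮x⟯` the same ring as one for which `x` is a
Gauss element has `x` as a Gauss element, and lies over `A`. -/
theorem gaussElt_of_comap_adjoin_eq (hx' : GaussElt A V' x)
    (hA' : V'.comap (algebraMap L F) = A)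
    (h : V.comap (algebraMap ↥L⟮x⟯ F) = V'.comap (algebraMap ↥L⟮x⟯ F)) :
    GaussElt A V x ∧ V.comap (algebraMap L F) = A := by
  have hmem : ∀ a : ↥L⟮x⟯, algebraMap ↥L⟮x⟯ F a ∈ V ↔ algebraMap ↥L⟮x⟯ F a ∈ V' := fun a => by
    rw [← ValuationSubring.mem_comap, ← ValuationSubring.mem_comap, h]
  have hnon : ∀ a : ↥L⟮x⟯,
      algebraMap ↥L⟮x⟯ F a ∈ V.nonunits ↔ algebraMap ↥L⟮x⟯ F a ∈ V'.nonunits := fun a => by
    rw [← mem_nonunits_comap_iff, ← mem_nonunits_comap_iff, h]
  have e : ∀ p : L[X], algebraMap ↥L⟮x⟯ F (aeval (AdjoinSimple.gen L x) p) = aeval x p :=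
    fun p => by rw [← aeval_algebraMap_apply, AdjoinSimple.algebraMap_gen]
  refine ⟨⟨?_, fun p hp hm => hx'.2 p hp ?_⟩, ?_⟩
  · have := (hmem (AdjoinSimple.gen L x)).mpr (by rw [AdjoinSimple.algebraMap_gen]; exact hx'.1)
    rwa [AdjoinSimple.algebraMap_gen] at this
  · rw [← e] at hm ⊢
    exact (hnon _).mp hm
  · ext c
    rw [ValuationSubring.mem_comap, ← hA', ValuationSubring.mem_comap,
      IsScalarTower.algebraMap_apply L ↥L⟮x⟯ F]
    exact hmem _

end Transport

/-! ### The Gauss ring and its pull-back are different -/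

section Distinct

variable {L : Type*} [Field L] [Algebra ℚ L] (A : ValuationSubring L) {k : Type*} [Field k]
  (π : A →+* k) (N : ℕ)

/-- **The two Gauss rings are different.**  If `w` swaps `j` and `j(t ^ (ℓ ^ s))`, `s ≥ 1`, then
`gaussF` and its pull-back along `w` are different valuation rings: `j(t^m) - j^m` is a nonunit
of the first and a unit of the second. -/
theorem gaussF_ne_comap (ℓ : ℕ) [Fact ℓ.Prime] [CharP k ℓ] (s : ℕ) (hs : s ≠ 0)
    (j jm : ↥(laurentBaseChange L (modularFunctionFieldFull N)))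
    (hj : (j : LaurentSeries L) = jqModC L)
    (hjm : (jm : LaurentSeries L) = qExpand L (ℓ ^ s) (jqModC L))
    (w : ↥(laurentBaseChange L (modularFunctionFieldFull N)) ≃ₐ[L]
      ↥(laurentBaseChange L (modularFunctionFieldFull N)))
    (hw1 : w j = jm) (hw2 : w jm = j) :
    gaussF A π N ≠ (gaussF A π N).comap
      (w : ↥(laurentBaseChange L (modularFunctionFieldFull N)) →+*
        ↥(laurentBaseChange L (modularFunctionFieldFull N))) := by
  intro heq
  have hℓ : ℓ.Prime := Fact.out
  have hpos : 0 < ℓ ^ s := pow_pos hℓ.pos s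
  have hu : ((jm - j ^ (ℓ ^ s) : ↥(laurentBaseChange L (modularFunctionFieldFull N))) :
      LaurentSeries L) = inc A (qExpand A (ℓ ^ s) (jqModC A) - jqModC A ^ (ℓ ^ s)) := by
    rw [map_sub, map_pow, inc_qExpand_jqModC, inc_jqModC, ← hjm, ← hj]
    rfl
  have hwu : ((w (jm - j ^ (ℓ ^ s)) : ↥(laurentBaseChange L (modularFunctionFieldFull N))) :
      LaurentSeries L) = inc A (jqModC A - qExpand A (ℓ ^ s) (jqModC A) ^ (ℓ ^ s)) := by
    rw [map_sub, map_pow, hw1, hw2, map_sub, map_pow, inc_qExpand_jqModC, inc_jqModC, ← hjm, ← hj]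
    rfl
  have h1 : jm - j ^ (ℓ ^ s) ∈ (gaussF A π N).nonunits := by
    rw [mem_nonunits_gaussF_iff A π N ⟨_, mem_gaussF_of_inc A π N _ _ hu⟩,
      gaussFRed_of_inc A π N _ _ hu, map_sub, map_pow, red_qExpand_jqModC, red_jqModC, sub_self]
  have h2 : w (jm - j ^ (ℓ ^ s)) ∈ (gaussF A π N).nonunits := by
    rw [heq] at h1
    exact (mem_nonunits_comap_iff _ _ _).mp h1
  rw [mem_nonunits_gaussF_iff A π N ⟨_, mem_gaussF_of_inc A π N _ _ hwu⟩,
    gaussFRed_of_inc A π N _ _ hwu, map_sub, map_pow, red_qExpand_jqModC, red_jqModC,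
    ← pow_mul] at h2
  have hX : (X - X ^ (ℓ ^ s * ℓ ^ s) : k[X]) ≠ 0 := by
    intro h0
    have h1 := congrArg (fun p : k[X] => p.coeff 1) h0
    have hne : (1 : ℕ) ≠ ℓ ^ s * ℓ ^ s := by
      have : 1 < ℓ ^ s := Nat.one_lt_pow hs hℓ.one_lt
      nlinarith
    simp only [coeff_sub, coeff_X_one, coeff_X_pow, if_neg hne, sub_zero, coeff_zero] at h1
    exact one_ne_zero h1
  have h3 := aeval_jqModC_ne_zero (K := k) hX
  rw [map_sub, map_pow, aeval_X] at h3
  exact h3 h2

/-- `j` is a Gauss element at `V_0 = gaussF.comap w` (`w j = j(t ^ (ℓ ^ s))`). -/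
theorem gaussElt_comap_j (ℓ : ℕ) [Fact ℓ.Prime] [CharP k ℓ] (s : ℕ) (N : ℕ)
    (j jm : ↥(laurentBaseChange L (modularFunctionFieldFull N)))
    (hjm : (jm : LaurentSeries L) = qExpand L (ℓ ^ s) (jqModC L))
    (w : ↥(laurentBaseChange L (modularFunctionFieldFull N)) ≃ₐ[L]
      ↥(laurentBaseChange L (modularFunctionFieldFull N)))
    (hw1 : w j = jm) :
    GaussElt A ((gaussF A π N).comap
      (w : ↥(laurentBaseChange L (modularFunctionFieldFull N)) →+*
        ↥(laurentBaseChange L (modularFunctionFieldFull N)))) j := by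
  have h := gaussElt_F_jpow A π N ℓ s jm hjm
  rw [← hw1] at h
  exact (gaussElt_comap_iff (w : ↥(laurentBaseChange L (modularFunctionFieldFull N)) →ₐ[L]
    ↥(laurentBaseChange L (modularFunctionFieldFull N))) (gaussF A π N) j).mpr h

/-- `j(t ^ m)` is a Gauss element at `V_0 = gaussF.comap w` (`w j(t ^ m) = j`). -/
theorem gaussElt_comap_jl (N : ℕ)
    (j jl : ↥(laurentBaseChange L (modularFunctionFieldFull N)))
    (hj : (j : LaurentSeries L) = jqModC L)
    (w : ↥(laurentBaseChange L (modularFunctionFieldFull N)) ≃ₐ[L]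
      ↥(laurentBaseChange L (modularFunctionFieldFull N)))
    (hw2 : w jl = j) :
    GaussElt A ((gaussF A π N).comap
      (w : ↥(laurentBaseChange L (modularFunctionFieldFull N)) →+*
        ↥(laurentBaseChange L (modularFunctionFieldFull N)))) jl := by
  have h := gaussElt_F_j A π N j hj
  rw [← hw2] at h
  exact (gaussElt_comap_iff (w : ↥(laurentBaseChange L (modularFunctionFieldFull N)) →ₐ[L]
    ↥(laurentBaseChange L (modularFunctionFieldFull N))) (gaussF A π N) jl).mpr h

/-- `V_0 = gaussF.comap w` lies over `A`. -/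
theorem comap_algebraMap_comap (hπ0 : ∀ a : A, a ∈ IsLocalRing.maximalIdeal A → π a = 0)
    (N : ℕ) (w : ↥(laurentBaseChange L (modularFunctionFieldFull N)) ≃ₐ[L]
      ↥(laurentBaseChange L (modularFunctionFieldFull N))) :
    ((gaussF A π N).comap
      (w : ↥(laurentBaseChange L (modularFunctionFieldFull N)) →+*
        ↥(laurentBaseChange L (modularFunctionFieldFull N)))).comap
      (algebraMap L ↥(laurentBaseChange L (modularFunctionFieldFull N))) = A :=
  (comap_comap_algebraMap (w : ↥(laurentBaseChange L (modularFunctionFieldFull N)) →ₐ[L]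
    ↥(laurentBaseChange L (modularFunctionFieldFull N))) (gaussF A π N)).trans
    (comap_algebraMap_gaussF A π N hπ0)

end Distinct

/-! ### Surface: everything the count owes at `V_∞` and `V_0`, level `N`, `ℓ ^ s`-swap `w` -/

section Surface

variable {L : Type*} [Field L] [Algebra ℚ L] (A : ValuationSubring L) {k : Type*} [Field k]
  (π : A →+* k) (N : ℕ)

/-- Residual independence is invariant under reindexing. -/
theorem resIndep_reindex {E F : Type*} [Field E] [Field F] [Algebra E F]
    {V₀ : ValuationSubring E} {V : ValuationSubring F} {ι κ : Type*} [Fintype ι] [Fintype κ]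
    (e : κ ≃ ι) {b : ι → F} (h : ResIndep V₀ V b) : ResIndep V₀ V (fun i => b (e i)) := by
  refine ⟨fun i => h.1 (e i), fun a ha hsum i => ?_⟩
  have h1 := h.2 (fun i => a (e.symm i)) (fun i => ha _) (by
    have : ∑ i, a (e.symm i) • b i = ∑ i, a i • b (e i) :=
      (Fintype.sum_equiv e (fun i => a i • b (e i)) (fun i => a (e.symm i) • b i)
        (fun i => by simp)).symm
    rw [this]
    exact hsum) (e i)
  simpa using h1

/-- **`V_0` lies over the Gauss ring of `L(j)`**: `(gaussF.comap w) ∩ L(j) = gaussF ∩ L(j)`. -/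
theorem comap_comap_w_eq (hπ0 : ∀ a : A, a ∈ IsLocalRing.maximalIdeal A → π a = 0)
    (ℓ : ℕ) [Fact ℓ.Prime] [CharP k ℓ] (s : ℕ)
    (j jm : ↥(laurentBaseChange L (modularFunctionFieldFull N)))
    (hj : (j : LaurentSeries L) = jqModC L)
    (hjm : (jm : LaurentSeries L) = qExpand L (ℓ ^ s) (jqModC L))
    (w : ↥(laurentBaseChange L (modularFunctionFieldFull N)) ≃ₐ[L]
      ↥(laurentBaseChange L (modularFunctionFieldFull N)))
    (hw1 : w j = jm) :
    ((gaussF A π N).comap
      (w : ↥(laurentBaseChange L (modularFunctionFieldFull N)) →+*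
        ↥(laurentBaseChange L (modularFunctionFieldFull N)))).comap
      (algebraMap ↥L⟮j⟯ ↥(laurentBaseChange L (modularFunctionFieldFull N))) =
      baseRing A π N j := by
  subst hw1
  exact comap_comap_eq_of_gaussElt (gaussElt_F_j A π N j hj)
    (comap_algebraMap_gaussF A π N hπ0) w (gaussElt_F_jpow A π N ℓ s (w j) hjm)

/-- **(W2) at `V_0`.**  The family `w⁻¹ (j ^ a * b i)`, `a < ℓ ^ s`, is residually independent
at `V_0 = gaussF.comap w` over the Gauss ring of `L(j)`. -/
theorem resIndep_zero (hπ0 : ∀ a : A, a ∈ IsLocalRing.maximalIdeal A → π a = 0)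
    (ℓ : ℕ) [Fact ℓ.Prime] [CharP k ℓ] (s : ℕ)
    (j jm : ↥(laurentBaseChange L (modularFunctionFieldFull N)))
    (hj : (j : LaurentSeries L) = jqModC L)
    (hjm : (jm : LaurentSeries L) = qExpand L (ℓ ^ s) (jqModC L))
    (w : ↥(laurentBaseChange L (modularFunctionFieldFull N)) ≃ₐ[L]
      ↥(laurentBaseChange L (modularFunctionFieldFull N)))
    (hw1 : w j = jm)
    {n : ℕ} (bZ : Fin n → LaurentSeries ℤ) (hbZ : Spec.LinIndepModL ℓ bZ)
    (c : Fin (ℓ ^ s) × Fin n → ↥(laurentBaseChange L (modularFunctionFieldFull N)))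
    (hc : ∀ e, (c e : LaurentSeries L) = jqModC L ^ (e.1 : ℕ) * zTo L (bZ e.2)) :
    ResIndep (baseRing A π N j)
      ((gaussF A π N).comap
        (w : ↥(laurentBaseChange L (modularFunctionFieldFull N)) →+*
          ↥(laurentBaseChange L (modularFunctionFieldFull N))))
      (fun e => w.symm (c e)) := by
  have h0 := resIndep_pow_basis A π N hπ0 ℓ s jm hjm bZ hbZ c hc
  have hT := comap_comap_w_eq A π N hπ0 ℓ s j jm hj hjm w hw1
  subst hw1
  have h1 := resIndep_comap_algEquiv w j c h0
  rwa [hT] at h1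

/-- **(W1), existence form**: a residually independent family of size `ψ(M)` at `V_∞`
(`M ∣ N`, `ℓ ∤ M`). -/
theorem exists_resIndep_inf (hπ0 : ∀ a : A, a ∈ IsLocalRing.maximalIdeal A → π a = 0)
    (ℓ : ℕ) [Fact ℓ.Prime] [CharP k ℓ] (M : ℕ) [NeZero M] (hMN : M ∣ N) (hℓM : ¬ ℓ ∣ M)
    (j : ↥(laurentBaseChange L (modularFunctionFieldFull N)))
    (hj : (j : LaurentSeries L) = jqModC L) :
    ∃ ω : Fin (dedekindPsi M) → ↥(laurentBaseChange L (modularFunctionFieldFull N)),
      ResIndep (baseRing A π N j) (gaussF A π N) ω := by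
  obtain ⟨bZ, hmem, -, -, hind⟩ := exists_basisZ M ℓ hℓM
  have hmemN : ∀ i, bZ i ∈ Submonoid.closure (helper1595.genZ N) := fun i =>
    Submonoid.closure_mono (genZ_mono hMN) (hmem i)
  exact ⟨fun i => ⟨zTo L (bZ i), zTo_mem_bar L N (hmemN i)⟩,
    resIndep_basis A π N hπ0 ℓ j hj bZ hind _ (fun i => rfl)⟩

/-- **(W2), existence form**: a residually independent family of size `ℓ ^ s * ψ(M)` at
`V_0 = gaussF.comap w` (`M ∣ N`, `ℓ ∤ M`, `w j = j(t ^ (ℓ ^ s))`). -/
theorem exists_resIndep_zero (hπ0 : ∀ a : A, a ∈ IsLocalRing.maximalIdeal A → π a = 0)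
    (ℓ : ℕ) [Fact ℓ.Prime] [CharP k ℓ] (s : ℕ) (M : ℕ) [NeZero M] (hMN : M ∣ N) (hℓM : ¬ ℓ ∣ M)
    (j jm : ↥(laurentBaseChange L (modularFunctionFieldFull N)))
    (hj : (j : LaurentSeries L) = jqModC L)
    (hjm : (jm : LaurentSeries L) = qExpand L (ℓ ^ s) (jqModC L))
    (w : ↥(laurentBaseChange L (modularFunctionFieldFull N)) ≃ₐ[L]
      ↥(laurentBaseChange L (modularFunctionFieldFull N)))
    (hw1 : w j = jm) :
    ∃ ω : Fin (ℓ ^ s * dedekindPsi M) → ↥(laurentBaseChange L (modularFunctionFieldFull N)),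
      ResIndep (baseRing A π N j)
        ((gaussF A π N).comap
          (w : ↥(laurentBaseChange L (modularFunctionFieldFull N)) →+*
            ↥(laurentBaseChange L (modularFunctionFieldFull N)))) ω := by
  obtain ⟨bZ, hmem, -, -, hind⟩ := exists_basisZ M ℓ hℓM
  have hmemN : ∀ i, bZ i ∈ Submonoid.closure (helper1595.genZ N) := fun i =>
    Submonoid.closure_mono (genZ_mono hMN) (hmem i)
  let c : Fin (ℓ ^ s) × Fin (dedekindPsi M) →
      ↥(laurentBaseChange L (modularFunctionFieldFull N)) :=
    fun e => j ^ (e.1 : ℕ) * ⟨zTo L (bZ e.2), zTo_mem_bar L N (hmemN e.2)⟩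
  have h := resIndep_zero A π N hπ0 ℓ s j jm hj hjm w hw1 bZ hind c (fun e => by
    show ((j : LaurentSeries L)) ^ (e.1 : ℕ) * zTo L (bZ e.2) = _
    rw [hj])
  exact ⟨_, resIndep_reindex finProdFinEquiv.symm h⟩

end Surface

end Fermat.Agent.S36.helper3537
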