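import Mathlib
import Fermat.Agent.S36.helper3537_KWitness
import Fermat.Agent.S29.helper36_FunctionFieldL
import Fermat.Prelude.Def_ModularCurve_HeckeOperator

/-!
# S36-KWIT (helper3537): level `ℓ M` completeness over an ARBITRARY base `(L, A)`

`F = laurentBaseChange L (modularFunctionFieldFull N)`, `N = ℓ * M`, `ℓ ∤ M`, `L` any field of
characteristic zero (e.g. `L = ℚ̄^I`), `A` any valuation subring of `L` with a residue map
`π : A →+* k`, `char k = ℓ`.  Let `w` be an `L`-automorphism of `F` swapping `j` and `j(t^ℓ)`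
(the Atkin–Lehner involution `W_ℓ`).  Then

* `gaussF A π N` (`= V_∞`) and `(gaussF A π N).comap w` (`= V_0`) are the ONLY valuation rings of
  `F` over the Gauss ring of `L(j)`, and both have the value group of the base (`e = 1`):
  `levelq_package`.

The proof is ONE call of the landed two-valuation package `S35.helper1024.twoVal_package` with
the witnesses of `helper3537_KWitness` (sizes `ψ(M)` and `ℓ ψ(M)`) and the degree
`[F : L(j)] = ψ(ℓ M) = (ℓ + 1) ψ(M)` (`S29.helper36.finrank_jL`).
-/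

set_option autoImplicit false

noncomputable section

namespace Fermat.Agent.S36.helper3537

open ModularCurve Polynomial IntermediateField
open Fermat.Agent.S28
open Fermat.Agent.S18 Fermat.Agent.S18.helper508 Fermat.Agent.S18.helper8991
open Fermat.Agent.S35 Fermat.Agent.S35.helper1024

section LevelQ

variable {L : Type} [Field L] [Algebra ℚ L] [CharZero L] (A : ValuationSubring L)
  {k : Type*} [Field k] (π : A →+* k)

/-- **(W3) Level `ℓ M` completeness and `e = 1`, over any `(L, A)`.** -/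
theorem levelq_package (hπ0 : ∀ a : A, a ∈ IsLocalRing.maximalIdeal A → π a = 0)
    (ℓ : ℕ) [Fact ℓ.Prime] [CharP k ℓ] (M : ℕ) [NeZero M] (hℓM : ¬ ℓ ∣ M)
    (N : ℕ) (hN : N = ℓ * M)
    (j jl : ↥(laurentBaseChange L (modularFunctionFieldFull N)))
    (hj : (j : LaurentSeries L) = jqModC L)
    (hjl : (jl : LaurentSeries L) = qExpand L ℓ (jqModC L))
    (w : ↥(laurentBaseChange L (modularFunctionFieldFull N)) ≃ₐ[L]
      ↥(laurentBaseChange L (modularFunctionFieldFull N)))
    (hw1 : w j = jl) (hw2 : w jl = j) :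
    (∀ V : ValuationSubring ↥(laurentBaseChange L (modularFunctionFieldFull N)),
        V.comap (algebraMap ↥L⟮j⟯ ↥(laurentBaseChange L (modularFunctionFieldFull N))) =
          baseRing A π N j →
        V = gaussF A π N ∨ V = (gaussF A π N).comap
          (w : ↥(laurentBaseChange L (modularFunctionFieldFull N)) →+*
            ↥(laurentBaseChange L (modularFunctionFieldFull N)))) ∧
      (∀ x : ↥(laurentBaseChange L (modularFunctionFieldFull N)), x ≠ 0 →
        ∃ a : ↥L⟮j⟯, a ≠ 0 ∧ (gaussF A π N).valuation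
          (x / algebraMap ↥L⟮j⟯ ↥(laurentBaseChange L (modularFunctionFieldFull N)) a) = 1) ∧
      (∀ x : ↥(laurentBaseChange L (modularFunctionFieldFull N)), x ≠ 0 →
        ∃ a : ↥L⟮j⟯, a ≠ 0 ∧ ((gaussF A π N).comap
          (w : ↥(laurentBaseChange L (modularFunctionFieldFull N)) →+*
            ↥(laurentBaseChange L (modularFunctionFieldFull N)))).valuation
          (x / algebraMap ↥L⟮j⟯ ↥(laurentBaseChange L (modularFunctionFieldFull N)) a) = 1) := by
  have hℓ : ℓ.Prime := Fact.out
  have : NeZero N := ⟨by rw [hN]; exact mul_ne_zero hℓ.ne_zero (NeZero.ne M)⟩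
  obtain ⟨bZ, hmem, -, -, hind⟩ := exists_basisZ M ℓ hℓM
  have hmemN : ∀ i, bZ i ∈ Submonoid.closure (helper1595.genZ N) := fun i =>
    Submonoid.closure_mono (genZ_mono ⟨ℓ, by rw [hN, mul_comm]⟩) (hmem i)
  have hjl' : (jl : LaurentSeries L) = qExpand L (ℓ ^ 1) (jqModC L) := by
    rw [hjl]; exact qExpand_congr (pow_one ℓ).symm _
  -- the two families
  let b : Fin (dedekindPsi M) → ↥(laurentBaseChange L (modularFunctionFieldFull N)) :=
    fun i => ⟨zTo L (bZ i), zTo_mem_bar L N (hmemN i)⟩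
  let c : Fin (ℓ ^ 1) × Fin (dedekindPsi M) →
      ↥(laurentBaseChange L (modularFunctionFieldFull N)) := fun e => j ^ (e.1 : ℕ) * b e.2
  have hβ : ResIndep (baseRing A π N j) (gaussF A π N) b :=
    resIndep_basis A π N hπ0 ℓ j hj bZ hind b (fun i => rfl)
  have hγ0 : ResIndep (baseRing A π N jl) (gaussF A π N) c :=
    resIndep_pow_basis A π N hπ0 ℓ 1 jl hjl' bZ hind c (fun e => by
      show ((j : LaurentSeries L)) ^ (e.1 : ℕ) * zTo L (bZ e.2) = _
      rw [hj])
  -- Gauss elements
  have hA := comap_algebraMap_gaussF A π N hπ0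
  have hGj := gaussElt_F_j A π N j hj
  have hGjl := gaussElt_F_jpow A π N ℓ 1 jl hjl'
  subst hw1
  have hT := comap_comap_eq_of_gaussElt hGj hA w hGjl
  have hγ := resIndep_comap_algEquiv w j c hγ0
  rw [hT] at hγ
  have hne := gaussF_ne_comap A π N ℓ 1 one_ne_zero j (w j) hj hjl' w rfl hw2
  -- the degree
  have hj' : j = Fermat.Agent.S29.helper36.jL L N := Subtype.ext hj
  have : FiniteDimensional ↥L⟮j⟯ ↥(laurentBaseChange L (modularFunctionFieldFull N)) := by
    rw [hj']; exact Fermat.Agent.S29.helper36.finiteDimensional_jL L N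
  have hcard : Fintype.card (Fin (dedekindPsi M)) +
      Fintype.card (Fin (ℓ ^ 1) × Fin (dedekindPsi M)) =
      Module.finrank ↥L⟮j⟯ ↥(laurentBaseChange L (modularFunctionFieldFull N)) := by
    rw [hj', Fermat.Agent.S29.helper36.finrank_jL, hN, mul_comm ℓ M,
      helper1595.dedekindPsi_mul_prime_of_not_dvd hℓ (Nat.pos_of_ne_zero (NeZero.ne M)) hℓM,
      Fintype.card_prod, Fintype.card_fin, Fintype.card_fin]
    ring
  exact twoVal_package (comap_gaussF A π N j) hT hne hβ hγ hcard

/-- **Level `ℓ M` completeness, Gauss-element form.**  A valuation ring of `F` over `A` for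
which `j` is a Gauss element is `V_∞ = gaussF` or `V_0 = gaussF.comap w`. -/
theorem levelq_complete (hπ0 : ∀ a : A, a ∈ IsLocalRing.maximalIdeal A → π a = 0)
    (ℓ : ℕ) [Fact ℓ.Prime] [CharP k ℓ] (M : ℕ) [NeZero M] (hℓM : ¬ ℓ ∣ M)
    (N : ℕ) (hN : N = ℓ * M)
    (j jl : ↥(laurentBaseChange L (modularFunctionFieldFull N)))
    (hj : (j : LaurentSeries L) = jqModC L)
    (hjl : (jl : LaurentSeries L) = qExpand L ℓ (jqModC L))
    (w : ↥(laurentBaseChange L (modularFunctionFieldFull N)) ≃ₐ[L]
      ↥(laurentBaseChange L (modularFunctionFieldFull N)))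
    (hw1 : w j = jl) (hw2 : w jl = j)
    (V : ValuationSubring ↥(laurentBaseChange L (modularFunctionFieldFull N)))
    (hV : GaussElt A V j)
    (hVA : V.comap (algebraMap L ↥(laurentBaseChange L (modularFunctionFieldFull N))) = A) :
    V = gaussF A π N ∨ V = (gaussF A π N).comap
      (w : ↥(laurentBaseChange L (modularFunctionFieldFull N)) →+*
        ↥(laurentBaseChange L (modularFunctionFieldFull N))) :=
  (levelq_package A π hπ0 ℓ M hℓM N hN j jl hj hjl w hw1 hw2).1 V
    (comap_adjoin_eq_of_gaussElt hV hVA (gaussElt_F_j A π N j hj)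
      (comap_algebraMap_gaussF A π N hπ0))

/-- **Level `ℓ M`, characterisation over `L(j)`.**  The valuation rings of `F` over `A` for
which `j` is a Gauss element are exactly `V_∞ = gaussF` and `V_0 = gaussF.comap w`. -/
theorem levelq_iff_j (hπ0 : ∀ a : A, a ∈ IsLocalRing.maximalIdeal A → π a = 0)
    (ℓ : ℕ) [Fact ℓ.Prime] [CharP k ℓ] (M : ℕ) [NeZero M] (hℓM : ¬ ℓ ∣ M)
    (N : ℕ) (hN : N = ℓ * M)
    (j jl : ↥(laurentBaseChange L (modularFunctionFieldFull N)))
    (hj : (j : LaurentSeries L) = jqModC L)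
    (hjl : (jl : LaurentSeries L) = qExpand L ℓ (jqModC L))
    (w : ↥(laurentBaseChange L (modularFunctionFieldFull N)) ≃ₐ[L]
      ↥(laurentBaseChange L (modularFunctionFieldFull N)))
    (hw1 : w j = jl) (hw2 : w jl = j)
    (V : ValuationSubring ↥(laurentBaseChange L (modularFunctionFieldFull N))) :
    (GaussElt A V j ∧
        V.comap (algebraMap L ↥(laurentBaseChange L (modularFunctionFieldFull N))) = A) ↔
      (V = gaussF A π N ∨ V = (gaussF A π N).comap
        (w : ↥(laurentBaseChange L (modularFunctionFieldFull N)) →+*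
          ↥(laurentBaseChange L (modularFunctionFieldFull N)))) := by
  constructor
  · rintro ⟨hV, hVA⟩
    exact levelq_complete A π hπ0 ℓ M hℓM N hN j jl hj hjl w hw1 hw2 V hV hVA
  · rintro (rfl | rfl)
    · exact ⟨gaussElt_F_j A π N j hj, comap_algebraMap_gaussF A π N hπ0⟩
    · exact ⟨gaussElt_comap_j A π ℓ 1 N j jl
        (by rw [hjl]; exact qExpand_congr (pow_one ℓ).symm _) w hw1,
        comap_algebraMap_comap A π hπ0 N w⟩

/-- `V_∞.comap w⁻¹ = V_∞.comap w`: the two pull-backs of the Gauss ring agree (no involutivity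
of `w` is assumed, only `w j = j(t^ℓ)`, `w j(t^ℓ) = j`). -/
theorem comap_symm_eq (hπ0 : ∀ a : A, a ∈ IsLocalRing.maximalIdeal A → π a = 0)
    (ℓ : ℕ) [Fact ℓ.Prime] [CharP k ℓ] (M : ℕ) [NeZero M] (hℓM : ¬ ℓ ∣ M)
    (N : ℕ) (hN : N = ℓ * M)
    (j jl : ↥(laurentBaseChange L (modularFunctionFieldFull N)))
    (hj : (j : LaurentSeries L) = jqModC L)
    (hjl : (jl : LaurentSeries L) = qExpand L ℓ (jqModC L))
    (w : ↥(laurentBaseChange L (modularFunctionFieldFull N)) ≃ₐ[L]
      ↥(laurentBaseChange L (modularFunctionFieldFull N)))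
    (hw1 : w j = jl) (hw2 : w jl = j) :
    (gaussF A π N).comap
        (w.symm : ↥(laurentBaseChange L (modularFunctionFieldFull N)) →+*
          ↥(laurentBaseChange L (modularFunctionFieldFull N))) =
      (gaussF A π N).comap
        (w : ↥(laurentBaseChange L (modularFunctionFieldFull N)) →+*
          ↥(laurentBaseChange L (modularFunctionFieldFull N))) := by
  have hs1 : w.symm j = jl := by rw [← hw2, AlgEquiv.symm_apply_apply]
  have hs2 : w.symm jl = j := by rw [← hw1, AlgEquiv.symm_apply_apply]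
  have hjl' : (jl : LaurentSeries L) = qExpand L (ℓ ^ 1) (jqModC L) := by
    rw [hjl]; exact qExpand_congr (pow_one ℓ).symm _
  have h1 := (levelq_iff_j A π hπ0 ℓ M hℓM N hN j jl hj hjl w hw1 hw2 _).mp
    ⟨gaussElt_comap_j A π ℓ 1 N j jl hjl' w.symm hs1, comap_algebraMap_comap A π hπ0 N w.symm⟩
  exact h1.resolve_left
    (gaussF_ne_comap A π N ℓ 1 one_ne_zero j jl hj hjl' w.symm hs1 hs2).symm

/-- `(V_∞.comap w).comap w = V_∞`. -/
theorem comap_comap_self (hπ0 : ∀ a : A, a ∈ IsLocalRing.maximalIdeal A → π a = 0)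
    (ℓ : ℕ) [Fact ℓ.Prime] [CharP k ℓ] (M : ℕ) [NeZero M] (hℓM : ¬ ℓ ∣ M)
    (N : ℕ) (hN : N = ℓ * M)
    (j jl : ↥(laurentBaseChange L (modularFunctionFieldFull N)))
    (hj : (j : LaurentSeries L) = jqModC L)
    (hjl : (jl : LaurentSeries L) = qExpand L ℓ (jqModC L))
    (w : ↥(laurentBaseChange L (modularFunctionFieldFull N)) ≃ₐ[L]
      ↥(laurentBaseChange L (modularFunctionFieldFull N)))
    (hw1 : w j = jl) (hw2 : w jl = j) :
    ((gaussF A π N).comap
        (w : ↥(laurentBaseChange L (modularFunctionFieldFull N)) →+*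
          ↥(laurentBaseChange L (modularFunctionFieldFull N)))).comap
        (w : ↥(laurentBaseChange L (modularFunctionFieldFull N)) →+*
          ↥(laurentBaseChange L (modularFunctionFieldFull N))) = gaussF A π N := by
  rw [← comap_symm_eq A π hπ0 ℓ M hℓM N hN j jl hj hjl w hw1 hw2]
  ext x
  rw [ValuationSubring.mem_comap, ValuationSubring.mem_comap]
  show w.symm (w x) ∈ gaussF A π N ↔ _
  rw [AlgEquiv.symm_apply_apply]

/-- **Level `ℓ M`, characterisation over `L(j(t^ℓ))`.**  The valuation rings of `F` over `A` for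
which `j(t^ℓ)` is a Gauss element are exactly `V_∞` and `V_0` as well. -/
theorem levelq_iff_jl (hπ0 : ∀ a : A, a ∈ IsLocalRing.maximalIdeal A → π a = 0)
    (ℓ : ℕ) [Fact ℓ.Prime] [CharP k ℓ] (M : ℕ) [NeZero M] (hℓM : ¬ ℓ ∣ M)
    (N : ℕ) (hN : N = ℓ * M)
    (j jl : ↥(laurentBaseChange L (modularFunctionFieldFull N)))
    (hj : (j : LaurentSeries L) = jqModC L)
    (hjl : (jl : LaurentSeries L) = qExpand L ℓ (jqModC L))
    (w : ↥(laurentBaseChange L (modularFunctionFieldFull N)) ≃ₐ[L]
      ↥(laurentBaseChange L (modularFunctionFieldFull N)))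
    (hw1 : w j = jl) (hw2 : w jl = j)
    (V : ValuationSubring ↥(laurentBaseChange L (modularFunctionFieldFull N))) :
    (GaussElt A V jl ∧
        V.comap (algebraMap L ↥(laurentBaseChange L (modularFunctionFieldFull N))) = A) ↔
      (V = gaussF A π N ∨ V = (gaussF A π N).comap
        (w : ↥(laurentBaseChange L (modularFunctionFieldFull N)) →+*
          ↥(laurentBaseChange L (modularFunctionFieldFull N)))) := by
  have hjl' : (jl : LaurentSeries L) = qExpand L (ℓ ^ 1) (jqModC L) := by
    rw [hjl]; exact qExpand_congr (pow_one ℓ).symm _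
  have hcc := comap_comap_self A π hπ0 ℓ M hℓM N hN j jl hj hjl w hw1 hw2
  constructor
  · rintro ⟨hV, hVA⟩
    -- `V.comap w` has `j` as a Gauss element
    have h1 : GaussElt A (V.comap
        (w : ↥(laurentBaseChange L (modularFunctionFieldFull N)) →+*
          ↥(laurentBaseChange L (modularFunctionFieldFull N)))) j := by
      refine (gaussElt_comap_iff (w : ↥(laurentBaseChange L (modularFunctionFieldFull N)) →ₐ[L]
        ↥(laurentBaseChange L (modularFunctionFieldFull N))) V j).mpr ?_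
      show GaussElt A V (w j)
      rw [hw1]
      exact hV
    have h2 := (comap_comap_algebraMap
      (w : ↥(laurentBaseChange L (modularFunctionFieldFull N)) →ₐ[L]
        ↥(laurentBaseChange L (modularFunctionFieldFull N))) V).trans hVA
    have h3 := levelq_complete A π hπ0 ℓ M hℓM N hN j jl hj hjl w hw1 hw2 _ h1 h2
    -- pull back once more along `w⁻¹`
    have hback : ∀ U : ValuationSubring ↥(laurentBaseChange L (modularFunctionFieldFull N)),
        (U.comap (w : ↥(laurentBaseChange L (modularFunctionFieldFull N)) →+*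
          ↥(laurentBaseChange L (modularFunctionFieldFull N)))).comap
          (w.symm : ↥(laurentBaseChange L (modularFunctionFieldFull N)) →+*
            ↥(laurentBaseChange L (modularFunctionFieldFull N))) = U := by
      intro U
      ext x
      rw [ValuationSubring.mem_comap, ValuationSubring.mem_comap]
      show w (w.symm x) ∈ U ↔ _
      rw [AlgEquiv.apply_symm_apply]
    rcases h3 with h | h
    · right
      rw [← hback V, h, comap_symm_eq A π hπ0 ℓ M hℓM N hN j jl hj hjl w hw1 hw2]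
    · left
      rw [← hback V, h, hback]
  · rintro (rfl | rfl)
    · exact ⟨gaussElt_F_jpow A π N ℓ 1 jl hjl', comap_algebraMap_gaussF A π N hπ0⟩
    · exact ⟨gaussElt_comap_jl A π N j jl hj w hw2, comap_algebraMap_comap A π hπ0 N w⟩

/-- **(h-base) of the level `ℓ² M` tables.**  For a valuation ring `V` of the level `N ℓ`
function field (`N = ℓ M`): its restriction along `α` (the inclusion) is one of the two level
`N` rings `V_∞'`, `V_0'` iff its restriction along `β` (`t ↦ t^ℓ`) is. -/
theorem base_iff (hπ0 : ∀ a : A, a ∈ IsLocalRing.maximalIdeal A → π a = 0)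
    (ℓ : ℕ) [Fact ℓ.Prime] [CharP k ℓ] (M : ℕ) [NeZero M] (hℓM : ¬ ℓ ∣ M)
    (N : ℕ) [NeZero N] [NeZero ℓ] (hN : N = ℓ * M)
    (j jl : ↥(laurentBaseChange L (modularFunctionFieldFull N)))
    (hj : (j : LaurentSeries L) = jqModC L)
    (hjl : (jl : LaurentSeries L) = qExpand L ℓ (jqModC L))
    (w : ↥(laurentBaseChange L (modularFunctionFieldFull N)) ≃ₐ[L]
      ↥(laurentBaseChange L (modularFunctionFieldFull N)))
    (hw1 : w j = jl) (hw2 : w jl = j)
    (V : ValuationSubring ↥(laurentBaseChange L (modularFunctionFieldFull (N * ℓ)))) :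
    (V.comap (heckeAlphaBar L N ℓ : ↥(laurentBaseChange L (modularFunctionFieldFull N)) →+*
          ↥(laurentBaseChange L (modularFunctionFieldFull (N * ℓ)))) = gaussF A π N ∨
      V.comap (heckeAlphaBar L N ℓ : ↥(laurentBaseChange L (modularFunctionFieldFull N)) →+*
          ↥(laurentBaseChange L (modularFunctionFieldFull (N * ℓ)))) =
        (gaussF A π N).comap
          (w : ↥(laurentBaseChange L (modularFunctionFieldFull N)) →+*
            ↥(laurentBaseChange L (modularFunctionFieldFull N)))) ↔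
    (V.comap (heckeBetaBar L N ℓ : ↥(laurentBaseChange L (modularFunctionFieldFull N)) →+*
          ↥(laurentBaseChange L (modularFunctionFieldFull (N * ℓ)))) = gaussF A π N ∨
      V.comap (heckeBetaBar L N ℓ : ↥(laurentBaseChange L (modularFunctionFieldFull N)) →+*
          ↥(laurentBaseChange L (modularFunctionFieldFull (N * ℓ)))) =
        (gaussF A π N).comap
          (w : ↥(laurentBaseChange L (modularFunctionFieldFull N)) →+*
            ↥(laurentBaseChange L (modularFunctionFieldFull N)))) := by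
  rw [← levelq_iff_jl A π hπ0 ℓ M hℓM N hN j jl hj hjl w hw1 hw2,
    ← levelq_iff_j A π hπ0 ℓ M hℓM N hN j jl hj hjl w hw1 hw2,
    gaussElt_comap_iff, gaussElt_comap_iff, comap_comap_algebraMap, comap_comap_algebraMap]
  have hab : heckeAlphaBar L N ℓ jl = heckeBetaBar L N ℓ j := by
    apply Subtype.ext
    rw [coe_heckeAlphaBar, coe_heckeBetaBar, hjl, hj]
  rw [hab]

end LevelQ

/-! ### Level `ℓ² M`: what the three-valuation count owes at `V_∞` and `V_0` -/

section LevelSq

variable {L : Type} [Field L] [Algebra ℚ L] [CharZero L] (A : ValuationSubring L)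
  {k : Type*} [Field k] (π : A →+* k)

/-- `[F : L(j)] = ψ(M) · 1 + ψ(M) · (ℓ - 1) + ℓ² ψ(M) · 1` at level `N = ℓ² M`, `ℓ ∤ M`: the
`hcard` hypothesis of the three-valuation count (`e = 1, ℓ - 1, 1`; `f = ψ(M), ψ(M), ℓ² ψ(M)`). -/
theorem finrank_sq (ℓ : ℕ) [Fact ℓ.Prime] (M : ℕ) [NeZero M] (hℓM : ¬ ℓ ∣ M)
    (N : ℕ) (hN : N = ℓ ^ 2 * M)
    (j : ↥(laurentBaseChange L (modularFunctionFieldFull N)))
    (hj : (j : LaurentSeries L) = jqModC L) :
    Module.finrank ↥L⟮j⟯ ↥(laurentBaseChange L (modularFunctionFieldFull N)) =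
      dedekindPsi M * 1 + dedekindPsi M * (ℓ - 1) + ℓ ^ 2 * dedekindPsi M * 1 := by
  have hℓ : ℓ.Prime := Fact.out
  have : NeZero N := ⟨by rw [hN]; exact mul_ne_zero (pow_ne_zero 2 hℓ.ne_zero) (NeZero.ne M)⟩
  have hj' : j = Fermat.Agent.S29.helper36.jL L N := Subtype.ext hj
  have hM : 0 < M := Nat.pos_of_ne_zero (NeZero.ne M)
  have h1 : dedekindPsi (M * ℓ) = (ℓ + 1) * dedekindPsi M :=
    helper1595.dedekindPsi_mul_prime_of_not_dvd hℓ hM hℓM
  have h2 : dedekindPsi (M * ℓ * ℓ) = ℓ * dedekindPsi (M * ℓ) :=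
    helper1595.dedekindPsi_mul_prime_of_dvd hℓ (Nat.mul_pos hM hℓ.pos) (dvd_mul_left ℓ M)
  have hN' : N = M * ℓ * ℓ := by rw [hN]; ring
  rw [hj', Fermat.Agent.S29.helper36.finrank_jL, hN', h2, h1]
  obtain ⟨t, ht⟩ : ∃ t, ℓ = t + 1 := ⟨ℓ - 1, (Nat.sub_add_cancel hℓ.pos).symm⟩
  subst ht
  simp only [Nat.add_sub_cancel]
  ring

/-- `F` is finite over `L(j)`. -/
theorem finiteDimensional_j (N : ℕ) [NeZero N]
    (j : ↥(laurentBaseChange L (modularFunctionFieldFull N)))
    (hj : (j : LaurentSeries L) = jqModC L) :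
    FiniteDimensional ↥L⟮j⟯ ↥(laurentBaseChange L (modularFunctionFieldFull N)) := by
  have hj' : j = Fermat.Agent.S29.helper36.jL L N := Subtype.ext hj
  rw [hj']
  exact Fermat.Agent.S29.helper36.finiteDimensional_jL L N

omit [CharZero L] in
/-- **Level `ℓ² M` package at `V_∞`, `V_0`.**  For `N = ℓ² M`, `ℓ ∤ M`, and an `L`-automorphism
`w` of `F` swapping `j` and `j(t^(ℓ²))`: both rings lie over `A`, have `j` as a Gauss element,
are different, and carry residually independent families (over the Gauss ring of `L(j)`) of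
sizes `ψ(M)` and `ℓ² ψ(M)`. -/
theorem sq_package (hπ0 : ∀ a : A, a ∈ IsLocalRing.maximalIdeal A → π a = 0)
    (ℓ : ℕ) [Fact ℓ.Prime] [CharP k ℓ] (M : ℕ) [NeZero M] (hℓM : ¬ ℓ ∣ M)
    (N : ℕ) (hN : N = ℓ ^ 2 * M)
    (j jm : ↥(laurentBaseChange L (modularFunctionFieldFull N)))
    (hj : (j : LaurentSeries L) = jqModC L)
    (hjm : (jm : LaurentSeries L) = qExpand L (ℓ ^ 2) (jqModC L))
    (w : ↥(laurentBaseChange L (modularFunctionFieldFull N)) ≃ₐ[L]
      ↥(laurentBaseChange L (modularFunctionFieldFull N)))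
    (hw1 : w j = jm) (hw2 : w jm = j) :
    (GaussElt A (gaussF A π N) j ∧
      (gaussF A π N).comap
        (algebraMap L ↥(laurentBaseChange L (modularFunctionFieldFull N))) = A) ∧
    (GaussElt A ((gaussF A π N).comap
        (w : ↥(laurentBaseChange L (modularFunctionFieldFull N)) →+*
          ↥(laurentBaseChange L (modularFunctionFieldFull N)))) j ∧
      ((gaussF A π N).comap
        (w : ↥(laurentBaseChange L (modularFunctionFieldFull N)) →+*
          ↥(laurentBaseChange L (modularFunctionFieldFull N)))).comap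
        (algebraMap L ↥(laurentBaseChange L (modularFunctionFieldFull N))) = A) ∧
    gaussF A π N ≠ (gaussF A π N).comap
        (w : ↥(laurentBaseChange L (modularFunctionFieldFull N)) →+*
          ↥(laurentBaseChange L (modularFunctionFieldFull N))) ∧
    (∃ ω : Fin (dedekindPsi M) → ↥(laurentBaseChange L (modularFunctionFieldFull N)),
      ResIndep ((gaussF A π N).comap
        (algebraMap ↥L⟮j⟯ ↥(laurentBaseChange L (modularFunctionFieldFull N))))
        (gaussF A π N) ω) ∧
    (∃ ω : Fin (ℓ ^ 2 * dedekindPsi M) → ↥(laurentBaseChange L (modularFunctionFieldFull N)),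
      ResIndep (((gaussF A π N).comap
          (w : ↥(laurentBaseChange L (modularFunctionFieldFull N)) →+*
            ↥(laurentBaseChange L (modularFunctionFieldFull N)))).comap
          (algebraMap ↥L⟮j⟯ ↥(laurentBaseChange L (modularFunctionFieldFull N))))
        ((gaussF A π N).comap
          (w : ↥(laurentBaseChange L (modularFunctionFieldFull N)) →+*
            ↥(laurentBaseChange L (modularFunctionFieldFull N)))) ω) := by
  have hMN : M ∣ N := ⟨ℓ ^ 2, by rw [hN, mul_comm]⟩
  refine ⟨⟨gaussElt_F_j A π N j hj, comap_algebraMap_gaussF A π N hπ0⟩,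
    ⟨gaussElt_comap_j A π ℓ 2 N j jm hjm w hw1, comap_algebraMap_comap A π hπ0 N w⟩,
    gaussF_ne_comap A π N ℓ 2 two_ne_zero j jm hj hjm w hw1 hw2,
    exists_resIndep_inf A π N hπ0 ℓ M hMN hℓM j hj, ?_⟩
  obtain ⟨ω, hω⟩ := exists_resIndep_zero A π N hπ0 ℓ 2 M hMN hℓM j jm hj hjm w hw1
  rw [← comap_comap_w_eq A π N hπ0 ℓ 2 j jm hj hjm w hw1] at hω
  exact ⟨ω, hω⟩

end LevelSq

end Fermat.Agent.S36.helper3537
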