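import Mathlib
import Fermat.Agent.Lib.helper9242_LaurentTheta

/-!
# S36, F2-MID: the Gauss reduction on the middle component (helper3919)

Formal core of "`p_mid` is principal at the ordinary points and at the cusps of `C_mid`"
(audits of route #3001: the statement `red_mid (T ^ (q - 1) / q) = -(θ x) ^ (q - 1)` for
`T = x(q² z) - x(z)`, whose expansion at the cusp `1/q` is `x(ζ t) - x(t)`).

`R` is any commutative ring, `ζ : Rˣ`, `π := ζ - 1`, `twist ζ` is `t ↦ ζ t` on Laurent series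
(landed S28 library) and `thetaFun R` is `θ = t d/dt` (landed Lib).

* `twist_sub_self` : `x(ζ t) - x(t) = π * dq ζ x`;
* `dq_eq_theta_add` : `dq ζ x = θ x + π * dq2 ζ x`;
* `exists_pi_pow_eq` : if `1 + ζ + ⋯ + ζ ^ (q - 1) = 0`, `q` prime, then
  `π ^ (q - 1) = q * (-1 + π * c)`;
* `exists_twist_sub_self_pow` : `(x(ζ t) - x(t)) ^ (q - 1) = q * (-(θ x) ^ (q - 1) + π * E)`,
  with order control (`OrdGE`);
* `exists_twist_sub_self_pow_red` : the same in reduction form, for a ring hom `φ` with `φ ζ = 1`;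
* `exists_twist_sub_self_mul_pow` : the cusp form, for `(x(ζ t) - x(t)) / x`.
-/

set_option autoImplicit false

noncomputable section

namespace Fermat.Agent.S36.helper3919

open HahnSeries Finset
open Fermat.Agent.S28.helper328 (twist twist_coeff)
open Fermat.Agent.Lib.helper9242 (thetaFun thetaFun_coeff)

variable {R : Type*} [CommRing R]

/-! ## Order control -/

/-- `OrdGE N y`: all coefficients of `y` of index `< N` vanish (`y ∈ t ^ N R⟦t⟧`). -/
def OrdGE (N : ℤ) (y : LaurentSeries R) : Prop := ∀ n : ℤ, n < N → y.coeff n = 0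

theorem ordGE_zero (N : ℤ) : OrdGE N (0 : LaurentSeries R) := fun _ _ => rfl

theorem OrdGE.mono {N M : ℤ} {y : LaurentSeries R} (h : OrdGE N y) (hMN : M ≤ N) : OrdGE M y :=
  fun n hn => h n (lt_of_lt_of_le hn hMN)

theorem OrdGE.add {N : ℤ} {y z : LaurentSeries R} (hy : OrdGE N y) (hz : OrdGE N z) :
    OrdGE N (y + z) := fun n hn => by
  rw [HahnSeries.coeff_add, hy n hn, hz n hn, add_zero]

theorem OrdGE.neg {N : ℤ} {y : LaurentSeries R} (hy : OrdGE N y) : OrdGE N (-y) := fun n hn => by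
  rw [HahnSeries.coeff_neg, hy n hn, neg_zero]

theorem OrdGE.sub {N : ℤ} {y z : LaurentSeries R} (hy : OrdGE N y) (hz : OrdGE N z) :
    OrdGE N (y - z) := by
  rw [sub_eq_add_neg]
  exact hy.add hz.neg

theorem OrdGE.mul {N M : ℤ} {y z : LaurentSeries R} (hy : OrdGE N y) (hz : OrdGE M z) :
    OrdGE (N + M) (y * z) := fun n hn => by
  rw [HahnSeries.coeff_mul]
  refine Finset.sum_eq_zero fun ij hij => ?_
  rw [Finset.mem_antidiagonal] at hij
  obtain ⟨h1, h2, h3⟩ := hij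
  by_cases hi : ij.1 < N
  · exact absurd (hy _ hi) h1
  · by_cases hj : ij.2 < M
    · exact absurd (hz _ hj) h2
    · omega

theorem OrdGE.C_mul {N : ℤ} {y : LaurentSeries R} (hy : OrdGE N y) (r : R) :
    OrdGE N (HahnSeries.C r * y) := fun n hn => by
  rw [HahnSeries.C_mul_eq_smul, HahnSeries.coeff_smul, hy n hn, smul_zero]

theorem ordGE_one : OrdGE 0 (1 : LaurentSeries R) := fun n hn => by
  rw [HahnSeries.coeff_one, if_neg (ne_of_lt hn)]

theorem OrdGE.pow {N : ℤ} {y : LaurentSeries R} (hy : OrdGE N y) (k : ℕ) :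
    OrdGE (k * N) (y ^ k) := by
  induction k with
  | zero => simpa using (ordGE_one (R := R))
  | succ k ih =>
    rw [pow_succ]
    have h := ih.mul hy
    have e : ((k + 1 : ℕ) : ℤ) * N = (k : ℤ) * N + N := by push_cast; ring
    rw [e]
    exact h

theorem OrdGE.of_support_subset {N : ℤ} {y z : LaurentSeries R} (hy : OrdGE N y)
    (h : z.support ⊆ y.support) : OrdGE N z := fun n hn => by
  by_contra hne
  exact ((HahnSeries.mem_support _ _).mp (h ((HahnSeries.mem_support _ _).mpr hne))) (hy n hn)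

theorem ordGE_thetaFun {N : ℤ} {y : LaurentSeries R} (hy : OrdGE N y) :
    OrdGE N (thetaFun R y) := fun n hn => by
  rw [thetaFun_coeff, hy n hn, mul_zero]

/-! ## The difference quotient of `t ↦ ζ t` -/

/-- `geomZ ζ n` is the element `s` with `ζ ^ n - 1 = (ζ - 1) * s`, for an integer exponent:
`1 + ζ + ⋯ + ζ ^ (n - 1)` for `n ≥ 0` and `-ζ ^ n (1 + ζ + ⋯ + ζ ^ (-n - 1))` for `n < 0`. -/
def geomZ (ζ : Rˣ) : ℤ → R
  | Int.ofNat n => ∑ i ∈ range n, (ζ : R) ^ i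
  | Int.negSucc n => -(((ζ ^ (n + 1))⁻¹ : Rˣ) : R) * ∑ i ∈ range (n + 1), (ζ : R) ^ i

/-- `geomZ2 ζ n` is the element `r` with `geomZ ζ n - n = (ζ - 1) * r`. -/
def geomZ2 (ζ : Rˣ) : ℤ → R
  | Int.ofNat n => ∑ i ∈ range n, ∑ j ∈ range i, (ζ : R) ^ j
  | Int.negSucc n =>
      -(((ζ ^ (n + 1))⁻¹ : Rˣ) : R) * (∑ i ∈ range (n + 1), ∑ j ∈ range i, (ζ : R) ^ j)
        - ((n + 1 : ℕ) : R) * (-(((ζ ^ (n + 1))⁻¹ : Rˣ) : R) * ∑ i ∈ range (n + 1), (ζ : R) ^ i)

theorem zpow_sub_one (ζ : Rˣ) (n : ℤ) :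
    ((ζ ^ n : Rˣ) : R) - 1 = ((ζ : R) - 1) * geomZ ζ n := by
  rcases n with m | m
  · simp only [geomZ, Int.ofNat_eq_natCast, zpow_natCast, Units.val_pow_eq_pow_val]
    rw [mul_geom_sum]
  · simp only [geomZ, zpow_negSucc]
    have h1 : ((ζ : R) - 1) * ∑ i ∈ range (m + 1), (ζ : R) ^ i = (ζ : R) ^ (m + 1) - 1 :=
      mul_geom_sum _ _
    have h2 : (((ζ ^ (m + 1))⁻¹ : Rˣ) : R) * (ζ : R) ^ (m + 1) = 1 := by
      rw [← Units.val_pow_eq_pow_val, ← Units.val_mul, inv_mul_cancel, Units.val_one]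
    calc (((ζ ^ (m + 1))⁻¹ : Rˣ) : R) - 1
        = -(((ζ ^ (m + 1))⁻¹ : Rˣ) : R) * ((ζ : R) ^ (m + 1) - 1) := by
          rw [neg_mul, mul_sub, h2, mul_one]; ring
      _ = ((ζ : R) - 1) * (-(((ζ ^ (m + 1))⁻¹ : Rˣ) : R) * ∑ i ∈ range (m + 1), (ζ : R) ^ i) := by
          rw [← h1]; ring

theorem geom_sum_sub_natCast (z : R) (n : ℕ) :
    (∑ i ∈ range n, z ^ i) - (n : R) = (z - 1) * ∑ i ∈ range n, ∑ j ∈ range i, z ^ j := by
  induction n with
  | zero => simp
  | succ n ih =>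
    rw [Finset.sum_range_succ, Finset.sum_range_succ (fun i => ∑ j ∈ range i, z ^ j), mul_add,
      ← ih, mul_geom_sum]
    push_cast
    ring

theorem geomZ_sub_intCast (ζ : Rˣ) (n : ℤ) :
    geomZ ζ n - (n : R) = ((ζ : R) - 1) * geomZ2 ζ n := by
  rcases n with m | m
  · simp only [geomZ, geomZ2, Int.ofNat_eq_natCast, Int.cast_natCast]
    exact geom_sum_sub_natCast _ _
  · have h0 := zpow_sub_one ζ (Int.negSucc m)
    simp only [geomZ, zpow_negSucc] at h0
    have h1 := geom_sum_sub_natCast (ζ : R) (m + 1)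
    simp only [geomZ, geomZ2, Int.cast_negSucc]
    set u : R := (((ζ ^ (m + 1))⁻¹ : Rˣ) : R) with hu
    set g : R := ∑ i ∈ range (m + 1), (ζ : R) ^ i with hg
    set G : R := ∑ i ∈ range (m + 1), ∑ j ∈ range i, (ζ : R) ^ j with hG
    -- `h0 : u - 1 = (ζ - 1) * (-u * g)`, `h1 : g - (m + 1) = (ζ - 1) * G`
    have h2 : g = ((m + 1 : ℕ) : R) + ((ζ : R) - 1) * G := by rw [← h1]; ring
    have h3 : u = 1 + ((ζ : R) - 1) * (-u * g) := by rw [← h0]; ring
    calc -u * g - -((m + 1 : ℕ) : R)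
        = -u * (g - ((m + 1 : ℕ) : R)) - (u - 1) * ((m + 1 : ℕ) : R) := by ring
      _ = -u * (((ζ : R) - 1) * G) - (((ζ : R) - 1) * (-u * g)) * ((m + 1 : ℕ) : R) := by
          rw [h1, h0]
      _ = ((ζ : R) - 1) * (-u * G - ((m + 1 : ℕ) : R) * (-u * g)) := by ring

/-- The difference quotient `(x(ζ t) - x(t)) / (ζ - 1)`: the coefficient of `t ^ n` is multiplied
by `geomZ ζ n`. -/
def dq (ζ : Rˣ) (x : LaurentSeries R) : LaurentSeries R where
  coeff n := geomZ ζ n * x.coeff n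
  isPWO_support' := x.isPWO_support.mono (fun n hn => by
    simp only [Function.mem_support, ne_eq] at hn ⊢
    exact fun h => hn (by rw [h, mul_zero]))

@[simp]
theorem dq_coeff (ζ : Rˣ) (x : LaurentSeries R) (n : ℤ) :
    (dq ζ x).coeff n = geomZ ζ n * x.coeff n := rfl

/-- The second difference quotient `(dq ζ x - θ x) / (ζ - 1)`. -/
def dq2 (ζ : Rˣ) (x : LaurentSeries R) : LaurentSeries R where
  coeff n := geomZ2 ζ n * x.coeff n
  isPWO_support' := x.isPWO_support.mono (fun n hn => by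
    simp only [Function.mem_support, ne_eq] at hn ⊢
    exact fun h => hn (by rw [h, mul_zero]))

@[simp]
theorem dq2_coeff (ζ : Rˣ) (x : LaurentSeries R) (n : ℤ) :
    (dq2 ζ x).coeff n = geomZ2 ζ n * x.coeff n := rfl

theorem dq_support_subset (ζ : Rˣ) (x : LaurentSeries R) : (dq ζ x).support ⊆ x.support := by
  intro n hn
  simp only [HahnSeries.mem_support, dq_coeff, ne_eq] at hn ⊢
  exact fun h => hn (by rw [h, mul_zero])

theorem dq2_support_subset (ζ : Rˣ) (x : LaurentSeries R) : (dq2 ζ x).support ⊆ x.support := by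
  intro n hn
  simp only [HahnSeries.mem_support, dq2_coeff, ne_eq] at hn ⊢
  exact fun h => hn (by rw [h, mul_zero])

/-- **`x(ζ t) - x(t) = (ζ - 1) * dq ζ x`.** -/
theorem twist_sub_self (ζ : Rˣ) (x : LaurentSeries R) :
    twist ζ x - x = HahnSeries.C ((ζ : R) - 1) * dq ζ x := by
  ext n
  rw [HahnSeries.coeff_sub, twist_coeff, HahnSeries.C_mul_eq_smul, HahnSeries.coeff_smul,
    dq_coeff, smul_eq_mul, ← mul_assoc, ← zpow_sub_one]
  ring

/-- **`dq ζ x = θ x + (ζ - 1) * dq2 ζ x`**: the difference quotient is `θ x` modulo `ζ - 1`. -/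
theorem dq_eq_theta_add (ζ : Rˣ) (x : LaurentSeries R) :
    dq ζ x = thetaFun R x + HahnSeries.C ((ζ : R) - 1) * dq2 ζ x := by
  ext n
  rw [HahnSeries.coeff_add, thetaFun_coeff, HahnSeries.C_mul_eq_smul, HahnSeries.coeff_smul,
    dq_coeff, dq2_coeff, smul_eq_mul, ← mul_assoc, ← geomZ_sub_intCast]
  ring

/-- `x(ζ t) - x(t) = (ζ - 1) * (θ x + (ζ - 1) * dq2 ζ x)`. -/
theorem twist_sub_self_eq (ζ : Rˣ) (x : LaurentSeries R) :
    twist ζ x - x =
      HahnSeries.C ((ζ : R) - 1) * (thetaFun R x + HahnSeries.C ((ζ : R) - 1) * dq2 ζ x) := by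
  rw [twist_sub_self, dq_eq_theta_add]

/-! ## The cyclotomic identity `π ^ (q - 1) = q * (-1 + π c)` -/

/-- In `ℤ[X]`: `∑_{i < n} (1 + X) ^ i = ∑_{k < n} C(n, k + 1) X ^ k`. -/
theorem geom_sum_one_add_X (n : ℕ) :
    (∑ i ∈ range n, (1 + Polynomial.X : Polynomial ℤ) ^ i) =
      ∑ k ∈ range n, ((n.choose (k + 1) : ℕ) : Polynomial ℤ) * Polynomial.X ^ k := by
  have hX : (Polynomial.X : Polynomial ℤ) ≠ 0 := Polynomial.X_ne_zero
  apply mul_left_cancel₀ hX
  have h1 : (Polynomial.X : Polynomial ℤ) * ∑ i ∈ range n, (1 + Polynomial.X : Polynomial ℤ) ^ i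
      = (1 + Polynomial.X) ^ n - 1 := by
    have h := mul_geom_sum (1 + Polynomial.X : Polynomial ℤ) n
    rwa [add_sub_cancel_left] at h
  rw [h1, add_comm, add_pow, Finset.sum_range_succ', Finset.mul_sum]
  simp only [one_pow, mul_one, pow_zero, Nat.choose_zero_right, Nat.cast_one, add_sub_cancel_right]
  refine Finset.sum_congr rfl fun k _ => ?_
  rw [pow_succ]
  ring

/-- In any commutative ring: `∑_{i < n} (1 + y) ^ i = ∑_{k < n} C(n, k + 1) y ^ k`. -/
theorem geom_sum_one_add (y : R) (n : ℕ) :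
    (∑ i ∈ range n, (1 + y) ^ i) = ∑ k ∈ range n, ((n.choose (k + 1) : ℕ) : R) * y ^ k := by
  have h := congrArg (Polynomial.eval₂ (Int.castRingHom R) y) (geom_sum_one_add_X n)
  simpa [Polynomial.eval₂_finsetSum, Polynomial.eval₂_mul, Polynomial.eval₂_pow,
    Polynomial.eval₂_add] using h

/-- **Cyclotomic identity.** If `q` is prime and `1 + ζ + ⋯ + ζ ^ (q - 1) = 0`, then
`(ζ - 1) ^ (q - 1) = q * (-1 + (ζ - 1) * c)` for some `c` (Wilson: the cofactor is `-1` modulo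
`ζ - 1`). -/
theorem exists_pi_pow_eq {q : ℕ} (hq : q.Prime) (ζ : R) (hζ : ∑ i ∈ range q, ζ ^ i = 0) :
    ∃ c : R, (ζ - 1) ^ (q - 1) = (q : R) * (-1 + (ζ - 1) * c) := by
  obtain ⟨m, rfl⟩ : ∃ m, q = m + 2 := ⟨q - 2, by have := hq.two_le; omega⟩
  set y : R := ζ - 1 with hy
  have hζy : ζ = 1 + y := by rw [hy]; ring
  have h := geom_sum_one_add y (m + 2)
  rw [← hζy, hζ, Finset.sum_range_succ, Finset.sum_range_succ'] at h
  simp only [Nat.choose_self, Nat.cast_one, one_mul, pow_zero, mul_one, zero_add,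
    Nat.choose_one_right] at h
  -- `h : 0 = ∑_{k < m} C(m + 2, k + 2) y ^ (k + 1) + (m + 2) + y ^ (m + 1)`
  have hdiv : ∀ k ∈ range m, ((m + 2).choose (k + 1 + 1) : R) =
      ((m + 2 : ℕ) : R) * (((m + 2).choose (k + 1 + 1) / (m + 2) : ℕ) : R) := by
    intro k hk
    have hk' : k < m := Finset.mem_range.mp hk
    have hd : (m + 2) ∣ (m + 2).choose (k + 1 + 1) :=
      hq.dvd_choose_self (by omega) (by omega)
    rw [← Nat.cast_mul, Nat.mul_div_cancel' hd]
  refine ⟨-∑ k ∈ range m, (((m + 2).choose (k + 1 + 1) / (m + 2) : ℕ) : R) * y ^ k, ?_⟩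
  have e1 : ∑ k ∈ range m, ((m + 2).choose (k + 1 + 1) : R) * y ^ (k + 1) =
      ((m + 2 : ℕ) : R) * (y * ∑ k ∈ range m,
        (((m + 2).choose (k + 1 + 1) / (m + 2) : ℕ) : R) * y ^ k) := by
    rw [Finset.mul_sum, Finset.mul_sum]
    refine Finset.sum_congr rfl fun k hk => ?_
    rw [hdiv k hk, pow_succ]
    ring
  rw [e1] at h
  have e2 : m + 2 - 1 = m + 1 := by omega
  rw [e2]
  linear_combination -h

/-- A root of `1 + X + ⋯ + X ^ (q - 1)` is a unit. -/
theorem isUnit_of_geom_sum_eq_zero {q : ℕ} (hq : 0 < q) (ζ : R) (hζ : ∑ i ∈ range q, ζ ^ i = 0) :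
    IsUnit ζ := by
  have h : ζ ^ q = 1 := by
    have h1 := mul_geom_sum ζ q
    rw [hζ, mul_zero] at h1
    exact (sub_eq_zero.mp h1.symm)
  exact IsUnit.of_pow_eq_one h hq.ne'

/-! ## The main statement -/

theorem exists_add_mul_pow (a p b : LaurentSeries R) (n : ℕ) :
    ∃ V : LaurentSeries R, (a + p * b) ^ n = a ^ n + p * V := by
  induction n with
  | zero => exact ⟨0, by simp⟩
  | succ n ih =>
    obtain ⟨V, hV⟩ := ih
    exact ⟨a ^ n * b + V * a + p * V * b, by rw [pow_succ, hV, pow_succ]; ring⟩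

/-- Version of `exists_add_mul_pow` with order control, for `p = C r`. -/
theorem exists_add_C_mul_pow {N : ℤ} (a b : LaurentSeries R) (r : R) (ha : OrdGE N a)
    (hb : OrdGE N b) (n : ℕ) :
    ∃ V : LaurentSeries R, OrdGE (n * N) V ∧
      (a + HahnSeries.C r * b) ^ n = a ^ n + HahnSeries.C r * V := by
  induction n with
  | zero => exact ⟨0, ordGE_zero _, by simp⟩
  | succ n ih =>
    obtain ⟨V, hVo, hV⟩ := ih
    have e : ((n + 1 : ℕ) : ℤ) * N = (n : ℤ) * N + N := by push_cast; ring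
    refine ⟨a ^ n * b + V * a + HahnSeries.C r * (V * b), ?_, by rw [pow_succ, hV, pow_succ]; ring⟩
    rw [e]
    exact (((ha.pow n).mul hb).add (hVo.mul ha)).add ((hVo.mul hb).C_mul r)

/-- **MID-COMPONENT GAUSS REDUCTION** (`T := x(ζ t) - x(t)`, `π := ζ - 1`):
`T ^ (q - 1) = q * (-(θ x) ^ (q - 1) + π * E)`, with `E ∈ t ^ ((q - 1) N) R⟦t⟧` if
`x ∈ t ^ N R⟦t⟧`. -/
theorem exists_twist_sub_self_pow {q : ℕ} (hq : q.Prime) (ζ : Rˣ)
    (hζ : ∑ i ∈ range q, (ζ : R) ^ i = 0) (x : LaurentSeries R) {N : ℤ} (hx : OrdGE N x) :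
    ∃ E : LaurentSeries R, OrdGE (((q - 1 : ℕ) : ℤ) * N) E ∧
      (twist ζ x - x) ^ (q - 1) = HahnSeries.C (q : R) *
        (-(thetaFun R x) ^ (q - 1) + HahnSeries.C ((ζ : R) - 1) * E) := by
  obtain ⟨c, hc⟩ := exists_pi_pow_eq hq (ζ : R) hζ
  have hθ : OrdGE N (thetaFun R x) := ordGE_thetaFun hx
  have hd : OrdGE N (dq2 ζ x) := hx.of_support_subset (dq2_support_subset ζ x)
  obtain ⟨V, hVo, hV⟩ := exists_add_C_mul_pow (thetaFun R x) (dq2 ζ x) ((ζ : R) - 1) hθ hd (q - 1)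
  refine ⟨-V + HahnSeries.C c * (thetaFun R x) ^ (q - 1) +
      HahnSeries.C ((ζ : R) - 1) * (HahnSeries.C c * V), ?_, ?_⟩
  · exact (hVo.neg.add ((hθ.pow (q - 1)).C_mul c)).add ((hVo.C_mul c).C_mul _)
  · rw [twist_sub_self_eq, mul_pow, hV, ← map_pow, hc, map_mul, map_add, map_neg, map_one,
      map_mul, map_natCast]
    ring

/-- **Reduction form**: for a ring homomorphism `φ` with `φ ζ = 1` (reduction modulo a prime
containing `ζ - 1`), `(x(ζ t) - x(t)) ^ (q - 1) = q * ε` with `ε` reducing to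
`-(θ x̄) ^ (q - 1)`. -/
theorem exists_twist_sub_self_pow_red {q : ℕ} (hq : q.Prime) (ζ : Rˣ)
    (hζ : ∑ i ∈ range q, (ζ : R) ^ i = 0) (x : LaurentSeries R) {N : ℤ} (hx : OrdGE N x)
    {k : Type*} [CommRing k] (φ : R →+* k) (hφ : φ (ζ : R) = 1) :
    ∃ ε : LaurentSeries R, OrdGE (((q - 1 : ℕ) : ℤ) * N) ε ∧
      (twist ζ x - x) ^ (q - 1) = HahnSeries.C (q : R) * ε ∧
      ModularCurve.coeffMap φ ε = -(thetaFun k (ModularCurve.coeffMap φ x)) ^ (q - 1) := by
  obtain ⟨E, hEo, hE⟩ := exists_twist_sub_self_pow hq ζ hζ x hx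
  refine ⟨-(thetaFun R x) ^ (q - 1) + HahnSeries.C ((ζ : R) - 1) * E, ?_, hE, ?_⟩
  · exact ((ordGE_thetaFun hx).pow (q - 1)).neg.add (hEo.C_mul _)
  · have h1 : ModularCurve.coeffMap φ (HahnSeries.C ((ζ : R) - 1)) = 0 := by
      rw [HahnSeries.C_apply, ModularCurve.coeffMap_single, map_sub, hφ, map_one, sub_self,
        HahnSeries.single_eq_zero]
    have h2 : ModularCurve.coeffMap φ (thetaFun R x) = thetaFun k (ModularCurve.coeffMap φ x) :=
      (Fermat.Agent.Lib.helper9242.thetaFun_map R φ x).symm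
    rw [map_add, map_neg, map_pow, map_mul, h1, zero_mul, add_zero, h2]

/-- **Cusp form**: if `x` is invertible (`x * x' = 1`, e.g. `x = t ^ (-1) * unit`), then
`((x(ζ t) - x(t)) / x) ^ (q - 1) = q * (-(θ x / x) ^ (q - 1) + π * E')`. -/
theorem exists_twist_sub_self_mul_pow {q : ℕ} (hq : q.Prime) (ζ : Rˣ)
    (hζ : ∑ i ∈ range q, (ζ : R) ^ i = 0) (x x' : LaurentSeries R) {N N' : ℤ}
    (hx : OrdGE N x) (hx' : OrdGE N' x') :
    ∃ E : LaurentSeries R, OrdGE (((q - 1 : ℕ) : ℤ) * (N + N')) E ∧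
      ((twist ζ x - x) * x') ^ (q - 1) = HahnSeries.C (q : R) *
        (-(thetaFun R x * x') ^ (q - 1) + HahnSeries.C ((ζ : R) - 1) * E) := by
  obtain ⟨E, hEo, hE⟩ := exists_twist_sub_self_pow hq ζ hζ x hx
  refine ⟨E * x' ^ (q - 1), ?_, ?_⟩
  · have h := hEo.mul (hx'.pow (q - 1))
    have e : ((q - 1 : ℕ) : ℤ) * (N + N') = ((q - 1 : ℕ) : ℤ) * N + ((q - 1 : ℕ) : ℤ) * N' := by
      ring
    rw [e]
    exact h
  · rw [mul_pow, hE, mul_pow]
    ring

/-! ## Addenda: base change of the twist, and the `ζ ^ B`-form used for the mid valuations -/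

/-- `twist` commutes with coefficientwise ring homomorphisms. -/
theorem coeffMap_twist {S : Type*} [CommRing S] (f : R →+* S) (ζ : Rˣ) (x : LaurentSeries R) :
    ModularCurve.coeffMap f (twist ζ x) =
      twist (Units.map (f : R →* S) ζ) (ModularCurve.coeffMap f x) := by
  ext n
  rw [ModularCurve.coeffMap_coeff, twist_coeff, twist_coeff, ModularCurve.coeffMap_coeff, map_mul,
    ← map_zpow, Units.coe_map]
  rfl

/-- **`ζ ^ B`-form** (`B : ℤ`, e.g. the index of the mid valuation `v_mid,B`):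
`x(ζ^B t) - x(t) = (ζ - 1) * (B * θ x + (ζ - 1) * E)`. -/
theorem exists_twist_zpow_sub_self (ζ : Rˣ) (B : ℤ) (x : LaurentSeries R) {N : ℤ}
    (hx : OrdGE N x) :
    ∃ E : LaurentSeries R, OrdGE N E ∧
      twist (ζ ^ B) x - x = HahnSeries.C ((ζ : R) - 1) *
        (HahnSeries.C (B : R) * thetaFun R x + HahnSeries.C ((ζ : R) - 1) * E) := by
  have hθ : OrdGE N (thetaFun R x) := ordGE_thetaFun hx
  have hd : OrdGE N (dq2 (ζ ^ B) x) := hx.of_support_subset (dq2_support_subset _ x)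
  refine ⟨HahnSeries.C (geomZ2 ζ B) * thetaFun R x +
      HahnSeries.C (geomZ ζ B ^ 2) * dq2 (ζ ^ B) x, (hθ.C_mul _).add (hd.C_mul _), ?_⟩
  have h1 : ((ζ ^ B : Rˣ) : R) - 1 = ((ζ : R) - 1) * geomZ ζ B := zpow_sub_one ζ B
  have h2 : geomZ ζ B = (B : R) + ((ζ : R) - 1) * geomZ2 ζ B := by
    rw [← geomZ_sub_intCast]; ring
  rw [twist_sub_self_eq, h1]
  have h3 : (HahnSeries.C (geomZ ζ B) : LaurentSeries R) =
      HahnSeries.C (B : R) + HahnSeries.C ((ζ : R) - 1) * HahnSeries.C (geomZ2 ζ B) := by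
    rw [← map_mul, ← map_add, ← h2]
  rw [map_mul, map_pow, h3]
  ring

/-- Reduction form of `exists_twist_zpow_sub_self`: for `φ ζ = 1`,
`x(ζ^B t) - x(t) = (ζ - 1) * S` with `S` reducing to `B * θ x̄`. -/
theorem exists_twist_zpow_sub_self_red (ζ : Rˣ) (B : ℤ) (x : LaurentSeries R) {N : ℤ}
    (hx : OrdGE N x) {k : Type*} [CommRing k] (φ : R →+* k) (hφ : φ (ζ : R) = 1) :
    ∃ S : LaurentSeries R, OrdGE N S ∧
      twist (ζ ^ B) x - x = HahnSeries.C ((ζ : R) - 1) * S ∧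
      ModularCurve.coeffMap φ S =
        HahnSeries.C (B : k) * thetaFun k (ModularCurve.coeffMap φ x) := by
  obtain ⟨E, hEo, hE⟩ := exists_twist_zpow_sub_self ζ B x hx
  refine ⟨HahnSeries.C (B : R) * thetaFun R x + HahnSeries.C ((ζ : R) - 1) * E,
    ((ordGE_thetaFun hx).C_mul _).add (hEo.C_mul _), hE, ?_⟩
  have h1 : ModularCurve.coeffMap φ (HahnSeries.C ((ζ : R) - 1)) = 0 := by
    rw [HahnSeries.C_apply, ModularCurve.coeffMap_single, map_sub, hφ, map_one, sub_self,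
      HahnSeries.single_eq_zero]
  have h2 : ModularCurve.coeffMap φ (thetaFun R x) = thetaFun k (ModularCurve.coeffMap φ x) :=
    (Fermat.Agent.Lib.helper9242.thetaFun_map R φ x).symm
  have h3 : ModularCurve.coeffMap φ (HahnSeries.C (B : R)) = HahnSeries.C (B : k) := by
    rw [HahnSeries.C_apply, ModularCurve.coeffMap_single, map_intCast, HahnSeries.C_apply]
  rw [map_add, map_mul, map_mul, h1, zero_mul, add_zero, h2, h3]

end Fermat.Agent.S36.helper3919
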