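import Mathlib
import Fermat.Agent.S36.helper3919_MidGauss

/-!
# S36, F1/F2-MID: the product (norm) form of the mid-component Gauss reduction (helper3919)

Complement to `helper3919_MidGauss` (which is final as landed).  `R` is any commutative ring,
`ζ : Rˣ` with `1 + ζ + ⋯ + ζ ^ (q - 1) = 0`, `q` prime, `π := ζ - 1`, `θ = t d/dt`.

* `exists_natCast_eq_pi_mul` : `q = π * s`;
* `exists_factorial_eq` : `(q - 1)! = -1 + q * m` in `R` (Wilson);
* `exists_prod_add_C_mul` : `∏_{i ∈ s} (a i + r * b i) = ∏_{i ∈ s} a i + r * V`, with order control;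
* `exists_prod_twist_pow_sub_self` :
  `∏_{B = 1}^{q - 1} (x(ζ^B t) - x(t)) = q * ((θ x) ^ (q - 1) + π * E)`
  (the constant term, up to sign, of `∏_B (X - (x(ζ^B t) - x(t)))`: the "norm" of
  `T = x(q² z) - x(z)` from level `q²` to level `q` divided by its `∞`-factor);
* `exists_prod_twist_pow_sub_self_red` : the same in reduction form (`φ ζ = 1`): the cofactor of
  `q` reduces to `(θ x̄) ^ (q - 1)`;
* `exists_prod_twist_pow_sub_self_mul` : cusp form, with a second factor `x'` (e.g. `x' = x⁻¹`).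
-/

set_option autoImplicit false

noncomputable section

namespace Fermat.Agent.S36.helper3919

open HahnSeries Finset
open Fermat.Agent.S28.helper328 (twist twist_coeff)
open Fermat.Agent.Lib.helper9242 (thetaFun thetaFun_coeff)

variable {R : Type*} [CommRing R]

/-- If `1 + ζ + ⋯ + ζ ^ (q - 1) = 0` then `q ∈ (ζ - 1) R`. -/
theorem exists_natCast_eq_pi_mul {q : ℕ} (ζ : R) (hζ : ∑ i ∈ range q, ζ ^ i = 0) :
    ∃ s : R, (q : R) = (ζ - 1) * s := by
  refine ⟨-∑ i ∈ range q, ∑ j ∈ range i, ζ ^ j, ?_⟩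
  have h := geom_sum_sub_natCast ζ q
  rw [hζ] at h
  linear_combination -h

/-- Wilson's theorem in an arbitrary commutative ring: `(q - 1)! = -1 + q * m`. -/
theorem exists_factorial_eq {q : ℕ} (hq : q.Prime) :
    ∃ m : ℕ, (((q - 1).factorial : ℕ) : R) = -1 + (q : R) * (m : R) := by
  have : Fact q.Prime := ⟨hq⟩
  have h0 : ((((q - 1).factorial + 1 : ℕ)) : ZMod q) = 0 := by
    push_cast
    rw [ZMod.wilsons_lemma]
    ring
  obtain ⟨m, hm⟩ := (ZMod.natCast_eq_zero_iff _ _).mp h0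
  refine ⟨m, ?_⟩
  have h1 : ((((q - 1).factorial + 1 : ℕ)) : R) = ((q * m : ℕ) : R) := by rw [hm]
  push_cast at h1
  linear_combination h1

/-- `∏_{i ∈ s} a i` has order `≥ #s * N` if every `a i` has order `≥ N`. -/
theorem ordGE_prod {ι : Type*} (s : Finset ι) (a : ι → LaurentSeries R) {N : ℤ}
    (ha : ∀ i ∈ s, OrdGE N (a i)) : OrdGE ((s.card : ℤ) * N) (∏ i ∈ s, a i) := by
  classical
  induction s using Finset.induction_on with
  | empty => simpa using (ordGE_one (R := R))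
  | insert i s his ih =>
    rw [Finset.prod_insert his, Finset.card_insert_of_notMem his]
    have e : ((s.card + 1 : ℕ) : ℤ) * N = N + (s.card : ℤ) * N := by push_cast; ring
    rw [e]
    exact (ha i (Finset.mem_insert_self i s)).mul
      (ih fun j hj => ha j (Finset.mem_insert_of_mem hj))

/-- `∏_{i ∈ s} (a i + r * b i) = ∏_{i ∈ s} a i + r * V`, with order control. -/
theorem exists_prod_add_C_mul {ι : Type*} (s : Finset ι) (a b : ι → LaurentSeries R) (r : R)
    {N : ℤ} (ha : ∀ i ∈ s, OrdGE N (a i)) (hb : ∀ i ∈ s, OrdGE N (b i)) :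
    ∃ V : LaurentSeries R, OrdGE ((s.card : ℤ) * N) V ∧
      ∏ i ∈ s, (a i + HahnSeries.C r * b i) = ∏ i ∈ s, a i + HahnSeries.C r * V := by
  classical
  induction s using Finset.induction_on with
  | empty => exact ⟨0, ordGE_zero _, by simp⟩
  | insert i s his ih =>
    obtain ⟨V, hVo, hV⟩ := ih (fun j hj => ha j (Finset.mem_insert_of_mem hj))
      (fun j hj => hb j (Finset.mem_insert_of_mem hj))
    have hai := ha i (Finset.mem_insert_self i s)
    have hbi := hb i (Finset.mem_insert_self i s)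
    have hP : OrdGE ((s.card : ℤ) * N) (∏ j ∈ s, a j) :=
      ordGE_prod s a fun j hj => ha j (Finset.mem_insert_of_mem hj)
    have e : ((s.card + 1 : ℕ) : ℤ) * N = N + (s.card : ℤ) * N := by push_cast; ring
    refine ⟨a i * V + b i * ∏ j ∈ s, a j + HahnSeries.C r * (b i * V), ?_, ?_⟩
    · rw [Finset.card_insert_of_notMem his, e]
      exact ((hai.mul hVo).add (hbi.mul hP)).add ((hbi.mul hVo).C_mul r)
    · rw [Finset.prod_insert his, Finset.prod_insert his, hV]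
      ring

/-- **PRODUCT FORM OF THE MID-COMPONENT GAUSS REDUCTION** (`π := ζ - 1`):
`∏_{B = 1}^{q - 1} (x(ζ^B t) - x(t)) = q * ((θ x) ^ (q - 1) + π * E)`, with
`E ∈ t ^ ((q - 1) N) R⟦t⟧` if `x ∈ t ^ N R⟦t⟧`. -/
theorem exists_prod_twist_pow_sub_self {q : ℕ} (hq : q.Prime) (ζ : Rˣ)
    (hζ : ∑ i ∈ range q, (ζ : R) ^ i = 0) (x : LaurentSeries R) {N : ℤ} (hx : OrdGE N x) :
    ∃ E : LaurentSeries R, OrdGE (((q - 1 : ℕ) : ℤ) * N) E ∧
      ∏ B ∈ Finset.Ico 1 q, (twist (ζ ^ B) x - x) = HahnSeries.C (q : R) *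
        ((thetaFun R x) ^ (q - 1) + HahnSeries.C ((ζ : R) - 1) * E) := by
  obtain ⟨c, hc⟩ := exists_pi_pow_eq hq (ζ : R) hζ
  obtain ⟨s, hs⟩ := exists_natCast_eq_pi_mul (ζ : R) hζ
  obtain ⟨m, hm⟩ := exists_factorial_eq (R := R) hq
  have hθ : OrdGE N (thetaFun R x) := ordGE_thetaFun hx
  -- the `ζ ^ B`-form for every `B`
  have hB : ∀ B : ℕ, ∃ E : LaurentSeries R, OrdGE N E ∧
      twist (ζ ^ B) x - x = HahnSeries.C ((ζ : R) - 1) *
        (HahnSeries.C ((B : ℕ) : R) * thetaFun R x + HahnSeries.C ((ζ : R) - 1) * E) := by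
    intro B
    obtain ⟨E, hEo, hE⟩ := exists_twist_zpow_sub_self ζ (B : ℤ) x hx
    refine ⟨E, hEo, ?_⟩
    rw [zpow_natCast, Int.cast_natCast] at hE
    exact hE
  choose EB hEBo hEB using hB
  obtain ⟨V, hVo, hV⟩ := exists_prod_add_C_mul (Finset.Ico 1 q)
    (fun B : ℕ => HahnSeries.C ((B : ℕ) : R) * thetaFun R x) EB ((ζ : R) - 1)
    (fun B _ => hθ.C_mul _) (fun B _ => hEBo B)
  have hcard : (Finset.Ico 1 q).card = q - 1 := by simp
  rw [hcard] at hVo
  have hprodB : ∏ B ∈ Finset.Ico 1 q, (HahnSeries.C ((B : ℕ) : R) * thetaFun R x) =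
      HahnSeries.C (((q - 1).factorial : ℕ) : R) * (thetaFun R x) ^ (q - 1) := by
    rw [Finset.prod_mul_distrib, Finset.prod_const, hcard, ← map_prod, ← Nat.cast_prod]
    have hq1 : q - 1 + 1 = q := Nat.sub_add_cancel hq.one_le
    have := Finset.prod_Ico_id_eq_factorial (q - 1)
    rw [hq1] at this
    rw [this]
  set W : LaurentSeries R := HahnSeries.C (s * (m : R)) * (thetaFun R x) ^ (q - 1) + V with hW
  have hWo : OrdGE (((q - 1 : ℕ) : ℤ) * N) W := ((hθ.pow (q - 1)).C_mul _).add hVo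
  refine ⟨-W - HahnSeries.C c * (thetaFun R x) ^ (q - 1) +
      HahnSeries.C ((ζ : R) - 1) * (HahnSeries.C c * W), ?_, ?_⟩
  · exact (hWo.neg.sub ((hθ.pow (q - 1)).C_mul c)).add ((hWo.C_mul c).C_mul _)
  · have h1 : ∏ B ∈ Finset.Ico 1 q, (twist (ζ ^ B) x - x) =
        HahnSeries.C ((ζ : R) - 1) ^ (q - 1) *
          ∏ B ∈ Finset.Ico 1 q, (HahnSeries.C ((B : ℕ) : R) * thetaFun R x +
            HahnSeries.C ((ζ : R) - 1) * EB B) := by
      rw [← hcard, ← Finset.prod_const, ← Finset.prod_mul_distrib]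
      exact Finset.prod_congr rfl fun B _ => hEB B
    have h2 : (HahnSeries.C (((q - 1).factorial : ℕ) : R) : LaurentSeries R) =
        -1 + HahnSeries.C ((ζ : R) - 1) * HahnSeries.C (s * (m : R)) := by
      rw [hm, hs, map_add, map_neg, map_one, ← map_mul]
      congr 2
      ring
    have h3 : (HahnSeries.C ((ζ : R) - 1) : LaurentSeries R) ^ (q - 1) =
        HahnSeries.C (q : R) * (-1 + HahnSeries.C ((ζ : R) - 1) * HahnSeries.C c) := by
      rw [← map_pow, hc, map_mul, map_add, map_neg, map_one, map_mul]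
    rw [h1, hV, hprodB, h2, h3, hW]
    ring

/-- **Reduction form**: for a ring homomorphism `φ` with `φ ζ = 1`,
`∏_{B = 1}^{q - 1} (x(ζ^B t) - x(t)) = q * ε` with `ε` reducing to `(θ x̄) ^ (q - 1)`. -/
theorem exists_prod_twist_pow_sub_self_red {q : ℕ} (hq : q.Prime) (ζ : Rˣ)
    (hζ : ∑ i ∈ range q, (ζ : R) ^ i = 0) (x : LaurentSeries R) {N : ℤ} (hx : OrdGE N x)
    {k : Type*} [CommRing k] (φ : R →+* k) (hφ : φ (ζ : R) = 1) :
    ∃ ε : LaurentSeries R, OrdGE (((q - 1 : ℕ) : ℤ) * N) ε ∧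
      ∏ B ∈ Finset.Ico 1 q, (twist (ζ ^ B) x - x) = HahnSeries.C (q : R) * ε ∧
      ModularCurve.coeffMap φ ε = (thetaFun k (ModularCurve.coeffMap φ x)) ^ (q - 1) := by
  obtain ⟨E, hEo, hE⟩ := exists_prod_twist_pow_sub_self hq ζ hζ x hx
  refine ⟨(thetaFun R x) ^ (q - 1) + HahnSeries.C ((ζ : R) - 1) * E, ?_, hE, ?_⟩
  · exact ((ordGE_thetaFun hx).pow (q - 1)).add (hEo.C_mul _)
  · have h1 : ModularCurve.coeffMap φ (HahnSeries.C ((ζ : R) - 1)) = 0 := by
      rw [HahnSeries.C_apply, ModularCurve.coeffMap_single, map_sub, hφ, map_one, sub_self,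
        HahnSeries.single_eq_zero]
    have h2 : ModularCurve.coeffMap φ (thetaFun R x) = thetaFun k (ModularCurve.coeffMap φ x) :=
      (Fermat.Agent.Lib.helper9242.thetaFun_map R φ x).symm
    rw [map_add, map_pow, map_mul, h1, zero_mul, add_zero, h2]

/-- **Cusp form**: with a second factor `x'` (e.g. `x' = x⁻¹` at a cusp where `x` has a pole):
`∏_{B = 1}^{q - 1} ((x(ζ^B t) - x(t)) * x') = q * ((θ x * x') ^ (q - 1) + π * E')`. -/
theorem exists_prod_twist_pow_sub_self_mul {q : ℕ} (hq : q.Prime) (ζ : Rˣ)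
    (hζ : ∑ i ∈ range q, (ζ : R) ^ i = 0) (x x' : LaurentSeries R) {N N' : ℤ}
    (hx : OrdGE N x) (hx' : OrdGE N' x') :
    ∃ E : LaurentSeries R, OrdGE (((q - 1 : ℕ) : ℤ) * (N + N')) E ∧
      ∏ B ∈ Finset.Ico 1 q, ((twist (ζ ^ B) x - x) * x') = HahnSeries.C (q : R) *
        ((thetaFun R x * x') ^ (q - 1) + HahnSeries.C ((ζ : R) - 1) * E) := by
  obtain ⟨E, hEo, hE⟩ := exists_prod_twist_pow_sub_self hq ζ hζ x hx
  have hcard : (Finset.Ico 1 q).card = q - 1 := by simp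
  refine ⟨E * x' ^ (q - 1), ?_, ?_⟩
  · have h := hEo.mul (hx'.pow (q - 1))
    have e : ((q - 1 : ℕ) : ℤ) * (N + N') = ((q - 1 : ℕ) : ℤ) * N + ((q - 1 : ℕ) : ℤ) * N' := by
      ring
    rw [e]
    exact h
  · rw [Finset.prod_mul_distrib, Finset.prod_const, hcard, hE, mul_pow]
    ring

end Fermat.Agent.S36.helper3919
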