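import Mathlib
import Fermat.Agent.S36.helper3919_MidGaussProd
import Fermat.Agent.S37.helper5666_KroneckerSeries

/-!
# S36, F1/F2-MID: the mid-component Gauss reduction in the `rot` / `kronPoly` vocabulary (helper3919)

Adapter between `helper3919_MidGauss` / `helper3919_MidGaussProd` (stated with the landed
`S28.helper328.twist`) and the landed Kronecker-series library `S37.helper5666`
(`rot u x = x(u t)`, `kronPoly ζ q h = ∏_{b < q} (X - h(ζ^b t))`).

* `rot_eq_twist` : the two rotations are the same ring homomorphism;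
* `exists_rot_sub_self_pow`, `exists_rot_zpow_sub_self`, `exists_prod_rot_pow_sub_self`
  (+ `_red` forms): the statements of the two `twist` files, verbatim for `rot`;
* `kronPoly_eq_mul` : `kronPoly ζ q h = (X - h) * ∏_{b = 1}^{q - 1} (X - h(ζ^b t))`;
* `derivative_kronPoly_eval` : `(kronPoly ζ q h)'(h) = ∏_{b = 1}^{q - 1} (h - h(ζ^b t))`;
* `exists_derivative_kronPoly_eval` : **the different of the Kronecker polynomial at its root**
  `(kronPoly ζ q h)'(h) = (-1) ^ (q - 1) * q * ((θ h) ^ (q - 1) + (ζ - 1) * E)`, and its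
  reduction form: `(kronPoly ζ q h)'(h) = q * ε`, `ε` reducing to `(-1) ^ (q - 1) (θ h̄) ^ (q - 1)`.
-/

set_option autoImplicit false

noncomputable section

namespace Fermat.Agent.S36.helper3919

open HahnSeries Finset
open Fermat.Agent.S28.helper328 (twist twist_coeff)
open Fermat.Agent.Lib.helper9242 (thetaFun thetaFun_coeff)
open Fermat.Agent.S37.helper5666 (rot rot_coeff kronPoly)

variable {R : Type*} [CommRing R]

/-- The rotation of `S37.helper5666` is the twist of `S28.helper328`. -/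
theorem rot_apply_eq_twist (u : Rˣ) (x : LaurentSeries R) : rot u x = twist u x := by
  ext n
  rw [rot_coeff, twist_coeff]

/-- The rotation of `S37.helper5666` is the twist of `S28.helper328` (as ring homomorphisms). -/
theorem rot_eq_twist (u : Rˣ) : (rot u : LaurentSeries R →+* LaurentSeries R) = twist u :=
  RingHom.ext (rot_apply_eq_twist u)

/-- `rot`-form of `exists_twist_sub_self_pow`. -/
theorem exists_rot_sub_self_pow {q : ℕ} (hq : q.Prime) (ζ : Rˣ)
    (hζ : ∑ i ∈ range q, (ζ : R) ^ i = 0) (x : LaurentSeries R) {N : ℤ} (hx : OrdGE N x) :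
    ∃ E : LaurentSeries R, OrdGE (((q - 1 : ℕ) : ℤ) * N) E ∧
      (rot ζ x - x) ^ (q - 1) = HahnSeries.C (q : R) *
        (-(thetaFun R x) ^ (q - 1) + HahnSeries.C ((ζ : R) - 1) * E) := by
  rw [rot_apply_eq_twist]
  exact exists_twist_sub_self_pow hq ζ hζ x hx

/-- `rot`-form of `exists_twist_sub_self_pow_red`. -/
theorem exists_rot_sub_self_pow_red {q : ℕ} (hq : q.Prime) (ζ : Rˣ)
    (hζ : ∑ i ∈ range q, (ζ : R) ^ i = 0) (x : LaurentSeries R) {N : ℤ} (hx : OrdGE N x)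
    {k : Type*} [CommRing k] (φ : R →+* k) (hφ : φ (ζ : R) = 1) :
    ∃ ε : LaurentSeries R, OrdGE (((q - 1 : ℕ) : ℤ) * N) ε ∧
      (rot ζ x - x) ^ (q - 1) = HahnSeries.C (q : R) * ε ∧
      ModularCurve.coeffMap φ ε = -(thetaFun k (ModularCurve.coeffMap φ x)) ^ (q - 1) := by
  rw [rot_apply_eq_twist]
  exact exists_twist_sub_self_pow_red hq ζ hζ x hx φ hφ

/-- `rot`-form of `exists_twist_zpow_sub_self` (natural-number exponent). -/
theorem exists_rot_pow_sub_self (ζ : Rˣ) (B : ℕ) (x : LaurentSeries R) {N : ℤ}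
    (hx : OrdGE N x) :
    ∃ E : LaurentSeries R, OrdGE N E ∧
      rot (ζ ^ B) x - x = HahnSeries.C ((ζ : R) - 1) *
        (HahnSeries.C ((B : ℕ) : R) * thetaFun R x + HahnSeries.C ((ζ : R) - 1) * E) := by
  obtain ⟨E, hEo, hE⟩ := exists_twist_zpow_sub_self ζ (B : ℤ) x hx
  refine ⟨E, hEo, ?_⟩
  rw [zpow_natCast, Int.cast_natCast] at hE
  rw [rot_apply_eq_twist]
  exact hE

/-- `rot`-form of `exists_twist_zpow_sub_self_red` (natural-number exponent). -/
theorem exists_rot_pow_sub_self_red (ζ : Rˣ) (B : ℕ) (x : LaurentSeries R) {N : ℤ}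
    (hx : OrdGE N x) {k : Type*} [CommRing k] (φ : R →+* k) (hφ : φ (ζ : R) = 1) :
    ∃ S : LaurentSeries R, OrdGE N S ∧
      rot (ζ ^ B) x - x = HahnSeries.C ((ζ : R) - 1) * S ∧
      ModularCurve.coeffMap φ S =
        HahnSeries.C ((B : ℕ) : k) * thetaFun k (ModularCurve.coeffMap φ x) := by
  obtain ⟨S, hSo, hS, hred⟩ := exists_twist_zpow_sub_self_red ζ (B : ℤ) x hx φ hφ
  refine ⟨S, hSo, ?_, ?_⟩
  · rw [zpow_natCast] at hS
    rw [rot_apply_eq_twist]
    exact hS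
  · rw [hred, Int.cast_natCast]

/-- `rot`-form of `exists_prod_twist_pow_sub_self`. -/
theorem exists_prod_rot_pow_sub_self {q : ℕ} (hq : q.Prime) (ζ : Rˣ)
    (hζ : ∑ i ∈ range q, (ζ : R) ^ i = 0) (x : LaurentSeries R) {N : ℤ} (hx : OrdGE N x) :
    ∃ E : LaurentSeries R, OrdGE (((q - 1 : ℕ) : ℤ) * N) E ∧
      ∏ B ∈ Finset.Ico 1 q, (rot (ζ ^ B) x - x) = HahnSeries.C (q : R) *
        ((thetaFun R x) ^ (q - 1) + HahnSeries.C ((ζ : R) - 1) * E) := by
  obtain ⟨E, hEo, hE⟩ := exists_prod_twist_pow_sub_self hq ζ hζ x hx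
  refine ⟨E, hEo, ?_⟩
  rw [← hE]
  exact Finset.prod_congr rfl fun B _ => by rw [rot_apply_eq_twist]

/-- `rot`-form of `exists_prod_twist_pow_sub_self_red`. -/
theorem exists_prod_rot_pow_sub_self_red {q : ℕ} (hq : q.Prime) (ζ : Rˣ)
    (hζ : ∑ i ∈ range q, (ζ : R) ^ i = 0) (x : LaurentSeries R) {N : ℤ} (hx : OrdGE N x)
    {k : Type*} [CommRing k] (φ : R →+* k) (hφ : φ (ζ : R) = 1) :
    ∃ ε : LaurentSeries R, OrdGE (((q - 1 : ℕ) : ℤ) * N) ε ∧
      ∏ B ∈ Finset.Ico 1 q, (rot (ζ ^ B) x - x) = HahnSeries.C (q : R) * ε ∧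
      ModularCurve.coeffMap φ ε = (thetaFun k (ModularCurve.coeffMap φ x)) ^ (q - 1) := by
  obtain ⟨ε, hεo, hε, hred⟩ := exists_prod_twist_pow_sub_self_red hq ζ hζ x hx φ hφ
  refine ⟨ε, hεo, ?_, hred⟩
  rw [← hε]
  exact Finset.prod_congr rfl fun B _ => by rw [rot_apply_eq_twist]

/-! ## The Kronecker polynomial and its derivative at the root `h` -/

/-- `kronPoly ζ q h = (X - h) * ∏_{b = 1}^{q - 1} (X - h(ζ^b t))`. -/
theorem kronPoly_eq_mul (ζ : Rˣ) {q : ℕ} (hq : 0 < q) (h : LaurentSeries R) :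
    kronPoly ζ q h = (Polynomial.X - Polynomial.C h) *
      ∏ b ∈ Finset.Ico 1 q, (Polynomial.X - Polynomial.C (rot (ζ ^ b) h)) := by
  unfold kronPoly
  rw [Finset.range_eq_Ico, Finset.prod_eq_prod_Ico_succ_bot hq, pow_zero,
    Fermat.Agent.S37.helper5666.rot_one]

/-- `(kronPoly ζ q h)'(h) = ∏_{b = 1}^{q - 1} (h - h(ζ^b t))`. -/
theorem derivative_kronPoly_eval (ζ : Rˣ) {q : ℕ} (hq : 0 < q) (h : LaurentSeries R) :
    (Polynomial.derivative (kronPoly ζ q h)).eval h =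
      ∏ b ∈ Finset.Ico 1 q, (h - rot (ζ ^ b) h) := by
  rw [kronPoly_eq_mul ζ hq h, Polynomial.derivative_mul, Polynomial.eval_add, Polynomial.eval_mul,
    Polynomial.eval_mul, Polynomial.eval_sub, Polynomial.eval_X, Polynomial.eval_C, sub_self,
    zero_mul, add_zero, Polynomial.derivative_sub, Polynomial.derivative_X,
    Polynomial.derivative_C, sub_zero, Polynomial.eval_one, one_mul, Polynomial.eval_prod]
  exact Finset.prod_congr rfl fun b _ => by
    rw [Polynomial.eval_sub, Polynomial.eval_X, Polynomial.eval_C]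

/-- **The different of the Kronecker polynomial at its root** (`π := ζ - 1`):
`(kronPoly ζ q h)'(h) = (-1) ^ (q - 1) * q * ((θ h) ^ (q - 1) + π * E)`. -/
theorem exists_derivative_kronPoly_eval {q : ℕ} (hq : q.Prime) (ζ : Rˣ)
    (hζ : ∑ i ∈ range q, (ζ : R) ^ i = 0) (h : LaurentSeries R) {N : ℤ} (hx : OrdGE N h) :
    ∃ E : LaurentSeries R, OrdGE (((q - 1 : ℕ) : ℤ) * N) E ∧
      (Polynomial.derivative (kronPoly ζ q h)).eval h = (-1) ^ (q - 1) * (HahnSeries.C (q : R) *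
        ((thetaFun R h) ^ (q - 1) + HahnSeries.C ((ζ : R) - 1) * E)) := by
  obtain ⟨E, hEo, hE⟩ := exists_prod_rot_pow_sub_self hq ζ hζ h hx
  refine ⟨E, hEo, ?_⟩
  have hcard : (Finset.Ico 1 q).card = q - 1 := by simp
  rw [derivative_kronPoly_eval ζ hq.pos h, ← hE, ← hcard, ← Finset.prod_const,
    ← Finset.prod_mul_distrib]
  exact Finset.prod_congr rfl fun b _ => by ring

/-- Reduction form of `exists_derivative_kronPoly_eval`: for `φ ζ = 1`,
`(kronPoly ζ q h)'(h) = q * ε` with `ε` reducing to `(-1) ^ (q - 1) * (θ h̄) ^ (q - 1)`. -/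
theorem exists_derivative_kronPoly_eval_red {q : ℕ} (hq : q.Prime) (ζ : Rˣ)
    (hζ : ∑ i ∈ range q, (ζ : R) ^ i = 0) (h : LaurentSeries R) {N : ℤ} (hx : OrdGE N h)
    {k : Type*} [CommRing k] (φ : R →+* k) (hφ : φ (ζ : R) = 1) :
    ∃ ε : LaurentSeries R, OrdGE (((q - 1 : ℕ) : ℤ) * N) ε ∧
      (Polynomial.derivative (kronPoly ζ q h)).eval h = HahnSeries.C (q : R) * ε ∧
      ModularCurve.coeffMap φ ε =
        (-1) ^ (q - 1) * (thetaFun k (ModularCurve.coeffMap φ h)) ^ (q - 1) := by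
  obtain ⟨ε, hεo, hε, hred⟩ := exists_prod_rot_pow_sub_self_red hq ζ hζ h hx φ hφ
  have hcard : (Finset.Ico 1 q).card = q - 1 := by simp
  have hsign : OrdGE (((q - 1 : ℕ) : ℤ) * N) ((-1) ^ (q - 1) * ε) := by
    rcases neg_one_pow_eq_or (LaurentSeries R) (q - 1) with h1 | h1
    · rw [h1, one_mul]; exact hεo
    · rw [h1, neg_one_mul]; exact hεo.neg
  refine ⟨(-1) ^ (q - 1) * ε, hsign, ?_, ?_⟩
  · rw [derivative_kronPoly_eval ζ hq.pos h]
    have : ∏ b ∈ Finset.Ico 1 q, (h - rot (ζ ^ b) h) =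
        (-1) ^ (q - 1) * ∏ b ∈ Finset.Ico 1 q, (rot (ζ ^ b) h - h) := by
      rw [← hcard, ← Finset.prod_const, ← Finset.prod_mul_distrib]
      exact Finset.prod_congr rfl fun b _ => by ring
    rw [this, hε]
    ring
  · rw [map_mul, map_pow, map_neg, map_one, hred]

end Fermat.Agent.S36.helper3919
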