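/-
S36-MID-INST, Layer A (helper3919): the generator of `p_mid` at a closed point of `C_mid`.

Setting.  `F` a field (the function field of level `q² M''`), `σ : F →+* L((t))` an expansion
(the mid-cusp expansion), `V_mid` the pull-back of the Gauss ring along `σ`
(`x ∈ V_mid ↔ σ x ∈ gaussRing A π`), `B ⊆ V_mid` a noetherian integrally closed subring of `F`
(a chart ring), `T ∈ B` with `σ T = X(ζ t) - X(t)` for an integral series `X`
(`ζ` a primitive `q`-th root of unity; `T = t(q² z) - t(z)`).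

* `exists_mul_eq_mul_of_mid` (A1, Krull): if `w / q ∈ V_mid`, `V_mid` is the local ring of `B` at
  its centre `p_mid`, and `p_mid` is the only height-one prime inside `P` containing `q`, then
  `s * w = q * b` with `s ∉ P`.
* `exists_twist_data` : for an integral series `X`: `X(ζ t) - X(t) = (ζ - 1) S`, `red S = θ X̄`,
  `(X(ζ t) - X(t)) ^ (q - 1) = q E`, `red E = -(θ X̄) ^ (q - 1)`  (from `helper3919_MidGauss`).
* `twist_mem_nonunits`, `twist_pow_eq` (A2): an element `T` of `F` with expansion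
  `X(ζ t) - X(t)` is a non-unit of `V_mid`, and `T ^ (q - 1) = q * w` with `w ∈ V_mid`, a unit of
  `V_mid` if `θ X̄ ≠ 0`.
* `mid_unif_of_unif`, `mid_unif_of_ord` : `T` generates the maximal ideal of `V_mid`, from a
  uniformiser of the same twist shape, resp. from a normalised order function with
  `ord q = q - 1`.
* `mid_generator_of_cert` (A3): the conclusion of (MID) at `P`, given the unit check `hcert`
  (`s * T ^ (q - 1) = q * b`, `s ∉ P` implies `b ∉ P`: `helper4118.mid_gauss_t4/_t9/_u4/_u9`).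
-/
import Mathlib
import Fermat.Agent.S18.helper8991_GaussInst
import Fermat.Agent.S36.helper3919_MidGauss
import Fermat.Agent.S36.helper6136_LPGeom
import Fermat.Agent.S36.helper1013_Vertical

set_option autoImplicit false

noncomputable section

namespace Fermat.Agent.S36.helper3919

open HahnSeries Finset ModularCurve
open Fermat.Agent.S18.helper8991
open Fermat.Agent.S28.helper328 (twist twist_coeff)
open Fermat.Agent.Lib.helper9242 (thetaFun thetaFun_coeff)
open Fermat.Agent.S36.helper6136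

/-! ## (A1) The Krull step -/

section Krull

variable {F : Type*} [Field F]

/-- `a` is a non-unit of the valuation subring `V` iff `a = 0` or `a⁻¹ ∉ V`. -/
theorem nonunits_iff_inv_notMem (V : ValuationSubring F) (a : F) :
    a ∈ V.nonunits ↔ a = 0 ∨ a⁻¹ ∉ V := by
  rw [ValuationSubring.mem_nonunits_iff]
  by_cases ha : a = 0
  · subst ha
    simp
  · have hva : V.valuation a ≠ 0 := (Valuation.ne_zero_iff _).mpr ha
    rw [← V.valuation_le_one_iff, map_inv₀, inv_le_one₀ (zero_lt_iff.mpr hva), not_le]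
    simp [ha]

/-- **Krull step.**  `B` a noetherian integrally closed subring of `F`, `P` a prime of `B`,
`p_mid` the only height-one prime inside `P` containing `q`, `V_mid` the local ring of `B` at
`p_mid`.  If `w / q ∈ V_mid` then `s * w = q * b` for some `s ∉ P`. -/
theorem exists_mul_eq_mul_of_mid (B : Subring F) [IsNoetherianRing B] [IsIntegrallyClosed B]
    (Vmid : ValuationSubring F) (pmid : Ideal B)
    (hloc_mid : ∀ y ∈ Vmid, ∃ a s : B, s ∉ pmid ∧ y * s = a)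
    (q : B) (hq0 : q ≠ 0) (P : Ideal B) [P.IsPrime]
    (hother : ∀ Q : Ideal B, Q.IsPrime → Q.height = 1 → Q ≤ P → q ∈ Q → Q = pmid)
    (w : B) (hw : (w : F) / (q : F) ∈ Vmid) :
    ∃ s b : B, s ∉ P ∧ s * w = q * b := by
  have hqF : (q : F) ≠ 0 := fun h => hq0 (Subtype.ext h)
  obtain ⟨s, hs, b, hb⟩ := exists_dvd_of_forall_height_one_le P (a := w) (b := q) hq0 (by
    intro Q hQ hQ1 hQP
    by_cases hqQ : q ∈ Q
    · have hQe := hother Q hQ hQ1 hQP hqQ
      obtain ⟨a, s, hs, h⟩ := hloc_mid _ hw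
      refine ⟨s, by rw [hQe]; exact hs, a, ?_⟩
      apply Subtype.ext
      rw [Subring.coe_mul, Subring.coe_mul, ← h]
      field_simp
    · exact ⟨q, hqQ, w, rfl⟩)
  exact ⟨s, b, hs, hb⟩

end Krull

/-! ## Non-units of a pull-back Gauss ring -/

section Red

variable {L : Type*} [Field L] (A : ValuationSubring L) {k : Type*} [Field k] (π : A →+* k)
variable {F : Type*} [Field F] (σ : F →+* LaurentSeries L)

/-- An element whose expansion is an integral series with zero reduction is a non-unit of the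
pull-back Gauss ring. -/
theorem mem_nonunits_of_inc (Vmid : ValuationSubring F)
    (hV : ∀ x : F, x ∈ Vmid ↔ σ x ∈ gaussRing A π) (x : F) (Y : LaurentSeries A)
    (h : σ x = inc A Y) (hY : red A π Y = 0) : x ∈ Vmid.nonunits := by
  rw [nonunits_iff_inv_notMem]
  by_cases hx : x = 0
  · exact Or.inl hx
  · right
    intro hinv
    rw [hV, map_inv₀, h] at hinv
    have hne : inc A Y ≠ 0 := by
      rw [← h]
      exact (map_ne_zero σ).mpr hx
    have h1 : gaussRho A π ⟨inc A Y, inc_mem_gaussRing A π Y⟩ *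
        gaussRho A π ⟨(inc A Y)⁻¹, hinv⟩ = 1 := by
      rw [← map_mul]
      have e : (⟨inc A Y, inc_mem_gaussRing A π Y⟩ : ↥(gaussRing A π)) * ⟨(inc A Y)⁻¹, hinv⟩
          = 1 := Subtype.ext (mul_inv_cancel₀ hne)
      rw [e, map_one]
    rw [gaussRho_inc, hY, zero_mul] at h1
    exact zero_ne_one h1

/-- An element of the pull-back Gauss ring with zero reduction is a non-unit. -/
theorem mem_nonunits_of_gaussRho_eq_zero (Vmid : ValuationSubring F)
    (hV : ∀ x : F, x ∈ Vmid ↔ σ x ∈ gaussRing A π) (x : F) (hx : σ x ∈ gaussRing A π)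
    (h0 : gaussRho A π ⟨σ x, hx⟩ = 0) : x ∈ Vmid.nonunits := by
  rw [nonunits_iff_inv_notMem]
  by_cases hx0 : x = 0
  · exact Or.inl hx0
  · right
    intro hinv
    rw [hV, map_inv₀] at hinv
    have h1 : gaussRho A π ⟨σ x, hx⟩ * gaussRho A π ⟨(σ x)⁻¹, hinv⟩ = 1 := by
      rw [← map_mul]
      have e : (⟨σ x, hx⟩ : ↥(gaussRing A π)) * ⟨(σ x)⁻¹, hinv⟩ = 1 :=
        Subtype.ext (mul_inv_cancel₀ ((map_ne_zero σ).mpr hx0))
      rw [e, map_one]
    rw [h0, zero_mul] at h1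
    exact zero_ne_one h1

/-- An integral series with nonzero reduction has its inverse in the Gauss ring. -/
theorem inv_inc_mem_gaussRing (Y : LaurentSeries A) (hY : red A π Y ≠ 0) :
    (inc A Y)⁻¹ ∈ gaussRing A π := by
  refine inv_mem_gaussRing_of_gaussRho_ne_zero A π ⟨inc A Y, inc_mem_gaussRing A π Y⟩ ?_
  rw [gaussRho_inc]
  exact hY

end Red

/-! ## Roots of unity in a valuation subring -/

section Zeta

variable {L : Type*} [Field L] (A : ValuationSubring L) {k : Type*} [Field k] (π : A →+* k)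

theorem mem_of_pow_eq_one {z : L} {n : ℕ} (hn : n ≠ 0) (hz : z ^ n = 1) : z ∈ A := by
  rcases A.mem_or_inv_mem z with h | h
  · exact h
  · have e : z = (z⁻¹) ^ (n - 1) := by
      rw [inv_pow]
      apply eq_inv_of_mul_eq_one_left
      rw [← pow_succ', Nat.sub_add_cancel (Nat.pos_of_ne_zero hn)]
      exact hz
    rw [e]
    exact pow_mem h _

/-- Every series has bounded-below support. -/
theorem exists_ordGE {R : Type*} [CommRing R] (x : LaurentSeries R) : ∃ N : ℤ, OrdGE N x :=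
  ⟨x.order, fun _ hn => HahnSeries.coeff_eq_zero_of_lt_order hn⟩

variable (q : ℕ) [Fact q.Prime] [CharP k q] (ζ : Lˣ) (hζ : IsPrimitiveRoot (ζ : L) q)

include hζ in
/-- A primitive `q`-th root of unity of `L` is a unit of `A`, is `1` in the residue field of
characteristic `q`, and is a root of `1 + X + ⋯ + X ^ (q - 1)`. -/
theorem exists_zetaA :
    ∃ ζA : Aˣ, (((ζA : A) : L) = (ζ : L)) ∧ π (ζA : A) = 1 ∧
      ∑ i ∈ range q, (ζA : A) ^ i = 0 := by
  have hq : q.Prime := Fact.out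
  have hz : (ζ : L) ^ q = 1 := hζ.pow_eq_one
  let ζ0 : A := ⟨(ζ : L), mem_of_pow_eq_one A hq.ne_zero hz⟩
  have hz0 : ζ0 ^ q = 1 := Subtype.ext (by
    show (ζ : L) ^ q = 1
    exact hz)
  have hu : IsUnit ζ0 := IsUnit.of_pow_eq_one hz0 hq.ne_zero
  refine ⟨hu.unit, ?_, ?_, ?_⟩
  · rw [IsUnit.unit_spec]
  · rw [IsUnit.unit_spec]
    have h1 : (π ζ0) ^ q = 1 := by rw [← map_pow, hz0, map_one]
    have h2 : (π ζ0 - 1) ^ q = 0 := by rw [sub_pow_char, h1, one_pow, sub_self]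
    exact sub_eq_zero.mp (pow_eq_zero_iff hq.ne_zero |>.mp h2)
  · rw [IsUnit.unit_spec]
    apply Subtype.ext
    have h3 := hζ.geom_sum_eq_zero hq.one_lt
    have h4 : A.subtype (∑ i ∈ range q, ζ0 ^ i) = ∑ i ∈ range q, (ζ : L) ^ i := by
      rw [map_sum]
      refine Finset.sum_congr rfl fun i _ => ?_
      rw [map_pow]
      rfl
    exact h4.trans h3

include hζ in
/-- **The twist data.**  For an integral series `X`: `X(ζ t) - X(t) = ι T₀` with
`T₀ = (ζ - 1) S`, `red S = θ X̄`, `T₀ ^ (q - 1) = q E`, `red E = -(θ X̄) ^ (q - 1)`. -/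
theorem exists_twist_data (X : LaurentSeries A) :
    ∃ (c : A) (T₀ S E : LaurentSeries A),
      ((c : L) = (ζ : L) - 1) ∧ π c = 0 ∧
      twist ζ (inc A X) - inc A X = inc A T₀ ∧
      T₀ = HahnSeries.C c * S ∧
      red A π S = thetaFun k (red A π X) ∧
      T₀ ^ (q - 1) = HahnSeries.C ((q : ℕ) : A) * E ∧
      red A π E = -(thetaFun k (red A π X)) ^ (q - 1) := by
  obtain ⟨ζA, hζA, hπ, hsum⟩ := exists_zetaA A π q ζ hζ
  have hq : q.Prime := Fact.out
  have hu : Units.map (A.subtype : A →* L) ζA = ζ := Units.ext hζA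
  have htw : twist ζ (inc A X) = inc A (twist ζA X) := by
    rw [← hu]
    exact (coeffMap_twist A.subtype ζA X).symm
  obtain ⟨N, hN⟩ := exists_ordGE X
  obtain ⟨E, -, hE, hEr⟩ := exists_twist_sub_self_pow_red hq ζA hsum X hN π hπ
  refine ⟨(ζA : A) - 1, twist ζA X - X, dq ζA X, E, ?_, ?_, ?_, twist_sub_self ζA X, ?_, hE, hEr⟩
  · rw [← hζA]
    rfl
  · rw [map_sub, hπ, map_one, sub_self]
  · rw [htw, map_sub]
  · rw [dq_eq_theta_add, map_add, map_mul, red_C, map_sub, hπ, map_one, sub_self, map_zero,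
      zero_mul, add_zero]
    exact (Fermat.Agent.Lib.helper9242.thetaFun_map _ π X).symm

end Zeta

/-! ## (A2) The element `T` with expansion `X(ζ t) - X(t)` -/

section Main

variable {L : Type*} [Field L] (A : ValuationSubring L) {k : Type*} [Field k] (π : A →+* k)
variable {F : Type*} [Field F] (σ : F →+* LaurentSeries L)
variable (q : ℕ) [Fact q.Prime] [CharP k q] (ζ : Lˣ) (hζ : IsPrimitiveRoot (ζ : L) q)

omit [Fact q.Prime] [CharP k q] in
theorem sigma_natCast : σ ((q : ℕ) : F) = HahnSeries.C ((q : ℕ) : L) := by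
  rw [map_natCast, map_natCast]

omit [Fact q.Prime] [CharP k q] in
theorem inc_C_natCast : inc A (HahnSeries.C ((q : ℕ) : A)) = HahnSeries.C ((q : ℕ) : L) := by
  rw [inc_C]
  simp

include hζ in
/-- `T` is a non-unit of `V_mid`. -/
theorem twist_mem_nonunits (Vmid : ValuationSubring F)
    (hV : ∀ x : F, x ∈ Vmid ↔ σ x ∈ gaussRing A π)
    (X : LaurentSeries A) (T : F) (hT : σ T = twist ζ (inc A X) - inc A X) :
    T ∈ Vmid.nonunits := by
  obtain ⟨c, T₀, S, E, hc, hπc, hT₀, hT₀S, hS, hE, hEr⟩ := exists_twist_data A π q ζ hζ X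
  refine mem_nonunits_of_inc A π σ Vmid hV T T₀ (by rw [hT, hT₀]) ?_
  rw [hT₀S, map_mul, red_C, hπc, map_zero, zero_mul]

include hζ in
/-- **The unit `T ^ (q - 1) / q` of `V_mid`**: `T ^ (q - 1) = q * w` with `σ w` in the Gauss
ring, and `w` a unit of `V_mid` if `θ X̄ ≠ 0`. -/
theorem twist_pow_eq (X : LaurentSeries A) (T : F) (hT : σ T = twist ζ (inc A X) - inc A X)
    (hqF : (q : F) ≠ 0) :
    ∃ w : F, T ^ (q - 1) = (q : F) * w ∧ σ w ∈ gaussRing A π ∧
      (thetaFun k (red A π X) ≠ 0 → w ≠ 0 ∧ σ w⁻¹ ∈ gaussRing A π) := by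
  obtain ⟨c, T₀, S, E, hc, hπc, hT₀, hT₀S, hS, hE, hEr⟩ := exists_twist_data A π q ζ hζ X
  have hσT : σ T = inc A T₀ := by rw [hT, hT₀]
  have hσw : σ (T ^ (q - 1) / (q : F)) = inc A E := by
    have hqL : σ (q : F) ≠ 0 := (map_ne_zero σ).mpr hqF
    rw [map_div₀, div_eq_iff hqL, map_pow, hσT, ← map_pow, hE, map_mul, inc_C_natCast A q,
      sigma_natCast σ q]
    ring
  refine ⟨T ^ (q - 1) / (q : F), by field_simp, ?_, ?_⟩
  · rw [hσw]
    exact inc_mem_gaussRing A π E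
  · intro hθ
    have hEne : red A π E ≠ 0 := by
      rw [hEr]
      exact neg_ne_zero.mpr (pow_ne_zero _ hθ)
    refine ⟨?_, ?_⟩
    · intro h0
      rw [h0, map_zero] at hσw
      exact inc_ne_zero A π hEne hσw.symm
    · rw [map_inv₀, hσw]
      exact inv_inc_mem_gaussRing A π E hEne

include hζ in
/-- **`T` is a uniformiser of `V_mid`, from a uniformiser of the same shape.**  If `T₁` with
`σ T₁ = X₁(ζ t) - X₁(t)` (`X₁` any integral series, e.g. `j`) generates the maximal ideal of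
`V_mid`, then so does `T` with `σ T = X(ζ t) - X(t)`, provided `θ X̄ ≠ 0`. -/
theorem mid_unif_of_unif (Vmid : ValuationSubring F)
    (hV : ∀ x : F, x ∈ Vmid ↔ σ x ∈ gaussRing A π)
    (X₁ : LaurentSeries A) (T₁ : F) (hT₁ : σ T₁ = twist ζ (inc A X₁) - inc A X₁)
    (hunif₁ : ∀ y ∈ Vmid.nonunits, ∃ z ∈ Vmid, y = T₁ * z)
    (X : LaurentSeries A) (T : F) (hT : σ T = twist ζ (inc A X) - inc A X)
    (hθ : thetaFun k (red A π X) ≠ 0) :
    ∀ y ∈ Vmid.nonunits, ∃ z ∈ Vmid, y = T * z := by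
  obtain ⟨c, T₀, S, E, hc, hπc, hT₀, hT₀S, hS, hE, hEr⟩ := exists_twist_data A π q ζ hζ X
  obtain ⟨c₁, T₀₁, S₁, E₁, hc₁, -, hT₀₁, hT₀S₁, -, -, -⟩ := exists_twist_data A π q ζ hζ X₁
  have hq : q.Prime := Fact.out
  have hζ1 : (ζ : L) - 1 ≠ 0 := sub_ne_zero.mpr (hζ.ne_one hq.one_lt)
  have hCc : (HahnSeries.C ((ζ : L) - 1) : LaurentSeries L) ≠ 0 := by
    intro h0
    exact hζ1 (HahnSeries.C_injective (by rw [h0, map_zero]))
  have hσT : σ T = HahnSeries.C ((ζ : L) - 1) * inc A S := by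
    rw [hT, hT₀, hT₀S, map_mul, inc_C, hc]
  have hσT₁ : σ T₁ = HahnSeries.C ((ζ : L) - 1) * inc A S₁ := by
    rw [hT₁, hT₀₁, hT₀S₁, map_mul, inc_C, hc₁]
  have hSne : red A π S ≠ 0 := by
    rw [hS]
    exact hθ
  have hSinv : (inc A S)⁻¹ ∈ gaussRing A π := inv_inc_mem_gaussRing A π S hSne
  have hS0 : inc A S ≠ 0 := inc_ne_zero A π hSne
  have hT0 : T ≠ 0 := by
    intro h0
    have h1 : σ T = 0 := by rw [h0, map_zero]
    rw [hσT] at h1
    rcases mul_eq_zero.mp h1 with h | h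
    · exact hCc h
    · exact hS0 h
  intro y hy
  obtain ⟨z, hz, hyz⟩ := hunif₁ y hy
  refine ⟨y / T, ?_, by field_simp⟩
  rw [hV, map_div₀, hyz, map_mul, hσT, hσT₁]
  have e : HahnSeries.C ((ζ : L) - 1) * inc A S₁ * σ z / (HahnSeries.C ((ζ : L) - 1) * inc A S)
      = inc A S₁ * σ z * (inc A S)⁻¹ := by
    field_simp
  rw [e]
  exact Subring.mul_mem _ (Subring.mul_mem _ (inc_mem_gaussRing A π S₁) ((hV z).mp hz)) hSinv

include hζ in
/-- **`T` is a uniformiser of `V_mid`, from a normalised order function** with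
`ord q = q - 1` (the fields `ord 1`, `hord 1`, `mem_V 1`, `ord_q1` of `KillData`). -/
theorem mid_unif_of_ord (Vmid : ValuationSubring F)
    (hV : ∀ x : F, x ∈ Vmid ↔ σ x ∈ gaussRing A π)
    (ord : F → ℤ) (hord : helper1013.IsOrd ord)
    (hmem : ∀ y : F, y ≠ 0 → (y ∈ Vmid ↔ 0 ≤ ord y))
    (hq1 : ord (q : F) = (q : ℤ) - 1)
    (X : LaurentSeries A) (T : F) (hT : σ T = twist ζ (inc A X) - inc A X)
    (hqF : (q : F) ≠ 0) (hθ : thetaFun k (red A π X) ≠ 0) :
    ∀ y ∈ Vmid.nonunits, ∃ z ∈ Vmid, y = T * z := by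
  have hq : q.Prime := Fact.out
  have hq1' : q - 1 ≠ 0 := Nat.sub_ne_zero_of_lt hq.one_lt
  obtain ⟨w, hw, hw1, hw2⟩ := twist_pow_eq A π σ q ζ hζ X T hT hqF
  obtain ⟨hw0, hw2⟩ := hw2 hθ
  have hordw : ord w = 0 := by
    have h1 : 0 ≤ ord w := (hmem w hw0).mp ((hV w).mpr hw1)
    have h2 : 0 ≤ ord w⁻¹ := (hmem _ (inv_ne_zero hw0)).mp ((hV _).mpr hw2)
    rw [hord.map_inv hw0] at h2
    omega
  have hT0 : T ≠ 0 := by
    intro h0
    have h1 : T ^ (q - 1) = 0 := by rw [h0, zero_pow hq1']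
    rw [hw] at h1
    rcases mul_eq_zero.mp h1 with h | h
    · exact hqF h
    · exact hw0 h
  have hordT : ord T = 1 := by
    have h1 := congrArg ord hw
    rw [hord.map_pow hT0, hord.map_mul _ _ hqF hw0, hq1, hordw, add_zero] at h1
    have hq2 : (2 : ℤ) ≤ (q : ℤ) := by exact_mod_cast hq.two_le
    have h3 : ((q - 1 : ℕ) : ℤ) = (q : ℤ) - 1 := by
      rw [Nat.cast_sub hq.one_lt.le]
      simp
    rw [h3] at h1
    have h4 : ((q : ℤ) - 1) * (ord T - 1) = 0 := by linarith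
    rcases mul_eq_zero.mp h4 with h | h
    · omega
    · omega
  intro y hy
  by_cases hy0 : y = 0
  · exact ⟨0, Vmid.zero_mem, by rw [hy0, mul_zero]⟩
  · rw [nonunits_iff_inv_notMem] at hy
    have hyinv : y⁻¹ ∉ Vmid := hy.resolve_left hy0
    rw [hmem _ (inv_ne_zero hy0), hord.map_inv hy0] at hyinv
    refine ⟨y / T, ?_, by field_simp⟩
    rw [hmem _ (div_ne_zero hy0 hT0), hord.map_div hy0 hT0, hordT]
    omega

/-! ## (A3) The conclusion of (MID) at `P` -/

include hζ in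
/-- **(MID) at a closed point of `C_mid`, core form.**  `B` a noetherian integrally closed
subring of `F` inside `V_mid`, `p_mid` the centre of `V_mid` on `B`, `P` a prime of `B` such that
`p_mid` is the only height-one prime inside `P` containing `q`; `T ∈ B` with expansion
`X(ζ t) - X(t)` a uniformiser of `V_mid`; `hcert` the unit check at `P`
(`helper4118.mid_gauss_t4` etc.).  Then `T` generates `p_mid` at `p_mid` and
`T ^ (q - 1) ∣ s * q` with `s ∉ P`. -/
theorem mid_generator_of_cert (B : Subring F) [IsNoetherianRing B] [IsIntegrallyClosed B]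
    (Vmid : ValuationSubring F) (hV : ∀ x : F, x ∈ Vmid ↔ σ x ∈ gaussRing A π)
    (pmid : Ideal B) (hpmid : ∀ b : B, b ∈ pmid ↔ (b : F) ∈ Vmid.nonunits)
    (hloc_mid : ∀ y ∈ Vmid, ∃ a s : B, (s : F) ∉ Vmid.nonunits ∧ y * s = a)
    (hq0 : (q : B) ≠ 0) (P : Ideal B) [P.IsPrime]
    (hother : ∀ Q : Ideal B, Q.IsPrime → Q.height = 1 → Q ≤ P → (q : B) ∈ Q → Q = pmid)
    (X : LaurentSeries A) (T : B) (hT : σ (T : F) = twist ζ (inc A X) - inc A X)
    (hunif : ∀ y ∈ Vmid.nonunits, ∃ z ∈ Vmid, y = (T : F) * z)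
    (hcert : ∀ s b : B, s ∉ P → s * T ^ (q - 1) = (q : B) * b → b ∉ P) :
    ∃ T ∈ pmid, T ≠ 0 ∧ (∃ m : ℕ, m ≠ 0 ∧ ∃ s, s ∉ P ∧ T ^ m ∣ s * (q : B)) ∧
      ∀ a ∈ pmid, ∃ s, s ∉ pmid ∧ T ∣ s * a := by
  have hq : q.Prime := Fact.out
  have hq1 : q - 1 ≠ 0 := Nat.sub_ne_zero_of_lt hq.one_lt
  have hqF : (q : F) ≠ 0 := by
    intro h0
    apply hq0
    apply Subtype.ext
    rw [Subring.coe_natCast, h0, Subring.coe_zero]
  obtain ⟨w, hw, hw1, -⟩ := twist_pow_eq A π σ q ζ hζ X (T : F) hT hqF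
  have hTmid : T ∈ pmid :=
    (hpmid _).mpr (twist_mem_nonunits A π σ q ζ hζ Vmid hV X (T : F) hT)
  have hloc' : ∀ y ∈ Vmid, ∃ a s : B, s ∉ pmid ∧ y * s = a := by
    intro y hy
    obtain ⟨a, s, hs, h⟩ := hloc_mid y hy
    exact ⟨a, s, fun hsp => hs ((hpmid s).mp hsp), h⟩
  have hwV : ((T ^ (q - 1) : B) : F) / (((q : B) : F)) ∈ Vmid := by
    rw [hV, Subring.coe_pow, Subring.coe_natCast, hw, mul_div_cancel_left₀ _ hqF]
    exact hw1
  obtain ⟨s, b, hs, hsb⟩ := exists_mul_eq_mul_of_mid B Vmid pmid hloc' (q : B) hq0 P hother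
    (T ^ (q - 1)) hwV
  have hb : b ∉ P := hcert s b hs hsb
  have hT0 : T ≠ 0 := by
    intro h0
    rw [h0, zero_pow hq1, mul_zero] at hsb
    rcases mul_eq_zero.mp hsb.symm with h | h
    · exact hq0 h
    · exact hb (h ▸ P.zero_mem)
  refine ⟨T, hTmid, hT0, ⟨q - 1, hq1, b, hb, s, ?_⟩, ?_⟩
  · rw [mul_comm b, ← hsb, mul_comm]
  · intro a ha
    obtain ⟨z, hz, haz⟩ := hunif (a : F) ((hpmid a).mp ha)
    obtain ⟨a', s', hs', h⟩ := hloc' z hz
    refine ⟨s', hs', a', ?_⟩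
    apply Subtype.ext
    rw [Subring.coe_mul, Subring.coe_mul, haz, ← h]
    ring

end Main

end Fermat.Agent.S36.helper3919
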