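import Fermat.Agent.S36.helper5460_DeltaUnit
import Fermat.Agent.S28.helper1603_Main
import Fermat.Agent.S18.helper208_CertR

/-!
# S36-F2-UNIT, part 3 (helper5460): `Δ(q^d)/Δ(q)` and its inverse are integral over `ℚ̄[j]`

For every `d ∣ N` the element `deltaQuot N d hd = Δ(q^d)/Δ(q)` of the function field `F_N` and
its inverse are integral over `ℚ̄[j] = Algebra.adjoin Kbar {jBar N}`: they are units of the
integral closure of `ℚ̄[j]`, i.e. they have neither zero nor pole away from the cusps.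

Proof: the landed S28 coset polynomial of an eta quotient (`helper1603.coset_factorisation` +
`exists_exp_conj`) is a monic polynomial over `ℂ[j]` killing the formal eta quotient; a `ℚ`-linear
retraction `ℂ → ℚ` makes its coefficients rational (`S18.helper20.descend_monic`).
-/

set_option autoImplicit false

open Complex UpperHalfPlane ModularCurve CongruenceSubgroup
open scoped MatrixGroups

noncomputable section

namespace Fermat.Agent.S36.helper5460

open Fermat.Agent.S24.helper24 Fermat.Agent.S24.helper504 Fermat.Agent.S24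
open Fermat.Agent.S28.helper4768 (DeltaL DeltaQ ofPS toC)
open Fermat.Agent.S28.helper2908 (DeltaC)
open Fermat.Agent.S28.helper1603 (etaW toT deltaZ deltaUnit qE)
open Fermat.Agent.S28.helper407 (etaQuot)
open Polynomial

/-! ## Step 1: the coset polynomial kills the eta quotient -/

/-- The coset polynomial of an eta quotient `∏ Δ(δτ)^(r δ)`, `∑ r = 0`, is monic over `ℂ[j]` and
kills the formal eta quotient (in the variable `t = q^(1/N)`). -/
theorem exists_monic_toT_etaW (N : ℕ) [NeZero N] (r : ℕ → ℤ)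
    (hr : ∑ δ ∈ N.divisors, r δ = 0) :
    ∃ χ : Polynomial (Polynomial ℂ), χ.Monic ∧
      χ.eval₂ (Polynomial.aeval (jqNModC ℂ N)).toRingHom
        (toT N (etaW N r : LaurentSeries ℤ)) = 0 := by
  classical
  have : Fintype (SL(2, ℤ) ⧸ Gamma0 N) := Fintype.ofFinite _
  choose E hE _ using fun g : SL(2, ℤ) =>
    Fermat.Agent.S28.helper1603.exists_exp_conj (N := N) r hr g
  have hinv : ∀ g ∈ Gamma0 N, ∀ τ : ℍ, etaQuot N r (g • τ) = etaQuot N r τ :=
    fun g hg τ => Fermat.Agent.S28.helper407.etaQuot_smul_of_mem_Gamma0 N r hr hg τ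
  obtain ⟨χ, hχm, -, hχ⟩ :=
    Fermat.Agent.S28.helper1603.coset_factorisation N (etaQuot N r) hinv E hE
  refine ⟨χ, hχm, ?_⟩
  rw [← Polynomial.eval_map, hχ, Polynomial.eval_prod]
  let x₀ : SL(2, ℤ) ⧸ Gamma0 N := ((1 : SL(2, ℤ)) : SL(2, ℤ) ⧸ Gamma0 N)
  refine Finset.prod_eq_zero (Finset.mem_univ x₀) ?_
  have hmem : (Quotient.out x₀ : SL(2, ℤ))⁻¹ ∈ Gamma0 N := by
    have h1 : ((Quotient.out x₀ : SL(2, ℤ)) : SL(2, ℤ) ⧸ Gamma0 N) =
        ((1 : SL(2, ℤ)) : SL(2, ℤ) ⧸ Gamma0 N) := QuotientGroup.out_eq' x₀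
    rw [QuotientGroup.eq] at h1
    simpa using h1
  have h2 : Fermat.Agent.S28.helper1603.HasExp N (etaQuot N r)
      (E (Quotient.out x₀ : SL(2, ℤ))⁻¹) := by
    have := hE (Quotient.out x₀ : SL(2, ℤ))⁻¹
    convert this using 1
    funext τ
    exact (hinv _ hmem τ).symm
  have h3 := h2.unique (Fermat.Agent.S28.helper1603.unitPair_etaQuot N r).1
  rw [Polynomial.eval_sub, Polynomial.eval_X, Polynomial.eval_C, h3, sub_self]

/-- `qExpand` commutes with the evaluation of a two-variable polynomial. -/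
theorem qExpand_eval₂ (N : ℕ) [NeZero N] (j w : LaurentSeries ℂ)
    (χ : Polynomial (Polynomial ℂ)) :
    qExpand ℂ N (χ.eval₂ (Polynomial.aeval j).toRingHom w) =
      χ.eval₂ (Polynomial.aeval (qExpand ℂ N j)).toRingHom (qExpand ℂ N w) := by
  rw [Polynomial.hom_eval₂]
  congr 1
  refine Polynomial.ringHom_ext (fun c => ?_) ?_
  · show qExpand ℂ N (Polynomial.aeval j (Polynomial.C c)) =
      Polynomial.aeval (qExpand ℂ N j) (Polynomial.C c)
    rw [Polynomial.aeval_C, Polynomial.aeval_C, algebraMap_laurentSeries_eq_single,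
      qExpand_single, mul_zero]
  · show qExpand ℂ N (Polynomial.aeval j Polynomial.X) =
      Polynomial.aeval (qExpand ℂ N j) Polynomial.X
    rw [Polynomial.aeval_X, Polynomial.aeval_X]

/-- The relation in the variable `q`. -/
theorem exists_monic_etaW (N : ℕ) [NeZero N] (r : ℕ → ℤ)
    (hr : ∑ δ ∈ N.divisors, r δ = 0) :
    ∃ χ : Polynomial (Polynomial ℂ), χ.Monic ∧
      χ.eval₂ (Polynomial.aeval (jqModC ℂ)).toRingHom
        (coeffMap (Int.castRingHom ℂ) (etaW N r : LaurentSeries ℤ)) = 0 := by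
  obtain ⟨χ, hm, h⟩ := exists_monic_toT_etaW N r hr
  refine ⟨χ, hm, qExpand_injective (R := ℂ) N ?_⟩
  rw [qExpand_eval₂, map_zero]
  exact h

/-! ## Step 2: descent of the coefficients to `ℚ` -/

/-- Descent of a monic two-variable relation from `ℂ[j]` to `ℚ[j]`, for a series with rational
coefficients. -/
theorem descend_eval₂ (x : LaurentSeries ℚ) (χ : Polynomial (Polynomial ℂ)) (hχ : χ.Monic)
    (h : χ.eval₂ (Polynomial.aeval (jqModC ℂ)).toRingHom (coeffMap (algebraMap ℚ ℂ) x) = 0) :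
    ∃ χ' : Polynomial (Polynomial ℚ), χ'.Monic ∧
      χ'.eval₂ (Polynomial.aeval jq).toRingHom x = 0 := by
  set n := χ.natDegree with hn
  set X' := coeffMap (algebraMap ℚ ℂ) x with hX'
  have h1 : X' ^ n + ∑ i : Fin n,
      Polynomial.aeval (jqModC ℂ) (χ.coeff (n - 1 - (i : ℕ))) * X' ^ (n - 1 - (i : ℕ)) = 0 := by
    rw [Polynomial.eval₂_eq_sum_range, ← hn, Finset.sum_range_succ] at h
    have hlead : χ.coeff n = 1 := hχ.coeff_natDegree
    rw [hlead, map_one, one_mul] at h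
    rw [Fin.sum_univ_eq_sum_range
      (fun i => Polynomial.aeval (jqModC ℂ) (χ.coeff (n - 1 - i)) * X' ^ (n - 1 - i)) n,
      Finset.sum_range_reflect (fun j => Polynomial.aeval (jqModC ℂ) (χ.coeff j) * X' ^ j) n,
      add_comm]
    exact h
  obtain ⟨P', -, hrel⟩ := Fermat.Agent.S18.helper20.descend_monic x n _ h1
  refine ⟨X ^ n + ∑ i : Fin n, C (P' i) * X ^ (n - 1 - (i : ℕ)), ?_, ?_⟩
  · apply Polynomial.monic_X_pow_add
    refine lt_of_le_of_lt (Polynomial.degree_sum_le _ _) ?_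
    refine (Finset.sup_lt_iff (WithBot.bot_lt_coe n)).mpr fun i _ => ?_
    have hi : n - 1 - (i : ℕ) < n := by
      have := i.2
      omega
    exact lt_of_le_of_lt (Polynomial.degree_C_mul_X_pow_le _ _) (WithBot.coe_lt_coe.mpr hi)
  · rw [Polynomial.eval₂_add, Polynomial.eval₂_pow, Polynomial.eval₂_X,
      Polynomial.eval₂_finsetSum, ← hrel]
    congr 1
    refine Finset.sum_congr rfl fun i _ => ?_
    rw [Polynomial.eval₂_mul, Polynomial.eval₂_C, Polynomial.eval₂_pow, Polynomial.eval₂_X]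
    rfl

/-! ## Step 3: from a rational relation to integrality in the function field -/

/-- An element of `F_N` whose `q`-expansion is a rational series killed by a monic polynomial
over `ℚ[j]` is integral over `ℚ̄[j]`. -/
theorem isIntegral_of_rat_relation (N : ℕ) [NeZero N] (x : LaurentSeries ℚ) (u : FN N)
    (hu : (u : LaurentSeries Kbar) = coeffEmb Kbar x)
    (χ' : Polynomial (Polynomial ℚ)) (hχ' : χ'.Monic)
    (h : χ'.eval₂ (Polynomial.aeval jq).toRingHom x = 0) :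
    IsIntegral (Algebra.adjoin Kbar {jBar N}) u := by
  refine Fermat.Agent.S18.helper208.isIntegral_adjoin_of_eval₂ (jBar N) u
    (χ'.map (Polynomial.mapRingHom (algebraMap ℚ Kbar))) (hχ'.map _) ?_
  have hinj : Function.Injective
      ((modularFunctionFieldBar N).val : FN N →+* LaurentSeries Kbar) := Subtype.val_injective
  apply hinj
  rw [Polynomial.hom_eval₂, Polynomial.eval₂_map, map_zero]
  have h2 := congrArg (coeffEmb Kbar) h
  rw [Polynomial.hom_eval₂, map_zero] at h2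
  rw [← h2]
  have hhom : (((modularFunctionFieldBar N).val : FN N →+* LaurentSeries Kbar).comp
      (Polynomial.aeval (jBar N)).toRingHom).comp (Polynomial.mapRingHom (algebraMap ℚ Kbar)) =
      (coeffEmb Kbar).comp (Polynomial.aeval jq).toRingHom := by
    refine Polynomial.ringHom_ext (fun c => ?_) ?_
    · show ((Polynomial.aeval (jBar N) ((Polynomial.C c).map (algebraMap ℚ Kbar)) : FN N) :
        LaurentSeries Kbar) = coeffEmb Kbar (Polynomial.aeval jq (Polynomial.C c))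
      rw [Polynomial.map_C, Polynomial.aeval_C, Polynomial.aeval_C]
      have h3 : ((algebraMap Kbar (FN N) (algebraMap ℚ Kbar c) : FN N) : LaurentSeries Kbar)
          = algebraMap Kbar (LaurentSeries Kbar) (algebraMap ℚ Kbar c) := rfl
      rw [h3, algebraMap_laurentSeries_eq_single, algebraMap_laurentSeries_eq_single, coeffEmb,
        coeffMap_single]
    · show ((Polynomial.aeval (jBar N) ((Polynomial.X : Polynomial ℚ).map (algebraMap ℚ Kbar)) :
        FN N) : LaurentSeries Kbar) = coeffEmb Kbar (Polynomial.aeval jq Polynomial.X)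
      rw [Polynomial.map_X, Polynomial.aeval_X, Polynomial.aeval_X, coe_jBar]
  rw [hhom]
  congr 1

/-! ## Step 4: the eta quotient `Δ(q^d)/Δ(q)` -/

/-- The exponent vector of `Δ(dτ)/Δ(τ)`. -/
def deltaExp (d : ℕ) (δ : ℕ) : ℤ := (if δ = d then 1 else 0) - (if δ = 1 then 1 else 0)

theorem sum_deltaExp (N d : ℕ) [NeZero N] (hd : d ∣ N) :
    ∑ δ ∈ N.divisors, deltaExp d δ = 0 := by
  unfold deltaExp
  rw [Finset.sum_sub_distrib, Finset.sum_ite_eq', Finset.sum_ite_eq',
    if_pos (Nat.mem_divisors.mpr ⟨hd, NeZero.ne N⟩),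
    if_pos (Nat.mem_divisors.mpr ⟨one_dvd N, NeZero.ne N⟩), sub_self]

theorem prod_zpow_deltaExp {K : Type*} [Field K] (s : Finset ℕ) (Y : ℕ → K)
    (hY : ∀ δ ∈ s, Y δ ≠ 0) {d : ℕ} (hd : d ∈ s) (h1 : 1 ∈ s) :
    ∏ δ ∈ s, Y δ ^ deltaExp d δ = Y d / Y 1 := by
  have e1 : ∀ a ∈ s, ∏ δ ∈ s, Y δ ^ (if δ = a then (1 : ℤ) else 0) = Y a := by
    intro a ha
    rw [Finset.prod_eq_single a]
    · simp
    · intro b _ hb
      simp [hb]
    · intro h
      exact absurd ha h
  calc ∏ δ ∈ s, Y δ ^ deltaExp d δ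
      = ∏ δ ∈ s, (Y δ ^ (if δ = d then (1 : ℤ) else 0) / Y δ ^ (if δ = 1 then (1 : ℤ) else 0)) :=
        Finset.prod_congr rfl fun δ hδ => by rw [deltaExp, zpow_sub₀ (hY δ hδ)]
    _ = Y d / Y 1 := by rw [Finset.prod_div_distrib, e1 d hd, e1 1 h1]

theorem coeffMap_deltaZ_eq : coeffMap (Int.castRingHom ℂ) deltaZ = DeltaC := by
  rw [deltaZ, map_mul, coeffMap_single, coeffMap_ofPowerSeries, map_one, DeltaC, map_mul,
    HahnSeries.ofPowerSeries_X]
  rfl

theorem coeffMap_qE_deltaUnit (δ : ℕ) (hδ : δ ≠ 0) :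
    coeffMap (Int.castRingHom ℂ)
      ((Units.map (qE ℤ δ : LaurentSeries ℤ →* LaurentSeries ℤ) deltaUnit : (LaurentSeries ℤ)ˣ) :
        LaurentSeries ℤ) = Fermat.Agent.S28.helper2908.qExp' ℂ δ DeltaC := by
  have : NeZero δ := ⟨hδ⟩
  show coeffMap (Int.castRingHom ℂ) (qE ℤ δ deltaZ) = _
  rw [Fermat.Agent.S28.helper1603.qE_eq, Fermat.Agent.S28.helper2908.qExp'_eq, coeffMap_qExpand,
    coeffMap_deltaZ_eq]

theorem coeffEmb_deltaQuotQ (d : ℕ) [NeZero d] :
    coeffEmb ℂ (deltaQuotQ d) = qExpand ℂ d DeltaC / DeltaC := by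
  rw [deltaQuotQ, map_div₀, helper3176.coeffEmb_qExpand, coeffEmb_DeltaL]

theorem qExp'_DeltaC_ne_zero (δ : ℕ) (hδ : δ ≠ 0) :
    Fermat.Agent.S28.helper2908.qExp' ℂ δ DeltaC ≠ 0 := by
  have : NeZero δ := ⟨hδ⟩
  rw [Fermat.Agent.S28.helper2908.qExp'_eq]
  intro h0
  exact Fermat.Agent.S28.helper2908.DeltaC_ne_zero
    (qExpand_injective (R := ℂ) δ (by rw [h0, map_zero]))

theorem coeffMap_etaW_deltaExp (N d : ℕ) [NeZero N] [NeZero d] (hd : d ∣ N) :
    coeffMap (Int.castRingHom ℂ) (etaW N (deltaExp d) : LaurentSeries ℤ) =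
      coeffMap (algebraMap ℚ ℂ) (deltaQuotQ d) := by
  have hdm : d ∈ N.divisors := Nat.mem_divisors.mpr ⟨hd, NeZero.ne N⟩
  have h1m : 1 ∈ N.divisors := Nat.mem_divisors.mpr ⟨one_dvd N, NeZero.ne N⟩
  rw [etaW, Fermat.Agent.S28.helper1603.map_units_prod_zpow,
    Finset.prod_congr rfl (fun δ hδ => by
      rw [coeffMap_qE_deltaUnit δ (Nat.pos_of_mem_divisors hδ).ne']),
    prod_zpow_deltaExp N.divisors (fun δ => Fermat.Agent.S28.helper2908.qExp' ℂ δ DeltaC)
      (fun δ hδ => qExp'_DeltaC_ne_zero δ (Nat.pos_of_mem_divisors hδ).ne') hdm h1m,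
    Fermat.Agent.S28.helper2908.qExp'_eq, Fermat.Agent.S28.helper2908.qExp'_eq,
    qExpand_one_apply]
  exact (coeffEmb_deltaQuotQ d).symm

theorem coeffMap_etaW_neg_deltaExp (N d : ℕ) [NeZero N] [NeZero d] (hd : d ∣ N) :
    coeffMap (Int.castRingHom ℂ) (etaW N (fun δ => -deltaExp d δ) : LaurentSeries ℤ) =
      coeffMap (algebraMap ℚ ℂ) (deltaQuotQ d)⁻¹ := by
  have hdm : d ∈ N.divisors := Nat.mem_divisors.mpr ⟨hd, NeZero.ne N⟩
  have h1m : 1 ∈ N.divisors := Nat.mem_divisors.mpr ⟨one_dvd N, NeZero.ne N⟩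
  rw [etaW, Fermat.Agent.S28.helper1603.map_units_prod_zpow,
    Finset.prod_congr rfl (fun δ hδ => by
      rw [coeffMap_qE_deltaUnit δ (Nat.pos_of_mem_divisors hδ).ne', zpow_neg]),
    Finset.prod_inv_distrib,
    prod_zpow_deltaExp N.divisors (fun δ => Fermat.Agent.S28.helper2908.qExp' ℂ δ DeltaC)
      (fun δ hδ => qExp'_DeltaC_ne_zero δ (Nat.pos_of_mem_divisors hδ).ne') hdm h1m,
    Fermat.Agent.S28.helper2908.qExp'_eq, Fermat.Agent.S28.helper2908.qExp'_eq,
    qExpand_one_apply, map_inv₀]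
  congr 1
  exact (coeffEmb_deltaQuotQ d).symm

/-! ## The theorems -/

/-- **`Δ(q^d)/Δ(q)` is integral over `ℚ̄[j]`**, for every `d ∣ N`. -/
theorem isIntegral_deltaQuot (N d : ℕ) [NeZero N] [NeZero d] (hd : d ∣ N) :
    IsIntegral (Algebra.adjoin Kbar {jBar N}) (deltaQuot N d hd) := by
  obtain ⟨χ, hm, h⟩ := exists_monic_etaW N (deltaExp d) (sum_deltaExp N d hd)
  rw [coeffMap_etaW_deltaExp N d hd] at h
  obtain ⟨χ', hm', h'⟩ := descend_eval₂ (deltaQuotQ d) χ hm h
  exact isIntegral_of_rat_relation N (deltaQuotQ d) _ (coe_deltaQuot N d hd) χ' hm' h'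

/-- **`Δ(q)/Δ(q^d)` is integral over `ℚ̄[j]`**, for every `d ∣ N`. -/
theorem isIntegral_deltaQuot_inv (N d : ℕ) [NeZero N] [NeZero d] (hd : d ∣ N) :
    IsIntegral (Algebra.adjoin Kbar {jBar N}) (deltaQuot N d hd)⁻¹ := by
  obtain ⟨χ, hm, h⟩ := exists_monic_etaW N (fun δ => -deltaExp d δ)
    (by rw [Finset.sum_neg_distrib, sum_deltaExp N d hd, neg_zero])
  rw [coeffMap_etaW_neg_deltaExp N d hd] at h
  obtain ⟨χ', hm', h'⟩ := descend_eval₂ (deltaQuotQ d)⁻¹ χ hm h
  refine isIntegral_of_rat_relation N (deltaQuotQ d)⁻¹ _ ?_ χ' hm' h'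
  rw [IntermediateField.coe_inv, coe_deltaQuot, map_inv₀]

end Fermat.Agent.S36.helper5460
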