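import Mathlib
import Fermat.Agent.S18.helper8991_GaussInst
import Fermat.Agent.S18.helper208_CertL
import Fermat.Agent.S37.helper1588_FFK

/-!
# S36-UNIT-KVAL, part 1 (helper5460): integer `q`-series units over an arbitrary base

Let `Y : PowerSeries ℤ` be an integer power series whose rational form lies in the function field
of level `N` (`hY : ofPowerSeries ℤ ℚ (Y.map (Int.castRingHom ℚ)) ∈ modularFunctionFieldFull N`;
this is `helper105.ofZQ Y ∈ modularFunctionFieldFull N`, an `abbrev`).  For EVERY field `L` with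
`Algebra ℚ L` (`L = ℚ̄`, or the inertia field `K = ℚ̄^I`):

* `zElt L N Y hY : F_L(N) = laurentBaseChange L (modularFunctionFieldFull N)` is the element with
  that `q`-expansion (`coe_zElt` by `rfl`, `coe_zElt_int`), multiplicative in `Y` (`zElt_mul`);
* if `Y * Yi = 1` then `zElt Y` is a unit with inverse `zElt Yi` (`zElt_inv`), and for every
  valuation subring `O` of `L` and every `π : O →+* k` both lie in the Gauss valuation ring
  `helper8991.gaussF O π N` (`zElt_mem_gaussF`, `zElt_inv_mem_gaussF`), the reduction is the same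
  integer series read in `k` (`gaussFRed_zElt`), and `zElt Y` is not in the maximal ideal
  (`zElt_not_mem_nonunits`);
* `isIntegral_of_rat` : an element of `F_L(N)` whose expansion is a rational series integral over
  `ℚ[j]` is integral over `L[j]` (`j = S37.helper1588.jK L N`); `zElt_isIntegral`.
-/

set_option autoImplicit false

open ModularCurve HahnSeries

noncomputable section

namespace Fermat.Agent.S36.helper5460

open Fermat.Agent.S18

section Series

variable (L : Type*) [Field L] [Algebra ℚ L]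

/-- The base change to `L` of the rational form of an integer power series is the same series
read in `L`. -/
theorem coeffEmb_ofPowerSeries_int (Y : PowerSeries ℤ) :
    coeffEmb L (HahnSeries.ofPowerSeries ℤ ℚ (Y.map (Int.castRingHom ℚ)))
      = HahnSeries.ofPowerSeries ℤ L (Y.map (Int.castRingHom L)) := by
  rw [coeffEmb, ModularCurve.coeffMap_ofPowerSeries]
  congr 1
  ext n
  simp

variable {L}

omit [Algebra ℚ L] in
/-- The same series with coefficients in a valuation subring, included in `L((q))`. -/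
theorem inc_ofPowerSeries_int (O : ValuationSubring L) (Y : PowerSeries ℤ) :
    helper8991.inc O (HahnSeries.ofPowerSeries ℤ O (Y.map (Int.castRingHom O)))
      = HahnSeries.ofPowerSeries ℤ L (Y.map (Int.castRingHom L)) := by
  ext n
  rw [helper8991.inc_coeff]
  rcases le_or_gt 0 n with hn | hn
  · lift n to ℕ using hn
    rw [HahnSeries.ofPowerSeries_apply_coeff, HahnSeries.ofPowerSeries_apply_coeff,
      PowerSeries.coeff_map, PowerSeries.coeff_map]
    simp
  · rw [ofPowerSeries_coeff_of_neg _ hn, ofPowerSeries_coeff_of_neg _ hn]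
    rfl

omit [Algebra ℚ L] in
/-- The same series reduced along `π : O →+* k`. -/
theorem red_ofPowerSeries_int (O : ValuationSubring L) {k : Type*} [Field k] (π : O →+* k)
    (Y : PowerSeries ℤ) :
    helper8991.red O π (HahnSeries.ofPowerSeries ℤ O (Y.map (Int.castRingHom O)))
      = HahnSeries.ofPowerSeries ℤ k (Y.map (Int.castRingHom k)) := by
  ext n
  rw [helper8991.red_coeff]
  rcases le_or_gt 0 n with hn | hn
  · lift n to ℕ using hn
    rw [HahnSeries.ofPowerSeries_apply_coeff, HahnSeries.ofPowerSeries_apply_coeff,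
      PowerSeries.coeff_map, PowerSeries.coeff_map]
    simp
  · rw [ofPowerSeries_coeff_of_neg _ hn, ofPowerSeries_coeff_of_neg _ hn, map_zero]

end Series

section ZElt

variable (L : Type*) [Field L] [Algebra ℚ L] (N : ℕ)

/-- The element of `F_L(N)` whose `q`-expansion is the integer power series `Y`. -/
def zElt (Y : PowerSeries ℤ)
    (hY : HahnSeries.ofPowerSeries ℤ ℚ (Y.map (Int.castRingHom ℚ)) ∈ modularFunctionFieldFull N) :
    ↥(laurentBaseChange L (modularFunctionFieldFull N)) :=
  ⟨coeffEmb L (HahnSeries.ofPowerSeries ℤ ℚ (Y.map (Int.castRingHom ℚ))),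
    coeffEmb_mem_laurentBaseChange L hY⟩

theorem coe_zElt (Y : PowerSeries ℤ)
    (hY : HahnSeries.ofPowerSeries ℤ ℚ (Y.map (Int.castRingHom ℚ)) ∈ modularFunctionFieldFull N) :
    ((zElt L N Y hY : ↥(laurentBaseChange L (modularFunctionFieldFull N))) : LaurentSeries L)
      = coeffEmb L (HahnSeries.ofPowerSeries ℤ ℚ (Y.map (Int.castRingHom ℚ))) := rfl

theorem coe_zElt_int (Y : PowerSeries ℤ)
    (hY : HahnSeries.ofPowerSeries ℤ ℚ (Y.map (Int.castRingHom ℚ)) ∈ modularFunctionFieldFull N) :
    ((zElt L N Y hY : ↥(laurentBaseChange L (modularFunctionFieldFull N))) : LaurentSeries L)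
      = HahnSeries.ofPowerSeries ℤ L (Y.map (Int.castRingHom L)) :=
  coeffEmb_ofPowerSeries_int L Y

theorem zElt_mul (Y Y' : PowerSeries ℤ)
    (hY : HahnSeries.ofPowerSeries ℤ ℚ (Y.map (Int.castRingHom ℚ)) ∈ modularFunctionFieldFull N)
    (hY' : HahnSeries.ofPowerSeries ℤ ℚ (Y'.map (Int.castRingHom ℚ)) ∈ modularFunctionFieldFull N)
    (hYY' : HahnSeries.ofPowerSeries ℤ ℚ ((Y * Y').map (Int.castRingHom ℚ))
      ∈ modularFunctionFieldFull N) :
    zElt L N Y hY * zElt L N Y' hY' = zElt L N (Y * Y') hYY' := by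
  apply Subtype.ext
  show coeffEmb L _ * coeffEmb L _ = coeffEmb L _
  rw [← map_mul, ← map_mul, ← map_mul]

theorem zElt_mul_eq_one {Y Yi : PowerSeries ℤ} (h : Y * Yi = 1)
    (hY : HahnSeries.ofPowerSeries ℤ ℚ (Y.map (Int.castRingHom ℚ)) ∈ modularFunctionFieldFull N)
    (hYi : HahnSeries.ofPowerSeries ℤ ℚ (Yi.map (Int.castRingHom ℚ))
      ∈ modularFunctionFieldFull N) :
    zElt L N Y hY * zElt L N Yi hYi = 1 := by
  apply Subtype.ext
  show coeffEmb L _ * coeffEmb L _ = 1
  rw [← map_mul, ← map_mul, ← map_mul, h, map_one, map_one, map_one]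

theorem zElt_ne_zero {Y Yi : PowerSeries ℤ} (h : Y * Yi = 1)
    (hY : HahnSeries.ofPowerSeries ℤ ℚ (Y.map (Int.castRingHom ℚ)) ∈ modularFunctionFieldFull N) :
    zElt L N Y hY ≠ 0 := by
  intro h0
  have h1 : (coeffEmb L (HahnSeries.ofPowerSeries ℤ ℚ (Y.map (Int.castRingHom ℚ))))
      * (coeffEmb L (HahnSeries.ofPowerSeries ℤ ℚ (Yi.map (Int.castRingHom ℚ)))) = 1 := by
    rw [← map_mul, ← map_mul, ← map_mul, h, map_one, map_one, map_one]
  have h2 : coeffEmb L (HahnSeries.ofPowerSeries ℤ ℚ (Y.map (Int.castRingHom ℚ))) = 0 :=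
    congrArg Subtype.val h0
  rw [h2, zero_mul] at h1
  exact zero_ne_one h1

/-- The inverse series of a unit of `ℤ[[q]]` in the function field lies in the function field. -/
theorem ofPowerSeries_int_inv_mem {Y Yi : PowerSeries ℤ} (h : Y * Yi = 1)
    (hY : HahnSeries.ofPowerSeries ℤ ℚ (Y.map (Int.castRingHom ℚ)) ∈ modularFunctionFieldFull N) :
    HahnSeries.ofPowerSeries ℤ ℚ (Yi.map (Int.castRingHom ℚ)) ∈ modularFunctionFieldFull N := by
  have h1 : HahnSeries.ofPowerSeries ℤ ℚ (Y.map (Int.castRingHom ℚ))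
      * HahnSeries.ofPowerSeries ℤ ℚ (Yi.map (Int.castRingHom ℚ)) = 1 := by
    rw [← map_mul, ← map_mul, h, map_one, map_one]
  have h2 : HahnSeries.ofPowerSeries ℤ ℚ (Yi.map (Int.castRingHom ℚ))
      = (HahnSeries.ofPowerSeries ℤ ℚ (Y.map (Int.castRingHom ℚ)))⁻¹ :=
    eq_inv_of_mul_eq_one_right h1
  rw [h2]
  exact inv_mem hY

theorem zElt_inv {Y Yi : PowerSeries ℤ} (h : Y * Yi = 1)
    (hY : HahnSeries.ofPowerSeries ℤ ℚ (Y.map (Int.castRingHom ℚ)) ∈ modularFunctionFieldFull N)
    (hYi : HahnSeries.ofPowerSeries ℤ ℚ (Yi.map (Int.castRingHom ℚ))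
      ∈ modularFunctionFieldFull N) :
    (zElt L N Y hY)⁻¹ = zElt L N Yi hYi :=
  (eq_inv_of_mul_eq_one_right (zElt_mul_eq_one L N h hY hYi)).symm

variable {L}
variable (O : ValuationSubring L) {k : Type*} [Field k] (π : O →+* k)

/-- An integer series lies in the Gauss valuation ring. -/
theorem zElt_mem_gaussF (Y : PowerSeries ℤ)
    (hY : HahnSeries.ofPowerSeries ℤ ℚ (Y.map (Int.castRingHom ℚ)) ∈ modularFunctionFieldFull N) :
    zElt L N Y hY ∈ helper8991.gaussF O π N := by
  have e : ((zElt L N Y hY : ↥(laurentBaseChange L (modularFunctionFieldFull N))) :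
      LaurentSeries L)
      = helper8991.inc O (HahnSeries.ofPowerSeries ℤ O (Y.map (Int.castRingHom O))) := by
    rw [coe_zElt_int, inc_ofPowerSeries_int]
  have hmem : helper8991.inc O (HahnSeries.ofPowerSeries ℤ O (Y.map (Int.castRingHom O)))
      ∈ laurentBaseChange L (modularFunctionFieldFull N) := by
    rw [← e]
    exact (zElt L N Y hY).2
  have e' : zElt L N Y hY = ⟨_, hmem⟩ := Subtype.ext e
  rw [e']
  exact helper8991.inc_mem_gaussF O π N hmem

/-- The reduction of an integer series is the same series read in the residue field. -/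
theorem gaussFRed_zElt (Y : PowerSeries ℤ)
    (hY : HahnSeries.ofPowerSeries ℤ ℚ (Y.map (Int.castRingHom ℚ)) ∈ modularFunctionFieldFull N) :
    helper8991.gaussFRed O π N ⟨zElt L N Y hY, zElt_mem_gaussF N O π Y hY⟩
      = HahnSeries.ofPowerSeries ℤ k (Y.map (Int.castRingHom k)) := by
  have e : ((zElt L N Y hY : ↥(laurentBaseChange L (modularFunctionFieldFull N))) :
      LaurentSeries L)
      = helper8991.inc O (HahnSeries.ofPowerSeries ℤ O (Y.map (Int.castRingHom O))) := by
    rw [coe_zElt_int, inc_ofPowerSeries_int]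
  have h1 : helper8991.red O π (1 : LaurentSeries O) ≠ 0 := by
    rw [map_one]
    exact one_ne_zero
  rw [helper8991.gaussFRed_eq O π N _ (X := HahnSeries.ofPowerSeries ℤ O
    (Y.map (Int.castRingHom O))) (Y := 1) h1 (by rw [map_one, mul_one]; exact e),
    map_one, div_one, red_ofPowerSeries_int]

/-- The inverse of an integer series which is a unit of `ℤ[[q]]` lies in the Gauss ring. -/
theorem zElt_inv_mem_gaussF {Y Yi : PowerSeries ℤ} (h : Y * Yi = 1)
    (hY : HahnSeries.ofPowerSeries ℤ ℚ (Y.map (Int.castRingHom ℚ)) ∈ modularFunctionFieldFull N) :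
    (zElt L N Y hY)⁻¹ ∈ helper8991.gaussF O π N := by
  rw [zElt_inv L N h hY (ofPowerSeries_int_inv_mem N h hY)]
  exact zElt_mem_gaussF N O π Yi _

/-- A unit of `ℤ[[q]]` is a unit of the Gauss ring. -/
theorem zElt_not_mem_nonunits {Y Yi : PowerSeries ℤ} (h : Y * Yi = 1)
    (hY : HahnSeries.ofPowerSeries ℤ ℚ (Y.map (Int.castRingHom ℚ)) ∈ modularFunctionFieldFull N) :
    zElt L N Y hY ∉ (helper8991.gaussF O π N).nonunits := by
  intro hmem
  have h1 := (ValuationSubring.mem_nonunits_iff (helper8991.gaussF O π N)).mp hmem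
  have h2 := ((helper8991.gaussF O π N).valuation_le_one_iff _).mpr
    (zElt_inv_mem_gaussF N O π h hY)
  rw [map_inv₀] at h2
  have h0 : (helper8991.gaussF O π N).valuation (zElt L N Y hY) ≠ 0 :=
    (Valuation.ne_zero_iff _).mpr (zElt_ne_zero L N h hY)
  exact absurd h1 (not_lt.mpr ((inv_le_one₀ (zero_lt_iff.mpr h0)).mp h2))

end ZElt

/-! ## Integrality over `L[j]` -/

section Integral

variable (L : Type*) [Field L] [Algebra ℚ L] (N : ℕ)

/-- An element of `F_L(N)` whose `q`-expansion is a rational series integral over `ℚ[j]` is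
integral over `L[j]`. -/
theorem isIntegral_of_rat (x : LaurentSeries ℚ)
    (u : ↥(laurentBaseChange L (modularFunctionFieldFull N)))
    (hu : (u : LaurentSeries L) = coeffEmb L x)
    (hx : IsIntegral (Algebra.adjoin ℚ {jq}) x) :
    IsIntegral (Algebra.adjoin L {Fermat.Agent.S37.helper1588.jK L N}) u := by
  obtain ⟨χ', hχ', h⟩ := helper208.exists_monic_eval₂_of_isIntegral _ _ hx
  refine helper208.isIntegral_adjoin_of_eval₂ (Fermat.Agent.S37.helper1588.jK L N) u
    (χ'.map (Polynomial.mapRingHom (algebraMap ℚ L))) (hχ'.map _) ?_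
  have hinj : Function.Injective
      ((laurentBaseChange L (modularFunctionFieldFull N)).val :
        ↥(laurentBaseChange L (modularFunctionFieldFull N)) →+* LaurentSeries L) :=
    Subtype.val_injective
  apply hinj
  rw [Polynomial.hom_eval₂, Polynomial.eval₂_map, map_zero]
  have h2 := congrArg (coeffEmb L) h
  rw [Polynomial.hom_eval₂, map_zero] at h2
  rw [← h2]
  have hhom : (((laurentBaseChange L (modularFunctionFieldFull N)).val :
        ↥(laurentBaseChange L (modularFunctionFieldFull N)) →+* LaurentSeries L).comp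
      (Polynomial.aeval (Fermat.Agent.S37.helper1588.jK L N)).toRingHom).comp
        (Polynomial.mapRingHom (algebraMap ℚ L)) =
      (coeffEmb L).comp (Polynomial.aeval jq).toRingHom := by
    refine Polynomial.ringHom_ext (fun c => ?_) ?_
    · show ((Polynomial.aeval (Fermat.Agent.S37.helper1588.jK L N)
          ((Polynomial.C c).map (algebraMap ℚ L)) :
          ↥(laurentBaseChange L (modularFunctionFieldFull N))) : LaurentSeries L)
          = coeffEmb L (Polynomial.aeval jq (Polynomial.C c))
      rw [Polynomial.map_C, Polynomial.aeval_C, Polynomial.aeval_C]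
      have h3 : ((algebraMap L ↥(laurentBaseChange L (modularFunctionFieldFull N))
          (algebraMap ℚ L c) : ↥(laurentBaseChange L (modularFunctionFieldFull N))) :
          LaurentSeries L) = algebraMap L (LaurentSeries L) (algebraMap ℚ L c) := rfl
      rw [h3, algebraMap_laurentSeries_eq_single, algebraMap_laurentSeries_eq_single, coeffEmb,
        coeffMap_single]
    · show ((Polynomial.aeval (Fermat.Agent.S37.helper1588.jK L N)
          ((Polynomial.X : Polynomial ℚ).map (algebraMap ℚ L)) :
          ↥(laurentBaseChange L (modularFunctionFieldFull N))) : LaurentSeries L)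
          = coeffEmb L (Polynomial.aeval jq Polynomial.X)
      rw [Polynomial.map_X, Polynomial.aeval_X, Polynomial.aeval_X,
        Fermat.Agent.S37.helper1588.coe_jK, ← jqModC_rat, coeffEmb]
      exact (ModularCurve.coeffMap_jqModC _).symm
  rw [hhom]
  congr 1

/-- An integer series integral over `ℚ[j]` gives an element of `F_L(N)` integral over `L[j]`. -/
theorem zElt_isIntegral (Y : PowerSeries ℤ)
    (hY : HahnSeries.ofPowerSeries ℤ ℚ (Y.map (Int.castRingHom ℚ)) ∈ modularFunctionFieldFull N)
    (hI : IsIntegral (Algebra.adjoin ℚ {jq})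
      (HahnSeries.ofPowerSeries ℤ ℚ (Y.map (Int.castRingHom ℚ)))) :
    IsIntegral (Algebra.adjoin L {Fermat.Agent.S37.helper1588.jK L N}) (zElt L N Y hY) :=
  isIntegral_of_rat L N _ _ (coe_zElt L N Y hY) hI

end Integral

end Fermat.Agent.S36.helper5460
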