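/-
S36-MID-INST, Layer B part 2 (helper3919): the chart element `D` — the `Δ`-unit
`(x⁴ (x + 16))ᵏ · Δ(z)/Δ(qz)` (resp. `(x⁹ (x² + 9 x + 27))ᵏ · Δ(z)/Δ(qz)`) lies in the chart
`BK A M₁ q haux 0` and has the mid-cusp expansion required by `helper3919.hMID_t4 / hMID_t9`.

* `isIntegral_deltaQuotQ_inv` : `Δ(q)/Δ(q^d)` is integral over `ℚ[j]` (the rational relation of
  `helper5460_DeltaInt`);
* `duK` : the element `Δ(z)/Δ(qz)` of `F_{M₁,K}`;  `lh_duK`, `duK_mem_Vinf'`, `duK_mem_Vzero'`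
  (integer expansions at both cusps, `W_q`-law of `helper5460_DeltaUnit`);
* `exists_D4`, `exists_D9` : the hypotheses `hD4`, `hD9` of `helper3919.mid_fin0_of`
  (chart membership by `helper105.exists_pow_mul_mem_chartRing_of_integral_of_rad`);
* `mid_fin0` : the hypothesis `hnc0` of `helper8039.hMID_modular_of` VERBATIM with
  `C0 := Cusp0 A M₁ q haux`, from `hA`, the field `rad` and (LOC) at `v_mid` only.
-/
import Fermat.Agent.S36.helper3919_MidInstK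
import Fermat.Agent.S36.helper105_ChartMem
import Fermat.Agent.S36.helper5460_DeltaInt
import Fermat.Agent.S36.helper5460_UnitGauss

set_option autoImplicit false
set_option linter.unusedSectionVars false

noncomputable section

namespace Fermat.Agent.S36.helper3919

open HahnSeries ModularCurve
open Fermat.Agent.S24.helper24 (Kbar FN)
open Fermat.Agent.S36.helper405
open Fermat.Agent.S36.helper36 (chart BaseDVR)
open Fermat.Agent.S36.helper1335 (AuxOK)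
open Fermat.Agent.S36.helper8039 (centre)
open Fermat.Agent.S36.helper1280 (InP)
open Fermat.Agent.S36.helper248 (chartRing)
open Fermat.Agent.S18.helper8991 (gaussRing gaussF inc red)
open Fermat.Agent.Lib.helper3874 (t4C t9C toL qv)
open Fermat.Agent.Lib.helper386 (deltaSeries)
open Fermat.Agent.S36.helper1730 (NilMod)
open Fermat.Agent.S36.helper5460 (deltaQuotQ deltaQuot coe_deltaQuot deltaQuotQ_mem_full)
open Fermat.Agent.S28.helper4768 (DeltaL)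

/-! ## The series `Δ` -/

section Series

theorem deltaL_eq_toL : DeltaL = toL ℚ deltaSeries := by
  show HahnSeries.ofPowerSeries ℤ ℚ Fermat.Agent.S28.helper4768.DeltaQ
    = HahnSeries.ofPowerSeries ℤ ℚ (PowerSeries.map (Int.castRingHom ℚ) deltaSeries)
  congr 1
  unfold Fermat.Agent.S28.helper4768.DeltaQ deltaSeries
  rw [map_mul, PowerSeries.map_X]

theorem coeffEmb_DeltaL_eq (L : Type*) [Field L] [Algebra ℚ L] :
    coeffEmb L DeltaL = toL L deltaSeries := by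
  rw [deltaL_eq_toL]
  exact Fermat.Agent.Lib.helper3874.coeffMap_toL ℚ (algebraMap ℚ L) deltaSeries

theorem toL_deltaSeries_ne_zero (L : Type*) [Field L] : toL L deltaSeries ≠ 0 :=
  Fermat.Agent.S36.helper4118.deltaL_ne_zero

theorem qExpand_toL_deltaSeries_ne_zero (L : Type*) [Field L] (d : ℕ) [NeZero d] :
    qExpand L d (toL L deltaSeries) ≠ 0 := fun h =>
  toL_deltaSeries_ne_zero L (qExpand_injective (R := L) d (by rw [h, map_zero]))

/-- `Δ(q)/Δ(q^d)` read over a field `L`. -/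
theorem coeffEmb_deltaQuotQ_inv (L : Type*) [Field L] [Algebra ℚ L] (d : ℕ) [NeZero d] :
    coeffEmb L (deltaQuotQ d)⁻¹ * qExpand L d (toL L deltaSeries) = toL L deltaSeries := by
  have h1 := toL_deltaSeries_ne_zero L
  have h2 := qExpand_toL_deltaSeries_ne_zero L d
  rw [map_inv₀, deltaQuotQ, map_div₀, Fermat.Agent.S24.helper3176.coeffEmb_qExpand,
    coeffEmb_DeltaL_eq, inv_div]
  field_simp

/-- `Δ(q^d)/Δ(q)` read over a field `L`. -/
theorem coeffEmb_deltaQuotQ (L : Type*) [Field L] [Algebra ℚ L] (d : ℕ) [NeZero d] :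
    coeffEmb L (deltaQuotQ d) * toL L deltaSeries = qExpand L d (toL L deltaSeries) := by
  have h1 := toL_deltaSeries_ne_zero L
  rw [deltaQuotQ, map_div₀, Fermat.Agent.S24.helper3176.coeffEmb_qExpand, coeffEmb_DeltaL_eq]
  field_simp

/-- `Δ` is a unit of `ℤ((q))`. -/
theorem isUnit_toL_deltaSeries : IsUnit (toL ℤ deltaSeries) := by
  have h2 : toL ℤ deltaSeries = qv ℤ * toL ℤ (etaProd ^ 24) := by
    rw [← Fermat.Agent.Lib.helper3874.toL_X, ← map_mul]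
    rfl
  rw [h2]
  refine IsUnit.mul (IsUnit.of_mul_eq_one _ (Fermat.Agent.Lib.helper3874.qv_mul_single ℤ)) ?_
  apply Fermat.Agent.S36.helper1257.isUnit_toL_of_constantCoeff
  rw [map_pow, constantCoeff_etaProd, one_pow]

/-- The modular unit `Δ(x^d)/Δ(x)` has an integer expansion. -/
theorem exists_deltaInv_int (d : ℕ) [NeZero d] :
    ∃ DZ1 : LaurentSeries ℤ, DZ1 * toL ℤ deltaSeries = qExpand ℤ d (toL ℤ deltaSeries) := by
  obtain ⟨u, hu⟩ := isUnit_toL_deltaSeries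
  refine ⟨qExpand ℤ d (toL ℤ deltaSeries) * (u⁻¹ : (LaurentSeries ℤ)ˣ), ?_⟩
  rw [← hu, mul_assoc, Units.inv_mul, mul_one]

/-- The modular unit `Δ(x)/Δ(x^d)` has an integer expansion. -/
theorem exists_deltaQuot_int (d : ℕ) [NeZero d] :
    ∃ DZ0 : LaurentSeries ℤ, DZ0 * qExpand ℤ d (toL ℤ deltaSeries) = toL ℤ deltaSeries := by
  have hu' : IsUnit (qExpand ℤ d (toL ℤ deltaSeries)) := isUnit_toL_deltaSeries.map _
  obtain ⟨u, hu⟩ := hu'
  refine ⟨toL ℤ deltaSeries * (u⁻¹ : (LaurentSeries ℤ)ˣ), ?_⟩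
  rw [← hu, mul_assoc, Units.inv_mul, mul_one]

/-- **`Δ(q)/Δ(q^d)` is integral over `ℚ[j]`** (`d ∣ N` for some level `N`). -/
theorem isIntegral_deltaQuotQ_inv (N d : ℕ) [NeZero N] [NeZero d] (hd : d ∣ N) :
    IsIntegral (Algebra.adjoin ℚ {jq}) (deltaQuotQ d)⁻¹ := by
  obtain ⟨χ, hm, h⟩ := Fermat.Agent.S36.helper5460.exists_monic_etaW N
    (fun δ => -Fermat.Agent.S36.helper5460.deltaExp d δ)
    (by rw [Finset.sum_neg_distrib, Fermat.Agent.S36.helper5460.sum_deltaExp N d hd, neg_zero])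
  rw [Fermat.Agent.S36.helper5460.coeffMap_etaW_neg_deltaExp N d hd] at h
  obtain ⟨χ', hm', h'⟩ := Fermat.Agent.S36.helper5460.descend_eval₂ (deltaQuotQ d)⁻¹ χ hm h
  exact Fermat.Agent.S18.helper208.isIntegral_adjoin_of_eval₂ jq _ χ' hm' h'

end Series

/-! ## The chart criterion on chart 0 -/

section Generic

variable {K F : Type*} [Field K] [Field F] [Algebra K F]

/-- `helper105.exists_pow_mul_mem_chartRing_of_integral_of_rad` on the chart `chart O x 0`. -/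
theorem exists_pow_mul_mem_chart0 [CharZero K] (O : ValuationSubring K) [IsNoetherianRing O]
    (q : ℕ) (hq0 : (q : K) ≠ 0) (hqO : (q : K) ∈ O.nonunits) (x : F) (hx : Transcendental K x)
    [FiniteDimensional (IntermediateField.adjoin K ({x} : Set F)) F] {ι : Type*} [Finite ι]
    (V : ι → ValuationSubring F) (hBV : ∀ c, ∀ b ∈ chart O x 0, b ∈ V c)
    (hqV : ∀ c, (q : F) ∈ (V c).nonunits)
    (hrad : ∀ y ∈ chart O x 0, (∀ c, y ∈ (V c).nonunits) → NilMod (chart O x 0) (q : F) y)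
    {j D : F} (hD : D ∈ Algebra.adjoin K {x}) (hjD : j * D ∈ Algebra.adjoin K {x})
    (hDV : ∀ c, D ∈ V c) {y : F} (hy : IsIntegral (Algebra.adjoin K {j}) y)
    (hV : ∀ c, y ∈ V c) : ∃ k : ℕ, D ^ k * y ∈ chart O x 0 := by
  have hs := Fermat.Agent.S36.helper8039.chart_struct O x hx 0
  have hf := Fermat.Agent.S36.helper8039.chart_frac O x 0
  have : IsNoetherianRing (chartRing O ({x} : Set F)) := hs.1
  have : IsIntegrallyClosed (chartRing O ({x} : Set F)) := hs.2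
  have : IsFractionRing (chartRing O ({x} : Set F)) F := hf
  exact Fermat.Agent.S36.helper105.exists_pow_mul_mem_chartRing_of_integral_of_rad O q hq0 hqO
    {x} V hBV hqV hrad hD hjD hDV hy hV

end Generic

/-! ## The `Δ`-unit over `K` -/

section K

variable (A : ValuationSubring (AlgebraicClosure ℚ)) (M₁ q : ℕ) [NeZero M₁] [NeZero q]
  (hq : q.Prime) (hqM : q ∣ M₁) (hq2 : ¬ q ^ 2 ∣ M₁) (haux : AuxOK M₁ q)

/-- `Δ(z)/Δ(qz)` as an element of `F_{M₁,K}`. -/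
def duK : FK A M₁ :=
  ⟨coeffEmb (KI A) (deltaQuotQ q)⁻¹,
    coeffEmb_mem_laurentBaseChange (KI A) (inv_mem (deltaQuotQ_mem_full M₁ q hqM))⟩

theorem coe_duK : ((duK A M₁ q hqM : FK A M₁) : LaurentSeries (KI A))
    = coeffEmb (KI A) (deltaQuotQ q)⁻¹ := rfl

theorem coe_lh_duK : ((lh A M₁ (duK A M₁ q hqM) : FN M₁) : LaurentSeries Kbar)
    = coeffEmb Kbar (deltaQuotQ q)⁻¹ := by
  rw [coe_lh, coe_duK, coeffEmb, coeffEmb, coeffMap_coeffMap]
  exact coeffMap_congr (RingHom.ext_rat _ _) _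

theorem lh_duK : lh A M₁ (duK A M₁ q hqM) = (deltaQuot M₁ q hqM)⁻¹ := by
  apply Subtype.ext
  rw [coe_lh_duK, IntermediateField.coe_inv, coe_deltaQuot, map_inv₀]

/-- `Δ(z)/Δ(qz)` has an integer expansion at `∞`. -/
theorem coe_lh_duK_int : ∃ DZ0 : LaurentSeries ℤ,
    ((lh A M₁ (duK A M₁ q hqM) : FN M₁) : LaurentSeries Kbar)
      = coeffMap (Int.castRingHom Kbar) DZ0 := by
  obtain ⟨DZ0, h0⟩ := exists_deltaQuot_int q
  refine ⟨DZ0, ?_⟩
  rw [coe_lh_duK]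
  have h1 := congrArg (coeffMap (Int.castRingHom Kbar)) h0
  rw [map_mul, ModularCurve.coeffMap_qExpand, Fermat.Agent.Lib.helper3874.coeffMap_toL] at h1
  exact mul_right_cancel₀ (qExpand_toL_deltaSeries_ne_zero Kbar q)
    ((coeffEmb_deltaQuotQ_inv Kbar q).trans h1.symm)

theorem duK_mem_Vinf' : duK A M₁ q hqM ∈ Vinf' A M₁ := by
  obtain ⟨DZ0, h⟩ := coe_lh_duK_int A M₁ q hqM
  unfold Vinf'
  rw [mem_VinfAt]
  exact Fermat.Agent.S35.helper4640.mem_gaussF_of_coe_eq A _ M₁ h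

/-- `W_q (Δ(q^q)/Δ(q))⁻¹ = q¹² Δ(q^q)/Δ(q)`. -/
theorem Wq_deltaQuot_inv :
    Wq M₁ q hq hqM hq2 (deltaQuot M₁ q hqM)⁻¹
      = algebraMap Kbar (FN M₁) ((q : Kbar) ^ 12) * deltaQuot M₁ q hqM := by
  obtain ⟨M', hM'⟩ := id hqM
  subst hM'
  have hM'0 : M' ≠ 0 := fun h => (NeZero.ne (q * M')) (by rw [h, mul_zero])
  have : NeZero M' := ⟨hM'0⟩
  have hcop : Nat.Coprime q M' := by
    have := coprime_level hq hqM hq2
    rwa [Nat.mul_div_cancel_left M' hq.pos] at this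
  have hW : ∀ z : FN (q * M'), Wq (q * M') q hq hqM hq2 z
      = Fermat.Agent.S35.helper1219.atkinLehnerBar q M' hcop z :=
    fun z => Fermat.Agent.S35.helper1219.atkinLehnerHall_eq_atkinLehnerBar q M' hcop _ _ z
  have h1 := Fermat.Agent.S36.helper5460.atkinLehnerBar_deltaQuot q M' hcop
  have hd0 : deltaQuot (q * M') q hqM ≠ 0 :=
    Fermat.Agent.S36.helper5460.deltaQuot_ne_zero (q * M') q hqM
  have hqK : ((q : Kbar) ^ 12) ≠ 0 := pow_ne_zero _ (Nat.cast_ne_zero.mpr hq.ne_zero)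
  rw [map_inv₀, hW]
  have h2 : Fermat.Agent.S35.helper1219.atkinLehnerBar q M' hcop (deltaQuot (q * M') q hqM)
      = algebraMap Kbar (FN (q * M')) (((q : Kbar) ^ 12)⁻¹) * (deltaQuot (q * M') q hqM)⁻¹ := by
    rw [← h1]
    field_simp
  rw [h2, mul_inv, inv_inv, ← map_inv₀, inv_inv]

/-- `W_q (Δ(z)/Δ(qz))` has an integer expansion at `∞`. -/
theorem coe_Wq_lh_duK_int : ∃ Z : LaurentSeries ℤ,
    ((Wq M₁ q hq hqM hq2 (lh A M₁ (duK A M₁ q hqM)) : FN M₁) : LaurentSeries Kbar)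
      = coeffMap (Int.castRingHom Kbar) Z := by
  obtain ⟨DZ1, h1⟩ := exists_deltaInv_int q
  refine ⟨HahnSeries.C ((q : ℤ) ^ 12) * DZ1, ?_⟩
  rw [lh_duK, Wq_deltaQuot_inv]
  have e1 : ((algebraMap Kbar (FN M₁) ((q : Kbar) ^ 12) * deltaQuot M₁ q hqM : FN M₁) :
      LaurentSeries Kbar)
      = HahnSeries.C ((q : Kbar) ^ 12) * coeffEmb Kbar (deltaQuotQ q) := by
    show ((algebraMap Kbar (FN M₁) ((q : Kbar) ^ 12) : FN M₁) : LaurentSeries Kbar)
      * ((deltaQuot M₁ q hqM : FN M₁) : LaurentSeries Kbar) = _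
    rw [Fermat.Agent.S36.helper987.coe_algebraMap_FN, coe_deltaQuot]
  have h2 := congrArg (coeffMap (Int.castRingHom Kbar)) h1
  rw [map_mul, ModularCurve.coeffMap_qExpand, Fermat.Agent.Lib.helper3874.coeffMap_toL] at h2
  have h3 : coeffEmb Kbar (deltaQuotQ q) = coeffMap (Int.castRingHom Kbar) DZ1 :=
    mul_right_cancel₀ (toL_deltaSeries_ne_zero Kbar) ((coeffEmb_deltaQuotQ Kbar q).trans h2.symm)
  have h4 : coeffMap (Int.castRingHom Kbar) (HahnSeries.C ((q : ℤ) ^ 12))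
      = HahnSeries.C ((q : Kbar) ^ 12) := by
    rw [HahnSeries.C_apply, coeffMap_single, HahnSeries.C_apply]
    simp
  rw [e1, map_mul, h4, h3]

theorem duK_mem_Vzero' : duK A M₁ q hqM ∈ Vzero' A M₁ q hq hqM hq2 := by
  obtain ⟨Z, h⟩ := coe_Wq_lh_duK_int A M₁ q hq hqM hq2
  rw [mem_Vzero']
  exact Fermat.Agent.S35.helper4640.mem_gaussF_of_coe_eq A _ M₁ h

/-- `α (Δ(z)/Δ(qz))` lies in the three vertical valuation rings. -/
theorem alpha_duK_mem (c : Fin 3) :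
    αK A M₁ q (duK A M₁ q hqM) ∈ VK A M₁ q hq hqM hq2 c := by
  fin_cases c
  · exact (α_mem_inf A M₁ q _).mpr (duK_mem_Vinf' A M₁ q hqM)
  · exact (α_mem_mid A M₁ q hq hqM hq2 _).mpr (duK_mem_Vinf' A M₁ q hqM)
  · exact (α_mem_zero A M₁ q hq hqM hq2 _).mpr (duK_mem_Vzero' A M₁ q hq hqM hq2)

/-- `α (Δ(z)/Δ(qz))` is integral over `K[j]`. -/
theorem alpha_duK_isIntegral :
    IsIntegral (Algebra.adjoin (KI A) {Fermat.Agent.S37.helper1588.jK (KI A) (M₁ * q)})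
      (αK A M₁ q (duK A M₁ q hqM)) :=
  Fermat.Agent.S36.helper5460.isIntegral_of_rat (KI A) (M₁ * q) (deltaQuotQ q)⁻¹ _
    (by rw [coe_heckeAlphaBar]; rfl) (isIntegral_deltaQuotQ_inv M₁ q hqM)

/-- The mid-cusp expansion of `α (Δ(z)/Δ(qz))`. -/
theorem sigK_alpha_duK :
    sigK A M₁ q hq hqM hq2 (αK A M₁ q (duK A M₁ q hqM)) * qExpand Kbar q (toL Kbar deltaSeries)
      = toL Kbar deltaSeries := by
  rw [sigK_alpha, coe_lh_duK]
  exact coeffEmb_deltaQuotQ_inv Kbar q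

end K

/-! ## The chart element `D` -/

section D

variable (A : ValuationSubring (AlgebraicClosure ℚ)) (M₁ q : ℕ) [NeZero M₁] [NeZero q]
  (hq : q.Prime) (hqM : q ∣ M₁) (hq2 : ¬ q ^ 2 ∣ M₁) (haux : AuxOK M₁ q)

/-- The chart criterion for the `Δ`-unit: for every cusp polynomial `D₀` of the base line
(`D₀, j D₀ ∈ K[x]`) some `D₀ ^ k * α (Δ(z)/Δ(qz))` lies in the chart `BK 0`. -/
theorem exists_pow_mul_duK_mem (hA : A.LiesOverPrime q)
    (rad : ∀ (i : Fin 2) (y : FK A (M₁ * q)), y ∈ BK A M₁ q haux i →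
      (∀ c, y ∈ (VK A M₁ q hq hqM hq2 c).nonunits) →
      NilMod (BK A M₁ q haux i) (q : FK A (M₁ * q)) y)
    (D₀ : FK A (M₁ * q))
    (hD : D₀ ∈ Algebra.adjoin (KI A) {xK A M₁ q haux})
    (hjD : Fermat.Agent.S37.helper1588.jK (KI A) (M₁ * q) * D₀
      ∈ Algebra.adjoin (KI A) {xK A M₁ q haux})
    (hDB : D₀ ∈ BK A M₁ q haux 0) :
    ∃ k : ℕ, D₀ ^ k * αK A M₁ q (duK A M₁ q hqM) ∈ BK A M₁ q haux 0 := by
  have hbase := Fermat.Agent.S36.helper225.baseDVR_facts A hq hA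
  have : IsNoetherianRing (OI A) := hbase.2.2.2.2.1
  have hx : Transcendental (KI A) (xK A M₁ q haux) := baseLine_transcendental _ _ _ _ _
  have hfin : FiniteDimensional (IntermediateField.adjoin (KI A)
      ({xK A M₁ q haux} : Set (FK A (M₁ * q)))) (FK A (M₁ * q)) :=
    baseLine_finiteDimensional _ _ _ _ _
  have hBV : ∀ c, ∀ b ∈ BK A M₁ q haux 0, b ∈ VK A M₁ q hq hqM hq2 c := fun c =>
    Fermat.Agent.S36.helper8039.chart_le (OI A) (xK A M₁ q haux) _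
      (fun a ha => (const_mem_VK_iff A M₁ q hq hqM hq2 c a).mpr ha)
      (x_V A M₁ q hq hqM hq2 haux c) 0
  exact exists_pow_mul_mem_chart0 (OI A) q hbase.2.1 hbase.2.2.1 (xK A M₁ q haux) hx
    (VK A M₁ q hq hqM hq2) hBV (natCast_mem_nonunits_VK A M₁ q hq hqM hq2 hA) (rad 0) hD hjD
    (fun c => hBV c _ hDB) (alpha_duK_isIntegral A M₁ q hqM) (alpha_duK_mem A M₁ q hq hqM hq2)

/-- **The hypothesis `hD4` of `mid_fin0_of`.** -/
theorem exists_D4 (hA : A.LiesOverPrime q)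
    (rad : ∀ (i : Fin 2) (y : FK A (M₁ * q)), y ∈ BK A M₁ q haux i →
      (∀ c, y ∈ (VK A M₁ q hq hqM hq2 c).nonunits) →
      NilMod (BK A M₁ q haux i) (q : FK A (M₁ * q)) y) (h2 : q ≠ 2) :
    ∃ (n : ℕ) (D : BK A M₁ q haux 0),
      sigK A M₁ q hq hqM hq2 (D : FK A (M₁ * q)) * qExpand Kbar q (toL Kbar deltaSeries)
        = toL Kbar deltaSeries * (t4C Kbar ^ 4 * (t4C Kbar + 16)) ^ n := by
  have hxe : xK A M₁ q haux = Fermat.Agent.S37.helper530.t4F (KI A) (M₁ * q)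
      (Dvd.dvd.mul_right (haux.1 h2) q) := baseLine_of_ne _ _ _ _ _ h2
  have hxA : xK A M₁ q haux ∈ Algebra.adjoin (KI A) {xK A M₁ q haux} :=
    Algebra.self_mem_adjoin_singleton _ _
  have hxB := xK_mem_chart A M₁ q haux
  have hD : xK A M₁ q haux ^ 4 * (xK A M₁ q haux + 16)
      ∈ Algebra.adjoin (KI A) {xK A M₁ q haux} :=
    mul_mem (pow_mem hxA 4) (add_mem hxA (ofNat_mem _ 16))
  have hjD : Fermat.Agent.S37.helper1588.jK (KI A) (M₁ * q)
      * (xK A M₁ q haux ^ 4 * (xK A M₁ q haux + 16))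
      ∈ Algebra.adjoin (KI A) {xK A M₁ q haux} := by
    have hrel : Fermat.Agent.S37.helper1588.jK (KI A) (M₁ * q)
        * (xK A M₁ q haux ^ 4 * (xK A M₁ q haux + 16))
        = (xK A M₁ q haux ^ 2 + 256 * xK A M₁ q haux + 4096) ^ 3 := by
      rw [hxe]
      exact Fermat.Agent.S37.helper530.jK_mul_t4F (KI A) (M₁ * q) _
    rw [hrel]
    exact pow_mem (add_mem (add_mem (pow_mem hxA 2) (mul_mem (ofNat_mem _ 256) hxA))
      (ofNat_mem _ 4096)) 3
  have hDB : xK A M₁ q haux ^ 4 * (xK A M₁ q haux + 16) ∈ BK A M₁ q haux 0 :=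
    mul_mem (pow_mem hxB 4) (add_mem hxB (ofNat_mem _ 16))
  obtain ⟨k, hk⟩ := exists_pow_mul_duK_mem A M₁ q hq hqM hq2 haux hA rad _ hD hjD hDB
  refine ⟨k, ⟨_, hk⟩, ?_⟩
  have h1 := sigK_alpha_duK A M₁ q hq hqM hq2
  have h3 : sigK A M₁ q hq hqM hq2 (xK A M₁ q haux ^ 4 * (xK A M₁ q haux + 16))
      = t4C Kbar ^ 4 * (t4C Kbar + 16) := by
    rw [map_mul, map_pow, map_add, sigK_xK, map_ofNat, bSer_of_ne _ h2]
  show sigK A M₁ q hq hqM hq2 ((xK A M₁ q haux ^ 4 * (xK A M₁ q haux + 16)) ^ k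
      * αK A M₁ q (duK A M₁ q hqM)) * _ = _
  rw [map_mul, map_pow, h3, mul_assoc, h1, mul_comm]

/-- **The hypothesis `hD9` of `mid_fin0_of`.** -/
theorem exists_D9 (hA : A.LiesOverPrime q)
    (rad : ∀ (i : Fin 2) (y : FK A (M₁ * q)), y ∈ BK A M₁ q haux i →
      (∀ c, y ∈ (VK A M₁ q hq hqM hq2 c).nonunits) →
      NilMod (BK A M₁ q haux i) (q : FK A (M₁ * q)) y) (h2 : q = 2) :
    ∃ (n : ℕ) (D : BK A M₁ q haux 0),
      sigK A M₁ q hq hqM hq2 (D : FK A (M₁ * q)) * qExpand Kbar q (toL Kbar deltaSeries)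
        = toL Kbar deltaSeries * (t9C Kbar ^ 9 * (t9C Kbar ^ 2 + 9 * t9C Kbar + 27)) ^ n := by
  have hxe : xK A M₁ q haux = Fermat.Agent.S37.helper530.t9F (KI A) (M₁ * q)
      (Dvd.dvd.mul_right (haux.2 h2) q) := baseLine_of_eq _ _ _ _ _ h2
  have hxA : xK A M₁ q haux ∈ Algebra.adjoin (KI A) {xK A M₁ q haux} :=
    Algebra.self_mem_adjoin_singleton _ _
  have hxB := xK_mem_chart A M₁ q haux
  have hD : xK A M₁ q haux ^ 9 * (xK A M₁ q haux ^ 2 + 9 * xK A M₁ q haux + 27)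
      ∈ Algebra.adjoin (KI A) {xK A M₁ q haux} :=
    mul_mem (pow_mem hxA 9) (add_mem (add_mem (pow_mem hxA 2) (mul_mem (ofNat_mem _ 9) hxA))
      (ofNat_mem _ 27))
  have hjD : Fermat.Agent.S37.helper1588.jK (KI A) (M₁ * q)
      * (xK A M₁ q haux ^ 9 * (xK A M₁ q haux ^ 2 + 9 * xK A M₁ q haux + 27))
      ∈ Algebra.adjoin (KI A) {xK A M₁ q haux} := by
    have hrel : Fermat.Agent.S37.helper1588.jK (KI A) (M₁ * q)
        * (xK A M₁ q haux ^ 9 * (xK A M₁ q haux ^ 2 + 9 * xK A M₁ q haux + 27))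
        = ((xK A M₁ q haux + 9) * (xK A M₁ q haux ^ 3 + 243 * xK A M₁ q haux ^ 2
          + 2187 * xK A M₁ q haux + 6561)) ^ 3 := by
      rw [hxe]
      exact Fermat.Agent.S37.helper530.jK_mul_t9F (KI A) (M₁ * q) _
    rw [hrel]
    exact pow_mem (mul_mem (add_mem hxA (ofNat_mem _ 9))
      (add_mem (add_mem (add_mem (pow_mem hxA 3) (mul_mem (ofNat_mem _ 243) (pow_mem hxA 2)))
        (mul_mem (ofNat_mem _ 2187) hxA)) (ofNat_mem _ 6561))) 3
  have hDB : xK A M₁ q haux ^ 9 * (xK A M₁ q haux ^ 2 + 9 * xK A M₁ q haux + 27)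
      ∈ BK A M₁ q haux 0 :=
    mul_mem (pow_mem hxB 9) (add_mem (add_mem (pow_mem hxB 2) (mul_mem (ofNat_mem _ 9) hxB))
      (ofNat_mem _ 27))
  obtain ⟨k, hk⟩ := exists_pow_mul_duK_mem A M₁ q hq hqM hq2 haux hA rad _ hD hjD hDB
  refine ⟨k, ⟨_, hk⟩, ?_⟩
  have h1 := sigK_alpha_duK A M₁ q hq hqM hq2
  have h3 : sigK A M₁ q hq hqM hq2
      (xK A M₁ q haux ^ 9 * (xK A M₁ q haux ^ 2 + 9 * xK A M₁ q haux + 27))
      = t9C Kbar ^ 9 * (t9C Kbar ^ 2 + 9 * t9C Kbar + 27) := by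
    rw [map_mul, map_pow, map_add, map_add, map_pow, map_mul, sigK_xK, map_ofNat, map_ofNat,
      bSer_of_eq _ h2]
  show sigK A M₁ q hq hqM hq2
      ((xK A M₁ q haux ^ 9 * (xK A M₁ q haux ^ 2 + 9 * xK A M₁ q haux + 27)) ^ k
      * αK A M₁ q (duK A M₁ q hqM)) * _ = _
  rw [map_mul, map_pow, h3, mul_assoc, h1, mul_comm]

/-- **`hMID` at the non-cuspidal points of chart 0** — the hypothesis `hnc0` of
`helper8039.hMID_modular_of`, VERBATIM, with `C0 := Cusp0 A M₁ q haux` — from `hA`, the field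
`rad` of `helper405.KillInput` and (LOC) at `v_mid`. -/
theorem mid_fin0 (hA : A.LiesOverPrime q)
    (rad : ∀ (i : Fin 2) (y : FK A (M₁ * q)), y ∈ BK A M₁ q haux i →
      (∀ c, y ∈ (VK A M₁ q hq hqM hq2 c).nonunits) →
      NilMod (BK A M₁ q haux i) (q : FK A (M₁ * q)) y)
    (loc_mid : ∀ i : Fin 2, ∀ y ∈ Vmid A M₁ q hq hqM hq2, ∃ a s : BK A M₁ q haux i,
      (s : FK A (M₁ * q)) ∉ (Vmid A M₁ q hq hqM hq2).nonunits ∧ y * s = a) :
    ∀ P : Ideal (BK A M₁ q haux 0), P.IsMaximal →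
      centre (BK A M₁ q haux 0) (VK A M₁ q hq hqM hq2 1) ≤ P →
      ¬ centre (BK A M₁ q haux 0) (VK A M₁ q hq hqM hq2 0) ≤ P →
      ¬ centre (BK A M₁ q haux 0) (VK A M₁ q hq hqM hq2 2) ≤ P → ¬ Cusp0 A M₁ q haux P →
      ∃ T ∈ centre (BK A M₁ q haux 0) (VK A M₁ q hq hqM hq2 1), T ≠ 0 ∧
        (∃ m : ℕ, m ≠ 0 ∧ ∃ s, s ∉ P ∧ T ^ m ∣ s * (q : BK A M₁ q haux 0)) ∧
        ∀ a ∈ centre (BK A M₁ q haux 0) (VK A M₁ q hq hqM hq2 1),
          ∃ s, s ∉ centre (BK A M₁ q haux 0) (VK A M₁ q hq hqM hq2 1) ∧ T ∣ s * a :=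
  mid_fin0_of A M₁ q hq hqM hq2 haux hA rad loc_mid
    (exists_D4 A M₁ q hq hqM hq2 haux hA rad) (exists_D9 A M₁ q hq hqM hq2 haux hA rad)

end D

end Fermat.Agent.S36.helper3919
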