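import Mathlib
import Fermat.Prelude.Def_ModularCurve_JqCoeff
import Fermat.Agent.Lib.helper9242_LaurentTheta
import Fermat.Agent.Lib.helper7516_LaurentFrob

/-!
# S36-F2-QSER (helper6020): the Kronecker remainder on `q`-series

Design-independent `q`-series core of "thickness one at level `p`" (route #3001 (d), #2883).

For an integral Laurent series `x ∈ ℤ((t))` and a prime `p` put
`delta p x := (x ^ p - x(t ^ p)) / p ∈ ℤ((t))` (Frobenius congruence).

* `C_mul_delta` : `p * delta p x = x ^ p - x(t ^ p)`.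
* `kron_remainder` : if `((X ^ p - Y)(X - Y ^ p) + p G)(x, y) = 0` and `x ^ p - y = p d` in a
  `p`-torsion-free ring, then `G(x, y) = - d (x - y ^ p)`.
* `aeval_diagPoly_red` : modulo `p`, with `P(X) := Ḡ(X, X ^ p) ∈ 𝔽_p[X]` (`diagPoly p G`) and
  `x̄ := x mod p`:  `P(x̄) = δ̄ * (x̄ ^ (p ^ 2) - x̄)`.
* `thetaFun_red_delta` : `θ δ̄ = θ x̄ * (x̄ ^ (p - 1) - (θ x̄) ^ (p - 1))`.
* `theta_pow_identity` : `(θ x̄) ^ (p - 1) * U ^ 2 = x̄ ^ (p - 1) * U ^ 2 - P'(x̄) * U - P(x̄)`,
  `U := x̄ ^ (p ^ 2) - x̄`.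
* `diagPoly_eval_ne_zero_iff` : the pole criterion. If `(θ x̄) ^ ((p - 1) n) * H(x̄) = T(x̄)`
  with polynomials `H`, `T`, `n > 0`, and `x̄` transcendental, then for `a` in a field of
  characteristic `p` with `a ^ (p ^ 2) = a` and `T(a) ≠ 0`:  `Ḡ(a, a ^ p) ≠ 0 ↔ H(a) = 0`.
-/

set_option autoImplicit false

noncomputable section

namespace Fermat.Agent.S36.helper6020

open ModularCurve
open Fermat.Agent.Lib.helper9242 (thetaFun)

/-! ## Coefficientwise reduction and division -/

/-- Reduction of the coefficients modulo `p`. -/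
abbrev red (p : ℕ) : LaurentSeries ℤ →+* LaurentSeries (ZMod p) :=
  coeffMap (Int.castRingHom (ZMod p))

theorem red_coeff (p : ℕ) (y : LaurentSeries ℤ) (n : ℤ) :
    (red p y).coeff n = ((y.coeff n : ℤ) : ZMod p) := rfl

theorem red_eq_zero_iff (p : ℕ) [NeZero p] (y : LaurentSeries ℤ) :
    red p y = 0 ↔ ∀ n, (p : ℤ) ∣ y.coeff n := by
  constructor
  · intro h n
    have h1 : (red p y).coeff n = 0 := by rw [h]; rfl
    rw [red_coeff] at h1
    exact (ZMod.intCast_zmod_eq_zero_iff_dvd _ _).mp h1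
  · intro h
    ext n
    rw [red_coeff]
    exact (ZMod.intCast_zmod_eq_zero_iff_dvd _ _).mpr (h n)

/-- Coefficientwise (floor) division by `p`. -/
def divNat (p : ℕ) (y : LaurentSeries ℤ) : LaurentSeries ℤ where
  coeff n := y.coeff n / (p : ℤ)
  isPWO_support' := y.isPWO_support.mono (fun n hn => by
    simp only [Function.mem_support, ne_eq] at hn ⊢
    exact fun h => hn (by rw [h, Int.zero_ediv]))

theorem divNat_coeff (p : ℕ) (y : LaurentSeries ℤ) (n : ℤ) :
    (divNat p y).coeff n = y.coeff n / (p : ℤ) := rfl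

theorem natCast_eq_C {R : Type*} [CommRing R] (n : ℕ) :
    ((n : ℕ) : LaurentSeries R) = HahnSeries.C (n : R) :=
  (map_natCast (HahnSeries.C : R →+* LaurentSeries R) n).symm

theorem natCast_mul_coeff {R : Type*} [CommRing R] (m : ℕ) (y : LaurentSeries R) (n : ℤ) :
    (((m : ℕ) : LaurentSeries R) * y).coeff n = (m : R) * y.coeff n := by
  rw [natCast_eq_C, HahnSeries.C_mul_eq_smul, HahnSeries.coeff_smul, smul_eq_mul]

theorem natCast_mul_divNat {p : ℕ} {y : LaurentSeries ℤ} (h : ∀ n, (p : ℤ) ∣ y.coeff n) :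
    ((p : ℕ) : LaurentSeries ℤ) * divNat p y = y := by
  ext n
  rw [natCast_mul_coeff, divNat_coeff]
  exact Int.mul_ediv_cancel' (h n)

/-- `ℤ((t))` has no `p`-torsion. -/
theorem eq_zero_of_natCast_mul_eq_zero {p : ℕ} (hp : p ≠ 0) {a : LaurentSeries ℤ}
    (h : ((p : ℕ) : LaurentSeries ℤ) * a = 0) : a = 0 := by
  ext n
  have h1 : (((p : ℕ) : LaurentSeries ℤ) * a).coeff n = 0 := by rw [h]; rfl
  rw [natCast_mul_coeff] at h1
  rcases mul_eq_zero.mp h1 with h2 | h2
  · exact absurd (by exact_mod_cast h2) hp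
  · exact h2

/-- `coeffMap` commutes with the substitution `t ↦ t ^ N`. -/
theorem coeffMap_qExpand {R S : Type*} [CommRing R] [CommRing S] (f : R →+* S) (N : ℕ)
    [NeZero N] (x : LaurentSeries R) :
    coeffMap f (qExpand R N x) = qExpand S N (coeffMap f x) := by
  ext n
  rw [coeffMap_coeff]
  by_cases hn : (N : ℤ) ∣ n
  · obtain ⟨k, rfl⟩ := hn
    rw [qExpand_coeff_mul, qExpand_coeff_mul, coeffMap_coeff]
  · rw [qExpand_coeff_of_not_dvd N x hn, qExpand_coeff_of_not_dvd N _ hn, map_zero]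

/-! ## The Frobenius congruence and `delta` -/

section Delta

variable (p : ℕ) [Fact p.Prime]

theorem red_qExpand (x : LaurentSeries ℤ) : red p (qExpand ℤ p x) = red p x ^ p := by
  rw [coeffMap_qExpand, Fermat.Agent.Lib.helper7516.qExpand_zmod]

theorem red_pow_sub_qExpand (x : LaurentSeries ℤ) : red p (x ^ p - qExpand ℤ p x) = 0 := by
  rw [map_sub, map_pow, red_qExpand, sub_self]

/-- `delta p x = (x ^ p - x(t ^ p)) / p`. -/
def delta (x : LaurentSeries ℤ) : LaurentSeries ℤ := divNat p (x ^ p - qExpand ℤ p x)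

/-- **Frobenius congruence over `ℤ`**: `p * delta p x = x ^ p - x(t ^ p)`. -/
theorem natCast_mul_delta (x : LaurentSeries ℤ) :
    ((p : ℕ) : LaurentSeries ℤ) * delta p x = x ^ p - qExpand ℤ p x :=
  natCast_mul_divNat ((red_eq_zero_iff p _).mp (red_pow_sub_qExpand p x))

theorem pow_sub_qExpand_eq (x : LaurentSeries ℤ) :
    x ^ p - qExpand ℤ p x = ((p : ℕ) : LaurentSeries ℤ) * delta p x :=
  (natCast_mul_delta p x).symm

end Delta

/-! ## The Kronecker remainder -/

section Kronecker

/-- Kronecker's polynomial `(X ^ p - Y) * (X - Y ^ p)` in `ℤ[X][Y]` (inner variable `X`, outer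
variable `Y`, as in the Prelude's `ModularPolynomialData`). -/
def kronPoly (p : ℕ) : Polynomial (Polynomial ℤ) :=
  (Polynomial.C (Polynomial.X ^ p) - Polynomial.X) *
    (Polynomial.C Polynomial.X - Polynomial.X ^ p)

/-- Evaluation of a bivariate integer polynomial `G ∈ ℤ[X][Y]` at `(x, y)`. -/
def ev2 {A : Type*} [CommRing A] (x y : A) : Polynomial (Polynomial ℤ) →+* A :=
  Polynomial.eval₂RingHom (Polynomial.aeval (R := ℤ) x).toRingHom y

theorem ev2_apply {A : Type*} [CommRing A] (x y : A) (G : Polynomial (Polynomial ℤ)) :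
    ev2 x y G = Polynomial.eval₂ (Polynomial.aeval (R := ℤ) x).toRingHom y G := rfl

@[simp]
theorem ev2_X {A : Type*} [CommRing A] (x y : A) : ev2 x y Polynomial.X = y := by
  simp [ev2]

@[simp]
theorem ev2_C {A : Type*} [CommRing A] (x y : A) (q : Polynomial ℤ) :
    ev2 x y (Polynomial.C q) = Polynomial.aeval x q := by
  simp [ev2]

theorem ev2_kronPoly {A : Type*} [CommRing A] (p : ℕ) (x y : A) :
    ev2 x y (kronPoly p) = (x ^ p - y) * (x - y ^ p) := by
  simp [kronPoly]

/-- `ev2` is natural in the ring. -/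
theorem map_ev2 {A B : Type*} [CommRing A] [CommRing B] (f : A →+* B) (x y : A)
    (G : Polynomial (Polynomial ℤ)) : f (ev2 x y G) = ev2 (f x) (f y) G := by
  have h : f.comp (ev2 x y) = ev2 (f x) (f y) := by
    refine Polynomial.ringHom_ext (fun q => ?_) ?_
    · rw [RingHom.comp_apply, ev2_C, ev2_C]
      exact Polynomial.hom_eval₂ q (algebraMap ℤ A) f x |>.trans (by
        rw [Polynomial.aeval_def]
        congr 1
        exact RingHom.ext_int _ _)
    · rw [RingHom.comp_apply, ev2_X, ev2_X]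
  exact RingHom.congr_fun h G

/-- **Kronecker remainder** (abstract form). In a `p`-torsion-free ring, if
`((X ^ p - Y)(X - Y ^ p) + p G)(x, y) = 0` and `x ^ p - y = p d`, then
`G(x, y) = - d (x - y ^ p)`. -/
theorem kron_remainder {A : Type*} [CommRing A] (p : ℕ)
    (htf : ∀ a : A, ((p : ℕ) : A) * a = 0 → a = 0) (x y d : A)
    (hd : x ^ p - y = ((p : ℕ) : A) * d) (G : Polynomial (Polynomial ℤ))
    (hG : ev2 x y (kronPoly p + ((p : ℕ) : Polynomial (Polynomial ℤ)) * G) = 0) :
    ev2 x y G = -(d * (x - y ^ p)) := by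
  rw [map_add, map_mul, map_natCast, ev2_kronPoly, hd] at hG
  have h1 : ((p : ℕ) : A) * (d * (x - y ^ p) + ev2 x y G) = 0 := by
    linear_combination hG
  have h2 := htf _ h1
  linear_combination h2

end Kronecker

/-! ## Reduction modulo `p` -/

section ModP

variable (p : ℕ) [Fact p.Prime]

/-- The diagonal polynomial `P(X) = Ḡ(X, X ^ p) ∈ 𝔽_p[X]`. -/
def diagPoly (G : Polynomial (Polynomial ℤ)) : Polynomial (ZMod p) :=
  Polynomial.eval₂ (Polynomial.mapRingHom (Int.castRingHom (ZMod p))) (Polynomial.X ^ p) G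

/-- `P(b) = Ḡ(b, b ^ p)` in every `𝔽_p`-algebra. -/
theorem aeval_diagPoly {B : Type*} [CommRing B] [Algebra (ZMod p) B] (b : B)
    (G : Polynomial (Polynomial ℤ)) :
    Polynomial.aeval b (diagPoly p G) = ev2 b (b ^ p) G := by
  have h : ((Polynomial.aeval b : Polynomial (ZMod p) →ₐ[ZMod p] B) :
        Polynomial (ZMod p) →+* B).comp
      (Polynomial.eval₂RingHom (Polynomial.mapRingHom (Int.castRingHom (ZMod p)))
        (Polynomial.X ^ p)) = ev2 b (b ^ p) := by
    refine Polynomial.ringHom_ext (fun q => ?_) ?_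
    · rw [RingHom.comp_apply, ev2_C, Polynomial.coe_eval₂RingHom, Polynomial.eval₂_C,
        Polynomial.coe_mapRingHom]
      show Polynomial.aeval b (q.map (Int.castRingHom (ZMod p))) = Polynomial.aeval b q
      rw [Polynomial.aeval_def, Polynomial.eval₂_map, Polynomial.aeval_def]
      congr 1
      exact RingHom.ext_int _ _
    · rw [RingHom.comp_apply, ev2_X, Polynomial.coe_eval₂RingHom, Polynomial.eval₂_X]
      simp
  exact RingHom.congr_fun h G

/-- **Kronecker remainder on `q`-series over `ℤ`.** -/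
theorem kron_remainder_int (x : LaurentSeries ℤ) (G : Polynomial (Polynomial ℤ))
    (hG : ev2 x (qExpand ℤ p x)
      (kronPoly p + ((p : ℕ) : Polynomial (Polynomial ℤ)) * G) = 0) :
    ev2 x (qExpand ℤ p x) G = -(delta p x * (x - qExpand ℤ p x ^ p)) :=
  kron_remainder p (fun _ h => eq_zero_of_natCast_mul_eq_zero (Fact.out : p.Prime).ne_zero h)
    x (qExpand ℤ p x) (delta p x) (pow_sub_qExpand_eq p x) G hG

/-- **Kronecker remainder modulo `p`**: `Ḡ(x̄, x̄ ^ p) = δ̄ * (x̄ ^ (p ^ 2) - x̄)`. -/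
theorem kron_remainder_red (x : LaurentSeries ℤ) (G : Polynomial (Polynomial ℤ))
    (hG : ev2 x (qExpand ℤ p x)
      (kronPoly p + ((p : ℕ) : Polynomial (Polynomial ℤ)) * G) = 0) :
    ev2 (red p x) (red p x ^ p) G = red p (delta p x) * (red p x ^ p ^ 2 - red p x) := by
  have h := congrArg (red p) (kron_remainder_int p x G hG)
  rw [map_ev2, red_qExpand, map_neg, map_mul, map_sub, map_pow, red_qExpand] at h
  rw [h, pow_two, pow_mul]
  ring

/-- The same with the diagonal polynomial: `P(x̄) = δ̄ * (x̄ ^ (p ^ 2) - x̄)`. -/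
theorem aeval_diagPoly_red (x : LaurentSeries ℤ) (G : Polynomial (Polynomial ℤ))
    (hG : ev2 x (qExpand ℤ p x)
      (kronPoly p + ((p : ℕ) : Polynomial (Polynomial ℤ)) * G) = 0) :
    Polynomial.aeval (red p x) (diagPoly p G) =
      red p (delta p x) * (red p x ^ p ^ 2 - red p x) := by
  rw [aeval_diagPoly, kron_remainder_red p x G hG]

end ModP

/-! ## The Euler derivation of `delta` -/

section Theta

theorem thetaFun_natCast_mul {R : Type*} [CommRing R] (m : ℕ) (f : LaurentSeries R) :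
    thetaFun R (((m : ℕ) : LaurentSeries R) * f) = ((m : ℕ) : LaurentSeries R) * thetaFun R f := by
  rw [natCast_eq_C, Fermat.Agent.Lib.helper9242.thetaFun_C_mul]

theorem thetaFun_pow_succ {R : Type*} [CommRing R] (f : LaurentSeries R) (n : ℕ) :
    thetaFun R (f ^ (n + 1)) = ((n + 1 : ℕ) : LaurentSeries R) * f ^ n * thetaFun R f := by
  induction n with
  | zero => simp
  | succ n ih =>
    rw [pow_succ, Fermat.Agent.Lib.helper9242.thetaFun_mul, ih]
    push_cast
    ring

theorem thetaFun_qExpand' {R : Type*} [CommRing R] (N : ℕ) [NeZero N] (f : LaurentSeries R) :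
    thetaFun R (qExpand R N f) = ((N : ℕ) : LaurentSeries R) * qExpand R N (thetaFun R f) := by
  rw [Fermat.Agent.Lib.helper9242.thetaFun_qExpand, natCast_eq_C]

theorem thetaFun_coeffMap {R S : Type*} [CommRing R] [CommRing S] (φ : R →+* S)
    (f : LaurentSeries R) : thetaFun S (coeffMap φ f) = coeffMap φ (thetaFun R f) :=
  Fermat.Agent.Lib.helper9242.thetaFun_map R φ f

/-- Chain rule: `θ (P(x)) = P'(x) * θ x`. -/
theorem thetaFun_aeval {R : Type*} [CommRing R] (P : Polynomial R) (x : LaurentSeries R) :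
    thetaFun R (Polynomial.aeval x P) =
      Polynomial.aeval x (Polynomial.derivative P) * thetaFun R x := by
  induction P using Polynomial.induction_on with
  | C a =>
    rw [Polynomial.aeval_C, Polynomial.derivative_C, map_zero, zero_mul,
      Fermat.Agent.Lib.helper9242.algebraMap_eq_C, Fermat.Agent.Lib.helper9242.thetaFun_C]
  | add P Q hP hQ =>
    rw [map_add, Fermat.Agent.Lib.helper9242.thetaFun_add, hP, hQ, map_add, map_add, add_mul]
  | monomial n a ih =>
    have hd : Polynomial.derivative (Polynomial.C a * Polynomial.X ^ n * Polynomial.X) =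
        Polynomial.derivative (Polynomial.C a * Polynomial.X ^ n) * Polynomial.X +
          Polynomial.C a * Polynomial.X ^ n := by
      rw [Polynomial.derivative_mul, Polynomial.derivative_X, mul_one]
    have e1 : Polynomial.aeval x (Polynomial.C a * Polynomial.X ^ n * Polynomial.X) =
        Polynomial.aeval x (Polynomial.C a * Polynomial.X ^ n) * x := by
      rw [map_mul (Polynomial.aeval x) _ Polynomial.X, Polynomial.aeval_X]
    have e2 : Polynomial.aeval x (Polynomial.derivative (Polynomial.C a * Polynomial.X ^ n) *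
          Polynomial.X + Polynomial.C a * Polynomial.X ^ n) =
        Polynomial.aeval x (Polynomial.derivative (Polynomial.C a * Polynomial.X ^ n)) * x +
          Polynomial.aeval x (Polynomial.C a * Polynomial.X ^ n) := by
      rw [map_add, map_mul (Polynomial.aeval x) _ Polynomial.X, Polynomial.aeval_X]
    rw [pow_succ, ← mul_assoc, hd, e1, e2, Fermat.Agent.Lib.helper9242.thetaFun_mul, ih]
    ring

theorem thetaFun_pow {R : Type*} [CommRing R] (f : LaurentSeries R) {n : ℕ} (hn : n ≠ 0) :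
    thetaFun R (f ^ n) = ((n : ℕ) : LaurentSeries R) * f ^ (n - 1) * thetaFun R f := by
  obtain ⟨m, rfl⟩ := Nat.exists_eq_succ_of_ne_zero hn
  exact thetaFun_pow_succ f m

variable (p : ℕ) [Fact p.Prime]

/-- `θ (delta p x) = x ^ (p - 1) * θ x - (θ x)(t ^ p)` over `ℤ`. -/
theorem thetaFun_delta (x : LaurentSeries ℤ) :
    thetaFun ℤ (delta p x) = x ^ (p - 1) * thetaFun ℤ x - qExpand ℤ p (thetaFun ℤ x) := by
  have hp : p ≠ 0 := (Fact.out : p.Prime).ne_zero
  apply sub_eq_zero.mp
  apply eq_zero_of_natCast_mul_eq_zero hp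
  rw [mul_sub, ← thetaFun_natCast_mul, natCast_mul_delta,
    Fermat.Agent.Lib.helper9242.thetaFun_sub, thetaFun_qExpand', thetaFun_pow x hp]
  ring

theorem natCast_self_eq_zero : ((p : ℕ) : LaurentSeries (ZMod p)) = 0 := by
  rw [natCast_eq_C, ZMod.natCast_self, map_zero]

/-- `θ δ̄ = θ x̄ * (x̄ ^ (p - 1) - (θ x̄) ^ (p - 1))` modulo `p`. -/
theorem thetaFun_red_delta (x : LaurentSeries ℤ) :
    thetaFun (ZMod p) (red p (delta p x)) =
      thetaFun (ZMod p) (red p x) *
        (red p x ^ (p - 1) - thetaFun (ZMod p) (red p x) ^ (p - 1)) := by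
  have hp : p ≠ 0 := (Fact.out : p.Prime).ne_zero
  have hp1 : p - 1 + 1 = p := Nat.succ_pred_eq_of_ne_zero hp
  have hb : thetaFun (ZMod p) (red p x) ^ p =
      thetaFun (ZMod p) (red p x) * thetaFun (ZMod p) (red p x) ^ (p - 1) := by
    rw [← pow_succ', hp1]
  rw [thetaFun_coeffMap, thetaFun_delta, map_sub, map_mul, map_pow, red_qExpand,
    ← thetaFun_coeffMap, hb]
  ring

end Theta

/-! ## The identity for `(θ x̄) ^ (p - 1)` and the pole criterion -/

section Identity

variable (p : ℕ) [Fact p.Prime]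

/-- `U = X ^ (p ^ 2) - X ∈ 𝔽_p[X]`. -/
def Upoly : Polynomial (ZMod p) := Polynomial.X ^ p ^ 2 - Polynomial.X

/-- `Q = X ^ (p - 1) * U ^ 2 - P' * U - P ∈ 𝔽_p[X]`, `P = diagPoly p G`. -/
def Qpoly (G : Polynomial (Polynomial ℤ)) : Polynomial (ZMod p) :=
  Polynomial.X ^ (p - 1) * Upoly p ^ 2 - Polynomial.derivative (diagPoly p G) * Upoly p -
    diagPoly p G

theorem thetaFun_pow_sq_sub (y : LaurentSeries (ZMod p)) :
    thetaFun (ZMod p) (y ^ p ^ 2 - y) = -thetaFun (ZMod p) y := by
  have hp : p ≠ 0 := (Fact.out : p.Prime).ne_zero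
  have h0 : ((p ^ 2 : ℕ) : LaurentSeries (ZMod p)) = 0 := by
    rw [Nat.cast_pow, natCast_self_eq_zero p, zero_pow two_ne_zero]
  rw [Fermat.Agent.Lib.helper9242.thetaFun_sub, thetaFun_pow y (pow_ne_zero 2 hp), h0,
    zero_mul, zero_mul, zero_sub]

/-- **The identity for `(θ x̄) ^ (p - 1)`**:
`(θ x̄) ^ (p - 1) * U ^ 2 = x̄ ^ (p - 1) * U ^ 2 - P'(x̄) * U - P(x̄)` with `U = x̄ ^ (p ^ 2) - x̄`,
`P = diagPoly p G`. -/
theorem theta_pow_identity (x : LaurentSeries ℤ) (G : Polynomial (Polynomial ℤ))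
    (hG : ev2 x (qExpand ℤ p x)
      (kronPoly p + ((p : ℕ) : Polynomial (Polynomial ℤ)) * G) = 0)
    (hθ : thetaFun (ZMod p) (red p x) ≠ 0) :
    thetaFun (ZMod p) (red p x) ^ (p - 1) * (red p x ^ p ^ 2 - red p x) ^ 2 =
      red p x ^ (p - 1) * (red p x ^ p ^ 2 - red p x) ^ 2 -
        Polynomial.aeval (red p x) (Polynomial.derivative (diagPoly p G)) *
          (red p x ^ p ^ 2 - red p x) -
        Polynomial.aeval (red p x) (diagPoly p G) := by
  have h1 := aeval_diagPoly_red p x G hG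
  have h2 := thetaFun_aeval (diagPoly p G) (red p x)
  rw [h1, Fermat.Agent.Lib.helper9242.thetaFun_mul, thetaFun_pow_sq_sub, thetaFun_red_delta] at h2
  have key : thetaFun (ZMod p) (red p x) *
      (thetaFun (ZMod p) (red p x) ^ (p - 1) * (red p x ^ p ^ 2 - red p x) ^ 2 -
        (red p x ^ (p - 1) * (red p x ^ p ^ 2 - red p x) ^ 2 -
          Polynomial.aeval (red p x) (Polynomial.derivative (diagPoly p G)) *
            (red p x ^ p ^ 2 - red p x) -
          Polynomial.aeval (red p x) (diagPoly p G))) = 0 := by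
    linear_combination (-(red p x ^ p ^ 2 - red p x)) * h2 +
      thetaFun (ZMod p) (red p x) * h1
  rcases mul_eq_zero.mp key with h | h
  · exact absurd h hθ
  · exact sub_eq_zero.mp h

theorem aeval_Upoly {B : Type*} [CommRing B] [Algebra (ZMod p) B] (b : B) :
    Polynomial.aeval b (Upoly p) = b ^ p ^ 2 - b := by
  simp [Upoly]

theorem aeval_Qpoly {B : Type*} [CommRing B] [Algebra (ZMod p) B] (b : B)
    (G : Polynomial (Polynomial ℤ)) :
    Polynomial.aeval b (Qpoly p G) =
      b ^ (p - 1) * (b ^ p ^ 2 - b) ^ 2 -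
        Polynomial.aeval b (Polynomial.derivative (diagPoly p G)) * (b ^ p ^ 2 - b) -
        Polynomial.aeval b (diagPoly p G) := by
  simp [Qpoly, Upoly]

/-- The polynomial identity behind the pole criterion: if `(θ x̄) ^ ((p - 1) n) * H(x̄) = T(x̄)`
and `x̄` is transcendental, then `T * U ^ (2 n) = Q ^ n * H` in `𝔽_p[X]`. -/
theorem poly_identity (x : LaurentSeries ℤ) (G : Polynomial (Polynomial ℤ))
    (hG : ev2 x (qExpand ℤ p x)
      (kronPoly p + ((p : ℕ) : Polynomial (Polynomial ℤ)) * G) = 0)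
    (hθ : thetaFun (ZMod p) (red p x) ≠ 0) (htr : Transcendental (ZMod p) (red p x))
    (H T : Polynomial (ZMod p)) (n : ℕ)
    (hHT : thetaFun (ZMod p) (red p x) ^ ((p - 1) * n) * Polynomial.aeval (red p x) H =
      Polynomial.aeval (red p x) T) :
    T * Upoly p ^ (2 * n) = Qpoly p G ^ n * H := by
  apply transcendental_iff_injective.mp htr
  rw [map_mul, map_mul, map_pow, map_pow, aeval_Upoly, aeval_Qpoly,
    ← theta_pow_identity p x G hG hθ, ← hHT, mul_pow, ← pow_mul, ← pow_mul]
  ring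

theorem alg_aux {A : Type*} [CommRing A] (L U₁ U₂ P₁ P₁' Xp : A) (h : U₁ + 1 = L * U₂) :
    Xp * (L * U₁) ^ 2 - (P₁ + L * P₁') * (L * U₁) - L * P₁ =
      L ^ 2 * (Xp * U₁ ^ 2 - (P₁ * U₂ + P₁' * U₁)) := by
  linear_combination (-L * P₁) * h

/-- **Pole criterion.** Assume `(θ x̄) ^ ((p - 1) n) * H(x̄) = T(x̄)` (`n > 0`, `x̄` transcendental,
`θ x̄ ≠ 0`). For `a` in a field of characteristic `p` with `a ^ (p ^ 2) = a` and `T(a) ≠ 0`:
`Ḡ(a, a ^ p) ≠ 0 ↔ H(a) = 0`. -/
theorem diagPoly_eval_ne_zero_iff (x : LaurentSeries ℤ) (G : Polynomial (Polynomial ℤ))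
    (hG : ev2 x (qExpand ℤ p x)
      (kronPoly p + ((p : ℕ) : Polynomial (Polynomial ℤ)) * G) = 0)
    (hθ : thetaFun (ZMod p) (red p x) ≠ 0) (htr : Transcendental (ZMod p) (red p x))
    (H T : Polynomial (ZMod p)) (n : ℕ) (hn : 0 < n)
    (hHT : thetaFun (ZMod p) (red p x) ^ ((p - 1) * n) * Polynomial.aeval (red p x) H =
      Polynomial.aeval (red p x) T)
    {k : Type*} [Field k] [Algebra (ZMod p) k] (a : k) (ha : a ^ p ^ 2 = a)
    (hT : Polynomial.aeval a T ≠ 0) :
    Polynomial.aeval a (diagPoly p G) ≠ 0 ↔ Polynomial.aeval a H = 0 := by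
  have hpoly := poly_identity p x G hG hθ htr H T n hHT
  have hUa : Polynomial.aeval a (Upoly p) = 0 := by rw [aeval_Upoly, ha, sub_self]
  have hQa : Polynomial.aeval a (Qpoly p G) = -Polynomial.aeval a (diagPoly p G) := by
    rw [aeval_Qpoly, ha, sub_self]
    ring
  constructor
  · intro hP
    have h := congrArg (Polynomial.aeval a) hpoly
    rw [map_mul, map_mul, map_pow, map_pow, hUa, hQa,
      zero_pow (by omega : 2 * n ≠ 0), mul_zero] at h
    rcases mul_eq_zero.mp h.symm with h1 | h1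
    · exact absurd (neg_eq_zero.mp (pow_eq_zero_iff (by omega : n ≠ 0) |>.mp h1)) hP
    · exact h1
  · intro hH hP
    have hpk : ((p : ℕ) : k) = 0 := by
      have h := map_natCast (algebraMap (ZMod p) k) p
      rw [ZMod.natCast_self, map_zero] at h
      exact h.symm
    set f : ZMod p →+* k := algebraMap (ZMod p) k with hf
    set L : Polynomial k := Polynomial.X - Polynomial.C a with hL
    have hLa : Polynomial.eval a L = 0 := by simp [hL]
    have hroot : ∀ R : Polynomial (ZMod p), Polynomial.aeval a R = 0 → L ∣ R.map f := by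
      intro R hR
      rw [hL, Polynomial.dvd_iff_isRoot, Polynomial.IsRoot.def, hf,
        Polynomial.eval_map_algebraMap]
      exact hR
    obtain ⟨H₁, hH₁⟩ := hroot H hH
    obtain ⟨P₁, hP₁⟩ := hroot (diagPoly p G) hP
    obtain ⟨U₁, hU₁⟩ := hroot (Upoly p) hUa
    have hdU : Polynomial.derivative ((Upoly p).map f) = -1 := by
      have h2 : ((p ^ 2 : ℕ) : Polynomial k) = 0 := by
        rw [← Polynomial.C_eq_natCast, Nat.cast_pow, hpk, zero_pow two_ne_zero, map_zero]
      simp only [Upoly, Polynomial.map_sub, Polynomial.map_pow, Polynomial.map_X,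
        Polynomial.derivative_sub, Polynomial.derivative_X_pow, Polynomial.derivative_X]
      rw [Polynomial.C_eq_natCast, h2, zero_mul, zero_sub]
    have hU₁a : Polynomial.eval a U₁ = -1 := by
      have h := congrArg (fun q => Polynomial.eval a (Polynomial.derivative q)) hU₁
      simp only [hdU, Polynomial.derivative_mul, Polynomial.eval_add, Polynomial.eval_mul, hLa,
        zero_mul, add_zero, Polynomial.eval_neg, Polynomial.eval_one] at h
      have hdL : Polynomial.derivative L = 1 := by simp [hL]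
      rw [hdL, Polynomial.eval_one, one_mul] at h
      exact h.symm
    obtain ⟨U₂, hU₂⟩ : L ∣ U₁ + 1 := by
      rw [hL, Polynomial.dvd_iff_isRoot, Polynomial.IsRoot.def, Polynomial.eval_add, hU₁a,
        Polynomial.eval_one, neg_add_cancel]
    have hPd : Polynomial.derivative ((diagPoly p G).map f) =
        P₁ + L * Polynomial.derivative P₁ := by
      have hdL : Polynomial.derivative L = 1 := by simp [hL]
      rw [hP₁, Polynomial.derivative_mul, hdL, one_mul]
    have hQ' : (Qpoly p G).map f =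
        L ^ 2 * (Polynomial.X ^ (p - 1) * U₁ ^ 2 -
          (P₁ * U₂ + Polynomial.derivative P₁ * U₁)) := by
      have e : (Qpoly p G).map f = Polynomial.X ^ (p - 1) * ((Upoly p).map f) ^ 2 -
          Polynomial.derivative ((diagPoly p G).map f) * (Upoly p).map f -
            (diagPoly p G).map f := by
        simp only [Qpoly, Polynomial.map_sub, Polynomial.map_mul, Polynomial.map_pow,
          Polynomial.map_X, Polynomial.derivative_map]
      rw [e, hPd, hP₁, hU₁]
      exact alg_aux L U₁ U₂ P₁ (Polynomial.derivative P₁) (Polynomial.X ^ (p - 1)) hU₂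
    have hmap := congrArg (Polynomial.map f) hpoly
    rw [Polynomial.map_mul, Polynomial.map_mul, Polynomial.map_pow, Polynomial.map_pow, hQ',
      hH₁, hU₁] at hmap
    have hL0 : L ^ (2 * n) ≠ 0 := pow_ne_zero _ (Polynomial.X_sub_C_ne_zero a)
    have hcancel : T.map f * U₁ ^ (2 * n) =
        L * ((Polynomial.X ^ (p - 1) * U₁ ^ 2 -
          (P₁ * U₂ + Polynomial.derivative P₁ * U₁)) ^ n * H₁) := by
      apply mul_left_cancel₀ hL0
      rw [mul_pow, mul_pow, ← pow_mul] at hmap
      linear_combination hmap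
    have hev := congrArg (Polynomial.eval a) hcancel
    rw [Polynomial.eval_mul, Polynomial.eval_mul, hLa, zero_mul, Polynomial.eval_pow, hU₁a,
      hf, Polynomial.eval_map_algebraMap] at hev
    rcases mul_eq_zero.mp hev with h | h
    · exact hT h
    · exact absurd (pow_eq_zero_iff (by omega : 2 * n ≠ 0) |>.mp h) (by norm_num)

end Identity

end Fermat.Agent.S36.helper6020
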