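import Mathlib
import Fermat.Prelude.Thm_ModularCurve_coeff_jqModC_neg_one
import Fermat.Agent.S28.helper3292_JqFacts
import Fermat.Agent.S36.helper6020_KronRemainder

/-!
# S36-F2-KRONCONG (helper6020): the Kronecker congruence for a modular equation of level `p`

Let `J = j mod p ∈ 𝔽_p((q))`. Every `Φ ∈ ℤ[X][Y]`, monic of degree `p + 1` in `Y`, with
`Φ̄(J, J ^ p) = 0` (F1 mod `p`) and `Φ̄(J ^ p, J) = 0` (F2 mod `p`) satisfies

  `Φ = (X ^ p - Y) * (X - Y ^ p) + p * G`   for some `G ∈ ℤ[X][Y]`.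

Proof. Over the field `L = 𝔽_p((q))` put `P = Φ̄(J, Y) ∈ L[Y]`.
* `Y - J ^ p` divides `P` by F1;
* `Y ^ p - J` is irreducible (`J = q⁻¹ + ⋯` is not a `p`-th power) and not coprime to `P`: push a
  Bezout relation through `V : q ↦ q ^ p` (`V f = f ^ p` on `L`) and evaluate at `Y = J` (F2);
* so `(Y - J ^ p) * (Y ^ p - J)` divides `P`; both are monic of degree `p + 1`, hence equal;
* `J` is transcendental over `𝔽_p`, so `Φ̄ = (X ^ p - Y) * (X - Y ^ p)` in `𝔽_p[X][Y]`, and the
  kernel of `ℤ[X][Y] → 𝔽_p[X][Y]` is generated by `p`.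

The same proof works for every parameter `x̄ ∈ 𝔽_p((q))` that is transcendental over `𝔽_p` with
`θ x̄ ≠ 0` (i.e. `x̄` is not a `p`-th power), e.g. the reduction of a Hauptmodul of an auxiliary
level prime to `p`.

Main statements:
* `kronecker_congruence_of_rel`     : general parameter `x̄` (hypotheses modulo `p`);
* `kronecker_congruence_of_rel_int` : integral parameter `x ∈ ℤ((q))`, with the hypothesis `hG`
                                       of `helper6020_KronRemainder` as a second conjunct;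
* `kronecker_congruence`       : the theorem above for `J = j mod p` (hypotheses modulo `p`);
* `kronecker_congruence_int`   : the same with F1, F2 over `ℤ((q))`;
* `thetaFun_jqModC_ne_zero`, `transcendental_jqModC_zmod`, `red_jqModC`;
* `ev2_eq_eval_map`            : `ev2 x y Φ = (Φ.map (eval₂RingHom (Int.castRingHom A) x)).eval y`
                                  (the shape of `S28.helper328.evalJ` / `S37.helper9343.evalZ`);
* `map_aeval_jqModC_eq`        : `Φ̄(J, Y) = (Y - J ^ p) * (Y ^ p - J)` over `𝔽_p((q))`.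
-/

set_option autoImplicit false

noncomputable section

namespace Fermat.Agent.S36.helper6020

open ModularCurve Polynomial
open Fermat.Agent.Lib.helper9242 (thetaFun)

/-! ## Adapters for two-variable evaluation -/

/-- Evaluation of the inner variable: `ℤ[X] → A`, `X ↦ x`. -/
def evX {A : Type*} [CommRing A] (x : A) : Polynomial ℤ →+* A :=
  (Polynomial.aeval (R := ℤ) x).toRingHom

@[simp]
theorem evX_X {A : Type*} [CommRing A] (x : A) : evX x Polynomial.X = x := by
  simp [evX]

@[simp]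
theorem evX_C {A : Type*} [CommRing A] (x : A) (a : ℤ) : evX x (Polynomial.C a) = (a : A) := by
  simp [evX]

/-- `evX x` is `eval₂RingHom (Int.castRingHom A) x` (the `evalJ` / `evalZ` of the landed files). -/
theorem evX_eq {A : Type*} [CommRing A] (x : A) :
    evX x = Polynomial.eval₂RingHom (Int.castRingHom A) x := by
  refine Polynomial.ringHom_ext (fun a => ?_) ?_
  · simp
  · simp

/-- `ev2 x y Φ` as the evaluation at `y` of the coefficientwise image `Φ(x, Y)`. -/
theorem ev2_eq_eval_map_evX {A : Type*} [CommRing A] (x y : A) (Φ : Polynomial (Polynomial ℤ)) :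
    ev2 x y Φ = (Φ.map (evX x)).eval y := by
  rw [Polynomial.eval_map]
  rfl

/-- `ev2 x y Φ` in the `(Φ.map (evalZ x)).eval y` shape used by the landed S28 / S37 files. -/
theorem ev2_eq_eval_map {A : Type*} [CommRing A] (x y : A) (Φ : Polynomial (Polynomial ℤ)) :
    ev2 x y Φ = (Φ.map (Polynomial.eval₂RingHom (Int.castRingHom A) x)).eval y := by
  rw [ev2_eq_eval_map_evX, evX_eq]

/-- A ring hom applied to the coefficients of `Φ(x, Y)` gives `Φ(f x, Y)`. -/
theorem map_map_evX {A B : Type*} [CommRing A] [CommRing B] (f : A →+* B) (x : A)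
    (Φ : Polynomial (Polynomial ℤ)) :
    (Φ.map (evX x)).map f = Φ.map (evX (f x)) := by
  rw [Polynomial.map_map]
  congr 1
  refine Polynomial.ringHom_ext (fun a => ?_) ?_
  · simp
  · simp

/-- The image of Kronecker's polynomial: `kron(x, Y) = (Y - x ^ p) * (Y ^ p - x)`. -/
theorem map_kronPoly {A : Type*} [CommRing A] (p : ℕ) (x : A) :
    (kronPoly p).map (evX x) = (X - C (x ^ p)) * (X ^ p - C x) := by
  simp only [kronPoly, Polynomial.map_mul, Polynomial.map_sub, Polynomial.map_C,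
    Polynomial.map_X, Polynomial.map_pow, evX_X, map_pow]
  ring

/-! ## The congruence -/

section Congruence

variable (p : ℕ) [hp : Fact p.Prime]

/-- A series `x̄ ∈ 𝔽_p((q))` with `θ x̄ ≠ 0` is not a `p`-th power. -/
theorem ne_pow_of_thetaFun_ne_zero {xb : LaurentSeries (ZMod p)}
    (hθ : thetaFun (ZMod p) xb ≠ 0) (b : LaurentSeries (ZMod p)) : b ^ p ≠ xb := by
  intro h
  apply hθ
  rw [← h, thetaFun_pow b hp.out.ne_zero, natCast_self_eq_zero p, zero_mul, zero_mul]

/-- `Y ^ p - x̄` is irreducible over `𝔽_p((q))` when `θ x̄ ≠ 0`. -/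
theorem irreducible_X_pow_sub_C {xb : LaurentSeries (ZMod p)}
    (hθ : thetaFun (ZMod p) xb ≠ 0) :
    Irreducible (X ^ p - C xb : Polynomial (LaurentSeries (ZMod p))) :=
  X_pow_sub_C_irreducible_of_prime hp.out (ne_pow_of_thetaFun_ne_zero p hθ)

/-- The factorisation `Φ̄(x̄, Y) = (Y - x̄ ^ p) * (Y ^ p - x̄)` over `𝔽_p((q))`, for every monic
`Φ` of degree `p + 1` with `Φ̄(x̄, x̄ ^ p) = 0 = Φ̄(x̄ ^ p, x̄)` and every `x̄` with `θ x̄ ≠ 0`. -/
theorem map_evX_eq_of_rel (xb : LaurentSeries (ZMod p)) (hθ : thetaFun (ZMod p) xb ≠ 0)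
    (Φ : Polynomial (Polynomial ℤ)) (hm : Φ.Monic) (hdeg : Φ.natDegree = p + 1)
    (h1 : ev2 xb (xb ^ p) Φ = 0) (h2 : ev2 (xb ^ p) xb Φ = 0) :
    Φ.map (evX xb) = (X - C (xb ^ p)) * (X ^ p - C xb) := by
  set P : Polynomial (LaurentSeries (ZMod p)) := Φ.map (evX xb) with hP
  have hp0 : p ≠ 0 := hp.out.ne_zero
  have hPm : P.Monic := hm.map _
  have hPdeg : P.natDegree = p + 1 := by rw [hP, hm.natDegree_map, hdeg]
  -- the linear factor
  have hlin : (X - C (xb ^ p)) ∣ P := by
    rw [Polynomial.dvd_iff_isRoot, Polynomial.IsRoot.def, hP, ← ev2_eq_eval_map_evX]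
    exact h1
  -- the inseparable factor
  have hirr : Irreducible (X ^ p - C xb : Polynomial (LaurentSeries (ZMod p))) :=
    irreducible_X_pow_sub_C p hθ
  have hins : (X ^ p - C xb) ∣ P := by
    rw [hirr.dvd_iff_not_isCoprime]
    rintro ⟨a, b, hab⟩
    have hV : ∀ f : LaurentSeries (ZMod p), qExpand (ZMod p) p f = f ^ p :=
      Fermat.Agent.Lib.helper7516.qExpand_zmod p
    have h3 := congrArg (fun f => (f.map (qExpand (ZMod p) p)).eval xb) hab
    simp only [Polynomial.map_add, Polynomial.map_mul, Polynomial.map_sub, Polynomial.map_pow,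
      Polynomial.map_X, Polynomial.map_C, Polynomial.map_one, Polynomial.eval_add,
      Polynomial.eval_mul, Polynomial.eval_sub, Polynomial.eval_pow, Polynomial.eval_X,
      Polynomial.eval_C, Polynomial.eval_one] at h3
    have h4 : (P.map (qExpand (ZMod p) p)).eval xb = 0 := by
      rw [hP, map_map_evX, ← ev2_eq_eval_map_evX, hV]
      exact h2
    rw [h4, hV, sub_self, mul_zero, mul_zero, add_zero] at h3
    exact zero_ne_one h3
  -- coprimality of the two factors
  have hcop : IsCoprime (X - C (xb ^ p)) (X ^ p - C xb : Polynomial (LaurentSeries (ZMod p))) := by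
    refine (hirr.coprime_iff_not_dvd.mpr ?_).symm
    intro hd
    have h5 := Polynomial.natDegree_le_of_dvd hd (Polynomial.X_sub_C_ne_zero _)
    rw [Polynomial.natDegree_X_pow_sub_C, Polynomial.natDegree_X_sub_C] at h5
    exact absurd h5 (not_le.mpr hp.out.one_lt)
  have hdvd := hcop.mul_dvd hlin hins
  have hmon : ((X - C (xb ^ p)) * (X ^ p - C xb) : Polynomial (LaurentSeries (ZMod p))).Monic :=
    (Polynomial.monic_X_sub_C _).mul (Polynomial.monic_X_pow_sub_C _ hp0)
  have hdeg' : ((X - C (xb ^ p)) * (X ^ p - C xb) :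
      Polynomial (LaurentSeries (ZMod p))).natDegree = p + 1 := by
    rw [(Polynomial.monic_X_sub_C _).natDegree_mul (Polynomial.monic_X_pow_sub_C _ hp0),
      Polynomial.natDegree_X_sub_C, Polynomial.natDegree_X_pow_sub_C, add_comm]
  exact Polynomial.eq_of_monic_of_dvd_of_natDegree_le hmon hPm hdvd (by rw [hPdeg, hdeg'])

/-- A polynomial in `ℤ[X][Y]` that vanishes coefficientwise modulo `p` is divisible by `p`. -/
theorem exists_eq_natCast_mul_of_map_eq_zero (D : Polynomial (Polynomial ℤ))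
    (h : D.map (Polynomial.mapRingHom (Int.castRingHom (ZMod p))) = 0) :
    ∃ G : Polynomial (Polynomial ℤ), D = ((p : ℕ) : Polynomial (Polynomial ℤ)) * G := by
  have hmem : D ∈ RingHom.ker
      (Polynomial.mapRingHom (Polynomial.mapRingHom (Int.castRingHom (ZMod p)))) := by
    rw [RingHom.mem_ker, Polynomial.coe_mapRingHom]
    exact h
  rw [Polynomial.ker_mapRingHom, Polynomial.ker_mapRingHom, ZMod.ker_intCastRingHom,
    Ideal.map_span, Ideal.map_span, Set.image_singleton, Set.image_singleton,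
    Ideal.mem_span_singleton] at hmem
  obtain ⟨G, hG⟩ := hmem
  refine ⟨G, ?_⟩
  rw [hG]
  congr 1

/-- **Kronecker's congruence, general parameter.** Let `x̄ ∈ 𝔽_p((q))` be transcendental over
`𝔽_p` with `θ x̄ ≠ 0`. A monic `Φ ∈ ℤ[X][Y]` of degree `p + 1` with `Φ̄(x̄, x̄ ^ p) = 0` and
`Φ̄(x̄ ^ p, x̄) = 0` is `(X ^ p - Y) * (X - Y ^ p) + p * G`. -/
theorem kronecker_congruence_of_rel (xb : LaurentSeries (ZMod p))
    (hθ : thetaFun (ZMod p) xb ≠ 0) (htr : Transcendental (ZMod p) xb)
    (Φ : Polynomial (Polynomial ℤ)) (hm : Φ.Monic) (hdeg : Φ.natDegree = p + 1)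
    (h1 : ev2 xb (xb ^ p) Φ = 0) (h2 : ev2 (xb ^ p) xb Φ = 0) :
    ∃ G : Polynomial (Polynomial ℤ),
      Φ = kronPoly p + ((p : ℕ) : Polynomial (Polynomial ℤ)) * G := by
  have hfac := map_evX_eq_of_rel p xb hθ Φ hm hdeg h1 h2
  rw [← map_kronPoly] at hfac
  -- factor `evX x̄` through `𝔽_p[X]`
  have hcomp : evX xb =
      ((Polynomial.aeval (R := ZMod p) xb).toRingHom).comp
        (Polynomial.mapRingHom (Int.castRingHom (ZMod p))) := by
    refine Polynomial.ringHom_ext (fun a => ?_) ?_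
    · simp
    · simp
  have hinj : Function.Injective
      (Polynomial.map ((Polynomial.aeval (R := ZMod p) xb).toRingHom)) :=
    Polynomial.map_injective _ (transcendental_iff_injective.mp htr)
  have hzero : (Φ - kronPoly p).map (Polynomial.mapRingHom (Int.castRingHom (ZMod p))) = 0 := by
    apply hinj
    rw [Polynomial.map_map, ← hcomp, Polynomial.map_sub, hfac, sub_self, Polynomial.map_zero]
  obtain ⟨G, hG⟩ := exists_eq_natCast_mul_of_map_eq_zero p (Φ - kronPoly p) hzero
  exact ⟨G, by rw [← hG]; ring⟩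

/-- **Kronecker's congruence for an integral parameter `x ∈ ℤ((q))`** (`x = j`, or a Hauptmodul
of an auxiliary level): from `Φ(x, x(q ^ p)) = 0 = Φ(x(q ^ p), x)` over `ℤ((q))`. The second
conjunct is the hypothesis `hG` of the statements of `helper6020_KronRemainder`. -/
theorem kronecker_congruence_of_rel_int (x : LaurentSeries ℤ)
    (hθ : thetaFun (ZMod p) (red p x) ≠ 0) (htr : Transcendental (ZMod p) (red p x))
    (Φ : Polynomial (Polynomial ℤ)) (hm : Φ.Monic) (hdeg : Φ.natDegree = p + 1)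
    (h1 : ev2 x (qExpand ℤ p x) Φ = 0) (h2 : ev2 (qExpand ℤ p x) x Φ = 0) :
    ∃ G : Polynomial (Polynomial ℤ),
      Φ = kronPoly p + ((p : ℕ) : Polynomial (Polynomial ℤ)) * G ∧
      ev2 x (qExpand ℤ p x) (kronPoly p + ((p : ℕ) : Polynomial (Polynomial ℤ)) * G) = 0 := by
  obtain ⟨G, hG⟩ := kronecker_congruence_of_rel p (red p x) hθ htr Φ hm hdeg
    (by
      have h := congrArg (red p) h1
      rwa [map_ev2, red_qExpand, map_zero] at h)
    (by
      have h := congrArg (red p) h2
      rwa [map_ev2, red_qExpand, map_zero] at h)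
  exact ⟨G, hG, by rw [← hG]; exact h1⟩

/-! ## The case `x = j` -/

/-- `θ J ≠ 0` for `J = j mod p` (every prime `p`). -/
theorem thetaFun_jqModC_ne_zero : thetaFun (ZMod p) (jqModC (ZMod p)) ≠ 0 := by
  intro h
  have h1 := congrArg (fun f => f.coeff (-1 : ℤ)) h
  simp only [Fermat.Agent.Lib.helper9242.thetaFun_coeff, coeff_jqModC_neg_one,
    HahnSeries.coeff_zero, mul_one] at h1
  have h2 : ((-1 : ℤ) : ZMod p) = -1 := by push_cast; rfl
  rw [h2, neg_eq_zero] at h1
  exact one_ne_zero h1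

/-- `J = j mod p` is transcendental over `𝔽_p`. -/
theorem transcendental_jqModC_zmod : Transcendental (ZMod p) (jqModC (ZMod p)) := by
  rw [transcendental_iff_injective]
  exact Fermat.Agent.S28.helper3292.aeval_jqModC_injective (ZMod p)

omit hp in
/-- `red p j = J`. -/
theorem red_jqModC : red p (jqModC ℤ) = jqModC (ZMod p) := coeffMap_jqModC _

/-- **Kronecker's congruence.** A monic `Φ ∈ ℤ[X][Y]` of degree `p + 1` with `Φ̄(J, J ^ p) = 0`
and `Φ̄(J ^ p, J) = 0` for `J = j mod p` is `(X ^ p - Y) * (X - Y ^ p) + p * G`. -/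
theorem kronecker_congruence (Φ : Polynomial (Polynomial ℤ)) (hm : Φ.Monic)
    (hdeg : Φ.natDegree = p + 1)
    (h1 : ev2 (jqModC (ZMod p)) (jqModC (ZMod p) ^ p) Φ = 0)
    (h2 : ev2 (jqModC (ZMod p) ^ p) (jqModC (ZMod p)) Φ = 0) :
    ∃ G : Polynomial (Polynomial ℤ),
      Φ = kronPoly p + ((p : ℕ) : Polynomial (Polynomial ℤ)) * G :=
  kronecker_congruence_of_rel p (jqModC (ZMod p)) (thetaFun_jqModC_ne_zero p)
    (transcendental_jqModC_zmod p) Φ hm hdeg h1 h2

/-- **Kronecker's congruence**, hypotheses over `ℤ((q))`: `Φ(j, j_p) = 0 = Φ(j_p, j)`. -/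
theorem kronecker_congruence_int (Φ : Polynomial (Polynomial ℤ)) (hm : Φ.Monic)
    (hdeg : Φ.natDegree = p + 1)
    (h1 : ev2 (jqModC ℤ) (qExpand ℤ p (jqModC ℤ)) Φ = 0)
    (h2 : ev2 (qExpand ℤ p (jqModC ℤ)) (jqModC ℤ) Φ = 0) :
    ∃ G : Polynomial (Polynomial ℤ),
      Φ = kronPoly p + ((p : ℕ) : Polynomial (Polynomial ℤ)) * G := by
  obtain ⟨G, hG, -⟩ := kronecker_congruence_of_rel_int p (jqModC ℤ)
    (by rw [red_jqModC]; exact thetaFun_jqModC_ne_zero p)
    (by rw [red_jqModC]; exact transcendental_jqModC_zmod p) Φ hm hdeg h1 h2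
  exact ⟨G, hG⟩

end Congruence

end Fermat.Agent.S36.helper6020
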