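import Mathlib
import Fermat.Agent.S28.helper28_PrimeIrr
import Fermat.Agent.S28.helper508_FormalPrime
import Fermat.Agent.S36.helper6020_KronCongruence

/-!
# S36-F2-KRONCONG (helper6020): the landed modular equation `Φ_p` with its Kronecker remainder

The modular polynomial `Φ` of the landed S28 files (`helper28.primeRel` applied to
`helper508.stmt_FormalPrime`) satisfies Kronecker's congruence
`Φ = (X ^ p - Y) * (X - Y ^ p) + p * G`, so the hypothesis `hG` of every statement of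
`helper6020_KronRemainder` holds for `x = j`.

* `exists_modularEquation_kron` : `Φ`, `G` with `Φ` monic of degree `p + 1`, `Φ = kron + p G`, and
  the relations (F1), (F2) over every commutative ring, in the `helper28.primeRel` shape;
* `exists_kron_jq`              : the same with (F1), (F2) over `ℤ((q))` in `ev2` form, i.e. the
  hypothesis `hG` for `x = jqModC ℤ`;
* `exists_kron_remainder_jq`    : the one-call form: `Ḡ(J, J ^ p) = δ̄ * (J ^ (p ^ 2) - J)` and the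
  identity `(θ J) ^ (p - 1) * S(J) ^ 2 = J ^ (p - 1) * S(J) ^ 2 - N'(J) * S(J) - N(J)` with
  `N = Ḡ(X, X ^ p)`, `S = X ^ (p ^ 2) - X`, for `J = j mod p`.
-/

set_option autoImplicit false

noncomputable section

namespace Fermat.Agent.S36.helper6020

open ModularCurve Polynomial
open Fermat.Agent.Lib.helper9242 (thetaFun)
open Fermat.Agent.S28.helper328 (evalJ)

/-- The `evalJ` of the landed S28 files is `evX`. -/
theorem evalJ_eq_evX {R : Type*} [CommRing R] (x : LaurentSeries R) : evalJ x = evX x :=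
  (evX_eq x).symm

/-- `ev2` in the `evalJ` shape of the landed S28 files. -/
theorem ev2_eq_eval_map_evalJ {R : Type*} [CommRing R] (x y : LaurentSeries R)
    (Φ : Polynomial (Polynomial ℤ)) : ev2 x y Φ = (Φ.map (evalJ x)).eval y := by
  rw [evalJ_eq_evX, ev2_eq_eval_map_evX]

variable (p : ℕ) [hp : Fact p.Prime]

/-- **The modular equation of level `p` with its Kronecker remainder.** -/
theorem exists_modularEquation_kron :
    ∃ Φ G : Polynomial (Polynomial ℤ), Φ.Monic ∧ Φ.natDegree = p + 1 ∧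
      Φ = kronPoly p + ((p : ℕ) : Polynomial (Polynomial ℤ)) * G ∧
      ∀ (R : Type) [CommRing R],
        (Φ.map (evalJ (jqModC R))).eval (qExpand R p (jqModC R)) = 0 ∧
        (Φ.map (evalJ (qExpand R p (jqModC R)))).eval (jqModC R) = 0 := by
  obtain ⟨Φ, hΦm, hΦdeg, hrel⟩ :=
    Fermat.Agent.S28.helper28.primeRel p (Fermat.Agent.S28.helper508.stmt_FormalPrime p)
  obtain ⟨h1, h2⟩ := hrel ℤ
  obtain ⟨G, hG⟩ := kronecker_congruence_int p Φ hΦm hΦdeg
    ((ev2_eq_eval_map_evalJ _ _ _).trans h1) ((ev2_eq_eval_map_evalJ _ _ _).trans h2)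
  exact ⟨Φ, G, hΦm, hΦdeg, hG, hrel⟩

/-- **The hypothesis `hG` of `helper6020_KronRemainder` holds for `x = j`.** -/
theorem exists_kron_jq :
    ∃ Φ G : Polynomial (Polynomial ℤ), Φ.Monic ∧ Φ.natDegree = p + 1 ∧
      Φ = kronPoly p + ((p : ℕ) : Polynomial (Polynomial ℤ)) * G ∧
      ev2 (jqModC ℤ) (qExpand ℤ p (jqModC ℤ))
        (kronPoly p + ((p : ℕ) : Polynomial (Polynomial ℤ)) * G) = 0 ∧
      ev2 (qExpand ℤ p (jqModC ℤ)) (jqModC ℤ)
        (kronPoly p + ((p : ℕ) : Polynomial (Polynomial ℤ)) * G) = 0 := by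
  obtain ⟨Φ, G, hΦm, hΦdeg, hG, hrel⟩ := exists_modularEquation_kron p
  obtain ⟨h1, h2⟩ := hrel ℤ
  refine ⟨Φ, G, hΦm, hΦdeg, hG, ?_, ?_⟩
  · rw [← hG]
    exact (ev2_eq_eval_map_evalJ _ _ _).trans h1
  · rw [← hG]
    exact (ev2_eq_eval_map_evalJ _ _ _).trans h2

/-- **One-call form for `j`.** There is `G ∈ ℤ[X][Y]` with `Φ_p = kron + p G` such that, with
`J = j mod p`, `N = Ḡ(X, X ^ p)` (`= diagPoly p G`) and `δ = (j ^ p - j(q ^ p)) / p`:
`G(j, j_p) = -δ (j - j_p ^ p)`, `N(J) = δ̄ (J ^ (p ^ 2) - J)`,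
`θ δ̄ = θ J (J ^ (p - 1) - (θ J) ^ (p - 1))` and
`(θ J) ^ (p - 1) S(J) ^ 2 = J ^ (p - 1) S(J) ^ 2 - N'(J) S(J) - N(J)`, `S = X ^ (p ^ 2) - X`. -/
theorem exists_kron_remainder_jq :
    ∃ Φ G : Polynomial (Polynomial ℤ), Φ.Monic ∧ Φ.natDegree = p + 1 ∧
      Φ = kronPoly p + ((p : ℕ) : Polynomial (Polynomial ℤ)) * G ∧
      (∀ (R : Type) [CommRing R],
        (Φ.map (evalJ (jqModC R))).eval (qExpand R p (jqModC R)) = 0 ∧
        (Φ.map (evalJ (qExpand R p (jqModC R)))).eval (jqModC R) = 0) ∧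
      ev2 (jqModC ℤ) (qExpand ℤ p (jqModC ℤ)) G =
        -(delta p (jqModC ℤ) * (jqModC ℤ - qExpand ℤ p (jqModC ℤ) ^ p)) ∧
      Polynomial.aeval (jqModC (ZMod p)) (diagPoly p G) =
        red p (delta p (jqModC ℤ)) * (jqModC (ZMod p) ^ p ^ 2 - jqModC (ZMod p)) ∧
      thetaFun (ZMod p) (red p (delta p (jqModC ℤ))) =
        thetaFun (ZMod p) (jqModC (ZMod p)) *
          (jqModC (ZMod p) ^ (p - 1) - thetaFun (ZMod p) (jqModC (ZMod p)) ^ (p - 1)) ∧
      thetaFun (ZMod p) (jqModC (ZMod p)) ^ (p - 1) *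
          (jqModC (ZMod p) ^ p ^ 2 - jqModC (ZMod p)) ^ 2 =
        jqModC (ZMod p) ^ (p - 1) * (jqModC (ZMod p) ^ p ^ 2 - jqModC (ZMod p)) ^ 2 -
          Polynomial.aeval (jqModC (ZMod p)) (Polynomial.derivative (diagPoly p G)) *
            (jqModC (ZMod p) ^ p ^ 2 - jqModC (ZMod p)) -
          Polynomial.aeval (jqModC (ZMod p)) (diagPoly p G) := by
  obtain ⟨Φ, G, hΦm, hΦdeg, hG, hrel⟩ := exists_modularEquation_kron p
  have h1 : ev2 (jqModC ℤ) (qExpand ℤ p (jqModC ℤ))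
      (kronPoly p + ((p : ℕ) : Polynomial (Polynomial ℤ)) * G) = 0 := by
    rw [← hG]
    exact (ev2_eq_eval_map_evalJ _ _ _).trans (hrel ℤ).1
  have hθ : thetaFun (ZMod p) (red p (jqModC ℤ)) ≠ 0 := by
    rw [red_jqModC]
    exact thetaFun_jqModC_ne_zero p
  have e1 := kron_remainder_int p (jqModC ℤ) G h1
  have e2 := aeval_diagPoly_red p (jqModC ℤ) G h1
  have e3 := thetaFun_red_delta p (jqModC ℤ)
  have e4 := theta_pow_identity p (jqModC ℤ) G h1 hθ
  rw [red_jqModC] at e2 e3 e4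
  exact ⟨Φ, G, hΦm, hΦdeg, hG, hrel, e1, e2, e3, e4⟩

end Fermat.Agent.S36.helper6020
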