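/-
S36, brick F2: RAT-TRANSFER.  Author: helper4118.  No sorry.

For an integral Laurent series `x` (a Hauptmodul such as `t₄`, `t₉`) write
`delta p x = (x^p - x(t^p)) / p` (`helper6020`).  Modulo `p` this "Frobenius quotient" is a
rational function of `x̄ = x mod p` as soon as the same holds for one series `j` which is a
rational function `j = A(x)/B(x)` of `x` with integer coefficients:

  `δ_x * (A'(x̄) - j̄ B'(x̄))^p = δ_j * B(x̄)^p + j̄^p * B̃(x̄) - Ã(x̄)`,

where `F^p = F(X^p) + p F̃` in `ℤ[X]`.  For `j` = the `j`-invariant the hypothesis is Kronecker's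
congruence (`helper6020.exists_kron_remainder_jq`), so

* `exists_rat_delta_of_jq` : if `jqModC ℤ * B(x) = A(x)`, `x̄` transcendental, `B̄ ≠ 0`, then
  `∃ a b : 𝔽_p[X], b ≠ 0 ∧ δ_x * b(x̄) = a(x̄)`.

No modular polynomial for `x` is needed.
-/
import Mathlib
import Fermat.Agent.S36.helper6020_KronModEq

set_option autoImplicit false

noncomputable section

namespace Fermat.Agent.S36.helper4118

open ModularCurve Polynomial
open Fermat.Agent.Lib.helper9242 (thetaFun)
open Fermat.Agent.S36.helper6020

/-! ## Evaluation of integer polynomials -/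

theorem map_evX {A A' : Type*} [CommRing A] [CommRing A'] (f : A →+* A') (x : A)
    (F : Polynomial ℤ) : f (evX x F) = evX (f x) F := by
  rw [evX_eq, evX_eq, coe_eval₂RingHom, coe_eval₂RingHom, hom_eval₂]
  congr 1
  exact RingHom.ext_int _ _

theorem evX_eq_eval_map {A : Type*} [CommRing A] (x : A) (F : Polynomial ℤ) :
    evX x F = (F.map (Int.castRingHom A)).eval x := by
  rw [evX_eq, coe_eval₂RingHom, eval_map]

theorem evX_eq_aeval_map' (p : ℕ) (xb : LaurentSeries (ZMod p)) (F : Polynomial ℤ) :
    evX xb F = aeval xb (F.map (Int.castRingHom (ZMod p))) := by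
  have hcomp : evX xb =
      ((aeval (R := ZMod p) xb).toRingHom).comp (mapRingHom (Int.castRingHom (ZMod p))) := by
    refine ringHom_ext (fun a => ?_) ?_
    · simp
    · simp
  rw [hcomp]
  rfl

/-- Taylor expansion to first order. -/
theorem exists_evX_add {A : Type*} [CommRing A] (u h : A) (F : Polynomial ℤ) :
    ∃ e : A, evX (u + h) F = evX u F + evX u (derivative F) * h + e * h ^ 2 := by
  obtain ⟨e, he⟩ := binomExpansion (F.map (Int.castRingHom A)) u h
  refine ⟨e, ?_⟩
  rw [evX_eq_eval_map, evX_eq_eval_map, evX_eq_eval_map, he, derivative_map]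

/-- `F^p = F(X^p) + p F̃` in `ℤ[X]`. -/
theorem exists_pow_eq_expand (p : ℕ) [Fact p.Prime] (F : Polynomial ℤ) :
    ∃ Ft : Polynomial ℤ, F ^ p = expand ℤ p F + C (p : ℤ) * Ft := by
  have h0 : (F ^ p - expand ℤ p F).map (Int.castRingHom (ZMod p)) = 0 := by
    rw [Polynomial.map_sub, Polynomial.map_pow, map_expand, ZMod.expand_card, sub_self]
  have hdvd : C (p : ℤ) ∣ F ^ p - expand ℤ p F := by
    rw [C_dvd_iff_dvd_coeff]
    intro i
    have h1 := congrArg (fun G => G.coeff i) h0
    simp only [coeff_map, coeff_zero, eq_intCast] at h1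
    exact (ZMod.intCast_zmod_eq_zero_iff_dvd _ _).mp h1
  obtain ⟨Ft, hFt⟩ := hdvd
  exact ⟨Ft, by rw [← hFt]; ring⟩

theorem evX_expand {A : Type*} [CommRing A] (p : ℕ) (u : A) (F : Polynomial ℤ) :
    evX u (expand ℤ p F) = evX (u ^ p) F := by
  show aeval u (expand ℤ p F) = aeval (u ^ p) F
  exact expand_aeval p F u

/-- Frobenius on `𝔽_p`-polynomials evaluated in an `𝔽_p`-algebra. -/
theorem aeval_pow_eq_pow_aeval (p : ℕ) [Fact p.Prime] {A : Type*} [CommRing A]
    [Algebra (ZMod p) A] (y : A) (f : Polynomial (ZMod p)) :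
    aeval (y ^ p) f = aeval y f ^ p := by
  rw [← expand_aeval, ZMod.expand_card, map_pow]

/-! ## The two rules for `delta` -/

section Delta

variable (p : ℕ) [Fact p.Prime]

/-- `x(t^p) = x^p - p * delta p x`. -/
theorem qExpand_eq_pow_sub (y : LaurentSeries ℤ) :
    qExpand ℤ p y = y ^ p - ((p : ℕ) : LaurentSeries ℤ) * delta p y := by
  rw [natCast_mul_delta]
  ring

/-- **`delta` of a polynomial**: `δ(F(x)) = F̃(x) + δ(x) F'(x^p) + p * (…)`. -/
theorem exists_delta_evX (x : LaurentSeries ℤ) (F Ft : Polynomial ℤ)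
    (hFt : F ^ p = expand ℤ p F + C (p : ℤ) * Ft) :
    ∃ e : LaurentSeries ℤ, delta p (evX x F)
      = evX x Ft + delta p x * evX (x ^ p) (derivative F) + ((p : ℕ) : LaurentSeries ℤ) * e := by
  have hp : p ≠ 0 := (Fact.out : p.Prime).ne_zero
  obtain ⟨e', he'⟩ := exists_evX_add (x ^ p) (-(((p : ℕ) : LaurentSeries ℤ) * delta p x)) F
  refine ⟨-(e' * delta p x ^ 2), ?_⟩
  apply sub_eq_zero.mp
  apply eq_zero_of_natCast_mul_eq_zero hp
  have h1 : qExpand ℤ p (evX x F) = evX (x ^ p + -(((p : ℕ) : LaurentSeries ℤ) * delta p x)) F := by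
    rw [map_evX, qExpand_eq_pow_sub, sub_eq_add_neg]
  have h2 : evX x F ^ p = evX (x ^ p) F + ((p : ℕ) : LaurentSeries ℤ) * evX x Ft := by
    have h := congrArg (evX x) hFt
    rw [map_pow, map_add, map_mul, evX_expand, evX_C] at h
    rw [h]
    push_cast
    ring
  rw [mul_sub, natCast_mul_delta, h1, he', h2]
  ring

/-- **Leibniz rule for `delta`**: if `j * b = a` then
`δ(a) = δ(j) b^p + j^p δ(b) - p δ(j) δ(b)`. -/
theorem delta_of_mul_eq {j a b : LaurentSeries ℤ} (h : j * b = a) :
    delta p a = delta p j * b ^ p + j ^ p * delta p b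
      - ((p : ℕ) : LaurentSeries ℤ) * (delta p j * delta p b) := by
  have hp : p ≠ 0 := (Fact.out : p.Prime).ne_zero
  apply sub_eq_zero.mp
  apply eq_zero_of_natCast_mul_eq_zero hp
  have h1 : qExpand ℤ p a = qExpand ℤ p j * qExpand ℤ p b := by rw [← h, map_mul]
  have h2 : a ^ p = j ^ p * b ^ p := by rw [← h, mul_pow]
  have h3 := natCast_mul_delta p a
  rw [h1, qExpand_eq_pow_sub p j, qExpand_eq_pow_sub p b, h2] at h3
  linear_combination h3

end Delta

/-! ## The transfer -/

section Transfer

variable (p : ℕ) [hp : Fact p.Prime]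

/-- **RAT-TRANSFER.**  If `j * B(x) = A(x)` over `ℤ((t))` and the Frobenius quotient of `j` is
a rational function of `j̄` modulo `p`, then the Frobenius quotient of `x` is a rational function
of `x̄` modulo `p`. -/
theorem rat_transfer (x jZ : LaurentSeries ℤ) (A B : Polynomial ℤ)
    (hrel : jZ * evX x B = evX x A)
    (htr : Transcendental (ZMod p) (red p x))
    (hBne : B.map (Int.castRingHom (ZMod p)) ≠ 0)
    (hθj : thetaFun (ZMod p) (red p jZ) ≠ 0)
    (hj : ∃ a b : Polynomial (ZMod p), aeval (red p jZ) b ≠ 0 ∧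
      red p (delta p jZ) * aeval (red p jZ) b = aeval (red p jZ) a) :
    ∃ a b : Polynomial (ZMod p), b ≠ 0 ∧
      red p (delta p x) * aeval (red p x) b = aeval (red p x) a := by
  classical
  -- notation
  set xb : LaurentSeries (ZMod p) := red p x with hxb
  set jb : LaurentSeries (ZMod p) := red p jZ with hjb
  set Am : Polynomial (ZMod p) := A.map (Int.castRingHom (ZMod p)) with hAm
  set Bm : Polynomial (ZMod p) := B.map (Int.castRingHom (ZMod p)) with hBm
  have hpL : ((p : ℕ) : LaurentSeries (ZMod p)) = 0 := natCast_self_eq_zero p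
  have hredp : ∀ y : LaurentSeries ℤ, red p (((p : ℕ) : LaurentSeries ℤ) * y) = 0 := by
    intro y
    rw [map_mul, map_natCast, hpL, zero_mul]
  have hred_evX : ∀ F : Polynomial ℤ, red p (evX x F)
      = aeval xb (F.map (Int.castRingHom (ZMod p))) := by
    intro F
    rw [map_evX, evX_eq_aeval_map']
  have hred_evX_pow : ∀ F : Polynomial ℤ, red p (evX (x ^ p) F)
      = aeval xb (F.map (Int.castRingHom (ZMod p))) ^ p := by
    intro F
    rw [map_evX, map_pow, evX_eq_aeval_map', aeval_pow_eq_pow_aeval]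
  -- the relation modulo `p`
  have hrelb : jb * aeval xb Bm = aeval xb Am := by
    have h := congrArg (red p) hrel
    rwa [map_mul, hred_evX, hred_evX] at h
  have hBx : aeval xb Bm ≠ 0 := fun h => hBne ((transcendental_iff.mp htr) Bm h)
  -- `delta` of `A(x)` and `B(x)` modulo `p`
  obtain ⟨At, hAt⟩ := exists_pow_eq_expand p A
  obtain ⟨Bt, hBt⟩ := exists_pow_eq_expand p B
  obtain ⟨eA, heA⟩ := exists_delta_evX p x A At hAt
  obtain ⟨eB, heB⟩ := exists_delta_evX p x B Bt hBt
  set dx : LaurentSeries (ZMod p) := red p (delta p x) with hdx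
  set dj : LaurentSeries (ZMod p) := red p (delta p jZ) with hdj
  have hdA : red p (delta p (evX x A))
      = aeval xb (At.map (Int.castRingHom (ZMod p))) + dx * aeval xb (derivative Am) ^ p := by
    rw [heA, map_add, map_add, map_mul, hredp, add_zero, hred_evX, hred_evX_pow, derivative_map]
  have hdB : red p (delta p (evX x B))
      = aeval xb (Bt.map (Int.castRingHom (ZMod p))) + dx * aeval xb (derivative Bm) ^ p := by
    rw [heB, map_add, map_add, map_mul, hredp, add_zero, hred_evX, hred_evX_pow, derivative_map]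
  -- Leibniz
  have hleib : red p (delta p (evX x A))
      = dj * aeval xb Bm ^ p + jb ^ p * red p (delta p (evX x B)) := by
    rw [delta_of_mul_eq p hrel, map_sub, map_add, map_mul, map_mul, map_pow, map_pow, hredp,
      sub_zero, hred_evX]
  -- the key relation
  set W : LaurentSeries (ZMod p) := aeval xb (derivative Am) - jb * aeval xb (derivative Bm)
    with hW
  have hkey : dx * (aeval xb (derivative Am) ^ p - jb ^ p * aeval xb (derivative Bm) ^ p)
      = dj * aeval xb Bm ^ p + jb ^ p * aeval xb (Bt.map (Int.castRingHom (ZMod p)))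
        - aeval xb (At.map (Int.castRingHom (ZMod p))) := by
    rw [hdA, hdB] at hleib
    linear_combination hleib
  -- `W ≠ 0`
  have hWθ : W * thetaFun (ZMod p) xb = aeval xb Bm * thetaFun (ZMod p) jb := by
    have h := congrArg (thetaFun (ZMod p)) hrelb
    rw [Fermat.Agent.Lib.helper9242.thetaFun_mul, thetaFun_aeval, thetaFun_aeval] at h
    rw [hW]
    linear_combination -h
  have hW0 : W ≠ 0 := by
    intro h
    rw [h, zero_mul] at hWθ
    exact (mul_ne_zero hBx hθj) hWθ.symm
  have hWp : aeval xb (derivative Am) ^ p - jb ^ p * aeval xb (derivative Bm) ^ p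
      = qExpand (ZMod p) p W := by
    rw [hW, map_sub, map_mul, Fermat.Agent.Lib.helper7516.qExpand_zmod,
      Fermat.Agent.Lib.helper7516.qExpand_zmod, Fermat.Agent.Lib.helper7516.qExpand_zmod]
  have hWp0 : qExpand (ZMod p) p W ≠ 0 := by
    rw [Fermat.Agent.Lib.helper7516.qExpand_zmod]
    exact pow_ne_zero _ hW0
  -- membership in the field generated by `xb`
  set E : IntermediateField (ZMod p) (LaurentSeries (ZMod p)) :=
    IntermediateField.adjoin (ZMod p) {xb} with hE
  have hxE : xb ∈ E := IntermediateField.mem_adjoin_simple_self (ZMod p) xb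
  have haE : ∀ f : Polynomial (ZMod p), aeval xb f ∈ E := by
    intro f
    have h : aeval xb f = ((aeval (⟨xb, hxE⟩ : E) f : E) : LaurentSeries (ZMod p)) := by
      rw [← IntermediateField.coe_val, ← aeval_algHom_apply]
      rfl
    rw [h]
    exact SetLike.coe_mem _
  have hjE : jb ∈ E := by
    have h : jb = aeval xb Am / aeval xb Bm := by
      rw [eq_div_iff hBx]
      exact hrelb
    rw [h]
    exact E.div_mem (haE _) (haE _)
  have hdjE : dj ∈ E := by
    obtain ⟨a, b, hb, hab⟩ := hj
    have haE' : ∀ f : Polynomial (ZMod p), aeval jb f ∈ E := by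
      intro f
      have h : aeval jb f = ((aeval (⟨jb, hjE⟩ : E) f : E) : LaurentSeries (ZMod p)) := by
        rw [← IntermediateField.coe_val, ← aeval_algHom_apply]
        rfl
      rw [h]
      exact SetLike.coe_mem _
    have h : dj = aeval jb a / aeval jb b := by
      rw [eq_div_iff hb]
      exact hab
    rw [h]
    exact E.div_mem (haE' _) (haE' _)
  have hdxE : dx ∈ E := by
    have h : dx = (dj * aeval xb Bm ^ p + jb ^ p * aeval xb (Bt.map (Int.castRingHom (ZMod p)))
        - aeval xb (At.map (Int.castRingHom (ZMod p))))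
        / (aeval xb (derivative Am) ^ p - jb ^ p * aeval xb (derivative Bm) ^ p) := by
      rw [eq_div_iff (by rw [hWp]; exact hWp0)]
      exact hkey
    rw [h]
    refine E.div_mem (E.sub_mem (E.add_mem (E.mul_mem hdjE (pow_mem (haE _) _))
      (E.mul_mem (pow_mem hjE _) (haE _))) (haE _))
      (E.sub_mem (pow_mem (haE _) _) (E.mul_mem (pow_mem hjE _) (pow_mem (haE _) _)))
  -- conclusion
  obtain ⟨r, s, hrs⟩ := (IntermediateField.mem_adjoin_simple_iff (ZMod p) dx).mp hdxE
  by_cases hs : aeval xb s = 0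
  · refine ⟨0, 1, one_ne_zero, ?_⟩
    rw [hrs, hs, div_zero, zero_mul, map_zero]
  · refine ⟨r, s, fun h => hs (by rw [h, map_zero]), ?_⟩
    rw [hrs, div_mul_cancel₀ _ hs]

/-- **RAT for a Hauptmodul.**  If the `j`-invariant is the rational function `A(x)/B(x)` of the
integral series `x`, then modulo `p` the Frobenius quotient `(x^p - x(t^p))/p` is a rational
function of `x̄`. -/
theorem exists_rat_delta_of_jq (x : LaurentSeries ℤ) (A B : Polynomial ℤ)
    (hrel : jqModC ℤ * evX x B = evX x A)
    (htr : Transcendental (ZMod p) (red p x))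
    (hBne : B.map (Int.castRingHom (ZMod p)) ≠ 0) :
    ∃ a b : Polynomial (ZMod p), b ≠ 0 ∧
      red p (delta p x) * aeval (red p x) b = aeval (red p x) a := by
  refine rat_transfer p x (jqModC ℤ) A B hrel htr hBne ?_ ?_
  · rw [red_jqModC]
    exact thetaFun_jqModC_ne_zero p
  · obtain ⟨_, G, _, _, _, _, _, h6, _, _⟩ := exists_kron_remainder_jq p
    refine ⟨diagPoly p G, X ^ p ^ 2 - X, ?_, ?_⟩
    · rw [red_jqModC]
      intro h
      have h1 := (transcendental_iff.mp (transcendental_jqModC_zmod p)) _ h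
      have hp1 : 1 < p ^ 2 := Nat.one_lt_pow (by norm_num) hp.out.one_lt
      exact FiniteField.X_pow_card_sub_X_ne_zero (ZMod p) hp1 h1
    · rw [red_jqModC, h6]
      simp only [map_sub, map_pow, aeval_X]

end Transfer

end Fermat.Agent.S36.helper4118
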