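/-
S36, brick F2 (thickness one at the crossing points of level `q`) and ORD-MID, abstract core.
Author: helper4118.  Mathlib only, no sorry.  Findings row #3292, board row #2267.

Setting (all inside one field/domain `Ω`, in the application `Ω = k((x))` with the Euler
derivation `θ = x d/dx`):

* `T`   : reduction of a Hauptmodul `t` (e.g. `t₄`), `θ T ≠ 0`;
* `δ`   : reduction of the Kronecker cofactor `(t^q - t(x^q)) / q`, so that
          `θ δ = θ T * (T^(q-1) - (θ T)^(q-1))`              (hypothesis `hb`);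
* `Dl`  : reduction of `Δ`, with the "theta-six" relation
          `(θ T)^6 * P₂(T) = P₁(T) * Dl`                      (hypothesis `hc`),
          e.g. `P₁ = X^2 (X+16)^5`, `P₂ = 1` for `t₄` (see `helper4118_ThetaSix`);
* `D`   : reduction of the modular unit `Δ(z)/Δ(qz)` times a cuspidal factor `P₃(t)` making it
          regular on the chart, `D * Dl^(q-1) = P₃(T)`         (hypothesis `hd`);
          (`Δ(z)/Δ(qz)` itself has poles at the cusps of the `∞`-component lying over finite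
          values of `t`, e.g. over `t₄ = 0, -16`; `P₃ = (X^4 (X+16))^(q-1)` removes them);
* `c`   : reduction of `g₀ = (t^q - t_q)(t - t_q^q)/q`, `c = δ * (T - T^(q^2))`, a rational
          function of `T`: `c * d_c(T) = n_c(T)`.

`B` is a `k`-subalgebra of `Ω` (the reduced chart ring) containing `T`, `D`, `c`, and
`ev : B →ₐ[k] k` a point.  Then

* `thick_core`  : if `ev D = 0` (the point is a crossing point) and `P₁`, `P₃`, `d_c` do not
  vanish at `ev T` (the point is not a cusp), then `ev c ≠ 0` (thickness one) and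
  `(ev T)^(q^2) = ev T`;
* `unit_core`   : if `P₁(ev T) ≠ 0`, then any `r ∈ B` with `r = (θ T)^(q-1)` has `ev r ≠ 0`
  (ORD-MID: `(θ T)^(q-1)` does not vanish at any point of the chart away from the cusps; at
  a crossing point this says that `r` itself is not regular there, see `thick_core`).

No count of crossing points, no Hasse invariant, no supersingular polynomial is used.
-/
import Mathlib

set_option autoImplicit false

namespace Fermat.Agent.S36.helper4118

open Polynomial

section Core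

variable {k Ω : Type*} [Field k] [CommRing Ω] [IsDomain Ω] [Algebra k Ω]

/-- **Key identity.**  If `δ * m(T) = n(T)` for polynomials `n`, `m` (i.e. `δ` is the rational
function `n/m` of `T`), the Kronecker relation `hb` and the theta-six relation `hc`, `hd` give
`s(T)^6 * P₂(T)^(q-1) * D = P₁(T)^(q-1) * m(T)^12 * P₃(T)` with
`s = X^(q-1) m^2 - (n' m - n m')`. -/
theorem key_identity (θ : Derivation k Ω Ω) (q : ℕ) {T δ Dl D : Ω} (hθT : θ T ≠ 0)
    (hb : θ δ = θ T * (T ^ (q - 1) - θ T ^ (q - 1)))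
    {P1 P2 P3 : k[X]} (hc : θ T ^ 6 * aeval T P2 = aeval T P1 * Dl)
    (hd : D * Dl ^ (q - 1) = aeval T P3)
    {n m : k[X]} (hnm : δ * aeval T m = aeval T n) :
    aeval T (X ^ (q - 1) * m ^ 2 - (derivative n * m - n * derivative m)) ^ 6
        * aeval T P2 ^ (q - 1) * D
      = aeval T P1 ^ (q - 1) * aeval T m ^ 12 * aeval T P3 := by
  -- differentiate `δ * m(T) = n(T)`
  have h1 : θ δ * aeval T m + δ * (aeval T (derivative m) * θ T)
      = aeval T (derivative n) * θ T := by
    have h := congrArg θ hnm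
    rw [θ.leibniz, θ.map_aeval, θ.map_aeval] at h
    simp only [smul_eq_mul] at h
    linear_combination h
  have h2 : θ T * ((T ^ (q - 1) - θ T ^ (q - 1)) * aeval T m ^ 2)
      = θ T * (aeval T (derivative n) * aeval T m - aeval T n * aeval T (derivative m)) := by
    linear_combination (aeval T m) * h1 - (aeval T (derivative m) * θ T) * hnm
      - (aeval T m) ^ 2 * hb
  have h3 := mul_left_cancel₀ hθT h2
  have h4 : aeval T (X ^ (q - 1) * m ^ 2 - (derivative n * m - n * derivative m))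
      = θ T ^ (q - 1) * aeval T m ^ 2 := by
    simp only [map_sub, map_mul, map_pow, aeval_X]
    linear_combination h3
  have hc' : (θ T ^ (q - 1)) ^ 6 * aeval T P2 ^ (q - 1) = aeval T P1 ^ (q - 1) * Dl ^ (q - 1) := by
    have h := congrArg (fun z => z ^ (q - 1)) hc
    simp only [mul_pow] at h
    rw [← h]
    ring
  rw [h4]
  linear_combination (aeval T m ^ 12 * D) * hc' + (aeval T P1 ^ (q - 1) * aeval T m ^ 12) * hd

variable (B : Subalgebra k Ω) (ev : B →ₐ[k] k)

omit [IsDomain Ω] in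
/-- Evaluation of a polynomial in an element of `B` at the point `ev`. -/
theorem ev_aeval (T : B) (p : k[X]) : ev (aeval T p) = p.eval (ev T) := by
  rw [← aeval_algHom_apply, coe_aeval_eq_eval]

/-- **Vanishing of denominators.**  Under `ev D = 0`, `P₁(ev T) ≠ 0` and `P₃(ev T) ≠ 0`, every
denominator `m` of the rational function `δ = n/m` of `T` vanishes at `ev T`. -/
theorem eval_denominator_eq_zero (θ : Derivation k Ω Ω) (q : ℕ) (T D : B) {δ Dl : Ω}
    (hθT : θ (T : Ω) ≠ 0)
    (hb : θ δ = θ (T : Ω) * ((T : Ω) ^ (q - 1) - θ (T : Ω) ^ (q - 1)))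
    {P1 P2 P3 : k[X]} (hc : θ (T : Ω) ^ 6 * aeval (T : Ω) P2 = aeval (T : Ω) P1 * Dl)
    (hd : (D : Ω) * Dl ^ (q - 1) = aeval (T : Ω) P3)
    (hev : ev D = 0) (hP1 : P1.eval (ev T) ≠ 0) (hP3 : P3.eval (ev T) ≠ 0)
    {n m : k[X]} (hnm : δ * aeval (T : Ω) m = aeval (T : Ω) n) :
    m.eval (ev T) = 0 := by
  have h := key_identity θ q hθT hb hc hd hnm
  have hB : aeval T (X ^ (q - 1) * m ^ 2 - (derivative n * m - n * derivative m)) ^ 6
        * aeval T P2 ^ (q - 1) * D
      = aeval T P1 ^ (q - 1) * aeval T m ^ 12 * aeval T P3 := by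
    apply Subtype.ext
    simp only [MulMemClass.coe_mul, SubmonoidClass.coe_pow, aeval_subalgebra_coe]
    exact h
  have h5 := congrArg ev hB
  simp only [map_mul, map_pow, ev_aeval, hev, mul_zero] at h5
  rcases mul_eq_zero.mp h5.symm with h6 | h6
  · rcases mul_eq_zero.mp h6 with h7 | h7
    · exact absurd (eq_zero_of_pow_eq_zero h7) hP1
    · exact (pow_eq_zero_iff (by norm_num)).mp h7
  · exact absurd h6 hP3

/-- **Thickness one, abstract core.**  At a point `ev` of the reduced chart ring `B` where the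
reduction `D` of the (cusp-corrected) modular unit `P₃(t) Δ(z)/Δ(qz)` vanishes (a crossing
point) and which is not a cusp (`P₁(ev T) ≠ 0`, `P₃(ev T) ≠ 0`, `d_c(ev T) ≠ 0`), the reduction
`c` of the Kronecker element `g₀ = (t^q - t_q)(t - t_q^q)/q` does not vanish, and `ev T` is
fixed by `x ↦ x^(q^2)`. -/
theorem thick_core (θ : Derivation k Ω Ω) (q : ℕ) (hq : (q : k) = 0) (T D c : B) {δ Dl : Ω}
    (hθT : θ (T : Ω) ≠ 0)
    (hb : θ δ = θ (T : Ω) * ((T : Ω) ^ (q - 1) - θ (T : Ω) ^ (q - 1)))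
    {P1 P2 P3 : k[X]} (hc : θ (T : Ω) ^ 6 * aeval (T : Ω) P2 = aeval (T : Ω) P1 * Dl)
    (hd : (D : Ω) * Dl ^ (q - 1) = aeval (T : Ω) P3)
    (hcδ : (c : Ω) = δ * ((T : Ω) - (T : Ω) ^ (q ^ 2)))
    {nc dc : k[X]} (hrat : c * aeval T dc = aeval T nc)
    (hev : ev D = 0) (hP1 : P1.eval (ev T) ≠ 0) (hP3 : P3.eval (ev T) ≠ 0)
    (hdc : dc.eval (ev T) ≠ 0) :
    ev c ≠ 0 ∧ ev T ^ (q ^ 2) = ev T := by
  set x0 : k := ev T with hx0
  have key : ∀ {n m : k[X]}, δ * aeval (T : Ω) m = aeval (T : Ω) n → m.eval x0 = 0 :=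
    fun {n m} hnm => eval_denominator_eq_zero B ev θ q T D hθT hb hc hd hev hP1 hP3 hnm
  -- the coerced form of `hrat`
  have hratΩ : (c : Ω) * aeval (T : Ω) dc = aeval (T : Ω) nc := by
    have h := congrArg (fun z : B => (z : Ω)) hrat
    simpa only [MulMemClass.coe_mul, aeval_subalgebra_coe] using h
  -- the denominator `M = d_c * (X - X^(q^2))`
  set M : k[X] := dc * (X - X ^ (q ^ 2)) with hM
  have hMδ : δ * aeval (T : Ω) M = aeval (T : Ω) nc := by
    rw [hM, ← hratΩ, hcδ]
    simp only [map_mul, map_sub, map_pow, aeval_X]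
    ring
  have hM0 : M.eval x0 = 0 := key hMδ
  have hfix : x0 ^ (q ^ 2) = x0 := by
    rw [hM, eval_mul, eval_sub, eval_X, eval_pow, eval_X] at hM0
    rcases mul_eq_zero.mp hM0 with h | h
    · exact absurd h hdc
    · exact (sub_eq_zero.mp h).symm
  refine ⟨?_, hfix⟩
  intro hc0
  -- then `n_c(x0) = 0`
  have hnc0 : nc.eval x0 = 0 := by
    have h := congrArg ev hrat
    rw [map_mul, ev_aeval, ev_aeval, hc0, zero_mul] at h
    exact h.symm
  obtain ⟨n1, hn1⟩ := dvd_iff_isRoot.mpr (show IsRoot nc x0 from hnc0)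
  obtain ⟨m1, hm1⟩ := dvd_iff_isRoot.mpr (show IsRoot M x0 from hM0)
  -- `T` is not a constant
  have hT0 : (T : Ω) - algebraMap k Ω x0 ≠ 0 := by
    intro h
    apply hθT
    rw [sub_eq_zero.mp h, θ.map_algebraMap]
  have h1 : δ * aeval (T : Ω) m1 = aeval (T : Ω) n1 := by
    have h := hMδ
    rw [hm1, hn1] at h
    simp only [map_mul, map_sub, aeval_X, aeval_C] at h
    apply mul_left_cancel₀ hT0
    linear_combination h
  have hm10 : m1.eval x0 = 0 := key h1
  -- the derivative of `M` at `x0`, computed in two ways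
  have hd1 : (derivative M).eval x0 = m1.eval x0 := by
    rw [hm1, derivative_mul]
    simp [derivative_sub]
  have hq2 : ((q ^ 2 : ℕ) : k) = 0 := by
    rw [Nat.cast_pow, hq]
    exact zero_pow (by norm_num)
  have hd2 : (derivative M).eval x0 = dc.eval x0 := by
    rw [hM, derivative_mul, derivative_sub, derivative_X, derivative_X_pow, hq2]
    simp only [map_zero, zero_mul, sub_zero, mul_one, eval_add, eval_mul, eval_sub, eval_X,
      eval_pow]
    rw [hfix, sub_self, mul_zero, zero_add]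
  rw [hd2] at hd1
  exact hdc (hd1.trans hm10)

omit [IsDomain Ω] in
/-- **ORD-MID, abstract core.**  At a point `ev` with `P₁(ev T) ≠ 0` and `P₃(ev T) ≠ 0` (not a
cusp), `(θ T)^(q-1)` does not vanish: any `r ∈ B` representing it has `ev r ≠ 0`; moreover the
existence of such an `r` forces `ev D ≠ 0` (the point is not a crossing point). -/
theorem unit_core (θ : Derivation k Ω Ω) (q : ℕ) (T D r : B) {Dl : Ω}
    (hr : (r : Ω) = θ (T : Ω) ^ (q - 1))
    {P1 P2 P3 : k[X]} (hc : θ (T : Ω) ^ 6 * aeval (T : Ω) P2 = aeval (T : Ω) P1 * Dl)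
    (hd : (D : Ω) * Dl ^ (q - 1) = aeval (T : Ω) P3)
    (hP1 : P1.eval (ev T) ≠ 0) (hP3 : P3.eval (ev T) ≠ 0) :
    ev r ≠ 0 ∧ ev D ≠ 0 := by
  have hc' : (θ (T : Ω) ^ (q - 1)) ^ 6 * aeval (T : Ω) P2 ^ (q - 1)
      = aeval (T : Ω) P1 ^ (q - 1) * Dl ^ (q - 1) := by
    have h := congrArg (fun z => z ^ (q - 1)) hc
    simp only [mul_pow] at h
    rw [← h]
    ring
  have hB : r ^ 6 * aeval T P2 ^ (q - 1) * D = aeval T P1 ^ (q - 1) * aeval T P3 := by
    apply Subtype.ext
    simp only [MulMemClass.coe_mul, SubmonoidClass.coe_pow, aeval_subalgebra_coe, hr]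
    linear_combination (D : Ω) * hc' + aeval (T : Ω) P1 ^ (q - 1) * hd
  have h5 := congrArg ev hB
  simp only [map_mul, map_pow, ev_aeval] at h5
  have hne : P1.eval (ev T) ^ (q - 1) * P3.eval (ev T) ≠ 0 :=
    mul_ne_zero (pow_ne_zero _ hP1) hP3
  constructor
  · intro h0
    rw [h0, zero_pow (by norm_num), zero_mul, zero_mul] at h5
    exact hne h5.symm
  · intro h0
    rw [h0, mul_zero] at h5
    exact hne h5.symm

omit [IsDomain Ω] in
/-- The crossing-point condition in terms of `(θ T)^(q-1)`, polynomial form: if `ρ` is a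
rational function of `T`, `(θ T)^(q-1) * r₂(T) = r₁(T)`, then
`r₁(T)^6 * P₂(T)^(q-1) * D = P₁(T)^(q-1) * P₃(T) * r₂(T)^6`; in particular at a point with
`ev D = 0` which is not a cusp the denominator `r₂` vanishes. -/
theorem eval_theta_denominator_eq_zero (θ : Derivation k Ω Ω) (q : ℕ) (T D : B) {Dl : Ω}
    {P1 P2 P3 : k[X]} (hc : θ (T : Ω) ^ 6 * aeval (T : Ω) P2 = aeval (T : Ω) P1 * Dl)
    (hd : (D : Ω) * Dl ^ (q - 1) = aeval (T : Ω) P3)
    {r1 r2 : k[X]} (hr : θ (T : Ω) ^ (q - 1) * aeval (T : Ω) r2 = aeval (T : Ω) r1)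
    (hev : ev D = 0) (hP1 : P1.eval (ev T) ≠ 0) (hP3 : P3.eval (ev T) ≠ 0) :
    r2.eval (ev T) = 0 := by
  have hc' : (θ (T : Ω) ^ (q - 1)) ^ 6 * aeval (T : Ω) P2 ^ (q - 1)
      = aeval (T : Ω) P1 ^ (q - 1) * Dl ^ (q - 1) := by
    have h := congrArg (fun z => z ^ (q - 1)) hc
    simp only [mul_pow] at h
    rw [← h]
    ring
  have hB : aeval T r1 ^ 6 * aeval T P2 ^ (q - 1) * D
      = aeval T P1 ^ (q - 1) * aeval T P3 * aeval T r2 ^ 6 := by
    apply Subtype.ext
    simp only [MulMemClass.coe_mul, SubmonoidClass.coe_pow, aeval_subalgebra_coe, ← hr]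
    linear_combination ((D : Ω) * aeval (T : Ω) r2 ^ 6) * hc'
      + (aeval (T : Ω) P1 ^ (q - 1) * aeval (T : Ω) r2 ^ 6) * hd
  have h5 := congrArg ev hB
  simp only [map_mul, map_pow, ev_aeval, hev, mul_zero] at h5
  rcases mul_eq_zero.mp h5.symm with h6 | h6
  · rcases mul_eq_zero.mp h6 with h7 | h7
    · exact absurd (eq_zero_of_pow_eq_zero h7) hP1
    · exact absurd h7 hP3
  · exact (pow_eq_zero_iff (by norm_num)).mp h6

end Core

end Fermat.Agent.S36.helper4118
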