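/-
S36, brick F2 (thickness one at the crossing points of level `q`), abstract core, RATIONAL form.
Author: helper4118.  Mathlib + `helper4118_ThickCore` only, no sorry.

Same setting as `helper4118_ThickCore` (see its header), with three relaxations that make the
core directly applicable to a chart ring `B'` and one of its prime ideals:

* the point is an algebra map `ev : B →ₐ[k] κ` into ANY domain `κ` (e.g. `B ⧸ I`, `I` prime);
  no identification of the residue field with the coefficient field is needed;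
* the reduction `δ` of the Kronecker cofactor `(t^q - t(x^q))/q` is ANY rational function
  `a(T)/b(T)` of `T` (`b ≠ 0`, no condition on `b` at the point): the proof reduces it to
  lowest terms itself;
* the coefficient field `k` may be the prime field (all the identities of the application have
  coefficients in `𝔽_q`), so the chart ring does not have to contain the constants of the
  residue field.

Main results: `thick_core_rat` (point form) and `thick_ideal` (prime ideal form: `D ∈ I`,
`P₁(T) ∉ I`, `P₃(T) ∉ I` ⟹ `c ∉ I`).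
-/
import Mathlib
import Fermat.Agent.S36.helper4118_ThickCore

set_option autoImplicit false

namespace Fermat.Agent.S36.helper4118

open Polynomial

section Rat

variable {k Ω κ : Type*} [Field k] [CommRing Ω] [IsDomain Ω] [Algebra k Ω]
  [CommRing κ] [IsDomain κ] [Algebra k κ]

/-- Greatest common divisor data in `k[X]`: `a = g a₀`, `b = g b₀`, `g = a u + b v`. -/
theorem exists_gcd_data (a b : k[X]) (hb : b ≠ 0) :
    ∃ g u v a0 b0 : k[X], g ≠ 0 ∧ a = g * a0 ∧ b = g * b0 ∧ g = a * u + b * v := by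
  classical
  obtain ⟨a0, ha0⟩ := EuclideanDomain.gcd_dvd_left a b
  obtain ⟨b0, hb0⟩ := EuclideanDomain.gcd_dvd_right a b
  refine ⟨EuclideanDomain.gcd a b, EuclideanDomain.gcdA a b, EuclideanDomain.gcdB a b, a0, b0,
    ?_, ha0, hb0, EuclideanDomain.gcd_eq_gcd_ab a b⟩
  intro h
  exact hb ((EuclideanDomain.gcd_eq_zero_iff.mp h).2)

variable (B : Subalgebra k Ω) (ev : B →ₐ[k] κ)

omit [IsDomain Ω] [IsDomain κ] in
/-- Evaluation of a polynomial in an element of `B` at the point `ev`. -/
theorem ev_aeval' (T : B) (f : k[X]) : ev (aeval T f) = aeval (ev T) f :=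
  (aeval_algHom_apply ev T f).symm

/-- **Vanishing of denominators**, for a point with values in a domain. -/
theorem aeval_denominator_eq_zero (θ : Derivation k Ω Ω) (q : ℕ) (T D : B) {δ Dl : Ω}
    (hθT : θ (T : Ω) ≠ 0)
    (hb : θ δ = θ (T : Ω) * ((T : Ω) ^ (q - 1) - θ (T : Ω) ^ (q - 1)))
    {P1 P2 P3 : k[X]} (hc : θ (T : Ω) ^ 6 * aeval (T : Ω) P2 = aeval (T : Ω) P1 * Dl)
    (hd : (D : Ω) * Dl ^ (q - 1) = aeval (T : Ω) P3)
    (hev : ev D = 0) (hP1 : aeval (ev T) P1 ≠ 0) (hP3 : aeval (ev T) P3 ≠ 0)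
    {n m : k[X]} (hnm : δ * aeval (T : Ω) m = aeval (T : Ω) n) :
    aeval (ev T) m = 0 := by
  have h := key_identity θ q hθT hb hc hd hnm
  have hB : aeval T (X ^ (q - 1) * m ^ 2 - (derivative n * m - n * derivative m)) ^ 6
        * aeval T P2 ^ (q - 1) * D
      = aeval T P1 ^ (q - 1) * aeval T m ^ 12 * aeval T P3 := by
    apply Subtype.ext
    simp only [MulMemClass.coe_mul, SubmonoidClass.coe_pow, aeval_subalgebra_coe]
    exact h
  have h5 := congrArg ev hB
  simp only [map_mul, map_pow, ev_aeval', hev, mul_zero] at h5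
  rcases mul_eq_zero.mp h5.symm with h6 | h6
  · rcases mul_eq_zero.mp h6 with h7 | h7
    · exact absurd (eq_zero_of_pow_eq_zero h7) hP1
    · exact (pow_eq_zero_iff (by norm_num)).mp h7
  · exact absurd h6 hP3

/-- **Thickness one, rational form.**  `δ = a(T)/b(T)` an arbitrary rational function of the
transcendental `T`; at a point `ev` (values in a domain) with `ev D = 0` which is not a cusp
(`P₁`, `P₃` do not vanish at `ev T`), the element `c = δ (T - T^(q^2))` does not vanish. -/
theorem thick_core_rat (θ : Derivation k Ω Ω) (q : ℕ) (hq : (q : k) = 0) (T D c : B) {δ Dl : Ω}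
    (htr : Transcendental k (T : Ω))
    (hθT : θ (T : Ω) ≠ 0)
    (hb : θ δ = θ (T : Ω) * ((T : Ω) ^ (q - 1) - θ (T : Ω) ^ (q - 1)))
    {P1 P2 P3 : k[X]} (hc : θ (T : Ω) ^ 6 * aeval (T : Ω) P2 = aeval (T : Ω) P1 * Dl)
    (hd : (D : Ω) * Dl ^ (q - 1) = aeval (T : Ω) P3)
    (hcδ : (c : Ω) = δ * ((T : Ω) - (T : Ω) ^ (q ^ 2)))
    {a b : k[X]} (hb0 : b ≠ 0) (hrat : δ * aeval (T : Ω) b = aeval (T : Ω) a)
    (hev : ev D = 0) (hP1 : aeval (ev T) P1 ≠ 0) (hP3 : aeval (ev T) P3 ≠ 0) :
    ev c ≠ 0 := by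
  have htr' : ∀ f : k[X], f ≠ 0 → aeval (T : Ω) f ≠ 0 := fun f hf h =>
    hf ((transcendental_iff.mp htr) f h)
  -- lowest terms
  obtain ⟨g, u, v, a0, b0, hg0, ha0, hb0', hbez⟩ := exists_gcd_data a b hb0
  have hb00 : b0 ≠ 0 := by
    rintro rfl
    exact hb0 (by rw [hb0', mul_zero])
  have hbez1 : a0 * u + b0 * v = 1 := by
    apply mul_left_cancel₀ hg0
    rw [mul_one]
    calc g * (a0 * u + b0 * v) = (g * a0) * u + (g * b0) * v := by ring
      _ = a * u + b * v := by rw [← ha0, ← hb0']
      _ = g := hbez.symm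
  have hδ0 : δ * aeval (T : Ω) b0 = aeval (T : Ω) a0 := by
    apply mul_left_cancel₀ (htr' g hg0)
    have h := hrat
    rw [ha0, hb0', map_mul, map_mul] at h
    linear_combination h
  -- the denominator vanishes at the point
  have hb0x : aeval (ev T) b0 = 0 :=
    aeval_denominator_eq_zero B ev θ q T D hθT hb hc hd hev hP1 hP3 hδ0
  have ha0x : aeval (ev T) a0 ≠ 0 := by
    intro h
    have h1 := congrArg (aeval (ev T)) hbez1
    simp only [map_add, map_mul, map_one, h, hb0x, zero_mul, add_zero] at h1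
    exact zero_ne_one h1
  -- the relation `c * b₀(T) = a₀(T) * (T - T^(q^2))` in `B`
  have hcΩ : (c : Ω) * aeval (T : Ω) b0 = aeval (T : Ω) a0 * ((T : Ω) - (T : Ω) ^ (q ^ 2)) := by
    rw [hcδ, ← hδ0]
    ring
  have hcB : c * aeval T b0 = aeval T a0 * (T - T ^ (q ^ 2)) := by
    apply Subtype.ext
    simp only [MulMemClass.coe_mul, AddSubgroupClass.coe_sub, SubmonoidClass.coe_pow,
      aeval_subalgebra_coe]
    exact hcΩ
  have hfix : ev T - ev T ^ (q ^ 2) = 0 := by
    have h := congrArg ev hcB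
    simp only [map_mul, map_sub, map_pow, ev_aeval'] at h
    rw [hb0x, mul_zero] at h
    rcases mul_eq_zero.mp h.symm with h | h
    · exact absurd h ha0x
    · exact h
  -- the common factor of `b₀` and `U = X - X^(q^2)`
  obtain ⟨d, r, s, e, b1, hd0, hUe, hb1, hdbez⟩ :=
    exists_gcd_data (X - X ^ (q ^ 2) : k[X]) b0 hb00
  have hUx : aeval (ev T) (X - X ^ (q ^ 2) : k[X]) = 0 := by
    simp only [map_sub, map_pow, aeval_X]
    exact hfix
  have hdx : aeval (ev T) d = 0 := by
    rw [hdbez, map_add, map_mul, map_mul, hUx, hb0x, zero_mul, zero_mul, add_zero]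
  have hq2 : ((q ^ 2 : ℕ) : k) = 0 := by
    rw [Nat.cast_pow, hq]
    exact zero_pow (by norm_num)
  have hUder : derivative (X - X ^ (q ^ 2) : k[X]) = 1 := by
    rw [derivative_sub, derivative_X, derivative_X_pow, hq2, map_zero, zero_mul, sub_zero]
  have hex : aeval (ev T) e ≠ 0 := by
    intro h
    have h1 : derivative d * e + d * derivative e = 1 := by
      rw [← derivative_mul, ← hUe, hUder]
    have h2 := congrArg (aeval (ev T)) h1
    simp only [map_add, map_mul, map_one, h, hdx, mul_zero, zero_mul, add_zero] at h2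
    exact zero_ne_one h2
  -- cancel the common factor
  have hcΩ1 : (c : Ω) * aeval (T : Ω) b1 = aeval (T : Ω) a0 * aeval (T : Ω) e := by
    apply mul_left_cancel₀ (htr' d hd0)
    have h1 : (c : Ω) * aeval (T : Ω) b0
        = aeval (T : Ω) a0 * aeval (T : Ω) (X - X ^ (q ^ 2) : k[X]) := by
      rw [hcΩ]
      simp only [map_sub, map_pow, aeval_X]
    rw [hb1, hUe, map_mul, map_mul] at h1
    linear_combination h1
  have hcB1 : c * aeval T b1 = aeval T a0 * aeval T e := by
    apply Subtype.ext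
    simp only [MulMemClass.coe_mul, aeval_subalgebra_coe]
    exact hcΩ1
  intro hc0
  have h := congrArg ev hcB1
  simp only [map_mul, ev_aeval', hc0, zero_mul] at h
  exact (mul_ne_zero ha0x hex) h.symm

/-- **Thickness one, prime ideal form.**  `O` a `k`-subalgebra of `Ω` (the image of the chart
ring under the reduction at `∞`), `I` a prime ideal of `O` (the image of the closed point).  If
the reduction `D` of the cusp-corrected modular unit lies in `I` (crossing point) and `P₁(T)`,
`P₃(T)` do not (not a cusp), then the reduction `c` of the Kronecker element is not in `I`. -/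
theorem thick_ideal (O : Subalgebra k Ω) (I : Ideal O) [I.IsPrime]
    (θ : Derivation k Ω Ω) (q : ℕ) (hq : (q : k) = 0) (T D c : O) {δ Dl : Ω}
    (htr : Transcendental k (T : Ω))
    (hθT : θ (T : Ω) ≠ 0)
    (hb : θ δ = θ (T : Ω) * ((T : Ω) ^ (q - 1) - θ (T : Ω) ^ (q - 1)))
    {P1 P2 P3 : k[X]} (hc : θ (T : Ω) ^ 6 * aeval (T : Ω) P2 = aeval (T : Ω) P1 * Dl)
    (hd : (D : Ω) * Dl ^ (q - 1) = aeval (T : Ω) P3)
    (hcδ : (c : Ω) = δ * ((T : Ω) - (T : Ω) ^ (q ^ 2)))
    {a b : k[X]} (hb0 : b ≠ 0) (hrat : δ * aeval (T : Ω) b = aeval (T : Ω) a)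
    (hD : D ∈ I) (hP1 : aeval T P1 ∉ I) (hP3 : aeval T P3 ∉ I) :
    c ∉ I := by
  intro hcI
  have hmk : ∀ x : O, Ideal.Quotient.mkₐ k I x = 0 ↔ x ∈ I := fun x => by
    rw [Ideal.Quotient.mkₐ_eq_mk]
    exact Ideal.Quotient.eq_zero_iff_mem
  have key := thick_core_rat O (Ideal.Quotient.mkₐ k I) θ q hq T D c htr hθT hb hc hd hcδ hb0
    hrat ((hmk D).mpr hD)
    (by rw [← ev_aeval']; exact fun h => hP1 ((hmk _).mp h))
    (by rw [← ev_aeval']; exact fun h => hP3 ((hmk _).mp h))
  exact key ((hmk c).mpr hcI)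

end Rat

end Fermat.Agent.S36.helper4118
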