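/-
S36, F2-OUT and MID-OUT by the THETA-SIX route (findings #3292, plan #3449 R5 (ii)).
Author: helper4118.  No sorry.

Hypothesis-passing forms on an ARBITRARY commutative ring `B` (the chart ring of level `q M''`
resp. `q² M''`, or a localisation of it) with

* `ρ : B →+* LaurentSeries k`  — a reduction map (`red_∞` resp. `red_mid`), `k` any field of
  characteristic `p`;
* `P` — a prime ideal of `B` containing the kernel of `ρ` (the closed point).

All modular inputs are INTEGER `q`-series identities; `B` enters only through the reductions of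
three of its elements.

* `thick_param` (F2-OUT): `t, D, g ∈ B` with `ρ t = t̄`, `ρ D = D̄` (cusp-corrected modular unit
  `P₃(t) Δ(z)/Δ(pz)`), `ρ g = ` reduction of `δ_p(t) (t - t(x^p)^p)` (i.e. `p g = x₀ y₀`,
  `x₀ = t^p - t_p`, `y₀ = t - t_p^p`); if `D ∈ P` (crossing point) and `P₁(t), P₃(t) ∉ P`
  (not a cusp) then `g ∉ P`.
* `mid_param` (MID-OUT): `τ, D, b, s ∈ B` with `ρ b = -(θ t̄)^(p-1) ρ s` (`s T^(p-1) = p b`,
  `T = t(q² z) - t(z)`, `ρ = red_mid`), `s ∉ P`, `P₁(τ), P₃(τ) ∉ P` ⟹ `b ∉ P` and `D ∉ P`.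
* instances for the base lines `t₄` (`P₁ = X²(X+16)⁵`, `P₂ = 1`) and `t₉`
  (`P₁ = (X²+9X+27)⁵`, `P₂ = X³`): every `q`-series hypothesis is discharged
  (`thick_param_t4`, `mid_param_t4`, `thick_param_t9`, `mid_param_t9`), for EVERY prime `p`.

No count of crossing points, no Hasse invariant, no modular polynomial of the base line, no
horizontal divisor: only `(θ t)^6 P₂(t) = P₁(t) Δ` (`helper1257`), Kronecker's congruence for `j`
(`helper6020`) transferred to `t` (`helper4118_RatTransfer`) and the abstract core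
`helper4118_ThickRat`.
-/
import Mathlib
import Fermat.Agent.S36.helper4118_ThickRat
import Fermat.Agent.S36.helper4118_RatTransfer
import Fermat.Agent.S36.helper1257_BaseLineTheta
import Fermat.Agent.S24.helper60_DegreeAlg

set_option autoImplicit false

noncomputable section

namespace Fermat.Agent.S36.helper4118

open ModularCurve Polynomial
open Fermat.Agent.Lib.helper9242 (thetaFun)
open Fermat.Agent.S36.helper6020

/-! ## Coefficient maps -/

section Coeff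

variable (p : ℕ) [Fact p.Prime] (k : Type*) [Field k] [CharP k p]

/-- The coefficient embedding `𝔽_p((x)) → k((x))`. -/
def iotaK : LaurentSeries (ZMod p) →+* LaurentSeries k :=
  coeffMap (ZMod.castHom (dvd_refl p) k)

theorem iotaK_injective : Function.Injective (iotaK p k) :=
  Fermat.Agent.S37.helper9536.coeffMap_injective _ (ZMod.castHom (dvd_refl p) k).injective

theorem coeffMap_int_eq (y : LaurentSeries ℤ) :
    coeffMap (Int.castRingHom k) y = iotaK p k (red p y) := by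
  show _ = coeffMap (ZMod.castHom (dvd_refl p) k) (coeffMap (Int.castRingHom (ZMod p)) y)
  rw [coeffMap_coeffMap,
    RingHom.ext_int ((ZMod.castHom (dvd_refl p) k).comp (Int.castRingHom (ZMod p)))
      (Int.castRingHom k)]

theorem iotaK_qExpand (f : LaurentSeries (ZMod p)) :
    qExpand k p (iotaK p k f) = iotaK p k f ^ p := by
  rw [iotaK, ← ModularCurve.coeffMap_qExpand, Fermat.Agent.Lib.helper7516.qExpand_zmod, map_pow]

end Coeff

/-! ## MID-OUT, general parameter -/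

section Mid

variable (p : ℕ) [Fact p.Prime] {k : Type*} [Field k] [CharP k p] {B : Type*} [CommRing B]

/-- The two series identities over `k`. -/
theorem series_identities (tZ DZ ΔZ : LaurentSeries ℤ) (P1 P2 P3 : Polynomial ℤ)
    (hsix : thetaFun ℤ tZ ^ 6 * evX tZ P2 = evX tZ P1 * ΔZ)
    (hDZ : DZ * qExpand ℤ p ΔZ = ΔZ * evX tZ P3)
    (hΔ : red p ΔZ ≠ 0) :
    thetaFun k (coeffMap (Int.castRingHom k) tZ) ^ 6 * evX (coeffMap (Int.castRingHom k) tZ) P2
        = evX (coeffMap (Int.castRingHom k) tZ) P1 * coeffMap (Int.castRingHom k) ΔZ ∧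
      coeffMap (Int.castRingHom k) DZ * coeffMap (Int.castRingHom k) ΔZ ^ (p - 1)
        = evX (coeffMap (Int.castRingHom k) tZ) P3 := by
  have hp : p ≠ 0 := (Fact.out : p.Prime).ne_zero
  have hp1 : p - 1 + 1 = p := Nat.succ_pred_eq_of_ne_zero hp
  constructor
  · have h := congrArg (coeffMap (Int.castRingHom k)) hsix
    rw [map_mul, map_pow, map_mul, map_evX, map_evX, ← thetaFun_coeffMap] at h
    exact h
  · have hΔk : coeffMap (Int.castRingHom k) ΔZ ≠ 0 := by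
      rw [coeffMap_int_eq p k]
      exact fun h => hΔ (iotaK_injective p k (by rw [h, map_zero]))
    have h := congrArg (coeffMap (Int.castRingHom k)) hDZ
    rw [map_mul, map_mul, map_evX, ModularCurve.coeffMap_qExpand, coeffMap_int_eq p k ΔZ,
      iotaK_qExpand,
      ← coeffMap_int_eq p k ΔZ] at h
    apply mul_right_cancel₀ hΔk
    rw [mul_assoc, ← pow_succ, hp1, h]
    ring

/-- **MID-OUT, hypothesis-passing form.**  `ρ` a reduction map on `B` (in the application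
`red_mid` on the chart ring of level `q² M''`), `P` a prime containing its kernel; `τ`, `D`
with the reductions of the Hauptmodul and of the cusp-corrected modular unit; `b`, `s` with
`ρ b = -(θ t̄)^(p-1) ρ s` (i.e. `s * T^(p-1) = p * b` for `T = t(q² z) - t(z)`).  If `s ∉ P` and
the point is not a cusp (`P₁(τ), P₃(τ) ∉ P`) then `b ∉ P` (and `D ∉ P`). -/
theorem mid_param (ρ : B →+* LaurentSeries k) (P : Ideal B) [P.IsPrime]
    (hker : ∀ b, ρ b = 0 → b ∈ P)
    (tZ DZ ΔZ : LaurentSeries ℤ) (P1 P2 P3 : Polynomial ℤ)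
    (hsix : thetaFun ℤ tZ ^ 6 * evX tZ P2 = evX tZ P1 * ΔZ)
    (hDZ : DZ * qExpand ℤ p ΔZ = ΔZ * evX tZ P3)
    (hΔ : red p ΔZ ≠ 0)
    (τ D b s : B) (hτ : ρ τ = coeffMap (Int.castRingHom k) tZ)
    (hD : ρ D = coeffMap (Int.castRingHom k) DZ)
    (hbs : ρ b = -(thetaFun k (ρ τ) ^ (p - 1) * ρ s))
    (hs : s ∉ P) (hP1 : evX τ P1 ∉ P) (hP3 : evX τ P3 ∉ P) :
    b ∉ P ∧ D ∉ P := by
  obtain ⟨h6, hd⟩ := series_identities p (k := k) tZ DZ ΔZ P1 P2 P3 hsix hDZ hΔ
  rw [← hτ] at h6 hd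
  rw [← hD] at hd
  have h6' : (thetaFun k (ρ τ) ^ (p - 1)) ^ 6 * evX (ρ τ) P2 ^ (p - 1)
      = evX (ρ τ) P1 ^ (p - 1) * coeffMap (Int.castRingHom k) ΔZ ^ (p - 1) := by
    have h := congrArg (fun z => z ^ (p - 1)) h6
    simp only [mul_pow] at h
    rw [← h]
    ring
  have hZ : b ^ 6 * evX τ P2 ^ (p - 1) * D - evX τ P1 ^ (p - 1) * evX τ P3 * s ^ 6 ∈ P := by
    apply hker
    rw [map_sub, map_mul, map_mul, map_mul, map_mul, map_pow, map_pow, map_pow, map_pow,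
      map_evX, map_evX, map_evX, hbs]
    linear_combination (ρ s ^ 6 * ρ D) * h6' + (evX (ρ τ) P1 ^ (p - 1) * ρ s ^ 6) * hd
  have hne : evX τ P1 ^ (p - 1) * evX τ P3 * s ^ 6 ∉ P := by
    intro h
    rcases ‹P.IsPrime›.mem_or_mem h with h | h
    · rcases ‹P.IsPrime›.mem_or_mem h with h | h
      · exact hP1 (‹P.IsPrime›.mem_of_pow_mem _ h)
      · exact hP3 h
    · exact hs (‹P.IsPrime›.mem_of_pow_mem _ h)
  constructor
  · intro hb
    apply hne
    have h1 : b ^ 6 * evX τ P2 ^ (p - 1) * D ∈ P :=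
      P.mul_mem_right _ (P.mul_mem_right _ (P.pow_mem_of_mem hb 6 (by norm_num)))
    have h2 := P.sub_mem h1 hZ
    rwa [sub_sub_cancel] at h2
  · intro hDP
    apply hne
    have h1 : b ^ 6 * evX τ P2 ^ (p - 1) * D ∈ P := P.mul_mem_left _ hDP
    have h2 := P.sub_mem h1 hZ
    rwa [sub_sub_cancel] at h2

end Mid

/-! ## F2-OUT, general parameter -/

section Thick

variable (p : ℕ) [Fact p.Prime] {k : Type*} [Field k] [CharP k p] {B : Type*} [CommRing B]

/-- **F2-OUT, hypothesis-passing form.**  `ρ` a reduction map on `B` (in the application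
`red_∞` on the chart ring of level `q M''`), `P` a prime containing its kernel; `t`, `D`, `g`
elements of `B` with the reductions of the Hauptmodul `t`, of the cusp-corrected modular unit
`P₃(t) Δ(z)/Δ(pz)` and of the Kronecker element `g = (t^p - t_p)(t - t_p^p)/p`.  If `D ∈ P`
(crossing point) and `P₁(t), P₃(t) ∉ P` (not a cusp) then `g ∉ P`. -/
theorem thick_param (ρ : B →+* LaurentSeries k) (P : Ideal B) [P.IsPrime]
    (hker : ∀ b, ρ b = 0 → b ∈ P)
    (tZ DZ ΔZ : LaurentSeries ℤ) (P1 P2 P3 : Polynomial ℤ)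
    (hsix : thetaFun ℤ tZ ^ 6 * evX tZ P2 = evX tZ P1 * ΔZ)
    (hDZ : DZ * qExpand ℤ p ΔZ = ΔZ * evX tZ P3)
    (hΔ : red p ΔZ ≠ 0)
    (htr : Transcendental (ZMod p) (red p tZ))
    (hθ : thetaFun (ZMod p) (red p tZ) ≠ 0)
    (hrat : ∃ a b : Polynomial (ZMod p), b ≠ 0 ∧
      red p (delta p tZ) * aeval (red p tZ) b = aeval (red p tZ) a)
    (t D g : B) (ht : ρ t = coeffMap (Int.castRingHom k) tZ)
    (hD : ρ D = coeffMap (Int.castRingHom k) DZ)
    (hg : ρ g = coeffMap (Int.castRingHom k) (delta p tZ * (tZ - qExpand ℤ p tZ ^ p)))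
    (hDP : D ∈ P) (hP1 : evX t P1 ∉ P) (hP3 : evX t P3 ∉ P) :
    g ∉ P := by
  classical
  have hp : p ≠ 0 := (Fact.out : p.Prime).ne_zero
  have hp1 : p - 1 + 1 = p := Nat.succ_pred_eq_of_ne_zero hp
  -- the subalgebra `O` of `𝔽_p((x))` of series whose image in `k((x))` is a reduction
  let O : Subalgebra (ZMod p) (LaurentSeries (ZMod p)) :=
    { carrier := {f | ∃ b : B, ρ b = iotaK p k f}
      mul_mem' := by
        rintro f f' ⟨b, hb⟩ ⟨b', hb'⟩
        exact ⟨b * b', by rw [map_mul, map_mul, hb, hb']⟩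
      add_mem' := by
        rintro f f' ⟨b, hb⟩ ⟨b', hb'⟩
        exact ⟨b + b', by rw [map_add, map_add, hb, hb']⟩
      algebraMap_mem' := by
        intro c
        refine ⟨((c.val : ℕ) : B), ?_⟩
        rw [Fermat.Agent.Lib.helper9242.algebraMap_eq_C, map_natCast]
        have h1 : (HahnSeries.C c : LaurentSeries (ZMod p))
            = ((c.val : ℕ) : LaurentSeries (ZMod p)) := by
          rw [natCast_eq_C, ZMod.natCast_zmod_val]
        rw [h1, map_natCast] }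
  have hO : ∀ f : LaurentSeries (ZMod p), f ∈ O ↔ ∃ b : B, ρ b = iotaK p k f := fun f => Iff.rfl
  -- the ideal `I` of `O` of series coming from `P`
  let I : Ideal O :=
    { carrier := {f | ∃ b ∈ P, ρ b = iotaK p k (f : LaurentSeries (ZMod p))}
      add_mem' := by
        rintro f f' ⟨b, hb, hb'⟩ ⟨c, hc, hc'⟩
        exact ⟨b + c, P.add_mem hb hc, by
          rw [map_add, hb', hc', AddMemClass.coe_add, map_add]⟩
      zero_mem' := ⟨0, P.zero_mem, by rw [map_zero, ZeroMemClass.coe_zero, map_zero]⟩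
      smul_mem' := by
        rintro ⟨f, b, hb⟩ f' ⟨c, hc, hc'⟩
        exact ⟨b * c, P.mul_mem_left _ hc, by
          rw [map_mul, hb, hc', smul_eq_mul, MulMemClass.coe_mul, map_mul]⟩ }
  have hI : ∀ (f : O) (b : B), ρ b = iotaK p k (f : LaurentSeries (ZMod p)) →
      (f ∈ I ↔ b ∈ P) := by
    intro f b hb
    constructor
    · rintro ⟨b', hb'P, hb'⟩
      have h0 : b - b' ∈ P := hker _ (by rw [map_sub, hb, hb', sub_self])
      have h1 := P.add_mem h0 hb'P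
      rwa [sub_add_cancel] at h1
    · intro hbP
      exact ⟨b, hbP, hb⟩
  have hIprime : I.IsPrime := by
    constructor
    · intro htop
      have h1 : (1 : O) ∈ I := by rw [htop]; exact Submodule.mem_top
      have h2 := (hI 1 1 (by rw [map_one, OneMemClass.coe_one, map_one])).mp h1
      exact ‹P.IsPrime›.ne_top ((Ideal.eq_top_iff_one P).mpr h2)
    · rintro ⟨f, b, hb⟩ ⟨f', b', hb'⟩ hff'
      have h1 : b * b' ∈ P :=
        (hI _ (b * b') (by rw [map_mul, hb, hb', MulMemClass.coe_mul, map_mul])).mp hff'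
      rcases ‹P.IsPrime›.mem_or_mem h1 with h | h
      · exact Or.inl ((hI ⟨f, b, hb⟩ b hb).mpr h)
      · exact Or.inr ((hI ⟨f', b', hb'⟩ b' hb').mpr h)
  -- the three elements
  have hTO : red p tZ ∈ O := ⟨t, by rw [ht, coeffMap_int_eq p k]⟩
  have hDO : red p DZ ∈ O := ⟨D, by rw [hD, coeffMap_int_eq p k]⟩
  have hcO : red p (delta p tZ * (tZ - qExpand ℤ p tZ ^ p)) ∈ O :=
    ⟨g, by rw [hg, coeffMap_int_eq p k]⟩
  -- polynomials in `T`
  have hpoly : ∀ F : Polynomial ℤ,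
      (aeval (⟨red p tZ, hTO⟩ : O) (F.map (Int.castRingHom (ZMod p))) ∈ I ↔ evX t F ∈ P) := by
    intro F
    apply hI
    rw [aeval_subalgebra_coe, ← evX_eq_aeval_map', map_evX, map_evX, ht, coeffMap_int_eq p k]
  -- the hypotheses of the core
  have hc : (Fermat.Agent.Lib.helper9242.thetaAlg (ZMod p)) (red p tZ) ^ 6
        * aeval (red p tZ) (P2.map (Int.castRingHom (ZMod p)))
      = aeval (red p tZ) (P1.map (Int.castRingHom (ZMod p))) * red p ΔZ := by
    have h := congrArg (red p) hsix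
    rw [map_mul, map_pow, map_mul, map_evX, map_evX, ← thetaFun_coeffMap, evX_eq_aeval_map',
      evX_eq_aeval_map'] at h
    exact h
  have hd : red p DZ * red p ΔZ ^ (p - 1)
      = aeval (red p tZ) (P3.map (Int.castRingHom (ZMod p))) := by
    have h := congrArg (red p) hDZ
    rw [map_mul, map_mul, map_evX, red_qExpand, evX_eq_aeval_map'] at h
    apply mul_right_cancel₀ hΔ
    rw [mul_assoc, ← pow_succ, hp1, h]
    ring
  have hcδ : red p (delta p tZ * (tZ - qExpand ℤ p tZ ^ p))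
      = red p (delta p tZ) * (red p tZ - red p tZ ^ (p ^ 2)) := by
    rw [map_mul, map_sub, map_pow, red_qExpand, ← pow_mul, sq]
  obtain ⟨a, b, hb0, hab⟩ := hrat
  have key := thick_ideal O I (Fermat.Agent.Lib.helper9242.thetaAlg (ZMod p)) p
    (ZMod.natCast_self p) ⟨red p tZ, hTO⟩ ⟨red p DZ, hDO⟩
    ⟨red p (delta p tZ * (tZ - qExpand ℤ p tZ ^ p)), hcO⟩
    (δ := red p (delta p tZ)) (Dl := red p ΔZ)
    htr hθ (thetaFun_red_delta p tZ) hc hd hcδ hb0 hab
    ((hI ⟨red p DZ, hDO⟩ D (by rw [hD, coeffMap_int_eq p k])).mpr hDP)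
    (fun h => hP1 ((hpoly P1).mp h)) (fun h => hP3 ((hpoly P3).mp h))
  intro hgP
  exact key ((hI ⟨_, hcO⟩ g (by rw [hg, coeffMap_int_eq p k])).mpr hgP)

end Thick

/-! ## The base lines `t₄` and `t₉` -/

section BaseLines

open Fermat.Agent.Lib.helper3874 (t4C t9C T4 T9 toL qv)
open Fermat.Agent.Lib.helper386 (deltaSeries)

variable (p : ℕ) [hp : Fact p.Prime]

/-- `Δ mod p ≠ 0`. -/
theorem red_deltaL_ne_zero : red p (toL ℤ deltaSeries) ≠ 0 := by
  have h1 : red p (toL ℤ deltaSeries) = toL (ZMod p) deltaSeries :=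
    Fermat.Agent.Lib.helper3874.coeffMap_toL ℤ _ _
  rw [h1]
  have h2 : toL (ZMod p) deltaSeries
      = toL (ZMod p) PowerSeries.X * toL (ZMod p) (etaProd ^ 24) := by
    rw [← map_mul]
    rfl
  rw [h2]
  refine mul_ne_zero ?_ ?_
  · rw [Fermat.Agent.Lib.helper3874.toL_X, Fermat.Agent.Lib.helper3874.qv]
    exact HahnSeries.single_ne_zero one_ne_zero
  · apply Fermat.Agent.Lib.helper3874.toL_ne_zero
    rw [map_pow, constantCoeff_etaProd, one_pow, Int.cast_one]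
    exact one_ne_zero

theorem transcendental_of_coeff_neg_one {K : Type*} [Field K] (f : LaurentSeries K)
    (h : f.coeff (-1) ≠ 0) : Transcendental K f := by
  apply Fermat.Agent.S24.helper60.transcendental_of_order_neg
  have h1 : f.order ≤ -1 := HahnSeries.order_le_of_coeff_ne_zero h
  omega

omit hp in
theorem red_t4C : red p (t4C ℤ) = t4C (ZMod p) :=
  Fermat.Agent.Lib.helper3874.coeffMap_t4C _

omit hp in
theorem red_t9C : red p (t9C ℤ) = t9C (ZMod p) :=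
  Fermat.Agent.Lib.helper3874.coeffMap_t9C _

theorem transcendental_red_t4C : Transcendental (ZMod p) (red p (t4C ℤ)) := by
  rw [red_t4C]
  apply transcendental_of_coeff_neg_one
  rw [Fermat.Agent.Lib.helper3874.t4C, Fermat.Agent.Lib.helper3874.coeff_lau_neg_one,
    Fermat.Agent.Lib.helper3874.constantCoeff_T4, Int.cast_one]
  exact one_ne_zero

theorem transcendental_red_t9C : Transcendental (ZMod p) (red p (t9C ℤ)) := by
  rw [red_t9C]
  apply transcendental_of_coeff_neg_one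
  rw [Fermat.Agent.Lib.helper3874.t9C, Fermat.Agent.Lib.helper3874.coeff_lau_neg_one,
    Fermat.Agent.Lib.helper3874.constantCoeff_T9, Int.cast_one]
  exact one_ne_zero

theorem thetaFun_red_t4C_ne_zero : thetaFun (ZMod p) (red p (t4C ℤ)) ≠ 0 := by
  rw [red_t4C, Fermat.Agent.S36.helper1257.thetaFun_t4C, neg_ne_zero]
  exact mul_ne_zero (Fermat.Agent.Lib.helper3874.t4C_ne_zero (ZMod p))
    (Fermat.Agent.S36.helper1257.isUnit_toL_eps4Z (ZMod p)).ne_zero

theorem thetaFun_red_t9C_ne_zero : thetaFun (ZMod p) (red p (t9C ℤ)) ≠ 0 := by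
  rw [red_t9C, Fermat.Agent.S36.helper1257.thetaFun_t9C, neg_ne_zero]
  exact mul_ne_zero (Fermat.Agent.Lib.helper3874.t9C_ne_zero (ZMod p))
    (Fermat.Agent.S36.helper1257.isUnit_toL_eps9Z (ZMod p)).ne_zero

/-- The numerator and denominator of `j` on the `t₄`-line. -/
def A4 : Polynomial ℤ := (X ^ 2 + C 256 * X + C 4096) ^ 3
/-- The denominator of `j` on the `t₄`-line. -/
def B4 : Polynomial ℤ := X ^ 4 * (X + C 16)
/-- The numerator of `j` on the `t₉`-line. -/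
def A9 : Polynomial ℤ := ((X + C 9) * (X ^ 3 + C 243 * X ^ 2 + C 2187 * X + C 6561)) ^ 3
/-- The denominator of `j` on the `t₉`-line. -/
def B9 : Polynomial ℤ := X ^ 9 * (X ^ 2 + (C 9 * X + C 27))

theorem evX_A4 {A : Type*} [CommRing A] (x : A) : evX x A4 = (x ^ 2 + 256 * x + 4096) ^ 3 := by
  simp [A4, map_ofNat]

theorem evX_B4 {A : Type*} [CommRing A] (x : A) : evX x B4 = x ^ 4 * (x + 16) := by
  simp [B4, map_ofNat]

theorem evX_A9 {A : Type*} [CommRing A] (x : A) :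
    evX x A9 = ((x + 9) * (x ^ 3 + 243 * x ^ 2 + 2187 * x + 6561)) ^ 3 := by
  simp [A9, map_ofNat]

theorem evX_B9 {A : Type*} [CommRing A] (x : A) :
    evX x B9 = x ^ 9 * (x ^ 2 + (9 * x + 27)) := by
  simp [B9, map_ofNat]

theorem monic_B4 : B4.Monic := (monic_X_pow 4).mul (monic_X_add_C 16)

theorem monic_B9 : B9.Monic := by
  refine (monic_X_pow 9).mul (monic_X_pow_add ?_)
  exact lt_of_le_of_lt (degree_linear_le) (by norm_num)

/-- **RAT on the `t₄`-line.** -/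
theorem exists_rat_delta_t4 :
    ∃ a b : Polynomial (ZMod p), b ≠ 0 ∧
      red p (delta p (t4C ℤ)) * aeval (red p (t4C ℤ)) b = aeval (red p (t4C ℤ)) a := by
  refine exists_rat_delta_of_jq p (t4C ℤ) A4 B4 ?_ (transcendental_red_t4C p)
    (monic_B4.map _).ne_zero
  rw [evX_A4, evX_B4, ← Fermat.Agent.S37.helper9536.t4Z_eq_t4C, ← mul_assoc]
  exact Fermat.Agent.S37.helper9536.t4Z_j

/-- **RAT on the `t₉`-line.** -/
theorem exists_rat_delta_t9 :
    ∃ a b : Polynomial (ZMod p), b ≠ 0 ∧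
      red p (delta p (t9C ℤ)) * aeval (red p (t9C ℤ)) b = aeval (red p (t9C ℤ)) a := by
  refine exists_rat_delta_of_jq p (t9C ℤ) A9 B9 ?_ (transcendental_red_t9C p)
    (monic_B9.map _).ne_zero
  rw [evX_A9, evX_B9, ← Fermat.Agent.S37.helper9536.t9Z_eq_t9C]
  have h := Fermat.Agent.S37.helper9536.t9Z_j
  linear_combination h

variable {k : Type*} [Field k] [CharP k p] {B : Type*} [CommRing B]

/-- The cusp polynomials of the `t₄`-line: `P₁ = X²(X+16)⁵`, `P₂ = 1`, `P₃ = (X⁴(X+16))ⁿ`. -/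
theorem evX_P1_t4 {A : Type*} [CommRing A] (x : A) :
    evX x (X ^ 2 * (X + C 16) ^ 5 : Polynomial ℤ) = x ^ 2 * (x + 16) ^ 5 := by
  simp [map_ofNat]

theorem evX_P3_t4 {A : Type*} [CommRing A] (x : A) (n : ℕ) :
    evX x ((X ^ 4 * (X + C 16)) ^ n : Polynomial ℤ) = (x ^ 4 * (x + 16)) ^ n := by
  simp [map_ofNat]

theorem evX_P1_t9 {A : Type*} [CommRing A] (x : A) :
    evX x ((X ^ 2 + (C 9 * X + C 27)) ^ 5 : Polynomial ℤ) = (x ^ 2 + 9 * x + 27) ^ 5 := by
  simp [map_ofNat, add_assoc]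

theorem evX_P3_t9 {A : Type*} [CommRing A] (x : A) (n : ℕ) :
    evX x ((X ^ 9 * (X ^ 2 + (C 9 * X + C 27))) ^ n : Polynomial ℤ)
      = (x ^ 9 * (x ^ 2 + 9 * x + 27)) ^ n := by
  simp [map_ofNat, add_assoc]

theorem hsix_t4 : thetaFun ℤ (t4C ℤ) ^ 6 * evX (t4C ℤ) (1 : Polynomial ℤ)
    = evX (t4C ℤ) (X ^ 2 * (X + C 16) ^ 5 : Polynomial ℤ) * toL ℤ deltaSeries := by
  rw [evX_P1_t4, map_one, mul_one]
  exact Fermat.Agent.S36.helper1257.thetaFun_t4C_pow_six ℤ

theorem hsix_t9 : thetaFun ℤ (t9C ℤ) ^ 6 * evX (t9C ℤ) (X ^ 3 : Polynomial ℤ)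
    = evX (t9C ℤ) ((X ^ 2 + (C 9 * X + C 27)) ^ 5 : Polynomial ℤ) * toL ℤ deltaSeries := by
  rw [evX_P1_t9, map_pow, evX_X]
  exact Fermat.Agent.S36.helper1257.thetaFun_t9C_pow_six ℤ

/-- **F2-OUT on the `t₄`-line** (level `4 p`, every prime `p`; used for `p` odd).  `DZ` is the
integer `q`-expansion of the cusp-corrected modular unit `(t₄⁴(t₄+16))ⁿ Δ(z)/Δ(pz)` (`n = 0`
on a chart without cusps). -/
theorem thick_param_t4 (ρ : B →+* LaurentSeries k) (P : Ideal B) [P.IsPrime]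
    (hker : ∀ b, ρ b = 0 → b ∈ P) (DZ : LaurentSeries ℤ) (n : ℕ)
    (hDZ : DZ * qExpand ℤ p (toL ℤ deltaSeries)
      = toL ℤ deltaSeries * (t4C ℤ ^ 4 * (t4C ℤ + 16)) ^ n)
    (t D g : B) (ht : ρ t = t4C k) (hD : ρ D = coeffMap (Int.castRingHom k) DZ)
    (hg : ρ g = coeffMap (Int.castRingHom k)
      (delta p (t4C ℤ) * (t4C ℤ - qExpand ℤ p (t4C ℤ) ^ p)))
    (hDP : D ∈ P) (ht0 : t ∉ P) (ht16 : t + 16 ∉ P) :
    g ∉ P := by
  have hcusp : ∀ m : ℕ, (t ^ 4 * (t + 16)) ^ m ∉ P := by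
    intro m h
    rcases ‹P.IsPrime›.mem_or_mem (‹P.IsPrime›.mem_of_pow_mem _ h) with h | h
    · exact ht0 (‹P.IsPrime›.mem_of_pow_mem _ h)
    · exact ht16 h
  refine thick_param p ρ P hker (t4C ℤ) DZ (toL ℤ deltaSeries)
    (X ^ 2 * (X + C 16) ^ 5) 1 ((X ^ 4 * (X + C 16)) ^ n) hsix_t4
    (by rw [evX_P3_t4]; exact hDZ) (red_deltaL_ne_zero p) (transcendental_red_t4C p)
    (thetaFun_red_t4C_ne_zero p) (exists_rat_delta_t4 p) t D g
    (by rw [ht, Fermat.Agent.Lib.helper3874.coeffMap_t4C]) hD hg hDP ?_ ?_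
  · rw [evX_P1_t4]
    intro h
    rcases ‹P.IsPrime›.mem_or_mem h with h | h
    · exact ht0 (‹P.IsPrime›.mem_of_pow_mem _ h)
    · exact ht16 (‹P.IsPrime›.mem_of_pow_mem _ h)
  · rw [evX_P3_t4]
    exact hcusp n

/-- **MID-OUT on the `t₄`-line.** -/
theorem mid_param_t4 (ρ : B →+* LaurentSeries k) (P : Ideal B) [P.IsPrime]
    (hker : ∀ b, ρ b = 0 → b ∈ P) (DZ : LaurentSeries ℤ) (n : ℕ)
    (hDZ : DZ * qExpand ℤ p (toL ℤ deltaSeries)
      = toL ℤ deltaSeries * (t4C ℤ ^ 4 * (t4C ℤ + 16)) ^ n)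
    (τ D b s : B) (hτ : ρ τ = t4C k) (hD : ρ D = coeffMap (Int.castRingHom k) DZ)
    (hbs : ρ b = -(thetaFun k (t4C k) ^ (p - 1) * ρ s))
    (hs : s ∉ P) (hτ0 : τ ∉ P) (hτ16 : τ + 16 ∉ P) :
    b ∉ P ∧ D ∉ P := by
  refine mid_param p ρ P hker (t4C ℤ) DZ (toL ℤ deltaSeries)
    (X ^ 2 * (X + C 16) ^ 5) 1 ((X ^ 4 * (X + C 16)) ^ n) hsix_t4
    (by rw [evX_P3_t4]; exact hDZ) (red_deltaL_ne_zero p) τ D b s
    (by rw [hτ, Fermat.Agent.Lib.helper3874.coeffMap_t4C]) hD (by rw [hτ]; exact hbs) hs ?_ ?_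
  · rw [evX_P1_t4]
    intro h
    rcases ‹P.IsPrime›.mem_or_mem h with h | h
    · exact hτ0 (‹P.IsPrime›.mem_of_pow_mem _ h)
    · exact hτ16 (‹P.IsPrime›.mem_of_pow_mem _ h)
  · rw [evX_P3_t4]
    intro h
    rcases ‹P.IsPrime›.mem_or_mem (‹P.IsPrime›.mem_of_pow_mem _ h) with h | h
    · exact hτ0 (‹P.IsPrime›.mem_of_pow_mem _ h)
    · exact hτ16 h

/-- **F2-OUT on the `t₉`-line** (level `9 p`; used for `p = 2`).  `DZ` is the integer
`q`-expansion of the cusp-corrected modular unit `(t₉⁹(t₉²+9t₉+27))ⁿ Δ(z)/Δ(pz)`. -/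
theorem thick_param_t9 (ρ : B →+* LaurentSeries k) (P : Ideal B) [P.IsPrime]
    (hker : ∀ b, ρ b = 0 → b ∈ P) (DZ : LaurentSeries ℤ) (n : ℕ)
    (hDZ : DZ * qExpand ℤ p (toL ℤ deltaSeries)
      = toL ℤ deltaSeries * (t9C ℤ ^ 9 * (t9C ℤ ^ 2 + 9 * t9C ℤ + 27)) ^ n)
    (t D g : B) (ht : ρ t = t9C k) (hD : ρ D = coeffMap (Int.castRingHom k) DZ)
    (hg : ρ g = coeffMap (Int.castRingHom k)
      (delta p (t9C ℤ) * (t9C ℤ - qExpand ℤ p (t9C ℤ) ^ p)))
    (hDP : D ∈ P) (ht0 : t ∉ P) (htQ : t ^ 2 + 9 * t + 27 ∉ P) :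
    g ∉ P := by
  refine thick_param p ρ P hker (t9C ℤ) DZ (toL ℤ deltaSeries)
    ((X ^ 2 + (C 9 * X + C 27)) ^ 5) (X ^ 3) ((X ^ 9 * (X ^ 2 + (C 9 * X + C 27))) ^ n) hsix_t9
    (by rw [evX_P3_t9]; exact hDZ) (red_deltaL_ne_zero p) (transcendental_red_t9C p)
    (thetaFun_red_t9C_ne_zero p) (exists_rat_delta_t9 p) t D g
    (by rw [ht, Fermat.Agent.Lib.helper3874.coeffMap_t9C]) hD hg hDP ?_ ?_
  · rw [evX_P1_t9]
    exact fun h => htQ (‹P.IsPrime›.mem_of_pow_mem _ h)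
  · rw [evX_P3_t9]
    intro h
    rcases ‹P.IsPrime›.mem_or_mem (‹P.IsPrime›.mem_of_pow_mem _ h) with h | h
    · exact ht0 (‹P.IsPrime›.mem_of_pow_mem _ h)
    · exact htQ h

/-- **MID-OUT on the `t₉`-line.** -/
theorem mid_param_t9 (ρ : B →+* LaurentSeries k) (P : Ideal B) [P.IsPrime]
    (hker : ∀ b, ρ b = 0 → b ∈ P) (DZ : LaurentSeries ℤ) (n : ℕ)
    (hDZ : DZ * qExpand ℤ p (toL ℤ deltaSeries)
      = toL ℤ deltaSeries * (t9C ℤ ^ 9 * (t9C ℤ ^ 2 + 9 * t9C ℤ + 27)) ^ n)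
    (τ D b s : B) (hτ : ρ τ = t9C k) (hD : ρ D = coeffMap (Int.castRingHom k) DZ)
    (hbs : ρ b = -(thetaFun k (t9C k) ^ (p - 1) * ρ s))
    (hs : s ∉ P) (hτ0 : τ ∉ P) (hτQ : τ ^ 2 + 9 * τ + 27 ∉ P) :
    b ∉ P ∧ D ∉ P := by
  refine mid_param p ρ P hker (t9C ℤ) DZ (toL ℤ deltaSeries)
    ((X ^ 2 + (C 9 * X + C 27)) ^ 5) (X ^ 3) ((X ^ 9 * (X ^ 2 + (C 9 * X + C 27))) ^ n) hsix_t9
    (by rw [evX_P3_t9]; exact hDZ) (red_deltaL_ne_zero p) τ D b s
    (by rw [hτ, Fermat.Agent.Lib.helper3874.coeffMap_t9C]) hD (by rw [hτ]; exact hbs) hs ?_ ?_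
  · rw [evX_P1_t9]
    exact fun h => hτQ (‹P.IsPrime›.mem_of_pow_mem _ h)
  · rw [evX_P3_t9]
    intro h
    rcases ‹P.IsPrime›.mem_or_mem (‹P.IsPrime›.mem_of_pow_mem _ h) with h | h
    · exact hτ0 (‹P.IsPrime›.mem_of_pow_mem _ h)
    · exact hτQ h

end BaseLines

end Fermat.Agent.S36.helper4118
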