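/-
S36, F2-OUT and MID-OUT by the theta-six route, GAUSS-RING form.  Author: helper4118.  No sorry.

Concrete form of `helper4118_ThickParam` in the landed Gauss vocabulary of
`S18/helper8991_GaussInst` (`gaussRing A π ⊆ L((x))`, `gaussRho A π : gaussRing A π →+* k((x))`;
`L` any field, `A` any valuation subring of `L`, `π : A →+* k` any ring hom to a field of
characteristic `p`, e.g. the residue map).  A chart ring enters only as a commutative ring `B`
with an expansion map `σ : B →+* L((x))` landing in the Gauss ring (`σ` = the `q`-expansion at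
`∞` for F2-OUT, a mid-cusp expansion for MID-OUT), and `P` is a prime ideal of `B` containing the
elements with zero reduction.  No function field, no valuation on `B`, no residue field
identification is needed.

* `thick_gauss_t4` (F2-OUT, level `4p`): `t, t_p, D, g ∈ B` with expansions `t₄`, `t₄(x^p)`,
  `(t₄⁴(t₄+16))ⁿ Δ(x)/Δ(x^p)` and `p g = (t^p - t_p)(t - t_p^p)`; `D ∈ P`, `t, t+16 ∉ P` ⟹ `g ∉ P`.
* `mid_gauss_t4` (MID-OUT): `τ, T, D, b, s ∈ B` with expansions `t₄`, `t₄(ζx) - t₄(x)`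
  (`ζ` a primitive `p`-th root of unity in `A`), `Δ`-unit, and `s T^(p-1) = p b`;
  `s ∉ P`, `τ, τ+16 ∉ P` ⟹ `b ∉ P ∧ D ∉ P`.
* `thick_gauss_t9`, `mid_gauss_t9`: the same on the `t₉`-line.
-/
import Mathlib
import Fermat.Agent.S36.helper4118_ThickParam
import Fermat.Agent.S18.helper8991_GaussInst
import Fermat.Agent.S36.helper3919_MidGauss

set_option autoImplicit false

noncomputable section

namespace Fermat.Agent.S36.helper4118

open ModularCurve Polynomial
open Fermat.Agent.Lib.helper9242 (thetaFun)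
open Fermat.Agent.S36.helper6020 (delta natCast_mul_delta natCast_eq_C)
open Fermat.Agent.S18.helper8991 (gaussRing gaussRho inc gaussRho_inc inc_mem_gaussRing)
open Fermat.Agent.Lib.helper3874 (t4C t9C toL qv)
open Fermat.Agent.Lib.helper386 (deltaSeries)
open Fermat.Agent.S28.helper328 (twist)

/-! ## The reduction map attached to an expansion map -/

section Rho

variable {L : Type*} [Field L] (A : ValuationSubring L) {k : Type*} [Field k] (π : A →+* k)
  {B : Type*} [CommRing B] (σ : B →+* LaurentSeries L) (hσ : ∀ b, σ b ∈ gaussRing A π)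

/-- The reduction map `B → k((x))` attached to an expansion map with values in the Gauss ring. -/
def rhoG : B →+* LaurentSeries k :=
  (gaussRho A π).comp (σ.codRestrict (gaussRing A π) hσ)

theorem rhoG_apply (b : B) : rhoG A π σ hσ b = gaussRho A π ⟨σ b, hσ b⟩ := rfl

/-- An element whose expansion is an `A`-integral series reduces coefficientwise. -/
theorem rhoG_of_inc (b : B) (X : LaurentSeries A) (h : σ b = inc A X) :
    rhoG A π σ hσ b = coeffMap π X := by
  rw [rhoG_apply]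
  have h1 : (⟨σ b, hσ b⟩ : gaussRing A π) = ⟨inc A X, inc_mem_gaussRing A π X⟩ := Subtype.ext h
  rw [h1, gaussRho_inc]

theorem inc_coeffMap_int (y : LaurentSeries ℤ) :
    inc A (coeffMap (Int.castRingHom A) y) = coeffMap (Int.castRingHom L) y := by
  show coeffMap A.subtype (coeffMap (Int.castRingHom A) y) = _
  rw [coeffMap_coeffMap, RingHom.ext_int (A.subtype.comp (Int.castRingHom A)) (Int.castRingHom L)]

/-- An element whose expansion is an integer series reduces to that series. -/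
theorem rhoG_of_int (b : B) (y : LaurentSeries ℤ) (h : σ b = coeffMap (Int.castRingHom L) y) :
    rhoG A π σ hσ b = coeffMap (Int.castRingHom k) y := by
  rw [rhoG_of_inc A π σ hσ b (coeffMap (Int.castRingHom A) y) (by rw [h, inc_coeffMap_int]),
    coeffMap_coeffMap, RingHom.ext_int (π.comp (Int.castRingHom A)) (Int.castRingHom k)]

end Rho

/-! ## The integer series of the modular unit -/

section Unit

variable (p : ℕ) [hp : Fact p.Prime]

/-- The modular unit `Δ(x)/Δ(x^p)` has an integer `q`-expansion. -/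
theorem exists_deltaUnit_int :
    ∃ DZ0 : LaurentSeries ℤ, DZ0 * qExpand ℤ p (toL ℤ deltaSeries) = toL ℤ deltaSeries := by
  have hp0 : p ≠ 0 := hp.out.ne_zero
  have h1 : qExpand ℤ p (toL ℤ deltaSeries)
      = qv ℤ ^ p * toL ℤ (PowerSeries.expand p hp0 (etaProd ^ 24)) := by
    rw [Fermat.Agent.Lib.helper3874.qExpand_toL]
    have h2 : (deltaSeries : PowerSeries ℤ) = PowerSeries.X * etaProd ^ 24 := rfl
    rw [h2, map_mul, PowerSeries.expand_X, map_mul, map_pow, Fermat.Agent.Lib.helper3874.toL_X]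
  have hu1 : IsUnit (qv ℤ ^ p) :=
    (IsUnit.of_mul_eq_one _ (Fermat.Agent.Lib.helper3874.qv_mul_single ℤ)).pow p
  have hu2 : IsUnit (toL ℤ (PowerSeries.expand p hp0 (etaProd ^ 24))) := by
    apply Fermat.Agent.S36.helper1257.isUnit_toL_of_constantCoeff
    rw [PowerSeries.constantCoeff_expand, map_pow, constantCoeff_etaProd, one_pow]
  obtain ⟨u, hu⟩ := (hu1.mul hu2)
  refine ⟨toL ℤ deltaSeries * (u⁻¹ : (LaurentSeries ℤ)ˣ), ?_⟩
  rw [h1, ← hu, mul_assoc, Units.inv_mul, mul_one]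

end Unit

/-! ## F2-OUT and MID-OUT in the Gauss ring -/

section Gauss

variable (p : ℕ) [hp : Fact p.Prime] {L : Type*} [Field L] (hpL : (p : L) ≠ 0)
  (A : ValuationSubring L) {k : Type*} [Field k] [CharP k p] (π : A →+* k)
  {B : Type*} [CommRing B] (σ : B →+* LaurentSeries L) (hσ : ∀ b, σ b ∈ gaussRing A π)
  (P : Ideal B) [P.IsPrime] (hP : ∀ b, gaussRho A π ⟨σ b, hσ b⟩ = 0 → b ∈ P)

include hpL in
omit hp in
theorem natCast_laurent_ne_zero : ((p : ℕ) : LaurentSeries L) ≠ 0 := by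
  rw [natCast_eq_C]
  exact fun h => hpL (HahnSeries.C_injective (by rw [h, map_zero]))

omit hp in
theorem deltaL_ne_zero : toL L deltaSeries ≠ 0 := by
  have h2 : toL L deltaSeries = toL L PowerSeries.X * toL L (etaProd ^ 24) := by
    rw [← map_mul]
    rfl
  rw [h2]
  refine mul_ne_zero ?_ ?_
  · rw [Fermat.Agent.Lib.helper3874.toL_X, Fermat.Agent.Lib.helper3874.qv]
    exact HahnSeries.single_ne_zero one_ne_zero
  · apply Fermat.Agent.Lib.helper3874.toL_ne_zero
    rw [map_pow, constantCoeff_etaProd, one_pow, Int.cast_one]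
    exact one_ne_zero

/-- The expansion of the cusp-corrected modular unit is an integer series. -/
theorem exists_unit_expansion (W : LaurentSeries L) (WZ : LaurentSeries ℤ)
    (hW : coeffMap (Int.castRingHom L) WZ = W) (n : ℕ) (D : B)
    (hD : σ D * qExpand L p (toL L deltaSeries) = toL L deltaSeries * W ^ n) :
    ∃ DZ : LaurentSeries ℤ, DZ * qExpand ℤ p (toL ℤ deltaSeries) = toL ℤ deltaSeries * WZ ^ n ∧
      σ D = coeffMap (Int.castRingHom L) DZ := by
  obtain ⟨DZ0, hDZ0⟩ := exists_deltaUnit_int p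
  refine ⟨DZ0 * WZ ^ n, by rw [mul_right_comm, hDZ0], ?_⟩
  have hV : qExpand L p (toL L deltaSeries) ≠ 0 := fun h =>
    deltaL_ne_zero (L := L) ((qExpand L p).injective (by rw [h, map_zero]))
  apply mul_right_cancel₀ hV
  rw [hD]
  have h := congrArg (coeffMap (Int.castRingHom L)) hDZ0
  rw [map_mul, ModularCurve.coeffMap_qExpand, Fermat.Agent.Lib.helper3874.coeffMap_toL] at h
  rw [map_mul, map_pow, hW, mul_right_comm, h]

include hpL in
/-- The expansion of the Kronecker element `g = (t^p - t_p)(t - t_p^p)/p` is the integer series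
`delta p t * (t - t(x^p)^p)`. -/
theorem kronecker_expansion (tZ : LaurentSeries ℤ) (t tp g : B)
    (ht : σ t = coeffMap (Int.castRingHom L) tZ)
    (htp : σ tp = qExpand L p (coeffMap (Int.castRingHom L) tZ))
    (hg : (p : B) * g = (t ^ p - tp) * (t - tp ^ p)) :
    σ g = coeffMap (Int.castRingHom L) (delta p tZ * (tZ - qExpand ℤ p tZ ^ p)) := by
  apply mul_left_cancel₀ (natCast_laurent_ne_zero p hpL)
  have h := congrArg σ hg
  rw [map_mul, map_natCast, map_mul, map_sub, map_sub, map_pow, map_pow, ht, htp] at h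
  rw [h, map_mul, ← map_natCast (coeffMap (Int.castRingHom L)) p, ← mul_assoc, ← map_mul,
    natCast_mul_delta, map_sub, map_sub, map_pow, map_pow, ModularCurve.coeffMap_qExpand]

include hpL hP in
/-- **F2-OUT on the `t₄`-line, Gauss-ring form** (level `4p`). -/
theorem thick_gauss_t4 (n : ℕ) (t tp D g : B) (ht : σ t = t4C L)
    (htp : σ tp = qExpand L p (t4C L))
    (hD : σ D * qExpand L p (toL L deltaSeries)
      = toL L deltaSeries * (t4C L ^ 4 * (t4C L + 16)) ^ n)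
    (hg : (p : B) * g = (t ^ p - tp) * (t - tp ^ p))
    (hDP : D ∈ P) (ht0 : t ∉ P) (ht16 : t + 16 ∉ P) :
    g ∉ P := by
  have hcL : coeffMap (Int.castRingHom L) (t4C ℤ) = t4C L :=
    Fermat.Agent.Lib.helper3874.coeffMap_t4C _
  obtain ⟨DZ, hDZ, hDσ⟩ := exists_unit_expansion p σ (t4C L ^ 4 * (t4C L + 16))
    (t4C ℤ ^ 4 * (t4C ℤ + 16)) (by rw [map_mul, map_pow, map_add, map_ofNat, hcL]) n D hD
  refine thick_param_t4 p (rhoG A π σ hσ) P hP DZ n hDZ t D g ?_ ?_ ?_ hDP ht0 ht16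
  · rw [rhoG_of_int A π σ hσ t (t4C ℤ) (by rw [ht, hcL])]
    exact Fermat.Agent.Lib.helper3874.coeffMap_t4C _
  · exact rhoG_of_int A π σ hσ D DZ hDσ
  · exact rhoG_of_int A π σ hσ g _
      (kronecker_expansion p hpL σ (t4C ℤ) t tp g (by rw [ht, hcL]) (by rw [htp, hcL]) hg)

include hpL hP in
/-- **F2-OUT on the `t₉`-line, Gauss-ring form** (level `9p`). -/
theorem thick_gauss_t9 (n : ℕ) (t tp D g : B) (ht : σ t = t9C L)
    (htp : σ tp = qExpand L p (t9C L))
    (hD : σ D * qExpand L p (toL L deltaSeries)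
      = toL L deltaSeries * (t9C L ^ 9 * (t9C L ^ 2 + 9 * t9C L + 27)) ^ n)
    (hg : (p : B) * g = (t ^ p - tp) * (t - tp ^ p))
    (hDP : D ∈ P) (ht0 : t ∉ P) (htQ : t ^ 2 + 9 * t + 27 ∉ P) :
    g ∉ P := by
  have hcL : coeffMap (Int.castRingHom L) (t9C ℤ) = t9C L :=
    Fermat.Agent.Lib.helper3874.coeffMap_t9C _
  obtain ⟨DZ, hDZ, hDσ⟩ := exists_unit_expansion p σ
    (t9C L ^ 9 * (t9C L ^ 2 + 9 * t9C L + 27))
    (t9C ℤ ^ 9 * (t9C ℤ ^ 2 + 9 * t9C ℤ + 27))
    (by rw [map_mul, map_pow, map_add, map_add, map_pow, map_mul, map_ofNat, map_ofNat, hcL])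
    n D hD
  refine thick_param_t9 p (rhoG A π σ hσ) P hP DZ n hDZ t D g ?_ ?_ ?_ hDP ht0 htQ
  · rw [rhoG_of_int A π σ hσ t (t9C ℤ) (by rw [ht, hcL])]
    exact Fermat.Agent.Lib.helper3874.coeffMap_t9C _
  · exact rhoG_of_int A π σ hσ D DZ hDσ
  · exact rhoG_of_int A π σ hσ g _
      (kronecker_expansion p hpL σ (t9C ℤ) t tp g (by rw [ht, hcL]) (by rw [htp, hcL]) hg)

/-! ### MID-OUT -/

omit [CharP k p] in
include hpL in
/-- The mid reduction of `T^(p-1)/p`: if `s * T^(p-1) = p * b` in `B` and the expansion of `T` is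
`x(ζ t) - x(t)` for an `A`-integral series `x`, then `ρ b = -(θ x̄)^(p-1) ρ s`. -/
theorem rhoG_mid (ζ : Aˣ) (hζ : ∑ i ∈ Finset.range p, (ζ : A) ^ i = 0) (hπζ : π (ζ : A) = 1)
    (xA : LaurentSeries A) (T b s : B)
    (hT : σ T = twist (Units.map (A.subtype : A →* L) ζ) (inc A xA) - inc A xA)
    (hbs : s * T ^ (p - 1) = (p : B) * b) :
    rhoG A π σ hσ b = -(thetaFun k (coeffMap π xA) ^ (p - 1) * rhoG A π σ hσ s) := by
  have hx : Fermat.Agent.S36.helper3919.OrdGE xA.order xA := fun n hn =>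
    HahnSeries.coeff_eq_zero_of_lt_order hn
  obtain ⟨ε, -, hε, hεred⟩ :=
    Fermat.Agent.S36.helper3919.exists_twist_sub_self_pow_red hp.out ζ hζ xA hx π hπζ
  have hT' : σ T = inc A (twist ζ xA - xA) := by
    rw [hT, map_sub]
    congr 1
    exact (Fermat.Agent.S36.helper3919.coeffMap_twist A.subtype ζ xA).symm
  have hb : σ b = σ s * inc A ε := by
    apply mul_left_cancel₀ (natCast_laurent_ne_zero p hpL)
    have h := congrArg σ hbs
    rw [map_mul, map_pow, map_mul, map_natCast, hT', ← map_pow, hε, map_mul] at h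
    have hC : inc A (HahnSeries.C ((p : ℕ) : A)) = ((p : ℕ) : LaurentSeries L) := by
      rw [← natCast_eq_C, map_natCast]
    rw [hC] at h
    rw [← h]
    ring
  have h1 : (⟨σ b, hσ b⟩ : gaussRing A π)
      = ⟨σ s, hσ s⟩ * ⟨inc A ε, inc_mem_gaussRing A π ε⟩ := Subtype.ext hb
  rw [rhoG_apply, h1, map_mul, gaussRho_inc, rhoG_apply]
  show gaussRho A π ⟨σ s, hσ s⟩ * coeffMap π ε = _
  rw [hεred]
  ring

omit hp in
/-- In characteristic `p`, a root of `1 + X + ⋯ + X^(p-1)` reduces to `1`. -/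
theorem map_eq_one_of_geom_sum (hp' : p.Prime) (ζ : A)
    (hζ : ∑ i ∈ Finset.range p, ζ ^ i = 0) : π ζ = 1 := by
  have : Fact p.Prime := ⟨hp'⟩
  have h1 : ζ ^ p = 1 := by
    have h := mul_geom_sum ζ p
    rw [hζ, mul_zero] at h
    exact (sub_eq_zero.mp h.symm)
  have h2 : (π ζ - 1) ^ p = 0 := by
    rw [sub_pow_char, ← map_pow, h1, map_one, one_pow, sub_self]
  exact sub_eq_zero.mp (pow_eq_zero_iff (hp'.ne_zero) |>.mp h2)

include hpL hP in
/-- **MID-OUT on the `t₄`-line, Gauss-ring form.**  `σ` = a mid-cusp expansion of the chart ring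
of level `p² M''` (`σ(α^* v) = v`, `σ(t(p² z)) = t(ζ x)`), `T = t(p² z) - t(z)`. -/
theorem mid_gauss_t4 (ζ : Aˣ) (hζ : ∑ i ∈ Finset.range p, (ζ : A) ^ i = 0) (n : ℕ)
    (τ T D b s : B) (hτ : σ τ = t4C L)
    (hT : σ T = twist (Units.map (A.subtype : A →* L) ζ) (t4C L) - t4C L)
    (hD : σ D * qExpand L p (toL L deltaSeries)
      = toL L deltaSeries * (t4C L ^ 4 * (t4C L + 16)) ^ n)
    (hbs : s * T ^ (p - 1) = (p : B) * b)
    (hs : s ∉ P) (hτ0 : τ ∉ P) (hτ16 : τ + 16 ∉ P) :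
    b ∉ P ∧ D ∉ P := by
  have hcL : coeffMap (Int.castRingHom L) (t4C ℤ) = t4C L :=
    Fermat.Agent.Lib.helper3874.coeffMap_t4C _
  have hincA : inc A (t4C A) = t4C L := Fermat.Agent.Lib.helper3874.coeffMap_t4C _
  obtain ⟨DZ, hDZ, hDσ⟩ := exists_unit_expansion p σ (t4C L ^ 4 * (t4C L + 16))
    (t4C ℤ ^ 4 * (t4C ℤ + 16)) (by rw [map_mul, map_pow, map_add, map_ofNat, hcL]) n D hD
  refine mid_param_t4 p (rhoG A π σ hσ) P hP DZ n hDZ τ D b s ?_ ?_ ?_ hs hτ0 hτ16
  · rw [rhoG_of_int A π σ hσ τ (t4C ℤ) (by rw [hτ, hcL])]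
    exact Fermat.Agent.Lib.helper3874.coeffMap_t4C _
  · exact rhoG_of_int A π σ hσ D DZ hDσ
  · have h := rhoG_mid p hpL A π σ hσ ζ hζ (map_eq_one_of_geom_sum p A π hp.out _ hζ)
      (t4C A) T b s (by rw [hincA]; exact hT) hbs
    rw [h, Fermat.Agent.Lib.helper3874.coeffMap_t4C]

include hpL hP in
/-- **MID-OUT on the `t₉`-line, Gauss-ring form.** -/
theorem mid_gauss_t9 (ζ : Aˣ) (hζ : ∑ i ∈ Finset.range p, (ζ : A) ^ i = 0) (n : ℕ)
    (τ T D b s : B) (hτ : σ τ = t9C L)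
    (hT : σ T = twist (Units.map (A.subtype : A →* L) ζ) (t9C L) - t9C L)
    (hD : σ D * qExpand L p (toL L deltaSeries)
      = toL L deltaSeries * (t9C L ^ 9 * (t9C L ^ 2 + 9 * t9C L + 27)) ^ n)
    (hbs : s * T ^ (p - 1) = (p : B) * b)
    (hs : s ∉ P) (hτ0 : τ ∉ P) (hτQ : τ ^ 2 + 9 * τ + 27 ∉ P) :
    b ∉ P ∧ D ∉ P := by
  have hcL : coeffMap (Int.castRingHom L) (t9C ℤ) = t9C L :=
    Fermat.Agent.Lib.helper3874.coeffMap_t9C _
  have hincA : inc A (t9C A) = t9C L := Fermat.Agent.Lib.helper3874.coeffMap_t9C _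
  obtain ⟨DZ, hDZ, hDσ⟩ := exists_unit_expansion p σ
    (t9C L ^ 9 * (t9C L ^ 2 + 9 * t9C L + 27))
    (t9C ℤ ^ 9 * (t9C ℤ ^ 2 + 9 * t9C ℤ + 27))
    (by rw [map_mul, map_pow, map_add, map_add, map_pow, map_mul, map_ofNat, map_ofNat, hcL])
    n D hD
  refine mid_param_t9 p (rhoG A π σ hσ) P hP DZ n hDZ τ D b s ?_ ?_ ?_ hs hτ0 hτQ
  · rw [rhoG_of_int A π σ hσ τ (t9C ℤ) (by rw [hτ, hcL])]
    exact Fermat.Agent.Lib.helper3874.coeffMap_t9C _
  · exact rhoG_of_int A π σ hσ D DZ hDσ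
  · have h := rhoG_mid p hpL A π σ hσ ζ hζ (map_eq_one_of_geom_sum p A π hp.out _ hζ)
      (t9C A) T b s (by rw [hincA]; exact hT) hbs
    rw [h, Fermat.Agent.Lib.helper3874.coeffMap_t9C]

end Gauss

end Fermat.Agent.S36.helper4118
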