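/-
S36, F2-OUT and MID-OUT by the theta-six route on the SECOND chart (`u = 1/t`).
Author: helper4118.  No sorry.

On the chart `O[1/t]` of the base line the Hauptmodul `t` itself is not a regular function, so the
forms of `helper4118_ThickParam` / `helper4118_ThickGauss` (which take `t ∈ B`) do not apply
verbatim.  This file gives the twins for the parameter `u = 1/t`:

* `(θ u)^6 = u^5 (1 + 16 u)^5 Δ` for `u = 1/t₄`, `(θ u)^6 = u^5 (1 + 9 u + 27 u²)^5 Δ` for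
  `u = 1/t₉` (from `helper1257`'s identities for `t₄`, `t₉`);
* `j · u (1 + 16 u) = (1 + 256 u + 4096 u²)³`, resp.
  `j · u (1 + 9 u + 27 u²) = ((1 + 9 u)(1 + 243 u + 2187 u² + 6561 u³))³`, whence RAT for `u`;
* `thick_param_u4/u9`, `mid_param_u4/u9` (reduction-map form) and `thick_gauss_u4/u9`,
  `mid_gauss_u4/u9` (Gauss-ring form): the cusp conditions are `u ∉ P`, `1 + 16 u ∉ P`
  (resp. `u ∉ P`, `1 + 9 u + 27 u² ∉ P`), the cusp factor of the modular unit is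
  `(u (1 + 16 u))ⁿ` (resp. `(u (1 + 9 u + 27 u²))ⁿ`).
-/
import Mathlib
import Fermat.Agent.S36.helper4118_ThickGauss

set_option autoImplicit false

noncomputable section

namespace Fermat.Agent.S36.helper4118

open ModularCurve Polynomial
open Fermat.Agent.Lib.helper9242 (thetaFun)
open Fermat.Agent.S36.helper6020
open Fermat.Agent.S18.helper8991 (gaussRing gaussRho inc gaussRho_inc inc_mem_gaussRing)
open Fermat.Agent.Lib.helper3874 (t4C t9C toL qv T4 T9)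
open Fermat.Agent.Lib.helper386 (deltaSeries)
open Fermat.Agent.S28.helper328 (twist)

/-! ## The inverse Hauptmoduln -/

section Inverse

variable (R : Type*) [CommRing R]

/-- `1/t₄` as an integer power series. -/
def inv4Z : PowerSeries ℤ := PowerSeries.X * PowerSeries.invOfUnit T4 1

/-- `1/t₉` as an integer power series. -/
def inv9Z : PowerSeries ℤ := PowerSeries.X * PowerSeries.invOfUnit T9 1

/-- `u₄ = 1/t₄` as a Laurent series over `R`. -/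
def inv4C : LaurentSeries R := toL R inv4Z

/-- `u₉ = 1/t₉` as a Laurent series over `R`. -/
def inv9C : LaurentSeries R := toL R inv9Z

theorem inv4C_mul_t4C : inv4C R * t4C R = 1 := by
  have h1 : T4 * PowerSeries.invOfUnit T4 1 = 1 :=
    PowerSeries.mul_invOfUnit _ _ (by rw [Fermat.Agent.Lib.helper3874.constantCoeff_T4]; rfl)
  have h2 := congrArg (toL R) h1
  rw [map_mul, map_one, Fermat.Agent.Lib.helper3874.toL_T4] at h2
  rw [inv4C, inv4Z, map_mul, Fermat.Agent.Lib.helper3874.toL_X]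
  linear_combination h2

theorem inv9C_mul_t9C : inv9C R * t9C R = 1 := by
  have h1 : T9 * PowerSeries.invOfUnit T9 1 = 1 :=
    PowerSeries.mul_invOfUnit _ _ (by rw [Fermat.Agent.Lib.helper3874.constantCoeff_T9]; rfl)
  have h2 := congrArg (toL R) h1
  rw [map_mul, map_one, Fermat.Agent.Lib.helper3874.toL_T9] at h2
  rw [inv9C, inv9Z, map_mul, Fermat.Agent.Lib.helper3874.toL_X]
  linear_combination h2

theorem coeffMap_inv4C {S : Type*} [CommRing S] (f : R →+* S) :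
    coeffMap f (inv4C R) = inv4C S :=
  Fermat.Agent.Lib.helper3874.coeffMap_toL R f _

theorem coeffMap_inv9C {S : Type*} [CommRing S] (f : R →+* S) :
    coeffMap f (inv9C R) = inv9C S :=
  Fermat.Agent.Lib.helper3874.coeffMap_toL R f _

variable {R}

/-- Uniqueness of the inverse. -/
theorem eq_of_mul_eq_one {u v t : LaurentSeries R} (hu : u * t = 1) (hv : v * t = 1) : u = v := by
  calc u = u * (v * t) := by rw [hv, mul_one]
    _ = v * (u * t) := by ring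
    _ = v := by rw [hu, mul_one]

/-- `θ(1/t) = -θ(t)/t²`. -/
theorem thetaFun_of_mul_eq_one {u t : LaurentSeries R} (h : u * t = 1) :
    thetaFun R u = -(u ^ 2 * thetaFun R t) := by
  have h1 := Fermat.Agent.Lib.helper9242.thetaFun_mul R u t
  rw [h, Fermat.Agent.Lib.helper9242.thetaFun_one] at h1
  linear_combination (-u) * h1 - thetaFun R u * h

end Inverse

/-! ## The integer identities for `u = 1/t` -/

section Identities

/-- Cusp polynomial `P₁` of the `u₄`-line. -/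
def P1u4 : Polynomial ℤ := X ^ 5 * (C 16 * X + 1) ^ 5
/-- Cusp polynomial `P₃` of the `u₄`-line. -/
def P3u4 (n : ℕ) : Polynomial ℤ := (X * (C 16 * X + 1)) ^ n
/-- Cusp polynomial `P₁` of the `u₉`-line. -/
def P1u9 : Polynomial ℤ := X ^ 5 * (C 27 * X ^ 2 + C 9 * X + 1) ^ 5
/-- Cusp polynomial `P₃` of the `u₉`-line. -/
def P3u9 (n : ℕ) : Polynomial ℤ := (X * (C 27 * X ^ 2 + C 9 * X + 1)) ^ n
/-- Numerator of `j` on the `u₄`-line. -/
def A4u : Polynomial ℤ := (C 4096 * X ^ 2 + C 256 * X + 1) ^ 3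
/-- Denominator of `j` on the `u₄`-line. -/
def B4u : Polynomial ℤ := X * (C 16 * X + 1)
/-- Numerator of `j` on the `u₉`-line. -/
def A9u : Polynomial ℤ :=
  ((C 9 * X + 1) * (C 6561 * X ^ 3 + C 2187 * X ^ 2 + C 243 * X + 1)) ^ 3
/-- Denominator of `j` on the `u₉`-line. -/
def B9u : Polynomial ℤ := X * (C 27 * X ^ 2 + C 9 * X + 1)

theorem evX_P1u4 {A : Type*} [CommRing A] (x : A) : evX x P1u4 = x ^ 5 * (16 * x + 1) ^ 5 := by
  simp [P1u4, map_ofNat]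

theorem evX_P3u4 {A : Type*} [CommRing A] (x : A) (n : ℕ) :
    evX x (P3u4 n) = (x * (16 * x + 1)) ^ n := by
  simp [P3u4, map_ofNat]

theorem evX_P1u9 {A : Type*} [CommRing A] (x : A) :
    evX x P1u9 = x ^ 5 * (27 * x ^ 2 + 9 * x + 1) ^ 5 := by
  simp [P1u9, map_ofNat]

theorem evX_P3u9 {A : Type*} [CommRing A] (x : A) (n : ℕ) :
    evX x (P3u9 n) = (x * (27 * x ^ 2 + 9 * x + 1)) ^ n := by
  simp [P3u9, map_ofNat]

theorem evX_A4u {A : Type*} [CommRing A] (x : A) :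
    evX x A4u = (4096 * x ^ 2 + 256 * x + 1) ^ 3 := by
  simp [A4u, map_ofNat]

theorem evX_B4u {A : Type*} [CommRing A] (x : A) : evX x B4u = x * (16 * x + 1) := by
  simp [B4u, map_ofNat]

theorem evX_A9u {A : Type*} [CommRing A] (x : A) :
    evX x A9u = ((9 * x + 1) * (6561 * x ^ 3 + 2187 * x ^ 2 + 243 * x + 1)) ^ 3 := by
  simp [A9u, map_ofNat]

theorem evX_B9u {A : Type*} [CommRing A] (x : A) :
    evX x B9u = x * (27 * x ^ 2 + 9 * x + 1) := by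
  simp [B9u, map_ofNat]

/-- `(θ u)^6 = u^5 (1 + 16 u)^5 Δ` for `u = 1/t₄`. -/
theorem hsix_u4 : thetaFun ℤ (inv4C ℤ) ^ 6 * evX (inv4C ℤ) (1 : Polynomial ℤ)
    = evX (inv4C ℤ) P1u4 * toL ℤ deltaSeries := by
  have h := inv4C_mul_t4C ℤ
  have h6 := Fermat.Agent.S36.helper1257.thetaFun_t4C_pow_six ℤ
  have e1 : inv4C ℤ * (t4C ℤ + 16) = 16 * inv4C ℤ + 1 := by linear_combination h
  have e2 : inv4C ℤ ^ 12 * (t4C ℤ ^ 2 * (t4C ℤ + 16) ^ 5)
      = inv4C ℤ ^ 5 * (16 * inv4C ℤ + 1) ^ 5 := by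
    calc inv4C ℤ ^ 12 * (t4C ℤ ^ 2 * (t4C ℤ + 16) ^ 5)
        = inv4C ℤ ^ 5 * (inv4C ℤ * t4C ℤ) ^ 2 * (inv4C ℤ * (t4C ℤ + 16)) ^ 5 := by ring
      _ = _ := by rw [h, e1]; ring
  rw [evX_P1u4, map_one, mul_one, thetaFun_of_mul_eq_one h, ← e2]
  calc (-(inv4C ℤ ^ 2 * thetaFun ℤ (t4C ℤ))) ^ 6
      = inv4C ℤ ^ 12 * thetaFun ℤ (t4C ℤ) ^ 6 := by ring
    _ = _ := by rw [h6]; ring

/-- `(θ u)^6 = u^5 (1 + 9 u + 27 u²)^5 Δ` for `u = 1/t₉`. -/
theorem hsix_u9 : thetaFun ℤ (inv9C ℤ) ^ 6 * evX (inv9C ℤ) (1 : Polynomial ℤ)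
    = evX (inv9C ℤ) P1u9 * toL ℤ deltaSeries := by
  have h := inv9C_mul_t9C ℤ
  have h6 := Fermat.Agent.S36.helper1257.thetaFun_t9C_pow_six ℤ
  have e1 : inv9C ℤ ^ 2 * (t9C ℤ ^ 2 + 9 * t9C ℤ + 27)
      = 27 * inv9C ℤ ^ 2 + 9 * inv9C ℤ + 1 := by
    linear_combination (inv9C ℤ * t9C ℤ + 1 + 9 * inv9C ℤ) * h
  have e2 : inv9C ℤ ^ 15 * (t9C ℤ ^ 2 + 9 * t9C ℤ + 27) ^ 5
      = inv9C ℤ ^ 5 * (27 * inv9C ℤ ^ 2 + 9 * inv9C ℤ + 1) ^ 5 := by
    calc inv9C ℤ ^ 15 * (t9C ℤ ^ 2 + 9 * t9C ℤ + 27) ^ 5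
        = inv9C ℤ ^ 5 * (inv9C ℤ ^ 2 * (t9C ℤ ^ 2 + 9 * t9C ℤ + 27)) ^ 5 := by ring
      _ = _ := by rw [e1]
  rw [evX_P1u9, map_one, mul_one, thetaFun_of_mul_eq_one h, ← e2]
  calc (-(inv9C ℤ ^ 2 * thetaFun ℤ (t9C ℤ))) ^ 6
      = inv9C ℤ ^ 12 * thetaFun ℤ (t9C ℤ) ^ 6 * 1 ^ 3 := by ring
    _ = inv9C ℤ ^ 12 * thetaFun ℤ (t9C ℤ) ^ 6 * (inv9C ℤ * t9C ℤ) ^ 3 := by rw [h]
    _ = inv9C ℤ ^ 15 * (thetaFun ℤ (t9C ℤ) ^ 6 * t9C ℤ ^ 3) := by ring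
    _ = _ := by rw [h6]; ring

/-- `j · u (1 + 16 u) = (1 + 256 u + 4096 u²)³` for `u = 1/t₄`. -/
theorem jq_rel_u4 : jqModC ℤ * evX (inv4C ℤ) B4u = evX (inv4C ℤ) A4u := by
  have h := inv4C_mul_t4C ℤ
  have hj := Fermat.Agent.S37.helper9536.t4Z_j
  rw [Fermat.Agent.S37.helper9536.t4Z_eq_t4C] at hj
  have e1 : inv4C ℤ * (t4C ℤ + 16) = 16 * inv4C ℤ + 1 := by linear_combination h
  rw [evX_A4u, evX_B4u]
  calc jqModC ℤ * (inv4C ℤ * (16 * inv4C ℤ + 1))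
      = jqModC ℤ * (inv4C ℤ * 1 ^ 4 * (16 * inv4C ℤ + 1)) := by ring
    _ = jqModC ℤ * (inv4C ℤ * (inv4C ℤ * t4C ℤ) ^ 4 * (inv4C ℤ * (t4C ℤ + 16))) := by
        rw [h, e1]
    _ = inv4C ℤ ^ 6 * (jqModC ℤ * t4C ℤ ^ 4 * (t4C ℤ + 16)) := by ring
    _ = inv4C ℤ ^ 6 * (t4C ℤ ^ 2 + 256 * t4C ℤ + 4096) ^ 3 := by rw [hj]
    _ = (4096 * inv4C ℤ ^ 2 + 256 * inv4C ℤ * (inv4C ℤ * t4C ℤ) + (inv4C ℤ * t4C ℤ) ^ 2) ^ 3 := by
        ring
    _ = _ := by rw [h]; ring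

/-- `j · u (1 + 9 u + 27 u²) = ((1 + 9 u)(1 + 243 u + 2187 u² + 6561 u³))³` for `u = 1/t₉`. -/
theorem jq_rel_u9 : jqModC ℤ * evX (inv9C ℤ) B9u = evX (inv9C ℤ) A9u := by
  have h := inv9C_mul_t9C ℤ
  have hj := Fermat.Agent.S37.helper9536.t9Z_j
  rw [Fermat.Agent.S37.helper9536.t9Z_eq_t9C] at hj
  have e1 : inv9C ℤ ^ 2 * (t9C ℤ ^ 2 + 9 * t9C ℤ + 27)
      = 27 * inv9C ℤ ^ 2 + 9 * inv9C ℤ + 1 := by
    linear_combination (inv9C ℤ * t9C ℤ + 1 + 9 * inv9C ℤ) * h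
  rw [evX_A9u, evX_B9u]
  calc jqModC ℤ * (inv9C ℤ * (27 * inv9C ℤ ^ 2 + 9 * inv9C ℤ + 1))
      = jqModC ℤ * (inv9C ℤ * 1 ^ 9 * (27 * inv9C ℤ ^ 2 + 9 * inv9C ℤ + 1)) := by ring
    _ = jqModC ℤ * (inv9C ℤ * (inv9C ℤ * t9C ℤ) ^ 9
          * (inv9C ℤ ^ 2 * (t9C ℤ ^ 2 + 9 * t9C ℤ + 27))) := by rw [h, e1]
    _ = inv9C ℤ ^ 12 * (jqModC ℤ * t9C ℤ ^ 9 * (t9C ℤ ^ 2 + 9 * t9C ℤ + 27)) := by ring
    _ = inv9C ℤ ^ 12 * ((t9C ℤ + 9) ^ 3
          * (t9C ℤ ^ 3 + 243 * t9C ℤ ^ 2 + 2187 * t9C ℤ + 6561) ^ 3) := by rw [hj]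
    _ = (((inv9C ℤ * t9C ℤ) + 9 * inv9C ℤ)
          * ((inv9C ℤ * t9C ℤ) ^ 3 + 243 * inv9C ℤ * (inv9C ℤ * t9C ℤ) ^ 2
            + 2187 * inv9C ℤ ^ 2 * (inv9C ℤ * t9C ℤ) + 6561 * inv9C ℤ ^ 3)) ^ 3 := by ring
    _ = _ := by rw [h]; ring

end Identities

/-! ## Reduction mod `p` -/

section Red

variable (p : ℕ) [hp : Fact p.Prime]

theorem transcendental_of_mul_eq_one {K F : Type*} [Field K] [Field F] [Algebra K F] {u t : F}
    (h : u * t = 1) (ht : Transcendental K t) : Transcendental K u := by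
  intro hu
  apply ht
  have h1 : t = u⁻¹ := eq_inv_of_mul_eq_one_right h
  rw [h1]
  exact hu.inv

omit hp in
theorem red_inv4C : red p (inv4C ℤ) = inv4C (ZMod p) := coeffMap_inv4C ℤ _

omit hp in
theorem red_inv9C : red p (inv9C ℤ) = inv9C (ZMod p) := coeffMap_inv9C ℤ _

theorem transcendental_red_inv4C : Transcendental (ZMod p) (red p (inv4C ℤ)) := by
  rw [red_inv4C]
  refine transcendental_of_mul_eq_one (inv4C_mul_t4C (ZMod p)) ?_
  have h := transcendental_red_t4C p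
  rwa [red_t4C] at h

theorem transcendental_red_inv9C : Transcendental (ZMod p) (red p (inv9C ℤ)) := by
  rw [red_inv9C]
  refine transcendental_of_mul_eq_one (inv9C_mul_t9C (ZMod p)) ?_
  have h := transcendental_red_t9C p
  rwa [red_t9C] at h

theorem thetaFun_red_inv4C_ne_zero : thetaFun (ZMod p) (red p (inv4C ℤ)) ≠ 0 := by
  rw [red_inv4C, thetaFun_of_mul_eq_one (inv4C_mul_t4C (ZMod p)), neg_ne_zero]
  have h := thetaFun_red_t4C_ne_zero p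
  rw [red_t4C] at h
  refine mul_ne_zero (pow_ne_zero 2 ?_) h
  intro h0
  have h1 := inv4C_mul_t4C (ZMod p)
  rw [h0, zero_mul] at h1
  exact zero_ne_one h1

theorem thetaFun_red_inv9C_ne_zero : thetaFun (ZMod p) (red p (inv9C ℤ)) ≠ 0 := by
  rw [red_inv9C, thetaFun_of_mul_eq_one (inv9C_mul_t9C (ZMod p)), neg_ne_zero]
  have h := thetaFun_red_t9C_ne_zero p
  rw [red_t9C] at h
  refine mul_ne_zero (pow_ne_zero 2 ?_) h
  intro h0
  have h1 := inv9C_mul_t9C (ZMod p)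
  rw [h0, zero_mul] at h1
  exact zero_ne_one h1

theorem map_B4u_ne_zero : B4u.map (Int.castRingHom (ZMod p)) ≠ 0 := by
  intro h
  have h1 := congrArg (fun f : Polynomial (ZMod p) => f.coeff 1) h
  simp [B4u, coeff_X_mul] at h1

theorem map_B9u_ne_zero : B9u.map (Int.castRingHom (ZMod p)) ≠ 0 := by
  intro h
  have h1 := congrArg (fun f : Polynomial (ZMod p) => f.coeff 1) h
  simp [B9u, coeff_X_mul] at h1

/-- **RAT on the `u₄`-line.** -/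
theorem exists_rat_delta_u4 :
    ∃ a b : Polynomial (ZMod p), b ≠ 0 ∧
      red p (delta p (inv4C ℤ)) * aeval (red p (inv4C ℤ)) b = aeval (red p (inv4C ℤ)) a :=
  exists_rat_delta_of_jq p (inv4C ℤ) A4u B4u jq_rel_u4 (transcendental_red_inv4C p)
    (map_B4u_ne_zero p)

/-- **RAT on the `u₉`-line.** -/
theorem exists_rat_delta_u9 :
    ∃ a b : Polynomial (ZMod p), b ≠ 0 ∧
      red p (delta p (inv9C ℤ)) * aeval (red p (inv9C ℤ)) b = aeval (red p (inv9C ℤ)) a :=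
  exists_rat_delta_of_jq p (inv9C ℤ) A9u B9u jq_rel_u9 (transcendental_red_inv9C p)
    (map_B9u_ne_zero p)

end Red

/-! ## Reduction-map forms on the second chart -/

section Param

variable (p : ℕ) [hp : Fact p.Prime] {k : Type*} [Field k] [CharP k p] {B : Type*} [CommRing B]

omit hp [CharP k p] in
theorem rho_eq_inv4C (ρ : B →+* LaurentSeries k) (u : B) (hu : ρ u * t4C k = 1) :
    ρ u = coeffMap (Int.castRingHom k) (inv4C ℤ) := by
  rw [coeffMap_inv4C]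
  exact eq_of_mul_eq_one hu (inv4C_mul_t4C k)

omit hp [CharP k p] in
theorem rho_eq_inv9C (ρ : B →+* LaurentSeries k) (u : B) (hu : ρ u * t9C k = 1) :
    ρ u = coeffMap (Int.castRingHom k) (inv9C ℤ) := by
  rw [coeffMap_inv9C]
  exact eq_of_mul_eq_one hu (inv9C_mul_t9C k)

/-- **F2-OUT on the second chart of the `t₄`-line** (`u = 1/t₄`).  `DZ` is the integer
`q`-expansion of the cusp-corrected modular unit `(u (1 + 16 u))ⁿ Δ(z)/Δ(pz)`. -/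
theorem thick_param_u4 (ρ : B →+* LaurentSeries k) (P : Ideal B) [P.IsPrime]
    (hker : ∀ b, ρ b = 0 → b ∈ P) (DZ : LaurentSeries ℤ) (n : ℕ)
    (hDZ : DZ * qExpand ℤ p (toL ℤ deltaSeries)
      = toL ℤ deltaSeries * (inv4C ℤ * (16 * inv4C ℤ + 1)) ^ n)
    (u D g : B) (hu : ρ u * t4C k = 1) (hD : ρ D = coeffMap (Int.castRingHom k) DZ)
    (hg : ρ g = coeffMap (Int.castRingHom k)
      (delta p (inv4C ℤ) * (inv4C ℤ - qExpand ℤ p (inv4C ℤ) ^ p)))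
    (hDP : D ∈ P) (hu0 : u ∉ P) (hu16 : 16 * u + 1 ∉ P) :
    g ∉ P := by
  refine thick_param p ρ P hker (inv4C ℤ) DZ (toL ℤ deltaSeries) P1u4 1 (P3u4 n) hsix_u4
    (by rw [evX_P3u4]; exact hDZ) (red_deltaL_ne_zero p) (transcendental_red_inv4C p)
    (thetaFun_red_inv4C_ne_zero p) (exists_rat_delta_u4 p) u D g
    (rho_eq_inv4C ρ u hu) hD hg hDP ?_ ?_
  · rw [evX_P1u4]
    intro h
    rcases ‹P.IsPrime›.mem_or_mem h with h | h
    · exact hu0 (‹P.IsPrime›.mem_of_pow_mem _ h)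
    · exact hu16 (‹P.IsPrime›.mem_of_pow_mem _ h)
  · rw [evX_P3u4]
    intro h
    rcases ‹P.IsPrime›.mem_or_mem (‹P.IsPrime›.mem_of_pow_mem _ h) with h | h
    · exact hu0 h
    · exact hu16 h

/-- **MID-OUT on the second chart of the `t₄`-line.** -/
theorem mid_param_u4 (ρ : B →+* LaurentSeries k) (P : Ideal B) [P.IsPrime]
    (hker : ∀ b, ρ b = 0 → b ∈ P) (DZ : LaurentSeries ℤ) (n : ℕ)
    (hDZ : DZ * qExpand ℤ p (toL ℤ deltaSeries)
      = toL ℤ deltaSeries * (inv4C ℤ * (16 * inv4C ℤ + 1)) ^ n)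
    (υ D b s : B) (hυ : ρ υ * t4C k = 1) (hD : ρ D = coeffMap (Int.castRingHom k) DZ)
    (hbs : ρ b = -(thetaFun k (ρ υ) ^ (p - 1) * ρ s))
    (hs : s ∉ P) (hυ0 : υ ∉ P) (hυ16 : 16 * υ + 1 ∉ P) :
    b ∉ P ∧ D ∉ P := by
  refine mid_param p ρ P hker (inv4C ℤ) DZ (toL ℤ deltaSeries) P1u4 1 (P3u4 n) hsix_u4
    (by rw [evX_P3u4]; exact hDZ) (red_deltaL_ne_zero p) υ D b s
    (rho_eq_inv4C ρ υ hυ) hD hbs hs ?_ ?_
  · rw [evX_P1u4]
    intro h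
    rcases ‹P.IsPrime›.mem_or_mem h with h | h
    · exact hυ0 (‹P.IsPrime›.mem_of_pow_mem _ h)
    · exact hυ16 (‹P.IsPrime›.mem_of_pow_mem _ h)
  · rw [evX_P3u4]
    intro h
    rcases ‹P.IsPrime›.mem_or_mem (‹P.IsPrime›.mem_of_pow_mem _ h) with h | h
    · exact hυ0 h
    · exact hυ16 h

/-- **F2-OUT on the second chart of the `t₉`-line** (`u = 1/t₉`).  `DZ` is the integer
`q`-expansion of the cusp-corrected modular unit `(u (1 + 9 u + 27 u²))ⁿ Δ(z)/Δ(pz)`. -/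
theorem thick_param_u9 (ρ : B →+* LaurentSeries k) (P : Ideal B) [P.IsPrime]
    (hker : ∀ b, ρ b = 0 → b ∈ P) (DZ : LaurentSeries ℤ) (n : ℕ)
    (hDZ : DZ * qExpand ℤ p (toL ℤ deltaSeries)
      = toL ℤ deltaSeries * (inv9C ℤ * (27 * inv9C ℤ ^ 2 + 9 * inv9C ℤ + 1)) ^ n)
    (u D g : B) (hu : ρ u * t9C k = 1) (hD : ρ D = coeffMap (Int.castRingHom k) DZ)
    (hg : ρ g = coeffMap (Int.castRingHom k)
      (delta p (inv9C ℤ) * (inv9C ℤ - qExpand ℤ p (inv9C ℤ) ^ p)))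
    (hDP : D ∈ P) (hu0 : u ∉ P) (huQ : 27 * u ^ 2 + 9 * u + 1 ∉ P) :
    g ∉ P := by
  refine thick_param p ρ P hker (inv9C ℤ) DZ (toL ℤ deltaSeries) P1u9 1 (P3u9 n) hsix_u9
    (by rw [evX_P3u9]; exact hDZ) (red_deltaL_ne_zero p) (transcendental_red_inv9C p)
    (thetaFun_red_inv9C_ne_zero p) (exists_rat_delta_u9 p) u D g
    (rho_eq_inv9C ρ u hu) hD hg hDP ?_ ?_
  · rw [evX_P1u9]
    intro h
    rcases ‹P.IsPrime›.mem_or_mem h with h | h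
    · exact hu0 (‹P.IsPrime›.mem_of_pow_mem _ h)
    · exact huQ (‹P.IsPrime›.mem_of_pow_mem _ h)
  · rw [evX_P3u9]
    intro h
    rcases ‹P.IsPrime›.mem_or_mem (‹P.IsPrime›.mem_of_pow_mem _ h) with h | h
    · exact hu0 h
    · exact huQ h

/-- **MID-OUT on the second chart of the `t₉`-line.** -/
theorem mid_param_u9 (ρ : B →+* LaurentSeries k) (P : Ideal B) [P.IsPrime]
    (hker : ∀ b, ρ b = 0 → b ∈ P) (DZ : LaurentSeries ℤ) (n : ℕ)
    (hDZ : DZ * qExpand ℤ p (toL ℤ deltaSeries)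
      = toL ℤ deltaSeries * (inv9C ℤ * (27 * inv9C ℤ ^ 2 + 9 * inv9C ℤ + 1)) ^ n)
    (υ D b s : B) (hυ : ρ υ * t9C k = 1) (hD : ρ D = coeffMap (Int.castRingHom k) DZ)
    (hbs : ρ b = -(thetaFun k (ρ υ) ^ (p - 1) * ρ s))
    (hs : s ∉ P) (hυ0 : υ ∉ P) (hυQ : 27 * υ ^ 2 + 9 * υ + 1 ∉ P) :
    b ∉ P ∧ D ∉ P := by
  refine mid_param p ρ P hker (inv9C ℤ) DZ (toL ℤ deltaSeries) P1u9 1 (P3u9 n) hsix_u9
    (by rw [evX_P3u9]; exact hDZ) (red_deltaL_ne_zero p) υ D b s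
    (rho_eq_inv9C ρ υ hυ) hD hbs hs ?_ ?_
  · rw [evX_P1u9]
    intro h
    rcases ‹P.IsPrime›.mem_or_mem h with h | h
    · exact hυ0 (‹P.IsPrime›.mem_of_pow_mem _ h)
    · exact hυQ (‹P.IsPrime›.mem_of_pow_mem _ h)
  · rw [evX_P3u9]
    intro h
    rcases ‹P.IsPrime›.mem_or_mem (‹P.IsPrime›.mem_of_pow_mem _ h) with h | h
    · exact hυ0 h
    · exact hυQ h

end Param

/-! ## Gauss-ring forms on the second chart -/

section Gauss

variable (p : ℕ) [hp : Fact p.Prime] {L : Type*} [Field L] (hpL : (p : L) ≠ 0)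
  (A : ValuationSubring L) {k : Type*} [Field k] [CharP k p] (π : A →+* k)
  {B : Type*} [CommRing B] (σ : B →+* LaurentSeries L) (hσ : ∀ b, σ b ∈ gaussRing A π)
  (P : Ideal B) [P.IsPrime] (hP : ∀ b, gaussRho A π ⟨σ b, hσ b⟩ = 0 → b ∈ P)

include hpL hP in
/-- **F2-OUT on the second chart of the `t₄`-line, Gauss-ring form.**  `u = 1/t`,
`u_p = 1/t(pz)`, `D = (u (1 + 16 u))ⁿ Δ(z)/Δ(pz)`, `p g = (u^p - u_p)(u - u_p^p)`. -/
theorem thick_gauss_u4 (n : ℕ) (u up D g : B) (hu : σ u * t4C L = 1)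
    (hup : σ up * qExpand L p (t4C L) = 1)
    (hD : σ D * qExpand L p (toL L deltaSeries)
      = toL L deltaSeries * (σ u * (16 * σ u + 1)) ^ n)
    (hg : (p : B) * g = (u ^ p - up) * (u - up ^ p))
    (hDP : D ∈ P) (hu0 : u ∉ P) (hu16 : 16 * u + 1 ∉ P) :
    g ∉ P := by
  have hcL : coeffMap (Int.castRingHom L) (inv4C ℤ) = inv4C L := coeffMap_inv4C ℤ _
  have huL : σ u = inv4C L := eq_of_mul_eq_one hu (inv4C_mul_t4C L)
  have hupL : σ up = qExpand L p (inv4C L) := by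
    refine eq_of_mul_eq_one hup ?_
    rw [← map_mul, inv4C_mul_t4C, map_one]
  obtain ⟨DZ, hDZ, hDσ⟩ := exists_unit_expansion p σ (inv4C L * (16 * inv4C L + 1))
    (inv4C ℤ * (16 * inv4C ℤ + 1)) (by rw [map_mul, map_add, map_mul, map_ofNat, map_one, hcL])
    n D (by rw [← huL]; exact hD)
  refine thick_param_u4 p (rhoG A π σ hσ) P hP DZ n hDZ u D g ?_ ?_ ?_ hDP hu0 hu16
  · rw [rhoG_of_int A π σ hσ u (inv4C ℤ) (by rw [huL, hcL]), coeffMap_inv4C]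
    exact inv4C_mul_t4C k
  · exact rhoG_of_int A π σ hσ D DZ hDσ
  · exact rhoG_of_int A π σ hσ g _
      (kronecker_expansion p hpL σ (inv4C ℤ) u up g (by rw [huL, hcL]) (by rw [hupL, hcL]) hg)

include hpL hP in
/-- **F2-OUT on the second chart of the `t₉`-line, Gauss-ring form.** -/
theorem thick_gauss_u9 (n : ℕ) (u up D g : B) (hu : σ u * t9C L = 1)
    (hup : σ up * qExpand L p (t9C L) = 1)
    (hD : σ D * qExpand L p (toL L deltaSeries)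
      = toL L deltaSeries * (σ u * (27 * σ u ^ 2 + 9 * σ u + 1)) ^ n)
    (hg : (p : B) * g = (u ^ p - up) * (u - up ^ p))
    (hDP : D ∈ P) (hu0 : u ∉ P) (huQ : 27 * u ^ 2 + 9 * u + 1 ∉ P) :
    g ∉ P := by
  have hcL : coeffMap (Int.castRingHom L) (inv9C ℤ) = inv9C L := coeffMap_inv9C ℤ _
  have huL : σ u = inv9C L := eq_of_mul_eq_one hu (inv9C_mul_t9C L)
  have hupL : σ up = qExpand L p (inv9C L) := by
    refine eq_of_mul_eq_one hup ?_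
    rw [← map_mul, inv9C_mul_t9C, map_one]
  obtain ⟨DZ, hDZ, hDσ⟩ := exists_unit_expansion p σ
    (inv9C L * (27 * inv9C L ^ 2 + 9 * inv9C L + 1))
    (inv9C ℤ * (27 * inv9C ℤ ^ 2 + 9 * inv9C ℤ + 1))
    (by rw [map_mul, map_add, map_add, map_mul, map_mul, map_pow, map_ofNat, map_ofNat,
      map_one, hcL])
    n D (by rw [← huL]; exact hD)
  refine thick_param_u9 p (rhoG A π σ hσ) P hP DZ n hDZ u D g ?_ ?_ ?_ hDP hu0 huQ
  · rw [rhoG_of_int A π σ hσ u (inv9C ℤ) (by rw [huL, hcL]), coeffMap_inv9C]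
    exact inv9C_mul_t9C k
  · exact rhoG_of_int A π σ hσ D DZ hDσ
  · exact rhoG_of_int A π σ hσ g _
      (kronecker_expansion p hpL σ (inv9C ℤ) u up g (by rw [huL, hcL]) (by rw [hupL, hcL]) hg)

include hpL hP in
/-- **MID-OUT on the second chart of the `t₄`-line, Gauss-ring form.**  `σ` = a mid-cusp
expansion, `υ = 1/t`, `T = υ(p² z) - υ(z)` with expansion `υ(ζ x) - υ(x)`. -/
theorem mid_gauss_u4 (ζ : Aˣ) (hζ : ∑ i ∈ Finset.range p, (ζ : A) ^ i = 0) (n : ℕ)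
    (υ T D b s : B) (hυ : σ υ * t4C L = 1)
    (hT : σ T = twist (Units.map (A.subtype : A →* L) ζ) (σ υ) - σ υ)
    (hD : σ D * qExpand L p (toL L deltaSeries)
      = toL L deltaSeries * (σ υ * (16 * σ υ + 1)) ^ n)
    (hbs : s * T ^ (p - 1) = (p : B) * b)
    (hs : s ∉ P) (hυ0 : υ ∉ P) (hυ16 : 16 * υ + 1 ∉ P) :
    b ∉ P ∧ D ∉ P := by
  have hcL : coeffMap (Int.castRingHom L) (inv4C ℤ) = inv4C L := coeffMap_inv4C ℤ _
  have hincA : inc A (inv4C A) = inv4C L := coeffMap_inv4C A _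
  have hυL : σ υ = inv4C L := eq_of_mul_eq_one hυ (inv4C_mul_t4C L)
  obtain ⟨DZ, hDZ, hDσ⟩ := exists_unit_expansion p σ (inv4C L * (16 * inv4C L + 1))
    (inv4C ℤ * (16 * inv4C ℤ + 1)) (by rw [map_mul, map_add, map_mul, map_ofNat, map_one, hcL])
    n D (by rw [← hυL]; exact hD)
  have hρυ : rhoG A π σ hσ υ = inv4C k := by
    rw [rhoG_of_int A π σ hσ υ (inv4C ℤ) (by rw [hυL, hcL]), coeffMap_inv4C]
  refine mid_param_u4 p (rhoG A π σ hσ) P hP DZ n hDZ υ D b s ?_ ?_ ?_ hs hυ0 hυ16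
  · rw [hρυ]
    exact inv4C_mul_t4C k
  · exact rhoG_of_int A π σ hσ D DZ hDσ
  · have h := rhoG_mid p hpL A π σ hσ ζ hζ (map_eq_one_of_geom_sum p A π hp.out _ hζ)
      (inv4C A) T b s (by rw [hincA, ← hυL]; exact hT) hbs
    rw [h, hρυ, coeffMap_inv4C]

include hpL hP in
/-- **MID-OUT on the second chart of the `t₉`-line, Gauss-ring form.** -/
theorem mid_gauss_u9 (ζ : Aˣ) (hζ : ∑ i ∈ Finset.range p, (ζ : A) ^ i = 0) (n : ℕ)
    (υ T D b s : B) (hυ : σ υ * t9C L = 1)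
    (hT : σ T = twist (Units.map (A.subtype : A →* L) ζ) (σ υ) - σ υ)
    (hD : σ D * qExpand L p (toL L deltaSeries)
      = toL L deltaSeries * (σ υ * (27 * σ υ ^ 2 + 9 * σ υ + 1)) ^ n)
    (hbs : s * T ^ (p - 1) = (p : B) * b)
    (hs : s ∉ P) (hυ0 : υ ∉ P) (hυQ : 27 * υ ^ 2 + 9 * υ + 1 ∉ P) :
    b ∉ P ∧ D ∉ P := by
  have hcL : coeffMap (Int.castRingHom L) (inv9C ℤ) = inv9C L := coeffMap_inv9C ℤ _
  have hincA : inc A (inv9C A) = inv9C L := coeffMap_inv9C A _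
  have hυL : σ υ = inv9C L := eq_of_mul_eq_one hυ (inv9C_mul_t9C L)
  obtain ⟨DZ, hDZ, hDσ⟩ := exists_unit_expansion p σ
    (inv9C L * (27 * inv9C L ^ 2 + 9 * inv9C L + 1))
    (inv9C ℤ * (27 * inv9C ℤ ^ 2 + 9 * inv9C ℤ + 1))
    (by rw [map_mul, map_add, map_add, map_mul, map_mul, map_pow, map_ofNat, map_ofNat,
      map_one, hcL])
    n D (by rw [← hυL]; exact hD)
  have hρυ : rhoG A π σ hσ υ = inv9C k := by
    rw [rhoG_of_int A π σ hσ υ (inv9C ℤ) (by rw [hυL, hcL]), coeffMap_inv9C]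
  refine mid_param_u9 p (rhoG A π σ hσ) P hP DZ n hDZ υ D b s ?_ ?_ ?_ hs hυ0 hυQ
  · rw [hρυ]
    exact inv9C_mul_t9C k
  · exact rhoG_of_int A π σ hσ D DZ hDσ
  · have h := rhoG_mid p hpL A π σ hσ ζ hζ (map_eq_one_of_geom_sum p A π hp.out _ hζ)
      (inv9C A) T b s (by rw [hincA, ← hυL]; exact hT) hbs
    rw [h, hρυ, coeffMap_inv9C]

end Gauss

end Fermat.Agent.S36.helper4118
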