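import Mathlib
import Fermat.Agent.S36.helper6136_LPGeom

/-!
# S36-LP-CASES (helper8039): (LP) at every closed point, by component incidence

`B` is the chart ring of the normal model of `X₀(q² M'')` over the discrete valuation ring `O_K`
and `B'` the chart ring of `X₀(q M'')` (same chart coordinate); both are noetherian integrally
closed domains.  `α β : B' →+* B` are the two degeneracy pull-backs, `q' ↦ q` the uniformiser.
`p_oo, p_mid, p_0` are the three vertical primes of `B` and `p_oo', p_0'` the two vertical primes of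
`B'`.

The pointwise lemmas (G1)-(G4), (F) of `helper6136_LPGeom` produce a local generator of one vertical
prime through a given closed point `P`.  This file is the EXHAUSTIVE casework over all primes `P`
containing `q`, organised by the incidence set `S(P) = {c | p_c ≤ P}` (no notion of "cusp",
"ordinary" or "supersingular" point occurs in any statement):

* `exists_vertical_le`     : `S(P)` is nonempty (Krull's principal ideal theorem + the dictionary).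
* `locGen_oo_of_node`      : `p_oo ≤ P` and (`p_mid ≤ P` or `p_0 ≤ P`): `β⁻¹ P` is a node of level
                             `q`, and `β x₀` generates `p_oo` at `P`  ((G4) below, (G2) along `β`).
* `locGen_zero_of_node`    : `p_mid ≤ P` and `p_0 ≤ P`: `α y₀` generates `p_0` at `P`.
* `not_le_comap_alpha_of_mid`, `not_le_comap_beta_of_mid` : if only `p_mid` passes through `P`
                             then `α⁻¹ P` lies on `C'_oo` only and `β⁻¹ P` on `C'_0` only (the image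
                             points are not nodes; no "one point" input needed).
* `locFactorial_at`        : the five cases at one prime `P` (`locFactorial_at_pt`: thickness one
                             only at the two image points `α⁻¹ P`, `β⁻¹ P`; `locFactorial_at_inc`:
                             only at `α⁻¹ P` when `S(P) ⊇ {mid, 0}` and at `β⁻¹ P` when `oo ∈ S(P)`,
                             `|S(P)| ≥ 2` — nothing at the points lying on one component only).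
* `locFactorial_of_cases`  : every maximal ideal `P ∋ q` of `B` has `LocFactorial P`.
* `locFactorial_of_cases_max` : the same with (TH) only at the MAXIMAL ideals of `B'` (the closed
                             nodes), given that `α⁻¹`, `β⁻¹` preserve maximality on the special fibre.
* `locFactorial_of_cases_dedekind` : the same with `B ⧸ p_c` Dedekind as the (LP)(b) input.

The hypotheses are the list of modular inputs of (LP):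

* (V)   dictionary: the height-one primes over `q` (resp. `q'`) are the named vertical primes;
* (E)   multiplicity one at `p_oo`, `p_0`, `p_oo'`, `p_0'`;
* (T)   the restriction tables of `α`, `β` as containments and non-containments;
* (TH)  thickness one at every node of level `q`;
* (MID) a generator `T` of `p_mid` at the points lying on `C_mid` only (`T ^ m ∣ s * q`, `s ∉ P`);
* (B)   the local rings of the three components are principal ideal rings (`LocPIRQuot`).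
-/

set_option autoImplicit false

namespace Fermat.Agent.S36.helper8039

open Fermat.Agent.S36.helper6136

section Krull

variable {B : Type*} [CommRing B] [IsDomain B] [IsNoetherianRing B]

/-- Every prime containing a nonzero element `y` contains a height-one prime containing `y`
(Krull's principal ideal theorem). -/
theorem exists_height_one_le (P : Ideal B) [P.IsPrime] {y : B} (hy0 : y ≠ 0) (hyP : y ∈ P) :
    ∃ Q : Ideal B, Q.IsPrime ∧ Q.height = 1 ∧ Q ≤ P ∧ y ∈ Q := by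
  have hle : Ideal.span {y} ≤ P := (Ideal.span_singleton_le_iff_mem P).mpr hyP
  obtain ⟨Q, hQ, hQP⟩ := Ideal.exists_minimalPrimes_le hle
  have hQprime : Q.IsPrime := hQ.1.1
  have hyQ : y ∈ Q := hQ.1.2 (Ideal.mem_span_singleton_self y)
  have h1 : Q.height ≤ 1 :=
    Ideal.height_le_one_of_isPrincipal_of_mem_minimalPrimes (Ideal.span {y}) Q hQ
  have h0 : Q.height ≠ 0 := by
    rw [Ne, Ideal.height_eq_zero_iff_eq_bot]
    intro hbot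
    exact hy0 (by simpa [hbot] using hyQ)
  refine ⟨Q, hQprime, le_antisymm h1 ?_, hQP, hyQ⟩
  exact Order.one_le_iff_pos.mpr (pos_iff_ne_zero.mpr h0)

/-- **`S(P)` is nonempty.**  If the height-one primes containing `q` are `p_oo`, `p_mid`, `p_0`
then every prime containing `q` contains one of them. -/
theorem exists_vertical_le {q : B} (hq0 : q ≠ 0) (poo pmid p0 : Ideal B)
    (hV : ∀ Q : Ideal B, Q.IsPrime → Q.height = 1 → q ∈ Q → Q = poo ∨ Q = pmid ∨ Q = p0)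
    (P : Ideal B) [P.IsPrime] (hqP : q ∈ P) : poo ≤ P ∨ pmid ≤ P ∨ p0 ≤ P := by
  obtain ⟨Q, hQ, hQ1, hQP, hqQ⟩ := exists_height_one_le P hq0 hqP
  rcases hV Q hQ hQ1 hqQ with rfl | rfl | rfl
  · exact Or.inl hQP
  · exact Or.inr (Or.inl hQP)
  · exact Or.inr (Or.inr hQP)

end Krull

section Cases

variable {B B' : Type*} [CommRing B] [IsDomain B] [IsNoetherianRing B] [IsIntegrallyClosed B]
  [CommRing B'] [IsDomain B'] [IsNoetherianRing B'] [IsIntegrallyClosed B']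

/-- **Generator at a node of level `q`, pulled back.**  Generic form of the two "several
components" cases: `φ : B' →+* B` (one of `α`, `β`), `p ≤ P` a vertical prime of `B` of
multiplicity one lying over the vertical prime `p₁'` of `B'`, such that `φ⁻¹ P` contains both
vertical primes `p₁'`, `p₂'` of `B'` (it is a node), and `p` is the only vertical prime of `B`
whose contraction contains `p₁'`.  Then `φ x₀` generates `p` at `P`, where `x₀` is the thickness-one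
generator of `p₁'` at the node. -/
theorem exists_locGen_of_node_pt (φ : B' →+* B) (hφ : Function.Injective φ)
    (q' : B') (q : B) (hq0 : q ≠ 0) (hφq : φ q' = q)
    (p : Ideal B) [p.IsPrime] (p₁' p₂' : Ideal B') [p₁'.IsPrime] [p₂'.IsPrime]
    (hq'₁ : q' ∈ p₁') (hq'₂ : q' ∈ p₂')
    (hV' : ∀ Q : Ideal B', Q.IsPrime → Q.height = 1 → q' ∈ Q → Q = p₁' ∨ Q = p₂')
    (he : ∀ a ∈ p, ∃ s, s ∉ p ∧ q ∣ s * a)
    (he₁' : ∀ a ∈ p₁', ∃ s, s ∉ p₁' ∧ q' ∣ s * a)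
    (he₂' : ∀ a ∈ p₂', ∃ s, s ∉ p₂' ∧ q' ∣ s * a)
    (hle : p₁' ≤ p.comap φ)
    (P : Ideal B) [P.IsPrime] (hpP : p ≤ P) (h₂ : p₂' ≤ P.comap φ)
    (hTH : ∃ x₀ ∈ p₁', ∃ y₀ ∈ p₂', ∃ g, g ∉ P.comap φ ∧ x₀ * y₀ = q' * g)
    (hother : ∀ Q : Ideal B, Q.IsPrime → Q.height = 1 → Q ≤ P → q ∈ Q → p₁' ≤ Q.comap φ → Q = p) :
    ∃ y, y ≠ 0 ∧ LocGen P p y := by
  have hq'p0 : q' ≠ 0 := fun h0 => hq0 (by rw [← hφq, h0, map_zero])
  have hP' : (P.comap φ).IsPrime := Ideal.comap_isPrime φ P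
  have h₁ : p₁' ≤ P.comap φ := hle.trans (Ideal.comap_mono hpP)
  obtain ⟨x₀, hx₀, y₀, hy₀, g, hg, hxy⟩ := hTH
  have hgen := (locGen_of_thickness (P.comap φ) p₁' p₂' h₁ h₂ hq'p0 hq'₁ hq'₂ hx₀ hy₀ hxy hg
    he₁' he₂' (fun Q hQ hQ1 _ hqQ => hV' Q hQ hQ1 hqQ)).1
  have hg0 : g ≠ 0 := fun h0 => hg (h0 ▸ (P.comap φ).zero_mem)
  have hx0 : x₀ ≠ 0 := by
    intro h0
    rw [h0, zero_mul] at hxy
    exact (mul_ne_zero hq'p0 hg0) hxy.symm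
  refine ⟨φ x₀, fun h0 => hx0 (hφ (by rw [h0, map_zero])), ?_⟩
  refine locGen_of_comap φ P p hpP p₁' hgen hle ?_ ?_
  · intro a ha
    obtain ⟨s, hs, c, hc⟩ := he a ha
    refine ⟨s, hs, ?_⟩
    rw [hc, ← hφq]
    exact Ideal.mul_mem_right _ _ (Ideal.mem_map_of_mem φ hq'₁)
  · intro Q hQ hQ1 hQP hQ''
    have hqQ : q ∈ Q := by
      have : q' ∈ Q.comap φ := hQ'' hq'₁
      rwa [Ideal.mem_comap, hφq] at this
    exact hother Q hQ hQ1 hQP hqQ hQ''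

/-- `exists_locGen_of_node_pt` with thickness one assumed at every prime of `B'` containing both
vertical primes. -/
theorem exists_locGen_of_node (φ : B' →+* B) (hφ : Function.Injective φ)
    (q' : B') (q : B) (hq0 : q ≠ 0) (hφq : φ q' = q)
    (p : Ideal B) [p.IsPrime] (p₁' p₂' : Ideal B') [p₁'.IsPrime] [p₂'.IsPrime]
    (hq'₁ : q' ∈ p₁') (hq'₂ : q' ∈ p₂')
    (hV' : ∀ Q : Ideal B', Q.IsPrime → Q.height = 1 → q' ∈ Q → Q = p₁' ∨ Q = p₂')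
    (he : ∀ a ∈ p, ∃ s, s ∉ p ∧ q ∣ s * a)
    (he₁' : ∀ a ∈ p₁', ∃ s, s ∉ p₁' ∧ q' ∣ s * a)
    (he₂' : ∀ a ∈ p₂', ∃ s, s ∉ p₂' ∧ q' ∣ s * a)
    (hle : p₁' ≤ p.comap φ)
    (hTH : ∀ P' : Ideal B', P'.IsPrime → p₁' ≤ P' → p₂' ≤ P' →
      ∃ x₀ ∈ p₁', ∃ y₀ ∈ p₂', ∃ g, g ∉ P' ∧ x₀ * y₀ = q' * g)
    (P : Ideal B) [P.IsPrime] (hpP : p ≤ P) (h₂ : p₂' ≤ P.comap φ)
    (hother : ∀ Q : Ideal B, Q.IsPrime → Q.height = 1 → Q ≤ P → q ∈ Q → p₁' ≤ Q.comap φ → Q = p) :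
    ∃ y, y ≠ 0 ∧ LocGen P p y :=
  exists_locGen_of_node_pt φ hφ q' q hq0 hφq p p₁' p₂' hq'₁ hq'₂ hV' he he₁' he₂' hle P hpP h₂
    (hTH (P.comap φ) (Ideal.comap_isPrime φ P) (hle.trans (Ideal.comap_mono hpP)) h₂) hother

omit [IsIntegrallyClosed B] in
/-- **The image of a point lying on one component only is not a node.**  Generic form:
`φ : B' →+* B`, `p₁'`, `p₂'` the vertical primes of `B'`, `P` a prime of `B` such that every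
height-one prime `Q ≤ P` containing `q` satisfies `¬ p₁' ≤ φ⁻¹ Q`.  Then `p₁' ≤ φ⁻¹ P` and
`p₂' ≤ φ⁻¹ P` cannot both hold. -/
theorem not_node_comap_pt (φ : B' →+* B)
    (q' : B') (q : B) (hq0 : q ≠ 0) (hφq : φ q' = q)
    (p₁' p₂' : Ideal B') [p₁'.IsPrime] [p₂'.IsPrime]
    (hq'₁ : q' ∈ p₁') (hq'₂ : q' ∈ p₂')
    (hV' : ∀ Q : Ideal B', Q.IsPrime → Q.height = 1 → q' ∈ Q → Q = p₁' ∨ Q = p₂')
    (he₁' : ∀ a ∈ p₁', ∃ s, s ∉ p₁' ∧ q' ∣ s * a)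
    (he₂' : ∀ a ∈ p₂', ∃ s, s ∉ p₂' ∧ q' ∣ s * a)
    (P : Ideal B) [P.IsPrime]
    (hno : ∀ Q : Ideal B, Q.IsPrime → Q.height = 1 → Q ≤ P → q ∈ Q → ¬ p₁' ≤ Q.comap φ)
    (h₁ : p₁' ≤ P.comap φ) (h₂ : p₂' ≤ P.comap φ)
    (hTH : ∃ x₀ ∈ p₁', ∃ y₀ ∈ p₂', ∃ g, g ∉ P.comap φ ∧ x₀ * y₀ = q' * g) : False := by
  have hq'p0 : q' ≠ 0 := fun h0 => hq0 (by rw [← hφq, h0, map_zero])
  have hP' : (P.comap φ).IsPrime := Ideal.comap_isPrime φ P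
  obtain ⟨x₀, hx₀, y₀, hy₀, g, hg, hxy⟩ := hTH
  have hgen := (locGen_of_thickness (P.comap φ) p₁' p₂' h₁ h₂ hq'p0 hq'₁ hq'₂ hx₀ hy₀ hxy hg
    he₁' he₂' (fun Q hQ hQ1 _ hqQ => hV' Q hQ hQ1 hqQ)).1
  have hφg : φ g ∉ P := hg
  have hφx : φ x₀ ∈ P := h₁ hx₀
  have hφx0 : φ x₀ ≠ 0 := by
    intro h0
    have h1 : φ x₀ * φ y₀ = q * φ g := by rw [← map_mul, hxy, map_mul, hφq]
    rw [h0, zero_mul] at h1
    rcases mul_eq_zero.mp h1.symm with h | h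
    · exact hq0 h
    · exact hφg (h ▸ P.zero_mem)
  obtain ⟨Q, hQ, hQ1, hQP, hxQ⟩ := exists_height_one_le P hφx0 hφx
  have hqQ : q ∈ Q := by
    have h1 : q * φ g ∈ Q := by
      rw [← hφq, ← map_mul, ← hxy, map_mul]
      exact Q.mul_mem_right _ hxQ
    rcases hQ.mem_or_mem h1 with h | h
    · exact h
    · exact absurd (hQP h) hφg
  have hQ' : (Q.comap φ).IsPrime := Ideal.comap_isPrime φ Q
  exact hno Q hQ hQ1 hQP hqQ (hgen.le_of_mem (Ideal.comap_mono hQP) hxQ)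

omit [IsIntegrallyClosed B] in
/-- `not_node_comap_pt` with thickness one assumed at every prime of `B'` containing both vertical
primes. -/
theorem not_node_comap (φ : B' →+* B)
    (q' : B') (q : B) (hq0 : q ≠ 0) (hφq : φ q' = q)
    (p₁' p₂' : Ideal B') [p₁'.IsPrime] [p₂'.IsPrime]
    (hq'₁ : q' ∈ p₁') (hq'₂ : q' ∈ p₂')
    (hV' : ∀ Q : Ideal B', Q.IsPrime → Q.height = 1 → q' ∈ Q → Q = p₁' ∨ Q = p₂')
    (he₁' : ∀ a ∈ p₁', ∃ s, s ∉ p₁' ∧ q' ∣ s * a)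
    (he₂' : ∀ a ∈ p₂', ∃ s, s ∉ p₂' ∧ q' ∣ s * a)
    (hTH : ∀ P' : Ideal B', P'.IsPrime → p₁' ≤ P' → p₂' ≤ P' →
      ∃ x₀ ∈ p₁', ∃ y₀ ∈ p₂', ∃ g, g ∉ P' ∧ x₀ * y₀ = q' * g)
    (P : Ideal B) [P.IsPrime]
    (hno : ∀ Q : Ideal B, Q.IsPrime → Q.height = 1 → Q ≤ P → q ∈ Q → ¬ p₁' ≤ Q.comap φ)
    (h₁ : p₁' ≤ P.comap φ) (h₂ : p₂' ≤ P.comap φ) : False :=
  not_node_comap_pt φ q' q hq0 hφq p₁' p₂' hq'₁ hq'₂ hV' he₁' he₂' P hno h₁ h₂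
    (hTH (P.comap φ) (Ideal.comap_isPrime φ P) h₁ h₂)

variable (α β : B' →+* B) (q' : B') (q : B)
  (poo pmid p0 : Ideal B) (poo' p0' : Ideal B')

/-- **Case `oo ∈ S(P)`, `|S(P)| ≥ 2`.**  `β⁻¹ P` is a node of level `q` and the pull-back along
`β` of the thickness-one generator of `p_oo'` generates `p_oo` at `P`. -/
theorem locGen_oo_of_node_pt [poo.IsPrime] [poo'.IsPrime] [p0'.IsPrime]
    (hβ : Function.Injective β) (hq0 : q ≠ 0) (hβq : β q' = q)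
    (hq'poo : q' ∈ poo') (hq'p0 : q' ∈ p0')
    (hV : ∀ Q : Ideal B, Q.IsPrime → Q.height = 1 → q ∈ Q → Q = poo ∨ Q = pmid ∨ Q = p0)
    (hV' : ∀ Q : Ideal B', Q.IsPrime → Q.height = 1 → q' ∈ Q → Q = poo' ∨ Q = p0')
    (heoo : ∀ a ∈ poo, ∃ s, s ∉ poo ∧ q ∣ s * a)
    (heoo' : ∀ a ∈ poo', ∃ s, s ∉ poo' ∧ q' ∣ s * a)
    (he0' : ∀ a ∈ p0', ∃ s, s ∉ p0' ∧ q' ∣ s * a)
    (hβoo : poo' ≤ poo.comap β) (hβmid : p0' ≤ pmid.comap β) (hβ0 : p0' ≤ p0.comap β)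
    (hβmid' : ¬ poo' ≤ pmid.comap β) (hβ0' : ¬ poo' ≤ p0.comap β)
    (P : Ideal B) [P.IsPrime] (hooP : poo ≤ P) (h2 : pmid ≤ P ∨ p0 ≤ P)
    (hTH : poo' ≤ P.comap β → p0' ≤ P.comap β →
      ∃ x₀ ∈ poo', ∃ y₀ ∈ p0', ∃ g, g ∉ P.comap β ∧ x₀ * y₀ = q' * g) :
    ∃ y, y ≠ 0 ∧ LocGen P poo y := by
  have h₂ : p0' ≤ P.comap β := by
    rcases h2 with h | h
    · exact hβmid.trans (Ideal.comap_mono h)
    · exact hβ0.trans (Ideal.comap_mono h)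
  refine exists_locGen_of_node_pt β hβ q' q hq0 hβq poo poo' p0' hq'poo hq'p0 hV' heoo heoo' he0'
    hβoo P hooP h₂ (hTH (hβoo.trans (Ideal.comap_mono hooP)) h₂) ?_
  intro Q hQ hQ1 _ hqQ hQ''
  rcases hV Q hQ hQ1 hqQ with rfl | rfl | rfl
  · rfl
  · exact absurd hQ'' hβmid'
  · exact absurd hQ'' hβ0'

/-- `locGen_oo_of_node_pt` with thickness one assumed at every prime of `B'` containing both
vertical primes. -/
theorem locGen_oo_of_node [poo.IsPrime] [poo'.IsPrime] [p0'.IsPrime]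
    (hβ : Function.Injective β) (hq0 : q ≠ 0) (hβq : β q' = q)
    (hq'poo : q' ∈ poo') (hq'p0 : q' ∈ p0')
    (hV : ∀ Q : Ideal B, Q.IsPrime → Q.height = 1 → q ∈ Q → Q = poo ∨ Q = pmid ∨ Q = p0)
    (hV' : ∀ Q : Ideal B', Q.IsPrime → Q.height = 1 → q' ∈ Q → Q = poo' ∨ Q = p0')
    (heoo : ∀ a ∈ poo, ∃ s, s ∉ poo ∧ q ∣ s * a)
    (heoo' : ∀ a ∈ poo', ∃ s, s ∉ poo' ∧ q' ∣ s * a)
    (he0' : ∀ a ∈ p0', ∃ s, s ∉ p0' ∧ q' ∣ s * a)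
    (hβoo : poo' ≤ poo.comap β) (hβmid : p0' ≤ pmid.comap β) (hβ0 : p0' ≤ p0.comap β)
    (hβmid' : ¬ poo' ≤ pmid.comap β) (hβ0' : ¬ poo' ≤ p0.comap β)
    (hTH : ∀ P' : Ideal B', P'.IsPrime → poo' ≤ P' → p0' ≤ P' →
      ∃ x₀ ∈ poo', ∃ y₀ ∈ p0', ∃ g, g ∉ P' ∧ x₀ * y₀ = q' * g)
    (P : Ideal B) [P.IsPrime] (hooP : poo ≤ P) (h2 : pmid ≤ P ∨ p0 ≤ P) :
    ∃ y, y ≠ 0 ∧ LocGen P poo y :=
  locGen_oo_of_node_pt β q' q poo pmid p0 poo' p0' hβ hq0 hβq hq'poo hq'p0 hV hV' heoo heoo' he0'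
    hβoo hβmid hβ0 hβmid' hβ0' P hooP h2 (hTH (P.comap β) (Ideal.comap_isPrime β P))

/-- **Case `S(P) ⊇ {mid, 0}`.**  `α⁻¹ P` is a node of level `q` and the pull-back along `α` of
the thickness-one generator of `p_0'` generates `p_0` at `P`. -/
theorem locGen_zero_of_node_pt [p0.IsPrime] [poo'.IsPrime] [p0'.IsPrime]
    (hα : Function.Injective α) (hq0 : q ≠ 0) (hαq : α q' = q)
    (hq'poo : q' ∈ poo') (hq'p0 : q' ∈ p0')
    (hV : ∀ Q : Ideal B, Q.IsPrime → Q.height = 1 → q ∈ Q → Q = poo ∨ Q = pmid ∨ Q = p0)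
    (hV' : ∀ Q : Ideal B', Q.IsPrime → Q.height = 1 → q' ∈ Q → Q = poo' ∨ Q = p0')
    (he0 : ∀ a ∈ p0, ∃ s, s ∉ p0 ∧ q ∣ s * a)
    (heoo' : ∀ a ∈ poo', ∃ s, s ∉ poo' ∧ q' ∣ s * a)
    (he0' : ∀ a ∈ p0', ∃ s, s ∉ p0' ∧ q' ∣ s * a)
    (hαmid : poo' ≤ pmid.comap α) (hα0 : p0' ≤ p0.comap α)
    (hαoo' : ¬ p0' ≤ poo.comap α) (hαmid' : ¬ p0' ≤ pmid.comap α)
    (P : Ideal B) [P.IsPrime] (hmidP : pmid ≤ P) (h0P : p0 ≤ P)
    (hTH : poo' ≤ P.comap α → p0' ≤ P.comap α →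
      ∃ x₀ ∈ poo', ∃ y₀ ∈ p0', ∃ g, g ∉ P.comap α ∧ x₀ * y₀ = q' * g) :
    ∃ y, y ≠ 0 ∧ LocGen P p0 y := by
  have h₂ : poo' ≤ P.comap α := hαmid.trans (Ideal.comap_mono hmidP)
  have h₁ : p0' ≤ P.comap α := hα0.trans (Ideal.comap_mono h0P)
  have hV'' : ∀ Q : Ideal B', Q.IsPrime → Q.height = 1 → q' ∈ Q → Q = p0' ∨ Q = poo' :=
    fun Q hQ hQ1 hqQ => (hV' Q hQ hQ1 hqQ).symm
  have hTH' : ∃ x₀ ∈ p0', ∃ y₀ ∈ poo', ∃ g, g ∉ P.comap α ∧ x₀ * y₀ = q' * g := by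
    obtain ⟨x₀, hx₀, y₀, hy₀, g, hg, hxy⟩ := hTH h₂ h₁
    exact ⟨y₀, hy₀, x₀, hx₀, g, hg, by rw [mul_comm, hxy]⟩
  refine exists_locGen_of_node_pt α hα q' q hq0 hαq p0 p0' poo' hq'p0 hq'poo hV'' he0 he0' heoo'
    hα0 P h0P h₂ hTH' ?_
  intro Q hQ hQ1 _ hqQ hQ''
  rcases hV Q hQ hQ1 hqQ with rfl | rfl | rfl
  · exact absurd hQ'' hαoo'
  · exact absurd hQ'' hαmid'
  · rfl

/-- `locGen_zero_of_node_pt` with thickness one assumed at every prime of `B'` containing both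
vertical primes. -/
theorem locGen_zero_of_node [p0.IsPrime] [poo'.IsPrime] [p0'.IsPrime]
    (hα : Function.Injective α) (hq0 : q ≠ 0) (hαq : α q' = q)
    (hq'poo : q' ∈ poo') (hq'p0 : q' ∈ p0')
    (hV : ∀ Q : Ideal B, Q.IsPrime → Q.height = 1 → q ∈ Q → Q = poo ∨ Q = pmid ∨ Q = p0)
    (hV' : ∀ Q : Ideal B', Q.IsPrime → Q.height = 1 → q' ∈ Q → Q = poo' ∨ Q = p0')
    (he0 : ∀ a ∈ p0, ∃ s, s ∉ p0 ∧ q ∣ s * a)
    (heoo' : ∀ a ∈ poo', ∃ s, s ∉ poo' ∧ q' ∣ s * a)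
    (he0' : ∀ a ∈ p0', ∃ s, s ∉ p0' ∧ q' ∣ s * a)
    (hαmid : poo' ≤ pmid.comap α) (hα0 : p0' ≤ p0.comap α)
    (hαoo' : ¬ p0' ≤ poo.comap α) (hαmid' : ¬ p0' ≤ pmid.comap α)
    (hTH : ∀ P' : Ideal B', P'.IsPrime → poo' ≤ P' → p0' ≤ P' →
      ∃ x₀ ∈ poo', ∃ y₀ ∈ p0', ∃ g, g ∉ P' ∧ x₀ * y₀ = q' * g)
    (P : Ideal B) [P.IsPrime] (hmidP : pmid ≤ P) (h0P : p0 ≤ P) :
    ∃ y, y ≠ 0 ∧ LocGen P p0 y :=
  locGen_zero_of_node_pt α q' q poo pmid p0 poo' p0' hα hq0 hαq hq'poo hq'p0 hV hV' he0 heoo' he0'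
    hαmid hα0 hαoo' hαmid' P hmidP h0P (hTH (P.comap α) (Ideal.comap_isPrime α P))

omit [IsIntegrallyClosed B] in
/-- **The `α`-image of a point on `C_mid` only is not a node**: it lies on `C'_oo` and not on
`C'_0`. -/
theorem not_le_comap_alpha_of_mid [poo'.IsPrime] [p0'.IsPrime]
    (hq0 : q ≠ 0) (hαq : α q' = q) (hq'poo : q' ∈ poo') (hq'p0 : q' ∈ p0')
    (hV : ∀ Q : Ideal B, Q.IsPrime → Q.height = 1 → q ∈ Q → Q = poo ∨ Q = pmid ∨ Q = p0)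
    (hV' : ∀ Q : Ideal B', Q.IsPrime → Q.height = 1 → q' ∈ Q → Q = poo' ∨ Q = p0')
    (heoo' : ∀ a ∈ poo', ∃ s, s ∉ poo' ∧ q' ∣ s * a)
    (he0' : ∀ a ∈ p0', ∃ s, s ∉ p0' ∧ q' ∣ s * a)
    (hαmid : poo' ≤ pmid.comap α) (hαmid' : ¬ p0' ≤ pmid.comap α)
    (hTH : ∀ P' : Ideal B', P'.IsPrime → poo' ≤ P' → p0' ≤ P' →
      ∃ x₀ ∈ poo', ∃ y₀ ∈ p0', ∃ g, g ∉ P' ∧ x₀ * y₀ = q' * g)
    (P : Ideal B) [P.IsPrime] (hmidP : pmid ≤ P) (hooP : ¬ poo ≤ P) (h0P : ¬ p0 ≤ P) :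
    ¬ p0' ≤ P.comap α := by
  intro h0'
  have hV'' : ∀ Q : Ideal B', Q.IsPrime → Q.height = 1 → q' ∈ Q → Q = p0' ∨ Q = poo' :=
    fun Q hQ hQ1 hqQ => (hV' Q hQ hQ1 hqQ).symm
  have hTH' : ∀ P' : Ideal B', P'.IsPrime → p0' ≤ P' → poo' ≤ P' →
      ∃ x₀ ∈ p0', ∃ y₀ ∈ poo', ∃ g, g ∉ P' ∧ x₀ * y₀ = q' * g := by
    intro P' hP' h1 h2
    obtain ⟨x₀, hx₀, y₀, hy₀, g, hg, hxy⟩ := hTH P' hP' h2 h1
    exact ⟨y₀, hy₀, x₀, hx₀, g, hg, by rw [mul_comm, hxy]⟩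
  refine not_node_comap α q' q hq0 hαq p0' poo' hq'p0 hq'poo hV'' he0' heoo' hTH' P ?_ h0'
    (hαmid.trans (Ideal.comap_mono hmidP))
  intro Q hQ hQ1 hQP hqQ hQ''
  rcases hV Q hQ hQ1 hqQ with rfl | rfl | rfl
  · exact hooP hQP
  · exact hαmid' hQ''
  · exact h0P hQP

omit [IsIntegrallyClosed B] in
/-- **The `β`-image of a point on `C_mid` only is not a node**: it lies on `C'_0` and not on
`C'_oo`. -/
theorem not_le_comap_beta_of_mid [poo'.IsPrime] [p0'.IsPrime]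
    (hq0 : q ≠ 0) (hβq : β q' = q) (hq'poo : q' ∈ poo') (hq'p0 : q' ∈ p0')
    (hV : ∀ Q : Ideal B, Q.IsPrime → Q.height = 1 → q ∈ Q → Q = poo ∨ Q = pmid ∨ Q = p0)
    (hV' : ∀ Q : Ideal B', Q.IsPrime → Q.height = 1 → q' ∈ Q → Q = poo' ∨ Q = p0')
    (heoo' : ∀ a ∈ poo', ∃ s, s ∉ poo' ∧ q' ∣ s * a)
    (he0' : ∀ a ∈ p0', ∃ s, s ∉ p0' ∧ q' ∣ s * a)
    (hβmid : p0' ≤ pmid.comap β) (hβmid' : ¬ poo' ≤ pmid.comap β)
    (hTH : ∀ P' : Ideal B', P'.IsPrime → poo' ≤ P' → p0' ≤ P' →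
      ∃ x₀ ∈ poo', ∃ y₀ ∈ p0', ∃ g, g ∉ P' ∧ x₀ * y₀ = q' * g)
    (P : Ideal B) [P.IsPrime] (hmidP : pmid ≤ P) (hooP : ¬ poo ≤ P) (h0P : ¬ p0 ≤ P) :
    ¬ poo' ≤ P.comap β := by
  intro hoo'
  refine not_node_comap β q' q hq0 hβq poo' p0' hq'poo hq'p0 hV' heoo' he0' hTH P ?_ hoo'
    (hβmid.trans (Ideal.comap_mono hmidP))
  intro Q hQ hQ1 hQP hqQ hQ''
  rcases hV Q hQ hQ1 hqQ with rfl | rfl | rfl
  · exact hooP hQP
  · exact hβmid' hQ''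
  · exact h0P hQP

/-- **(LP) at one prime `P ∋ q`: the five cases.**  The hypotheses `hMID`, `hBoo`, `hBmid`, `hB0`
are only required at the given `P`. -/
theorem locFactorial_at_inc [poo.IsPrime] [pmid.IsPrime] [p0.IsPrime] [poo'.IsPrime] [p0'.IsPrime]
    (hα : Function.Injective α) (hβ : Function.Injective β)
    (hq0 : q ≠ 0) (hαq : α q' = q) (hβq : β q' = q)
    (hqpoo : q ∈ poo) (hqp0 : q ∈ p0) (hq'poo : q' ∈ poo') (hq'p0 : q' ∈ p0')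
    -- (V) dictionary
    (hV : ∀ Q : Ideal B, Q.IsPrime → Q.height = 1 → q ∈ Q → Q = poo ∨ Q = pmid ∨ Q = p0)
    (hV' : ∀ Q : Ideal B', Q.IsPrime → Q.height = 1 → q' ∈ Q → Q = poo' ∨ Q = p0')
    -- (E) multiplicity one
    (heoo : ∀ a ∈ poo, ∃ s, s ∉ poo ∧ q ∣ s * a)
    (he0 : ∀ a ∈ p0, ∃ s, s ∉ p0 ∧ q ∣ s * a)
    (heoo' : ∀ a ∈ poo', ∃ s, s ∉ poo' ∧ q' ∣ s * a)
    (he0' : ∀ a ∈ p0', ∃ s, s ∉ p0' ∧ q' ∣ s * a)
    -- (T) tables of `β`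
    (hβoo : poo' ≤ poo.comap β) (hβmid : p0' ≤ pmid.comap β) (hβ0 : p0' ≤ p0.comap β)
    (hβmid' : ¬ poo' ≤ pmid.comap β) (hβ0' : ¬ poo' ≤ p0.comap β)
    -- (T) tables of `α`
    (hαmid : poo' ≤ pmid.comap α) (hα0 : p0' ≤ p0.comap α)
    (hαoo' : ¬ p0' ≤ poo.comap α) (hαmid' : ¬ p0' ≤ pmid.comap α)
    (P : Ideal B) [P.IsPrime] (hqP : q ∈ P)
    -- (TH) thickness one at the `α`-image of `P` if `S(P) ⊇ {mid, 0}`, and at the `β`-image of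
    -- `P` if `oo ∈ S(P)` and `|S(P)| ≥ 2`
    (hTHα : pmid ≤ P → p0 ≤ P →
      ∃ x₀ ∈ poo', ∃ y₀ ∈ p0', ∃ g, g ∉ P.comap α ∧ x₀ * y₀ = q' * g)
    (hTHβ : poo ≤ P → (pmid ≤ P ∨ p0 ≤ P) →
      ∃ x₀ ∈ poo', ∃ y₀ ∈ p0', ∃ g, g ∉ P.comap β ∧ x₀ * y₀ = q' * g)
    -- (MID) at `P`
    (hMID : pmid ≤ P → ¬ poo ≤ P → ¬ p0 ≤ P →
      ∃ T ∈ pmid, T ≠ 0 ∧ (∃ m : ℕ, m ≠ 0 ∧ ∃ s, s ∉ P ∧ T ^ m ∣ s * q) ∧
        ∀ a ∈ pmid, ∃ s, s ∉ pmid ∧ T ∣ s * a)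
    -- (B) at `P`
    (hBoo : poo ≤ P → LocPIRQuot P poo) (hBmid : pmid ≤ P → LocPIRQuot P pmid)
    (hB0 : p0 ≤ P → LocPIRQuot P p0) :
    LocFactorial P := by
  by_cases hooP : poo ≤ P
  · by_cases h2 : pmid ≤ P ∨ p0 ≤ P
    · -- `oo ∈ S(P)`, `|S(P)| ≥ 2`
      obtain ⟨y, hy0, hy⟩ := locGen_oo_of_node_pt β q' q poo pmid p0 poo' p0' hβ hq0 hβq hq'poo
        hq'p0 hV hV' heoo heoo' he0' hβoo hβmid hβ0 hβmid' hβ0' P hooP h2
        (fun _ _ => hTHβ hooP h2)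
      exact locFactorial_of_locGen P poo hy0 hy hooP (hBoo hooP)
    · -- `S(P) = {oo}`
      push Not at h2
      have hgen : LocGen P poo q := by
        refine locGen_of_single P poo hq0 hqpoo heoo ?_
        intro Q hQ hQ1 hQP hqQ
        rcases hV Q hQ hQ1 hqQ with rfl | rfl | rfl
        · rfl
        · exact absurd hQP h2.1
        · exact absurd hQP h2.2
      exact locFactorial_of_locGen P poo hq0 hgen hooP (hBoo hooP)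
  · by_cases hmidP : pmid ≤ P
    · by_cases h0P : p0 ≤ P
      · -- `S(P) = {mid, 0}`
        obtain ⟨y, hy0, hy⟩ := locGen_zero_of_node_pt α q' q poo pmid p0 poo' p0' hα hq0 hαq hq'poo
          hq'p0 hV hV' he0 heoo' he0' hαmid hα0 hαoo' hαmid' P hmidP h0P
          (fun _ _ => hTHα hmidP h0P)
        exact locFactorial_of_locGen P p0 hy0 hy h0P (hB0 h0P)
      · -- `S(P) = {mid}`
        obtain ⟨T, hTp, hT0, ⟨m, hm, hdvd⟩, he⟩ := hMID hmidP hooP h0P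
        have hgen : LocGen P pmid T := by
          refine locGen_of_pow_dvd P pmid hT0 hTp hm hdvd he ?_
          intro Q hQ hQ1 hQP hqQ
          rcases hV Q hQ hQ1 hqQ with rfl | rfl | rfl
          · exact absurd hQP hooP
          · rfl
          · exact absurd hQP h0P
        exact locFactorial_of_locGen P pmid hT0 hgen hmidP (hBmid hmidP)
    · -- `S(P) = {0}` (nonempty by Krull)
      have h0P : p0 ≤ P := by
        rcases exists_vertical_le hq0 poo pmid p0 hV P hqP with h | h | h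
        · exact absurd h hooP
        · exact absurd h hmidP
        · exact h
      have hgen : LocGen P p0 q := by
        refine locGen_of_single P p0 hq0 hqp0 he0 ?_
        intro Q hQ hQ1 hQP hqQ
        rcases hV Q hQ hQ1 hqQ with rfl | rfl | rfl
        · exact absurd hQP hooP
        · exact absurd hQP hmidP
        · rfl
      exact locFactorial_of_locGen P p0 hq0 hgen h0P (hB0 h0P)

/-- `locFactorial_at_inc` with thickness one assumed at the two image points `α⁻¹ P`, `β⁻¹ P`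
whenever they are nodes of level `q`. -/
theorem locFactorial_at_pt [poo.IsPrime] [pmid.IsPrime] [p0.IsPrime] [poo'.IsPrime] [p0'.IsPrime]
    (hα : Function.Injective α) (hβ : Function.Injective β)
    (hq0 : q ≠ 0) (hαq : α q' = q) (hβq : β q' = q)
    (hqpoo : q ∈ poo) (hqp0 : q ∈ p0) (hq'poo : q' ∈ poo') (hq'p0 : q' ∈ p0')
    (hV : ∀ Q : Ideal B, Q.IsPrime → Q.height = 1 → q ∈ Q → Q = poo ∨ Q = pmid ∨ Q = p0)
    (hV' : ∀ Q : Ideal B', Q.IsPrime → Q.height = 1 → q' ∈ Q → Q = poo' ∨ Q = p0')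
    (heoo : ∀ a ∈ poo, ∃ s, s ∉ poo ∧ q ∣ s * a)
    (he0 : ∀ a ∈ p0, ∃ s, s ∉ p0 ∧ q ∣ s * a)
    (heoo' : ∀ a ∈ poo', ∃ s, s ∉ poo' ∧ q' ∣ s * a)
    (he0' : ∀ a ∈ p0', ∃ s, s ∉ p0' ∧ q' ∣ s * a)
    (hβoo : poo' ≤ poo.comap β) (hβmid : p0' ≤ pmid.comap β) (hβ0 : p0' ≤ p0.comap β)
    (hβmid' : ¬ poo' ≤ pmid.comap β) (hβ0' : ¬ poo' ≤ p0.comap β)
    (hαmid : poo' ≤ pmid.comap α) (hα0 : p0' ≤ p0.comap α)
    (hαoo' : ¬ p0' ≤ poo.comap α) (hαmid' : ¬ p0' ≤ pmid.comap α)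
    (P : Ideal B) [P.IsPrime] (hqP : q ∈ P)
    (hTHα : poo' ≤ P.comap α → p0' ≤ P.comap α →
      ∃ x₀ ∈ poo', ∃ y₀ ∈ p0', ∃ g, g ∉ P.comap α ∧ x₀ * y₀ = q' * g)
    (hTHβ : poo' ≤ P.comap β → p0' ≤ P.comap β →
      ∃ x₀ ∈ poo', ∃ y₀ ∈ p0', ∃ g, g ∉ P.comap β ∧ x₀ * y₀ = q' * g)
    (hMID : pmid ≤ P → ¬ poo ≤ P → ¬ p0 ≤ P →
      ∃ T ∈ pmid, T ≠ 0 ∧ (∃ m : ℕ, m ≠ 0 ∧ ∃ s, s ∉ P ∧ T ^ m ∣ s * q) ∧
        ∀ a ∈ pmid, ∃ s, s ∉ pmid ∧ T ∣ s * a)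
    (hBoo : poo ≤ P → LocPIRQuot P poo) (hBmid : pmid ≤ P → LocPIRQuot P pmid)
    (hB0 : p0 ≤ P → LocPIRQuot P p0) :
    LocFactorial P :=
  locFactorial_at_inc α β q' q poo pmid p0 poo' p0' hα hβ hq0 hαq hβq hqpoo hqp0 hq'poo hq'p0 hV
    hV' heoo he0 heoo' he0' hβoo hβmid hβ0 hβmid' hβ0' hαmid hα0 hαoo' hαmid' P hqP
    (fun hmid h0 => hTHα (hαmid.trans (Ideal.comap_mono hmid)) (hα0.trans (Ideal.comap_mono h0)))
    (fun hoo h2 => hTHβ (hβoo.trans (Ideal.comap_mono hoo))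
      (h2.elim (fun h => hβmid.trans (Ideal.comap_mono h)) (fun h => hβ0.trans (Ideal.comap_mono h))))
    hMID hBoo hBmid hB0

/-- `locFactorial_at_pt` with thickness one assumed at every prime of `B'` containing both
vertical primes. -/
theorem locFactorial_at [poo.IsPrime] [pmid.IsPrime] [p0.IsPrime] [poo'.IsPrime] [p0'.IsPrime]
    (hα : Function.Injective α) (hβ : Function.Injective β)
    (hq0 : q ≠ 0) (hαq : α q' = q) (hβq : β q' = q)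
    (hqpoo : q ∈ poo) (hqp0 : q ∈ p0) (hq'poo : q' ∈ poo') (hq'p0 : q' ∈ p0')
    (hV : ∀ Q : Ideal B, Q.IsPrime → Q.height = 1 → q ∈ Q → Q = poo ∨ Q = pmid ∨ Q = p0)
    (hV' : ∀ Q : Ideal B', Q.IsPrime → Q.height = 1 → q' ∈ Q → Q = poo' ∨ Q = p0')
    (heoo : ∀ a ∈ poo, ∃ s, s ∉ poo ∧ q ∣ s * a)
    (he0 : ∀ a ∈ p0, ∃ s, s ∉ p0 ∧ q ∣ s * a)
    (heoo' : ∀ a ∈ poo', ∃ s, s ∉ poo' ∧ q' ∣ s * a)
    (he0' : ∀ a ∈ p0', ∃ s, s ∉ p0' ∧ q' ∣ s * a)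
    (hβoo : poo' ≤ poo.comap β) (hβmid : p0' ≤ pmid.comap β) (hβ0 : p0' ≤ p0.comap β)
    (hβmid' : ¬ poo' ≤ pmid.comap β) (hβ0' : ¬ poo' ≤ p0.comap β)
    (hαmid : poo' ≤ pmid.comap α) (hα0 : p0' ≤ p0.comap α)
    (hαoo' : ¬ p0' ≤ poo.comap α) (hαmid' : ¬ p0' ≤ pmid.comap α)
    (hTH : ∀ P' : Ideal B', P'.IsPrime → poo' ≤ P' → p0' ≤ P' →
      ∃ x₀ ∈ poo', ∃ y₀ ∈ p0', ∃ g, g ∉ P' ∧ x₀ * y₀ = q' * g)
    (P : Ideal B) [P.IsPrime] (hqP : q ∈ P)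
    (hMID : pmid ≤ P → ¬ poo ≤ P → ¬ p0 ≤ P →
      ∃ T ∈ pmid, T ≠ 0 ∧ (∃ m : ℕ, m ≠ 0 ∧ ∃ s, s ∉ P ∧ T ^ m ∣ s * q) ∧
        ∀ a ∈ pmid, ∃ s, s ∉ pmid ∧ T ∣ s * a)
    (hBoo : poo ≤ P → LocPIRQuot P poo) (hBmid : pmid ≤ P → LocPIRQuot P pmid)
    (hB0 : p0 ≤ P → LocPIRQuot P p0) :
    LocFactorial P :=
  locFactorial_at_pt α β q' q poo pmid p0 poo' p0' hα hβ hq0 hαq hβq hqpoo hqp0 hq'poo hq'p0 hV hV'
    heoo he0 heoo' he0' hβoo hβmid hβ0 hβmid' hβ0' hαmid hα0 hαoo' hαmid' P hqP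
    (hTH (P.comap α) (Ideal.comap_isPrime α P)) (hTH (P.comap β) (Ideal.comap_isPrime β P))
    hMID hBoo hBmid hB0

/-- **(LP) at every closed point of the special fibre.**  Under the dictionary (V), multiplicity
one (E), the tables (T), thickness one at level `q` (TH), the generator of `p_mid` at the points
lying on `C_mid` only (MID) and (LP)(b) in the form `LocPIRQuot` (B): every maximal ideal `P ∋ q`
of the chart ring `B` has a factorial local ring. -/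
theorem locFactorial_of_cases [poo.IsPrime] [pmid.IsPrime] [p0.IsPrime] [poo'.IsPrime]
    [p0'.IsPrime]
    (hα : Function.Injective α) (hβ : Function.Injective β)
    (hq0 : q ≠ 0) (hαq : α q' = q) (hβq : β q' = q)
    (hqpoo : q ∈ poo) (hqp0 : q ∈ p0) (hq'poo : q' ∈ poo') (hq'p0 : q' ∈ p0')
    (hV : ∀ Q : Ideal B, Q.IsPrime → Q.height = 1 → q ∈ Q → Q = poo ∨ Q = pmid ∨ Q = p0)
    (hV' : ∀ Q : Ideal B', Q.IsPrime → Q.height = 1 → q' ∈ Q → Q = poo' ∨ Q = p0')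
    (heoo : ∀ a ∈ poo, ∃ s, s ∉ poo ∧ q ∣ s * a)
    (he0 : ∀ a ∈ p0, ∃ s, s ∉ p0 ∧ q ∣ s * a)
    (heoo' : ∀ a ∈ poo', ∃ s, s ∉ poo' ∧ q' ∣ s * a)
    (he0' : ∀ a ∈ p0', ∃ s, s ∉ p0' ∧ q' ∣ s * a)
    (hβoo : poo' ≤ poo.comap β) (hβmid : p0' ≤ pmid.comap β) (hβ0 : p0' ≤ p0.comap β)
    (hβmid' : ¬ poo' ≤ pmid.comap β) (hβ0' : ¬ poo' ≤ p0.comap β)
    (hαmid : poo' ≤ pmid.comap α) (hα0 : p0' ≤ p0.comap α)
    (hαoo' : ¬ p0' ≤ poo.comap α) (hαmid' : ¬ p0' ≤ pmid.comap α)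
    (hTH : ∀ P' : Ideal B', P'.IsPrime → poo' ≤ P' → p0' ≤ P' →
      ∃ x₀ ∈ poo', ∃ y₀ ∈ p0', ∃ g, g ∉ P' ∧ x₀ * y₀ = q' * g)
    (hMID : ∀ P : Ideal B, P.IsMaximal → pmid ≤ P → ¬ poo ≤ P → ¬ p0 ≤ P →
      ∃ T ∈ pmid, T ≠ 0 ∧ (∃ m : ℕ, m ≠ 0 ∧ ∃ s, s ∉ P ∧ T ^ m ∣ s * q) ∧
        ∀ a ∈ pmid, ∃ s, s ∉ pmid ∧ T ∣ s * a)
    (hBoo : ∀ P : Ideal B, P.IsMaximal → poo ≤ P → LocPIRQuot P poo)
    (hBmid : ∀ P : Ideal B, P.IsMaximal → pmid ≤ P → LocPIRQuot P pmid)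
    (hB0 : ∀ P : Ideal B, P.IsMaximal → p0 ≤ P → LocPIRQuot P p0) :
    ∀ P : Ideal B, P.IsMaximal → q ∈ P → LocFactorial P := by
  intro P hP hqP
  have hPp : P.IsPrime := hP.isPrime
  exact locFactorial_at α β q' q poo pmid p0 poo' p0' hα hβ hq0 hαq hβq hqpoo hqp0 hq'poo hq'p0 hV hV'
    heoo he0 heoo' he0' hβoo hβmid hβ0 hβmid' hβ0' hαmid hα0 hαoo' hαmid' hTH P hqP (hMID P hP)
    (hBoo P hP) (hBmid P hP) (hB0 P hP)

/-- **(LP) at every closed point; thickness one only at the CLOSED nodes of level `q`.**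
Same as `locFactorial_of_cases`, but (TH) is only assumed at the maximal ideals of `B'` containing
both vertical primes (the output contract (F2-OUT)); in exchange the two degeneracy maps send closed
points of the special fibre to closed points (`hmaxα`, `hmaxβ`: e.g. because the residue field of
every closed point is that of the base, or because `B` is integral over the image of `B'`). -/
theorem locFactorial_of_cases_max [poo.IsPrime] [pmid.IsPrime] [p0.IsPrime] [poo'.IsPrime]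
    [p0'.IsPrime]
    (hα : Function.Injective α) (hβ : Function.Injective β)
    (hq0 : q ≠ 0) (hαq : α q' = q) (hβq : β q' = q)
    (hqpoo : q ∈ poo) (hqp0 : q ∈ p0) (hq'poo : q' ∈ poo') (hq'p0 : q' ∈ p0')
    (hV : ∀ Q : Ideal B, Q.IsPrime → Q.height = 1 → q ∈ Q → Q = poo ∨ Q = pmid ∨ Q = p0)
    (hV' : ∀ Q : Ideal B', Q.IsPrime → Q.height = 1 → q' ∈ Q → Q = poo' ∨ Q = p0')
    (heoo : ∀ a ∈ poo, ∃ s, s ∉ poo ∧ q ∣ s * a)
    (he0 : ∀ a ∈ p0, ∃ s, s ∉ p0 ∧ q ∣ s * a)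
    (heoo' : ∀ a ∈ poo', ∃ s, s ∉ poo' ∧ q' ∣ s * a)
    (he0' : ∀ a ∈ p0', ∃ s, s ∉ p0' ∧ q' ∣ s * a)
    (hβoo : poo' ≤ poo.comap β) (hβmid : p0' ≤ pmid.comap β) (hβ0 : p0' ≤ p0.comap β)
    (hβmid' : ¬ poo' ≤ pmid.comap β) (hβ0' : ¬ poo' ≤ p0.comap β)
    (hαmid : poo' ≤ pmid.comap α) (hα0 : p0' ≤ p0.comap α)
    (hαoo' : ¬ p0' ≤ poo.comap α) (hαmid' : ¬ p0' ≤ pmid.comap α)
    (hmaxα : ∀ P : Ideal B, P.IsMaximal → q ∈ P → (P.comap α).IsMaximal)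
    (hmaxβ : ∀ P : Ideal B, P.IsMaximal → q ∈ P → (P.comap β).IsMaximal)
    (hTH : ∀ P' : Ideal B', P'.IsMaximal → poo' ≤ P' → p0' ≤ P' →
      ∃ x₀ ∈ poo', ∃ y₀ ∈ p0', ∃ g, g ∉ P' ∧ x₀ * y₀ = q' * g)
    (hMID : ∀ P : Ideal B, P.IsMaximal → pmid ≤ P → ¬ poo ≤ P → ¬ p0 ≤ P →
      ∃ T ∈ pmid, T ≠ 0 ∧ (∃ m : ℕ, m ≠ 0 ∧ ∃ s, s ∉ P ∧ T ^ m ∣ s * q) ∧
        ∀ a ∈ pmid, ∃ s, s ∉ pmid ∧ T ∣ s * a)
    (hBoo : ∀ P : Ideal B, P.IsMaximal → poo ≤ P → LocPIRQuot P poo)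
    (hBmid : ∀ P : Ideal B, P.IsMaximal → pmid ≤ P → LocPIRQuot P pmid)
    (hB0 : ∀ P : Ideal B, P.IsMaximal → p0 ≤ P → LocPIRQuot P p0) :
    ∀ P : Ideal B, P.IsMaximal → q ∈ P → LocFactorial P := by
  intro P hP hqP
  have hPp : P.IsPrime := hP.isPrime
  exact locFactorial_at_pt α β q' q poo pmid p0 poo' p0' hα hβ hq0 hαq hβq hqpoo hqp0 hq'poo hq'p0
    hV hV' heoo he0 heoo' he0' hβoo hβmid hβ0 hβmid' hβ0' hαmid hα0 hαoo' hαmid' P hqP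
    (hTH (P.comap α) (hmaxα P hP hqP)) (hTH (P.comap β) (hmaxβ P hP hqP))
    (hMID P hP) (hBoo P hP) (hBmid P hP) (hB0 P hP)

/-- **(LP) at every closed point, Dedekind form of (LP)(b)**: the three components are normal
curves (`B ⧸ p_c` Dedekind). -/
theorem locFactorial_of_cases_dedekind [poo.IsPrime] [pmid.IsPrime] [p0.IsPrime] [poo'.IsPrime]
    [p0'.IsPrime] [IsDedekindDomain (B ⧸ poo)] [IsDedekindDomain (B ⧸ pmid)]
    [IsDedekindDomain (B ⧸ p0)]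
    (hα : Function.Injective α) (hβ : Function.Injective β)
    (hq0 : q ≠ 0) (hαq : α q' = q) (hβq : β q' = q)
    (hqpoo : q ∈ poo) (hqp0 : q ∈ p0) (hq'poo : q' ∈ poo') (hq'p0 : q' ∈ p0')
    (hV : ∀ Q : Ideal B, Q.IsPrime → Q.height = 1 → q ∈ Q → Q = poo ∨ Q = pmid ∨ Q = p0)
    (hV' : ∀ Q : Ideal B', Q.IsPrime → Q.height = 1 → q' ∈ Q → Q = poo' ∨ Q = p0')
    (heoo : ∀ a ∈ poo, ∃ s, s ∉ poo ∧ q ∣ s * a)
    (he0 : ∀ a ∈ p0, ∃ s, s ∉ p0 ∧ q ∣ s * a)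
    (heoo' : ∀ a ∈ poo', ∃ s, s ∉ poo' ∧ q' ∣ s * a)
    (he0' : ∀ a ∈ p0', ∃ s, s ∉ p0' ∧ q' ∣ s * a)
    (hβoo : poo' ≤ poo.comap β) (hβmid : p0' ≤ pmid.comap β) (hβ0 : p0' ≤ p0.comap β)
    (hβmid' : ¬ poo' ≤ pmid.comap β) (hβ0' : ¬ poo' ≤ p0.comap β)
    (hαmid : poo' ≤ pmid.comap α) (hα0 : p0' ≤ p0.comap α)
    (hαoo' : ¬ p0' ≤ poo.comap α) (hαmid' : ¬ p0' ≤ pmid.comap α)
    (hTH : ∀ P' : Ideal B', P'.IsPrime → poo' ≤ P' → p0' ≤ P' →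
      ∃ x₀ ∈ poo', ∃ y₀ ∈ p0', ∃ g, g ∉ P' ∧ x₀ * y₀ = q' * g)
    (hMID : ∀ P : Ideal B, P.IsMaximal → pmid ≤ P → ¬ poo ≤ P → ¬ p0 ≤ P →
      ∃ T ∈ pmid, T ≠ 0 ∧ (∃ m : ℕ, m ≠ 0 ∧ ∃ s, s ∉ P ∧ T ^ m ∣ s * q) ∧
        ∀ a ∈ pmid, ∃ s, s ∉ pmid ∧ T ∣ s * a) :
    ∀ P : Ideal B, P.IsMaximal → q ∈ P → LocFactorial P := by
  refine locFactorial_of_cases α β q' q poo pmid p0 poo' p0' hα hβ hq0 hαq hβq hqpoo hqp0 hq'poo hq'p0
    hV hV' heoo he0 heoo' he0' hβoo hβmid hβ0 hβmid' hβ0' hαmid hα0 hαoo' hαmid' hTH hMID ?_ ?_ ?_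
  · intro P hP h
    have : P.IsPrime := hP.isPrime
    exact locPIRQuot_of_isDedekindDomain P poo h
  · intro P hP h
    have : P.IsPrime := hP.isPrime
    exact locPIRQuot_of_isDedekindDomain P pmid h
  · intro P hP h
    have : P.IsPrime := hP.isPrime
    exact locPIRQuot_of_isDedekindDomain P p0 h

end Cases

end Fermat.Agent.S36.helper8039
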