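import Mathlib
import Fermat.Agent.S36.helper8039_LPCases

/-!
# S36-LP-CASES, valuation form (helper8039)

`helper8039_LPCases.locFactorial_of_cases_max` is stated for abstract chart rings `B`, `B'` with
named vertical primes.  In the design of record the charts are SUBRINGS `B ⊆ F`, `B' ⊆ F'` of the
two function fields, the degeneracy maps are field homomorphisms `α β : F' →+* F` mapping `B'` into
`B`, and the vertical primes are the CENTRES on the charts of the valuation subrings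
`V_oo, V_mid, V_0` of `F` and `V_oo', V_0'` of `F'`.  This file is the dictionary:

* `centre B V`            : the centre of `V` on `B` (an ideal of `B`); `mem_centre_iff`,
                            `centre_isPrime`, `centre_le_iff` (= "`V` passes through `P`").
* `resHom φ B' B h`       : the restriction `B' →+* B` of `φ : F' →+* F`.
* `comap_centre`          : a restriction table `∀ a, φ a ∈ V ↔ a ∈ V'` gives
                            `(centre B V).comap (resHom φ ..) = centre B' V'`.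
* `centre_mult_one`       : (E) multiplicity one, from "`ϖ` generates `𝔪(V)`" and "`V` is the local
                            ring of `B` at its centre".
* `not_centre_le_of_loc`  : distinct components have distinct centres.
* `isMaximal_comap_of_residue`, `isMaximal_comap_resHom_of_resk` : the degeneracy maps send closed
                            points of the special fibre to closed points (residue field = that of
                            the base).
* `unif_of_ord`           : (U) "`ϖ` generates `𝔪(V)`" from a normalised order function.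
* `exists_eq_centre_of_rad` : (V) the height-one primes over `q` are the centres, from the radical
                            of `q B` (field `rad` of `KillData` / `NilMod` form).
* `mid_of_val`            : (MID) from a uniformiser `T` of `V_mid` with `T ^ m ∣ s * q`, `s ∉ P`.
* `mid_of_loc`, `th_of_loc` : (MID), (TH) from data in the LOCAL ring of the chart at the point.
* `vertical3_of_rad`, `vertical2_of_rad` : (V) for the named valuations from the radicals.
* `locFactorial_of_val_at`, `locFactorial_of_val_rad_at` : (LP) at ONE point `P`, inputs (TH),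
                            (MID), (B) only at `P` and only for the relevant incidence `S(P)`.
* `locFactorial_of_val`   : (LP) at every closed point of the special fibre of the chart `B`, all
                            inputs in valuation form.
* `locFactorial_of_val_rad` : the same with (V) replaced by the two radical statements.
-/

set_option autoImplicit false

namespace Fermat.Agent.S36.helper8039

open Fermat.Agent.S36.helper6136

section Centre

variable {F : Type*} [Field F]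

/-- `a` is a non-unit of the valuation subring `V` iff `a = 0` or `a⁻¹ ∉ V`. -/
theorem mem_nonunits_iff_inv_notMem (V : ValuationSubring F) (a : F) :
    a ∈ V.nonunits ↔ a = 0 ∨ a⁻¹ ∉ V := by
  rw [ValuationSubring.mem_nonunits_iff]
  constructor
  · intro h
    by_cases ha : a = 0
    · exact Or.inl ha
    · right
      intro hinv
      have h1 : V.valuation a⁻¹ ≤ 1 := (V.valuation_le_one_iff _).mpr hinv
      rw [map_inv₀] at h1
      have hva : V.valuation a ≠ 0 := (Valuation.ne_zero_iff _).mpr ha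
      have h2 : 1 ≤ V.valuation a := (inv_le_one₀ (zero_lt_iff.mpr hva)).mp h1
      exact absurd h (not_lt.mpr h2)
  · rintro (rfl | h)
    · simp
    · by_contra hlt
      rw [not_lt] at hlt
      apply h
      rw [← V.valuation_le_one_iff, map_inv₀]
      have hva : V.valuation a ≠ 0 := fun h0 => by
        rw [h0] at hlt
        exact absurd hlt (not_le.mpr zero_lt_one)
      exact (inv_le_one₀ (zero_lt_iff.mpr hva)).mpr hlt

/-- The centre on the subring `B` of the valuation subring `V`: the ideal of `B` generated by the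
elements of `B` that are non-units of `V`.  If `B ⊆ V` it is the set of these elements
(`mem_centre_iff`) and a prime ideal (`centre_isPrime`). -/
def centre (B : Subring F) (V : ValuationSubring F) : Ideal B :=
  Ideal.span {b : B | (b : F) ∈ V.nonunits}

theorem mem_centre_iff {B : Subring F} {V : ValuationSubring F} (hBV : ∀ b ∈ B, b ∈ V) (b : B) :
    b ∈ centre B V ↔ (b : F) ∈ V.nonunits := by
  constructor
  · intro hb
    unfold centre at hb
    induction hb using Submodule.span_induction with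
    | mem x hx => exact hx
    | zero =>
      rw [ValuationSubring.mem_nonunits_iff]
      simp
    | add x y _ _ hx hy =>
      rw [ValuationSubring.mem_nonunits_iff] at hx hy ⊢
      rw [Subring.coe_add]
      exact lt_of_le_of_lt (V.valuation.map_add _ _) (max_lt hx hy)
    | smul a x _ hx =>
      rw [ValuationSubring.mem_nonunits_iff] at hx ⊢
      have ha : V.valuation (a : F) ≤ 1 := (V.valuation_le_one_iff _).mpr (hBV _ a.2)
      rw [smul_eq_mul, Subring.coe_mul, map_mul]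
      calc V.valuation (a : F) * V.valuation (x : F) ≤ 1 * V.valuation (x : F) := by gcongr
        _ = V.valuation (x : F) := one_mul _
        _ < 1 := hx
  · intro hb
    exact Ideal.subset_span hb

theorem eq_centre_of_forall_mem_iff {B : Subring F} {V : ValuationSubring F}
    (hBV : ∀ b ∈ B, b ∈ V) (Q : Ideal B) (h : ∀ b : B, b ∈ Q ↔ (b : F) ∈ V.nonunits) :
    Q = centre B V :=
  Ideal.ext fun b => (h b).trans (mem_centre_iff hBV b).symm

theorem centre_isPrime {B : Subring F} {V : ValuationSubring F} (hBV : ∀ b ∈ B, b ∈ V) :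
    (centre B V).IsPrime := by
  refine ⟨?_, ?_⟩
  · rw [Ideal.ne_top_iff_one, mem_centre_iff hBV, ValuationSubring.mem_nonunits_iff]
    simp
  · intro x y hxy
    rw [mem_centre_iff hBV] at hxy
    rw [mem_centre_iff hBV, mem_centre_iff hBV]
    rw [mem_nonunits_iff_inv_notMem] at hxy
    rw [mem_nonunits_iff_inv_notMem, mem_nonunits_iff_inv_notMem]
    by_contra hcon
    rw [not_or, not_or, not_or] at hcon
    obtain ⟨⟨hx0, hx⟩, hy0, hy⟩ := hcon
    rw [not_not] at hx hy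
    rcases hxy with h | h
    · rw [Subring.coe_mul] at h
      rcases mul_eq_zero.mp h with h | h
      · exact hx0 h
      · exact hy0 h
    · apply h
      rw [Subring.coe_mul, mul_inv]
      exact V.mul_mem _ _ hx hy

/-- "`V` passes through `P`" (`Through B P V` of `helper36_KillData`, unfolded) is
`centre B V ≤ P`. -/
theorem centre_le_iff {B : Subring F} {V : ValuationSubring F} (P : Ideal B) :
    centre B V ≤ P ↔ ∀ b : F, b ∈ B → b ∈ V.nonunits → ∃ h : b ∈ B, (⟨b, h⟩ : B) ∈ P := by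
  constructor
  · intro hle b hb hbV
    exact ⟨hb, hle (Ideal.subset_span (show ((⟨b, hb⟩ : B) : F) ∈ V.nonunits from hbV))⟩
  · intro h
    refine Ideal.span_le.mpr ?_
    intro b hb
    obtain ⟨_, h2⟩ := h (b : F) b.2 hb
    exact h2

/-- (E) **multiplicity one** in valuation form: if `ϖ ∈ B` generates the maximal ideal of `V` and
`V` is the local ring of `B` at its centre, then `ϖ` generates the centre at its generic point. -/
theorem centre_mult_one {B : Subring F} {V : ValuationSubring F} (hBV : ∀ b ∈ B, b ∈ V) (ϖ : B)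
    (hunif : ∀ y ∈ V.nonunits, ∃ z ∈ V, y = (ϖ : F) * z)
    (hloc : ∀ y ∈ V, ∃ a s : B, (s : F) ∉ V.nonunits ∧ y * s = a) :
    ∀ a ∈ centre B V, ∃ s, s ∉ centre B V ∧ ϖ ∣ s * a := by
  intro a ha
  rw [mem_centre_iff hBV] at ha
  obtain ⟨z, hz, hz2⟩ := hunif _ ha
  obtain ⟨a', s, hs, has⟩ := hloc z hz
  refine ⟨s, fun h => hs ((mem_centre_iff hBV s).mp h), a', ?_⟩
  apply Subtype.ext
  rw [Subring.coe_mul, Subring.coe_mul, hz2, ← has]
  ring

/-- **Distinct components have distinct centres**: if `V` is the local ring of `B` at its centre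
and `V` is not contained in `W`, then the centre of `W` is not contained in the centre of `V`. -/
theorem not_centre_le_of_loc {B : Subring F} {V W : ValuationSubring F}
    (hBV : ∀ b ∈ B, b ∈ V) (hBW : ∀ b ∈ B, b ∈ W)
    (hloc : ∀ y ∈ V, ∃ a s : B, (s : F) ∉ V.nonunits ∧ y * s = a)
    (hVW : ¬ V ≤ W) : ¬ centre B W ≤ centre B V := by
  intro hle
  apply hVW
  intro y hy
  obtain ⟨a, s, hs, has⟩ := hloc y hy
  have hsW : (s : F) ∉ W.nonunits := fun h =>
    hs ((mem_centre_iff hBV s).mp (hle ((mem_centre_iff hBW s).mpr h)))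
  rw [mem_nonunits_iff_inv_notMem, not_or, not_not] at hsW
  have : y = (a : F) * (s : F)⁻¹ := by
    rw [← has, mul_assoc, mul_inv_cancel₀ hsW.1, mul_one]
  rw [this]
  exact W.mul_mem _ _ (hBW _ a.2) hsW.2

/-- (U) from a normalised order function: if `ord` is multiplicative, `V = {ord ≥ 0}` and
`ord ϖ = 1`, then `ϖ` generates the maximal ideal of `V`. -/
theorem unif_of_ord (V : ValuationSubring F) (ord : F → ℤ)
    (hmul : ∀ x y : F, x ≠ 0 → y ≠ 0 → ord (x * y) = ord x + ord y)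
    (hmem : ∀ y : F, y ≠ 0 → (y ∈ V ↔ 0 ≤ ord y)) (ϖ : F) (hϖ0 : ϖ ≠ 0) (hϖ : ord ϖ = 1) :
    ∀ y ∈ V.nonunits, ∃ z ∈ V, y = ϖ * z := by
  intro y hy
  by_cases hy0 : y = 0
  · exact ⟨0, V.zero_mem, by rw [hy0, mul_zero]⟩
  · have h1 : ord (1 : F) = 0 := by
      have := hmul 1 1 one_ne_zero one_ne_zero
      rw [mul_one] at this
      omega
    have hinv : ∀ x : F, x ≠ 0 → ord x⁻¹ = - ord x := by
      intro x hx
      have := hmul x x⁻¹ hx (inv_ne_zero hx)
      rw [mul_inv_cancel₀ hx, h1] at this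
      omega
    rw [mem_nonunits_iff_inv_notMem] at hy
    have hyinv : y⁻¹ ∉ V := hy.resolve_left hy0
    rw [hmem _ (inv_ne_zero hy0), hinv y hy0] at hyinv
    refine ⟨ϖ⁻¹ * y, ?_, by rw [← mul_assoc, mul_inv_cancel₀ hϖ0, one_mul]⟩
    rw [hmem _ (mul_ne_zero (inv_ne_zero hϖ0) hy0), hmul _ _ (inv_ne_zero hϖ0) hy0, hinv ϖ hϖ0, hϖ]
    omega

/-- (V) **from the radical of `q B`**: if `q B` has radical `B ∩ ⋂_c 𝔪(V c)` (finitely many
valuation subrings `V c ⊇ B` with `q ∈ 𝔪(V c)`), then every height-one prime of `B` containing `q`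
is the centre of one of the `V c`. -/
theorem exists_eq_centre_of_rad {ι : Type*} [Fintype ι] (B : Subring F) [IsNoetherianRing B]
    (V : ι → ValuationSubring F) (hBV : ∀ c, ∀ b ∈ B, b ∈ V c) (q : B) (hq0 : q ≠ 0)
    (hqV : ∀ c, (q : F) ∈ (V c).nonunits)
    (hrad : ∀ y : B, (∀ c, (y : F) ∈ (V c).nonunits) → ∃ e : ℕ, q ∣ y ^ e)
    (Q : Ideal B) [hQ : Q.IsPrime] (hQ1 : Q.height = 1) (hqQ : q ∈ Q) :
    ∃ c, Q = centre B (V c) := by
  classical
  by_contra hcon
  rw [not_exists] at hcon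
  have hnot : ∀ c, ∃ y ∈ centre B (V c), y ∉ Q := by
    intro c
    have hp : (centre B (V c)).IsPrime := centre_isPrime (hBV c)
    have hnle : ¬ centre B (V c) ≤ Q := by
      intro hle
      have hlt : centre B (V c) < Q := lt_of_le_of_ne hle (fun h => hcon c h.symm)
      have hh := Ideal.height_strict_mono_of_isPrime hlt
      rw [hQ1] at hh
      have h0 : (centre B (V c)).height = 0 := by
        have := Order.lt_one_iff_nonpos.mp hh
        exact le_antisymm this bot_le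
      rw [Ideal.height_eq_zero_iff_eq_bot] at h0
      have hq : q ∈ centre B (V c) := (mem_centre_iff (hBV c) q).mpr (hqV c)
      rw [h0, Ideal.mem_bot] at hq
      exact hq0 hq
    exact Set.not_subset.mp hnle
  choose y hy hyQ using hnot
  have hmem : ∀ c, (∏ c, y c) ∈ centre B (V c) := fun c =>
    Ideal.mem_of_dvd _ (Finset.dvd_prod_of_mem y (Finset.mem_univ c)) (hy c)
  obtain ⟨e, he⟩ := hrad (∏ c, y c) (fun c => (mem_centre_iff (hBV c) _).mp (hmem c))
  have h1 : (∏ c, y c) ^ e ∈ Q := Ideal.mem_of_dvd _ he hqQ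
  have h2 : (∏ c, y c) ∈ Q := hQ.mem_of_pow_mem e h1
  obtain ⟨c, _, hc⟩ := (Ideal.IsPrime.prod_mem_iff (hp := hQ)).mp h2
  exact hyQ c hc

end Centre

section ResHom

variable {F F' : Type*} [Field F] [Field F']

/-- The restriction to subrings `B' ⊆ F'`, `B ⊆ F` of a ring homomorphism `φ : F' →+* F` mapping
`B'` into `B`. -/
def resHom (φ : F' →+* F) (B' : Subring F') (B : Subring F) (h : ∀ b ∈ B', φ b ∈ B) : B' →+* B :=
  (φ.comp B'.subtype).codRestrict B (fun b => h b b.2)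

@[simp] theorem coe_resHom (φ : F' →+* F) (B' : Subring F') (B : Subring F)
    (h : ∀ b ∈ B', φ b ∈ B) (b : B') : ((resHom φ B' B h b : B) : F) = φ (b : F') := rfl

theorem resHom_injective (φ : F' →+* F) (B' : Subring F') (B : Subring F)
    (h : ∀ b ∈ B', φ b ∈ B) : Function.Injective (resHom φ B' B h) := by
  intro x y hxy
  apply Subtype.ext
  apply φ.injective
  have := congrArg (fun z : B => (z : F)) hxy
  simpa using this

/-- A restriction table `φ⁻¹ V = V'` for valuation subrings gives the same for the non-units. -/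
theorem map_mem_nonunits_iff (φ : F' →+* F) {V : ValuationSubring F} {V' : ValuationSubring F'}
    (hφV : ∀ a : F', φ a ∈ V ↔ a ∈ V') (a : F') : φ a ∈ V.nonunits ↔ a ∈ V'.nonunits := by
  rw [mem_nonunits_iff_inv_notMem, mem_nonunits_iff_inv_notMem, map_eq_zero, ← map_inv₀, hφV]

/-- **Restriction tables as contractions of centres.** -/
theorem comap_centre (φ : F' →+* F) (B' : Subring F') (B : Subring F) (h : ∀ b ∈ B', φ b ∈ B)
    {V : ValuationSubring F} {V' : ValuationSubring F'}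
    (hBV : ∀ b ∈ B, b ∈ V) (hBV' : ∀ b ∈ B', b ∈ V') (hφV : ∀ a : F', φ a ∈ V ↔ a ∈ V') :
    (centre B V).comap (resHom φ B' B h) = centre B' V' := by
  ext b
  rw [Ideal.mem_comap, mem_centre_iff hBV, mem_centre_iff hBV', coe_resHom,
    map_mem_nonunits_iff φ hφV]

end ResHom

section Maximal

/-- **Closed points go to closed points** (abstract form).  `φ : B' →+* B`, `P` a maximal ideal
of `B`, `C ⊆ B'` a set of "constants" such that every element of `B'` is congruent to a constant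
modulo `φ⁻¹ P` and every constant outside `φ⁻¹ P` is invertible modulo `φ⁻¹ P`.  Then `φ⁻¹ P` is
maximal. -/
theorem isMaximal_comap_of_residue {B' B : Type*} [CommRing B'] [CommRing B] (φ : B' →+* B)
    (P : Ideal B) [P.IsPrime] (C : Set B')
    (hC : ∀ b : B', ∃ c ∈ C, φ b - φ c ∈ P)
    (hunit : ∀ c ∈ C, φ c ∉ P → ∃ d : B', φ (c * d) - 1 ∈ P) :
    (P.comap φ).IsMaximal := by
  have hprime : (P.comap φ).IsPrime := Ideal.comap_isPrime φ P
  rw [Ideal.isMaximal_iff]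
  refine ⟨(Ideal.ne_top_iff_one _).mp hprime.ne_top, ?_⟩
  intro J x hJ hx hxJ
  obtain ⟨c, hc, hxc⟩ := hC x
  have hcP : φ c ∉ P := by
    intro h
    apply hx
    rw [Ideal.mem_comap]
    have : φ x = (φ x - φ c) + φ c := by ring
    rw [this]
    exact P.add_mem hxc h
  obtain ⟨d, hd⟩ := hunit c hc hcP
  have h1 : x * d - 1 ∈ P.comap φ := by
    rw [Ideal.mem_comap]
    have : φ (x * d - 1) = (φ x - φ c) * φ d + (φ (c * d) - 1) := by
      rw [map_sub, map_mul, map_mul, map_one]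
      ring
    rw [this]
    exact P.add_mem (P.mul_mem_right _ hxc) hd
  have h2 : (1 : B') = x * d - (x * d - 1) := by ring
  rw [h2]
  exact J.sub_mem (J.mul_mem_right _ hxJ) (hJ h1)

/-- **Closed points go to closed points** (function-field form).  `K` a field with valuation
subring `O` whose maximal ideal is generated by `ϖ`; `ψ : F' →ₐ[K] F` maps the chart `B'` into the
chart `B`; the `O`-constants lie in `B'`; `P` is a prime of `B` containing `ϖ` at which every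
element of `B` is congruent to an `O`-constant (the residue field of `P` is that of `O`).  Then the
contraction of `P` to `B'` is maximal. -/
theorem isMaximal_comap_resHom_of_resk {K F F' : Type*} [Field K] [Field F] [Field F']
    [Algebra K F] [Algebra K F'] (O : ValuationSubring K) (ϖ : K)
    (hunifO : ∀ c ∈ O.nonunits, ∃ z ∈ O, c = ϖ * z)
    (ψ : F' →ₐ[K] F) (B' : Subring F') (B : Subring F) (hψB : ∀ b ∈ B', (ψ : F' →+* F) b ∈ B)
    (hconst' : ∀ a ∈ O, algebraMap K F' a ∈ B')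
    (P : Ideal B) [P.IsPrime]
    (hϖP : ∃ h : algebraMap K F ϖ ∈ B, (⟨_, h⟩ : B) ∈ P)
    (hres : ∀ b : B, ∃ z ∈ O, ∃ h : algebraMap K F z ∈ B, b - ⟨_, h⟩ ∈ P) :
    (P.comap (resHom (ψ : F' →+* F) B' B hψB)).IsMaximal := by
  refine isMaximal_comap_of_residue (resHom (ψ : F' →+* F) B' B hψB) P
    {c : B' | ∃ z ∈ O, (c : F') = algebraMap K F' z} ?_ ?_
  · intro b
    obtain ⟨z, hz, hzB, hzP⟩ := hres (resHom (ψ : F' →+* F) B' B hψB b)
    refine ⟨⟨algebraMap K F' z, hconst' z hz⟩, ⟨z, hz, rfl⟩, ?_⟩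
    have : resHom (ψ : F' →+* F) B' B hψB ⟨algebraMap K F' z, hconst' z hz⟩ =
        (⟨algebraMap K F z, hzB⟩ : B) := by
      apply Subtype.ext
      simp
    rw [this]
    exact hzP
  · rintro c ⟨z, hz, hcz⟩ hcP
    have hzu : z ∉ O.nonunits := by
      intro hzn
      obtain ⟨w, hw, hzw⟩ := hunifO z hzn
      obtain ⟨hϖB, hϖP'⟩ := hϖP
      apply hcP
      have hwB : (ψ : F' →+* F) (algebraMap K F' w) ∈ B := hψB _ (hconst' w hw)
      have : resHom (ψ : F' →+* F) B' B hψB c =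
          (⟨algebraMap K F ϖ, hϖB⟩ : B) * ⟨_, hwB⟩ := by
        apply Subtype.ext
        simp [hcz, hzw]
      rw [this]
      exact P.mul_mem_right _ hϖP'
    rw [mem_nonunits_iff_inv_notMem, not_or, not_not] at hzu
    refine ⟨⟨algebraMap K F' z⁻¹, hconst' _ hzu.2⟩, ?_⟩
    have : c * (⟨algebraMap K F' z⁻¹, hconst' _ hzu.2⟩ : B') = 1 := by
      apply Subtype.ext
      rw [Subring.coe_mul, hcz, Subring.coe_one, ← map_mul, mul_inv_cancel₀ hzu.1, map_one]
    rw [this, map_one, sub_self]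
    exact P.zero_mem

end Maximal

section Main

variable {F F' : Type*} [Field F] [Field F']

/-- (MID) in valuation form: an element `T ∈ B` generating the maximal ideal of `V_mid`, with
`T ^ m ∣ s * q` for some `s ∉ P`, gives the hypothesis `hMID` of `locFactorial_of_val` at `P`
(`V_mid` being the local ring of `B` at its centre). -/
theorem mid_of_val {B : Subring F} {Vmid : ValuationSubring F} (hBmid : ∀ b ∈ B, b ∈ Vmid)
    (hloc_mid : ∀ y ∈ Vmid, ∃ a s : B, (s : F) ∉ Vmid.nonunits ∧ y * s = a)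
    (q : B) (P : Ideal B) (T : B) (hT0 : T ≠ 0) (hTmid : (T : F) ∈ Vmid.nonunits)
    (hunif : ∀ y ∈ Vmid.nonunits, ∃ z ∈ Vmid, y = (T : F) * z)
    (m : ℕ) (hm : m ≠ 0) (hdvd : ∃ s, s ∉ P ∧ T ^ m ∣ s * q) :
    ∃ T ∈ centre B Vmid, T ≠ 0 ∧ (∃ m : ℕ, m ≠ 0 ∧ ∃ s, s ∉ P ∧ T ^ m ∣ s * q) ∧
      ∀ a ∈ centre B Vmid, ∃ s, s ∉ centre B Vmid ∧ T ∣ s * a :=
  ⟨T, (mem_centre_iff hBmid T).mpr hTmid, hT0, ⟨m, hm, hdvd⟩,
    centre_mult_one hBmid T hunif hloc_mid⟩

/-- (MID) in LOCAL form: `T : F` need not lie in the chart, only in its local ring at `P`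
(`T * s = a`, `s ∉ P`).  If `T` generates the maximal ideal of `V_mid`, and `q = T ^ m * ε` with
`ε` a unit of the local ring at `P` (`q * s = T ^ m * b`, `b, s ∉ P`), then the hypothesis `hMID`
of `locFactorial_of_val` holds at `P`.  (Non-cuspidal points: `T = t(q² z) - t(z)`; mid cusps:
`T = j(q² z) / j(z) - 1`.) -/
theorem mid_of_loc {B : Subring F} {Vmid : ValuationSubring F} (hBmid : ∀ b ∈ B, b ∈ Vmid)
    (hloc_mid : ∀ y ∈ Vmid, ∃ a s : B, (s : F) ∉ Vmid.nonunits ∧ y * s = a)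
    (q : B) (P : Ideal B) [hP : P.IsPrime] (hmidP : centre B Vmid ≤ P)
    (T : F) (hTmid : T ∈ Vmid.nonunits)
    (hunif : ∀ y ∈ Vmid.nonunits, ∃ z ∈ Vmid, y = T * z)
    (hTloc : ∃ a s : B, s ∉ P ∧ T * s = a)
    (m : ℕ) (hm : m ≠ 0) (hq0 : q ≠ 0)
    (hε : ∃ b s : B, b ∉ P ∧ s ∉ P ∧ (q : F) * s = T ^ m * b) :
    ∃ T' ∈ centre B Vmid, T' ≠ 0 ∧ (∃ m : ℕ, m ≠ 0 ∧ ∃ s, s ∉ P ∧ T' ^ m ∣ s * q) ∧
      ∀ a ∈ centre B Vmid, ∃ s, s ∉ centre B Vmid ∧ T' ∣ s * a := by
  have hpmid : (centre B Vmid).IsPrime := centre_isPrime hBmid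
  obtain ⟨a0, s0, hs0, hTs0⟩ := hTloc
  obtain ⟨b, s, hb, hs, hqs⟩ := hε
  have hs0mid : s0 ∉ centre B Vmid := fun h => hs0 (hmidP h)
  have ha0mid : a0 ∈ centre B Vmid := by
    rw [mem_centre_iff hBmid, ← hTs0, ValuationSubring.mem_nonunits_iff, map_mul]
    have h1 : Vmid.valuation T < 1 := hTmid
    have h2 : Vmid.valuation (s0 : F) ≤ 1 := (Vmid.valuation_le_one_iff _).mpr (hBmid _ s0.2)
    calc Vmid.valuation T * Vmid.valuation (s0 : F) ≤ Vmid.valuation T * 1 := by gcongr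
      _ = Vmid.valuation T := mul_one _
      _ < 1 := h1
  have hT0 : T ≠ 0 := by
    rintro rfl
    rw [zero_pow hm, zero_mul] at hqs
    have hq0' : (q : F) ≠ 0 := fun h => hq0 (Subtype.ext h)
    have hs0' : (s : F) ≠ 0 := fun h => hs (by
      have : s = 0 := Subtype.ext h
      rw [this]; exact P.zero_mem)
    exact mul_ne_zero hq0' hs0' hqs
  have ha00 : a0 ≠ 0 := by
    intro h
    have h1 : T * (s0 : F) = 0 := by rw [hTs0, h]; rfl
    rcases mul_eq_zero.mp h1 with h2 | h2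
    · exact hT0 h2
    · exact hs0 (by
        have : s0 = 0 := Subtype.ext h2
        rw [this]; exact P.zero_mem)
  refine ⟨a0, ha0mid, ha00, ⟨m, hm, s * s0 ^ m, ?_, b, ?_⟩, ?_⟩
  · intro h
    rcases hP.mem_or_mem h with h1 | h1
    · exact hs h1
    · exact hs0 (hP.mem_of_pow_mem m h1)
  · apply Subtype.ext
    simp only [Subring.coe_mul, Subring.coe_pow]
    rw [← hTs0]
    calc (s : F) * (s0 : F) ^ m * (q : F) = ((q : F) * (s : F)) * (s0 : F) ^ m := by ring
      _ = (T ^ m * (b : F)) * (s0 : F) ^ m := by rw [hqs]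
      _ = (T * (s0 : F)) ^ m * (b : F) := by ring
  · intro a ha
    rw [mem_centre_iff hBmid] at ha
    obtain ⟨z, hz, hz2⟩ := hunif _ ha
    obtain ⟨a1, s1, hs1, has1⟩ := hloc_mid z hz
    refine ⟨s1 * s0, ?_, a1, ?_⟩
    · intro h
      rcases hpmid.mem_or_mem h with h1 | h1
      · exact hs1 ((mem_centre_iff hBmid s1).mp h1)
      · exact hs0mid h1
    · apply Subtype.ext
      simp only [Subring.coe_mul]
      rw [hz2, ← hTs0, ← has1]
      ring

/-- (TH) in LOCAL form: `x ∈ 𝔪(V_oo')`, `y ∈ 𝔪(V_0')` in the local ring of the chart `B'` at `P'`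
with `x * y = q * ε`, `ε` a unit of that local ring (`x * y * s = q * b`, `b, s ∉ P'`), give the
hypothesis `hTH` of `locFactorial_of_val` at `P'`. -/
theorem th_of_loc {B' : Subring F'} {Voo' V0' : ValuationSubring F'}
    (hBoo' : ∀ b ∈ B', b ∈ Voo') (hB0' : ∀ b ∈ B', b ∈ V0')
    (q' : B') (P' : Ideal B') [hP : P'.IsPrime]
    (x y : F') (hx : x ∈ Voo'.nonunits) (hy : y ∈ V0'.nonunits)
    (hxloc : ∃ a s : B', s ∉ P' ∧ x * s = a) (hyloc : ∃ a s : B', s ∉ P' ∧ y * s = a)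
    (hε : ∃ b s : B', b ∉ P' ∧ s ∉ P' ∧ x * y * s = (q' : F') * b) :
    ∃ x₀ ∈ centre B' Voo', ∃ y₀ ∈ centre B' V0', ∃ g, g ∉ P' ∧ x₀ * y₀ = q' * g := by
  obtain ⟨a1, s1, hs1, hxs1⟩ := hxloc
  obtain ⟨a2, s2, hs2, hys2⟩ := hyloc
  obtain ⟨b, s, hb, hs, hxys⟩ := hε
  have ha1 : a1 ∈ centre B' Voo' := by
    rw [mem_centre_iff hBoo', ← hxs1, ValuationSubring.mem_nonunits_iff, map_mul]
    have h1 : Voo'.valuation x < 1 := hx
    have h2 : Voo'.valuation (s1 : F') ≤ 1 := (Voo'.valuation_le_one_iff _).mpr (hBoo' _ s1.2)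
    calc Voo'.valuation x * Voo'.valuation (s1 : F') ≤ Voo'.valuation x * 1 := by gcongr
      _ = Voo'.valuation x := mul_one _
      _ < 1 := h1
  have ha2 : a2 ∈ centre B' V0' := by
    rw [mem_centre_iff hB0', ← hys2, ValuationSubring.mem_nonunits_iff, map_mul]
    have h1 : V0'.valuation y < 1 := hy
    have h2 : V0'.valuation (s2 : F') ≤ 1 := (V0'.valuation_le_one_iff _).mpr (hB0' _ s2.2)
    calc V0'.valuation y * V0'.valuation (s2 : F') ≤ V0'.valuation y * 1 := by gcongr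
      _ = V0'.valuation y := mul_one _
      _ < 1 := h1
  refine ⟨a1 * s, Ideal.mul_mem_right _ _ ha1, a2, ha2, b * s1 * s2, ?_, ?_⟩
  · intro h
    rcases hP.mem_or_mem h with h1 | h1
    · rcases hP.mem_or_mem h1 with h2 | h2
      · exact hb h2
      · exact hs1 h2
    · exact hs2 h1
  · apply Subtype.ext
    simp only [Subring.coe_mul]
    rw [← hxs1, ← hys2]
    calc x * (s1 : F') * (s : F') * (y * (s2 : F')) = (x * y * (s : F')) * ((s1 : F') * (s2 : F')) := by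
          ring
      _ = ((q' : F') * (b : F')) * ((s1 : F') * (s2 : F')) := by rw [hxys]
      _ = (q' : F') * ((b : F') * (s1 : F') * (s2 : F')) := by ring

/-- (V) for three named valuations, from the radical of `q B` in elementwise form (the field `rad`
of `KillData` / the `NilMod` conclusion of the chart dictionary). -/
theorem vertical3_of_rad (B : Subring F) [IsNoetherianRing B] (q : B) (hq0 : q ≠ 0)
    (Voo Vmid V0 : ValuationSubring F)
    (hBoo : ∀ b ∈ B, b ∈ Voo) (hBmid : ∀ b ∈ B, b ∈ Vmid) (hB0 : ∀ b ∈ B, b ∈ V0)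
    (hqoo : (q : F) ∈ Voo.nonunits) (hqmid : (q : F) ∈ Vmid.nonunits)
    (hq0' : (q : F) ∈ V0.nonunits)
    (hrad : ∀ y : F, y ∈ B → y ∈ Voo.nonunits → y ∈ Vmid.nonunits → y ∈ V0.nonunits →
      ∃ (e : ℕ) (r : F), r ∈ B ∧ y ^ e = (q : F) * r) :
    ∀ Q : Ideal B, Q.IsPrime → Q.height = 1 → q ∈ Q →
      Q = centre B Voo ∨ Q = centre B Vmid ∨ Q = centre B V0 := by
  intro Q hQ hQ1 hqQ
  obtain ⟨c, hc⟩ := exists_eq_centre_of_rad B ![Voo, Vmid, V0]
    (by intro c; fin_cases c; exacts [hBoo, hBmid, hB0]) q hq0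
    (by intro c; fin_cases c; exacts [hqoo, hqmid, hq0'])
    (by
      intro y hy
      obtain ⟨e, r, hr, he⟩ := hrad (y : F) y.2 (hy 0) (hy 1) (hy 2)
      exact ⟨e, ⟨r, hr⟩, Subtype.ext (by rw [Subring.coe_mul, Subring.coe_pow]; exact he)⟩)
    Q hQ1 hqQ
  fin_cases c
  · exact Or.inl hc
  · exact Or.inr (Or.inl hc)
  · exact Or.inr (Or.inr hc)

/-- (V) for two named valuations, from the radical of `q B` in elementwise form. -/
theorem vertical2_of_rad (B : Subring F) [IsNoetherianRing B] (q : B) (hq0 : q ≠ 0)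
    (Voo V0 : ValuationSubring F)
    (hBoo : ∀ b ∈ B, b ∈ Voo) (hB0 : ∀ b ∈ B, b ∈ V0)
    (hqoo : (q : F) ∈ Voo.nonunits) (hq0' : (q : F) ∈ V0.nonunits)
    (hrad : ∀ y : F, y ∈ B → y ∈ Voo.nonunits → y ∈ V0.nonunits →
      ∃ (e : ℕ) (r : F), r ∈ B ∧ y ^ e = (q : F) * r) :
    ∀ Q : Ideal B, Q.IsPrime → Q.height = 1 → q ∈ Q → Q = centre B Voo ∨ Q = centre B V0 := by
  intro Q hQ hQ1 hqQ
  obtain ⟨c, hc⟩ := exists_eq_centre_of_rad B ![Voo, V0]
    (by intro c; fin_cases c; exacts [hBoo, hB0]) q hq0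
    (by intro c; fin_cases c; exacts [hqoo, hq0'])
    (by
      intro y hy
      obtain ⟨e, r, hr, he⟩ := hrad (y : F) y.2 (hy 0) (hy 1)
      exact ⟨e, ⟨r, hr⟩, Subtype.ext (by rw [Subring.coe_mul, Subring.coe_pow]; exact he)⟩)
    Q hQ1 hqQ
  fin_cases c
  · exact Or.inl hc
  · exact Or.inr hc

/-- **(LP) at ONE point of the special fibre, valuation form.**

`B ⊆ F`, `B' ⊆ F'` the charts of level `q² M''` and `q M''` (noetherian, integrally closed),
`α β : F' →+* F` the degeneracy maps, `V_oo, V_mid, V_0` and `V_oo', V_0'` the vertical valuation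
subrings, `P` a prime of `B` containing `q`.  Chart-level inputs:

* the six restriction tables (`hαoo` … `hβ0`: `mem_a`, `mem_m`, `mem_b` of `DegData` for `α`, `β`);
* (V) the height-one primes of the charts containing `q` are the centres of the named valuations;
* (U) `q` generates the maximal ideals of `V_oo, V_0, V_oo', V_0'` (`e = 1`);
* (LOC) `V_oo, V_0, V_oo', V_0'` are the local rings of the charts at their centres;
* `V_oo'`, `V_0'` are incomparable.

Inputs at `P`, each needed only for the stated incidence `S(P) = {c | centre B (V c) ≤ P}`: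

* (TH) thickness one at the `α`-image of `P` if `S(P) ⊇ {mid, 0}`, at the `β`-image of `P` if
  `oo ∈ S(P)` and `|S(P)| ≥ 2` (`th_of_loc`);
* (MID) a generator of `p_mid` at `P` if `S(P) = {mid}` (`mid_of_val`, `mid_of_loc`);
* (B) the components through `P` are locally principal ideal rings at `P` (`LocPIRQuot`).

Nothing is needed at a point lying on `C_oo` only or on `C_0` only (beyond (B)).
Conclusion: `helper6136.LocFactorial P`. -/
theorem locFactorial_of_val_at (B : Subring F) (B' : Subring F')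
    [IsNoetherianRing B] [IsIntegrallyClosed B] [IsNoetherianRing B'] [IsIntegrallyClosed B']
    (α β : F' →+* F) (hαB : ∀ b ∈ B', α b ∈ B) (hβB : ∀ b ∈ B', β b ∈ B)
    (q' : B') (q : B) (hq0 : q ≠ 0) (hαq : α (q' : F') = (q : F)) (hβq : β (q' : F') = (q : F))
    (Voo Vmid V0 : ValuationSubring F) (Voo' V0' : ValuationSubring F')
    (hBoo : ∀ b ∈ B, b ∈ Voo) (hBmid : ∀ b ∈ B, b ∈ Vmid) (hB0 : ∀ b ∈ B, b ∈ V0)
    (hBoo' : ∀ b ∈ B', b ∈ Voo') (hB0' : ∀ b ∈ B', b ∈ V0')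
    (hqoo : (q : F) ∈ Voo.nonunits) (hq0' : (q : F) ∈ V0.nonunits)
    -- restriction tables
    (hαoo : ∀ a : F', α a ∈ Voo ↔ a ∈ Voo') (hαmid : ∀ a : F', α a ∈ Vmid ↔ a ∈ Voo')
    (hα0 : ∀ a : F', α a ∈ V0 ↔ a ∈ V0')
    (hβoo : ∀ a : F', β a ∈ Voo ↔ a ∈ Voo') (hβmid : ∀ a : F', β a ∈ Vmid ↔ a ∈ V0')
    (hβ0 : ∀ a : F', β a ∈ V0 ↔ a ∈ V0')
    -- (V) dictionary
    (hV : ∀ Q : Ideal B, Q.IsPrime → Q.height = 1 → q ∈ Q →
      Q = centre B Voo ∨ Q = centre B Vmid ∨ Q = centre B V0)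
    (hV' : ∀ Q : Ideal B', Q.IsPrime → Q.height = 1 → q' ∈ Q →
      Q = centre B' Voo' ∨ Q = centre B' V0')
    -- (U) `q` is a uniformiser of `V_oo`, `V_0`, `V_oo'`, `V_0'`
    (huoo : ∀ y ∈ Voo.nonunits, ∃ z ∈ Voo, y = (q : F) * z)
    (hu0 : ∀ y ∈ V0.nonunits, ∃ z ∈ V0, y = (q : F) * z)
    (huoo' : ∀ y ∈ Voo'.nonunits, ∃ z ∈ Voo', y = (q' : F') * z)
    (hu0' : ∀ y ∈ V0'.nonunits, ∃ z ∈ V0', y = (q' : F') * z)
    -- (LOC) the valuation rings are the local rings of the charts at their centres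
    (hloc_oo : ∀ y ∈ Voo, ∃ a s : B, (s : F) ∉ Voo.nonunits ∧ y * s = a)
    (hloc_0 : ∀ y ∈ V0, ∃ a s : B, (s : F) ∉ V0.nonunits ∧ y * s = a)
    (hloc_oo' : ∀ y ∈ Voo', ∃ a s : B', (s : F') ∉ Voo'.nonunits ∧ y * s = a)
    (hloc_0' : ∀ y ∈ V0', ∃ a s : B', (s : F') ∉ V0'.nonunits ∧ y * s = a)
    -- `V_oo'`, `V_0'` are incomparable
    (hne : ¬ Voo' ≤ V0') (hne' : ¬ V0' ≤ Voo')
    (P : Ideal B) [P.IsPrime] (hqP : q ∈ P)
    -- (TH) at the images of `P`
    (hTHα : centre B Vmid ≤ P → centre B V0 ≤ P →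
      ∃ x₀ ∈ centre B' Voo', ∃ y₀ ∈ centre B' V0', ∃ g,
        g ∉ P.comap (resHom α B' B hαB) ∧ x₀ * y₀ = q' * g)
    (hTHβ : centre B Voo ≤ P → (centre B Vmid ≤ P ∨ centre B V0 ≤ P) →
      ∃ x₀ ∈ centre B' Voo', ∃ y₀ ∈ centre B' V0', ∃ g,
        g ∉ P.comap (resHom β B' B hβB) ∧ x₀ * y₀ = q' * g)
    -- (MID) at `P`
    (hMID : centre B Vmid ≤ P → ¬ centre B Voo ≤ P → ¬ centre B V0 ≤ P →
      ∃ T ∈ centre B Vmid, T ≠ 0 ∧ (∃ m : ℕ, m ≠ 0 ∧ ∃ s, s ∉ P ∧ T ^ m ∣ s * q) ∧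
        ∀ a ∈ centre B Vmid, ∃ s, s ∉ centre B Vmid ∧ T ∣ s * a)
    -- (B) at `P`
    (hPIRoo : centre B Voo ≤ P → LocPIRQuot P (centre B Voo))
    (hPIRmid : centre B Vmid ≤ P → LocPIRQuot P (centre B Vmid))
    (hPIR0 : centre B V0 ≤ P → LocPIRQuot P (centre B V0)) :
    LocFactorial P := by
  have ipoo : (centre B Voo).IsPrime := centre_isPrime hBoo
  have ipmid : (centre B Vmid).IsPrime := centre_isPrime hBmid
  have ip0 : (centre B V0).IsPrime := centre_isPrime hB0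
  have ipoo' : (centre B' Voo').IsPrime := centre_isPrime hBoo'
  have ip0' : (centre B' V0').IsPrime := centre_isPrime hB0'
  -- contractions of the centres
  have cαoo := comap_centre α B' B hαB hBoo hBoo' hαoo
  have cαmid := comap_centre α B' B hαB hBmid hBoo' hαmid
  have cα0 := comap_centre α B' B hαB hB0 hB0' hα0
  have cβoo := comap_centre β B' B hβB hBoo hBoo' hβoo
  have cβmid := comap_centre β B' B hβB hBmid hB0' hβmid
  have cβ0 := comap_centre β B' B hβB hB0 hB0' hβ0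
  -- `¬ p_oo' ≤ p_0'` and `¬ p_0' ≤ p_oo'`
  have hsep : ¬ centre B' Voo' ≤ centre B' V0' := not_centre_le_of_loc hB0' hBoo' hloc_0' hne'
  have hsep' : ¬ centre B' V0' ≤ centre B' Voo' := not_centre_le_of_loc hBoo' hB0' hloc_oo' hne
  have hq'oo : q' ∈ centre B' Voo' := by
    rw [mem_centre_iff hBoo', ← map_mem_nonunits_iff α hαoo, hαq]
    exact hqoo
  have hq'0 : q' ∈ centre B' V0' := by
    rw [mem_centre_iff hB0', ← map_mem_nonunits_iff α hα0, hαq]
    exact hq0'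
  refine locFactorial_at_inc (resHom α B' B hαB) (resHom β B' B hβB) q' q
    (centre B Voo) (centre B Vmid) (centre B V0) (centre B' Voo') (centre B' V0')
    (resHom_injective α B' B hαB) (resHom_injective β B' B hβB) hq0
    (Subtype.ext (by rw [coe_resHom, hαq])) (Subtype.ext (by rw [coe_resHom, hβq]))
    ((mem_centre_iff hBoo q).mpr hqoo) ((mem_centre_iff hB0 q).mpr hq0') hq'oo hq'0 hV hV'
    (centre_mult_one hBoo q huoo hloc_oo) (centre_mult_one hB0 q hu0 hloc_0)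
    (centre_mult_one hBoo' q' huoo' hloc_oo') (centre_mult_one hB0' q' hu0' hloc_0')
    ?_ ?_ ?_ ?_ ?_ ?_ ?_ ?_ ?_ P hqP hTHα hTHβ hMID hPIRoo hPIRmid hPIR0
  · rw [cβoo]
  · rw [cβmid]
  · rw [cβ0]
  · rw [cβmid]; exact hsep
  · rw [cβ0]; exact hsep
  · rw [cαmid]
  · rw [cα0]
  · rw [cαoo]; exact hsep'
  · rw [cαmid]; exact hsep'

/-- **(LP) at every closed point of the special fibre, valuation form.**
`locFactorial_of_val_at` at every maximal ideal `P ∋ q`, with (TH) assumed at the closed nodes of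
level `q` (output contract (F2-OUT)) — in exchange the contractions along `α`, `β` of closed points
of the special fibre are closed points (`hmaxα`, `hmaxβ`; see `isMaximal_comap_resHom_of_resk`). -/
theorem locFactorial_of_val (B : Subring F) (B' : Subring F')
    [IsNoetherianRing B] [IsIntegrallyClosed B] [IsNoetherianRing B'] [IsIntegrallyClosed B']
    (α β : F' →+* F) (hαB : ∀ b ∈ B', α b ∈ B) (hβB : ∀ b ∈ B', β b ∈ B)
    (q' : B') (q : B) (hq0 : q ≠ 0) (hαq : α (q' : F') = (q : F)) (hβq : β (q' : F') = (q : F))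
    (Voo Vmid V0 : ValuationSubring F) (Voo' V0' : ValuationSubring F')
    (hBoo : ∀ b ∈ B, b ∈ Voo) (hBmid : ∀ b ∈ B, b ∈ Vmid) (hB0 : ∀ b ∈ B, b ∈ V0)
    (hBoo' : ∀ b ∈ B', b ∈ Voo') (hB0' : ∀ b ∈ B', b ∈ V0')
    (hqoo : (q : F) ∈ Voo.nonunits) (hq0' : (q : F) ∈ V0.nonunits)
    -- restriction tables
    (hαoo : ∀ a : F', α a ∈ Voo ↔ a ∈ Voo') (hαmid : ∀ a : F', α a ∈ Vmid ↔ a ∈ Voo')
    (hα0 : ∀ a : F', α a ∈ V0 ↔ a ∈ V0')
    (hβoo : ∀ a : F', β a ∈ Voo ↔ a ∈ Voo') (hβmid : ∀ a : F', β a ∈ Vmid ↔ a ∈ V0')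
    (hβ0 : ∀ a : F', β a ∈ V0 ↔ a ∈ V0')
    -- (V) dictionary
    (hV : ∀ Q : Ideal B, Q.IsPrime → Q.height = 1 → q ∈ Q →
      Q = centre B Voo ∨ Q = centre B Vmid ∨ Q = centre B V0)
    (hV' : ∀ Q : Ideal B', Q.IsPrime → Q.height = 1 → q' ∈ Q →
      Q = centre B' Voo' ∨ Q = centre B' V0')
    -- (U) `q` is a uniformiser of `V_oo`, `V_0`, `V_oo'`, `V_0'`
    (huoo : ∀ y ∈ Voo.nonunits, ∃ z ∈ Voo, y = (q : F) * z)
    (hu0 : ∀ y ∈ V0.nonunits, ∃ z ∈ V0, y = (q : F) * z)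
    (huoo' : ∀ y ∈ Voo'.nonunits, ∃ z ∈ Voo', y = (q' : F') * z)
    (hu0' : ∀ y ∈ V0'.nonunits, ∃ z ∈ V0', y = (q' : F') * z)
    -- (LOC) the valuation rings are the local rings of the charts at their centres
    (hloc_oo : ∀ y ∈ Voo, ∃ a s : B, (s : F) ∉ Voo.nonunits ∧ y * s = a)
    (hloc_0 : ∀ y ∈ V0, ∃ a s : B, (s : F) ∉ V0.nonunits ∧ y * s = a)
    (hloc_oo' : ∀ y ∈ Voo', ∃ a s : B', (s : F') ∉ Voo'.nonunits ∧ y * s = a)
    (hloc_0' : ∀ y ∈ V0', ∃ a s : B', (s : F') ∉ V0'.nonunits ∧ y * s = a)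
    -- `V_oo'`, `V_0'` are incomparable
    (hne : ¬ Voo' ≤ V0') (hne' : ¬ V0' ≤ Voo')
    -- closed points go to closed points
    (hmaxα : ∀ P : Ideal B, P.IsMaximal → q ∈ P → (P.comap (resHom α B' B hαB)).IsMaximal)
    (hmaxβ : ∀ P : Ideal B, P.IsMaximal → q ∈ P → (P.comap (resHom β B' B hβB)).IsMaximal)
    -- (TH) thickness one at the closed nodes of level `q`
    (hTH : ∀ P' : Ideal B', P'.IsMaximal → centre B' Voo' ≤ P' → centre B' V0' ≤ P' →
      ∃ x₀ ∈ centre B' Voo', ∃ y₀ ∈ centre B' V0', ∃ g, g ∉ P' ∧ x₀ * y₀ = q' * g)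
    -- (MID) at the closed points on `C_mid` only
    (hMID : ∀ P : Ideal B, P.IsMaximal → centre B Vmid ≤ P → ¬ centre B Voo ≤ P →
      ¬ centre B V0 ≤ P →
      ∃ T ∈ centre B Vmid, T ≠ 0 ∧ (∃ m : ℕ, m ≠ 0 ∧ ∃ s, s ∉ P ∧ T ^ m ∣ s * q) ∧
        ∀ a ∈ centre B Vmid, ∃ s, s ∉ centre B Vmid ∧ T ∣ s * a)
    -- (B) the components are locally principal ideal rings
    (hPIRoo : ∀ P : Ideal B, P.IsMaximal → centre B Voo ≤ P → LocPIRQuot P (centre B Voo))
    (hPIRmid : ∀ P : Ideal B, P.IsMaximal → centre B Vmid ≤ P → LocPIRQuot P (centre B Vmid))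
    (hPIR0 : ∀ P : Ideal B, P.IsMaximal → centre B V0 ≤ P → LocPIRQuot P (centre B V0)) :
    ∀ P : Ideal B, P.IsMaximal → q ∈ P → LocFactorial P := by
  intro P hP hqP
  have hPp : P.IsPrime := hP.isPrime
  have cαoo := comap_centre α B' B hαB hBoo hBoo' hαoo
  have cαmid := comap_centre α B' B hαB hBmid hBoo' hαmid
  have cα0 := comap_centre α B' B hαB hB0 hB0' hα0
  have cβoo := comap_centre β B' B hβB hBoo hBoo' hβoo
  have cβmid := comap_centre β B' B hβB hBmid hB0' hβmid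
  have cβ0 := comap_centre β B' B hβB hB0 hB0' hβ0
  refine locFactorial_of_val_at B B' α β hαB hβB q' q hq0 hαq hβq Voo Vmid V0 Voo' V0' hBoo hBmid
    hB0 hBoo' hB0' hqoo hq0' hαoo hαmid hα0 hβoo hβmid hβ0 hV hV' huoo hu0 huoo' hu0' hloc_oo
    hloc_0 hloc_oo' hloc_0' hne hne' P hqP ?_ ?_ (hMID P hP) (hPIRoo P hP) (hPIRmid P hP)
    (hPIR0 P hP)
  · intro hmid h0
    refine hTH _ (hmaxα P hP hqP) ?_ ?_
    · rw [← cαmid]; exact Ideal.comap_mono hmid
    · rw [← cα0]; exact Ideal.comap_mono h0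
  · intro hoo h2
    refine hTH _ (hmaxβ P hP hqP) ?_ ?_
    · rw [← cβoo]; exact Ideal.comap_mono hoo
    · rcases h2 with h | h
      · rw [← cβmid]; exact Ideal.comap_mono h
      · rw [← cβ0]; exact Ideal.comap_mono h

/-- **(LP) at ONE point, valuation form, dictionary from the radicals.**
`locFactorial_of_val_at` with (V) replaced by `rad(q B) = B ∩ 𝔪(V_oo) ∩ 𝔪(V_mid) ∩ 𝔪(V_0)` and
`rad(q B') = B' ∩ 𝔪(V_oo') ∩ 𝔪(V_0')` in elementwise form (the field `rad` of `KillData`; the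
`NilMod` conclusion of the chart dictionary). -/
theorem locFactorial_of_val_rad_at (B : Subring F) (B' : Subring F')
    [IsNoetherianRing B] [IsIntegrallyClosed B] [IsNoetherianRing B'] [IsIntegrallyClosed B']
    (α β : F' →+* F) (hαB : ∀ b ∈ B', α b ∈ B) (hβB : ∀ b ∈ B', β b ∈ B)
    (q' : B') (q : B) (hq0 : q ≠ 0) (hαq : α (q' : F') = (q : F)) (hβq : β (q' : F') = (q : F))
    (Voo Vmid V0 : ValuationSubring F) (Voo' V0' : ValuationSubring F')
    (hBoo : ∀ b ∈ B, b ∈ Voo) (hBmid : ∀ b ∈ B, b ∈ Vmid) (hB0 : ∀ b ∈ B, b ∈ V0)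
    (hBoo' : ∀ b ∈ B', b ∈ Voo') (hB0' : ∀ b ∈ B', b ∈ V0')
    (hqoo : (q : F) ∈ Voo.nonunits) (hqmid : (q : F) ∈ Vmid.nonunits)
    (hq0' : (q : F) ∈ V0.nonunits)
    -- restriction tables
    (hαoo : ∀ a : F', α a ∈ Voo ↔ a ∈ Voo') (hαmid : ∀ a : F', α a ∈ Vmid ↔ a ∈ Voo')
    (hα0 : ∀ a : F', α a ∈ V0 ↔ a ∈ V0')
    (hβoo : ∀ a : F', β a ∈ Voo ↔ a ∈ Voo') (hβmid : ∀ a : F', β a ∈ Vmid ↔ a ∈ V0')
    (hβ0 : ∀ a : F', β a ∈ V0 ↔ a ∈ V0')
    -- radicals
    (hrad : ∀ y : F, y ∈ B → y ∈ Voo.nonunits → y ∈ Vmid.nonunits → y ∈ V0.nonunits →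
      ∃ (e : ℕ) (r : F), r ∈ B ∧ y ^ e = (q : F) * r)
    (hrad' : ∀ y : F', y ∈ B' → y ∈ Voo'.nonunits → y ∈ V0'.nonunits →
      ∃ (e : ℕ) (r : F'), r ∈ B' ∧ y ^ e = (q' : F') * r)
    -- (U) `q` is a uniformiser of `V_oo`, `V_0`, `V_oo'`, `V_0'`
    (huoo : ∀ y ∈ Voo.nonunits, ∃ z ∈ Voo, y = (q : F) * z)
    (hu0 : ∀ y ∈ V0.nonunits, ∃ z ∈ V0, y = (q : F) * z)
    (huoo' : ∀ y ∈ Voo'.nonunits, ∃ z ∈ Voo', y = (q' : F') * z)
    (hu0' : ∀ y ∈ V0'.nonunits, ∃ z ∈ V0', y = (q' : F') * z)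
    -- (LOC) the valuation rings are the local rings of the charts at their centres
    (hloc_oo : ∀ y ∈ Voo, ∃ a s : B, (s : F) ∉ Voo.nonunits ∧ y * s = a)
    (hloc_0 : ∀ y ∈ V0, ∃ a s : B, (s : F) ∉ V0.nonunits ∧ y * s = a)
    (hloc_oo' : ∀ y ∈ Voo', ∃ a s : B', (s : F') ∉ Voo'.nonunits ∧ y * s = a)
    (hloc_0' : ∀ y ∈ V0', ∃ a s : B', (s : F') ∉ V0'.nonunits ∧ y * s = a)
    -- `V_oo'`, `V_0'` are incomparable
    (hne : ¬ Voo' ≤ V0') (hne' : ¬ V0' ≤ Voo')
    (P : Ideal B) [P.IsPrime] (hqP : q ∈ P)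
    -- (TH) at the images of `P`
    (hTHα : centre B Vmid ≤ P → centre B V0 ≤ P →
      ∃ x₀ ∈ centre B' Voo', ∃ y₀ ∈ centre B' V0', ∃ g,
        g ∉ P.comap (resHom α B' B hαB) ∧ x₀ * y₀ = q' * g)
    (hTHβ : centre B Voo ≤ P → (centre B Vmid ≤ P ∨ centre B V0 ≤ P) →
      ∃ x₀ ∈ centre B' Voo', ∃ y₀ ∈ centre B' V0', ∃ g,
        g ∉ P.comap (resHom β B' B hβB) ∧ x₀ * y₀ = q' * g)
    -- (MID) at `P`
    (hMID : centre B Vmid ≤ P → ¬ centre B Voo ≤ P → ¬ centre B V0 ≤ P →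
      ∃ T ∈ centre B Vmid, T ≠ 0 ∧ (∃ m : ℕ, m ≠ 0 ∧ ∃ s, s ∉ P ∧ T ^ m ∣ s * q) ∧
        ∀ a ∈ centre B Vmid, ∃ s, s ∉ centre B Vmid ∧ T ∣ s * a)
    -- (B) at `P`
    (hPIRoo : centre B Voo ≤ P → LocPIRQuot P (centre B Voo))
    (hPIRmid : centre B Vmid ≤ P → LocPIRQuot P (centre B Vmid))
    (hPIR0 : centre B V0 ≤ P → LocPIRQuot P (centre B V0)) :
    LocFactorial P := by
  have hq'0 : q' ≠ 0 := by
    intro h
    apply hq0
    apply Subtype.ext
    rw [← hαq, h, Subring.coe_zero, map_zero, Subring.coe_zero]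
  have hq'oo : (q' : F') ∈ Voo'.nonunits := by
    rw [← map_mem_nonunits_iff α hαoo, hαq]
    exact hqoo
  have hq'0' : (q' : F') ∈ V0'.nonunits := by
    rw [← map_mem_nonunits_iff α hα0, hαq]
    exact hq0'
  exact locFactorial_of_val_at B B' α β hαB hβB q' q hq0 hαq hβq Voo Vmid V0 Voo' V0' hBoo hBmid
    hB0 hBoo' hB0' hqoo hq0' hαoo hαmid hα0 hβoo hβmid hβ0
    (vertical3_of_rad B q hq0 Voo Vmid V0 hBoo hBmid hB0 hqoo hqmid hq0' hrad)
    (vertical2_of_rad B' q' hq'0 Voo' V0' hBoo' hB0' hq'oo hq'0' hrad')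
    huoo hu0 huoo' hu0' hloc_oo hloc_0 hloc_oo' hloc_0' hne hne' P hqP hTHα hTHβ hMID hPIRoo
    hPIRmid hPIR0

/-- **(LP) at every closed point, valuation form, dictionary from the radicals.**
`locFactorial_of_val` with (V) replaced by the two radical statements. -/
theorem locFactorial_of_val_rad (B : Subring F) (B' : Subring F')
    [IsNoetherianRing B] [IsIntegrallyClosed B] [IsNoetherianRing B'] [IsIntegrallyClosed B']
    (α β : F' →+* F) (hαB : ∀ b ∈ B', α b ∈ B) (hβB : ∀ b ∈ B', β b ∈ B)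
    (q' : B') (q : B) (hq0 : q ≠ 0) (hαq : α (q' : F') = (q : F)) (hβq : β (q' : F') = (q : F))
    (Voo Vmid V0 : ValuationSubring F) (Voo' V0' : ValuationSubring F')
    (hBoo : ∀ b ∈ B, b ∈ Voo) (hBmid : ∀ b ∈ B, b ∈ Vmid) (hB0 : ∀ b ∈ B, b ∈ V0)
    (hBoo' : ∀ b ∈ B', b ∈ Voo') (hB0' : ∀ b ∈ B', b ∈ V0')
    (hqoo : (q : F) ∈ Voo.nonunits) (hqmid : (q : F) ∈ Vmid.nonunits)
    (hq0' : (q : F) ∈ V0.nonunits)
    -- restriction tables
    (hαoo : ∀ a : F', α a ∈ Voo ↔ a ∈ Voo') (hαmid : ∀ a : F', α a ∈ Vmid ↔ a ∈ Voo')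
    (hα0 : ∀ a : F', α a ∈ V0 ↔ a ∈ V0')
    (hβoo : ∀ a : F', β a ∈ Voo ↔ a ∈ Voo') (hβmid : ∀ a : F', β a ∈ Vmid ↔ a ∈ V0')
    (hβ0 : ∀ a : F', β a ∈ V0 ↔ a ∈ V0')
    -- radicals
    (hrad : ∀ y : F, y ∈ B → y ∈ Voo.nonunits → y ∈ Vmid.nonunits → y ∈ V0.nonunits →
      ∃ (e : ℕ) (r : F), r ∈ B ∧ y ^ e = (q : F) * r)
    (hrad' : ∀ y : F', y ∈ B' → y ∈ Voo'.nonunits → y ∈ V0'.nonunits →
      ∃ (e : ℕ) (r : F'), r ∈ B' ∧ y ^ e = (q' : F') * r)
    -- (U) `q` is a uniformiser of `V_oo`, `V_0`, `V_oo'`, `V_0'`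
    (huoo : ∀ y ∈ Voo.nonunits, ∃ z ∈ Voo, y = (q : F) * z)
    (hu0 : ∀ y ∈ V0.nonunits, ∃ z ∈ V0, y = (q : F) * z)
    (huoo' : ∀ y ∈ Voo'.nonunits, ∃ z ∈ Voo', y = (q' : F') * z)
    (hu0' : ∀ y ∈ V0'.nonunits, ∃ z ∈ V0', y = (q' : F') * z)
    -- (LOC) the valuation rings are the local rings of the charts at their centres
    (hloc_oo : ∀ y ∈ Voo, ∃ a s : B, (s : F) ∉ Voo.nonunits ∧ y * s = a)
    (hloc_0 : ∀ y ∈ V0, ∃ a s : B, (s : F) ∉ V0.nonunits ∧ y * s = a)
    (hloc_oo' : ∀ y ∈ Voo', ∃ a s : B', (s : F') ∉ Voo'.nonunits ∧ y * s = a)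
    (hloc_0' : ∀ y ∈ V0', ∃ a s : B', (s : F') ∉ V0'.nonunits ∧ y * s = a)
    -- `V_oo'`, `V_0'` are incomparable
    (hne : ¬ Voo' ≤ V0') (hne' : ¬ V0' ≤ Voo')
    -- closed points go to closed points
    (hmaxα : ∀ P : Ideal B, P.IsMaximal → q ∈ P → (P.comap (resHom α B' B hαB)).IsMaximal)
    (hmaxβ : ∀ P : Ideal B, P.IsMaximal → q ∈ P → (P.comap (resHom β B' B hβB)).IsMaximal)
    -- (TH) thickness one at the closed nodes of level `q`
    (hTH : ∀ P' : Ideal B', P'.IsMaximal → centre B' Voo' ≤ P' → centre B' V0' ≤ P' →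
      ∃ x₀ ∈ centre B' Voo', ∃ y₀ ∈ centre B' V0', ∃ g, g ∉ P' ∧ x₀ * y₀ = q' * g)
    -- (MID) at the closed points on `C_mid` only
    (hMID : ∀ P : Ideal B, P.IsMaximal → centre B Vmid ≤ P → ¬ centre B Voo ≤ P →
      ¬ centre B V0 ≤ P →
      ∃ T ∈ centre B Vmid, T ≠ 0 ∧ (∃ m : ℕ, m ≠ 0 ∧ ∃ s, s ∉ P ∧ T ^ m ∣ s * q) ∧
        ∀ a ∈ centre B Vmid, ∃ s, s ∉ centre B Vmid ∧ T ∣ s * a)
    -- (B) the components are locally principal ideal rings
    (hPIRoo : ∀ P : Ideal B, P.IsMaximal → centre B Voo ≤ P → LocPIRQuot P (centre B Voo))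
    (hPIRmid : ∀ P : Ideal B, P.IsMaximal → centre B Vmid ≤ P → LocPIRQuot P (centre B Vmid))
    (hPIR0 : ∀ P : Ideal B, P.IsMaximal → centre B V0 ≤ P → LocPIRQuot P (centre B V0)) :
    ∀ P : Ideal B, P.IsMaximal → q ∈ P → LocFactorial P := by
  have hq'0 : q' ≠ 0 := by
    intro h
    apply hq0
    apply Subtype.ext
    rw [← hαq, h, Subring.coe_zero, map_zero, Subring.coe_zero]
  have hq'oo : (q' : F') ∈ Voo'.nonunits := by
    rw [← map_mem_nonunits_iff α hαoo, hαq]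
    exact hqoo
  have hq'0' : (q' : F') ∈ V0'.nonunits := by
    rw [← map_mem_nonunits_iff α hα0, hαq]
    exact hq0'
  exact locFactorial_of_val B B' α β hαB hβB q' q hq0 hαq hβq Voo Vmid V0 Voo' V0' hBoo hBmid hB0
    hBoo' hB0' hqoo hq0' hαoo hαmid hα0 hβoo hβmid hβ0
    (vertical3_of_rad B q hq0 Voo Vmid V0 hBoo hBmid hB0 hqoo hqmid hq0' hrad)
    (vertical2_of_rad B' q' hq'0 Voo' V0' hBoo' hB0' hq'oo hq'0' hrad')
    huoo hu0 huoo' hu0' hloc_oo hloc_0 hloc_oo' hloc_0' hne hne' hmaxα hmaxβ hTH hMID hPIRoo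
    hPIRmid hPIR0

end Main

end Fermat.Agent.S36.helper8039
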