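/-
S36-MID-INST, Layer A in the vocabulary of `helper8039_LPCasesVal` (helper3919).

The hypothesis `hMID` of `helper8039.locFactorial_of_val(_rad)` / `helper8039.lpProp_of_cases` AT
A NON-CUSPIDAL closed point `P` of `C_mid`, for a chart `B` (any noetherian integrally closed
subring of the function field `F` of level `q² M''` contained in the three vertical valuation
rings `V 0 = v_∞`, `V 1 = v_mid`, `V 2 = v_0`):

* `hMID_of_cert`  : from the unit check `hcert` (abstract);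
* `hMID_t4`, `hMID_t9` : first chart of the base line (`τ = t₄` resp. `t₉` in `B`), unit check =
  `helper4118.mid_gauss_t4 / _t9` (the `Δ`-unit certificate);
* `hMID_u4`, `hMID_u9` : second chart (`υ = 1/t₄` resp. `1/t₉` in `B`), unit check =
  `helper4118.mid_gauss_u4 / _u9`.

Inputs, all in the shapes of their suppliers:
* `hV1`   : `V 1` is the pull-back of the Gauss ring along the expansion `σ` (the mid-cusp
            expansion; `Iff.rfl` for `helper405.VmidOf`);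
* `hrad`  : the field `rad` of `KillData` (`NilMod` form) on the chart `B`;
* `hloc_mid` : (LOC) for `V 1`, shape of `helper8039.locFactorial_of_val`;
* `hunif` : `T` generates the maximal ideal of `V 1` (`helper3919.mid_unif_of_ord` from the `ord`
            fields of `KillData`, or `helper3919.mid_unif_of_unif` from any uniformiser of twist
            shape);
* `T, D ∈ B` with the expansions of `t(q² z) - t(z)` and of the cusp-corrected modular unit
  `(t⁴ (t + 16))ⁿ Δ(z) / Δ(q z)`;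
* the point is not a cusp: `τ ∉ P`, `τ + 16 ∉ P` (resp. the `t₉` and `1/t` twins).
-/
import Mathlib
import Fermat.Agent.S36.helper3919_MidInst
import Fermat.Agent.S36.helper8039_LPCasesVal
import Fermat.Agent.S36.helper4118_ThickInv
import Fermat.Agent.S36.helper1730_NewtonCore

set_option autoImplicit false

noncomputable section

namespace Fermat.Agent.S36.helper3919

open HahnSeries Finset ModularCurve
open Fermat.Agent.S18.helper8991
open Fermat.Agent.S28.helper328 (twist)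
open Fermat.Agent.Lib.helper9242 (thetaFun)
open Fermat.Agent.S36.helper8039 (centre mem_centre_iff exists_eq_centre_of_rad)
open Fermat.Agent.S36.helper1730 (NilMod)
open Fermat.Agent.Lib.helper3874 (t4C t9C toL)
open Fermat.Agent.Lib.helper386 (deltaSeries)

theorem natCast_ne_zero_of_field {L : Type*} [Field L] {F : Type*} [Field F]
    (σ : F →+* LaurentSeries L) (q : ℕ) (hqF : (q : F) ≠ 0) : ((q : ℕ) : L) ≠ 0 := by
  intro h0
  apply hqF
  have h1 : σ ((q : ℕ) : F) = 0 := by rw [sigma_natCast σ q, h0, map_zero]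
  exact (map_eq_zero σ).mp h1

section Val

variable {L : Type*} [Field L] (A : ValuationSubring L) {k : Type*} [Field k] (π : A →+* k)
variable {F : Type*} [Field F] (σ : F →+* LaurentSeries L)
variable (q : ℕ) [Fact q.Prime] [CharP k q] (ζ : Lˣ) (hζ : IsPrimitiveRoot (ζ : L) q)
variable (B : Subring F) [IsNoetherianRing B] [IsIntegrallyClosed B]
variable (V : Fin 3 → ValuationSubring F) (hBV : ∀ c, ∀ b ∈ B, b ∈ V c)
variable (hV1 : ∀ x : F, x ∈ V 1 ↔ σ x ∈ gaussRing A π)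
variable (hqV : ∀ c, (q : F) ∈ (V c).nonunits) (hqF : (q : F) ≠ 0)
variable (hrad : ∀ y : F, y ∈ B → (∀ c, y ∈ (V c).nonunits) → NilMod B (q : F) y)
variable (hloc_mid : ∀ y ∈ V 1, ∃ a s : B, (s : F) ∉ (V 1).nonunits ∧ y * s = a)

include hBV hqV hqF hrad in
omit [Fact q.Prime] [IsIntegrallyClosed B] in
/-- (V) at a point of `C_mid` only: the centre of `V 1` is the only height-one prime inside `P`
containing `q`. -/
theorem mid_only (P : Ideal B) (h0 : ¬ centre B (V 0) ≤ P) (h2 : ¬ centre B (V 2) ≤ P)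
    (Q : Ideal B) (hQ : Q.IsPrime) (hQ1 : Q.height = 1) (hQP : Q ≤ P) (hqQ : (q : B) ∈ Q) :
    Q = centre B (V 1) := by
  have hq0 : (q : B) ≠ 0 := by
    intro h
    apply hqF
    have := congrArg (fun z : B => (z : F)) h
    simpa using this
  obtain ⟨c, hc⟩ := exists_eq_centre_of_rad B V hBV (q : B) hq0
    (fun c => by rw [Subring.coe_natCast]; exact hqV c)
    (by
      intro y hy
      obtain ⟨-, e, r, hr, he⟩ := hrad (y : F) y.2 hy
      exact ⟨e, ⟨r, hr⟩, Subtype.ext (by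
        rw [Subring.coe_mul, Subring.coe_pow, Subring.coe_natCast]; exact he)⟩)
    Q hQ1 hqQ
  fin_cases c
  · exact absurd (hc ▸ hQP) h0
  · exact hc
  · exact absurd (hc ▸ hQP) h2

include hζ hBV hV1 hqV hqF hrad hloc_mid in
/-- **`hMID` at `P` from the unit check.** -/
theorem hMID_of_cert (X : LaurentSeries A) (T : B)
    (hT : σ (T : F) = twist ζ (inc A X) - inc A X)
    (hunif : ∀ y ∈ (V 1).nonunits, ∃ z ∈ V 1, y = (T : F) * z)
    (P : Ideal B) (hP : P.IsMaximal)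
    (h0 : ¬ centre B (V 0) ≤ P) (h2 : ¬ centre B (V 2) ≤ P)
    (hcert : ∀ s b : B, s ∉ P → s * T ^ (q - 1) = (q : B) * b → b ∉ P) :
    ∃ T ∈ centre B (V 1), T ≠ 0 ∧ (∃ m : ℕ, m ≠ 0 ∧ ∃ s, s ∉ P ∧ T ^ m ∣ s * (q : B)) ∧
      ∀ a ∈ centre B (V 1), ∃ s, s ∉ centre B (V 1) ∧ T ∣ s * a := by
  have : P.IsPrime := hP.isPrime
  have hq0 : (q : B) ≠ 0 := by
    intro h
    apply hqF
    have := congrArg (fun z : B => (z : F)) h
    simpa using this
  exact mid_generator_of_cert A π σ q ζ hζ B (V 1) hV1 (centre B (V 1))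
    (fun b => mem_centre_iff (hBV 1) b) hloc_mid hq0 P
    (fun Q hQ hQ1 hQP hqQ => mid_only q B V hBV hqV hqF hrad P h0 h2 Q hQ hQ1 hQP hqQ)
    X T hT hunif hcert

/-! ### The unit checks of `helper4118` on the subring `B` -/

/-- The expansion map restricted to `B`. -/
def sigmaB : B →+* LaurentSeries L := σ.comp B.subtype

omit [IsNoetherianRing B] [IsIntegrallyClosed B] in
theorem sigmaB_apply (b : B) : sigmaB σ B b = σ (b : F) := rfl

include hBV hV1 in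
omit [IsNoetherianRing B] [IsIntegrallyClosed B] in
theorem sigmaB_mem (b : B) : sigmaB σ B b ∈ gaussRing A π :=
  (hV1 (b : F)).mp (hBV 1 _ b.2)

include hBV hV1 in
omit [IsNoetherianRing B] [IsIntegrallyClosed B] in
/-- The kernel of the reduction lies in every prime containing the centre of `V 1`. -/
theorem ker_le_of_centre_le (P : Ideal B) (h1 : centre B (V 1) ≤ P) (b : B)
    (hb : gaussRho A π ⟨sigmaB σ B b, sigmaB_mem A π σ B V hBV hV1 b⟩ = 0) : b ∈ P :=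
  h1 ((mem_centre_iff (hBV 1) b).mpr
    (mem_nonunits_of_gaussRho_eq_zero A π σ (V 1) hV1 (b : F) _ hb))

include hζ hBV hV1 hqV hqF hrad hloc_mid in
/-- **`hMID` at a non-cuspidal point, first chart of the `t₄`-line.**  `τ = t₄`,
`T = t₄(q² z) - t₄(z)`, `D = (t₄⁴ (t₄ + 16))ⁿ Δ(z)/Δ(qz)` in `B`. -/
theorem hMID_t4 (n : ℕ) (τ T D : B) (hτ : σ (τ : F) = t4C L)
    (hT : σ (T : F) = twist ζ (t4C L) - t4C L)
    (hD : σ (D : F) * qExpand L q (toL L deltaSeries)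
      = toL L deltaSeries * (t4C L ^ 4 * (t4C L + 16)) ^ n)
    (hunif : ∀ y ∈ (V 1).nonunits, ∃ z ∈ V 1, y = (T : F) * z)
    (P : Ideal B) (hP : P.IsMaximal) (h1 : centre B (V 1) ≤ P)
    (h0 : ¬ centre B (V 0) ≤ P) (h2 : ¬ centre B (V 2) ≤ P)
    (hτ0 : τ ∉ P) (hτ16 : τ + 16 ∉ P) :
    ∃ T ∈ centre B (V 1), T ≠ 0 ∧ (∃ m : ℕ, m ≠ 0 ∧ ∃ s, s ∉ P ∧ T ^ m ∣ s * (q : B)) ∧
      ∀ a ∈ centre B (V 1), ∃ s, s ∉ centre B (V 1) ∧ T ∣ s * a := by
  have : P.IsPrime := hP.isPrime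
  obtain ⟨ζA, hζA, -, hsum⟩ := exists_zetaA A π q ζ hζ
  have hu : Units.map (A.subtype : A →* L) ζA = ζ := Units.ext hζA
  have hinc : inc A (t4C A) = t4C L := Fermat.Agent.Lib.helper3874.coeffMap_t4C _
  refine hMID_of_cert A π σ q ζ hζ B V hBV hV1 hqV hqF hrad hloc_mid (t4C A) T
    (by rw [hinc]; exact hT) hunif P hP h0 h2 ?_
  intro s b hs hsb
  exact (Fermat.Agent.S36.helper4118.mid_gauss_t4 q (natCast_ne_zero_of_field σ q hqF) A π
    (sigmaB σ B) (sigmaB_mem A π σ B V hBV hV1) P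
    (ker_le_of_centre_le A π σ B V hBV hV1 P h1) ζA hsum n τ T D b s hτ
    (by rw [hu]; exact hT) hD hsb hs hτ0 hτ16).1

include hζ hBV hV1 hqV hqF hrad hloc_mid in
/-- **`hMID` at a non-cuspidal point, first chart of the `t₉`-line.** -/
theorem hMID_t9 (n : ℕ) (τ T D : B) (hτ : σ (τ : F) = t9C L)
    (hT : σ (T : F) = twist ζ (t9C L) - t9C L)
    (hD : σ (D : F) * qExpand L q (toL L deltaSeries)
      = toL L deltaSeries * (t9C L ^ 9 * (t9C L ^ 2 + 9 * t9C L + 27)) ^ n)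
    (hunif : ∀ y ∈ (V 1).nonunits, ∃ z ∈ V 1, y = (T : F) * z)
    (P : Ideal B) (hP : P.IsMaximal) (h1 : centre B (V 1) ≤ P)
    (h0 : ¬ centre B (V 0) ≤ P) (h2 : ¬ centre B (V 2) ≤ P)
    (hτ0 : τ ∉ P) (hτQ : τ ^ 2 + 9 * τ + 27 ∉ P) :
    ∃ T ∈ centre B (V 1), T ≠ 0 ∧ (∃ m : ℕ, m ≠ 0 ∧ ∃ s, s ∉ P ∧ T ^ m ∣ s * (q : B)) ∧
      ∀ a ∈ centre B (V 1), ∃ s, s ∉ centre B (V 1) ∧ T ∣ s * a := by
  have : P.IsPrime := hP.isPrime
  obtain ⟨ζA, hζA, -, hsum⟩ := exists_zetaA A π q ζ hζ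
  have hu : Units.map (A.subtype : A →* L) ζA = ζ := Units.ext hζA
  have hinc : inc A (t9C A) = t9C L := Fermat.Agent.Lib.helper3874.coeffMap_t9C _
  refine hMID_of_cert A π σ q ζ hζ B V hBV hV1 hqV hqF hrad hloc_mid (t9C A) T
    (by rw [hinc]; exact hT) hunif P hP h0 h2 ?_
  intro s b hs hsb
  exact (Fermat.Agent.S36.helper4118.mid_gauss_t9 q (natCast_ne_zero_of_field σ q hqF) A π
    (sigmaB σ B) (sigmaB_mem A π σ B V hBV hV1) P
    (ker_le_of_centre_le A π σ B V hBV hV1 P h1) ζA hsum n τ T D b s hτ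
    (by rw [hu]; exact hT) hD hsb hs hτ0 hτQ).1

include hζ hBV hV1 hqV hqF hrad hloc_mid in
/-- **`hMID` at a non-cuspidal point, second chart of the `t₄`-line.**  `υ = 1/t₄`,
`T = υ(q² z) - υ(z)`, `D = (υ (16 υ + 1))ⁿ Δ(z)/Δ(qz)` in `B`. -/
theorem hMID_u4 (n : ℕ) (υ T D : B) (hυ : σ (υ : F) * t4C L = 1)
    (hT : σ (T : F) = twist ζ (σ (υ : F)) - σ (υ : F))
    (hD : σ (D : F) * qExpand L q (toL L deltaSeries)
      = toL L deltaSeries * (σ (υ : F) * (16 * σ (υ : F) + 1)) ^ n)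
    (hunif : ∀ y ∈ (V 1).nonunits, ∃ z ∈ V 1, y = (T : F) * z)
    (P : Ideal B) (hP : P.IsMaximal) (h1 : centre B (V 1) ≤ P)
    (h0 : ¬ centre B (V 0) ≤ P) (h2 : ¬ centre B (V 2) ≤ P)
    (hυ0 : υ ∉ P) (hυ16 : 16 * υ + 1 ∉ P) :
    ∃ T ∈ centre B (V 1), T ≠ 0 ∧ (∃ m : ℕ, m ≠ 0 ∧ ∃ s, s ∉ P ∧ T ^ m ∣ s * (q : B)) ∧
      ∀ a ∈ centre B (V 1), ∃ s, s ∉ centre B (V 1) ∧ T ∣ s * a := by
  have : P.IsPrime := hP.isPrime
  obtain ⟨ζA, hζA, -, hsum⟩ := exists_zetaA A π q ζ hζ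
  have hu : Units.map (A.subtype : A →* L) ζA = ζ := Units.ext hζA
  have hυL : σ (υ : F) = Fermat.Agent.S36.helper4118.inv4C L :=
    Fermat.Agent.S36.helper4118.eq_of_mul_eq_one hυ (Fermat.Agent.S36.helper4118.inv4C_mul_t4C L)
  have hinc : inc A (Fermat.Agent.S36.helper4118.inv4C A) = Fermat.Agent.S36.helper4118.inv4C L :=
    Fermat.Agent.S36.helper4118.coeffMap_inv4C A _
  refine hMID_of_cert A π σ q ζ hζ B V hBV hV1 hqV hqF hrad hloc_mid
    (Fermat.Agent.S36.helper4118.inv4C A) T (by rw [hinc, ← hυL]; exact hT) hunif P hP h0 h2 ?_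
  intro s b hs hsb
  exact (Fermat.Agent.S36.helper4118.mid_gauss_u4 q (natCast_ne_zero_of_field σ q hqF) A π
    (sigmaB σ B) (sigmaB_mem A π σ B V hBV hV1) P
    (ker_le_of_centre_le A π σ B V hBV hV1 P h1) ζA hsum n υ T D b s hυ
    (by rw [hu]; exact hT) hD hsb hs hυ0 hυ16).1

include hζ hBV hV1 hqV hqF hrad hloc_mid in
/-- **`hMID` at a non-cuspidal point, second chart of the `t₉`-line.** -/
theorem hMID_u9 (n : ℕ) (υ T D : B) (hυ : σ (υ : F) * t9C L = 1)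
    (hT : σ (T : F) = twist ζ (σ (υ : F)) - σ (υ : F))
    (hD : σ (D : F) * qExpand L q (toL L deltaSeries)
      = toL L deltaSeries * (σ (υ : F) * (27 * σ (υ : F) ^ 2 + 9 * σ (υ : F) + 1)) ^ n)
    (hunif : ∀ y ∈ (V 1).nonunits, ∃ z ∈ V 1, y = (T : F) * z)
    (P : Ideal B) (hP : P.IsMaximal) (h1 : centre B (V 1) ≤ P)
    (h0 : ¬ centre B (V 0) ≤ P) (h2 : ¬ centre B (V 2) ≤ P)
    (hυ0 : υ ∉ P) (hυQ : 27 * υ ^ 2 + 9 * υ + 1 ∉ P) :
    ∃ T ∈ centre B (V 1), T ≠ 0 ∧ (∃ m : ℕ, m ≠ 0 ∧ ∃ s, s ∉ P ∧ T ^ m ∣ s * (q : B)) ∧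
      ∀ a ∈ centre B (V 1), ∃ s, s ∉ centre B (V 1) ∧ T ∣ s * a := by
  have : P.IsPrime := hP.isPrime
  obtain ⟨ζA, hζA, -, hsum⟩ := exists_zetaA A π q ζ hζ
  have hu : Units.map (A.subtype : A →* L) ζA = ζ := Units.ext hζA
  have hυL : σ (υ : F) = Fermat.Agent.S36.helper4118.inv9C L :=
    Fermat.Agent.S36.helper4118.eq_of_mul_eq_one hυ (Fermat.Agent.S36.helper4118.inv9C_mul_t9C L)
  have hinc : inc A (Fermat.Agent.S36.helper4118.inv9C A) = Fermat.Agent.S36.helper4118.inv9C L :=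
    Fermat.Agent.S36.helper4118.coeffMap_inv9C A _
  refine hMID_of_cert A π σ q ζ hζ B V hBV hV1 hqV hqF hrad hloc_mid
    (Fermat.Agent.S36.helper4118.inv9C A) T (by rw [hinc, ← hυL]; exact hT) hunif P hP h0 h2 ?_
  intro s b hs hsb
  exact (Fermat.Agent.S36.helper4118.mid_gauss_u9 q (natCast_ne_zero_of_field σ q hqF) A π
    (sigmaB σ B) (sigmaB_mem A π σ B V hBV hV1) P
    (ker_le_of_centre_le A π σ B V hBV hV1 P h1) ζA hsum n υ T D b s hυ
    (by rw [hu]; exact hT) hD hsb hs hυ0 hυQ).1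

end Val

end Fermat.Agent.S36.helper3919
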