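import Fermat.Agent.S36.helper405_KillTerms
import Fermat.Agent.S35.helper4640_CuspUnit

/-!
# S36 (KILL-INST): the modular instance of `helper36.KillData` — field proofs (helper405)

On the concrete terms of `helper405_KillTerms`:

* the Gauss-type membership tables `α_mem_inf`, `β_mem_inf`, `α_mem_zero`, `β_mem_zero`
  (fields of `KillInput`);
* ...
-/

set_option autoImplicit false
set_option linter.unusedSectionVars false

noncomputable section

namespace Fermat.Agent.S36.helper405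

open ModularCurve
open Fermat.Agent.S24.helper24 (Kbar FN)
open Fermat.Agent.S36.helper1013 (IsOrd IsUnifOf UnitOf unifOrd)
open Fermat.Agent.S36.helper36 (KillData DegData chart chart01 Through LPProp HorDiv)
open Fermat.Agent.S36.helper1335 (AuxOK)
open Fermat.Agent.S18.helper8991 (gaussF gaussRing)

/-! ## Gauss membership along the degeneracy maps over `ℚ̄` -/

section GaussDeg

variable {L : Type*} [Field L] [Algebra ℚ L] (A : ValuationSubring L) {k : Type*} [Field k]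
  (π : A →+* k) (N ℓ : ℕ) [NeZero N] [NeZero ℓ]

theorem mem_gaussF_iff_coe (f : ↥(laurentBaseChange L (modularFunctionFieldFull N))) :
    f ∈ gaussF A π N ↔ (f : LaurentSeries L) ∈ gaussRing A π := by
  rw [Fermat.Agent.S18.helper8991.mem_gaussF_iff, Fermat.Agent.S18.helper8991.mem_gaussRing_iff]

theorem heckeAlphaBar_mem_gaussF_iff (y : ↥(laurentBaseChange L (modularFunctionFieldFull N))) :
    heckeAlphaBar L N ℓ y ∈ gaussF A π (N * ℓ) ↔ y ∈ gaussF A π N := by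
  rw [mem_gaussF_iff_coe, mem_gaussF_iff_coe, coe_heckeAlphaBar]

theorem qExpand_mem_gaussRing_iff (y : ↥(laurentBaseChange L (modularFunctionFieldFull N))) :
    qExpand L ℓ (y : LaurentSeries L) ∈ gaussRing A π ↔ (y : LaurentSeries L) ∈ gaussRing A π := by
  have hσ'' : ∀ x : ↥(laurentBaseChange L (modularFunctionFieldFull N)), x ≠ 0 →
      Fermat.Agent.S18.helper8991.IsNormalizable A π
        (((qExpand L ℓ).comp (Fermat.Agent.S36.helper508.inclFull N)) x) := fun x hx =>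
    Fermat.Agent.S36.helper508.isNormalizable_qExpand A π ℓ
      (Fermat.Agent.S36.helper508.inclFull_normalizable A π N x hx)
  constructor
  · intro h
    have h2 : y ∈ Fermat.Agent.S36.helper508.pullGauss A π
        ((qExpand L ℓ).comp (Fermat.Agent.S36.helper508.inclFull N)) hσ'' := by
      rw [Fermat.Agent.S36.helper508.mem_pullGauss_iff, RingHom.comp_apply,
        Fermat.Agent.S36.helper508.inclFull_apply]
      exact h
    rw [Fermat.Agent.S36.helper508.pullGauss_qExpand A π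
      (Fermat.Agent.S36.helper508.inclFull N)
      (Fermat.Agent.S36.helper508.inclFull_normalizable A π N) ℓ hσ''] at h2
    rw [Fermat.Agent.S36.helper508.mem_pullGauss_iff,
      Fermat.Agent.S36.helper508.inclFull_apply] at h2
    exact h2
  · exact Fermat.Agent.S36.helper508.mem_gaussRing_qExpand A π ℓ

theorem heckeBetaBar_mem_gaussF_iff (y : ↥(laurentBaseChange L (modularFunctionFieldFull N))) :
    heckeBetaBar L N ℓ y ∈ gaussF A π (N * ℓ) ↔ y ∈ gaussF A π N := by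
  rw [mem_gaussF_iff_coe, mem_gaussF_iff_coe, coe_heckeBetaBar]
  exact qExpand_mem_gaussRing_iff A π N ℓ y

end GaussDeg

/-! ## The Gauss-type membership tables -/

section Tables

variable (A : ValuationSubring (AlgebraicClosure ℚ)) (M₁ q : ℕ) [NeZero M₁] [NeZero q]

theorem lh_αK (a : FK A M₁) :
    lh A (M₁ * q) (αK A M₁ q a) = heckeAlphaBar Kbar M₁ q (lh A M₁ a) :=
  Fermat.Agent.S37.helper5651.layerHom_heckeAlphaBar M₁ q
    (algebraMap (KI A) (AlgebraicClosure ℚ)) a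

theorem lh_βK (a : FK A M₁) :
    lh A (M₁ * q) (βK A M₁ q a) = heckeBetaBar Kbar M₁ q (lh A M₁ a) :=
  Fermat.Agent.S37.helper5651.layerHom_heckeBetaBar M₁ q
    (algebraMap (KI A) (AlgebraicClosure ℚ)) a

/-- `α a ∈ v_∞ ↔ a ∈ v'_∞`. -/
theorem α_mem_inf : Deg.MemOver (αK A M₁ q) (Vinf A M₁ q) (Vinf' A M₁) := by
  intro a
  unfold Vinf Vinf'
  rw [mem_VinfAt, mem_VinfAt, lh_αK]
  exact heckeAlphaBar_mem_gaussF_iff A _ M₁ q _

/-- `β a ∈ v_∞ ↔ a ∈ v'_∞`. -/
theorem β_mem_inf : Deg.MemOver (βK A M₁ q) (Vinf A M₁ q) (Vinf' A M₁) := by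
  intro a
  unfold Vinf Vinf'
  rw [mem_VinfAt, mem_VinfAt, lh_βK]
  exact heckeBetaBar_mem_gaussF_iff A _ M₁ q _

variable (hq : q.Prime) (hqM : q ∣ M₁) (hq2 : ¬ q ^ 2 ∣ M₁)

/-- `W_{q²} ∘ α = β ∘ W_q`. -/
theorem Wsq_alpha (z : FN M₁) :
    Wsq M₁ q hq hqM hq2 (heckeAlphaBar Kbar M₁ q z) = heckeBetaBar Kbar M₁ q (Wq M₁ q hq hqM hq2 z) :=
  Fermat.Agent.S35.helper1219.atkinLehnerHall_mul_heckeAlphaBar M₁ q hqM
    (coprime_level hq hqM hq2) q (coprime_level hq hqM hq2) (sq_dvd_level hqM)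
    (coprime_sq_level hq hqM hq2) z

/-- `W_{q²} ∘ β = α ∘ W_q`. -/
theorem Wsq_beta (z : FN M₁) :
    Wsq M₁ q hq hqM hq2 (heckeBetaBar Kbar M₁ q z) = heckeAlphaBar Kbar M₁ q (Wq M₁ q hq hqM hq2 z) :=
  Fermat.Agent.S35.helper1219.atkinLehnerHall_mul_heckeBetaBar M₁ q hqM
    (coprime_level hq hqM hq2) q (coprime_level hq hqM hq2) (sq_dvd_level hqM)
    (coprime_sq_level hq hqM hq2) z

/-- `α a ∈ v_0 ↔ a ∈ v'_0`. -/
theorem α_mem_zero :
    Deg.MemOver (αK A M₁ q) (Vzero A M₁ q hq hqM hq2) (Vzero' A M₁ q hq hqM hq2) := by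
  intro a
  rw [mem_Vzero, mem_Vzero', lh_αK, Wsq_alpha]
  exact heckeBetaBar_mem_gaussF_iff A _ M₁ q _

/-- `β a ∈ v_0 ↔ a ∈ v'_0`. -/
theorem β_mem_zero :
    Deg.MemOver (βK A M₁ q) (Vzero A M₁ q hq hqM hq2) (Vzero' A M₁ q hq hqM hq2) := by
  intro a
  rw [mem_Vzero, mem_Vzero', lh_βK, Wsq_beta]
  exact heckeAlphaBar_mem_gaussF_iff A _ M₁ q _

/-- `midEmb ζ` is the identity on the `α`-subfield. -/
theorem midEmb_alpha (ζ : Kbarˣ) (hζ : IsPrimitiveRoot (ζ : Kbar) q) (y : FN M₁) :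
    midEmb M₁ q hq hqM hq2 ζ hζ (heckeAlphaBar Kbar M₁ q y) = (y : LaurentSeries Kbar) := by
  have hx : ((heckeAlphaBar Kbar M₁ q y : FN (M₁ * q)) : LaurentSeries Kbar)
      ∈ modularFunctionFieldBar (q * (M₁ / q)) := by
    rw [coe_heckeAlphaBar, Nat.mul_div_cancel' hqM]
    exact y.2
  have h := @Fermat.Agent.S36.helper987.midExp_of_mem q (M₁ / q) (M₁ * q) ⟨hq⟩ (neZero_div hqM) _
    (not_dvd_div hq hqM hq2) (level_eq hqM) ζ hζ (heckeAlphaBar Kbar M₁ q y) hx
  rw [coe_heckeAlphaBar] at h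
  exact h

/-- `α a ∈ v_mid ↔ a ∈ v'_∞` (for every primitive `q`-th root of unity). -/
theorem α_mem_midOf (ζ : Kbarˣ) (hζ : IsPrimitiveRoot (ζ : Kbar) q) :
    Deg.MemOver (αK A M₁ q) (VmidOf A M₁ q hq hqM hq2 ζ hζ) (Vinf' A M₁) := by
  intro a
  unfold Vinf'
  rw [mem_VmidOf, mem_VinfAt, lh_αK, midEmb_alpha, mem_gaussF_iff_coe]

/-- A root of unity lies in every valuation subring. -/
theorem mem_of_pow_eq_one {K : Type*} [Field K] (V : ValuationSubring K) {x : K} {n : ℕ}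
    (hn : 0 < n) (hx : x ^ n = 1) : x ∈ V := by
  rcases V.mem_or_inv_mem x with h | h
  · exact h
  · have hx0 : x ≠ 0 := fun h0 => by
      rw [h0, zero_pow hn.ne'] at hx
      exact zero_ne_one hx
    have e : x = x⁻¹ ^ (n - 1) := by
      have h1 : x ^ (n - 1) * x = 1 := by rw [← pow_succ, Nat.sub_add_cancel hn, hx]
      rw [inv_pow]
      exact eq_inv_of_mul_eq_one_right h1
    rw [e]
    exact pow_mem h _

/-- The Gauss ring is stable under `t ↦ ζ t`, `ζ` a root of unity, in both directions. -/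
theorem rot_mem_gaussRing_iff {L : Type*} [Field L] (V : ValuationSubring L) {k : Type*} [Field k]
    (π : V →+* k) (ζ : Lˣ) {n : ℕ} (hn : 0 < n) (hζ : ζ ^ n = 1) (f : LaurentSeries L) :
    Fermat.Agent.S28.helper328.twist ζ f ∈ gaussRing V π ↔ f ∈ gaussRing V π := by
  have h1 : (ζ : L) ^ n = 1 := by rw [← Units.val_pow_eq_pow_val, hζ, Units.val_one]
  have h2 : ((ζ⁻¹ : Lˣ) : L) ^ n = 1 := by
    rw [← Units.val_pow_eq_pow_val, inv_pow, hζ, inv_one, Units.val_one]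
  have hm : (ζ : L) ∈ V := mem_of_pow_eq_one V hn h1
  have hm' : ((ζ⁻¹ : Lˣ) : L) ∈ V := mem_of_pow_eq_one V hn h2
  let ζV : Vˣ := ⟨⟨(ζ : L), hm⟩, ⟨((ζ⁻¹ : Lˣ) : L), hm'⟩, Subtype.ext (by simp), Subtype.ext (by simp)⟩
  have e1 : Fermat.Agent.S36.helper508.unitL V ζV = ζ := Units.ext rfl
  have e2 : Fermat.Agent.S36.helper508.unitL V ζV⁻¹ = ζ⁻¹ := Units.ext rfl
  constructor
  · intro h
    have h3 := Fermat.Agent.S36.helper508.mem_gaussRing_twist V π ζV⁻¹ h
    rw [e2, Fermat.Agent.S36.helper508.twist_twist, inv_mul_cancel,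
      Fermat.Agent.S36.helper508.twist_one] at h3
    exact h3
  · intro h
    have h3 := Fermat.Agent.S36.helper508.mem_gaussRing_twist V π ζV h
    rw [e1] at h3
    exact h3

/-- **`midEmb ζ ∘ β = rot ζ ∘ W_q`** on `F_{M₁,ℚ̄}`. -/
theorem midEmb_beta (ζ : Kbarˣ) (hζ : IsPrimitiveRoot (ζ : Kbar) q) (y : FN M₁) :
    midEmb M₁ q hq hqM hq2 ζ hζ (heckeBetaBar Kbar M₁ q y)
      = Fermat.Agent.S37.helper5666.rot ζ ((Wq M₁ q hq hqM hq2 y : FN M₁) : LaurentSeries Kbar) := by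
  obtain ⟨M', hM'⟩ := id hqM
  subst hM'
  have hM'0 : M' ≠ 0 := fun h => (NeZero.ne (q * M')) (by rw [h, mul_zero])
  haveI : NeZero M' := ⟨hM'0⟩
  have hcop : Nat.Coprime q M' := by
    have := coprime_level hq hqM hq2
    rwa [Nat.mul_div_cancel_left M' hq.pos] at this
  have hN2 : q * M' * q = q * (q * M') := by ring
  -- the statement for `helper987.midExp` at any presentation `M''` of `M'`
  have key : ∀ (M'' : ℕ) (_ : M'' = M') (i1 : NeZero M'') (h1 : ¬ q ∣ M'')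
      (h2 : q * M' * q = q ^ 2 * M''),
      @Fermat.Agent.S36.helper987.midExp q M'' (q * M' * q) ⟨hq⟩ i1 _ h1 h2 ζ hζ
        (heckeBetaBar Kbar (q * M') q y)
      = Fermat.Agent.S37.helper5666.rot ζ
        ((Fermat.Agent.S35.helper1219.atkinLehnerBar q M' hcop y : FN (q * M')) :
          LaurentSeries Kbar) := by
    intro M'' e i1 h1 h2
    subst e
    haveI : Fact q.Prime := ⟨hq⟩
    have hv : heckeBetaBar Kbar (q * M'') q y = Fermat.Agent.S36.helper987.vHom hN2 y :=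
      Subtype.ext (by rw [Fermat.Agent.S36.helper987.coe_vHom, coe_heckeBetaBar])
    rw [hv]
    exact Fermat.Agent.S36.helper987.midExp_vHom_of_atkinLehner h1 h2 ζ hζ hN2
      ((Fermat.Agent.S35.helper1219.atkinLehnerBar q M'' hcop :
        FN (q * M'') ≃ₐ[Kbar] FN (q * M'')) : FN (q * M'') →+* FN (q * M''))
      (fun c => AlgEquiv.commutes _ c)
      (fun hd => Fermat.Agent.S35.helper1219.atkinLehnerBar_jBarD_cofactor q M'' hcop hd)
      (fun hd => Fermat.Agent.S35.helper1219.atkinLehnerBar_jBarD_mul_cofactor q M'' hcop hd) y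
  have hW : Wq (q * M') q hq hqM hq2 y = Fermat.Agent.S35.helper1219.atkinLehnerBar q M' hcop y :=
    Fermat.Agent.S35.helper1219.atkinLehnerHall_eq_atkinLehnerBar q M' hcop _ _ y
  rw [hW]
  exact key (q * M' / q) (Nat.mul_div_cancel_left M' hq.pos) _ _ _

/-- `β a ∈ v_mid ↔ a ∈ v'_0` (for every primitive `q`-th root of unity). -/
theorem β_mem_midOf (ζ : Kbarˣ) (hζ : IsPrimitiveRoot (ζ : Kbar) q) :
    Deg.MemOver (βK A M₁ q) (VmidOf A M₁ q hq hqM hq2 ζ hζ) (Vzero' A M₁ q hq hqM hq2) := by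
  intro a
  have hζq : ζ ^ q = 1 := Units.ext (by
    rw [Units.val_pow_eq_pow_val, Units.val_one]
    exact hζ.pow_eq_one)
  rw [mem_VmidOf, mem_Vzero', lh_βK, midEmb_beta, Fermat.Agent.S36.helper987.rot_eq_twist,
    rot_mem_gaussRing_iff A _ ζ hq.pos hζq, mem_gaussF_iff_coe]

/-- `β a ∈ v_mid ↔ a ∈ v'_0`. -/
theorem β_mem_mid :
    Deg.MemOver (βK A M₁ q) (Vmid A M₁ q hq hqM hq2) (Vzero' A M₁ q hq hqM hq2) :=
  β_mem_midOf A M₁ q hq hqM hq2 _ _

/-- `α a ∈ v_mid ↔ a ∈ v'_∞`. -/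
theorem α_mem_mid : Deg.MemOver (αK A M₁ q) (Vmid A M₁ q hq hqM hq2) (Vinf' A M₁) :=
  α_mem_midOf A M₁ q hq hqM hq2 _ _

end Tables

/-! ## `x_V`: the base line is a unit at the three vertical valuations -/

section XV

open Fermat.Agent.Lib

/-- `q⁻¹ s`, `s(0) = 1`, is invertible in `ℤ((q))`. -/
theorem exists_lau_inv (s : PowerSeries ℤ) (hs : PowerSeries.constantCoeff s = 1) :
    ∃ sZ : LaurentSeries ℤ, helper3874.lau ℤ s * sZ = 1 := by
  refine ⟨HahnSeries.single 1 1 * helper3874.toL ℤ (s.invOfUnit 1), ?_⟩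
  have h1 : s * s.invOfUnit 1 = 1 := PowerSeries.mul_invOfUnit _ _ (by rw [hs]; rfl)
  have h2 : helper3874.toL ℤ s * helper3874.toL ℤ (s.invOfUnit 1) = 1 := by
    rw [← map_mul, h1, map_one]
  have h3 : (HahnSeries.single (-1 : ℤ) (1 : ℤ) : LaurentSeries ℤ) * HahnSeries.single 1 1 = 1 := by
    rw [HahnSeries.single_mul_single]
    simp
  calc helper3874.lau ℤ s * (HahnSeries.single 1 1 * helper3874.toL ℤ (s.invOfUnit 1))
      = (HahnSeries.single (-1 : ℤ) (1 : ℤ) * HahnSeries.single 1 1)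
          * (helper3874.toL ℤ s * helper3874.toL ℤ (s.invOfUnit 1)) := by
        unfold helper3874.lau
        ring
    _ = 1 := by rw [h2, h3, mul_one]

/-- The base line is an invertible integer series, the same at every level and over every
field. -/
theorem exists_baseLine_series (q : ℕ) : ∃ tZ sZ : LaurentSeries ℤ, tZ * sZ = 1 ∧
    ∀ (K : Type) [Field K] [Algebra ℚ K] (M : ℕ) [NeZero M] (h4 : q ≠ 2 → 4 ∣ M)
      (h9 : q = 2 → 9 ∣ M),
      ((baseLine K M q h4 h9 : ↥(laurentBaseChange K (modularFunctionFieldFull M))) :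
        LaurentSeries K) = coeffMap (Int.castRingHom K) tZ := by
  by_cases h : q = 2
  · obtain ⟨sZ, hsZ⟩ := exists_lau_inv helper3874.T9 helper3874.constantCoeff_T9
    refine ⟨helper3874.t9C ℤ, sZ, hsZ, fun K _ _ M _ h4 h9 => ?_⟩
    rw [baseLine_of_eq K M q h4 h9 h, Fermat.Agent.S37.helper530.coe_t9F,
      helper3874.coeffMap_t9C]
  · obtain ⟨sZ, hsZ⟩ := exists_lau_inv helper3874.T4 helper3874.constantCoeff_T4
    refine ⟨helper3874.t4C ℤ, sZ, hsZ, fun K _ _ M _ h4 h9 => ?_⟩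
    rw [baseLine_of_ne K M q h4 h9 h, Fermat.Agent.S37.helper530.coe_t4F,
      helper3874.coeffMap_t4C]

variable (A : ValuationSubring (AlgebraicClosure ℚ)) (M₁ q : ℕ) [NeZero M₁] [NeZero q]

theorem coe_lh_of_int {N : ℕ} {f : FK A N} {tZ : LaurentSeries ℤ}
    (h : (f : LaurentSeries (KI A)) = coeffMap (Int.castRingHom (KI A)) tZ) :
    ((lh A N f : FN N) : LaurentSeries Kbar) = coeffMap (Int.castRingHom Kbar) tZ := by
  have e : ((lh A N f : FN N) : LaurentSeries Kbar)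
      = coeffMap (algebraMap (KI A) (AlgebraicClosure ℚ)) (f : LaurentSeries (KI A)) := rfl
  rw [e, h, coeffMap_coeffMap]
  exact coeffMap_congr (RingHom.ext_int _ _) tZ

/-- An element of `F_{N,K}` with invertible integral expansion is a unit at `v_∞`. -/
theorem unit_VinfAt_of_int {N : ℕ} {f : FK A N} {tZ sZ : LaurentSeries ℤ} (hts : tZ * sZ = 1)
    (h : (f : LaurentSeries (KI A)) = coeffMap (Int.castRingHom (KI A)) tZ) :
    f ∈ VinfAt A N ∧ f⁻¹ ∈ VinfAt A N := by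
  have h1 := coe_lh_of_int A h
  refine ⟨?_, ?_⟩
  · rw [mem_VinfAt]
    exact Fermat.Agent.S35.helper4640.mem_gaussF_of_coe_eq A _ N h1
  · rw [mem_VinfAt, map_inv₀]
    exact Fermat.Agent.S35.helper4640.mem_gaussF_of_coe_eq A _ N
      (Fermat.Agent.S35.helper4640.coe_inv_eq N hts h1)

variable (hq : q.Prime) (hqM : q ∣ M₁) (hq2 : ¬ q ^ 2 ∣ M₁)

/-- `W_q` is `t ↦ t ^ q` on the functions of level `M₁ / q`. -/
theorem coe_Wq_of_mem (y : FN M₁)
    (hy : (y : LaurentSeries Kbar) ∈ modularFunctionFieldBar (M₁ / q)) :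
    ((Wq M₁ q hq hqM hq2 y : FN M₁) : LaurentSeries Kbar)
      = qExpand Kbar q (y : LaurentSeries Kbar) := by
  obtain ⟨M', hM'⟩ := id hqM
  subst hM'
  have hM'0 : M' ≠ 0 := fun h => (NeZero.ne (q * M')) (by rw [h, mul_zero])
  haveI : NeZero M' := ⟨hM'0⟩
  have hcop : Nat.Coprime q M' := by
    have := coprime_level hq hqM hq2
    rwa [Nat.mul_div_cancel_left M' hq.pos] at this
  rw [Nat.mul_div_cancel_left M' hq.pos] at hy
  have hW : Wq (q * M') q hq hqM hq2 y = Fermat.Agent.S35.helper1219.atkinLehnerBar q M' hcop y :=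
    Fermat.Agent.S35.helper1219.atkinLehnerHall_eq_atkinLehnerBar q M' hcop _ _ y
  rw [hW]
  have hdvd : M' ∣ q * M' := Dvd.intro_left q rfl
  have key : ((Fermat.Agent.S35.helper1219.atkinLehnerBar q M' hcop :
        FN (q * M') ≃ₐ[Kbar] FN (q * M')) : FN (q * M') →+* FN (q * M')).comp
        (Fermat.Agent.S36.helper987.inclHom hdvd)
      = Fermat.Agent.S36.helper987.vHom (rfl : q * M' = q * M') := by
    apply Fermat.Agent.S24.helper3176.ringHom_ext_of_gen
    · intro c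
      rw [RingHom.comp_apply, Fermat.Agent.S36.helper987.inclHom_algebraMap]
      have e1 : ((Fermat.Agent.S35.helper1219.atkinLehnerBar q M' hcop :
          FN (q * M') ≃ₐ[Kbar] FN (q * M')) : FN (q * M') →+* FN (q * M'))
          (algebraMap Kbar (FN (q * M')) c) = algebraMap Kbar (FN (q * M')) c :=
        AlgEquiv.commutes _ c
      rw [e1]
      apply Subtype.ext
      rw [Fermat.Agent.S36.helper987.coe_vHom, Fermat.Agent.S36.helper987.coe_algebraMap_FN,
        Fermat.Agent.S36.helper987.coe_algebraMap_FN, qExpand_C]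
    · intro d _ hd
      haveI : NeZero (q * d) := ⟨Nat.mul_ne_zero hq.ne_zero (NeZero.ne d)⟩
      rw [RingHom.comp_apply]
      have e1 : Fermat.Agent.S36.helper987.inclHom hdvd (Fermat.Agent.S24.helper24.jBarD M' d hd)
          = Fermat.Agent.S24.helper24.jBarD (q * M') d (hd.mul_left q) :=
        Subtype.ext (Fermat.Agent.S36.helper987.coe_inclHom _ _)
      rw [e1]
      have e2 := Fermat.Agent.S35.helper1219.atkinLehnerBar_jBarD_cofactor q M' hcop hd
      refine e2.trans ?_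
      apply Subtype.ext
      rw [Fermat.Agent.S36.helper987.coe_vHom, Fermat.Agent.S24.helper3176.coe_jBarD,
        Fermat.Agent.S24.helper3176.coe_jBarD, Fermat.Agent.S36.helper987.jSeries_mul]
  let z : FN M' := ⟨(y : LaurentSeries Kbar), hy⟩
  have hyz : Fermat.Agent.S36.helper987.inclHom hdvd z = y :=
    Subtype.ext (Fermat.Agent.S36.helper987.coe_inclHom hdvd z)
  have h2 : Fermat.Agent.S35.helper1219.atkinLehnerBar q M' hcop
      (Fermat.Agent.S36.helper987.inclHom hdvd z)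
      = Fermat.Agent.S36.helper987.vHom (rfl : q * M' = q * M') z :=
    congrArg (fun f : FN M' →+* FN (q * M') => f z) key
  rw [hyz] at h2
  rw [h2, Fermat.Agent.S36.helper987.coe_vHom]

include hq hqM in
theorem aux_div_four (haux : AuxOK M₁ q) (h : q ≠ 2) : 4 ∣ M₁ / q := by
  have h4 : 4 ∣ M₁ := haux.1 h
  obtain ⟨m, rfl⟩ := id hqM
  rw [Nat.mul_div_cancel_left m hq.pos]
  have hc2 : Nat.Coprime 2 q := (Nat.coprime_primes Nat.prime_two hq).mpr (Ne.symm h)
  have hc : Nat.Coprime 4 q := by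
    have : Nat.Coprime (2 ^ 2) q := Nat.Coprime.pow_left 2 hc2
    simpa using this
  exact hc.dvd_of_dvd_mul_left h4

include hq hqM in
theorem aux_div_nine (haux : AuxOK M₁ q) (h : q = 2) : 9 ∣ M₁ / q := by
  have h9 : 9 ∣ M₁ := haux.2 h
  obtain ⟨m, rfl⟩ := id hqM
  rw [Nat.mul_div_cancel_left m hq.pos]
  subst h
  have hc : Nat.Coprime 9 2 := by decide
  exact hc.dvd_of_dvd_mul_left h9

variable (haux : AuxOK M₁ q)

/-- `x = α x'`. -/
theorem xK_eq_alpha : xK A M₁ q haux = αK A M₁ q (xK' A M₁ q haux) := by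
  obtain ⟨tZ, sZ, -, hco⟩ := exists_baseLine_series q
  apply Subtype.ext
  rw [coe_heckeAlphaBar]
  unfold xK xK'
  rw [hco, hco]

/-- `x'` is a unit at `v'_∞`. -/
theorem xK'_unit_Vinf' :
    xK' A M₁ q haux ∈ Vinf' A M₁ ∧ (xK' A M₁ q haux)⁻¹ ∈ Vinf' A M₁ := by
  obtain ⟨tZ, sZ, hts, hco⟩ := exists_baseLine_series q
  exact unit_VinfAt_of_int A hts (hco (KI A) M₁ haux.1 haux.2)

/-- `x'` is a unit at `v'_0`. -/
theorem xK'_unit_Vzero' :
    xK' A M₁ q haux ∈ Vzero' A M₁ q hq hqM hq2 ∧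
      (xK' A M₁ q haux)⁻¹ ∈ Vzero' A M₁ q hq hqM hq2 := by
  obtain ⟨tZ, sZ, hts, hco⟩ := exists_baseLine_series q
  have h1 : ((lh A M₁ (xK' A M₁ q haux) : FN M₁) : LaurentSeries Kbar)
      = coeffMap (Int.castRingHom Kbar) tZ :=
    coe_lh_of_int A (hco (KI A) M₁ haux.1 haux.2)
  haveI : NeZero (M₁ / q) := neZero_div hqM
  have hmem : ((lh A M₁ (xK' A M₁ q haux) : FN M₁) : LaurentSeries Kbar)
      ∈ modularFunctionFieldBar (M₁ / q) := by
    rw [h1, ← hco Kbar (M₁ / q) (aux_div_four M₁ q hq hqM haux) (aux_div_nine M₁ q hq hqM haux)]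
    exact (baseLine Kbar (M₁ / q) q (aux_div_four M₁ q hq hqM haux)
      (aux_div_nine M₁ q hq hqM haux)).2
  have h2 : ((Wq M₁ q hq hqM hq2 (lh A M₁ (xK' A M₁ q haux)) : FN M₁) : LaurentSeries Kbar)
      = coeffMap (Int.castRingHom Kbar) (qExpand ℤ q tZ) := by
    rw [coe_Wq_of_mem M₁ q hq hqM hq2 _ hmem, h1, ModularCurve.coeffMap_qExpand]
  have hts' : qExpand ℤ q tZ * qExpand ℤ q sZ = 1 :=
    Fermat.Agent.S35.helper4640.qExpand_mul_eq_one q hts
  refine ⟨?_, ?_⟩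
  · rw [mem_Vzero']
    exact Fermat.Agent.S35.helper4640.mem_gaussF_of_coe_eq A _ M₁ h2
  · rw [mem_Vzero', map_inv₀, map_inv₀]
    exact Fermat.Agent.S35.helper4640.mem_gaussF_of_coe_eq A _ M₁
      (Fermat.Agent.S35.helper4640.coe_inv_eq M₁ hts' h2)

/-- **`x_V`**: the base line is a unit at the three vertical valuations. -/
theorem x_V (c : Fin 3) : xK A M₁ q haux ∈ VK A M₁ q hq hqM hq2 c ∧
    (xK A M₁ q haux)⁻¹ ∈ VK A M₁ q hq hqM hq2 c := by
  have hi := xK'_unit_Vinf' A M₁ q haux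
  have hz := xK'_unit_Vzero' A M₁ q hq hqM hq2 haux
  rw [xK_eq_alpha, ← map_inv₀]
  fin_cases c
  · exact ⟨(α_mem_inf A M₁ q _).mpr hi.1, (α_mem_inf A M₁ q _).mpr hi.2⟩
  · exact ⟨(α_mem_mid A M₁ q hq hqM hq2 _).mpr hi.1, (α_mem_mid A M₁ q hq hqM hq2 _).mpr hi.2⟩
  · exact ⟨(α_mem_zero A M₁ q hq hqM hq2 _).mpr hz.1, (α_mem_zero A M₁ q hq hqM hq2 _).mpr hz.2⟩

end XV

end Fermat.Agent.S36.helper405
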