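import Mathlib
import Fermat.Agent.S36.helper1013_Vertical

/-!
# S36-KVAL, part A (helper3953): integer order functions of discrete valuation subrings

`F` a field, `V : ValuationSubring F`, `ϖ : F`.  `IsUnifOf V ϖ` says that `ϖ` is a uniformiser of
`V` in the strong (discrete) sense: every nonzero element of `F` is `ϖ ^ k` times a unit of `V`.
Then `ordOf V ϖ : F → ℤ` is the normalised order function of `V`:

* `IsUnifOf.isOrd`            : it is an order function in the sense of `helper1013.IsOrd`;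
* `IsUnifOf.mem_iff`          : `x ∈ V ↔ 0 ≤ ordOf V ϖ x` (`x ≠ 0`);
* `IsUnifOf.mem_nonunits_iff` : `x ∈ V.nonunits ↔ 0 < ordOf V ϖ x` (`x ≠ 0`);
* `IsUnifOf.ordOf_eq_zero_iff`: `ordOf V ϖ x = 0 ↔ x ∈ V ∧ x⁻¹ ∈ V` (`x ≠ 0`);
* `IsUnifOf.ordOf_unif`       : `ordOf V ϖ ϖ = 1`;
* `IsUnifOf.ordOf_eq`         : `x * ϖ ^ (-k)` a unit of `V` gives `ordOf V ϖ x = k`
  (ramified uniformiser `T` with `T ^ (q - 1) = q * unit`: `ordOf V T q = q - 1`);
* `IsUnifOf.comap_equiv`, `ordOf_comap_equiv` : transport along a field automorphism fixing `ϖ`;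
* `IsUnifOf.ordOf_comap` : restriction to a subfield;
* `IsUnifOf.exists_sep` : two distinct such valuation subrings are separated by an element
  (`ord_ind` of `helper36.KillData`);
* `IsUnifOf.valuation_eq` / `IsUnifOf.of_valuation` : the dictionary with `V.valuation`.

These are the shapes of the fields `hord`, `mem_V`, `ord_q*`, `ord_surj`, `ord_ind` of
`helper36.KillData` (and of the primed fields at level `q M''`).
-/

set_option autoImplicit false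

namespace Fermat.Agent.S36.helper3953

open Fermat.Agent.S36.helper1013 (IsOrd)

section Abstract

variable {F : Type*} [Field F]

/-- `ϖ` is a uniformiser of the valuation subring `V` in the strong (discrete) sense:
every nonzero element is `ϖ ^ k` times a unit of `V`. -/
structure IsUnifOf (V : ValuationSubring F) (ϖ : F) : Prop where
  ne_zero : ϖ ≠ 0
  mem : ϖ ∈ V
  inv_not_mem : ϖ⁻¹ ∉ V
  exists_zpow : ∀ x : F, x ≠ 0 → ∃ k : ℤ, x * ϖ ^ (-k) ∈ V ∧ (x * ϖ ^ (-k))⁻¹ ∈ V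

/-- The normalised order function of `V` with respect to the uniformiser `ϖ`
(`0` at `0`, and junk `0` if `ϖ` is not a uniformiser). -/
noncomputable def ordOf (V : ValuationSubring F) (ϖ : F) (x : F) : ℤ :=
  open Classical in
  if h : x ≠ 0 ∧ ∃ k : ℤ, x * ϖ ^ (-k) ∈ V ∧ (x * ϖ ^ (-k))⁻¹ ∈ V then Classical.choose h.2
  else 0

@[simp]
theorem ordOf_zero (V : ValuationSubring F) (ϖ : F) : ordOf V ϖ 0 = 0 := by
  unfold ordOf
  rw [dif_neg]
  exact fun h => h.1 rfl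

/-- A nonzero element has valuation one iff it and its inverse lie in the valuation subring. -/
theorem valuation_eq_one_iff {V : ValuationSubring F} {y : F} (hy : y ≠ 0) :
    V.valuation y = 1 ↔ y ∈ V ∧ y⁻¹ ∈ V := by
  have hpos : 0 < V.valuation y := zero_lt_iff.mpr ((Valuation.ne_zero_iff _).mpr hy)
  constructor
  · intro h
    refine ⟨(ValuationSubring.valuation_le_one_iff V y).mp h.le, ?_⟩
    rw [← ValuationSubring.valuation_le_one_iff, map_inv₀, h, inv_one]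
  · rintro ⟨h1, h2⟩
    have h1' := (ValuationSubring.valuation_le_one_iff V y).mpr h1
    have h2' := (ValuationSubring.valuation_le_one_iff V y⁻¹).mpr h2
    rw [map_inv₀, inv_le_one₀ hpos] at h2'
    exact le_antisymm h1' h2'

/-- `x * ϖ ^ (-k)` is a unit of `V` iff `v x = v ϖ ^ k`. -/
theorem unit_zpow_iff {V : ValuationSubring F} {ϖ x : F} (hϖ : ϖ ≠ 0) (hx : x ≠ 0) (k : ℤ) :
    (x * ϖ ^ (-k) ∈ V ∧ (x * ϖ ^ (-k))⁻¹ ∈ V) ↔ V.valuation x = V.valuation ϖ ^ k := by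
  have hv : V.valuation ϖ ≠ 0 := (Valuation.ne_zero_iff _).mpr hϖ
  rw [← valuation_eq_one_iff (mul_ne_zero hx (zpow_ne_zero _ hϖ)), map_mul, map_zpow₀, zpow_neg,
    mul_inv_eq_one₀ (zpow_ne_zero _ hv)]

namespace IsUnifOf

variable {V : ValuationSubring F} {ϖ : F}

theorem val_pos (h : IsUnifOf V ϖ) : 0 < V.valuation ϖ :=
  zero_lt_iff.mpr ((Valuation.ne_zero_iff _).mpr h.ne_zero)

theorem val_lt_one (h : IsUnifOf V ϖ) : V.valuation ϖ < 1 := by
  by_contra hlt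
  rw [not_lt] at hlt
  apply h.inv_not_mem
  rw [← ValuationSubring.valuation_le_one_iff, map_inv₀, inv_le_one₀ h.val_pos]
  exact hlt

theorem strictAnti (h : IsUnifOf V ϖ) : StrictAnti fun k : ℤ => V.valuation ϖ ^ k :=
  zpow_right_strictAnti₀ h.val_pos h.val_lt_one

theorem zpow_le_zpow_iff (h : IsUnifOf V ϖ) {m n : ℤ} :
    V.valuation ϖ ^ m ≤ V.valuation ϖ ^ n ↔ n ≤ m :=
  h.strictAnti.le_iff_ge

theorem zpow_lt_zpow_iff (h : IsUnifOf V ϖ) {m n : ℤ} :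
    V.valuation ϖ ^ m < V.valuation ϖ ^ n ↔ n < m :=
  h.strictAnti.lt_iff_gt

theorem zpow_inj (h : IsUnifOf V ϖ) {m n : ℤ} :
    V.valuation ϖ ^ m = V.valuation ϖ ^ n ↔ m = n :=
  h.strictAnti.injective.eq_iff

/-- The defining property of `ordOf`. -/
theorem valuation_eq (h : IsUnifOf V ϖ) {x : F} (hx : x ≠ 0) :
    V.valuation x = V.valuation ϖ ^ ordOf V ϖ x := by
  have hex := h.exists_zpow x hx
  have hd : ordOf V ϖ x = Classical.choose hex := by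
    unfold ordOf
    rw [dif_pos ⟨hx, hex⟩]
  rw [hd]
  exact (unit_zpow_iff h.ne_zero hx _).mp (Classical.choose_spec hex)

theorem ordOf_eq_iff (h : IsUnifOf V ϖ) {x : F} (hx : x ≠ 0) (k : ℤ) :
    ordOf V ϖ x = k ↔ V.valuation x = V.valuation ϖ ^ k := by
  rw [h.valuation_eq hx, h.zpow_inj]

/-- `x = ϖ ^ k * unit` gives `ordOf V ϖ x = k`. -/
theorem ordOf_eq (h : IsUnifOf V ϖ) {x : F} (hx : x ≠ 0) {k : ℤ} (h1 : x * ϖ ^ (-k) ∈ V)
    (h2 : (x * ϖ ^ (-k))⁻¹ ∈ V) : ordOf V ϖ x = k :=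
  (h.ordOf_eq_iff hx k).mpr ((unit_zpow_iff h.ne_zero hx k).mp ⟨h1, h2⟩)

theorem ordOf_spec (h : IsUnifOf V ϖ) {x : F} (hx : x ≠ 0) :
    x * ϖ ^ (-ordOf V ϖ x) ∈ V ∧ (x * ϖ ^ (-ordOf V ϖ x))⁻¹ ∈ V :=
  (unit_zpow_iff h.ne_zero hx _).mpr (h.valuation_eq hx)

/-- `ordOf V ϖ` is a normalised discrete order function. -/
theorem isOrd (h : IsUnifOf V ϖ) : IsOrd (ordOf V ϖ) where
  map_mul x y hx hy := by
    rw [h.ordOf_eq_iff (mul_ne_zero hx hy), map_mul, h.valuation_eq hx, h.valuation_eq hy,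
      zpow_add₀ (ne_of_gt h.val_pos)]
  map_add x y hx hy hxy := by
    have hle := V.valuation.map_add x y
    rw [h.valuation_eq hx, h.valuation_eq hy, h.valuation_eq hxy] at hle
    rcases le_max_iff.mp hle with h1 | h1
    · exact (min_le_left _ _).trans (h.zpow_le_zpow_iff.mp h1)
    · exact (min_le_right _ _).trans (h.zpow_le_zpow_iff.mp h1)

theorem mem_iff (h : IsUnifOf V ϖ) {x : F} (hx : x ≠ 0) : x ∈ V ↔ 0 ≤ ordOf V ϖ x := by
  rw [← ValuationSubring.valuation_le_one_iff, h.valuation_eq hx, ← zpow_zero (V.valuation ϖ),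
    h.zpow_le_zpow_iff]

theorem mem_nonunits_iff (h : IsUnifOf V ϖ) {x : F} (hx : x ≠ 0) :
    x ∈ V.nonunits ↔ 0 < ordOf V ϖ x := by
  rw [ValuationSubring.mem_nonunits_iff, h.valuation_eq hx, ← zpow_zero (V.valuation ϖ),
    h.zpow_lt_zpow_iff]

theorem ordOf_eq_zero_iff (h : IsUnifOf V ϖ) {x : F} (hx : x ≠ 0) :
    ordOf V ϖ x = 0 ↔ x ∈ V ∧ x⁻¹ ∈ V := by
  rw [h.ordOf_eq_iff hx, zpow_zero, valuation_eq_one_iff hx]

theorem ordOf_unif (h : IsUnifOf V ϖ) : ordOf V ϖ ϖ = 1 := by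
  rw [h.ordOf_eq_iff h.ne_zero, zpow_one]

theorem ordOf_zpow_unif (h : IsUnifOf V ϖ) (k : ℤ) : ordOf V ϖ (ϖ ^ k) = k := by
  rw [h.ordOf_eq_iff (zpow_ne_zero _ h.ne_zero), map_zpow₀]

/-- Surjectivity (`ord_surj` of `KillData`). -/
theorem exists_ordOf_eq_one (h : IsUnifOf V ϖ) : ∃ y : F, y ≠ 0 ∧ ordOf V ϖ y = 1 :=
  ⟨ϖ, h.ne_zero, h.ordOf_unif⟩

/-- Construction from the valuation. -/
theorem of_valuation (hϖ : ϖ ≠ 0) (hlt : V.valuation ϖ < 1)
    (hex : ∀ x : F, x ≠ 0 → ∃ k : ℤ, V.valuation x = V.valuation ϖ ^ k) : IsUnifOf V ϖ where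
  ne_zero := hϖ
  mem := (ValuationSubring.valuation_le_one_iff V ϖ).mp hlt.le
  inv_not_mem := by
    intro hmem
    have h1 := (ValuationSubring.valuation_le_one_iff V ϖ⁻¹).mpr hmem
    rw [map_inv₀, inv_le_one₀ (zero_lt_iff.mpr ((Valuation.ne_zero_iff _).mpr hϖ))] at h1
    exact absurd hlt (not_lt.mpr h1)
  exists_zpow x hx := by
    obtain ⟨k, hk⟩ := hex x hx
    exact ⟨k, (unit_zpow_iff hϖ hx k).mpr hk⟩

/-- Transport along a field automorphism fixing the uniformiser. -/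
theorem comap_equiv (h : IsUnifOf V ϖ) (W : F ≃+* F) (hW : W ϖ = ϖ) :
    IsUnifOf (V.comap (W : F →+* F)) ϖ where
  ne_zero := h.ne_zero
  mem := by
    show W ϖ ∈ V
    rw [hW]
    exact h.mem
  inv_not_mem := by
    show ¬ W ϖ⁻¹ ∈ V
    rw [map_inv₀, hW]
    exact h.inv_not_mem
  exists_zpow x hx := by
    have hWx : W x ≠ 0 := (map_ne_zero_iff W W.injective).mpr hx
    obtain ⟨k, h1, h2⟩ := h.exists_zpow (W x) hWx
    refine ⟨k, ?_, ?_⟩
    · show W (x * ϖ ^ (-k)) ∈ V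
      rw [map_mul, map_zpow₀, hW]
      exact h1
    · show W (x * ϖ ^ (-k))⁻¹ ∈ V
      rw [map_inv₀, map_mul, map_zpow₀, hW]
      exact h2

theorem ordOf_comap_equiv (h : IsUnifOf V ϖ) (W : F ≃+* F) (hW : W ϖ = ϖ) (x : F) :
    ordOf (V.comap (W : F →+* F)) ϖ x = ordOf V ϖ (W x) := by
  by_cases hx : x = 0
  · subst hx
    simp
  have hWx : W x ≠ 0 := (map_ne_zero_iff W W.injective).mpr hx
  obtain ⟨h1, h2⟩ := h.ordOf_spec hWx
  refine (h.comap_equiv W hW).ordOf_eq hx ?_ ?_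
  · show W (x * ϖ ^ (-ordOf V ϖ (W x))) ∈ V
    rw [map_mul, map_zpow₀, hW]
    exact h1
  · show W (x * ϖ ^ (-ordOf V ϖ (W x)))⁻¹ ∈ V
    rw [map_inv₀, map_mul, map_zpow₀, hW]
    exact h2

/-- Restriction to a subfield: if the restriction is again discrete with uniformiser `ϖ₀`
mapping to `ϖ`, the order functions agree. -/
theorem ordOf_comap {F₀ : Type*} [Field F₀] (ι : F₀ →+* F) {ϖ₀ : F₀}
    (h₀ : IsUnifOf (V.comap ι) ϖ₀) (h : IsUnifOf V (ι ϖ₀)) (x : F₀) :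
    ordOf (V.comap ι) ϖ₀ x = ordOf V (ι ϖ₀) (ι x) := by
  by_cases hx : x = 0
  · subst hx
    simp
  have hιx : ι x ≠ 0 := (map_ne_zero_iff ι ι.injective).mpr hx
  obtain ⟨h1, h2⟩ := h₀.ordOf_spec hx
  symm
  refine h.ordOf_eq hιx ?_ ?_
  · have : ι (x * ϖ₀ ^ (-ordOf (V.comap ι) ϖ₀ x)) ∈ V := h1
    rwa [map_mul, map_zpow₀] at this
  · have : ι (x * ϖ₀ ^ (-ordOf (V.comap ι) ϖ₀ x))⁻¹ ∈ V := h2
    rwa [map_inv₀, map_mul, map_zpow₀] at this

/-- Two distinct discrete valuation subrings are separated by an element (`ord_ind`). -/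
theorem exists_sep {V' : ValuationSubring F} {ϖ' : F} (h : IsUnifOf V ϖ) (h' : IsUnifOf V' ϖ')
    (hne : V ≠ V') : ∃ y : F, y ≠ 0 ∧ 0 ≤ ordOf V ϖ y ∧ ordOf V' ϖ' y < 0 := by
  by_contra hcon
  push Not at hcon
  -- `V ≤ V'`
  have hle : ∀ y : F, y ∈ V → y ∈ V' := by
    intro y hy
    by_cases hy0 : y = 0
    · subst hy0
      exact V'.zero_mem
    exact (h'.mem_iff hy0).mpr (hcon y hy0 ((h.mem_iff hy0).mp hy))
  apply hne
  refine le_antisymm (fun y hy => hle y hy) ?_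
  intro y hy
  by_contra hyV
  have hy0 : y ≠ 0 := by
    rintro rfl
    exact hyV V.zero_mem
  -- `a := -ord y > 0`, `b := ord ϖ' > 0`
  have ha : ordOf V ϖ y < 0 := by
    by_contra hnn
    exact hyV ((h.mem_iff hy0).mpr (not_lt.mp hnn))
  have hb : 0 < ordOf V ϖ ϖ' := by
    by_contra hnp
    rw [not_lt] at hnp
    -- then `ϖ'⁻¹ ∈ V ≤ V'`
    apply h'.inv_not_mem
    apply hle
    rw [h.mem_iff (inv_ne_zero h'.ne_zero), h.isOrd.map_inv h'.ne_zero]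
    omega
  have hyj : 0 ≤ ordOf V' ϖ' y := (h'.mem_iff hy0).mp hy
  -- `z = y ^ b * ϖ' ^ a'` with `a' = - ord y`
  set a : ℤ := -ordOf V ϖ y with ha_def
  set b : ℤ := ordOf V ϖ ϖ' with hb_def
  have hz0 : y ^ b * ϖ' ^ a ≠ 0 := mul_ne_zero (zpow_ne_zero _ hy0) (zpow_ne_zero _ h'.ne_zero)
  have hz1 : ordOf V ϖ (y ^ b * ϖ' ^ a) = 0 := by
    rw [h.isOrd.map_mul _ _ (zpow_ne_zero _ hy0) (zpow_ne_zero _ h'.ne_zero),
      h.isOrd.map_zpow hy0, h.isOrd.map_zpow h'.ne_zero]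
    rw [ha_def, hb_def]
    ring
  have hz2 : 0 < ordOf V' ϖ' (y ^ b * ϖ' ^ a) := by
    rw [h'.isOrd.map_mul _ _ (zpow_ne_zero _ hy0) (zpow_ne_zero _ h'.ne_zero),
      h'.isOrd.map_zpow hy0, h'.isOrd.map_zpow h'.ne_zero, h'.ordOf_unif]
    have hapos : 0 < a := by rw [ha_def]; omega
    have : 0 ≤ b * ordOf V' ϖ' y := mul_nonneg hb.le hyj
    linarith
  have hinv : (y ^ b * ϖ' ^ a)⁻¹ ∈ V := ((h.ordOf_eq_zero_iff hz0).mp hz1).2
  have hinv' : (y ^ b * ϖ' ^ a)⁻¹ ∈ V' := hle _ hinv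
  rw [h'.mem_iff (inv_ne_zero hz0), h'.isOrd.map_inv hz0] at hinv'
  omega

end IsUnifOf

end Abstract

end Fermat.Agent.S36.helper3953
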