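import Mathlib
import Fermat.Agent.S18.helper8991_GaussInst
import Fermat.Agent.S37.helper5651_FFK
import Fermat.Agent.S36.helper3953_OrdOf

/-!
# S36-KVAL, part B (helper3953): the Gauss valuation over a discretely valued coefficient field

`L` a field with `[Algebra ℚ L]`, `O : ValuationSubring L`, `ϖ : L` a uniformiser of `O` in the
strong sense (`IsUnifOf O ϖ`; for `L = K = ℚ̄^I`, `O = A ∩ K`, `ϖ = q` this is BASEK).
`FL L N := laurentBaseChange L (modularFunctionFieldFull N)` (`= FN N` for `L = ℚ̄`),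
`gaussK O N := helper8991.gaussF O (residue O) N` its Gauss valuation subring (expansions at `∞`).

* `isUnifOf_gaussK`  : `ϖ` is a uniformiser of `gaussK O N`: the Gauss valuation of `FL L N` is
  DISCRETE with the same uniformiser (`e = 1` over the constants);
* `gaussOrd O ϖ N : FL L N → ℤ` its normalised order function; `isOrd_gaussOrd`,
  `mem_gaussK_iff_gaussOrd`, `gaussOrd_algebraMap`, `gaussOrd_unif`, `gaussOrd_natCast`,
  `gaussOrd_algebraMap_eq_zero` (the fields `hord'`, `mem_V'`, `ord'_q`, `ord'_unit` of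
  `helper36.KillData` for the component `∞`);
* `isUnifOf_gaussK_comap`, `gaussOrdW` : the same for `(gaussK O N).comap W`, `W` any
  `L`-algebra automorphism of `FL L N` (the component `0`, `W` = Atkin–Lehner), with
  `gaussOrdW_algebraMap` (`ord'_const`);
* `comap_layerHom_gaussF` : for `ι : K →+* L'`, `A' : ValuationSubring L'`, `O = A'.comap ι`:
  `(gaussF A' _ N).comap (layerHom ι) = gaussF O _ N` — the Gauss ring over `(K, O)` is the
  restriction of the Gauss ring over `(ℚ̄, A)`, so every table proved over `(ℚ̄, A)` restricts.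
-/

set_option autoImplicit false
set_option linter.unusedSectionVars false

open ModularCurve

noncomputable section

namespace Fermat.Agent.S36.helper3953

open Fermat.Agent.S18 Fermat.Agent.S37
open Fermat.Agent.S36.helper1013 (IsOrd)

/-- The function field `F_{N,L} = L(X₀(N))` in its `q`-expansion model. -/
abbrev FL (L : Type*) [Field L] [Algebra ℚ L] (N : ℕ) : Type _ :=
  ↥(laurentBaseChange L (modularFunctionFieldFull N))

section Gauss

variable {L : Type*} [Field L] [Algebra ℚ L] (O : ValuationSubring L) (N : ℕ)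

/-- The Gauss valuation subring of `F_{N,L}` attached to `O` (expansions at `∞`). -/
abbrev gaussK : ValuationSubring (FL L N) :=
  helper8991.gaussF O (IsLocalRing.residue O) N

theorem residue_eq_zero_of_mem (a : O) (ha : a ∈ IsLocalRing.maximalIdeal O) :
    IsLocalRing.residue O a = 0 :=
  (IsLocalRing.residue_eq_zero_iff a).mpr ha

theorem algebraMap_mem_gaussK_iff (c : L) : algebraMap L (FL L N) c ∈ gaussK O N ↔ c ∈ O :=
  helper8991.algebraMap_mem_gaussF_iff O (IsLocalRing.residue O) N (residue_eq_zero_of_mem O) c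

/-- The restriction of the Gauss valuation subring to the constants is `O`. -/
theorem comap_algebraMap_gaussK : (gaussK O N).comap (algebraMap L (FL L N)) = O := by
  ext c
  exact algebraMap_mem_gaussK_iff O N c

/-- Elements of the Gauss ring with nonzero reduction are units: the inverse is in the ring. -/
theorem inv_mem_gaussK_of_red_ne_zero (u : ↥(gaussK O N))
    (hu : helper8991.gaussFRed O (IsLocalRing.residue O) N u ≠ 0) :
    ((u : FL L N))⁻¹ ∈ gaussK O N := by
  have hunit : IsUnit u := (helper8991.isUnit_iff_gaussFRed_ne_zero O _ N u).mpr hu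
  obtain ⟨w, hw⟩ := hunit.exists_right_inv
  have h1 : (u : FL L N) * (w : FL L N) = 1 := congrArg Subtype.val hw
  have h2 : ((u : FL L N))⁻¹ = (w : FL L N) := by
    rw [inv_eq_of_mul_eq_one_right h1]
  rw [h2]
  exact w.2

variable {O}

/-- **The Gauss valuation is discrete with the uniformiser of the constants.** -/
theorem isUnifOf_gaussK {ϖ : L} (h : IsUnifOf O ϖ) :
    IsUnifOf (gaussK O N) (algebraMap L (FL L N) ϖ) where
  ne_zero := (map_ne_zero_iff _ (algebraMap L (FL L N)).injective).mpr h.ne_zero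
  mem := (algebraMap_mem_gaussK_iff O N ϖ).mpr h.mem
  inv_not_mem := by
    rw [← map_inv₀, algebraMap_mem_gaussK_iff]
    exact h.inv_not_mem
  exists_zpow x hx := by
    obtain ⟨c, u, hc, hu, rfl⟩ :=
      helper8991.exists_const_mul_unit_F O (IsLocalRing.residue O) N x hx
    obtain ⟨k, h1, h2⟩ := h.exists_zpow c hc
    have e1 : algebraMap L (FL L N) c * (u : FL L N) * algebraMap L (FL L N) ϖ ^ (-k)
        = algebraMap L (FL L N) (c * ϖ ^ (-k)) * (u : FL L N) := by
      rw [map_mul, map_zpow₀]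
      ring
    refine ⟨k, ?_, ?_⟩
    · rw [e1]
      exact (gaussK O N).mul_mem _ _ ((algebraMap_mem_gaussK_iff O N _).mpr h1) u.2
    · rw [e1, mul_inv, ← map_inv₀]
      exact (gaussK O N).mul_mem _ _ ((algebraMap_mem_gaussK_iff O N _).mpr h2)
        (inv_mem_gaussK_of_red_ne_zero O N u hu)

variable (O)

/-- The normalised order function of the Gauss valuation of `F_{N,L}`. -/
def gaussOrd (ϖ : L) : FL L N → ℤ :=
  ordOf (gaussK O N) (algebraMap L (FL L N) ϖ)

variable {O}

theorem isOrd_gaussOrd {ϖ : L} (h : IsUnifOf O ϖ) : IsOrd (gaussOrd O N ϖ) :=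
  (isUnifOf_gaussK N h).isOrd

theorem mem_gaussK_iff_gaussOrd {ϖ : L} (h : IsUnifOf O ϖ) {x : FL L N} (hx : x ≠ 0) :
    x ∈ gaussK O N ↔ 0 ≤ gaussOrd O N ϖ x :=
  (isUnifOf_gaussK N h).mem_iff hx

theorem mem_nonunits_gaussK_iff_gaussOrd {ϖ : L} (h : IsUnifOf O ϖ) {x : FL L N} (hx : x ≠ 0) :
    x ∈ (gaussK O N).nonunits ↔ 0 < gaussOrd O N ϖ x :=
  (isUnifOf_gaussK N h).mem_nonunits_iff hx

theorem gaussOrd_eq_zero_iff {ϖ : L} (h : IsUnifOf O ϖ) {x : FL L N} (hx : x ≠ 0) :
    gaussOrd O N ϖ x = 0 ↔ x ∈ gaussK O N ∧ x⁻¹ ∈ gaussK O N :=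
  (isUnifOf_gaussK N h).ordOf_eq_zero_iff hx

/-- On the constants the Gauss order is the order of `O`. -/
theorem gaussOrd_algebraMap {ϖ : L} (h : IsUnifOf O ϖ) (c : L) :
    gaussOrd O N ϖ (algebraMap L (FL L N) c) = ordOf O ϖ c := by
  by_cases hc : c = 0
  · subst hc
    simp [gaussOrd]
  have hc' : algebraMap L (FL L N) c ≠ 0 :=
    (map_ne_zero_iff _ (algebraMap L (FL L N)).injective).mpr hc
  obtain ⟨h1, h2⟩ := h.ordOf_spec hc
  refine (isUnifOf_gaussK N h).ordOf_eq hc' ?_ ?_
  · rw [← map_zpow₀, ← map_mul, algebraMap_mem_gaussK_iff]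
    exact h1
  · rw [← map_zpow₀, ← map_mul, ← map_inv₀, algebraMap_mem_gaussK_iff]
    exact h2

theorem gaussOrd_unif {ϖ : L} (h : IsUnifOf O ϖ) :
    gaussOrd O N ϖ (algebraMap L (FL L N) ϖ) = 1 :=
  (isUnifOf_gaussK N h).ordOf_unif

/-- `ord'_q` of `KillData`: the prime number `q` has Gauss order one when it is a uniformiser
of the constants. -/
theorem gaussOrd_natCast {q : ℕ} (h : IsUnifOf O (q : L)) :
    gaussOrd O N (q : L) ((q : ℕ) : FL L N) = 1 := by
  have := gaussOrd_unif N h
  rwa [map_natCast] at this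

/-- `ord'_unit` of `KillData`. -/
theorem gaussOrd_algebraMap_eq_zero {ϖ : L} (h : IsUnifOf O ϖ) {a : L} (ha : a ≠ 0)
    (h0 : gaussOrd O N ϖ (algebraMap L (FL L N) a) = 0) : a ∈ O ∧ a⁻¹ ∈ O := by
  rw [gaussOrd_algebraMap N h] at h0
  exact (h.ordOf_eq_zero_iff ha).mp h0

/-! ### The second Gauss ring `(gaussK O N).comap W` -/

section Twist

variable (W : FL L N ≃ₐ[L] FL L N)

variable (O) in
/-- The Gauss valuation subring twisted by an `L`-automorphism `W` (`W` = Atkin–Lehner: the
component `0`). -/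
abbrev gaussKW : ValuationSubring (FL L N) :=
  (gaussK O N).comap ((W : FL L N ≃+* FL L N) : FL L N →+* FL L N)

theorem mem_gaussKW_iff (x : FL L N) : x ∈ gaussKW O N W ↔ W x ∈ gaussK O N := Iff.rfl

theorem isUnifOf_gaussKW {ϖ : L} (h : IsUnifOf O ϖ) :
    IsUnifOf (gaussKW O N W) (algebraMap L (FL L N) ϖ) :=
  (isUnifOf_gaussK N h).comap_equiv (W : FL L N ≃+* FL L N) (W.commutes ϖ)

variable (O) in
/-- The normalised order function of the twisted Gauss valuation. -/
def gaussOrdW (ϖ : L) : FL L N → ℤ :=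
  ordOf (gaussKW O N W) (algebraMap L (FL L N) ϖ)

theorem gaussOrdW_apply {ϖ : L} (h : IsUnifOf O ϖ) (x : FL L N) :
    gaussOrdW O N W ϖ x = gaussOrd O N ϖ (W x) :=
  (isUnifOf_gaussK N h).ordOf_comap_equiv (W : FL L N ≃+* FL L N) (W.commutes ϖ) x

theorem isOrd_gaussOrdW {ϖ : L} (h : IsUnifOf O ϖ) : IsOrd (gaussOrdW O N W ϖ) :=
  (isUnifOf_gaussKW N W h).isOrd

theorem mem_gaussKW_iff_gaussOrdW {ϖ : L} (h : IsUnifOf O ϖ) {x : FL L N} (hx : x ≠ 0) :
    x ∈ gaussKW O N W ↔ 0 ≤ gaussOrdW O N W ϖ x :=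
  (isUnifOf_gaussKW N W h).mem_iff hx

/-- `ord'_const` of `KillData`: both Gauss orders agree on the constants. -/
theorem gaussOrdW_algebraMap {ϖ : L} (h : IsUnifOf O ϖ) (c : L) :
    gaussOrdW O N W ϖ (algebraMap L (FL L N) c) = gaussOrd O N ϖ (algebraMap L (FL L N) c) := by
  rw [gaussOrdW_apply N W h, AlgEquiv.commutes]

theorem gaussOrdW_natCast {q : ℕ} (h : IsUnifOf O (q : L)) :
    gaussOrdW O N W (q : L) ((q : ℕ) : FL L N) = 1 := by
  rw [gaussOrdW_apply N W h, map_natCast]
  exact gaussOrd_natCast N h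

/-- `ord_ind` of `KillData` for the pair `(∞, 0)`: distinct Gauss rings are separated. -/
theorem exists_sep_gauss {ϖ : L} (h : IsUnifOf O ϖ) (hne : gaussK O N ≠ gaussKW O N W) :
    (∃ y : FL L N, y ≠ 0 ∧ 0 ≤ gaussOrd O N ϖ y ∧ gaussOrdW O N W ϖ y < 0) ∧
    (∃ y : FL L N, y ≠ 0 ∧ 0 ≤ gaussOrdW O N W ϖ y ∧ gaussOrd O N ϖ y < 0) :=
  ⟨(isUnifOf_gaussK N h).exists_sep (isUnifOf_gaussKW N W h) hne,
    (isUnifOf_gaussKW N W h).exists_sep (isUnifOf_gaussK N h) (Ne.symm hne)⟩

end Twist

end Gauss

/-! ### Restriction of the Gauss ring along an extension of the coefficient field -/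

section Restrict

variable {K L : Type*} [Field K] [Field L] [Algebra ℚ K] [Algebra ℚ L] (ι : K →+* L)
  (A : ValuationSubring L) (N : ℕ)

/-- The restriction of `ι : K →+* L` to the valuation subrings `A.comap ι → A`. -/
def restrictVal : ↥(A.comap ι) →+* ↥A where
  toFun a := ⟨ι (a : K), a.2⟩
  map_one' := Subtype.ext (map_one ι)
  map_mul' _ _ := Subtype.ext (map_mul ι _ _)
  map_zero' := Subtype.ext (map_zero ι)
  map_add' _ _ := Subtype.ext (map_add ι _ _)

theorem coe_restrictVal (a : ↥(A.comap ι)) : (restrictVal ι A a : L) = ι (a : K) := rfl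

theorem inc_coeffMap_restrictVal (X : LaurentSeries ↥(A.comap ι)) :
    helper8991.inc A (coeffMap (restrictVal ι A) X) = coeffMap ι (helper8991.inc (A.comap ι) X) := by
  ext n
  rfl

theorem red_coeffMap_restrictVal_ne_zero {Y : LaurentSeries ↥(A.comap ι)}
    (hY : helper8991.red (A.comap ι) (IsLocalRing.residue ↥(A.comap ι)) Y ≠ 0) :
    helper8991.red A (IsLocalRing.residue ↥A) (coeffMap (restrictVal ι A) Y) ≠ 0 := by
  intro h0
  apply hY
  ext n
  have hn : IsLocalRing.residue ↥A (restrictVal ι A (Y.coeff n)) = 0 := by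
    have := congrArg (fun w : LaurentSeries (IsLocalRing.ResidueField ↥A) => w.coeff n) h0
    simpa using this
  show IsLocalRing.residue ↥(A.comap ι) (Y.coeff n) = 0
  rw [IsLocalRing.residue_eq_zero_iff]
  rw [IsLocalRing.residue_eq_zero_iff] at hn
  intro hu
  exact hn (hu.map (restrictVal ι A))

/-- The layer map sends the Gauss ring of `(K, A ∩ K)` into the Gauss ring of `(L, A)`. -/
theorem layerHom_mem_gaussK {x : FL K N} (hx : x ∈ gaussK (A.comap ι) N) :
    helper5651.layerHom (modularFunctionFieldFull N) ι x ∈ gaussK A N := by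
  obtain ⟨X, Y, hY, hXY⟩ := (helper8991.mem_gaussF_iff _ _ N x).mp hx
  refine (helper8991.mem_gaussF_iff _ _ N _).mpr
    ⟨coeffMap (restrictVal ι A) X, coeffMap (restrictVal ι A) Y,
      red_coeffMap_restrictVal_ne_zero ι A hY, ?_⟩
  rw [inc_coeffMap_restrictVal, inc_coeffMap_restrictVal, ← hXY, map_mul]
  rfl

/-- **The Gauss ring over `(K, A ∩ K)` is the restriction of the Gauss ring over `(L, A)`.** -/
theorem layerHom_mem_gaussK_iff (x : FL K N) :
    helper5651.layerHom (modularFunctionFieldFull N) ι x ∈ gaussK A N ↔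
      x ∈ gaussK (A.comap ι) N := by
  refine ⟨fun hx => ?_, layerHom_mem_gaussK ι A N⟩
  by_cases hx0 : x = 0
  · subst hx0
    exact (gaussK (A.comap ι) N).zero_mem
  obtain ⟨c, u, hc, hu, rfl⟩ := helper8991.exists_const_mul_unit_F (A.comap ι)
    (IsLocalRing.residue ↥(A.comap ι)) N x hx0
  have hu1 := layerHom_mem_gaussK ι A N u.2
  have hu2 := layerHom_mem_gaussK ι A N (inv_mem_gaussK_of_red_ne_zero (A.comap ι) N u hu)
  have hu0 : (u : FL K N) ≠ 0 := by
    rintro h0
    apply hu
    have : u = 0 := Subtype.ext h0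
    rw [this, map_zero]
  rw [map_mul, helper5651.layerHom_algebraMap] at hx
  rw [map_inv₀] at hu2
  have hc' : algebraMap L (FL L N) (ι c) ∈ gaussK A N := by
    have hne : helper5651.layerHom (modularFunctionFieldFull N) ι (u : FL K N) ≠ 0 :=
      (map_ne_zero_iff _ (helper5651.layerHom_injective _ ι)).mpr hu0
    have := (gaussK A N).mul_mem _ _ hx hu2
    rwa [mul_assoc, mul_inv_cancel₀ hne, mul_one] at this
  rw [algebraMap_mem_gaussK_iff] at hc'
  exact (gaussK (A.comap ι) N).mul_mem _ _ ((algebraMap_mem_gaussK_iff _ N c).mpr hc') u.2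

theorem comap_layerHom_gaussK :
    (gaussK A N).comap (helper5651.layerHom (modularFunctionFieldFull N) ι)
      = gaussK (A.comap ι) N := by
  ext x
  exact layerHom_mem_gaussK_iff ι A N x

/-- The Gauss orders over `(K, A ∩ K)` and over `(L, A)` agree when both are discrete with the
same uniformiser (`e = 1`), e.g. never for `L = ℚ̄`; stated for finite layers. -/
theorem gaussOrd_layerHom {ϖ : K} (h : IsUnifOf (A.comap ι) ϖ) (h' : IsUnifOf A (ι ϖ))
    (x : FL K N) :
    gaussOrd A N (ι ϖ) (helper5651.layerHom (modularFunctionFieldFull N) ι x)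
      = gaussOrd (A.comap ι) N ϖ x := by
  have h1 := isUnifOf_gaussK N h
  have h2 := isUnifOf_gaussK N h'
  rw [← helper5651.layerHom_algebraMap] at h2
  rw [← comap_layerHom_gaussK] at h1
  have := IsUnifOf.ordOf_comap (helper5651.layerHom (modularFunctionFieldFull N) ι) h1 h2 x
  unfold gaussOrd
  rw [← helper5651.layerHom_algebraMap, ← this, comap_layerHom_gaussK]

end Restrict

/-! ### Descent of automorphisms commuting with the coefficientwise Galois action -/

section Descent

variable {L : Type*} [Field L] [Algebra ℚ L] (K : IntermediateField ℚ L)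
variable (F₀ : IntermediateField ℚ (LaurentSeries ℚ))

/-- `K` is cut out of `L` by the `ℚ`-automorphisms of `L` fixing it (true for every intermediate
field of a Galois extension, e.g. of `ℚ̄ / ℚ`: `isGalClosed_of_isGalois`). -/
def IsGalClosed : Prop :=
  ∀ a : L, (∀ σ : L ≃ₐ[ℚ] L, (∀ c : K, σ (c : L) = c) → σ a = a) → a ∈ K

theorem isGalClosed_of_isGalois [IsGalois ℚ L] : IsGalClosed K := by
  intro a ha
  rw [← InfiniteGalois.fixedField_fixingSubgroup K, IntermediateField.mem_fixedField_iff]
  intro σ hσ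
  exact ha σ fun c => (IntermediateField.mem_fixingSubgroup_iff _ σ).mp hσ c c.2

variable {F₀} in
/-- `Φ` commutes with the coefficientwise action of the automorphisms of `L` fixing `K`. -/
def CommutesOver (Φ : laurentBaseChange L F₀ → laurentBaseChange L F₀) : Prop :=
  ∀ σ : L ≃ₐ[ℚ] L, (∀ c : K, σ (c : L) = c) →
    ∀ z, Φ (arithmeticRingAut F₀ σ z) = arithmeticRingAut F₀ σ (Φ z)

variable {K F₀}

/-- A self-map of `F_L` commuting with the coefficientwise action of `Aut(L/K)` maps the
`K`-form into itself. -/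
theorem exists_layerHom_eq_of_commutes (hK : IsGalClosed K)
    (Φ : laurentBaseChange L F₀ → laurentBaseChange L F₀) (hΦ : CommutesOver K Φ)
    (x : laurentBaseChange K F₀) :
    ∃ y : laurentBaseChange K F₀, helper5651.layerHom F₀ (algebraMap K L) y
      = Φ (helper5651.layerHom F₀ (algebraMap K L) x) := by
  refine (helper5651.mem_range_layerHom_iff F₀ (algebraMap K L) _).mpr fun n => ?_
  have hfix : ∀ σ : L ≃ₐ[ℚ] L, (∀ c : K, σ (c : L) = c) →
      σ ((Φ (helper5651.layerHom F₀ (algebraMap K L) x) : LaurentSeries L).coeff n)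
        = (Φ (helper5651.layerHom F₀ (algebraMap K L) x) : LaurentSeries L).coeff n := by
    intro σ hσ
    have h1 := hΦ σ hσ (helper5651.layerHom F₀ (algebraMap K L) x)
    rw [helper5651.arithmeticRingAut_layerHom_of_fix F₀ (algebraMap K L) σ hσ x] at h1
    have h2 := congrArg (fun w : laurentBaseChange L F₀ => (w : LaurentSeries L).coeff n) h1
    exact h2.symm
  exact ⟨⟨_, hK _ hfix⟩, rfl⟩

/-- The `K`-form of an `L`-algebra endomorphism commuting with `Aut(L/K)`. -/
def descendHom (hK : IsGalClosed K)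
    (Φ : laurentBaseChange L F₀ →ₐ[L] laurentBaseChange L F₀) (hΦ : CommutesOver K Φ) :
    laurentBaseChange K F₀ →ₐ[K] laurentBaseChange K F₀ where
  toFun x := Classical.choose (exists_layerHom_eq_of_commutes hK Φ hΦ x)
  map_one' := by
    apply helper5651.layerHom_injective F₀ (algebraMap K L)
    rw [Classical.choose_spec (exists_layerHom_eq_of_commutes hK Φ hΦ 1)]
    simp
  map_mul' x y := by
    apply helper5651.layerHom_injective F₀ (algebraMap K L)
    have hx := Classical.choose_spec (exists_layerHom_eq_of_commutes hK Φ hΦ x)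
    have hy := Classical.choose_spec (exists_layerHom_eq_of_commutes hK Φ hΦ y)
    have hxy := Classical.choose_spec (exists_layerHom_eq_of_commutes hK Φ hΦ (x * y))
    rw [hxy, map_mul (helper5651.layerHom F₀ (algebraMap K L)) x y, map_mul Φ,
      map_mul (helper5651.layerHom F₀ (algebraMap K L)), hx, hy]
  map_zero' := by
    apply helper5651.layerHom_injective F₀ (algebraMap K L)
    rw [Classical.choose_spec (exists_layerHom_eq_of_commutes hK Φ hΦ 0)]
    simp
  map_add' x y := by
    apply helper5651.layerHom_injective F₀ (algebraMap K L)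
    have hx := Classical.choose_spec (exists_layerHom_eq_of_commutes hK Φ hΦ x)
    have hy := Classical.choose_spec (exists_layerHom_eq_of_commutes hK Φ hΦ y)
    have hxy := Classical.choose_spec (exists_layerHom_eq_of_commutes hK Φ hΦ (x + y))
    rw [hxy, map_add (helper5651.layerHom F₀ (algebraMap K L)) x y, map_add Φ,
      map_add (helper5651.layerHom F₀ (algebraMap K L)), hx, hy]
  commutes' c := by
    apply helper5651.layerHom_injective F₀ (algebraMap K L)
    rw [Classical.choose_spec (exists_layerHom_eq_of_commutes hK Φ hΦ _),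
      helper5651.layerHom_algebraMap]
    exact Φ.commutes _

theorem layerHom_descendHom (hK : IsGalClosed K)
    (Φ : laurentBaseChange L F₀ →ₐ[L] laurentBaseChange L F₀) (hΦ : CommutesOver K Φ)
    (x : laurentBaseChange K F₀) :
    helper5651.layerHom F₀ (algebraMap K L) (descendHom hK Φ hΦ x)
      = Φ (helper5651.layerHom F₀ (algebraMap K L) x) :=
  Classical.choose_spec (exists_layerHom_eq_of_commutes hK Φ hΦ x)

theorem CommutesOver.symm {Φ : laurentBaseChange L F₀ ≃ₐ[L] laurentBaseChange L F₀}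
    (hΦ : CommutesOver K Φ) : CommutesOver K Φ.symm := by
  intro σ hσ z
  apply Φ.injective
  rw [Φ.apply_symm_apply, hΦ σ hσ, Φ.apply_symm_apply]

theorem CommutesOver.algHom {Φ : laurentBaseChange L F₀ ≃ₐ[L] laurentBaseChange L F₀}
    (hΦ : CommutesOver K Φ) :
    CommutesOver K (Φ : laurentBaseChange L F₀ →ₐ[L] laurentBaseChange L F₀) :=
  fun σ hσ z => hΦ σ hσ z

/-- **The `K`-form of an `L`-algebra automorphism commuting with `Aut(L/K)`.** -/
def descendEquiv (hK : IsGalClosed K)
    (Φ : laurentBaseChange L F₀ ≃ₐ[L] laurentBaseChange L F₀) (hΦ : CommutesOver K Φ) :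
    laurentBaseChange K F₀ ≃ₐ[K] laurentBaseChange K F₀ :=
  AlgEquiv.ofAlgHom (descendHom hK (Φ : _ →ₐ[L] _) hΦ.algHom)
    (descendHom hK (Φ.symm : _ →ₐ[L] _) hΦ.symm.algHom)
    (AlgHom.ext fun x => by
      apply helper5651.layerHom_injective F₀ (algebraMap K L)
      rw [AlgHom.comp_apply, AlgHom.id_apply, layerHom_descendHom, layerHom_descendHom]
      exact Φ.apply_symm_apply _)
    (AlgHom.ext fun x => by
      apply helper5651.layerHom_injective F₀ (algebraMap K L)
      rw [AlgHom.comp_apply, AlgHom.id_apply, layerHom_descendHom, layerHom_descendHom]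
      exact Φ.symm_apply_apply _)

theorem layerHom_descendEquiv (hK : IsGalClosed K)
    (Φ : laurentBaseChange L F₀ ≃ₐ[L] laurentBaseChange L F₀) (hΦ : CommutesOver K Φ)
    (x : laurentBaseChange K F₀) :
    helper5651.layerHom F₀ (algebraMap K L) (descendEquiv hK Φ hΦ x)
      = Φ (helper5651.layerHom F₀ (algebraMap K L) x) :=
  layerHom_descendHom hK (Φ : laurentBaseChange L F₀ →ₐ[L] laurentBaseChange L F₀) hΦ.algHom x

theorem layerHom_descendEquiv_symm (hK : IsGalClosed K)
    (Φ : laurentBaseChange L F₀ ≃ₐ[L] laurentBaseChange L F₀) (hΦ : CommutesOver K Φ)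
    (x : laurentBaseChange K F₀) :
    helper5651.layerHom F₀ (algebraMap K L) ((descendEquiv hK Φ hΦ).symm x)
      = Φ.symm (helper5651.layerHom F₀ (algebraMap K L) x) :=
  layerHom_descendHom hK (Φ.symm : laurentBaseChange L F₀ →ₐ[L] laurentBaseChange L F₀)
    hΦ.symm.algHom x

/-- An involution descends to an involution. -/
theorem descendEquiv_descendEquiv (hK : IsGalClosed K)
    (Φ : laurentBaseChange L F₀ ≃ₐ[L] laurentBaseChange L F₀) (hΦ : CommutesOver K Φ)
    (hinv : ∀ z, Φ (Φ z) = z) (x : laurentBaseChange K F₀) :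
    descendEquiv hK Φ hΦ (descendEquiv hK Φ hΦ x) = x := by
  apply helper5651.layerHom_injective F₀ (algebraMap K L)
  rw [layerHom_descendEquiv, layerHom_descendEquiv, hinv]

end Descent

end Fermat.Agent.S36.helper3953
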