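import Mathlib
import Fermat.Agent.S35.helper1219_AtkinLehnerHall
import Fermat.Agent.S35.helper1219_GaussWitness
import Fermat.Agent.S35.helper2736_KronModular
import Fermat.Agent.S58.helper6024_Unram
import Fermat.Agent.S36.helper3953_KVal

/-!
# S36-KVAL, part C (helper3953): the `∞`/`0` Gauss valuations over `(K, O)`, concretely

`Qb = ℚ̄`, `K : IntermediateField ℚ Qb` (in the application `K = ℚ̄^I =
helper6024.inertiaFixedField A`, `O = helper6024.inertiaValuationSubring A`, uniformiser `q`),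
`FL K N = laurentBaseChange K (modularFunctionFieldFull N)` the `K`-form of `FN N`.

* `isUnifOf_inertia` : `q` is a uniformiser of `O = A ∩ ℚ̄^I` in the strong sense `IsUnifOf`
  (discreteness: landed `helper6024.exists_zpow_valuation_eq`).
* `atkinLehnerHallK K N Q hQ hcop : FL K N ≃ₐ[K] FL K N`, the `K`-form of the landed
  `helper1219.atkinLehnerHall` (any Hall divisor `Q ∥ N`, so `W_q` at level `q M''` AND `W_{q²}`
  at level `q² M''`), with `layerHom_atkinLehnerHallK`, involutivity, and the compatibilities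
  with the degeneracy maps `heckeAlphaBar K N q`, `heckeBetaBar K N q` OVER `K`.
* `kV K O N Q .. : Fin 2 → ValuationSubring (FL K N)` (`![v_∞, v_0]`, `v_0 = v_∞ ∘ W_Q`) and
  `kOrd .. : Fin 2 → FL K N → ℤ`, with the `helper36.KillData` fields verbatim:
  `kOrd_isOrd` (`hord'`), `mem_kV_iff` (`mem_V'`), `kOrd_natCast` (`ord'_q`),
  `kOrd_const` (`ord'_const`), `kOrd_unit` (`ord'_unit`), and the restriction tables of the
  `∞`/`0` components along `α`, `β` (`mem_a`/`mem_b` of `DegData` for these components) with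
  the order identities `kOrd (α x) = kOrd x`.
* `mem_kV_zero_iff_layerHom`, `mem_kV_one_iff_layerHom` : both rings are the restrictions of the
  `(ℚ̄, A)` Gauss pair `gaussF A`, `gaussFW A W_Q` of S35.
-/

set_option autoImplicit false
set_option linter.unusedSectionVars false

open ModularCurve

noncomputable section

namespace Fermat.Agent.S36.helper3953

open Fermat.Agent.S18 Fermat.Agent.S37 Fermat.Agent.S35 Fermat.Agent.S58
open Fermat.Agent.S36.helper1013 (IsOrd)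

local notation "Qb" => AlgebraicClosure ℚ

/-! ### The base: `q` is a uniformiser of `A ∩ ℚ̄^I` -/

/-- **BASEK in `IsUnifOf` form**: `q` is a uniformiser of `O = A ∩ ℚ̄^I`, and every nonzero
element of `ℚ̄^I` is `q ^ k` times a unit of `O`. -/
theorem isUnifOf_inertia (A : ValuationSubring Qb) {q : ℕ} (hq : q.Prime)
    (hA : A.LiesOverPrime q) :
    IsUnifOf (helper6024.inertiaValuationSubring A) ((q : ℕ) : helper6024.inertiaFixedField A) := by
  have hq0 : ((q : ℕ) : helper6024.inertiaFixedField A) ≠ 0 := by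
    exact_mod_cast hq.ne_zero
  have hq0' : ((q : ℕ) : Qb) ≠ 0 := by exact_mod_cast hq.ne_zero
  have hmem : ((q : ℕ) : Qb) ∈ A.nonunits := hA
  refine ⟨hq0, ?_, ?_, ?_⟩
  · show (((q : ℕ) : helper6024.inertiaFixedField A) : Qb) ∈ A
    push_cast
    exact A.nonunits_subset hmem
  · show ¬ ((((q : ℕ) : helper6024.inertiaFixedField A)⁻¹ : helper6024.inertiaFixedField A) : Qb)
      ∈ A
    push_cast
    intro hinv
    rw [ValuationSubring.mem_nonunits_iff_or] at hmem
    rcases hmem with h | h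
    · exact hq0' h
    · exact h hinv
  · intro x hx
    have hx' : (x : Qb) ≠ 0 := fun h => hx (Subtype.ext h)
    obtain ⟨n, hn⟩ := helper6024.exists_zpow_valuation_eq A hq hA (x : Qb)
      (fun σ hσ => x.2 ⟨σ, hσ⟩) hx'
    obtain ⟨h1, h2⟩ := (unit_zpow_iff hq0' hx' n).mpr hn
    refine ⟨n, ?_, ?_⟩
    · show ((x * ((q : ℕ) : helper6024.inertiaFixedField A) ^ (-n) :
        helper6024.inertiaFixedField A) : Qb) ∈ A
      push_cast
      exact h1
    · show (((x * ((q : ℕ) : helper6024.inertiaFixedField A) ^ (-n))⁻¹ :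
        helper6024.inertiaFixedField A) : Qb) ∈ A
      push_cast
      exact h2

/-! ### The Atkin–Lehner involutions over `K` -/

section Hall

variable (K : IntermediateField ℚ Qb)
variable (N Q : ℕ) [NeZero N] (hQ : Q ∣ N) (hcop : Nat.Coprime Q (N / Q))

theorem isGalois_rat_Qb : IsGalois ℚ Qb :=
  haveI : Algebra.IsAlgebraic ℚ (AlgebraicClosure ℚ) := AlgebraicClosure.isAlgebraic ℚ
  haveI : IsAlgClosure ℚ (AlgebraicClosure ℚ) := ⟨inferInstance, inferInstance⟩
  inferInstance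

theorem isGalClosed_Qb : IsGalClosed K :=
  haveI := isGalois_rat_Qb
  isGalClosed_of_isGalois K

theorem commutesOver_atkinLehnerHall :
    CommutesOver (F₀ := modularFunctionFieldFull N) K (helper1219.atkinLehnerHall N Q hQ hcop) :=
  fun σ _ z => helper1219.atkinLehnerHall_arithmeticRingAut N Q hQ hcop σ z

/-- **The Atkin–Lehner involution `W_Q` of the `K`-form `F_{N,K}`** for a Hall divisor `Q ∥ N`. -/
def atkinLehnerHallK : FL K N ≃ₐ[K] FL K N :=
  descendEquiv (F₀ := modularFunctionFieldFull N) (isGalClosed_Qb K)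
    (helper1219.atkinLehnerHall N Q hQ hcop) (commutesOver_atkinLehnerHall K N Q hQ hcop)

/-- `W_Q` over `K` is the restriction of `W_Q` over `ℚ̄`. -/
theorem layerHom_atkinLehnerHallK (x : FL K N) :
    helper5651.layerHom (modularFunctionFieldFull N) (algebraMap K Qb)
        (atkinLehnerHallK K N Q hQ hcop x)
      = helper1219.atkinLehnerHall N Q hQ hcop
          (helper5651.layerHom (modularFunctionFieldFull N) (algebraMap K Qb) x) :=
  layerHom_descendEquiv (F₀ := modularFunctionFieldFull N) (isGalClosed_Qb K)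
    (helper1219.atkinLehnerHall N Q hQ hcop) (commutesOver_atkinLehnerHall K N Q hQ hcop) x

theorem atkinLehnerHallK_atkinLehnerHallK (x : FL K N) :
    atkinLehnerHallK K N Q hQ hcop (atkinLehnerHallK K N Q hQ hcop x) = x :=
  descendEquiv_descendEquiv (F₀ := modularFunctionFieldFull N) (isGalClosed_Qb K)
    (helper1219.atkinLehnerHall N Q hQ hcop) (commutesOver_atkinLehnerHall K N Q hQ hcop)
    (helper1219.atkinLehnerHall_atkinLehnerHall N Q hQ hcop) x

theorem atkinLehnerHallK_symm :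
    (atkinLehnerHallK K N Q hQ hcop).symm = atkinLehnerHallK K N Q hQ hcop :=
  AlgEquiv.ext fun z => by
    rw [AlgEquiv.symm_apply_eq, atkinLehnerHallK_atkinLehnerHallK]

end Hall

/-! ### Compatibility with the degeneracy maps over `K` -/

section Degeneracy

variable (K : IntermediateField ℚ Qb)
variable (N Q : ℕ) [NeZero N] (hQ : Q ∣ N) (hcop : Nat.Coprime Q (N / Q))
variable (q : ℕ) [NeZero q]

/-- **`W_(Q q)^(N q) ∘ α = β ∘ W_Q^(N)` over `K`** (`Q ∥ N`, `q` prime to `N / Q`); e.g.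
`W_{q²}` at level `q² M''` against `W_q` at level `q M''`. -/
theorem atkinLehnerHallK_mul_heckeAlphaBar (hq : Nat.Coprime q (N / Q)) (hQ' : Q * q ∣ N * q)
    (hcop' : Nat.Coprime (Q * q) (N * q / (Q * q))) (z : FL K N) :
    atkinLehnerHallK K (N * q) (Q * q) hQ' hcop' (heckeAlphaBar K N q z)
      = heckeBetaBar K N q (atkinLehnerHallK K N Q hQ hcop z) := by
  apply helper5651.layerHom_injective (modularFunctionFieldFull (N * q)) (algebraMap K Qb)
  rw [layerHom_atkinLehnerHallK, helper5651.layerHom_heckeAlphaBar,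
    helper5651.layerHom_heckeBetaBar, layerHom_atkinLehnerHallK]
  exact helper1219.atkinLehnerHall_mul_heckeAlphaBar N Q hQ hcop q hq hQ' hcop' _

/-- **`W_(Q q)^(N q) ∘ β = α ∘ W_Q^(N)` over `K`**. -/
theorem atkinLehnerHallK_mul_heckeBetaBar (hq : Nat.Coprime q (N / Q)) (hQ' : Q * q ∣ N * q)
    (hcop' : Nat.Coprime (Q * q) (N * q / (Q * q))) (z : FL K N) :
    atkinLehnerHallK K (N * q) (Q * q) hQ' hcop' (heckeBetaBar K N q z)
      = heckeAlphaBar K N q (atkinLehnerHallK K N Q hQ hcop z) := by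
  apply helper5651.layerHom_injective (modularFunctionFieldFull (N * q)) (algebraMap K Qb)
  rw [layerHom_atkinLehnerHallK, helper5651.layerHom_heckeAlphaBar,
    helper5651.layerHom_heckeBetaBar, layerHom_atkinLehnerHallK]
  exact helper1219.atkinLehnerHall_mul_heckeBetaBar N Q hQ hcop q hq hQ' hcop' _

end Degeneracy

/-! ### Restriction tables of the `∞`-component along `α`, `β` (any coefficient field) -/

section TablesInf

variable {L : Type*} [Field L] [Algebra ℚ L] (O : ValuationSubring L)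
variable (N ℓ : ℕ) [NeZero N] [NeZero ℓ]

/-- `α x ∈ V_∞(N ℓ) ↔ x ∈ V_∞(N)`. -/
theorem heckeAlphaBar_mem_gaussK_iff (x : FL L N) :
    heckeAlphaBar L N ℓ x ∈ gaussK O (N * ℓ) ↔ x ∈ gaussK O N := by
  rw [helper8991.mem_gaussF_iff, helper8991.mem_gaussF_iff, coe_heckeAlphaBar]

/-- `β x ∈ V_∞(N ℓ) ↔ x ∈ V_∞(N)`. -/
theorem heckeBetaBar_mem_gaussK_iff (x : FL L N) :
    heckeBetaBar L N ℓ x ∈ gaussK O (N * ℓ) ↔ x ∈ gaussK O N := by
  refine ⟨fun hx => ?_, fun hx => helper2736.heckeBetaBar_mem_gaussF O _ N ℓ hx⟩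
  by_cases hx0 : x = 0
  · subst hx0
    exact (gaussK O N).zero_mem
  obtain ⟨c, u, hc, hu, rfl⟩ := helper8991.exists_const_mul_unit_F O
    (IsLocalRing.residue O) N x hx0
  have hu1 : heckeBetaBar L N ℓ ((u : FL L N))⁻¹ ∈ gaussK O (N * ℓ) :=
    helper2736.heckeBetaBar_mem_gaussF O _ N ℓ (inv_mem_gaussK_of_red_ne_zero O N u hu)
  have hu0 : (u : FL L N) ≠ 0 := by
    rintro h0
    apply hu
    have : u = 0 := Subtype.ext h0
    rw [this, map_zero]
  rw [map_mul, AlgHom.commutes] at hx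
  rw [map_inv₀] at hu1
  have hne : heckeBetaBar L N ℓ (u : FL L N) ≠ 0 :=
    (map_ne_zero_iff _ (heckeBetaBar L N ℓ).toRingHom.injective).mpr hu0
  have hc' : algebraMap L (FL L (N * ℓ)) c ∈ gaussK O (N * ℓ) := by
    have := (gaussK O (N * ℓ)).mul_mem _ _ hx hu1
    rwa [mul_assoc, mul_inv_cancel₀ hne, mul_one] at this
  rw [algebraMap_mem_gaussK_iff] at hc'
  exact (gaussK O N).mul_mem _ _ ((algebraMap_mem_gaussK_iff O N c).mpr hc') u.2

variable {O}

/-- `ord_∞ (α x) = ord_∞ x` (`e = 1` along `α` at `∞`). -/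
theorem gaussOrd_heckeAlphaBar {ϖ : L} (h : IsUnifOf O ϖ) (x : FL L N) :
    gaussOrd O (N * ℓ) ϖ (heckeAlphaBar L N ℓ x) = gaussOrd O N ϖ x := by
  by_cases hx : x = 0
  · subst hx
    rw [map_zero]
    exact (ordOf_zero _ _).trans (ordOf_zero _ _).symm
  have hαx : heckeAlphaBar L N ℓ x ≠ 0 :=
    (map_ne_zero_iff _ (heckeAlphaBar L N ℓ).toRingHom.injective).mpr hx
  obtain ⟨h1, h2⟩ := (isUnifOf_gaussK N h).ordOf_spec hx
  refine (isUnifOf_gaussK (N * ℓ) h).ordOf_eq hαx ?_ ?_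
  · rw [← AlgHom.commutes (heckeAlphaBar L N ℓ), ← map_zpow₀, ← map_mul,
      heckeAlphaBar_mem_gaussK_iff]
    exact h1
  · rw [← AlgHom.commutes (heckeAlphaBar L N ℓ), ← map_zpow₀, ← map_mul, ← map_inv₀,
      heckeAlphaBar_mem_gaussK_iff]
    exact h2

/-- `ord_∞ (β x) = ord_∞ x` (`e = 1` along `β` at `∞`). -/
theorem gaussOrd_heckeBetaBar {ϖ : L} (h : IsUnifOf O ϖ) (x : FL L N) :
    gaussOrd O (N * ℓ) ϖ (heckeBetaBar L N ℓ x) = gaussOrd O N ϖ x := by
  by_cases hx : x = 0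
  · subst hx
    rw [map_zero]
    exact (ordOf_zero _ _).trans (ordOf_zero _ _).symm
  have hβx : heckeBetaBar L N ℓ x ≠ 0 :=
    (map_ne_zero_iff _ (heckeBetaBar L N ℓ).toRingHom.injective).mpr hx
  obtain ⟨h1, h2⟩ := (isUnifOf_gaussK N h).ordOf_spec hx
  refine (isUnifOf_gaussK (N * ℓ) h).ordOf_eq hβx ?_ ?_
  · rw [← AlgHom.commutes (heckeBetaBar L N ℓ), ← map_zpow₀, ← map_mul,
      heckeBetaBar_mem_gaussK_iff]
    exact h1
  · rw [← AlgHom.commutes (heckeBetaBar L N ℓ), ← map_zpow₀, ← map_mul, ← map_inv₀,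
      heckeBetaBar_mem_gaussK_iff]
    exact h2

end TablesInf

/-! ### The pair `(v_∞, v_0)` over `K` in the field shapes of `helper36.KillData` -/

section Bundle

variable (K : IntermediateField ℚ Qb) (O : ValuationSubring K)
variable (N Q : ℕ) [NeZero N] (hQ : Q ∣ N) (hcop : Nat.Coprime Q (N / Q))

/-- `![v_∞, v_0]`, `v_0 = v_∞ ∘ W_Q`: the two Gauss valuation subrings of `F_{N,K}`. -/
def kV : Fin 2 → ValuationSubring (FL K N) :=
  ![gaussK O N, gaussKW O N (atkinLehnerHallK K N Q hQ hcop)]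

/-- Their normalised order functions. -/
def kOrd (ϖ : K) : Fin 2 → FL K N → ℤ :=
  ![gaussOrd O N ϖ, gaussOrdW O N (atkinLehnerHallK K N Q hQ hcop) ϖ]

theorem kV_zero : kV K O N Q hQ hcop 0 = gaussK O N := rfl

theorem kV_one : kV K O N Q hQ hcop 1 = gaussKW O N (atkinLehnerHallK K N Q hQ hcop) := rfl

theorem kOrd_zero (ϖ : K) : kOrd K O N Q hQ hcop ϖ 0 = gaussOrd O N ϖ := rfl

theorem kOrd_one (ϖ : K) :
    kOrd K O N Q hQ hcop ϖ 1 = gaussOrdW O N (atkinLehnerHallK K N Q hQ hcop) ϖ := rfl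

variable {O}

/-- `kV c` is discrete with uniformiser `ϖ`, and `kOrd c` is its order function. -/
theorem isUnifOf_kV {ϖ : K} (h : IsUnifOf O ϖ) (c : Fin 2) :
    IsUnifOf (kV K O N Q hQ hcop c) (algebraMap K (FL K N) ϖ) := by
  fin_cases c
  · exact isUnifOf_gaussK N h
  · exact isUnifOf_gaussKW N _ h

theorem kOrd_eq_ordOf (ϖ : K) (c : Fin 2) :
    kOrd K O N Q hQ hcop ϖ c = ordOf (kV K O N Q hQ hcop c) (algebraMap K (FL K N) ϖ) := by
  fin_cases c <;> rfl

/-- `hord'` (resp. `hord` for `c = 0, 2`) of `KillData`. -/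
theorem kOrd_isOrd {ϖ : K} (h : IsUnifOf O ϖ) (c : Fin 2) : IsOrd (kOrd K O N Q hQ hcop ϖ c) := by
  rw [kOrd_eq_ordOf]
  exact (isUnifOf_kV K N Q hQ hcop h c).isOrd

/-- `mem_V'` (resp. `mem_V`) of `KillData`. -/
theorem mem_kV_iff {ϖ : K} (h : IsUnifOf O ϖ) (c : Fin 2) (y : FL K N) (hy : y ≠ 0) :
    y ∈ kV K O N Q hQ hcop c ↔ 0 ≤ kOrd K O N Q hQ hcop ϖ c y := by
  rw [kOrd_eq_ordOf]
  exact (isUnifOf_kV K N Q hQ hcop h c).mem_iff hy

theorem mem_nonunits_kV_iff {ϖ : K} (h : IsUnifOf O ϖ) (c : Fin 2) (y : FL K N) (hy : y ≠ 0) :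
    y ∈ (kV K O N Q hQ hcop c).nonunits ↔ 0 < kOrd K O N Q hQ hcop ϖ c y := by
  rw [kOrd_eq_ordOf]
  exact (isUnifOf_kV K N Q hQ hcop h c).mem_nonunits_iff hy

/-- `ord'_q` (resp. `ord_q0`, `ord_q2`) of `KillData`. -/
theorem kOrd_natCast {q : ℕ} (h : IsUnifOf O ((q : ℕ) : K)) (c : Fin 2) :
    kOrd K O N Q hQ hcop ((q : ℕ) : K) c ((q : ℕ) : FL K N) = 1 := by
  fin_cases c
  · exact gaussOrd_natCast N h
  · exact gaussOrdW_natCast N _ h

/-- `ord'_const` of `KillData`. -/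
theorem kOrd_const {ϖ : K} (h : IsUnifOf O ϖ) (a : K) :
    kOrd K O N Q hQ hcop ϖ 0 (algebraMap K (FL K N) a)
      = kOrd K O N Q hQ hcop ϖ 1 (algebraMap K (FL K N) a) :=
  (gaussOrdW_algebraMap N _ h a).symm

/-- `ord'_unit` of `KillData`. -/
theorem kOrd_unit {ϖ : K} (h : IsUnifOf O ϖ) (a : K) (ha : a ≠ 0)
    (h0 : kOrd K O N Q hQ hcop ϖ 0 (algebraMap K (FL K N) a) = 0) : a ∈ O ∧ a⁻¹ ∈ O :=
  gaussOrd_algebraMap_eq_zero N h ha h0

/-- The orders of a constant are the order of `O`. -/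
theorem kOrd_algebraMap {ϖ : K} (h : IsUnifOf O ϖ) (c : Fin 2) (a : K) :
    kOrd K O N Q hQ hcop ϖ c (algebraMap K (FL K N) a) = ordOf O ϖ a := by
  fin_cases c
  · exact gaussOrd_algebraMap N h a
  · exact (gaussOrdW_algebraMap N _ h a).trans (gaussOrd_algebraMap N h a)

/-- `W_Q` swaps the two components. -/
theorem kOrd_one_eq {ϖ : K} (h : IsUnifOf O ϖ) (x : FL K N) :
    kOrd K O N Q hQ hcop ϖ 1 x
      = kOrd K O N Q hQ hcop ϖ 0 (atkinLehnerHallK K N Q hQ hcop x) :=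
  gaussOrdW_apply N _ h x

theorem kOrd_zero_eq {ϖ : K} (h : IsUnifOf O ϖ) (x : FL K N) :
    kOrd K O N Q hQ hcop ϖ 0 x
      = kOrd K O N Q hQ hcop ϖ 1 (atkinLehnerHallK K N Q hQ hcop x) := by
  rw [kOrd_one_eq K N Q hQ hcop h, atkinLehnerHallK_atkinLehnerHallK]

theorem mem_kV_one_iff (x : FL K N) :
    x ∈ kV K O N Q hQ hcop 1 ↔ atkinLehnerHallK K N Q hQ hcop x ∈ kV K O N Q hQ hcop 0 :=
  Iff.rfl

end Bundle

/-! ### The restriction tables of the pair along `α`, `β` over `K` -/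

section Tables

variable (K : IntermediateField ℚ Qb) (O : ValuationSubring K)
variable (N Q : ℕ) [NeZero N] (hQ : Q ∣ N) (hcop : Nat.Coprime Q (N / Q))
variable (q : ℕ) [NeZero q] (hq : Nat.Coprime q (N / Q)) (hQ' : Q * q ∣ N * q)
  (hcop' : Nat.Coprime (Q * q) (N * q / (Q * q)))

/-- `α`: `v_∞` lies over `v'_∞` (`mem_a` of `DegData` for `α`). -/
theorem heckeAlphaBar_mem_kV_zero_iff (x : FL K N) :
    heckeAlphaBar K N q x ∈ kV K O (N * q) (Q * q) hQ' hcop' 0 ↔ x ∈ kV K O N Q hQ hcop 0 :=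
  heckeAlphaBar_mem_gaussK_iff O N q x

/-- `β`: `v_∞` lies over `v'_∞` (`mem_b` of `DegData` for `β`). -/
theorem heckeBetaBar_mem_kV_zero_iff (x : FL K N) :
    heckeBetaBar K N q x ∈ kV K O (N * q) (Q * q) hQ' hcop' 0 ↔ x ∈ kV K O N Q hQ hcop 0 :=
  heckeBetaBar_mem_gaussK_iff O N q x

include hq in
/-- `α`: `v_0` lies over `v'_0` (`mem_b` of `DegData` for `α`). -/
theorem heckeAlphaBar_mem_kV_one_iff (x : FL K N) :
    heckeAlphaBar K N q x ∈ kV K O (N * q) (Q * q) hQ' hcop' 1 ↔ x ∈ kV K O N Q hQ hcop 1 := by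
  rw [mem_kV_one_iff, mem_kV_one_iff,
    atkinLehnerHallK_mul_heckeAlphaBar K N Q hQ hcop q hq hQ' hcop']
  exact heckeBetaBar_mem_gaussK_iff O N q _

include hq in
/-- `β`: `v_0` lies over `v'_0` (`mem_a` of `DegData` for `β`). -/
theorem heckeBetaBar_mem_kV_one_iff (x : FL K N) :
    heckeBetaBar K N q x ∈ kV K O (N * q) (Q * q) hQ' hcop' 1 ↔ x ∈ kV K O N Q hQ hcop 1 := by
  rw [mem_kV_one_iff, mem_kV_one_iff,
    atkinLehnerHallK_mul_heckeBetaBar K N Q hQ hcop q hq hQ' hcop']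
  exact heckeAlphaBar_mem_gaussK_iff O N q _

variable {O}

/-- `e = 1` of `v_∞` over `v'_∞` along `α` and `β`, and of `v_0` over `v'_0`. -/
theorem kOrd_zero_heckeAlphaBar {ϖ : K} (h : IsUnifOf O ϖ) (x : FL K N) :
    kOrd K O (N * q) (Q * q) hQ' hcop' ϖ 0 (heckeAlphaBar K N q x)
      = kOrd K O N Q hQ hcop ϖ 0 x :=
  gaussOrd_heckeAlphaBar N q h x

theorem kOrd_zero_heckeBetaBar {ϖ : K} (h : IsUnifOf O ϖ) (x : FL K N) :
    kOrd K O (N * q) (Q * q) hQ' hcop' ϖ 0 (heckeBetaBar K N q x)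
      = kOrd K O N Q hQ hcop ϖ 0 x :=
  gaussOrd_heckeBetaBar N q h x

include hq in
theorem kOrd_one_heckeAlphaBar {ϖ : K} (h : IsUnifOf O ϖ) (x : FL K N) :
    kOrd K O (N * q) (Q * q) hQ' hcop' ϖ 1 (heckeAlphaBar K N q x)
      = kOrd K O N Q hQ hcop ϖ 1 x := by
  rw [kOrd_one_eq K (N * q) (Q * q) hQ' hcop' h, kOrd_one_eq K N Q hQ hcop h,
    atkinLehnerHallK_mul_heckeAlphaBar K N Q hQ hcop q hq hQ' hcop']
  exact gaussOrd_heckeBetaBar N q h _

include hq in
theorem kOrd_one_heckeBetaBar {ϖ : K} (h : IsUnifOf O ϖ) (x : FL K N) :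
    kOrd K O (N * q) (Q * q) hQ' hcop' ϖ 1 (heckeBetaBar K N q x)
      = kOrd K O N Q hQ hcop ϖ 1 x := by
  rw [kOrd_one_eq K (N * q) (Q * q) hQ' hcop' h, kOrd_one_eq K N Q hQ hcop h,
    atkinLehnerHallK_mul_heckeBetaBar K N Q hQ hcop q hq hQ' hcop']
  exact gaussOrd_heckeAlphaBar N q h _

end Tables

/-! ### Comparison with the `(ℚ̄, A)` Gauss pair of S35 -/

section Compare

variable (K : IntermediateField ℚ Qb) (A : ValuationSubring Qb)
variable (N Q : ℕ) [NeZero N] (hQ : Q ∣ N) (hcop : Nat.Coprime Q (N / Q))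

/-- `v_∞` over `(K, A ∩ K)` is the restriction of the Gauss ring over `(ℚ̄, A)`. -/
theorem mem_kV_zero_iff_layerHom (x : FL K N) :
    x ∈ kV K (A.comap (algebraMap K Qb)) N Q hQ hcop 0 ↔
      helper5651.layerHom (modularFunctionFieldFull N) (algebraMap K Qb) x
        ∈ helper8991.gaussF A (IsLocalRing.residue A) N :=
  (layerHom_mem_gaussK_iff (algebraMap K Qb) A N x).symm

/-- `v_0` over `(K, A ∩ K)` is the restriction of the twisted Gauss ring `gaussFW A W_Q` over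
`(ℚ̄, A)`. -/
theorem mem_kV_one_iff_layerHom (x : FL K N) :
    x ∈ kV K (A.comap (algebraMap K Qb)) N Q hQ hcop 1 ↔
      helper5651.layerHom (modularFunctionFieldFull N) (algebraMap K Qb) x
        ∈ helper1219.gaussFW A (IsLocalRing.residue A) N
            (helper1219.atkinLehnerHall N Q hQ hcop) := by
  rw [mem_kV_one_iff, mem_kV_zero_iff_layerHom, layerHom_atkinLehnerHallK,
    helper1219.mem_gaussFW_iff]

end Compare

/-! ### The two components are distinct (`ord_ind` for the pair `(∞, 0)`) -/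

section Distinct

variable (K : IntermediateField ℚ Qb) (A : ValuationSubring Qb)

theorem charP_residue_of_liesOver {q : ℕ} (hq : q.Prime) (hA : A.LiesOverPrime q) :
    CharP (IsLocalRing.ResidueField A) q := by
  rw [CharP.charP_iff_prime_eq_zero hq]
  have hmem : ((q : ℕ) : Qb) ∈ A.nonunits := hA
  have h1 : ((q : ℕ) : A) ∈ IsLocalRing.maximalIdeal A := by
    rw [IsLocalRing.mem_maximalIdeal, mem_nonunits_iff]
    intro hu
    have h2 := (A.valuation_eq_one_iff ((q : ℕ) : A)).mp hu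
    have h3 : A.valuation ((q : ℕ) : Qb) < 1 := (ValuationSubring.mem_nonunits_iff A).mp hmem
    have h4 : ((((q : ℕ) : A)) : Qb) = ((q : ℕ) : Qb) := by push_cast; rfl
    rw [h4] at h2
    exact absurd h2 (ne_of_lt h3)
  have := (IsLocalRing.residue_eq_zero_iff ((q : ℕ) : A)).mpr h1
  rwa [map_natCast] at this

/-- The Kronecker witness `b = j - j_q ^ q` has rational coefficients: it comes from `F_{N,K}`. -/
theorem exists_layerHom_eq_kronWitness (N q : ℕ) [NeZero N] [Fact q.Prime] (hqN : q ∣ N) :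
    ∃ b : FL K N, helper5651.layerHom (modularFunctionFieldFull N) (algebraMap K Qb) b
      = helper1219.kronWitness N q hqN := by
  refine (helper5651.mem_range_layerHom_iff (modularFunctionFieldFull N) (algebraMap K Qb) _).mpr
    fun n => ?_
  have hq0 : NeZero q := ⟨(Fact.out : q.Prime).ne_zero⟩
  have h1 : ((helper1219.kronWitness N q hqN : ↥(modularFunctionFieldBar N)) : LaurentSeries Qb)
      = coeffMap (algebraMap K Qb) (jqModC K - jqNModC K q ^ q) := by
    have e1 : helper8991.inc (⊤ : ValuationSubring Qb)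
        (jqModC ↥(⊤ : ValuationSubring Qb) - jqNModC ↥(⊤ : ValuationSubring Qb) q ^ q)
        = jqNModC Qb 1 - jqNModC Qb q ^ q := by
      rw [map_sub, map_pow, helper8991.inc_jqNModC, ← jqNModC_one, helper8991.inc_jqNModC]
    have e2 : coeffMap (algebraMap K Qb) (jqModC K - jqNModC K q ^ q)
        = jqNModC Qb 1 - jqNModC Qb q ^ q := by
      rw [map_sub, map_pow, coeffMap_jqNModC, ← jqNModC_one, coeffMap_jqNModC]
    rw [helper1219.coe_kronWitness (⊤ : ValuationSubring Qb) N q hqN, e1, e2]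
  rw [h1]
  exact ⟨_, rfl⟩

/-- **`v_∞ ≠ v_0` over `K` at a level `N` with `q ∥ N`** (`W = W_q`). -/
theorem kV_ne_of_prime {q : ℕ} (hq : q.Prime) (hA : A.LiesOverPrime q) (N : ℕ) [NeZero N]
    (hqN : q ∣ N) (hcop : Nat.Coprime q (N / q)) :
    kV K (A.comap (algebraMap K Qb)) N q hqN hcop 0
      ≠ kV K (A.comap (algebraMap K Qb)) N q hqN hcop 1 := by
  have : Fact q.Prime := ⟨hq⟩
  have : NeZero q := ⟨hq.ne_zero⟩
  have := charP_residue_of_liesOver A hq hA
  intro heq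
  obtain ⟨b, hb⟩ := exists_layerHom_eq_kronWitness K N q hqN
  have hW1 := helper1219.atkinLehnerHall_jBar N q hqN hcop
  have hW2 := helper1219.atkinLehnerHall_jBarD_self N q hqN hcop
  have hb0 : helper1219.kronWitness N q hqN ≠ 0 :=
    helper1219.kronWitness_ne_zero A (IsLocalRing.residue A) N q hqN
  -- `b⁻¹ ∈ v_∞`
  have h1 : b⁻¹ ∈ kV K (A.comap (algebraMap K Qb)) N q hqN hcop 0 := by
    rw [mem_kV_zero_iff_layerHom, map_inv₀, hb, ← ValuationSubring.valuation_le_one_iff,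
      map_inv₀, helper1219.valuation_kronWitness A (IsLocalRing.residue A) N q hqN, inv_one]
  -- `b⁻¹ ∉ v_0`
  have h2 : b⁻¹ ∉ kV K (A.comap (algebraMap K Qb)) N q hqN hcop 1 := by
    rw [mem_kV_one_iff_layerHom, map_inv₀, hb]
    intro hmem
    have h3 := helper1219.valuation_gaussFW_kronWitness_lt_one A (IsLocalRing.residue A) N q hqN
      (helper1219.atkinLehnerHall N q hqN hcop) hW1 hW2
    rw [← ValuationSubring.mem_nonunits_iff, ValuationSubring.mem_nonunits_iff_or] at h3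
    rcases h3 with h3 | h3
    · exact hb0 h3
    · exact h3 hmem
  rw [heq] at h1
  exact h2 h1

/-- Distinctness propagates up the tower: if `v'_∞ ≠ v'_0` at level `N` (for `W_Q`), then
`v_∞ ≠ v_0` at level `N q` (for `W_{Q q}`), `q` prime to `N / Q`. -/
theorem kV_ne_mul (O : ValuationSubring K) (N Q : ℕ) [NeZero N] (hQ : Q ∣ N)
    (hcop : Nat.Coprime Q (N / Q)) (q : ℕ) [NeZero q] (hq : Nat.Coprime q (N / Q))
    (hQ' : Q * q ∣ N * q) (hcop' : Nat.Coprime (Q * q) (N * q / (Q * q)))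
    (hne : kV K O N Q hQ hcop 0 ≠ kV K O N Q hQ hcop 1) :
    kV K O (N * q) (Q * q) hQ' hcop' 0 ≠ kV K O (N * q) (Q * q) hQ' hcop' 1 := by
  intro heq
  apply hne
  ext x
  rw [← heckeAlphaBar_mem_kV_zero_iff K O N Q hQ hcop q hQ' hcop',
    ← heckeAlphaBar_mem_kV_one_iff K O N Q hQ hcop q hq hQ' hcop', heq]

/-- `ord_ind` of `KillData` for the pair `(∞, 0)`. -/
theorem exists_sep_kV {O : ValuationSubring K} (N Q : ℕ) [NeZero N] (hQ : Q ∣ N)
    (hcop : Nat.Coprime Q (N / Q)) {ϖ : K} (h : IsUnifOf O ϖ)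
    (hne : kV K O N Q hQ hcop 0 ≠ kV K O N Q hQ hcop 1) (i j : Fin 2) (hij : i ≠ j) :
    ∃ y : FL K N, y ≠ 0 ∧ 0 ≤ kOrd K O N Q hQ hcop ϖ i y ∧ kOrd K O N Q hQ hcop ϖ j y < 0 := by
  have hne' : kV K O N Q hQ hcop i ≠ kV K O N Q hQ hcop j := by
    fin_cases i <;> fin_cases j
    · exact absurd rfl hij
    · exact hne
    · exact Ne.symm hne
    · exact absurd rfl hij
  rw [kOrd_eq_ordOf, kOrd_eq_ordOf]
  exact (isUnifOf_kV K N Q hQ hcop h i).exists_sep (isUnifOf_kV K N Q hQ hcop h j) hne'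

end Distinct

end Fermat.Agent.S36.helper3953
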