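import Mathlib
import Fermat.Agent.S36.helper405_KillTerms
import Fermat.Agent.S36.helper3953_KValInst

/-!
# S36 (KILL-INST, block UNIF): the `(∞, 0)` part of the `ord` block on the concrete terms

Exact-target theorems for fields of `helper405.KillInput` (terms of
`Fermat.Agent.S36.helper405_KillTerms`), at arbitrary
`(A, M₁, q, hq, hqM, hq2, hA : A.LiesOverPrime q)`:

* `unif_inf_modular`   : `IsUnifOf (Vinf A M₁ q) (q : FK A (M₁ * q))`
* `unif_zero_modular`  : `IsUnifOf (Vzero A M₁ q hq hqM hq2) (q : FK A (M₁ * q))`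
* `unif_inf'_modular`  : `IsUnifOf (Vinf' A M₁) (q : FK A M₁)`
* `unif_zero'_modular` : `IsUnifOf (Vzero' A M₁ q hq hqM hq2) (q : FK A M₁)`
* `ne_inf_zero_modular` : `Vinf A M₁ q ≠ Vzero A M₁ q hq hqM hq2`
* `vinf'_ne_vzero'_modular` : `Vinf' A M₁ ≠ Vzero' A M₁ q hq hqM hq2`
  (the level-`M₁` input from which the α/β mem-tables give `ne_inf_mid`, `ne_mid_zero`).

Everything is an adapter: the four rings are `helper3953.kV` (`Vinf* = kV … 0`, `Vzero* = kV … 1`
for `W = helper1219.atkinLehnerHall`), whose discreteness (`isUnifOf_kV`, `isUnifOf_inertia`) and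
distinctness (`kV_ne_of_prime`: Kronecker witness `j - j_q ^ q`; `kV_ne_mul`: the `α` tables) are
proved in `helper3953_KValInst`.
-/

set_option autoImplicit false

noncomputable section

namespace Fermat.Agent.S36.helper3953.Inst

open ModularCurve
open Fermat.Agent.S36.helper405
open Fermat.Agent.S35

local notation "Qb" => AlgebraicClosure ℚ

/-- The structure `helper3953.IsUnifOf` gives the predicate `helper1013.IsUnifOf`. -/
theorem isUnifOf_bridge {F : Type*} [Field F] {V : ValuationSubring F} {ϖ : F}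
    (h : Fermat.Agent.S36.helper3953.IsUnifOf V ϖ) :
    Fermat.Agent.S36.helper1013.IsUnifOf V ϖ :=
  ⟨h.mem, h.inv_not_mem, fun x hx => by
    obtain ⟨k, h1, h2⟩ := h.exists_zpow x hx
    exact ⟨k, mul_ne_zero hx (zpow_ne_zero _ h.ne_zero), h1, h2⟩⟩

variable (A : ValuationSubring Qb)

/-- `v_∞` at level `N` is the component `0` of the pair `kV` (for any Hall divisor `Q`). -/
theorem vinfAt_eq (N Q : ℕ) [NeZero N] (hQ : Q ∣ N) (hcop : Nat.Coprime Q (N / Q)) :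
    VinfAt A N = kV (KI A) (OI A) N Q hQ hcop 0 := by
  ext x
  exact (mem_kV_zero_iff_layerHom (KI A) A N Q hQ hcop x).symm

variable (M₁ q : ℕ) [NeZero M₁] [NeZero q]

/-- `v'_0` at level `M₁` is the component `1` of the pair `kV` for `W_q`. -/
theorem vzero'_eq (hq : q.Prime) (hqM : q ∣ M₁) (hq2 : ¬ q ^ 2 ∣ M₁) :
    Vzero' A M₁ q hq hqM hq2
      = kV (KI A) (OI A) M₁ q hqM (coprime_level hq hqM hq2) 1 := by
  ext x
  rw [mem_kV_one_iff_layerHom, helper1219.mem_gaussFW_iff]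
  rfl

/-- `v_0` at level `M₁ * q` is the component `1` of the pair `kV` for `W_{q²}`. -/
theorem vzero_eq (hq : q.Prime) (hqM : q ∣ M₁) (hq2 : ¬ q ^ 2 ∣ M₁) :
    Vzero A M₁ q hq hqM hq2
      = kV (KI A) (OI A) (M₁ * q) (q * q) (sq_dvd_level hqM) (coprime_sq_level hq hqM hq2) 1 := by
  ext x
  rw [mem_kV_one_iff_layerHom, helper1219.mem_gaussFW_iff]
  rfl

/-- **`unif_inf'`**: `q` is a uniformiser of `v'_∞`. -/
theorem unif_inf'_modular (hq : q.Prime) (hqM : q ∣ M₁) (hq2 : ¬ q ^ 2 ∣ M₁)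
    (hA : A.LiesOverPrime q) :
    Fermat.Agent.S36.helper1013.IsUnifOf (Vinf' A M₁) (q : FK A M₁) := by
  have h := isUnifOf_kV (KI A) M₁ q hqM (coprime_level hq hqM hq2) (isUnifOf_inertia A hq hA) 0
  rw [map_natCast] at h
  rw [Vinf', vinfAt_eq A M₁ q hqM (coprime_level hq hqM hq2)]
  exact isUnifOf_bridge h

/-- **`unif_zero'`**: `q` is a uniformiser of `v'_0`. -/
theorem unif_zero'_modular (hq : q.Prime) (hqM : q ∣ M₁) (hq2 : ¬ q ^ 2 ∣ M₁)
    (hA : A.LiesOverPrime q) :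
    Fermat.Agent.S36.helper1013.IsUnifOf (Vzero' A M₁ q hq hqM hq2) (q : FK A M₁) := by
  have h := isUnifOf_kV (KI A) M₁ q hqM (coprime_level hq hqM hq2) (isUnifOf_inertia A hq hA) 1
  rw [map_natCast] at h
  rw [vzero'_eq]
  exact isUnifOf_bridge h

/-- **`unif_inf`**: `q` is a uniformiser of `v_∞`. -/
theorem unif_inf_modular (hq : q.Prime) (hqM : q ∣ M₁) (hq2 : ¬ q ^ 2 ∣ M₁)
    (hA : A.LiesOverPrime q) :
    Fermat.Agent.S36.helper1013.IsUnifOf (Vinf A M₁ q) (q : FK A (M₁ * q)) := by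
  have h := isUnifOf_kV (KI A) (M₁ * q) (q * q) (sq_dvd_level hqM) (coprime_sq_level hq hqM hq2)
    (isUnifOf_inertia A hq hA) 0
  rw [map_natCast] at h
  rw [Vinf, vinfAt_eq A (M₁ * q) (q * q) (sq_dvd_level hqM) (coprime_sq_level hq hqM hq2)]
  exact isUnifOf_bridge h

/-- **`unif_zero`**: `q` is a uniformiser of `v_0`. -/
theorem unif_zero_modular (hq : q.Prime) (hqM : q ∣ M₁) (hq2 : ¬ q ^ 2 ∣ M₁)
    (hA : A.LiesOverPrime q) :
    Fermat.Agent.S36.helper1013.IsUnifOf (Vzero A M₁ q hq hqM hq2) (q : FK A (M₁ * q)) := by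
  have h := isUnifOf_kV (KI A) (M₁ * q) (q * q) (sq_dvd_level hqM) (coprime_sq_level hq hqM hq2)
    (isUnifOf_inertia A hq hA) 1
  rw [map_natCast] at h
  rw [vzero_eq]
  exact isUnifOf_bridge h

/-- **`v'_∞ ≠ v'_0`** at level `M₁` (Kronecker witness `j - j_q ^ q`, which is `K`-rational). -/
theorem vinf'_ne_vzero'_modular (hq : q.Prime) (hqM : q ∣ M₁) (hq2 : ¬ q ^ 2 ∣ M₁)
    (hA : A.LiesOverPrime q) :
    Vinf' A M₁ ≠ Vzero' A M₁ q hq hqM hq2 := by
  have h1 := kV_ne_of_prime (KI A) A hq hA M₁ hqM (coprime_level hq hqM hq2)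
  rw [Vinf', vinfAt_eq A M₁ q hqM (coprime_level hq hqM hq2), vzero'_eq]
  exact h1

/-- **`ne_inf_zero`**: `v_∞ ≠ v_0` at level `M₁ * q`. -/
theorem ne_inf_zero_modular (hq : q.Prime) (hqM : q ∣ M₁) (hq2 : ¬ q ^ 2 ∣ M₁)
    (hA : A.LiesOverPrime q) :
    Vinf A M₁ q ≠ Vzero A M₁ q hq hqM hq2 := by
  have h1 := kV_ne_of_prime (KI A) A hq hA M₁ hqM (coprime_level hq hqM hq2)
  have h2 := kV_ne_mul (KI A) (OI A) M₁ q hqM (coprime_level hq hqM hq2) q
    (coprime_level hq hqM hq2) (sq_dvd_level hqM) (coprime_sq_level hq hqM hq2) h1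
  rw [Vinf, vinfAt_eq A (M₁ * q) (q * q) (sq_dvd_level hqM) (coprime_sq_level hq hqM hq2),
    vzero_eq]
  exact h2

end Fermat.Agent.S36.helper3953.Inst
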