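import Fermat.Agent.S36.helper8831_MidValuation

/-!
# S36 — the norm table of the two-extension datum (helper8831)

Continuation of `helper8831_MidValuation`: for a `MidDatum V' ϖ u G m T` with
`1, T, …, T ^ (m+1)` linearly independent (`[F : F'] = m + 2`), let `Wm` (middle type) and `Wi`
(type at infinity) be the two valuation rings of `F` over `V'`.

* `gen_of_prime_finrank` : the `gen` field from a prime degree and `T ∉ F'`;
* `MidDatum.mid_val_eq_zpow`, `MidDatum.inf_val_eq_zpow` : discreteness with uniformisers `T`, `ϖ`;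
* `MidDatum.exists_isInt_of_mem` : `Wm ∩ Wi = V'[T]` (integral closure, basis `1, …, T ^ (m+1)`);
* `MidDatum.val_norm_aeval_sub` : `N(g(T)) ≡ g(-u) * g(0) ^ (m+1)` (the companion matrix of
  `X ^ (m+1) (X + u) + ϖ G` is lower triangular modulo `ϖ`);
* `MidDatum.norm_split` : the norm–residue formula `red'(N h) = red_∞(h) * red_mid(h) ^ (m+1)`;
* `MidDatum.val_norm_eq_zpow` : `ord'(N x) = ord_mid(x) + ord_∞(x)`;
* `MidDatum.exists_split` : the split side of `helper36.DegData`, packaged.
-/

set_option autoImplicit false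

namespace Fermat.Agent.S36.helper8831

open Polynomial

variable {F' F : Type*} [Field F'] [Field F] [Algebra F' F]

/-! ### `gen` from a prime degree -/

/-- If `[F : F']` is prime and `T ∉ F'`, then `F = F'[T]`. -/
theorem gen_of_prime_finrank [FiniteDimensional F' F] (T : F)
    (hp : (Module.finrank F' F).Prime) (hT : T ∉ (algebraMap F' F).range) :
    ∀ x : F, ∃ h : F'[X], aeval T h = x := by
  have hT' : IsIntegral F' T := IsIntegral.of_finite F' T
  have := IntermediateField.isSimpleOrder_of_finrank_prime F' F hp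
  have h1 : IntermediateField.adjoin F' {T} = ⊤ := by
    rcases eq_bot_or_eq_top (IntermediateField.adjoin F' {T}) with h | h
    · exfalso
      apply hT
      have h2 : T ∈ IntermediateField.adjoin F' {T} :=
        IntermediateField.mem_adjoin_simple_self F' T
      rw [h] at h2
      exact IntermediateField.mem_bot.mp h2
    · exact h
  intro x
  have hx : x ∈ IntermediateField.adjoin F' {T} := by rw [h1]; exact IntermediateField.mem_top
  rw [← IntermediateField.mem_toSubalgebra,
    IntermediateField.adjoin_simple_toSubalgebra_of_isAlgebraic hT'.isAlgebraic,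
    Algebra.adjoin_singleton_eq_range_aeval] at hx
  exact hx

/-! ### Polynomials with non-unit coefficients -/

/-- All coefficients are non-units of `V'`. -/
def IsNU (V' : ValuationSubring F') (g : F'[X]) : Prop := ∀ i, V'.valuation (g.coeff i) < 1

namespace IsNU

variable {V' : ValuationSubring F'} {g h : F'[X]}

theorem isInt (hg : IsNU V' g) : IsInt V' g := fun i =>
  (V'.valuation_le_one_iff _).mp (hg i).le

theorem add (hg : IsNU V' g) (hh : IsNU V' h) : IsNU V' (g + h) := fun i => by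
  rw [coeff_add]; exact Valuation.map_add_lt _ (hg i) (hh i)

theorem mul_isInt (hg : IsNU V' g) (hh : IsInt V' h) : IsNU V' (g * h) := fun i => by
  rw [coeff_mul]
  refine Valuation.map_sum_lt _ one_ne_zero fun x _ => ?_
  rw [map_mul]
  calc V'.valuation (g.coeff x.1) * V'.valuation (h.coeff x.2)
      ≤ V'.valuation (g.coeff x.1) * 1 :=
        mul_le_mul_right ((V'.valuation_le_one_iff _).mpr (hh x.2)) _
    _ = V'.valuation (g.coeff x.1) := mul_one _
    _ < 1 := hg x.1

theorem C {c : F'} (hc : V'.valuation c < 1) : IsNU V' (C c) := fun i => by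
  rw [coeff_C]
  split_ifs
  · exact hc
  · rw [map_zero]; exact zero_lt_one

end IsNU

section Over

variable {V' : ValuationSubring F'} {W : ValuationSubring F}

/-- The value at an element of `W` of a polynomial with non-unit coefficients is a non-unit. -/
theorem val_aeval_lt_one_of_isNU (hW : W.comap (algebraMap F' F) = V') {Z : F} (hZ : Z ∈ W)
    {g : F'[X]} (hg : IsNU V' g) : W.valuation (aeval Z g) < 1 := by
  rw [aeval_eq_sum_range]
  refine Valuation.map_sum_lt _ one_ne_zero fun i _ => ?_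
  rw [Algebra.smul_def, map_mul, map_pow]
  calc W.valuation (algebraMap F' F (g.coeff i)) * W.valuation Z ^ i
      ≤ W.valuation (algebraMap F' F (g.coeff i)) * 1 :=
        mul_le_mul_right (pow_le_one₀ zero_le ((W.valuation_le_one_iff _).mpr hZ)) _
    _ = W.valuation (algebraMap F' F (g.coeff i)) := mul_one _
    _ < 1 := (val_map_lt_one_iff hW _).mpr (hg i)

end Over

namespace MidDatum

variable {V' : ValuationSubring F'} {ϖ u : F'} {G : F'[X]} {m : ℕ} {T : F}
variable {W : ValuationSubring F}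

/-! ### `zpow` forms of the structure theorems -/

theorem mid_val_eq_zpow (D : MidDatum V' ϖ u G m T) (hW : W.comap (algebraMap F' F) = V')
    (hT : W.valuation T < 1) {x : F} (hx : x ≠ 0) :
    ∃ n : ℤ, W.valuation x = W.valuation T ^ n := by
  obtain ⟨e, n, y, hy, h⟩ := D.mid_structure hW hT hx
  have hv := congrArg W.valuation h
  rw [map_mul, map_mul, map_pow, map_pow, hy.val hW, mul_one] at hv
  have hT0 : W.valuation T ≠ 0 := (Valuation.ne_zero_iff _).mpr D.T_ne
  refine ⟨(n : ℤ) - e, ?_⟩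
  rw [zpow_sub₀ hT0, zpow_natCast, zpow_natCast, eq_div_iff (pow_ne_zero _ hT0)]
  exact hv

theorem inf_val_eq_zpow (D : MidDatum V' ϖ u G m T) (hW : W.comap (algebraMap F' F) = V')
    (hS : W.valuation (T + algebraMap F' F u) < 1) {x : F} (hx : x ≠ 0) :
    ∃ n : ℤ, W.valuation x = W.valuation (algebraMap F' F ϖ) ^ n := by
  obtain ⟨e, n, y, hy, h⟩ := D.inf_structure hW hS hx
  have hv := congrArg W.valuation h
  rw [map_mul, map_mul, map_pow, map_pow, hy.val hW, mul_one] at hv
  have h0 : W.valuation (algebraMap F' F ϖ) ≠ 0 := D.val_ϖ_pos.ne'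
  refine ⟨(n : ℤ) - e, ?_⟩
  rw [zpow_sub₀ h0, zpow_natCast, zpow_natCast, eq_div_iff (pow_ne_zero _ h0)]
  exact hv

/-- A non-unit of `V'` has, in any `W` over `V'`, valuation at most that of `ϖ`. -/
theorem val_map_le_of_lt (D : MidDatum V' ϖ u G m T) (hW : W.comap (algebraMap F' F) = V')
    {c : F'} (hc : V'.valuation c < 1) :
    W.valuation (algebraMap F' F c) ≤ W.valuation (algebraMap F' F ϖ) := by
  have h1 := D.unif c hc
  have e : algebraMap F' F c = algebraMap F' F ϖ * algebraMap F' F (c * ϖ⁻¹) := by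
    rw [← map_mul, mul_comm c, mul_inv_cancel_left₀ D.ϖ_ne]
  rw [e, map_mul]
  calc W.valuation (algebraMap F' F ϖ) * W.valuation (algebraMap F' F (c * ϖ⁻¹))
      ≤ W.valuation (algebraMap F' F ϖ) * 1 :=
        mul_le_mul_right ((val_map_le_one_iff hW _).mpr ((V'.valuation_le_one_iff _).mpr h1)) _
    _ = W.valuation (algebraMap F' F ϖ) := mul_one _

/-! ### The integral closure -/

/-- Middle type: if `g(T)` has valuation at most `w(T) ^ k` (`k ≤ m + 1`), then the first `k`
coefficients of the integral polynomial `g` are non-units. -/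
theorem mid_coeff_lt (D : MidDatum V' ϖ u G m T) (hW : W.comap (algebraMap F' F) = V')
    (hT : W.valuation T < 1) :
    ∀ (k : ℕ), k ≤ m + 1 → ∀ g : F'[X], IsInt V' g →
      W.valuation (aeval T g) ≤ W.valuation T ^ k → ∀ i < k, V'.valuation (g.coeff i) < 1 := by
  have hTpos : 0 < W.valuation T := zero_lt_iff.mpr ((Valuation.ne_zero_iff _).mpr D.T_ne)
  intro k
  induction k with
  | zero => intro _ g _ _ i hi; exact absurd hi (Nat.not_lt_zero i)
  | succ k ih =>
    intro hk g hg hv i hi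
    have hlt : W.valuation (aeval T g) < 1 :=
      lt_of_le_of_lt hv (pow_lt_one₀ zero_le hT (Nat.succ_ne_zero k))
    have h0 : V'.valuation (g.coeff 0) < 1 := (val_aeval_lt_one_iff hW hT hg).mp hlt
    rcases i with _ | i
    · exact h0
    · have e : T * aeval T g.divX = aeval T g - algebraMap F' F (g.coeff 0) := by
        rw [aeval_eq_divX T g]; ring
      have h1 : W.valuation (algebraMap F' F (g.coeff 0)) ≤ W.valuation T ^ (k + 1) := by
        refine le_trans (D.val_map_le_of_lt hW h0) ?_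
        rw [← D.mid_val_pow hW hT]
        exact pow_le_pow_right_of_le_one' hT.le hk
      have h2 : W.valuation (T * aeval T g.divX) ≤ W.valuation T ^ (k + 1) := by
        rw [e]
        exact le_trans (Valuation.map_sub _ _ _) (max_le hv h1)
      rw [map_mul, pow_succ'] at h2
      have h3 : W.valuation (aeval T g.divX) ≤ W.valuation T ^ k :=
        le_of_mul_le_mul_left h2 hTpos
      have := ih (Nat.le_of_succ_le hk) g.divX hg.divX h3 i (Nat.lt_of_succ_lt_succ hi)
      rwa [coeff_divX] at this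

variable {Wm Wi : ValuationSubring F}

/-- Descent step for the integral closure: an integral polynomial `g` of degree `< m + 2` with
`g(T) ∈ ϖ (Wm ∩ Wi)` has all its coefficients in the maximal ideal of `V'`. -/
theorem isNU_of_aeval_eq_mul (D : MidDatum V' ϖ u G m T)
    (hWm : Wm.comap (algebraMap F' F) = V') (hWi : Wi.comap (algebraMap F' F) = V')
    (hT : Wm.valuation T < 1) (hS : Wi.valuation (T + algebraMap F' F u) < 1)
    {g : F'[X]} (hg : IsInt V' g) (hdeg : g.natDegree < m + 2) {x : F}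
    (hxm : x ∈ Wm) (hxi : x ∈ Wi) (e : aeval T g = algebraMap F' F ϖ * x) : IsNU V' g := by
  have hXu : IsInt V' (X - C (-u)) := IsInt.X.sub (IsInt.C (neg_mem D.u_mem))
  -- the value at `-u` is a non-unit
  have hc0 : V'.valuation (g.eval (-u)) < 1 := by
    have hcomp : IsInt V' (g.comp (X - C u)) := hg.comp (IsInt.X.sub (IsInt.C D.u_mem))
    have h1 : aeval (T + algebraMap F' F u) (g.comp (X - C u)) = aeval T g := by
      rw [aeval_comp]; simp
    have h2 : Wi.valuation (aeval (T + algebraMap F' F u) (g.comp (X - C u))) < 1 := by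
      rw [h1, e, map_mul]
      calc Wi.valuation (algebraMap F' F ϖ) * Wi.valuation x
          ≤ Wi.valuation (algebraMap F' F ϖ) * 1 :=
            mul_le_mul_right ((Wi.valuation_le_one_iff _).mpr hxi) _
        _ = Wi.valuation (algebraMap F' F ϖ) := mul_one _
        _ < 1 := D.val_ϖ_lt hWi
    have h3 := (val_aeval_lt_one_iff hWi hS hcomp).mp h2
    rwa [coeff_zero_eq_eval_zero, eval_comp, eval_sub, eval_X, eval_C, zero_sub] at h3
  -- divide by `X + u`
  obtain ⟨g1, hg1, hdeg1, hdiv⟩ : ∃ g1 : F'[X], IsInt V' g1 ∧ g1.natDegree < m + 1 ∧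
      g = C (g.eval (-u)) + (X + C u) * g1 := by
    refine ⟨g /ₘ (X - C (-u)), hg.divByMonic hXu (monic_X_sub_C _), ?_, ?_⟩
    · rw [natDegree_divByMonic g (monic_X_sub_C _), natDegree_X_sub_C]
      omega
    · have h := modByMonic_add_div g (X - C (-u))
      rw [modByMonic_X_sub_C_eq_C_eval] at h
      have e0 : (X - C (-u) : F'[X]) = X + C u := by rw [C_neg, sub_neg_eq_add]
      rw [← e0]
      exact h.symm
  -- the quotient has small value at the middle valuation
  have hval : Wm.valuation (aeval T g1) ≤ Wm.valuation T ^ (m + 1) := by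
    have h6 := congrArg (aeval T) hdiv
    simp only [map_add, map_mul, aeval_C, aeval_X] at h6
    have e1 : (T + algebraMap F' F u) * aeval T g1 =
        aeval T g - algebraMap F' F (g.eval (-u)) := by
      linear_combination (-1 : F) * h6
    have h4 : Wm.valuation (aeval T g) ≤ Wm.valuation (algebraMap F' F ϖ) := by
      rw [e, map_mul]
      calc Wm.valuation (algebraMap F' F ϖ) * Wm.valuation x
          ≤ Wm.valuation (algebraMap F' F ϖ) * 1 :=
            mul_le_mul_right ((Wm.valuation_le_one_iff _).mpr hxm) _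
        _ = Wm.valuation (algebraMap F' F ϖ) := mul_one _
    have h5 := congrArg Wm.valuation e1
    rw [map_mul, D.mid_val_S hWm hT, one_mul] at h5
    rw [h5, D.mid_val_pow hWm hT]
    exact le_trans (Valuation.map_sub _ _ _) (max_le h4 (D.val_map_le_of_lt hWm hc0))
  have hNU1 : IsNU V' g1 := by
    intro i
    by_cases hi : i < m + 1
    · exact D.mid_coeff_lt hWm hT (m + 1) le_rfl _ hg1 hval i hi
    · rw [coeff_eq_zero_of_natDegree_lt (lt_of_lt_of_le hdeg1 (not_lt.mp hi)), map_zero]
      exact zero_lt_one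
  rw [hdiv, mul_comm]
  exact (IsNU.C hc0).add (hNU1.mul_isInt (IsInt.X.add (IsInt.C D.u_mem)))

theorem exists_isInt_of_pow_mul (D : MidDatum V' ϖ u G m T)
    (hWm : Wm.comap (algebraMap F' F) = V') (hWi : Wi.comap (algebraMap F' F) = V')
    (hT : Wm.valuation T < 1) (hS : Wi.valuation (T + algebraMap F' F u) < 1) :
    ∀ (N : ℕ) (x : F), x ∈ Wm → x ∈ Wi → ∀ g : F'[X], IsInt V' g → g.natDegree < m + 2 →
      aeval T g = algebraMap F' F ϖ ^ N * x →
      ∃ g' : F'[X], IsInt V' g' ∧ g'.natDegree < m + 2 ∧ aeval T g' = x := by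
  have hϖ0 : algebraMap F' F ϖ ≠ 0 := by rw [Ne, map_eq_zero]; exact D.ϖ_ne
  intro N
  induction N with
  | zero =>
    intro x _ _ g hg hdeg e
    exact ⟨g, hg, hdeg, by rw [e, pow_zero, one_mul]⟩
  | succ N ih =>
    intro x hxm hxi g hg hdeg e
    have hm' : algebraMap F' F ϖ ^ N * x ∈ Wm :=
      Wm.mul_mem _ _ (pow_mem ((map_mem_iff hWm _).mpr D.ϖ_mem) N) hxm
    have hi' : algebraMap F' F ϖ ^ N * x ∈ Wi :=
      Wi.mul_mem _ _ (pow_mem ((map_mem_iff hWi _).mpr D.ϖ_mem) N) hxi
    have e' : aeval T g = algebraMap F' F ϖ * (algebraMap F' F ϖ ^ N * x) := by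
      rw [e, pow_succ]; ring
    have hNU := D.isNU_of_aeval_eq_mul hWm hWi hT hS hg hdeg hm' hi' e'
    refine ih x hxm hxi (C ϖ⁻¹ * g) ?_ ?_ ?_
    · intro i
      rw [coeff_C_mul, mul_comm]
      exact D.unif _ (hNU i)
    · exact lt_of_le_of_lt (natDegree_C_mul_le _ _) hdeg
    · rw [map_mul, aeval_C, e', map_inv₀, inv_mul_cancel_left₀ hϖ0]

/-- **Integral closure**: `Wm ∩ Wi = V'[T]`, with basis `1, T, …, T ^ (m+1)`. -/
theorem exists_isInt_of_mem (D : MidDatum V' ϖ u G m T)
    (hWm : Wm.comap (algebraMap F' F) = V') (hWi : Wi.comap (algebraMap F' F) = V')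
    (hT : Wm.valuation T < 1) (hS : Wi.valuation (T + algebraMap F' F u) < 1)
    {x : F} (hxm : x ∈ Wm) (hxi : x ∈ Wi) :
    ∃ g : F'[X], IsInt V' g ∧ g.natDegree < m + 2 ∧ aeval T g = x := by
  obtain ⟨h, hh⟩ := D.gen x
  have hmon := Qpoly_monic ϖ u D.G_deg
  have hne1 : Qpoly ϖ u G m ≠ 1 := by
    intro h1
    have h2 := congrArg natDegree h1
    rw [Qpoly_natDegree ϖ u D.G_deg, natDegree_one] at h2
    omega
  have hdeg : (h %ₘ Qpoly ϖ u G m).natDegree < m + 2 := by
    have h3 := natDegree_modByMonic_lt h hmon hne1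
    rwa [Qpoly_natDegree ϖ u D.G_deg] at h3
  have hev : aeval T (h %ₘ Qpoly ϖ u G m) = x := by
    have h4 := congrArg (aeval T) (modByMonic_add_div h (Qpoly ϖ u G m))
    rw [map_add, map_mul, D.aeval_Qpoly, zero_mul, add_zero, hh] at h4
    exact h4
  obtain ⟨N, hN⟩ := D.exists_isInt_C_mul (h %ₘ Qpoly ϖ u G m)
  refine D.exists_isInt_of_pow_mul hWm hWi hT hS N x hxm hxi _ (hN N le_rfl)
    (lt_of_le_of_lt (natDegree_C_mul_le _ _) hdeg) ?_
  rw [map_mul, aeval_C, hev, map_pow]


/-! ### The power basis and the matrix of `T` -/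

theorem linearIndependent_pow
    (hindep : ∀ r : F'[X], r.natDegree < m + 2 → aeval T r = 0 → r = 0) :
    LinearIndependent F' (fun i : Fin (m + 2) => T ^ (i : ℕ)) := by
  classical
  rw [Fintype.linearIndependent_iff]
  intro c hc i
  have hdeg : (ofFn (m + 2) c).natDegree < m + 2 := ofFn_natDegree_lt (by omega) c
  have h0 : aeval T (ofFn (m + 2) c) = 0 := by
    rw [aeval_eq_sum_range' hdeg, Finset.sum_range, ← hc]
    refine Finset.sum_congr rfl fun j _ => ?_
    rw [ofFn_coeff_eq_val_of_lt c j.2]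
  have h1 := hindep _ hdeg h0
  have h2 := ofFn_coeff_eq_val_of_lt c i.2
  rw [h1, coeff_zero] at h2
  exact h2.symm

theorem span_pow_eq_top (D : MidDatum V' ϖ u G m T) :
    ⊤ ≤ Submodule.span F' (Set.range fun i : Fin (m + 2) => T ^ (i : ℕ)) := by
  intro x _
  obtain ⟨h, hh⟩ := D.gen x
  have hmon := Qpoly_monic ϖ u D.G_deg
  have hne1 : Qpoly ϖ u G m ≠ 1 := by
    intro h1
    have h2 := congrArg natDegree h1
    rw [Qpoly_natDegree ϖ u D.G_deg, natDegree_one] at h2
    omega
  have hdeg : (h %ₘ Qpoly ϖ u G m).natDegree < m + 2 := by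
    have h3 := natDegree_modByMonic_lt h hmon hne1
    rwa [Qpoly_natDegree ϖ u D.G_deg] at h3
  have hev : aeval T (h %ₘ Qpoly ϖ u G m) = x := by
    have h4 := congrArg (aeval T) (modByMonic_add_div h (Qpoly ϖ u G m))
    rw [map_add, map_mul, D.aeval_Qpoly, zero_mul, add_zero, hh] at h4
    exact h4
  rw [← hev, aeval_eq_sum_range' hdeg, Finset.sum_range]
  exact Submodule.sum_mem _ fun i _ =>
    Submodule.smul_mem _ _ (Submodule.subset_span ⟨i, rfl⟩)

/-- The basis `1, T, …, T ^ (m+1)` of `F` over `F'`. -/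
noncomputable def powBasis (D : MidDatum V' ϖ u G m T)
    (hindep : ∀ r : F'[X], r.natDegree < m + 2 → aeval T r = 0 → r = 0) :
    Module.Basis (Fin (m + 2)) F' F :=
  Module.Basis.mk (linearIndependent_pow hindep) D.span_pow_eq_top

theorem powBasis_apply (D : MidDatum V' ϖ u G m T)
    (hindep : ∀ r : F'[X], r.natDegree < m + 2 → aeval T r = 0 → r = 0) (i : Fin (m + 2)) :
    D.powBasis hindep i = T ^ (i : ℕ) :=
  Module.Basis.mk_apply _ _ i

/-- `T ^ (m+2)` in the power basis. -/
theorem pow_top_eq (D : MidDatum V' ϖ u G m T)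
    (hindep : ∀ r : F'[X], r.natDegree < m + 2 → aeval T r = 0 → r = 0) :
    T ^ (m + 2) = ∑ i : Fin (m + 2), (-(Qpoly ϖ u G m).coeff i) • D.powBasis hindep i := by
  have hmon := Qpoly_monic ϖ u D.G_deg
  have h1 := congrArg (aeval T) hmon.as_sum
  rw [D.aeval_Qpoly, Qpoly_natDegree ϖ u D.G_deg, map_add, map_pow, aeval_X, map_sum,
    Finset.sum_range] at h1
  have h2 : T ^ (m + 2) = -∑ i : Fin (m + 2),
      aeval T (C ((Qpoly ϖ u G m).coeff i) * X ^ (i : ℕ)) := by
    linear_combination -h1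
  rw [h2, ← Finset.sum_neg_distrib]
  refine Finset.sum_congr rfl fun i _ => ?_
  rw [map_mul, aeval_C, map_pow, aeval_X, powBasis_apply, Algebra.smul_def, map_neg, neg_mul]

/-- The matrix of multiplication by `T` in the power basis is the companion matrix of
`Qpoly`. -/
theorem leftMulMatrix_T (D : MidDatum V' ϖ u G m T)
    (hindep : ∀ r : F'[X], r.natDegree < m + 2 → aeval T r = 0 → r = 0) (i j : Fin (m + 2)) :
    Algebra.leftMulMatrix (D.powBasis hindep) T i j =
      if (j : ℕ) + 1 = m + 2 then -(Qpoly ϖ u G m).coeff i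
      else if (i : ℕ) = j + 1 then 1 else 0 := by
  rw [Algebra.leftMulMatrix_eq_repr_mul, powBasis_apply, ← pow_succ']
  split_ifs with h1 h2
  · rw [h1, D.pow_top_eq hindep, Module.Basis.repr_sum_self]
  · have hj : (j : ℕ) + 1 < m + 2 := lt_of_le_of_ne j.2 h1
    have e : T ^ ((j : ℕ) + 1) = D.powBasis hindep ⟨j + 1, hj⟩ := by rw [powBasis_apply]
    have hi : i = ⟨j + 1, hj⟩ := Fin.ext h2
    rw [e, Module.Basis.repr_self, hi, Finsupp.single_eq_same]
  · have hj : (j : ℕ) + 1 < m + 2 := lt_of_le_of_ne j.2 h1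
    have e : T ^ ((j : ℕ) + 1) = D.powBasis hindep ⟨j + 1, hj⟩ := by rw [powBasis_apply]
    have hi : (⟨j + 1, hj⟩ : Fin (m + 2)) ≠ i := fun h => h2 (by rw [← h])
    rw [e, Module.Basis.repr_self, Finsupp.single_eq_of_ne hi.symm]

end MidDatum

/-! ### Polynomials in a lower triangular matrix -/

section Triangular

variable {k : Type*} [CommRing k] {n : ℕ}

theorem mul_diag_of_isLowerTriangular {A B : Matrix (Fin n) (Fin n) k}
    (hA : A.IsLowerTriangular) (hB : B.IsLowerTriangular) (i : Fin n) :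
    (A * B) i i = A i i * B i i := by
  rw [Matrix.mul_apply]
  refine Finset.sum_eq_single i (fun j _ hji => ?_) (fun h => absurd (Finset.mem_univ i) h)
  rcases lt_or_gt_of_ne hji with h | h
  · rw [hB (OrderDual.toDual_lt_toDual.mpr h), mul_zero]
  · rw [hA (OrderDual.toDual_lt_toDual.mpr h), zero_mul]

theorem aeval_isLowerTriangular {M : Matrix (Fin n) (Fin n) k} (hM : M.IsLowerTriangular)
    (p : k[X]) :
    (aeval M p).IsLowerTriangular ∧ ∀ i, (aeval M p) i i = p.eval (M i i) := by
  induction p using Polynomial.induction_on with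
  | C a =>
    rw [aeval_C]
    refine ⟨Matrix.blockTriangular_algebraMap a, fun i => ?_⟩
    rw [Matrix.algebraMap_matrix_apply, if_pos rfl, eval_C]
    rfl
  | add p q hp hq =>
    rw [map_add]
    refine ⟨hp.1.add hq.1, fun i => ?_⟩
    rw [Matrix.add_apply, hp.2, hq.2, eval_add]
  | monomial n a ih =>
    have e : aeval M (C a * X ^ (n + 1)) = aeval M (C a * X ^ n) * M := by
      rw [pow_succ, ← mul_assoc, map_mul, aeval_X]
    rw [e]
    refine ⟨ih.1.mul hM, fun i => ?_⟩
    rw [mul_diag_of_isLowerTriangular ih.1 hM, ih.2]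
    simp only [eval_mul, eval_C, eval_pow, eval_X]
    ring

end Triangular

namespace MidDatum

variable {V' : ValuationSubring F'} {ϖ u : F'} {G : F'[X]} {m : ℕ} {T : F}

/-- **Norm–residue formula** for elements of `V'[T]`:
`N(g(T)) ≡ g(-u) * g(0) ^ (m+1)` modulo the maximal ideal of `V'`. -/
theorem val_norm_aeval_sub (D : MidDatum V' ϖ u G m T)
    (hindep : ∀ r : F'[X], r.natDegree < m + 2 → aeval T r = 0 → r = 0)
    {g : F'[X]} (hg : IsInt V' g) :
    V'.valuation (Algebra.norm F' (aeval T g) - g.eval (-u) * g.eval 0 ^ (m + 1)) < 1 := by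
  classical
  obtain ⟨g₀, rfl⟩ := (Polynomial.mem_lifts _).mp hg.mem_lifts
  obtain ⟨Q₀, hQ₀⟩ := (Polynomial.mem_lifts _).mp D.Qpoly_isInt.mem_lifts
  let A₀ : Matrix (Fin (m + 2)) (Fin (m + 2)) ↥V' := Matrix.of fun i j =>
    if (j : ℕ) + 1 = m + 2 then -Q₀.coeff i else if (i : ℕ) = j + 1 then 1 else 0
  have hA₀ : ∀ i j : Fin (m + 2), A₀ i j =
      if (j : ℕ) + 1 = m + 2 then -Q₀.coeff i else if (i : ℕ) = j + 1 then 1 else 0 :=
    fun _ _ => rfl
  have hA : Algebra.leftMulMatrix (D.powBasis hindep) T = V'.subtype.mapMatrix A₀ := by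
    ext i j
    rw [D.leftMulMatrix_T hindep, RingHom.mapMatrix_apply, Matrix.map_apply, hA₀]
    split_ifs
    · rw [map_neg, ← hQ₀, coeff_map]
    · rw [map_one]
    · rw [map_zero]
  have hcomm : (algebraMap F' (Matrix (Fin (m + 2)) (Fin (m + 2)) F')).comp V'.subtype =
      (V'.subtype.mapMatrix).comp
        (algebraMap ↥V' (Matrix (Fin (m + 2)) (Fin (m + 2)) ↥V')) := by
    ext x i j
    simp only [RingHom.comp_apply, Matrix.algebraMap_matrix_apply, RingHom.mapMatrix_apply,
      Matrix.map_apply]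
    split_ifs
    · rfl
    · rw [map_zero]
  have hnorm : Algebra.norm F' (aeval T (g₀.map V'.subtype)) =
      V'.subtype (Matrix.det (aeval A₀ g₀)) := by
    rw [Algebra.norm_eq_matrix_det (D.powBasis hindep), ← aeval_algHom_apply, hA,
      ← map_aeval_eq_aeval_map hcomm, ← RingHom.map_det]
  -- reduction modulo the maximal ideal
  have hcommρ : (algebraMap (IsLocalRing.ResidueField ↥V')
        (Matrix (Fin (m + 2)) (Fin (m + 2)) (IsLocalRing.ResidueField ↥V'))).comp
        (IsLocalRing.residue ↥V') =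
      ((IsLocalRing.residue ↥V').mapMatrix).comp
        (algebraMap ↥V' (Matrix (Fin (m + 2)) (Fin (m + 2)) ↥V')) := by
    ext x i j
    simp only [RingHom.comp_apply, Matrix.algebraMap_matrix_apply, RingHom.mapMatrix_apply,
      Matrix.map_apply]
    split_ifs
    · rfl
    · rw [map_zero]
  have hρdet : IsLocalRing.residue ↥V' (Matrix.det (aeval A₀ g₀)) =
      Matrix.det (aeval ((IsLocalRing.residue ↥V').mapMatrix A₀)
        (g₀.map (IsLocalRing.residue ↥V'))) := by
    rw [RingHom.map_det, map_aeval_eq_aeval_map hcommρ]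
  -- coefficients of `Q₀` modulo the maximal ideal
  have hQcoe : ∀ i : ℕ, ((Q₀.coeff i : ↥V') : F') = (Qpoly ϖ u G m).coeff i := by
    intro i
    rw [← hQ₀, coeff_map]
    rfl
  have hQlow : ∀ i : ℕ, i < m + 1 → IsLocalRing.residue ↥V' (Q₀.coeff i) = 0 := by
    intro i hi
    rw [IsLocalRing.residue_eq_zero_iff, ValuationSubring.valuation_lt_one_iff, hQcoe]
    unfold Qpoly
    rw [coeff_add, coeff_X_pow_mul', if_neg (not_le.mpr hi), zero_add, coeff_C_mul, map_mul]
    calc V'.valuation ϖ * V'.valuation (G.coeff i)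
        ≤ V'.valuation ϖ * 1 :=
          mul_le_mul_right ((V'.valuation_le_one_iff _).mpr (D.G_int i)) _
      _ = V'.valuation ϖ := mul_one _
      _ < 1 := D.ϖ_lt
  have hQtop : IsLocalRing.residue ↥V' (Q₀.coeff (m + 1)) =
      IsLocalRing.residue ↥V' ⟨u, D.u_mem⟩ := by
    rw [← sub_eq_zero, ← map_sub, IsLocalRing.residue_eq_zero_iff,
      ValuationSubring.valuation_lt_one_iff]
    have e : (((Q₀.coeff (m + 1) - ⟨u, D.u_mem⟩ : ↥V') : ↥V') : F') = ϖ * G.coeff (m + 1) := by
      show ((Q₀.coeff (m + 1) : ↥V') : F') - u = ϖ * G.coeff (m + 1)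
      rw [hQcoe]
      unfold Qpoly
      rw [coeff_add, coeff_X_pow_mul', if_pos le_rfl, Nat.sub_self, coeff_C_mul, coeff_add,
        coeff_X_zero, coeff_C_zero]
      ring
    rw [e, map_mul]
    calc V'.valuation ϖ * V'.valuation (G.coeff (m + 1))
        ≤ V'.valuation ϖ * 1 :=
          mul_le_mul_right ((V'.valuation_le_one_iff _).mpr (D.G_int (m + 1))) _
      _ = V'.valuation ϖ := mul_one _
      _ < 1 := D.ϖ_lt
  -- the reduced companion matrix is lower triangular
  have hN : ∀ i j : Fin (m + 2), (IsLocalRing.residue ↥V').mapMatrix A₀ i j =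
      if (j : ℕ) + 1 = m + 2 then -IsLocalRing.residue ↥V' (Q₀.coeff i)
      else if (i : ℕ) = j + 1 then 1 else 0 := by
    intro i j
    rw [RingHom.mapMatrix_apply, Matrix.map_apply, hA₀]
    split_ifs
    · rw [map_neg]
    · rw [map_one]
    · rw [map_zero]
  have htri : ((IsLocalRing.residue ↥V').mapMatrix A₀).IsLowerTriangular := by
    intro i j hij
    have hij' : (i : ℕ) < j := Fin.lt_def.mp (OrderDual.toDual_lt_toDual.mp hij)
    rw [hN]
    split_ifs with h1 h2
    · rw [hQlow i (by omega), neg_zero]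
    · exfalso; omega
    · rfl
  have hd1 : ∀ i : Fin (m + 1), (IsLocalRing.residue ↥V').mapMatrix A₀
      (Fin.castSucc i) (Fin.castSucc i) = IsLocalRing.residue ↥V' 0 := by
    intro i
    have hi := i.2
    rw [hN, map_zero]
    simp only [Fin.val_castSucc]
    rw [if_neg (by omega), if_neg (by omega)]
  have hd2 : (IsLocalRing.residue ↥V').mapMatrix A₀ (Fin.last (m + 1)) (Fin.last (m + 1)) =
      IsLocalRing.residue ↥V' (-⟨u, D.u_mem⟩) := by
    rw [hN, map_neg]
    simp only [Fin.val_last]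
    rw [if_pos trivial, hQtop]
  obtain ⟨htri', hdiag⟩ := aeval_isLowerTriangular htri (g₀.map (IsLocalRing.residue ↥V'))
  rw [Matrix.det_of_isLowerTriangular _ htri'] at hρdet
  simp only [hdiag] at hρdet
  rw [Fin.prod_univ_castSucc] at hρdet
  simp only [hd1, hd2, eval_map, eval₂_at_apply, Finset.prod_const, Finset.card_univ,
    Fintype.card_fin] at hρdet
  -- conclusion
  have hfin : IsLocalRing.residue ↥V'
      (Matrix.det (aeval A₀ g₀) - g₀.eval (-⟨u, D.u_mem⟩) * g₀.eval 0 ^ (m + 1)) = 0 := by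
    rw [map_sub, map_mul, map_pow, hρdet]
    ring
  rw [IsLocalRing.residue_eq_zero_iff, ValuationSubring.valuation_lt_one_iff] at hfin
  have e1 : (g₀.map V'.subtype).eval (-u) = ((g₀.eval (-⟨u, D.u_mem⟩) : ↥V') : F') := by
    have : (-u : F') = V'.subtype (-⟨u, D.u_mem⟩) := rfl
    rw [this, eval_map, eval₂_at_apply]
    rfl
  have e2 : (g₀.map V'.subtype).eval 0 = ((g₀.eval 0 : ↥V') : F') := by
    have : (0 : F') = V'.subtype 0 := rfl
    rw [this, eval_map, eval₂_at_apply]
    rfl
  rw [hnorm, e1, e2]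
  exact hfin


/-! ### The split side of the norm table -/

variable {Wm Wi : ValuationSubring F}

/-- Type at infinity: `g(T) ≡ g(-u)`. -/
theorem inf_val_aeval_sub (D : MidDatum V' ϖ u G m T) {W : ValuationSubring F}
    (hW : W.comap (algebraMap F' F) = V') (hS : W.valuation (T + algebraMap F' F u) < 1)
    {g : F'[X]} (hg : IsInt V' g) :
    W.valuation (aeval T g - algebraMap F' F (g.eval (-u))) < 1 := by
  have hcomp : IsInt V' (g.comp (X - C u)) := hg.comp (IsInt.X.sub (IsInt.C D.u_mem))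
  have h1 : aeval (T + algebraMap F' F u) (g.comp (X - C u)) = aeval T g := by
    rw [aeval_comp]; simp
  have h2 : (g.comp (X - C u)).coeff 0 = g.eval (-u) := by
    rw [coeff_zero_eq_eval_zero, eval_comp, eval_sub, eval_X, eval_C, zero_sub]
  have h3 := aeval_eq_divX (T + algebraMap F' F u) (g.comp (X - C u))
  rw [h1, h2] at h3
  rw [h3, add_sub_cancel_right]
  exact val_mul_aeval_lt_one hW hS hcomp.divX

/-- Middle type: `g(T) ≡ g(0)`. -/
theorem mid_val_aeval_sub {W : ValuationSubring F}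
    (hW : W.comap (algebraMap F' F) = V') (hT : W.valuation T < 1)
    {g : F'[X]} (hg : IsInt V' g) :
    W.valuation (aeval T g - algebraMap F' F (g.eval 0)) < 1 := by
  rw [← coeff_zero_eq_eval_zero, aeval_eq_divX T g, add_sub_cancel_right]
  exact val_mul_aeval_lt_one hW hT hg.divX

theorem val_pow_sub_pow_lt {x y : F'} (hx : x ∈ V') (hy : y ∈ V')
    (h : V'.valuation (x - y) < 1) (n : ℕ) : V'.valuation (x ^ n - y ^ n) < 1 := by
  induction n with
  | zero => rw [pow_zero, pow_zero, sub_self, map_zero]; exact zero_lt_one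
  | succ n ih =>
    have e : x ^ (n + 1) - y ^ (n + 1) = x ^ n * (x - y) + (x ^ n - y ^ n) * y := by ring
    rw [e]
    apply Valuation.map_add_lt
    · rw [map_mul]
      calc V'.valuation (x ^ n) * V'.valuation (x - y)
          ≤ 1 * V'.valuation (x - y) :=
            mul_le_mul' ((V'.valuation_le_one_iff _).mpr (pow_mem hx n)) le_rfl
        _ = V'.valuation (x - y) := one_mul _
        _ < 1 := h
    · rw [map_mul]
      calc V'.valuation (x ^ n - y ^ n) * V'.valuation y
          ≤ V'.valuation (x ^ n - y ^ n) * 1 :=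
            mul_le_mul_right ((V'.valuation_le_one_iff _).mpr hy) _
        _ = V'.valuation (x ^ n - y ^ n) := mul_one _
        _ < 1 := ih

/-- **Norm–residue formula on the split side** (the field `norm_split` of `helper36.DegData`):
if `h` is integral at both valuation rings over `V'`, with residue `a` at infinity and residue
`b` at the middle valuation, then `N(h) ≡ a * b ^ (m+1)`. -/
theorem norm_split (D : MidDatum V' ϖ u G m T)
    (hindep : ∀ r : F'[X], r.natDegree < m + 2 → aeval T r = 0 → r = 0)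
    (hWm : Wm.comap (algebraMap F' F) = V') (hWi : Wi.comap (algebraMap F' F) = V')
    (hT : Wm.valuation T < 1) (hS : Wi.valuation (T + algebraMap F' F u) < 1)
    {h : F} (hhi : h ∈ Wi) (hhm : h ∈ Wm) {a b : F'}
    (hai : Wi.valuation (algebraMap F' F a - h) < 1)
    (hbm : Wm.valuation (algebraMap F' F b - h) < 1) :
    V'.valuation (Algebra.norm F' h - a * b ^ (m + 1)) < 1 := by
  obtain ⟨g, hg, -, rfl⟩ := D.exists_isInt_of_mem hWm hWi hT hS hhm hhi
  have hα : g.eval (-u) ∈ V' := hg.eval_mem (neg_mem D.u_mem)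
  have hβ : g.eval 0 ∈ V' := hg.eval_mem V'.zero_mem
  have h1 : V'.valuation (a - g.eval (-u)) < 1 := by
    rw [← val_map_lt_one_iff hWi]
    have e : algebraMap F' F (a - g.eval (-u)) =
        (algebraMap F' F a - aeval T g) + (aeval T g - algebraMap F' F (g.eval (-u))) := by
      rw [map_sub]; ring
    rw [e]
    exact Valuation.map_add_lt _ hai (D.inf_val_aeval_sub hWi hS hg)
  have h2 : V'.valuation (b - g.eval 0) < 1 := by
    rw [← val_map_lt_one_iff hWm]
    have e : algebraMap F' F (b - g.eval 0) =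
        (algebraMap F' F b - aeval T g) + (aeval T g - algebraMap F' F (g.eval 0)) := by
      rw [map_sub]; ring
    rw [e]
    exact Valuation.map_add_lt _ hbm (mid_val_aeval_sub hWm hT hg)
  have hb : b ∈ V' := by
    have e : b = (b - g.eval 0) + g.eval 0 := by ring
    rw [e]
    exact add_mem ((V'.valuation_le_one_iff _).mp h2.le) hβ
  have h3 := val_pow_sub_pow_lt hb hβ h2 (m + 1)
  have h4 := D.val_norm_aeval_sub hindep hg
  have e : Algebra.norm F' (aeval T g) - a * b ^ (m + 1) =
      (Algebra.norm F' (aeval T g) - g.eval (-u) * g.eval 0 ^ (m + 1)) -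
        ((a - g.eval (-u)) * b ^ (m + 1) + g.eval (-u) * (b ^ (m + 1) - g.eval 0 ^ (m + 1))) := by
    ring
  rw [e]
  refine Valuation.map_sub_lt _ h4 (Valuation.map_add_lt _ ?_ ?_)
  · rw [map_mul]
    calc V'.valuation (a - g.eval (-u)) * V'.valuation (b ^ (m + 1))
        ≤ V'.valuation (a - g.eval (-u)) * 1 :=
          mul_le_mul_right ((V'.valuation_le_one_iff _).mpr (pow_mem hb _)) _
      _ = V'.valuation (a - g.eval (-u)) := mul_one _
      _ < 1 := h1
  · rw [map_mul]
    calc V'.valuation (g.eval (-u)) * V'.valuation (b ^ (m + 1) - g.eval 0 ^ (m + 1))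
        ≤ 1 * V'.valuation (b ^ (m + 1) - g.eval 0 ^ (m + 1)) :=
          mul_le_mul' ((V'.valuation_le_one_iff _).mpr hα) le_rfl
      _ = V'.valuation (b ^ (m + 1) - g.eval 0 ^ (m + 1)) := one_mul _
      _ < 1 := h3

/-- Norms of elements integral at both valuation rings are integral. -/
theorem norm_mem (D : MidDatum V' ϖ u G m T)
    (hindep : ∀ r : F'[X], r.natDegree < m + 2 → aeval T r = 0 → r = 0)
    (hWm : Wm.comap (algebraMap F' F) = V') (hWi : Wi.comap (algebraMap F' F) = V')
    (hT : Wm.valuation T < 1) (hS : Wi.valuation (T + algebraMap F' F u) < 1)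
    {x : F} (hxm : x ∈ Wm) (hxi : x ∈ Wi) : Algebra.norm F' x ∈ V' := by
  obtain ⟨g, hg, -, rfl⟩ := D.exists_isInt_of_mem hWm hWi hT hS hxm hxi
  have h := D.val_norm_aeval_sub hindep hg
  have h1 : g.eval (-u) * g.eval 0 ^ (m + 1) ∈ V' :=
    mul_mem (hg.eval_mem (neg_mem D.u_mem)) (pow_mem (hg.eval_mem V'.zero_mem) _)
  have e : Algebra.norm F' (aeval T g) =
      (Algebra.norm F' (aeval T g) - g.eval (-u) * g.eval 0 ^ (m + 1)) +
        g.eval (-u) * g.eval 0 ^ (m + 1) := by ring
  rw [e]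
  exact add_mem ((V'.valuation_le_one_iff _).mp h.le) h1

/-- Units at both valuation rings have unit norm. -/
theorem val_norm_eq_one (D : MidDatum V' ϖ u G m T)
    (hindep : ∀ r : F'[X], r.natDegree < m + 2 → aeval T r = 0 → r = 0)
    (hWm : Wm.comap (algebraMap F' F) = V') (hWi : Wi.comap (algebraMap F' F) = V')
    (hT : Wm.valuation T < 1) (hS : Wi.valuation (T + algebraMap F' F u) < 1)
    {x : F} (hxm : Wm.valuation x = 1) (hxi : Wi.valuation x = 1) :
    V'.valuation (Algebra.norm F' x) = 1 := by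
  have hx0 : x ≠ 0 := by
    intro h0
    rw [h0, map_zero] at hxm
    exact zero_ne_one hxm
  have h1 : V'.valuation (Algebra.norm F' x) ≤ 1 :=
    (V'.valuation_le_one_iff _).mpr (D.norm_mem hindep hWm hWi hT hS
      ((Wm.valuation_le_one_iff _).mp hxm.le) ((Wi.valuation_le_one_iff _).mp hxi.le))
  have h2 : V'.valuation (Algebra.norm F' x⁻¹) ≤ 1 :=
    (V'.valuation_le_one_iff _).mpr (D.norm_mem hindep hWm hWi hT hS
      ((Wm.valuation_le_one_iff _).mp (by rw [map_inv₀, hxm, inv_one]))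
      ((Wi.valuation_le_one_iff _).mp (by rw [map_inv₀, hxi, inv_one])))
  have h3 : V'.valuation (Algebra.norm F' x) * V'.valuation (Algebra.norm F' x⁻¹) = 1 := by
    rw [← map_mul, ← map_mul, mul_inv_cancel₀ hx0, map_one, map_one]
  refine le_antisymm h1 ?_
  rw [← h3]
  calc V'.valuation (Algebra.norm F' x) * V'.valuation (Algebra.norm F' x⁻¹)
      ≤ V'.valuation (Algebra.norm F' x) * 1 := mul_le_mul_right h2 _
    _ = V'.valuation (Algebra.norm F' x) := mul_one _

theorem minpoly_eq_Qpoly (D : MidDatum V' ϖ u G m T)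
    (hindep : ∀ r : F'[X], r.natDegree < m + 2 → aeval T r = 0 → r = 0) :
    minpoly F' T = Qpoly ϖ u G m := by
  refine (minpoly.unique' F' T (Qpoly_monic ϖ u D.G_deg) D.aeval_Qpoly fun q hq => ?_).symm
  by_cases hq0 : q = 0
  · exact Or.inl hq0
  · right
    intro h0
    apply hq0
    refine hindep q ?_ h0
    have := natDegree_lt_natDegree hq0 hq
    rwa [Qpoly_natDegree ϖ u D.G_deg] at this

theorem norm_T (D : MidDatum V' ϖ u G m T)
    (hindep : ∀ r : F'[X], r.natDegree < m + 2 → aeval T r = 0 → r = 0) :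
    Algebra.norm F' T = (-1) ^ (m + 2) * (ϖ * G.coeff 0) := by
  have h := Algebra.PowerBasis.norm_gen_eq_coeff_zero_minpoly
    (⟨T, m + 2, D.powBasis hindep, D.powBasis_apply hindep⟩ : PowerBasis F' F)
  have h' : Algebra.norm F' T = (-1) ^ (m + 2) * (minpoly F' T).coeff 0 := h
  rw [h', D.minpoly_eq_Qpoly hindep]
  unfold Qpoly
  rw [coeff_add, coeff_X_pow_mul', if_neg (by omega), zero_add, coeff_C_mul]

theorem val_norm_T (D : MidDatum V' ϖ u G m T)
    (hindep : ∀ r : F'[X], r.natDegree < m + 2 → aeval T r = 0 → r = 0) :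
    V'.valuation (Algebra.norm F' T) = V'.valuation ϖ := by
  rw [D.norm_T hindep, map_mul, map_pow, Valuation.map_neg, map_one, one_pow, one_mul, map_mul,
    D.G_unit, mul_one]

theorem norm_algebraMap_eq (D : MidDatum V' ϖ u G m T)
    (hindep : ∀ r : F'[X], r.natDegree < m + 2 → aeval T r = 0 → r = 0) (c : F') :
    Algebra.norm F' (algebraMap F' F c) = c ^ (m + 2) := by
  rw [Algebra.norm_algebraMap_of_basis (D.powBasis hindep), Fintype.card_fin]

/-- **Order of a norm on the split side** (the field `ord_split` of `helper36.DegData`, in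
valuation form): if `x` has order `i` at the middle valuation (uniformiser `T`) and order `j` at
infinity (uniformiser `ϖ`), then `N(x)` has order `i + j`. -/
theorem val_norm_eq_zpow (D : MidDatum V' ϖ u G m T)
    (hindep : ∀ r : F'[X], r.natDegree < m + 2 → aeval T r = 0 → r = 0)
    (hWm : Wm.comap (algebraMap F' F) = V') (hWi : Wi.comap (algebraMap F' F) = V')
    (hT : Wm.valuation T < 1) (hS : Wi.valuation (T + algebraMap F' F u) < 1)
    {x : F} {i j : ℤ} (hi : Wm.valuation x = Wm.valuation T ^ i)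
    (hj : Wi.valuation x = Wi.valuation (algebraMap F' F ϖ) ^ j) :
    V'.valuation (Algebra.norm F' x) = V'.valuation ϖ ^ (i + j) := by
  have hT0 : T ≠ 0 := D.T_ne
  have hϖ0 : algebraMap F' F ϖ ≠ 0 := by rw [Ne, map_eq_zero]; exact D.ϖ_ne
  have hvT : Wm.valuation T ≠ 0 := (Valuation.ne_zero_iff _).mpr hT0
  have hvϖ : Wi.valuation (algebraMap F' F ϖ) ≠ 0 := (Valuation.ne_zero_iff _).mpr hϖ0
  have hvϖ' : V'.valuation ϖ ≠ 0 := (Valuation.ne_zero_iff _).mpr D.ϖ_ne
  have : Module.Finite F' F := Module.Finite.of_basis (D.powBasis hindep)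
  have hinv : ∀ z : F, Algebra.norm F' z⁻¹ = (Algebra.norm F' z)⁻¹ := by
    intro z
    rcases eq_or_ne z 0 with rfl | hz
    · rw [inv_zero, Algebra.norm_zero, inv_zero]
    · refine eq_inv_of_mul_eq_one_left ?_
      rw [← map_mul, inv_mul_cancel₀ hz, map_one]
  have hzpow : ∀ (z : F) (n : ℤ), Algebra.norm F' (z ^ n) = Algebra.norm F' z ^ n := by
    intro z n
    cases n with
    | ofNat k => simp only [Int.ofNat_eq_natCast, zpow_natCast, map_pow]
    | negSucc k => rw [zpow_negSucc, zpow_negSucc, hinv, map_pow]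
  -- the auxiliary element `P = ϖ / T ^ (m+1)`
  have hPm : Wm.valuation (algebraMap F' F ϖ * (T ^ (m + 1))⁻¹) = 1 := by
    rw [map_mul, map_inv₀, map_pow, D.mid_val_pow hWm hT]
    exact mul_inv_cancel₀ ((Valuation.ne_zero_iff _).mpr hϖ0)
  have hPi : Wi.valuation (algebraMap F' F ϖ * (T ^ (m + 1))⁻¹) =
      Wi.valuation (algebraMap F' F ϖ) := by
    rw [map_mul, map_inv₀, map_pow, D.inf_val_T hWi hS, one_pow, inv_one, mul_one]
  have hNP : V'.valuation (Algebra.norm F' (algebraMap F' F ϖ * (T ^ (m + 1))⁻¹)) =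
      V'.valuation ϖ := by
    rw [map_mul, hinv, map_pow, map_mul, map_inv₀, map_pow, D.norm_algebraMap_eq hindep,
      D.val_norm_T hindep, map_pow, pow_succ (V'.valuation ϖ) (m + 1),
      mul_comm (V'.valuation ϖ ^ (m + 1)), mul_assoc,
      mul_inv_cancel₀ (pow_ne_zero _ hvϖ'), mul_one]
  -- the unit `y`
  have hym : Wm.valuation (x * (T ^ i)⁻¹ * ((algebraMap F' F ϖ * (T ^ (m + 1))⁻¹) ^ j)⁻¹) = 1 := by
    rw [map_mul, map_mul, map_inv₀, map_inv₀, map_zpow₀, map_zpow₀, hPm, one_zpow, inv_one,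
      mul_one, hi]
    exact mul_inv_cancel₀ (zpow_ne_zero _ hvT)
  have hyi : Wi.valuation (x * (T ^ i)⁻¹ * ((algebraMap F' F ϖ * (T ^ (m + 1))⁻¹) ^ j)⁻¹) = 1 := by
    rw [map_mul, map_mul, map_inv₀, map_inv₀, map_zpow₀, map_zpow₀, hPi, D.inf_val_T hWi hS,
      one_zpow, inv_one, mul_one, hj]
    exact mul_inv_cancel₀ (zpow_ne_zero _ hvϖ)
  have h1 := D.val_norm_eq_one hindep hWm hWi hT hS hym hyi
  have hN : Algebra.norm F' (x * (T ^ i)⁻¹ * ((algebraMap F' F ϖ * (T ^ (m + 1))⁻¹) ^ j)⁻¹) =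
      Algebra.norm F' x * (Algebra.norm F' T ^ i)⁻¹ *
        (Algebra.norm F' (algebraMap F' F ϖ * (T ^ (m + 1))⁻¹) ^ j)⁻¹ := by
    rw [map_mul, map_mul, hinv, hinv, hzpow, hzpow]
  rw [hN, map_mul, map_mul, map_inv₀, map_inv₀, map_zpow₀, map_zpow₀, hNP,
    D.val_norm_T hindep] at h1
  rw [zpow_add₀ hvϖ']
  have hi0 := zpow_ne_zero i hvϖ'
  have hj0 := zpow_ne_zero j hvϖ'
  have h2 : V'.valuation (Algebra.norm F' x) =
      V'.valuation (Algebra.norm F' x) * (V'.valuation ϖ ^ i)⁻¹ * (V'.valuation ϖ ^ j)⁻¹ *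
        (V'.valuation ϖ ^ i * V'.valuation ϖ ^ j) := by
    rw [mul_assoc (V'.valuation (Algebra.norm F' x)), mul_assoc (V'.valuation (Algebra.norm F' x)),
      ← mul_inv, inv_mul_cancel₀ (mul_ne_zero hi0 hj0), mul_one]
  rw [h2, h1, one_mul]

/-! ### The split side of `helper36.DegData`, in its vocabulary -/

/-- `lift_a`: residue degree one at infinity. -/
theorem lift_inf (D : MidDatum V' ϖ u G m T) {W : ValuationSubring F}
    (hW : W.comap (algebraMap F' F) = V') (hS : W.valuation (T + algebraMap F' F u) < 1)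
    {h : F} (hh : h ∈ W) : ∃ a : F', a ∈ V' ∧ algebraMap F' F a - h ∈ W.nonunits := by
  obtain ⟨c, hc, hv⟩ := D.inf_residue hW hS hh
  refine ⟨c, hc, ?_⟩
  rw [ValuationSubring.mem_nonunits_iff, Valuation.map_sub_swap]
  exact hv

/-- `lift_m`: residue degree one at the middle valuation. -/
theorem lift_mid (D : MidDatum V' ϖ u G m T) {W : ValuationSubring F}
    (hW : W.comap (algebraMap F' F) = V') (hT : W.valuation T < 1)
    {h : F} (hh : h ∈ W) : ∃ a : F', a ∈ V' ∧ algebraMap F' F a - h ∈ W.nonunits := by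
  obtain ⟨c, hc, hv⟩ := D.mid_residue hW hT hh
  refine ⟨c, hc, ?_⟩
  rw [ValuationSubring.mem_nonunits_iff, Valuation.map_sub_swap]
  exact hv

/-- **The split side of `helper36.DegData`** (`ψ = algebraMap F' F`, `Nm = Algebra.norm F'`,
`q - 1 = m + 1`): there are exactly two valuation rings `Va` (`e = f = 1`) and `Vm`
(`e = m + 1`, `f = 1`) of `F` over `V'`, with the fields `mem_a`, `mem_m`, `lift_a`, `lift_m`,
`norm_split`, and the uniformisers `ϖ` of `Va` and `T` of `Vm`. -/
theorem exists_split (D : MidDatum V' ϖ u G m T)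
    (hindep : ∀ r : F'[X], r.natDegree < m + 2 → aeval T r = 0 → r = 0) :
    ∃ Va Vm : ValuationSubring F,
      Va ≠ Vm ∧
      (∀ W : ValuationSubring F, W.comap (algebraMap F' F) = V' → W = Vm ∨ W = Va) ∧
      (∀ a : F', algebraMap F' F a ∈ Va ↔ a ∈ V') ∧
      (∀ a : F', algebraMap F' F a ∈ Vm ↔ a ∈ V') ∧
      T + algebraMap F' F u ∈ Va.nonunits ∧ T ∈ Vm.nonunits ∧
      (∀ x : F, x ∈ Va.nonunits → x * (algebraMap F' F ϖ)⁻¹ ∈ Va) ∧
      (∀ x : F, x ∈ Vm.nonunits → x * T⁻¹ ∈ Vm) ∧
      Vm.valuation T ^ (m + 1) = Vm.valuation (algebraMap F' F ϖ) ∧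
      (∀ h : F, h ∈ Va → ∃ a : F', a ∈ V' ∧ algebraMap F' F a - h ∈ Va.nonunits) ∧
      (∀ h : F, h ∈ Vm → ∃ a : F', a ∈ V' ∧ algebraMap F' F a - h ∈ Vm.nonunits) ∧
      (∀ h : F, h ∈ Va → h ∈ Vm → ∀ a b : F', algebraMap F' F a - h ∈ Va.nonunits →
        algebraMap F' F b - h ∈ Vm.nonunits →
        Algebra.norm F' h - a * b ^ (m + 1) ∈ V'.nonunits) := by
  obtain ⟨Vm, Va, hWm, hWi, hT, hS, hne, hall⟩ := D.exists_two hindep
  refine ⟨Va, Vm, hne.symm, hall, fun a => map_mem_iff hWi a, fun a => map_mem_iff hWm a,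
    hS, hT, fun x hx => D.inf_uniformizer hWi hS hx, fun x hx => D.mid_uniformizer hWm hT hx,
    D.mid_val_pow hWm hT, fun h hh => D.lift_inf hWi hS hh, fun h hh => D.lift_mid hWm hT hh,
    fun h hha hhm a b hai hbm => D.norm_split hindep hWm hWi hT hS hha hhm hai hbm⟩

end MidDatum

end Fermat.Agent.S36.helper8831
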