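import Fermat.Agent.S36.helper405_KillTerms

/-!
# S36 (KILL-INST, sub-block ORD-NE): the three vertical valuations are pairwise distinct

`helper405.KillInput` asks for `Vinf ≠ Vmid`, `Vinf ≠ Vzero`, `Vmid ≠ Vzero` at level `M₁ * q`.
All three follow from five of the six membership tables of the two degeneracy maps
(`α_mem_inf`, `α_mem_mid`, `α_mem_zero`, `β_mem_mid`, `β_mem_inf`) and the single
statement `Vinf' ≠ Vzero'` at the LOWER level `M₁`:

* `Vinf = Vzero` and the `α`-tables give `Vinf' = Vzero'`;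
* `Vmid = Vinf` and the `β`-tables give `Vzero' = Vinf'`;
* `Vmid = Vzero` and the `α`-tables give `Vinf' = Vzero'`.

No separating element at the mid valuation is needed (in particular nothing special for `q = 2`).
-/

set_option autoImplicit false

namespace Fermat.Agent.S36.helper8885

open Fermat.Agent.S36.helper405

section Abstract

variable {K F F' : Type*} [Field K] [Field F] [Field F'] [Algebra K F] [Algebra K F']

/-- Two valuation subrings of `F'` with the same trace along `ψ` of ONE valuation subring of `F`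
are equal. -/
theorem eq_of_memOver {ψ : F' →ₐ[K] F} {V : ValuationSubring F} {V1 V2 : ValuationSubring F'}
    (h1 : Deg.MemOver ψ V V1) (h2 : Deg.MemOver ψ V V2) : V1 = V2 := by
  ext a
  exact (h1 a).symm.trans (h2 a)

/-- **Abstract ORD-NE**: five membership tables and `V1 ≠ V2` downstairs give the three
inequalities upstairs. -/
theorem ne_of_memOver {α β : F' →ₐ[K] F} {Va Vm Vb : ValuationSubring F}
    {V1 V2 : ValuationSubring F'}
    (hα_a : Deg.MemOver α Va V1) (hα_m : Deg.MemOver α Vm V1) (hα_b : Deg.MemOver α Vb V2)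
    (hβ_m : Deg.MemOver β Vm V2) (hβ_a : Deg.MemOver β Va V1)
    (hne : V1 ≠ V2) : Va ≠ Vm ∧ Va ≠ Vb ∧ Vm ≠ Vb := by
  refine ⟨?_, ?_, ?_⟩
  · intro h
    exact hne (eq_of_memOver hβ_a (h ▸ hβ_m))
  · intro h
    exact hne (eq_of_memOver hα_a (h ▸ hα_b))
  · intro h
    exact hne (eq_of_memOver hα_m (h ▸ hα_b))

end Abstract

section Concrete

variable (A : ValuationSubring (AlgebraicClosure ℚ)) (M₁ q : ℕ) [NeZero M₁] [NeZero q]
  (hq : q.Prime) (hqM : q ∣ M₁) (hq2 : ¬ q ^ 2 ∣ M₁)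

/-- **ORD-NE on the concrete terms**: the three `ne_*` fields of `helper405.KillInput` from five
of its `mem` fields (verbatim) and `Vinf' ≠ Vzero'`. -/
theorem ne_modular_of_mem
    (hα_inf : Deg.MemOver (αK A M₁ q) (Vinf A M₁ q) (Vinf' A M₁))
    (hα_mid : Deg.MemOver (αK A M₁ q) (Vmid A M₁ q hq hqM hq2) (Vinf' A M₁))
    (hα_zero : Deg.MemOver (αK A M₁ q) (Vzero A M₁ q hq hqM hq2) (Vzero' A M₁ q hq hqM hq2))
    (hβ_mid : Deg.MemOver (βK A M₁ q) (Vmid A M₁ q hq hqM hq2) (Vzero' A M₁ q hq hqM hq2))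
    (hβ_inf : Deg.MemOver (βK A M₁ q) (Vinf A M₁ q) (Vinf' A M₁))
    (hne : Vinf' A M₁ ≠ Vzero' A M₁ q hq hqM hq2) :
    Vinf A M₁ q ≠ Vmid A M₁ q hq hqM hq2 ∧ Vinf A M₁ q ≠ Vzero A M₁ q hq hqM hq2 ∧
      Vmid A M₁ q hq hqM hq2 ≠ Vzero A M₁ q hq hqM hq2 :=
  ne_of_memOver hα_inf hα_mid hα_zero hβ_mid hβ_inf hne

end Concrete

end Fermat.Agent.S36.helper8885
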