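import Fermat.Agent.S36.helper405_KillTerms
import Fermat.Agent.S36.helper405_KillInst
import Fermat.Agent.S36.helper3953_InstNe
import Fermat.Agent.S36.helper8885_VertNe
import Fermat.Agent.S36.helper3082_MidDatum
import Fermat.Agent.S36.helper8831_MidNorm
import Fermat.Agent.S36.helper225_BaseDVR

/-!
# S36 (KILL-INST, block UNIF): the uniformiser / distinctness fields of `helper405.KillInput`

Block UNIF of captain ruling #4 (d) (helper412, sub-integrator): the fields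

`unif_inf`, `unif_mid`, `unif_zero`, `unif_inf'`, `unif_zero'`, `ne_inf_mid`, `ne_inf_zero`,
`ne_mid_zero`, `x_V`

of `helper405.KillInput`, verbatim, on the terms of record (`helper405_KillTerms`).  Adapters
only:

* `unif_inf`, `unif_zero`, `unif_inf'`, `unif_zero'`, `ne_inf_zero` : `helper3953.Inst.*`;
* `ne_inf_mid`, `ne_mid_zero` : `helper8885.ne_modular_of_mem` from the membership tables and
  `helper3953.Inst.vinf'_ne_vzero'_modular`;
* `x_V` : `helper405.x_V`;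
* `unif_mid` : the MidDatum route.  With `T = j(q² z) - j(z)` (`helper3082.midT`, `K`-rational),
  the landed `helper3082.midDatum_residue` over `(KI A, OI A)` is a `helper8831.MidDatum` for the
  `K`-level Gauss ring of level `M₁`; `Vmid` lies over it along `α` (field `α_mem_mid`) and is not
  the Gauss ring of level `M₁ q` (field `ne_inf_mid`), so `T` is a non-unit of `Vmid`
  (`helper3082.valuation_midT_lt_one_of_ne`), hence a uniformiser
  (`helper8831.MidDatum.mid_val_eq_zpow` + `helper1013.isUnifOf_of_valuation`) with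
  `T ^ (q - 1) = q · unit` (`helper8831.MidDatum.mid_val_pow`).
-/

set_option autoImplicit false
set_option linter.unusedSectionVars false
set_option linter.style.haveILetI false

noncomputable section

namespace Fermat.Agent.S36.helper412

open ModularCurve AlgebraicCurve
open Fermat.Agent.S36.helper405
open Fermat.Agent.S36.helper1013 (IsUnifOf UnitOf)
open Fermat.Agent.S18.helper8991 (gaussF)

variable (A : ValuationSubring (AlgebraicClosure ℚ))

/-- `v_∞` at level `N` over `K` is the Gauss ring of `F_{N,K}` over `O = A ∩ K`. -/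
theorem vinfAt_eq_gaussF (N : ℕ) [NeZero N] :
    VinfAt A N = gaussF (OI A) (IsLocalRing.residue (OI A)) N := by
  rw [Fermat.Agent.S36.helper3953.Inst.vinfAt_eq A N 1 (one_dvd N) (Nat.coprime_one_left _)]
  rfl

variable (M₁ q : ℕ) [NeZero M₁] [NeZero q]

/-- **`unif_mid`, MidDatum route**: from the table `α_mem_mid` and `ne_inf_mid`. -/
theorem unif_mid_of (hq : q.Prime) (hqM : q ∣ M₁) (hq2 : ¬ q ^ 2 ∣ M₁) (hA : A.LiesOverPrime q)
    (hαm : Deg.MemOver (αK A M₁ q) (Vmid A M₁ q hq hqM hq2) (Vinf' A M₁))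
    (hne : Vinf A M₁ q ≠ Vmid A M₁ q hq hqM hq2) :
    ∃ T : FK A (M₁ * q), IsUnifOf (Vmid A M₁ q hq hqM hq2) T ∧
      UnitOf (Vmid A M₁ q hq hqM hq2) (T ^ (q - 1) / (q : FK A (M₁ * q))) := by
  haveI : Fact q.Prime := ⟨hq⟩
  obtain ⟨-, hq0, hqO, hunif, hnoeth, -⟩ := Fermat.Agent.S36.helper225.baseDVR_facts A hq hA
  letI := algebraAlong (heckeAlphaBar (KI A) M₁ q)
  obtain ⟨G, D⟩ := Fermat.Agent.S36.helper3082.midDatum_residue (OI A) q
    (algebraMap (KI A) (AlgebraicClosure ℚ)) hqO hunif hnoeth M₁ hqM hq2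
  have hWm : (Vmid A M₁ q hq hqM hq2).comap (algebraMap (FK A M₁) (FK A (M₁ * q)))
      = gaussF (OI A) (IsLocalRing.residue (OI A)) M₁ := by
    rw [← vinfAt_eq_gaussF]
    ext a
    rw [ValuationSubring.mem_comap]
    exact hαm a
  have hne' : Vmid A M₁ q hq hqM hq2 ≠ gaussF (OI A) (IsLocalRing.residue (OI A)) (M₁ * q) := by
    rw [← vinfAt_eq_gaussF]
    exact fun h => hne h.symm
  haveI := Fermat.Agent.S36.helper3082.charP_residueField_of_mem_nonunits (OI A) q hqO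
  have hT := Fermat.Agent.S36.helper3082.valuation_midT_lt_one_of_ne (OI A)
    (IsLocalRing.residue (OI A)) q (algebraMap (KI A) (AlgebraicClosure ℚ))
    (fun a ha => (IsLocalRing.residue_eq_zero_iff a).mpr ha) hunif
    (Fermat.Agent.S36.helper3082.arch_of_isNoetherianRing (OI A) q hnoeth hq0 hqO) M₁ hqM hq2
    (Vmid A M₁ q hq hqM hq2) hWm hne'
  have hU : IsUnifOf (Vmid A M₁ q hq hqM hq2)
      (Fermat.Agent.S36.helper3082.midT (KI A) q M₁ hqM) := by
    have h := Fermat.Agent.S36.helper1013.isUnifOf_of_valuation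
      (Vmid A M₁ q hq hqM hq2).valuation D.T_ne hT (fun _ hx => D.mid_val_eq_zpow hWm hT hx)
    rwa [ValuationSubring.valuationSubring_valuation] at h
  refine ⟨Fermat.Agent.S36.helper3082.midT (KI A) q M₁ hqM, hU, ?_⟩
  have hpow := D.mid_val_pow hWm hT
  have hq2' : q - 2 + 1 = q - 1 := by
    have := hq.two_le
    omega
  have hqF : (q : FK A (M₁ * q)) ≠ 0 := natCast_ne_zero_FK A (M₁ * q) hq.ne_zero
  have hval : (Vmid A M₁ q hq hqM hq2).valuation
      (Fermat.Agent.S36.helper3082.midT (KI A) q M₁ hqM ^ (q - 1) / (q : FK A (M₁ * q))) = 1 := by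
    rw [map_div₀, map_pow, ← hq2', hpow, map_natCast]
    exact div_self ((Valuation.ne_zero_iff _).mpr hqF)
  refine ⟨div_ne_zero (pow_ne_zero _ D.T_ne) hqF, ?_, ?_⟩
  · exact (ValuationSubring.valuation_le_one_iff _ _).mp hval.le
  · rw [← ValuationSubring.valuation_le_one_iff, map_inv₀, hval, inv_one]

/-! ## The fields of block UNIF, verbatim -/

/-- **`unif_inf`**. -/
theorem unif_inf_modular (hq : q.Prime) (hqM : q ∣ M₁) (hq2 : ¬ q ^ 2 ∣ M₁)
    (hA : A.LiesOverPrime q) :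
    IsUnifOf (Vinf A M₁ q) (q : FK A (M₁ * q)) :=
  Fermat.Agent.S36.helper3953.Inst.unif_inf_modular A M₁ q hq hqM hq2 hA

/-- **`unif_zero`**. -/
theorem unif_zero_modular (hq : q.Prime) (hqM : q ∣ M₁) (hq2 : ¬ q ^ 2 ∣ M₁)
    (hA : A.LiesOverPrime q) :
    IsUnifOf (Vzero A M₁ q hq hqM hq2) (q : FK A (M₁ * q)) :=
  Fermat.Agent.S36.helper3953.Inst.unif_zero_modular A M₁ q hq hqM hq2 hA

/-- **`unif_inf'`**. -/
theorem unif_inf'_modular (hq : q.Prime) (hqM : q ∣ M₁) (hq2 : ¬ q ^ 2 ∣ M₁)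
    (hA : A.LiesOverPrime q) :
    IsUnifOf (Vinf' A M₁) (q : FK A M₁) :=
  Fermat.Agent.S36.helper3953.Inst.unif_inf'_modular A M₁ q hq hqM hq2 hA

/-- **`unif_zero'`**. -/
theorem unif_zero'_modular (hq : q.Prime) (hqM : q ∣ M₁) (hq2 : ¬ q ^ 2 ∣ M₁)
    (hA : A.LiesOverPrime q) :
    IsUnifOf (Vzero' A M₁ q hq hqM hq2) (q : FK A M₁) :=
  Fermat.Agent.S36.helper3953.Inst.unif_zero'_modular A M₁ q hq hqM hq2 hA

/-- The three vertical valuations of level `M₁ q` are pairwise distinct. -/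
theorem ne_modular (hq : q.Prime) (hqM : q ∣ M₁) (hq2 : ¬ q ^ 2 ∣ M₁)
    (hA : A.LiesOverPrime q) :
    Vinf A M₁ q ≠ Vmid A M₁ q hq hqM hq2 ∧ Vinf A M₁ q ≠ Vzero A M₁ q hq hqM hq2 ∧
      Vmid A M₁ q hq hqM hq2 ≠ Vzero A M₁ q hq hqM hq2 :=
  Fermat.Agent.S36.helper8885.ne_modular_of_mem A M₁ q hq hqM hq2
    (α_mem_inf A M₁ q) (α_mem_mid A M₁ q hq hqM hq2) (α_mem_zero A M₁ q hq hqM hq2)
    (β_mem_mid A M₁ q hq hqM hq2) (β_mem_inf A M₁ q)
    (Fermat.Agent.S36.helper3953.Inst.vinf'_ne_vzero'_modular A M₁ q hq hqM hq2 hA)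

/-- **`ne_inf_mid`**. -/
theorem ne_inf_mid_modular (hq : q.Prime) (hqM : q ∣ M₁) (hq2 : ¬ q ^ 2 ∣ M₁)
    (hA : A.LiesOverPrime q) :
    Vinf A M₁ q ≠ Vmid A M₁ q hq hqM hq2 :=
  (ne_modular A M₁ q hq hqM hq2 hA).1

/-- **`ne_inf_zero`**. -/
theorem ne_inf_zero_modular (hq : q.Prime) (hqM : q ∣ M₁) (hq2 : ¬ q ^ 2 ∣ M₁)
    (hA : A.LiesOverPrime q) :
    Vinf A M₁ q ≠ Vzero A M₁ q hq hqM hq2 :=
  (ne_modular A M₁ q hq hqM hq2 hA).2.1

/-- **`ne_mid_zero`**. -/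
theorem ne_mid_zero_modular (hq : q.Prime) (hqM : q ∣ M₁) (hq2 : ¬ q ^ 2 ∣ M₁)
    (hA : A.LiesOverPrime q) :
    Vmid A M₁ q hq hqM hq2 ≠ Vzero A M₁ q hq hqM hq2 :=
  (ne_modular A M₁ q hq hqM hq2 hA).2.2

/-- **`unif_mid`**: `T = j(q² z) - j(z)` is a uniformiser of `v_mid` over `K`, and
`T ^ (q - 1) = q · unit`. -/
theorem unif_mid_modular (hq : q.Prime) (hqM : q ∣ M₁) (hq2 : ¬ q ^ 2 ∣ M₁)
    (hA : A.LiesOverPrime q) :
    ∃ T : FK A (M₁ * q), IsUnifOf (Vmid A M₁ q hq hqM hq2) T ∧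
      UnitOf (Vmid A M₁ q hq hqM hq2) (T ^ (q - 1) / (q : FK A (M₁ * q))) :=
  unif_mid_of A M₁ q hq hqM hq2 hA (α_mem_mid A M₁ q hq hqM hq2)
    (ne_inf_mid_modular A M₁ q hq hqM hq2 hA)

/-- **`x_V`** (`helper405.x_V`, re-exported so that the block is one file). -/
theorem x_V_modular (hq : q.Prime) (hqM : q ∣ M₁) (hq2 : ¬ q ^ 2 ∣ M₁)
    (haux : Fermat.Agent.S36.helper1335.AuxOK M₁ q) :
    ∀ c : Fin 3, xK A M₁ q haux ∈ VK A M₁ q hq hqM hq2 c ∧
      (xK A M₁ q haux)⁻¹ ∈ VK A M₁ q hq hqM hq2 c :=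
  fun c => x_V A M₁ q hq hqM hq2 haux c

/-- **Seam test**: the nine fields of block UNIF fill `helper405.KillInput` (the other fields
from any given term). -/
example (hq : q.Prime) (hqM : q ∣ M₁) (hq2 : ¬ q ^ 2 ∣ M₁)
    (hA : A.LiesOverPrime q)
    (haux : Fermat.Agent.S36.helper1335.AuxOK M₁ q)
    (h : KillInput A M₁ q hq hqM hq2 haux) : KillInput A M₁ q hq hqM hq2 haux :=
  { h with
    unif_inf := unif_inf_modular A M₁ q hq hqM hq2 hA
    unif_mid := unif_mid_modular A M₁ q hq hqM hq2 hA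
    unif_zero := unif_zero_modular A M₁ q hq hqM hq2 hA
    unif_inf' := unif_inf'_modular A M₁ q hq hqM hq2 hA
    unif_zero' := unif_zero'_modular A M₁ q hq hqM hq2 hA
    ne_inf_mid := ne_inf_mid_modular A M₁ q hq hqM hq2 hA
    ne_inf_zero := ne_inf_zero_modular A M₁ q hq hqM hq2 hA
    ne_mid_zero := ne_mid_zero_modular A M₁ q hq hqM hq2 hA
    x_V := x_V_modular A M₁ q hq hqM hq2 haux }

end Fermat.Agent.S36.helper412
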