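import Mathlib
import Fermat.Agent.S36.helper3919_MidGauss
import Fermat.Agent.Lib.helper7516_LaurentFrob

/-!
# S36-THETA-Q2, formal side (helper7249): the mid-cusp reduction of `T ^ (q - 1) * X * Y`

`R` a commutative ring, `ζ : Rˣ` with `1 + ζ + ⋯ + ζ ^ (q - 1) = 0` (`q` prime), `π := ζ - 1`.
For Laurent series `t, u, f, g` over `R` with

* `θ t = -(f ^ 2 * u)`      (the base-line identity: `u = t₄` at level 4, `u = (t₉² + 9 t₉ + 27)/t₉`
                              at level 9, `f` the weight-one theta unit),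
* `f * g = 1`,
* `f ^ q = f(x ^ q) + q * F`  (Frobenius congruence; automatic for series coming from `ℤ`),

and `Y₀ := f / f(x ^ q) = f * g(x ^ q)`, we prove

`(t(ζ x) - t(x)) ^ (q - 1) * Y₀(x) * Y₀(ζ x) = q * (-(u ^ (q - 1)) + π * E)`.

Here `t(ζ x) - t(x)`, `Y₀(x)`, `Y₀(ζ x)` are the mid-cusp expansions of `T = t(q² z) - t(z)`,
`Y = f(z)/f(qz)` and `X = c q f(q² z)/f(qz)` at level `q² M'`
(`Fermat.Agent.S36.helper7249_ThetaQ2`), and `X Y Z = c q`: so `T ^ (q - 1) / Z` is a unit at the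
mid valuation with residue `-c⁻¹ ū ^ (q - 1)`.

Main statements:

* `exists_natCast_eq_mul`     : `q = (ζ - 1) * d`.
* `exists_frobenius_int`      : `f ^ q = f(x ^ q) + q * F` for `f : ℤ⸨X⸩`.
* `exists_frobenius_coeffMap` : the same for `coeffMap (Int.castRingHom R) f`.
* `exists_mid_red`            : the displayed identity.
* `exists_mid_red_int`        : the same with `t, u, f, g` coming from `ℤ⸨X⸩`.
-/

set_option autoImplicit false

noncomputable section

namespace Fermat.Agent.S36.helper7249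

open HahnSeries Finset
open Fermat.Agent.S28.helper328 (twist twist_coeff)
open Fermat.Agent.Lib.helper9242 (thetaFun thetaFun_coeff)
open Fermat.Agent.S36.helper3919
open ModularCurve

variable {R : Type*} [CommRing R]

/-- `q ∈ (ζ - 1) R` when `1 + ζ + ⋯ + ζ ^ (q - 1) = 0`, `q` prime. -/
theorem exists_natCast_eq_mul {q : ℕ} (hq : q.Prime) (ζ : R)
    (hζ : ∑ i ∈ range q, ζ ^ i = 0) : ∃ d : R, (q : R) = (ζ - 1) * d := by
  obtain ⟨c, hc⟩ := exists_pi_pow_eq hq ζ hζ
  refine ⟨(q : R) * c - (ζ - 1) ^ (q - 2), ?_⟩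
  have h2 : (ζ - 1) ^ (q - 1) = (ζ - 1) * (ζ - 1) ^ (q - 2) := by
    rw [← pow_succ']
    congr 1
    have := hq.two_le
    omega
  linear_combination hc - h2

/-- `(-1) ^ (q - 1) = 1 + (ζ - 1) * k`. -/
theorem exists_neg_one_pow_eq {q : ℕ} (hq : q.Prime) (ζ : R)
    (hζ : ∑ i ∈ range q, ζ ^ i = 0) : ∃ k : R, (-1 : R) ^ (q - 1) = 1 + (ζ - 1) * k := by
  rcases hq.eq_two_or_odd' with rfl | hodd
  · refine ⟨1, ?_⟩
    have h : (1 : R) + ζ = 0 := by
      simpa [Finset.sum_range_succ] using hζ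
    norm_num
    linear_combination -h
  · refine ⟨0, ?_⟩
    obtain ⟨m, hm⟩ := hodd
    have : q - 1 = 2 * m := by omega
    rw [this, pow_mul]
    norm_num

/-- `coeffMap` commutes with `qExpand`. -/
theorem coeffMap_qExpand_aux {S : Type*} [CommRing S] (φ : R →+* S) (n : ℕ) [NeZero n]
    (x : LaurentSeries R) : coeffMap φ (qExpand R n x) = qExpand S n (coeffMap φ x) := by
  ext k
  by_cases hk : (n : ℤ) ∣ k
  · obtain ⟨m, rfl⟩ := hk
    rw [coeffMap_coeff, qExpand_coeff_mul, qExpand_coeff_mul, coeffMap_coeff]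
  · rw [coeffMap_coeff, qExpand_coeff_of_not_dvd n _ hk, qExpand_coeff_of_not_dvd n _ hk,
      map_zero]

/-- A Laurent series over `ℤ` all of whose coefficients are divisible by `n` is `n` times a
Laurent series. -/
theorem exists_eq_C_mul_of_dvd (n : ℤ) (D : LaurentSeries ℤ) (h : ∀ k, n ∣ D.coeff k) :
    ∃ F : LaurentSeries ℤ, D = HahnSeries.C n * F := by
  refine ⟨⟨fun k => D.coeff k / n, D.isPWO_support.mono (fun k hk => ?_)⟩, ?_⟩
  · simp only [Function.mem_support, ne_eq] at hk ⊢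
    intro h0
    exact hk (by rw [h0, Int.zero_ediv])
  · ext k
    rw [HahnSeries.C_mul_eq_smul, HahnSeries.coeff_smul, smul_eq_mul]
    exact (Int.mul_ediv_cancel' (h k)).symm

/-- **Frobenius congruence over `ℤ`**: `f ^ q = f(x ^ q) + q * F`. -/
theorem exists_frobenius_int (q : ℕ) [NeZero q] (hq : q.Prime) (f : LaurentSeries ℤ) :
    ∃ F : LaurentSeries ℤ, f ^ q = qExpand ℤ q f + HahnSeries.C (q : ℤ) * F := by
  have : Fact q.Prime := ⟨hq⟩
  have h0 : coeffMap (Int.castRingHom (ZMod q)) (f ^ q - qExpand ℤ q f) = 0 := by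
    rw [map_sub, map_pow, coeffMap_qExpand_aux, Fermat.Agent.Lib.helper7516.qExpand_zmod,
      sub_self]
  obtain ⟨F, hF⟩ := exists_eq_C_mul_of_dvd (q : ℤ) (f ^ q - qExpand ℤ q f) (fun k => by
    have hk := congrArg (fun y : LaurentSeries (ZMod q) => y.coeff k) h0
    simp only [coeffMap_coeff, HahnSeries.coeff_zero] at hk
    exact (ZMod.intCast_zmod_eq_zero_iff_dvd _ q).mp hk)
  exact ⟨F, by rw [← hF]; ring⟩

/-- **Frobenius congruence for integral series over any ring.** -/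
theorem exists_frobenius_coeffMap (q : ℕ) [NeZero q] (hq : q.Prime) (f : LaurentSeries ℤ) :
    ∃ F : LaurentSeries R,
      coeffMap (Int.castRingHom R) f ^ q =
        qExpand R q (coeffMap (Int.castRingHom R) f) + HahnSeries.C (q : R) * F := by
  obtain ⟨F, hF⟩ := exists_frobenius_int q hq f
  refine ⟨coeffMap (Int.castRingHom R) F, ?_⟩
  have h := congrArg (coeffMap (Int.castRingHom R)) hF
  rw [map_pow, map_add, map_mul, coeffMap_qExpand_aux] at h
  rw [h]
  congr 2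
  rw [HahnSeries.C_apply, coeffMap_single, HahnSeries.C_apply]
  simp

/-- The commutative-algebra core of `exists_mid_red`. -/
theorem mid_core {S : Type*} [CommRing S] (T' Q p A E₁ Y Y' D U s σ k G : S)
    (h1 : T' = Q * (A + p * E₁)) (h2 : Y' = Y + p * D) (h3 : A * Y ^ 2 = -(σ * U * s ^ 2))
    (h4 : σ = 1 + p * k) (h5 : s ^ 2 = 1 + p * G) :
    T' * Y * Y' = Q * (-U + p * (E₁ * Y ^ 2 + A * Y * D + p * E₁ * Y * D
      - U * (k + G + p * k * G))) := by
  have h3' : A * Y ^ 2 = -U - p * U * (k + G + p * k * G) := by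
    rw [h3, h4, h5]
    ring
  rw [h1, h2]
  linear_combination Q * h3'

/-- **The mid-cusp reduction.**  `θ t = -(f² u)`, `f g = 1`, `f ^ q = f(x ^ q) + q F`,
`Y₀ := f * g(x ^ q)`.  Then
`(t(ζ x) - t) ^ (q - 1) * Y₀ * Y₀(ζ x) = q * (-(u ^ (q - 1)) + (ζ - 1) * E)`. -/
theorem exists_mid_red {q : ℕ} [NeZero q] (hq : q.Prime) (ζ : Rˣ)
    (hζ : ∑ i ∈ range q, (ζ : R) ^ i = 0) (t u f g F : LaurentSeries R)
    (hθ : thetaFun R t = -(f ^ 2 * u)) (hfg : f * g = 1)
    (hfrob : f ^ q = qExpand R q f + HahnSeries.C (q : R) * F) :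
    ∃ E : LaurentSeries R,
      (twist ζ t - t) ^ (q - 1) * (f * qExpand R q g) * twist ζ (f * qExpand R q g) =
        HahnSeries.C (q : R) * (-(u ^ (q - 1)) + HahnSeries.C ((ζ : R) - 1) * E) := by
  obtain ⟨E₁, -, hE₁⟩ := exists_twist_sub_self_pow hq ζ hζ t (N := t.order)
    (fun n hn => HahnSeries.coeff_eq_zero_of_lt_order hn)
  obtain ⟨d, hd⟩ := exists_natCast_eq_mul hq (ζ : R) hζ
  obtain ⟨k, hk⟩ := exists_neg_one_pow_eq hq (ζ : R) hζ
  set Y := f * qExpand R q g with hY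
  set p : LaurentSeries R := HahnSeries.C ((ζ : R) - 1) with hp
  have hQ : (HahnSeries.C (q : R) : LaurentSeries R) = p * HahnSeries.C d := by
    rw [hp, ← map_mul, hd]
  -- `s := f ^ q * g(x ^ q) = 1 + q * (F * g(x ^ q))`
  have hs : f ^ q * qExpand R q g = 1 + HahnSeries.C (q : R) * (F * qExpand R q g) := by
    rw [hfrob, add_mul, ← map_mul, hfg, map_one]
    ring
  have h5 : (f ^ q * qExpand R q g) ^ 2 =
      1 + p * (HahnSeries.C d * (F * qExpand R q g) *
        (2 + HahnSeries.C (q : R) * (F * qExpand R q g))) := by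
    rw [hs, hQ]
    ring
  have h4 : ((-1 : LaurentSeries R)) ^ (q - 1) = 1 + p * HahnSeries.C k := by
    have : ((-1 : LaurentSeries R)) ^ (q - 1) = HahnSeries.C ((-1 : R) ^ (q - 1)) := by
      rw [map_pow, map_neg, map_one]
    rw [this, hk, map_add, map_one, map_mul]
  have hq1 : q - 1 + 1 = q := Nat.sub_add_cancel hq.one_le
  have h3 : -(thetaFun R t) ^ (q - 1) * Y ^ 2 =
      -(((-1 : LaurentSeries R)) ^ (q - 1) * u ^ (q - 1) * (f ^ q * qExpand R q g) ^ 2) := by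
    have e1 : (f ^ 2) ^ (q - 1) * f ^ 2 = (f ^ q) ^ 2 := by
      rw [← pow_succ, hq1, ← pow_mul, ← pow_mul, mul_comm]
    have e2 : (thetaFun R t) ^ (q - 1) = (-1 : LaurentSeries R) ^ (q - 1) *
        ((f ^ 2) ^ (q - 1) * u ^ (q - 1)) := by
      rw [hθ, neg_pow, mul_pow]
    rw [e2, hY, mul_pow, mul_pow, ← e1]
    ring
  have h2 : twist ζ Y = Y + p * dq ζ Y := by
    rw [← twist_sub_self]
    ring
  refine ⟨_, mid_core _ _ p _ E₁ Y _ (dq ζ Y) (u ^ (q - 1)) _ _ (HahnSeries.C k) _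
    hE₁ h2 h3 h4 h5⟩

/-- **The mid-cusp reduction for series coming from `ℤ`**: `tZ uZ fZ gZ : ℤ⸨X⸩` with
`θ tZ = -(fZ² uZ)`, `fZ gZ = 1`; over any `R ∋ ζ`, with `t, u, f, g` the images. -/
theorem exists_mid_red_int {q : ℕ} [NeZero q] (hq : q.Prime) (ζ : Rˣ)
    (hζ : ∑ i ∈ range q, (ζ : R) ^ i = 0) (tZ uZ fZ gZ : LaurentSeries ℤ)
    (hθ : thetaFun ℤ tZ = -(fZ ^ 2 * uZ)) (hfg : fZ * gZ = 1) :
    ∃ E : LaurentSeries R,
      (twist ζ (coeffMap (Int.castRingHom R) tZ) - coeffMap (Int.castRingHom R) tZ) ^ (q - 1) *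
          (coeffMap (Int.castRingHom R) fZ * qExpand R q (coeffMap (Int.castRingHom R) gZ)) *
          twist ζ (coeffMap (Int.castRingHom R) fZ *
            qExpand R q (coeffMap (Int.castRingHom R) gZ)) =
        HahnSeries.C (q : R) * (-(coeffMap (Int.castRingHom R) uZ ^ (q - 1)) +
          HahnSeries.C ((ζ : R) - 1) * E) := by
  obtain ⟨F, hF⟩ := exists_frobenius_coeffMap (R := R) q hq fZ
  refine exists_mid_red hq ζ hζ _ _ _ _ F ?_ ?_ hF
  · have h2 : coeffMap (Int.castRingHom R) (thetaFun ℤ tZ) =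
        thetaFun R (coeffMap (Int.castRingHom R) tZ) :=
      (Fermat.Agent.Lib.helper9242.thetaFun_map ℤ (Int.castRingHom R) tZ).symm
    rw [← h2, hθ, map_neg, map_mul, map_pow]
  · rw [← map_mul, hfg, map_one]

end Fermat.Agent.S36.helper7249
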