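import Fermat.Agent.S36.helper987_MidCuspExp
import Fermat.Agent.S35.helper1219_AtkinLehnerHall
import Fermat.Agent.S36.helper7249_ThetaMid

/-!
# S36-THETA-Q2 (helper7249): the level-`q²` consequences of a theta unit

`q` a prime, `q ∤ M'`, `N = q² M'`.  INPUT: an element `Y₀ : FN (q * M')` with
`W_q(Y₀) * Y₀ = c * q` for a constant `c ≠ 0` (the theta unit `Y₀ = f(z)/f(qz)` of
`S36-F2-THETAUNIT`, `c = χ(q)`; only the displayed law is used here).

ELEMENTS of `FN N` (`α^* =` inclusion `inclHom`, `β^* = V_q = vHom`):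

* `elY  = α^* Y₀`                      (`f(z)/f(qz)`),
* `elYb = β^* Y₀`                      (`f(qz)/f(q²z)`),
* `elX  = c q / β^* Y₀`                (`c q f(q²z)/f(qz)`),
* `elZ  = β^* Y₀ / α^* Y₀`             (`f(qz)²/(f(z) f(q²z))`),
* `elT τ = V_{q²} τ - τ` for `τ : FN M'` (`τ(q²z) - τ(z)`).

RESULTS:

* `elX_mul_elY_mul_elZ`    : `X * Y * Z = c q`.
* `coe_el*`                : the expansions at `∞`.
* `midExp_elY`, `midExp_elX`, `midExp_elYb_mul`, `midExp_elZ_mul`, `midExp_elT` : the expansions at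
  the mid cusps (`helper987.midExp ζ`): `Y ↦ Y₀`, `X ↦ Y₀(ζ t)`, `Z ↦ c q / (Y₀ Y₀(ζ t))`,
  `T ↦ τ(ζ t) - τ`.
* `hall_elY`, `hall_elX`, `hall_elZ`, `hall_elT` : under `W_{q²}` (`helper1219.atkinLehnerHall`),
  `X ↔ Y`, `Z ↦ Z`, `T ↦ -T`.  So the `v₀`-column of the valuation table is the `v_∞`-column of
  the swapped element.
* `exists_midExp_pow_mul`  : if `τ`, `Y₀` have expansions `t`, `f / f(x^q)` with integral series
  `tZ uZ fZ gZ : ℤ⸨X⸩`, `θ tZ = -(fZ² uZ)`, `fZ gZ = 1`, then for every ring `R → ℚ̄` containing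
  a lift of `ζ`:
  `midExp ζ (T^(q-1) X Y) = q * (-(u^(q-1)) + (ζ - 1) E)` with `E` defined over `R`.
  As `X Y Z = c q`, this says: `T^(q-1)/Z` is a unit at the mid valuation with residue
  `-c⁻¹ ū^(q-1)`.
* `coe_pow_mul`            : the expansion at `∞` of `T^(q-1) X Y`,
  `= c q (t(x^{q²}) - t)^(q-1) f g(x^q)² f(x^{q²})` (integral, divisible by `q`).
-/

set_option autoImplicit false
set_option linter.style.haveILetI false
set_option linter.unusedSectionVars false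

open ModularCurve

noncomputable section

namespace Fermat.Agent.S36.helper7249

open Fermat.Agent.S24 Fermat.Agent.S24.helper24 Fermat.Agent.S24.helper504
open Fermat.Agent.S36.helper987
open Fermat.Agent.S37.helper5666
open Fermat.Agent.S35.helper1219

section Elements

variable {q M' N : ℕ} [Fact q.Prime] [NeZero M'] [NeZero N] [NeZero q]

theorem level_eq_mul (hN : N = q ^ 2 * M') : N = q * (q * M') := by
  rw [hN]; ring

theorem dvd_level (hN : N = q ^ 2 * M') : M' ∣ N := by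
  rw [hN]; exact Dvd.intro_left _ rfl

/-- `Y = α^* Y₀`. -/
def elY (hN : N = q ^ 2 * M') (Y0 : FN (q * M')) : FN N :=
  inclHom (mul_dvd_level hN) Y0

/-- `β^* Y₀ = Y₀(t^q)`. -/
def elYb (hN : N = q ^ 2 * M') (Y0 : FN (q * M')) : FN N :=
  vHom (level_eq_mul hN) Y0

/-- `X = c q / β^* Y₀`. -/
def elX (hN : N = q ^ 2 * M') (c : Kbar) (Y0 : FN (q * M')) : FN N :=
  algebraMap Kbar (FN N) (c * q) * (elYb hN Y0)⁻¹

/-- `Z = β^* Y₀ / α^* Y₀`. -/
def elZ (hN : N = q ^ 2 * M') (Y0 : FN (q * M')) : FN N :=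
  elYb hN Y0 * (elY hN Y0)⁻¹

/-- `T = V_{q²} τ - τ`. -/
def elT (hN : N = q ^ 2 * M') (τ : FN M') : FN N :=
  vHom hN τ - inclHom (dvd_level hN) τ

variable (hN : N = q ^ 2 * M')

theorem elY_ne_zero {Y0 : FN (q * M')} (hY0 : Y0 ≠ 0) : elY hN Y0 ≠ 0 :=
  (map_ne_zero _).mpr hY0

theorem elYb_ne_zero {Y0 : FN (q * M')} (hY0 : Y0 ≠ 0) : elYb hN Y0 ≠ 0 :=
  (map_ne_zero _).mpr hY0

/-- **`X * Y * Z = c q`.** -/
theorem elX_mul_elY_mul_elZ (c : Kbar) {Y0 : FN (q * M')} (hY0 : Y0 ≠ 0) :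
    elX hN c Y0 * elY hN Y0 * elZ hN Y0 = algebraMap Kbar (FN N) (c * q) := by
  have h1 := elY_ne_zero hN hY0
  have h2 := elYb_ne_zero hN hY0
  unfold elX elZ
  field_simp

/-! ### Expansions at `∞` -/

theorem coe_elY (Y0 : FN (q * M')) :
    ((elY hN Y0 : FN N) : LaurentSeries Kbar) = (Y0 : LaurentSeries Kbar) :=
  coe_inclHom _ _

theorem coe_elYb (Y0 : FN (q * M')) :
    ((elYb hN Y0 : FN N) : LaurentSeries Kbar) = qExpand Kbar q (Y0 : LaurentSeries Kbar) :=
  coe_vHom _ _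

theorem coe_elT (τ : FN M') :
    ((elT hN τ : FN N) : LaurentSeries Kbar) =
      qExpand Kbar (q ^ 2) (τ : LaurentSeries Kbar) - (τ : LaurentSeries Kbar) := by
  show ((vHom hN τ : FN N) : LaurentSeries Kbar) - ((inclHom (dvd_level hN) τ : FN N) :
    LaurentSeries Kbar) = _
  rw [coe_vHom, coe_inclHom]

/-! ### Expansions at the mid cusps -/

section MidExp

variable (hqM : ¬ q ∣ M') (ζ : Kbarˣ) (hζ : IsPrimitiveRoot (ζ : Kbar) q)

theorem rot_C (a : Kbar) : rot ζ (HahnSeries.C a) = HahnSeries.C a := by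
  rw [HahnSeries.C_apply, rot_single, zpow_zero, Units.val_one, one_mul]

/-- `midExp ζ (α^* y) = y` for `y : FN (q * M')`. -/
theorem midExp_elY (Y0 : FN (q * M')) :
    midExp hqM hN ζ hζ (elY hN Y0) = (Y0 : LaurentSeries Kbar) := by
  have h := congrArg (fun f : FN (q * M') →+* LaurentSeries Kbar => f Y0)
    (midExp_comp_inclHom hqM hN ζ hζ)
  simp only [RingHom.comp_apply] at h
  exact h

/-- `midExp ζ (β^* y) = (W_q y)(ζ t)` for `y : FN (q * M')`. -/
theorem midExp_elYb (h : Nat.Coprime q M') (Y0 : FN (q * M')) :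
    midExp hqM hN ζ hζ (elYb hN Y0) =
      rot ζ ((atkinLehnerBar q M' h Y0 : FN (q * M')) : LaurentSeries Kbar) :=
  midExp_vHom_of_atkinLehner hqM hN ζ hζ (level_eq_mul hN)
    ((atkinLehnerBar q M' h).toRingEquiv.toRingHom)
    (fun c => (atkinLehnerBar q M' h).commutes c)
    (fun hd => atkinLehnerBar_jBarD_cofactor q M' h hd)
    (fun hd => atkinLehnerBar_jBarD_mul_cofactor q M' h hd) Y0

variable (h : Nat.Coprime q M') {c : Kbar} {Y0 : FN (q * M')}
  (hW : atkinLehnerBar q M' h Y0 * Y0 = algebraMap Kbar (FN (q * M')) (c * q))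

include hW in
/-- `midExp ζ (β^* Y₀) * Y₀(ζ t) = c q`. -/
theorem midExp_elYb_mul :
    midExp hqM hN ζ hζ (elYb hN Y0) * rot ζ (Y0 : LaurentSeries Kbar) = HahnSeries.C (c * q) := by
  rw [midExp_elYb hN hqM ζ hζ h, ← map_mul]
  have h1 : ((atkinLehnerBar q M' h Y0 : FN (q * M')) : LaurentSeries Kbar) *
      (Y0 : LaurentSeries Kbar) = HahnSeries.C (c * q) := by
    have h2 := congrArg (fun y : FN (q * M') => (y : LaurentSeries Kbar)) hW
    simp only [coe_algebraMap_FN] at h2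
    exact h2
  rw [h1, rot_C]

include hW in
theorem ne_zero_of_law (hc : c ≠ 0) : Y0 ≠ 0 := by
  rintro rfl
  rw [mul_zero] at hW
  have hq : q.Prime := Fact.out
  have h1 : (c * (q : Kbar)) ≠ 0 := mul_ne_zero hc (Nat.cast_ne_zero.mpr hq.ne_zero)
  exact h1 ((algebraMap Kbar (FN (q * M'))).injective (hW.symm.trans (map_zero _).symm))

include hW in
/-- **`midExp ζ X = Y₀(ζ t)`.** -/
theorem midExp_elX (hc : c ≠ 0) :
    midExp hqM hN ζ hζ (elX hN c Y0) = rot ζ (Y0 : LaurentSeries Kbar) := by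
  have hY0 := ne_zero_of_law h hW hc
  have h1 := midExp_elYb_mul hN hqM ζ hζ h hW
  have h2 : midExp hqM hN ζ hζ (elYb hN Y0) ≠ 0 :=
    (map_ne_zero _).mpr (elYb_ne_zero hN hY0)
  unfold elX
  rw [map_mul, map_inv₀, midExp_algebraMap, ← h1]
  field_simp

include hW in
/-- **`midExp ζ Z * (Y₀ * Y₀(ζ t)) = c q`.** -/
theorem midExp_elZ_mul (hc : c ≠ 0) :
    midExp hqM hN ζ hζ (elZ hN Y0) * ((Y0 : LaurentSeries Kbar) * rot ζ (Y0 : LaurentSeries Kbar))
      = HahnSeries.C (c * q) := by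
  have hY0 := ne_zero_of_law h hW hc
  have h1 := midExp_elYb_mul hN hqM ζ hζ h hW
  have h3 : (Y0 : LaurentSeries Kbar) ≠ 0 := fun h0 => hY0 (Subtype.ext h0)
  unfold elZ
  rw [map_mul, map_inv₀, midExp_elY, ← h1]
  field_simp

/-- **`midExp ζ T = τ(ζ t) - τ`.** -/
theorem midExp_elT [NeZero (q ^ 2)] (τ : FN M') :
    midExp hqM hN ζ hζ (elT hN τ) =
      rot ζ (τ : LaurentSeries Kbar) - (τ : LaurentSeries Kbar) := by
  have h1 := congrArg (fun f : FN M' →+* LaurentSeries Kbar => f τ)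
    (midExp_comp_vHom hqM hN ζ hζ)
  simp only [RingHom.comp_apply] at h1
  have h2 : midExp hqM hN ζ hζ (inclHom (dvd_level hN) τ) = (τ : LaurentSeries Kbar) := by
    rw [midExp_of_mem hqM hN ζ hζ _ (by
      rw [coe_inclHom]
      exact fnBar_mono (Dvd.intro_left q rfl) τ.2), coe_inclHom]
  unfold elT
  rw [map_sub, h1, h2]
  rfl

end MidExp

/-! ### The Atkin–Lehner involution `W_{q²}` -/

section Hall

variable (h : Nat.Coprime q M') (hQ : q * q ∣ N) (hcop : Nat.Coprime (q * q) (N / (q * q)))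

/-- `W_{q²} ∘ α^* = β^* ∘ W_q` on `FN (q * M')`. -/
theorem hall_incl (y : FN (q * M')) :
    atkinLehnerHall N (q * q) hQ hcop (inclHom (mul_dvd_level hN) y) =
      vHom (level_eq_mul hN) (atkinLehnerBar q M' h y) := by
  have hN' : N = q * M' * q := by rw [hN]; ring
  subst hN'
  have hq : q.Prime := Fact.out
  have hQ1 : q ∣ q * M' := Dvd.intro M' rfl
  have hcop1 : Nat.Coprime q (q * M' / q) := by
    rw [Nat.mul_div_cancel_left _ hq.pos]
    exact h
  have e1 : inclHom (mul_dvd_level hN) y = heckeAlphaBar Kbar (q * M') q y :=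
    Subtype.ext (by rw [coe_inclHom, coe_heckeAlphaBar])
  have e2 : vHom (level_eq_mul hN) (atkinLehnerBar q M' h y) =
      heckeBetaBar Kbar (q * M') q (atkinLehnerBar q M' h y) :=
    Subtype.ext (by rw [coe_vHom, coe_heckeBetaBar])
  rw [e1, e2, atkinLehnerHall_mul_heckeAlphaBar (q * M') q hQ1 hcop1 q hcop1 hQ hcop y,
    atkinLehnerHall_eq_atkinLehnerBar q M' h hQ1 hcop1 y]

/-- `W_{q²} ∘ β^* = α^* ∘ W_q` on `FN (q * M')`. -/
theorem hall_vHom (y : FN (q * M')) :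
    atkinLehnerHall N (q * q) hQ hcop (vHom (level_eq_mul hN) y) =
      inclHom (mul_dvd_level hN) (atkinLehnerBar q M' h y) := by
  have h1 := hall_incl hN h hQ hcop (atkinLehnerBar q M' h y)
  rw [atkinLehnerBar_atkinLehnerBar] at h1
  rw [← h1, atkinLehnerHall_atkinLehnerHall]

theorem vHom_algebraMap {m M₁ N₁ : ℕ} [NeZero m] [NeZero M₁] (hN₁ : N₁ = m * M₁) (a : Kbar) :
    vHom hN₁ (algebraMap Kbar (FN M₁) a) = algebraMap Kbar (FN N₁) a := by
  apply Subtype.ext
  rw [coe_vHom, coe_algebraMap_FN, coe_algebraMap_FN, qExpand_C]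

variable {c : Kbar} {Y0 : FN (q * M')}
  (hW : atkinLehnerBar q M' h Y0 * Y0 = algebraMap Kbar (FN (q * M')) (c * q))

include hW in
theorem law_eq (hc : c ≠ 0) :
    atkinLehnerBar q M' h Y0 = algebraMap Kbar (FN (q * M')) (c * q) * Y0⁻¹ := by
  have hY0 := ne_zero_of_law h hW hc
  rw [← hW]
  field_simp

include hW in
/-- **`W_{q²} Y = X`.** -/
theorem hall_elY (hc : c ≠ 0) :
    atkinLehnerHall N (q * q) hQ hcop (elY hN Y0) = elX hN c Y0 := by
  unfold elY elX elYb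
  rw [hall_incl hN h hQ hcop, law_eq h hW hc, map_mul, map_inv₀, vHom_algebraMap]

include hW in
/-- `W_{q²} (β^* Y₀) = c q / Y`. -/
theorem hall_elYb (hc : c ≠ 0) :
    atkinLehnerHall N (q * q) hQ hcop (elYb hN Y0) =
      algebraMap Kbar (FN N) (c * q) * (elY hN Y0)⁻¹ := by
  unfold elY elYb
  rw [hall_vHom hN h hQ hcop, law_eq h hW hc, map_mul, map_inv₀, inclHom_algebraMap]

include hW in
/-- **`W_{q²} X = Y`.** -/
theorem hall_elX (hc : c ≠ 0) :
    atkinLehnerHall N (q * q) hQ hcop (elX hN c Y0) = elY hN Y0 := by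
  have h1 := hall_elY hN h hQ hcop hW hc
  rw [← h1, atkinLehnerHall_atkinLehnerHall]

include hW in
/-- **`W_{q²} Z = Z`.** -/
theorem hall_elZ (hc : c ≠ 0) :
    atkinLehnerHall N (q * q) hQ hcop (elZ hN Y0) = elZ hN Y0 := by
  have hY0 := ne_zero_of_law h hW hc
  have hq : q.Prime := Fact.out
  have h1 := elY_ne_zero hN hY0
  have h2 := elYb_ne_zero hN hY0
  have h3 : algebraMap Kbar (FN N) (c * q) ≠ 0 :=
    (map_ne_zero _).mpr (mul_ne_zero hc (Nat.cast_ne_zero.mpr hq.ne_zero))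
  have h4 := hall_elY hN h hQ hcop hW hc
  have h5 := hall_elYb hN h hQ hcop hW hc
  unfold elZ
  rw [map_mul, map_inv₀, h4, h5]
  unfold elX
  field_simp

include h in
/-- `W_{q²} (τ) = V_{q²} τ` for `τ : FN M'`. -/
theorem hall_incl_level (τ : FN M') :
    atkinLehnerHall N (q * q) hQ hcop (inclHom (dvd_level hN) τ) = vHom hN τ := by
  have hq : q.Prime := Fact.out
  have key : ((atkinLehnerHall N (q * q) hQ hcop).toRingEquiv.toRingHom).comp
      (inclHom (dvd_level hN)) = vHom hN := by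
    apply helper3176.ringHom_ext_of_gen
    · intro a
      show atkinLehnerHall N (q * q) hQ hcop (inclHom (dvd_level hN) (algebraMap Kbar (FN M') a))
        = vHom hN (algebraMap Kbar (FN M') a)
      rw [inclHom_algebraMap, AlgEquiv.commutes, vHom_algebraMap]
    · intro d _ hd
      show atkinLehnerHall N (q * q) hQ hcop (inclHom (dvd_level hN) (jBarD M' d hd))
        = vHom hN (jBarD M' d hd)
      have hd0 : d ≠ 0 := NeZero.ne d
      have hcopd : Nat.Coprime (q * q) d :=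
        Nat.Coprime.coprime_dvd_right hd (Nat.Coprime.mul_left h h)
      have hidx : hallIdx (q * q) d = q ^ 2 * d := by
        rw [hallIdx_def, hcopd.gcd_eq_one, Nat.div_one, Nat.div_one, sq]
      haveI : NeZero (q ^ 2 * d) := ⟨Nat.mul_ne_zero (pow_ne_zero 2 hq.ne_zero) hd0⟩
      haveI : NeZero (hallIdx (q * q) d) := ⟨by rw [hidx]; exact NeZero.ne _⟩
      have hdN : q ^ 2 * d ∣ N := by
        rw [hN]
        exact Nat.mul_dvd_mul_left _ hd
      have hdN' : hallIdx (q * q) d ∣ N := by rw [hidx]; exact hdN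
      have e1 : inclHom (dvd_level hN) (jBarD M' d hd) = jBarD N d (hd.trans (dvd_level hN)) :=
        Subtype.ext (coe_inclHom _ _)
      have e2 : vHom hN (jBarD M' d hd) = jBarD N (q ^ 2 * d) hdN := by
        apply Subtype.ext
        rw [coe_vHom, helper3176.coe_jBarD, helper3176.coe_jBarD, jSeries_mul]
      rw [e1, e2, atkinLehnerHall_jBarD N (q * q) hQ hcop d _ hdN']
      exact jBarD_congr N hidx _ _
  exact congrArg (fun f : FN M' →+* FN N => f τ) key

include h in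
/-- **`W_{q²} T = -T`.** -/
theorem hall_elT (τ : FN M') :
    atkinLehnerHall N (q * q) hQ hcop (elT hN τ) = -elT hN τ := by
  have h1 := hall_incl_level hN h hQ hcop τ
  have h2 : atkinLehnerHall N (q * q) hQ hcop (vHom hN τ) = inclHom (dvd_level hN) τ := by
    rw [← h1, atkinLehnerHall_atkinLehnerHall]
  unfold elT
  rw [map_sub, h1, h2, neg_sub]

end Hall

/-! ### Integral forms: `Y₀ = f / f(x^q)` with `f` a unit of `ℤ⸨X⸩` -/

section Integral

open Finset
open Fermat.Agent.Lib.helper9242 (thetaFun)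

/-- Coefficientwise image of an integral series. -/
abbrev ofZ (x : LaurentSeries ℤ) : LaurentSeries Kbar := coeffMap (Int.castRingHom Kbar) x

theorem coeffMap_comp_intCast {R : Type*} [CommRing R] (φ : R →+* Kbar) (x : LaurentSeries ℤ) :
    coeffMap φ (coeffMap (Int.castRingHom R) x) = ofZ x := by
  rw [coeffMap_coeffMap]
  exact coeffMap_congr (RingHom.ext_int _ _) x

variable {c : Kbar} {Y0 : FN (q * M')} (fZ gZ : LaurentSeries ℤ) (hfg : fZ * gZ = 1)
  (hY0 : (Y0 : LaurentSeries Kbar) = ofZ fZ * qExpand Kbar q (ofZ gZ))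

include hfg hY0 in
/-- `X = c q * g(x^q) f(x^{q²})` at `∞`: an integral series times `c q`. -/
theorem coe_elX_int :
    ((elX hN c Y0 : FN N) : LaurentSeries Kbar) =
      HahnSeries.C (c * q) * ofZ (qExpand ℤ q gZ * qExpand ℤ q (qExpand ℤ q fZ)) := by
  have h1 : (ofZ fZ) * (ofZ gZ) = 1 := by
    show coeffMap _ fZ * coeffMap _ gZ = 1
    rw [← map_mul, hfg, map_one]
  have h2 : qExpand Kbar q (Y0 : LaurentSeries Kbar) *
      ofZ (qExpand ℤ q gZ * qExpand ℤ q (qExpand ℤ q fZ)) = 1 := by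
    show _ * coeffMap _ _ = 1
    rw [hY0, map_mul, map_mul, coeffMap_qExpand_aux, coeffMap_qExpand_aux, coeffMap_qExpand_aux]
    have e : qExpand Kbar q (ofZ fZ) * qExpand Kbar q (qExpand Kbar q (ofZ gZ)) *
        (qExpand Kbar q (ofZ gZ) * qExpand Kbar q (qExpand Kbar q (ofZ fZ))) =
        qExpand Kbar q (ofZ fZ * ofZ gZ) * qExpand Kbar q (qExpand Kbar q (ofZ fZ * ofZ gZ)) := by
      simp only [map_mul]
      ring
    exact e.trans (by rw [h1, map_one, map_one, mul_one])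
  have h3 : ((elX hN c Y0 : FN N) : LaurentSeries Kbar) =
      HahnSeries.C (c * q) * (qExpand Kbar q (Y0 : LaurentSeries Kbar))⁻¹ := by
    unfold elX
    show ((algebraMap Kbar (FN N) (c * q) : FN N) : LaurentSeries Kbar) *
      (((elYb hN Y0)⁻¹ : FN N) : LaurentSeries Kbar) = _
    rw [coe_algebraMap_FN]
    rfl
  rw [h3, eq_comm]
  congr 1
  exact eq_inv_of_mul_eq_one_right h2

include hY0 in
/-- `Y = f g(x^q)` at `∞`. -/
theorem coe_elY_int :
    ((elY hN Y0 : FN N) : LaurentSeries Kbar) = ofZ (fZ * qExpand ℤ q gZ) := by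
  show _ = coeffMap _ _
  rw [coe_elY, hY0, map_mul, coeffMap_qExpand_aux]

include hfg hY0 in
/-- **The expansion at `∞` of `T^(q-1) X Y`** is `c q` times an integral series. -/
theorem coe_pow_mul (τ : FN M') (tZ : LaurentSeries ℤ) (hτ : (τ : LaurentSeries Kbar) = ofZ tZ) :
    ((elT hN τ ^ (q - 1) * elX hN c Y0 * elY hN Y0 : FN N) : LaurentSeries Kbar) =
      HahnSeries.C (c * q) * ofZ ((qExpand ℤ (q ^ 2) tZ - tZ) ^ (q - 1) *
        (qExpand ℤ q gZ * qExpand ℤ q (qExpand ℤ q fZ)) * (fZ * qExpand ℤ q gZ)) := by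
  show ((elT hN τ : FN N) : LaurentSeries Kbar) ^ (q - 1) *
    ((elX hN c Y0 : FN N) : LaurentSeries Kbar) * ((elY hN Y0 : FN N) : LaurentSeries Kbar) = _
  rw [coe_elX_int hN fZ gZ hfg hY0, coe_elY_int hN fZ gZ hY0, coe_elT, hτ]
  simp only [ofZ, map_mul, map_pow, map_sub, coeffMap_qExpand_aux]
  ring

variable (hqM : ¬ q ∣ M') (ζ : Kbarˣ) (hζ : IsPrimitiveRoot (ζ : Kbar) q)
  (h : Nat.Coprime q M')
  (hW : atkinLehnerBar q M' h Y0 * Y0 = algebraMap Kbar (FN (q * M')) (c * q))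

include hfg hY0 hW in
/-- **The mid-cusp expansion of `T^(q-1) X Y`**: `q * (-(u^(q-1)) + (ζ - 1) E)` with `E` defined
over any ring `R → ℚ̄` containing a lift `ζR` of `ζ` (e.g. `R = ↥A` for a valuation subring `A`,
or `R = ℤ[ζ]`).  Here `θ tZ = -(fZ² uZ)` is the base-line identity. -/
theorem exists_midExp_pow_mul [NeZero (q ^ 2)] (hc : c ≠ 0) (τ : FN M')
    (tZ uZ : LaurentSeries ℤ) (hτ : (τ : LaurentSeries Kbar) = ofZ tZ)
    (hθ : thetaFun ℤ tZ = -(fZ ^ 2 * uZ))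
    {R : Type*} [CommRing R] (φ : R →+* Kbar) (ζR : Rˣ)
    (hζR : ∑ i ∈ range q, (ζR : R) ^ i = 0) (hφ : φ (ζR : R) = (ζ : Kbar)) :
    ∃ E : LaurentSeries R,
      midExp hqM hN ζ hζ (elT hN τ ^ (q - 1) * elX hN c Y0 * elY hN Y0) =
        coeffMap φ (HahnSeries.C (q : R) * (-(coeffMap (Int.castRingHom R) uZ ^ (q - 1)) +
          HahnSeries.C ((ζR : R) - 1) * E)) := by
  have hq : q.Prime := Fact.out
  obtain ⟨E, hE⟩ := exists_mid_red_int (R := R) hq ζR hζR tZ uZ fZ gZ hθ hfg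
  refine ⟨E, ?_⟩
  have hu : Units.map (φ : R →* Kbar) ζR = ζ := Units.ext hφ
  rw [← hE, map_mul, map_mul, map_pow, midExp_elT, midExp_elX hN hqM ζ hζ h hW hc, midExp_elY,
    hτ, hY0]
  simp only [map_mul, map_pow, map_sub, Fermat.Agent.S36.helper3919.coeffMap_twist, hu,
    coeffMap_qExpand_aux, coeffMap_comp_intCast, rot_eq_twist]
  ring

end Integral

end Elements

end Fermat.Agent.S36.helper7249
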