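import Fermat.Agent.S36.helper4696_LPProp
import Fermat.Agent.S36.helper8039_LPCasesVal

/-!
# S36: the field `lp : LPProp O x V` of `helper36.KillData` from the (LP) casework (helper8039)

`lpProp_of_cases` composes

* `helper8039.locFactorial_of_val_rad` (the exhaustive casework by component incidence, valuation
  form) on the two charts `chart O x i` of level `q² M''` and `chart O x' i` of level `q M''`, and
* `helper4696.lpProp_of_baseDVR` (from `LocFactorial` at the closed points to `LPProp`),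

and `lp_at_of_cases` is the same at ONE closed point of ONE chart (inputs (TH), (MID), (B) only at
that point, conditional on its incidence); `lpProp_of_cases_at` = `lp_at_of_cases` at every point,

so that the `lp` field is reduced to the modular inputs listed in the statement: the restriction
tables (the `mem_a`, `mem_m`, `mem_b` fields of `DegData`), the two radicals, (U), (LOC), the
residue fields of the closed points, thickness one at the closed nodes of level `q` (F2-OUT), the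
generator of `p_mid` at the closed points on `C_mid` only (MID-OUT / CUSP-LP) and (LP)(b).
-/

set_option autoImplicit false

namespace Fermat.Agent.S36.helper8039

open Fermat.Agent.S36.helper36 (chart LPProp BaseDVR)
open Fermat.Agent.S36.helper248 (chartRing)
open Fermat.Agent.S36.helper1730 (NilMod)
open Fermat.Agent.S36.helper6136

section Kill

variable {K F F' : Type*} [Field K] [Field F] [Field F'] [Algebra K F] [Algebra K F']

/-- The two charts are noetherian and integrally closed. -/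
theorem chart_struct [CharZero K] (O : ValuationSubring K) [IsNoetherianRing O] (x : F)
    (hx : Transcendental K x) [FiniteDimensional (IntermediateField.adjoin K ({x} : Set F)) F]
    (i : Fin 2) : IsNoetherianRing (chart O x i) ∧ IsIntegrallyClosed (chart O x i) := by
  have hxinv : Transcendental K x⁻¹ := by
    intro halg
    exact hx (by simpa using halg.inv)
  have hfin' : FiniteDimensional (IntermediateField.adjoin K ({x⁻¹} : Set F)) F :=
    helper2587.finiteDimensional_adjoin_inv x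
  by_cases hi : i = 0
  · subst hi
    exact ⟨helper2587.isNoetherianRing_chartRing (A0 := O) (K0 := K) x hx,
      helper2587.isIntegrallyClosed_chartRing (A0 := O) (K0 := K) x⟩
  · have hi1 : i = 1 := by omega
    subst hi1
    exact ⟨helper2587.isNoetherianRing_chartRing (A0 := O) (K0 := K) x⁻¹ hxinv,
      helper2587.isIntegrallyClosed_chartRing (A0 := O) (K0 := K) x⁻¹⟩

/-- The charts lie in every valuation subring containing `O` at which `x` is a unit. -/
theorem chart_le (O : ValuationSubring K) (x : F) (W : ValuationSubring F)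
    (hconst : ∀ a : K, a ∈ O → algebraMap K F a ∈ W) (hxW : x ∈ W ∧ x⁻¹ ∈ W) (i : Fin 2) :
    ∀ b ∈ chart O x i, b ∈ W := by
  intro b hb
  refine helper4696.chartRing_le_valuationSubring (A0 := O) _ W (fun a => hconst a a.2) ?_ b hb
  intro y hy
  by_cases hi : i = 0
  · rw [if_pos hi, Set.mem_singleton_iff] at hy
    rw [hy]; exact hxW.1
  · rw [if_neg hi, Set.mem_singleton_iff] at hy
    rw [hy]; exact hxW.2

/-- The two charts have fraction field `F`. -/
theorem chart_frac [CharZero K] (O : ValuationSubring K) [IsNoetherianRing O] (x : F)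
    [FiniteDimensional (IntermediateField.adjoin K ({x} : Set F)) F]
    (i : Fin 2) : IsFractionRing (chart O x i) F := by
  have hfin' : FiniteDimensional (IntermediateField.adjoin K ({x⁻¹} : Set F)) F :=
    helper2587.finiteDimensional_adjoin_inv x
  by_cases hi : i = 0
  · subst hi
    exact helper2587.isFractionRing_chartRing (A0 := O) (K0 := K) x
  · have hi1 : i = 1 := by omega
    subst hi1
    exact helper2587.isFractionRing_chartRing (A0 := O) (K0 := K) x⁻¹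

/-- **(LP) at ONE closed point `P` of the special fibre of the chart `i`**, in the seed shape of
`helper36.LPProp` (`u * s = b * h ^ n`, `b, s ∉ P`).  The inputs (TH), (MID), (B) are needed only
at `P` and only for the relevant incidence `S(P) = {c | centre (chart O x i) (V c) ≤ P}`:
nothing at a point lying on `C_oo` only or `C_0` only (beyond (B)), (MID) at a point on `C_mid`
only, (TH) at the image nodes if `P` lies on several components. -/
theorem lp_at_of_cases [CharZero K] (O : ValuationSubring K) (q : ℕ) (hbase : BaseDVR O q)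
    (α β : F' →ₐ[K] F) (x : F) (x' : F')
    (hx : Transcendental K x) (hx' : Transcendental K x')
    [FiniteDimensional (IntermediateField.adjoin K ({x} : Set F)) F]
    [FiniteDimensional (IntermediateField.adjoin K ({x'} : Set F')) F']
    (V : Fin 3 → ValuationSubring F) (V' : Fin 2 → ValuationSubring F')
    (hconst : ∀ (c : Fin 3) (a : K), a ∈ O → algebraMap K F a ∈ V c)
    (hconst' : ∀ (c : Fin 2) (a : K), a ∈ O → algebraMap K F' a ∈ V' c)
    (hxV : ∀ c, x ∈ V c ∧ x⁻¹ ∈ V c) (hxV' : ∀ c, x' ∈ V' c ∧ x'⁻¹ ∈ V' c)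
    (hqV : ∀ c, (q : F) ∈ (V c).nonunits) (i : Fin 2)
    -- radicals on the chart `i`
    (hrad : ∀ y : F, y ∈ chart O x i → (∀ c, y ∈ (V c).nonunits) →
      NilMod (chart O x i) (q : F) y)
    (hrad' : ∀ y : F', y ∈ chart O x' i → (∀ c, y ∈ (V' c).nonunits) →
      NilMod (chart O x' i) (q : F') y)
    -- the degeneracy maps respect the chart `i`
    (hαB : ∀ b : F', b ∈ chart O x' i → (α : F' →+* F) b ∈ chart O x i)
    (hβB : ∀ b : F', b ∈ chart O x' i → (β : F' →+* F) b ∈ chart O x i)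
    -- restriction tables
    (hα0 : ∀ a : F', α a ∈ V 0 ↔ a ∈ V' 0) (hα1 : ∀ a : F', α a ∈ V 1 ↔ a ∈ V' 0)
    (hα2 : ∀ a : F', α a ∈ V 2 ↔ a ∈ V' 1)
    (hβ0 : ∀ a : F', β a ∈ V 0 ↔ a ∈ V' 0) (hβ1 : ∀ a : F', β a ∈ V 1 ↔ a ∈ V' 1)
    (hβ2 : ∀ a : F', β a ∈ V 2 ↔ a ∈ V' 1)
    -- (U)
    (hu0 : ∀ y ∈ (V 0).nonunits, ∃ z ∈ V 0, y = (q : F) * z)
    (hu2 : ∀ y ∈ (V 2).nonunits, ∃ z ∈ V 2, y = (q : F) * z)
    (hu' : ∀ c, ∀ y ∈ (V' c).nonunits, ∃ z ∈ V' c, y = (q : F') * z)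
    -- (LOC) on the chart `i`
    (hloc0 : ∀ y ∈ V 0, ∃ a s : chart O x i, (s : F) ∉ (V 0).nonunits ∧ y * s = a)
    (hloc2 : ∀ y ∈ V 2, ∃ a s : chart O x i, (s : F) ∉ (V 2).nonunits ∧ y * s = a)
    (hloc' : ∀ c : Fin 2, ∀ y ∈ V' c,
      ∃ a s : chart O x' i, (s : F') ∉ (V' c).nonunits ∧ y * s = a)
    (hne : ¬ V' 0 ≤ V' 1) (hne' : ¬ V' 1 ≤ V' 0)
    -- the point
    (P : Ideal (chart O x i)) [P.IsPrime]
    (hvert : ∀ b : chart O x i, (∀ c, (b : F) ∈ (V c).nonunits) → b ∈ P)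
    -- (TH) at the images of `P`
    (hTHα : centre (chart O x i) (V 1) ≤ P → centre (chart O x i) (V 2) ≤ P →
      ∃ x₀ ∈ centre (chart O x' i) (V' 0), ∃ y₀ ∈ centre (chart O x' i) (V' 1), ∃ g,
        g ∉ P.comap (resHom (α : F' →+* F) (chart O x' i) (chart O x i) hαB) ∧
          x₀ * y₀ = (q : chart O x' i) * g)
    (hTHβ : centre (chart O x i) (V 0) ≤ P →
      (centre (chart O x i) (V 1) ≤ P ∨ centre (chart O x i) (V 2) ≤ P) →
      ∃ x₀ ∈ centre (chart O x' i) (V' 0), ∃ y₀ ∈ centre (chart O x' i) (V' 1), ∃ g,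
        g ∉ P.comap (resHom (β : F' →+* F) (chart O x' i) (chart O x i) hβB) ∧
          x₀ * y₀ = (q : chart O x' i) * g)
    -- (MID) at `P`
    (hMID : centre (chart O x i) (V 1) ≤ P → ¬ centre (chart O x i) (V 0) ≤ P →
      ¬ centre (chart O x i) (V 2) ≤ P →
      ∃ T ∈ centre (chart O x i) (V 1), T ≠ 0 ∧
        (∃ m : ℕ, m ≠ 0 ∧ ∃ s, s ∉ P ∧ T ^ m ∣ s * (q : chart O x i)) ∧
        ∀ a ∈ centre (chart O x i) (V 1), ∃ s, s ∉ centre (chart O x i) (V 1) ∧ T ∣ s * a)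
    -- (B) at `P`
    (hPIR : ∀ c : Fin 3, centre (chart O x i) (V c) ≤ P →
      LocPIRQuot P (centre (chart O x i) (V c)))
    (n : ℕ) (u : F) (hn : 0 < n) (hu : u ≠ 0) (huV : ∀ c, u ∈ V c ∧ u⁻¹ ∈ V c)
    (hhor : Fermat.Agent.S36.helper36.HorDiv K n u) :
    ∃ h : F, h ≠ 0 ∧ ∃ b s : chart O x i, b ∉ P ∧ s ∉ P ∧ u * (s : F) = (b : F) * h ^ n := by
  have hnoeth := hbase.noeth
  have hqK0 : (q : K) ≠ 0 := hbase.q_ne
  have hqF0 : (q : F) ≠ 0 := by
    have h := (algebraMap K F).injective.ne hqK0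
    simpa using h
  obtain ⟨h1, h2⟩ := chart_struct O x hx i
  obtain ⟨h1', h2'⟩ := chart_struct O x' hx' i
  have h3 := chart_frac O x i
  have hqP : (q : chart O x i) ∈ P :=
    hvert _ (fun c => by rw [Subring.coe_natCast]; exact hqV c)
  have hBV : ∀ c, ∀ b : F, b ∈ chart O x i → b ∈ V c :=
    fun c => chart_le O x (V c) (hconst c) (hxV c) i
  have hLF : LocFactorial P := by
    refine locFactorial_of_val_rad_at (chart O x i) (chart O x' i) (α : F' →+* F)
      (β : F' →+* F) hαB hβB (q : chart O x' i) (q : chart O x i)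
      (fun h => hqF0 (by simpa using congrArg (fun z : chart O x i => (z : F)) h))
      (by simp) (by simp) (V 0) (V 1) (V 2) (V' 0) (V' 1)
      (hBV 0) (hBV 1) (hBV 2)
      (chart_le O x' (V' 0) (hconst' 0) (hxV' 0) i) (chart_le O x' (V' 1) (hconst' 1) (hxV' 1) i)
      (by rw [Subring.coe_natCast]; exact hqV 0) (by rw [Subring.coe_natCast]; exact hqV 1)
      (by rw [Subring.coe_natCast]; exact hqV 2)
      hα0 hα1 hα2 hβ0 hβ1 hβ2 ?_ ?_
      (by rw [Subring.coe_natCast]; exact hu0) (by rw [Subring.coe_natCast]; exact hu2)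
      (by rw [Subring.coe_natCast]; exact hu' 0) (by rw [Subring.coe_natCast]; exact hu' 1)
      hloc0 hloc2 (hloc' 0) (hloc' 1) hne hne' P hqP hTHα hTHβ hMID (hPIR 0) (hPIR 1) (hPIR 2)
    · intro y hy h0 h1 h2
      obtain ⟨_, e, r, hr, he⟩ := hrad y hy (by intro c; fin_cases c; exacts [h0, h1, h2])
      exact ⟨e, r, hr, by rw [Subring.coe_natCast]; exact he⟩
    · intro y hy h0 h1
      obtain ⟨_, e, r, hr, he⟩ := hrad' y hy (by intro c; fin_cases c; exacts [h0, h1])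
      exact ⟨e, r, hr, by rw [Subring.coe_natCast]; exact he⟩
  have hK : ∀ a : K, ∃ k : ℕ, (q : F) ^ k * algebraMap K F a ∈ chart O x i := by
    intro a
    obtain ⟨k, hk⟩ := helper4696.exists_pow_mul_mem_of_unif O (q : K) hbase.q_mem hbase.q_ne
      hbase.unif a
    refine ⟨k, ?_⟩
    have := helper248.algebraMap_mem_chartRing (A0 := O) (L := F)
      (if i = 0 then ({x} : Set F) else {x⁻¹}) (⟨_, hk⟩ : O)
    have h5 : algebraMap O F (⟨_, hk⟩ : O) = (q : F) ^ k * algebraMap K F a := by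
      show algebraMap K F ((q : K) ^ k * a) = _
      rw [map_mul, map_pow, map_natCast]
    rw [h5] at this
    exact this
  exact helper4696.lp_field_seed (K := K) (chart O x i) V hBV (q : F) (natCast_mem _ q) hqF0 hqV
    hrad hK P hLF n u hn hu huV hhor

/-- **The `lp` field of `helper36.KillData` from per-point inputs.**  `lp_at_of_cases` at every
closed point of the special fibre of both charts. -/
theorem lpProp_of_cases_at [CharZero K] (O : ValuationSubring K) (q : ℕ) (hbase : BaseDVR O q)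
    (α β : F' →ₐ[K] F) (x : F) (x' : F')
    (hx : Transcendental K x) (hx' : Transcendental K x')
    [FiniteDimensional (IntermediateField.adjoin K ({x} : Set F)) F]
    [FiniteDimensional (IntermediateField.adjoin K ({x'} : Set F')) F']
    (V : Fin 3 → ValuationSubring F) (V' : Fin 2 → ValuationSubring F')
    (hconst : ∀ (c : Fin 3) (a : K), a ∈ O → algebraMap K F a ∈ V c)
    (hconst' : ∀ (c : Fin 2) (a : K), a ∈ O → algebraMap K F' a ∈ V' c)
    (hxV : ∀ c, x ∈ V c ∧ x⁻¹ ∈ V c) (hxV' : ∀ c, x' ∈ V' c ∧ x'⁻¹ ∈ V' c)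
    (hqV : ∀ c, (q : F) ∈ (V c).nonunits)
    (hrad : ∀ (i : Fin 2) (y : F), y ∈ chart O x i → (∀ c, y ∈ (V c).nonunits) →
      NilMod (chart O x i) (q : F) y)
    (hrad' : ∀ (i : Fin 2) (y : F'), y ∈ chart O x' i → (∀ c, y ∈ (V' c).nonunits) →
      NilMod (chart O x' i) (q : F') y)
    (hαB : ∀ (i : Fin 2) (b : F'), b ∈ chart O x' i → (α : F' →+* F) b ∈ chart O x i)
    (hβB : ∀ (i : Fin 2) (b : F'), b ∈ chart O x' i → (β : F' →+* F) b ∈ chart O x i)
    (hα0 : ∀ a : F', α a ∈ V 0 ↔ a ∈ V' 0) (hα1 : ∀ a : F', α a ∈ V 1 ↔ a ∈ V' 0)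
    (hα2 : ∀ a : F', α a ∈ V 2 ↔ a ∈ V' 1)
    (hβ0 : ∀ a : F', β a ∈ V 0 ↔ a ∈ V' 0) (hβ1 : ∀ a : F', β a ∈ V 1 ↔ a ∈ V' 1)
    (hβ2 : ∀ a : F', β a ∈ V 2 ↔ a ∈ V' 1)
    (hu0 : ∀ y ∈ (V 0).nonunits, ∃ z ∈ V 0, y = (q : F) * z)
    (hu2 : ∀ y ∈ (V 2).nonunits, ∃ z ∈ V 2, y = (q : F) * z)
    (hu' : ∀ c, ∀ y ∈ (V' c).nonunits, ∃ z ∈ V' c, y = (q : F') * z)
    (hloc0 : ∀ i : Fin 2, ∀ y ∈ V 0, ∃ a s : chart O x i, (s : F) ∉ (V 0).nonunits ∧ y * s = a)
    (hloc2 : ∀ i : Fin 2, ∀ y ∈ V 2, ∃ a s : chart O x i, (s : F) ∉ (V 2).nonunits ∧ y * s = a)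
    (hloc' : ∀ (i : Fin 2) (c : Fin 2), ∀ y ∈ V' c,
      ∃ a s : chart O x' i, (s : F') ∉ (V' c).nonunits ∧ y * s = a)
    (hne : ¬ V' 0 ≤ V' 1) (hne' : ¬ V' 1 ≤ V' 0)
    (hTHα : ∀ (i : Fin 2) (P : Ideal (chart O x i)), P.IsMaximal →
      (q : chart O x i) ∈ P →
      centre (chart O x i) (V 1) ≤ P → centre (chart O x i) (V 2) ≤ P →
      ∃ x₀ ∈ centre (chart O x' i) (V' 0), ∃ y₀ ∈ centre (chart O x' i) (V' 1), ∃ g,
        g ∉ P.comap (resHom (α : F' →+* F) (chart O x' i) (chart O x i) (hαB i)) ∧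
          x₀ * y₀ = (q : chart O x' i) * g)
    (hTHβ : ∀ (i : Fin 2) (P : Ideal (chart O x i)), P.IsMaximal →
      (q : chart O x i) ∈ P → centre (chart O x i) (V 0) ≤ P →
      (centre (chart O x i) (V 1) ≤ P ∨ centre (chart O x i) (V 2) ≤ P) →
      ∃ x₀ ∈ centre (chart O x' i) (V' 0), ∃ y₀ ∈ centre (chart O x' i) (V' 1), ∃ g,
        g ∉ P.comap (resHom (β : F' →+* F) (chart O x' i) (chart O x i) (hβB i)) ∧
          x₀ * y₀ = (q : chart O x' i) * g)
    (hMID : ∀ (i : Fin 2) (P : Ideal (chart O x i)), P.IsMaximal →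
      centre (chart O x i) (V 1) ≤ P → ¬ centre (chart O x i) (V 0) ≤ P →
      ¬ centre (chart O x i) (V 2) ≤ P →
      ∃ T ∈ centre (chart O x i) (V 1), T ≠ 0 ∧
        (∃ m : ℕ, m ≠ 0 ∧ ∃ s, s ∉ P ∧ T ^ m ∣ s * (q : chart O x i)) ∧
        ∀ a ∈ centre (chart O x i) (V 1), ∃ s, s ∉ centre (chart O x i) (V 1) ∧ T ∣ s * a)
    (hPIR : ∀ (i : Fin 2) (c : Fin 3) (P : Ideal (chart O x i)), P.IsMaximal →
      centre (chart O x i) (V c) ≤ P → LocPIRQuot P (centre (chart O x i) (V c))) :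
    LPProp O x V := by
  intro i P hP hvert n u hn hu huV hhor
  have hPp : P.IsPrime := hP.isPrime
  have hqP : (q : chart O x i) ∈ P :=
    hvert _ (fun c => by rw [Subring.coe_natCast]; exact hqV c)
  exact lp_at_of_cases O q hbase α β x x' hx hx' V V' hconst hconst' hxV hxV' hqV i (hrad i)
    (hrad' i) (hαB i) (hβB i) hα0 hα1 hα2 hβ0 hβ1 hβ2 hu0 hu2 hu' (hloc0 i) (hloc2 i) (hloc' i)
    hne hne' P hvert (hTHα i P hP hqP) (hTHβ i P hP hqP) (hMID i P hP)
    (fun c => hPIR i c P hP) n u hn hu huV hhor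

/-- **The `lp` field of `helper36.KillData` from the (LP) casework.** -/
theorem lpProp_of_cases [CharZero K] (O : ValuationSubring K) (q : ℕ) (hbase : BaseDVR O q)
    (α β : F' →ₐ[K] F) (x : F) (x' : F')
    (hx : Transcendental K x) (hx' : Transcendental K x')
    [FiniteDimensional (IntermediateField.adjoin K ({x} : Set F)) F]
    [FiniteDimensional (IntermediateField.adjoin K ({x'} : Set F')) F']
    (V : Fin 3 → ValuationSubring F) (V' : Fin 2 → ValuationSubring F')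
    (hconst : ∀ (c : Fin 3) (a : K), a ∈ O → algebraMap K F a ∈ V c)
    (hconst' : ∀ (c : Fin 2) (a : K), a ∈ O → algebraMap K F' a ∈ V' c)
    (hxV : ∀ c, x ∈ V c ∧ x⁻¹ ∈ V c) (hxV' : ∀ c, x' ∈ V' c ∧ x'⁻¹ ∈ V' c)
    (hqV : ∀ c, (q : F) ∈ (V c).nonunits)
    -- radicals
    (hrad : ∀ (i : Fin 2) (y : F), y ∈ chart O x i → (∀ c, y ∈ (V c).nonunits) →
      NilMod (chart O x i) (q : F) y)
    (hrad' : ∀ (i : Fin 2) (y : F'), y ∈ chart O x' i → (∀ c, y ∈ (V' c).nonunits) →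
      NilMod (chart O x' i) (q : F') y)
    -- the degeneracy maps respect the charts
    (hαB : ∀ (i : Fin 2) (b : F'), b ∈ chart O x' i → α b ∈ chart O x i)
    (hβB : ∀ (i : Fin 2) (b : F'), b ∈ chart O x' i → β b ∈ chart O x i)
    -- restriction tables
    (hα0 : ∀ a : F', α a ∈ V 0 ↔ a ∈ V' 0) (hα1 : ∀ a : F', α a ∈ V 1 ↔ a ∈ V' 0)
    (hα2 : ∀ a : F', α a ∈ V 2 ↔ a ∈ V' 1)
    (hβ0 : ∀ a : F', β a ∈ V 0 ↔ a ∈ V' 0) (hβ1 : ∀ a : F', β a ∈ V 1 ↔ a ∈ V' 1)
    (hβ2 : ∀ a : F', β a ∈ V 2 ↔ a ∈ V' 1)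
    -- (U)
    (hu0 : ∀ y ∈ (V 0).nonunits, ∃ z ∈ V 0, y = (q : F) * z)
    (hu2 : ∀ y ∈ (V 2).nonunits, ∃ z ∈ V 2, y = (q : F) * z)
    (hu' : ∀ c, ∀ y ∈ (V' c).nonunits, ∃ z ∈ V' c, y = (q : F') * z)
    -- (LOC)
    (hloc0 : ∀ i : Fin 2, ∀ y ∈ V 0, ∃ a s : chart O x i, (s : F) ∉ (V 0).nonunits ∧ y * s = a)
    (hloc2 : ∀ i : Fin 2, ∀ y ∈ V 2, ∃ a s : chart O x i, (s : F) ∉ (V 2).nonunits ∧ y * s = a)
    (hloc' : ∀ (i : Fin 2) (c : Fin 2), ∀ y ∈ V' c,
      ∃ a s : chart O x' i, (s : F') ∉ (V' c).nonunits ∧ y * s = a)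
    (hne : ¬ V' 0 ≤ V' 1) (hne' : ¬ V' 1 ≤ V' 0)
    -- residue fields of the closed points of the special fibre
    (hres : ∀ (i : Fin 2) (P : Ideal (chart O x i)), P.IsMaximal → (q : chart O x i) ∈ P →
      ∀ b : chart O x i, ∃ z ∈ O, ∃ h : algebraMap K F z ∈ chart O x i, b - ⟨_, h⟩ ∈ P)
    -- (TH)
    (hTH : ∀ (i : Fin 2) (P' : Ideal (chart O x' i)), P'.IsMaximal →
      centre (chart O x' i) (V' 0) ≤ P' → centre (chart O x' i) (V' 1) ≤ P' →
      ∃ x₀ ∈ centre (chart O x' i) (V' 0), ∃ y₀ ∈ centre (chart O x' i) (V' 1), ∃ g, g ∉ P' ∧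
        x₀ * y₀ = (q : chart O x' i) * g)
    -- (MID)
    (hMID : ∀ (i : Fin 2) (P : Ideal (chart O x i)), P.IsMaximal →
      centre (chart O x i) (V 1) ≤ P → ¬ centre (chart O x i) (V 0) ≤ P →
      ¬ centre (chart O x i) (V 2) ≤ P →
      ∃ T ∈ centre (chart O x i) (V 1), T ≠ 0 ∧
        (∃ m : ℕ, m ≠ 0 ∧ ∃ s, s ∉ P ∧ T ^ m ∣ s * (q : chart O x i)) ∧
        ∀ a ∈ centre (chart O x i) (V 1), ∃ s, s ∉ centre (chart O x i) (V 1) ∧ T ∣ s * a)
    -- (B)
    (hPIR : ∀ (i : Fin 2) (c : Fin 3) (P : Ideal (chart O x i)), P.IsMaximal →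
      centre (chart O x i) (V c) ≤ P → LocPIRQuot P (centre (chart O x i) (V c))) :
    LPProp O x V := by
  have hnoeth := hbase.noeth
  have hqK0 : (q : K) ≠ 0 := hbase.q_ne
  have hqF0 : (q : F) ≠ 0 := by
    have h := (algebraMap K F).injective.ne hqK0
    simpa using h
  refine helper4696.lpProp_of_baseDVR O q hbase x hx V hconst hxV hqV hrad ?_
  intro i P hP hvert
  obtain ⟨h1, h2⟩ := chart_struct O x hx i
  obtain ⟨h1', h2'⟩ := chart_struct O x' hx' i
  have hqP : (q : chart O x i) ∈ P :=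
    hvert _ (fun c => by rw [Subring.coe_natCast]; exact hqV c)
  have hunifO : ∀ c ∈ O.nonunits, ∃ z ∈ O, c = (q : K) * z := fun c hc =>
    ⟨c / (q : K), hbase.unif c hc, by rw [mul_div_cancel₀ _ hqK0]⟩
  have hconstB' : ∀ a ∈ O, algebraMap K F' a ∈ chart O x' i := fun a ha =>
    helper248.algebraMap_mem_chartRing (A0 := O) _ (⟨a, ha⟩ : O)
  have hmax : ∀ (ψ : F' →ₐ[K] F) (hψB : ∀ b ∈ chart O x' i, (ψ : F' →+* F) b ∈ chart O x i)
      (Q : Ideal (chart O x i)), Q.IsMaximal → (q : chart O x i) ∈ Q →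
      (Q.comap (resHom (ψ : F' →+* F) (chart O x' i) (chart O x i) hψB)).IsMaximal := by
    intro ψ hψB Q hQ hqQ
    have : Q.IsPrime := hQ.isPrime
    refine isMaximal_comap_resHom_of_resk O (q : K) hunifO ψ (chart O x' i) (chart O x i) hψB
      hconstB' Q ⟨by rw [map_natCast]; exact natCast_mem _ q, ?_⟩ (hres i Q hQ hqQ)
    have : (⟨algebraMap K F (q : K), by rw [map_natCast]; exact natCast_mem _ q⟩ : chart O x i)
        = (q : chart O x i) := by
      apply Subtype.ext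
      simp
    rw [this]
    exact hqQ
  refine locFactorial_of_val_rad (chart O x i) (chart O x' i) (α : F' →+* F) (β : F' →+* F)
    (hαB i) (hβB i) (q : chart O x' i) (q : chart O x i)
    (fun h => hqF0 (by simpa using congrArg (fun z : chart O x i => (z : F)) h))
    (by simp) (by simp) (V 0) (V 1) (V 2) (V' 0) (V' 1)
    (chart_le O x (V 0) (hconst 0) (hxV 0) i) (chart_le O x (V 1) (hconst 1) (hxV 1) i)
    (chart_le O x (V 2) (hconst 2) (hxV 2) i)
    (chart_le O x' (V' 0) (hconst' 0) (hxV' 0) i) (chart_le O x' (V' 1) (hconst' 1) (hxV' 1) i)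
    (by rw [Subring.coe_natCast]; exact hqV 0) (by rw [Subring.coe_natCast]; exact hqV 1)
    (by rw [Subring.coe_natCast]; exact hqV 2)
    hα0 hα1 hα2 hβ0 hβ1 hβ2 ?_ ?_
    (by rw [Subring.coe_natCast]; exact hu0) (by rw [Subring.coe_natCast]; exact hu2)
    (by rw [Subring.coe_natCast]; exact hu' 0) (by rw [Subring.coe_natCast]; exact hu' 1)
    (hloc0 i) (hloc2 i) (hloc' i 0) (hloc' i 1) hne hne'
    (hmax α (hαB i)) (hmax β (hβB i)) (hTH i) (hMID i) (hPIR i 0) (hPIR i 1) (hPIR i 2) P hP hqP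
  · intro y hy h0 h1 h2
    obtain ⟨_, e, r, hr, he⟩ := hrad i y hy (by intro c; fin_cases c; exacts [h0, h1, h2])
    exact ⟨e, r, hr, by rw [Subring.coe_natCast]; exact he⟩
  · intro y hy h0 h1
    obtain ⟨_, e, r, hr, he⟩ := hrad' i y hy (by intro c; fin_cases c; exacts [h0, h1])
    exact ⟨e, r, hr, by rw [Subring.coe_natCast]; exact he⟩

end Kill

end Fermat.Agent.S36.helper8039
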