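/-
S36-MID-INST, Layer B (helper3919): `hMID` at the NON-cuspidal points of `C_mid`, chart 0, on the
concrete terms of `helper405_KillTerms` (row `mid_fin` of the LP block).

For `B = BK A M₁ q haux 0` (integral closure of `O[x]`, `x = t₄` for `q ≠ 2`, `t₉` for `q = 2`),
`V = VK A M₁ q hq hqM hq2` and the mid-cusp expansion `sigK = midEmb ∘ lh`:

* `sigK_xK`      : `σ x = t` (the base series `bSer`);
* `exists_tq`    : `y = t(qz)` at level `M₁`;  `tq_mem_chart` : `βK y = t(q² z) ∈ B`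
                   (TQ-INT `helper8566.intPair_of_coe` one level down + `β_map_chart`);
* `sigK_TK`      : `σ (βK y - x) = t(ζ X) - t(X)`;
* `tK_unif`      : `T = βK y - x` is a uniformiser of `v_mid` (from `helper412.unif_mid_modular`
                   and `helper3919.mid_unif_of_ord`, `θ t ≠ 0` in characteristic `q`);
* `mid_fin0_of`  : the hypothesis `hnc0` of `helper8039.hMID_modular_of` VERBATIM with
                   `C0 := Cusp0 A M₁ q haux`, from `hA`, the field `rad`, (LOC) at `v_mid`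
                   (`loc_mid`) and the chart element `D` (the `Δ`-unit, hypotheses `hD4`, `hD9`;
                   discharged in `helper3919_MidInstD`).
-/
import Fermat.Agent.S36.helper3919_MidInstVal
import Fermat.Agent.S36.helper405_KillInst
import Fermat.Agent.S36.helper412_InstUnif
import Fermat.Agent.S36.helper1891_InstPoint
import Fermat.Agent.S36.helper8039_LPKill
import Fermat.Agent.S36.helper7249_ThetaQ2
import Fermat.Agent.S36.helper1257_BaseLineTheta
import Fermat.Agent.S36.helper225_BaseDVR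
import Fermat.Agent.S36.helper1280_ChartTransfer

set_option autoImplicit false
set_option linter.unusedSectionVars false

noncomputable section

namespace Fermat.Agent.S36.helper3919

open HahnSeries ModularCurve
open Fermat.Agent.S24.helper24 (Kbar FN)
open Fermat.Agent.S36.helper405
open Fermat.Agent.S36.helper36 (chart BaseDVR)
open Fermat.Agent.S36.helper1335 (AuxOK)
open Fermat.Agent.S36.helper1013 (IsUnifOf UnitOf)
open Fermat.Agent.S36.helper8039 (centre)
open Fermat.Agent.S36.helper1280 (InP)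
open Fermat.Agent.S36.helper248 (chartRing)
open Fermat.Agent.S18.helper8991 (gaussRing inc red)
open Fermat.Agent.S28.helper328 (twist)
open Fermat.Agent.Lib.helper3874 (t4C t9C toL)
open Fermat.Agent.Lib.helper386 (deltaSeries)
open Fermat.Agent.Lib.helper9242 (thetaFun)
open Fermat.Agent.S36.helper1730 (NilMod)

/-! ## The base series -/

section BSer

/-- The expansion of the base line: `t₉` for `q = 2`, `t₄` otherwise. -/
def bSer (R : Type*) [CommRing R] (q : ℕ) : LaurentSeries R := if q = 2 then t9C R else t4C R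

theorem bSer_of_ne (R : Type*) [CommRing R] {q : ℕ} (h : q ≠ 2) : bSer R q = t4C R := if_neg h

theorem bSer_of_eq (R : Type*) [CommRing R] {q : ℕ} (h : q = 2) : bSer R q = t9C R := if_pos h

theorem coeffMap_bSer {R S : Type*} [CommRing R] [CommRing S] (f : R →+* S) (q : ℕ) :
    coeffMap f (bSer R q) = bSer S q := by
  by_cases h : q = 2
  · rw [bSer_of_eq R h, bSer_of_eq S h, Fermat.Agent.Lib.helper3874.coeffMap_t9C]
  · rw [bSer_of_ne R h, bSer_of_ne S h, Fermat.Agent.Lib.helper3874.coeffMap_t4C]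

theorem coe_baseLine (K : Type) [Field K] [Algebra ℚ K] (M : ℕ) [NeZero M] (q : ℕ)
    (h4 : q ≠ 2 → 4 ∣ M) (h9 : q = 2 → 9 ∣ M) :
    ((baseLine K M q h4 h9 : ↥(laurentBaseChange K (modularFunctionFieldFull M))) :
      LaurentSeries K) = bSer K q := by
  by_cases h : q = 2
  · rw [baseLine_of_eq K M q h4 h9 h, bSer_of_eq K h]
    rfl
  · rw [baseLine_of_ne K M q h4 h9 h, bSer_of_ne K h]
    rfl

/-- `θ t ≠ 0` over every field. -/
theorem thetaFun_bSer_ne_zero (k : Type*) [Field k] (q : ℕ) : thetaFun k (bSer k q) ≠ 0 := by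
  by_cases h : q = 2
  · rw [bSer_of_eq k h, Fermat.Agent.S36.helper1257.thetaFun_t9C]
    exact neg_ne_zero.mpr (mul_ne_zero (Fermat.Agent.Lib.helper3874.t9C_ne_zero k)
      (Fermat.Agent.S36.helper1257.isUnit_toL_eps9Z k).ne_zero)
  · rw [bSer_of_ne k h, Fermat.Agent.S36.helper1257.thetaFun_t4C]
    exact neg_ne_zero.mpr (mul_ne_zero (Fermat.Agent.Lib.helper3874.t4C_ne_zero k)
      (Fermat.Agent.S36.helper1257.isUnit_toL_eps4Z k).ne_zero)

/-- `y(t^q)` of a function `y` of level `M` is a function of level `N = M q`. -/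
theorem qExpand_mem_of_level (K : Type) [Field K] [Algebra ℚ K] {M N : ℕ} [NeZero M] (q : ℕ)
    [NeZero q] (hN : M * q = N) (y : ↥(laurentBaseChange K (modularFunctionFieldFull M))) :
    qExpand K q (y : LaurentSeries K) ∈ laurentBaseChange K (modularFunctionFieldFull N) := by
  subst hN
  have h := (heckeBetaBar K M q y).2
  rwa [coe_heckeBetaBar] at h

end BSer

section Generic

variable {K F : Type*} [Field K] [Field F] [Algebra K F]

theorem self_mem_chart0 (O : ValuationSubring K) (x : F) : x ∈ chart O x 0 :=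
  Fermat.Agent.S36.helper248.mem_chartRing_of_mem (Set.mem_singleton x)

theorem mem_chart0_of_mem_chartRing (O : ValuationSubring K) (x y : F)
    (h : y ∈ chartRing O ({x} : Set F)) : y ∈ chart O x 0 := h

end Generic

section K

variable (A : ValuationSubring (AlgebraicClosure ℚ)) (M₁ q : ℕ) [NeZero M₁] [NeZero q]
  (hq : q.Prime) (hqM : q ∣ M₁) (hq2 : ¬ q ^ 2 ∣ M₁) (haux : AuxOK M₁ q)

/-- The mid-cusp expansion of `F = F_{M₁ q, K}`. -/
def sigK : FK A (M₁ * q) →+* LaurentSeries Kbar :=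
  (midEmb M₁ q hq hqM hq2 (midZeta q) (midZeta_spec q)).comp (lh A (M₁ * q))

theorem sigK_apply (f : FK A (M₁ * q)) :
    sigK A M₁ q hq hqM hq2 f
      = midEmb M₁ q hq hqM hq2 (midZeta q) (midZeta_spec q) (lh A (M₁ * q) f) := rfl

/-- `v_mid` is the pull-back of the Gauss ring along `sigK`. -/
theorem mem_VK_one_iff (f : FK A (M₁ * q)) :
    f ∈ VK A M₁ q hq hqM hq2 1 ↔
      sigK A M₁ q hq hqM hq2 f ∈ gaussRing A (IsLocalRing.residue A) := Iff.rfl

theorem coe_lh (N : ℕ) (f : FK A N) :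
    ((lh A N f : FN N) : LaurentSeries Kbar)
      = coeffMap (algebraMap (KI A) (AlgebraicClosure ℚ)) (f : LaurentSeries (KI A)) := rfl

/-- `σ ∘ α` is the expansion at `∞` of level `M₁`. -/
theorem sigK_alpha (y : FK A M₁) :
    sigK A M₁ q hq hqM hq2 (αK A M₁ q y) = ((lh A M₁ y : FN M₁) : LaurentSeries Kbar) := by
  rw [sigK_apply, lh_αK, midEmb_alpha]

theorem coe_xK : ((xK A M₁ q haux : FK A (M₁ * q)) : LaurentSeries (KI A)) = bSer (KI A) q :=
  coe_baseLine _ _ _ _ _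

theorem coe_xK' : ((xK' A M₁ q haux : FK A M₁) : LaurentSeries (KI A)) = bSer (KI A) q :=
  coe_baseLine _ _ _ _ _

/-- `σ x = t`. -/
theorem sigK_xK : sigK A M₁ q hq hqM hq2 (xK A M₁ q haux) = bSer Kbar q := by
  rw [xK_eq_alpha, sigK_alpha, coe_lh, coe_xK', coeffMap_bSer]

/-! ### `t(qz)` at level `M₁` and `t(q² z)` at level `M₁ q` -/

include hq hqM haux in
/-- `t(qz)` is a function of level `M₁`. -/
theorem exists_tq : ∃ y : FK A M₁,
    (y : LaurentSeries (KI A)) = qExpand (KI A) q (bSer (KI A) q) := by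
  have : NeZero (M₁ / q) := neZero_div hqM
  have h := qExpand_mem_of_level (KI A) q (Nat.div_mul_cancel hqM)
    (baseLine (KI A) (M₁ / q) q (aux_div_four M₁ q hq hqM haux) (aux_div_nine M₁ q hq hqM haux))
  rw [coe_baseLine] at h
  exact ⟨⟨_, h⟩, rfl⟩

include hq hqM haux in
theorem four_mul_dvd (h : q ≠ 2) : 4 * q ∣ M₁ := by
  have hc2 : Nat.Coprime 2 q := (Nat.coprime_primes Nat.prime_two hq).mpr (Ne.symm h)
  have hc : Nat.Coprime 4 q := by
    have : Nat.Coprime (2 ^ 2) q := Nat.Coprime.pow_left 2 hc2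
    simpa using this
  exact hc.mul_dvd_of_dvd_of_dvd (haux.1 h) hqM

include hqM haux in
theorem nine_mul_dvd (h : q = 2) : 9 * q ∣ M₁ := by
  have hc : Nat.Coprime 9 q := by
    subst h
    decide
  exact hc.mul_dvd_of_dvd_of_dvd (haux.2 h) hqM

include hq hqM in
/-- **`t(q² z)` lies in the chart `B = BK 0`** (TQ-INT). -/
theorem tq_mem_chart (hA : A.LiesOverPrime q) (y : FK A M₁)
    (hy : (y : LaurentSeries (KI A)) = qExpand (KI A) q (bSer (KI A) q)) :
    βK A M₁ q y ∈ BK A M₁ q haux 0 := by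
  have h1 : y ∈ BK' A M₁ q haux 0 := mem_chart0_of_mem_chartRing (OI A) (xK' A M₁ q haux) y
    (Fermat.Agent.S36.helper8566.intPair_of_coe (KI A) (OI A) q M₁ hq
      (Fermat.Agent.S36.helper225.natCast_mem_nonunits A hq hA)
      (four_mul_dvd M₁ q hq hqM haux) (nine_mul_dvd M₁ q hqM haux)
      (xK' A M₁ q haux) y
      (fun h => (coe_xK' A M₁ q haux).trans (bSer_of_ne _ h))
      (fun h => (coe_xK' A M₁ q haux).trans (bSer_of_eq _ h))
      (by rw [hy, coe_xK'])).1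
  exact Fermat.Agent.S36.helper1891.β_map_chart_modular A M₁ q haux hq hA 0 y h1

theorem xK_mem_chart : xK A M₁ q haux ∈ BK A M₁ q haux 0 :=
  self_mem_chart0 (OI A) (xK A M₁ q haux)

/-! ### The expansion of `T = t(q² z) - t(z)` -/

/-- The base line of level `M₁ / q` over `ℚ̄`. -/
def tauBar : @FN (M₁ / q) :=
  ⟨bSer Kbar q, by
    have : NeZero (M₁ / q) := neZero_div hqM
    have h := (baseLine Kbar (M₁ / q) q (aux_div_four M₁ q hq hqM haux)
      (aux_div_nine M₁ q hq hqM haux)).2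
    rw [coe_baseLine] at h
    exact h⟩

/-- `lh (βK y - x) = V_{q²} τ - τ`. -/
theorem lh_TK (y : FK A M₁)
    (hy : (y : LaurentSeries (KI A)) = qExpand (KI A) q (bSer (KI A) q)) :
    lh A (M₁ * q) (βK A M₁ q y - xK A M₁ q haux)
      = @Fermat.Agent.S36.helper7249.elT q (M₁ / q) (M₁ * q) ⟨hq⟩ (neZero_div hqM) _ _
          (level_eq hqM) (tauBar M₁ q hq hqM haux) := by
  have : Fact q.Prime := ⟨hq⟩
  have : NeZero (M₁ / q) := neZero_div hqM
  apply Subtype.ext
  rw [Fermat.Agent.S36.helper7249.coe_elT, coe_lh]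
  have e1 : ((βK A M₁ q y - xK A M₁ q haux : FK A (M₁ * q)) : LaurentSeries (KI A))
      = qExpand (KI A) q (qExpand (KI A) q (bSer (KI A) q)) - bSer (KI A) q := by
    have e2 : ((βK A M₁ q y - xK A M₁ q haux : FK A (M₁ * q)) : LaurentSeries (KI A))
        = ((βK A M₁ q y : FK A (M₁ * q)) : LaurentSeries (KI A))
          - ((xK A M₁ q haux : FK A (M₁ * q)) : LaurentSeries (KI A)) := rfl
    rw [e2, coe_heckeBetaBar, hy, coe_xK]
  rw [e1, map_sub, ModularCurve.coeffMap_qExpand, ModularCurve.coeffMap_qExpand, coeffMap_bSer,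
    qExpand_qExpand]
  show _ = qExpand Kbar (q ^ 2) (bSer Kbar q) - bSer Kbar q
  rw [qExpand_congr (sq q).symm]

/-- **`σ T = t(ζ X) - t(X)`.** -/
theorem sigK_TK (y : FK A M₁)
    (hy : (y : LaurentSeries (KI A)) = qExpand (KI A) q (bSer (KI A) q)) :
    sigK A M₁ q hq hqM hq2 (βK A M₁ q y - xK A M₁ q haux)
      = twist (midZeta q) (bSer Kbar q) - bSer Kbar q := by
  have : Fact q.Prime := ⟨hq⟩
  have : NeZero (M₁ / q) := neZero_div hqM
  have : NeZero (q ^ 2) := ⟨pow_ne_zero 2 hq.ne_zero⟩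
  rw [sigK_apply, lh_TK A M₁ q hq hqM haux y hy]
  have h := Fermat.Agent.S36.helper7249.midExp_elT (level_eq hqM) (not_dvd_div hq hqM hq2)
    (midZeta q) (midZeta_spec q) (tauBar M₁ q hq hqM haux)
  rw [Fermat.Agent.S36.helper987.rot_eq_twist] at h
  exact h

/-! ### `T` is a uniformiser of `v_mid` -/

/-- **`T = t(q² z) - t(z)` generates the maximal ideal of `v_mid`.** -/
theorem tK_unif (hA : A.LiesOverPrime q) (y : FK A M₁)
    (hy : (y : LaurentSeries (KI A)) = qExpand (KI A) q (bSer (KI A) q)) :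
    ∀ z ∈ (VK A M₁ q hq hqM hq2 1).nonunits, ∃ w ∈ VK A M₁ q hq hqM hq2 1,
      z = (βK A M₁ q y - xK A M₁ q haux) * w := by
  have : Fact q.Prime := ⟨hq⟩
  have : CharP (IsLocalRing.ResidueField A) q :=
    Fermat.Agent.S36.helper3953.charP_residue_of_liesOver A hq hA
  obtain ⟨T', hT', hu⟩ := Fermat.Agent.S36.helper412.unif_mid_modular A M₁ q hq hqM hq2 hA
  have hqF : (q : FK A (M₁ * q)) ≠ 0 := natCast_ne_zero_FK A (M₁ * q) hq.ne_zero
  have hq1 : ordOf (Vmid A M₁ q hq hqM hq2) (q : FK A (M₁ * q)) = (q : ℤ) - 1 := by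
    rw [ordOf_of_pow_div_unit hT' (q - 1) hqF hu, Nat.cast_sub hq.one_le, Nat.cast_one]
  exact mid_unif_of_ord A (IsLocalRing.residue A) (sigK A M₁ q hq hqM hq2) q (midZeta q)
    (midZeta_spec q) (Vmid A M₁ q hq hqM hq2) (fun x => Iff.rfl) (ordOf (Vmid A M₁ q hq hqM hq2))
    (isOrd_ordOf hT') (fun z hz => mem_iff_ordOf_nonneg hT' hz) hq1 (bSer A q)
    (βK A M₁ q y - xK A M₁ q haux)
    (by rw [sigK_TK A M₁ q hq hqM hq2 haux y hy, coeffMap_bSer]) hqF
    (by rw [coeffMap_bSer]; exact thetaFun_bSer_ne_zero _ q)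

/-! ### The non-cuspidal points of chart 0 -/

/-- The cuspidality predicate on chart 0: `x (x + 16) ∈ P` (`q ≠ 2`) resp.
`x (x² + 9 x + 27) ∈ P` (`q = 2`). -/
def Cusp0 (P : Ideal (BK A M₁ q haux 0)) : Prop :=
  (q ≠ 2 ∧ InP (BK A M₁ q haux 0) P (xK A M₁ q haux * (xK A M₁ q haux + 16))) ∨
  (q = 2 ∧ InP (BK A M₁ q haux 0) P
    (xK A M₁ q haux * (xK A M₁ q haux ^ 2 + 9 * xK A M₁ q haux + 27)))

/-- `q` lies in the maximal ideal of the three vertical valuation rings. -/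
theorem natCast_mem_nonunits_VK (hA : A.LiesOverPrime q) (c : Fin 3) :
    (q : FK A (M₁ * q)) ∈ (VK A M₁ q hq hqM hq2 c).nonunits := by
  have hqF : (q : FK A (M₁ * q)) ≠ 0 := natCast_ne_zero_FK A (M₁ * q) hq.ne_zero
  rw [nonunits_iff_inv_notMem]
  refine Or.inr ?_
  have e : ((q : FK A (M₁ * q)))⁻¹ = algebraMap (KI A) (FK A (M₁ * q)) ((q : KI A))⁻¹ := by
    rw [map_inv₀, map_natCast]
  rw [e, const_mem_VK_iff]
  have h := Fermat.Agent.S36.helper225.natCast_mem_nonunits A hq hA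
  rw [nonunits_iff_inv_notMem] at h
  rcases h with h | h
  · exfalso
    have h0 : ((q : ℕ) : KI A) ≠ 0 := Nat.cast_ne_zero.mpr hq.ne_zero
    exact h0 h
  · exact h

/-- **`hMID` at the non-cuspidal points of chart 0** (the hypothesis `hnc0` of
`helper8039.hMID_modular_of`, verbatim, with `C0 := Cusp0 A M₁ q haux`), from `hA`, the field
`rad`, (LOC) at `v_mid`, and the chart element `D` with the expansion of the `Δ`-unit. -/
theorem mid_fin0_of (hA : A.LiesOverPrime q)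
    (rad : ∀ (i : Fin 2) (y : FK A (M₁ * q)), y ∈ BK A M₁ q haux i →
      (∀ c, y ∈ (VK A M₁ q hq hqM hq2 c).nonunits) →
      NilMod (BK A M₁ q haux i) (q : FK A (M₁ * q)) y)
    (loc_mid : ∀ i : Fin 2, ∀ y ∈ Vmid A M₁ q hq hqM hq2, ∃ a s : BK A M₁ q haux i,
      (s : FK A (M₁ * q)) ∉ (Vmid A M₁ q hq hqM hq2).nonunits ∧ y * s = a)
    (hD4 : q ≠ 2 → ∃ (n : ℕ) (D : BK A M₁ q haux 0),
      sigK A M₁ q hq hqM hq2 (D : FK A (M₁ * q)) * qExpand Kbar q (toL Kbar deltaSeries)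
        = toL Kbar deltaSeries * (t4C Kbar ^ 4 * (t4C Kbar + 16)) ^ n)
    (hD9 : q = 2 → ∃ (n : ℕ) (D : BK A M₁ q haux 0),
      sigK A M₁ q hq hqM hq2 (D : FK A (M₁ * q)) * qExpand Kbar q (toL Kbar deltaSeries)
        = toL Kbar deltaSeries * (t9C Kbar ^ 9 * (t9C Kbar ^ 2 + 9 * t9C Kbar + 27)) ^ n) :
    ∀ P : Ideal (BK A M₁ q haux 0), P.IsMaximal →
      centre (BK A M₁ q haux 0) (VK A M₁ q hq hqM hq2 1) ≤ P →
      ¬ centre (BK A M₁ q haux 0) (VK A M₁ q hq hqM hq2 0) ≤ P →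
      ¬ centre (BK A M₁ q haux 0) (VK A M₁ q hq hqM hq2 2) ≤ P → ¬ Cusp0 A M₁ q haux P →
      ∃ T ∈ centre (BK A M₁ q haux 0) (VK A M₁ q hq hqM hq2 1), T ≠ 0 ∧
        (∃ m : ℕ, m ≠ 0 ∧ ∃ s, s ∉ P ∧ T ^ m ∣ s * (q : BK A M₁ q haux 0)) ∧
        ∀ a ∈ centre (BK A M₁ q haux 0) (VK A M₁ q hq hqM hq2 1),
          ∃ s, s ∉ centre (BK A M₁ q haux 0) (VK A M₁ q hq hqM hq2 1) ∧ T ∣ s * a := by
  intro P hP h1 h0 h2 hnc
  have hPp : P.IsPrime := hP.isPrime
  have : Fact q.Prime := ⟨hq⟩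
  have : CharP (IsLocalRing.ResidueField A) q :=
    Fermat.Agent.S36.helper3953.charP_residue_of_liesOver A hq hA
  have hbase := Fermat.Agent.S36.helper225.baseDVR_facts A hq hA
  have : IsNoetherianRing (OI A) := hbase.2.2.2.2.1
  have hx : Transcendental (KI A) (xK A M₁ q haux) := baseLine_transcendental _ _ _ _ _
  have hfin : FiniteDimensional (IntermediateField.adjoin (KI A)
      ({xK A M₁ q haux} : Set (FK A (M₁ * q)))) (FK A (M₁ * q)) :=
    baseLine_finiteDimensional _ _ _ _ _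
  have hstruct := Fermat.Agent.S36.helper8039.chart_struct (OI A) (xK A M₁ q haux) hx 0
  have : IsNoetherianRing (BK A M₁ q haux 0) := hstruct.1
  have : IsIntegrallyClosed (BK A M₁ q haux 0) := hstruct.2
  have hBV : ∀ c, ∀ b ∈ BK A M₁ q haux 0, b ∈ VK A M₁ q hq hqM hq2 c := fun c =>
    Fermat.Agent.S36.helper8039.chart_le (OI A) (xK A M₁ q haux) _
      (fun a ha => (const_mem_VK_iff A M₁ q hq hqM hq2 c a).mpr ha)
      (x_V A M₁ q hq hqM hq2 haux c) 0
  have hqF : (q : FK A (M₁ * q)) ≠ 0 := natCast_ne_zero_FK A (M₁ * q) hq.ne_zero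
  obtain ⟨y, hy⟩ := exists_tq A M₁ q hq hqM haux
  -- the chart elements
  let τ : BK A M₁ q haux 0 := ⟨xK A M₁ q haux, xK_mem_chart A M₁ q haux⟩
  let T : BK A M₁ q haux 0 := ⟨βK A M₁ q y - xK A M₁ q haux,
    Subring.sub_mem _ (tq_mem_chart A M₁ q hq hqM haux hA y hy) (xK_mem_chart A M₁ q haux)⟩
  have hunif := tK_unif A M₁ q hq hqM hq2 haux hA y hy
  by_cases hq2' : q = 2
  · obtain ⟨n, D, hD⟩ := hD9 hq2'
    have hc : ¬ InP (BK A M₁ q haux 0) P
        (xK A M₁ q haux * (xK A M₁ q haux ^ 2 + 9 * xK A M₁ q haux + 27)) :=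
      fun h => hnc (Or.inr ⟨hq2', h⟩)
    have hτe : (((τ * (τ ^ 2 + 9 * τ + 27) : BK A M₁ q haux 0)) : FK A (M₁ * q))
        = xK A M₁ q haux * (xK A M₁ q haux ^ 2 + 9 * xK A M₁ q haux + 27) := rfl
    have hτP : τ * (τ ^ 2 + 9 * τ + 27) ∉ P := fun h =>
      hc ⟨hτe ▸ (τ * (τ ^ 2 + 9 * τ + 27)).2, h⟩
    exact hMID_t9 A (IsLocalRing.residue A) (sigK A M₁ q hq hqM hq2) q (midZeta q)
      (midZeta_spec q) (BK A M₁ q haux 0) (VK A M₁ q hq hqM hq2) hBV (fun x => Iff.rfl)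
      (natCast_mem_nonunits_VK A M₁ q hq hqM hq2 hA) hqF (rad 0) (loc_mid 0) n τ T D
      (by rw [sigK_xK, bSer_of_eq _ hq2'])
      (by rw [sigK_TK A M₁ q hq hqM hq2 haux y hy, bSer_of_eq _ hq2']) hD hunif P hP h1 h0 h2
      (fun h => hτP (P.mul_mem_right _ h)) (fun h => hτP (P.mul_mem_left _ h))
  · obtain ⟨n, D, hD⟩ := hD4 hq2'
    have hc : ¬ InP (BK A M₁ q haux 0) P (xK A M₁ q haux * (xK A M₁ q haux + 16)) :=
      fun h => hnc (Or.inl ⟨hq2', h⟩)
    have hτe : (((τ * (τ + 16) : BK A M₁ q haux 0)) : FK A (M₁ * q))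
        = xK A M₁ q haux * (xK A M₁ q haux + 16) := rfl
    have hτP : τ * (τ + 16) ∉ P := fun h => hc ⟨hτe ▸ (τ * (τ + 16)).2, h⟩
    exact hMID_t4 A (IsLocalRing.residue A) (sigK A M₁ q hq hqM hq2) q (midZeta q)
      (midZeta_spec q) (BK A M₁ q haux 0) (VK A M₁ q hq hqM hq2) hBV (fun x => Iff.rfl)
      (natCast_mem_nonunits_VK A M₁ q hq hqM hq2 hA) hqF (rad 0) (loc_mid 0) n τ T D
      (by rw [sigK_xK, bSer_of_ne _ hq2'])
      (by rw [sigK_TK A M₁ q hq hqM hq2 haux y hy, bSer_of_ne _ hq2']) hD hunif P hP h1 h0 h2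
      (fun h => hτP (P.mul_mem_right _ h)) (fun h => hτP (P.mul_mem_left _ h))

end K

end Fermat.Agent.S36.helper3919
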