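import Fermat.Agent.S36.helper405_KillTerms
import Fermat.Agent.S36.helper9392_DegChart
import Fermat.Agent.S36.helper1413_RedChart
import Fermat.Agent.S36.helper8566_HauptIntegralFinal
import Fermat.Agent.S36.helper225_BaseDVR

/-!
# S36 (KILL-INST), block CHART: the chart fields of `helper405.KillInput`  (helper403)

Adapter file.  On the concrete terms of `helper405_KillTerms` it derives the nine CHART fields
of `helper405.KillInput`

`α_map_chart`, `β_map_chart`, `α_norm_chart`, `β_norm_chart`, `red_root`, `α_red_inf`,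
`α_red_mid`, `β_red_zero`, `β_red_mid`

from

* TQ-INT (`helper8566.intPair_aux`: `t(qz)` and `t(z)` are integral over each other's
  `O`-algebra, and the same for the inverses), which is unconditional;
* the field `x_V` and the eight residue-degree-one fields `α_mem_inf/mid`, `α_lift_inf/mid`,
  `β_mem_zero/mid`, `β_lift_zero/mid` of `KillInput` (hypotheses, verbatim);
* `hIC` : integral closedness of the reductions of the two charts of level `M₁` along
  `v'_∞` and `v'_0` (`helper1413.RedIC`).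

Main statements: `αK_xK'`, `intPair_α`, `intPair_β`, `chart_maps`, `chart_modular_of`.
-/

set_option autoImplicit false
set_option linter.unusedSectionVars false

namespace Fermat.Agent.S36.helper403

open ModularCurve
open Fermat.Agent.S36.helper405
open Fermat.Agent.S36.helper1335 (AuxOK)

variable (A : ValuationSubring (AlgebraicClosure ℚ)) (M₁ q : ℕ) [NeZero M₁] [NeZero q]
  (hq : q.Prime) (hqM : q ∣ M₁) (hq2 : ¬ q ^ 2 ∣ M₁) (haux : AuxOK M₁ q)

/-- `α x' = x`: the base line of level `M₁ q` is the image of the base line of level `M₁`. -/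
theorem αK_xK' : αK A M₁ q (xK' A M₁ q haux) = xK A M₁ q haux := by
  apply Subtype.ext
  rw [coe_heckeAlphaBar]
  unfold xK xK'
  by_cases h : q = 2
  · rw [baseLine_of_eq _ _ _ _ _ h, baseLine_of_eq _ _ _ _ _ h]
    rfl
  · rw [baseLine_of_ne _ _ _ _ _ h, baseLine_of_ne _ _ _ _ _ h]
    rfl

/-- The `q`-expansion of the base line of level `M₁` for `q ≠ 2`. -/
theorem coe_xK'_of_ne (h : q ≠ 2) :
    ((xK' A M₁ q haux : FK A M₁) : LaurentSeries (KI A)) =
      Fermat.Agent.S37.helper9536.t4K (KI A) := by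
  unfold xK'
  rw [baseLine_of_ne _ _ _ _ _ h]
  exact (Fermat.Agent.S37.helper9536.coeffMap_t4Z (KI A)).symm

/-- The `q`-expansion of the base line of level `M₁` for `q = 2`. -/
theorem coe_xK'_of_eq (h : q = 2) :
    ((xK' A M₁ q haux : FK A M₁) : LaurentSeries (KI A)) =
      Fermat.Agent.S37.helper9536.t9K (KI A) := by
  unfold xK'
  rw [baseLine_of_eq _ _ _ _ _ h]
  exact (Fermat.Agent.S37.helper9536.coeffMap_t9Z (KI A)).symm

/-- The four integrality facts for `α` (trivial: `α x' = x`). -/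
theorem intPair_α :
    helper9392.IntPair (OI A) (αK A M₁ q) (xK A M₁ q haux) (xK' A M₁ q haux) :=
  helper9392.intPair_of_eq (OI A) (αK A M₁ q) _ _ (αK_xK' A M₁ q haux)

/-- The four integrality facts for `β` (TQ-INT). -/
theorem intPair_β (hq : q.Prime) (hA : A.LiesOverPrime q) :
    helper9392.IntPair (OI A) (βK A M₁ q) (xK A M₁ q haux) (xK' A M₁ q haux) := by
  have h := helper8566.intPair_aux (KI A) (OI A) M₁ q hq
    (helper225.natCast_mem_nonunits A hq hA) haux.1 haux.2 (xK' A M₁ q haux)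
    (coe_xK'_of_ne A M₁ q haux) (coe_xK'_of_eq A M₁ q haux)
  have e : heckeAlphaBar (KI A) M₁ q (xK' A M₁ q haux) = xK A M₁ q haux := αK_xK' A M₁ q haux
  rw [e] at h
  exact ⟨h.1, h.2.1, h.2.2.1, h.2.2.2⟩

/-- The norm of record along `α` is `Algebra.norm`. -/
theorem NαK_eq (y : FK A (M₁ * q)) :
    NαK A M₁ q y = (letI := (αK A M₁ q).toRingHom.toAlgebra; Algebra.norm (FK A M₁) y) := rfl

/-- The norm of record along `β` is `Algebra.norm`. -/
theorem NβK_eq (y : FK A (M₁ * q)) :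
    NβK A M₁ q y = (letI := (βK A M₁ q).toRingHom.toAlgebra; Algebra.norm (FK A M₁) y) := rfl

/-- **The four chart-stability fields** `α_map_chart`, `β_map_chart`, `α_norm_chart`,
`β_norm_chart` of `helper405.KillInput`, verbatim; no hypothesis beyond `A` lying over `q`. -/
theorem chart_maps (hq : q.Prime) (hA : A.LiesOverPrime q) :
    Deg.MapChart (αK A M₁ q) (BK A M₁ q haux) (BK' A M₁ q haux) ∧
    Deg.MapChart (βK A M₁ q) (BK A M₁ q haux) (BK' A M₁ q haux) ∧
    Deg.NormChart (NαK A M₁ q) (BK A M₁ q haux) (BK' A M₁ q haux) ∧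
    Deg.NormChart (NβK A M₁ q) (BK A M₁ q haux) (BK' A M₁ q haux) :=
  ⟨helper9392.map_chart_field (OI A) (αK A M₁ q) _ _ (intPair_α A M₁ q haux),
   helper9392.map_chart_field (OI A) (βK A M₁ q) _ _ (intPair_β A M₁ q haux hq hA),
   helper9392.norm_chart_field (OI A) (αK A M₁ q) (NαK A M₁ q) (NαK_eq A M₁ q) _ _
     (intPair_α A M₁ q haux),
   helper9392.norm_chart_field (OI A) (βK A M₁ q) (NβK A M₁ q) (NβK_eq A M₁ q) _ _
     (intPair_β A M₁ q haux hq hA)⟩

/-- **Block CHART of `helper405.KillInput`**: the nine chart fields, verbatim, from `x_V`, the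
eight residue-degree-one fields of `α` and `β`, and integral closedness of the four reductions
of the charts of level `M₁`. -/
theorem chart_modular_of (hA : A.LiesOverPrime q)
    (hIC : ∀ (i : Fin 2) (c : Fin 2),
      helper1413.RedIC (BK' A M₁ q haux i) (VK' A M₁ q hq hqM hq2 c))
    (x_V : ∀ c : Fin 3, xK A M₁ q haux ∈ VK A M₁ q hq hqM hq2 c ∧
      (xK A M₁ q haux)⁻¹ ∈ VK A M₁ q hq hqM hq2 c)
    (α_mem_inf : Deg.MemOver (αK A M₁ q) (Vinf A M₁ q) (Vinf' A M₁))
    (α_mem_mid : Deg.MemOver (αK A M₁ q) (Vmid A M₁ q hq hqM hq2) (Vinf' A M₁))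
    (α_lift_inf : Deg.Lift (αK A M₁ q) (Vinf A M₁ q) (Vinf' A M₁))
    (α_lift_mid : Deg.Lift (αK A M₁ q) (Vmid A M₁ q hq hqM hq2) (Vinf' A M₁))
    (β_mem_zero : Deg.MemOver (βK A M₁ q) (Vzero A M₁ q hq hqM hq2) (Vzero' A M₁ q hq hqM hq2))
    (β_mem_mid : Deg.MemOver (βK A M₁ q) (Vmid A M₁ q hq hqM hq2) (Vzero' A M₁ q hq hqM hq2))
    (β_lift_zero : Deg.Lift (βK A M₁ q) (Vzero A M₁ q hq hqM hq2) (Vzero' A M₁ q hq hqM hq2))
    (β_lift_mid : Deg.Lift (βK A M₁ q) (Vmid A M₁ q hq hqM hq2) (Vzero' A M₁ q hq hqM hq2)) :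
    Deg.MapChart (αK A M₁ q) (BK A M₁ q haux) (BK' A M₁ q haux) ∧
    Deg.MapChart (βK A M₁ q) (BK A M₁ q haux) (BK' A M₁ q haux) ∧
    Deg.NormChart (NαK A M₁ q) (BK A M₁ q haux) (BK' A M₁ q haux) ∧
    Deg.NormChart (NβK A M₁ q) (BK A M₁ q haux) (BK' A M₁ q haux) ∧
    (∀ (i : Fin 2) (c : Fin 3) (n : ℕ) (g : FK A (M₁ * q)), 0 < n →
      (∃ b : FK A (M₁ * q), b ∈ BK A M₁ q haux i ∧
        g ^ n - b ∈ (VK A M₁ q hq hqM hq2 c).nonunits) →
      ∃ r : FK A (M₁ * q), r ∈ BK A M₁ q haux i ∧ g - r ∈ (VK A M₁ q hq hqM hq2 c).nonunits) ∧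
    Deg.Red (αK A M₁ q) (Vinf A M₁ q) (BK A M₁ q haux) (BK' A M₁ q haux) ∧
    Deg.Red (αK A M₁ q) (Vmid A M₁ q hq hqM hq2) (BK A M₁ q haux) (BK' A M₁ q haux) ∧
    Deg.Red (βK A M₁ q) (Vzero A M₁ q hq hqM hq2) (BK A M₁ q haux) (BK' A M₁ q haux) ∧
    Deg.Red (βK A M₁ q) (Vmid A M₁ q hq hqM hq2) (BK A M₁ q haux) (BK' A M₁ q haux) := by
  obtain ⟨hαmap, hβmap, hαnorm, hβnorm⟩ := chart_maps A M₁ q haux hq hA
  have hβ := intPair_β A M₁ q haux hq hA
  have hred := helper1413.red_fields (OI A) (αK A M₁ q) (βK A M₁ q) (xK A M₁ q haux)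
    (xK' A M₁ q haux) (VK A M₁ q hq hqM hq2) (VK' A M₁ q hq hqM hq2) (αK_xK' A M₁ q haux)
    hβmap hβ.down0 hβ.down1
    (fun c a ha => (const_mem_VK_iff A M₁ q hq hqM hq2 c a).mpr ha) x_V
    α_mem_inf α_mem_mid α_lift_inf α_lift_mid β_mem_zero β_mem_mid β_lift_zero β_lift_mid hIC
  exact ⟨hαmap, hβmap, hαnorm, hβnorm, hred.2.1, hred.2.2.1, hred.2.2.2.1, hred.2.2.2.2.1,
    hred.2.2.2.2.2⟩

end Fermat.Agent.S36.helper403
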