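import Fermat.Agent.S36.helper8566_HauptIntegralFinal
import Fermat.Agent.S36.helper98_LevelQPair
import Fermat.Agent.S37.helper530_RegFinT49

/-!
# S36 — TQ-INT one level down, on the `alphaAt` / `betaAt` carriers  (helper403)

`helper8566.intPair_aux` (TQ-INT: `t(z)` and `t(qz)` are integral over each other's `O`-algebra,
and the same for the inverses) is stated for `heckeAlphaBar K N q`, `heckeBetaBar K N q` with
target level the literal product `N * q`.  The level-`q` step of the chart block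
(`helper1413.redIC_levelq_t4 / _t9`, `helper1162.lpbAt_levelq_t4 / _t9`) lives at the literal
level `M₁` with source level `M₁ / q`, on the maps `helper98.alphaAt`, `helper98.betaAt`.

* `intPair_at` : TQ-INT for `alphaAt K M q hN`, `betaAt K M q hN` (any literal form `N'` of the
  level `M * q`);
* `tqInt_levelq_t4`, `tqInt_levelq_t9` : the four chart-stability memberships
  `hβ0`, `hβ1`, `hβ0'`, `hβ1'` of `helper1413.redIC_levelq_t4 / _t9`, verbatim and in that order.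
-/

set_option autoImplicit false
set_option linter.unusedSectionVars false

namespace Fermat.Agent.S36.helper403

open ModularCurve
open Fermat.Agent.S36.helper98 (alphaAt betaAt)
open Fermat.Agent.S36.helper6594 (FK)
open Fermat.Agent.S36.helper248 (chartRing)
open Fermat.Agent.S37.helper530 (t4F t9F)
open Fermat.Agent.S37.helper9536 (t4K t9K)

variable (K : Type) [Field K] [Algebra ℚ K] (O : ValuationSubring K)

/-- **TQ-INT on the `alphaAt` / `betaAt` carriers**: for `M * q = N'`, `β' x''` is integral over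
`O[α' x'']`, `α' x''` over `O[β' x'']`, and the same for the inverses (`x''` the base line
`t₄` for `q ≠ 2`, `t₉` for `q = 2`). -/
theorem intPair_at (M q : ℕ) [NeZero M] [NeZero q] {N' : ℕ} (hN : M * q = N') (hq : q.Prime)
    (hqO : (q : K) ∈ O.nonunits) (h4 : q ≠ 2 → 4 ∣ M) (h9 : q = 2 → 9 ∣ M) (x'' : ↥(FK K M))
    (hx4 : q ≠ 2 → (x'' : LaurentSeries K) = t4K K)
    (hx9 : q = 2 → (x'' : LaurentSeries K) = t9K K) :
    betaAt K M q hN x'' ∈ chartRing O ({alphaAt K M q hN x''} : Set ↥(FK K N')) ∧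
    alphaAt K M q hN x'' ∈ chartRing O ({betaAt K M q hN x''} : Set ↥(FK K N')) ∧
    (betaAt K M q hN x'')⁻¹ ∈ chartRing O ({(alphaAt K M q hN x'')⁻¹} : Set ↥(FK K N')) ∧
    (alphaAt K M q hN x'')⁻¹ ∈ chartRing O ({(betaAt K M q hN x'')⁻¹} : Set ↥(FK K N')) := by
  subst hN
  exact helper8566.intPair_aux K O M q hq hqO h4 h9 x'' hx4 hx9

/-- **The four chart-stability memberships of `β'` at the literal level `M₁`, `t₄`** (`q` odd):
the hypotheses `hβ0`, `hβ1`, `hβ0'`, `hβ1'` of `helper1413.redIC_levelq_t4`, in that order. -/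
theorem tqInt_levelq_t4 {q : ℕ} [NeZero q] (hq : q.Prime) (hq2 : q ≠ 2)
    (hqO : (q : K) ∈ O.nonunits) (M₁ : ℕ) [NeZero M₁] (hqM : q ∣ M₁) [NeZero (M₁ / q)]
    (h4 : 4 ∣ M₁ / q) (h4' : 4 ∣ M₁) :
    t4F K M₁ h4' ∈ chartRing O
      ({betaAt K (M₁ / q) q (Nat.div_mul_cancel hqM) (t4F K (M₁ / q) h4)} : Set ↥(FK K M₁)) ∧
    (t4F K M₁ h4')⁻¹ ∈ chartRing O
      ({(betaAt K (M₁ / q) q (Nat.div_mul_cancel hqM) (t4F K (M₁ / q) h4))⁻¹} :
        Set ↥(FK K M₁)) ∧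
    betaAt K (M₁ / q) q (Nat.div_mul_cancel hqM) (t4F K (M₁ / q) h4)
      ∈ chartRing O ({t4F K M₁ h4'} : Set ↥(FK K M₁)) ∧
    (betaAt K (M₁ / q) q (Nat.div_mul_cancel hqM) (t4F K (M₁ / q) h4))⁻¹
      ∈ chartRing O ({(t4F K M₁ h4')⁻¹} : Set ↥(FK K M₁)) := by
  have h := intPair_at K O (M₁ / q) q (Nat.div_mul_cancel hqM) hq hqO (fun _ => h4)
    (fun h => absurd h hq2) (t4F K (M₁ / q) h4)
    (fun _ => (Fermat.Agent.S37.helper9536.coeffMap_t4Z K).symm) (fun h => absurd h hq2)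
  have e : alphaAt K (M₁ / q) q (Nat.div_mul_cancel hqM) (t4F K (M₁ / q) h4) = t4F K M₁ h4' :=
    Subtype.ext (Fermat.Agent.S36.helper98.coe_alphaAt K (M₁ / q) q _ _)
  rw [e] at h
  exact ⟨h.2.1, h.2.2.2, h.1, h.2.2.1⟩

/-- **The four chart-stability memberships of `β'` at the literal level `M₁`, `t₉`**
(`q ≠ 3`): the hypotheses `hβ0`, `hβ1`, `hβ0'`, `hβ1'` of `helper1413.redIC_levelq_t9`, in that
order. -/
theorem tqInt_levelq_t9 {q : ℕ} [NeZero q] (hq : q.Prime) (hq2 : q = 2)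
    (hqO : (q : K) ∈ O.nonunits) (M₁ : ℕ) [NeZero M₁] (hqM : q ∣ M₁) [NeZero (M₁ / q)]
    (h9 : 9 ∣ M₁ / q) (h9' : 9 ∣ M₁) :
    t9F K M₁ h9' ∈ chartRing O
      ({betaAt K (M₁ / q) q (Nat.div_mul_cancel hqM) (t9F K (M₁ / q) h9)} : Set ↥(FK K M₁)) ∧
    (t9F K M₁ h9')⁻¹ ∈ chartRing O
      ({(betaAt K (M₁ / q) q (Nat.div_mul_cancel hqM) (t9F K (M₁ / q) h9))⁻¹} :
        Set ↥(FK K M₁)) ∧
    betaAt K (M₁ / q) q (Nat.div_mul_cancel hqM) (t9F K (M₁ / q) h9)
      ∈ chartRing O ({t9F K M₁ h9'} : Set ↥(FK K M₁)) ∧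
    (betaAt K (M₁ / q) q (Nat.div_mul_cancel hqM) (t9F K (M₁ / q) h9))⁻¹
      ∈ chartRing O ({(t9F K M₁ h9')⁻¹} : Set ↥(FK K M₁)) := by
  have h := intPair_at K O (M₁ / q) q (Nat.div_mul_cancel hqM) hq hqO
    (fun h => absurd hq2 h) (fun _ => h9) (t9F K (M₁ / q) h9) (fun h => absurd hq2 h)
    (fun _ => (Fermat.Agent.S37.helper9536.coeffMap_t9Z K).symm)
  have e : alphaAt K (M₁ / q) q (Nat.div_mul_cancel hqM) (t9F K (M₁ / q) h9) = t9F K M₁ h9' :=
    Subtype.ext (Fermat.Agent.S36.helper98.coe_alphaAt K (M₁ / q) q _ _)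
  rw [e] at h
  exact ⟨h.2.1, h.2.2.2, h.1, h.2.2.1⟩

end Fermat.Agent.S36.helper403
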