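import Fermat.Agent.S36.helper405_KillTerms
import Fermat.Agent.S36.helper98_LevelQPair
import Fermat.Agent.S36.helper6594_LevelQKInst

/-!
# S36 (LEVELQ-PAIR, terms of record): the level-`q` pair on the vocabulary of
`helper405_KillTerms` (helper98)

Captain ruling #4: every supplier states its result on the concrete terms of
`helper405_KillTerms`.  This file restates `helper98.levelq_pair_at` there:

* `K = KI A` (inertia field of `A`), `O = OI A`, `F' = FK A M₁` with `q ∥ M₁`,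
  `F'' = FK A (M₁ / q)`;
* `V' = VK' A M₁ q hq hqM hq2 = ![Vinf' A M₁, Vzero' A M₁ q hq hqM hq2]`;
* `V'' = VinfAt A (M₁ / q)`, which is the Gauss ring `gaussF (OI A) (residue (OI A)) (M₁ / q)`
  over `O` (`vinfAt_eq_gaussF`);
* `α' = alphaAt (KI A) (M₁ / q) q _`, `β' = betaAt (KI A) (M₁ / q) q _ : F'' →ₐ[K] F'`.

`levelq_pair_terms` gives `mem` and `lift` (residue degree one) for `v'_∞ | v''` along `α'` and
for `v'_0 | v''` along `β'`, in the shapes `helper405.Deg.MemOver` / `helper405.Deg.Lift`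
(= the hypotheses `mem_α'`, `lift_α'`, `mem_β'`, `lift_β'` of `helper1413.red_fields_of_level`).

Also: the base line at the three levels (`alphaAt_baseLine`, `αK_xK'`, `alphaAt_xK''`), and
`AuxOK (M₁ / q) q` from `AuxOK M₁ q`.
-/

set_option autoImplicit false

noncomputable section

namespace Fermat.Agent.S36.helper98

open ModularCurve
open Fermat.Agent.S18 Fermat.Agent.S35
open Fermat.Agent.S36.helper405 (KI OI lh VinfAt Vinf' Vzero' VK' Wq xK xK' baseLine αK)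
open Fermat.Agent.S36.helper1335 (AuxOK)

local notation "Qb" => AlgebraicClosure ℚ

section Bridge

variable (A : ValuationSubring Qb)

/-- The inclusion of the inertia field of `A` into `ℚ̄`. -/
abbrev iotaI : ↥(KI A) →+* Qb := algebraMap ↥(KI A) Qb

theorem isInertiaField_iotaI : helper6594.IsInertiaField A (iotaI A) :=
  helper6594.isInertiaField_inertiaFixedField A

theorem oK_iotaI : helper6594.OK A (iotaI A) = OI A := rfl

/-- The base change `lh` of the terms file is `helper6594.embK`. -/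
theorem lh_apply_eq_embK (N : ℕ) (x : helper405.FK A N) :
    lh A N x = helper6594.embK (iotaI A) N x := rfl

theorem mem_VinfAt_iff_gaussK (N : ℕ) (x : helper405.FK A N) :
    x ∈ VinfAt A N ↔ x ∈ helper6594.gaussK A (iotaI A) N :=
  (helper6594.mem_gaussK_iff A (iotaI A) N x).symm

/-- `v_∞` of the terms file (restriction from `(ℚ̄, A)`) is the Gauss ring over `K`. -/
theorem vinfAt_eq_gaussK (N : ℕ) : VinfAt A N = helper6594.gaussK A (iotaI A) N :=
  SetLike.ext (mem_VinfAt_iff_gaussK A N)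

/-- `v_∞` of the terms file is the Gauss valuation subring of `F_{N,K}` over `O = OI A`. -/
theorem vinfAt_eq_gaussF (N : ℕ) :
    VinfAt A N = helper8991.gaussF (OI A) (IsLocalRing.residue ↥(OI A)) N :=
  vinfAt_eq_gaussK A N

variable (M₁ q : ℕ) [NeZero M₁] [NeZero q]

/-- `v'_0` of the terms file is the restriction of the second Gauss ring for
`atkinLehnerAt M₁ q`. -/
theorem vzero'_eq_comap_gpRingW (hq : q.Prime) (hqM : q ∣ M₁) (hq2 : ¬ q ^ 2 ∣ M₁) :
    Vzero' A M₁ q hq hqM hq2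
      = (helper882.gpRingW A M₁ (helper1219.atkinLehnerAt M₁ q hq hqM hq2)).comap
          (helper6594.embK (iotaI A) M₁) := rfl

/-- `V'` of the terms file is `helper6594.levelqV` at the concrete inertia field. -/
theorem VK'_eq_levelqV (hq : q.Prime) (hqM : q ∣ M₁) (hq2 : ¬ q ^ 2 ∣ M₁) :
    VK' A M₁ q hq hqM hq2 = helper6594.levelqV M₁ q hq hqM hq2 (isInertiaField_iotaI A) := by
  rw [helper6594.levelqV_eq_restrict]
  rfl

theorem VK'_apply_eq_levelqV (hq : q.Prime) (hqM : q ∣ M₁) (hq2 : ¬ q ^ 2 ∣ M₁) (c : Fin 2) :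
    VK' A M₁ q hq hqM hq2 c
      = helper6594.levelqV M₁ q hq hqM hq2 (isInertiaField_iotaI A) c :=
  congrFun (VK'_eq_levelqV A M₁ q hq hqM hq2) c

end Bridge

/-! ## The level-`q` pair on the terms of record -/

section Pair

variable (A : ValuationSubring Qb) (M₁ q : ℕ) [NeZero M₁] [NeZero q]

/-- **LEVELQ-PAIR on the terms of `helper405_KillTerms`.**  `q ∥ M₁`, `A` over `q`:
with `α' = alphaAt (KI A) (M₁ / q) q _`, `β' = betaAt (KI A) (M₁ / q) q _`
(`F_K(M₁ / q) →ₐ[K] F_K(M₁)`), `V'' = VinfAt A (M₁ / q)`: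
`v'_∞ = Vinf' A M₁` lies over `V''` along `α'` with residue degree one, and
`v'_0 = Vzero' A M₁ q _ _ _` lies over `V''` along `β'` with residue degree one. -/
theorem levelq_pair_terms (hq : q.Prime) (hqM : q ∣ M₁) (hq2 : ¬ q ^ 2 ∣ M₁)
    (hA : A.LiesOverPrime q) [NeZero (M₁ / q)] :
    helper405.Deg.MemOver (alphaAt ↥(KI A) (M₁ / q) q (Nat.div_mul_cancel hqM))
        (Vinf' A M₁) (VinfAt A (M₁ / q)) ∧
    helper405.Deg.Lift (alphaAt ↥(KI A) (M₁ / q) q (Nat.div_mul_cancel hqM))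
        (Vinf' A M₁) (VinfAt A (M₁ / q)) ∧
    helper405.Deg.MemOver (betaAt ↥(KI A) (M₁ / q) q (Nat.div_mul_cancel hqM))
        (Vzero' A M₁ q hq hqM hq2) (VinfAt A (M₁ / q)) ∧
    helper405.Deg.Lift (betaAt ↥(KI A) (M₁ / q) q (Nat.div_mul_cancel hqM))
        (Vzero' A M₁ q hq hqM hq2) (VinfAt A (M₁ / q)) := by
  have h := levelq_pair_at (isInertiaField_iotaI A) hq hA M₁ hqM hq2
  have e0 : Vinf' A M₁ = helper6594.gaussK A (iotaI A) M₁ := vinfAt_eq_gaussK A M₁
  have e2 : VinfAt A (M₁ / q) = helper6594.gaussK A (iotaI A) (M₁ / q) :=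
    vinfAt_eq_gaussK A (M₁ / q)
  have e1 := vzero'_eq_comap_gpRingW A M₁ q hq hqM hq2
  unfold helper405.Deg.MemOver helper405.Deg.Lift
  rw [e0, e1, e2]
  exact ⟨h.1, fun x hx => h.2.1 x hx, h.2.2.1, fun x hx => h.2.2.2 x hx⟩

/-- The same, on `VK'` (`V' 0 = v'_∞`, `V' 1 = v'_0`), clause by clause in the binder shapes of
`helper1413.red_fields_of_level` (`mem_α'`, `lift_α'`, `mem_β'`, `lift_β'`). -/
theorem levelq_pair_VK' (hq : q.Prime) (hqM : q ∣ M₁) (hq2 : ¬ q ^ 2 ∣ M₁)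
    (hA : A.LiesOverPrime q) [NeZero (M₁ / q)] :
    (∀ a : helper405.FK A (M₁ / q),
      alphaAt ↥(KI A) (M₁ / q) q (Nat.div_mul_cancel hqM) a ∈ VK' A M₁ q hq hqM hq2 0
        ↔ a ∈ VinfAt A (M₁ / q)) ∧
    (∀ h : helper405.FK A M₁, h ∈ VK' A M₁ q hq hqM hq2 0 →
      ∃ a : helper405.FK A (M₁ / q), a ∈ VinfAt A (M₁ / q) ∧
        alphaAt ↥(KI A) (M₁ / q) q (Nat.div_mul_cancel hqM) a - h
          ∈ (VK' A M₁ q hq hqM hq2 0).nonunits) ∧
    (∀ a : helper405.FK A (M₁ / q),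
      betaAt ↥(KI A) (M₁ / q) q (Nat.div_mul_cancel hqM) a ∈ VK' A M₁ q hq hqM hq2 1
        ↔ a ∈ VinfAt A (M₁ / q)) ∧
    (∀ h : helper405.FK A M₁, h ∈ VK' A M₁ q hq hqM hq2 1 →
      ∃ a : helper405.FK A (M₁ / q), a ∈ VinfAt A (M₁ / q) ∧
        betaAt ↥(KI A) (M₁ / q) q (Nat.div_mul_cancel hqM) a - h
          ∈ (VK' A M₁ q hq hqM hq2 1).nonunits) :=
  levelq_pair_terms A M₁ q hq hqM hq2 hA

end Pair

/-! ## The base line at the levels `M₁ / q`, `M₁`, `M₁ * q` -/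

section BaseLine

/-- `AuxOK` descends from `M₁` to `M₁ / q` (`q ∥ M₁`: `4`, resp. `9`, is prime to `q`). -/
theorem auxOK_div {M₁ q : ℕ} (hq : q.Prime) (hqM : q ∣ M₁) (haux : AuxOK M₁ q) :
    AuxOK (M₁ / q) q := by
  obtain ⟨m, rfl⟩ := hqM
  rw [Nat.mul_div_cancel_left m hq.pos]
  refine ⟨fun h2 => ?_, fun h2 => ?_⟩
  · have h4 : 4 ∣ q * m := haux.1 h2
    have hodd : Nat.Coprime 4 q := by
      have : Nat.Coprime 2 q := (Nat.coprime_primes Nat.prime_two hq).mpr (Ne.symm h2)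
      exact Nat.Coprime.pow_left 2 this
    exact hodd.dvd_of_dvd_mul_left h4
  · have h9 : 9 ∣ q * m := haux.2 h2
    have hc : Nat.Coprime 9 q := by
      rw [h2]
      decide
    exact hc.dvd_of_dvd_mul_left h9

variable (K : Type) [Field K] [Algebra ℚ K]

/-- The coefficient series of the base line does not depend on the level. -/
theorem coe_baseLine_eq (M N : ℕ) [NeZero M] [NeZero N] (q : ℕ)
    (h4 : q ≠ 2 → 4 ∣ M) (h9 : q = 2 → 9 ∣ M) (h4' : q ≠ 2 → 4 ∣ N) (h9' : q = 2 → 9 ∣ N) :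
    ((baseLine K M q h4 h9 : ↥(laurentBaseChange K (modularFunctionFieldFull M))) :
        LaurentSeries K)
      = ((baseLine K N q h4' h9' : ↥(laurentBaseChange K (modularFunctionFieldFull N))) :
        LaurentSeries K) := by
  by_cases h : q = 2
  · rw [helper405.baseLine_of_eq K M q h4 h9 h, helper405.baseLine_of_eq K N q h4' h9' h]
    rfl
  · rw [helper405.baseLine_of_ne K M q h4 h9 h, helper405.baseLine_of_ne K N q h4' h9' h]
    rfl

/-- `α'` maps the base line of level `M` to the base line of level `N' = M * q`. -/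
theorem alphaAt_baseLine (M q : ℕ) [NeZero M] [NeZero q] {N' : ℕ} [NeZero N'] (hN : M * q = N')
    (h4 : q ≠ 2 → 4 ∣ M) (h9 : q = 2 → 9 ∣ M) (h4' : q ≠ 2 → 4 ∣ N') (h9' : q = 2 → 9 ∣ N') :
    alphaAt K M q hN (baseLine K M q h4 h9) = baseLine K N' q h4' h9' := by
  apply Subtype.ext
  rw [coe_alphaAt]
  exact coe_baseLine_eq K M N' q h4 h9 h4' h9'

/-- `α` maps the base line of level `M` to the base line of level `M * q`. -/
theorem heckeAlphaBar_baseLine (M q : ℕ) [NeZero M] [NeZero q]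
    (h4 : q ≠ 2 → 4 ∣ M) (h9 : q = 2 → 9 ∣ M) (h4' : q ≠ 2 → 4 ∣ M * q)
    (h9' : q = 2 → 9 ∣ M * q) :
    heckeAlphaBar K M q (baseLine K M q h4 h9) = baseLine K (M * q) q h4' h9' :=
  alphaAt_baseLine K M q rfl h4 h9 h4' h9'

end BaseLine

section BaseLineTerms

variable (A : ValuationSubring Qb) (M₁ q : ℕ) [NeZero M₁] [NeZero q]

/-- `hαx` on the terms of record: `α x' = x`. -/
theorem αK_xK' (haux : AuxOK M₁ q) : αK A M₁ q (xK' A M₁ q haux) = xK A M₁ q haux :=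
  heckeAlphaBar_baseLine ↥(KI A) M₁ q _ _ _ _

/-- The base line `x''` at level `M₁ / q` over `K = KI A`. -/
def xK'' (hq : q.Prime) (hqM : q ∣ M₁) (haux : AuxOK M₁ q) [NeZero (M₁ / q)] :
    helper405.FK A (M₁ / q) :=
  baseLine ↥(KI A) (M₁ / q) q (auxOK_div hq hqM haux).1 (auxOK_div hq hqM haux).2

/-- `hα'x` on the terms of record: `α' x'' = x'`. -/
theorem alphaAt_xK'' (hq : q.Prime) (hqM : q ∣ M₁) (haux : AuxOK M₁ q) [NeZero (M₁ / q)] :
    alphaAt ↥(KI A) (M₁ / q) q (Nat.div_mul_cancel hqM) (xK'' A M₁ q hq hqM haux)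
      = xK' A M₁ q haux :=
  alphaAt_baseLine ↥(KI A) (M₁ / q) q _ _ _ _ _

omit [NeZero M₁] [NeZero q] in
theorem xK''_of_ne (hq : q.Prime) (hqM : q ∣ M₁) (haux : AuxOK M₁ q) [NeZero (M₁ / q)]
    (h : q ≠ 2) :
    xK'' A M₁ q hq hqM haux
      = Fermat.Agent.S37.helper530.t4F ↥(KI A) (M₁ / q) ((auxOK_div hq hqM haux).1 h) :=
  helper405.baseLine_of_ne _ _ _ _ _ h

omit [NeZero M₁] [NeZero q] in
theorem xK''_of_eq (hq : q.Prime) (hqM : q ∣ M₁) (haux : AuxOK M₁ q) [NeZero (M₁ / q)]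
    (h : q = 2) :
    xK'' A M₁ q hq hqM haux
      = Fermat.Agent.S37.helper530.t9F ↥(KI A) (M₁ / q) ((auxOK_div hq hqM haux).2 h) :=
  helper405.baseLine_of_eq _ _ _ _ _ h

end BaseLineTerms

end Fermat.Agent.S36.helper98
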