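import Fermat.Agent.S36.helper403_ChartBlock
import Fermat.Agent.S36.helper403_TQIntLevelQ
import Fermat.Agent.S36.helper1413_RedLevelQ
import Fermat.Agent.S36.helper98_LevelQTerms

/-!
# S36 (KILL-INST), block CHART: integral closedness of the reductions at level `M₁`, on the
terms of record, and the block theorem  (helper403)

Pre-flight / assembly file of the block CHART (block owner: helper1413).

* `redIC_modular` : `∀ i c, helper1413.RedIC (BK' A M₁ q haux i) (VK' A M₁ q hq hqM hq2 c)`,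
  hypothesis-free (`A` over `q`): `helper1413.redIC_levelq_t4 / _t9` (base `RedIC` at level
  `M₁ / q` + LEVELQ-PAIR of helper98) ∘ TQ-INT one level down (`tqInt_levelq_t4 / _t9`)
  ∘ the identifications of `helper98_LevelQTerms` (`VK' = levelqV`, `OK = OI`) ∘ the base DVR
  facts of helper225.
* `chart_modular` : the nine CHART fields of `helper405.KillInput` from `x_V` and the eight
  residue-degree-one fields only.
-/

set_option autoImplicit false
set_option linter.unusedSectionVars false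

namespace Fermat.Agent.S36.helper403

open ModularCurve
open Fermat.Agent.S36.helper405
open Fermat.Agent.S36.helper1335 (AuxOK)
open Fermat.Agent.S37.helper530 (t4F t9F)

variable (A : ValuationSubring (AlgebraicClosure ℚ)) (M₁ q : ℕ) [NeZero M₁] [NeZero q]
  (hq : q.Prime) (hqM : q ∣ M₁) (hq2 : ¬ q ^ 2 ∣ M₁) (haux : AuxOK M₁ q)

/-- **Integral closedness of the four reductions at level `M₁`, on the terms of record**: the
hypothesis `hIC` of `chart_modular_of`. -/
theorem redIC_modular (hA : A.LiesOverPrime q) :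
    ∀ (i : Fin 2) (c : Fin 2),
      helper1413.RedIC (BK' A M₁ q haux i) (VK' A M₁ q hq hqM hq2 c) := by
  have : NeZero (M₁ / q) := neZero_div hqM
  have hdvr : IsDiscreteValuationRing ↥(helper6594.OK A (helper98.iotaI A)) :=
    helper225.isDiscreteValuationRing A hq hA
  have hperf : PerfectField
      (IsLocalRing.ResidueField ↥(helper6594.OK A (helper98.iotaI A))) := by
    have : IsAlgClosed (IsLocalRing.ResidueField ↥(helper6594.OK A (helper98.iotaI A))) :=
      helper225.isAlgClosed_residueField A hq hA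
    infer_instance
  have haux' := helper98.auxOK_div hq hqM haux
  have hqO : ((q : ℕ) : ↥(KI A)) ∈ (helper6594.OK A (helper98.iotaI A)).nonunits :=
    helper225.natCast_mem_nonunits A hq hA
  intro i c
  rw [helper98.VK'_apply_eq_levelqV]
  by_cases h2 : q = 2
  · have h9 : 9 ∣ M₁ / q := haux'.2 h2
    have h9' : 9 ∣ M₁ := haux.2 h2
    obtain ⟨hβ0, hβ1, hβ0', hβ1'⟩ := tqInt_levelq_t9 ↥(KI A)
      (helper6594.OK A (helper98.iotaI A)) hq h2 hqO M₁ hqM h9 h9'
    have key := helper1413.redIC_levelq_t9 (helper98.isInertiaField_iotaI A) hq hA M₁ hqM hq2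
      h9 h9' hβ0 hβ1 hβ0' hβ1' i c
    have e : xK' A M₁ q haux = t9F ↥(KI A) M₁ h9' := baseLine_of_eq _ _ _ _ _ h2
    show helper1413.RedIC (helper1413.chartAt (OI A) (xK' A M₁ q haux) i) _
    rw [e]
    exact key
  · have h4 : 4 ∣ M₁ / q := haux'.1 h2
    have h4' : 4 ∣ M₁ := haux.1 h2
    obtain ⟨hβ0, hβ1, hβ0', hβ1'⟩ := tqInt_levelq_t4 ↥(KI A)
      (helper6594.OK A (helper98.iotaI A)) hq h2 hqO M₁ hqM h4 h4'
    have key := helper1413.redIC_levelq_t4 (helper98.isInertiaField_iotaI A) hq hA M₁ hqM hq2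
      h4 h4' hβ0 hβ1 hβ0' hβ1' i c
    have e : xK' A M₁ q haux = t4F ↥(KI A) M₁ h4' := baseLine_of_ne _ _ _ _ _ h2
    show helper1413.RedIC (helper1413.chartAt (OI A) (xK' A M₁ q haux) i) _
    rw [e]
    exact key

/-- **Block CHART of `helper405.KillInput`**: the nine chart fields, verbatim (in the order
`α_map_chart`, `β_map_chart`, `α_norm_chart`, `β_norm_chart`, `red_root`, `α_red_inf`,
`α_red_mid`, `β_red_zero`, `β_red_mid`), from the field `x_V` and the eight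
residue-degree-one fields of `α` and `β`. -/
theorem chart_modular (hA : A.LiesOverPrime q)
    (x_V : ∀ c : Fin 3, xK A M₁ q haux ∈ VK A M₁ q hq hqM hq2 c ∧
      (xK A M₁ q haux)⁻¹ ∈ VK A M₁ q hq hqM hq2 c)
    (α_mem_inf : Deg.MemOver (αK A M₁ q) (Vinf A M₁ q) (Vinf' A M₁))
    (α_mem_mid : Deg.MemOver (αK A M₁ q) (Vmid A M₁ q hq hqM hq2) (Vinf' A M₁))
    (α_lift_inf : Deg.Lift (αK A M₁ q) (Vinf A M₁ q) (Vinf' A M₁))
    (α_lift_mid : Deg.Lift (αK A M₁ q) (Vmid A M₁ q hq hqM hq2) (Vinf' A M₁))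
    (β_mem_zero : Deg.MemOver (βK A M₁ q) (Vzero A M₁ q hq hqM hq2) (Vzero' A M₁ q hq hqM hq2))
    (β_mem_mid : Deg.MemOver (βK A M₁ q) (Vmid A M₁ q hq hqM hq2) (Vzero' A M₁ q hq hqM hq2))
    (β_lift_zero : Deg.Lift (βK A M₁ q) (Vzero A M₁ q hq hqM hq2) (Vzero' A M₁ q hq hqM hq2))
    (β_lift_mid : Deg.Lift (βK A M₁ q) (Vmid A M₁ q hq hqM hq2) (Vzero' A M₁ q hq hqM hq2)) :
    Deg.MapChart (αK A M₁ q) (BK A M₁ q haux) (BK' A M₁ q haux) ∧
    Deg.MapChart (βK A M₁ q) (BK A M₁ q haux) (BK' A M₁ q haux) ∧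
    Deg.NormChart (NαK A M₁ q) (BK A M₁ q haux) (BK' A M₁ q haux) ∧
    Deg.NormChart (NβK A M₁ q) (BK A M₁ q haux) (BK' A M₁ q haux) ∧
    (∀ (i : Fin 2) (c : Fin 3) (n : ℕ) (g : FK A (M₁ * q)), 0 < n →
      (∃ b : FK A (M₁ * q), b ∈ BK A M₁ q haux i ∧
        g ^ n - b ∈ (VK A M₁ q hq hqM hq2 c).nonunits) →
      ∃ r : FK A (M₁ * q), r ∈ BK A M₁ q haux i ∧ g - r ∈ (VK A M₁ q hq hqM hq2 c).nonunits) ∧
    Deg.Red (αK A M₁ q) (Vinf A M₁ q) (BK A M₁ q haux) (BK' A M₁ q haux) ∧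
    Deg.Red (αK A M₁ q) (Vmid A M₁ q hq hqM hq2) (BK A M₁ q haux) (BK' A M₁ q haux) ∧
    Deg.Red (βK A M₁ q) (Vzero A M₁ q hq hqM hq2) (BK A M₁ q haux) (BK' A M₁ q haux) ∧
    Deg.Red (βK A M₁ q) (Vmid A M₁ q hq hqM hq2) (BK A M₁ q haux) (BK' A M₁ q haux) :=
  chart_modular_of A M₁ q hq hqM hq2 haux hA (redIC_modular A M₁ q hq hqM hq2 haux hA) x_V
    α_mem_inf α_mem_mid α_lift_inf α_lift_mid β_mem_zero β_mem_mid β_lift_zero β_lift_mid

end Fermat.Agent.S36.helper403
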