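import Fermat.Agent.S36.helper4474_EtaNine
import Fermat.Agent.S36.helper105_ThetaUnit

/-!
# S36-F2-NINEUNIT (helper4474): the level-9 unit `y_q = b(x) / b(x^q)`

`b = η(z)³ / η(3z) = bZ ∈ 1 + xℤ[[x]]` (weight one on `Γ₀(9)`, character `χ₋₃`, no zero on the
upper half plane), `yZ q = bZ / bZ(x^q) ∈ 1 + xℤ[[x]]` (`yZ_mul_expand : yZ q * expand q bZ = bZ`).
This is the level-9 twin, name for name, of `helper105_ThetaUnit` (the theta unit of level 4); it
covers the prime `q = 2` (and every `q` prime to `3`).  For every `q ≥ 1` and every level `N`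
with `9 q ∣ N`:

* (U1) `nineUnit_mem_full` : the series `yZ q` lies in `modularFunctionFieldFull N`;
  `nineUnit q N hN : FN N` is the corresponding element over `ℚ̄`;
* (U2) `nineUnit_isIntegral`, `nineUnit_inv_isIntegral` : `yZ q` and its inverse `yZinv q` are
  integral over `ℚ[j]` (no zero and no pole away from the cusps);
* (U3) `nineUnit_atkinLehner` : for `q` prime to `M`, `9 ∣ M`:
  `W_q(y_q) · y_q = χ₋₃(q) q` in `FN (q * M)`, `W_q = helper1219.atkinLehnerBar q M h`.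

The analytic input is `helper4474_EtaNine` (`yfun_smul`, `yfun_atkinLehner`); the generic bridge
from functions to the function field is `helper105_EtaRoot` / `helper105_ThetaUnit`.
-/

set_option autoImplicit false

open Complex Function
open UpperHalfPlane hiding I
open ModularCurve CongruenceSubgroup
open scoped MatrixGroups

namespace Fermat.Agent.S36.helper4474

open Fermat.Agent.S28.helper407 (etaQuot pt)
open Fermat.Agent.S28.helper1594 (eulerFun eulerFun_ne_zero PSConv PSIn eulerPS eulerExp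
  psConv_eulerFun psConv_eulerExp psIn_eulerPS psIn_eulerExp)
open Fermat.Agent.S24.helper24 (Kbar FN)
open Fermat.Agent.S24 Fermat.Agent.S24.helper504
open Fermat.Agent.S35.helper1219
open Fermat.Agent.S36.helper105 (ofZQ rSingle etaQuot_add etaQuot_rSingle sum_rSingle
  etaRoot_mem_full etaRoot_isIntegral etaRoot_inv isCuspHol_of_psConv coeffEmb_ofZQ_mem_bar
  map_map_intCast atkinLehnerBar_mul_of_analytic)

local notation "Δ" => ModularForm.discriminant
local notation "𝕢" => Periodic.qParam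
local notation "η" => ModularForm.eta

noncomputable section

/-! ### The functions on the unit disc -/

/-- `b` as a function on the unit disc: `E(x)³ / E(x³)`, `E(x) = ∏ (1 - x^n)`. -/
def bDisc (x : ℂ) : ℂ := eulerFun x ^ 3 / eulerFun (x ^ 3)

theorem norm_pow_lt_one' {x : ℂ} (hx : ‖x‖ < 1) {n : ℕ} (hn : n ≠ 0) : ‖x ^ n‖ < 1 := by
  rw [norm_pow]
  exact pow_lt_one₀ (norm_nonneg _) hx hn

theorem bDisc_ne_zero {x : ℂ} (hx : ‖x‖ < 1) : bDisc x ≠ 0 :=
  div_ne_zero (pow_ne_zero _ (eulerFun_ne_zero hx))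
    (eulerFun_ne_zero (norm_pow_lt_one' hx three_ne_zero))

/-- `b(z) = η(z)³/η(3z)` is the function `bDisc` of `q = e^{2πiz}`. -/
theorem bfun_eq_bDisc (z : ℂ) : bfun z = bDisc (𝕢 1 z) := by
  have e3 : ∀ h : ℝ, 𝕢 h (3 * z) = 𝕢 h z ^ 3 := fun h => by
    have := Fermat.Agent.S36.helper105.qParam_nat_mul h 3 z
    simpa using this
  have ht : 𝕢 24 z ≠ 0 := Periodic.qParam_ne_zero z
  rw [bfun, bDisc, Fermat.Agent.S36.helper105.eta_eq, Fermat.Agent.S36.helper105.eta_eq, e3, e3,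
    mul_pow, mul_div_mul_left _ _ (pow_ne_zero 3 ht)]

/-- `y_q` on the unit disc. -/
def yDisc (q : ℕ) (x : ℂ) : ℂ := bDisc x / bDisc (x ^ q)

theorem yfun_eq_yDisc (q : ℕ) (z : ℂ) : yfun q z = yDisc q (𝕢 1 z) := by
  rw [yfun, yDisc, bfun_eq_bDisc, bfun_eq_bDisc, Fermat.Agent.S36.helper105.qParam_nat_mul]

/-! ### Power series with complex coefficients -/

/-- The formal series of `b` with complex coefficients. -/
def bPS : PowerSeries ℂ := eulerPS ^ 3 * (eulerExp 3)⁻¹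

theorem psConv_bDisc : PSConv bDisc bPS := by
  have h1 := psConv_eulerFun.pow 3
  have h3 := psConv_eulerExp (δ := 3) three_ne_zero
  have hne : ∀ z : ℂ, ‖z‖ < 1 → (fun z => eulerFun (z ^ 3)) z ≠ 0 := fun z hz =>
    eulerFun_ne_zero (norm_pow_lt_one' hz three_ne_zero)
  refine (h1.mul (h3.inv hne)).congr fun z _ => ?_
  simp only [bDisc, Pi.mul_apply, Pi.pow_apply, Pi.inv_apply, div_eq_mul_inv]

theorem psIn_bPS (O : Subring ℂ) : PSIn O bPS :=
  ((psIn_eulerPS O).pow 3).mul (psIn_eulerExp O 3).inv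

/-- The formal series of `y_q` with complex coefficients. -/
def yPS (q : ℕ) [NeZero q] : PowerSeries ℂ :=
  bPS * (PowerSeries.expand q (NeZero.ne q) bPS)⁻¹

theorem psConv_yDisc (q : ℕ) [NeZero q] : PSConv (yDisc q) (yPS q) := by
  have h := psConv_bDisc.comp_mul_pow (c := 1) (by simp) q (NeZero.ne q)
  rw [PowerSeries.rescale_one, RingHom.id_apply] at h
  have hne : ∀ z : ℂ, ‖z‖ < 1 → (fun z => bDisc (1 * z ^ q)) z ≠ 0 := by
    intro z hz
    simp only [one_mul]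
    exact bDisc_ne_zero (norm_pow_lt_one' hz (NeZero.ne q))
  refine (psConv_bDisc.mul (h.inv hne)).congr fun z _ => ?_
  simp only [yDisc, Pi.mul_apply, Pi.inv_apply, one_mul, div_eq_mul_inv]

theorem psIn_yPS (O : Subring ℂ) (q : ℕ) [NeZero q] : PSIn O (yPS q) := by
  have h := (psIn_bPS O).expand_rescale O.one_mem q (NeZero.ne q)
  rw [PowerSeries.rescale_one, RingHom.id_apply] at h
  exact (psIn_bPS O).mul h.inv

/-! ### Integer forms of the series -/

/-- The integer power series `b = ∏ (1-x^n)³ / ∏ (1-x^(3n))`. -/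
def bZ : PowerSeries ℤ :=
  ModularCurve.etaProd ^ 3 *
    PowerSeries.invOfUnit (PowerSeries.expand 3 three_ne_zero ModularCurve.etaProd) 1

/-- The defining relation `b · E(x³) = E(x)³` (so `bZ = helper1257.b9Z` by
`helper1257.eq_b9Z_of_mul`). -/
theorem bZ_mul : bZ * PowerSeries.expand 3 three_ne_zero ModularCurve.etaProd
    = ModularCurve.etaProd ^ 3 := by
  have hc : PowerSeries.constantCoeff (PowerSeries.expand 3 three_ne_zero ModularCurve.etaProd)
      = ((1 : ℤˣ) : ℤ) := by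
    rw [Fermat.Agent.S36.helper105.constantCoeff_expand_etaProd]
    rfl
  rw [bZ, mul_assoc, PowerSeries.invOfUnit_mul _ _ hc, mul_one]

theorem map_bZ : bZ.map (Int.castRingHom ℂ) = bPS := by
  have hc : PowerSeries.constantCoeff (PowerSeries.expand 3 three_ne_zero ModularCurve.etaProd)
      = 1 := Fermat.Agent.S36.helper105.constantCoeff_expand_etaProd 3 three_ne_zero
  rw [bZ, map_mul, map_pow, Fermat.Agent.S36.helper105.map_invOfUnit_one hc,
    Fermat.Agent.S36.helper105.map_expand_etaProd, bPS]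
  rfl

theorem constantCoeff_bZ : PowerSeries.constantCoeff bZ = 1 := by
  have h := (psIn_bPS ⊤).1
  rw [← map_bZ, ← PowerSeries.coeff_zero_eq_constantCoeff_apply, PowerSeries.coeff_map,
    PowerSeries.coeff_zero_eq_constantCoeff_apply, eq_intCast] at h
  exact_mod_cast h

/-- The integer power series of `y_q = b(x) / b(x^q)`. -/
def yZ (q : ℕ) [NeZero q] : PowerSeries ℤ :=
  bZ * PowerSeries.invOfUnit (PowerSeries.expand q (NeZero.ne q) bZ) 1

theorem yZ_mul_expand (q : ℕ) [NeZero q] :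
    yZ q * PowerSeries.expand q (NeZero.ne q) bZ = bZ := by
  have hc : PowerSeries.constantCoeff (PowerSeries.expand q (NeZero.ne q) bZ) = 1 := by
    rw [PowerSeries.constantCoeff_expand, constantCoeff_bZ]
  have h1 := PowerSeries.mul_invOfUnit (PowerSeries.expand q (NeZero.ne q) bZ) 1
    (by simpa using hc)
  rw [yZ, mul_assoc, mul_comm (PowerSeries.invOfUnit _ _), h1, mul_one]

theorem map_yZ (q : ℕ) [NeZero q] : (yZ q).map (Int.castRingHom ℂ) = yPS q := by
  have hc : PowerSeries.constantCoeff (PowerSeries.expand q (NeZero.ne q) bZ) = 1 := by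
    rw [PowerSeries.constantCoeff_expand, constantCoeff_bZ]
  rw [yZ, map_mul, Fermat.Agent.S36.helper105.map_invOfUnit_one hc, PowerSeries.map_expand,
    map_bZ, yPS]

theorem constantCoeff_yZ (q : ℕ) [NeZero q] : PowerSeries.constantCoeff (yZ q) = 1 := by
  have h := (psIn_yPS ⊤ q).1
  rw [← map_yZ, ← PowerSeries.coeff_zero_eq_constantCoeff_apply, PowerSeries.coeff_map,
    PowerSeries.coeff_zero_eq_constantCoeff_apply, eq_intCast] at h
  exact_mod_cast h

theorem psConv_yDisc_int (q : ℕ) [NeZero q] :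
    PSConv (yDisc q) ((yZ q).map (Int.castRingHom ℂ)) := by
  rw [map_yZ]
  exact psConv_yDisc q

/-- The inverse series `b(x^q)/b(x)`. -/
def yZinv (q : ℕ) [NeZero q] : PowerSeries ℤ :=
  PowerSeries.expand q (NeZero.ne q) bZ * PowerSeries.invOfUnit bZ 1

theorem yZ_mul_yZinv (q : ℕ) [NeZero q] : yZ q * yZinv q = 1 := by
  have h1 : bZ * PowerSeries.invOfUnit bZ 1 = 1 :=
    PowerSeries.mul_invOfUnit bZ 1 (by simpa using constantCoeff_bZ)
  calc yZ q * yZinv q
      = (yZ q * PowerSeries.expand q (NeZero.ne q) bZ) * PowerSeries.invOfUnit bZ 1 := by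
        rw [yZinv]; ring
    _ = 1 := by rw [yZ_mul_expand, h1]

theorem expand_congr_nat {m n : ℕ} (h : m = n) (hm : m ≠ 0) (hn : n ≠ 0) (f : PowerSeries ℤ) :
    PowerSeries.expand m hm f = PowerSeries.expand n hn f := by
  subst h
  rfl

/-- The defining relation of `yZ q` in terms of `E = etaProd` alone:
`y_q · E(x³) E(x^q)³ = E(x)³ E(x^(3q))` (the hypothesis of
`helper4474.ofPS_map_mem_full_of_mul_eq`; it identifies `yZ q` with any other definition of the
same eta quotient, e.g. `helper2008.etaQuotZ [(1,3),(3q,1)] [(3,1),(q,3)]`). -/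
theorem yZ_spec (q : ℕ) [NeZero q] :
    yZ q * (PowerSeries.expand 3 three_ne_zero ModularCurve.etaProd
        * PowerSeries.expand q (NeZero.ne q) ModularCurve.etaProd ^ 3)
      = ModularCurve.etaProd ^ 3 * PowerSeries.expand (3 * q)
          (Nat.mul_ne_zero three_ne_zero (NeZero.ne q)) ModularCurve.etaProd := by
  have hq := NeZero.ne q
  have h1 := congrArg (PowerSeries.expand q hq) bZ_mul
  rw [map_mul, map_pow, ← PowerSeries.expand_mul q hq 3 three_ne_zero,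
    expand_congr_nat (mul_comm q 3) _ (Nat.mul_ne_zero three_ne_zero hq)] at h1
  calc yZ q * (PowerSeries.expand 3 three_ne_zero ModularCurve.etaProd
        * PowerSeries.expand q hq ModularCurve.etaProd ^ 3)
      = (yZ q * PowerSeries.expand q hq bZ)
          * PowerSeries.expand 3 three_ne_zero ModularCurve.etaProd
          * PowerSeries.expand (3 * q) (Nat.mul_ne_zero three_ne_zero hq)
              ModularCurve.etaProd := by
        rw [← h1]; ring
    _ = _ := by rw [yZ_mul_expand, bZ_mul]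

/-! ### The function on the upper half plane -/

/-- `y_q` as a function on the upper half plane. -/
def yH (q : ℕ) (τ : ℍ) : ℂ := yfun q (τ : ℂ)

theorem yH_ne_zero {q : ℕ} (hq : 0 < q) (τ : ℍ) : yH q τ ≠ 0 := yfun_ne_zero hq τ.im_pos

theorem yH_eq_yDisc (q : ℕ) (τ : ℍ) : yH q τ = yDisc q (𝕢 1 (τ : ℂ)) := yfun_eq_yDisc q τ

/-- `y_q` is invariant under `Γ₀(N)` whenever `9 q ∣ N`. -/
theorem yH_smul {q N : ℕ} (hq : 0 < q) (hN : 9 * q ∣ N) (g : SL(2, ℤ))
    (hg : g ∈ CongruenceSubgroup.Gamma0 N) (τ : ℍ) : yH q (g • τ) = yH q τ := by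
  have hc : ((9 * q : ℕ) : ℤ) ∣ g 1 0 := by
    refine dvd_trans ?_ (dvd_of_mem_Gamma0 hg)
    exact_mod_cast hN
  have hg' : g ∈ CongruenceSubgroup.Gamma0 (9 * q) := by
    rw [CongruenceSubgroup.Gamma0_mem]
    exact (ZMod.intCast_zmod_eq_zero_iff_dvd _ _).mpr hc
  exact yfun_smul hq hg' τ

/-- **Atkin–Lehner law on the upper half plane**: for `γ ∈ SL(2, ℤ)` with bottom row `(c, q)`,
`9 ∣ c`, and `σ : ℍ` with `σ = q τ`: `y_q(γ σ) · y_q(τ) = χ₋₃(q) q`. -/
theorem yH_atkinLehner {q : ℕ} (hq : 0 < q) (g : SL(2, ℤ)) (h10 : (9 : ℤ) ∣ g 1 0)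
    (h11 : g 1 1 = (q : ℤ)) (τ σ : ℍ) (hσ : (σ : ℂ) = (q : ℂ) * (τ : ℂ)) :
    yH q (g • σ) * yH q τ = chi3 q * q := by
  obtain ⟨c, hc⟩ := h10
  have hdet := det_eq_one' g
  rw [h11, hc] at hdet
  have h := yfun_atkinLehner hq (g 0 0) (g 0 1) c 1 (by linear_combination hdet) τ.im_pos
  have e : ((g • σ : ℍ) : ℂ)
      = ((q : ℂ) * ((g 0 0 : ℤ) : ℂ) * (τ : ℂ) + ((g 0 1 : ℤ) : ℂ))
          / (9 * (q : ℂ) * (c : ℂ) * (τ : ℂ) + (q : ℂ) * ((1 : ℤ) : ℂ)) := by
    rw [coe_smul_eq, h11, hc, hσ]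
    push_cast
    congr 1 <;> ring
  rw [yH, yH, e]
  exact h

/-! ### `y_q ^ 24` as a quotient of discriminants -/

/-- `y_q ^ 24 = Δ(τ)³ Δ(3qτ) / (Δ(3τ) Δ(qτ)³)`. -/
theorem yH_pow_24 {q : ℕ} (hq : 0 < q) (τ : ℍ) :
    yH q τ ^ 24 = Δ (pt 1 0 1 τ) ^ (3 : ℤ) * Δ (pt 3 0 1 τ) ^ (-1 : ℤ)
      * Δ (pt q 0 1 τ) ^ (-3 : ℤ) * Δ (pt (3 * q) 0 1 τ) ^ (1 : ℤ) := by
  have hx : ‖𝕢 1 (τ : ℂ)‖ < 1 := Fermat.Agent.S36.helper105.norm_qParam_lt_one' τ.im_pos
  have hx0 : 𝕢 1 (τ : ℂ) ≠ 0 := Periodic.qParam_ne_zero _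
  rw [Fermat.Agent.S36.helper105.discriminant_pt one_pos,
    Fermat.Agent.S36.helper105.discriminant_pt (by norm_num : 0 < 3),
    Fermat.Agent.S36.helper105.discriminant_pt hq,
    Fermat.Agent.S36.helper105.discriminant_pt (by omega : 0 < 3 * q), yH_eq_yDisc, yDisc, bDisc,
    bDisc, pow_mul' _ 3 q, pow_one]
  set x : ℂ := 𝕢 1 (τ : ℂ) with hxdef
  have hxq : ‖x ^ q‖ < 1 := norm_pow_lt_one' hx hq.ne'
  have h1 := eulerFun_ne_zero hx
  have h3 := eulerFun_ne_zero (norm_pow_lt_one' hx three_ne_zero)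
  have g1 := eulerFun_ne_zero hxq
  have g3 := eulerFun_ne_zero (norm_pow_lt_one' hxq three_ne_zero)
  have hxq0 : x ^ q ≠ 0 := pow_ne_zero _ hx0
  simp only [zpow_neg, zpow_ofNat]
  field_simp

/-- The exponents of `y_q ^ 24` as a quotient of discriminants. -/
def rNine (q : ℕ) : ℕ → ℤ := fun δ =>
  rSingle 1 3 δ + (rSingle 3 (-1) δ + (rSingle q (-3) δ + rSingle (3 * q) 1 δ))

theorem mem_divisors_of_dvd_nine_mul {d q N : ℕ} (hN0 : N ≠ 0) (hN : 9 * q ∣ N)
    (hd : d ∣ 9 * q) : d ∈ N.divisors :=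
  Nat.mem_divisors.mpr ⟨hd.trans hN, hN0⟩

theorem sum_rNine {q N : ℕ} (hN0 : N ≠ 0) (hN : 9 * q ∣ N) :
    ∑ δ ∈ N.divisors, rNine q δ = 0 := by
  have h := fun d (hd : d ∣ 9 * q) => mem_divisors_of_dvd_nine_mul hN0 hN hd
  simp only [rNine, Finset.sum_add_distrib]
  rw [sum_rSingle (h 1 (one_dvd _)), sum_rSingle (h 3 ⟨3 * q, by ring⟩),
    sum_rSingle (h q ⟨9, by ring⟩), sum_rSingle (h (3 * q) ⟨3, by ring⟩)]
  norm_num

theorem yH_pow_eq_etaQuot {q N : ℕ} (hq : 0 < q) (hN0 : N ≠ 0) (hN : 9 * q ∣ N) (τ : ℍ) :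
    yH q τ ^ 24 = etaQuot N (rNine q) τ := by
  have h := fun d (hd : d ∣ 9 * q) => mem_divisors_of_dvd_nine_mul hN0 hN hd
  rw [yH_pow_24 hq]
  unfold rNine
  rw [etaQuot_add, etaQuot_add, etaQuot_add,
    etaQuot_rSingle (h 1 (one_dvd _)), etaQuot_rSingle (h 3 ⟨3 * q, by ring⟩),
    etaQuot_rSingle (h q ⟨9, by ring⟩), etaQuot_rSingle (h (3 * q) ⟨3, by ring⟩)]
  ring

/-! ### (U1), (U2) -/

section Unit

variable (q N : ℕ) [NeZero q] [NeZero N]

/-- **(U1)** The integer series `y_q = b(x)/b(x^q)` lies in the function field of level `N`,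
`9 q ∣ N`. -/
theorem nineUnit_mem_full (hN : 9 * q ∣ N) : ofZQ (yZ q) ∈ modularFunctionFieldFull N :=
  etaRoot_mem_full N (fun γ hγ τ => yH_smul (Nat.pos_of_ne_zero (NeZero.ne q)) hN γ hγ τ)
    (k := 24) (by norm_num) (rNine q) (sum_rNine (NeZero.ne N) hN)
    (fun τ => yH_pow_eq_etaQuot (Nat.pos_of_ne_zero (NeZero.ne q)) (NeZero.ne N) hN τ)
    (yZ q) (psConv_yDisc_int q) (yH_eq_yDisc q)

theorem nineUnit_inv_mem_full (hN : 9 * q ∣ N) : ofZQ (yZinv q) ∈ modularFunctionFieldFull N :=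
  (etaRoot_inv N (fun γ hγ τ => yH_smul (Nat.pos_of_ne_zero (NeZero.ne q)) hN γ hγ τ)
    (k := 24) (by norm_num) (rNine q) (sum_rNine (NeZero.ne N) hN)
    (fun τ => yH_pow_eq_etaQuot (Nat.pos_of_ne_zero (NeZero.ne q)) (NeZero.ne N) hN τ)
    (yZ q) (psConv_yDisc_int q) (yH_eq_yDisc q) (yZinv q) (yZ_mul_yZinv q)).1

/-- The level-9 unit as an element of the function field of level `N` over `ℚ̄`. -/
def nineUnit (hN : 9 * q ∣ N) : FN N :=
  ⟨coeffEmb Kbar (ofZQ (yZ q)), coeffEmb_ofZQ_mem_bar (nineUnit_mem_full q N hN)⟩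

theorem coe_nineUnit (hN : 9 * q ∣ N) :
    ((nineUnit q N hN : FN N) : LaurentSeries Kbar) = coeffEmb Kbar (ofZQ (yZ q)) := rfl

/-- The inverse of the level-9 unit as an element of the function field of level `N`. -/
def nineUnitInv (hN : 9 * q ∣ N) : FN N :=
  ⟨coeffEmb Kbar (ofZQ (yZinv q)), coeffEmb_ofZQ_mem_bar (nineUnit_inv_mem_full q N hN)⟩

theorem coe_nineUnitInv (hN : 9 * q ∣ N) :
    ((nineUnitInv q N hN : FN N) : LaurentSeries Kbar) = coeffEmb Kbar (ofZQ (yZinv q)) := rfl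

end Unit

section Integral

variable (q : ℕ) [NeZero q]

/-- **(U2)** `y_q` is integral over `ℚ[j]`. -/
theorem nineUnit_isIntegral : IsIntegral (Algebra.adjoin ℚ {jq}) (ofZQ (yZ q)) :=
  haveI : NeZero (9 * q) := ⟨Nat.mul_ne_zero (by norm_num) (NeZero.ne q)⟩
  etaRoot_isIntegral (9 * q)
    (fun γ hγ τ => yH_smul (Nat.pos_of_ne_zero (NeZero.ne q)) dvd_rfl γ hγ τ)
    (k := 24) (by norm_num) (rNine q) (sum_rNine (NeZero.ne (9 * q)) dvd_rfl)
    (fun τ => yH_pow_eq_etaQuot (Nat.pos_of_ne_zero (NeZero.ne q)) (NeZero.ne (9 * q)) dvd_rfl τ)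
    (yZ q) (psConv_yDisc_int q) (yH_eq_yDisc q)

/-- **(U2)** `1 / y_q` is integral over `ℚ[j]`. -/
theorem nineUnit_inv_isIntegral : IsIntegral (Algebra.adjoin ℚ {jq}) (ofZQ (yZinv q)) :=
  haveI : NeZero (9 * q) := ⟨Nat.mul_ne_zero (by norm_num) (NeZero.ne q)⟩
  (etaRoot_inv (9 * q)
    (fun γ hγ τ => yH_smul (Nat.pos_of_ne_zero (NeZero.ne q)) dvd_rfl γ hγ τ)
    (k := 24) (by norm_num) (rNine q) (sum_rNine (NeZero.ne (9 * q)) dvd_rfl)
    (fun τ => yH_pow_eq_etaQuot (Nat.pos_of_ne_zero (NeZero.ne q)) (NeZero.ne (9 * q)) dvd_rfl τ)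
    (yZ q) (psConv_yDisc_int q) (yH_eq_yDisc q) (yZinv q) (yZ_mul_yZinv q)).2

end Integral

/-! ### (U3) -/

/-- The character `χ₋₃` with integer values. -/
def chi3Z (d : ℤ) : ℤ := if d % 3 = 1 then 1 else -1

theorem chi3_eq_cast (d : ℤ) : chi3 d = ((chi3Z d : ℤ) : ℂ) := by
  unfold chi3 chi3Z
  split_ifs <;> simp

theorem chi3Z_sq (d : ℤ) : chi3Z d * chi3Z d = 1 := by
  unfold chi3Z
  split_ifs <;> norm_num

theorem nine_mul_dvd_of_dvd {q M : ℕ} (h9 : 9 ∣ M) : 9 * q ∣ q * M := by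
  rw [mul_comm 9 q]
  exact Nat.mul_dvd_mul_left q h9

/-- The `q`-expansion of the level-9 unit, with complex coefficients. -/
theorem formalC_nineUnit (q N : ℕ) [NeZero q] [NeZero N] (hN : 9 * q ∣ N) :
    formalC N (nineUnit q N hN)
      = HahnSeries.ofPowerSeries ℤ ℂ ((yZ q).map (Int.castRingHom ℂ)) := by
  rw [formalC_apply, coe_nineUnit, coeffMap_kappa_coeffEmb, coeffEmb, ofZQ,
    ModularCurve.coeffMap_ofPowerSeries, map_map_intCast]

/-- **(U3)** The Atkin–Lehner involution `W_q` at level `q M` (`gcd(q, M) = 1`, `9 ∣ M`) sends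
the level-9 unit `y_q` to `χ₋₃(q) q / y_q`. -/
theorem nineUnit_atkinLehner (q M : ℕ) [NeZero q] [NeZero M] (h : Nat.Coprime q M)
    (h9 : 9 ∣ M) :
    atkinLehnerBar q M h (nineUnit q (q * M) (nine_mul_dvd_of_dvd h9))
        * nineUnit q (q * M) (nine_mul_dvd_of_dvd h9)
      = algebraMap Kbar (FN (q * M)) (((chi3Z q : ℤ) : Kbar) * (q : Kbar)) := by
  have hq : 0 < q := Nat.pos_of_ne_zero (NeZero.ne q)
  obtain ⟨hc, hqe⟩ := isCuspHol_of_psConv (psConv_yDisc_int q) (yH_eq_yDisc q)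
  refine atkinLehnerBar_mul_of_analytic q M h _ (yH q) hc ?_ _ ?_
  · rw [hqe, formalC_nineUnit]
  · intro τ
    have h10 : (9 : ℤ) ∣ alGamma q M h 1 0 := by
      rw [alGamma_one_zero]
      exact_mod_cast h9
    have hσ : ((hpt q 0 1 τ : ℍ) : ℂ) = (q : ℂ) * (τ : ℂ) := by
      rw [coe_hpt]
      simp
    rw [yH_atkinLehner hq (alGamma q M h) h10 (alGamma_one_one q M h) τ (hpt q 0 1 τ) hσ,
      chi3_eq_cast, map_mul, map_intCast, map_natCast]

/-- `W_q(y_q) = χ₋₃(q) q / y_q`. -/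
theorem nineUnit_atkinLehner' (q M : ℕ) [NeZero q] [NeZero M] (h : Nat.Coprime q M)
    (h9 : 9 ∣ M) :
    atkinLehnerBar q M h (nineUnit q (q * M) (nine_mul_dvd_of_dvd h9))
      = algebraMap Kbar (FN (q * M)) (((chi3Z q : ℤ) : Kbar) * (q : Kbar))
        * (nineUnit q (q * M) (nine_mul_dvd_of_dvd h9))⁻¹ := by
  have hne : nineUnit q (q * M) (nine_mul_dvd_of_dvd h9) ≠ 0 := by
    intro h0
    have h1 := nineUnit_atkinLehner q M h h9
    rw [h0, mul_zero] at h1
    have h2 : (((chi3Z q : ℤ) : Kbar) * (q : Kbar)) = 0 := by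
      have := h1.symm
      rwa [map_eq_zero] at this
    rcases mul_eq_zero.mp h2 with h3 | h3
    · have h5 : (chi3Z q : ℤ) = 0 := by exact_mod_cast h3
      have h6 := chi3Z_sq q
      rw [h5, mul_zero] at h6
      exact zero_ne_one h6
    · exact NeZero.ne q (by exact_mod_cast h3)
  rw [← nineUnit_atkinLehner q M h h9, mul_assoc, mul_inv_cancel₀ hne, mul_one]

/-- The value at the prime `2`: `W_2(y_2) · y_2 = -2`. -/
theorem chi3Z_two : chi3Z 2 = -1 := by
  unfold chi3Z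
  norm_num

end

end Fermat.Agent.S36.helper4474
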