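import Fermat.Agent.S36.helper405_KillTerms
import Fermat.Agent.S36.helper7249_ThetaQ2
import Fermat.Agent.S37.helper9536_Haupt49Inst

/-!
# S36 (KILL-INST, block UNIF): the field `x_V` of `helper405.KillInput` (helper530)

On the concrete terms of `helper405_KillTerms`: the base line `xK` (`t₄` for `q ≠ 2`, `t₉` for
`q = 2`) is a unit at the three vertical valuations `Vinf`, `Vmid`, `Vzero` of level `M₁ * q`
(and `xK'` is a unit at `Vinf'`, `Vzero'` of level `M₁`).

* `baseSer R q`            : the series `t9C R` (`q = 2`) resp. `t4C R` (`q ≠ 2`);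
* `coe_baseLine`           : the series of `helper405.baseLine K M q _ _` is `baseSer K q`;
* `coe_lh_xK`, `coe_lh_xK'` : the series of `lh xK`, `lh xK'` is `baseSer ℚ̄ q`;
* `baseSer_mem_gaussRing`, `baseSer_inv_mem_gaussRing` : Gauss unit, for every `(L, A, π)`;
* `Wsq_lh_xK`              : `W_{q²} (lh xK) = V_{q²} τ`, `τ` the base line at level `M₁ / q`;
* `Wq_lh_xK'`              : `W_q (lh xK')` has series `qExpand q (baseSer ℚ̄ q)`;
* `midEmb_lh_xK`           : the mid-cusp expansion of `lh xK` is `baseSer ℚ̄ q`;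
* `x_V_modular`            : the field `x_V`, verbatim;
* `x'_V_modular`           : the level-`M₁` twin.
-/

set_option autoImplicit false
set_option linter.unusedSectionVars false

noncomputable section

namespace Fermat.Agent.S36.helper530

open ModularCurve
open Fermat.Agent.S24.helper24 (Kbar FN)
open Fermat.Agent.S36.helper405
open Fermat.Agent.S36.helper1335 (AuxOK)
open Fermat.Agent.S18.helper8991 (gaussF gaussRing inc red)
open Fermat.Agent.Lib.helper3874 (t4C t9C)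

/-! ## The base-line series -/

section BaseSer

/-- The series of the base line: `t₉` for `q = 2`, `t₄` otherwise. -/
def baseSer (R : Type*) [CommRing R] (q : ℕ) : LaurentSeries R := by
  classical
  exact if q = 2 then t9C R else t4C R

theorem baseSer_of_eq (R : Type*) [CommRing R] {q : ℕ} (h : q = 2) : baseSer R q = t9C R := by
  unfold baseSer
  exact if_pos h

theorem baseSer_of_ne (R : Type*) [CommRing R] {q : ℕ} (h : q ≠ 2) : baseSer R q = t4C R := by
  unfold baseSer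
  exact if_neg h

theorem coeffMap_baseSer {R S : Type*} [CommRing R] [CommRing S] (f : R →+* S) (q : ℕ) :
    coeffMap f (baseSer R q) = baseSer S q := by
  by_cases h : q = 2
  · rw [baseSer_of_eq R h, baseSer_of_eq S h]
    exact Fermat.Agent.Lib.helper3874.coeffMap_t9C f
  · rw [baseSer_of_ne R h, baseSer_of_ne S h]
    exact Fermat.Agent.Lib.helper3874.coeffMap_t4C f

theorem baseSer_ne_zero (K : Type*) [Field K] (q : ℕ) : baseSer K q ≠ 0 := by
  by_cases h : q = 2
  · rw [baseSer_of_eq K h]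
    exact Fermat.Agent.Lib.helper3874.t9C_ne_zero K
  · rw [baseSer_of_ne K h]
    exact Fermat.Agent.Lib.helper3874.t4C_ne_zero K

/-- The series of `helper405.baseLine`. -/
theorem coe_baseLine (K : Type) [Field K] [Algebra ℚ K] (M : ℕ) [NeZero M] (q : ℕ)
    (h4 : q ≠ 2 → 4 ∣ M) (h9 : q = 2 → 9 ∣ M) :
    ((baseLine K M q h4 h9 : ↥(laurentBaseChange K (modularFunctionFieldFull M))) :
      LaurentSeries K) = baseSer K q := by
  by_cases h : q = 2
  · rw [baseLine_of_eq K M q h4 h9 h, baseSer_of_eq K h]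
    rfl
  · rw [baseLine_of_ne K M q h4 h9 h, baseSer_of_ne K h]
    rfl

/-- The base line over `ℚ̄` at any level `M` with `4 ∣ M` (`q ≠ 2`) resp. `9 ∣ M` (`q = 2`). -/
def baseBar (M : ℕ) [NeZero M] (q : ℕ) (h4 : q ≠ 2 → 4 ∣ M) (h9 : q = 2 → 9 ∣ M) : FN M := by
  classical
  exact if h : q = 2 then Fermat.Agent.S37.helper9536.t9Bar M (h9 h)
    else Fermat.Agent.S37.helper9536.t4Bar M (h4 h)

theorem coe_baseBar (M : ℕ) [NeZero M] (q : ℕ) (h4 : q ≠ 2 → 4 ∣ M) (h9 : q = 2 → 9 ∣ M) :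
    ((baseBar M q h4 h9 : FN M) : LaurentSeries Kbar) = baseSer Kbar q := by
  by_cases h : q = 2
  · rw [baseSer_of_eq Kbar h]
    unfold baseBar
    rw [dif_pos h]
    exact Fermat.Agent.S37.helper9536.coe_t9Bar M (h9 h)
  · rw [baseSer_of_ne Kbar h]
    unfold baseBar
    rw [dif_neg h]
    exact Fermat.Agent.S37.helper9536.coe_t4Bar M (h4 h)

/-- The base-line series lies in the function field of every admissible level. -/
theorem baseSer_mem_bar (M : ℕ) [NeZero M] (q : ℕ) (h4 : q ≠ 2 → 4 ∣ M) (h9 : q = 2 → 9 ∣ M) :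
    baseSer Kbar q ∈ modularFunctionFieldBar M := by
  rw [← coe_baseBar M q h4 h9]
  exact (baseBar M q h4 h9).2

end BaseSer

/-! ## Gauss units -/

section Gauss

variable {L : Type*} [Field L] (A : ValuationSubring L) {k : Type*} [Field k] (π : A →+* k)

/-- The base-line series lies in every Gauss ring. -/
theorem baseSer_mem_gaussRing (q : ℕ) : baseSer L q ∈ gaussRing A π := by
  have h := Fermat.Agent.S18.helper8991.inc_mem_gaussRing A π (baseSer A q)
  rw [coeffMap_baseSer] at h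
  exact h

/-- The inverse of the base-line series lies in every Gauss ring. -/
theorem baseSer_inv_mem_gaussRing (q : ℕ) : (baseSer L q)⁻¹ ∈ gaussRing A π := by
  refine ⟨1, baseSer A q, ?_, ?_⟩
  · rw [coeffMap_baseSer]
    exact baseSer_ne_zero k q
  · rw [coeffMap_baseSer, map_one, inv_mul_cancel₀ (baseSer_ne_zero L q)]

/-- `qExpand n` of the base-line series lies in every Gauss ring. -/
theorem qExpand_baseSer_mem_gaussRing (n : ℕ) [NeZero n] (q : ℕ) :
    qExpand L n (baseSer L q) ∈ gaussRing A π :=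
  Fermat.Agent.S36.helper508.mem_gaussRing_qExpand A π n (baseSer_mem_gaussRing A π q)

/-- The inverse of `qExpand n` of the base-line series lies in every Gauss ring. -/
theorem qExpand_baseSer_inv_mem_gaussRing (n : ℕ) [NeZero n] (q : ℕ) :
    (qExpand L n (baseSer L q))⁻¹ ∈ gaussRing A π := by
  rw [← map_inv₀]
  exact Fermat.Agent.S36.helper508.mem_gaussRing_qExpand A π n (baseSer_inv_mem_gaussRing A π q)

end Gauss

/-! ## The base line on the concrete terms -/

section Terms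

variable (A : ValuationSubring (AlgebraicClosure ℚ)) (M₁ q : ℕ) [NeZero M₁] [NeZero q]

theorem coe_lh (N : ℕ) [NeZero N] (f : FK A N) :
    ((lh A N f : FN N) : LaurentSeries Kbar)
      = coeffMap (algebraMap (KI A) (AlgebraicClosure ℚ)) (f : LaurentSeries (KI A)) :=
  Fermat.Agent.S37.helper5651.coe_layerHom (modularFunctionFieldFull N)
    (algebraMap (KI A) (AlgebraicClosure ℚ)) f

/-- The series of `lh xK` is the base-line series. -/
theorem coe_lh_xK (haux : AuxOK M₁ q) :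
    ((lh A (M₁ * q) (xK A M₁ q haux) : FN (M₁ * q)) : LaurentSeries Kbar) = baseSer Kbar q := by
  rw [coe_lh]
  unfold xK
  rw [coe_baseLine, coeffMap_baseSer]

/-- The series of `lh xK'` is the base-line series. -/
theorem coe_lh_xK' (haux : AuxOK M₁ q) :
    ((lh A M₁ (xK' A M₁ q haux) : FN M₁) : LaurentSeries Kbar) = baseSer Kbar q := by
  rw [coe_lh]
  unfold xK'
  rw [coe_baseLine, coeffMap_baseSer]

/-- `lh xK'` is the base line over `ℚ̄`. -/
theorem lh_xK' (haux : AuxOK M₁ q) :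
    lh A M₁ (xK' A M₁ q haux) = baseBar M₁ q haux.1 haux.2 :=
  Subtype.ext ((coe_lh_xK' A M₁ q haux).trans (coe_baseBar M₁ q haux.1 haux.2).symm)

/-- `α x' = x`. -/
theorem αK_xK' (haux : AuxOK M₁ q) : αK A M₁ q (xK' A M₁ q haux) = xK A M₁ q haux := by
  apply Subtype.ext
  rw [coe_heckeAlphaBar]
  unfold xK xK'
  rw [coe_baseLine, coe_baseLine]

end Terms

/-! ## Arithmetic of the auxiliary level -/

section Level

variable {M₁ q : ℕ}

theorem four_dvd_div (hq : q.Prime) (hqM : q ∣ M₁) (h : q ≠ 2) (h4 : 4 ∣ M₁) : 4 ∣ M₁ / q := by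
  obtain ⟨m, rfl⟩ := hqM
  rw [Nat.mul_div_cancel_left m hq.pos]
  have hc : Nat.Coprime 4 q := by
    have h2 : Nat.Coprime 2 q := (Nat.coprime_primes Nat.prime_two hq).mpr (Ne.symm h)
    exact Nat.Coprime.pow_left 2 h2
  exact hc.dvd_of_dvd_mul_left h4

theorem nine_dvd_div (hq : q.Prime) (hqM : q ∣ M₁) (h : q = 2) (h9 : 9 ∣ M₁) : 9 ∣ M₁ / q := by
  obtain ⟨m, rfl⟩ := hqM
  rw [Nat.mul_div_cancel_left m hq.pos]
  have hc : Nat.Coprime 9 q := by
    rw [h]
    decide
  exact hc.dvd_of_dvd_mul_left h9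

theorem mul_div_self (hqM : q ∣ M₁) : q * (M₁ / q) = M₁ := Nat.mul_div_cancel' hqM

end Level

/-! ## The three valuations of level `M₁ * q` -/

section XV

variable (A : ValuationSubring (AlgebraicClosure ℚ)) (M₁ q : ℕ) [NeZero M₁] [NeZero q]

theorem coe_inv_FN (N : ℕ) (y : FN N) :
    ((y⁻¹ : FN N) : LaurentSeries Kbar) = (y : LaurentSeries Kbar)⁻¹ := rfl

/-- The base line is a unit at `v_∞` (any level, any element with the base-line series). -/
theorem unit_gaussF_of_coe (N : ℕ) [NeZero N] (y : FN N)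
    (hy : (y : LaurentSeries Kbar) = baseSer Kbar q) :
    y ∈ gaussF A (IsLocalRing.residue A) N ∧ y⁻¹ ∈ gaussF A (IsLocalRing.residue A) N := by
  constructor
  · show (y : LaurentSeries Kbar) ∈ gaussRing A (IsLocalRing.residue A)
    rw [hy]
    exact baseSer_mem_gaussRing A _ q
  · show ((y⁻¹ : FN N) : LaurentSeries Kbar) ∈ gaussRing A (IsLocalRing.residue A)
    rw [coe_inv_FN, hy]
    exact baseSer_inv_mem_gaussRing A _ q

/-- An element whose series is `qExpand n` of the base-line series is a unit at `v_∞`. -/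
theorem unit_gaussF_of_coe_qExpand (N : ℕ) [NeZero N] (n : ℕ) [NeZero n] (y : FN N)
    (hy : (y : LaurentSeries Kbar) = qExpand Kbar n (baseSer Kbar q)) :
    y ∈ gaussF A (IsLocalRing.residue A) N ∧ y⁻¹ ∈ gaussF A (IsLocalRing.residue A) N := by
  constructor
  · show (y : LaurentSeries Kbar) ∈ gaussRing A (IsLocalRing.residue A)
    rw [hy]
    exact qExpand_baseSer_mem_gaussRing A _ n q
  · show ((y⁻¹ : FN N) : LaurentSeries Kbar) ∈ gaussRing A (IsLocalRing.residue A)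
    rw [coe_inv_FN, hy]
    exact qExpand_baseSer_inv_mem_gaussRing A _ n q

/-- `x` is a unit at `v_∞`. -/
theorem xK_unit_Vinf (haux : AuxOK M₁ q) :
    xK A M₁ q haux ∈ Vinf A M₁ q ∧ (xK A M₁ q haux)⁻¹ ∈ Vinf A M₁ q := by
  unfold Vinf
  rw [mem_VinfAt, mem_VinfAt, map_inv₀]
  exact unit_gaussF_of_coe A q (M₁ * q) _ (coe_lh_xK A M₁ q haux)

/-- `x'` is a unit at `v'_∞`. -/
theorem xK'_unit_Vinf' (haux : AuxOK M₁ q) :
    xK' A M₁ q haux ∈ Vinf' A M₁ ∧ (xK' A M₁ q haux)⁻¹ ∈ Vinf' A M₁ := by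
  unfold Vinf'
  rw [mem_VinfAt, mem_VinfAt, map_inv₀]
  exact unit_gaussF_of_coe A q M₁ _ (coe_lh_xK' A M₁ q haux)

variable (hq : q.Prime) (hqM : q ∣ M₁) (hq2 : ¬ q ^ 2 ∣ M₁)

/-- The base line over `ℚ̄` at level `M₁ / q`. -/
def baseDiv (haux : AuxOK M₁ q) :
    @FN (M₁ / q) :=
  @baseBar (M₁ / q) (neZero_div hqM) q (fun h => four_dvd_div hq hqM h (haux.1 h))
    (fun h => nine_dvd_div hq hqM h (haux.2 h))

theorem coe_baseDiv (haux : AuxOK M₁ q) :
    ((baseDiv M₁ q hq hqM haux : FN (M₁ / q)) : LaurentSeries Kbar) = baseSer Kbar q :=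
  @coe_baseBar (M₁ / q) (neZero_div hqM) q _ _

/-- **`W_{q²} (lh x)` has series `t(x^{q²})`.** -/
theorem coe_Wsq_lh_xK (haux : AuxOK M₁ q) :
    ((Wsq M₁ q hq hqM hq2 (lh A (M₁ * q) (xK A M₁ q haux)) : FN (M₁ * q)) : LaurentSeries Kbar)
      = qExpand Kbar (q ^ 2) (baseSer Kbar q) := by
  have : Fact q.Prime := ⟨hq⟩
  have : NeZero (M₁ / q) := neZero_div hqM
  have hN : M₁ * q = q ^ 2 * (M₁ / q) := level_eq hqM
  have e : lh A (M₁ * q) (xK A M₁ q haux)
      = Fermat.Agent.S36.helper987.inclHom (Fermat.Agent.S36.helper7249.dvd_level hN)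
          (baseDiv M₁ q hq hqM haux) := by
    apply Subtype.ext
    rw [coe_lh_xK, Fermat.Agent.S36.helper987.coe_inclHom, coe_baseDiv]
  have hW := Fermat.Agent.S36.helper7249.hall_incl_level hN (coprime_level hq hqM hq2)
    (sq_dvd_level hqM) (coprime_sq_level hq hqM hq2) (baseDiv M₁ q hq hqM haux)
  unfold Wsq
  rw [e, hW, Fermat.Agent.S36.helper987.coe_vHom, coe_baseDiv]

/-- `x` is a unit at `v_0`. -/
theorem xK_unit_Vzero (haux : AuxOK M₁ q) :
    xK A M₁ q haux ∈ Vzero A M₁ q hq hqM hq2 ∧ (xK A M₁ q haux)⁻¹ ∈ Vzero A M₁ q hq hqM hq2 := by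
  have : NeZero (q ^ 2) := ⟨pow_ne_zero 2 hq.ne_zero⟩
  rw [mem_Vzero, mem_Vzero, map_inv₀, map_inv₀]
  exact unit_gaussF_of_coe_qExpand A q (M₁ * q) (q ^ 2) _ (coe_Wsq_lh_xK A M₁ q hq hqM hq2 haux)

/-- **The mid-cusp expansion of `lh x` is the base-line series.** -/
theorem midEmb_lh_xK (haux : AuxOK M₁ q) (ζ : Kbarˣ) (hζ : IsPrimitiveRoot (ζ : Kbar) q) :
    midEmb M₁ q hq hqM hq2 ζ hζ (lh A (M₁ * q) (xK A M₁ q haux)) = baseSer Kbar q := by
  have : Fact q.Prime := ⟨hq⟩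
  have : NeZero (M₁ / q) := neZero_div hqM
  have : NeZero (q * (M₁ / q)) := ⟨by rw [mul_div_self hqM]; exact NeZero.ne M₁⟩
  have hmem : ((lh A (M₁ * q) (xK A M₁ q haux) : FN (M₁ * q)) : LaurentSeries Kbar)
      ∈ modularFunctionFieldBar (q * (M₁ / q)) := by
    rw [coe_lh_xK]
    exact baseSer_mem_bar (q * (M₁ / q)) q
      (fun h => by rw [mul_div_self hqM]; exact haux.1 h)
      (fun h => by rw [mul_div_self hqM]; exact haux.2 h)
  have h := Fermat.Agent.S36.helper987.midExp_of_mem (not_dvd_div hq hqM hq2) (level_eq hqM) ζ hζ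
    (lh A (M₁ * q) (xK A M₁ q haux)) hmem
  rw [coe_lh_xK] at h
  exact h

/-- `x` is a unit at `v_mid` (for every primitive `q`-th root of unity). -/
theorem xK_unit_VmidOf (haux : AuxOK M₁ q) (ζ : Kbarˣ) (hζ : IsPrimitiveRoot (ζ : Kbar) q) :
    xK A M₁ q haux ∈ VmidOf A M₁ q hq hqM hq2 ζ hζ ∧
      (xK A M₁ q haux)⁻¹ ∈ VmidOf A M₁ q hq hqM hq2 ζ hζ := by
  rw [mem_VmidOf, mem_VmidOf, map_inv₀, map_inv₀, midEmb_lh_xK]
  exact ⟨baseSer_mem_gaussRing A _ q, baseSer_inv_mem_gaussRing A _ q⟩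

/-- `x` is a unit at `v_mid`. -/
theorem xK_unit_Vmid (haux : AuxOK M₁ q) :
    xK A M₁ q haux ∈ Vmid A M₁ q hq hqM hq2 ∧ (xK A M₁ q haux)⁻¹ ∈ Vmid A M₁ q hq hqM hq2 :=
  xK_unit_VmidOf A M₁ q hq hqM hq2 haux _ _

/-- **`W_q (lh x')` has series `t(x^q)`.** -/
theorem coe_Wq_lh_xK' (haux : AuxOK M₁ q) :
    ((Wq M₁ q hq hqM hq2 (lh A M₁ (xK' A M₁ q haux)) : FN M₁) : LaurentSeries Kbar)
      = qExpand Kbar q (baseSer Kbar q) := by
  have hN2 : NeZero (q ^ 2) := ⟨pow_ne_zero 2 hq.ne_zero⟩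
  have hqq : NeZero (q * q) := ⟨Nat.mul_ne_zero hq.ne_zero hq.ne_zero⟩
  have hα : heckeAlphaBar Kbar M₁ q (lh A M₁ (xK' A M₁ q haux))
      = lh A (M₁ * q) (xK A M₁ q haux) := by
    apply Subtype.ext
    rw [coe_heckeAlphaBar, coe_lh_xK', coe_lh_xK]
  have hW := Fermat.Agent.S35.helper1219.atkinLehnerHall_mul_heckeAlphaBar M₁ q hqM
    (coprime_level hq hqM hq2) q (coprime_level hq hqM hq2) (sq_dvd_level hqM)
    (coprime_sq_level hq hqM hq2) (lh A M₁ (xK' A M₁ q haux))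
  have h1 := coe_Wsq_lh_xK A M₁ q hq hqM hq2 haux
  unfold Wsq at h1
  rw [← hα, hW, coe_heckeBetaBar] at h1
  unfold Wq
  apply qExpand_injective (R := Kbar) (N := q)
  rw [h1, qExpand_qExpand]
  exact qExpand_congr (sq q) _

/-- `x'` is a unit at `v'_0`. -/
theorem xK'_unit_Vzero' (haux : AuxOK M₁ q) :
    xK' A M₁ q haux ∈ Vzero' A M₁ q hq hqM hq2 ∧
      (xK' A M₁ q haux)⁻¹ ∈ Vzero' A M₁ q hq hqM hq2 := by
  rw [mem_Vzero', mem_Vzero', map_inv₀, map_inv₀]
  exact unit_gaussF_of_coe_qExpand A q M₁ q _ (coe_Wq_lh_xK' A M₁ q hq hqM hq2 haux)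

/-- **The field `x_V` of `helper405.KillInput`, verbatim**: the base line is a unit at the three
vertical valuations. -/
theorem x_V_modular (haux : AuxOK M₁ q) :
    ∀ c : Fin 3, xK A M₁ q haux ∈ VK A M₁ q hq hqM hq2 c ∧
      (xK A M₁ q haux)⁻¹ ∈ VK A M₁ q hq hqM hq2 c := by
  intro c
  fin_cases c
  · exact xK_unit_Vinf A M₁ q haux
  · exact xK_unit_Vmid A M₁ q hq hqM hq2 haux
  · exact xK_unit_Vzero A M₁ q hq hqM hq2 haux

/-- The level-`M₁` twin of `x_V`: `x'` is a unit at the two vertical valuations of `F'`. -/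
theorem x'_V_modular (haux : AuxOK M₁ q) :
    ∀ c : Fin 2, xK' A M₁ q haux ∈ VK' A M₁ q hq hqM hq2 c ∧
      (xK' A M₁ q haux)⁻¹ ∈ VK' A M₁ q hq hqM hq2 c := by
  intro c
  fin_cases c
  · exact xK'_unit_Vinf' A M₁ q haux
  · exact xK'_unit_Vzero' A M₁ q hq hqM hq2 haux

/-- Machine check: `x_V_modular` has the type of the field `x_V`. -/
theorem x_V_field (haux : AuxOK M₁ q) (h : KillInput A M₁ q hq hqM hq2 haux) :
    h.x_V = x_V_modular A M₁ q hq hqM hq2 haux := rfl

end XV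

end Fermat.Agent.S36.helper530
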