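/-
S36 (KILL-INST, block LP, registry items `loc_inf`, `loc_zero`; helper4551): **(LOC) on the
concrete terms of `helper405_KillTerms`** — the vertical valuation rings `v_∞`, `v_0` of level
`M₁ * q` (and `v'_∞`, `v'_0` of level `M₁`) are the local rings of the two charts of the base
line at their centres.

* `isGaussExt_xK_Vinf`, `isGaussExt_xK_Vzero`, `isGaussExt_xK'_Vinf'`, `isGaussExt_xK'_Vzero'` :
  the four rings are Gauss extensions (`helper4551.IsGaussExt`) for the base line over `OI A`;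
* `loc_inf`, `loc_zero` : the registry items, verbatim;
* `loc_inf'`, `loc_zero'`, `loc'` : the level-`M₁` twins (the shape of `hloc'`).
-/
import Mathlib
import Fermat.Agent.S36.helper4551_ChartGaussInst
import Fermat.Agent.S36.helper530_InstXV
import Fermat.Agent.S36.helper225_BaseDVR

set_option autoImplicit false
set_option linter.unusedSectionVars false
set_option linter.unusedVariables false

noncomputable section

namespace Fermat.Agent.S36.helper4551

open ModularCurve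
open Fermat.Agent.S24.helper24 (Kbar FN)
open Fermat.Agent.S36.helper405
open Fermat.Agent.S36.helper1335 (AuxOK)
open Fermat.Agent.S18.helper8991 (gaussF)
open Fermat.Agent.S36.helper530 (baseSer baseSer_of_eq baseSer_of_ne coeffMap_baseSer coe_lh
  coe_lh_xK coe_lh_xK' coe_Wsq_lh_xK coe_Wq_lh_xK')

/-! ### The base-line series -/

/-- The base-line series is transcendental over every field. -/
theorem transcendental_baseSer (k : Type*) [Field k] (q : ℕ) : Transcendental k (baseSer k q) := by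
  by_cases h : q = 2
  · rw [baseSer_of_eq k h]
    exact Fermat.Agent.Lib.helper3874.transcendental_t9C k
  · rw [baseSer_of_ne k h]
    exact Fermat.Agent.Lib.helper3874.transcendental_t4C k

theorem transcendental_coeffMap_baseSer (k : Type*) [Field k] (q : ℕ) :
    Transcendental k (coeffMap (Int.castRingHom k) (baseSer ℤ q)) := by
  rw [coeffMap_baseSer]
  exact transcendental_baseSer k q

theorem transcendental_coeffMap_qExpand_baseSer (k : Type*) [Field k] (q d : ℕ) [NeZero d] :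
    Transcendental k (coeffMap (Int.castRingHom k) (qExpand ℤ d (baseSer ℤ q))) := by
  rw [coeffMap_qExpand, coeffMap_baseSer]
  exact transcendental_qExpand d (transcendental_baseSer k q)

/-! ### The base `O = A ∩ ℚ̄^I` -/

/-- Shortcut instance (the term found by instance search for `Algebra ↥(OI A) (FK A N)`; the
search itself exceeds the default budget on these terms). -/
instance instAlgebraOIFK (A : ValuationSubring (AlgebraicClosure ℚ)) (N : ℕ) :
    Algebra ↥(OI A) (FK A N) :=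
  Algebra.ofSubsemiring (OI A)

section Base

variable (A : ValuationSubring (AlgebraicClosure ℚ))

theorem residue_eq_zero_iff_mem_nonunits (a : A) :
    IsLocalRing.residue A a = 0 ↔ ((a : A) : AlgebraicClosure ℚ) ∈ A.nonunits := by
  rw [IsLocalRing.residue_eq_zero_iff]
  constructor
  · intro h
    exact ValuationSubring.mem_nonunits_iff_exists_mem_maximalIdeal.mpr ⟨a.2, h⟩
  · intro h
    obtain ⟨h', hh⟩ := ValuationSubring.mem_nonunits_iff_exists_mem_maximalIdeal.mp h
    exact hh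

end Base

/-! ### The four Gauss extensions -/

section Gauss

variable (A : ValuationSubring (AlgebraicClosure ℚ)) (M₁ q : ℕ) [NeZero M₁] [NeZero q]

/-- `v_∞` at any level `N` is a Gauss extension for every `x` whose base change has the
base-line series. -/
theorem isGaussExt_VinfAt (hq : q.Prime) (hA : A.LiesOverPrime q) (N : ℕ) [NeZero N]
    (x : FK A N)
    (hx : ((lh A N x : FN N) : LaurentSeries Kbar) = baseSer Kbar q) :
    IsGaussExt (OI A) x ((q : ℕ) : OI A) (VinfAt A N) := by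
  obtain ⟨-, hq_ne, hq_mem, hunif, -, -⟩ := Fermat.Agent.S36.helper225.baseDVR_facts A hq hA
  exact isGaussExt_comap_gaussF A (IsLocalRing.residue A) N (OI A)
    (algebraMap (KI A) (AlgebraicClosure ℚ)) (fun _ => Iff.rfl)
    (residue_eq_zero_iff_mem_nonunits A) q hq_ne hq_mem hunif (lh A N)
    (lh_algebraMap A N) x (baseSer ℤ q)
    (by rw [hx, coeffMap_baseSer]) (transcendental_coeffMap_baseSer _ q)

/-- `v_∞` is a Gauss extension for the base line `x`. -/
theorem isGaussExt_xK_Vinf (hq : q.Prime) (haux : AuxOK M₁ q) (hA : A.LiesOverPrime q) :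
    IsGaussExt (OI A) (xK A M₁ q haux) ((q : ℕ) : OI A) (Vinf A M₁ q) :=
  isGaussExt_VinfAt A q hq hA (M₁ * q) _ (coe_lh_xK A M₁ q haux)

/-- `v'_∞` is a Gauss extension for the base line `x'`. -/
theorem isGaussExt_xK'_Vinf' (hq : q.Prime) (haux : AuxOK M₁ q) (hA : A.LiesOverPrime q) :
    IsGaussExt (OI A) (xK' A M₁ q haux) ((q : ℕ) : OI A) (Vinf' A M₁) :=
  isGaussExt_VinfAt A q hq hA M₁ _ (coe_lh_xK' A M₁ q haux)

variable (hq : q.Prime) (hqM : q ∣ M₁) (hq2 : ¬ q ^ 2 ∣ M₁)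

/-- `v_0` is a Gauss extension for the base line `x`. -/
theorem isGaussExt_xK_Vzero (haux : AuxOK M₁ q) (hA : A.LiesOverPrime q) :
    IsGaussExt (OI A) (xK A M₁ q haux) ((q : ℕ) : OI A) (Vzero A M₁ q hq hqM hq2) := by
  obtain ⟨-, hq_ne, hq_mem, hunif, -, -⟩ := Fermat.Agent.S36.helper225.baseDVR_facts A hq hA
  have : NeZero (q ^ 2) := ⟨pow_ne_zero 2 hq.ne_zero⟩
  exact isGaussExt_comap_comap_gaussF A (IsLocalRing.residue A) (M₁ * q) (OI A)
    (algebraMap (KI A) (AlgebraicClosure ℚ)) (fun _ => Iff.rfl)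
    (residue_eq_zero_iff_mem_nonunits A) q hq_ne hq_mem hunif (lh A (M₁ * q))
    (lh_algebraMap A (M₁ * q)) (Wsq M₁ q hq hqM hq2).toAlgHom.toRingHom
    (fun c => (Wsq M₁ q hq hqM hq2).commutes c) (xK A M₁ q haux)
    (qExpand ℤ (q ^ 2) (baseSer ℤ q))
    (by
      rw [coeffMap_qExpand, coeffMap_baseSer]
      exact coe_Wsq_lh_xK A M₁ q hq hqM hq2 haux)
    (transcendental_coeffMap_qExpand_baseSer _ q (q ^ 2))

/-- `v'_0` is a Gauss extension for the base line `x'`. -/
theorem isGaussExt_xK'_Vzero' (haux : AuxOK M₁ q) (hA : A.LiesOverPrime q) :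
    IsGaussExt (OI A) (xK' A M₁ q haux) ((q : ℕ) : OI A) (Vzero' A M₁ q hq hqM hq2) := by
  obtain ⟨-, hq_ne, hq_mem, hunif, -, -⟩ := Fermat.Agent.S36.helper225.baseDVR_facts A hq hA
  exact isGaussExt_comap_comap_gaussF A (IsLocalRing.residue A) M₁ (OI A)
    (algebraMap (KI A) (AlgebraicClosure ℚ)) (fun _ => Iff.rfl)
    (residue_eq_zero_iff_mem_nonunits A) q hq_ne hq_mem hunif (lh A M₁)
    (lh_algebraMap A M₁) (Wq M₁ q hq hqM hq2).toAlgHom.toRingHom
    (fun c => (Wq M₁ q hq hqM hq2).commutes c) (xK' A M₁ q haux)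
    (qExpand ℤ q (baseSer ℤ q))
    (by
      rw [coeffMap_qExpand, coeffMap_baseSer]
      exact coe_Wq_lh_xK' A M₁ q hq hqM hq2 haux)
    (transcendental_coeffMap_qExpand_baseSer _ q q)

end Gauss

/-! ### (LOC) on the concrete terms -/

section Loc

variable (A : ValuationSubring (AlgebraicClosure ℚ)) (M₁ q : ℕ) [NeZero M₁] [NeZero q]

theorem charZero_KI : CharZero (KI A) := inferInstance

/-- (LOC) for a Gauss extension of `F = F_{M₁ q,K}`, both charts. -/
theorem loc_of_isGaussExt (hq : q.Prime) (haux : AuxOK M₁ q) (hA : A.LiesOverPrime q)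
    (W : ValuationSubring (FK A (M₁ * q)))
    (hW : IsGaussExt (OI A) (xK A M₁ q haux) ((q : ℕ) : OI A) W) :
    ∀ i : Fin 2, ∀ y ∈ W, ∃ a s : BK A M₁ q haux i,
      (s : FK A (M₁ * q)) ∉ W.nonunits ∧ y * s = a := by
  obtain ⟨-, hq_ne, hq_mem, hunif, hnoeth, -⟩ :=
    Fermat.Agent.S36.helper225.baseDVR_facts A hq hA
  have hfin : FiniteDimensional
      (IntermediateField.adjoin (KI A) ({xK A M₁ q haux} : Set (FK A (M₁ * q))))
      (FK A (M₁ * q)) := baseLine_finiteDimensional _ _ _ _ _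
  exact loc_chart_of_isGaussExt (OI A) (xK A M₁ q haux) (baseLine_transcendental _ _ _ _ _) q
    (prime_natCast_of_unif (OI A) q hq_ne hq_mem hunif) W hW

/-- (LOC) for a Gauss extension of `F' = F_{M₁,K}`, both charts. -/
theorem loc'_of_isGaussExt (hq : q.Prime) (haux : AuxOK M₁ q) (hA : A.LiesOverPrime q)
    (W : ValuationSubring (FK A M₁))
    (hW : IsGaussExt (OI A) (xK' A M₁ q haux) ((q : ℕ) : OI A) W) :
    ∀ i : Fin 2, ∀ y ∈ W, ∃ a s : BK' A M₁ q haux i,
      (s : FK A M₁) ∉ W.nonunits ∧ y * s = a := by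
  obtain ⟨-, hq_ne, hq_mem, hunif, hnoeth, -⟩ :=
    Fermat.Agent.S36.helper225.baseDVR_facts A hq hA
  have hfin : FiniteDimensional
      (IntermediateField.adjoin (KI A) ({xK' A M₁ q haux} : Set (FK A M₁)))
      (FK A M₁) := baseLine_finiteDimensional _ _ _ _ _
  exact loc_chart_of_isGaussExt (OI A) (xK' A M₁ q haux) (baseLine_transcendental _ _ _ _ _) q
    (prime_natCast_of_unif (OI A) q hq_ne hq_mem hunif) W hW

/-- **Registry item `loc_inf`**: (LOC) of the chart rings at `v_∞`, level `M₁ * q`. -/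
theorem loc_inf (hq : q.Prime) (hqM : q ∣ M₁) (hq2 : ¬ q ^ 2 ∣ M₁) (haux : AuxOK M₁ q)
    (hA : A.LiesOverPrime q) :
    ∀ i : Fin 2, ∀ y ∈ Vinf A M₁ q, ∃ a s : BK A M₁ q haux i,
      (s : FK A (M₁ * q)) ∉ (Vinf A M₁ q).nonunits ∧ y * s = a :=
  loc_of_isGaussExt A M₁ q hq haux hA _ (isGaussExt_xK_Vinf A M₁ q hq haux hA)

/-- **Registry item `loc_zero`**: (LOC) of the chart rings at `v_0`, level `M₁ * q`. -/
theorem loc_zero (hq : q.Prime) (hqM : q ∣ M₁) (hq2 : ¬ q ^ 2 ∣ M₁) (haux : AuxOK M₁ q)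
    (hA : A.LiesOverPrime q) :
    ∀ i : Fin 2, ∀ y ∈ Vzero A M₁ q hq hqM hq2, ∃ a s : BK A M₁ q haux i,
      (s : FK A (M₁ * q)) ∉ (Vzero A M₁ q hq hqM hq2).nonunits ∧ y * s = a :=
  loc_of_isGaussExt A M₁ q hq haux hA _ (isGaussExt_xK_Vzero A M₁ q hq hqM hq2 haux hA)

/-- (LOC) of the chart rings of level `M₁` at `v'_∞`. -/
theorem loc_inf' (hq : q.Prime) (hqM : q ∣ M₁) (hq2 : ¬ q ^ 2 ∣ M₁) (haux : AuxOK M₁ q)
    (hA : A.LiesOverPrime q) :
    ∀ i : Fin 2, ∀ y ∈ Vinf' A M₁, ∃ a s : BK' A M₁ q haux i,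
      (s : FK A M₁) ∉ (Vinf' A M₁).nonunits ∧ y * s = a :=
  loc'_of_isGaussExt A M₁ q hq haux hA _ (isGaussExt_xK'_Vinf' A M₁ q hq haux hA)

/-- (LOC) of the chart rings of level `M₁` at `v'_0`. -/
theorem loc_zero' (hq : q.Prime) (hqM : q ∣ M₁) (hq2 : ¬ q ^ 2 ∣ M₁) (haux : AuxOK M₁ q)
    (hA : A.LiesOverPrime q) :
    ∀ i : Fin 2, ∀ y ∈ Vzero' A M₁ q hq hqM hq2, ∃ a s : BK' A M₁ q haux i,
      (s : FK A M₁) ∉ (Vzero' A M₁ q hq hqM hq2).nonunits ∧ y * s = a :=
  loc'_of_isGaussExt A M₁ q hq haux hA _ (isGaussExt_xK'_Vzero' A M₁ q hq hqM hq2 haux hA)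

/-- (LOC) at level `M₁` in the shape of `hloc'` of `helper8039.lpProp_of_cases`. -/
theorem loc' (hq : q.Prime) (hqM : q ∣ M₁) (hq2 : ¬ q ^ 2 ∣ M₁) (haux : AuxOK M₁ q)
    (hA : A.LiesOverPrime q) :
    ∀ (i : Fin 2) (c : Fin 2), ∀ y ∈ VK' A M₁ q hq hqM hq2 c, ∃ a s : BK' A M₁ q haux i,
      (s : FK A M₁) ∉ (VK' A M₁ q hq hqM hq2 c).nonunits ∧ y * s = a := by
  intro i c
  fin_cases c
  · exact loc_inf' A M₁ q hq hqM hq2 haux hA i
  · exact loc_zero' A M₁ q hq hqM hq2 haux hA i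

end Loc

end Fermat.Agent.S36.helper4551
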