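import Mathlib
import Fermat.Agent.S36.helper1013_Vertical
import Fermat.Agent.S36.helper248_RootLatticeChart

/-!
# S36, (LP): the level-`q` inputs of the `lp` field from the level-`q²` fields  (helper5686)

The casework behind the field `lp : LPProp O x V` of `helper36.KillData`
(`helper8039.lpProp_of_cases`) consumes, besides fields of `KillData` / `DegData`, three
statements about the level `q M''` (the function field `F'`, its two vertical valuations
`V' 0 = v'_∞`, `V' 1 = v'_0` and its chart rings `B' i`):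

* `hrad'` : `rad (q B' i) ⊇ B' i ∩ 𝔪(V' 0) ∩ 𝔪(V' 1)` (level-`q` completeness, `NilMod` form);
* `hloc'` : (LOC) `V' c` is the local ring of the chart `B' i` at its centre;
* `hne`, `hne'` : `V' 0` and `V' 1` are incomparable.

This file derives all three from statements at the level `q² M''` that are fields of
`helper36.KillData` / `helper36.DegData` **verbatim** (`rad`, `hord`, `hord'`, `mem_V`, `mem_V'`,
`ord_ind`, `ord'_q`, and from `degα`, `degβ`: `norm_map`, `mem_a`, `mem_m`, `mem_b`, `ord_split`,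
`ord_insep`, `map_chart`, `norm_chart`) together with (LOC) at the level `q²` for `V 0` and `V 2`
only.  No completeness / count at level `q`, no Gauss property of `V' c` is needed.

* `nilMod_of_nilMod_map`  (R'): push `y ∈ B'` up along `ψ`, use `rad` upstairs, take the norm.
* `loc_of_loc_insep`      (L'): `V' c` is the restriction of a valuation `Vb` of `F` along the
  degeneracy map for which `Vb` is the *inseparable* side (`ord' (N h) = q · ord_b h`): a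
  denominator `s ∉ 𝔪(Vb)` has norm `N s ∉ 𝔪(V' c)`, and `B'` is closed under `q`-th roots.
* `not_le_of_tables`      (N'): if `V' 0 ≤ V' 1` (or conversely) the two normalised orders agree,
  so `ord 0 + ord 1 = q · ord 2` on `F^×`; this fails at `1 + y` for `y` with `0 ≤ ord 2 y`,
  `ord 0 y < 0` (`ord_ind 2 0`).
* `lp_levelq_inputs` : the three conclusions in the exact shapes of the hypotheses
  `hrad'`, `hloc'`, `hne`, `hne'` of `helper8039.lpProp_of_cases`, for arbitrary chart families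
  `B : Fin 2 → Subring F`, `B' : Fin 2 → Subring F'` (so `B := helper36.chart O x`,
  `B' := helper36.chart O x'` is an instance; `chartRing_root_closed` discharges `hroot`).
-/

set_option autoImplicit false

namespace Fermat.Agent.S36.helper5686

open Fermat.Agent.S36.helper1013 (IsOrd)
open Fermat.Agent.S36.helper1730 (NilMod)
open Fermat.Agent.S36.helper248 (chartRing)

section LevelQ

variable {F F' : Type*} [Field F] [Field F']

/-- A membership table `ψ a ∈ V ↔ a ∈ V'` passes to the non-units. -/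
theorem map_mem_nonunits_of_table (ψ : F' →+* F) {V : ValuationSubring F}
    {V' : ValuationSubring F'} (hψ : ∀ a : F', ψ a ∈ V ↔ a ∈ V') {a : F'}
    (ha : a ∈ V'.nonunits) : ψ a ∈ V.nonunits := by
  rw [ValuationSubring.mem_nonunits_iff_or] at ha ⊢
  rcases ha with rfl | ha
  · left; exact map_zero ψ
  · right
    intro h
    apply ha
    rw [← map_inv₀] at h
    exact (hψ _).1 h

/-- A unit of a valuation subring with an order function has order `0`. -/
theorem ord_eq_zero_of_notMem_nonunits {V : ValuationSubring F} {o : F → ℤ} (ho : IsOrd o)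
    (hmem : ∀ y : F, y ≠ 0 → (y ∈ V ↔ 0 ≤ o y)) {s : F} (hsV : s ∈ V)
    (hs : s ∉ V.nonunits) : s ≠ 0 ∧ o s = 0 := by
  rw [ValuationSubring.mem_nonunits_iff_or, not_or, not_not] at hs
  obtain ⟨hs0, hsinv⟩ := hs
  refine ⟨hs0, ?_⟩
  have h1 : 0 ≤ o s := (hmem s hs0).1 hsV
  have h2 : 0 ≤ o s⁻¹ := (hmem s⁻¹ (inv_ne_zero hs0)).1 hsinv
  rw [ho.map_inv hs0] at h2
  omega

/-- An element of order `0` is a unit of the valuation subring. -/
theorem notMem_nonunits_of_ord_eq_zero {V : ValuationSubring F} {o : F → ℤ} (ho : IsOrd o)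
    (hmem : ∀ y : F, y ≠ 0 → (y ∈ V ↔ 0 ≤ o y)) {s : F} (hs0 : s ≠ 0) (hs : o s = 0) :
    s ∈ V ∧ s ∉ V.nonunits := by
  refine ⟨(hmem s hs0).2 hs.ge, ?_⟩
  rw [ValuationSubring.mem_nonunits_iff_or, not_or, not_not]
  refine ⟨hs0, (hmem s⁻¹ (inv_ne_zero hs0)).2 ?_⟩
  rw [ho.map_inv hs0, hs]
  simp

/-- A monoid homomorphism between fields maps nonzero elements to nonzero elements. -/
theorem monoidHom_ne_zero (Nm : F →* F') {h : F} (hh : h ≠ 0) : Nm h ≠ 0 := by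
  intro h0
  have h1 : Nm h * Nm h⁻¹ = 1 := by rw [← map_mul, mul_inv_cancel₀ hh, map_one]
  rw [h0, zero_mul] at h1
  exact zero_ne_one h1

/-- **(R')** The radical statement descends along a degeneracy map with norm: if every element
of `B` lying in all `𝔪(V c)` is nilpotent modulo `q B`, then every element of `B'` lying in all
`𝔪(V' c')` is nilpotent modulo `q B'` — provided each `V c` restricts along `ψ` to some
`V' (σ c)`, `ψ B' ⊆ B` and `N B ⊆ B'`. -/
theorem nilMod_of_nilMod_map (ψ : F' →+* F) (Nm : F →* F') (q : ℕ) (hq : 0 < q)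
    (hnm : ∀ a : F', Nm (ψ a) = a ^ q)
    (B : Subring F) (B' : Subring F') (hmap : ∀ b : F', b ∈ B' → ψ b ∈ B)
    (hnorm : ∀ b : F, b ∈ B → Nm b ∈ B')
    {ι ι' : Type*} (V : ι → ValuationSubring F) (V' : ι' → ValuationSubring F') (σ : ι → ι')
    (hσ : ∀ (c : ι) (a : F'), ψ a ∈ V c ↔ a ∈ V' (σ c))
    (hrad : ∀ y : F, y ∈ B → (∀ c, y ∈ (V c).nonunits) → NilMod B (q : F) y) :
    ∀ y : F', y ∈ B' → (∀ c, y ∈ (V' c).nonunits) → NilMod B' (q : F') y := by
  intro y hy hyV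
  obtain ⟨-, e, r, hr, he⟩ := hrad (ψ y) (hmap y hy)
    (fun c => map_mem_nonunits_of_table ψ (hσ c) (hyV (σ c)))
  refine ⟨hy, e * q, (q : F') ^ (q - 1) * Nm r, ?_, ?_⟩
  · exact B'.mul_mem (B'.pow_mem (natCast_mem B' q) _) (hnorm r hr)
  · have h1 : Nm (ψ y ^ e) = Nm ((q : F) * r) := by rw [he]
    have hqψ : (q : F) = ψ (q : F') := (map_natCast ψ q).symm
    rw [← map_pow, hnm, map_mul, hqψ, hnm] at h1
    rw [pow_mul, h1]
    have : (q : F') ^ q = (q : F') * (q : F') ^ (q - 1) := by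
      rw [← pow_succ']
      congr 1
      omega
    rw [this, mul_assoc]

/-- The chart rings (integral closures) are closed under `n`-th roots. -/
theorem chartRing_root_closed {A0 L : Type*} [CommRing A0] [Field L] [Algebra A0 L] (s : Set L)
    {n : ℕ} (hn : 0 < n) (z : L) (hz : z ^ n ∈ chartRing A0 s) : z ∈ chartRing A0 s :=
  IsIntegral.of_pow hn hz

/-- **(L')** (LOC) descends along a degeneracy map `ψ : F' → F` on its *inseparable* side: if
`Vb` restricts to `V2` along `ψ`, `ord₂ (N h) = q · ord_b h`, `N B ⊆ B'`, `B'` is closed under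
`q`-th roots and `Vb` is the local ring of `B` at its centre, then `V2` is the local ring of `B'`
at its centre. -/
theorem loc_of_loc_insep (ψ : F' →+* F) (Nm : F →* F') (q : ℕ) (hq : 0 < q)
    (hnm : ∀ a : F', Nm (ψ a) = a ^ q)
    (B : Subring F) (B' : Subring F') (hnorm : ∀ b : F, b ∈ B → Nm b ∈ B')
    (hroot : ∀ z : F', z ^ q ∈ B' → z ∈ B')
    (Vb : ValuationSubring F) (V2 : ValuationSubring F') (hBV : ∀ b ∈ B, b ∈ Vb)
    (hmem : ∀ a : F', ψ a ∈ Vb ↔ a ∈ V2)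
    (ordb : F → ℤ) (ord2 : F' → ℤ) (hordb : IsOrd ordb) (hord2 : IsOrd ord2)
    (hmemb : ∀ y : F, y ≠ 0 → (y ∈ Vb ↔ 0 ≤ ordb y))
    (hmem2 : ∀ y : F', y ≠ 0 → (y ∈ V2 ↔ 0 ≤ ord2 y))
    (hinsep : ∀ h : F, h ≠ 0 → ord2 (Nm h) = (q : ℤ) * ordb h)
    (hloc : ∀ y ∈ Vb, ∃ a s : B, (s : F) ∉ Vb.nonunits ∧ y * s = a) :
    ∀ y ∈ V2, ∃ a s : B', (s : F') ∉ V2.nonunits ∧ y * s = a := by
  intro y hy
  obtain ⟨a, s, hs, hys⟩ := hloc (ψ y) ((hmem y).2 hy)
  obtain ⟨hs0, hos⟩ := ord_eq_zero_of_notMem_nonunits hordb hmemb (hBV _ s.2) hs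
  have hNs0 : Nm (s : F) ≠ 0 := monoidHom_ne_zero Nm hs0
  have hoNs : ord2 (Nm (s : F)) = 0 := by rw [hinsep _ hs0, hos, mul_zero]
  obtain ⟨-, hNs⟩ := notMem_nonunits_of_ord_eq_zero hord2 hmem2 hNs0 hoNs
  have hNsB : Nm (s : F) ∈ B' := hnorm _ s.2
  have hNaB : Nm (a : F) ∈ B' := hnorm _ a.2
  have hkey : y ^ q * Nm (s : F) = Nm (a : F) := by
    rw [← hnm, ← map_mul, hys]
  have hpow : (y * Nm (s : F)) ^ q = Nm (a : F) * Nm (s : F) ^ (q - 1) := by
    have : Nm (s : F) ^ q = Nm (s : F) * Nm (s : F) ^ (q - 1) := by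
      rw [← pow_succ']
      congr 1
      omega
    rw [mul_pow, this, ← mul_assoc, hkey]
  have hmemB : y * Nm (s : F) ∈ B' := by
    apply hroot
    rw [hpow]
    exact B'.mul_mem hNaB (B'.pow_mem hNsB _)
  exact ⟨⟨_, hmemB⟩, ⟨_, hNsB⟩, hNs, rfl⟩

/-- If `V ≤ W` are valuation subrings with normalised order functions taking the value `1` at a
common element `π`, the two order functions agree on nonzero elements. -/
theorem ord_eq_of_le {V W : ValuationSubring F} {oV oW : F → ℤ} (hV : IsOrd oV) (hW : IsOrd oW)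
    (hmV : ∀ y : F, y ≠ 0 → (y ∈ V ↔ 0 ≤ oV y)) (hmW : ∀ y : F, y ≠ 0 → (y ∈ W ↔ 0 ≤ oW y))
    (π : F) (hπ0 : π ≠ 0) (hπV : oV π = 1) (hπW : oW π = 1) (hle : V ≤ W) :
    ∀ y : F, y ≠ 0 → oV y = oW y := by
  intro y hy
  set n : ℤ := oV y with hn
  have hz0 : y * π ^ (-n) ≠ 0 := mul_ne_zero hy (zpow_ne_zero _ hπ0)
  have hoz : oV (y * π ^ (-n)) = 0 := by
    rw [hV.map_mul _ _ hy (zpow_ne_zero _ hπ0), hV.map_zpow hπ0, hπV, ← hn]
    ring
  obtain ⟨hzV, hzn⟩ := notMem_nonunits_of_ord_eq_zero hV hmV hz0 hoz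
  have hzW : y * π ^ (-n) ∈ W := hle hzV
  have hzinvV : (y * π ^ (-n))⁻¹ ∈ V := by
    rw [ValuationSubring.mem_nonunits_iff_or, not_or, not_not] at hzn
    exact hzn.2
  have hzinvW : (y * π ^ (-n))⁻¹ ∈ W := hle hzinvV
  have h1 : 0 ≤ oW (y * π ^ (-n)) := (hmW _ hz0).1 hzW
  have h2 : 0 ≤ oW (y * π ^ (-n))⁻¹ := (hmW _ (inv_ne_zero hz0)).1 hzinvW
  rw [hW.map_inv hz0] at h2
  have h3 : oW (y * π ^ (-n)) = oW y + (-n) * 1 := by
    rw [hW.map_mul _ _ hy (zpow_ne_zero _ hπ0), hW.map_zpow hπ0, hπW]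
  omega

/-- **(N')** The two vertical valuations of the level `q` are incomparable, from the order tables
of one degeneracy map (`ord' 0 (N h) = ord 0 h + ord 1 h`, `ord' 1 (N h) = q · ord 2 h`) and the
independence of `ord 0` and `ord 2`. -/
theorem not_le_of_tables (q : ℕ) (Nm : F →* F') (ord : Fin 3 → F → ℤ) (ord' : Fin 2 → F' → ℤ)
    (V' : Fin 2 → ValuationSubring F')
    (hord : ∀ c, IsOrd (ord c)) (hord' : ∀ c, IsOrd (ord' c))
    (hmem' : ∀ (c : Fin 2) (y : F'), y ≠ 0 → (y ∈ V' c ↔ 0 ≤ ord' c y))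
    (hq0 : (q : F') ≠ 0) (hq' : ∀ c, ord' c (q : F') = 1)
    (hind : ∀ i j : Fin 3, i ≠ j → ∃ y : F, y ≠ 0 ∧ 0 ≤ ord i y ∧ ord j y < 0)
    (hsplit : ∀ h : F, h ≠ 0 → ord' 0 (Nm h) = ord 0 h + ord 1 h)
    (hinsep : ∀ h : F, h ≠ 0 → ord' 1 (Nm h) = (q : ℤ) * ord 2 h) :
    ¬ V' 0 ≤ V' 1 ∧ ¬ V' 1 ≤ V' 0 := by
  -- the contradiction, from the equality of the two order functions
  have key : (∀ y : F', y ≠ 0 → ord' 0 y = ord' 1 y) → False := by
    intro heq
    have hrel : ∀ h : F, h ≠ 0 → ord 0 h + ord 1 h = (q : ℤ) * ord 2 h := by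
      intro h hh
      rw [← hsplit h hh, ← hinsep h hh]
      exact heq _ (monoidHom_ne_zero Nm hh)
    obtain ⟨y, hy0, hy2, hy0neg⟩ := hind 2 0 (by decide)
    have hq_nonneg : (0 : ℤ) ≤ (q : ℤ) := Int.natCast_nonneg q
    have hy1 : 0 < ord 1 y := by
      have := hrel y hy0
      have h' : 0 ≤ (q : ℤ) * ord 2 y := mul_nonneg hq_nonneg hy2
      omega
    obtain ⟨hz0, hz_0⟩ := (hord 0).one_add_of_neg hy0 hy0neg
    obtain ⟨-, hz_1⟩ := (hord 1).one_add_of_pos hy0 hy1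
    have hz_2 : 0 ≤ ord 2 (1 + y) := by
      have h := (hord 2).map_add 1 y one_ne_zero hy0 hz0
      rw [(hord 2).map_one] at h
      exact le_trans (le_min le_rfl hy2) h
    have := hrel (1 + y) hz0
    have h' : 0 ≤ (q : ℤ) * ord 2 (1 + y) := mul_nonneg hq_nonneg hz_2
    omega
  constructor
  · intro hle
    exact key (ord_eq_of_le (hord' 0) (hord' 1) (hmem' 0) (hmem' 1) (q : F') hq0 (hq' 0) (hq' 1)
      hle)
  · intro hle
    exact key (fun y hy => (ord_eq_of_le (hord' 1) (hord' 0) (hmem' 1) (hmem' 0) (q : F') hq0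
      (hq' 1) (hq' 0) hle y hy).symm)

/-- **The level-`q` inputs `hrad'`, `hloc'`, `hne`, `hne'` of `helper8039.lpProp_of_cases`** from
fields of `helper36.KillData` / `helper36.DegData` (verbatim shapes; `B = chart O x`,
`B' = chart O x'`) and (LOC) at the level `q²` for `V 0`, `V 2` only. -/
theorem lp_levelq_inputs {K : Type*} [Field K] [Algebra K F] [Algebra K F']
    (q : ℕ) (hq : 0 < q) (α β : F' →ₐ[K] F) (Nα Nβ : F →* F')
    (V : Fin 3 → ValuationSubring F) (V' : Fin 2 → ValuationSubring F')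
    (ord : Fin 3 → F → ℤ) (ord' : Fin 2 → F' → ℤ)
    (B : Fin 2 → Subring F) (B' : Fin 2 → Subring F')
    -- fields of `KillData`
    (hord : ∀ c, IsOrd (ord c)) (hord' : ∀ c, IsOrd (ord' c))
    (mem_V : ∀ (c : Fin 3) (y : F), y ≠ 0 → (y ∈ V c ↔ 0 ≤ ord c y))
    (mem_V' : ∀ (c : Fin 2) (y : F'), y ≠ 0 → (y ∈ V' c ↔ 0 ≤ ord' c y))
    (ord_ind : ∀ i j : Fin 3, i ≠ j → ∃ y : F, y ≠ 0 ∧ 0 ≤ ord i y ∧ ord j y < 0)
    (ord'_q : ∀ c, ord' c (q : F') = 1) (hq0 : (q : F') ≠ 0)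
    (rad : ∀ (i : Fin 2) (y : F), y ∈ B i → (∀ c, y ∈ (V c).nonunits) → NilMod (B i) (q : F) y)
    -- fields of `degα : DegData q α Nα (V 0) (V 1) (V 2) (V' 0) (V' 1) …`
    (α_norm_map : ∀ a : F', Nα (α a) = a ^ q)
    (α_mem_a : ∀ a : F', α a ∈ V 0 ↔ a ∈ V' 0) (α_mem_m : ∀ a : F', α a ∈ V 1 ↔ a ∈ V' 0)
    (α_mem_b : ∀ a : F', α a ∈ V 2 ↔ a ∈ V' 1)
    (α_ord_split : ∀ h : F, h ≠ 0 → ord' 0 (Nα h) = ord 0 h + ord 1 h)
    (α_ord_insep : ∀ h : F, h ≠ 0 → ord' 1 (Nα h) = (q : ℤ) * ord 2 h)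
    (α_map_chart : ∀ (i : Fin 2) (b : F'), b ∈ B' i → α b ∈ B i)
    (α_norm_chart : ∀ (i : Fin 2) (b : F), b ∈ B i → Nα b ∈ B' i)
    -- fields of `degβ : DegData q β Nβ (V 2) (V 1) (V 0) (V' 1) (V' 0) …`
    (β_norm_map : ∀ a : F', Nβ (β a) = a ^ q)
    (β_mem_b : ∀ a : F', β a ∈ V 0 ↔ a ∈ V' 0)
    (β_ord_insep : ∀ h : F, h ≠ 0 → ord' 0 (Nβ h) = (q : ℤ) * ord 0 h)
    (β_norm_chart : ∀ (i : Fin 2) (b : F), b ∈ B i → Nβ b ∈ B' i)
    -- the charts
    (hBV0 : ∀ i, ∀ b ∈ B i, b ∈ V 0) (hBV2 : ∀ i, ∀ b ∈ B i, b ∈ V 2)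
    (hroot : ∀ (i : Fin 2) (z : F'), z ^ q ∈ B' i → z ∈ B' i)
    -- (LOC) at the level `q²`
    (hloc0 : ∀ i : Fin 2, ∀ y ∈ V 0, ∃ a s : B i, (s : F) ∉ (V 0).nonunits ∧ y * s = a)
    (hloc2 : ∀ i : Fin 2, ∀ y ∈ V 2, ∃ a s : B i, (s : F) ∉ (V 2).nonunits ∧ y * s = a) :
    (∀ (i : Fin 2) (y : F'), y ∈ B' i → (∀ c, y ∈ (V' c).nonunits) →
        NilMod (B' i) (q : F') y) ∧
      (∀ (i : Fin 2) (c : Fin 2), ∀ y ∈ V' c,
        ∃ a s : B' i, (s : F') ∉ (V' c).nonunits ∧ y * s = a) ∧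
      ¬ V' 0 ≤ V' 1 ∧ ¬ V' 1 ≤ V' 0 := by
  refine ⟨?_, ?_, ?_⟩
  · intro i
    refine nilMod_of_nilMod_map (α : F' →+* F) Nα q hq α_norm_map (B i) (B' i) (α_map_chart i)
      (α_norm_chart i) V V' ![0, 0, 1] ?_ (rad i)
    intro c a
    fin_cases c
    · exact α_mem_a a
    · exact α_mem_m a
    · exact α_mem_b a
  · intro i c
    fin_cases c
    · exact loc_of_loc_insep (β : F' →+* F) Nβ q hq β_norm_map (B i) (B' i) (β_norm_chart i)
        (hroot i) (V 0) (V' 0) (hBV0 i) β_mem_b (ord 0) (ord' 0) (hord 0) (hord' 0) (mem_V 0)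
        (mem_V' 0) β_ord_insep (hloc0 i)
    · exact loc_of_loc_insep (α : F' →+* F) Nα q hq α_norm_map (B i) (B' i) (α_norm_chart i)
        (hroot i) (V 2) (V' 1) (hBV2 i) α_mem_b (ord 2) (ord' 1) (hord 2) (hord' 1) (mem_V 2)
        (mem_V' 1) α_ord_insep (hloc2 i)
  · exact not_le_of_tables q Nα ord ord' V' hord hord' mem_V' hq0 ord'_q ord_ind α_ord_split
      α_ord_insep

end LevelQ

end Fermat.Agent.S36.helper5686
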