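import Fermat.Agent.S36.helper6136_LPBVal
import Fermat.Agent.S36.helper8039_LPCasesVal
import Fermat.Agent.S36.helper36_KillData

/-!
# S36-LPB-KILL (helper6136): the hypothesis (B) of the `lp` field, in the vocabulary of `KillData`

Exact targets for the input `hPIR` of `helper8039.lpProp_of_cases` / `lpProp_of_cases_baseDVR`
(`LocPIRQuot P (centre (chart O x i) (V c))` at the closed points of the three components):

* `LPBAt.lift_sub`     : `LPBAt.lift` with (LOC) in the subtype form of record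
                          (`∀ y ∈ V', ∃ a s : B', (s : F') ∉ V'.nonunits ∧ y * s = a`).
* `lpbAt_of_degData`   : `LPBAt (chart O x i) (V c)` for `c = 0, 1, 2` from the two `DegData`
                          (fields `mem_a`, `mem_m`, `lift_a`, `lift_m`, `map_chart` only), (LOC) for
                          `V' 0`, `V' 1` on the charts of level `q M''`, and `LPBAt` at level
                          `q M''`.
* `pir_of_lpbAt`       : `hPIR` verbatim from `LPBAt` for the three components.
* `pir_of_degData`     : the composition.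
-/

set_option autoImplicit false

namespace Fermat.Agent.S36.helper6136

open Fermat.Agent.S36.helper36 (chart DegData)
open Fermat.Agent.S36.helper8039 (centre mem_centre_iff centre_isPrime)

section Sub

variable {F F' : Type*} [Field F] [Field F']

/-- `LPBAt.lift` with (LOC) in subtype form. -/
theorem LPBAt.lift_sub (ψ : F' →+* F) (B : Subring F) (B' : Subring F') [IsNoetherianRing B']
    (hmap : ∀ b ∈ B', ψ b ∈ B) (V : ValuationSubring F) (V' : ValuationSubring F')
    (hBV : ∀ b ∈ B, b ∈ V) (hmem : ∀ a : F', ψ a ∈ V ↔ a ∈ V')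
    (hlift : ∀ h ∈ V, ∃ a ∈ V', ψ a - h ∈ V.nonunits)
    (hloc' : ∀ y ∈ V', ∃ a s : B', (s : F') ∉ V'.nonunits ∧ y * s = a)
    (h : LPBAt B' V') : LPBAt B V := by
  refine LPBAt.lift ψ B B' hmap V V' hBV hmem hlift ?_ h
  intro y hy
  obtain ⟨a, s, hs, hys⟩ := hloc' y hy
  exact ⟨s, s.2, hs, by rw [mul_comm, hys]; exact a.2⟩

/-- `hPIR` at one chart and one component from `LPBAt`. -/
theorem LPBAt.locPIRQuot_centre {B : Subring F} {V : ValuationSubring F} [IsNoetherianRing B]
    (h : LPBAt B V) (hBV : ∀ b ∈ B, b ∈ V) (P : Ideal B) [P.IsPrime]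
    (hP : centre B V ≤ P) : LocPIRQuot P (centre B V) := by
  have := centre_isPrime hBV
  exact h.locPIRQuot P (centre B V) (mem_centre_iff hBV) hP

end Sub

section Kill

variable {K F F' : Type*} [Field K] [Field F] [Field F'] [Algebra K F] [Algebra K F']

/-- **(LP)(b) at level `q² M''` from level `q M''`**: the three components, from the `DegData`
of `α` and `β`. -/
theorem lpbAt_of_degData (O : ValuationSubring K) (q : ℕ) (α β : F' →ₐ[K] F) (Nα Nβ : F →* F')
    (V : Fin 3 → ValuationSubring F) (V' : Fin 2 → ValuationSubring F')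
    (ord : Fin 3 → F → ℤ) (ord' : Fin 2 → F' → ℤ) (x : F) (x' : F')
    (degα : DegData q α Nα (V 0) (V 1) (V 2) (V' 0) (V' 1) (ord 0) (ord 1) (ord 2) (ord' 0)
      (ord' 1) (chart O x) (chart O x'))
    (degβ : DegData q β Nβ (V 2) (V 1) (V 0) (V' 1) (V' 0) (ord 2) (ord 1) (ord 0) (ord' 1)
      (ord' 0) (chart O x) (chart O x'))
    (hnoeth' : ∀ i : Fin 2, IsNoetherianRing (chart O x' i))
    (hBV : ∀ (i : Fin 2) (c : Fin 3), ∀ b ∈ chart O x i, b ∈ V c)
    (hloc' : ∀ (i : Fin 2) (c : Fin 2), ∀ y ∈ V' c,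
      ∃ a s : chart O x' i, (s : F') ∉ (V' c).nonunits ∧ y * s = a)
    (h' : ∀ (i : Fin 2) (c : Fin 2), LPBAt (chart O x' i) (V' c)) :
    ∀ (i : Fin 2) (c : Fin 3), LPBAt (chart O x i) (V c) := by
  intro i c
  have := hnoeth' i
  fin_cases c
  · exact LPBAt.lift_sub (α : F' →+* F) (chart O x i) (chart O x' i) (degα.map_chart i) (V 0)
      (V' 0) (hBV i 0) degα.mem_a degα.lift_a (hloc' i 0) (h' i 0)
  · exact LPBAt.lift_sub (α : F' →+* F) (chart O x i) (chart O x' i) (degα.map_chart i) (V 1)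
      (V' 0) (hBV i 1) degα.mem_m degα.lift_m (hloc' i 0) (h' i 0)
  · exact LPBAt.lift_sub (β : F' →+* F) (chart O x i) (chart O x' i) (degβ.map_chart i) (V 2)
      (V' 1) (hBV i 2) degβ.mem_a degβ.lift_a (hloc' i 1) (h' i 1)

/-- **`hPIR` of `helper8039.lpProp_of_cases`, verbatim**, from `LPBAt` for the three
components. -/
theorem pir_of_lpbAt (O : ValuationSubring K) (x : F) (V : Fin 3 → ValuationSubring F)
    (hnoeth : ∀ i : Fin 2, IsNoetherianRing (chart O x i))
    (hBV : ∀ (i : Fin 2) (c : Fin 3), ∀ b ∈ chart O x i, b ∈ V c)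
    (h : ∀ (i : Fin 2) (c : Fin 3), LPBAt (chart O x i) (V c)) :
    ∀ (i : Fin 2) (c : Fin 3) (P : Ideal (chart O x i)), P.IsMaximal →
      centre (chart O x i) (V c) ≤ P → LocPIRQuot P (centre (chart O x i) (V c)) := by
  intro i c P hP hcP
  have := hnoeth i
  have := hP.isPrime
  exact (h i c).locPIRQuot_centre (hBV i c) P hcP

/-- **`hPIR` from the level `q M''`**: composition of `lpbAt_of_degData` and `pir_of_lpbAt`. -/
theorem pir_of_degData (O : ValuationSubring K) (q : ℕ) (α β : F' →ₐ[K] F) (Nα Nβ : F →* F')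
    (V : Fin 3 → ValuationSubring F) (V' : Fin 2 → ValuationSubring F')
    (ord : Fin 3 → F → ℤ) (ord' : Fin 2 → F' → ℤ) (x : F) (x' : F')
    (degα : DegData q α Nα (V 0) (V 1) (V 2) (V' 0) (V' 1) (ord 0) (ord 1) (ord 2) (ord' 0)
      (ord' 1) (chart O x) (chart O x'))
    (degβ : DegData q β Nβ (V 2) (V 1) (V 0) (V' 1) (V' 0) (ord 2) (ord 1) (ord 0) (ord' 1)
      (ord' 0) (chart O x) (chart O x'))
    (hnoeth : ∀ i : Fin 2, IsNoetherianRing (chart O x i))
    (hnoeth' : ∀ i : Fin 2, IsNoetherianRing (chart O x' i))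
    (hBV : ∀ (i : Fin 2) (c : Fin 3), ∀ b ∈ chart O x i, b ∈ V c)
    (hloc' : ∀ (i : Fin 2) (c : Fin 2), ∀ y ∈ V' c,
      ∃ a s : chart O x' i, (s : F') ∉ (V' c).nonunits ∧ y * s = a)
    (h' : ∀ (i : Fin 2) (c : Fin 2), LPBAt (chart O x' i) (V' c)) :
    ∀ (i : Fin 2) (c : Fin 3) (P : Ideal (chart O x i)), P.IsMaximal →
      centre (chart O x i) (V c) ≤ P → LocPIRQuot P (centre (chart O x i) (V c)) :=
  pir_of_lpbAt O x V hnoeth hBV
    (lpbAt_of_degData O q α β Nα Nβ V V' ord ord' x x' degα degβ hnoeth' hBV hloc' h')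

end Kill

end Fermat.Agent.S36.helper6136
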