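import Mathlib

/-!
# S36 (D2): seeds for the Kummer–Newton core from local generators and a trivial glueing datum

Setting: `F` a field, `B` a subring of `F` (a chart ring of a normal model), finitely many
valuations `v c` of `F` which are `≤ 1` on `B` (the components of the special fibre of the chart;
the fibre may be non-reduced, no residue fields appear), `u : F` a unit at every `v c`,
and `G c : F` with `v c (G c ^ n - u) < 1` (lifts of `n`-th roots of the reductions of `u`).

Local hypothesis at every maximal ideal `P` of `B` containing `J = {b ∈ B | ∀ c, v c b < 1}`: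

* (LP) there is `h ≠ 0` with `u / h ^ n` a unit of the localisation `B_P`;
* (GLUE) there is `z ∈ B` such that for every component `c` through `P`
  (i.e. `B ∩ {v c < 1} ⊆ P`) the function `G c / h` is, modulo `{v c < 1}`, an element of
  `z + P B_P` (it lies in the local ring of the branch `c` at `P`, and all branches through `P`
  give it the same value `z (P)`).

Conclusion (`exists_seed`): there is `a : F` with `a ^ n * u ∈ B` and `v c (a ^ n * u - 1) < 1`
for all `c`; this is the seed hypothesis of the Newton form of the Kummer core.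

The proof is elementary: at `P` the branches are glued two at a time (a unit times the
difference of two `n`-th roots of the same unit is the difference of the `n`-th powers), and the
local seeds are globalised through the ideal of denominators.  No counting, no noetherian
hypothesis, no reducedness, no completion.
-/

namespace Fermat.Agent.S36.helper4913

open IsLocalRing

/-! ### A unit in a local ring -/

/-- In a local ring in which `n` is invertible, `x ^ n - y ^ n = (x - y) * w` with `w` a unit,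
as soon as `x ≡ y` modulo the maximal ideal and `y` is a unit. -/
theorem exists_isUnit_pow_sub_pow {R : Type*} [CommRing R] [IsLocalRing R] (n : ℕ)
    (hn : IsUnit (n : R)) (x y : R) (hxy : x - y ∈ maximalIdeal R) (hy : IsUnit y) :
    ∃ w : R, IsUnit w ∧ x ^ n - y ^ n = (x - y) * w := by
  refine ⟨∑ i ∈ Finset.range n, x ^ i * y ^ (n - 1 - i), ?_, ?_⟩
  · rw [← residue_ne_zero_iff_isUnit]
    have hres : residue R x = residue R y := by
      rw [← sub_eq_zero, ← map_sub]
      exact (residue_eq_zero_iff _).2 hxy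
    rw [map_sum]
    have hterm : ∀ i ∈ Finset.range n,
        residue R (x ^ i * y ^ (n - 1 - i)) = residue R y ^ (n - 1) := by
      intro i hi
      have hi' := Finset.mem_range.1 hi
      rw [map_mul, map_pow, map_pow, hres, ← pow_add]
      congr 1
      omega
    rw [Finset.sum_congr rfl hterm, Finset.sum_const, Finset.card_range, nsmul_eq_mul]
    have h1 : ((n : ℕ) : ResidueField R) ≠ 0 := by
      have := (residue_ne_zero_iff_isUnit (n : R)).2 hn
      rwa [map_natCast] at this
    have h2 : residue R y ≠ 0 := (residue_ne_zero_iff_isUnit y).2 hy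
    exact mul_ne_zero h1 (pow_ne_zero _ h2)
  · rw [mul_comm]
    exact (geom_sum₂_mul x y n).symm

/-! ### Valuation bookkeeping -/

section Val

variable {F : Type*} [Field F] {Γ : Type*} [LinearOrderedCommGroupWithZero Γ]
  (v : Valuation F Γ)

theorem val_mul_lt_one_of_le_of_lt {a b : F} (ha : v a ≤ 1) (hb : v b < 1) :
    v (a * b) < 1 := by
  rw [map_mul]
  calc v a * v b ≤ 1 * v b := mul_le_mul' ha le_rfl
    _ = v b := one_mul _
    _ < 1 := hb

theorem val_mul_le_one {a b : F} (ha : v a ≤ 1) (hb : v b ≤ 1) : v (a * b) ≤ 1 := by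
  rw [map_mul]
  exact mul_le_one' ha hb

theorem val_pow_le_one {a : F} (ha : v a ≤ 1) (n : ℕ) : v (a ^ n) ≤ 1 := by
  rw [map_pow]
  exact pow_le_one' ha n

theorem val_sub_lt_one {a b : F} (ha : v a < 1) (hb : v b < 1) : v (a - b) < 1 :=
  v.map_sub_lt ha hb

theorem val_add_lt_one {a b : F} (ha : v a < 1) (hb : v b < 1) : v (a + b) < 1 :=
  v.map_add_lt ha hb

theorem val_le_one_of_sub_lt_one {a b : F} (hb : v b ≤ 1) (hab : v (a - b) < 1) : v a ≤ 1 := by
  have : a = (a - b) + b := by ring
  rw [this]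
  exact v.map_add_le hab.le hb

/-- `a ≡ b` modulo the valuation ideal implies `a ^ n ≡ b ^ n`. -/
theorem val_pow_sub_pow_lt_one {a b : F} (ha : v a ≤ 1) (hb : v b ≤ 1) (hab : v (a - b) < 1)
    (n : ℕ) : v (a ^ n - b ^ n) < 1 := by
  induction n with
  | zero => simp
  | succ k ih =>
    have : a ^ (k + 1) - b ^ (k + 1) = a * (a ^ k - b ^ k) + b ^ k * (a - b) := by ring
    rw [this]
    exact val_add_lt_one v (val_mul_lt_one_of_le_of_lt v ha ih)
      (val_mul_lt_one_of_le_of_lt v (val_pow_le_one v hb k) hab)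

theorem val_eq_one_of_pow_eq_one {a : F} {n : ℕ} (hn : n ≠ 0) (h : v (a ^ n) = 1) : v a = 1 := by
  rw [map_pow] at h
  rcases pow_eq_one_iff.1 h with h | h
  · exact h
  · exact absurd h hn

theorem val_le_one_of_pow_le_one {a : F} {n : ℕ} (hn : n ≠ 0) (h : v (a ^ n) ≤ 1) : v a ≤ 1 := by
  rw [map_pow] at h
  exact (pow_le_one_iff hn).1 h

theorem val_inv_eq_one {a : F} (h : v a = 1) : v a⁻¹ = 1 := by
  rw [map_inv₀, h, inv_one]

end Val

/-! ### The localisation of a subring of a field at a prime, inside the field -/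

section Loc

variable {F : Type*} [Field F]

/-- The localisation of `B` at the prime `P`, realised inside the field `F`:
the elements `b / s` with `b, s ∈ B`, `s ∉ P`. -/
def locSubring (B : Subring F) (P : Ideal B) [hP : P.IsPrime] : Subring F where
  carrier := {x | ∃ b s : B, s ∉ P ∧ x * (s : F) = (b : F)}
  mul_mem' := by
    rintro x y ⟨b, s, hs, h⟩ ⟨b', s', hs', h'⟩
    refine ⟨b * b', s * s', fun hmem => ?_, ?_⟩
    · rcases hP.mem_or_mem hmem with h1 | h1
      exacts [hs h1, hs' h1]
    · push_cast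
      rw [← h, ← h']
      ring
  one_mem' := ⟨1, 1, fun h => hP.ne_top ((Ideal.eq_top_iff_one _).2 h), by simp⟩
  add_mem' := by
    rintro x y ⟨b, s, hs, h⟩ ⟨b', s', hs', h'⟩
    refine ⟨b * s' + b' * s, s * s', fun hmem => ?_, ?_⟩
    · rcases hP.mem_or_mem hmem with h1 | h1
      exacts [hs h1, hs' h1]
    · push_cast
      rw [← h, ← h']
      ring
  zero_mem' := ⟨0, 1, fun h => hP.ne_top ((Ideal.eq_top_iff_one _).2 h), by simp⟩
  neg_mem' := by
    rintro x ⟨b, s, hs, h⟩
    refine ⟨-b, s, hs, ?_⟩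
    push_cast
    rw [← h]
    ring

variable (B : Subring F) (P : Ideal B) [hP : P.IsPrime]

theorem mem_locSubring_iff {x : F} :
    x ∈ locSubring B P ↔ ∃ b s : B, s ∉ P ∧ x * (s : F) = (b : F) := Iff.rfl

theorem one_notMem_prime : (1 : B) ∉ P := fun h => hP.ne_top ((Ideal.eq_top_iff_one _).2 h)

theorem subring_le_locSubring : B ≤ locSubring B P := fun x hx =>
  ⟨⟨x, hx⟩, 1, one_notMem_prime B P, by simp⟩

theorem coe_mem_locSubring (b : B) : (b : F) ∈ locSubring B P :=
  subring_le_locSubring B P b.2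

/-- A fraction with numerator and denominator outside `P` has its inverse in `B_P`. -/
theorem inv_mem_locSubring {x : F} {b s : B} (hb : b ∉ P) (h : x * (s : F) = (b : F)) :
    x⁻¹ ∈ locSubring B P := by
  have hb0 : (b : F) ≠ 0 := by
    intro h0
    apply hb
    have : b = 0 := Subtype.ext h0
    rw [this]
    exact P.zero_mem
  have hx0 : x ≠ 0 := by
    rintro rfl
    rw [zero_mul] at h
    exact hb0 h.symm
  refine ⟨s, b, hb, ?_⟩
  rw [← h, ← mul_assoc, inv_mul_cancel₀ hx0, one_mul]

theorem isUnit_of_num_notMem (x : locSubring B P) {b s : B} (hb : b ∉ P)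
    (h : (x : F) * (s : F) = (b : F)) : IsUnit x := by
  have hb0 : (b : F) ≠ 0 := by
    intro h0
    apply hb
    have : b = 0 := Subtype.ext h0
    rw [this]
    exact P.zero_mem
  have hx0 : (x : F) ≠ 0 := by
    intro hx
    rw [hx, zero_mul] at h
    exact hb0 h.symm
  refine IsUnit.of_mul_eq_one ⟨(x : F)⁻¹, inv_mem_locSubring B P hb h⟩ ?_
  apply Subtype.ext
  simp [hx0]

theorem not_isUnit_of_num_mem (x : locSubring B P) {b s : B} (hb : b ∈ P) (hs : s ∉ P)
    (h : (x : F) * (s : F) = (b : F)) : ¬ IsUnit x := by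
  intro hx
  obtain ⟨y, hy⟩ := hx.exists_right_inv
  obtain ⟨b', s', hs', h'⟩ := y.2
  have hxy : (x : F) * (y : F) = 1 := by
    have := congrArg (Subtype.val) hy
    simpa using this
  have key : ((s * s' : B) : F) = ((b * b' : B) : F) := by
    push_cast
    rw [← h, ← h']
    calc (s : F) * (s' : F) = ((x : F) * (y : F)) * ((s : F) * (s' : F)) := by rw [hxy, one_mul]
      _ = (x : F) * (s : F) * ((y : F) * (s' : F)) := by ring
  have key' : s * s' = b * b' := Subtype.ext key
  have : s * s' ∈ P := by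
    rw [key']
    exact P.mul_mem_right _ hb
  rcases hP.mem_or_mem this with h1 | h1
  exacts [hs h1, hs' h1]

instance locSubring_isLocalRing : IsLocalRing (locSubring B P) := by
  refine IsLocalRing.of_isUnit_or_isUnit_one_sub_self fun x => ?_
  obtain ⟨b, s, hs, h⟩ := x.2
  by_cases hb : b ∈ P
  · right
    have hsb : s - b ∉ P := fun hmem => hs (by simpa using P.add_mem hmem hb)
    refine isUnit_of_num_notMem B P (1 - x) (b := s - b) (s := s) hsb ?_
    push_cast
    rw [← h]
    ring
  · left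
    exact isUnit_of_num_notMem B P x hb h

/-- The maximal ideal of `B_P` consists of the fractions with numerator in `P`. -/
theorem mem_maximalIdeal_locSubring_iff (x : locSubring B P) :
    x ∈ maximalIdeal (locSubring B P) ↔
      ∃ b s : B, b ∈ P ∧ s ∉ P ∧ (x : F) * (s : F) = (b : F) := by
  constructor
  · intro hx
    obtain ⟨b, s, hs, h⟩ := x.2
    refine ⟨b, s, ?_, hs, h⟩
    by_contra hb
    exact (IsLocalRing.mem_maximalIdeal x).1 hx (isUnit_of_num_notMem B P x hb h)
  · rintro ⟨b, s, hb, hs, h⟩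
    exact (IsLocalRing.mem_maximalIdeal x).2 (not_isUnit_of_num_mem B P x hb hs h)

variable {Γ : Type*} [LinearOrderedCommGroupWithZero Γ] (v : Valuation F Γ)

/-- If the centre of `v` on `B` is contained in `P`, then `B_P` is contained in the valuation
ring of `v`. -/
theorem val_le_one_of_mem_locSubring (hBv : ∀ b : B, v (b : F) ≤ 1)
    (hc : ∀ b : B, v (b : F) < 1 → b ∈ P) {x : F} (hx : x ∈ locSubring B P) : v x ≤ 1 := by
  obtain ⟨b, s, hs, h⟩ := hx
  have hs1 : v (s : F) = 1 := le_antisymm (hBv s) (not_lt.1 fun hlt => hs (hc s hlt))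
  have : v x = v (b : F) := by
    rw [← h, map_mul, hs1, mul_one]
  rw [this]
  exact hBv b

/-- If the centre of `v` on `B` is contained in `P`, the elements of `B_P` of valuation `< 1`
lie in the maximal ideal of `B_P`. -/
theorem mem_maximalIdeal_of_val_lt_one (hBv : ∀ b : B, v (b : F) ≤ 1)
    (hc : ∀ b : B, v (b : F) < 1 → b ∈ P) (x : locSubring B P) (hx : v (x : F) < 1) :
    x ∈ maximalIdeal (locSubring B P) := by
  rw [IsLocalRing.mem_maximalIdeal]
  intro hu
  obtain ⟨y, hy⟩ := hu.exists_right_inv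
  have hxy : (x : F) * (y : F) = 1 := by
    have := congrArg (Subtype.val) hy
    simpa using this
  have hy1 : v (y : F) ≤ 1 := val_le_one_of_mem_locSubring B P v hBv hc y.2
  have : v ((y : F) * (x : F)) < 1 := val_mul_lt_one_of_le_of_lt v hy1 hx
  rw [mul_comm, hxy, map_one] at this
  exact lt_irrefl _ this

end Loc

/-! ### Glueing the branches at one point -/

section Glue

variable {F : Type*} [Field F] (B : Subring F) (P : Ideal B) [hP : P.IsPrime]

/-- **Glueing at a point.** Let `ε` be a unit of `B_P` and `f c : F` functions with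
`f c ^ n ≡ ε` modulo the valuation ideal of `v c`, for every `c` whose centre lies in `P`.
If each `f c` is congruent modulo `v c` to an element of `z + P B_P` (same `z` for all `c`),
then one element `x ∈ z + P B_P` is congruent to all the `f c` simultaneously. -/
theorem local_glue (n : ℕ) (hn : IsUnit (n : locSubring B P)) (hn0 : n ≠ 0)
    {ι : Type*} {Γ : ι → Type*} [∀ c, LinearOrderedCommGroupWithZero (Γ c)]
    (v : ∀ c, Valuation F (Γ c)) (hBv : ∀ c (b : B), v c (b : F) ≤ 1)
    (ε : locSubring B P) (hε : IsUnit ε) (f : ι → F)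
    (hf : ∀ c, (∀ b : B, v c (b : F) < 1 → b ∈ P) → v c (f c ^ n - (ε : F)) < 1)
    (z : locSubring B P)
    (hz : ∀ c, (∀ b : B, v c (b : F) < 1 → b ∈ P) →
      ∃ y : locSubring B P, y - z ∈ maximalIdeal (locSubring B P) ∧ v c (f c - (y : F)) < 1)
    (T : Finset ι) :
    ∃ x : locSubring B P, x - z ∈ maximalIdeal (locSubring B P) ∧
      ∀ c ∈ T, (∀ b : B, v c (b : F) < 1 → b ∈ P) → v c (f c - (x : F)) < 1 := by
  classical
  induction T using Finset.induction_on with
  | empty => exact ⟨z, by simp, by simp⟩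
  | insert d T hdT ih =>
    obtain ⟨x', hx'z, hx'⟩ := ih
    by_cases hd : ∀ b : B, v d (b : F) < 1 → b ∈ P
    · obtain ⟨y, hyz, hyf⟩ := hz d hd
      have hy1 : v d (y : F) ≤ 1 := val_le_one_of_mem_locSubring B P (v d) (hBv d) hd y.2
      have hf1 : v d (f d) ≤ 1 := val_le_one_of_sub_lt_one (v d) hy1 hyf
      have hid : v d (((y ^ n - ε : locSubring B P) : F)) < 1 := by
        have e1 : ((y ^ n - ε : locSubring B P) : F)
            = (f d ^ n - (ε : F)) - (f d ^ n - (y : F) ^ n) := by
          push_cast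
          ring
        rw [e1]
        exact val_sub_lt_one (v d) (hf d hd) (val_pow_sub_pow_lt_one (v d) hf1 hy1 hyf n)
      have hidm : y ^ n - ε ∈ maximalIdeal (locSubring B P) :=
        mem_maximalIdeal_of_val_lt_one B P (v d) (hBv d) hd _ hid
      have hyu : IsUnit y := by
        have h1 : IsUnit (y ^ n + (ε - y ^ n)) := by
          have : y ^ n + (ε - y ^ n) = ε := by ring
          rw [this]
          exact hε
        rcases isUnit_or_isUnit_of_isUnit_add h1 with h2 | h2
        · exact (isUnit_pow_iff hn0).1 h2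
        · exfalso
          have h3 : ε - y ^ n ∈ maximalIdeal (locSubring B P) := by
            have : ε - y ^ n = -(y ^ n - ε) := by ring
            rw [this]
            exact neg_mem hidm
          exact (IsLocalRing.mem_maximalIdeal _).1 h3 h2
      have hx'y : x' - y ∈ maximalIdeal (locSubring B P) := by
        have : x' - y = (x' - z) - (y - z) := by ring
        rw [this]
        exact Ideal.sub_mem _ hx'z hyz
      obtain ⟨w, hw, hwe⟩ := exists_isUnit_pow_sub_pow n hn x' y hx'y hyu
      obtain ⟨wi, hwi⟩ := hw.exists_right_inv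
      refine ⟨y - wi * (y ^ n - ε), ?_, ?_⟩
      · have : y - wi * (y ^ n - ε) - z = (y - z) - wi * (y ^ n - ε) := by ring
        rw [this]
        exact Ideal.sub_mem _ hyz (Ideal.mul_mem_left _ _ hidm)
      · intro c hc hcP
        have hwi1 : v c (wi : F) ≤ 1 :=
          val_le_one_of_mem_locSubring B P (v c) (hBv c) hcP wi.2
        by_cases hcd : c = d
        · subst hcd
          have e1 : f c - ((y - wi * (y ^ n - ε) : locSubring B P) : F)
              = (f c - (y : F)) + (wi : F) * ((y ^ n - ε : locSubring B P) : F) := by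
            push_cast
            ring
          rw [e1]
          exact val_add_lt_one _ hyf (val_mul_lt_one_of_le_of_lt _ hwi1 hid)
        · have hcT : c ∈ T := (Finset.mem_insert.1 hc).resolve_left hcd
          have hxc := hx' c hcT hcP
          have hx1 : v c (x' : F) ≤ 1 :=
            val_le_one_of_mem_locSubring B P (v c) (hBv c) hcP x'.2
          have hfc1 : v c (f c) ≤ 1 := val_le_one_of_sub_lt_one (v c) hx1 hxc
          have hi' : v c (((x' ^ n - ε : locSubring B P) : F)) < 1 := by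
            have e1 : ((x' ^ n - ε : locSubring B P) : F)
                = (f c ^ n - (ε : F)) - (f c ^ n - (x' : F) ^ n) := by
              push_cast
              ring
            rw [e1]
            exact val_sub_lt_one (v c) (hf c hcP)
              (val_pow_sub_pow_lt_one (v c) hfc1 hx1 hxc n)
          have e2 : y - wi * (y ^ n - ε) = x' - wi * (x' ^ n - ε) := by
            have h4 : x' - y = wi * (x' ^ n - y ^ n) := by
              rw [hwe]
              calc x' - y = (x' - y) * (w * wi) := by rw [hwi, mul_one]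
                _ = wi * ((x' - y) * w) := by ring
            linear_combination (-1 : locSubring B P) * h4
          rw [e2]
          have e3 : f c - ((x' - wi * (x' ^ n - ε) : locSubring B P) : F)
              = (f c - (x' : F)) + (wi : F) * ((x' ^ n - ε : locSubring B P) : F) := by
            push_cast
            ring
          rw [e3]
          exact val_add_lt_one _ hxc (val_mul_lt_one_of_le_of_lt _ hwi1 hi')
    · refine ⟨x', hx'z, ?_⟩
      intro c hc hcP
      by_cases hcd : c = d
      · subst hcd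
        exact absurd hcP hd
      · exact hx' c ((Finset.mem_insert.1 hc).resolve_left hcd) hcP

end Glue

/-! ### The seed theorem -/

section Seed

variable {F : Type*} [Field F]

/-- **Seeds from local generators and a trivial glueing datum** (delta (D2) of the S36 route),
local-ring form.

`B ⊆ F` a subring closed under `n`-th roots, `n` invertible in `B`; `v c` finitely many
valuations of `F`, `≤ 1` on `B`; `u` a unit at all `v c`; `G c` with `v c (G c ^ n - u) < 1`.
Suppose that at every maximal ideal `P` of `B` containing `{b ∈ B | ∀ c, v c b < 1}` there are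
`h ≠ 0` with `u / h ^ n` a unit of `B_P` and `z ∈ B_P` such that, for every `c` whose centre
lies in `P`, `G c / h` is congruent modulo `v c` to an element `y` of `z + P B_P`.
Then there is `a : F` with `a ^ n * u ∈ B`, `v c (a * G c - 1) < 1` and
`v c (a ^ n * u - 1) < 1` for all `c`. -/
theorem exists_seed_local
    (B : Subring F) (n : ℕ) (hn0 : (n : F) ≠ 0) (hnB : (n : F)⁻¹ ∈ B)
    (hroot : ∀ x : F, x ^ n ∈ B → x ∈ B)
    {ι : Type*} [Finite ι] {Γ : ι → Type*} [∀ c, LinearOrderedCommGroupWithZero (Γ c)]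
    (v : ∀ c, Valuation F (Γ c)) (hBv : ∀ c, ∀ b : B, v c (b : F) ≤ 1)
    (u : F) (hu : ∀ c, v c u = 1)
    (G : ι → F) (hG : ∀ c, v c (G c ^ n - u) < 1)
    (hloc : ∀ (P : Ideal B) [P.IsMaximal], (∀ b : B, (∀ c, v c (b : F) < 1) → b ∈ P) →
      ∃ h : F, h ≠ 0 ∧ (∃ b s : B, b ∉ P ∧ s ∉ P ∧ u * (s : F) = (b : F) * h ^ n) ∧
        ∃ z : locSubring B P, ∀ c, (∀ b : B, v c (b : F) < 1 → b ∈ P) →
          ∃ y : locSubring B P, y - z ∈ maximalIdeal (locSubring B P) ∧
            v c (G c / h - (y : F)) < 1) :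
    ∃ a : F, a ^ n * u ∈ B ∧ (∀ c, v c (a * G c - 1) < 1) ∧
      ∀ c, v c (a ^ n * u - 1) < 1 := by
  classical
  have hn : n ≠ 0 := by
    rintro rfl
    simp at hn0
  cases nonempty_fintype ι
  -- `G c` is a unit at `v c`
  have hG1 : ∀ c, v c (G c) = 1 := by
    intro c
    apply val_eq_one_of_pow_eq_one (v c) hn
    have e : G c ^ n = u + (G c ^ n - u) := by ring
    rw [e, Valuation.map_add_eq_of_lt_left]
    · exact hu c
    · rw [hu c]
      exact hG c
  have hG0 : ∀ c, G c ≠ 0 := by
    intro c h0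
    have := hG1 c
    rw [h0, map_zero] at this
    exact zero_ne_one this
  -- the lattice `{a | a ^ n * u ∈ B}`
  have hLam_val : ∀ a : F, a ^ n * u ∈ B → ∀ c, v c a ≤ 1 := by
    intro a ha c
    apply val_le_one_of_pow_le_one (v c) hn
    have h1 := hBv c ⟨_, ha⟩
    simp only [map_mul, hu c, mul_one] at h1
    exact h1
  have hLam_add : ∀ a a' : F, a ^ n * u ∈ B → a' ^ n * u ∈ B → (a + a') ^ n * u ∈ B := by
    intro a a' ha ha'
    rw [add_pow, Finset.sum_mul]
    refine Subring.sum_mem _ fun i hi => ?_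
    have hi' : i ≤ n := Nat.lt_succ_iff.1 (Finset.mem_range.1 hi)
    obtain ⟨m, hm⟩ : ∃ m, n - i = m := ⟨_, rfl⟩
    have hnm : n = i + m := by omega
    rw [hm]
    have hterm : a ^ i * a' ^ m * u ∈ B := by
      apply hroot
      have hu' : u ^ n = u ^ i * u ^ m := by rw [← pow_add, ← hnm]
      have e : (a ^ i * a' ^ m * u) ^ n = (a ^ n * u) ^ i * (a' ^ n * u) ^ m := by
        calc (a ^ i * a' ^ m * u) ^ n = (a ^ n) ^ i * (a' ^ n) ^ m * u ^ n := by ring
          _ = (a ^ n) ^ i * (a' ^ n) ^ m * (u ^ i * u ^ m) := by rw [hu']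
          _ = (a ^ n * u) ^ i * (a' ^ n * u) ^ m := by ring
      rw [e]
      exact B.mul_mem (B.pow_mem ha _) (B.pow_mem ha' _)
    have e : a ^ i * a' ^ m * (n.choose i : F) * u = (n.choose i : F) * (a ^ i * a' ^ m * u) := by
      ring
    rw [e]
    exact B.mul_mem (natCast_mem B _) hterm
  -- the ideal of denominators
  let 𝔞 : Ideal B :=
    { carrier := {s | ∃ a : F, a ^ n * u ∈ B ∧ ∀ c, v c (a - (s : F) / G c) < 1}
      add_mem' := by
        rintro s s' ⟨a, ha, hav⟩ ⟨a', ha', hav'⟩
        refine ⟨a + a', hLam_add a a' ha ha', fun c => ?_⟩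
        have e : a + a' - ((s + s' : B) : F) / G c
            = (a - (s : F) / G c) + (a' - (s' : F) / G c) := by
          push_cast
          ring
        rw [e]
        exact val_add_lt_one _ (hav c) (hav' c)
      zero_mem' := ⟨0, by simp [zero_pow hn], fun c => by simp⟩
      smul_mem' := by
        rintro r s ⟨a, ha, hav⟩
        refine ⟨(r : F) * a, ?_, fun c => ?_⟩
        · have e : ((r : F) * a) ^ n * u = (r : F) ^ n * (a ^ n * u) := by ring
          rw [e]
          exact B.mul_mem (B.pow_mem r.2 _) ha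
        · have e : (r : F) * a - ((r • s : B) : F) / G c = (r : F) * (a - (s : F) / G c) := by
            simp only [smul_eq_mul]
            push_cast
            ring
          rw [e]
          exact val_mul_lt_one_of_le_of_lt _ (hBv c r) (hav c) }
  have h𝔞 : ∀ s : B, s ∈ 𝔞 ↔ ∃ a : F, a ^ n * u ∈ B ∧ ∀ c, v c (a - (s : F) / G c) < 1 :=
    fun s => Iff.rfl
  suffices h1 : (1 : B) ∈ 𝔞 by
    obtain ⟨a, ha, hav⟩ := (h𝔞 1).1 h1
    have hav' : ∀ c, v c (a - (G c)⁻¹) < 1 := by
      intro c
      have := hav c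
      simpa [one_div] using this
    refine ⟨a, ha, fun c => ?_, fun c => ?_⟩
    · have e : a * G c - 1 = G c * (a - (G c)⁻¹) := by
        rw [mul_sub, mul_inv_cancel₀ (hG0 c)]
        ring
      rw [e]
      exact val_mul_lt_one_of_le_of_lt _ (hG1 c).le (hav' c)
    have hGi : v c (G c)⁻¹ = 1 := val_inv_eq_one _ (hG1 c)
    have hav' : v c (a - (G c)⁻¹) < 1 := hav' c
    have ha1 : v c a ≤ 1 := hLam_val a ha c
    have hp : v c (a ^ n - (G c)⁻¹ ^ n) < 1 :=
      val_pow_sub_pow_lt_one (v c) ha1 hGi.le hav' n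
    have hGG : (G c)⁻¹ ^ n * G c ^ n = 1 := by
      rw [← mul_pow, inv_mul_cancel₀ (hG0 c), one_pow]
    have e : a ^ n * u - 1 = u * (a ^ n - (G c)⁻¹ ^ n) - (G c)⁻¹ ^ n * (G c ^ n - u) := by
      linear_combination hGG
    rw [e]
    exact val_sub_lt_one _ (val_mul_lt_one_of_le_of_lt _ (hu c).le hp)
      (val_mul_lt_one_of_le_of_lt _ (val_pow_le_one _ hGi.le n) (hG c))
  by_contra h1
  have hne : 𝔞 ≠ ⊤ := fun h => h1 ((Ideal.eq_top_iff_one 𝔞).1 h)
  obtain ⟨P, hPmax, h𝔞P⟩ := Ideal.exists_le_maximal 𝔞 hne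
  have hPprime : P.IsPrime := hPmax.isPrime
  have hJP : ∀ b : B, (∀ c, v c (b : F) < 1) → b ∈ P := by
    intro b hb
    apply h𝔞P
    refine (h𝔞 b).2 ⟨0, by simp [zero_pow hn], fun c => ?_⟩
    rw [zero_sub, Valuation.map_neg, map_div₀, hG1 c, div_one]
    exact hb c
  obtain ⟨h, hh0, ⟨bε, sε, hbε, hsε, hεeq⟩, z', hz⟩ := @hloc P hPmax hJP
  -- valuation of elements outside `P`
  have hval1 : ∀ c, (∀ b : B, v c (b : F) < 1 → b ∈ P) → ∀ s : B, s ∉ P → v c (s : F) = 1 :=
    fun c hc s hs => le_antisymm (hBv c s) (not_lt.1 fun hlt => hs (hc s hlt))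
  have hne0 : ∀ s : B, s ∉ P → (s : F) ≠ 0 := by
    intro s hs h0
    apply hs
    have : s = 0 := Subtype.ext h0
    rw [this]
    exact P.zero_mem
  have hhn0 : h ^ n ≠ 0 := pow_ne_zero _ hh0
  -- `h` is a unit at the components through `P`
  have hh1 : ∀ c, (∀ b : B, v c (b : F) < 1 → b ∈ P) → v c (h ^ n) = 1 := by
    intro c hc
    have := congrArg (v c) hεeq
    rw [map_mul, map_mul, hu c, hval1 c hc sε hsε, hval1 c hc bε hbε, one_mul, one_mul] at this
    exact this.symm
  -- the unit `ε = u / h ^ n` of `B_P`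
  have hεmem : (u / h ^ n) * (sε : F) = (bε : F) := by
    rw [div_mul_eq_mul_div, hεeq, mul_div_assoc, div_self hhn0, mul_one]
  let ε : locSubring B P := ⟨u / h ^ n, bε, sε, hsε, hεmem⟩
  have hεu : IsUnit ε := isUnit_of_num_notMem B P ε hbε hεmem
  have hnu : IsUnit (n : locSubring B P) := by
    refine IsUnit.of_mul_eq_one ⟨(n : F)⁻¹, subring_le_locSubring B P hnB⟩ ?_
    apply Subtype.ext
    push_cast
    exact mul_inv_cancel₀ hn0
  have hf : ∀ c, (∀ b : B, v c (b : F) < 1 → b ∈ P) →
      v c ((G c / h) ^ n - (ε : F)) < 1 := by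
    intro c hc
    have e : (G c / h) ^ n - (ε : F) = (h ^ n)⁻¹ * (G c ^ n - u) := by
      show (G c / h) ^ n - u / h ^ n = (h ^ n)⁻¹ * (G c ^ n - u)
      rw [div_pow, div_eq_mul_inv, div_eq_mul_inv]
      ring
    rw [e]
    exact val_mul_lt_one_of_le_of_lt _ (val_inv_eq_one _ (hh1 c hc)).le (hG c)
  obtain ⟨x, hxz, hx⟩ := local_glue B P n hnu hn v hBv ε hεu (fun c => G c / h) hf z' hz
    Finset.univ
  -- an element of `B` outside `P` which is small on the components not through `P`
  have ht : ∀ c, ∃ t : B, t ∉ P ∧ ((∀ b : B, v c (b : F) < 1 → b ∈ P) ∨ v c (t : F) < 1) := by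
    intro c
    by_cases hc : ∀ b : B, v c (b : F) < 1 → b ∈ P
    · exact ⟨1, one_notMem_prime B P, Or.inl hc⟩
    · rw [not_forall] at hc
      obtain ⟨b, hb⟩ := hc
      rw [Classical.not_imp] at hb
      exact ⟨b, hb.2, Or.inr hb.1⟩
  choose t htP htv using ht
  have hTP : (∏ c, t c) ∉ P := by
    intro hmem
    obtain ⟨c, -, hc⟩ := (Ideal.IsPrime.prod_mem_iff).1 hmem
    exact htP c hc
  have hTv : ∀ c, ¬ (∀ b : B, v c (b : F) < 1 → b ∈ P) → v c ((∏ c, t c : B) : F) < 1 := by
    intro c hc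
    have e : (∏ c, t c) = (∏ x ∈ Finset.univ.erase c, t x) * t c := by
      rw [mul_comm]
      exact (Finset.mul_prod_erase Finset.univ t (Finset.mem_univ c)).symm
    rw [e, Subring.coe_mul]
    exact val_mul_lt_one_of_le_of_lt _ (hBv c _) ((htv c).resolve_left hc)
  -- some component passes through `P`
  obtain ⟨c₀, hc₀⟩ : ∃ c₀, ∀ b : B, v c₀ (b : F) < 1 → b ∈ P := by
    by_contra hnone
    exact hTP (hJP _ fun c => hTv c fun hall => hnone ⟨c, hall⟩)
  -- `x` is a unit of `B_P`
  have hxu : IsUnit x := by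
    have hx1 : v c₀ (x : F) ≤ 1 := val_le_one_of_mem_locSubring B P (v c₀) (hBv c₀) hc₀ x.2
    have hxc := hx c₀ (Finset.mem_univ _) hc₀
    have hfc1 : v c₀ (G c₀ / h) ≤ 1 := val_le_one_of_sub_lt_one (v c₀) hx1 hxc
    have hi : v c₀ (((x ^ n - ε : locSubring B P) : F)) < 1 := by
      have e1 : ((x ^ n - ε : locSubring B P) : F)
          = ((G c₀ / h) ^ n - (ε : F)) - ((G c₀ / h) ^ n - (x : F) ^ n) := by
        push_cast
        ring
      rw [e1]
      exact val_sub_lt_one (v c₀) (hf c₀ hc₀)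
        (val_pow_sub_pow_lt_one (v c₀) hfc1 hx1 hxc n)
    have him : x ^ n - ε ∈ maximalIdeal (locSubring B P) :=
      mem_maximalIdeal_of_val_lt_one B P (v c₀) (hBv c₀) hc₀ _ hi
    have h1 : IsUnit (x ^ n + (ε - x ^ n)) := by
      have : x ^ n + (ε - x ^ n) = ε := by ring
      rw [this]
      exact hεu
    rcases isUnit_or_isUnit_of_isUnit_add h1 with h2 | h2
    · exact (isUnit_pow_iff hn).1 h2
    · exfalso
      have h3 : ε - x ^ n ∈ maximalIdeal (locSubring B P) := by
        have : ε - x ^ n = -(x ^ n - ε) := by ring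
        rw [this]
        exact neg_mem him
      exact (IsLocalRing.mem_maximalIdeal _).1 h3 h2
  obtain ⟨xi, hxi⟩ := hxu.exists_right_inv
  have hxi' : (x : F) * (xi : F) = 1 := by
    have := congrArg (Subtype.val) hxi
    simpa using this
  -- the local seed `xi / h`, and a denominator for `(xi / h) ^ n * u`
  obtain ⟨b₀, s₀, hs₀, h₀⟩ := (xi ^ n * ε).2
  have h₀' : ((xi : F) / h) ^ n * u * (s₀ : F) = (b₀ : F) := by
    rw [← h₀]
    show ((xi : F) / h) ^ n * u * (s₀ : F) = (xi : F) ^ n * (u / h ^ n) * (s₀ : F)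
    rw [div_pow, div_eq_mul_inv, div_eq_mul_inv]
    ring
  have hs₀0 := hne0 s₀ hs₀
  have ha' : ((s₀ : F) * ((xi : F) / h)) ^ n * u ∈ B := by
    obtain ⟨k, rfl⟩ : ∃ k, n = k + 1 := Nat.exists_eq_succ_of_ne_zero hn
    have e : ((s₀ : F) * ((xi : F) / h)) ^ (k + 1) * u
        = (s₀ : F) ^ k * (((xi : F) / h) ^ (k + 1) * u * (s₀ : F)) := by ring
    rw [e, h₀']
    exact B.mul_mem (B.pow_mem s₀.2 _) b₀.2
  have hmem : (∏ c, t c) * s₀ ∈ 𝔞 := by
    refine (h𝔞 _).2 ⟨((∏ c, t c : B) : F) * ((s₀ : F) * ((xi : F) / h)), ?_, fun c => ?_⟩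
    · have e : (((∏ c, t c : B) : F) * ((s₀ : F) * ((xi : F) / h))) ^ n * u
          = ((∏ c, t c : B) : F) ^ n * (((s₀ : F) * ((xi : F) / h)) ^ n * u) := by ring
      rw [e]
      exact B.mul_mem (B.pow_mem (∏ c, t c).2 _) ha'
    · by_cases hc : ∀ b : B, v c (b : F) < 1 → b ∈ P
      · have hxc := hx c (Finset.mem_univ _) hc
        have hxi1 : v c (xi : F) ≤ 1 :=
          val_le_one_of_mem_locSubring B P (v c) (hBv c) hc xi.2
        have hh1' : v c h = 1 := val_eq_one_of_pow_eq_one (v c) hn (hh1 c hc)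
        have hGG' : (G c)⁻¹ * G c = 1 := inv_mul_cancel₀ (hG0 c)
        have e : ((∏ c, t c : B) : F) * ((s₀ : F) * ((xi : F) / h))
            - (((∏ c, t c) * s₀ : B) : F) / G c
            = (((∏ c, t c) * s₀ : B) : F) * ((xi : F) * (G c)⁻¹ * (G c / h - (x : F))) := by
          rw [Subring.coe_mul, div_eq_mul_inv, div_eq_mul_inv, div_eq_mul_inv]
          linear_combination (-(((∏ c, t c : B) : F) * (s₀ : F) * (xi : F) * h⁻¹)) * hGG'
            + (((∏ c, t c : B) : F) * (s₀ : F) * (G c)⁻¹) * hxi'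
        rw [e]
        refine val_mul_lt_one_of_le_of_lt _ (hBv c _) ?_
        exact val_mul_lt_one_of_le_of_lt _
          (val_mul_le_one _ hxi1 (val_inv_eq_one _ (hG1 c)).le) hxc
      · have hT := hTv c hc
        have e : (((∏ c, t c) * s₀ : B) : F) / G c
            = ((∏ c, t c : B) : F) * ((s₀ : F) * (G c)⁻¹) := by
          rw [Subring.coe_mul, div_eq_mul_inv]
          ring
        rw [e]
        refine val_sub_lt_one _ ?_ ?_
        · rw [mul_comm]
          exact val_mul_lt_one_of_le_of_lt _ (hLam_val _ ha' c) hT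
        · rw [mul_comm]
          exact val_mul_lt_one_of_le_of_lt _
            (val_mul_le_one _ (hBv c s₀) (val_inv_eq_one _ (hG1 c)).le) hT
  rcases hPprime.mem_or_mem (h𝔞P hmem) with h2 | h2
  · exact hTP h2
  · exact hs₀ h2

/-- **Seeds from local generators and a trivial glueing datum**, elementwise form: the
hypotheses at `P` are written with fractions `b / s`, `b, s ∈ B`, `s ∉ P`:
`u * s = b * h ^ n` with `b, s ∉ P` says that `u / h ^ n` is a unit of `B_P`, and
`v c ((G c / h - z) * s - b) < 1` with `b ∈ P`, `s ∉ P` says that `G c / h ≡ z + b / s`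
modulo `v c`, an element of `z + P B_P`. -/
theorem exists_seed
    (B : Subring F) (n : ℕ) (hn0 : (n : F) ≠ 0) (hnB : (n : F)⁻¹ ∈ B)
    (hroot : ∀ x : F, x ^ n ∈ B → x ∈ B)
    {ι : Type*} [Finite ι] {Γ : ι → Type*} [∀ c, LinearOrderedCommGroupWithZero (Γ c)]
    (v : ∀ c, Valuation F (Γ c)) (hBv : ∀ c, ∀ b : B, v c (b : F) ≤ 1)
    (u : F) (hu : ∀ c, v c u = 1)
    (G : ι → F) (hG : ∀ c, v c (G c ^ n - u) < 1)
    (hloc : ∀ P : Ideal B, P.IsMaximal → (∀ b : B, (∀ c, v c (b : F) < 1) → b ∈ P) →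
      ∃ h : F, h ≠ 0 ∧ (∃ b s : B, b ∉ P ∧ s ∉ P ∧ u * (s : F) = (b : F) * h ^ n) ∧
        ∃ z : B, ∀ c, (∀ b : B, v c (b : F) < 1 → b ∈ P) →
          ∃ b s : B, b ∈ P ∧ s ∉ P ∧ v c ((G c / h - (z : F)) * (s : F) - (b : F)) < 1) :
    ∃ a : F, a ^ n * u ∈ B ∧ (∀ c, v c (a * G c - 1) < 1) ∧
      ∀ c, v c (a ^ n * u - 1) < 1 := by
  refine exists_seed_local B n hn0 hnB hroot v hBv u hu G hG ?_
  intro P hPmax hJP
  obtain ⟨h, hh0, hε, z, hzc⟩ := hloc P hPmax hJP
  refine ⟨h, hh0, hε, ⟨z, coe_mem_locSubring B P z⟩, ?_⟩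
  intro c hc
  obtain ⟨b, s, hb, hs, hv⟩ := hzc c hc
  have hs0 : (s : F) ≠ 0 := by
    intro h0
    apply hs
    have : s = 0 := Subtype.ext h0
    rw [this]
    exact P.zero_mem
  have hs1 : v c (s : F) = 1 := le_antisymm (hBv c s) (not_lt.1 fun hlt => hs (hc s hlt))
  have hfrac : ((b : F) / (s : F)) * (s : F) = (b : F) := by field_simp
  let t : locSubring B P := ⟨(b : F) / (s : F), b, s, hs, hfrac⟩
  refine ⟨⟨z, coe_mem_locSubring B P z⟩ + t, ?_, ?_⟩
  · have e : (⟨z, coe_mem_locSubring B P z⟩ : locSubring B P) + t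
        - ⟨z, coe_mem_locSubring B P z⟩ = t := by ring
    rw [e]
    exact (mem_maximalIdeal_locSubring_iff B P t).2 ⟨b, s, hb, hs, hfrac⟩
  · have e : G c / h - (((⟨z, coe_mem_locSubring B P z⟩ : locSubring B P) + t
        : locSubring B P) : F)
        = (s : F)⁻¹ * ((G c / h - (z : F)) * (s : F) - (b : F)) := by
      show G c / h - ((z : F) + (b : F) / (s : F)) = _
      field_simp
      ring
    rw [e]
    exact val_mul_lt_one_of_le_of_lt _ (val_inv_eq_one _ hs1).le hv

/-- Two seeds built from the same family `G` are compatible on the overlap: the overlap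
hypothesis of the Newton core. -/
theorem val_overlap_lt_one {Γ : Type*} [LinearOrderedCommGroupWithZero Γ] (v : Valuation F Γ)
    {n : ℕ} (hn : n ≠ 0) {u g a b : F} (hu : v u = 1) (hg : v (g ^ n - u) < 1)
    (ha : v (a * g - 1) < 1) (hb : v (b * g - 1) < 1) :
    v (a * b ^ (n - 1) * u - 1) < 1 := by
  have hg1 : v g = 1 := by
    apply val_eq_one_of_pow_eq_one v hn
    have e : g ^ n = u + (g ^ n - u) := by ring
    rw [e, Valuation.map_add_eq_of_lt_left]
    · exact hu
    · rw [hu]
      exact hg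
  have hg0 : g ≠ 0 := by
    intro h0
    rw [h0, map_zero] at hg1
    exact zero_ne_one hg1
  have hgi : v g⁻¹ = 1 := val_inv_eq_one v hg1
  have key : ∀ x : F, v (x * g - 1) < 1 → v (x - g⁻¹) < 1 := by
    intro x hx
    have e : x - g⁻¹ = g⁻¹ * (x * g - 1) := by
      field_simp
    rw [e]
    exact val_mul_lt_one_of_le_of_lt v hgi.le hx
  have ha' := key a ha
  have hb' := key b hb
  have ha1 : v a ≤ 1 := val_le_one_of_sub_lt_one v hgi.le ha'
  have hb1 : v b ≤ 1 := val_le_one_of_sub_lt_one v hgi.le hb'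
  have hbp : v (b ^ (n - 1) - g⁻¹ ^ (n - 1)) < 1 :=
    val_pow_sub_pow_lt_one v hb1 hgi.le hb' (n - 1)
  have hgg : g⁻¹ * g⁻¹ ^ (n - 1) * g ^ n = 1 := by
    obtain ⟨k, rfl⟩ : ∃ k, n = k + 1 := Nat.exists_eq_succ_of_ne_zero hn
    rw [Nat.add_sub_cancel, ← pow_succ', ← mul_pow, inv_mul_cancel₀ hg0, one_pow]
  have e : a * b ^ (n - 1) * u - 1
      = u * (b ^ (n - 1) * (a - g⁻¹)) + u * (g⁻¹ * (b ^ (n - 1) - g⁻¹ ^ (n - 1)))
        - g⁻¹ * g⁻¹ ^ (n - 1) * (g ^ n - u) := by
    linear_combination hgg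
  rw [e]
  refine val_sub_lt_one v (val_add_lt_one v ?_ ?_) ?_
  · exact val_mul_lt_one_of_le_of_lt v hu.le
      (val_mul_lt_one_of_le_of_lt v (val_pow_le_one v hb1 _) ha')
  · exact val_mul_lt_one_of_le_of_lt v hu.le (val_mul_lt_one_of_le_of_lt v hgi.le hbp)
  · exact val_mul_lt_one_of_le_of_lt v
      (val_mul_le_one v hgi.le (val_pow_le_one v hgi.le _)) hg

end Seed

end Fermat.Agent.S36.helper4913
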