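import Mathlib

/-!
# S36 — closed points of the special fibre of a chart have residue field `k`  (helper8220)

Supplier of the fields `resk`, `resk'` of `helper36.KillData` (KILL-ASM, lifted vocabulary):

*the residue field of every closed point of the special fibre of a chart ring is the residue
field of the base valuation ring `O`, as soon as the latter is algebraically closed and the chart
ring is of finite type over `O`.*

Everything is stated elementwise inside a field `F ⊇ K`:  `O : ValuationSubring K`,
`B : Subring F` the chart ring, `P : Ideal B` a maximal ideal containing the image of the maximal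
ideal of `O`.  The conclusion
`∃ z ∈ O, ∃ h : b - algebraMap K F z ∈ B, ⟨b - algebraMap K F z, h⟩ ∈ P`
is, by unfolding, `∃ z ∈ O, helper36.InP B P (b - algebraMap K F z)`.

Proof: `B ⧸ P` is a field of finite type over the algebraically closed field `k = O / 𝔪`, hence
integral over it (Zariski's lemma, Mathlib: `MvPolynomial.comp_C_integral_of_surjective_of_isJacobsonRing`),
hence equal to it.

`import Mathlib` only.
-/

set_option autoImplicit false

namespace Fermat.Agent.S36.helper8220

open IsLocalRing

section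

variable {K F : Type*} [Field K] [Field F] [Algebra K F]

/-- The structure map `O → B` (constants of `O` inside the chart ring `B`). -/
noncomputable def constHom (O : ValuationSubring K) (B : Subring F)
    (hO : ∀ a : K, a ∈ O → algebraMap K F a ∈ B) : O →+* B :=
  ((algebraMap K F).comp O.subtype).codRestrict B (fun a => hO a a.2)

@[simp] lemma constHom_coe (O : ValuationSubring K) (B : Subring F)
    (hO : ∀ a : K, a ∈ O → algebraMap K F a ∈ B) (a : O) :
    ((constHom O B hO a : B) : F) = algebraMap K F (a : K) := rfl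

/-- **Closed points are `k`-rational** (finite-type form).  `B` is generated as a ring by the
constants of `O` and a finite set `S`; `P` is a maximal ideal of `B` containing the image of the
maximal ideal of `O`; the residue field of `O` is algebraically closed.  Then every element of
`B` is congruent modulo `P` to a constant of `O`. -/
theorem exists_const_sub_mem_of_closure
    (O : ValuationSubring K) [IsAlgClosed (ResidueField O)]
    (B : Subring F) (hO : ∀ a : K, a ∈ O → algebraMap K F a ∈ B)
    (S : Finset F) (hS : ∀ s ∈ S, s ∈ B)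
    (hgen : ∀ y : F, y ∈ B →
      y ∈ Subring.closure ((algebraMap K F) '' (O : Set K) ∪ (S : Set F)))
    (P : Ideal B) (hP : P.IsMaximal)
    (hm : ∀ a : O, a ∈ maximalIdeal O → constHom O B hO a ∈ P)
    (b : F) (hb : b ∈ B) :
    ∃ z : K, z ∈ O ∧ ∃ h : b - algebraMap K F z ∈ B, (⟨b - algebraMap K F z, h⟩ : B) ∈ P := by
  classical
  let _ : Field (B ⧸ P) := Ideal.Quotient.field P
  -- the map `O → B ⧸ P`
  let φ : O →+* B ⧸ P := (Ideal.Quotient.mk P).comp (constHom O B hO)
  have hφ : ∀ a : O, a ∈ maximalIdeal O → φ a = 0 := fun a ha =>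
    Ideal.Quotient.eq_zero_iff_mem.mpr (hm a ha)
  have : IsLocalHom φ := by
    refine ⟨fun a ha => ?_⟩
    by_contra hna
    have : a ∈ maximalIdeal O := (IsLocalRing.mem_maximalIdeal a).mpr hna
    rw [hφ a this] at ha
    exact not_isUnit_zero ha
  let ψ : ResidueField O →+* B ⧸ P := ResidueField.lift φ
  have hψ : ∀ a : O, ψ (residue O a) = φ a := fun a => ResidueField.lift_residue_apply φ a
  -- the presentation
  let f : MvPolynomial {s // s ∈ S} (ResidueField O) →+* B ⧸ P :=
    MvPolynomial.eval₂Hom ψ (fun s => Ideal.Quotient.mk P ⟨s.1, hS s.1 s.2⟩)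
  have hfC : ∀ r, f (MvPolynomial.C r) = ψ r := fun r => MvPolynomial.eval₂Hom_C _ _ r
  have hfX : ∀ s : {s // s ∈ S}, f (MvPolynomial.X s) = Ideal.Quotient.mk P ⟨s.1, hS s.1 s.2⟩ :=
    fun s => MvPolynomial.eval₂Hom_X' _ _ s
  -- every class is in the range of `f`
  have hrange : ∀ y : B, Ideal.Quotient.mk P y ∈ f.range := by
    let R : Subring B := f.range.comap (Ideal.Quotient.mk P)
    have hle : Subring.closure ((algebraMap K F) '' (O : Set K) ∪ (S : Set F)) ≤
        R.map B.subtype := by
      rw [Subring.closure_le]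
      rintro y (⟨a, ha, rfl⟩ | hy)
      · refine ⟨constHom O B hO ⟨a, ha⟩, ?_, rfl⟩
        show Ideal.Quotient.mk P (constHom O B hO ⟨a, ha⟩) ∈ f.range
        exact ⟨MvPolynomial.C (residue O ⟨a, ha⟩), by rw [hfC, hψ]; rfl⟩
      · refine ⟨⟨y, hS y hy⟩, ?_, rfl⟩
        show Ideal.Quotient.mk P ⟨y, hS y hy⟩ ∈ f.range
        exact ⟨MvPolynomial.X ⟨y, hy⟩, hfX ⟨y, hy⟩⟩
    intro y
    obtain ⟨y', hy', hyy'⟩ := hle (hgen y y.2)
    have : y' = y := Subtype.ext hyy'
    subst this
    exact hy'
  have hsurj : Function.Surjective f := by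
    intro c
    obtain ⟨y, rfl⟩ := Ideal.Quotient.mk_surjective c
    exact hrange y
  -- Zariski's lemma
  have hint : (f.comp MvPolynomial.C).IsIntegral :=
    MvPolynomial.comp_C_integral_of_surjective_of_isJacobsonRing f hsurj
  have hfc : f.comp MvPolynomial.C = ψ := RingHom.ext fun r => hfC r
  rw [hfc] at hint
  have hψsurj : Function.Surjective ψ := (IsAlgClosed.ringHom_bijective_of_isIntegral ψ hint).2
  -- conclusion
  obtain ⟨r, hr⟩ := hψsurj (Ideal.Quotient.mk P ⟨b, hb⟩)
  obtain ⟨a, rfl⟩ := residue_surjective r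
  rw [hψ] at hr
  have hmem : (⟨b, hb⟩ : B) - constHom O B hO a ∈ P := by
    rw [← Ideal.Quotient.eq]
    exact hr.symm
  refine ⟨(a : K), a.2, ?_⟩
  have hB : b - algebraMap K F (a : K) ∈ B := B.sub_mem hb (hO a a.2)
  refine ⟨hB, ?_⟩
  have : (⟨b - algebraMap K F (a : K), hB⟩ : B) = ⟨b, hb⟩ - constHom O B hO a := Subtype.ext rfl
  rw [this]
  exact hmem

/-- The span over the constants of `O` of the monomials `x ^ k * g` (`g ∈ G`) lies in the ring
generated by the constants of `O`, `x` and `G`: the finiteness field `fg0` of `helper36.KillData`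
is a finite-type statement. -/
theorem span_le_closure (O : ValuationSubring K) (x : F) (G : Finset F) (y : F)
    (hy : y ∈ Submodule.span (O.toSubring.map (algebraMap K F))
      {z : F | ∃ k : ℕ, ∃ g ∈ G, z = x ^ k * g}) :
    y ∈ Subring.closure ((algebraMap K F) '' (O : Set K) ∪ insert x (G : Set F)) := by
  set T : Subring F :=
    Subring.closure ((algebraMap K F) '' (O : Set K) ∪ insert x (G : Set F)) with hT
  have hxT : x ∈ T := Subring.subset_closure (Or.inr (Set.mem_insert x _))
  have hGT : ∀ g ∈ G, g ∈ T := fun g hg =>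
    Subring.subset_closure (Or.inr (Set.mem_insert_of_mem x (Finset.mem_coe.mpr hg)))
  have hOT : ∀ c : (O.toSubring.map (algebraMap K F)), (c : F) ∈ T := by
    rintro ⟨c, a, ha, rfl⟩
    exact Subring.subset_closure (Or.inl ⟨a, ha, rfl⟩)
  induction hy using Submodule.span_induction with
  | mem z hz =>
    obtain ⟨k, g, hg, rfl⟩ := hz
    exact T.mul_mem (T.pow_mem hxT k) (hGT g hg)
  | zero => exact T.zero_mem
  | add u v _ _ hu hv => exact T.add_mem hu hv
  | smul c u _ hu => exact T.mul_mem (hOT c) hu

/-- **Closed points are `k`-rational** (module-finite form = the shape of `helper36.KillData.fg0`).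
`B ∋ x` is spanned over the constants of `O` by the monomials `x ^ k * g`, `g ∈ G ⊆ B`. -/
theorem exists_const_sub_mem_of_span
    (O : ValuationSubring K) [IsAlgClosed (ResidueField O)]
    (B : Subring F) (hO : ∀ a : K, a ∈ O → algebraMap K F a ∈ B)
    (x : F) (hx : x ∈ B) (G : Finset F) (hG : ∀ g ∈ G, g ∈ B)
    (hfg : ∀ y : F, y ∈ B → y ∈ Submodule.span (O.toSubring.map (algebraMap K F))
      {z : F | ∃ k : ℕ, ∃ g ∈ G, z = x ^ k * g})
    (P : Ideal B) (hP : P.IsMaximal)
    (hm : ∀ a : O, a ∈ maximalIdeal O → constHom O B hO a ∈ P)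
    (b : F) (hb : b ∈ B) :
    ∃ z : K, z ∈ O ∧ ∃ h : b - algebraMap K F z ∈ B, (⟨b - algebraMap K F z, h⟩ : B) ∈ P := by
  classical
  refine exists_const_sub_mem_of_closure O B hO (insert x G) ?_ ?_ P hP hm b hb
  · intro s hs
    rcases Finset.mem_insert.mp hs with rfl | hs
    · exact hx
    · exact hG s hs
  · intro y hy
    rw [Finset.coe_insert]
    exact span_le_closure O x G y (hfg y hy)

/-- A maximal ideal containing the uniformiser `q` contains the image of the maximal ideal of `O`
(`O` a discrete valuation ring with uniformiser the natural number `q`, in the elementwise form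
`unif` of `helper36.BaseDVR`). -/
theorem constHom_mem_of_unif (O : ValuationSubring K) (B : Subring F)
    (hO : ∀ a : K, a ∈ O → algebraMap K F a ∈ B) (q : ℕ) (hq0 : (q : K) ≠ 0)
    (hunif : ∀ c : K, c ∈ O.nonunits → c / (q : K) ∈ O)
    (P : Ideal B) (hqP : ∃ h : (q : F) ∈ B, (⟨(q : F), h⟩ : B) ∈ P)
    (a : O) (ha : a ∈ maximalIdeal O) : constHom O B hO a ∈ P := by
  obtain ⟨hqB, hqP⟩ := hqP
  have hnu : (a : K) ∈ O.nonunits := by
    rw [ValuationSubring.mem_nonunits_iff_exists_mem_maximalIdeal]
    exact ⟨a.2, ha⟩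
  have hc : (a : K) / (q : K) ∈ O := hunif _ hnu
  have : constHom O B hO a = ⟨(q : F), hqB⟩ * constHom O B hO ⟨(a : K) / (q : K), hc⟩ := by
    apply Subtype.ext
    show algebraMap K F (a : K) = (q : F) * algebraMap K F ((a : K) / (q : K))
    rw [← map_natCast (algebraMap K F) q, ← map_mul]
    congr 1
    field_simp
  rw [this]
  exact P.mul_mem_right _ hqP

/-- **`resk` of `helper36.KillData`, verbatim shape** (chart with coordinate `x`).
`O` has uniformiser `q` and algebraically closed residue field, `B` is spanned over the constants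
of `O` by the `x ^ k * g`; then for every maximal ideal `P ∋ q` of `B` and every `b ∈ B` there is
a constant `z ∈ O` with `b - z ∈ P`. -/
theorem resk_of_span
    (O : ValuationSubring K) (hk : IsAlgClosed (ResidueField O))
    (q : ℕ) (hq0 : (q : K) ≠ 0) (hunif : ∀ c : K, c ∈ O.nonunits → c / (q : K) ∈ O)
    (B : Subring F) (hO : ∀ a : K, a ∈ O → algebraMap K F a ∈ B)
    (x : F) (hx : x ∈ B) (G : Finset F) (hG : ∀ g ∈ G, g ∈ B)
    (hfg : ∀ y : F, y ∈ B → y ∈ Submodule.span (O.toSubring.map (algebraMap K F))
      {z : F | ∃ k : ℕ, ∃ g ∈ G, z = x ^ k * g})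
    (P : Ideal B) (hP : P.IsMaximal) (hqP : ∃ h : (q : F) ∈ B, (⟨(q : F), h⟩ : B) ∈ P)
    (b : F) (hb : b ∈ B) :
    ∃ z : K, z ∈ O ∧ ∃ h : b - algebraMap K F z ∈ B, (⟨b - algebraMap K F z, h⟩ : B) ∈ P :=
  haveI := hk
  exists_const_sub_mem_of_span O B hO x hx G hG hfg P hP
    (constHom_mem_of_unif O B hO q hq0 hunif P hqP) b hb

end

end Fermat.Agent.S36.helper8220
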