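import Mathlib
import Fermat.Agent.S36.helper8220_ResK
import Fermat.Agent.S36.helper248_RootLatticeChart
import Fermat.Agent.S36.helper4913_SeedGlue

/-!
# S36 — closed points of the chart rings are `k`-rational: integral form  (helper8220)

Continuation of `helper8220_ResK` in the vocabulary of the datum v2 of KILL-ASM
(`helper36_KillData`, origin/helper36 55170aa8): the charts are
`helper248.chartRing O s` (integral closure of `O[s]` in `F`) and the local rings are
`helper4913.locSubring B P`.

* `exists_const_sub_mem_of_integral` : `B` INTEGRAL over the ring generated by the constants of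
  `O` and a finite set (no finiteness of `B` needed) `⟹` closed points over `𝔪_O` are
  `k`-rational.
* `chartRing_resk`, `chartRing_resk_of_unif` : the same for `helper248.chartRing O s`, `s` finite
  (so for `chart O x i = chartRing O (if i = 0 then {x} else {x⁻¹})` and for `chart01`).
* `locSubring_resk` : every element of the local ring `B_P` is congruent modulo its maximal ideal
  to a constant of `O`  (the constants step of the glueing: "values at `P`" are constants).
-/

set_option autoImplicit false

namespace Fermat.Agent.S36.helper8220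

open IsLocalRing Polynomial

section

variable {K F : Type*} [Field K] [Field F] [Algebra K F]

/-- **Closed points are `k`-rational** (integral form).  `B` is integral over the ring generated
by the constants of `O` and a finite set `S ⊆ B`; `P` is a maximal ideal of `B` containing the
image of the maximal ideal of `O`; the residue field of `O` is algebraically closed.  Then every
element of `B` is congruent modulo `P` to a constant of `O`. -/
theorem exists_const_sub_mem_of_integral
    (O : ValuationSubring K) [IsAlgClosed (ResidueField O)]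
    (B : Subring F) (hO : ∀ a : K, a ∈ O → algebraMap K F a ∈ B)
    (S : Finset F) (hS : ∀ s ∈ S, s ∈ B)
    (hint : ∀ y : F, y ∈ B →
      IsIntegral (Subring.closure ((algebraMap K F) '' (O : Set K) ∪ (S : Set F))) y)
    (P : Ideal B) (hP : P.IsMaximal)
    (hm : ∀ a : O, a ∈ maximalIdeal O → constHom O B hO a ∈ P)
    (b : F) (hb : b ∈ B) :
    ∃ z : K, z ∈ O ∧ ∃ h : b - algebraMap K F z ∈ B, (⟨b - algebraMap K F z, h⟩ : B) ∈ P := by
  classical
  set R0 : Subring F := Subring.closure ((algebraMap K F) '' (O : Set K) ∪ (S : Set F)) with hR0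
  have hle : R0 ≤ B := by
    rw [hR0, Subring.closure_le]
    rintro y (⟨a, ha, rfl⟩ | hy)
    · exact hO a ha
    · exact hS y hy
  have hO0 : ∀ a : K, a ∈ O → algebraMap K F a ∈ R0 := fun a ha =>
    Subring.subset_closure (Or.inl ⟨a, ha, rfl⟩)
  have hS0 : ∀ s ∈ S, s ∈ R0 := fun s hs => Subring.subset_closure (Or.inr hs)
  let ι : R0 →+* B := Subring.inclusion hle
  let _ : Field (B ⧸ P) := Ideal.Quotient.field P
  -- the contraction of `P` to `R0` is maximal
  have hP0 : (P.comap ι).IsMaximal := by
    let _ : Algebra R0 B := ι.toAlgebra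
    have : IsScalarTower R0 B F := IsScalarTower.of_algebraMap_eq (fun r => rfl)
    have : Algebra.IsIntegral R0 B := by
      refine ⟨fun y => ?_⟩
      have h1 : IsIntegral R0 (algebraMap B F y) := hint (y : F) y.2
      exact (isIntegral_algebraMap_iff (R := R0) (A := B) (B := F) Subtype.val_injective).1 h1
    exact Ideal.isMaximal_comap_of_isIntegral_of_isMaximal (R := R0) P
  -- finite-type case on `R0`
  have hR0k : ∀ r : R0, ∃ z : O, ι r - constHom O B hO z ∈ P := by
    intro r
    obtain ⟨z, hz, hB, hmem⟩ := exists_const_sub_mem_of_closure O R0 hO0 S hS0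
      (fun y hy => hy) (P.comap ι) hP0
      (fun a ha => by
        show ι (constHom O R0 hO0 a) ∈ P
        have : ι (constHom O R0 hO0 a) = constHom O B hO a := Subtype.ext rfl
        rw [this]
        exact hm a ha) (r : F) r.2
    refine ⟨⟨z, hz⟩, ?_⟩
    have : ι r - constHom O B hO ⟨z, hz⟩ = ι ⟨(r : F) - algebraMap K F z, hB⟩ := Subtype.ext rfl
    rw [this]
    exact hmem
  -- the map `k → B ⧸ P`
  let φ : O →+* B ⧸ P := (Ideal.Quotient.mk P).comp (constHom O B hO)
  have hφ : ∀ a : O, a ∈ maximalIdeal O → φ a = 0 := fun a ha =>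
    Ideal.Quotient.eq_zero_iff_mem.mpr (hm a ha)
  have : IsLocalHom φ := by
    refine ⟨fun a ha => ?_⟩
    by_contra hna
    have : a ∈ maximalIdeal O := (IsLocalRing.mem_maximalIdeal a).mpr hna
    rw [hφ a this] at ha
    exact not_isUnit_zero ha
  let ψ : ResidueField O →+* B ⧸ P := ResidueField.lift φ
  have hψ : ∀ a : O, ψ (residue O a) = φ a := fun a => ResidueField.lift_residue_apply φ a
  let g : R0 →+* B ⧸ P := (Ideal.Quotient.mk P).comp ι
  have hg : ∀ r : R0, g r ∈ Set.range ψ := by
    intro r
    obtain ⟨z, hz⟩ := hR0k r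
    refine ⟨residue O z, ?_⟩
    rw [hψ]
    exact (Ideal.Quotient.eq.mpr hz).symm
  -- `ψ` is integral
  have hψint : ψ.IsIntegral := by
    intro c
    obtain ⟨y, rfl⟩ := Ideal.Quotient.mk_surjective c
    obtain ⟨p, hpm, hp0⟩ := hint (y : F) y.2
    -- `p` has the root `mk y` after mapping to `B ⧸ P`
    have hroot : (p.map g).eval (Ideal.Quotient.mk P y) = 0 := by
      have h1 : Polynomial.eval₂ (ι : R0 →+* B) y p = 0 := by
        apply Subtype.val_injective
        have hcomp : B.subtype.comp (ι : R0 →+* B) = algebraMap R0 F := RingHom.ext fun r => rfl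
        have h2 : ((Polynomial.eval₂ (ι : R0 →+* B) y p : B) : F) =
            Polynomial.eval₂ (algebraMap R0 F) (y : F) p := by
          have := Polynomial.hom_eval₂ p (ι : R0 →+* B) B.subtype y
          rw [hcomp] at this
          exact this
        rw [h2, hp0]
        rfl
      rw [Polynomial.eval_map]
      have h3 := Polynomial.hom_eval₂ p (ι : R0 →+* B) (Ideal.Quotient.mk P) y
      rw [h1, map_zero] at h3
      exact h3.symm
    have hlift : p.map g ∈ Polynomial.lifts ψ := by
      rw [Polynomial.lifts_iff_coeff_lifts]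
      intro n
      rw [Polynomial.coeff_map]
      exact hg _
    obtain ⟨q, hq, -, hqm⟩ := Polynomial.lifts_and_degree_eq_and_monic hlift (hpm.map g)
    refine ⟨q, hqm, ?_⟩
    rw [← Polynomial.eval_map, hq]
    exact hroot
  have hψsurj : Function.Surjective ψ := (IsAlgClosed.ringHom_bijective_of_isIntegral ψ hψint).2
  -- conclusion
  obtain ⟨r, hr⟩ := hψsurj (Ideal.Quotient.mk P ⟨b, hb⟩)
  obtain ⟨a, rfl⟩ := residue_surjective r
  rw [hψ] at hr
  have hmem : (⟨b, hb⟩ : B) - constHom O B hO a ∈ P := by
    rw [← Ideal.Quotient.eq]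
    exact hr.symm
  refine ⟨(a : K), a.2, ?_⟩
  have hB : b - algebraMap K F (a : K) ∈ B := B.sub_mem hb (hO a a.2)
  refine ⟨hB, ?_⟩
  have : (⟨b - algebraMap K F (a : K), hB⟩ : B) = ⟨b, hb⟩ - constHom O B hO a := Subtype.ext rfl
  rw [this]
  exact hmem

open Fermat.Agent.S36.helper248 in
/-- The constants of `O` inside a chart ring `helper248.chartRing O s`. -/
theorem const_mem_chartRing (O : ValuationSubring K) (s : Set F) (a : K) (ha : a ∈ O) :
    algebraMap K F a ∈ chartRing O s :=
  algebraMap_mem_chartRing (A0 := O) s ⟨a, ha⟩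

open Fermat.Agent.S36.helper248 in
/-- **`resk` for the chart rings of KILL-ASM** (`helper248.chartRing O s`, `s` finite: the
integral closure of `O[s]` in `F`).  `P` a maximal ideal of the chart ring containing the
constants of `𝔪_O`, residue field of `O` algebraically closed: every element of the chart ring is
congruent modulo `P` to a constant of `O`.  No finiteness / noetherian / normality hypothesis. -/
theorem chartRing_resk
    (O : ValuationSubring K) (hk : IsAlgClosed (ResidueField O))
    (s : Set F) (hs : s.Finite)
    (P : Ideal (chartRing O s)) (hP : P.IsMaximal)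
    (hm : ∀ a : O, a ∈ maximalIdeal O →
      (⟨algebraMap K F (a : K), const_mem_chartRing O s a a.2⟩ : chartRing O s) ∈ P)
    (b : chartRing O s) :
    ∃ z : O, b - ⟨algebraMap K F (z : K), const_mem_chartRing O s z z.2⟩ ∈ P := by
  classical
  have := hk
  have hsB : ∀ y ∈ hs.toFinset, y ∈ chartRing O s := fun y hy =>
    mem_chartRing_of_mem (A0 := O) ((Set.Finite.mem_toFinset hs).1 hy)
  have hint : ∀ y : F, y ∈ chartRing O s →
      IsIntegral (Subring.closure ((algebraMap K F) '' (O : Set K) ∪ (hs.toFinset : Set F))) y := by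
    intro y hy
    have h1 : IsIntegral (Algebra.adjoin O s) y := hy
    have h2 : (Algebra.adjoin O s).toSubring =
        Subring.closure ((algebraMap K F) '' (O : Set K) ∪ (hs.toFinset : Set F)) := by
      rw [Algebra.adjoin_eq_ring_closure, Set.Finite.coe_toFinset]
      congr 2
      ext w
      constructor
      · rintro ⟨a, rfl⟩
        exact ⟨(a : K), a.2, rfl⟩
      · rintro ⟨a, ha, rfl⟩
        exact ⟨⟨a, ha⟩, rfl⟩
    rw [← h2]
    exact h1
  obtain ⟨z, hz, hB, hmem⟩ := exists_const_sub_mem_of_integral O (chartRing O s)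
    (const_mem_chartRing O s) hs.toFinset hsB hint P hP
    (fun a ha => by
      have : constHom O (chartRing O s) (const_mem_chartRing O s) a =
          ⟨algebraMap K F (a : K), const_mem_chartRing O s a a.2⟩ := Subtype.ext rfl
      rw [this]
      exact hm a ha) (b : F) b.2
  refine ⟨⟨z, hz⟩, ?_⟩
  have : b - ⟨algebraMap K F z, const_mem_chartRing O s z hz⟩ =
      (⟨(b : F) - algebraMap K F z, hB⟩ : chartRing O s) := Subtype.ext rfl
  rw [this]
  exact hmem

open Fermat.Agent.S36.helper248 in
/-- The same with the hypothesis `q ∈ P` (`q` the uniformiser of `O`, in the elementwise form of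
`helper36.BaseDVR.unif`). -/
theorem chartRing_resk_of_unif
    (O : ValuationSubring K) (hk : IsAlgClosed (ResidueField O))
    (q : ℕ) (hq0 : (q : K) ≠ 0) (hunif : ∀ c : K, c ∈ O.nonunits → c / (q : K) ∈ O)
    (s : Set F) (hs : s.Finite)
    (P : Ideal (chartRing O s)) (hP : P.IsMaximal)
    (hqP : ∀ h : (q : F) ∈ chartRing O s, (⟨(q : F), h⟩ : chartRing O s) ∈ P)
    (b : chartRing O s) :
    ∃ z : O, b - ⟨algebraMap K F (z : K), const_mem_chartRing O s z z.2⟩ ∈ P := by
  have hqB : (q : F) ∈ chartRing O s := by
    have := const_mem_chartRing (F := F) O s (q : K) (natCast_mem O q)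
    rwa [map_natCast] at this
  refine chartRing_resk O hk s hs P hP (fun a ha => ?_) b
  have := constHom_mem_of_unif O (chartRing O s) (const_mem_chartRing O s) q hq0 hunif P
    ⟨hqB, hqP hqB⟩ a ha
  have e : constHom O (chartRing O s) (const_mem_chartRing O s) a =
      ⟨algebraMap K F (a : K), const_mem_chartRing O s a a.2⟩ := Subtype.ext rfl
  rw [e] at this
  exact this

open Fermat.Agent.S36.helper4913 in
/-- **Values at a closed point are constants**: if every element of `B` is congruent modulo the
prime `P` to a constant of `O` (e.g. by `chartRing_resk`), and the constants of `O` outside `P`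
are units of `O` (i.e. `P` lies over `𝔪_O`), then every element of the local ring
`helper4913.locSubring B P ⊆ F` is congruent modulo its maximal ideal to a constant of `O`:
`y - z = p / s` with `p ∈ P`, `s ∈ B ∖ P`. -/
theorem locSubring_resk
    (O : ValuationSubring K) (B : Subring F) (hO : ∀ a : K, a ∈ O → algebraMap K F a ∈ B)
    (P : Ideal B) [hP : P.IsPrime]
    (hm : ∀ a : O, a ∈ maximalIdeal O → constHom O B hO a ∈ P)
    (hres : ∀ b : B, ∃ z : O, b - constHom O B hO z ∈ P)
    (y : F) (hy : y ∈ locSubring B P) :
    ∃ z : O, ∃ p s : B, p ∈ P ∧ s ∉ P ∧ (y - algebraMap K F (z : K)) * (s : F) = (p : F) := by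
  obtain ⟨b, s, hs, h⟩ := hy
  obtain ⟨z1, hz1⟩ := hres b
  obtain ⟨z2, hz2⟩ := hres s
  -- `z2` is a unit of `O`
  have hz2u : IsUnit z2 := by
    by_contra hnu
    have h1 : z2 ∈ maximalIdeal O := (IsLocalRing.mem_maximalIdeal z2).mpr hnu
    have h2 : constHom O B hO z2 ∈ P := hm z2 h1
    apply hs
    have : s = (s - constHom O B hO z2) + constHom O B hO z2 := by ring
    rw [this]
    exact P.add_mem hz2 h2
  obtain ⟨w, hw⟩ := hz2u.exists_right_inv
  -- the constant `z1 / z2`
  refine ⟨z1 * w, (b - constHom O B hO z1) -
      constHom O B hO (z1 * w) * (s - constHom O B hO z2), s, ?_, hs, ?_⟩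
  · exact P.sub_mem hz1 (P.mul_mem_left _ hz2)
  · have hwK : ((z2 : K)) * (w : K) = 1 := by
      have := congrArg (Subtype.val) hw
      simpa using this
    have e1 : algebraMap K F (z2 : K) * algebraMap K F (w : K) = 1 := by
      rw [← map_mul, hwK, map_one]
    have hcoe : (((b - constHom O B hO z1) -
        constHom O B hO (z1 * w) * (s - constHom O B hO z2) : B) : F) =
        ((b : F) - algebraMap K F (z1 : K)) -
          algebraMap K F ((z1 : K) * (w : K)) * ((s : F) - algebraMap K F (z2 : K)) := rfl
    have hzw : (((z1 * w : O)) : K) = (z1 : K) * (w : K) := rfl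
    rw [hcoe, hzw, map_mul]
    linear_combination h - algebraMap K F (z1 : K) * e1

end

end Fermat.Agent.S36.helper8220
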