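import Fermat.Agent.S36.helper8039_LPKill
import Fermat.Agent.S36.helper8220_ChartResK

/-!
# S36: the field `lp` of `helper36.KillData`, residue fields discharged (helper8039)

`lpProp_of_cases_baseDVR` = `helper8039.lpProp_of_cases` with the hypothesis `hres` (the closed
points of the special fibre of the charts are rational over the residue field of `O`) discharged
from `helper36.BaseDVR O q` by `helper8220.chartRing_resk_of_unif`.
-/

set_option autoImplicit false

namespace Fermat.Agent.S36.helper8039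

open Fermat.Agent.S36.helper36 (chart LPProp BaseDVR)
open Fermat.Agent.S36.helper248 (chartRing)
open Fermat.Agent.S36.helper1730 (NilMod)
open Fermat.Agent.S36.helper6136

section Kill

variable {K F F' : Type*} [Field K] [Field F] [Field F'] [Algebra K F] [Algebra K F']

/-- The closed points of the special fibre of the charts are rational over the residue field of
`O` (from `helper8220.chartRing_resk_of_unif`), in the shape of the hypothesis `hres` of
`lpProp_of_cases`. -/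
theorem chart_resk (O : ValuationSubring K) (q : ℕ) (hbase : BaseDVR O q) (x : F) (i : Fin 2)
    (P : Ideal (chart O x i)) (hP : P.IsMaximal) (hqP : (q : chart O x i) ∈ P)
    (b : chart O x i) :
    ∃ z ∈ O, ∃ h : algebraMap K F z ∈ chart O x i, b - ⟨_, h⟩ ∈ P := by
  have hfin : (if i = 0 then ({x} : Set F) else {x⁻¹}).Finite := by
    split_ifs <;> exact Set.finite_singleton _
  obtain ⟨z, hz⟩ := helper8220.chartRing_resk_of_unif O hbase.algClosed q hbase.q_ne hbase.unif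
    (if i = 0 then ({x} : Set F) else {x⁻¹}) hfin P hP
    (fun h => by
      have : (⟨(q : F), h⟩ : chartRing O (if i = 0 then ({x} : Set F) else {x⁻¹})) =
          (q : chart O x i) := Subtype.ext (by rw [Subring.coe_natCast])
      rw [this]
      exact hqP) b
  exact ⟨(z : K), z.2, _, hz⟩

/-- **The `lp` field of `helper36.KillData` from the (LP) casework**, residue fields of the
closed points discharged from `BaseDVR`. -/
theorem lpProp_of_cases_baseDVR [CharZero K] (O : ValuationSubring K) (q : ℕ)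
    (hbase : BaseDVR O q)
    (α β : F' →ₐ[K] F) (x : F) (x' : F')
    (hx : Transcendental K x) (hx' : Transcendental K x')
    [FiniteDimensional (IntermediateField.adjoin K ({x} : Set F)) F]
    [FiniteDimensional (IntermediateField.adjoin K ({x'} : Set F')) F']
    (V : Fin 3 → ValuationSubring F) (V' : Fin 2 → ValuationSubring F')
    (hconst : ∀ (c : Fin 3) (a : K), a ∈ O → algebraMap K F a ∈ V c)
    (hconst' : ∀ (c : Fin 2) (a : K), a ∈ O → algebraMap K F' a ∈ V' c)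
    (hxV : ∀ c, x ∈ V c ∧ x⁻¹ ∈ V c) (hxV' : ∀ c, x' ∈ V' c ∧ x'⁻¹ ∈ V' c)
    (hqV : ∀ c, (q : F) ∈ (V c).nonunits)
    -- radicals
    (hrad : ∀ (i : Fin 2) (y : F), y ∈ chart O x i → (∀ c, y ∈ (V c).nonunits) →
      NilMod (chart O x i) (q : F) y)
    (hrad' : ∀ (i : Fin 2) (y : F'), y ∈ chart O x' i → (∀ c, y ∈ (V' c).nonunits) →
      NilMod (chart O x' i) (q : F') y)
    -- the degeneracy maps respect the charts
    (hαB : ∀ (i : Fin 2) (b : F'), b ∈ chart O x' i → α b ∈ chart O x i)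
    (hβB : ∀ (i : Fin 2) (b : F'), b ∈ chart O x' i → β b ∈ chart O x i)
    -- restriction tables
    (hα0 : ∀ a : F', α a ∈ V 0 ↔ a ∈ V' 0) (hα1 : ∀ a : F', α a ∈ V 1 ↔ a ∈ V' 0)
    (hα2 : ∀ a : F', α a ∈ V 2 ↔ a ∈ V' 1)
    (hβ0 : ∀ a : F', β a ∈ V 0 ↔ a ∈ V' 0) (hβ1 : ∀ a : F', β a ∈ V 1 ↔ a ∈ V' 1)
    (hβ2 : ∀ a : F', β a ∈ V 2 ↔ a ∈ V' 1)
    -- (U)
    (hu0 : ∀ y ∈ (V 0).nonunits, ∃ z ∈ V 0, y = (q : F) * z)
    (hu2 : ∀ y ∈ (V 2).nonunits, ∃ z ∈ V 2, y = (q : F) * z)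
    (hu' : ∀ c, ∀ y ∈ (V' c).nonunits, ∃ z ∈ V' c, y = (q : F') * z)
    -- (LOC)
    (hloc0 : ∀ i : Fin 2, ∀ y ∈ V 0, ∃ a s : chart O x i, (s : F) ∉ (V 0).nonunits ∧ y * s = a)
    (hloc2 : ∀ i : Fin 2, ∀ y ∈ V 2, ∃ a s : chart O x i, (s : F) ∉ (V 2).nonunits ∧ y * s = a)
    (hloc' : ∀ (i : Fin 2) (c : Fin 2), ∀ y ∈ V' c,
      ∃ a s : chart O x' i, (s : F') ∉ (V' c).nonunits ∧ y * s = a)
    (hne : ¬ V' 0 ≤ V' 1) (hne' : ¬ V' 1 ≤ V' 0)
    -- (TH)
    (hTH : ∀ (i : Fin 2) (P' : Ideal (chart O x' i)), P'.IsMaximal →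
      centre (chart O x' i) (V' 0) ≤ P' → centre (chart O x' i) (V' 1) ≤ P' →
      ∃ x₀ ∈ centre (chart O x' i) (V' 0), ∃ y₀ ∈ centre (chart O x' i) (V' 1), ∃ g, g ∉ P' ∧
        x₀ * y₀ = (q : chart O x' i) * g)
    -- (MID)
    (hMID : ∀ (i : Fin 2) (P : Ideal (chart O x i)), P.IsMaximal →
      centre (chart O x i) (V 1) ≤ P → ¬ centre (chart O x i) (V 0) ≤ P →
      ¬ centre (chart O x i) (V 2) ≤ P →
      ∃ T ∈ centre (chart O x i) (V 1), T ≠ 0 ∧
        (∃ m : ℕ, m ≠ 0 ∧ ∃ s, s ∉ P ∧ T ^ m ∣ s * (q : chart O x i)) ∧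
        ∀ a ∈ centre (chart O x i) (V 1), ∃ s, s ∉ centre (chart O x i) (V 1) ∧ T ∣ s * a)
    -- (B)
    (hPIR : ∀ (i : Fin 2) (c : Fin 3) (P : Ideal (chart O x i)), P.IsMaximal →
      centre (chart O x i) (V c) ≤ P → LocPIRQuot P (centre (chart O x i) (V c))) :
    LPProp O x V :=
  lpProp_of_cases O q hbase α β x x' hx hx' V V' hconst hconst' hxV hxV' hqV hrad hrad' hαB hβB
    hα0 hα1 hα2 hβ0 hβ1 hβ2 hu0 hu2 hu' hloc0 hloc2 hloc' hne hne'
    (fun i P hP hqP b => chart_resk O q hbase x i P hP hqP b) hTH hMID hPIR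

end Kill

end Fermat.Agent.S36.helper8039
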