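import Fermat.Agent.S36.helper405_KillTerms
import Fermat.Agent.S36.helper8039_LPKillRes
import Fermat.Agent.S36.helper6136_LPBKill
import Fermat.Agent.S36.helper225_BaseDVR
import Fermat.Agent.S36.helper5686_LPLevelQ

/-!
# S36, block LP of the modular instance (captain ruling #4 (d)): the field `lp` of
`helper405.KillInput` (helper4696)

`lp_of_fields` proves the field

  `lp : LPProp (OI A) (xK A M₁ q haux) (VK A M₁ q hq hqM hq2)`

of `helper405.KillInput`, verbatim, at arbitrary `(A, M₁, q, hq, hqM, hq2, haux, hA)`, from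

* fields of `KillInput` owned by the other blocks (UNIF, RAD, α-VAL, β-VAL, CHART), taken
  verbatim as hypotheses;
* the five inputs of the block itself, on the concrete terms: `loc_inf`, `loc_zero` ((LOC) at
  `v_∞`, `v_0`), `th` ((TH) at level `M₁`), `mid` ((MID)), `lpb'` ((B) at level `M₁`).

The proof is `helper8039.lpProp_of_cases_baseDVR` (the (LP) casework) with the hypothesis (B)
supplied by `helper6136.LPBAt.lift_sub` / `pir_of_lpbAt`, `BaseDVR` by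
`helper225.baseDVR_facts`, the level-`M₁` inputs `rad'`, (LOC)', `V' 0 ≠ V' 1` by
`helper5686.lp_levelq_inputs`, and `x_V'` from `x_V` and `α x' = x`.
-/

set_option autoImplicit false

namespace Fermat.Agent.S36.helper4696

open Fermat.Agent.S36.helper1013 (IsUnifOf UnitOf)
open Fermat.Agent.S36.helper36 (chart LPProp BaseDVR)
open Fermat.Agent.S36.helper1335 (AuxOK)
open Fermat.Agent.S36.helper405
open Fermat.Agent.S36.helper8039 (centre)
open Fermat.Agent.S36.helper6136 (LPBAt LocPIRQuot)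

section Generic

variable {F : Type*} [Field F]

/-- A unit (in the sense of `UnitOf`) is not in the maximal ideal. -/
theorem notMem_nonunits_of_unitOf {V : ValuationSubring F} {y : F} (h : UnitOf V y) :
    y ∉ V.nonunits := by
  intro hy
  have h1 : V.valuation y < 1 := V.mem_nonunits_iff.mp hy
  have h2 : V.valuation y⁻¹ ≤ 1 := (V.valuation_le_one_iff _).mpr h.2.2
  have h3 : V.valuation y * V.valuation y⁻¹ = 1 := by
    rw [← map_mul, mul_inv_cancel₀ h.1, map_one]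
  have h4 : V.valuation y * V.valuation y⁻¹ < 1 := by
    calc V.valuation y * V.valuation y⁻¹ ≤ V.valuation y * 1 := by gcongr
      _ = V.valuation y := mul_one _
      _ < 1 := h1
  exact absurd h3 (ne_of_lt h4)

/-- **(U)**: the maximal ideal of a valuation subring with a uniformiser `ϖ` is `ϖ V`. -/
theorem exists_eq_mul_of_isUnifOf {V : ValuationSubring F} {ϖ : F} (h : IsUnifOf V ϖ) :
    ∀ y ∈ V.nonunits, ∃ z ∈ V, y = ϖ * z := by
  intro y hy
  by_cases hy0 : y = 0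
  · exact ⟨0, V.zero_mem, by rw [hy0, mul_zero]⟩
  obtain ⟨k, hk⟩ := h.2.2 y hy0
  have hϖ0 := h.ne_zero
  have hyk : y = y * ϖ ^ (-k) * ϖ ^ k := by
    rw [mul_assoc, ← zpow_add₀ hϖ0, neg_add_cancel, zpow_zero, mul_one]
  have hk1 : 1 ≤ k := by
    by_contra hlt
    have hk0 : 0 ≤ -k := by omega
    -- then `y⁻¹ = (y ϖ^(-k))⁻¹ * ϖ^(-k) ∈ V`
    have hinv : y⁻¹ = (y * ϖ ^ (-k))⁻¹ * ϖ ^ (-k) := by
      rw [mul_inv, mul_assoc, inv_mul_cancel₀ (zpow_ne_zero _ hϖ0), mul_one]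
    have hyV : y ∈ V := ValuationSubring.nonunits_subset hy
    have hu : UnitOf V y := ⟨hy0, hyV, by
      rw [hinv]; exact V.mul_mem _ _ hk.2.2 (h.zpow_mem hk0)⟩
    exact notMem_nonunits_of_unitOf hu hy
  refine ⟨y * ϖ ^ (-k) * ϖ ^ (k - 1), V.mul_mem _ _ hk.2.1 (h.zpow_mem (by omega)), ?_⟩
  have e : ϖ * (y * ϖ ^ (-k) * ϖ ^ (k - 1)) = y * ϖ ^ (-k) * ϖ ^ k := by
    rw [mul_comm ϖ, mul_assoc (y * ϖ ^ (-k)), ← zpow_add_one₀ hϖ0, sub_add_cancel]
  rw [e]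
  exact hyk

/-- A uniformiser is in the maximal ideal. -/
theorem mem_nonunits_of_isUnifOf {V : ValuationSubring F} {ϖ : F} (h : IsUnifOf V ϖ) :
    ϖ ∈ V.nonunits :=
  mem_nonunits_of_inv_notMem V h.1 h.2.1

/-- If a positive power of `T` is `e` times a unit and `T` is in the maximal ideal, so is
`e`. -/
theorem mem_nonunits_of_pow_div_unit {V : ValuationSubring F} {T e : F} (hT : T ∈ V.nonunits)
    {m : ℕ} (hm : m ≠ 0) (he : e ≠ 0) (hu : UnitOf V (T ^ m / e)) : e ∈ V.nonunits := by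
  rw [ValuationSubring.mem_nonunits_iff] at hT ⊢
  have h1 : V.valuation (T ^ m / e)⁻¹ ≤ 1 := (V.valuation_le_one_iff _).mpr hu.2.2
  have e1 : e = T ^ m * (T ^ m / e)⁻¹ := by
    have hT0 : T ^ m ≠ 0 := by
      intro h0
      exact hu.1 (by rw [h0, zero_div])
    field_simp
  rw [e1, map_mul, map_pow]
  calc V.valuation T ^ m * V.valuation (T ^ m / e)⁻¹ ≤ V.valuation T ^ m * 1 := by gcongr
    _ = V.valuation T ^ m := mul_one _
    _ < 1 := pow_lt_one₀ zero_le hT hm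

end Generic

section Inst

variable (A : ValuationSubring (AlgebraicClosure ℚ)) (M₁ q : ℕ) [NeZero M₁] [NeZero q]
  (hq : q.Prime) (hqM : q ∣ M₁) (hq2 : ¬ q ^ 2 ∣ M₁) (haux : AuxOK M₁ q)

/-- `α x' = x`: the base line of level `M₁` maps to the base line of level `M₁ q`. -/
theorem αK_xK' : αK A M₁ q (xK' A M₁ q haux) = xK A M₁ q haux := by
  unfold xK xK'
  by_cases h : q = 2
  · rw [baseLine_of_eq _ _ _ _ _ h, baseLine_of_eq _ _ _ _ _ h]
    apply Subtype.ext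
    rw [ModularCurve.coe_heckeAlphaBar]
    rfl
  · rw [baseLine_of_ne _ _ _ _ _ h, baseLine_of_ne _ _ _ _ _ h]
    apply Subtype.ext
    rw [ModularCurve.coe_heckeAlphaBar]
    rfl

/-- **`x_V'`**: the base line of level `M₁` is a unit at `v'_∞`, `v'_0`, from `x_V` and the
tables of `α`. -/
theorem x_V'_of_fields
    (x_V : ∀ c : Fin 3, xK A M₁ q haux ∈ VK A M₁ q hq hqM hq2 c ∧
      (xK A M₁ q haux)⁻¹ ∈ VK A M₁ q hq hqM hq2 c)
    (α_mem_inf : Deg.MemOver (αK A M₁ q) (Vinf A M₁ q) (Vinf' A M₁))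
    (α_mem_zero : Deg.MemOver (αK A M₁ q) (Vzero A M₁ q hq hqM hq2)
      (Vzero' A M₁ q hq hqM hq2)) :
    ∀ c : Fin 2, xK' A M₁ q haux ∈ VK' A M₁ q hq hqM hq2 c ∧
      (xK' A M₁ q haux)⁻¹ ∈ VK' A M₁ q hq hqM hq2 c := by
  have e := αK_xK' A M₁ q haux
  have e' : αK A M₁ q (xK' A M₁ q haux)⁻¹ = (xK A M₁ q haux)⁻¹ := by rw [map_inv₀, e]
  intro c
  fin_cases c
  · exact ⟨(α_mem_inf _).mp (by rw [e]; exact (x_V 0).1),
      (α_mem_inf _).mp (by rw [e']; exact (x_V 0).2)⟩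
  · exact ⟨(α_mem_zero _).mp (by rw [e]; exact (x_V 2).1),
      (α_mem_zero _).mp (by rw [e']; exact (x_V 2).2)⟩

/-- `BaseDVR` for the inertia field (from `helper225.baseDVR_facts`). -/
theorem baseDVR_OI {q : ℕ} (hq : q.Prime) (hA : A.LiesOverPrime q) : BaseDVR (OI A) q := by
  have h := Fermat.Agent.S36.helper225.baseDVR_facts A hq hA
  exact ⟨h.1, h.2.1, h.2.2.1, h.2.2.2.1, h.2.2.2.2.1, h.2.2.2.2.2⟩

/-- **Block LP: the field `lp` of `helper405.KillInput`**, from the fields of the other blocks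
(verbatim) and the inputs of the block on the concrete terms. -/
theorem lp_of_fields (hA : A.LiesOverPrime q)
    -- fields of `KillInput` owned by the other blocks (verbatim)
    (unif_inf : IsUnifOf (Vinf A M₁ q) (q : FK A (M₁ * q)))
    (unif_mid : ∃ T : FK A (M₁ * q), IsUnifOf (Vmid A M₁ q hq hqM hq2) T ∧
      UnitOf (Vmid A M₁ q hq hqM hq2) (T ^ (q - 1) / (q : FK A (M₁ * q))))
    (unif_zero : IsUnifOf (Vzero A M₁ q hq hqM hq2) (q : FK A (M₁ * q)))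
    (unif_inf' : IsUnifOf (Vinf' A M₁) (q : FK A M₁))
    (unif_zero' : IsUnifOf (Vzero' A M₁ q hq hqM hq2) (q : FK A M₁))
    (ne_inf_mid : Vinf A M₁ q ≠ Vmid A M₁ q hq hqM hq2)
    (ne_inf_zero : Vinf A M₁ q ≠ Vzero A M₁ q hq hqM hq2)
    (ne_mid_zero : Vmid A M₁ q hq hqM hq2 ≠ Vzero A M₁ q hq hqM hq2)
    (x_V : ∀ c : Fin 3, xK A M₁ q haux ∈ VK A M₁ q hq hqM hq2 c ∧
      (xK A M₁ q haux)⁻¹ ∈ VK A M₁ q hq hqM hq2 c)
    (rad : ∀ (i : Fin 2) (y : FK A (M₁ * q)), y ∈ BK A M₁ q haux i →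
      (∀ c, y ∈ (VK A M₁ q hq hqM hq2 c).nonunits) →
      Fermat.Agent.S36.helper1730.NilMod (BK A M₁ q haux i) (q : FK A (M₁ * q)) y)
    (α_norm_map : Deg.NormMap q (αK A M₁ q) (NαK A M₁ q))
    (α_mem_inf : Deg.MemOver (αK A M₁ q) (Vinf A M₁ q) (Vinf' A M₁))
    (α_mem_mid : Deg.MemOver (αK A M₁ q) (Vmid A M₁ q hq hqM hq2) (Vinf' A M₁))
    (α_mem_zero : Deg.MemOver (αK A M₁ q) (Vzero A M₁ q hq hqM hq2)
      (Vzero' A M₁ q hq hqM hq2))
    (α_lift_inf : Deg.Lift (αK A M₁ q) (Vinf A M₁ q) (Vinf' A M₁))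
    (α_lift_mid : Deg.Lift (αK A M₁ q) (Vmid A M₁ q hq hqM hq2) (Vinf' A M₁))
    (α_ord_split : Deg.OrdSplit (NαK A M₁ q) (ordOf (Vinf A M₁ q))
      (ordOf (Vmid A M₁ q hq hqM hq2)) (ordOf (Vinf' A M₁)))
    (α_ord_insep : Deg.OrdInsep q (NαK A M₁ q) (ordOf (Vzero A M₁ q hq hqM hq2))
      (ordOf (Vzero' A M₁ q hq hqM hq2)))
    (α_map_chart : Deg.MapChart (αK A M₁ q) (BK A M₁ q haux) (BK' A M₁ q haux))
    (α_norm_chart : Deg.NormChart (NαK A M₁ q) (BK A M₁ q haux) (BK' A M₁ q haux))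
    (β_norm_map : Deg.NormMap q (βK A M₁ q) (NβK A M₁ q))
    (β_mem_zero : Deg.MemOver (βK A M₁ q) (Vzero A M₁ q hq hqM hq2)
      (Vzero' A M₁ q hq hqM hq2))
    (β_mem_mid : Deg.MemOver (βK A M₁ q) (Vmid A M₁ q hq hqM hq2) (Vzero' A M₁ q hq hqM hq2))
    (β_mem_inf : Deg.MemOver (βK A M₁ q) (Vinf A M₁ q) (Vinf' A M₁))
    (β_lift_zero : Deg.Lift (βK A M₁ q) (Vzero A M₁ q hq hqM hq2) (Vzero' A M₁ q hq hqM hq2))
    (β_ord_insep : Deg.OrdInsep q (NβK A M₁ q) (ordOf (Vinf A M₁ q)) (ordOf (Vinf' A M₁)))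
    (β_map_chart : Deg.MapChart (βK A M₁ q) (BK A M₁ q haux) (BK' A M₁ q haux))
    (β_norm_chart : Deg.NormChart (NβK A M₁ q) (BK A M₁ q haux) (BK' A M₁ q haux))
    -- the inputs of block LP, on the concrete terms
    /- (LOC) at `v_∞`, `v_0` (level `M₁ q`). -/
    (loc_inf : ∀ i : Fin 2, ∀ y ∈ Vinf A M₁ q, ∃ a s : BK A M₁ q haux i,
      (s : FK A (M₁ * q)) ∉ (Vinf A M₁ q).nonunits ∧ y * s = a)
    (loc_zero : ∀ i : Fin 2, ∀ y ∈ Vzero A M₁ q hq hqM hq2, ∃ a s : BK A M₁ q haux i,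
      (s : FK A (M₁ * q)) ∉ (Vzero A M₁ q hq hqM hq2).nonunits ∧ y * s = a)
    /- (TH): thickness one at the crossing points of level `M₁`. -/
    (th : ∀ (i : Fin 2) (P' : Ideal (BK' A M₁ q haux i)), P'.IsMaximal →
      centre (BK' A M₁ q haux i) (VK' A M₁ q hq hqM hq2 0) ≤ P' →
      centre (BK' A M₁ q haux i) (VK' A M₁ q hq hqM hq2 1) ≤ P' →
      ∃ x₀ ∈ centre (BK' A M₁ q haux i) (VK' A M₁ q hq hqM hq2 0),
        ∃ y₀ ∈ centre (BK' A M₁ q haux i) (VK' A M₁ q hq hqM hq2 1), ∃ g, g ∉ P' ∧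
          x₀ * y₀ = (q : BK' A M₁ q haux i) * g)
    /- (MID): the points of the middle component off the two others. -/
    (mid : ∀ (i : Fin 2) (P : Ideal (BK A M₁ q haux i)), P.IsMaximal →
      centre (BK A M₁ q haux i) (VK A M₁ q hq hqM hq2 1) ≤ P →
      ¬ centre (BK A M₁ q haux i) (VK A M₁ q hq hqM hq2 0) ≤ P →
      ¬ centre (BK A M₁ q haux i) (VK A M₁ q hq hqM hq2 2) ≤ P →
      ∃ T ∈ centre (BK A M₁ q haux i) (VK A M₁ q hq hqM hq2 1), T ≠ 0 ∧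
        (∃ m : ℕ, m ≠ 0 ∧ ∃ s, s ∉ P ∧ T ^ m ∣ s * (q : BK A M₁ q haux i)) ∧
        ∀ a ∈ centre (BK A M₁ q haux i) (VK A M₁ q hq hqM hq2 1),
          ∃ s, s ∉ centre (BK A M₁ q haux i) (VK A M₁ q hq hqM hq2 1) ∧ T ∣ s * a)
    /- (B) at level `M₁`. -/
    (lpb' : ∀ (i : Fin 2) (c : Fin 2), LPBAt (BK' A M₁ q haux i) (VK' A M₁ q hq hqM hq2 c)) :
    LPProp (OI A) (xK A M₁ q haux) (VK A M₁ q hq hqM hq2) := by
  have hbase : BaseDVR (OI A) q := baseDVR_OI A hq hA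
  have := hbase.noeth
  have hx : Transcendental (KI A) (xK A M₁ q haux) := baseLine_transcendental _ _ _ _ _
  have hx' : Transcendental (KI A) (xK' A M₁ q haux) := baseLine_transcendental _ _ _ _ _
  have hfin : FiniteDimensional (IntermediateField.adjoin (KI A)
      ({xK A M₁ q haux} : Set (FK A (M₁ * q)))) (FK A (M₁ * q)) :=
    baseLine_finiteDimensional _ _ _ _ _
  have hfin' : FiniteDimensional (IntermediateField.adjoin (KI A)
      ({xK' A M₁ q haux} : Set (FK A M₁))) (FK A M₁) :=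
    baseLine_finiteDimensional _ _ _ _ _
  have hconst : ∀ (c : Fin 3) (a : KI A), a ∈ OI A →
      algebraMap (KI A) (FK A (M₁ * q)) a ∈ VK A M₁ q hq hqM hq2 c :=
    fun c a ha => (const_mem_VK_iff A M₁ q hq hqM hq2 c a).mpr ha
  have hconst' : ∀ (c : Fin 2) (a : KI A), a ∈ OI A →
      algebraMap (KI A) (FK A M₁) a ∈ VK' A M₁ q hq hqM hq2 c :=
    fun c a ha => (const_mem_VK'_iff A M₁ q hq hqM hq2 c a).mpr ha
  have hq0 : (q : FK A (M₁ * q)) ≠ 0 := natCast_ne_zero_FK A (M₁ * q) hq.ne_zero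
  have x_V' := x_V'_of_fields A M₁ q hq hqM hq2 haux x_V α_mem_inf α_mem_zero
  have hBV : ∀ (i : Fin 2) (c : Fin 3), ∀ b ∈ BK A M₁ q haux i,
      b ∈ VK A M₁ q hq hqM hq2 c := fun i c =>
    Fermat.Agent.S36.helper8039.chart_le (OI A) (xK A M₁ q haux) _ (hconst c) (x_V c) i
  -- the level `M₁` inputs, from the fields (helper5686)
  have hexu : ∀ c : Fin 3, ∃ ϖ : FK A (M₁ * q), IsUnifOf (VK A M₁ q hq hqM hq2 c) ϖ := by
    intro c
    fin_cases c
    · exact ⟨_, unif_inf⟩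
    · obtain ⟨T, hT, -⟩ := unif_mid
      exact ⟨T, hT⟩
    · exact ⟨_, unif_zero⟩
  have hunif' : ∀ c : Fin 2, IsUnifOf (VK' A M₁ q hq hqM hq2 c) (q : FK A M₁) := by
    intro c
    fin_cases c
    · exact unif_inf'
    · exact unif_zero'
  have hVinj : ∀ i j : Fin 3, i ≠ j → VK A M₁ q hq hqM hq2 i ≠ VK A M₁ q hq hqM hq2 j := by
    intro i j hij
    fin_cases i <;> fin_cases j
    · exact absurd rfl hij
    · exact ne_inf_mid
    · exact ne_inf_zero
    · exact ne_inf_mid.symm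
    · exact absurd rfl hij
    · exact ne_mid_zero
    · exact ne_inf_zero.symm
    · exact ne_mid_zero.symm
    · exact absurd rfl hij
  obtain ⟨rad', loc', hne, hne'⟩ := Fermat.Agent.S36.helper5686.lp_levelq_inputs
    (K := KI A) q hq.pos (αK A M₁ q) (βK A M₁ q) (NαK A M₁ q) (NβK A M₁ q)
    (VK A M₁ q hq hqM hq2) (VK' A M₁ q hq hqM hq2) (ordK A M₁ q hq hqM hq2)
    (ordK' A M₁ q hq hqM hq2) (BK A M₁ q haux) (BK' A M₁ q haux)
    (fun c => by
      obtain ⟨ϖ, hϖ⟩ := hexu c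
      exact isOrd_ordOf hϖ)
    (fun c => isOrd_ordOf (hunif' c))
    (fun c y hy => by
      obtain ⟨ϖ, hϖ⟩ := hexu c
      exact mem_iff_ordOf_nonneg hϖ hy)
    (fun c y hy => mem_iff_ordOf_nonneg (hunif' c) hy)
    (fun i j hij => by
      obtain ⟨ϖ, hϖ⟩ := hexu i
      obtain ⟨ϖ', hϖ'⟩ := hexu j
      exact ordOf_ind hϖ hϖ' (hVinj i j hij))
    (fun c => ordOf_unif (hunif' c)) (natCast_ne_zero_FK A M₁ hq.ne_zero) rad
    α_norm_map α_mem_inf α_mem_mid α_mem_zero α_ord_split α_ord_insep α_map_chart α_norm_chart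
    β_norm_map β_mem_inf β_ord_insep β_norm_chart (fun i => hBV i 0) (fun i => hBV i 2)
    (fun i z hz => Fermat.Agent.S36.helper5686.chartRing_root_closed _ hq.pos z hz)
    loc_inf loc_zero
  have hqV : ∀ c, (q : FK A (M₁ * q)) ∈ (VK A M₁ q hq hqM hq2 c).nonunits := by
    intro c
    fin_cases c
    · exact mem_nonunits_of_isUnifOf unif_inf
    · obtain ⟨T, hT, hu⟩ := unif_mid
      exact mem_nonunits_of_pow_div_unit (mem_nonunits_of_isUnifOf hT)
        (Nat.sub_ne_zero_of_lt hq.one_lt) hq0 hu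
    · exact mem_nonunits_of_isUnifOf unif_zero
  have hu' : ∀ c, ∀ y ∈ (VK' A M₁ q hq hqM hq2 c).nonunits,
      ∃ z ∈ VK' A M₁ q hq hqM hq2 c, y = (q : FK A M₁) * z :=
    fun c => exists_eq_mul_of_isUnifOf (hunif' c)
  have hnoeth : ∀ i : Fin 2, IsNoetherianRing (BK A M₁ q haux i) := fun i =>
    (Fermat.Agent.S36.helper8039.chart_struct (OI A) (xK A M₁ q haux) hx i).1
  have hnoeth' : ∀ i : Fin 2, IsNoetherianRing (BK' A M₁ q haux i) := fun i =>
    (Fermat.Agent.S36.helper8039.chart_struct (OI A) (xK' A M₁ q haux) hx' i).1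
  -- (B) at level `M₁ q` from level `M₁`
  have hlpb : ∀ (i : Fin 2) (c : Fin 3),
      LPBAt (BK A M₁ q haux i) (VK A M₁ q hq hqM hq2 c) := by
    intro i c
    have := hnoeth' i
    fin_cases c
    · exact LPBAt.lift_sub (αK A M₁ q : FK A M₁ →+* FK A (M₁ * q)) (BK A M₁ q haux i)
        (BK' A M₁ q haux i) (α_map_chart i) (Vinf A M₁ q) (Vinf' A M₁) (hBV i 0) α_mem_inf
        α_lift_inf (loc' i 0) (lpb' i 0)
    · exact LPBAt.lift_sub (αK A M₁ q : FK A M₁ →+* FK A (M₁ * q)) (BK A M₁ q haux i)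
        (BK' A M₁ q haux i) (α_map_chart i) (Vmid A M₁ q hq hqM hq2) (Vinf' A M₁) (hBV i 1)
        α_mem_mid α_lift_mid (loc' i 0) (lpb' i 0)
    · exact LPBAt.lift_sub (βK A M₁ q : FK A M₁ →+* FK A (M₁ * q)) (BK A M₁ q haux i)
        (BK' A M₁ q haux i) (β_map_chart i) (Vzero A M₁ q hq hqM hq2)
        (Vzero' A M₁ q hq hqM hq2) (hBV i 2) β_mem_zero β_lift_zero (loc' i 1) (lpb' i 1)
  exact Fermat.Agent.S36.helper8039.lpProp_of_cases_baseDVR (OI A) q hbase (αK A M₁ q)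
    (βK A M₁ q) (xK A M₁ q haux) (xK' A M₁ q haux) hx hx' (VK A M₁ q hq hqM hq2)
    (VK' A M₁ q hq hqM hq2) hconst hconst' x_V x_V' hqV rad rad' α_map_chart β_map_chart
    α_mem_inf α_mem_mid α_mem_zero β_mem_inf β_mem_mid β_mem_zero
    (exists_eq_mul_of_isUnifOf unif_inf) (exists_eq_mul_of_isUnifOf unif_zero) hu'
    loc_inf loc_zero loc' hne hne' th mid
    (Fermat.Agent.S36.helper6136.pir_of_lpbAt (OI A) (xK A M₁ q haux) (VK A M₁ q hq hqM hq2)
      hnoeth hBV hlpb)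

end Inst

end Fermat.Agent.S36.helper4696
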