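import Mathlib
import Fermat.Agent.S36.helper4913_SeedGlue
import Fermat.Agent.S36.helper5229_CuspKit
import Fermat.Agent.S36.helper1638_MidCuspAlg

/-!
# S36-CUSP-LP, file 2 (helper5229): the cusp kit on a chart ring

`helper5229_CuspKit` is stated for a local subring `O` of the field `F`.  This file specialises
it to `O = B_P = helper4913.locSubring B P` (the localisation of a chart ring `B ≤ F` at a prime
`P`, inside `F`) and produces the statement consumed by the exhaustive (LP) casework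
(`helper8039.locFactorial_of_cases`, hypothesis `hMID`) at the CUSPIDAL closed points of the
middle component.

* `isLocalSub_locSubring`, `intClosedIn_locSubring`, `locSubring_le_valuationSubring`,
  `nonUnit_locSubring_iff`, `nonUnit_locSubring_coe_iff` : `B_P` is a local subring of `F`,
  integrally closed in `F` if `B` is, contained in every valuation ring whose centre on `B` lies
  in `P`; its non-units are the fractions with numerator in `P`.
* `nonUnit_inv_j_t4`, `nonUnit_inv_j_t4_inv`, `nonUnit_inv_j_t9`, `nonUnit_inv_j_t9_inv` :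
  THE CUSP CRITERION on the four charts of the base lines `t4`, `t9`:
  if the cusp polynomial of the chart (`x (x + 16)`, `s (1 + 16 s)`, `x (x² + 9 x + 27)`,
  `s (1 + 9 s + 27 s²)`, `s = x⁻¹`) is a non-unit of the local ring `O`, then `1 / j` is a
  non-unit of `O` (from the landed relations `j x⁴ (x + 16) = (x² + 256 x + 4096)³` and
  `j x⁹ (x² + 9 x + 27) = ((x + 9)(x³ + 243 x² + 2187 x + 6561))³`).  `mem_of_mul_eq_of_unit` is
  the complementary (non-cuspidal) case `j ∈ O`.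
* `mid_shape_of_pow_eq` : from `T₀ ∈ B_P ∩ 𝔪(V)`, `T₀ ^ (q - 1) = q * ε` with `ε` a unit of
  `B_P`, `e(V) = q - 1` and "`V` is a localisation of `B`": the conclusion of `hMID`
  (`T ∈ B ∩ 𝔪(V)`, `T ≠ 0`, `T ^ (q - 1) ∣ s * q` with `s ∉ P`, `T` generates `𝔪(V) ∩ B` at
  `𝔪(V) ∩ B`).
* `mid_cusp_of_core` : the same conclusion at a cuspidal point, from `CuspCore.mid_generator`
  (theta route: needs the `q`-series input (C5) and the integrality transfer `hIT`).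
* `mid_cusp_of_kron` : **the statement of record**: the same conclusion at a cuspidal point from
  the Kronecker congruence `Φ = (X^q - Y)(X - Y^q) + q G` alone
  (`helper1638.CuspCoreKron.mid_unit`): no `q`-series, no `hIT`, no "single component"
  hypothesis.
-/

set_option autoImplicit false

namespace Fermat.Agent.S36.helper5229

open Polynomial
open Fermat.Agent.S36.helper4913 (locSubring)

variable {F : Type*} [Field F]

/-! ## The local ring `B_P` inside `F` -/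

section Loc

variable (B : Subring F) (P : Ideal B) [hP : P.IsPrime]

/-- `B_P` is a local subring of `F`. -/
theorem isLocalSub_locSubring : IsLocalSub (locSubring B P) :=
  isLocalSub_of_isLocalRing _

variable {B P}

/-- A fraction with numerator in `P` is a non-unit of `B_P`. -/
theorem nonUnit_locSubring_of_mem {x : F} {b s : B} (hb : b ∈ P) (hs : s ∉ P)
    (h : x * (s : F) = (b : F)) : NonUnit (locSubring B P) x := by
  refine ⟨⟨b, s, hs, h⟩, ?_⟩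
  by_cases hx0 : x = 0
  · exact Or.inl hx0
  · right
    rintro ⟨b', s', hs', h'⟩
    have key : ((s * s' : B) : F) = ((b * b' : B) : F) := by
      push_cast
      rw [← h, ← h']
      calc (s : F) * (s' : F) = (x * x⁻¹) * ((s : F) * (s' : F)) := by
            rw [mul_inv_cancel₀ hx0, one_mul]
        _ = x * (s : F) * (x⁻¹ * (s' : F)) := by ring
    have key' : s * s' = b * b' := Subtype.ext key
    have hmem : s * s' ∈ P := by
      rw [key']
      exact P.mul_mem_right _ hb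
    rcases hP.mem_or_mem hmem with h1 | h1
    exacts [hs h1, hs' h1]

/-- The non-units of `B_P` are the fractions with numerator in `P`. -/
theorem nonUnit_locSubring_iff {x : F} :
    NonUnit (locSubring B P) x ↔ ∃ b s : B, b ∈ P ∧ s ∉ P ∧ x * (s : F) = (b : F) := by
  constructor
  · rintro ⟨⟨b, s, hs, h⟩, hx⟩
    refine ⟨b, s, ?_, hs, h⟩
    by_contra hb
    have hinv : x⁻¹ ∈ locSubring B P :=
      Fermat.Agent.S36.helper4913.inv_mem_locSubring B P hb h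
    rcases hx with hx | hx
    · apply hb
      have : b = 0 := by
        apply Subtype.ext
        rw [← h, hx, zero_mul]
        rfl
      rw [this]
      exact P.zero_mem
    · exact hx hinv
  · rintro ⟨b, s, hb, hs, h⟩
    exact nonUnit_locSubring_of_mem hb hs h

/-- An element of `B` is a non-unit of `B_P` iff it lies in `P`. -/
theorem nonUnit_locSubring_coe_iff (b : B) : NonUnit (locSubring B P) (b : F) ↔ b ∈ P := by
  constructor
  · intro h
    obtain ⟨b', s, hb', hs, h'⟩ := nonUnit_locSubring_iff.mp h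
    have h2 : b * s = b' := Subtype.ext (by push_cast; exact h')
    have h3 : b * s ∈ P := h2 ▸ hb'
    rcases hP.mem_or_mem h3 with h4 | h4
    · exact h4
    · exact absurd h4 hs
  · intro hb
    refine nonUnit_locSubring_of_mem (s := 1) hb ?_ (by simp)
    exact Fermat.Agent.S36.helper4913.one_notMem_prime B P

/-- A member of `B` outside `P` is a unit of `B_P`. -/
theorem inv_mem_locSubring_of_notMem {s : B} (hs : s ∉ P) : (s : F)⁻¹ ∈ locSubring B P :=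
  Fermat.Agent.S36.helper4913.inv_mem_locSubring B P (x := (s : F)) (b := s) (s := 1) hs (by simp)

variable (B P)

/-- If `B` is integrally closed in `F`, so is `B_P`. -/
theorem intClosedIn_locSubring (hB : ∀ y : F, IsIntegral B y → y ∈ B) :
    IntClosedIn (locSubring B P) := by
  classical
  intro y hy
  obtain ⟨p, hpm, hp⟩ := hy
  set n := p.natDegree with hn
  have hc : ∀ i : ℕ, ∃ s : B, s ∉ P ∧ ((p.coeff i : locSubring B P) : F) * (s : F) ∈ B := by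
    intro i
    obtain ⟨b, s, hs, h⟩ := (p.coeff i).2
    exact ⟨s, hs, h ▸ b.2⟩
  choose s hs hsB using hc
  set S : B := ∏ i ∈ Finset.range n, s i with hS
  have hSP : S ∉ P := by
    rw [hS]
    intro hmem
    obtain ⟨i, -, hi⟩ := (Ideal.IsPrime.prod_mem_iff).mp hmem
    exact hs i hi
  have hSc : ∀ i, i < n → ((p.coeff i : locSubring B P) : F) * (S : F) ∈ B := by
    intro i hi
    have hSi : S = s i * ∏ j ∈ (Finset.range n).erase i, s j := by
      rw [hS, Finset.mul_prod_erase _ _ (Finset.mem_range.mpr hi)]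
    rw [hSi, Subring.coe_mul, ← mul_assoc]
    exact B.mul_mem (hsB i) (SetLike.coe_mem _)
  -- the relation for `y`
  have hrel : y ^ n + ∑ i ∈ Finset.range n, ((p.coeff i : locSubring B P) : F) * y ^ i = 0 := by
    rw [eval₂_eq_sum_range, Finset.sum_range_succ, ← hn] at hp
    have h1 : ((p.coeff n : locSubring B P) : F) = 1 := by
      rw [hn, hpm.coeff_natDegree]
      rfl
    have hp' : ∑ i ∈ Finset.range n, ((p.coeff i : locSubring B P) : F) * y ^ i +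
        ((p.coeff n : locSubring B P) : F) * y ^ n = 0 := hp
    rw [h1, one_mul] at hp'
    rw [add_comm]
    exact hp'
  -- the relation for `z = y * S`
  set z : F := y * (S : F) with hz
  have hrelz : z ^ n + ∑ i ∈ Finset.range n,
      (((p.coeff i : locSubring B P) : F) * (S : F) ^ (n - i)) * z ^ i = 0 := by
    have h2 : z ^ n + ∑ i ∈ Finset.range n,
        (((p.coeff i : locSubring B P) : F) * (S : F) ^ (n - i)) * z ^ i =
        (S : F) ^ n * (y ^ n + ∑ i ∈ Finset.range n,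
          ((p.coeff i : locSubring B P) : F) * y ^ i) := by
      rw [mul_add, Finset.mul_sum, hz, mul_pow]
      congr 1
      · ring
      · refine Finset.sum_congr rfl fun i hi => ?_
        have hi' : i < n := Finset.mem_range.mp hi
        have hpow : (S : F) ^ n = (S : F) ^ (n - i) * (S : F) ^ i := by
          rw [← pow_add]
          congr 1
          omega
        rw [hpow, mul_pow]
        ring
    rw [h2, hrel, mul_zero]
  have hzint : IsIntegral B z := by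
    refine isIntegral_of_monic_rel B z n
      (fun i => ((p.coeff i : locSubring B P) : F) * (S : F) ^ (n - i)) ?_ hrelz
    intro i hi
    have hpow : (S : F) ^ (n - i) = (S : F) * (S : F) ^ (n - i - 1) := by
      rw [← pow_succ']
      congr 1
      omega
    rw [hpow, ← mul_assoc]
    exact B.mul_mem (hSc i hi) (B.pow_mem (SetLike.coe_mem _) _)
  have hzB : z ∈ B := hB z hzint
  exact ⟨⟨z, hzB⟩, S, hSP, rfl⟩

/-- If the centre of `V` on `B` lies in `P`, then `B_P ≤ V`. -/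
theorem locSubring_le_valuationSubring (V : ValuationSubring F) (hBV : B ≤ V.toSubring)
    (hthr : ∀ b : B, (b : F) ∈ V.nonunits → b ∈ P) : locSubring B P ≤ V.toSubring := by
  rintro x ⟨b, s, hs, h⟩
  have hsV : (s : F) ∈ V := hBV s.2
  have hs1 : V.valuation (s : F) = 1 := by
    refine le_antisymm ((V.valuation_le_one_iff _).mpr hsV) (not_lt.mp fun hlt => hs ?_)
    exact hthr s (V.mem_nonunits_iff.mpr hlt)
  have hb : V.valuation (b : F) ≤ 1 := (V.valuation_le_one_iff _).mpr (hBV b.2)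
  have hxb : V.valuation x = V.valuation (b : F) := by
    rw [← h, map_mul, hs1, mul_one]
  exact (V.valuation_le_one_iff x).mp (hxb ▸ hb)

end Loc

/-! ## The cusp criterion on the base lines `t4`, `t9` -/

section CuspCriterion

variable {O : Subring F}

/-- In a local subring, a unit plus a non-unit is a unit. -/
theorem unit_add_nonUnit (hO : IsLocalSub O) {u y : F} (hu0 : u ≠ 0) (hu : u ∈ O)
    (hui : u⁻¹ ∈ O) (hy : NonUnit O y) : u + y ≠ 0 ∧ (u + y)⁻¹ ∈ O :=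
  inv_mem_of_not_nonUnit (O.add_mem hu hy.1)
    (hO.not_nonUnit_add (not_nonUnit_of_inv_mem hu0 hui) hy)

/-- If a product of two members is a non-unit, one of the factors is. -/
theorem nonUnit_or_of_mul {x y : F} (h : NonUnit O (x * y)) (hx : x ∈ O) (hy : y ∈ O) :
    NonUnit O x ∨ NonUnit O y := by
  by_contra hc
  rw [not_or] at hc
  obtain ⟨hx0, hxi⟩ := inv_mem_of_not_nonUnit hx hc.1
  obtain ⟨hy0, hyi⟩ := inv_mem_of_not_nonUnit hy hc.2
  refine not_nonUnit_of_inv_mem (mul_ne_zero hx0 hy0) ?_ h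
  rw [mul_inv]
  exact O.mul_mem hxi hyi

/-- `j * D = N` with `D` a non-unit and `N` a unit: `1 / j` is a non-unit. -/
theorem nonUnit_inv_of_mul_eq {j D N : F} (hrel : j * D = N) (hD : NonUnit O D)
    (hN0 : N ≠ 0) (hNi : N⁻¹ ∈ O) : NonUnit O j⁻¹ := by
  have : j⁻¹ = D * N⁻¹ := by
    rw [← hrel, mul_inv, mul_comm j⁻¹, ← mul_assoc, mul_inv_cancel₀, one_mul]
    rintro rfl
    rw [mul_zero] at hrel
    exact hN0 hrel.symm
  rw [this]
  exact hD.mul_right hNi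

/-- `j * D = N` with `D` a unit and `N ∈ O`: `j ∈ O` (the NON-cuspidal case). -/
theorem mem_of_mul_eq_of_unit {j D N : F} (hrel : j * D = N) (hN : N ∈ O) (hD0 : D ≠ 0)
    (hDi : D⁻¹ ∈ O) : j ∈ O := by
  have : j = N * D⁻¹ := by
    rw [← hrel, mul_assoc, mul_inv_cancel₀ hD0, mul_one]
  rw [this]
  exact O.mul_mem hN hDi

theorem unit_pow {G : F} (hG0 : G ≠ 0) (hGi : G⁻¹ ∈ O) (n : ℕ) :
    G ^ n ≠ 0 ∧ (G ^ n)⁻¹ ∈ O :=
  ⟨pow_ne_zero n hG0, by rw [← inv_pow]; exact O.pow_mem hGi n⟩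

/-- **Cusp criterion, `t4`-line, chart `x`.** -/
theorem nonUnit_inv_j_t4 (hO : IsLocalSub O) {x j : F} (h20 : (2 : F) ≠ 0)
    (h2 : (2 : F)⁻¹ ∈ O) (hx : x ∈ O)
    (hrel : j * (x ^ 4 * (x + 16)) = (x ^ 2 + 256 * x + 4096) ^ 3)
    (hD : NonUnit O (x * (x + 16))) : NonUnit O j⁻¹ := by
  have h16 : (16 : F) ∈ O := ofNat_mem O 16
  have h256 : (256 : F) ∈ O := ofNat_mem O 256
  have h224 : (224 : F) ∈ O := ofNat_mem O 224
  have hG : x ^ 2 + 256 * x + 4096 ≠ 0 ∧ (x ^ 2 + 256 * x + 4096)⁻¹ ∈ O := by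
    rcases nonUnit_or_of_mul hD hx (O.add_mem hx h16) with h | h
    · have e : x ^ 2 + 256 * x + 4096 = (2 : F) ^ 12 + x * (x + 256) := by ring
      rw [e]
      exact unit_add_nonUnit hO (pow_ne_zero _ h20) (O.pow_mem (ofNat_mem O 2) _)
        (by rw [← inv_pow]; exact O.pow_mem h2 _) (h.mul_right (O.add_mem hx h256))
    · have e : x ^ 2 + 256 * x + 4096 = (2 : F) ^ 8 + (x + 16) * (x + 16 + 224) := by ring
      rw [e]
      exact unit_add_nonUnit hO (pow_ne_zero _ h20) (O.pow_mem (ofNat_mem O 2) _)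
        (by rw [← inv_pow]; exact O.pow_mem h2 _)
        (h.mul_right (O.add_mem (O.add_mem hx h16) h224))
  obtain ⟨hN0, hNi⟩ := unit_pow hG.1 hG.2 3
  refine nonUnit_inv_of_mul_eq hrel ?_ hN0 hNi
  have e : x ^ 4 * (x + 16) = x ^ 3 * (x * (x + 16)) := by ring
  rw [e]
  exact hD.mul_left (O.pow_mem hx 3)

/-- **Cusp criterion, `t4`-line, chart `x⁻¹`.** -/
theorem nonUnit_inv_j_t4_inv (hO : IsLocalSub O) {x j : F} (hx0 : x ≠ 0) (hs : x⁻¹ ∈ O)
    (hrel : j * (x ^ 4 * (x + 16)) = (x ^ 2 + 256 * x + 4096) ^ 3)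
    (hD : NonUnit O (x⁻¹ * (1 + 16 * x⁻¹))) : NonUnit O j⁻¹ := by
  have h16 : (16 : F) ∈ O := ofNat_mem O 16
  have h256 : (256 : F) ∈ O := ofNat_mem O 256
  have h4096 : (4096 : F) ∈ O := ofNat_mem O 4096
  have hw : 1 + 16 * x⁻¹ ∈ O := O.add_mem O.one_mem (O.mul_mem h16 hs)
  have hrel' : j * (x⁻¹ * (1 + 16 * x⁻¹)) = (1 + 256 * x⁻¹ + 4096 * x⁻¹ ^ 2) ^ 3 := by
    have e1 : x⁻¹ * (1 + 16 * x⁻¹) = (x ^ 4 * (x + 16)) * x⁻¹ ^ 6 := by
      field_simp
    have e2 : (1 + 256 * x⁻¹ + 4096 * x⁻¹ ^ 2) ^ 3 = (x ^ 2 + 256 * x + 4096) ^ 3 * x⁻¹ ^ 6 := by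
      field_simp
    rw [e1, e2, ← hrel]
    ring
  have hG : 1 + 256 * x⁻¹ + 4096 * x⁻¹ ^ 2 ≠ 0 ∧ (1 + 256 * x⁻¹ + 4096 * x⁻¹ ^ 2)⁻¹ ∈ O := by
    rcases nonUnit_or_of_mul hD hs hw with h | h
    · have e : 1 + 256 * x⁻¹ + 4096 * x⁻¹ ^ 2 = 1 + x⁻¹ * (256 + 4096 * x⁻¹) := by ring
      rw [e]
      exact unit_add_nonUnit hO one_ne_zero O.one_mem (by rw [inv_one]; exact O.one_mem)
        (h.mul_right (O.add_mem h256 (O.mul_mem h4096 hs)))
    · have e : 1 + 256 * x⁻¹ + 4096 * x⁻¹ ^ 2 =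
          1 + (1 + 16 * x⁻¹) * (16 * (1 + 16 * x⁻¹) - 16) := by ring
      rw [e]
      exact unit_add_nonUnit hO one_ne_zero O.one_mem (by rw [inv_one]; exact O.one_mem)
        (h.mul_right (O.sub_mem (O.mul_mem h16 hw) h16))
  obtain ⟨hN0, hNi⟩ := unit_pow hG.1 hG.2 3
  exact nonUnit_inv_of_mul_eq hrel' hD hN0 hNi

/-- **Cusp criterion, `t9`-line, chart `x`.** -/
theorem nonUnit_inv_j_t9 (hO : IsLocalSub O) {x j : F} (h30 : (3 : F) ≠ 0)
    (h3 : (3 : F)⁻¹ ∈ O) (hx : x ∈ O)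
    (hrel : j * (x ^ 9 * (x ^ 2 + 9 * x + 27)) =
      ((x + 9) * (x ^ 3 + 243 * x ^ 2 + 2187 * x + 6561)) ^ 3)
    (hD : NonUnit O (x * (x ^ 2 + 9 * x + 27))) : NonUnit O j⁻¹ := by
  have hn : ∀ n : ℕ, (n : F) ∈ O := fun n => natCast_mem O n
  have h3m : (3 : F) ∈ O := ofNat_mem O 3
  have hQ : x ^ 2 + 9 * x + 27 ∈ O :=
    O.add_mem (O.add_mem (O.pow_mem hx 2) (O.mul_mem (ofNat_mem O 9) hx)) (ofNat_mem O 27)
  have h3pow : ∀ k : ℕ, (3 : F) ^ k ≠ 0 ∧ ((3 : F) ^ k)⁻¹ ∈ O := fun k => unit_pow h30 h3 k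
  have hG : (x + 9) * (x ^ 3 + 243 * x ^ 2 + 2187 * x + 6561) ≠ 0 ∧
      ((x + 9) * (x ^ 3 + 243 * x ^ 2 + 2187 * x + 6561))⁻¹ ∈ O := by
    rcases nonUnit_or_of_mul hD hx hQ with h | h
    · have e : (x + 9) * (x ^ 3 + 243 * x ^ 2 + 2187 * x + 6561) =
          (3 : F) ^ 10 + x * (x ^ 3 + 252 * x ^ 2 + 4374 * x + 26244) := by ring
      rw [e]
      refine unit_add_nonUnit hO (h3pow 10).1 (O.pow_mem h3m _) (h3pow 10).2 (h.mul_right ?_)
      exact O.add_mem (O.add_mem (O.add_mem (O.pow_mem hx 3)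
        (O.mul_mem (ofNat_mem O 252) (O.pow_mem hx 2))) (O.mul_mem (ofNat_mem O 4374) hx))
        (ofNat_mem O 26244)
    · -- `x + 3` is a unit
      have hx3 : x + 3 ∈ O := O.add_mem hx h3m
      have hx6 : x + 6 ∈ O := O.add_mem hx (ofNat_mem O 6)
      have hu : ¬ NonUnit O (x + 3) := by
        intro hnu
        have h9 : NonUnit O ((3 : F) ^ 2) := by
          have e : (3 : F) ^ 2 = (x ^ 2 + 9 * x + 27) - (x + 3) * (x + 6) := by ring
          rw [e]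
          exact hO.sub h (hnu.mul_right hx6)
        exact not_nonUnit_of_inv_mem (h3pow 2).1 (h3pow 2).2 h9
      obtain ⟨hu0, hui⟩ := inv_mem_of_not_nonUnit hx3 hu
      have e : (x + 9) * (x ^ 3 + 243 * x ^ 2 + 2187 * x + 6561) =
          (3 : F) ^ 5 * (x + 3) + (x ^ 2 + 9 * x + 27) * (x ^ 2 + 243 * x + 2160) := by ring
      rw [e]
      refine unit_add_nonUnit hO (mul_ne_zero (h3pow 5).1 hu0)
        (O.mul_mem (O.pow_mem h3m _) hx3) ?_ (h.mul_right ?_)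
      · rw [mul_inv]
        exact O.mul_mem (h3pow 5).2 hui
      · exact O.add_mem (O.add_mem (O.pow_mem hx 2) (O.mul_mem (ofNat_mem O 243) hx))
          (ofNat_mem O 2160)
  obtain ⟨hN0, hNi⟩ := unit_pow hG.1 hG.2 3
  refine nonUnit_inv_of_mul_eq hrel ?_ hN0 hNi
  have e : x ^ 9 * (x ^ 2 + 9 * x + 27) = x ^ 8 * (x * (x ^ 2 + 9 * x + 27)) := by ring
  rw [e]
  exact hD.mul_left (O.pow_mem hx 8)

/-- **Cusp criterion, `t9`-line, chart `x⁻¹`.** -/
theorem nonUnit_inv_j_t9_inv (hO : IsLocalSub O) {x j : F} (h30 : (3 : F) ≠ 0)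
    (h3 : (3 : F)⁻¹ ∈ O) (hx0 : x ≠ 0) (hs : x⁻¹ ∈ O)
    (hrel : j * (x ^ 9 * (x ^ 2 + 9 * x + 27)) =
      ((x + 9) * (x ^ 3 + 243 * x ^ 2 + 2187 * x + 6561)) ^ 3)
    (hD : NonUnit O (x⁻¹ * (1 + 9 * x⁻¹ + 27 * x⁻¹ ^ 2))) : NonUnit O j⁻¹ := by
  have h3m : (3 : F) ∈ O := ofNat_mem O 3
  have h9 : (9 : F) ∈ O := ofNat_mem O 9
  have h3pow : ∀ k : ℕ, (3 : F) ^ k ≠ 0 ∧ ((3 : F) ^ k)⁻¹ ∈ O := fun k => unit_pow h30 h3 k
  have hQ : 1 + 9 * x⁻¹ + 27 * x⁻¹ ^ 2 ∈ O :=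
    O.add_mem (O.add_mem O.one_mem (O.mul_mem h9 hs)) (O.mul_mem (ofNat_mem O 27) (O.pow_mem hs 2))
  have hw : 1 + 9 * x⁻¹ ∈ O := O.add_mem O.one_mem (O.mul_mem h9 hs)
  have hrel' : j * (x⁻¹ * (1 + 9 * x⁻¹ + 27 * x⁻¹ ^ 2)) =
      ((1 + 9 * x⁻¹) * (1 + 243 * x⁻¹ + 2187 * x⁻¹ ^ 2 + 6561 * x⁻¹ ^ 3)) ^ 3 := by
    have e1 : x⁻¹ * (1 + 9 * x⁻¹ + 27 * x⁻¹ ^ 2) = (x ^ 9 * (x ^ 2 + 9 * x + 27)) * x⁻¹ ^ 12 := by
      field_simp
    have e2 : ((1 + 9 * x⁻¹) * (1 + 243 * x⁻¹ + 2187 * x⁻¹ ^ 2 + 6561 * x⁻¹ ^ 3)) ^ 3 =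
        ((x + 9) * (x ^ 3 + 243 * x ^ 2 + 2187 * x + 6561)) ^ 3 * x⁻¹ ^ 12 := by
      field_simp
    rw [e1, e2, ← hrel]
    ring
  have hG : (1 + 9 * x⁻¹) * (1 + 243 * x⁻¹ + 2187 * x⁻¹ ^ 2 + 6561 * x⁻¹ ^ 3) ≠ 0 ∧
      ((1 + 9 * x⁻¹) * (1 + 243 * x⁻¹ + 2187 * x⁻¹ ^ 2 + 6561 * x⁻¹ ^ 3))⁻¹ ∈ O := by
    rcases nonUnit_or_of_mul hD hs hQ with h | h
    · have e : (1 + 9 * x⁻¹) * (1 + 243 * x⁻¹ + 2187 * x⁻¹ ^ 2 + 6561 * x⁻¹ ^ 3) =
          1 + x⁻¹ * (252 + 4374 * x⁻¹ + 26244 * x⁻¹ ^ 2 + 59049 * x⁻¹ ^ 3) := by ring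
      rw [e]
      refine unit_add_nonUnit hO one_ne_zero O.one_mem (by rw [inv_one]; exact O.one_mem)
        (h.mul_right ?_)
      exact O.add_mem (O.add_mem (O.add_mem (ofNat_mem O 252) (O.mul_mem (ofNat_mem O 4374) hs))
        (O.mul_mem (ofNat_mem O 26244) (O.pow_mem hs 2)))
        (O.mul_mem (ofNat_mem O 59049) (O.pow_mem hs 3))
    · -- `1 + 9 s` is a unit
      have hu : ¬ NonUnit O (1 + 9 * x⁻¹) := by
        intro hnu
        have h27 : NonUnit O ((3 : F) ^ 3 * x⁻¹ ^ 2) := by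
          have e : (3 : F) ^ 3 * x⁻¹ ^ 2 = (1 + 9 * x⁻¹ + 27 * x⁻¹ ^ 2) - (1 + 9 * x⁻¹) := by
            ring
          rw [e]
          exact hO.sub h hnu
        have hs2 : NonUnit O (x⁻¹ ^ 2) := by
          have e : x⁻¹ ^ 2 = ((3 : F) ^ 3)⁻¹ * ((3 : F) ^ 3 * x⁻¹ ^ 2) := by
            rw [← mul_assoc, inv_mul_cancel₀ (h3pow 3).1, one_mul]
          rw [e]
          exact h27.mul_left (h3pow 3).2
        have hs1 : NonUnit O x⁻¹ := nonUnit_of_pow hs hs2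
        have : ¬ NonUnit O (1 + 9 * x⁻¹) :=
          hO.not_nonUnit_add not_nonUnit_one (hs1.mul_left h9)
        exact this hnu
      obtain ⟨hu0, hui⟩ := inv_mem_of_not_nonUnit hw hu
      have e : (1 + 9 * x⁻¹) * (1 + 243 * x⁻¹ + 2187 * x⁻¹ ^ 2 + 6561 * x⁻¹ ^ 3) =
          (1 + 9 * x⁻¹) + (1 + 9 * x⁻¹ + 27 * x⁻¹ ^ 2) * (243 * x⁻¹ * (1 + 9 * x⁻¹)) := by ring
      rw [e]
      refine unit_add_nonUnit hO hu0 hw hui (h.mul_right ?_)
      exact O.mul_mem (O.mul_mem (ofNat_mem O 243) hs) hw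
  obtain ⟨hN0, hNi⟩ := unit_pow hG.1 hG.2 3
  exact nonUnit_inv_of_mul_eq hrel' hD hN0 hNi

end CuspCriterion

/-! ## The conclusion of `hMID` -/

section MidShape

variable (B : Subring F) (P : Ideal B) [hP : P.IsPrime]

/-- **The `hMID` shape from `T₀ ^ (q - 1) = q * unit`.**  `T₀ ∈ B_P ∩ 𝔪(V)`,
`T₀ ^ (q - 1) = q ε` with `ε` a unit of `B_P`; `e(V) = q - 1` (`hram`) and `V` is a localisation
of `B` (`hLOC`).  Then there is `T ∈ B ∩ 𝔪(V)`, `T ≠ 0`, with `T ^ (q - 1) ∣ s * q` for some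
`s ∉ P`, generating `𝔪(V) ∩ B` at `𝔪(V) ∩ B`. -/
theorem mid_shape_of_pow_eq (V : ValuationSubring F) (hBV : B ≤ V.toSubring)
    (hthr : ∀ b : B, (b : F) ∈ V.nonunits → b ∈ P)
    {q : ℕ} (hq : 2 ≤ q)
    (hram : ∀ x : F, x ∈ V.nonunits → x ^ (q - 1) * (q : F)⁻¹ ∈ V)
    (hLOC : ∀ x : F, x ∈ V → ∃ s : B, (s : F) ∉ V.nonunits ∧ (s : F) * x ∈ B)
    {T₀ ε : F} (hT₀ : T₀ ∈ locSubring B P) (hT₀V : T₀ ∈ V.nonunits) (hT₀0 : T₀ ≠ 0)
    (hεi : ε⁻¹ ∈ locSubring B P) (hε0 : ε ≠ 0)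
    (hpow : T₀ ^ (q - 1) = (q : F) * ε) :
    ∃ T : B, (T : F) ∈ V.nonunits ∧ T ≠ 0 ∧
      (∃ s : B, s ∉ P ∧ T ^ (q - 1) ∣ s * (q : B)) ∧
      ∀ a : B, (a : F) ∈ V.nonunits → ∃ s : B, (s : F) ∉ V.nonunits ∧ T ∣ s * a := by
  have hOV := locSubring_le_valuationSubring B P V hBV hthr
  have hq1 : q - 1 ≠ 0 := by omega
  obtain ⟨b, s₀, hs₀, h⟩ := hT₀
  obtain ⟨c, d, hd, hcd⟩ := hεi
  -- `s₀` is a unit of `V`
  have hs₀1 : V.valuation (s₀ : F) = 1 := by
    refine le_antisymm ((V.valuation_le_one_iff _).mpr (hBV s₀.2)) (not_lt.mp fun hlt => hs₀ ?_)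
    exact hthr s₀ (V.mem_nonunits_iff.mpr hlt)
  have hs₀0 : (s₀ : F) ≠ 0 := by
    intro h0
    rw [h0, map_zero] at hs₀1
    exact zero_ne_one hs₀1
  have hb0 : (b : F) ≠ 0 := by
    rw [← h]
    exact mul_ne_zero hT₀0 hs₀0
  have hq0 : (q : F) ≠ 0 := by
    intro h0
    rw [h0, zero_mul] at hpow
    exact pow_ne_zero _ hT₀0 hpow
  have hεV1 : V.valuation ε⁻¹ ≤ 1 := (V.valuation_le_one_iff _).mpr (hOV ⟨c, d, hd, hcd⟩)
  refine ⟨b, ?_, ?_, ⟨s₀ ^ (q - 1) * d, ?_, ?_⟩, ?_⟩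
  · rw [V.mem_nonunits_iff, ← h, map_mul, hs₀1, mul_one]
    exact V.mem_nonunits_iff.mp hT₀V
  · intro h0
    exact hb0 (by rw [h0]; rfl)
  · intro hmem
    rcases hP.mem_or_mem hmem with h1 | h1
    · exact hs₀ (hP.mem_of_pow_mem _ h1)
    · exact hd h1
  · refine Dvd.intro c (Subtype.ext ?_)
    push_cast
    rw [← h, ← hcd, mul_pow, hpow]
    field_simp
  · intro a ha
    -- `a / T₀ ∈ V`
    have h1 : (a : F) ^ (q - 1) * (q : F)⁻¹ ∈ V := hram _ ha
    have h2 : V.valuation (((a : F) * T₀⁻¹) ^ (q - 1)) ≤ 1 := by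
      have e : ((a : F) * T₀⁻¹) ^ (q - 1) = ((a : F) ^ (q - 1) * (q : F)⁻¹) * ε⁻¹ := by
        rw [mul_pow, inv_pow, hpow, mul_inv]
        ring
      rw [e, map_mul]
      exact mul_le_one' ((V.valuation_le_one_iff _).mpr h1) hεV1
    have h3 : V.valuation ((a : F) * T₀⁻¹) ≤ 1 := by
      rw [map_pow] at h2
      exact (pow_le_one_iff hq1).1 h2
    have h4 : (a : F) * (b : F)⁻¹ ∈ V := by
      rw [← V.valuation_le_one_iff]
      have e : (a : F) * (b : F)⁻¹ = ((a : F) * T₀⁻¹) * (s₀ : F)⁻¹ := by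
        rw [← h, mul_inv]
        ring
      rw [e, map_mul, map_inv₀, hs₀1, inv_one, mul_one]
      exact h3
    obtain ⟨s, hs, hsB⟩ := hLOC _ h4
    refine ⟨s, hs, Dvd.intro ⟨_, hsB⟩ (Subtype.ext ?_)⟩
    push_cast
    field_simp

/-- **`hMID` at a cuspidal point of the middle component** (theta route): the hypotheses of
`CuspCore.mid_generator` for `O = B_P`, plus `hLOC`. -/
theorem mid_cusp_of_core (hB : ∀ y : F, IsIntegral B y → y ∈ B)
    (V : ValuationSubring F) (hBV : B ≤ V.toSubring)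
    (hthr : ∀ b : B, (b : F) ∈ V.nonunits → b ∈ P)
    {q : ℕ} (hq : 2 ≤ q) {Φ : Polynomial (Polynomial ℤ)} (hΦ : KronShape q Φ) {j jq jqq : F}
    (hj : j ≠ 0) (hjq : jq ≠ 0) (hjqq : jqq ≠ 0)
    (rel1 : ev2 Φ j jq = 0) (rel2 : ev2 Φ jq j = 0) (rel3 : ev2 Φ jq jqq = 0)
    (rel4 : ev2 Φ jqq jq = 0) (hcusp : NonUnit (locSubring B P) j⁻¹)
    (c1 : Cong V (jq * j⁻¹ ^ q)) (c2 : Cong V (jqq * j⁻¹))
    (hqV : (q : F) ∈ V.nonunits) (hq0 : (q : F) ≠ 0)
    (hIT : ∀ x : F, x ∈ V → (q : F) * x ∈ locSubring B P → x ∈ locSubring B P)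
    (hram : ∀ x : F, x ∈ V.nonunits → x ^ (q - 1) * (q : F)⁻¹ ∈ V)
    (hLOC : ∀ x : F, x ∈ V → ∃ s : B, (s : F) ∉ V.nonunits ∧ (s : F) * x ∈ B)
    (A C : Polynomial ℤ) (hA : IsCoprime (A.eval 0) (q : ℤ)) (hC : IsCoprime (C.eval 0) (q : ℤ))
    (ε : F) (hε : (jqq * j⁻¹ - 1) ^ (q - 1) = (q : F) * ε)
    (hcong : C.eval₂ (Int.castRingHom F) j⁻¹ * ε - A.eval₂ (Int.castRingHom F) j⁻¹ ∈ V.nonunits) :
    ∃ T : B, (T : F) ∈ V.nonunits ∧ T ≠ 0 ∧
      (∃ s : B, s ∉ P ∧ T ^ (q - 1) ∣ s * (q : B)) ∧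
      ∀ a : B, (a : F) ∈ V.nonunits → ∃ s : B, (s : F) ∉ V.nonunits ∧ T ∣ s * a := by
  have hOV := locSubring_le_valuationSubring B P V hBV hthr
  have hcore : CuspCore q (locSubring B P) Φ j jq jqq :=
    { isLocal := isLocalSub_locSubring B P
      intClosed := intClosedIn_locSubring B P hB
      shape := hΦ
      j_ne := hj
      jq_ne := hjq
      jqq_ne := hjqq
      rel1 := rel1
      rel2 := rel2
      rel3 := rel3
      rel4 := rel4
      cusp := hcusp }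
  obtain ⟨hT, hTV, -, hε0, hεi, -⟩ :=
    hcore.mid_generator hq V hOV c1 c2 hqV hq0 hIT hram A C hA hC ε hε hcong
  have hT0 : jqq * j⁻¹ - 1 ≠ 0 := by
    intro h0
    rw [h0, zero_pow (by omega)] at hε
    exact mul_ne_zero hq0 hε0 hε.symm
  exact mid_shape_of_pow_eq B P V hBV hthr hq hram hLOC hT hTV hT0 hεi hε0 hε

/-- **`hMID` at a cuspidal point of the middle component** (statement of record).

`B` a chart ring (integrally closed in `F`), `P` a prime of `B`, `V = V_mid ≥ B` with centre in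
`P`; `j, j_q, j_{q²}` with the four modular relations for a `Φ` of Kronecker shape and in
Kronecker-congruence form; `P` is a cusp (`1 / j ∈ P B_P`); the two `V_mid`-congruences
`j_q / j^q ≡ 1`, `j_{q²} / j ≡ 1`; `e(V_mid) = q - 1` (`hram`) and `V_mid` is a localisation of
`B` (`hLOC`).  Then there is `T ∈ B ∩ 𝔪(V)`, `T ≠ 0`, with `T ^ (q - 1) ∣ s * q` for some `s ∉ P`
and `T ∣ s' * a` (`s' ∉ 𝔪(V)`) for every `a ∈ B ∩ 𝔪(V)`: the conclusion of `hMID` of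
`helper8039.locFactorial_of_cases` for `pmid = B ∩ 𝔪(V)`, `m = q - 1`. -/
theorem mid_cusp_of_kron (hB : ∀ y : F, IsIntegral B y → y ∈ B)
    (V : ValuationSubring F) (hBV : B ≤ V.toSubring)
    (hthr : ∀ b : B, (b : F) ∈ V.nonunits → b ∈ P)
    {q : ℕ} (hq : q.Prime) {Φ G : Polynomial (Polynomial ℤ)} (hΦs : KronShape q Φ)
    (hΦ : Φ = (C (X ^ q) - X) * (C X - X ^ q) + (q : Polynomial (Polynomial ℤ)) * G)
    (hG : G.natDegree ≤ q) (hGc : ∀ a, a ≤ q → (G.coeff a).natDegree ≤ q)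
    {j jq jqq : F} (hj : j ≠ 0) (hjq : jq ≠ 0) (hjqq : jqq ≠ 0) (hne : jqq ≠ j)
    (rel1 : ev2 Φ j jq = 0) (rel2 : ev2 Φ jq j = 0) (rel3 : ev2 Φ jq jqq = 0)
    (rel4 : ev2 Φ jqq jq = 0) (hcusp : NonUnit (locSubring B P) j⁻¹)
    (c1 : Cong V (jq * j⁻¹ ^ q)) (c2 : Cong V (jqq * j⁻¹))
    (hqV : (q : F) ∈ V.nonunits)
    (hram : ∀ x : F, x ∈ V.nonunits → x ^ (q - 1) * (q : F)⁻¹ ∈ V)
    (hLOC : ∀ x : F, x ∈ V → ∃ s : B, (s : F) ∉ V.nonunits ∧ (s : F) * x ∈ B) :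
    ∃ T : B, (T : F) ∈ V.nonunits ∧ T ≠ 0 ∧
      (∃ s : B, s ∉ P ∧ T ^ (q - 1) ∣ s * (q : B)) ∧
      ∀ a : B, (a : F) ∈ V.nonunits → ∃ s : B, (s : F) ∉ V.nonunits ∧ T ∣ s * a := by
  have hOV := locSubring_le_valuationSubring B P V hBV hthr
  have hcore : CuspCore q (locSubring B P) Φ j jq jqq :=
    { isLocal := isLocalSub_locSubring B P
      intClosed := intClosedIn_locSubring B P hB
      shape := hΦs
      j_ne := hj
      jq_ne := hjq
      jqq_ne := hjqq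
      rel1 := rel1
      rel2 := rel2
      rel3 := rel3
      rel4 := rel4
      cusp := hcusp }
  obtain ⟨ε, -, hε0, hεi, hε⟩ :=
    Fermat.Agent.S36.helper1638.CuspCoreKron.mid_unit hcore hq V hOV c1 c2 hqV hne G hΦ hG hGc
  have hT : jqq * j⁻¹ - 1 ∈ locSubring B P :=
    (locSubring B P).sub_mem (hcore.rho_mem hq.ne_zero V hOV c1 c2).1 (locSubring B P).one_mem
  have hT0 : jqq * j⁻¹ - 1 ≠ 0 := by
    intro h0
    apply hne
    have h1 : jqq * j⁻¹ = 1 := sub_eq_zero.mp h0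
    have h2 : jqq = jqq * j⁻¹ * j := by rw [mul_assoc, inv_mul_cancel₀ hj, mul_one]
    rw [h2, h1, one_mul]
  exact mid_shape_of_pow_eq B P V hBV hthr hq.two_le hram hLOC hT c2 hT0 hεi hε0 hε

end MidShape

end Fermat.Agent.S36.helper5229
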