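import Fermat.Agent.S36.helper6020_KronModEq
import Fermat.Agent.S36.helper6414_PhiShapeInst

/-!
# S36-PHISHAPE, corollary (helper6414): the Kronecker remainder lies in the box `[0, p]²`

`helper6020.exists_modularEquation_kron` writes the landed modular equation as
`Φ = (X ^ p - Y) * (X - Y ^ p) + p * G`, and `helper6414.shape_of_rel` gives the Kronecker shape of
`Φ`.  Together: `G` has degree `≤ p` in `Y` and every coefficient of `G` has degree `≤ p` in `X`.

* `KronRel p g y x` : `(y ^ p - x) * (y - x ^ p) + p * ∑ a ≤ p, g_a(x) * y ^ a = 0`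
  (outer variable `y`, inner variable `x`), with `KronRel.map`, `KronRel.of_map`;
* `coeff_kronPoly`, `natDegree_coeff_kronPoly_le` : the coefficients of Kronecker's polynomial;
* `box_of_kron` : `Φ = kron + p * G` and `KroneckerShape p Φ` give the box bounds for `G`;
* `kronRel_of_ev2` : `ev2 x y (kron + p * G) = 0` (with `natDegree G ≤ p`) is `KronRel`;
* `exists_kron_box` : `helper6020.exists_modularEquation_kron` with the shape and the box bounds;
* `exists_kronRel_series` : one `g` with the four relations between `j`, `j_p`, `j_{p²}` over every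
  commutative ring;
* `kronRel_FN_iff` : a relation between elements of `FN M` can be checked on `q`-expansions;
* `exists_kronRel` : one `g` with the four relations over every ring and in every `FN M`,
  `p² ∣ M`;
* `kronRel_coeff_iff` : `KronRel` for `g = G.coeff` in the `(G.map (evalZ x)).eval y` shape;
* `coeff_coeff_of_kron` : the coefficient of `X ^ p * Y ^ p` of `G` vanishes;
* `exists_kronRemainder` : the one-call form with `G ∈ ℤ[X][Y]`;
* `exists_kronRemainder_twist` : the relations for the pairs `(j_d, j_{d p})`, every `d ≥ 1`.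
-/

set_option autoImplicit false

open ModularCurve Polynomial

namespace Fermat.Agent.S36.helper6414

open Fermat.Agent.S24.helper24 Fermat.Agent.S37.helper9343
open Fermat.Agent.S36.helper6020 (kronPoly ev2)

noncomputable section

/-! ## The relation -/

/-- The Kronecker relation with remainder `p * ∑ a ≤ p, g_a(x) * y ^ a`:
`(y ^ p - x) * (y - x ^ p) + p * ∑ a ≤ p, g_a(x) * y ^ a = 0`. -/
def KronRel {A : Type*} [CommRing A] (p : ℕ) (g : ℕ → Polynomial ℤ) (y x : A) : Prop :=
  (y ^ p - x) * (y - x ^ p) +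
    (p : A) * ∑ a ∈ Finset.range (p + 1), Polynomial.aeval x (g a) * y ^ a = 0

/-- Ring homomorphisms commute with the evaluation of integer polynomials. -/
theorem map_aeval_int {A B : Type*} [CommRing A] [CommRing B] (f : A →+* B) (x : A)
    (c : Polynomial ℤ) : f (Polynomial.aeval x c) = Polynomial.aeval (f x) c := by
  have h := Polynomial.aeval_algHom_apply f.toIntAlgHom x c
  exact h.symm

/-- The two sides of `KronRel` under a ring homomorphism. -/
theorem map_kronRel_lhs {A B : Type*} [CommRing A] [CommRing B] (f : A →+* B) (p : ℕ)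
    (g : ℕ → Polynomial ℤ) (y x : A) :
    f ((y ^ p - x) * (y - x ^ p) +
        (p : A) * ∑ a ∈ Finset.range (p + 1), Polynomial.aeval x (g a) * y ^ a) =
      (f y ^ p - f x) * (f y - f x ^ p) +
        (p : B) * ∑ a ∈ Finset.range (p + 1), Polynomial.aeval (f x) (g a) * f y ^ a := by
  simp only [map_add, map_mul, map_sub, map_pow, map_natCast, map_sum, map_aeval_int]

theorem KronRel.map {A B : Type*} [CommRing A] [CommRing B] (f : A →+* B) {p : ℕ}
    {g : ℕ → Polynomial ℤ} {y x : A} (h : KronRel p g y x) : KronRel p g (f y) (f x) := by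
  unfold KronRel at h ⊢
  rw [← map_kronRel_lhs, h, map_zero]

theorem KronRel.of_map {A B : Type*} [CommRing A] [CommRing B] (f : A →+* B)
    (hf : Function.Injective f) {p : ℕ} {g : ℕ → Polynomial ℤ} {y x : A}
    (h : KronRel p g (f y) (f x)) : KronRel p g y x := by
  unfold KronRel at h ⊢
  apply hf
  rw [map_kronRel_lhs, h, map_zero]

/-! ## The coefficients of Kronecker's polynomial -/

theorem kronPoly_eq (p : ℕ) :
    kronPoly p = (X : Polynomial (Polynomial ℤ)) ^ (p + 1) - C (X ^ p) * X ^ p - C X * X +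
      C (X ^ (p + 1)) := by
  unfold kronPoly
  simp only [map_pow]
  ring

theorem coeff_kronPoly (p n : ℕ) :
    (kronPoly p).coeff n = (if n = p + 1 then 1 else 0) - (if n = p then X ^ p else 0) -
      (if n = 1 then X else 0) + (if n = 0 then X ^ (p + 1) else 0) := by
  rw [kronPoly_eq]
  simp only [coeff_add, coeff_sub, coeff_X_pow, coeff_C_mul, coeff_X, coeff_C, mul_ite, mul_one,
    mul_zero]
  simp only [eq_comm (a := 1) (b := n)]

theorem natDegree_coeff_kronPoly_le (p n : ℕ) (hp : 1 ≤ p) (hn : n ≠ 0) :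
    ((kronPoly p).coeff n).natDegree ≤ p := by
  rw [coeff_kronPoly, if_neg hn, add_zero]
  refine (natDegree_sub_le _ _).trans (max_le ((natDegree_sub_le _ _).trans (max_le ?_ ?_)) ?_)
  · split_ifs <;> simp
  · split_ifs
    · exact natDegree_X_pow_le p
    · simp
  · split_ifs
    · exact natDegree_X_le.trans hp
    · simp

/-! ## The box bounds -/

/-- **The remainder lies in the box.** If `Φ = (X ^ p - Y) * (X - Y ^ p) + p * G` is monic of degree
`p + 1` and has the Kronecker shape, then `G` has degree `≤ p` in `Y` and all its coefficients have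
degree `≤ p` in `X`. -/
theorem box_of_kron (p : ℕ) (hp : 1 ≤ p) (Φ G : Polynomial (Polynomial ℤ)) (hΦm : Φ.Monic)
    (hΦd : Φ.natDegree = p + 1)
    (hG : Φ = kronPoly p + ((p : ℕ) : Polynomial (Polynomial ℤ)) * G)
    (hs : KroneckerShape p Φ) :
    G.natDegree ≤ p ∧ ∀ a, (G.coeff a).natDegree ≤ p := by
  obtain ⟨h0m, h0d, hmid, -⟩ := hs
  have hp0 : ((p : ℕ) : Polynomial ℤ) ≠ 0 := Nat.cast_ne_zero.mpr (by omega)
  have hpZ : ((p : ℕ) : ℤ) ≠ 0 := Nat.cast_ne_zero.mpr (by omega)
  have hcoef : ∀ n, ((p : ℕ) : Polynomial ℤ) * G.coeff n = Φ.coeff n - (kronPoly p).coeff n := by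
    intro n
    have h1 : Φ.coeff n = (kronPoly p).coeff n +
        (((p : ℕ) : Polynomial (Polynomial ℤ)) * G).coeff n := by
      rw [← coeff_add, ← hG]
    have h2 : (((p : ℕ) : Polynomial (Polynomial ℤ)) * G).coeff n =
        ((p : ℕ) : Polynomial ℤ) * G.coeff n := by
      rw [← Polynomial.C_eq_natCast, coeff_C_mul]
    rw [h1, h2]
    ring
  have hdeg : ∀ n, (G.coeff n).natDegree = (Φ.coeff n - (kronPoly p).coeff n).natDegree := by
    intro n
    rw [← hcoef n, ← Polynomial.C_eq_natCast, natDegree_C_mul]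
    exact_mod_cast hpZ
  have hzero : ∀ n, p < n → G.coeff n = 0 := by
    intro n hn
    have h2 : Φ.coeff n - (kronPoly p).coeff n = 0 := by
      rw [coeff_kronPoly, if_neg (by omega : ¬ n = p), if_neg (by omega : ¬ n = 1),
        if_neg (by omega : ¬ n = 0)]
      by_cases h1 : n = p + 1
      · rw [if_pos h1, h1, ← hΦd, hΦm.coeff_natDegree]
        ring
      · rw [if_neg h1, coeff_eq_zero_of_natDegree_lt (by omega)]
        ring
    have h := hcoef n
    rw [h2] at h
    exact (mul_eq_zero.mp h).resolve_left hp0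
  refine ⟨natDegree_le_iff_coeff_eq_zero.mpr hzero, fun a => ?_⟩
  by_cases ha : p < a
  · rw [hzero a ha]
    simp
  rw [hdeg a]
  by_cases ha0 : a = 0
  · subst ha0
    rw [coeff_kronPoly, if_neg (by omega : ¬ 0 = p + 1), if_neg (by omega : ¬ 0 = p),
      if_neg (by omega : ¬ 0 = 1), if_pos rfl]
    rw [natDegree_le_iff_coeff_eq_zero]
    intro N hN
    rw [coeff_sub, coeff_add, coeff_sub, coeff_sub, coeff_zero, coeff_X_pow]
    by_cases h1 : N = p + 1
    · rw [if_pos h1, h1, ← h0d, h0m.coeff_natDegree]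
      ring
    · rw [if_neg h1, coeff_eq_zero_of_natDegree_lt (by omega)]
      ring
  · exact (natDegree_sub_le _ _).trans
      (max_le (hmid a (by omega) (by omega)) (natDegree_coeff_kronPoly_le p a hp ha0))

/-- `ev2 x y (kron + p * G) = 0` with `natDegree G ≤ p` is the relation `KronRel` for the
coefficients of `G` (outer variable `y`, inner variable `x`). -/
theorem kronRel_of_ev2 {A : Type*} [CommRing A] (p : ℕ) (G : Polynomial (Polynomial ℤ))
    (hGd : G.natDegree ≤ p) (x y : A)
    (h : ev2 x y (kronPoly p + ((p : ℕ) : Polynomial (Polynomial ℤ)) * G) = 0) :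
    KronRel p (fun a => G.coeff a) y x := by
  rw [map_add, map_mul, map_natCast, Fermat.Agent.S36.helper6020.ev2_kronPoly,
    Fermat.Agent.S36.helper6020.ev2_apply,
    Polynomial.eval₂_eq_sum_range' _ (Nat.lt_succ_of_le hGd)] at h
  unfold KronRel
  have h' : (x ^ p - y) * (x - y ^ p) +
      (p : A) * ∑ a ∈ Finset.range (p + 1), Polynomial.aeval x (G.coeff a) * y ^ a = 0 := h
  linear_combination h'

/-! ## The landed modular equation -/

/-- `helper6020.exists_modularEquation_kron` together with the Kronecker shape of `Φ` and the box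
bounds for the remainder `G`. -/
theorem exists_kron_box (p : ℕ) [hp : Fact p.Prime] :
    ∃ Φ G : Polynomial (Polynomial ℤ), Φ.Monic ∧ Φ.natDegree = p + 1 ∧
      Φ = kronPoly p + ((p : ℕ) : Polynomial (Polynomial ℤ)) * G ∧
      KroneckerShape p Φ ∧ G.natDegree ≤ p ∧ (∀ a, (G.coeff a).natDegree ≤ p) ∧
      ∀ (R : Type) [CommRing R],
        (Φ.map (Fermat.Agent.S28.helper328.evalJ (jqModC R))).eval (qExpand R p (jqModC R)) = 0 ∧
        (Φ.map (Fermat.Agent.S28.helper328.evalJ (qExpand R p (jqModC R)))).eval (jqModC R) = 0 := by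
  obtain ⟨Φ, G, hΦm, hΦd, hG, hrel⟩ := Fermat.Agent.S36.helper6020.exists_modularEquation_kron p
  have : NeZero p := ⟨hp.out.ne_zero⟩
  have hs := shape_of_rel p hp.out.two_le Φ hΦm hΦd (hrel ℚ).1 (hrel ℚ).2
  obtain ⟨h1, h2⟩ := box_of_kron p hp.out.one_le Φ G hΦm hΦd hG hs
  exact ⟨Φ, G, hΦm, hΦd, hG, hs, h1, h2, hrel⟩

/-- **The Kronecker relations between `j`, `j_p`, `j_{p²}` with a remainder in the box**, over
every commutative ring: one family `g_a ∈ ℤ[X]`, `natDegree g_a ≤ p`, with
`KronRel p g y x` for `(y, x) = (j_p, j), (j, j_p), (j_{p²}, j_p), (j_p, j_{p²})`. -/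
theorem exists_kronRel_series (p : ℕ) [NeZero p] (hp : p.Prime) :
    ∃ g : ℕ → Polynomial ℤ, (∀ a, (g a).natDegree ≤ p) ∧
      ∀ (R : Type) [CommRing R],
        KronRel p g (qExpand R p (jqModC R)) (jqModC R) ∧
        KronRel p g (jqModC R) (qExpand R p (jqModC R)) ∧
        KronRel p g (qExpand R (p * p) (jqModC R)) (qExpand R p (jqModC R)) ∧
        KronRel p g (qExpand R p (jqModC R)) (qExpand R (p * p) (jqModC R)) := by
  have : Fact p.Prime := ⟨hp⟩
  obtain ⟨Φ, G, -, -, hG, -, hGd, hGc, hrel⟩ := exists_kron_box p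
  refine ⟨fun a => G.coeff a, hGc, fun R _ => ?_⟩
  obtain ⟨h1, h2⟩ := hrel R
  have e1 : ev2 (jqModC R) (qExpand R p (jqModC R))
      (kronPoly p + ((p : ℕ) : Polynomial (Polynomial ℤ)) * G) = 0 := by
    rw [← hG]
    exact (Fermat.Agent.S36.helper6020.ev2_eq_eval_map_evalJ _ _ _).trans h1
  have e2 : ev2 (qExpand R p (jqModC R)) (jqModC R)
      (kronPoly p + ((p : ℕ) : Polynomial (Polynomial ℤ)) * G) = 0 := by
    rw [← hG]
    exact (Fermat.Agent.S36.helper6020.ev2_eq_eval_map_evalJ _ _ _).trans h2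
  have k1 := kronRel_of_ev2 p G hGd _ _ e1
  have k2 := kronRel_of_ev2 p G hGd _ _ e2
  have k3 := k1.map (qExpand R p)
  have k4 := k2.map (qExpand R p)
  rw [qExpand_qExpand] at k3 k4
  exact ⟨k1, k2, k3, k4⟩

/-- A Kronecker relation between elements of `FN M` can be checked on `q`-expansions. -/
theorem kronRel_FN_iff (M : ℕ) (p : ℕ) (g : ℕ → Polynomial ℤ) (a b : FN M) :
    KronRel p g a b ↔ KronRel p g (a : LaurentSeries Kbar) (b : LaurentSeries Kbar) :=
  ⟨fun h => h.map ((modularFunctionFieldBar M).val : FN M →+* LaurentSeries Kbar),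
    fun h => KronRel.of_map ((modularFunctionFieldBar M).val : FN M →+* LaurentSeries Kbar)
      Subtype.val_injective h⟩

/-- **The Kronecker relations with a remainder in the box, over every ring and in every `FN M`**
(`p² ∣ M`): one family `g_a ∈ ℤ[X]`, `natDegree g_a ≤ p`, such that
`(y ^ p - x) * (y - x ^ p) + p * ∑ a ≤ p, g_a(x) * y ^ a = 0` for
`(y, x) = (j_p, j), (j, j_p), (j_{p²}, j_p), (j_p, j_{p²})`. -/
theorem exists_kronRel (p : ℕ) [NeZero p] (hp : p.Prime) :
    ∃ g : ℕ → Polynomial ℤ, (∀ a, (g a).natDegree ≤ p) ∧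
      (∀ (R : Type) [CommRing R],
        KronRel p g (qExpand R p (jqModC R)) (jqModC R) ∧
        KronRel p g (jqModC R) (qExpand R p (jqModC R)) ∧
        KronRel p g (qExpand R (p * p) (jqModC R)) (qExpand R p (jqModC R)) ∧
        KronRel p g (qExpand R p (jqModC R)) (qExpand R (p * p) (jqModC R))) ∧
      ∀ (M : ℕ) (hM : p * p ∣ M),
        KronRel p g (jBarD M p ((dvd_mul_left p p).trans hM)) (jBar M) ∧
        KronRel p g (jBar M) (jBarD M p ((dvd_mul_left p p).trans hM)) ∧
        KronRel p g (jBarD M (p * p) hM) (jBarD M p ((dvd_mul_left p p).trans hM)) ∧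
        KronRel p g (jBarD M p ((dvd_mul_left p p).trans hM)) (jBarD M (p * p) hM) := by
  obtain ⟨g, hg, hrel⟩ := exists_kronRel_series p hp
  refine ⟨g, hg, hrel, fun M hM => ?_⟩
  obtain ⟨k1, k2, k3, k4⟩ := hrel Kbar
  rw [← JK_eq_jqModC] at k1 k2 k3 k4
  refine ⟨?_, ?_, ?_, ?_⟩
  · rw [kronRel_FN_iff, coe_jBar', coe_jBarD']
    exact k1
  · rw [kronRel_FN_iff, coe_jBar', coe_jBarD']
    exact k2
  · rw [kronRel_FN_iff, coe_jBarD', coe_jBarD']
    exact k3
  · rw [kronRel_FN_iff, coe_jBarD', coe_jBarD']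
    exact k4

/-! ## The remainder as a polynomial `G ∈ ℤ[X][Y]` -/

/-- `KronRel` for the coefficients of `G ∈ ℤ[X][Y]` (`natDegree G ≤ p`) in the
`(G.map (evalZ x)).eval y` shape of the landed S28 / S37 files. -/
theorem kronRel_coeff_iff {A : Type*} [CommRing A] (p : ℕ) (G : Polynomial (Polynomial ℤ))
    (hGd : G.natDegree ≤ p) (y x : A) :
    KronRel p (fun a => G.coeff a) y x ↔
      (y ^ p - x) * (y - x ^ p) +
        (p : A) * (G.map (Polynomial.eval₂RingHom (Int.castRingHom A) x)).eval y = 0 := by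
  have h : (G.map (Polynomial.eval₂RingHom (Int.castRingHom A) x)).eval y =
      ∑ a ∈ Finset.range (p + 1), Polynomial.aeval x (G.coeff a) * y ^ a := by
    rw [Polynomial.eval_map, Polynomial.eval₂_eq_sum_range' _ (Nat.lt_succ_of_le hGd)]
    refine Finset.sum_congr rfl fun a _ => ?_
    rw [Polynomial.coe_eval₂RingHom, Polynomial.aeval_def]
    congr 2
  unfold KronRel
  rw [h]

/-- The coefficient of `X ^ p * Y ^ p` of the remainder vanishes. -/
theorem coeff_coeff_of_kron (p : ℕ) (hp : 2 ≤ p) (Φ G : Polynomial (Polynomial ℤ))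
    (hG : Φ = kronPoly p + ((p : ℕ) : Polynomial (Polynomial ℤ)) * G)
    (hs : KroneckerShape p Φ) : (G.coeff p).coeff p = 0 := by
  obtain ⟨-, -, -, hpp⟩ := hs
  have h1 : (Φ.coeff p).coeff p = ((kronPoly p).coeff p).coeff p +
      ((((p : ℕ) : Polynomial (Polynomial ℤ)) * G).coeff p).coeff p := by
    rw [← coeff_add, ← coeff_add, ← hG]
  have h2 : ((((p : ℕ) : Polynomial (Polynomial ℤ)) * G).coeff p).coeff p =
      ((p : ℕ) : ℤ) * (G.coeff p).coeff p := by
    rw [← Polynomial.C_eq_natCast, coeff_C_mul, ← Polynomial.C_eq_natCast, coeff_C_mul]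
  have h3 : ((kronPoly p).coeff p).coeff p = -1 := by
    rw [coeff_kronPoly, if_neg (by omega : ¬ p = p + 1), if_pos rfl, if_neg (by omega : ¬ p = 1),
      if_neg (by omega : ¬ p = 0)]
    simp
  rw [hpp, h2, h3] at h1
  have h4 : ((p : ℕ) : ℤ) * (G.coeff p).coeff p = 0 := by linarith
  have hpZ : ((p : ℕ) : ℤ) ≠ 0 := Nat.cast_ne_zero.mpr (by omega)
  exact (mul_eq_zero.mp h4).resolve_left hpZ

/-- **The Kronecker remainder of the landed modular equation, one-call form.** There is
`G ∈ ℤ[X][Y]` of degree `≤ p` in `Y`, with all coefficients of degree `≤ p` in `X` and with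
vanishing coefficient of `X ^ p * Y ^ p`, such that
`(y ^ p - x) * (y - x ^ p) + p * G(x, y) = 0` (inner variable `x`, outer variable `y`) for
`(y, x) = (j_p, j), (j, j_p), (j_{p²}, j_p), (j_p, j_{p²})`, over every commutative ring and in
every `FN M` with `p² ∣ M`.  (`kronRel_coeff_iff` converts to the `(G.map (evalZ x)).eval y`
shape.) -/
theorem exists_kronRemainder (p : ℕ) [NeZero p] (hp : p.Prime) :
    ∃ G : Polynomial (Polynomial ℤ), G.natDegree ≤ p ∧ (∀ a, (G.coeff a).natDegree ≤ p) ∧
      (G.coeff p).coeff p = 0 ∧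
      (∀ (R : Type) [CommRing R],
        KronRel p (fun a => G.coeff a) (qExpand R p (jqModC R)) (jqModC R) ∧
        KronRel p (fun a => G.coeff a) (jqModC R) (qExpand R p (jqModC R)) ∧
        KronRel p (fun a => G.coeff a) (qExpand R (p * p) (jqModC R)) (qExpand R p (jqModC R)) ∧
        KronRel p (fun a => G.coeff a) (qExpand R p (jqModC R))
          (qExpand R (p * p) (jqModC R))) ∧
      ∀ (M : ℕ) (hM : p * p ∣ M),
        KronRel p (fun a => G.coeff a) (jBarD M p ((dvd_mul_left p p).trans hM)) (jBar M) ∧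
        KronRel p (fun a => G.coeff a) (jBar M) (jBarD M p ((dvd_mul_left p p).trans hM)) ∧
        KronRel p (fun a => G.coeff a) (jBarD M (p * p) hM)
          (jBarD M p ((dvd_mul_left p p).trans hM)) ∧
        KronRel p (fun a => G.coeff a) (jBarD M p ((dvd_mul_left p p).trans hM))
          (jBarD M (p * p) hM) := by
  have : Fact p.Prime := ⟨hp⟩
  obtain ⟨Φ, G, -, -, hG, hs, hGd, hGc, hrel⟩ := exists_kron_box p
  have hser : ∀ (R : Type) [CommRing R],
      KronRel p (fun a => G.coeff a) (qExpand R p (jqModC R)) (jqModC R) ∧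
      KronRel p (fun a => G.coeff a) (jqModC R) (qExpand R p (jqModC R)) ∧
      KronRel p (fun a => G.coeff a) (qExpand R (p * p) (jqModC R)) (qExpand R p (jqModC R)) ∧
      KronRel p (fun a => G.coeff a) (qExpand R p (jqModC R)) (qExpand R (p * p) (jqModC R)) := by
    intro R _
    obtain ⟨h1, h2⟩ := hrel R
    have e1 : ev2 (jqModC R) (qExpand R p (jqModC R))
        (kronPoly p + ((p : ℕ) : Polynomial (Polynomial ℤ)) * G) = 0 := by
      rw [← hG]
      exact (Fermat.Agent.S36.helper6020.ev2_eq_eval_map_evalJ _ _ _).trans h1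
    have e2 : ev2 (qExpand R p (jqModC R)) (jqModC R)
        (kronPoly p + ((p : ℕ) : Polynomial (Polynomial ℤ)) * G) = 0 := by
      rw [← hG]
      exact (Fermat.Agent.S36.helper6020.ev2_eq_eval_map_evalJ _ _ _).trans h2
    have k1 := kronRel_of_ev2 p G hGd _ _ e1
    have k2 := kronRel_of_ev2 p G hGd _ _ e2
    have k3 := k1.map (qExpand R p)
    have k4 := k2.map (qExpand R p)
    rw [qExpand_qExpand] at k3 k4
    exact ⟨k1, k2, k3, k4⟩
  refine ⟨G, hGd, hGc, coeff_coeff_of_kron p hp.two_le Φ G hG hs, hser, fun M hM => ?_⟩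
  obtain ⟨k1, k2, k3, k4⟩ := hser Kbar
  rw [← JK_eq_jqModC] at k1 k2 k3 k4
  refine ⟨?_, ?_, ?_, ?_⟩
  · rw [kronRel_FN_iff, coe_jBar', coe_jBarD']
    exact k1
  · rw [kronRel_FN_iff, coe_jBar', coe_jBarD']
    exact k2
  · rw [kronRel_FN_iff, coe_jBarD', coe_jBarD']
    exact k3
  · rw [kronRel_FN_iff, coe_jBarD', coe_jBarD']
    exact k4

/-- **The Kronecker relations for the pairs `(j_d, j_{d p})`**, every `d ≥ 1`, over every
commutative ring, with the remainder `G` of `exists_kronRemainder` (box bounds, vanishing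
coefficient of `X ^ p * Y ^ p`): the `V_d`-translates of the relations for `(j, j_p)`. -/
theorem exists_kronRemainder_twist (p : ℕ) [NeZero p] (hp : p.Prime) :
    ∃ G : Polynomial (Polynomial ℤ), G.natDegree ≤ p ∧ (∀ a, (G.coeff a).natDegree ≤ p) ∧
      (G.coeff p).coeff p = 0 ∧
      ∀ (R : Type) [CommRing R] (d : ℕ) [NeZero d],
        KronRel p (fun a => G.coeff a) (qExpand R (d * p) (jqModC R)) (qExpand R d (jqModC R)) ∧
        KronRel p (fun a => G.coeff a) (qExpand R d (jqModC R))
          (qExpand R (d * p) (jqModC R)) := by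
  obtain ⟨G, hGd, hGc, hpp, hser, -⟩ := exists_kronRemainder p hp
  refine ⟨G, hGd, hGc, hpp, fun R _ d _ => ?_⟩
  obtain ⟨k1, k2, -, -⟩ := hser R
  have k3 := k1.map (qExpand R d)
  have k4 := k2.map (qExpand R d)
  rw [qExpand_qExpand] at k3 k4
  exact ⟨k3, k4⟩

end

end Fermat.Agent.S36.helper6414
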