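import Mathlib
import Fermat.Agent.S28.helper328_PrimeSpec
import Fermat.Agent.Lib.helper7516_LaurentFrob
import Fermat.Agent.S37.helper1588_FFK
import Fermat.Agent.S37.helper9536_Haupt49Inst
import Fermat.Agent.S36.helper1013_Vertical
import Fermat.Agent.S18.helper8991_GaussInst
import Fermat.Agent.S36.helper6414_KronBox
import Fermat.Agent.S36.helper5229_CuspLoc

/-!
# S36-CUSP-LP, file 3 (helper5229): the modular inputs of the cusp kit, from two expansions

The hypotheses of `mid_cusp_of_kron` (file `helper5229_CuspLoc`) that are statements about the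
modular functions `j, j_q, j_{q²}` are discharged here from TWO expansion homomorphisms of the
function field `F`:

* `ι : F →+* R((t))` (the expansion at `∞`; `R` any field) with
  `ι j = j(t)`, `ι j_q = j(t^q)`, `ι j_{q²} = j(t^{q²})`: the four modular relations for a `Φ` of
  Kronecker shape in Kronecker-congruence form (`exists_kron_core`, from the landed/compiled
  `helper6414.exists_kron_box`);
* `σ : F →+* L((t))` (the expansion at a middle cusp; `A ≤ L` a valuation ring with a reduction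
  `π : A → k`, `char k = q`, `ζ ∈ Aˣ` with `π ζ = 1`) with
  `σ j = j(t)`, `σ j_q = j(t^q)`, `σ j_{q²} = j(ζ t)`, and a valuation ring `V` of `F` which is
  "Gauss along `σ`" on integral series (`hV0`, `hV1`: the two properties of
  `helper508.pullGauss A π σ` that are used): the congruences `j_q / j^q ≡ 1`, `j_{q²} / j ≡ 1`
  modulo `𝔪(V)` (`cong_mid_of_series`).

`mid_cusp_of_series` is the resulting one-call form of `hMID` at a cuspidal point of `C_mid`.

The last section is the same on the CONCRETE carrier `F_{M,K} = laurentBaseChange K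
(modularFunctionFieldFull M)` of the S36 instance (`K` any field over `ℚ`, e.g. `ℚ̄^I`), with
`j = jK K M`, `j_q = jKd K M q`, `j_{q²} = jKd K M (q * q)` (landed `S37.helper1588`):

* `jK_mul_t4`, `jK_mul_t9` : the relations between `j` and a Hauptmodul `x` with expansion
  `t4C K` resp. `t9C K`;
* `nonUnit_inv_jK_t4`, `nonUnit_inv_jK_t4_inv`, `nonUnit_inv_jK_t9`, `nonUnit_inv_jK_t9_inv` :
  a closed point `P` of a chart ring `B` containing the cusp polynomial of the chart is a cusp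
  (`1 / j ∈ P B_P`);
* `mid_cusp_FK` : `hMID` at such a point (`ι` is the inclusion; only the mid expansion `σ` and the
  chart data remain as hypotheses);
* `hram_of_isOrd`, `hLOC_of_exists_mul_eq` : the hypotheses `hram`, `hLOC` from the `KillData`
  fields (`hord`, `mem_V`, `ord_q1`) and from `helper4551.IsGaussExt.exists_mul_eq`;
* `hV_of_mem_gaussRing` : the hypotheses `hV0`, `hV1` for every valuation ring `V` with
  `x ∈ V ↔ σ x ∈ gaussRing A π` (the landed Gauss ring of `S18.helper8991`), e.g.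
  `helper508.pullGauss A π σ hσ` (`mem_pullGauss_iff` is `Iff.rfl`) and its comaps.
-/

set_option autoImplicit false

namespace Fermat.Agent.S36.helper5229

open Polynomial ModularCurve
open Fermat.Agent.S36.helper4913 (locSubring)
open Fermat.Agent.S28.helper328 (twist twist_coeff)

variable {F : Type*} [Field F]

/-! ## `ev2` and ring homomorphisms -/

/-- `ev2` commutes with ring homomorphisms. -/
theorem ev2_map {E : Type*} [Field E] (f : F →+* E) (Φ : Polynomial (Polynomial ℤ)) (x y : F) :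
    ev2 Φ (f x) (f y) = f (ev2 Φ x y) := by
  rw [ev2_def, ev2_def, eval_map, eval_map, Polynomial.hom_eval₂]
  congr 1
  apply Polynomial.ringHom_ext
  · intro n
    simp
  · simp

/-- Transport of a relation along an injective ring homomorphism. -/
theorem ev2_eq_zero_of_map {E : Type*} [Field E] (f : F →+* E) {Φ : Polynomial (Polynomial ℤ)}
    {x y : F} (h : ev2 Φ (f x) (f y) = 0) : ev2 Φ x y = 0 := by
  apply f.injective
  rw [← ev2_map, h, map_zero]

/-! ## The Kronecker package from the expansion at infinity -/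

/-- **The modular relations.**  If `ι : F →+* R((t))` sends `j, j_q, j_{q²}` to
`j(t), j(t^q), j(t^{q²})`, there is `Φ = (X^q - Y)(X - Y^q) + q G` of Kronecker shape with
`deg_X G, deg_Y G ≤ q` and `Φ(j, j_q) = Φ(j_q, j) = Φ(j_q, j_{q²}) = Φ(j_{q²}, j_q) = 0`. -/
theorem exists_kron_core (q : ℕ) [NeZero q] (hq : q.Prime) {R : Type} [Field R]
    (ι : F →+* LaurentSeries R) {j jq jqq : F}
    (hj : ι j = jqModC R) (hjq : ι jq = qExpand R q (jqModC R))
    (hjqq : ι jqq = qExpand R (q * q) (jqModC R)) :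
    ∃ Φ G : Polynomial (Polynomial ℤ), KronShape q Φ ∧
      Φ = (C (X ^ q) - X) * (C X - X ^ q) + (q : Polynomial (Polynomial ℤ)) * G ∧
      G.natDegree ≤ q ∧ (∀ a, a ≤ q → (G.coeff a).natDegree ≤ q) ∧
      ev2 Φ j jq = 0 ∧ ev2 Φ jq j = 0 ∧ ev2 Φ jq jqq = 0 ∧ ev2 Φ jqq jq = 0 ∧
      j ≠ 0 ∧ jq ≠ 0 ∧ jqq ≠ 0 ∧ jqq ≠ j := by
  have : Fact q.Prime := ⟨hq⟩
  obtain ⟨Φ, G, hΦm, hΦd, hG, hs, hGd, hGc, hrel⟩ :=
    Fermat.Agent.S36.helper6414.exists_kron_box q
  obtain ⟨h1, h2⟩ := hrel R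
  have r1 : ev2 Φ (jqModC R) (qExpand R q (jqModC R)) = 0 := h1
  have r2 : ev2 Φ (qExpand R q (jqModC R)) (jqModC R) = 0 := h2
  have r3 : ev2 Φ (qExpand R q (jqModC R)) (qExpand R (q * q) (jqModC R)) = 0 := by
    have h := ev2_map (qExpand R q) Φ (jqModC R) (qExpand R q (jqModC R))
    rw [r1, map_zero, qExpand_qExpand] at h
    exact h
  have r4 : ev2 Φ (qExpand R (q * q) (jqModC R)) (qExpand R q (jqModC R)) = 0 := by
    have h := ev2_map (qExpand R q) Φ (qExpand R q (jqModC R)) (jqModC R)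
    rw [r2, map_zero, qExpand_qExpand] at h
    exact h
  have hJ0 : jqModC R ≠ 0 := by
    intro h0
    have h := ModularCurve.coeff_jqModC_neg_one R
    rw [h0, HahnSeries.coeff_zero] at h
    exact zero_ne_one h
  have hj0 : j ≠ 0 := by
    rintro rfl
    rw [map_zero] at hj
    exact hJ0 hj.symm
  have hjq0 : jq ≠ 0 := by
    rintro rfl
    rw [map_zero] at hjq
    have : qExpand R q (jqModC R) = qExpand R q 0 := by rw [← hjq, map_zero]
    exact hJ0 (qExpand_injective (R := R) q this)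
  have hjqq0 : jqq ≠ 0 := by
    rintro rfl
    rw [map_zero] at hjqq
    have : qExpand R (q * q) (jqModC R) = qExpand R (q * q) 0 := by rw [← hjqq, map_zero]
    exact hJ0 (qExpand_injective (R := R) (q * q) this)
  have hne : jqq ≠ j := by
    rintro rfl
    have h : (qExpand R (q * q) (jqModC R)).coeff (-1) = (jqModC R).coeff (-1) := by
      rw [← hjqq, ← hj]
    rw [ModularCurve.coeff_jqModC_neg_one, qExpand_coeff_of_not_dvd] at h
    · exact zero_ne_one h
    · intro hdvd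
      have h3 : ((q * q : ℕ) : ℤ) ∣ 1 := (Int.dvd_neg).mp hdvd
      have h4 : q * q ∣ 1 := by exact_mod_cast h3
      have h5 : q ∣ 1 := (Dvd.intro _ rfl).trans h4
      exact hq.one_lt.ne' (Nat.dvd_one.mp h5)
  refine ⟨Φ, G, ⟨hΦm, hΦd, ?_⟩, hG, hGd, fun a _ => hGc a, ?_, ?_, ?_, ?_, hj0, hjq0, hjqq0, hne⟩
  · intro k hk
    rcases Nat.eq_zero_or_pos k with rfl | hk0
    · rw [hs.2.1, Nat.sub_zero]
      exact Nat.le_mul_of_pos_left _ hq.pos
    · refine (hs.2.2.1 k hk0 hk).trans ?_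
      exact Nat.le_mul_of_pos_right _ (by omega)
  · exact ev2_eq_zero_of_map ι (by rw [hj, hjq]; exact r1)
  · exact ev2_eq_zero_of_map ι (by rw [hj, hjq]; exact r2)
  · exact ev2_eq_zero_of_map ι (by rw [hjq, hjqq]; exact r3)
  · exact ev2_eq_zero_of_map ι (by rw [hjq, hjqq]; exact r4)

/-! ## The two congruences at the middle valuation -/

/-- Frobenius: `j(t^q) = j(t)^q` in characteristic `q`. -/
theorem qExpand_jqModC_eq_pow (k : Type*) [CommRing k] (q : ℕ) [NeZero q] (hq : q.Prime)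
    [CharP k q] : qExpand k q (jqModC k) = jqModC k ^ q := by
  have : Fact q.Prime := ⟨hq⟩
  have h1 : jqModC k = coeffMap (ZMod.castHom (dvd_refl q) k) (jqModC (ZMod q)) :=
    (coeffMap_jqModC _).symm
  rw [h1, ← Fermat.Agent.S36.helper6020.coeffMap_qExpand,
    Fermat.Agent.Lib.helper7516.qExpand_zmod, map_pow]

/-- Coefficient maps commute with `t ↦ ζ t`. -/
theorem coeffMap_twist_units {R S : Type*} [CommRing R] [CommRing S] (f : R →+* S) (ζ : Rˣ)
    (x : LaurentSeries R) :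
    coeffMap f (twist ζ x) = twist (Units.map (f : R →* S) ζ) (coeffMap f x) := by
  ext m
  rw [coeffMap_coeff, twist_coeff, twist_coeff, coeffMap_coeff, map_mul, ← map_zpow]
  rfl

theorem twist_one_units {R : Type*} [CommRing R] (x : LaurentSeries R) :
    twist (1 : Rˣ) x = x := by
  ext m
  rw [twist_coeff, one_zpow, Units.val_one, one_mul]

theorem nonunits_mul_mem (V : ValuationSubring F) {x y : F} (hx : x ∈ V.nonunits) (hy : y ∈ V) :
    x * y ∈ V.nonunits := by
  rw [V.mem_nonunits_iff, map_mul]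
  have h1 : V.valuation x < 1 := V.mem_nonunits_iff.mp hx
  have h2 : V.valuation y ≤ 1 := (V.valuation_le_one_iff _).mpr hy
  calc V.valuation x * V.valuation y ≤ V.valuation x * 1 := mul_le_mul' le_rfl h2
    _ = V.valuation x := mul_one _
    _ < 1 := h1

section MidCong

variable {L : Type*} [Field L] (A : ValuationSubring L) {k : Type*} [Field k] (π : A →+* k)

/-- **The two congruences at the middle valuation.**  `σ : F →+* L((t))` the expansion at a
middle cusp (`σ j = j(t)`, `σ j_q = j(t^q)`, `σ j_{q²} = j(ζ t)`), `V` a valuation ring of `F`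
which is Gauss along `σ` on integral series.  Then `j_q / j^q ≡ 1` and `j_{q²} / j ≡ 1` modulo
`𝔪(V)`. -/
theorem cong_mid_of_series (q : ℕ) [NeZero q] (hq : q.Prime) [CharP k q] (ζ : Aˣ)
    (hζ : π (ζ : A) = 1) (σ : F →+* LaurentSeries L) (V : ValuationSubring F)
    (hV0 : ∀ (x : F) (X : LaurentSeries A), σ x = coeffMap A.subtype X → coeffMap π X = 0 →
      x ∈ V.nonunits)
    (hV1 : ∀ (x : F) (X : LaurentSeries A), σ x = coeffMap A.subtype X → coeffMap π X ≠ 0 →
      x ∈ V ∧ x⁻¹ ∈ V)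
    {j jq jqq : F} (hj : σ j = jqModC L) (hjq : σ jq = qExpand L q (jqModC L))
    (hjqq : σ jqq = twist (Units.map (A.subtype : A →* L) ζ) (jqModC L)) :
    Cong V (jq * j⁻¹ ^ q) ∧ Cong V (jqq * j⁻¹) := by
  have hJL : jqModC L = coeffMap A.subtype (jqModC A) := (coeffMap_jqModC _).symm
  have hJk : coeffMap π (jqModC A) = jqModC k := coeffMap_jqModC _
  have hJk0 : jqModC k ≠ 0 := by
    intro h0
    have h := ModularCurve.coeff_jqModC_neg_one k
    rw [h0, HahnSeries.coeff_zero] at h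
    exact zero_ne_one h
  have hJL0 : jqModC L ≠ 0 := by
    intro h0
    have h := ModularCurve.coeff_jqModC_neg_one L
    rw [h0, HahnSeries.coeff_zero] at h
    exact zero_ne_one h
  have hj0 : j ≠ 0 := by
    rintro rfl
    rw [map_zero] at hj
    exact hJL0 hj.symm
  -- `j` is a unit of `V`
  obtain ⟨-, hjinv⟩ := hV1 j (jqModC A) (hj.trans hJL) (by rw [hJk]; exact hJk0)
  -- `j_q - j^q ∈ 𝔪(V)`
  have h1 : jq - j ^ q ∈ V.nonunits := by
    refine hV0 _ (qExpand A q (jqModC A) - jqModC A ^ q) ?_ ?_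
    · rw [map_sub, map_pow, hjq, hj, map_sub, map_pow,
        Fermat.Agent.S36.helper6020.coeffMap_qExpand, ← hJL]
    · rw [map_sub, map_pow, Fermat.Agent.S36.helper6020.coeffMap_qExpand, hJk,
        qExpand_jqModC_eq_pow k q hq, sub_self]
  -- `j_{q²} - j ∈ 𝔪(V)`
  have h2 : jqq - j ∈ V.nonunits := by
    refine hV0 _ (twist ζ (jqModC A) - jqModC A) ?_ ?_
    · rw [map_sub, hjqq, hj, map_sub, coeffMap_twist_units, ← hJL]
    · rw [map_sub, coeffMap_twist_units, hJk]
      have hu : Units.map (π : A →* k) ζ = 1 := Units.ext hζ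
      rw [hu, twist_one_units, sub_self]
  constructor
  · have e : jq * j⁻¹ ^ q - 1 = (jq - j ^ q) * j⁻¹ ^ q := by
      rw [sub_mul, inv_pow, mul_inv_cancel₀ (pow_ne_zero q hj0)]
    show jq * j⁻¹ ^ q - 1 ∈ V.nonunits
    rw [e]
    exact nonunits_mul_mem V h1 (V.pow_mem hjinv q)
  · have e : jqq * j⁻¹ - 1 = (jqq - j) * j⁻¹ := by
      rw [sub_mul, mul_inv_cancel₀ hj0]
    show jqq * j⁻¹ - 1 ∈ V.nonunits
    rw [e]
    exact nonunits_mul_mem V h2 hjinv

/-- **`hMID` at a cuspidal point of `C_mid`, one call** (statement of record of CUSP-LP).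

Inputs: the expansion `ι` at `∞` and the expansion `σ` at a middle cusp of the three functions
`j, j_q, j_{q²}`; `V = V_mid` Gauss along `σ` (`hV0`, `hV1`); a chart ring `B ≤ V` integrally
closed in `F`; a prime `P ⊇ B ∩ 𝔪(V)` which is a CUSP (`1 / j ∈ P B_P`); `e(V) = q - 1`
(`hram`) and `V` is a localisation of `B` (`hLOC`).  Output: the conclusion of `hMID` of
`helper8039.locFactorial_of_cases` at `P` (with `pmid = B ∩ 𝔪(V)`, `m = q - 1`). -/
theorem mid_cusp_of_series (q : ℕ) [NeZero q] (hq : q.Prime) {R : Type} [Field R]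
    (ι : F →+* LaurentSeries R) {j jq jqq : F}
    (hj : ι j = jqModC R) (hjq : ι jq = qExpand R q (jqModC R))
    (hjqq : ι jqq = qExpand R (q * q) (jqModC R))
    [CharP k q] (ζ : Aˣ) (hζ : π (ζ : A) = 1) (σ : F →+* LaurentSeries L)
    (hσj : σ j = jqModC L) (hσjq : σ jq = qExpand L q (jqModC L))
    (hσjqq : σ jqq = twist (Units.map (A.subtype : A →* L) ζ) (jqModC L))
    (V : ValuationSubring F)
    (hV0 : ∀ (x : F) (X : LaurentSeries A), σ x = coeffMap A.subtype X → coeffMap π X = 0 →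
      x ∈ V.nonunits)
    (hV1 : ∀ (x : F) (X : LaurentSeries A), σ x = coeffMap A.subtype X → coeffMap π X ≠ 0 →
      x ∈ V ∧ x⁻¹ ∈ V)
    (B : Subring F) (P : Ideal B) [P.IsPrime] (hB : ∀ y : F, IsIntegral B y → y ∈ B)
    (hBV : B ≤ V.toSubring) (hthr : ∀ b : B, (b : F) ∈ V.nonunits → b ∈ P)
    (hram : ∀ x : F, x ∈ V.nonunits → x ^ (q - 1) * (q : F)⁻¹ ∈ V)
    (hLOC : ∀ x : F, x ∈ V → ∃ s : B, (s : F) ∉ V.nonunits ∧ (s : F) * x ∈ B)
    (hcusp : NonUnit (locSubring B P) j⁻¹) :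
    ∃ T : B, (T : F) ∈ V.nonunits ∧ T ≠ 0 ∧
      (∃ s : B, s ∉ P ∧ T ^ (q - 1) ∣ s * (q : B)) ∧
      ∀ a : B, (a : F) ∈ V.nonunits → ∃ s : B, (s : F) ∉ V.nonunits ∧ T ∣ s * a := by
  obtain ⟨Φ, G, hΦs, hΦ, hGd, hGc, r1, r2, r3, r4, hj0, hjq0, hjqq0, hne⟩ :=
    exists_kron_core q hq ι hj hjq hjqq
  obtain ⟨c1, c2⟩ := cong_mid_of_series A π q hq ζ hζ σ V hV0 hV1 hσj hσjq hσjqq
  have hqV : (q : F) ∈ V.nonunits := by
    refine hV0 _ ((q : ℕ) : LaurentSeries A) ?_ ?_
    · rw [map_natCast, map_natCast]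
    · rw [map_natCast]
      have h1 : ((q : ℕ) : LaurentSeries k) = HahnSeries.C ((q : ℕ) : k) :=
        (map_natCast (HahnSeries.C : k →+* LaurentSeries k) q).symm
      rw [h1, CharP.cast_eq_zero k q, map_zero]
  exact mid_cusp_of_kron B P hB V hBV hthr hq hΦs hΦ hGd hGc hj0 hjq0 hjqq0 hne r1 r2 r3 r4
    hcusp c1 c2 hqV hram hLOC

end MidCong

/-! ## Adapters for `hram` and `hLOC` -/

/-- `hram` (`e(V) = q - 1`) from a normalised order function of `V` with `ord q = q - 1`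
(the `KillData` fields `hord 1`, `mem_V 1`, `ord_q1`). -/
theorem hram_of_isOrd (V : ValuationSubring F) (ord : F → ℤ)
    (hord : Fermat.Agent.S36.helper1013.IsOrd ord)
    (hmem : ∀ y : F, y ≠ 0 → (y ∈ V ↔ 0 ≤ ord y)) {q : ℕ} (hq : 2 ≤ q) (hq0 : (q : F) ≠ 0)
    (hordq : ord (q : F) = (q : ℤ) - 1) :
    ∀ x : F, x ∈ V.nonunits → x ^ (q - 1) * (q : F)⁻¹ ∈ V := by
  intro x hx
  have hq1 : q - 1 ≠ 0 := by omega
  by_cases hx0 : x = 0
  · rw [hx0, zero_pow hq1, zero_mul]
    exact V.zero_mem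
  · have h1 : V.valuation x < 1 := V.mem_nonunits_iff.mp hx
    have hxV : x ∈ V := (V.valuation_le_one_iff x).mp h1.le
    have hxinv : x⁻¹ ∉ V := by
      intro hinv
      have h2 : V.valuation x⁻¹ ≤ 1 := (V.valuation_le_one_iff _).mpr hinv
      have h3 : V.valuation x * V.valuation x⁻¹ = 1 := by
        rw [← map_mul, mul_inv_cancel₀ hx0, map_one]
      have h4 : V.valuation x * V.valuation x⁻¹ < 1 := by
        calc V.valuation x * V.valuation x⁻¹ ≤ V.valuation x * 1 := mul_le_mul' le_rfl h2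
          _ = V.valuation x := mul_one _
          _ < 1 := h1
      exact absurd h3 (ne_of_lt h4)
    have ho1 : 0 ≤ ord x := (hmem x hx0).mp hxV
    have ho2 : ¬ 0 ≤ ord x⁻¹ := fun h => hxinv ((hmem _ (inv_ne_zero hx0)).mpr h)
    rw [hord.map_inv hx0] at ho2
    have ho3 : 1 ≤ ord x := by omega
    have hne : x ^ (q - 1) * (q : F)⁻¹ ≠ 0 := mul_ne_zero (pow_ne_zero _ hx0) (inv_ne_zero hq0)
    rw [hmem _ hne, hord.map_mul _ _ (pow_ne_zero _ hx0) (inv_ne_zero hq0), hord.map_pow hx0,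
      hord.map_inv hq0, hordq]
    have hcast : ((q - 1 : ℕ) : ℤ) = (q : ℤ) - 1 := by omega
    rw [hcast]
    have hq' : (0 : ℤ) ≤ (q : ℤ) - 1 := by omega
    nlinarith

/-- `hLOC` from the shape of `helper4551.IsGaussExt.exists_mul_eq`. -/
theorem hLOC_of_exists_mul_eq (B : Subring F) (V : ValuationSubring F)
    (h : ∀ x : F, x ∈ V → ∃ a s : F, a ∈ B ∧ s ∈ B ∧ s ∉ V.nonunits ∧ x * s = a) :
    ∀ x : F, x ∈ V → ∃ s : B, (s : F) ∉ V.nonunits ∧ (s : F) * x ∈ B := by
  intro x hx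
  obtain ⟨a, s, ha, hs, hsV, hxs⟩ := h x hx
  exact ⟨⟨s, hs⟩, hsV, by rw [mul_comm, hxs]; exact ha⟩

/-- `hV0`, `hV1` for a valuation ring which is the pull-back of the Gauss ring
`S18.helper8991.gaussRing A π` along `σ`. -/
theorem hV_of_mem_gaussRing {L : Type*} [Field L] (A : ValuationSubring L) {k : Type*} [Field k]
    (π : A →+* k) (σ : F →+* LaurentSeries L) (V : ValuationSubring F)
    (hVmem : ∀ x : F, x ∈ V ↔ σ x ∈ Fermat.Agent.S18.helper8991.gaussRing A π) :
    (∀ (x : F) (X : LaurentSeries A), σ x = coeffMap A.subtype X → coeffMap π X = 0 →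
      x ∈ V.nonunits) ∧
    (∀ (x : F) (X : LaurentSeries A), σ x = coeffMap A.subtype X → coeffMap π X ≠ 0 →
      x ∈ V ∧ x⁻¹ ∈ V) := by
  have hmemX : ∀ (x : F) (X : LaurentSeries A), σ x = coeffMap A.subtype X → x ∈ V := by
    intro x X h
    rw [hVmem, h]
    exact Fermat.Agent.S18.helper8991.inc_mem_gaussRing A π X
  constructor
  · intro x X h hred
    have hxV : x ∈ V := hmemX x X h
    rw [V.mem_nonunits_iff]
    by_contra hnot
    have hx1 : V.valuation x = 1 :=
      le_antisymm ((V.valuation_le_one_iff x).mpr hxV) (not_lt.mp hnot)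
    have hx0 : x ≠ 0 := by
      rintro rfl
      rw [map_zero] at hx1
      exact zero_ne_one hx1
    have hxinv : x⁻¹ ∈ V := by
      rw [← V.valuation_le_one_iff, map_inv₀, hx1, inv_one]
    have hf : σ x ∈ Fermat.Agent.S18.helper8991.gaussRing A π := (hVmem x).mp hxV
    have hg : σ x⁻¹ ∈ Fermat.Agent.S18.helper8991.gaussRing A π := (hVmem _).mp hxinv
    have hfg : (⟨σ x, hf⟩ : ↥(Fermat.Agent.S18.helper8991.gaussRing A π)) * ⟨σ x⁻¹, hg⟩ = 1 := by
      apply Subtype.ext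
      show σ x * σ x⁻¹ = 1
      rw [← map_mul, mul_inv_cancel₀ hx0, map_one]
    have hf0 : Fermat.Agent.S18.helper8991.gaussRho A π ⟨σ x, hf⟩ = 0 := by
      have e : (⟨σ x, hf⟩ : ↥(Fermat.Agent.S18.helper8991.gaussRing A π)) =
          ⟨Fermat.Agent.S18.helper8991.inc A X,
            Fermat.Agent.S18.helper8991.inc_mem_gaussRing A π X⟩ := Subtype.ext h
      rw [e, Fermat.Agent.S18.helper8991.gaussRho_inc]
      exact hred
    have h1 := congrArg (Fermat.Agent.S18.helper8991.gaussRho A π) hfg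
    rw [map_mul, hf0, zero_mul, map_one] at h1
    exact zero_ne_one h1
  · intro x X h hred
    refine ⟨hmemX x X h, ?_⟩
    rw [hVmem, map_inv₀, h]
    refine Fermat.Agent.S18.helper8991.inv_mem_gaussRing_of_gaussRho_ne_zero A π
      ⟨Fermat.Agent.S18.helper8991.inc A X,
        Fermat.Agent.S18.helper8991.inc_mem_gaussRing A π X⟩ ?_
    rw [Fermat.Agent.S18.helper8991.gaussRho_inc]
    exact hred

/-! ## The concrete carrier `F_{M,K}` -/

section FK

open Fermat.Agent.S37.helper1588 (jK jKd)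
open Fermat.Agent.Lib.helper3874 (t4C t9C)

variable (K : Type) [Field K] [Algebra ℚ K] (M : ℕ)

/-- `j x⁴ (x + 16) = (x² + 256 x + 4096)³` for an element `x` of `F_{M,K}` with expansion
`t4C K`. -/
theorem jK_mul_t4 (x : ↥(laurentBaseChange K (modularFunctionFieldFull M)))
    (hx : (x : LaurentSeries K) = t4C K) :
    jK K M * (x ^ 4 * (x + 16)) = (x ^ 2 + 256 * x + 4096) ^ 3 := by
  apply Subtype.ext
  show jqModC K * ((x : LaurentSeries K) ^ 4 * ((x : LaurentSeries K) + 16)) =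
    ((x : LaurentSeries K) ^ 2 + 256 * (x : LaurentSeries K) + 4096) ^ 3
  rw [hx]
  have h := congrArg (coeffMap (Int.castRingHom K)) Fermat.Agent.S37.helper9536.t4Z_j
  simp only [map_mul, map_pow, map_add, map_ofNat, coeffMap_jqModC,
    Fermat.Agent.S37.helper9536.coeffMap_t4Z] at h
  rw [← h]
  ring

/-- `j x⁹ (x² + 9 x + 27) = ((x + 9)(x³ + 243 x² + 2187 x + 6561))³` for an element `x` of
`F_{M,K}` with expansion `t9C K`. -/
theorem jK_mul_t9 (x : ↥(laurentBaseChange K (modularFunctionFieldFull M)))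
    (hx : (x : LaurentSeries K) = t9C K) :
    jK K M * (x ^ 9 * (x ^ 2 + 9 * x + 27)) =
      ((x + 9) * (x ^ 3 + 243 * x ^ 2 + 2187 * x + 6561)) ^ 3 := by
  apply Subtype.ext
  show jqModC K * ((x : LaurentSeries K) ^ 9 *
      ((x : LaurentSeries K) ^ 2 + 9 * (x : LaurentSeries K) + 27)) =
    (((x : LaurentSeries K) + 9) * ((x : LaurentSeries K) ^ 3 + 243 * (x : LaurentSeries K) ^ 2 +
      2187 * (x : LaurentSeries K) + 6561)) ^ 3
  rw [hx]
  have h := congrArg (coeffMap (Int.castRingHom K)) Fermat.Agent.S37.helper9536.t9Z_j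
  simp only [map_mul, map_pow, map_add, map_ofNat, coeffMap_jqModC,
    Fermat.Agent.S37.helper9536.coeffMap_t9Z] at h
  rw [mul_pow, ← h]
  ring

variable {K M}
variable (B : Subring ↥(laurentBaseChange K (modularFunctionFieldFull M))) (P : Ideal B)
  [hP : P.IsPrime]

/-- **Cusps of the chart `x` of the `t4`-line**: `x (x + 16) ∈ P` ⟹ `1 / j ∈ P B_P`. -/
theorem nonUnit_inv_jK_t4 (x : ↥(laurentBaseChange K (modularFunctionFieldFull M)))
    (hx : (x : LaurentSeries K) = t4C K)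
    (h2 : (2 : ↥(laurentBaseChange K (modularFunctionFieldFull M)))⁻¹ ∈ B) (hxB : x ∈ B)
    (hD : ∃ h : x * (x + 16) ∈ B, (⟨_, h⟩ : B) ∈ P) :
    NonUnit (locSubring B P) (jK K M)⁻¹ := by
  have : CharZero K := algebraRat.charZero K
  obtain ⟨h, hmem⟩ := hD
  exact nonUnit_inv_j_t4 (isLocalSub_locSubring B P) two_ne_zero
    (Fermat.Agent.S36.helper4913.subring_le_locSubring B P h2)
    (Fermat.Agent.S36.helper4913.subring_le_locSubring B P hxB) (jK_mul_t4 K M x hx)
    ((nonUnit_locSubring_coe_iff (⟨_, h⟩ : B)).mpr hmem)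

/-- **Cusps of the chart `x⁻¹` of the `t4`-line**: `x⁻¹ (1 + 16 x⁻¹) ∈ P` ⟹ `1 / j ∈ P B_P`. -/
theorem nonUnit_inv_jK_t4_inv (x : ↥(laurentBaseChange K (modularFunctionFieldFull M)))
    (hx : (x : LaurentSeries K) = t4C K) (hx0 : x ≠ 0) (hxB : x⁻¹ ∈ B)
    (hD : ∃ h : x⁻¹ * (1 + 16 * x⁻¹) ∈ B, (⟨_, h⟩ : B) ∈ P) :
    NonUnit (locSubring B P) (jK K M)⁻¹ := by
  obtain ⟨h, hmem⟩ := hD
  exact nonUnit_inv_j_t4_inv (isLocalSub_locSubring B P) hx0
    (Fermat.Agent.S36.helper4913.subring_le_locSubring B P hxB) (jK_mul_t4 K M x hx)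
    ((nonUnit_locSubring_coe_iff (⟨_, h⟩ : B)).mpr hmem)

/-- **Cusps of the chart `x` of the `t9`-line**: `x (x² + 9 x + 27) ∈ P` ⟹ `1 / j ∈ P B_P`. -/
theorem nonUnit_inv_jK_t9 (x : ↥(laurentBaseChange K (modularFunctionFieldFull M)))
    (hx : (x : LaurentSeries K) = t9C K)
    (h3 : (3 : ↥(laurentBaseChange K (modularFunctionFieldFull M)))⁻¹ ∈ B) (hxB : x ∈ B)
    (hD : ∃ h : x * (x ^ 2 + 9 * x + 27) ∈ B, (⟨_, h⟩ : B) ∈ P) :
    NonUnit (locSubring B P) (jK K M)⁻¹ := by
  have : CharZero K := algebraRat.charZero K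
  obtain ⟨h, hmem⟩ := hD
  exact nonUnit_inv_j_t9 (isLocalSub_locSubring B P) three_ne_zero
    (Fermat.Agent.S36.helper4913.subring_le_locSubring B P h3)
    (Fermat.Agent.S36.helper4913.subring_le_locSubring B P hxB) (jK_mul_t9 K M x hx)
    ((nonUnit_locSubring_coe_iff (⟨_, h⟩ : B)).mpr hmem)

/-- **Cusps of the chart `x⁻¹` of the `t9`-line**: `x⁻¹ (1 + 9 x⁻¹ + 27 x⁻²) ∈ P` ⟹
`1 / j ∈ P B_P`. -/
theorem nonUnit_inv_jK_t9_inv (x : ↥(laurentBaseChange K (modularFunctionFieldFull M)))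
    (hx : (x : LaurentSeries K) = t9C K) (hx0 : x ≠ 0)
    (h3 : (3 : ↥(laurentBaseChange K (modularFunctionFieldFull M)))⁻¹ ∈ B) (hxB : x⁻¹ ∈ B)
    (hD : ∃ h : x⁻¹ * (1 + 9 * x⁻¹ + 27 * x⁻¹ ^ 2) ∈ B, (⟨_, h⟩ : B) ∈ P) :
    NonUnit (locSubring B P) (jK K M)⁻¹ := by
  have : CharZero K := algebraRat.charZero K
  obtain ⟨h, hmem⟩ := hD
  exact nonUnit_inv_j_t9_inv (isLocalSub_locSubring B P) three_ne_zero
    (Fermat.Agent.S36.helper4913.subring_le_locSubring B P h3) hx0
    (Fermat.Agent.S36.helper4913.subring_le_locSubring B P hxB) (jK_mul_t9 K M x hx)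
    ((nonUnit_locSubring_coe_iff (⟨_, h⟩ : B)).mpr hmem)

/-- **`hMID` at a cuspidal point of `C_mid` on the concrete carrier `F_{M,K}`**, `q² ∣ M`:
`mid_cusp_of_series` with `ι` the inclusion `F_{M,K} ⊆ K((t))` and
`j = jK K M`, `j_q = jKd K M q`, `j_{q²} = jKd K M (q * q)`. -/
theorem mid_cusp_FK (q : ℕ) [NeZero q] (hq : q.Prime) (hM : q * q ∣ M)
    {L : Type*} [Field L] (A : ValuationSubring L) {k : Type*} [Field k] (π : A →+* k)
    [CharP k q] (ζ : Aˣ) (hζ : π (ζ : A) = 1)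
    (σ : ↥(laurentBaseChange K (modularFunctionFieldFull M)) →+* LaurentSeries L)
    (hσj : σ (jK K M) = jqModC L)
    (hσjq : σ (jKd K M q ((dvd_mul_left q q).trans hM)) = qExpand L q (jqModC L))
    (hσjqq : σ (jKd K M (q * q) hM) = twist (Units.map (A.subtype : A →* L) ζ) (jqModC L))
    (V : ValuationSubring ↥(laurentBaseChange K (modularFunctionFieldFull M)))
    (hV0 : ∀ (x : ↥(laurentBaseChange K (modularFunctionFieldFull M))) (X : LaurentSeries A),
      σ x = coeffMap A.subtype X → coeffMap π X = 0 → x ∈ V.nonunits)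
    (hV1 : ∀ (x : ↥(laurentBaseChange K (modularFunctionFieldFull M))) (X : LaurentSeries A),
      σ x = coeffMap A.subtype X → coeffMap π X ≠ 0 → x ∈ V ∧ x⁻¹ ∈ V)
    (hB : ∀ y : ↥(laurentBaseChange K (modularFunctionFieldFull M)), IsIntegral B y → y ∈ B)
    (hBV : B ≤ V.toSubring)
    (hthr : ∀ b : B, (b : ↥(laurentBaseChange K (modularFunctionFieldFull M))) ∈ V.nonunits →
      b ∈ P)
    (hram : ∀ x : ↥(laurentBaseChange K (modularFunctionFieldFull M)), x ∈ V.nonunits →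
      x ^ (q - 1) * (q : ↥(laurentBaseChange K (modularFunctionFieldFull M)))⁻¹ ∈ V)
    (hLOC : ∀ x : ↥(laurentBaseChange K (modularFunctionFieldFull M)), x ∈ V →
      ∃ s : B, (s : ↥(laurentBaseChange K (modularFunctionFieldFull M))) ∉ V.nonunits ∧
        (s : ↥(laurentBaseChange K (modularFunctionFieldFull M))) * x ∈ B)
    (hcusp : NonUnit (locSubring B P) (jK K M)⁻¹) :
    ∃ T : B, (T : ↥(laurentBaseChange K (modularFunctionFieldFull M))) ∈ V.nonunits ∧ T ≠ 0 ∧
      (∃ s : B, s ∉ P ∧ T ^ (q - 1) ∣ s * (q : B)) ∧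
      ∀ a : B, (a : ↥(laurentBaseChange K (modularFunctionFieldFull M))) ∈ V.nonunits →
        ∃ s : B, (s : ↥(laurentBaseChange K (modularFunctionFieldFull M))) ∉ V.nonunits ∧
          T ∣ s * a :=
  mid_cusp_of_series A π q hq
    (laurentBaseChange K (modularFunctionFieldFull M)).val.toRingHom
    (j := jK K M) (jq := jKd K M q ((dvd_mul_left q q).trans hM)) (jqq := jKd K M (q * q) hM)
    rfl rfl rfl ζ hζ σ hσj hσjq hσjqq V hV0 hV1 B P hB hBV hthr hram hLOC hcusp

end FK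

end Fermat.Agent.S36.helper5229
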