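import Fermat.Agent.S36.helper405_KillTerms
import Fermat.Agent.S36.helper2781_KillEnd
import Fermat.Agent.S36.helper1280_ChartTransferCases
import Fermat.Agent.S36.helper5229_CuspInst

/-!
# S36-CUSP-LP on the terms of record (helper5229)

`hMID` of `helper8039.lp_at_of_cases` / `helper1280.mid_all_of_chart0` at the CUSPIDAL closed
points of `C_mid`, on the concrete terms of `helper405_KillTerms`
(`K = KI A`, `O = OI A`, `F = FK A (M₁ * q)`, charts `BK A M₁ q haux i`, `V 1 = Vmid`).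

* `midSigma` : the expansion at the middle cusp on `F` (`midEmb ζ ∘ lh`), with
  `midSigma_jK`, `midSigma_jKd_q`, `midSigma_jKd_sq` : `j ↦ J`, `j_q ↦ J(t^q)`,
  `j_{q²} ↦ J(ζ t)`;
* `mid_cusp_modular_core` : the generator statement in nonunits form;
* `hMID_of_cusp` : the body of `hMID` VERBATIM (`centre` = `helper1280.centre`, the same
  `Ideal.span` as `helper8039.centre`) at a prime `P` of the chart `i` with
  `1 / j ∈ P B_P` ("`j` has a pole at `P`");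
* `cusp_chart_zero_of_ne_two`, `cusp_chart_zero_of_eq_two`, `cusp_chart_one_of_inv_mem` :
  the points over `x (x + 16) = 0` (`q ≠ 2`), over `x (x² + 9 x + 27) = 0` (`q = 2`) and over
  `x = ∞` are cusps in that sense;
* `hMID_chart_zero_of_ne_two`, `hMID_chart_zero_of_eq_two`, `hMID_chart_one_of_inv_mem` :
  the three shapes consumed by the LP block.

Hypotheses left: `hA : A.LiesOverPrime q`, the `KillInput` fields `x_V` (at `c = 1`) and
`unif_mid`, and (LOC) for `V 1` on the chart (shape of `helper8039`).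
-/

set_option autoImplicit false
set_option synthInstance.maxHeartbeats 400000
set_option linter.unusedSectionVars false

noncomputable section

namespace Fermat.Agent.S36.helper5229

open ModularCurve
open Fermat.Agent.S24.helper24 (Kbar FN jBarD jSeries)
open Fermat.Agent.S36.helper405
open Fermat.Agent.S36.helper1013 (IsOrd IsUnifOf UnitOf)
open Fermat.Agent.S36.helper36 (chart Through)
open Fermat.Agent.S36.helper4913 (locSubring)
open Fermat.Agent.S28.helper328 (twist)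
open Fermat.Agent.S36.helper1280 (centre InP)

/-! ## Base change of `j(t^d)` and the values of the mid-cusp embedding -/

theorem jBarD_congr (N : ℕ) {d d' : ℕ} [NeZero d] [NeZero d'] (h : d = d') (hd : d ∣ N)
    (hd' : d' ∣ N) : jBarD N d hd = jBarD N d' hd' := by
  subst h
  rfl

/-- The base change of `j(t^d)` from `K = ℚ̄^I` to `ℚ̄`. -/
theorem lh_jKd (A : ValuationSubring (AlgebraicClosure ℚ)) (N d : ℕ) [NeZero d] (hd : d ∣ N) :
    lh A N (Fermat.Agent.S37.helper1588.jKd (KI A) N d hd) = jBarD N d hd := by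
  apply Subtype.ext
  show coeffMap (algebraMap (KI A) (AlgebraicClosure ℚ)) (qExpand (KI A) d (jqModC (KI A)))
    = jSeries d
  rw [Fermat.Agent.S36.helper6020.coeffMap_qExpand, coeffMap_jqModC,
    Fermat.Agent.S36.helper987.jSeries_eq_qExpand_jK, Fermat.Agent.S18.helper987.jK_eq]

/-- The base change of `j` from `K = ℚ̄^I` to `ℚ̄`. -/
theorem lh_jK (A : ValuationSubring (AlgebraicClosure ℚ)) (N : ℕ) :
    lh A N (Fermat.Agent.S37.helper1588.jK (KI A) N) = jBarD N 1 (one_dvd N) := by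
  apply Subtype.ext
  show coeffMap (algebraMap (KI A) (AlgebraicClosure ℚ)) (jqModC (KI A)) = jSeries 1
  rw [coeffMap_jqModC, Fermat.Agent.S36.helper987.jSeries_eq_qExpand_jK,
    Fermat.Agent.S18.helper987.jK_eq, qExpand_one_apply]

/-- The residue field of a valuation ring in which the prime `q` is a non-unit has
characteristic `q`. -/
theorem charP_residue_of_mem_nonunits {L : Type*} [Field L] (A : ValuationSubring L) {q : ℕ}
    (hq : q.Prime) (hA : (q : L) ∈ A.nonunits) : CharP (IsLocalRing.ResidueField A) q := by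
  have h3 : ((q : ℕ) : IsLocalRing.ResidueField A) = 0 := by
    have h1 : ((q : A) : L) ∈ A.nonunits := by
      rw [show ((q : A) : L) = (q : L) by simp]
      exact hA
    have h2 : (q : A) ∈ IsLocalRing.maximalIdeal A :=
      ValuationSubring.coe_mem_nonunits_iff.mp h1
    have h4 := (IsLocalRing.residue_eq_zero_iff (q : A)).mpr h2
    rwa [map_natCast] at h4
  obtain ⟨p, hp⟩ := CharP.exists (IsLocalRing.ResidueField A)
  have hdvd : p ∣ q := (CharP.cast_eq_zero_iff (IsLocalRing.ResidueField A) p q).mp h3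
  rcases (Nat.dvd_prime hq).mp hdvd with h1 | h1
  · exact absurd h1 (CharP.char_ne_one (IsLocalRing.ResidueField A) p)
  · exact h1 ▸ hp

/-- A root of unity of order dividing `q` is a unit of every valuation ring of residue
characteristic `q`, with residue `1`. -/
theorem exists_unit_of_pow_eq_one {L : Type*} [Field L] (A : ValuationSubring L) (q : ℕ)
    (hq : q.Prime) [CharP (IsLocalRing.ResidueField A) q] (ζ : Lˣ) (hζ : (ζ : L) ^ q = 1) :
    ∃ u : Aˣ, Units.map (A.subtype : A →* L) u = ζ ∧ IsLocalRing.residue A (u : A) = 1 := by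
  have hv : A.valuation (ζ : L) = 1 := by
    have h1 : A.valuation (ζ : L) ^ q = 1 := by rw [← map_pow, hζ, map_one]
    exact (pow_eq_one_iff.mp h1).resolve_right hq.ne_zero
  have hmem : (ζ : L) ∈ A := (A.valuation_le_one_iff _).mp hv.le
  have hmem' : ((ζ⁻¹ : Lˣ) : L) ∈ A := by
    refine (A.valuation_le_one_iff _).mp ?_
    rw [Units.val_inv_eq_inv_val, map_inv₀, hv, inv_one]
  let u : Aˣ := ⟨⟨ζ, hmem⟩, ⟨((ζ⁻¹ : Lˣ) : L), hmem'⟩, Subtype.ext (Units.mul_inv ζ),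
    Subtype.ext (Units.inv_mul ζ)⟩
  refine ⟨u, Units.ext rfl, ?_⟩
  have hu : (u : A) ^ q = 1 := Subtype.ext (by
    show (ζ : L) ^ q = 1
    exact hζ)
  have hr : (IsLocalRing.residue A (u : A)) ^ q = 1 := by rw [← map_pow, hu, map_one]
  have : Fact q.Prime := ⟨hq⟩
  have h2 : (IsLocalRing.residue A (u : A) - 1) ^ q = 0 := by
    rw [sub_pow_char, hr, one_pow, sub_self]
  exact sub_eq_zero.mp ((pow_eq_zero_iff hq.ne_zero).mp h2)

/-- `hram` from the `KillInput` field `unif_mid`. -/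
theorem hram_of_unif {F : Type*} [Field F] (V : ValuationSubring F) {q : ℕ} (hq : 2 ≤ q)
    (hq0 : (q : F) ≠ 0)
    (h : ∃ T : F, IsUnifOf V T ∧ UnitOf V (T ^ (q - 1) / (q : F))) :
    ∀ x : F, x ∈ V.nonunits → x ^ (q - 1) * (q : F)⁻¹ ∈ V := by
  obtain ⟨T, hT, hu⟩ := h
  refine hram_of_isOrd V (ordOf V) (isOrd_ordOf hT) (fun y hy => mem_iff_ordOf_nonneg hT hy) hq
    hq0 ?_
  rw [ordOf_of_pow_div_unit hT (q - 1) hq0 hu]
  omega

section Inst

variable (A : ValuationSubring (AlgebraicClosure ℚ)) (M₁ q : ℕ) [NeZero M₁] [NeZero q]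
  (hq : q.Prime) (hqM : q ∣ M₁) (hq2 : ¬ q ^ 2 ∣ M₁)

/-- The expansion at the middle cusp on `F_{M₁ q,K}`: `midEmb ζ ∘ lh`. -/
def midSigma (ζ : Kbarˣ) (hζ : IsPrimitiveRoot (ζ : Kbar) q) :
    FK A (M₁ * q) →+* LaurentSeries Kbar :=
  (midEmb M₁ q hq hqM hq2 ζ hζ).comp (lh A (M₁ * q))

theorem midSigma_jK (ζ : Kbarˣ) (hζ : IsPrimitiveRoot (ζ : Kbar) q) :
    midSigma A M₁ q hq hqM hq2 ζ hζ (Fermat.Agent.S37.helper1588.jK (KI A) (M₁ * q))
      = jqModC Kbar := by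
  show midEmb M₁ q hq hqM hq2 ζ hζ (lh A (M₁ * q) _) = _
  rw [lh_jK]
  have h := @Fermat.Agent.S36.helper987.midExp_jBarD_of_dvd q (M₁ / q) (M₁ * q) ⟨hq⟩
    (neZero_div hqM) _ (not_dvd_div hq hqM hq2) (level_eq hqM) ζ hζ 1 _ (one_dvd _) (one_dvd _)
  unfold midEmb
  rw [h, Fermat.Agent.S36.helper987.jSeries_eq_qExpand_jK, Fermat.Agent.S18.helper987.jK_eq,
    qExpand_one_apply]

theorem midSigma_jKd_q (ζ : Kbarˣ) (hζ : IsPrimitiveRoot (ζ : Kbar) q) (hd : q ∣ M₁ * q) :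
    midSigma A M₁ q hq hqM hq2 ζ hζ (Fermat.Agent.S37.helper1588.jKd (KI A) (M₁ * q) q hd)
      = qExpand Kbar q (jqModC Kbar) := by
  show midEmb M₁ q hq hqM hq2 ζ hζ (lh A (M₁ * q) _) = _
  rw [lh_jKd]
  have h := @Fermat.Agent.S36.helper987.midExp_jBarD_of_dvd q (M₁ / q) (M₁ * q) ⟨hq⟩
    (neZero_div hqM) _ (not_dvd_div hq hqM hq2) (level_eq hqM) ζ hζ q _ hd (dvd_mul_right q _)
  unfold midEmb
  rw [h, Fermat.Agent.S36.helper987.jSeries_eq_qExpand_jK, Fermat.Agent.S18.helper987.jK_eq]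

theorem midSigma_jKd_sq (ζ : Kbarˣ) (hζ : IsPrimitiveRoot (ζ : Kbar) q) (hd : q * q ∣ M₁ * q) :
    midSigma A M₁ q hq hqM hq2 ζ hζ
        (Fermat.Agent.S37.helper1588.jKd (KI A) (M₁ * q) (q * q) hd)
      = twist ζ (jqModC Kbar) := by
  show midEmb M₁ q hq hqM hq2 ζ hζ (lh A (M₁ * q) _) = _
  rw [lh_jKd]
  have hd' : q ^ 2 ∣ M₁ * q := by rw [pow_two]; exact hd
  rw [jBarD_congr (M₁ * q) (pow_two q).symm hd hd']
  have h := @Fermat.Agent.S36.helper987.midExp_jBarD_sq_one q (M₁ / q) (M₁ * q) ⟨hq⟩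
    (neZero_div hqM) _ (not_dvd_div hq hqM hq2) (level_eq hqM) ζ hζ _ hd'
  unfold midEmb
  rw [h, Fermat.Agent.S36.helper987.jSeries_eq_qExpand_jK, Fermat.Agent.S18.helper987.jK_eq,
    qExpand_one_apply, Fermat.Agent.S36.helper987.rot_eq_twist]

end Inst

section Main

variable (A : ValuationSubring (AlgebraicClosure ℚ)) (M₁ q : ℕ) [NeZero M₁] [NeZero q]
  (hq : q.Prime) (hqM : q ∣ M₁) (hq2 : ¬ q ^ 2 ∣ M₁) (haux : Fermat.Agent.S36.helper1335.AuxOK M₁ q)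

/-- The charts lie in `v_mid` (from the `KillInput` field `x_V` at `c = 1`). -/
theorem BK_le_Vmid
    (hxV : xK A M₁ q haux ∈ Vmid A M₁ q hq hqM hq2 ∧
      (xK A M₁ q haux)⁻¹ ∈ Vmid A M₁ q hq hqM hq2) (i : Fin 2) :
    BK A M₁ q haux i ≤ (Vmid A M₁ q hq hqM hq2).toSubring := by
  intro b hb
  refine Fermat.Agent.S36.helper2781.mem_valuationSubring_of_mem_chartRing (OI A)
    (Vmid A M₁ q hq hqM hq2)
    (fun a ha => (const_mem_VmidOf_iff A M₁ q hq hqM hq2 _ _ a).mpr ha) _ ?_ hb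
  intro y hy
  by_cases hi : i = 0
  · rw [if_pos hi, Set.mem_singleton_iff] at hy
    rw [hy]; exact hxV.1
  · rw [if_neg hi, Set.mem_singleton_iff] at hy
    rw [hy]; exact hxV.2

/-- **`hMID` at the cuspidal points of `C_mid`, on the terms of `helper405_KillTerms`**
(nonunits form).  Inputs: `hA`; the `KillInput` fields `x_V` (at `c = 1`) and `unif_mid`;
(LOC) for `v_mid` on the chart `i`; `P` a prime of the chart through which `v_mid` passes and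
which is a cusp (`1 / j ∈ P B_P`). -/
theorem mid_cusp_modular_core (hA : A.LiesOverPrime q)
    (hxV : xK A M₁ q haux ∈ Vmid A M₁ q hq hqM hq2 ∧
      (xK A M₁ q haux)⁻¹ ∈ Vmid A M₁ q hq hqM hq2)
    (hunif : ∃ T : FK A (M₁ * q), IsUnifOf (Vmid A M₁ q hq hqM hq2) T ∧
      UnitOf (Vmid A M₁ q hq hqM hq2) (T ^ (q - 1) / (q : FK A (M₁ * q))))
    (i : Fin 2)
    (hloc : ∀ y ∈ Vmid A M₁ q hq hqM hq2, ∃ a s : BK A M₁ q haux i,
      (s : FK A (M₁ * q)) ∉ (Vmid A M₁ q hq hqM hq2).nonunits ∧ y * s = a)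
    (P : Ideal (BK A M₁ q haux i)) [P.IsPrime]
    (hthr : Through (BK A M₁ q haux i) P (Vmid A M₁ q hq hqM hq2))
    (hcusp : NonUnit (locSubring (BK A M₁ q haux i) P)
      (Fermat.Agent.S37.helper1588.jK (KI A) (M₁ * q))⁻¹) :
    ∃ T : BK A M₁ q haux i, (T : FK A (M₁ * q)) ∈ (Vmid A M₁ q hq hqM hq2).nonunits ∧ T ≠ 0 ∧
      (∃ s : BK A M₁ q haux i, s ∉ P ∧ T ^ (q - 1) ∣ s * (q : BK A M₁ q haux i)) ∧
      ∀ a : BK A M₁ q haux i, (a : FK A (M₁ * q)) ∈ (Vmid A M₁ q hq hqM hq2).nonunits →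
        ∃ s : BK A M₁ q haux i, (s : FK A (M₁ * q)) ∉ (Vmid A M₁ q hq hqM hq2).nonunits ∧
          T ∣ s * a := by
  have hchar : CharP (IsLocalRing.ResidueField A) q := charP_residue_of_mem_nonunits A hq hA
  obtain ⟨ζ, hζ1, hζ2⟩ := exists_unit_of_pow_eq_one A q hq (midZeta q)
    ((midZeta_spec q).pow_eq_one)
  obtain ⟨hV0, hV1⟩ := hV_of_mem_gaussRing A (IsLocalRing.residue A)
    (midSigma A M₁ q hq hqM hq2 (midZeta q) (midZeta_spec q)) (Vmid A M₁ q hq hqM hq2)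
    (fun x => Iff.rfl)
  have hq0 : (q : FK A (M₁ * q)) ≠ 0 := natCast_ne_zero_FK A (M₁ * q) hq.ne_zero
  refine mid_cusp_FK (BK A M₁ q haux i) P q hq (sq_dvd_level hqM) A (IsLocalRing.residue A) ζ hζ2
    (midSigma A M₁ q hq hqM hq2 (midZeta q) (midZeta_spec q))
    (midSigma_jK A M₁ q hq hqM hq2 _ _) (midSigma_jKd_q A M₁ q hq hqM hq2 _ _ _)
    (by rw [hζ1]; exact midSigma_jKd_sq A M₁ q hq hqM hq2 _ _ _)
    (Vmid A M₁ q hq hqM hq2) hV0 hV1 ?_ (BK_le_Vmid A M₁ q hq hqM hq2 haux hxV i) hthr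
    (hram_of_unif _ hq.two_le hq0 hunif) ?_ hcusp
  · exact Fermat.Agent.S36.helper248.intClosedIn_chartRing (A0 := OI A) _
  · intro x hx
    obtain ⟨a, s, hs, hxs⟩ := hloc x hx
    have e : (s : FK A (M₁ * q)) * x = a := (mul_comm _ _).trans hxs
    exact ⟨s, hs, by rw [e]; exact a.2⟩

/-- **`hMID` of `helper8039.lp_at_of_cases`, body VERBATIM, at a cuspidal point of `C_mid`**
(`centre` = `helper1280.centre`, the same `Ideal.span` as `helper8039.centre`).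
Hypotheses: `hA`; the `KillInput` fields `x_V` (at `c = 1`) and `unif_mid`; (LOC) for `V 1` on
the chart `i` (shape of `helper8039`); `P` a prime of the chart `i` which is a cusp
(`1 / j ∈ P B_P`) and through which `V 1` passes. -/
theorem hMID_of_cusp (hA : A.LiesOverPrime q)
    (hxV : xK A M₁ q haux ∈ VK A M₁ q hq hqM hq2 1 ∧
      (xK A M₁ q haux)⁻¹ ∈ VK A M₁ q hq hqM hq2 1)
    (hunif : ∃ T : FK A (M₁ * q), IsUnifOf (Vmid A M₁ q hq hqM hq2) T ∧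
      UnitOf (Vmid A M₁ q hq hqM hq2) (T ^ (q - 1) / (q : FK A (M₁ * q))))
    (i : Fin 2)
    (hloc : ∀ y ∈ VK A M₁ q hq hqM hq2 1, ∃ a s : BK A M₁ q haux i,
      (s : FK A (M₁ * q)) ∉ (VK A M₁ q hq hqM hq2 1).nonunits ∧ y * s = a)
    (P : Ideal (BK A M₁ q haux i)) [P.IsPrime]
    (hcusp : NonUnit (locSubring (BK A M₁ q haux i) P)
      (Fermat.Agent.S37.helper1588.jK (KI A) (M₁ * q))⁻¹)
    (hcen : centre (BK A M₁ q haux i) (VK A M₁ q hq hqM hq2 1) ≤ P) :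
    ∃ T ∈ centre (BK A M₁ q haux i) (VK A M₁ q hq hqM hq2 1), T ≠ 0 ∧
      (∃ m : ℕ, m ≠ 0 ∧ ∃ s, s ∉ P ∧ T ^ m ∣ s * (q : BK A M₁ q haux i)) ∧
      ∀ a ∈ centre (BK A M₁ q haux i) (VK A M₁ q hq hqM hq2 1),
        ∃ s, s ∉ centre (BK A M₁ q haux i) (VK A M₁ q hq hqM hq2 1) ∧ T ∣ s * a := by
  have hBV : ∀ b ∈ BK A M₁ q haux i, b ∈ VK A M₁ q hq hqM hq2 1 :=
    BK_le_Vmid A M₁ q hq hqM hq2 haux hxV i
  have hthr : Through (BK A M₁ q haux i) P (Vmid A M₁ q hq hqM hq2) :=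
    fun b hb => hcen (Fermat.Agent.S36.helper1280.subset_centre hb)
  obtain ⟨T, hT, hT0, ⟨s, hs, hdvd⟩, hgen⟩ :=
    mid_cusp_modular_core A M₁ q hq hqM hq2 haux hA hxV hunif i hloc P hthr hcusp
  refine ⟨T, Fermat.Agent.S36.helper1280.subset_centre hT, hT0,
    ⟨q - 1, by have := hq.two_le; omega, s, hs, hdvd⟩, ?_⟩
  intro a ha
  obtain ⟨s', hs', hd'⟩ := hgen a ((Fermat.Agent.S36.helper1280.mem_centre_iff hBV a).mp ha)
  exact ⟨s', fun h => hs' ((Fermat.Agent.S36.helper1280.mem_centre_iff hBV s').mp h), hd'⟩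

/-! ## The cusp criteria on the concrete terms -/

theorem inP_mul {F : Type*} [Field F] {B : Subring F} {P : Ideal B} {y z : F}
    (hy : InP B P y) (hz : z ∈ B) : InP B P (y * z) := by
  obtain ⟨h, hmem⟩ := hy
  exact ⟨B.mul_mem h hz, P.mul_mem_right ⟨z, hz⟩ hmem⟩

theorem xK_coe_of_ne_two (h2 : q ≠ 2) :
    ((xK A M₁ q haux : FK A (M₁ * q)) : LaurentSeries (KI A))
      = Fermat.Agent.Lib.helper3874.t4C (KI A) := by
  unfold xK
  rw [baseLine_of_ne _ _ _ _ _ h2]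
  rfl

theorem xK_coe_of_eq_two (h2 : q = 2) :
    ((xK A M₁ q haux : FK A (M₁ * q)) : LaurentSeries (KI A))
      = Fermat.Agent.Lib.helper3874.t9C (KI A) := by
  unfold xK
  rw [baseLine_of_eq _ _ _ _ _ h2]
  rfl

theorem xK_ne_zero : xK A M₁ q haux ≠ 0 := by
  intro h
  have htr := baseLine_transcendental (KI A) (M₁ * q) q
    (fun h => Dvd.dvd.mul_right (haux.1 h) q) (fun h => Dvd.dvd.mul_right (haux.2 h) q)
  unfold xK at h
  rw [h] at htr
  exact htr isAlgebraic_zero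

theorem xK_mem_BK_zero : xK A M₁ q haux ∈ BK A M₁ q haux 0 :=
  Fermat.Agent.S36.helper248.mem_chartRing_of_mem (A0 := OI A) (by simp)

theorem xK_inv_mem_BK_one : (xK A M₁ q haux)⁻¹ ∈ BK A M₁ q haux 1 :=
  Fermat.Agent.S36.helper248.mem_chartRing_of_mem (A0 := OI A) (by simp)

/-- A natural number prime to `q` is a unit of the charts. -/
theorem natCast_inv_mem_BK (hA : A.LiesOverPrime q) (n : ℕ) (hn : Nat.Coprime n q) (i : Fin 2) :
    ((n : FK A (M₁ * q)))⁻¹ ∈ BK A M₁ q haux i := by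
  have h1 : ((n : Kbar))⁻¹ ∈ A :=
    Fermat.Agent.S36.helper2781.natCast_inv_mem_of_coprime A q n hA hn
  have h2 : ((n : KI A))⁻¹ ∈ OI A := by
    show (((n : KI A)⁻¹ : KI A) : Kbar) ∈ A
    simpa using h1
  have h3 := Fermat.Agent.S36.helper248.algebraMap_mem_chartRing (A0 := OI A)
    (L := FK A (M₁ * q))
    (if i = 0 then ({xK A M₁ q haux} : Set (FK A (M₁ * q))) else {(xK A M₁ q haux)⁻¹})
    (⟨_, h2⟩ : OI A)
  have h4 : algebraMap (OI A) (FK A (M₁ * q)) (⟨_, h2⟩ : OI A) = ((n : FK A (M₁ * q)))⁻¹ := by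
    show algebraMap (KI A) (FK A (M₁ * q)) ((n : KI A)⁻¹) = _
    rw [map_inv₀, map_natCast]
  rw [h4] at h3
  exact h3

include hq in
/-- Chart `0`, `q ≠ 2` (`x = t₄`): the points over `x (x + 16) = 0` are cusps. -/
theorem cusp_chart_zero_of_ne_two (hA : A.LiesOverPrime q) (h2 : q ≠ 2)
    (P : Ideal (BK A M₁ q haux 0)) [P.IsPrime]
    (hD : InP (BK A M₁ q haux 0) P (xK A M₁ q haux * (xK A M₁ q haux + 16))) :
    NonUnit (locSubring (BK A M₁ q haux 0) P)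
      (Fermat.Agent.S37.helper1588.jK (KI A) (M₁ * q))⁻¹ := by
  have hinv := natCast_inv_mem_BK A M₁ q haux hA 2
    ((Nat.coprime_primes Nat.prime_two hq).mpr (Ne.symm h2)) 0
  rw [Nat.cast_ofNat] at hinv
  exact nonUnit_inv_jK_t4 (BK A M₁ q haux 0) P (xK A M₁ q haux)
    (xK_coe_of_ne_two A M₁ q haux h2) hinv (xK_mem_BK_zero A M₁ q haux) hD

/-- Chart `0`, `q = 2` (`x = t₉`): the points over `x (x² + 9 x + 27) = 0` are cusps. -/
theorem cusp_chart_zero_of_eq_two (hA : A.LiesOverPrime q) (h2 : q = 2)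
    (P : Ideal (BK A M₁ q haux 0)) [P.IsPrime]
    (hD : InP (BK A M₁ q haux 0) P
      (xK A M₁ q haux * (xK A M₁ q haux ^ 2 + 9 * xK A M₁ q haux + 27))) :
    NonUnit (locSubring (BK A M₁ q haux 0) P)
      (Fermat.Agent.S37.helper1588.jK (KI A) (M₁ * q))⁻¹ := by
  have hinv := natCast_inv_mem_BK A M₁ q haux hA 3 (by rw [h2]; decide) 0
  rw [Nat.cast_ofNat] at hinv
  exact nonUnit_inv_jK_t9 (BK A M₁ q haux 0) P (xK A M₁ q haux)
    (xK_coe_of_eq_two A M₁ q haux h2) hinv (xK_mem_BK_zero A M₁ q haux) hD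

/-- Chart `1`: the points over `x = ∞` (`x⁻¹ ∈ P`) are cusps. -/
theorem cusp_chart_one_of_inv_mem (hA : A.LiesOverPrime q)
    (P : Ideal (BK A M₁ q haux 1)) [P.IsPrime]
    (hD : InP (BK A M₁ q haux 1) P (xK A M₁ q haux)⁻¹) :
    NonUnit (locSubring (BK A M₁ q haux 1) P)
      (Fermat.Agent.S37.helper1588.jK (KI A) (M₁ * q))⁻¹ := by
  have hxB := xK_inv_mem_BK_one A M₁ q haux
  by_cases h2 : q = 2
  · have hinv := natCast_inv_mem_BK A M₁ q haux hA 3 (by rw [h2]; decide) 1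
    rw [Nat.cast_ofNat] at hinv
    refine nonUnit_inv_jK_t9_inv (BK A M₁ q haux 1) P (xK A M₁ q haux)
      (xK_coe_of_eq_two A M₁ q haux h2) (xK_ne_zero A M₁ q haux) hinv hxB (inP_mul hD ?_)
    exact Subring.add_mem _ (Subring.add_mem _ (Subring.one_mem _)
      (Subring.mul_mem _ (ofNat_mem _ 9) hxB))
      (Subring.mul_mem _ (ofNat_mem _ 27) (Subring.pow_mem _ hxB 2))
  · refine nonUnit_inv_jK_t4_inv (BK A M₁ q haux 1) P (xK A M₁ q haux)
      (xK_coe_of_ne_two A M₁ q haux h2) (xK_ne_zero A M₁ q haux) hxB (inP_mul hD ?_)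
    exact Subring.add_mem _ (Subring.one_mem _) (Subring.mul_mem _ (ofNat_mem _ 16) hxB)

/-! ## `hMID` at the cusps, in the three shapes the LP block consumes -/

/-- `hMID` on chart `0`, `q ≠ 2`, at a prime over `x (x + 16) = 0`. -/
theorem hMID_chart_zero_of_ne_two (hA : A.LiesOverPrime q) (h2 : q ≠ 2)
    (hxV : xK A M₁ q haux ∈ VK A M₁ q hq hqM hq2 1 ∧
      (xK A M₁ q haux)⁻¹ ∈ VK A M₁ q hq hqM hq2 1)
    (hunif : ∃ T : FK A (M₁ * q), IsUnifOf (Vmid A M₁ q hq hqM hq2) T ∧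
      UnitOf (Vmid A M₁ q hq hqM hq2) (T ^ (q - 1) / (q : FK A (M₁ * q))))
    (hloc : ∀ y ∈ VK A M₁ q hq hqM hq2 1, ∃ a s : BK A M₁ q haux 0,
      (s : FK A (M₁ * q)) ∉ (VK A M₁ q hq hqM hq2 1).nonunits ∧ y * s = a)
    (P : Ideal (BK A M₁ q haux 0)) [P.IsPrime]
    (hD : InP (BK A M₁ q haux 0) P (xK A M₁ q haux * (xK A M₁ q haux + 16)))
    (hcen : centre (BK A M₁ q haux 0) (VK A M₁ q hq hqM hq2 1) ≤ P) :
    ∃ T ∈ centre (BK A M₁ q haux 0) (VK A M₁ q hq hqM hq2 1), T ≠ 0 ∧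
      (∃ m : ℕ, m ≠ 0 ∧ ∃ s, s ∉ P ∧ T ^ m ∣ s * (q : BK A M₁ q haux 0)) ∧
      ∀ a ∈ centre (BK A M₁ q haux 0) (VK A M₁ q hq hqM hq2 1),
        ∃ s, s ∉ centre (BK A M₁ q haux 0) (VK A M₁ q hq hqM hq2 1) ∧ T ∣ s * a :=
  hMID_of_cusp A M₁ q hq hqM hq2 haux hA hxV hunif 0 hloc P
    (cusp_chart_zero_of_ne_two A M₁ q hq haux hA h2 P hD) hcen

/-- `hMID` on chart `0`, `q = 2`, at a prime over `x (x² + 9 x + 27) = 0`. -/
theorem hMID_chart_zero_of_eq_two (hA : A.LiesOverPrime q) (h2 : q = 2)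
    (hxV : xK A M₁ q haux ∈ VK A M₁ q hq hqM hq2 1 ∧
      (xK A M₁ q haux)⁻¹ ∈ VK A M₁ q hq hqM hq2 1)
    (hunif : ∃ T : FK A (M₁ * q), IsUnifOf (Vmid A M₁ q hq hqM hq2) T ∧
      UnitOf (Vmid A M₁ q hq hqM hq2) (T ^ (q - 1) / (q : FK A (M₁ * q))))
    (hloc : ∀ y ∈ VK A M₁ q hq hqM hq2 1, ∃ a s : BK A M₁ q haux 0,
      (s : FK A (M₁ * q)) ∉ (VK A M₁ q hq hqM hq2 1).nonunits ∧ y * s = a)
    (P : Ideal (BK A M₁ q haux 0)) [P.IsPrime]
    (hD : InP (BK A M₁ q haux 0) P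
      (xK A M₁ q haux * (xK A M₁ q haux ^ 2 + 9 * xK A M₁ q haux + 27)))
    (hcen : centre (BK A M₁ q haux 0) (VK A M₁ q hq hqM hq2 1) ≤ P) :
    ∃ T ∈ centre (BK A M₁ q haux 0) (VK A M₁ q hq hqM hq2 1), T ≠ 0 ∧
      (∃ m : ℕ, m ≠ 0 ∧ ∃ s, s ∉ P ∧ T ^ m ∣ s * (q : BK A M₁ q haux 0)) ∧
      ∀ a ∈ centre (BK A M₁ q haux 0) (VK A M₁ q hq hqM hq2 1),
        ∃ s, s ∉ centre (BK A M₁ q haux 0) (VK A M₁ q hq hqM hq2 1) ∧ T ∣ s * a :=
  hMID_of_cusp A M₁ q hq hqM hq2 haux hA hxV hunif 0 hloc P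
    (cusp_chart_zero_of_eq_two A M₁ q haux hA h2 P hD) hcen

/-- `hMID` on chart `1` at a prime over `x = ∞` (the `hcusp` input of
`helper1280.mid_all_of_chart0`, body verbatim). -/
theorem hMID_chart_one_of_inv_mem (hA : A.LiesOverPrime q)
    (hxV : xK A M₁ q haux ∈ VK A M₁ q hq hqM hq2 1 ∧
      (xK A M₁ q haux)⁻¹ ∈ VK A M₁ q hq hqM hq2 1)
    (hunif : ∃ T : FK A (M₁ * q), IsUnifOf (Vmid A M₁ q hq hqM hq2) T ∧
      UnitOf (Vmid A M₁ q hq hqM hq2) (T ^ (q - 1) / (q : FK A (M₁ * q))))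
    (hloc : ∀ y ∈ VK A M₁ q hq hqM hq2 1, ∃ a s : BK A M₁ q haux 1,
      (s : FK A (M₁ * q)) ∉ (VK A M₁ q hq hqM hq2 1).nonunits ∧ y * s = a)
    (P : Ideal (BK A M₁ q haux 1)) [P.IsPrime]
    (hD : InP (BK A M₁ q haux 1) P (xK A M₁ q haux)⁻¹)
    (hcen : centre (BK A M₁ q haux 1) (VK A M₁ q hq hqM hq2 1) ≤ P) :
    ∃ T ∈ centre (BK A M₁ q haux 1) (VK A M₁ q hq hqM hq2 1), T ≠ 0 ∧
      (∃ m : ℕ, m ≠ 0 ∧ ∃ s, s ∉ P ∧ T ^ m ∣ s * (q : BK A M₁ q haux 1)) ∧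
      ∀ a ∈ centre (BK A M₁ q haux 1) (VK A M₁ q hq hqM hq2 1),
        ∃ s, s ∉ centre (BK A M₁ q haux 1) (VK A M₁ q hq hqM hq2 1) ∧ T ∣ s * a :=
  hMID_of_cusp A M₁ q hq hqM hq2 haux hA hxV hunif 1 hloc P
    (cusp_chart_one_of_inv_mem A M₁ q haux hA P hD) hcen

end Main

end Fermat.Agent.S36.helper5229
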