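import Mathlib
import Fermat.Agent.S36.helper405_KillTerms
import Fermat.Agent.S36.helper225_BaseDVR
import Fermat.Agent.S36.helper98_LevelQTerms
import Fermat.Agent.S36.helper403_TQIntLevelQ
import Fermat.Agent.S36.helper1162_LPBLevelQ

/-!
# S36-LPB-INST (helper6136): the hypothesis (B) of the `lp` field on the terms of record

Row `lpb'` of the LP block (`s36_open` #11), on the terms of `helper405_KillTerms`:

`lpbAt_modular A M₁ q hq hqM hq2 haux hA :
  ∀ (i : Fin 2) (c : Fin 2), LPBAt (BK' A M₁ q haux i) (VK' A M₁ q hq hqM hq2 c)`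

with NO hypothesis left.  It is `helper1162.lpbAt_levelq_t4 / _t9` (level `M₁ / q` ⟹ level `M₁`
by two calls of `LPBAt.lift` per chart, base = the `t₄` / `t₉` line of level `M₁ / q` over the
discrete valuation ring `OI A`) at the concrete inertia field, where

* `VK' c = helper6594.levelqV … c` is `helper98.VK'_apply_eq_levelqV`;
* `xK' = t4F` (`q ≠ 2`) / `t9F` (`q = 2`) is `helper405.baseLine_of_ne` / `_of_eq`;
* the four chart-stability memberships of `β'` are `helper403.tqInt_levelq_t4 / _t9` (TQ-INT);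
* `OI A` is a discrete valuation ring with perfect residue field (`helper225`);
* `4 ∣ M₁ / q` resp. `9 ∣ M₁ / q` is `helper98.auxOK_div`.
-/

set_option autoImplicit false

noncomputable section

namespace Fermat.Agent.S36.helper6136

open ModularCurve
open Fermat.Agent.S36.helper405
open Fermat.Agent.S36.helper1335 (AuxOK)
open Fermat.Agent.S37.helper530 (t4F t9F)
open Fermat.Agent.S36.helper36 (chart)

local notation "Qb" => AlgebraicClosure ℚ

variable (A : ValuationSubring Qb) (M₁ q : ℕ) [NeZero M₁] [NeZero q]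

/-- The residue field of `OI A` is perfect (it is algebraically closed). -/
theorem perfectField_residue_OI {q : ℕ} (hq : q.Prime) (hA : A.LiesOverPrime q) :
    PerfectField (IsLocalRing.ResidueField ↥(OI A)) := by
  have := Fermat.Agent.S36.helper225.isAlgClosed_residueField A hq hA
  infer_instance

/-- **(B) on the terms of record** (row `lpb'` of the LP block): `LPBAt` of the two charts of
level `M₁` along `v'_∞` and `v'_0`. -/
theorem lpbAt_modular (hq : q.Prime) (hqM : q ∣ M₁) (hq2 : ¬ q ^ 2 ∣ M₁)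
    (haux : AuxOK M₁ q) (hA : A.LiesOverPrime q) :
    ∀ (i : Fin 2) (c : Fin 2), LPBAt (BK' A M₁ q haux i) (VK' A M₁ q hq hqM hq2 c) := by
  have hι := Fermat.Agent.S36.helper98.isInertiaField_iotaI A
  have hnz : NeZero (M₁ / q) := neZero_div hqM
  have hdvr : IsDiscreteValuationRing ↥(OI A) :=
    Fermat.Agent.S36.helper225.isDiscreteValuationRing A hq hA
  have hperf : PerfectField (IsLocalRing.ResidueField ↥(OI A)) := perfectField_residue_OI A hq hA
  have hqO : ((q : ℕ) : KI A) ∈ (OI A).nonunits :=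
    Fermat.Agent.S36.helper225.natCast_mem_nonunits A hq hA
  have hauxd := Fermat.Agent.S36.helper98.auxOK_div hq hqM haux
  intro i c
  rw [Fermat.Agent.S36.helper98.VK'_apply_eq_levelqV]
  by_cases h : q = 2
  · have h9 : 9 ∣ M₁ / q := hauxd.2 h
    obtain ⟨t1, t2, t3, t4⟩ := Fermat.Agent.S36.helper403.tqInt_levelq_t9 (KI A) (OI A) hq h hqO
      M₁ hqM h9 (haux.2 h)
    have e : xK' A M₁ q haux = t9F (KI A) M₁ (haux.2 h) :=
      baseLine_of_eq (KI A) M₁ q haux.1 haux.2 h
    show LPBAt (chart (OI A) (xK' A M₁ q haux) i) _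
    rw [e]
    exact Fermat.Agent.S36.helper1162.lpbAt_levelq_t9 hι hq hA M₁ hqM hq2 h9 (haux.2 h)
      t1 t2 t3 t4 i c
  · have h4 : 4 ∣ M₁ / q := hauxd.1 h
    obtain ⟨t1, t2, t3, t4⟩ := Fermat.Agent.S36.helper403.tqInt_levelq_t4 (KI A) (OI A) hq h hqO
      M₁ hqM h4 (haux.1 h)
    have e : xK' A M₁ q haux = t4F (KI A) M₁ (haux.1 h) :=
      baseLine_of_ne (KI A) M₁ q haux.1 haux.2 h
    show LPBAt (chart (OI A) (xK' A M₁ q haux) i) _
    rw [e]
    exact Fermat.Agent.S36.helper1162.lpbAt_levelq_t4 hι hq hA M₁ hqM hq2 h4 (haux.1 h)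
      t1 t2 t3 t4 i c

end Fermat.Agent.S36.helper6136
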