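import Fermat.Agent.S36.helper8998_DegValBeta
import Fermat.Agent.S37.helper1588_FFK

/-!
# S36 KILL-INST, block DEG-VAL α (helper8998; twin of `helper8998_DegValBeta`)

On the concrete terms of `helper405_KillTerms`:

* `jKd` — `j(t ^ d)` in the function field of level `N` over `K = ℚ̄^I`, with `lh_jKd`
  (its image over `ℚ̄` is `helper24.jBarD`).
* `alpha_witness` — the witness `(a, y) = (j(t ^ q), j(t ^ (q * q)))` of the inseparable leg of
  `α` on `Vzero'`, `Vzero`: the Atkin–Lehner transport (`W_q`, `W_{q²}`) of the witness `(j, j)`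
  of `β` on the Gauss rings, restricted to `K = ℚ̄^I`.
* `degVal_α_modular` — the seven `α`-fields `α_norm_map`, `α_lift_inf`, `α_lift_mid`,
  `α_norm_split`, `α_norm_insep`, `α_ord_split`, `α_ord_insep` of `helper405.KillInput`, from the
  ORD fields and the three `α` incidence tables of `KillInput` (hypotheses verbatim).
-/

set_option autoImplicit false

namespace Fermat.Agent.S36.helper8998

open ModularCurve AlgebraicCurve
open Fermat.Agent.S36.helper1013 (IsOrd IsUnifOf UnitOf)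
open Fermat.Agent.S36.helper405
open Fermat.Agent.S24.helper24 (Kbar FN jBar jBarD)

section Alpha

variable (A : ValuationSubring (AlgebraicClosure ℚ)) (M₁ q : ℕ) [NeZero M₁] [NeZero q]

/-- `j(t ^ d)` in the function field of level `N` over `K = ℚ̄^I`, for `d ∣ N`. -/
noncomputable abbrev jKd (N : ℕ) [NeZero N] (d : ℕ) [NeZero d] (hd : d ∣ N) : FK A N :=
  Fermat.Agent.S37.helper1588.jKd (KI A) N d hd

theorem lh_jKd (N : ℕ) [NeZero N] (d : ℕ) [NeZero d] (hd : d ∣ N) :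
    lh A N (jKd A N d hd) = jBarD N d hd := by
  apply Subtype.ext
  show coeffMap (algebraMap (KI A) (AlgebraicClosure ℚ))
      (qExpand (KI A) d (jqModC (KI A))) = coeffEmb Kbar (qExpand ℚ d jq)
  rw [Fermat.Agent.S37.helper1588.coeffMap_qExpand_jqModC,
    Fermat.Agent.S18.helper8991.coeffEmb_qExpand_jq]

/-- `helper24.jBar` is the `j` of `helper6205`. -/
theorem jBar_eq_jElt (N : ℕ) [NeZero N] :
    jBar N = Fermat.Agent.S36.helper6205.jElt (AlgebraicClosure ℚ) N := by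
  apply Subtype.ext
  show ((jBar N : FN N) : LaurentSeries Kbar) = jqModC (AlgebraicClosure ℚ)
  rw [Fermat.Agent.S24.helper24.coe_jBar]
  exact coeffMap_jqModC (algebraMap ℚ (AlgebraicClosure ℚ))

/-- `W_q (j(t ^ q)) = j` at level `M₁`. -/
theorem Wq_lh_jKd (hq : q.Prime) (hqM : q ∣ M₁) (hq2 : ¬ q ^ 2 ∣ M₁) :
    Wq M₁ q hq hqM hq2 (lh A M₁ (jKd A M₁ q hqM)) =
      Fermat.Agent.S36.helper6205.jElt (AlgebraicClosure ℚ) M₁ := by
  rw [lh_jKd, ← jBar_eq_jElt]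
  exact Fermat.Agent.S35.helper1219.atkinLehnerHall_jBarD_self M₁ q hqM
    (coprime_level hq hqM hq2)

/-- `W_{q²} (j(t ^ (q * q))) = j` at level `M₁ * q`. -/
theorem Wsq_lh_jKd (hq : q.Prime) (hqM : q ∣ M₁) (hq2 : ¬ q ^ 2 ∣ M₁) :
    Wsq M₁ q hq hqM hq2 (lh A (M₁ * q) (jKd A (M₁ * q) (q * q) (sq_dvd_level hqM))) =
      Fermat.Agent.S36.helper6205.jElt (AlgebraicClosure ℚ) (M₁ * q) := by
  rw [lh_jKd, ← jBar_eq_jElt]
  exact Fermat.Agent.S35.helper1219.atkinLehnerHall_jBarD_self (M₁ * q) (q * q)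
    (sq_dvd_level hqM) (coprime_sq_level hq hqM hq2)

/-- **The witness of the inseparable leg of `α`** on the concrete terms: `a := j(t ^ q) ∈ v'_0`,
`y := j(t ^ (q * q))`: `a` is not a `q`-th power modulo `𝔪(v'_0)` and `y ^ q ≡ α a` modulo
`𝔪(v_0)`. -/
theorem alpha_witness (hq : q.Prime) (hqM : q ∣ M₁) (hq2 : ¬ q ^ 2 ∣ M₁)
    (hA : A.LiesOverPrime q) :
    jKd A M₁ q hqM ∈ Vzero' A M₁ q hq hqM hq2 ∧
      (∀ b : FK A M₁, b ∈ Vzero' A M₁ q hq hqM hq2 →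
        b ^ q - jKd A M₁ q hqM ∉ (Vzero' A M₁ q hq hqM hq2).nonunits) ∧
      jKd A (M₁ * q) (q * q) (sq_dvd_level hqM) ^ q - αK A M₁ q (jKd A M₁ q hqM) ∈
        (Vzero A M₁ q hq hqM hq2).nonunits := by
  have hexp : ExpChar (IsLocalRing.ResidueField A) q := expChar_residueField A q hq hA
  obtain ⟨w1, w2, w3⟩ := Fermat.Agent.S36.helper6205.gauss_beta_witness
    (L := AlgebraicClosure ℚ) A (IsLocalRing.residue A) M₁ q hq.two_le
  -- transport along the Atkin–Lehner involutions: the witness `(W_q j, W_{q²} j)` of `α`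
  have hWα : ∀ z : FN M₁, Wsq M₁ q hq hqM hq2 (heckeAlphaBar Kbar M₁ q z) =
      heckeBetaBar Kbar M₁ q (Wq M₁ q hq hqM hq2 z) := fun z =>
    Fermat.Agent.S35.helper1219.atkinLehnerHall_mul_heckeAlphaBar M₁ q hqM
      (coprime_level hq hqM hq2) q (coprime_level hq hqM hq2) (sq_dvd_level hqM)
      (coprime_sq_level hq hqM hq2) z
  have hWW : ∀ x : FN (M₁ * q), Wsq M₁ q hq hqM hq2 (Wsq M₁ q hq hqM hq2 x) = x := fun x =>
    Fermat.Agent.S35.helper1219.atkinLehnerHall_atkinLehnerHall (M₁ * q) (q * q)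
      (sq_dvd_level hqM) (coprime_sq_level hq hqM hq2) x
  have hWW' : ∀ x : FN M₁, Wq M₁ q hq hqM hq2 (Wq M₁ q hq hqM hq2 x) = x := fun x =>
    Fermat.Agent.S35.helper1219.atkinLehnerHall_atkinLehnerHall M₁ q hqM
      (coprime_level hq hqM hq2) x
  obtain ⟨t1, t2, t3⟩ := Fermat.Agent.S36.helper6205.insep_witness_transport
    (heckeAlphaBar Kbar M₁ q : FN M₁ →+* FN (M₁ * q))
    (heckeBetaBar Kbar M₁ q : FN M₁ →+* FN (M₁ * q))
    (Wsq M₁ q hq hqM hq2).toAlgHom.toRingHom (Wq M₁ q hq hqM hq2).toAlgHom.toRingHom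
    hWW hWW' hWα
    (Fermat.Agent.S18.helper8991.gaussF A (IsLocalRing.residue A) M₁)
    (Fermat.Agent.S18.helper8991.gaussF A (IsLocalRing.residue A) (M₁ * q)) q
    (Fermat.Agent.S36.helper6205.jElt (AlgebraicClosure ℚ) M₁) w1 w2
    (Fermat.Agent.S36.helper6205.jElt (AlgebraicClosure ℚ) (M₁ * q)) w3
  -- `lh a = W_q j` and `lh y = W_{q²} j`
  have ha : lh A M₁ (jKd A M₁ q hqM) =
      Wq M₁ q hq hqM hq2 (Fermat.Agent.S36.helper6205.jElt (AlgebraicClosure ℚ) M₁) := by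
    rw [← Wq_lh_jKd A M₁ q hq hqM hq2, hWW']
  have hy : lh A (M₁ * q) (jKd A (M₁ * q) (q * q) (sq_dvd_level hqM)) =
      Wsq M₁ q hq hqM hq2
        (Fermat.Agent.S36.helper6205.jElt (AlgebraicClosure ℚ) (M₁ * q)) := by
    rw [← Wsq_lh_jKd A M₁ q hq hqM hq2, hWW]
  -- restriction to `K = ℚ̄^I`
  exact Fermat.Agent.S36.helper6205.insep_witness_comap
    (αK A M₁ q : FK A M₁ →+* FK A (M₁ * q))
    (heckeAlphaBar (AlgebraicClosure ℚ) M₁ q :
      ↥(laurentBaseChange (AlgebraicClosure ℚ) (modularFunctionFieldFull M₁)) →+*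
        ↥(laurentBaseChange (AlgebraicClosure ℚ) (modularFunctionFieldFull (M₁ * q))))
    (lh A M₁) (lh A (M₁ * q))
    (fun x => Fermat.Agent.S37.helper5651.layerHom_heckeAlphaBar M₁ q _ x)
    ((Fermat.Agent.S18.helper8991.gaussF A (IsLocalRing.residue A) M₁).comap
      (Wq M₁ q hq hqM hq2).toAlgHom.toRingHom)
    ((Fermat.Agent.S18.helper8991.gaussF A (IsLocalRing.residue A) (M₁ * q)).comap
      (Wsq M₁ q hq hqM hq2).toAlgHom.toRingHom) q
    (jKd A M₁ q hqM) (by rw [ha]; exact t1) (by rw [ha]; exact t2)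
    (jKd A (M₁ * q) (q * q) (sq_dvd_level hqM)) (by rw [ha, hy]; exact t3)

/-- **Block DEG-VAL α of `helper405.KillInput`**: the seven fields `α_norm_map`, `α_lift_inf`,
`α_lift_mid`, `α_norm_split`, `α_norm_insep`, `α_ord_split`, `α_ord_insep` (verbatim), from the
ORD fields `unif_inf`, `unif_mid`, `unif_zero`, `unif_inf'`, `unif_zero'`, `ne_inf_mid` and the
incidence tables `α_mem_inf`, `α_mem_mid`, `α_mem_zero` (verbatim).  Discharged inside:
`N_α` is the field norm, `α` is finite of degree `q` over `K = ℚ̄^I`, and the witness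
`(j(t ^ q), j(t ^ (q * q)))` of the inseparable leg. -/
theorem degVal_α_modular (hq : q.Prime) (hqM : q ∣ M₁) (hq2 : ¬ q ^ 2 ∣ M₁)
    (hA : A.LiesOverPrime q)
    (unif_inf : IsUnifOf (Vinf A M₁ q) (q : FK A (M₁ * q)))
    (unif_mid : ∃ T : FK A (M₁ * q), IsUnifOf (Vmid A M₁ q hq hqM hq2) T ∧
      UnitOf (Vmid A M₁ q hq hqM hq2) (T ^ (q - 1) / (q : FK A (M₁ * q))))
    (unif_zero : IsUnifOf (Vzero A M₁ q hq hqM hq2) (q : FK A (M₁ * q)))
    (unif_inf' : IsUnifOf (Vinf' A M₁) (q : FK A M₁))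
    (unif_zero' : IsUnifOf (Vzero' A M₁ q hq hqM hq2) (q : FK A M₁))
    (ne_inf_mid : Vinf A M₁ q ≠ Vmid A M₁ q hq hqM hq2)
    (α_mem_inf : Deg.MemOver (αK A M₁ q) (Vinf A M₁ q) (Vinf' A M₁))
    (α_mem_mid : Deg.MemOver (αK A M₁ q) (Vmid A M₁ q hq hqM hq2) (Vinf' A M₁))
    (α_mem_zero : Deg.MemOver (αK A M₁ q) (Vzero A M₁ q hq hqM hq2)
      (Vzero' A M₁ q hq hqM hq2)) :
    Deg.NormMap q (αK A M₁ q) (NαK A M₁ q) ∧
      Deg.Lift (αK A M₁ q) (Vinf A M₁ q) (Vinf' A M₁) ∧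
      Deg.Lift (αK A M₁ q) (Vmid A M₁ q hq hqM hq2) (Vinf' A M₁) ∧
      Deg.NormSplit q (αK A M₁ q) (NαK A M₁ q) (Vinf A M₁ q)
        (Vmid A M₁ q hq hqM hq2) (Vinf' A M₁) ∧
      Deg.NormInsep q (αK A M₁ q) (NαK A M₁ q) (Vzero A M₁ q hq hqM hq2) ∧
      Deg.OrdSplit (NαK A M₁ q) (ordOf (Vinf A M₁ q))
        (ordOf (Vmid A M₁ q hq hqM hq2)) (ordOf (Vinf' A M₁)) ∧
      Deg.OrdInsep q (NαK A M₁ q) (ordOf (Vzero A M₁ q hq hqM hq2))
        (ordOf (Vzero' A M₁ q hq hqM hq2)) := by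
  have hchar0 : CharZero (FK A M₁) :=
    Fermat.Agent.S36.helper6205.charZero_laurentBaseChange (KI A) (modularFunctionFieldFull M₁)
  obtain ⟨w1, w2, w3⟩ := alpha_witness A M₁ q hq hqM hq2 hA
  have hdegq := Fermat.Agent.S36.helper1359.finrankAlong_heckeAlphaBar_of_dvd_layer
    (algebraMap (KI A) (AlgebraicClosure ℚ)) M₁ q hq hqM
  have hfin := Fermat.Agent.S36.helper1359.finiteAlong_heckeAlphaBar_of_dvd_layer
    (algebraMap (KI A) (AlgebraicClosure ℚ)) M₁ q hq hqM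
  have h6 := degVal_of_unif q hq (αK A M₁ q) (NαK A M₁ q) (fun _ => rfl) hfin hdegq.le
    (Vinf A M₁ q) (Vmid A M₁ q hq hqM hq2) (Vzero A M₁ q hq hqM hq2)
    (Vinf' A M₁) (Vzero' A M₁ q hq hqM hq2) unif_inf unif_mid unif_zero unif_inf' unif_zero'
    ne_inf_mid α_mem_inf α_mem_mid α_mem_zero (jKd A M₁ q hqM) w1 w2
    (jKd A (M₁ * q) (q * q) (sq_dvd_level hqM)) w3
  refine ⟨fun a => ?_, h6⟩
  exact Fermat.Agent.S36.helper1359.normAlong_heckeAlphaBar_apply_self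
    (algebraMap (KI A) (AlgebraicClosure ℚ)) M₁ q hq hqM a

end Alpha

end Fermat.Agent.S36.helper8998
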