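import Mathlib
import Fermat.Agent.S37.helper530_RegFinT49
import Fermat.Agent.S18.helper208_CertL
import Fermat.Agent.Lib.helper28_IgusaCharts

/-!
# S36-UNIT-KVAL, part 3 (helper5460): clearing the cuspidal denominators on the `t`-charts

An element `w` integral over `K[j]` (no pole away from the cusps) becomes integral over `K[t]`
after multiplication by a power of the cusp polynomial of the Hauptmodul `t`, and integral over
`K[t⁻¹]` after multiplication by a power of the cusp polynomial of the chart at infinity: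

* `exists_pow_mul_isIntegral_adjoin` : Lemma S (`Lib.helper28.exists_pow_mul_isIntegralElem`) in
  the form `IsIntegral (Algebra.adjoin K {·})`: `j * g(t) = r(t)` ⟹ `g(t) ^ D * w` integral over
  `K[t]`;
* `isIntegral_adjoin_mul_of_mem`, `isIntegral_adjoin_pow_mul_of_le` : stability under polynomial
  multipliers;
* `clear_four`, `clear_four_inv` : `j t⁴ (t + 16) = (t² + 256 t + 4096)³` ⟹
  `(t (t + 16)) ^ m * w` integral over `K[t]`, `(t⁻¹ (1 + 16 t⁻¹)) ^ m * w` integral over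
  `K[t⁻¹]`;
* `clear_nine`, `clear_nine_inv` : the same for
  `j t⁹ (t² + 9 t + 27) = ((t + 9)(t³ + 243 t² + 2187 t + 6561))³`;
* `clear_t4F`, `clear_t4F_inv`, `clear_t9F`, `clear_t9F_inv` : the instances
  `t = S37.helper530.t4F K M h4`, `t9F K M h9`, `j = S37.helper1588.jK K M` in `F_K(M)`.
-/

set_option autoImplicit false

open Polynomial

noncomputable section

namespace Fermat.Agent.S36.helper5460

section Generic

variable {K F : Type*} [Field K] [Field F] [Algebra K F]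

/-- **Lemma S**, `Algebra.adjoin` form: if `j * g(t) = r(t)` and `w` is integral over `K[j]`,
then `g(t) ^ D * w` is integral over `K[t]` for some `D`. -/
theorem exists_pow_mul_isIntegral_adjoin (j t : F) (r g : K[X])
    (hrel : j * aeval t g = aeval t r) {w : F} (hw : IsIntegral (Algebra.adjoin K {j}) w) :
    ∃ D : ℕ, IsIntegral (Algebra.adjoin K {t}) (aeval t g ^ D * w) := by
  obtain ⟨Q, hQm, hQ⟩ := Fermat.Agent.S18.helper208.exists_monic_eval₂_of_isIntegral j w hw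
  have hw' : (eval₂RingHom (algebraMap K F) j).IsIntegralElem w := ⟨Q, hQm, hQ⟩
  obtain ⟨D, p, hpm, hp⟩ := Fermat.Agent.Lib.helper28.exists_pow_mul_isIntegralElem
    (algebraMap K F) r g j t hrel hw'
  exact ⟨D, Fermat.Agent.S18.helper208.isIntegral_adjoin_of_eval₂ t _ p hpm hp⟩

/-- Multiplication by a polynomial in `t` preserves integrality over `K[t]`. -/
theorem isIntegral_adjoin_mul_of_mem (t : F) {a w : F} (ha : a ∈ Algebra.adjoin K {t})
    (hw : IsIntegral (Algebra.adjoin K {t}) w) :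
    IsIntegral (Algebra.adjoin K {t}) (a * w) :=
  IsIntegral.mul (isIntegral_algebraMap (R := Algebra.adjoin K {t}) (x := ⟨a, ha⟩)) hw

/-- Raising the exponent of a polynomial multiplier preserves integrality over `K[t]`. -/
theorem isIntegral_adjoin_pow_mul_of_le (t : F) {s w : F} (hs : s ∈ Algebra.adjoin K {t})
    {m n : ℕ} (hmn : m ≤ n) (hw : IsIntegral (Algebra.adjoin K {t}) (s ^ m * w)) :
    IsIntegral (Algebra.adjoin K {t}) (s ^ n * w) := by
  have e : s ^ n * w = s ^ (n - m) * (s ^ m * w) := by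
    rw [← mul_assoc, ← pow_add, Nat.sub_add_cancel hmn]
  rw [e]
  exact isIntegral_adjoin_mul_of_mem t (pow_mem hs _) hw

/-- Level `4`, chart `t`. -/
theorem clear_four (j t : F) (hrel : j * (t ^ 4 * (t + 16)) = (t ^ 2 + 256 * t + 4096) ^ 3)
    {w : F} (hw : IsIntegral (Algebra.adjoin K {j}) w) :
    ∃ m : ℕ, IsIntegral (Algebra.adjoin K {t}) ((t * (t + 16)) ^ m * w) := by
  have ht : t ∈ Algebra.adjoin K {t} := Algebra.self_mem_adjoin_singleton K t
  obtain ⟨D, hD⟩ := exists_pow_mul_isIntegral_adjoin j t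
    ((X ^ 2 + 256 * X + 4096) ^ 3 : K[X]) (X ^ 4 * (X + 16) : K[X])
    (by simpa only [map_mul, map_add, map_pow, aeval_X, map_ofNat] using hrel) hw
  refine ⟨4 * D, ?_⟩
  have ha : aeval t (X ^ 4 * (X + 16) : K[X]) = t ^ 4 * (t + 16) := by
    simp only [map_mul, map_add, map_pow, aeval_X, map_ofNat]
  rw [ha] at hD
  have hb : (t * (t + 16)) ^ 4 = (t + 16) ^ 3 * (t ^ 4 * (t + 16)) := by ring
  have e : (t * (t + 16)) ^ (4 * D) * w
      = ((t + 16) ^ 3) ^ D * ((t ^ 4 * (t + 16)) ^ D * w) := by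
    rw [pow_mul, hb, mul_pow, mul_assoc]
  rw [e]
  exact isIntegral_adjoin_mul_of_mem t
    (pow_mem (pow_mem (add_mem ht (ofNat_mem _ 16)) 3) D) hD

/-- Level `4`, chart `t⁻¹`. -/
theorem clear_four_inv (j t : F) (ht0 : t ≠ 0)
    (hrel : j * (t ^ 4 * (t + 16)) = (t ^ 2 + 256 * t + 4096) ^ 3)
    {w : F} (hw : IsIntegral (Algebra.adjoin K {j}) w) :
    ∃ m : ℕ, IsIntegral (Algebra.adjoin K {t⁻¹}) ((t⁻¹ * (1 + 16 * t⁻¹)) ^ m * w) := by
  have hrel' : j * (t⁻¹ * (1 + 16 * t⁻¹)) = (1 + 256 * t⁻¹ + 4096 * t⁻¹ ^ 2) ^ 3 := by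
    have h1 : j * (t⁻¹ * (1 + 16 * t⁻¹)) = t⁻¹ ^ 6 * (j * (t ^ 4 * (t + 16))) := by
      field_simp
    have h2 : (1 + 256 * t⁻¹ + 4096 * t⁻¹ ^ 2) ^ 3
        = t⁻¹ ^ 6 * (t ^ 2 + 256 * t + 4096) ^ 3 := by
      field_simp
    rw [h1, h2, hrel]
  obtain ⟨D, hD⟩ := exists_pow_mul_isIntegral_adjoin j t⁻¹
    ((1 + 256 * X + 4096 * X ^ 2) ^ 3 : K[X]) (X * (1 + 16 * X) : K[X])
    (by simpa only [map_mul, map_add, map_pow, aeval_X, map_ofNat, map_one] using hrel') hw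
  refine ⟨D, ?_⟩
  simpa only [map_mul, map_add, map_pow, aeval_X, map_ofNat, map_one] using hD

/-- Level `9`, chart `t`. -/
theorem clear_nine (j t : F)
    (hrel : j * (t ^ 9 * (t ^ 2 + 9 * t + 27))
      = ((t + 9) * (t ^ 3 + 243 * t ^ 2 + 2187 * t + 6561)) ^ 3)
    {w : F} (hw : IsIntegral (Algebra.adjoin K {j}) w) :
    ∃ m : ℕ, IsIntegral (Algebra.adjoin K {t}) ((t * (t ^ 2 + 9 * t + 27)) ^ m * w) := by
  have ht : t ∈ Algebra.adjoin K {t} := Algebra.self_mem_adjoin_singleton K t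
  obtain ⟨D, hD⟩ := exists_pow_mul_isIntegral_adjoin j t
    (((X + 9) * (X ^ 3 + 243 * X ^ 2 + 2187 * X + 6561)) ^ 3 : K[X])
    (X ^ 9 * (X ^ 2 + 9 * X + 27) : K[X])
    (by simpa only [map_mul, map_add, map_pow, aeval_X, map_ofNat] using hrel) hw
  refine ⟨9 * D, ?_⟩
  have ha : aeval t (X ^ 9 * (X ^ 2 + 9 * X + 27) : K[X]) = t ^ 9 * (t ^ 2 + 9 * t + 27) := by
    simp only [map_mul, map_add, map_pow, aeval_X, map_ofNat]
  rw [ha] at hD
  have hb : (t * (t ^ 2 + 9 * t + 27)) ^ 9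
      = (t ^ 2 + 9 * t + 27) ^ 8 * (t ^ 9 * (t ^ 2 + 9 * t + 27)) := by ring
  have e : (t * (t ^ 2 + 9 * t + 27)) ^ (9 * D) * w
      = ((t ^ 2 + 9 * t + 27) ^ 8) ^ D * ((t ^ 9 * (t ^ 2 + 9 * t + 27)) ^ D * w) := by
    rw [pow_mul, hb, mul_pow, mul_assoc]
  rw [e]
  exact isIntegral_adjoin_mul_of_mem t
    (pow_mem (pow_mem (add_mem (add_mem (pow_mem ht 2) (mul_mem (ofNat_mem _ 9) ht))
      (ofNat_mem _ 27)) 8) D) hD

/-- Level `9`, chart `t⁻¹`. -/
theorem clear_nine_inv (j t : F) (ht0 : t ≠ 0)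
    (hrel : j * (t ^ 9 * (t ^ 2 + 9 * t + 27))
      = ((t + 9) * (t ^ 3 + 243 * t ^ 2 + 2187 * t + 6561)) ^ 3)
    {w : F} (hw : IsIntegral (Algebra.adjoin K {j}) w) :
    ∃ m : ℕ, IsIntegral (Algebra.adjoin K {t⁻¹})
      ((t⁻¹ * (1 + 9 * t⁻¹ + 27 * t⁻¹ ^ 2)) ^ m * w) := by
  have hrel' : j * (t⁻¹ * (1 + 9 * t⁻¹ + 27 * t⁻¹ ^ 2))
      = ((1 + 9 * t⁻¹) * (1 + 243 * t⁻¹ + 2187 * t⁻¹ ^ 2 + 6561 * t⁻¹ ^ 3)) ^ 3 := by
    have h1 : j * (t⁻¹ * (1 + 9 * t⁻¹ + 27 * t⁻¹ ^ 2))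
        = t⁻¹ ^ 12 * (j * (t ^ 9 * (t ^ 2 + 9 * t + 27))) := by
      field_simp
    have h2 : ((1 + 9 * t⁻¹) * (1 + 243 * t⁻¹ + 2187 * t⁻¹ ^ 2 + 6561 * t⁻¹ ^ 3)) ^ 3
        = t⁻¹ ^ 12 * ((t + 9) * (t ^ 3 + 243 * t ^ 2 + 2187 * t + 6561)) ^ 3 := by
      field_simp
    rw [h1, h2, hrel]
  obtain ⟨D, hD⟩ := exists_pow_mul_isIntegral_adjoin j t⁻¹
    (((1 + 9 * X) * (1 + 243 * X + 2187 * X ^ 2 + 6561 * X ^ 3)) ^ 3 : K[X])
    (X * (1 + 9 * X + 27 * X ^ 2) : K[X])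
    (by simpa only [map_mul, map_add, map_pow, aeval_X, map_ofNat, map_one] using hrel') hw
  refine ⟨D, ?_⟩
  simpa only [map_mul, map_add, map_pow, aeval_X, map_ofNat, map_one] using hD

end Generic

/-! ## The instances in `F_K(M)` -/

section Instances

open Fermat.Agent.S37 ModularCurve

variable (K : Type) [Field K] [Algebra ℚ K] (M : ℕ) [NeZero M]

theorem clear_t4F (h4 : 4 ∣ M) {w : ↥(laurentBaseChange K (modularFunctionFieldFull M))}
    (hw : IsIntegral (Algebra.adjoin K {helper1588.jK K M}) w) :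
    ∃ m : ℕ, IsIntegral (Algebra.adjoin K {helper530.t4F K M h4})
      ((helper530.t4F K M h4 * (helper530.t4F K M h4 + 16)) ^ m * w) :=
  clear_four _ _ (helper530.jK_mul_t4F K M h4) hw

theorem clear_t4F_inv (h4 : 4 ∣ M) {w : ↥(laurentBaseChange K (modularFunctionFieldFull M))}
    (hw : IsIntegral (Algebra.adjoin K {helper1588.jK K M}) w) :
    ∃ m : ℕ, IsIntegral (Algebra.adjoin K {(helper530.t4F K M h4)⁻¹})
      (((helper530.t4F K M h4)⁻¹ * (1 + 16 * (helper530.t4F K M h4)⁻¹)) ^ m * w) :=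
  clear_four_inv _ _ (helper530.t4F_ne_zero K M h4) (helper530.jK_mul_t4F K M h4) hw

theorem clear_t9F (h9 : 9 ∣ M) {w : ↥(laurentBaseChange K (modularFunctionFieldFull M))}
    (hw : IsIntegral (Algebra.adjoin K {helper1588.jK K M}) w) :
    ∃ m : ℕ, IsIntegral (Algebra.adjoin K {helper530.t9F K M h9})
      ((helper530.t9F K M h9 * (helper530.t9F K M h9 ^ 2 + 9 * helper530.t9F K M h9 + 27)) ^ m
        * w) :=
  clear_nine _ _ (helper530.jK_mul_t9F K M h9) hw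

theorem clear_t9F_inv (h9 : 9 ∣ M) {w : ↥(laurentBaseChange K (modularFunctionFieldFull M))}
    (hw : IsIntegral (Algebra.adjoin K {helper1588.jK K M}) w) :
    ∃ m : ℕ, IsIntegral (Algebra.adjoin K {(helper530.t9F K M h9)⁻¹})
      (((helper530.t9F K M h9)⁻¹ * (1 + 9 * (helper530.t9F K M h9)⁻¹
        + 27 * (helper530.t9F K M h9)⁻¹ ^ 2)) ^ m * w) :=
  clear_nine_inv _ _ (helper530.t9F_ne_zero K M h9) (helper530.jK_mul_t9F K M h9) hw

end Instances

end Fermat.Agent.S36.helper5460
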