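/-
S36-TH-INST, part (a), abstract core (helper9080): NODE-NONCUSP.

A closed point of a chart through which BOTH components of the special fibre of level `q M''`
pass is not a cusp.  Carrier-free form: `B` a subring of a field `F` which is integrally closed
in `F` (a chart ring), `P` a prime of `B`, `V0`, `V1` two valuation subrings of `F` containing
`B` whose centres on `B` lie in `P`; `j`, `jq` two elements tied by a relation `Φ` of Kronecker
shape in both orders (given as the level-`q` instance `CuspCore q B_P Φ j jq j` of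
`helper5229.CuspCore`, e.g. from `helper6414.exists_cuspCore_FK_both`), with `jq / j ^ q ≡ 1` at
`V0` and `j / jq ^ q ≡ 1` at `V1`.  Then `1 / j` is a unit-or-outside of `B_P`: `P` is not a cusp
(`not_cusp_of_core`, from `helper5229.CuspCore.not_le_of_cong_e1`).

With the cusp criteria of `helper5229_CuspLoc` on the base lines `t4`, `t9` this gives, on the
four charts, that the cusp polynomial is not in `P`:

* `node_noncusp_t4`     : `t ∉ P`, `t + 16 ∉ P`                 (`(t : F) = x`, chart of `x`);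
* `node_noncusp_t4_inv` : `u ∉ P`, `1 + 16 u ∉ P`               (`(u : F) = x⁻¹`, chart of `x⁻¹`);
* `node_noncusp_t9`     : `t ∉ P`, `t² + 9 t + 27 ∉ P`;
* `node_noncusp_t9_inv` : `u ∉ P`, `1 + 9 u + 27 u² ∉ P`.

These are the hypotheses `ht0`, `ht16` (`htQ`) of the thickness certificates at the closed nodes
(`helper4118.thick_gauss_t4` …) and the unit check of the theta-unit certificate of `hTH`.
-/
import Mathlib
import Fermat.Agent.S36.helper4913_SeedGlue
import Fermat.Agent.S36.helper5229_CuspKit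
import Fermat.Agent.S36.helper5229_CuspLoc

set_option autoImplicit false

namespace Fermat.Agent.S36.helper9080

open Fermat.Agent.S36.helper4913 (locSubring)
open Fermat.Agent.S36.helper5229

variable {F : Type*} [Field F]

/-- The data of a point `P` of a chart `B` lying on two components `V0`, `V1` whose `j`-functions
are tied by a modular relation of level `q` (`jq / j ^ q ≡ 1` on `V0`, `j / jq ^ q ≡ 1` on
`V1`). -/
structure NodeData (B : Subring F) (P : Ideal B) [P.IsPrime] (V0 V1 : ValuationSubring F) (q : ℕ)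
    (j jq : F) : Prop where
  /-- `B` is integrally closed in `F`. -/
  intClosed : ∀ y : F, IsIntegral B y → y ∈ B
  le0 : B ≤ V0.toSubring
  le1 : B ≤ V1.toSubring
  /-- the centre of `V0` on `B` lies in `P`. -/
  thr0 : ∀ b : B, (b : F) ∈ V0.nonunits → b ∈ P
  /-- the centre of `V1` on `B` lies in `P`. -/
  thr1 : ∀ b : B, (b : F) ∈ V1.nonunits → b ∈ P
  two_le : 2 ≤ q
  /-- the modular relation of level `q`, as the cusp core of `helper5229_CuspKit`. -/
  core : ∃ Φ : Polynomial (Polynomial ℤ), IsLocalSub (locSubring B P) →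
    IntClosedIn (locSubring B P) → NonUnit (locSubring B P) j⁻¹ →
    CuspCore q (locSubring B P) Φ j jq j
  cong0 : Cong V0 (jq * j⁻¹ ^ q)
  cong1 : Cong V1 (j * jq⁻¹ ^ q)

section Core

variable {B : Subring F} {P : Ideal B} [hP : P.IsPrime] {V0 V1 : ValuationSubring F} {q : ℕ}
  {j jq : F}

/-- **NODE-NONCUSP, abstract form**: a point on both components is not a cusp. -/
theorem NodeData.not_cusp (h : NodeData B P V0 V1 q j jq) : ¬ NonUnit (locSubring B P) j⁻¹ := by
  intro hcusp
  obtain ⟨Φ, hΦ⟩ := h.core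
  have hcore := hΦ (isLocalSub_locSubring B P) (intClosedIn_locSubring B P h.intClosed) hcusp
  exact hcore.not_le_of_cong_e1 h.two_le V0 V1
    (locSubring_le_valuationSubring B P V0 h.le0 h.thr0)
    (locSubring_le_valuationSubring B P V1 h.le1 h.thr1) h.cong0 h.cong1

/-- A natural number which is not in `P` is invertible in `B_P` (and nonzero in `F`). -/
theorem natCast_unit_of_notMem {n : ℕ} (hn : (n : B) ∉ P) :
    (n : F) ≠ 0 ∧ (n : F)⁻¹ ∈ locSubring B P := by
  constructor
  · intro h0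
    apply hn
    have : (n : B) = 0 := Subtype.ext (by rw [Subring.coe_natCast, h0]; rfl)
    rw [this]
    exact P.zero_mem
  · have h := inv_mem_locSubring_of_notMem (B := B) (P := P) hn
    rwa [Subring.coe_natCast] at h

/-- **NODE-NONCUSP on the `t4`-line, chart of `x`.** -/
theorem NodeData.t4 (h : NodeData B P V0 V1 q j jq) (h2 : ((2 : ℕ) : B) ∉ P) {x : F}
    (hrel : j * (x ^ 4 * (x + 16)) = (x ^ 2 + 256 * x + 4096) ^ 3) (t : B) (ht : (t : F) = x) :
    t ∉ P ∧ t + 16 ∉ P := by
  have hloc := isLocalSub_locSubring B P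
  obtain ⟨h20, h2i⟩ := natCast_unit_of_notMem (F := F) h2
  have h20' : (2 : F) ≠ 0 := by exact_mod_cast h20
  have h2i' : (2 : F)⁻¹ ∈ locSubring B P := by exact_mod_cast h2i
  have hxO : x ∈ locSubring B P := ht ▸ Fermat.Agent.S36.helper4913.subring_le_locSubring B P t.2
  have key : t * (t + 16) ∉ P := by
    intro hmem
    have hD : NonUnit (locSubring B P) (x * (x + 16)) := by
      have := (nonUnit_locSubring_coe_iff (B := B) (P := P) (t * (t + 16))).mpr hmem
      have e : ((t * (t + 16) : B) : F) = x * (x + 16) := by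
        rw [← ht]
        rfl
      rwa [e] at this
    exact h.not_cusp (nonUnit_inv_j_t4 hloc h20' h2i' hxO hrel hD)
  exact ⟨fun h' => key (P.mul_mem_right _ h'), fun h' => key (P.mul_mem_left _ h')⟩

/-- **NODE-NONCUSP on the `t4`-line, chart of `x⁻¹`.** -/
theorem NodeData.t4_inv (h : NodeData B P V0 V1 q j jq) {x : F} (hx0 : x ≠ 0)
    (hrel : j * (x ^ 4 * (x + 16)) = (x ^ 2 + 256 * x + 4096) ^ 3) (u : B) (hu : (u : F) = x⁻¹) :
    u ∉ P ∧ 1 + 16 * u ∉ P := by
  have hloc := isLocalSub_locSubring B P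
  have hsO : x⁻¹ ∈ locSubring B P := hu ▸ Fermat.Agent.S36.helper4913.subring_le_locSubring B P u.2
  have key : u * (1 + 16 * u) ∉ P := by
    intro hmem
    have hD : NonUnit (locSubring B P) (x⁻¹ * (1 + 16 * x⁻¹)) := by
      have := (nonUnit_locSubring_coe_iff (B := B) (P := P) (u * (1 + 16 * u))).mpr hmem
      have e : ((u * (1 + 16 * u) : B) : F) = x⁻¹ * (1 + 16 * x⁻¹) := by
        rw [← hu]
        rfl
      rwa [e] at this
    exact h.not_cusp (nonUnit_inv_j_t4_inv hloc hx0 hsO hrel hD)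
  exact ⟨fun h' => key (P.mul_mem_right _ h'), fun h' => key (P.mul_mem_left _ h')⟩

/-- **NODE-NONCUSP on the `t9`-line, chart of `x`.** -/
theorem NodeData.t9 (h : NodeData B P V0 V1 q j jq) (h3 : ((3 : ℕ) : B) ∉ P) {x : F}
    (hrel : j * (x ^ 9 * (x ^ 2 + 9 * x + 27)) =
      ((x + 9) * (x ^ 3 + 243 * x ^ 2 + 2187 * x + 6561)) ^ 3) (t : B) (ht : (t : F) = x) :
    t ∉ P ∧ t ^ 2 + 9 * t + 27 ∉ P := by
  have hloc := isLocalSub_locSubring B P
  obtain ⟨h30, h3i⟩ := natCast_unit_of_notMem (F := F) h3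
  have h30' : (3 : F) ≠ 0 := by exact_mod_cast h30
  have h3i' : (3 : F)⁻¹ ∈ locSubring B P := by exact_mod_cast h3i
  have hxO : x ∈ locSubring B P := ht ▸ Fermat.Agent.S36.helper4913.subring_le_locSubring B P t.2
  have key : t * (t ^ 2 + 9 * t + 27) ∉ P := by
    intro hmem
    have hD : NonUnit (locSubring B P) (x * (x ^ 2 + 9 * x + 27)) := by
      have := (nonUnit_locSubring_coe_iff (B := B) (P := P) (t * (t ^ 2 + 9 * t + 27))).mpr hmem
      have e : ((t * (t ^ 2 + 9 * t + 27) : B) : F) = x * (x ^ 2 + 9 * x + 27) := by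
        rw [← ht]
        rfl
      rwa [e] at this
    exact h.not_cusp (nonUnit_inv_j_t9 hloc h30' h3i' hxO hrel hD)
  exact ⟨fun h' => key (P.mul_mem_right _ h'), fun h' => key (P.mul_mem_left _ h')⟩

/-- **NODE-NONCUSP on the `t9`-line, chart of `x⁻¹`.** -/
theorem NodeData.t9_inv (h : NodeData B P V0 V1 q j jq) (h3 : ((3 : ℕ) : B) ∉ P) {x : F}
    (hx0 : x ≠ 0)
    (hrel : j * (x ^ 9 * (x ^ 2 + 9 * x + 27)) =
      ((x + 9) * (x ^ 3 + 243 * x ^ 2 + 2187 * x + 6561)) ^ 3) (u : B) (hu : (u : F) = x⁻¹) :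
    u ∉ P ∧ 1 + 9 * u + 27 * u ^ 2 ∉ P := by
  have hloc := isLocalSub_locSubring B P
  obtain ⟨h30, h3i⟩ := natCast_unit_of_notMem (F := F) h3
  have h30' : (3 : F) ≠ 0 := by exact_mod_cast h30
  have h3i' : (3 : F)⁻¹ ∈ locSubring B P := by exact_mod_cast h3i
  have hsO : x⁻¹ ∈ locSubring B P := hu ▸ Fermat.Agent.S36.helper4913.subring_le_locSubring B P u.2
  have key : u * (1 + 9 * u + 27 * u ^ 2) ∉ P := by
    intro hmem
    have hD : NonUnit (locSubring B P) (x⁻¹ * (1 + 9 * x⁻¹ + 27 * x⁻¹ ^ 2)) := by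
      have := (nonUnit_locSubring_coe_iff (B := B) (P := P)
        (u * (1 + 9 * u + 27 * u ^ 2))).mpr hmem
      have e : ((u * (1 + 9 * u + 27 * u ^ 2) : B) : F) = x⁻¹ * (1 + 9 * x⁻¹ + 27 * x⁻¹ ^ 2) := by
        rw [← hu]
        rfl
      rwa [e] at this
    exact h.not_cusp (nonUnit_inv_j_t9_inv hloc h30' h3i' hx0 hsO hrel hD)
  exact ⟨fun h' => key (P.mul_mem_right _ h'), fun h' => key (P.mul_mem_left _ h')⟩

end Core

/-- An element of `B` congruent modulo `P` to a natural number prime to `q ∈ P` is not in `P`;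
in particular (`u = c`) a natural number prime to `q` is not in `P`. -/
theorem natCast_notMem_of_coprime {B : Type*} [CommRing B] (P : Ideal B) [hP : P.IsPrime]
    {q c : ℕ} (hqP : (q : B) ∈ P) (hcq : Nat.Coprime c q) : (c : B) ∉ P := by
  intro hcP
  have h1 : ((Nat.gcd c q : ℕ) : ℤ) = (c : ℤ) * Nat.gcdA c q + (q : ℤ) * Nat.gcdB c q :=
    Nat.gcd_eq_gcd_ab c q
  rw [hcq] at h1
  have h2 : (1 : B) = (c : B) * ((Nat.gcdA c q : ℤ) : B) + (q : B) * ((Nat.gcdB c q : ℤ) : B) := by
    have := congrArg (fun z : ℤ => (z : B)) h1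
    simpa using this
  apply hP.ne_top
  rw [Ideal.eq_top_iff_one, h2]
  exact P.add_mem (P.mul_mem_right _ hcP) (P.mul_mem_right _ hqP)

end Fermat.Agent.S36.helper9080
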