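/-
S36-TH-INST, part (a), modular instance (helper9080): NODE-NONCUSP in `F_{N,K}`.

`K ⊇ ℚ` a field with a homomorphism `ι : K →+* ℚ̄`, `N` a level with `q ∥ N`,
`F' = laurentBaseChange K (modularFunctionFieldFull N)`, `A` a valuation subring of `ℚ̄` over `q`.
`V0`, `V1` are valuation subrings of `F'` which are the Gauss valuation subring pulled back along
the coefficientwise base change `lh = layerHom ι` (the component `∞`), resp. along `W_q ∘ lh`
(the component `0`; `W_q = helper1219.atkinLehnerHall N q`) — the two membership hypotheses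
`hV0`, `hV1` are `Iff.rfl` for the vertical valuation subrings of record
(`helper405.Vinf'`, `helper405.Vzero'`).

* `gauss_along` : such a pull-back is "Gauss along the expansion" (the hypotheses `hV0`, `hV1`
  of `helper5229.cong_mid_of_series`);
* `cong_gauss` : the Frobenius congruence `j_q / j ^ q ≡ 1` for it;
* `nodeData_FK` : the `NodeData` of `helper9080_NodeNonCusp` for every subring `B` of `F'`,
  integrally closed in `F'`, contained in `V0`, `V1`, and every prime `P` of `B` containing both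
  centres — with `j = jK K N`, `jq = jKd K N q`;
* `node_noncusp_chart_t4`, `node_noncusp_chart_t9` : on the two charts `helper36.chart O x' i` of
  the base lines `x' = t4F K N` (`q ≠ 2`), `x' = t9F K N` (`q ≠ 3`): a prime `P'` containing both
  centres (`helper8039.centre`) contains neither `t` nor `t + 16` (`i = 0`), neither `t⁻¹` nor
  `1 + 16 t⁻¹` (`i = 1`); resp. `t`, `t² + 9 t + 27`; `t⁻¹`, `1 + 9 t⁻¹ + 27 t⁻²`.
-/
import Fermat.Agent.S36.helper9080_NodeNonCusp
import Fermat.Agent.S36.helper6414_CuspCoreFK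
import Fermat.Agent.S36.helper5229_CuspInst
import Fermat.Agent.S36.helper8039_LPKill
import Fermat.Agent.S18.helper8991_GaussInst
import Fermat.Agent.S35.helper1219_AtkinLehnerHall
import Fermat.Agent.S37.helper5651_FFK
import Fermat.Agent.S37.helper9343_BetaDegree
import Fermat.Agent.S37.helper530_RegFinT49

set_option autoImplicit false
set_option linter.unusedSectionVars false

noncomputable section

namespace Fermat.Agent.S36.helper9080

open ModularCurve
open Fermat.Agent.S24.helper24 (Kbar FN jBar jBarD)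
open Fermat.Agent.S36.helper4913 (locSubring)
open Fermat.Agent.S36.helper5229 (Cong NonUnit IsLocalSub IntClosedIn CuspCore)
open Fermat.Agent.S18.helper8991 (gaussF gaussFRed inc red)
open Fermat.Agent.S37.helper1588 (jK jKd)
open Fermat.Agent.S36.helper36 (chart)
open Fermat.Agent.S36.helper8039 (centre)

/-! ## Valuation subrings: non-units, elementwise -/

section Val

variable {F : Type*} [Field F]

theorem mem_nonunits_iff_inv (V : ValuationSubring F) (x : F) :
    x ∈ V.nonunits ↔ x ∈ V ∧ (x = 0 ∨ x⁻¹ ∉ V) := by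
  rw [V.mem_nonunits_iff]
  constructor
  · intro h
    refine ⟨(V.valuation_le_one_iff x).mp h.le, ?_⟩
    by_cases hx : x = 0
    · exact Or.inl hx
    · right
      intro hinv
      have h1 : V.valuation x⁻¹ ≤ 1 := (V.valuation_le_one_iff _).mpr hinv
      have h2 : V.valuation x * V.valuation x⁻¹ = 1 := by
        rw [← map_mul, mul_inv_cancel₀ hx, map_one]
      have h3 : V.valuation x * V.valuation x⁻¹ < 1 :=
        calc V.valuation x * V.valuation x⁻¹ ≤ V.valuation x * 1 := mul_le_mul' le_rfl h1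
          _ = V.valuation x := mul_one _
          _ < 1 := h
      exact absurd h2 h3.ne
  · rintro ⟨hx, h0 | hinv⟩
    · rw [h0, map_zero]
      exact zero_lt_one
    · by_contra hlt
      have h1 : V.valuation x = 1 :=
        le_antisymm ((V.valuation_le_one_iff x).mpr hx) (not_lt.mp hlt)
      apply hinv
      rw [← V.valuation_le_one_iff, map_inv₀, h1, inv_one]

end Val

/-! ## Pull-backs of the Gauss valuation subring -/

section GaussAlong

variable {L : Type*} [Field L] [Algebra ℚ L] (A : ValuationSubring L) {k : Type*} [Field k]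
  (π : A →+* k) (N : ℕ) {F : Type*} [Field F]
  (φ : F →+* ↥(laurentBaseChange L (modularFunctionFieldFull N))) (V : ValuationSubring F)

/-- The expansion attached to `φ`. -/
def expOf : F →+* LaurentSeries L :=
  (algebraMap ↥(laurentBaseChange L (modularFunctionFieldFull N)) (LaurentSeries L)).comp φ

theorem expOf_apply (x : F) :
    expOf N φ x = ((φ x : ↥(laurentBaseChange L (modularFunctionFieldFull N))) : LaurentSeries L) :=
  rfl

/-- **A pull-back of the Gauss valuation subring is Gauss along the expansion.** -/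
theorem gauss_along (hV : ∀ x : F, x ∈ V ↔ φ x ∈ gaussF A π N) :
    (∀ (x : F) (X : LaurentSeries A), expOf N φ x = coeffMap A.subtype X → coeffMap π X = 0 →
      x ∈ V.nonunits) ∧
    (∀ (x : F) (X : LaurentSeries A), expOf N φ x = coeffMap A.subtype X → coeffMap π X ≠ 0 →
      x ∈ V ∧ x⁻¹ ∈ V) := by
  have hone : red A π (1 : LaurentSeries A) ≠ 0 := by
    rw [map_one]
    exact one_ne_zero
  have key : ∀ (x : F) (X : LaurentSeries A), expOf N φ x = coeffMap A.subtype X →
      ∃ hm : φ x ∈ gaussF A π N, gaussFRed A π N ⟨φ x, hm⟩ = coeffMap π X := by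
    intro x X hX
    have hrel : ((φ x : ↥(laurentBaseChange L (modularFunctionFieldFull N))) : LaurentSeries L)
        * inc A 1 = inc A X := by
      rw [map_one, mul_one]
      exact hX
    have hm : φ x ∈ gaussF A π N :=
      (Fermat.Agent.S18.helper8991.mem_gaussF_iff A π N (φ x)).mpr ⟨X, 1, hone, hrel⟩
    refine ⟨hm, ?_⟩
    have h := Fermat.Agent.S18.helper8991.gaussFRed_eq A π N ⟨φ x, hm⟩ hone hrel
    rw [h, map_one, div_one]
  constructor
  · intro x X hX h0
    obtain ⟨hm, hred⟩ := key x X hX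
    rw [h0] at hred
    rw [mem_nonunits_iff_inv]
    refine ⟨(hV x).mpr hm, ?_⟩
    by_cases hx : x = 0
    · exact Or.inl hx
    · right
      intro hinv
      have hinv' : φ x⁻¹ ∈ gaussF A π N := (hV _).mp hinv
      have hu : IsUnit (⟨φ x, hm⟩ : ↥(gaussF A π N)) := by
        refine IsUnit.of_mul_eq_one ⟨φ x⁻¹, hinv'⟩ ?_
        apply Subtype.ext
        show φ x * φ x⁻¹ = 1
        rw [← map_mul, mul_inv_cancel₀ hx, map_one]
      exact ((Fermat.Agent.S18.helper8991.isUnit_iff_gaussFRed_ne_zero A π N _).mp hu) hred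
  · intro x X hX h0
    obtain ⟨hm, hred⟩ := key x X hX
    refine ⟨(hV x).mpr hm, ?_⟩
    have hu : IsUnit (⟨φ x, hm⟩ : ↥(gaussF A π N)) :=
      (Fermat.Agent.S18.helper8991.isUnit_iff_gaussFRed_ne_zero A π N _).mpr (by rw [hred]; exact h0)
    obtain ⟨u, hu'⟩ := hu.exists_right_inv
    have h1 : φ x * (u : ↥(laurentBaseChange L (modularFunctionFieldFull N))) = 1 :=
      congrArg Subtype.val hu'
    have hx0 : φ x ≠ 0 := left_ne_zero_of_mul_eq_one h1
    have h2 : (u : ↥(laurentBaseChange L (modularFunctionFieldFull N))) = φ x⁻¹ := by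
      rw [map_inv₀]
      exact eq_inv_of_mul_eq_one_right h1
    rw [hV, ← h2]
    exact u.2

/-- **The Frobenius congruence on a pull-back of the Gauss valuation subring**: if the expansions
of `j`, `jq` are `j(t)`, `j(t^q)` then `jq / j ^ q ≡ 1` modulo `𝔪(V)`. -/
theorem cong_gauss (q : ℕ) [NeZero q] (hq : q.Prime) [CharP k q]
    (hV : ∀ x : F, x ∈ V ↔ φ x ∈ gaussF A π N) {j jq : F}
    (hj : expOf N φ j = jqModC L) (hjq : expOf N φ jq = qExpand L q (jqModC L)) :
    Cong V (jq * j⁻¹ ^ q) := by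
  obtain ⟨h0, h1⟩ := gauss_along A π N φ V hV
  refine (Fermat.Agent.S36.helper5229.cong_mid_of_series A π q hq 1 (by simp) (expOf N φ) V h0 h1
    hj hjq (jqq := j) ?_).1
  rw [map_one, Fermat.Agent.S36.helper5229.twist_one_units]
  exact hj

end GaussAlong

/-- The residue field of a valuation subring over `q` has characteristic `q`. -/
theorem charP_residue {L : Type*} [Field L] (A : ValuationSubring L) {q : ℕ} (hq : q.Prime)
    (hA : (q : L) ∈ A.nonunits) : CharP (IsLocalRing.ResidueField A) q := by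
  refine (CharP.charP_iff_prime_eq_zero hq).mpr ?_
  obtain ⟨ha, hm⟩ := A.mem_nonunits_iff_exists_mem_maximalIdeal.mp hA
  have e : ((q : ℕ) : IsLocalRing.ResidueField A) = IsLocalRing.residue A (⟨(q : L), ha⟩ : A) := by
    rw [← map_natCast (IsLocalRing.residue A) q]
    rfl
  rw [e]
  exact (IsLocalRing.residue_eq_zero_iff _).mpr hm

/-! ## The modular instance -/

section Modular

variable (K : Type) [Field K] [Algebra ℚ K] (ι : K →+* Kbar) (N q : ℕ) [NeZero q]

/-- The coefficientwise base change `F_{N,K} → F_{N,ℚ̄}`. -/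
abbrev lhK : ↥(laurentBaseChange K (modularFunctionFieldFull N)) →+* FN N :=
  Fermat.Agent.S37.helper5651.layerHom (modularFunctionFieldFull N) ι

theorem lhK_jK : lhK K ι N (jK K N) = jBar N := by
  apply Subtype.ext
  rw [Fermat.Agent.S37.helper5651.coe_layerHom, Fermat.Agent.S37.helper1588.coe_jK,
    coeffMap_jqModC, Fermat.Agent.S37.helper9343.coe_jBar',
    Fermat.Agent.S37.helper9343.JK_eq_jqModC]

theorem lhK_jKd (hqN : q ∣ N) : lhK K ι N (jKd K N q hqN) = jBarD N q hqN := by
  apply Subtype.ext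
  rw [Fermat.Agent.S37.helper5651.coe_layerHom, Fermat.Agent.S37.helper1588.coe_jKd,
    Fermat.Agent.S36.helper6020.coeffMap_qExpand, coeffMap_jqModC,
    Fermat.Agent.S37.helper9343.coe_jBarD', Fermat.Agent.S37.helper9343.JK_eq_jqModC]

variable {K N q} [NeZero N]

/-- **The two Frobenius congruences at level `q`**: `j_q / j ^ q ≡ 1` on the component `∞` and
`j / j_q ^ q ≡ 1` on the component `0`. -/
theorem cong_FK (hq : q.Prime) (hqN : q ∣ N) (hcop : Nat.Coprime q (N / q))
    (A : ValuationSubring Kbar) (hA : A.LiesOverPrime q)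
    (V0 V1 : ValuationSubring ↥(laurentBaseChange K (modularFunctionFieldFull N)))
    (hV0 : ∀ f, f ∈ V0 ↔ lhK K ι N f ∈ gaussF A (IsLocalRing.residue A) N)
    (hV1 : ∀ f, f ∈ V1 ↔ Fermat.Agent.S35.helper1219.atkinLehnerHall N q hqN hcop (lhK K ι N f)
      ∈ gaussF A (IsLocalRing.residue A) N) :
    Cong V0 (jKd K N q hqN * (jK K N)⁻¹ ^ q) ∧ Cong V1 (jK K N * (jKd K N q hqN)⁻¹ ^ q) := by
  have : CharP (IsLocalRing.ResidueField A) q := charP_residue A hq hA
  constructor
  · refine cong_gauss A (IsLocalRing.residue A) N (lhK K ι N) V0 q hq hV0 ?_ ?_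
    · rw [expOf_apply, lhK_jK, Fermat.Agent.S37.helper9343.coe_jBar',
        Fermat.Agent.S37.helper9343.JK_eq_jqModC]
    · rw [expOf_apply, lhK_jKd, Fermat.Agent.S37.helper9343.coe_jBarD',
        Fermat.Agent.S37.helper9343.JK_eq_jqModC]
  · refine cong_gauss A (IsLocalRing.residue A) N
      (((Fermat.Agent.S35.helper1219.atkinLehnerHall N q hqN hcop : FN N ≃ₐ[Kbar] FN N) :
        FN N →+* FN N).comp (lhK K ι N)) V1 q hq hV1 ?_ ?_
    · rw [expOf_apply]
      show ((Fermat.Agent.S35.helper1219.atkinLehnerHall N q hqN hcop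
        (lhK K ι N (jKd K N q hqN)) : FN N) : LaurentSeries Kbar) = _
      rw [lhK_jKd, Fermat.Agent.S35.helper1219.atkinLehnerHall_jBarD_self,
        Fermat.Agent.S37.helper9343.coe_jBar', Fermat.Agent.S37.helper9343.JK_eq_jqModC]
    · rw [expOf_apply]
      show ((Fermat.Agent.S35.helper1219.atkinLehnerHall N q hqN hcop
        (lhK K ι N (jK K N)) : FN N) : LaurentSeries Kbar) = _
      rw [lhK_jK, Fermat.Agent.S35.helper1219.atkinLehnerHall_jBar,
        Fermat.Agent.S37.helper9343.coe_jBarD', Fermat.Agent.S37.helper9343.JK_eq_jqModC]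

/-- **NODE-NONCUSP data in `F_{N,K}`**, `q ∥ N`: every prime `P` of a subring `B`, integrally
closed in `F_{N,K}` and contained in the two vertical valuation subrings `V0`, `V1`, which
contains both centres. -/
theorem nodeData_FK (hq : q.Prime) (hqN : q ∣ N) (hcop : Nat.Coprime q (N / q))
    (A : ValuationSubring Kbar) (hA : A.LiesOverPrime q)
    (V0 V1 : ValuationSubring ↥(laurentBaseChange K (modularFunctionFieldFull N)))
    (hV0 : ∀ f, f ∈ V0 ↔ lhK K ι N f ∈ gaussF A (IsLocalRing.residue A) N)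
    (hV1 : ∀ f, f ∈ V1 ↔ Fermat.Agent.S35.helper1219.atkinLehnerHall N q hqN hcop (lhK K ι N f)
      ∈ gaussF A (IsLocalRing.residue A) N)
    (B : Subring ↥(laurentBaseChange K (modularFunctionFieldFull N)))
    (hB : IntClosedIn B) (hB0 : B ≤ V0.toSubring) (hB1 : B ≤ V1.toSubring)
    (P : Ideal B) [P.IsPrime]
    (h0 : ∀ b : B, (b : ↥(laurentBaseChange K (modularFunctionFieldFull N))) ∈ V0.nonunits → b ∈ P)
    (h1 : ∀ b : B, (b : ↥(laurentBaseChange K (modularFunctionFieldFull N))) ∈ V1.nonunits → b ∈ P) :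
    NodeData B P V0 V1 q (jK K N) (jKd K N q hqN) := by
  obtain ⟨c0, c1⟩ := cong_FK ι hq hqN hcop A hA V0 V1 hV0 hV1
  obtain ⟨Φ, -, -, hΦ⟩ := Fermat.Agent.S36.helper6414.exists_cuspCore_FK_both q hq
  exact
    { intClosed := hB
      le0 := hB0
      le1 := hB1
      thr0 := h0
      thr1 := h1
      two_le := hq.two_le
      core := ⟨Φ, fun hloc hic hcusp => hΦ K N hqN (locSubring B P) hloc hic hcusp⟩
      cong0 := c0
      cong1 := c1 }

/-- `q` is a non-unit of every pull-back of the Gauss valuation subring over `q`. -/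
theorem natCast_mem_nonunits_of_gauss {L : Type*} [Field L] [Algebra ℚ L] (A : ValuationSubring L)
    {k : Type*} [Field k] (π : A →+* k) (M : ℕ) {F : Type*} [Field F]
    (φ : F →+* ↥(laurentBaseChange L (modularFunctionFieldFull M))) (V : ValuationSubring F)
    (hV : ∀ x : F, x ∈ V ↔ φ x ∈ gaussF A π M) (p : ℕ) [CharP k p] : (p : F) ∈ V.nonunits := by
  refine (gauss_along A π M φ V hV).1 _ ((p : ℕ) : LaurentSeries A) ?_ ?_
  · rw [map_natCast, map_natCast]
  · rw [map_natCast]
    have h1 : ((p : ℕ) : LaurentSeries k) = HahnSeries.C ((p : ℕ) : k) :=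
      (map_natCast (HahnSeries.C : k →+* LaurentSeries k) p).symm
    rw [h1, CharP.cast_eq_zero k p, map_zero]

section Chart

variable (hq : q.Prime) (hqN : q ∣ N) (hcop : Nat.Coprime q (N / q))
  (A : ValuationSubring Kbar) (hA : A.LiesOverPrime q)
  (V' : Fin 2 → ValuationSubring ↥(laurentBaseChange K (modularFunctionFieldFull N)))
  (hV0 : ∀ f, f ∈ V' 0 ↔ lhK K ι N f ∈ gaussF A (IsLocalRing.residue A) N)
  (hV1 : ∀ f, f ∈ V' 1 ↔ Fermat.Agent.S35.helper1219.atkinLehnerHall N q hqN hcop (lhK K ι N f)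
    ∈ gaussF A (IsLocalRing.residue A) N)
  (O : ValuationSubring K) (x' : ↥(laurentBaseChange K (modularFunctionFieldFull N)))
  (hconst' : ∀ (c : Fin 2) (a : K), a ∈ O →
    algebraMap K ↥(laurentBaseChange K (modularFunctionFieldFull N)) a ∈ V' c)
  (hxV' : ∀ c, x' ∈ V' c ∧ x'⁻¹ ∈ V' c)
  (i : Fin 2) (P' : Ideal (chart O x' i)) [P'.IsPrime]
  (h0 : centre (chart O x' i) (V' 0) ≤ P') (h1 : centre (chart O x' i) (V' 1) ≤ P')

include hq hA hV0 hV1 hconst' hxV' h0 h1

/-- **NODE-NONCUSP data on a chart of `F_{N,K}`** (`q ∥ N`): a prime `P'` of `chart O x' i`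
containing the centres of both vertical valuation subrings. -/
theorem nodeData_chart : NodeData (chart O x' i) P' (V' 0) (V' 1) q (jK K N) (jKd K N q hqN) := by
  have hB : ∀ c, chart O x' i ≤ (V' c).toSubring := fun c b hb =>
    Fermat.Agent.S36.helper8039.chart_le O x' (V' c) (hconst' c) (hxV' c) i b hb
  refine nodeData_FK ι hq hqN hcop A hA (V' 0) (V' 1) hV0 hV1 (chart O x' i)
    (fun y hy => Fermat.Agent.S36.helper248.intClosedIn_chartRing _ y hy) (hB 0) (hB 1) P'
    (fun b hb => h0 (Ideal.subset_span hb)) (fun b hb => h1 (Ideal.subset_span hb))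

/-- `q` lies in every such prime. -/
theorem natCast_mem_of_centre : (q : chart O x' i) ∈ P' := by
  have : CharP (IsLocalRing.ResidueField A) q := charP_residue A hq hA
  refine h0 (Ideal.subset_span ?_)
  show ((q : chart O x' i) : ↥(laurentBaseChange K (modularFunctionFieldFull N))) ∈ (V' 0).nonunits
  rw [Subring.coe_natCast]
  exact natCast_mem_nonunits_of_gauss A (IsLocalRing.residue A) N (lhK K ι N) (V' 0) hV0 q

end Chart

/-- **NODE-NONCUSP on the charts of the `t4`-line** (`q` odd, `4 ∣ N`, `q ∥ N`, `x' = t4F K N`):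
a prime `P'` of `chart O x' i` containing the centres of both vertical valuation subrings
contains neither `t` nor `t + 16` (`i = 0`), neither `t⁻¹` nor `1 + 16 t⁻¹` (`i = 1`). -/
theorem node_noncusp_chart_t4 (hq : q.Prime) (hq2 : q ≠ 2) (hqN : q ∣ N)
    (hcop : Nat.Coprime q (N / q)) (h4 : 4 ∣ N)
    (A : ValuationSubring Kbar) (hA : A.LiesOverPrime q)
    (V' : Fin 2 → ValuationSubring ↥(laurentBaseChange K (modularFunctionFieldFull N)))
    (hV0 : ∀ f, f ∈ V' 0 ↔ lhK K ι N f ∈ gaussF A (IsLocalRing.residue A) N)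
    (hV1 : ∀ f, f ∈ V' 1 ↔ Fermat.Agent.S35.helper1219.atkinLehnerHall N q hqN hcop (lhK K ι N f)
      ∈ gaussF A (IsLocalRing.residue A) N)
    (O : ValuationSubring K) (x' : ↥(laurentBaseChange K (modularFunctionFieldFull N)))
    (hx' : x' = Fermat.Agent.S37.helper530.t4F K N h4)
    (hconst' : ∀ (c : Fin 2) (a : K), a ∈ O →
      algebraMap K ↥(laurentBaseChange K (modularFunctionFieldFull N)) a ∈ V' c)
    (hxV' : ∀ c, x' ∈ V' c ∧ x'⁻¹ ∈ V' c)
    (i : Fin 2) (P' : Ideal (chart O x' i)) [P'.IsPrime]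
    (h0 : centre (chart O x' i) (V' 0) ≤ P') (h1 : centre (chart O x' i) (V' 1) ≤ P') :
    (∀ t : chart O x' i, (t : ↥(laurentBaseChange K (modularFunctionFieldFull N))) = x' →
      t ∉ P' ∧ t + 16 ∉ P') ∧
    (∀ u : chart O x' i, (u : ↥(laurentBaseChange K (modularFunctionFieldFull N))) = x'⁻¹ →
      u ∉ P' ∧ 1 + 16 * u ∉ P') := by
  subst hx'
  have hnode := nodeData_chart ι hq hqN hcop A hA V' hV0 hV1 O _ hconst' hxV' i P' h0 h1
  have hqP := natCast_mem_of_centre ι hq hqN hcop A hA V' hV0 hV1 O _ hconst' hxV' i P' h0 h1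
  have h2 : ((2 : ℕ) : chart O (Fermat.Agent.S37.helper530.t4F K N h4) i) ∉ P' :=
    natCast_notMem_of_coprime P' hqP ((Nat.coprime_primes Nat.prime_two hq).mpr (Ne.symm hq2))
  have hrel := Fermat.Agent.S37.helper530.jK_mul_t4F K N h4
  exact ⟨fun t ht => hnode.t4 h2 hrel t ht,
    fun u hu => hnode.t4_inv (Fermat.Agent.S37.helper530.t4F_ne_zero K N h4) hrel u hu⟩

/-- **NODE-NONCUSP on the charts of the `t9`-line** (`q ≠ 3`, `9 ∣ N`, `q ∥ N`, `x' = t9F K N`):
a prime `P'` of `chart O x' i` containing the centres of both vertical valuation subrings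
contains neither `t` nor `t² + 9 t + 27` (`i = 0`), neither `t⁻¹` nor `1 + 9 t⁻¹ + 27 t⁻²`
(`i = 1`). -/
theorem node_noncusp_chart_t9 (hq : q.Prime) (hq3 : q ≠ 3) (hqN : q ∣ N)
    (hcop : Nat.Coprime q (N / q)) (h9 : 9 ∣ N)
    (A : ValuationSubring Kbar) (hA : A.LiesOverPrime q)
    (V' : Fin 2 → ValuationSubring ↥(laurentBaseChange K (modularFunctionFieldFull N)))
    (hV0 : ∀ f, f ∈ V' 0 ↔ lhK K ι N f ∈ gaussF A (IsLocalRing.residue A) N)
    (hV1 : ∀ f, f ∈ V' 1 ↔ Fermat.Agent.S35.helper1219.atkinLehnerHall N q hqN hcop (lhK K ι N f)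
      ∈ gaussF A (IsLocalRing.residue A) N)
    (O : ValuationSubring K) (x' : ↥(laurentBaseChange K (modularFunctionFieldFull N)))
    (hx' : x' = Fermat.Agent.S37.helper530.t9F K N h9)
    (hconst' : ∀ (c : Fin 2) (a : K), a ∈ O →
      algebraMap K ↥(laurentBaseChange K (modularFunctionFieldFull N)) a ∈ V' c)
    (hxV' : ∀ c, x' ∈ V' c ∧ x'⁻¹ ∈ V' c)
    (i : Fin 2) (P' : Ideal (chart O x' i)) [P'.IsPrime]
    (h0 : centre (chart O x' i) (V' 0) ≤ P') (h1 : centre (chart O x' i) (V' 1) ≤ P') :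
    (∀ t : chart O x' i, (t : ↥(laurentBaseChange K (modularFunctionFieldFull N))) = x' →
      t ∉ P' ∧ t ^ 2 + 9 * t + 27 ∉ P') ∧
    (∀ u : chart O x' i, (u : ↥(laurentBaseChange K (modularFunctionFieldFull N))) = x'⁻¹ →
      u ∉ P' ∧ 1 + 9 * u + 27 * u ^ 2 ∉ P') := by
  subst hx'
  have hnode := nodeData_chart ι hq hqN hcop A hA V' hV0 hV1 O _ hconst' hxV' i P' h0 h1
  have hqP := natCast_mem_of_centre ι hq hqN hcop A hA V' hV0 hV1 O _ hconst' hxV' i P' h0 h1
  have h3 : ((3 : ℕ) : chart O (Fermat.Agent.S37.helper530.t9F K N h9) i) ∉ P' :=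
    natCast_notMem_of_coprime P' hqP ((Nat.coprime_primes Nat.prime_three hq).mpr (Ne.symm hq3))
  have hrel := Fermat.Agent.S37.helper530.jK_mul_t9F K N h9
  exact ⟨fun t ht => hnode.t9 h3 hrel t ht,
    fun u hu => hnode.t9_inv h3 (Fermat.Agent.S37.helper530.t9F_ne_zero K N h9) hrel u hu⟩

end Modular

end Fermat.Agent.S36.helper9080
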