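/-
S36-TH-INST, part (b), abstract core (helper9080): thickness one at the closed nodes of level
`q M''` from a UNIT CERTIFICATE.

`B = chartRing O {u}` a chart ring of `F / K` (`u` the chart coordinate: the base line or its
inverse), `V' 0`, `V' 1` the two vertical valuation subrings.  Suppose `x, y ∈ F` with

* `x * y = c * q`, `c = ±1`;
* `x ∈ 𝔪(V' 0)`, `x ∈ V' 1`, `y ∈ V' 0`, `y ∈ 𝔪(V' 1)`   (`div x = C_∞`, `div y = C_0` vertically);
* `D ^ m * x`, `D ^ n * y` integral over `K[u]` for an element `D` of `B` (the cusp polynomial: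
  `x`, `y` are regular away from the cusps).

Then, for every prime `P'` of `B` with `D ∉ P'` (a non-cuspidal point), there are
`x₀ ∈ B ∩ 𝔪(V' 0)`, `y₀ ∈ B ∩ 𝔪(V' 1)` and `g ∉ P'` with `x₀ * y₀ = q * g`: the conclusion of the
hypothesis `hTH` of `helper8039.lpProp_of_cases` (`x₀ = D ^ m x`, `y₀ = D ^ n y`,
`g = c D ^ (m + n)`).  Chart membership is `helper105.mem_chartRing_of_integral_of_rad` (M4):
integral on the generic fibre + vertical values `≥ 0` + the radical hypothesis of the chart.

For the modular instance (`y` = theta unit `Θ(z)/Θ(qz)` resp. `b(z)/b(qz)`, `x = c q / y`) see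
`helper9080_ThetaNodeFK`.
-/
import Mathlib
import Fermat.Agent.S36.helper105_ChartMem
import Fermat.Agent.S36.helper2587_ChartsGauss
import Fermat.Agent.S36.helper8039_LPCasesVal

set_option autoImplicit false

namespace Fermat.Agent.S36.helper9080

open Fermat.Agent.S36.helper248 (chartRing)
open Fermat.Agent.S36.helper1730 (NilMod)
open Fermat.Agent.S36.helper8039 (centre)

section Abstract

variable {K F : Type*} [Field K] [Field F] [Algebra K F]

/-- A member times a non-unit of a valuation subring is a non-unit. -/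
theorem mul_mem_nonunits_of_mem (V : ValuationSubring F) {a x : F} (ha : a ∈ V)
    (hx : x ∈ V.nonunits) : a * x ∈ V.nonunits := by
  rw [V.mem_nonunits_iff, map_mul]
  have h1 : V.valuation x < 1 := V.mem_nonunits_iff.mp hx
  have h2 : V.valuation a ≤ 1 := (V.valuation_le_one_iff _).mpr ha
  calc V.valuation a * V.valuation x ≤ 1 * V.valuation x := mul_le_mul' h2 le_rfl
    _ = V.valuation x := one_mul _
    _ < 1 := h1

/-- **(TH) at a non-cuspidal point from a unit certificate.**  See the module doc-string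
(`D` is the cusp polynomial, an element of the chart ring). -/
theorem th_of_unit [CharZero K] (O : ValuationSubring K) [IsNoetherianRing O] (q : ℕ)
    (hq0 : (q : K) ≠ 0) (hqO : (q : K) ∈ O.nonunits)
    (u : F) (hu : Transcendental K u)
    [FiniteDimensional (IntermediateField.adjoin K ({u} : Set F)) F]
    (V' : Fin 2 → ValuationSubring F)
    (hBV : ∀ c, ∀ b ∈ chartRing O ({u} : Set F), b ∈ V' c)
    (hqV' : ∀ c, (q : F) ∈ (V' c).nonunits)
    (hrad : ∀ y ∈ chartRing O ({u} : Set F), (∀ c, y ∈ (V' c).nonunits) →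
      NilMod (chartRing O ({u} : Set F)) (q : F) y)
    (D : F) (hD : D ∈ chartRing O ({u} : Set F)) (x y : F) (c : ℤ) (hc : c * c = 1)
    (hxi : ∃ m : ℕ, IsIntegral (Algebra.adjoin K ({u} : Set F)) (D ^ m * x))
    (hyi : ∃ m : ℕ, IsIntegral (Algebra.adjoin K ({u} : Set F)) (D ^ m * y))
    (hx0 : x ∈ (V' 0).nonunits) (hx1 : x ∈ V' 1) (hy0 : y ∈ V' 0) (hy1 : y ∈ (V' 1).nonunits)
    (hxy : x * y = (c : F) * (q : F))
    (P' : Ideal (chartRing O ({u} : Set F))) [hP' : P'.IsPrime]
    (hd : (⟨D, hD⟩ : chartRing O ({u} : Set F)) ∉ P') :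
    ∃ x₀ ∈ centre (chartRing O ({u} : Set F)) (V' 0),
      ∃ y₀ ∈ centre (chartRing O ({u} : Set F)) (V' 1),
        ∃ g, g ∉ P' ∧ x₀ * y₀ = (q : chartRing O ({u} : Set F)) * g := by
  have := Fermat.Agent.S36.helper2587.isFractionRing_chartRing (A0 := O) (K0 := K) u
  have := Fermat.Agent.S36.helper2587.isIntegrallyClosed_chartRing (A0 := O) (K0 := K) u
  have := Fermat.Agent.S36.helper2587.isNoetherianRing_chartRing (A0 := O) (K0 := K) u hu
  obtain ⟨m, hm⟩ := hxi
  obtain ⟨n, hn⟩ := hyi
  have hdV : ∀ c, D ∈ V' c := fun c => hBV c D hD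
  have hxV : ∀ c, x ∈ V' c := by
    intro c
    fin_cases c
    · exact ValuationSubring.nonunits_subset hx0
    · exact hx1
  have hyV : ∀ c, y ∈ V' c := by
    intro c
    fin_cases c
    · exact hy0
    · exact ValuationSubring.nonunits_subset hy1
  have hX : D ^ m * x ∈ chartRing O ({u} : Set F) :=
    Fermat.Agent.S36.helper105.mem_chartRing_of_integral_of_rad O q hq0 hqO ({u} : Set F) V'
      hBV hqV' hrad hm (fun c => (V' c).mul_mem _ _ (pow_mem (hdV c) m) (hxV c))
  have hY : D ^ n * y ∈ chartRing O ({u} : Set F) :=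
    Fermat.Agent.S36.helper105.mem_chartRing_of_integral_of_rad O q hq0 hqO ({u} : Set F) V'
      hBV hqV' hrad hn (fun c => (V' c).mul_mem _ _ (pow_mem (hdV c) n) (hyV c))
  refine ⟨⟨_, hX⟩, Ideal.subset_span ?_, ⟨_, hY⟩, Ideal.subset_span ?_,
    (c : chartRing O ({u} : Set F)) * (⟨D, hD⟩ : chartRing O ({u} : Set F)) ^ (m + n), ?_, ?_⟩
  · exact mul_mem_nonunits_of_mem (V' 0) (pow_mem (hdV 0) m) hx0
  · exact mul_mem_nonunits_of_mem (V' 1) (pow_mem (hdV 1) n) hy1
  · intro hg
    have hcB : (c : chartRing O ({u} : Set F)) * (c : chartRing O ({u} : Set F)) = 1 := by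
      exact_mod_cast congrArg (Int.cast : ℤ → chartRing O ({u} : Set F)) hc
    have h1 : (c : chartRing O ({u} : Set F)) * ((c : chartRing O ({u} : Set F))
        * (⟨D, hD⟩ : chartRing O ({u} : Set F)) ^ (m + n)) ∈ P' := P'.mul_mem_left _ hg
    rw [← mul_assoc, hcB, one_mul] at h1
    exact hd (hP'.mem_of_pow_mem _ h1)
  · apply Subtype.ext
    show D ^ m * x * (D ^ n * y)
      = ((q : chartRing O ({u} : Set F)) : F)
        * (((c : chartRing O ({u} : Set F)) : F) * D ^ (m + n))
    rw [Subring.coe_natCast, Subring.coe_intCast, pow_add]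
    calc D ^ m * x * (D ^ n * y) = D ^ m * D ^ n * (x * y) := by ring
      _ = D ^ m * D ^ n * ((c : F) * (q : F)) := by rw [hxy]
      _ = (q : F) * ((c : F) * (D ^ m * D ^ n)) := by ring

end Abstract

end Fermat.Agent.S36.helper9080
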