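/-
S36-TH-INST, part (b), modular instance (helper9080): the hypothesis `hTH` of
`helper8039.lpProp_of_cases` at level `N` (`q ∥ N`) in `F_{N,K}`, from a unit `y` with
`W_q(y) · y = c q`.

Same carriers as `helper9080_NodeNonCuspFK` (`K`, `ι : K →+* ℚ̄`, `lhK`, `V' 0`, `V' 1` the Gauss
valuation subring pulled back along `lhK` resp. `W_q ∘ lhK`).

* `lhK_zElt` : the base change of the `K`-form of an integer series is its `ℚ̄`-form;
* `hall_mul_of_bar` : the law `W_q(y) · y = c` for `helper1219.atkinLehnerHall N q` at the literal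
  level `N` from the law for `atkinLehnerBar q (N / q)` at level `q * (N / q)`;
* `unit_table_FK` : for an integer series unit `Y` (`Y * Yi = 1`) of level `N` with
  `W_q(Y) · Y = c q`, `c = ±1`: `y = zElt K N Y` is a unit at `V' 0` and lies in `𝔪(V' 1)`;
  `x = c q / y` lies in `𝔪(V' 0)` and in `V' 1`; `x * y = c q`;
* `th_chart_of_unit_t4`, `th_chart_of_unit_t9` : the conclusion of `hTH` on the charts
  `chart O x' i` of the base lines `t4F K N`, `t9F K N`, for such a unit `Y` integral (with its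
  inverse) over `ℚ[j]`;
* `th_chart_t4` (`q` odd, `4 ∣ N`, `Y = Θ(z)/Θ(qz)`, `helper105.sZ q`), `th_chart_t9` (`q ≠ 3`,
  `9 ∣ N`, `Y = b(z)/b(qz)`, `helper4474.yZ q`): the closed instances.
-/
import Fermat.Agent.S36.helper9080_ThetaNode
import Fermat.Agent.S36.helper9080_NodeNonCuspFK
import Fermat.Agent.S36.helper5460_UnitGauss
import Fermat.Agent.S36.helper5460_UnitClear
import Fermat.Agent.S36.helper105_ThetaUnit
import Fermat.Agent.S36.helper4474_NineUnit

set_option autoImplicit false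
set_option linter.unusedSectionVars false

noncomputable section

namespace Fermat.Agent.S36.helper9080

open ModularCurve
open Fermat.Agent.S24.helper24 (Kbar FN)
open Fermat.Agent.S18.helper8991 (gaussF)
open Fermat.Agent.S37.helper1588 (jK)
open Fermat.Agent.S36.helper36 (chart)
open Fermat.Agent.S36.helper248 (chartRing)
open Fermat.Agent.S36.helper1730 (NilMod)
open Fermat.Agent.S36.helper8039 (centre)
open Fermat.Agent.S36.helper5460 (zElt)
open Fermat.Agent.S35.helper1219 (atkinLehnerHall atkinLehnerBar castFN)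

/-! ## Base change and the Atkin–Lehner law at the literal level -/

section BaseChange

variable (K : Type) [Field K] [Algebra ℚ K] (ι : K →+* Kbar) (N : ℕ)

/-- The base change of the `K`-form of an integer series is its `ℚ̄`-form. -/
theorem lhK_zElt (Y : PowerSeries ℤ)
    (hY : HahnSeries.ofPowerSeries ℤ ℚ (Y.map (Int.castRingHom ℚ)) ∈ modularFunctionFieldFull N) :
    lhK K ι N (zElt K N Y hY) = zElt Kbar N Y hY := by
  apply Subtype.ext
  rw [Fermat.Agent.S37.helper5651.coe_layerHom, Fermat.Agent.S36.helper5460.coe_zElt,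
    Fermat.Agent.S36.helper5460.coe_zElt, coeffEmb, coeffEmb, coeffMap_coeffMap]
  exact coeffMap_congr (RingHom.ext fun c => by simp) _

end BaseChange

section Hall

variable {N q : ℕ} [NeZero N] [NeZero q]

/-- **The Atkin–Lehner law at the literal level** from the law at level `q * (N / q)`. -/
theorem hall_mul_of_bar (hqN : q ∣ N) (hcop : Nat.Coprime q (N / q)) (y : FN N) (c : Kbar)
    (hW : @atkinLehnerBar q (N / q) _ (Fermat.Agent.S35.helper1219.neZero_div_of_dvd hqN) hcop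
        (castFN (Nat.mul_div_cancel' hqN).symm y) * castFN (Nat.mul_div_cancel' hqN).symm y
      = algebraMap Kbar (FN (q * (N / q))) c) :
    atkinLehnerHall N q hqN hcop y * y = algebraMap Kbar (FN N) c := by
  have e := Fermat.Agent.S35.helper1219.castFN_castFN (Nat.mul_div_cancel' hqN).symm
    (Nat.mul_div_cancel' hqN) y
  calc atkinLehnerHall N q hqN hcop y * y
      = castFN (Nat.mul_div_cancel' hqN)
          (@atkinLehnerBar q (N / q) _ (Fermat.Agent.S35.helper1219.neZero_div_of_dvd hqN) hcop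
            (castFN (Nat.mul_div_cancel' hqN).symm y))
        * castFN (Nat.mul_div_cancel' hqN) (castFN (Nat.mul_div_cancel' hqN).symm y) := by
        rw [Fermat.Agent.S35.helper1219.atkinLehnerHall_apply, e]
    _ = castFN (Nat.mul_div_cancel' hqN) (algebraMap Kbar (FN (q * (N / q))) c) := by
        rw [← map_mul, hW]
    _ = algebraMap Kbar (FN N) c := AlgEquiv.commutes _ c

end Hall

/-! ## The table of a unit with `W_q(y) · y = c q` -/

section Table

/-- Non-units of a pull-back of a valuation subring along a field homomorphism. -/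
theorem mem_nonunits_of_map {F E : Type*} [Field F] [Field E] (φ : F →+* E)
    (V : ValuationSubring F) (W : ValuationSubring E) (hV : ∀ x, x ∈ V ↔ φ x ∈ W) (x : F) :
    x ∈ V.nonunits ↔ φ x ∈ W.nonunits := by
  rw [mem_nonunits_iff_inv, mem_nonunits_iff_inv, hV, hV, map_inv₀, map_eq_zero]

variable {K : Type} [Field K] [Algebra ℚ K] (ι : K →+* Kbar) {N q : ℕ} [NeZero N] [NeZero q]

/-- **The table of an integer series unit with `W_q(Y) · Y = c q`, `c = ±1`**, on the two
vertical valuation subrings of `F_{N,K}`: `y = zElt K N Y` is a unit at `V' 0` and lies in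
`𝔪(V' 1)`; `x = c q / y` lies in `𝔪(V' 0)` and in `V' 1`; `x * y = c q`. -/
theorem unit_table_FK (hq : q.Prime) (hqN : q ∣ N) (hcop : Nat.Coprime q (N / q))
    (A : ValuationSubring Kbar) (hA : A.LiesOverPrime q)
    (V' : Fin 2 → ValuationSubring ↥(laurentBaseChange K (modularFunctionFieldFull N)))
    (hV0 : ∀ f, f ∈ V' 0 ↔ lhK K ι N f ∈ gaussF A (IsLocalRing.residue A) N)
    (hV1 : ∀ f, f ∈ V' 1 ↔ atkinLehnerHall N q hqN hcop (lhK K ι N f)
      ∈ gaussF A (IsLocalRing.residue A) N)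
    {Y Yi : PowerSeries ℤ} (hYY : Y * Yi = 1)
    (hY : HahnSeries.ofPowerSeries ℤ ℚ (Y.map (Int.castRingHom ℚ)) ∈ modularFunctionFieldFull N)
    (c : ℤ) (hc : c * c = 1)
    (hW : atkinLehnerHall N q hqN hcop (zElt Kbar N Y hY) * zElt Kbar N Y hY
      = algebraMap Kbar (FN N) ((c : Kbar) * (q : Kbar))) :
    (c : ↥(laurentBaseChange K (modularFunctionFieldFull N))) * (q : ↥(laurentBaseChange K
        (modularFunctionFieldFull N))) * (zElt K N Y hY)⁻¹ ∈ (V' 0).nonunits ∧
    (c : ↥(laurentBaseChange K (modularFunctionFieldFull N))) * (q : ↥(laurentBaseChange K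
        (modularFunctionFieldFull N))) * (zElt K N Y hY)⁻¹ ∈ V' 1 ∧
    zElt K N Y hY ∈ V' 0 ∧ zElt K N Y hY ∈ (V' 1).nonunits ∧
    (c : ↥(laurentBaseChange K (modularFunctionFieldFull N))) * (q : ↥(laurentBaseChange K
        (modularFunctionFieldFull N))) * (zElt K N Y hY)⁻¹ * zElt K N Y hY
      = (c : ↥(laurentBaseChange K (modularFunctionFieldFull N)))
        * (q : ↥(laurentBaseChange K (modularFunctionFieldFull N))) := by
  have : CharP (IsLocalRing.ResidueField A) q := charP_residue A hq hA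
  have hY0 : zElt Kbar N Y hY ≠ 0 := Fermat.Agent.S36.helper5460.zElt_ne_zero Kbar N hYY hY
  have hy0 : zElt K N Y hY ≠ 0 := Fermat.Agent.S36.helper5460.zElt_ne_zero K N hYY hY
  have hG : zElt Kbar N Y hY ∈ gaussF A (IsLocalRing.residue A) N :=
    Fermat.Agent.S36.helper5460.zElt_mem_gaussF N A (IsLocalRing.residue A) Y hY
  have hGi : (zElt Kbar N Y hY)⁻¹ ∈ gaussF A (IsLocalRing.residue A) N :=
    Fermat.Agent.S36.helper5460.zElt_inv_mem_gaussF N A (IsLocalRing.residue A) hYY hY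
  have hWY : atkinLehnerHall N q hqN hcop (zElt Kbar N Y hY)
      = (c : FN N) * (q : FN N) * (zElt Kbar N Y hY)⁻¹ := by
    rw [eq_mul_inv_iff_mul_eq₀ hY0, hW, map_mul, map_intCast, map_natCast]
  have hcc : (c : FN N) * (c : FN N) = 1 := by
    exact_mod_cast congrArg (Int.cast : ℤ → FN N) hc
  have hc0 : (c : FN N) ≠ 0 := left_ne_zero_of_mul_eq_one hcc
  have hqn : (q : FN N) ∈ (gaussF A (IsLocalRing.residue A) N).nonunits :=
    natCast_mem_nonunits_of_gauss A (IsLocalRing.residue A) N (RingHom.id _)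
      (gaussF A (IsLocalRing.residue A) N) (fun _ => Iff.rfl) q
  have hq0 : (q : FN N) ≠ 0 := by
    intro h0
    rw [h0, mul_zero, zero_mul] at hWY
    exact hY0 ((map_eq_zero _).mp hWY)
  have hxn : (c : FN N) * (q : FN N) * (zElt Kbar N Y hY)⁻¹
      ∈ (gaussF A (IsLocalRing.residue A) N).nonunits := by
    have e : (c : FN N) * (q : FN N) * (zElt Kbar N Y hY)⁻¹
        = ((c : FN N) * (zElt Kbar N Y hY)⁻¹) * (q : FN N) := by ring
    rw [e]
    exact mul_mem_nonunits_of_mem _ ((gaussF A (IsLocalRing.residue A) N).mul_mem _ _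
      (intCast_mem _ c) hGi) hqn
  have hWx : atkinLehnerHall N q hqN hcop ((c : FN N) * (q : FN N) * (zElt Kbar N Y hY)⁻¹)
      = zElt Kbar N Y hY := by
    rw [map_mul, map_mul, map_intCast, map_natCast, map_inv₀, hWY]
    field_simp
  have hlx : lhK K ι N ((c : ↥(laurentBaseChange K (modularFunctionFieldFull N)))
      * (q : ↥(laurentBaseChange K (modularFunctionFieldFull N))) * (zElt K N Y hY)⁻¹)
      = (c : FN N) * (q : FN N) * (zElt Kbar N Y hY)⁻¹ := by
    rw [map_mul, map_mul, map_intCast, map_natCast, map_inv₀, lhK_zElt]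
  refine ⟨?_, ?_, ?_, ?_, ?_⟩
  · rw [mem_nonunits_of_map (lhK K ι N) (V' 0) _ hV0, hlx]
    exact hxn
  · rw [hV1, hlx, hWx]
    exact hG
  · rw [hV0, lhK_zElt]
    exact hG
  · rw [mem_nonunits_of_map (((atkinLehnerHall N q hqN hcop : FN N ≃ₐ[Kbar] FN N) :
      FN N →+* FN N).comp (lhK K ι N)) (V' 1) _ hV1]
    show atkinLehnerHall N q hqN hcop (lhK K ι N (zElt K N Y hY)) ∈ _
    rw [lhK_zElt, hWY]
    exact hxn
  · rw [mul_assoc, inv_mul_cancel₀ hy0, mul_one]

end Table

/-! ## `hTH` on the charts of the base lines -/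

section Chart

variable {K : Type} [Field K] [Algebra ℚ K] (ι : K →+* Kbar) {N q : ℕ} [NeZero N] [NeZero q]

/-- Integers are integral. -/
theorem isIntegral_int_mul_nat {R F : Type*} [CommRing R] [Field F] [Algebra R F] (c : ℤ)
    (n : ℕ) : IsIntegral R ((c : F) * (n : F)) := by
  have e : (c : F) * (n : F) = algebraMap R F ((c : R) * (n : R)) := by
    rw [map_mul, map_intCast, map_natCast]
  rw [e]
  exact isIntegral_algebraMap

/-- **`hTH` on the charts of the `t4`-line from a unit with `W_q(Y) · Y = c q`** (`q` odd,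
`4 ∣ N`, `q ∥ N`, `x' = t4F K N`).  `Y` is an integer series unit of level `N`, integral with its
inverse over `ℚ[j]`. -/
theorem th_chart_of_unit_t4 (hq : q.Prime) (hq2 : q ≠ 2) (hqN : q ∣ N)
    (hcop : Nat.Coprime q (N / q)) (h4 : 4 ∣ N)
    (A : ValuationSubring Kbar) (hA : A.LiesOverPrime q)
    (V' : Fin 2 → ValuationSubring ↥(laurentBaseChange K (modularFunctionFieldFull N)))
    (hV0 : ∀ f, f ∈ V' 0 ↔ lhK K ι N f ∈ gaussF A (IsLocalRing.residue A) N)
    (hV1 : ∀ f, f ∈ V' 1 ↔ atkinLehnerHall N q hqN hcop (lhK K ι N f)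
      ∈ gaussF A (IsLocalRing.residue A) N)
    (O : ValuationSubring K) [IsNoetherianRing O] (hq0 : (q : K) ≠ 0)
    (hqO : (q : K) ∈ O.nonunits)
    (x' : ↥(laurentBaseChange K (modularFunctionFieldFull N)))
    (hx' : x' = Fermat.Agent.S37.helper530.t4F K N h4)
    (hconst' : ∀ (c : Fin 2) (a : K), a ∈ O →
      algebraMap K ↥(laurentBaseChange K (modularFunctionFieldFull N)) a ∈ V' c)
    (hxV' : ∀ c, x' ∈ V' c ∧ x'⁻¹ ∈ V' c)
    (hrad' : ∀ (i : Fin 2) (y : ↥(laurentBaseChange K (modularFunctionFieldFull N))),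
      y ∈ chart O x' i → (∀ c, y ∈ (V' c).nonunits) →
      NilMod (chart O x' i) (q : ↥(laurentBaseChange K (modularFunctionFieldFull N))) y)
    {Y Yi : PowerSeries ℤ} (hYY : Y * Yi = 1)
    (hY : HahnSeries.ofPowerSeries ℤ ℚ (Y.map (Int.castRingHom ℚ)) ∈ modularFunctionFieldFull N)
    (hI : IsIntegral (Algebra.adjoin ℚ {jq})
      (HahnSeries.ofPowerSeries ℤ ℚ (Y.map (Int.castRingHom ℚ))))
    (hIi : IsIntegral (Algebra.adjoin ℚ {jq})
      (HahnSeries.ofPowerSeries ℤ ℚ (Yi.map (Int.castRingHom ℚ))))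
    (c : ℤ) (hc : c * c = 1)
    (hW : atkinLehnerHall N q hqN hcop (zElt Kbar N Y hY) * zElt Kbar N Y hY
      = algebraMap Kbar (FN N) ((c : Kbar) * (q : Kbar))) :
    ∀ (i : Fin 2) (P' : Ideal (chart O x' i)), P'.IsPrime →
      centre (chart O x' i) (V' 0) ≤ P' → centre (chart O x' i) (V' 1) ≤ P' →
      ∃ x₀ ∈ centre (chart O x' i) (V' 0), ∃ y₀ ∈ centre (chart O x' i) (V' 1),
        ∃ g, g ∉ P' ∧ x₀ * y₀ = (q : chart O x' i) * g := by
  subst hx'
  have hCZ : CharZero K := algebraRat.charZero K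
  have : CharP (IsLocalRing.ResidueField A) q := charP_residue A hq hA
  obtain ⟨tx0, tx1, ty0, ty1, txy⟩ :=
    unit_table_FK ι hq hqN hcop A hA V' hV0 hV1 hYY hY c hc hW
  have hYi := Fermat.Agent.S36.helper5460.ofPowerSeries_int_inv_mem N hYY hY
  have hyI : IsIntegral (Algebra.adjoin K {jK K N}) (zElt K N Y hY) :=
    Fermat.Agent.S36.helper5460.zElt_isIntegral K N Y hY hI
  have hxI : IsIntegral (Algebra.adjoin K {jK K N})
      ((c : ↥(laurentBaseChange K (modularFunctionFieldFull N)))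
        * (q : ↥(laurentBaseChange K (modularFunctionFieldFull N))) * (zElt K N Y hY)⁻¹) := by
    refine IsIntegral.mul (isIntegral_int_mul_nat c q) ?_
    rw [Fermat.Agent.S36.helper5460.zElt_inv K N hYY hY hYi]
    exact Fermat.Agent.S36.helper5460.zElt_isIntegral K N Yi hYi hIi
  have hqV' : ∀ c, (q : ↥(laurentBaseChange K (modularFunctionFieldFull N)))
      ∈ (V' c).nonunits := by
    intro c
    fin_cases c
    · exact natCast_mem_nonunits_of_gauss A (IsLocalRing.residue A) N (lhK K ι N) (V' 0) hV0 q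
    · exact natCast_mem_nonunits_of_gauss A (IsLocalRing.residue A) N
        (((atkinLehnerHall N q hqN hcop : FN N ≃ₐ[Kbar] FN N) : FN N →+* FN N).comp
          (lhK K ι N)) (V' 1) hV1 q
  have htr := Fermat.Agent.S37.helper530.transcendental_t4F K N h4
  have hfd := Fermat.Agent.S37.helper530.finiteDimensional_t4F K N h4
  have htr' : Transcendental K (Fermat.Agent.S37.helper530.t4F K N h4)⁻¹ :=
    fun h => htr (by simpa using h.inv)
  have hfd' := Fermat.Agent.S36.helper2587.finiteDimensional_adjoin_inv (K0 := K)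
    (Fermat.Agent.S37.helper530.t4F K N h4)
  refine Fin.forall_fin_two.mpr ⟨?_, ?_⟩
  · intro P' hP' h0 h1
    obtain ⟨hn0, -⟩ := node_noncusp_chart_t4 ι hq hq2 hqN hcop h4 A hA V' hV0 hV1 O _ rfl
      hconst' hxV' 0 P' h0 h1
    have htB : Fermat.Agent.S37.helper530.t4F K N h4
        ∈ chartRing O ({Fermat.Agent.S37.helper530.t4F K N h4} : Set _) :=
      Fermat.Agent.S36.helper248.mem_chartRing_of_mem rfl
    obtain ⟨hd1, hd2⟩ := hn0 ⟨_, htB⟩ rfl
    have hDm : Fermat.Agent.S37.helper530.t4F K N h4 * (Fermat.Agent.S37.helper530.t4F K N h4 + 16)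
        ∈ chartRing O ({Fermat.Agent.S37.helper530.t4F K N h4} : Set _) :=
      Subring.mul_mem _ htB (Subring.add_mem _ htB (ofNat_mem _ 16))
    have hd : (⟨_, hDm⟩ : chartRing O ({Fermat.Agent.S37.helper530.t4F K N h4} : Set _)) ∉ P' :=
      fun h => (hP'.mem_or_mem (show (⟨_, htB⟩ * (⟨_, htB⟩ + 16) :
        chartRing O ({Fermat.Agent.S37.helper530.t4F K N h4} : Set _)) ∈ P' from h)).elim hd1 hd2
    exact th_of_unit O q hq0 hqO (Fermat.Agent.S37.helper530.t4F K N h4) htr V'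
      (fun c b hb => Fermat.Agent.S36.helper8039.chart_le O _ (V' c) (hconst' c) (hxV' c) 0 b hb)
      hqV' (fun y hy => hrad' 0 y hy) _ hDm _ _ c hc
      (Fermat.Agent.S36.helper5460.clear_t4F K N h4 hxI)
      (Fermat.Agent.S36.helper5460.clear_t4F K N h4 hyI) tx0 tx1 ty0 ty1 txy P' (hP' := hP') hd
  · intro P' hP' h0 h1
    obtain ⟨-, hn1⟩ := node_noncusp_chart_t4 ι hq hq2 hqN hcop h4 A hA V' hV0 hV1 O _ rfl
      hconst' hxV' 1 P' h0 h1
    have huB : (Fermat.Agent.S37.helper530.t4F K N h4)⁻¹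
        ∈ chartRing O ({(Fermat.Agent.S37.helper530.t4F K N h4)⁻¹} : Set _) :=
      Fermat.Agent.S36.helper248.mem_chartRing_of_mem rfl
    obtain ⟨hd1, hd2⟩ := hn1 ⟨_, huB⟩ rfl
    have hDm : (Fermat.Agent.S37.helper530.t4F K N h4)⁻¹
        * (1 + 16 * (Fermat.Agent.S37.helper530.t4F K N h4)⁻¹)
        ∈ chartRing O ({(Fermat.Agent.S37.helper530.t4F K N h4)⁻¹} : Set _) :=
      Subring.mul_mem _ huB (Subring.add_mem _ (Subring.one_mem _)
        (Subring.mul_mem _ (ofNat_mem _ 16) huB))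
    have hd : (⟨_, hDm⟩ : chartRing O ({(Fermat.Agent.S37.helper530.t4F K N h4)⁻¹} : Set _))
        ∉ P' :=
      fun h => (hP'.mem_or_mem (show (⟨_, huB⟩ * (1 + 16 * ⟨_, huB⟩) :
        chartRing O ({(Fermat.Agent.S37.helper530.t4F K N h4)⁻¹} : Set _)) ∈ P' from h)).elim
          hd1 hd2
    exact th_of_unit O q hq0 hqO (Fermat.Agent.S37.helper530.t4F K N h4)⁻¹ htr' V'
      (fun c b hb => Fermat.Agent.S36.helper8039.chart_le O _ (V' c) (hconst' c) (hxV' c) 1 b hb)
      hqV' (fun y hy => hrad' 1 y hy) _ hDm _ _ c hc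
      (Fermat.Agent.S36.helper5460.clear_t4F_inv K N h4 hxI)
      (Fermat.Agent.S36.helper5460.clear_t4F_inv K N h4 hyI) tx0 tx1 ty0 ty1 txy P' (hP' := hP') hd

/-- **`hTH` on the charts of the `t9`-line from a unit with `W_q(Y) · Y = c q`** (`q ≠ 3`,
`9 ∣ N`, `q ∥ N`, `x' = t9F K N`).  `Y` is an integer series unit of level `N`, integral with its
inverse over `ℚ[j]`. -/
theorem th_chart_of_unit_t9 (hq : q.Prime) (hq3 : q ≠ 3) (hqN : q ∣ N)
    (hcop : Nat.Coprime q (N / q)) (h9 : 9 ∣ N)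
    (A : ValuationSubring Kbar) (hA : A.LiesOverPrime q)
    (V' : Fin 2 → ValuationSubring ↥(laurentBaseChange K (modularFunctionFieldFull N)))
    (hV0 : ∀ f, f ∈ V' 0 ↔ lhK K ι N f ∈ gaussF A (IsLocalRing.residue A) N)
    (hV1 : ∀ f, f ∈ V' 1 ↔ atkinLehnerHall N q hqN hcop (lhK K ι N f)
      ∈ gaussF A (IsLocalRing.residue A) N)
    (O : ValuationSubring K) [IsNoetherianRing O] (hq0 : (q : K) ≠ 0)
    (hqO : (q : K) ∈ O.nonunits)
    (x' : ↥(laurentBaseChange K (modularFunctionFieldFull N)))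
    (hx' : x' = Fermat.Agent.S37.helper530.t9F K N h9)
    (hconst' : ∀ (c : Fin 2) (a : K), a ∈ O →
      algebraMap K ↥(laurentBaseChange K (modularFunctionFieldFull N)) a ∈ V' c)
    (hxV' : ∀ c, x' ∈ V' c ∧ x'⁻¹ ∈ V' c)
    (hrad' : ∀ (i : Fin 2) (y : ↥(laurentBaseChange K (modularFunctionFieldFull N))),
      y ∈ chart O x' i → (∀ c, y ∈ (V' c).nonunits) →
      NilMod (chart O x' i) (q : ↥(laurentBaseChange K (modularFunctionFieldFull N))) y)
    {Y Yi : PowerSeries ℤ} (hYY : Y * Yi = 1)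
    (hY : HahnSeries.ofPowerSeries ℤ ℚ (Y.map (Int.castRingHom ℚ)) ∈ modularFunctionFieldFull N)
    (hI : IsIntegral (Algebra.adjoin ℚ {jq})
      (HahnSeries.ofPowerSeries ℤ ℚ (Y.map (Int.castRingHom ℚ))))
    (hIi : IsIntegral (Algebra.adjoin ℚ {jq})
      (HahnSeries.ofPowerSeries ℤ ℚ (Yi.map (Int.castRingHom ℚ))))
    (c : ℤ) (hc : c * c = 1)
    (hW : atkinLehnerHall N q hqN hcop (zElt Kbar N Y hY) * zElt Kbar N Y hY
      = algebraMap Kbar (FN N) ((c : Kbar) * (q : Kbar))) :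
    ∀ (i : Fin 2) (P' : Ideal (chart O x' i)), P'.IsPrime →
      centre (chart O x' i) (V' 0) ≤ P' → centre (chart O x' i) (V' 1) ≤ P' →
      ∃ x₀ ∈ centre (chart O x' i) (V' 0), ∃ y₀ ∈ centre (chart O x' i) (V' 1),
        ∃ g, g ∉ P' ∧ x₀ * y₀ = (q : chart O x' i) * g := by
  subst hx'
  have hCZ : CharZero K := algebraRat.charZero K
  have : CharP (IsLocalRing.ResidueField A) q := charP_residue A hq hA
  obtain ⟨tx0, tx1, ty0, ty1, txy⟩ :=
    unit_table_FK ι hq hqN hcop A hA V' hV0 hV1 hYY hY c hc hW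
  have hYi := Fermat.Agent.S36.helper5460.ofPowerSeries_int_inv_mem N hYY hY
  have hyI : IsIntegral (Algebra.adjoin K {jK K N}) (zElt K N Y hY) :=
    Fermat.Agent.S36.helper5460.zElt_isIntegral K N Y hY hI
  have hxI : IsIntegral (Algebra.adjoin K {jK K N})
      ((c : ↥(laurentBaseChange K (modularFunctionFieldFull N)))
        * (q : ↥(laurentBaseChange K (modularFunctionFieldFull N))) * (zElt K N Y hY)⁻¹) := by
    refine IsIntegral.mul (isIntegral_int_mul_nat c q) ?_
    rw [Fermat.Agent.S36.helper5460.zElt_inv K N hYY hY hYi]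
    exact Fermat.Agent.S36.helper5460.zElt_isIntegral K N Yi hYi hIi
  have hqV' : ∀ c, (q : ↥(laurentBaseChange K (modularFunctionFieldFull N)))
      ∈ (V' c).nonunits := by
    intro c
    fin_cases c
    · exact natCast_mem_nonunits_of_gauss A (IsLocalRing.residue A) N (lhK K ι N) (V' 0) hV0 q
    · exact natCast_mem_nonunits_of_gauss A (IsLocalRing.residue A) N
        (((atkinLehnerHall N q hqN hcop : FN N ≃ₐ[Kbar] FN N) : FN N →+* FN N).comp
          (lhK K ι N)) (V' 1) hV1 q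
  have htr := Fermat.Agent.S37.helper530.transcendental_t9F K N h9
  have hfd := Fermat.Agent.S37.helper530.finiteDimensional_t9F K N h9
  have htr' : Transcendental K (Fermat.Agent.S37.helper530.t9F K N h9)⁻¹ :=
    fun h => htr (by simpa using h.inv)
  have hfd' := Fermat.Agent.S36.helper2587.finiteDimensional_adjoin_inv (K0 := K)
    (Fermat.Agent.S37.helper530.t9F K N h9)
  refine Fin.forall_fin_two.mpr ⟨?_, ?_⟩
  · intro P' hP' h0 h1
    obtain ⟨hn0, -⟩ := node_noncusp_chart_t9 ι hq hq3 hqN hcop h9 A hA V' hV0 hV1 O _ rfl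
      hconst' hxV' 0 P' h0 h1
    have htB : Fermat.Agent.S37.helper530.t9F K N h9
        ∈ chartRing O ({Fermat.Agent.S37.helper530.t9F K N h9} : Set _) :=
      Fermat.Agent.S36.helper248.mem_chartRing_of_mem rfl
    obtain ⟨hd1, hd2⟩ := hn0 ⟨_, htB⟩ rfl
    have hDm : Fermat.Agent.S37.helper530.t9F K N h9 * (Fermat.Agent.S37.helper530.t9F K N h9 ^ 2
        + 9 * Fermat.Agent.S37.helper530.t9F K N h9 + 27)
        ∈ chartRing O ({Fermat.Agent.S37.helper530.t9F K N h9} : Set _) :=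
      Subring.mul_mem _ htB (Subring.add_mem _ (Subring.add_mem _ (Subring.pow_mem _ htB 2)
        (Subring.mul_mem _ (ofNat_mem _ 9) htB)) (ofNat_mem _ 27))
    have hd : (⟨_, hDm⟩ : chartRing O ({Fermat.Agent.S37.helper530.t9F K N h9} : Set _)) ∉ P' := by
      intro h
      have h' : (⟨_, htB⟩ : chart O (Fermat.Agent.S37.helper530.t9F K N h9) 0)
          * ((⟨_, htB⟩ : chart O (Fermat.Agent.S37.helper530.t9F K N h9) 0) ^ 2
            + 9 * (⟨_, htB⟩ : chart O (Fermat.Agent.S37.helper530.t9F K N h9) 0) + 27) ∈ P' := h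
      exact (hP'.mem_or_mem h').elim hd1 hd2
    exact th_of_unit O q hq0 hqO (Fermat.Agent.S37.helper530.t9F K N h9) htr V'
      (fun c b hb => Fermat.Agent.S36.helper8039.chart_le O _ (V' c) (hconst' c) (hxV' c) 0 b hb)
      hqV' (fun y hy => hrad' 0 y hy) _ hDm _ _ c hc
      (Fermat.Agent.S36.helper5460.clear_t9F K N h9 hxI)
      (Fermat.Agent.S36.helper5460.clear_t9F K N h9 hyI) tx0 tx1 ty0 ty1 txy P' (hP' := hP') hd
  · intro P' hP' h0 h1
    obtain ⟨-, hn1⟩ := node_noncusp_chart_t9 ι hq hq3 hqN hcop h9 A hA V' hV0 hV1 O _ rfl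
      hconst' hxV' 1 P' h0 h1
    have huB : (Fermat.Agent.S37.helper530.t9F K N h9)⁻¹
        ∈ chartRing O ({(Fermat.Agent.S37.helper530.t9F K N h9)⁻¹} : Set _) :=
      Fermat.Agent.S36.helper248.mem_chartRing_of_mem rfl
    obtain ⟨hd1, hd2⟩ := hn1 ⟨_, huB⟩ rfl
    have hDm : (Fermat.Agent.S37.helper530.t9F K N h9)⁻¹
        * (1 + 9 * (Fermat.Agent.S37.helper530.t9F K N h9)⁻¹
          + 27 * (Fermat.Agent.S37.helper530.t9F K N h9)⁻¹ ^ 2)
        ∈ chartRing O ({(Fermat.Agent.S37.helper530.t9F K N h9)⁻¹} : Set _) :=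
      Subring.mul_mem _ huB (Subring.add_mem _ (Subring.add_mem _ (Subring.one_mem _)
        (Subring.mul_mem _ (ofNat_mem _ 9) huB))
        (Subring.mul_mem _ (ofNat_mem _ 27) (Subring.pow_mem _ huB 2)))
    have hd : (⟨_, hDm⟩ : chartRing O ({(Fermat.Agent.S37.helper530.t9F K N h9)⁻¹} : Set _))
        ∉ P' := by
      intro h
      have h' : (⟨_, huB⟩ : chart O (Fermat.Agent.S37.helper530.t9F K N h9) 1)
          * (1 + 9 * (⟨_, huB⟩ : chart O (Fermat.Agent.S37.helper530.t9F K N h9) 1)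
            + 27 * (⟨_, huB⟩ : chart O (Fermat.Agent.S37.helper530.t9F K N h9) 1) ^ 2) ∈ P' := h
      exact (hP'.mem_or_mem h').elim hd1 hd2
    exact th_of_unit O q hq0 hqO (Fermat.Agent.S37.helper530.t9F K N h9)⁻¹ htr' V'
      (fun c b hb => Fermat.Agent.S36.helper8039.chart_le O _ (V' c) (hconst' c) (hxV' c) 1 b hb)
      hqV' (fun y hy => hrad' 1 y hy) _ hDm _ _ c hc
      (Fermat.Agent.S36.helper5460.clear_t9F_inv K N h9 hxI)
      (Fermat.Agent.S36.helper5460.clear_t9F_inv K N h9 hyI) tx0 tx1 ty0 ty1 txy P' (hP' := hP') hd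

/-! ### The closed instances: theta unit (level `4`) and `b`-unit (level `9`) -/

/-- `4 q ∣ N` and `4 ∣ N / q` for an odd prime `q ∣ N` with `4 ∣ N`. -/
theorem four_dvd_aux (hq : q.Prime) (hq2 : q ≠ 2) (hqN : q ∣ N) (h4 : 4 ∣ N) :
    4 * q ∣ N ∧ 4 ∣ N / q := by
  have hcop : Nat.Coprime 4 q := by
    have h2 : Nat.Coprime 2 q := (Nat.coprime_primes Nat.prime_two hq).mpr (Ne.symm hq2)
    exact Nat.Coprime.pow_left 2 h2
  refine ⟨Nat.Coprime.mul_dvd_of_dvd_of_dvd hcop h4 hqN, ?_⟩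
  have h : 4 ∣ q * (N / q) := by rwa [Nat.mul_div_cancel' hqN]
  exact hcop.dvd_of_dvd_mul_left h

/-- `9 q ∣ N` and `9 ∣ N / q` for a prime `q ≠ 3`, `q ∣ N`, with `9 ∣ N`. -/
theorem nine_dvd_aux (hq : q.Prime) (hq3 : q ≠ 3) (hqN : q ∣ N) (h9 : 9 ∣ N) :
    9 * q ∣ N ∧ 9 ∣ N / q := by
  have hcop : Nat.Coprime 9 q := by
    have h3 : Nat.Coprime 3 q := (Nat.coprime_primes Nat.prime_three hq).mpr (Ne.symm hq3)
    exact Nat.Coprime.pow_left 2 h3
  refine ⟨Nat.Coprime.mul_dvd_of_dvd_of_dvd hcop h9 hqN, ?_⟩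
  have h : 9 ∣ q * (N / q) := by rwa [Nat.mul_div_cancel' hqN]
  exact hcop.dvd_of_dvd_mul_left h

/-- **The Atkin–Lehner law of the theta unit at the literal level `N`** (`q ∥ N`, `4 ∣ N / q`). -/
theorem theta_hall_law (hqN : q ∣ N) (hcop : Nat.Coprime q (N / q)) (hN : 4 * q ∣ N)
    (h4' : 4 ∣ N / q) :
    atkinLehnerHall N q hqN hcop
        (zElt Kbar N (Fermat.Agent.S36.helper105.sZ q)
          (Fermat.Agent.S36.helper105.thetaUnit_mem_full q N hN))
      * zElt Kbar N (Fermat.Agent.S36.helper105.sZ q)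
          (Fermat.Agent.S36.helper105.thetaUnit_mem_full q N hN)
      = algebraMap Kbar (FN N)
          (((Fermat.Agent.S36.helper105.chi4Z q : ℤ) : Kbar) * (q : Kbar)) := by
  have := Fermat.Agent.S35.helper1219.neZero_div_of_dvd hqN
  refine hall_mul_of_bar hqN hcop _ _ ?_
  have e : castFN (Nat.mul_div_cancel' hqN).symm
      (zElt Kbar N (Fermat.Agent.S36.helper105.sZ q)
        (Fermat.Agent.S36.helper105.thetaUnit_mem_full q N hN))
      = Fermat.Agent.S36.helper105.thetaUnit q (q * (N / q))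
          (Fermat.Agent.S36.helper105.four_mul_dvd_of_dvd h4') :=
    Subtype.ext (Fermat.Agent.S35.helper1219.coe_castFN _ _)
  rw [e]
  exact Fermat.Agent.S36.helper105.thetaUnit_atkinLehner q (N / q) hcop h4'

/-- **The Atkin–Lehner law of the level-`9` unit at the literal level `N`** (`q ∥ N`,
`9 ∣ N / q`). -/
theorem nine_hall_law (hqN : q ∣ N) (hcop : Nat.Coprime q (N / q)) (hN : 9 * q ∣ N)
    (h9' : 9 ∣ N / q) :
    atkinLehnerHall N q hqN hcop
        (zElt Kbar N (Fermat.Agent.S36.helper4474.yZ q)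
          (Fermat.Agent.S36.helper4474.nineUnit_mem_full q N hN))
      * zElt Kbar N (Fermat.Agent.S36.helper4474.yZ q)
          (Fermat.Agent.S36.helper4474.nineUnit_mem_full q N hN)
      = algebraMap Kbar (FN N)
          (((Fermat.Agent.S36.helper4474.chi3Z q : ℤ) : Kbar) * (q : Kbar)) := by
  have := Fermat.Agent.S35.helper1219.neZero_div_of_dvd hqN
  refine hall_mul_of_bar hqN hcop _ _ ?_
  have e : castFN (Nat.mul_div_cancel' hqN).symm
      (zElt Kbar N (Fermat.Agent.S36.helper4474.yZ q)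
        (Fermat.Agent.S36.helper4474.nineUnit_mem_full q N hN))
      = Fermat.Agent.S36.helper4474.nineUnit q (q * (N / q))
          (Fermat.Agent.S36.helper4474.nine_mul_dvd_of_dvd h9') :=
    Subtype.ext (Fermat.Agent.S35.helper1219.coe_castFN _ _)
  rw [e]
  exact Fermat.Agent.S36.helper4474.nineUnit_atkinLehner q (N / q) hcop h9'

/-- **`hTH` on the charts of the `t4`-line** (`q` odd, `4 ∣ N`, `q ∥ N`, `x' = t4F K N`): thickness
one at the closed nodes of level `N`, by the theta unit `Θ(z)/Θ(qz)`. -/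
theorem th_chart_t4 (hq : q.Prime) (hq2 : q ≠ 2) (hqN : q ∣ N)
    (hcop : Nat.Coprime q (N / q)) (h4 : 4 ∣ N)
    (A : ValuationSubring Kbar) (hA : A.LiesOverPrime q)
    (V' : Fin 2 → ValuationSubring ↥(laurentBaseChange K (modularFunctionFieldFull N)))
    (hV0 : ∀ f, f ∈ V' 0 ↔ lhK K ι N f ∈ gaussF A (IsLocalRing.residue A) N)
    (hV1 : ∀ f, f ∈ V' 1 ↔ atkinLehnerHall N q hqN hcop (lhK K ι N f)
      ∈ gaussF A (IsLocalRing.residue A) N)
    (O : ValuationSubring K) [IsNoetherianRing O] (hq0 : (q : K) ≠ 0)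
    (hqO : (q : K) ∈ O.nonunits)
    (x' : ↥(laurentBaseChange K (modularFunctionFieldFull N)))
    (hx' : x' = Fermat.Agent.S37.helper530.t4F K N h4)
    (hconst' : ∀ (c : Fin 2) (a : K), a ∈ O →
      algebraMap K ↥(laurentBaseChange K (modularFunctionFieldFull N)) a ∈ V' c)
    (hxV' : ∀ c, x' ∈ V' c ∧ x'⁻¹ ∈ V' c)
    (hrad' : ∀ (i : Fin 2) (y : ↥(laurentBaseChange K (modularFunctionFieldFull N))),
      y ∈ chart O x' i → (∀ c, y ∈ (V' c).nonunits) →
      NilMod (chart O x' i) (q : ↥(laurentBaseChange K (modularFunctionFieldFull N))) y) :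
    ∀ (i : Fin 2) (P' : Ideal (chart O x' i)), P'.IsPrime →
      centre (chart O x' i) (V' 0) ≤ P' → centre (chart O x' i) (V' 1) ≤ P' →
      ∃ x₀ ∈ centre (chart O x' i) (V' 0), ∃ y₀ ∈ centre (chart O x' i) (V' 1),
        ∃ g, g ∉ P' ∧ x₀ * y₀ = (q : chart O x' i) * g := by
  obtain ⟨hN, h4'⟩ := four_dvd_aux hq hq2 hqN h4
  exact th_chart_of_unit_t4 ι hq hq2 hqN hcop h4 A hA V' hV0 hV1 O hq0 hqO x' hx' hconst' hxV'
    hrad' (Fermat.Agent.S36.helper105.sZ_mul_sZinv q)
    (Fermat.Agent.S36.helper105.thetaUnit_mem_full q N hN)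
    (Fermat.Agent.S36.helper105.thetaUnit_isIntegral q)
    (Fermat.Agent.S36.helper105.thetaUnit_inv_isIntegral q)
    (Fermat.Agent.S36.helper105.chi4Z q) (Fermat.Agent.S36.helper105.chi4Z_sq q)
    (theta_hall_law hqN hcop hN h4')

/-- **`hTH` on the charts of the `t9`-line** (`q ≠ 3`, `9 ∣ N`, `q ∥ N`, `x' = t9F K N`):
thickness one at the closed nodes of level `N`, by the unit `b(z)/b(qz)`, `b = η(z)³/η(3z)`. -/
theorem th_chart_t9 (hq : q.Prime) (hq3 : q ≠ 3) (hqN : q ∣ N)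
    (hcop : Nat.Coprime q (N / q)) (h9 : 9 ∣ N)
    (A : ValuationSubring Kbar) (hA : A.LiesOverPrime q)
    (V' : Fin 2 → ValuationSubring ↥(laurentBaseChange K (modularFunctionFieldFull N)))
    (hV0 : ∀ f, f ∈ V' 0 ↔ lhK K ι N f ∈ gaussF A (IsLocalRing.residue A) N)
    (hV1 : ∀ f, f ∈ V' 1 ↔ atkinLehnerHall N q hqN hcop (lhK K ι N f)
      ∈ gaussF A (IsLocalRing.residue A) N)
    (O : ValuationSubring K) [IsNoetherianRing O] (hq0 : (q : K) ≠ 0)
    (hqO : (q : K) ∈ O.nonunits)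
    (x' : ↥(laurentBaseChange K (modularFunctionFieldFull N)))
    (hx' : x' = Fermat.Agent.S37.helper530.t9F K N h9)
    (hconst' : ∀ (c : Fin 2) (a : K), a ∈ O →
      algebraMap K ↥(laurentBaseChange K (modularFunctionFieldFull N)) a ∈ V' c)
    (hxV' : ∀ c, x' ∈ V' c ∧ x'⁻¹ ∈ V' c)
    (hrad' : ∀ (i : Fin 2) (y : ↥(laurentBaseChange K (modularFunctionFieldFull N))),
      y ∈ chart O x' i → (∀ c, y ∈ (V' c).nonunits) →
      NilMod (chart O x' i) (q : ↥(laurentBaseChange K (modularFunctionFieldFull N))) y) :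
    ∀ (i : Fin 2) (P' : Ideal (chart O x' i)), P'.IsPrime →
      centre (chart O x' i) (V' 0) ≤ P' → centre (chart O x' i) (V' 1) ≤ P' →
      ∃ x₀ ∈ centre (chart O x' i) (V' 0), ∃ y₀ ∈ centre (chart O x' i) (V' 1),
        ∃ g, g ∉ P' ∧ x₀ * y₀ = (q : chart O x' i) * g := by
  obtain ⟨hN, h9'⟩ := nine_dvd_aux hq hq3 hqN h9
  exact th_chart_of_unit_t9 ι hq hq3 hqN hcop h9 A hA V' hV0 hV1 O hq0 hqO x' hx' hconst' hxV'
    hrad' (Fermat.Agent.S36.helper4474.yZ_mul_yZinv q)
    (Fermat.Agent.S36.helper4474.nineUnit_mem_full q N hN)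
    (Fermat.Agent.S36.helper4474.nineUnit_isIntegral q)
    (Fermat.Agent.S36.helper4474.nineUnit_inv_isIntegral q)
    (Fermat.Agent.S36.helper4474.chi3Z q) (Fermat.Agent.S36.helper4474.chi3Z_sq q)
    (nine_hall_law hqN hcop hN h9')

end Chart

end Fermat.Agent.S36.helper9080
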