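/-
S36-TH-INST, part (b), on the concrete terms of KILL-INST (helper9080): the hypothesis `hTH` of
`helper8039.lpProp_of_cases` / `lpProp_of_cases_baseDVR` VERBATIM on the terms of
`helper405_KillTerms` (level `M₁`, `q ∥ M₁`): `O = OI A`, `x' = xK' A M₁ q haux`,
`V' = VK' A M₁ q hq hqM hq2 = ![v'_∞, v'_0]`, charts `BK' A M₁ q haux i`.

* `hTH_modular_prime` : at every PRIME `P'` of a chart containing the centres of both vertical
  valuation subrings (the form used by the per-point casework `helper8039.lp_at_of_cases`, where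
  `P'` is the preimage of a closed point under a degeneracy map);
* `hTH_modular` : the hypothesis `hTH` verbatim (maximal ideals).

Certificate: `y₀ = D ^ n · Y`, `x₀ = D ^ m · c q / Y`, `g = c · D ^ (m + n)`, with `Y` the theta
unit `Θ(z)/Θ(qz)` (`q` odd, `c = χ₋₄(q)`) resp. the level-9 unit `b(z)/b(qz)` (`q = 2`,
`c = χ₋₃(q)`), `W_q(Y) · Y = c q`, and `D` the cusp polynomial of the chart (`t (t + 16)`,
`t⁻¹ (1 + 16 t⁻¹)`, `t (t² + 9 t + 27)`, `t⁻¹ (1 + 9 t⁻¹ + 27 t⁻²)`), which is a unit at `P'`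
because a point on both components is not a cusp (`helper9080_NodeNonCuspFK`).

Remaining hypotheses, all arguments of `helper8039.lpProp_of_cases_baseDVR` as well:
`hbase : BaseDVR (OI A) q`, `hxV'` (the base line is a unit at `v'_∞`, `v'_0`) and `hrad'` (the
radical of `q` on the charts of level `M₁`).
-/
import Fermat.Agent.S36.helper9080_ThetaNodeFK
import Fermat.Agent.S36.helper405_KillTerms

set_option autoImplicit false

namespace Fermat.Agent.S36.helper9080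

open ModularCurve
open Fermat.Agent.S36.helper405
open Fermat.Agent.S36.helper1335 (AuxOK)
open Fermat.Agent.S36.helper8039 (centre)
open Fermat.Agent.S36.helper1730 (NilMod)

variable (A : ValuationSubring (AlgebraicClosure ℚ)) (M₁ q : ℕ) [NeZero M₁] [NeZero q]
  (hq : q.Prime) (hqM : q ∣ M₁) (hq2 : ¬ q ^ 2 ∣ M₁) (haux : AuxOK M₁ q)

/-- **(TH) at level `M₁`, at every prime containing both centres.** -/
theorem hTH_modular_prime (hA : A.LiesOverPrime q)
    (hbase : Fermat.Agent.S36.helper36.BaseDVR (OI A) q)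
    (hxV' : ∀ c, xK' A M₁ q haux ∈ VK' A M₁ q hq hqM hq2 c ∧
      (xK' A M₁ q haux)⁻¹ ∈ VK' A M₁ q hq hqM hq2 c)
    (hrad' : ∀ (i : Fin 2) (y : FK A M₁), y ∈ BK' A M₁ q haux i →
      (∀ c, y ∈ (VK' A M₁ q hq hqM hq2 c).nonunits) →
      NilMod (BK' A M₁ q haux i) (q : FK A M₁) y) :
    ∀ (i : Fin 2) (P' : Ideal (BK' A M₁ q haux i)), P'.IsPrime →
      centre (BK' A M₁ q haux i) (VK' A M₁ q hq hqM hq2 0) ≤ P' →
      centre (BK' A M₁ q haux i) (VK' A M₁ q hq hqM hq2 1) ≤ P' →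
      ∃ x₀ ∈ centre (BK' A M₁ q haux i) (VK' A M₁ q hq hqM hq2 0),
        ∃ y₀ ∈ centre (BK' A M₁ q haux i) (VK' A M₁ q hq hqM hq2 1),
          ∃ g, g ∉ P' ∧ x₀ * y₀ = (q : BK' A M₁ q haux i) * g := by
  have := hbase.noeth
  by_cases h2 : q = 2
  · exact th_chart_t9 (algebraMap (KI A) (AlgebraicClosure ℚ)) hq (by omega) hqM
      (coprime_level hq hqM hq2) (haux.2 h2) A hA (VK' A M₁ q hq hqM hq2)
      (fun _ => Iff.rfl) (fun _ => Iff.rfl) (OI A) hbase.q_ne hbase.q_mem (xK' A M₁ q haux)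
      (baseLine_of_eq _ _ _ _ _ h2)
      (fun c a ha => (const_mem_VK'_iff A M₁ q hq hqM hq2 c a).mpr ha) hxV' hrad'
  · exact th_chart_t4 (algebraMap (KI A) (AlgebraicClosure ℚ)) hq h2 hqM
      (coprime_level hq hqM hq2) (haux.1 h2) A hA (VK' A M₁ q hq hqM hq2)
      (fun _ => Iff.rfl) (fun _ => Iff.rfl) (OI A) hbase.q_ne hbase.q_mem (xK' A M₁ q haux)
      (baseLine_of_ne _ _ _ _ _ h2)
      (fun c a ha => (const_mem_VK'_iff A M₁ q hq hqM hq2 c a).mpr ha) hxV' hrad'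

/-- **The hypothesis `hTH` of `helper8039.lpProp_of_cases` on the terms of record, verbatim.** -/
theorem hTH_modular (hA : A.LiesOverPrime q)
    (hbase : Fermat.Agent.S36.helper36.BaseDVR (OI A) q)
    (hxV' : ∀ c, xK' A M₁ q haux ∈ VK' A M₁ q hq hqM hq2 c ∧
      (xK' A M₁ q haux)⁻¹ ∈ VK' A M₁ q hq hqM hq2 c)
    (hrad' : ∀ (i : Fin 2) (y : FK A M₁), y ∈ BK' A M₁ q haux i →
      (∀ c, y ∈ (VK' A M₁ q hq hqM hq2 c).nonunits) →
      NilMod (BK' A M₁ q haux i) (q : FK A M₁) y) :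
    ∀ (i : Fin 2) (P' : Ideal (BK' A M₁ q haux i)), P'.IsMaximal →
      centre (BK' A M₁ q haux i) (VK' A M₁ q hq hqM hq2 0) ≤ P' →
      centre (BK' A M₁ q haux i) (VK' A M₁ q hq hqM hq2 1) ≤ P' →
      ∃ x₀ ∈ centre (BK' A M₁ q haux i) (VK' A M₁ q hq hqM hq2 0),
        ∃ y₀ ∈ centre (BK' A M₁ q haux i) (VK' A M₁ q hq hqM hq2 1),
          ∃ g, g ∉ P' ∧ x₀ * y₀ = (q : BK' A M₁ q haux i) * g :=
  fun i P' hP' h0 h1 =>
    hTH_modular_prime A M₁ q hq hqM hq2 haux hA hbase hxV' hrad' i P' hP'.isPrime h0 h1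

end Fermat.Agent.S36.helper9080
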