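import Fermat.Agent.S36.helper4696_InstLP
import Fermat.Agent.S36.helper412_InstUnif
import Fermat.Agent.S36.helper405_KillInst
import Fermat.Agent.S36.helper8998_DegValAlpha
import Fermat.Agent.S36.helper1891_InstPoint
import Fermat.Agent.S36.helper6136_LPBInst
import Fermat.Agent.S36.helper1280_ChartTransferCases
import Fermat.Agent.S36.helper9080_ThetaNodeInst
import Fermat.Agent.S36.helper5229_InstCusp
import Fermat.Agent.S36.helper4551_InstLoc
import Fermat.Agent.S36.helper1638_InstLocMid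

/-!
# S36, block LP of the modular instance: the field `lp` of `helper405.KillInput`, assembled
(helper4696)

`lp_modular_of` proves the field `lp` of `helper405.KillInput` verbatim from

* the field `rad` of `KillInput` (block RAD), and
* the one input of block LP that is still supplied as a hypothesis: (MID) at the non-cuspidal
  points of chart 0 of level `M₁ q` (`mid0`).

Everything else is discharged here: the 27 other `KillInput` fields used by
`helper4696.lp_of_fields` (blocks UNIF, α-VAL, β-VAL, CHART: `helper412_InstUnif`,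
`helper405_KillInst`, `helper8998_DegValAlpha/Beta`, `helper1891_InstPoint`), (LOC) at `v_∞`,
`v_0` (`helper4551_InstLoc`) and at `v_mid` (`helper1638_InstLocMid`), (TH) at level `M₁`
(`helper9080.hTH_modular`), (B) at level `M₁` (`helper6136.lpbAt_modular`), (MID) at the cusps
(`helper5229_InstCusp`), and the chart-1 transfer of (MID) (`helper1280.mid_all_of_chart0`).
-/

set_option autoImplicit false

namespace Fermat.Agent.S36.helper4696

open Fermat.Agent.S36.helper1013 (IsUnifOf UnitOf)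
open Fermat.Agent.S36.helper36 (chart LPProp BaseDVR)
open Fermat.Agent.S36.helper1335 (AuxOK)
open Fermat.Agent.S36.helper405
open Fermat.Agent.S36.helper8039 (centre)
open Fermat.Agent.S36.helper1280 (InP)

variable (A : ValuationSubring (AlgebraicClosure ℚ)) (M₁ q : ℕ) [NeZero M₁] [NeZero q]
  (hq : q.Prime) (hqM : q ∣ M₁) (hq2 : ¬ q ^ 2 ∣ M₁) (haux : AuxOK M₁ q)

/-- `rad` at level `M₁` from the field `rad` and the fields of `α` (`helper5686` (R')). -/
theorem rad'_of_fields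
    (rad : ∀ (i : Fin 2) (y : FK A (M₁ * q)), y ∈ BK A M₁ q haux i →
      (∀ c, y ∈ (VK A M₁ q hq hqM hq2 c).nonunits) →
      Fermat.Agent.S36.helper1730.NilMod (BK A M₁ q haux i) (q : FK A (M₁ * q)) y)
    (α_norm_map : Deg.NormMap q (αK A M₁ q) (NαK A M₁ q))
    (α_mem_inf : Deg.MemOver (αK A M₁ q) (Vinf A M₁ q) (Vinf' A M₁))
    (α_mem_mid : Deg.MemOver (αK A M₁ q) (Vmid A M₁ q hq hqM hq2) (Vinf' A M₁))
    (α_mem_zero : Deg.MemOver (αK A M₁ q) (Vzero A M₁ q hq hqM hq2)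
      (Vzero' A M₁ q hq hqM hq2))
    (α_map_chart : Deg.MapChart (αK A M₁ q) (BK A M₁ q haux) (BK' A M₁ q haux))
    (α_norm_chart : Deg.NormChart (NαK A M₁ q) (BK A M₁ q haux) (BK' A M₁ q haux)) :
    ∀ (i : Fin 2) (y : FK A M₁), y ∈ BK' A M₁ q haux i →
      (∀ c, y ∈ (VK' A M₁ q hq hqM hq2 c).nonunits) →
      Fermat.Agent.S36.helper1730.NilMod (BK' A M₁ q haux i) (q : FK A M₁) y := by
  intro i
  refine Fermat.Agent.S36.helper5686.nilMod_of_nilMod_map
    (αK A M₁ q : FK A M₁ →+* FK A (M₁ * q)) (NαK A M₁ q) q hq.pos α_norm_map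
    (BK A M₁ q haux i) (BK' A M₁ q haux i) (α_map_chart i) (α_norm_chart i)
    (VK A M₁ q hq hqM hq2) (VK' A M₁ q hq hqM hq2) ![0, 0, 1] ?_ (rad i)
  intro c a
  fin_cases c
  · exact α_mem_inf a
  · exact α_mem_mid a
  · exact α_mem_zero a

/-- **Block LP: the field `lp` of `helper405.KillInput`** from the field `rad` and (MID) at the
non-cuspidal points of chart 0. -/
theorem lp_modular_of (hA : A.LiesOverPrime q)
    /- the field `rad` of `KillInput` -/
    (rad : ∀ (i : Fin 2) (y : FK A (M₁ * q)), y ∈ BK A M₁ q haux i →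
      (∀ c, y ∈ (VK A M₁ q hq hqM hq2 c).nonunits) →
      Fermat.Agent.S36.helper1730.NilMod (BK A M₁ q haux i) (q : FK A (M₁ * q)) y)
    /- (MID) at the non-cuspidal points of chart 0 of level `M₁ q` -/
    (mid0 : ∀ P : Ideal (BK A M₁ q haux 0), P.IsMaximal →
      centre (BK A M₁ q haux 0) (VK A M₁ q hq hqM hq2 1) ≤ P →
      ¬ centre (BK A M₁ q haux 0) (VK A M₁ q hq hqM hq2 0) ≤ P →
      ¬ centre (BK A M₁ q haux 0) (VK A M₁ q hq hqM hq2 2) ≤ P →
      (q ≠ 2 → ¬ InP (BK A M₁ q haux 0) P (xK A M₁ q haux * (xK A M₁ q haux + 16))) →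
      (q = 2 → ¬ InP (BK A M₁ q haux 0) P
        (xK A M₁ q haux * (xK A M₁ q haux ^ 2 + 9 * xK A M₁ q haux + 27))) →
      ∃ T ∈ centre (BK A M₁ q haux 0) (VK A M₁ q hq hqM hq2 1), T ≠ 0 ∧
        (∃ m : ℕ, m ≠ 0 ∧ ∃ s, s ∉ P ∧ T ^ m ∣ s * (q : BK A M₁ q haux 0)) ∧
        ∀ a ∈ centre (BK A M₁ q haux 0) (VK A M₁ q hq hqM hq2 1),
          ∃ s, s ∉ centre (BK A M₁ q haux 0) (VK A M₁ q hq hqM hq2 1) ∧ T ∣ s * a) :
    LPProp (OI A) (xK A M₁ q haux) (VK A M₁ q hq hqM hq2) := by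
  -- the fields of the other blocks
  have u_inf := Fermat.Agent.S36.helper412.unif_inf_modular A M₁ q hq hqM hq2 hA
  have u_mid := Fermat.Agent.S36.helper412.unif_mid_modular A M₁ q hq hqM hq2 hA
  have u_zero := Fermat.Agent.S36.helper412.unif_zero_modular A M₁ q hq hqM hq2 hA
  have u_inf' := Fermat.Agent.S36.helper412.unif_inf'_modular A M₁ q hq hqM hq2 hA
  have u_zero' := Fermat.Agent.S36.helper412.unif_zero'_modular A M₁ q hq hqM hq2 hA
  have n_im := Fermat.Agent.S36.helper412.ne_inf_mid_modular A M₁ q hq hqM hq2 hA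
  have n_iz := Fermat.Agent.S36.helper412.ne_inf_zero_modular A M₁ q hq hqM hq2 hA
  have n_mz := Fermat.Agent.S36.helper412.ne_mid_zero_modular A M₁ q hq hqM hq2 hA
  have xV := Fermat.Agent.S36.helper412.x_V_modular A M₁ q hq hqM hq2 haux
  have ai := α_mem_inf A M₁ q
  have am := α_mem_mid A M₁ q hq hqM hq2
  have az := α_mem_zero A M₁ q hq hqM hq2
  have bz := β_mem_zero A M₁ q hq hqM hq2
  have bm := β_mem_mid A M₁ q hq hqM hq2
  have bi := β_mem_inf A M₁ q
  obtain ⟨a1, a2, a3, -, -, a6, a7⟩ :=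
    Fermat.Agent.S36.helper8998.degVal_α_modular A M₁ q hq hqM hq2 hA u_inf u_mid u_zero u_inf'
      u_zero' n_im ai am az
  obtain ⟨b1, b2, -, -, -, -, b7⟩ :=
    Fermat.Agent.S36.helper8998.degVal_β_modular A M₁ q hq hqM hq2 hA u_zero u_mid u_inf u_zero'
      u_inf' n_mz bz bm bi
  have amc := Fermat.Agent.S36.helper1891.α_map_chart_modular A M₁ q haux
  have anc := Fermat.Agent.S36.helper1891.α_norm_chart_modular A M₁ q haux
  have bmc := Fermat.Agent.S36.helper1891.β_map_chart_modular A M₁ q haux hq hA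
  have bnc := Fermat.Agent.S36.helper1891.β_norm_chart_modular A M₁ q haux hq hA
  have hbase : BaseDVR (OI A) q := baseDVR_OI A hq hA
  have x_V' := x_V'_of_fields A M₁ q hq hqM hq2 haux xV ai az
  have hq0 : (q : FK A (M₁ * q)) ≠ 0 := natCast_ne_zero_FK A (M₁ * q) hq.ne_zero
  have hqV1 : (q : FK A (M₁ * q)) ∈ (VK A M₁ q hq hqM hq2 1).nonunits := by
    obtain ⟨T, hT, hu⟩ := u_mid
    exact mem_nonunits_of_pow_div_unit (mem_nonunits_of_isUnifOf hT)
      (Nat.sub_ne_zero_of_lt hq.one_lt) hq0 hu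
  -- (LOC)
  have loc_inf := Fermat.Agent.S36.helper4551.loc_inf A M₁ q hq hqM hq2 haux hA
  have loc_zero := Fermat.Agent.S36.helper4551.loc_zero A M₁ q hq hqM hq2 haux hA
  have loc_mid := Fermat.Agent.S36.helper1638.loc_mid A M₁ q hq hqM hq2 haux hA am
  -- (TH) at level `M₁`
  have rad' := rad'_of_fields A M₁ q hq hqM hq2 haux rad a1 ai am az amc anc
  have th := Fermat.Agent.S36.helper9080.hTH_modular A M₁ q hq hqM hq2 haux hA hbase x_V' rad'
  -- (MID): non-cuspidal points of chart 0, cusps of chart 0, cusps over `x = ∞` of chart 1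
  -- (chart-1 transfer: `helper1280.mid_all_of_chart0`)
  have hx0 : xK A M₁ q haux ≠ 0 := fun h =>
    (baseLine_transcendental (KI A) (M₁ * q) q (fun h => Dvd.dvd.mul_right (haux.1 h) q)
      (fun h => Dvd.dvd.mul_right (haux.2 h) q)) (by
        have h' : baseLine (KI A) (M₁ * q) q (fun h => Dvd.dvd.mul_right (haux.1 h) q)
            (fun h => Dvd.dvd.mul_right (haux.2 h) q) = 0 := h
        rw [h']
        exact isAlgebraic_zero)
  have hm0 : ∀ P : Ideal (BK A M₁ q haux 0), P.IsMaximal →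
      centre (BK A M₁ q haux 0) (VK A M₁ q hq hqM hq2 1) ≤ P →
      ¬ centre (BK A M₁ q haux 0) (VK A M₁ q hq hqM hq2 0) ≤ P →
      ¬ centre (BK A M₁ q haux 0) (VK A M₁ q hq hqM hq2 2) ≤ P →
      ∃ T ∈ centre (BK A M₁ q haux 0) (VK A M₁ q hq hqM hq2 1), T ≠ 0 ∧
        (∃ m : ℕ, m ≠ 0 ∧ ∃ s, s ∉ P ∧ T ^ m ∣ s * (q : BK A M₁ q haux 0)) ∧
        ∀ a ∈ centre (BK A M₁ q haux 0) (VK A M₁ q hq hqM hq2 1),
          ∃ s, s ∉ centre (BK A M₁ q haux 0) (VK A M₁ q hq hqM hq2 1) ∧ T ∣ s * a := by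
    intro P hP h1 h0 h2
    have := hP.isPrime
    by_cases hne : q = 2
    · by_cases hin : InP (BK A M₁ q haux 0) P
          (xK A M₁ q haux * (xK A M₁ q haux ^ 2 + 9 * xK A M₁ q haux + 27))
      · exact Fermat.Agent.S36.helper5229.hMID_chart_zero_of_eq_two A M₁ q hq hqM hq2 haux hA
          hne (xV 1) u_mid (loc_mid 0) P hin h1
      · exact mid0 P hP h1 h0 h2 (fun h => absurd hne h) (fun _ => hin)
    · by_cases hin : InP (BK A M₁ q haux 0) P (xK A M₁ q haux * (xK A M₁ q haux + 16))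
      · exact Fermat.Agent.S36.helper5229.hMID_chart_zero_of_ne_two A M₁ q hq hqM hq2 haux hA
          hne (xV 1) u_mid (loc_mid 0) P hin h1
      · exact mid0 P hP h1 h0 h2 (fun _ => hin) (fun h => absurd h hne)
  have hm1 : ∀ P : Ideal (BK A M₁ q haux 1), P.IsMaximal →
      centre (BK A M₁ q haux 1) (VK A M₁ q hq hqM hq2 1) ≤ P →
      ¬ centre (BK A M₁ q haux 1) (VK A M₁ q hq hqM hq2 0) ≤ P →
      ¬ centre (BK A M₁ q haux 1) (VK A M₁ q hq hqM hq2 2) ≤ P →
      InP (BK A M₁ q haux 1) P (xK A M₁ q haux)⁻¹ →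
      ∃ T ∈ centre (BK A M₁ q haux 1) (VK A M₁ q hq hqM hq2 1), T ≠ 0 ∧
        (∃ m : ℕ, m ≠ 0 ∧ ∃ s, s ∉ P ∧ T ^ m ∣ s * (q : BK A M₁ q haux 1)) ∧
        ∀ a ∈ centre (BK A M₁ q haux 1) (VK A M₁ q hq hqM hq2 1),
          ∃ s, s ∉ centre (BK A M₁ q haux 1) (VK A M₁ q hq hqM hq2 1) ∧ T ∣ s * a := by
    intro P hP h1 _ _ hin
    have := hP.isPrime
    exact Fermat.Agent.S36.helper5229.hMID_chart_one_of_inv_mem A M₁ q hq hqM hq2 haux hA
      (xV 1) u_mid (loc_mid 1) P hin h1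
  have mid : ∀ (i : Fin 2) (P : Ideal (chart (OI A) (xK A M₁ q haux) i)), P.IsMaximal →
      centre (chart (OI A) (xK A M₁ q haux) i) (VK A M₁ q hq hqM hq2 1) ≤ P →
      ¬ centre (chart (OI A) (xK A M₁ q haux) i) (VK A M₁ q hq hqM hq2 0) ≤ P →
      ¬ centre (chart (OI A) (xK A M₁ q haux) i) (VK A M₁ q hq hqM hq2 2) ≤ P →
      ∃ T ∈ centre (chart (OI A) (xK A M₁ q haux) i) (VK A M₁ q hq hqM hq2 1), T ≠ 0 ∧
        (∃ m : ℕ, m ≠ 0 ∧ ∃ s, s ∉ P ∧ T ^ m ∣ s * (q : chart (OI A) (xK A M₁ q haux) i)) ∧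
        ∀ a ∈ centre (chart (OI A) (xK A M₁ q haux) i) (VK A M₁ q hq hqM hq2 1),
          ∃ s, s ∉ centre (chart (OI A) (xK A M₁ q haux) i) (VK A M₁ q hq hqM hq2 1) ∧
            T ∣ s * a :=
    Fermat.Agent.S36.helper1280.mid_all_of_chart0 (OI A) q hbase.q_ne hbase.unif
      (xK A M₁ q haux) hx0 (VK A M₁ q hq hqM hq2 1)
      (VK A M₁ q hq hqM hq2 0) (VK A M₁ q hq hqM hq2 2)
      (fun a ha => (const_mem_VK_iff A M₁ q hq hqM hq2 1 a).mpr ha)
      (xV 1) (xV 0) (xV 2) hqV1 hm0 hm1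
  exact lp_of_fields A M₁ q hq hqM hq2 haux hA u_inf u_mid u_zero u_inf' u_zero' n_im n_iz n_mz
    xV rad a1 ai am az a2 a3 a6 a7 amc anc b1 bz bm bi b2 b7 bmc bnc loc_inf loc_zero th mid
    (Fermat.Agent.S36.helper6136.lpbAt_modular A M₁ q hq hqM hq2 haux hA)

end Fermat.Agent.S36.helper4696
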