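import Fermat.Agent.S36.helper6136_LPGeom
import Fermat.Prelude.Def_AlgebraicCurve_DivisorClassGroup

/-!
# S36-LP-FIELD (helper4696): from `LocFactorial` to the `lp` field of the geometric datum

The seam between the (LP) assembly (`helper6136_LPGeom`: `LocFactorial P` and its consumer
`exists_pow_mul_of_locFactorial`) and the form of (LP) that the abstract (KILL) assembly
consumes: a function `u` which is a unit at the (finitely many) vertical valuation subrings
`V c` and an `n`-th power times a unit at every place of `F / K` is an `n`-th power times a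
unit of `B_P`.

`B` is a noetherian integrally closed domain with fraction field `F` (a chart ring).

* `InLocAt Q x`            : `x ∈ B_Q`, elementwise in `F`.
* `inLocAt_or_inv`         : `B_Q` is a valuation ring of `F` for a height-one prime `Q`.
* `valuationSubringAt Q hQ`: `B_Q` as a `ValuationSubring F`; it is not `⊤` and it is a
  principal ideal ring (`valuationSubringAt_ne_top`, `isPrincipalIdealRing_valuationSubringAt`).
* `placeAt`                : the Prelude `Place K F` of a horizontal height-one prime.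
* `exists_through`         : a prime containing `q` contains the centre of some `V c`
  (prime avoidance on `rad (q) = ⋂ centres`).
* `exists_unit_at_of_through` : a height-one prime containing the centre of `V` IS that centre
  and units of `V` are units of `B_Q`.
* `horDiv_of_forall_place` : `n ∣ v.ord u` at every Prelude place ⟹ the valuation-subring
  form of horizontal divisibility.
* `exists_pow_mul_at_height_one` : the hypothesis `hloc` of the (LP) consumers of
  `helper6136_LPGeom` at every height-one prime, from units at the `V c` + horizontal divisibility.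
* `exists_pow_mul_of_locFactorial_of_horDiv`, `lpChart_of_hasGoodComponent_of_horDiv` : the seam,
  for a ring `B` with `Algebra B F`.
* `lp_field`, `lp_field_seed` : the same for a `Subring F`, in the unfolded vocabulary
  (`LocAt`, `InP`, `HorDiv`, resp. the seed shape + `NilMod`) of the geometric datum.
-/

set_option autoImplicit false
set_option linter.unusedSectionVars false

namespace Fermat.Agent.S36.helper4696

open AlgebraicCurve

section AtPrime

variable {B : Type*} [CommRing B] [IsDomain B]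
variable {F : Type*} [Field F] [Algebra B F] [IsFractionRing B F]

/-- `x ∈ B_Q`, elementwise in the fraction field `F` of `B`. -/
def InLocAt (Q : Ideal B) (x : F) : Prop :=
  ∃ a s : B, s ∉ Q ∧ x * algebraMap B F s = algebraMap B F a

theorem algebraMap_ne_zero_of_notMem (Q : Ideal B) {s : B} (hs : s ∉ Q) :
    algebraMap B F s ≠ 0 := fun h =>
  hs ((IsFractionRing.injective B F (by rw [h, map_zero]) : s = 0) ▸ Q.zero_mem)

theorem inLocAt_algebraMap (Q : Ideal B) [Q.IsPrime] (a : B) : InLocAt Q (algebraMap B F a) :=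
  ⟨a, 1, fun h => ‹Q.IsPrime›.ne_top ((Ideal.eq_top_iff_one Q).mpr h), by simp⟩

theorem InLocAt.mul {Q : Ideal B} [Q.IsPrime] {x y : F} (hx : InLocAt Q x) (hy : InLocAt Q y) :
    InLocAt Q (x * y) := by
  obtain ⟨a, s, hs, hx⟩ := hx
  obtain ⟨b, t, ht, hy⟩ := hy
  refine ⟨a * b, s * t, fun h => ?_, ?_⟩
  · rcases Ideal.IsPrime.mem_or_mem ‹Q.IsPrime› h with h | h
    · exact hs h
    · exact ht h
  · rw [map_mul, map_mul, ← hx, ← hy]; ring

theorem InLocAt.add {Q : Ideal B} [Q.IsPrime] {x y : F} (hx : InLocAt Q x) (hy : InLocAt Q y) :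
    InLocAt Q (x + y) := by
  obtain ⟨a, s, hs, hx⟩ := hx
  obtain ⟨b, t, ht, hy⟩ := hy
  refine ⟨a * t + b * s, s * t, fun h => ?_, ?_⟩
  · rcases Ideal.IsPrime.mem_or_mem ‹Q.IsPrime› h with h | h
    · exact hs h
    · exact ht h
  · rw [map_add, map_mul, map_mul, map_mul, ← hx, ← hy]; ring

theorem InLocAt.neg {Q : Ideal B} {x : F} (hx : InLocAt Q x) : InLocAt Q (-x) := by
  obtain ⟨a, s, hs, hx⟩ := hx
  exact ⟨-a, s, hs, by rw [map_neg, ← hx]; ring⟩

/-- An element of `B_Q` whose inverse is in `B_Q` has numerator outside `Q`. -/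
theorem exists_unit_of_inLocAt_inv {Q : Ideal B} [Q.IsPrime] {x : F} (hx0 : x ≠ 0)
    (hx : InLocAt Q x) (hx' : InLocAt Q x⁻¹) :
    ∃ a s : B, a ∉ Q ∧ s ∉ Q ∧ x * algebraMap B F s = algebraMap B F a := by
  obtain ⟨a, s, hs, hx⟩ := hx
  obtain ⟨b, t, ht, hy⟩ := hx'
  refine ⟨a, s, fun ha => ?_, hs, hx⟩
  have h1 : a * b = s * t := by
    apply IsFractionRing.injective B F
    rw [map_mul, map_mul, ← hx, ← hy]
    field_simp
  have h2 : s * t ∈ Q := h1 ▸ Q.mul_mem_right b ha
  rcases Ideal.IsPrime.mem_or_mem ‹Q.IsPrime› h2 with h | h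
  · exact hs h
  · exact ht h

variable [IsNoetherianRing B] [IsIntegrallyClosed B]

/-- The localisation of a noetherian integrally closed domain at a height-one prime is a
principal ideal ring and a valuation ring. -/
theorem localization_atPrime_of_height_one (Q : Ideal B) [Q.IsPrime] (hQ : Q.height = 1) :
    IsPrincipalIdealRing (Localization.AtPrime Q) ∧ ValuationRing (Localization.AtPrime Q) := by
  classical
  let R := Localization.AtPrime Q
  let f : B →+* R := algebraMap B R
  have hle : Q.primeCompl ≤ nonZeroDivisors B := Q.primeCompl_le_nonZeroDivisors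
  have : IsDomain R := IsLocalization.isDomain_of_le_nonZeroDivisors R hle
  have : IsNoetherianRing R := IsLocalization.isNoetherianRing Q.primeCompl R inferInstance
  have : IsIntegrallyClosed R := isIntegrallyClosed_of_isLocalization R Q.primeCompl hle
  have h4 : IsIntegrallyClosed R ∧
      ∀ 𝔔 : Ideal R, 𝔔 ≠ ⊥ → 𝔔.IsPrime → 𝔔 = IsLocalRing.maximalIdeal R := by
    refine ⟨inferInstance, fun 𝔔 h0 hp => ?_⟩
    have hmap : (𝔔.comap f).map f = 𝔔 := IsLocalization.map_under Q.primeCompl R 𝔔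
    have hpr : (𝔔.comap f).IsPrime := Ideal.comap_isPrime f 𝔔
    have hle' : 𝔔.comap f ≤ Q := by
      intro x hx
      by_contra hxQ
      have hu : IsUnit (f x) := IsLocalization.map_units R (⟨x, hxQ⟩ : Q.primeCompl)
      exact hp.ne_top (Ideal.eq_top_of_isUnit_mem _ hx hu)
    have hne : 𝔔.comap f ≠ ⊥ := by
      intro hbot
      apply h0
      rw [← hmap, hbot, Ideal.map_bot]
    have heq : 𝔔.comap f = Q := by
      by_contra hneq
      have hlt : 𝔔.comap f < Q := lt_of_le_of_ne hle' hneq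
      have h1 := Ideal.height_strict_mono_of_isPrime_of_isPrime hlt
      rw [hQ, Order.lt_one_iff, Ideal.height_eq_zero_iff_eq_bot] at h1
      exact hne h1
    rw [← hmap, heq]
    exact (IsLocalization.AtPrime.map_eq_maximalIdeal Q R)
  exact ⟨((tfae_of_isNoetherianRing_of_isLocalRing_of_isDomain R).out 3 0).mp h4,
    ((tfae_of_isNoetherianRing_of_isLocalRing_of_isDomain R).out 3 1).mp h4⟩

/-- **`B_Q` is a valuation ring of `F`** for a height-one prime `Q`. -/
theorem inLocAt_or_inv (Q : Ideal B) [Q.IsPrime] (hQ : Q.height = 1) (x : F) :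
    InLocAt Q x ∨ InLocAt Q x⁻¹ := by
  classical
  let R := Localization.AtPrime Q
  let f : B →+* R := algebraMap B R
  have hfinj : Function.Injective f :=
    IsLocalization.injective R Q.primeCompl_le_nonZeroDivisors
  have hV : ValuationRing R := (localization_atPrime_of_height_one Q hQ).2
  have hιinj : Function.Injective (algebraMap B F) := IsFractionRing.injective B F
  obtain ⟨c, d, hd, rfl⟩ := IsFractionRing.div_surjective (A := B) x
  have hd0 : d ≠ 0 := nonZeroDivisors.ne_zero hd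
  have hιd : algebraMap B F d ≠ 0 := fun h0 => hd0 (hιinj (by rw [h0, map_zero]))
  rcases eq_or_ne c 0 with rfl | hc0
  · left
    exact ⟨0, 1, fun h => ‹Q.IsPrime›.ne_top ((Ideal.eq_top_iff_one Q).mpr h), by simp⟩
  have hιc : algebraMap B F c ≠ 0 := fun h0 => hc0 (hιinj (by rw [h0, map_zero]))
  obtain ⟨r, hr⟩ := ValuationRing.cond (f c) (f d)
  obtain ⟨a, s, rfl⟩ := IsLocalization.exists_mk'_eq Q.primeCompl r
  have hspec : IsLocalization.mk' R a s * f s = f a := IsLocalization.mk'_spec R a s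
  rcases hr with hr | hr
  · -- `c * a = d * s`
    right
    have hB : c * a = d * s := by
      apply hfinj
      rw [map_mul, map_mul, ← hspec, ← hr]; ring
    refine ⟨a, s, s.2, ?_⟩
    have hF := congrArg (algebraMap B F) hB
    simp only [map_mul] at hF
    rw [inv_div]
    field_simp
    linear_combination -hF
  · left
    have hB : d * a = c * s := by
      apply hfinj
      rw [map_mul, map_mul, ← hspec, ← hr]; ring
    refine ⟨a, s, s.2, ?_⟩
    have hF := congrArg (algebraMap B F) hB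
    simp only [map_mul] at hF
    field_simp
    linear_combination -hF

/-- `B_Q` as a valuation subring of `F`, for a height-one prime `Q` of the noetherian integrally
closed domain `B`. -/
def valuationSubringAt (Q : Ideal B) [Q.IsPrime] (hQ : Q.height = 1) : ValuationSubring F where
  carrier := {x | InLocAt Q x}
  mul_mem' := fun hx hy => InLocAt.mul hx hy
  one_mem' := by
    have := inLocAt_algebraMap (F := F) Q (1 : B)
    rwa [map_one] at this
  add_mem' := fun hx hy => InLocAt.add hx hy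
  zero_mem' := by
    have := inLocAt_algebraMap (F := F) Q (0 : B)
    rwa [map_zero] at this
  neg_mem' := fun hx => InLocAt.neg hx
  mem_or_inv_mem' := fun x => inLocAt_or_inv Q hQ x

theorem mem_valuationSubringAt (Q : Ideal B) [Q.IsPrime] (hQ : Q.height = 1) (x : F) :
    x ∈ valuationSubringAt (F := F) Q hQ ↔ InLocAt Q x := Iff.rfl

theorem valuationSubringAt_ne_top (Q : Ideal B) [Q.IsPrime] (hQ : Q.height = 1) :
    valuationSubringAt (F := F) Q hQ ≠ ⊤ := by
  intro htop
  have hQbot : Q ≠ ⊥ := by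
    intro h
    rw [h, Ideal.height_bot] at hQ
    exact zero_ne_one hQ
  obtain ⟨π, hπQ, hπ0⟩ := Submodule.exists_mem_ne_zero_of_ne_bot hQbot
  have hπF : algebraMap B F π ≠ 0 := fun h0 =>
    hπ0 (IsFractionRing.injective B F (by rw [h0, map_zero]))
  have hmem : (algebraMap B F π)⁻¹ ∈ valuationSubringAt (F := F) Q hQ := by
    rw [htop]; exact ValuationSubring.mem_top _
  obtain ⟨a, s, hs, h⟩ := hmem
  apply hs
  have : s = a * π := by
    apply IsFractionRing.injective B F
    rw [map_mul, ← h]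
    field_simp
  rw [this]
  exact Q.mul_mem_left a hπQ

theorem isPrincipalIdealRing_valuationSubringAt (Q : Ideal B) [Q.IsPrime] (hQ : Q.height = 1) :
    IsPrincipalIdealRing (valuationSubringAt (F := F) Q hQ) := by
  classical
  let R := Localization.AtPrime Q
  have hPIR : IsPrincipalIdealRing R := (localization_atPrime_of_height_one Q hQ).1
  have hunit : ∀ y : Q.primeCompl, IsUnit (algebraMap B F (y : B)) := fun y =>
    (algebraMap_ne_zero_of_notMem Q y.2).isUnit
  let φ : R →+* F := IsLocalization.lift (M := Q.primeCompl) (g := algebraMap B F) hunit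
  have hφ : ∀ (a : B) (s : Q.primeCompl),
      φ (IsLocalization.mk' R a s) * algebraMap B F (s : B) = algebraMap B F a := by
    intro a s
    have h1 : φ (IsLocalization.mk' R a s) * φ (algebraMap B R (s : B)) = φ (algebraMap B R a) := by
      rw [← map_mul, IsLocalization.mk'_spec]
    rwa [IsLocalization.lift_eq, IsLocalization.lift_eq] at h1
  have hmem : ∀ r : R, φ r ∈ valuationSubringAt (F := F) Q hQ := by
    intro r
    obtain ⟨a, s, rfl⟩ := IsLocalization.exists_mk'_eq Q.primeCompl r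
    exact ⟨a, s, s.2, hφ a s⟩
  let ψ : R →+* valuationSubringAt (F := F) Q hQ := φ.codRestrict _ hmem
  have hsurj : Function.Surjective ψ := by
    rintro ⟨x, a, s, hs, hx⟩
    refine ⟨IsLocalization.mk' R a (⟨s, hs⟩ : Q.primeCompl), Subtype.ext ?_⟩
    show φ (IsLocalization.mk' R a (⟨s, hs⟩ : Q.primeCompl)) = x
    have h2 := hφ a (⟨s, hs⟩ : Q.primeCompl)
    have hsF : algebraMap B F s ≠ 0 := algebraMap_ne_zero_of_notMem Q hs
    exact mul_right_cancel₀ hsF (h2.trans hx.symm)
  exact IsPrincipalIdealRing.of_surjective ψ hsurj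

end AtPrime

section Horizontal

variable {B : Type*} [CommRing B] [IsDomain B] [IsNoetherianRing B] [IsIntegrallyClosed B]
variable {F : Type*} [Field F] [Algebra B F] [IsFractionRing B F]
variable {K : Type*} [Field K] [Algebra K F]

/-- A height-one prime not containing `q` is horizontal: if `K ⊆ B[1/q]` then `K ⊆ B_Q`. -/
theorem algebraMap_mem_valuationSubringAt (Q : Ideal B) [Q.IsPrime] (hQ : Q.height = 1)
    {q : B} (hqQ : q ∉ Q)
    (hK : ∀ a : K, ∃ (k : ℕ) (b : B),
      algebraMap B F q ^ k * algebraMap K F a = algebraMap B F b) (a : K) :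
    algebraMap K F a ∈ valuationSubringAt (F := F) Q hQ := by
  obtain ⟨k, b, hb⟩ := hK a
  refine ⟨b, q ^ k, fun h => hqQ (Ideal.IsPrime.mem_of_pow_mem ‹Q.IsPrime› k h), ?_⟩
  rw [map_pow, ← hb]; ring

/-- The Prelude place of `F / K` attached to a horizontal height-one prime of `B`. -/
def placeAt (Q : Ideal B) [Q.IsPrime] (hQ : Q.height = 1) {q : B} (hqQ : q ∉ Q)
    (hK : ∀ a : K, ∃ (k : ℕ) (b : B),
      algebraMap B F q ^ k * algebraMap K F a = algebraMap B F b) : Place K F where
  toValuationSubring := valuationSubringAt Q hQ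
  algebraMap_mem' := algebraMap_mem_valuationSubringAt Q hQ hqQ hK
  ne_top' := valuationSubringAt_ne_top Q hQ
  isPrincipalIdealRing' := isPrincipalIdealRing_valuationSubringAt Q hQ

theorem placeAt_toValuationSubring (Q : Ideal B) [Q.IsPrime] (hQ : Q.height = 1) {q : B}
    (hqQ : q ∉ Q)
    (hK : ∀ a : K, ∃ (k : ℕ) (b : B),
      algebraMap B F q ^ k * algebraMap K F a = algebraMap B F b) :
    (placeAt (K := K) Q hQ hqQ hK).toValuationSubring = valuationSubringAt (F := F) Q hQ := rfl

end Horizontal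

section Vertical

variable {B : Type*} [CommRing B] [IsDomain B]
variable {F : Type*} [Field F] [Algebra B F] [IsFractionRing B F]

/-- **Prime avoidance on `rad (q)`.**  If the radical of `q B` is the intersection of the
centres of the finitely many valuation subrings `V c ⊇ B`, then every prime `Q` of `B`
containing `q` contains the centre of some `V c`. -/
theorem exists_through {ι : Type*} [Finite ι] (V : ι → ValuationSubring F)
    (hBV : ∀ c, ∀ b : B, algebraMap B F b ∈ V c) (q : B)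
    (hrad : ∀ y : B, (∀ c, algebraMap B F y ∈ (V c).nonunits) →
      ∃ (e : ℕ) (r : B), y ^ e = q * r)
    (Q : Ideal B) [hQ : Q.IsPrime] (hqQ : q ∈ Q) :
    ∃ c, ∀ b : B, algebraMap B F b ∈ (V c).nonunits → b ∈ Q := by
  classical
  cases nonempty_fintype ι
  by_contra hcon
  push Not at hcon
  choose b hb hbQ using hcon
  have hy : ∀ c, algebraMap B F (∏ c', b c') ∈ (V c).nonunits := by
    intro c
    rw [← Finset.mul_prod_erase Finset.univ b (Finset.mem_univ c), map_mul]
    have h1 : (V c).valuation (algebraMap B F (b c)) < 1 := hb c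
    have h2 : (V c).valuation (algebraMap B F (∏ x ∈ Finset.univ.erase c, b x)) ≤ 1 :=
      ((V c).valuation_le_one_iff _).mpr (hBV c _)
    show (V c).valuation _ < 1
    rw [map_mul]
    exact lt_of_le_of_lt (mul_le_of_le_one_right' h2) h1
  obtain ⟨e, r, her⟩ := hrad _ hy
  have hmem : (∏ c', b c') ^ e ∈ Q := her ▸ Q.mul_mem_right r hqQ
  have hprod : ∏ c', b c' ∈ Q := hQ.mem_of_pow_mem e hmem
  obtain ⟨c, -, hc⟩ := (hQ.prod_mem_iff).mp hprod
  exact hbQ c hc

variable [IsNoetherianRing B] [IsIntegrallyClosed B]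

/-- **Vertical height-one primes.**  Let `V ⊇ B` be a valuation subring of `F` whose centre on
`B` is nonzero and contained in the height-one prime `Q`.  Then `Q` is that centre
(`Q ⊆ 𝔪(V)`) and every unit of `V` is a unit of `B_Q`. -/
theorem exists_unit_at_of_through (V : ValuationSubring F)
    (hBV : ∀ b : B, algebraMap B F b ∈ V) (Q : Ideal B) [hQp : Q.IsPrime] (hQ : Q.height = 1)
    {q : B} (hq0 : q ≠ 0) (hqV : algebraMap B F q ∈ V.nonunits)
    (hthr : ∀ b : B, algebraMap B F b ∈ V.nonunits → b ∈ Q) :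
    (∀ b ∈ Q, algebraMap B F b ∈ V.nonunits) ∧
      ∀ u : F, u ≠ 0 → u ∈ V → u⁻¹ ∈ V →
        ∃ a s : B, a ∉ Q ∧ s ∉ Q ∧ u * algebraMap B F s = algebraMap B F a := by
  classical
  have hle1 : ∀ b : B, V.valuation (algebraMap B F b) ≤ 1 := fun b =>
    (V.valuation_le_one_iff _).mpr (hBV b)
  -- the centre of `V` on `B`
  let p : Ideal B :=
    { carrier := {b | algebraMap B F b ∈ V.nonunits}
      add_mem' := by
        intro a b ha hb
        show V.valuation (algebraMap B F (a + b)) < 1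
        rw [map_add]
        exact lt_of_le_of_lt (V.valuation.map_add _ _) (max_lt ha hb)
      zero_mem' := by
        show V.valuation (algebraMap B F 0) < 1
        rw [map_zero, map_zero]
        exact zero_lt_one
      smul_mem' := by
        intro c b hb
        show V.valuation (algebraMap B F (c • b)) < 1
        rw [smul_eq_mul, map_mul, map_mul]
        exact lt_of_le_of_lt (mul_le_of_le_one_left' (hle1 c)) hb }
  have hp_mem : ∀ b : B, b ∈ p ↔ V.valuation (algebraMap B F b) < 1 := fun b => Iff.rfl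
  have hpprime : p.IsPrime := by
    refine ⟨fun htop => ?_, fun {a b} hab => ?_⟩
    · have h1 : (1 : B) ∈ p := htop ▸ Submodule.mem_top
      rw [hp_mem, map_one, map_one] at h1
      exact lt_irrefl _ h1
    · by_contra hcon
      push Not at hcon
      have ha : V.valuation (algebraMap B F a) = 1 :=
        le_antisymm (hle1 a) (not_lt.mp ((hp_mem a).not.mp hcon.1))
      have hb : V.valuation (algebraMap B F b) = 1 :=
        le_antisymm (hle1 b) (not_lt.mp ((hp_mem b).not.mp hcon.2))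
      rw [hp_mem, map_mul, map_mul, ha, hb, one_mul] at hab
      exact lt_irrefl _ hab
  have hpQ : p ≤ Q := fun b hb => hthr b hb
  have hpne : p ≠ ⊥ := by
    intro hbot
    have : q ∈ p := hqV
    rw [hbot, Ideal.mem_bot] at this
    exact hq0 this
  have hpeq : p = Q := by
    by_contra hneq
    have hlt : p < Q := lt_of_le_of_ne hpQ hneq
    have h1 := Ideal.height_strict_mono_of_isPrime_of_isPrime hlt
    rw [hQ, Order.lt_one_iff, Ideal.height_eq_zero_iff_eq_bot] at h1
    exact hpne h1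
  have hcentre : ∀ b ∈ Q, algebraMap B F b ∈ V.nonunits := fun b hb => by
    rw [← hpeq] at hb
    exact hb
  refine ⟨hcentre, fun u hu0 hu hu' => ?_⟩
  have hval : V.valuation u = 1 := by
    have h1 : V.valuation u ≤ 1 := (V.valuation_le_one_iff _).mpr hu
    have h2 : V.valuation u⁻¹ ≤ 1 := (V.valuation_le_one_iff _).mpr hu'
    rw [map_inv₀] at h2
    have hne : V.valuation u ≠ 0 := (Valuation.ne_zero_iff _).mpr hu0
    exact le_antisymm h1 ((inv_le_one₀ (zero_lt_iff.mpr hne)).mp h2)
  have key : ∀ (a s : B), s ∉ Q → u * algebraMap B F s = algebraMap B F a → a ∉ Q := by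
    intro a s hs h ha
    have h1 : V.valuation (algebraMap B F a) < 1 := hcentre a ha
    have h2 : V.valuation (algebraMap B F s) = 1 :=
      le_antisymm (hle1 s) (not_lt.mp (fun hlt => hs (hthr s hlt)))
    rw [← h, map_mul, hval, h2, one_mul] at h1
    exact lt_irrefl _ h1
  rcases inLocAt_or_inv Q hQ u with ⟨a, s, hs, h⟩ | ⟨a, s, hs, h⟩
  · exact ⟨a, s, key a s hs h, hs, h⟩
  · -- `u⁻¹ * s = a`, so `u * a = s`
    have hsF : algebraMap B F s ≠ 0 := algebraMap_ne_zero_of_notMem Q hs
    have h' : u * algebraMap B F a = algebraMap B F s := by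
      rw [← h]; field_simp
    have haQ : a ∉ Q := by
      intro ha
      have h1 : V.valuation (algebraMap B F a) < 1 := hcentre a ha
      have h2 : V.valuation (algebraMap B F s) = 1 :=
        le_antisymm (hle1 s) (not_lt.mp (fun hlt => hs (hthr s hlt)))
      rw [← h', map_mul, hval] at h2
      rw [one_mul] at h2
      rw [h2] at h1
      exact lt_irrefl _ h1
    exact ⟨s, a, hs, haQ, h'⟩

end Vertical

section Place

variable {K F : Type*} [Field K] [Field F] [Algebra K F]

/-- At a Prelude place `v` with `n ∣ v.ord u`, the function `u` is an `n`-th power times a unit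
of the valuation ring of `v`. -/
theorem exists_pow_of_dvd_ord (v : Place K F) (n : ℕ) {u : F} (hu : u ≠ 0)
    (h : (n : ℤ) ∣ v.ord u) :
    ∃ g : F, g ≠ 0 ∧ u / g ^ n ∈ v.toValuationSubring ∧ g ^ n / u ∈ v.toValuationSubring := by
  obtain ⟨m, hm⟩ := h
  obtain ⟨π, hπ⟩ := IsDiscreteValuationRing.exists_irreducible v.toValuationSubring
  obtain ⟨ε, hε⟩ := v.exists_unit_mul_zpow hu hπ
  have hπF : (π : F) ≠ 0 := by
    simpa [ne_eq, ZeroMemClass.coe_eq_zero] using hπ.ne_zero
  have hg : ((π : F) ^ m) ^ n = (π : F) ^ (v.ord u) := by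
    rw [hm, ← zpow_natCast, ← zpow_mul, mul_comm]
  have hgne : ((π : F) ^ m) ^ n ≠ 0 := pow_ne_zero n (zpow_ne_zero m hπF)
  have h1 : (((ε⁻¹ : v.toValuationSubringˣ) : v.toValuationSubring) : F)
      * ((ε : v.toValuationSubring) : F) = 1 := by
    have h2 : ((ε⁻¹ : v.toValuationSubringˣ) : v.toValuationSubring)
        * (ε : v.toValuationSubring) = 1 := Units.inv_mul ε
    have h3 := congrArg (Subtype.val) h2
    exact h3
  refine ⟨(π : F) ^ m, zpow_ne_zero m hπF, ?_, ?_⟩
  · have : u / ((π : F) ^ m) ^ n = ((ε : v.toValuationSubring) : F) := by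
      rw [div_eq_iff hgne, hg]; exact hε
    rw [this]
    exact (ε : v.toValuationSubring).2
  · have : ((π : F) ^ m) ^ n / u
        = (((ε⁻¹ : v.toValuationSubringˣ) : v.toValuationSubring) : F) := by
      rw [div_eq_iff hu, hg]
      nth_rewrite 2 [hε]
      rw [← mul_assoc, h1, one_mul]
    rw [this]
    exact ((ε⁻¹ : v.toValuationSubringˣ) : v.toValuationSubring).2

/-- **Adapter: Prelude places ⟹ valuation-subring form of horizontal divisibility.**
If `n ∣ v.ord u` for every Prelude place `v` of `F / K`, then at every valuation subring `W`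
of `F` which contains `K`, is not `F` and is a principal ideal ring, `u` is an `n`-th power
times a unit of `W`. -/
theorem horDiv_of_forall_place (n : ℕ) {u : F} (hu : u ≠ 0)
    (h : ∀ v : Place K F, (n : ℤ) ∣ v.ord u) :
    ∀ W : ValuationSubring F, (∀ a : K, algebraMap K F a ∈ W) → W ≠ ⊤ →
      IsPrincipalIdealRing W → ∃ g : F, g ≠ 0 ∧ u / g ^ n ∈ W ∧ g ^ n / u ∈ W :=
  fun W hKW hW hPIR => exists_pow_of_dvd_ord (⟨W, hKW, hW, hPIR⟩ : Place K F) n hu (h _)

end Place

section Seam

variable {B : Type*} [CommRing B] [IsDomain B] [IsNoetherianRing B] [IsIntegrallyClosed B]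
variable {F : Type*} [Field F] [Algebra B F] [IsFractionRing B F]
variable {K : Type*} [Field K] [Algebra K F]

/-- **The local hypothesis `hloc` of the (LP) consumers, at one height-one prime.**
`B` a noetherian integrally closed domain with fraction field `F`, `q ∈ B` nonzero,
`K ⊆ B[1/q]`; `V c` finitely many valuation subrings of `F` containing `B`, with `q ∈ 𝔪(V c)`
and `rad (q B) = ⋂ (B ∩ 𝔪(V c))`.  If `u ≠ 0` is a unit of all the `V c` and an `n`-th power
times a unit at every place of `F / K`, then at EVERY height-one prime `Q` of `B` the function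
`u` is an `n`-th power times a unit of `B_Q`.
(This is verbatim the hypothesis `hloc` of `helper6136.exists_pow_mul_of_locFactorial` and of
`helper6136.lpChart_of_hasGoodComponent`.) -/
theorem exists_pow_mul_at_height_one
    {ι : Type*} [Finite ι] (V : ι → ValuationSubring F)
    (hBV : ∀ c, ∀ b : B, algebraMap B F b ∈ V c)
    (q : B) (hq0 : q ≠ 0) (hqV : ∀ c, algebraMap B F q ∈ (V c).nonunits)
    (hrad : ∀ y : B, (∀ c, algebraMap B F y ∈ (V c).nonunits) →
      ∃ (e : ℕ) (r : B), y ^ e = q * r)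
    (hK : ∀ a : K, ∃ (k : ℕ) (b : B),
      algebraMap B F q ^ k * algebraMap K F a = algebraMap B F b)
    {n : ℕ} {u : F} (hu : u ≠ 0)
    (huV : ∀ c, u ∈ V c ∧ u⁻¹ ∈ V c)
    (hhor : ∀ W : ValuationSubring F, (∀ a : K, algebraMap K F a ∈ W) → W ≠ ⊤ →
      IsPrincipalIdealRing W → ∃ g : F, g ≠ 0 ∧ u / g ^ n ∈ W ∧ g ^ n / u ∈ W)
    (Q : Ideal B) [Q.IsPrime] (hQ1 : Q.height = 1) :
    ∃ (w : F) (a b : B), a ∉ Q ∧ b ∉ Q ∧ u * algebraMap B F b = w ^ n * algebraMap B F a := by
  classical
  by_cases hqQ : q ∈ Q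
  · -- vertical prime
    obtain ⟨c, hc⟩ := exists_through V hBV q hrad Q hqQ
    obtain ⟨a, s, ha, hs, h⟩ :=
      (exists_unit_at_of_through (V c) (hBV c) Q hQ1 hq0 (hqV c) hc).2 u hu (huV c).1 (huV c).2
    exact ⟨1, a, s, ha, hs, by rw [one_pow, one_mul]; exact h⟩
  · -- horizontal prime
    obtain ⟨g, hg0, h1, h2⟩ := hhor (valuationSubringAt Q hQ1)
      (algebraMap_mem_valuationSubringAt Q hQ1 hqQ hK) (valuationSubringAt_ne_top Q hQ1)
      (isPrincipalIdealRing_valuationSubringAt Q hQ1)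
    have hgn : g ^ n ≠ 0 := pow_ne_zero n hg0
    have hinv : (u / g ^ n)⁻¹ = g ^ n / u := by rw [inv_div]
    obtain ⟨a, s, ha, hs, h⟩ := exists_unit_of_inLocAt_inv (Q := Q) (div_ne_zero hu hgn) h1
      (by rw [hinv]; exact h2)
    refine ⟨g, a, s, ha, hs, ?_⟩
    rw [← h]; field_simp

/-- **(LP-FIELD), ring form.**  In the situation of `exists_pow_mul_at_height_one`: if `B_P` is
factorial (`LocFactorial P`), then `u = ε · h ^ n` with `ε = a / b` a unit of `B_P`. -/
theorem exists_pow_mul_of_locFactorial_of_horDiv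
    {ι : Type*} [Finite ι] (V : ι → ValuationSubring F)
    (hBV : ∀ c, ∀ b : B, algebraMap B F b ∈ V c)
    (q : B) (hq0 : q ≠ 0) (hqV : ∀ c, algebraMap B F q ∈ (V c).nonunits)
    (hrad : ∀ y : B, (∀ c, algebraMap B F y ∈ (V c).nonunits) →
      ∃ (e : ℕ) (r : B), y ^ e = q * r)
    (hK : ∀ a : K, ∃ (k : ℕ) (b : B),
      algebraMap B F q ^ k * algebraMap K F a = algebraMap B F b)
    (P : Ideal B) [P.IsPrime] (hP : Fermat.Agent.S36.helper6136.LocFactorial P)
    {n : ℕ} (hn : n ≠ 0) {u : F} (hu : u ≠ 0)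
    (huV : ∀ c, u ∈ V c ∧ u⁻¹ ∈ V c)
    (hhor : ∀ W : ValuationSubring F, (∀ a : K, algebraMap K F a ∈ W) → W ≠ ⊤ →
      IsPrincipalIdealRing W → ∃ g : F, g ≠ 0 ∧ u / g ^ n ∈ W ∧ g ^ n / u ∈ W) :
    ∃ (h : F) (a b : B), h ≠ 0 ∧ a ∉ P ∧ b ∉ P ∧
      u * algebraMap B F b = h ^ n * algebraMap B F a :=
  Fermat.Agent.S36.helper6136.exists_pow_mul_of_locFactorial P hP hn hu
    (fun Q _ hQ1 _ => exists_pow_mul_at_height_one V hBV q hq0 hqV hrad hK hu huV hhor Q hQ1)

/-- **(LP) as the Prop `helper6136.LPChart`** from good components at all closed points of the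
special fibre, for `u` a unit at the vertical valuation subrings and an `n`-th power times a
unit at every place of `F / K`. -/
theorem lpChart_of_hasGoodComponent_of_horDiv
    {ι : Type*} [Finite ι] (V : ι → ValuationSubring F)
    (hBV : ∀ c, ∀ b : B, algebraMap B F b ∈ V c)
    (q : B) (hq0 : q ≠ 0) (hqV : ∀ c, algebraMap B F q ∈ (V c).nonunits)
    (hrad : ∀ y : B, (∀ c, algebraMap B F y ∈ (V c).nonunits) →
      ∃ (e : ℕ) (r : B), y ^ e = q * r)
    (hK : ∀ a : K, ∃ (k : ℕ) (b : B),
      algebraMap B F q ^ k * algebraMap K F a = algebraMap B F b)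
    (hgood : ∀ P : Ideal B, P.IsMaximal → q ∈ P →
      Fermat.Agent.S36.helper6136.HasGoodComponent P)
    {n : ℕ} (hn : n ≠ 0) {u : F} (hu : u ≠ 0)
    (huV : ∀ c, u ∈ V c ∧ u⁻¹ ∈ V c)
    (hhor : ∀ W : ValuationSubring F, (∀ a : K, algebraMap K F a ∈ W) → W ≠ ⊤ →
      IsPrincipalIdealRing W → ∃ g : F, g ≠ 0 ∧ u / g ^ n ∈ W ∧ g ^ n / u ∈ W) :
    Fermat.Agent.S36.helper6136.LPChart (B := B) (F := F) q n u :=
  Fermat.Agent.S36.helper6136.lpChart_of_hasGoodComponent q hgood hn hu
    (fun Q _ hQ1 => exists_pow_mul_at_height_one V hBV q hq0 hqV hrad hK hu huV hhor Q hQ1)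

end Seam

section SubringForm

variable {K F : Type*} [Field K] [Field F] [Algebra K F]

/-- **(LP-FIELD), subring form** — in the unfolded vocabulary of the geometric datum of (KILL):
`InP B P y = ∃ h : y ∈ B, ⟨y, h⟩ ∈ P`, `LocAt B P y = ∃ a s, a ∈ B ∧ s ∈ B ∧ ¬ InP B P s ∧
y * s = a`, `HorDiv K n u` = the hypothesis `hhor`. -/
theorem lp_field (B : Subring F) [IsNoetherianRing B] [IsIntegrallyClosed B] [IsFractionRing B F]
    {ι : Type*} [Finite ι] (V : ι → ValuationSubring F)
    (hBV : ∀ c, ∀ b : F, b ∈ B → b ∈ V c)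
    (q : F) (hqB : q ∈ B) (hq0 : q ≠ 0) (hqV : ∀ c, q ∈ (V c).nonunits)
    (hrad : ∀ y : F, y ∈ B → (∀ c, y ∈ (V c).nonunits) →
      ∃ (e : ℕ) (r : F), r ∈ B ∧ y ^ e = q * r)
    (hK : ∀ a : K, ∃ k : ℕ, q ^ k * algebraMap K F a ∈ B)
    (P : Ideal B) [P.IsPrime] (hP : Fermat.Agent.S36.helper6136.LocFactorial P)
    (n : ℕ) (u : F) (hn : 0 < n) (hu : u ≠ 0)
    (huV : ∀ c, u ∈ V c ∧ u⁻¹ ∈ V c)
    (hhor : ∀ W : ValuationSubring F, (∀ a : K, algebraMap K F a ∈ W) → W ≠ ⊤ →
      IsPrincipalIdealRing W → ∃ g : F, g ≠ 0 ∧ u / g ^ n ∈ W ∧ g ^ n / u ∈ W) :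
    ∃ h : F, h ≠ 0 ∧
      (∃ a s : F, a ∈ B ∧ s ∈ B ∧ ¬ (∃ hs : s ∈ B, (⟨s, hs⟩ : B) ∈ P) ∧ u / h ^ n * s = a) ∧
      (∃ a s : F, a ∈ B ∧ s ∈ B ∧ ¬ (∃ hs : s ∈ B, (⟨s, hs⟩ : B) ∈ P) ∧ h ^ n / u * s = a) := by
  obtain ⟨h, a, b, hh0, ha, hb, hE⟩ :=
    exists_pow_mul_of_locFactorial_of_horDiv (B := B) (F := F) (K := K) V
      (fun c b => hBV c b b.2) ⟨q, hqB⟩ (fun h0 => hq0 (congrArg Subtype.val h0))
      (fun c => hqV c)
      (fun y hy => by
        obtain ⟨e, r, hr, her⟩ := hrad y y.2 hy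
        exact ⟨e, ⟨r, hr⟩, Subtype.ext her⟩)
      (fun a => by
        obtain ⟨k, hk⟩ := hK a
        exact ⟨k, ⟨_, hk⟩, rfl⟩)
      P hP hn.ne' hu huV hhor
  have hE' : u * (b : F) = h ^ n * (a : F) := hE
  have hhn : h ^ n ≠ 0 := pow_ne_zero n hh0
  refine ⟨h, hh0, ⟨a, b, a.2, b.2, fun ⟨_, hbP⟩ => hb hbP, ?_⟩,
    ⟨b, a, b.2, a.2, fun ⟨_, haP⟩ => ha haP, ?_⟩⟩
  · rw [div_mul_eq_mul_div, div_eq_iff hhn, hE']; ring
  · rw [div_mul_eq_mul_div, div_eq_iff hu, ← hE']; ring

/-- **(LP-FIELD), subring form, SEED SHAPE** (`= helper4913.exists_seed (i)` /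
`helper6136.LPChart.exists_seed_shape`), with the radical hypothesis in the `NilMod` form
(`helper1730.NilMod B q y = y ∈ B ∧ ∃ e, ∃ r ∈ B, y ^ e = q * r`, unfolded). -/
theorem lp_field_seed (B : Subring F) [IsNoetherianRing B] [IsIntegrallyClosed B]
    [IsFractionRing B F]
    {ι : Type*} [Finite ι] (V : ι → ValuationSubring F)
    (hBV : ∀ c, ∀ b : F, b ∈ B → b ∈ V c)
    (q : F) (hqB : q ∈ B) (hq0 : q ≠ 0) (hqV : ∀ c, q ∈ (V c).nonunits)
    (hrad : ∀ y : F, y ∈ B → (∀ c, y ∈ (V c).nonunits) →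
      y ∈ B ∧ ∃ e : ℕ, ∃ r ∈ B, y ^ e = q * r)
    (hK : ∀ a : K, ∃ k : ℕ, q ^ k * algebraMap K F a ∈ B)
    (P : Ideal B) [P.IsPrime] (hP : Fermat.Agent.S36.helper6136.LocFactorial P)
    (n : ℕ) (u : F) (hn : 0 < n) (hu : u ≠ 0)
    (huV : ∀ c, u ∈ V c ∧ u⁻¹ ∈ V c)
    (hhor : ∀ W : ValuationSubring F, (∀ a : K, algebraMap K F a ∈ W) → W ≠ ⊤ →
      IsPrincipalIdealRing W → ∃ g : F, g ≠ 0 ∧ u / g ^ n ∈ W ∧ g ^ n / u ∈ W) :
    ∃ h : F, h ≠ 0 ∧ ∃ b s : B, b ∉ P ∧ s ∉ P ∧ u * (s : F) = (b : F) * h ^ n := by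
  obtain ⟨h, a, b, hh0, ha, hb, hE⟩ :=
    exists_pow_mul_of_locFactorial_of_horDiv (B := B) (F := F) (K := K) V
      (fun c b => hBV c b b.2) ⟨q, hqB⟩ (fun h0 => hq0 (congrArg Subtype.val h0))
      (fun c => hqV c)
      (fun y hy => by
        obtain ⟨_, e, r, hr, her⟩ := hrad y y.2 hy
        exact ⟨e, ⟨r, hr⟩, Subtype.ext her⟩)
      (fun a => by
        obtain ⟨k, hk⟩ := hK a
        exact ⟨k, ⟨_, hk⟩, rfl⟩)
      P hP hn.ne' hu huV hhor
  have hE' : u * (b : F) = h ^ n * (a : F) := hE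
  exact ⟨h, hh0, a, b, ha, hb, by rw [hE', mul_comm]⟩

/-- The closed points of the special fibre in the two vocabularies: a prime `P` of `B` contains
`q` iff it contains the vertical ideal `{b | ∀ c, b ∈ 𝔪(V c)}` (given `rad`). -/
theorem mem_of_vertical_le (B : Subring F) {ι : Type*} (V : ι → ValuationSubring F)
    (q : F) (hqB : q ∈ B) (hqV : ∀ c, q ∈ (V c).nonunits) (P : Ideal B)
    (hP : ∀ b : B, (∀ c, (b : F) ∈ (V c).nonunits) → b ∈ P) : (⟨q, hqB⟩ : B) ∈ P :=
  hP ⟨q, hqB⟩ hqV

theorem vertical_le_of_mem (B : Subring F) {ι : Type*} (V : ι → ValuationSubring F)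
    (q : F) (hqB : q ∈ B)
    (hrad : ∀ y : F, y ∈ B → (∀ c, y ∈ (V c).nonunits) →
      y ∈ B ∧ ∃ e : ℕ, ∃ r ∈ B, y ^ e = q * r)
    (P : Ideal B) [hPp : P.IsPrime] (hqP : (⟨q, hqB⟩ : B) ∈ P) :
    ∀ b : B, (∀ c, (b : F) ∈ (V c).nonunits) → b ∈ P := by
  intro b hb
  obtain ⟨_, e, r, hr, her⟩ := hrad b b.2 hb
  have h1 : b ^ e = (⟨q, hqB⟩ : B) * ⟨r, hr⟩ := Subtype.ext her
  exact hPp.mem_of_pow_mem e (h1 ▸ P.mul_mem_right _ hqP)

end SubringForm

end Fermat.Agent.S36.helper4696
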