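import Fermat.Agent.S36.helper4696_LPAlg
import Fermat.Prelude.Def_AlgebraicCurve_DivisorClassGroup

/-!
# The place bridge for (LP) (helper4696)

`R` a UFD with fraction field `F`, `π` a prime element of `R`.

* `InLoc π x` : `x ∈ R_(π)` (elementwise), `locValuationSubring π hπ` : `R_(π)` as a
  `ValuationSubring F`, `isDiscreteValuationRing_loc` : it is a DVR with uniformiser `π`.
* `placeOfPrime K π hπ hK` : the Prelude `Place K F` with valuation ring `R_(π)`, when
  `K ⊆ R_(π)`; `placeOfPrime_ord_prime`, `placeOfPrime_ord_of_not_dvd`.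
* `ordDvdAt_of_forall_place` : horizontal primes — if `n ∣ P.ord u` for every place `P` of `F/K`
  then `OrdDvdAt n u π`.
* `exists_pow_mul_unit_of_places` : **(LP) from the divisor**: `n ∣ P.ord u` at all places of
  `F/K`, and every prime element of `R` is horizontal (`K ⊆ R_(π)`) or `u` is a unit at it
  ⟹ `u = ε h ^ n` with `ε ∈ Rˣ`.
-/

set_option autoImplicit false
set_option linter.unusedSectionVars false

namespace Fermat.Agent.S36.helper4696

open AlgebraicCurve

section Loc

variable {R : Type*} [CommRing R] [IsDomain R]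
variable {F : Type*} [Field F] [Algebra R F] [IsFractionRing R F]

/-- `x ∈ R_(π)`, elementwise. -/
def InLoc (π : R) (x : F) : Prop :=
  ∃ a s : R, ¬ π ∣ s ∧ x * algebraMap R F s = algebraMap R F a

theorem inLoc_algebraMap (π : R) (hπ : Prime π) (a : R) : InLoc π (algebraMap R F a) :=
  ⟨a, 1, hπ.not_dvd_one, by simp⟩

theorem inLoc_inv_of_not_dvd (π : R) (a : R) (ha : ¬ π ∣ a) :
    InLoc π (algebraMap R F a)⁻¹ := by
  have ha0 : a ≠ 0 := by rintro rfl; exact ha (dvd_zero π)
  have haF : algebraMap R F a ≠ 0 := fun h =>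
    ha0 (IsFractionRing.injective R F (by rw [h, map_zero]))
  exact ⟨1, a, ha, by rw [inv_mul_cancel₀ haF, map_one]⟩

theorem not_inLoc_inv (π : R) (hπ : Prime π) : ¬ InLoc π (algebraMap R F π)⁻¹ := by
  rintro ⟨a, s, hs, h⟩
  have hπF : algebraMap R F π ≠ 0 := fun h' =>
    hπ.ne_zero (IsFractionRing.injective R F (by rw [h', map_zero]))
  apply hs
  refine ⟨a, IsFractionRing.injective R F ?_⟩
  rw [map_mul, ← h, ← mul_assoc, mul_inv_cancel₀ hπF, one_mul]

variable [UniqueFactorizationMonoid R]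

/-- `R_(π)` as a valuation subring of the fraction field of the UFD `R`. -/
def locValuationSubring (π : R) (hπ : Prime π) : ValuationSubring F where
  carrier := {x | InLoc π x}
  mul_mem' := by
    rintro x y ⟨a, s, hs, hx⟩ ⟨b, t, ht, hy⟩
    refine ⟨a * b, s * t, fun h => (hπ.dvd_or_dvd h).elim hs ht, ?_⟩
    rw [map_mul, map_mul, ← hx, ← hy]; ring
  one_mem' := ⟨1, 1, hπ.not_dvd_one, by simp⟩
  add_mem' := by
    rintro x y ⟨a, s, hs, hx⟩ ⟨b, t, ht, hy⟩
    refine ⟨a * t + b * s, s * t, fun h => (hπ.dvd_or_dvd h).elim hs ht, ?_⟩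
    rw [map_add, map_mul, map_mul, map_mul, ← hx, ← hy]; ring
  zero_mem' := ⟨0, 1, hπ.not_dvd_one, by simp⟩
  neg_mem' := by
    rintro x ⟨a, s, hs, hx⟩
    exact ⟨-a, s, hs, by rw [map_neg, ← hx]; ring⟩
  mem_or_inv_mem' := by
    intro x
    obtain ⟨a, ⟨b, hb⟩, hrel, hab⟩ := IsFractionRing.exists_reduced_fraction R x
    have hb0 : b ≠ 0 := nonZeroDivisors.ne_zero hb
    have hbF : algebraMap R F b ≠ 0 := fun h =>
      hb0 (IsFractionRing.injective R F (by rw [h, map_zero]))
    have hx : x * algebraMap R F b = algebraMap R F a := by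
      rw [← hab]; exact IsLocalization.mk'_spec F a ⟨b, hb⟩
    by_cases hπb : π ∣ b
    · right
      have hπa : ¬ π ∣ a := fun h => hπ.not_isUnit (hrel h hπb)
      have ha0 : a ≠ 0 := by rintro rfl; exact hπa (dvd_zero π)
      have haF : algebraMap R F a ≠ 0 := fun h =>
        ha0 (IsFractionRing.injective R F (by rw [h, map_zero]))
      have hx0 : x ≠ 0 := by
        rintro rfl
        rw [zero_mul] at hx
        exact haF hx.symm
      refine ⟨b, a, hπa, ?_⟩
      rw [← hx, ← mul_assoc, inv_mul_cancel₀ hx0, one_mul]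
    · left
      exact ⟨a, b, hπb, hx⟩

theorem mem_locValuationSubring (π : R) (hπ : Prime π) (x : F) :
    x ∈ locValuationSubring (F := F) π hπ ↔ InLoc π x := Iff.rfl

/-- `π` as an element of `R_(π)`. -/
def locUnif (π : R) (hπ : Prime π) : locValuationSubring (F := F) π hπ :=
  ⟨algebraMap R F π, inLoc_algebraMap π hπ π⟩

/-- An element of `R` prime to `π` is a unit of `R_(π)`. -/
def locUnit (π : R) (hπ : Prime π) (a : R) (ha : ¬ π ∣ a) :
    (locValuationSubring (F := F) π hπ)ˣ where
  val := ⟨algebraMap R F a, inLoc_algebraMap π hπ a⟩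
  inv := ⟨(algebraMap R F a)⁻¹, inLoc_inv_of_not_dvd π a ha⟩
  val_inv := by
    have ha0 : a ≠ 0 := by rintro rfl; exact ha (dvd_zero π)
    have haF : algebraMap R F a ≠ 0 := fun h =>
      ha0 (IsFractionRing.injective R F (by rw [h, map_zero]))
    exact Subtype.ext (mul_inv_cancel₀ haF)
  inv_val := by
    have ha0 : a ≠ 0 := by rintro rfl; exact ha (dvd_zero π)
    have haF : algebraMap R F a ≠ 0 := fun h =>
      ha0 (IsFractionRing.injective R F (by rw [h, map_zero]))
    exact Subtype.ext (inv_mul_cancel₀ haF)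

theorem locUnif_not_isUnit (π : R) (hπ : Prime π) : ¬ IsUnit (locUnif (F := F) π hπ) := by
  intro hu
  obtain ⟨y, hy⟩ := hu.exists_right_inv
  have hπF : algebraMap R F π ≠ 0 := fun h' =>
    hπ.ne_zero (IsFractionRing.injective R F (by rw [h', map_zero]))
  have h1 : algebraMap R F π * (y : F) = 1 := congrArg Subtype.val hy
  have h2 : (y : F) = (algebraMap R F π)⁻¹ := eq_inv_of_mul_eq_one_right h1
  exact not_inLoc_inv π hπ (h2 ▸ y.2)

/-- Every nonzero element of `R_(π)` is a unit times a power of `π`. -/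
theorem loc_exists_pow_mul_unit (π : R) (hπ : Prime π)
    (x : locValuationSubring (F := F) π hπ) (hx : x ≠ 0) :
    ∃ (m : ℕ) (w : (locValuationSubring (F := F) π hπ)ˣ), locUnif (F := F) π hπ ^ m * w = x := by
  obtain ⟨a, s, hs, hxs⟩ := x.2
  have hs0 : s ≠ 0 := by rintro rfl; exact hs (dvd_zero π)
  have hsF : algebraMap R F s ≠ 0 := fun h =>
    hs0 (IsFractionRing.injective R F (by rw [h, map_zero]))
  have hxF : (x : F) ≠ 0 := fun h => hx (Subtype.ext h)
  have ha0 : a ≠ 0 := by
    rintro rfl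
    rw [map_zero] at hxs
    exact (mul_ne_zero hxF hsF) hxs
  obtain ⟨m, a', ha', rfl⟩ := WfDvdMonoid.max_power_factor ha0 hπ.irreducible
  refine ⟨m, locUnit π hπ a' ha' * (locUnit π hπ s hs)⁻¹, ?_⟩
  apply Subtype.ext
  have h1 : (((locUnit (F := F) π hπ s hs)⁻¹ : (locValuationSubring (F := F) π hπ)ˣ) :
      locValuationSubring (F := F) π hπ).1 = (algebraMap R F s)⁻¹ := rfl
  have h2 : ((locUnit (F := F) π hπ a' ha' : (locValuationSubring (F := F) π hπ)ˣ) :
      locValuationSubring (F := F) π hπ).1 = algebraMap R F a' := rfl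
  have h3 : (locUnif (F := F) π hπ).1 = algebraMap R F π := rfl
  have hgoal : (algebraMap R F π) ^ m * (algebraMap R F a' * (algebraMap R F s)⁻¹) = (x : F) := by
    rw [map_mul, map_pow] at hxs
    rw [← mul_assoc, ← hxs, mul_assoc, mul_inv_cancel₀ hsF, mul_one]
  calc ((locUnif (F := F) π hπ ^ m * ((locUnit π hπ a' ha' * (locUnit π hπ s hs)⁻¹ :
        (locValuationSubring (F := F) π hπ)ˣ) : locValuationSubring (F := F) π hπ) :
        locValuationSubring (F := F) π hπ) : F)
      = (algebraMap R F π) ^ m * (algebraMap R F a' * (algebraMap R F s)⁻¹) := by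
        rw [Units.val_mul]
        simp only [MulMemClass.coe_mul, SubmonoidClass.coe_pow, h1, h2, h3]
    _ = (x : F) := hgoal

theorem locUnif_ne_zero (π : R) (hπ : Prime π) : locUnif (F := F) π hπ ≠ 0 := by
  intro h
  have h1 : algebraMap R F π = 0 := congrArg Subtype.val h
  exact hπ.ne_zero (IsFractionRing.injective R F (by rw [h1, map_zero]))

theorem locUnif_irreducible (π : R) (hπ : Prime π) : Irreducible (locUnif (F := F) π hπ) := by
  rw [irreducible_iff]
  refine ⟨locUnif_not_isUnit π hπ, ?_⟩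
  intro y z hyz
  have hp0 := locUnif_ne_zero (F := F) π hπ
  have hy0 : y ≠ 0 := by rintro rfl; rw [zero_mul] at hyz; exact hp0 hyz
  have hz0 : z ≠ 0 := by rintro rfl; rw [mul_zero] at hyz; exact hp0 hyz
  obtain ⟨i, w₁, rfl⟩ := loc_exists_pow_mul_unit π hπ y hy0
  obtain ⟨j, w₂, rfl⟩ := loc_exists_pow_mul_unit π hπ z hz0
  rcases Nat.eq_zero_or_pos i with rfl | hi
  · left; rw [pow_zero, one_mul]; exact w₁.isUnit
  rcases Nat.eq_zero_or_pos j with rfl | hj
  · right; rw [pow_zero, one_mul]; exact w₂.isUnit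
  exfalso
  apply locUnif_not_isUnit (F := F) π hπ
  -- `p = p ^ (i + j) * (w₁ w₂)` with `i + j ≥ 2` forces `p ∣ 1`
  obtain ⟨i', rfl⟩ : ∃ i', i = i' + 1 := ⟨i - 1, by omega⟩
  have h1 : locUnif (F := F) π hπ * 1
      = locUnif (F := F) π hπ * (locUnif (F := F) π hπ ^ (i' + j) * ((w₁ : _) * (w₂ : _))) := by
    rw [mul_one]
    calc locUnif (F := F) π hπ
        = locUnif (F := F) π hπ ^ (i' + 1) * (w₁ : _) * (locUnif (F := F) π hπ ^ j * (w₂ : _)) :=
          hyz
      _ = _ := by rw [pow_succ, pow_add]; ring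
  have h2 := mul_left_cancel₀ hp0 h1
  have hdvd : locUnif (F := F) π hπ ∣ 1 := by
    rw [h2]
    exact Dvd.dvd.mul_right (dvd_pow_self _ (by omega)) _
  exact isUnit_of_dvd_one hdvd

theorem hasUnitMulPow_loc (π : R) (hπ : Prime π) :
    IsDiscreteValuationRing.HasUnitMulPowIrreducibleFactorization
      (locValuationSubring (F := F) π hπ) := by
  refine ⟨locUnif π hπ, locUnif_irreducible π hπ, ?_⟩
  intro x hx
  obtain ⟨m, w, hw⟩ := loc_exists_pow_mul_unit π hπ x hx
  exact ⟨m, w, hw⟩

/-- `R_(π)` is a discrete valuation ring. -/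
theorem isDiscreteValuationRing_loc (π : R) (hπ : Prime π) :
    IsDiscreteValuationRing (locValuationSubring (F := F) π hπ) :=
  IsDiscreteValuationRing.ofHasUnitMulPowIrreducibleFactorization (hasUnitMulPow_loc π hπ)

theorem locValuationSubring_ne_top (π : R) (hπ : Prime π) :
    locValuationSubring (F := F) π hπ ≠ ⊤ := by
  intro h
  have : (algebraMap R F π)⁻¹ ∈ locValuationSubring (F := F) π hπ := by
    rw [h]; exact ValuationSubring.mem_top _
  exact not_inLoc_inv π hπ this

variable (K : Type*) [Field K] [Algebra K F]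

/-- **The place of a prime element.** If the constants `K` lie in `R_(π)`, then `R_(π)` is the
valuation ring of a place of `F / K`. -/
def placeOfPrime (π : R) (hπ : Prime π) (hK : ∀ c : K, InLoc π (algebraMap K F c)) :
    Place K F where
  toValuationSubring := locValuationSubring π hπ
  algebraMap_mem' := hK
  ne_top' := locValuationSubring_ne_top π hπ
  isPrincipalIdealRing' := (isDiscreteValuationRing_loc π hπ).toIsPrincipalIdealRing

theorem placeOfPrime_toValuationSubring (π : R) (hπ : Prime π)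
    (hK : ∀ c : K, InLoc π (algebraMap K F c)) :
    (placeOfPrime K π hπ hK).toValuationSubring = locValuationSubring π hπ := rfl

theorem placeOfPrime_ord_prime (π : R) (hπ : Prime π)
    (hK : ∀ c : K, InLoc π (algebraMap K F c)) :
    (placeOfPrime K π hπ hK).ord (algebraMap R F π) = 1 :=
  (placeOfPrime K π hπ hK).ord_coe_irreducible (π := locUnif π hπ) (locUnif_irreducible π hπ)

theorem placeOfPrime_ord_of_not_dvd (π : R) (hπ : Prime π)
    (hK : ∀ c : K, InLoc π (algebraMap K F c)) (a : R) (ha : ¬ π ∣ a) :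
    (placeOfPrime K π hπ hK).ord (algebraMap R F a) = 0 :=
  (placeOfPrime K π hπ hK).ord_coe_unit (locUnit π hπ a ha)

/-- **Horizontal primes.** If `K ⊆ R_(π)` and `n ∣ P.ord u` for the place `P` of `π`, then `u`
has order divisible by `n` at `π`. -/
theorem ordDvdAt_of_place (π : R) (hπ : Prime π) (hK : ∀ c : K, InLoc π (algebraMap K F c))
    (n : ℕ) (u : F) (hu : u ≠ 0) (hdvd : (n : ℤ) ∣ (placeOfPrime K π hπ hK).ord u) :
    OrdDvdAt n u π :=
  ordDvdAt_of_ordFn n u hu π hπ (placeOfPrime K π hπ hK).ord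
    (fun _ _ hx hy => (placeOfPrime K π hπ hK).ord_mul hx hy)
    (placeOfPrime_ord_prime K π hπ hK)
    (fun a ha => placeOfPrime_ord_of_not_dvd K π hπ hK a ha) hdvd

theorem ordDvdAt_of_forall_place (π : R) (hπ : Prime π)
    (hK : ∀ c : K, InLoc π (algebraMap K F c))
    (n : ℕ) (u : F) (hu : u ≠ 0) (hdiv : ∀ P : Place K F, (n : ℤ) ∣ P.ord u) :
    OrdDvdAt n u π :=
  ordDvdAt_of_place K π hπ hK n u hu (hdiv _)

/-- `K ⊆ R_(π)` from a "uniformiser of the base" `q` prime to `π`: every constant becomes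
integral after multiplication by a power of `q`. -/
theorem inLoc_of_pow_mul (π : R) (q : R) (hπ : Prime π) (hq : ¬ π ∣ q)
    (h : ∀ c : K, ∃ (m : ℕ) (a : R),
      algebraMap K F c * algebraMap R F (q ^ m) = algebraMap R F a) :
    ∀ c : K, InLoc π (algebraMap K F c) := by
  intro c
  obtain ⟨m, a, hc⟩ := h c
  exact ⟨a, q ^ m, fun h' => hq (hπ.dvd_of_dvd_pow h'), hc⟩

/-- **(LP) from the divisor.** `R` a UFD with fraction field `F ⊇ K`. If `n ∣ P.ord u` at every
place `P` of `F / K`, and every prime element `π` of `R` is either horizontal (`K ⊆ R_(π)`) or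
such that `u` is a unit at `π`, then `u = ε h ^ n` with `ε ∈ Rˣ`, and `h` is a unit at every
prime element at which `u` is. -/
theorem exists_pow_mul_unit_of_places (n : ℕ) (hn : n ≠ 0) (u : F) (hu : u ≠ 0)
    (hdiv : ∀ P : Place K F, (n : ℤ) ∣ P.ord u)
    (hprime : ∀ π : R, Prime π → (∀ c : K, InLoc π (algebraMap K F c)) ∨ UnitAt u π) :
    ∃ (h : F) (ε : Rˣ), h ≠ 0 ∧ u = algebraMap R F ε * h ^ n ∧
      ∀ π : R, Prime π → UnitAt u π → UnitAt h π := by
  refine exists_pow_mul_unit n hn u hu ?_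
  intro π hπ
  rcases hprime π hπ with hK | hunit
  · exact ordDvdAt_of_forall_place K π hπ hK n u hu hdiv
  · exact hunit.ordDvdAt n

end Loc

end Fermat.Agent.S36.helper4696
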