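import Fermat.Agent.S36.helper36_KillData
import Fermat.Agent.S36.helper2587_ChartsGauss
import Fermat.Agent.S36.helper4696_LPField

/-!
# S36: the field `lp : LPProp O x V` of the geometric datum of (KILL)  (helper4696)

Exact target for the `lp` field of `helper36.KillData`:

* `lpProp_of_locFactorial` : `helper36.LPProp O x V` from
  - the chart facts (`x` transcendental, `F` finite over `K(x)`, `O` a noetherian valuation ring
    of `K` with `K = O[1/q]`, char `0`),
  - the vertical valuation subrings `V c ⊇ O`, Gauss for `x`, with `q ∈ 𝔪(V c)` and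
    `rad (q) = ⋂ centres` on both charts (the `rad` field, `NilMod` form),
  - **`LocFactorial P` at every closed point `P` of the special fibre of both charts**
    (the output of the (LP) casework: `helper8039` / `helper6136.locFactorial_of_hasGoodComponent`).

Everything else (`B_Q` is a DVR at height-one primes, horizontal primes are places of `F / K`,
vertical primes are the centres of the `V c`) is discharged here through `helper4696_LPField`.

* `lpProp_of_baseDVR` : the same with the base facts bundled as `helper36.BaseDVR O q`.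
* `exists_pow_mul_mem_of_unif` : `K = O[1/q]` from the `BaseDVR` fields `unif`, `noeth`.
* `chartRing_le_valuationSubring` : a chart ring lies in every valuation subring containing the
  base and the chart coordinates.
-/

set_option autoImplicit false

namespace Fermat.Agent.S36.helper4696

open Fermat.Agent.S36.helper36 (chart LPProp HorDiv)
open Fermat.Agent.S36.helper248 (chartRing)
open Fermat.Agent.S36.helper1730 (NilMod)
open Fermat.Agent.S18

section Generic

variable {A0 L : Type*} [CommRing A0] [Field L] [Algebra A0 L]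

/-- A chart ring (integral closure of `A0[s]`) lies in every valuation subring of `L` which
contains the image of `A0` and the set `s`. -/
theorem chartRing_le_valuationSubring (s : Set L) (V : ValuationSubring L)
    (hconst : ∀ a : A0, algebraMap A0 L a ∈ V) (hs : ∀ y ∈ s, y ∈ V) :
    ∀ b : L, b ∈ chartRing A0 s → b ∈ V := by
  intro b hb
  let V' : Subalgebra A0 L := { V.toSubring with algebraMap_mem' := hconst }
  have hle : Algebra.adjoin A0 s ≤ V' := Algebra.adjoin_le hs
  let f : ↥(Algebra.adjoin A0 s) →+* ↥V :=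
    { toFun := fun y => ⟨y.1, hle y.2⟩
      map_one' := rfl
      map_mul' := fun _ _ => rfl
      map_zero' := rfl
      map_add' := fun _ _ => rfl }
  have h1 : IsIntegral ↥V b := helper5377.isIntegral_of_ringHom f (by ext; rfl) hb
  obtain ⟨y, hy⟩ := IsIntegrallyClosed.isIntegral_iff.mp h1
  rw [← hy]
  exact y.2

end Generic

section Base

variable {K : Type*} [Field K]

/-- `K = O[1/q]` for a noetherian valuation ring `O` of `K` whose maximal ideal is generated by
`q` (the fields `unif`, `noeth` of `helper36.BaseDVR`). -/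
theorem exists_pow_mul_mem_of_unif (O : ValuationSubring K) [IsNoetherianRing O] (q : K)
    (hqO : q ∈ O.nonunits) (hq0 : q ≠ 0)
    (hunif : ∀ c : K, c ∈ O.nonunits → c / q ∈ O) (a : K) :
    ∃ k : ℕ, q ^ k * a ∈ O := by
  classical
  by_cases ha : a ∈ O
  · exact ⟨0, by simpa using ha⟩
  have ha0 : a ≠ 0 := by
    rintro rfl
    exact ha O.zero_mem
  have hc : a⁻¹ ∈ O.nonunits := by
    rw [ValuationSubring.mem_nonunits_iff, map_inv₀]
    have h1 : ¬ O.valuation a ≤ 1 := fun h => ha ((O.valuation_le_one_iff a).mp h)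
    have hne : O.valuation a ≠ 0 := (Valuation.ne_zero_iff _).mpr ha0
    exact (inv_lt_one₀ (zero_lt_iff.mpr hne)).mpr (not_le.mp h1)
  have hqmem : q ∈ O := O.nonunits_le hqO
  -- some `a⁻¹ / q ^ k` is a unit of `O`
  by_contra hcon
  push Not at hcon
  have hall : ∀ k : ℕ, a⁻¹ / q ^ k ∈ O.nonunits := by
    intro k
    induction k with
    | zero => simpa using hc
    | succ k ih =>
      have h1 : a⁻¹ / q ^ (k + 1) ∈ O := by
        have := hunif _ ih
        rwa [div_div, ← pow_succ] at this
      rw [ValuationSubring.mem_nonunits_iff]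
      have h2 : O.valuation (a⁻¹ / q ^ (k + 1)) ≤ 1 := (O.valuation_le_one_iff _).mpr h1
      rcases lt_or_eq_of_le h2 with h3 | h3
      · exact h3
      · exfalso
        apply hcon (k + 1)
        have h4 : q ^ (k + 1) * a = (a⁻¹ / q ^ (k + 1))⁻¹ := by
          rw [inv_div, div_inv_eq_mul]
        rw [h4, ← O.valuation_le_one_iff, map_inv₀, h3, inv_one]
  -- Krull intersection
  let q' : O := ⟨q, hqmem⟩
  let c' : O := ⟨a⁻¹, O.nonunits_le hc⟩
  have hI : (Ideal.span {q'} : Ideal O) ≠ ⊤ := by
    rw [Ne, Ideal.span_singleton_eq_top]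
    intro hu
    have h1 : O.valuation q = 1 := (O.valuation_eq_one_iff q').mp hu
    have h2 : O.valuation q < 1 := hqO
    rw [h1] at h2
    exact lt_irrefl _ h2
  have hbot := Ideal.iInf_pow_eq_bot_of_isDomain (Ideal.span {q'} : Ideal O) hI
  have hmem : c' ∈ ⨅ i : ℕ, (Ideal.span {q'} : Ideal O) ^ i := by
    rw [Ideal.mem_iInf]
    intro k
    rw [Ideal.span_singleton_pow, Ideal.mem_span_singleton]
    refine ⟨⟨a⁻¹ / q ^ k, O.nonunits_le (hall k)⟩, Subtype.ext ?_⟩
    show a⁻¹ = q ^ k * (a⁻¹ / q ^ k)
    rw [mul_div_cancel₀ _ (pow_ne_zero k hq0)]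
  rw [hbot, Ideal.mem_bot] at hmem
  exact inv_ne_zero ha0 (congrArg Subtype.val hmem)

end Base

section Target

variable {K F : Type*} [Field K] [Field F] [Algebra K F]

/-- **The `lp` field of `helper36.KillData`** from `LocFactorial` at the closed points of the
special fibre of the two charts. -/
theorem lpProp_of_locFactorial [CharZero K] (O : ValuationSubring K) [IsNoetherianRing O]
    (x : F) (hx : Transcendental K x)
    [FiniteDimensional (IntermediateField.adjoin K ({x} : Set F)) F]
    {ι : Type*} [Finite ι] (V : ι → ValuationSubring F) (q : ℕ)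
    (hq0 : (q : K) ≠ 0)
    (hunif : ∀ a : K, ∃ k : ℕ, (q : K) ^ k * a ∈ O)
    (hconst : ∀ (c : ι) (a : K), a ∈ O → algebraMap K F a ∈ V c)
    (hxV : ∀ c, x ∈ V c ∧ x⁻¹ ∈ V c)
    (hqV : ∀ c, (q : F) ∈ (V c).nonunits)
    (hrad : ∀ (i : Fin 2) (y : F), y ∈ chart O x i → (∀ c, y ∈ (V c).nonunits) →
      NilMod (chart O x i) (q : F) y)
    (hLF : ∀ (i : Fin 2) (P : Ideal (chart O x i)), P.IsMaximal →
      (∀ b : chart O x i, (∀ c, (b : F) ∈ (V c).nonunits) → b ∈ P) →
        Fermat.Agent.S36.helper6136.LocFactorial P) :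
    LPProp O x V := by
  classical
  have hqF0 : (q : F) ≠ 0 := by
    have h := (algebraMap K F).injective.ne hq0
    simpa using h
  have hxinv : Transcendental K x⁻¹ := by
    intro halg
    exact hx (by simpa using halg.inv)
  have hfin' : FiniteDimensional (IntermediateField.adjoin K ({x⁻¹} : Set F)) F :=
    helper2587.finiteDimensional_adjoin_inv x
  -- the structure of the two chart rings
  have hstruct : ∀ i : Fin 2, IsNoetherianRing (chart O x i) ∧ IsIntegrallyClosed (chart O x i) ∧
      IsFractionRing (chart O x i) F := by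
    intro i
    by_cases hi : i = 0
    · subst hi
      exact ⟨helper2587.isNoetherianRing_chartRing (A0 := O) (K0 := K) x hx,
        helper2587.isIntegrallyClosed_chartRing (A0 := O) (K0 := K) x,
        helper2587.isFractionRing_chartRing (A0 := O) (K0 := K) x⟩
    · have hi1 : i = 1 := by omega
      subst hi1
      exact ⟨helper2587.isNoetherianRing_chartRing (A0 := O) (K0 := K) x⁻¹ hxinv,
        helper2587.isIntegrallyClosed_chartRing (A0 := O) (K0 := K) x⁻¹,
        helper2587.isFractionRing_chartRing (A0 := O) (K0 := K) x⁻¹⟩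
  have hBV : ∀ (i : Fin 2) (c : ι) (b : F), b ∈ chart O x i → b ∈ V c := by
    intro i c b hb
    refine chartRing_le_valuationSubring (A0 := O) _ (V c) (fun a => hconst c a a.2) ?_ b hb
    intro y hy
    by_cases hi : i = 0
    · rw [if_pos hi, Set.mem_singleton_iff] at hy
      rw [hy]; exact (hxV c).1
    · rw [if_neg hi, Set.mem_singleton_iff] at hy
      rw [hy]; exact (hxV c).2
  have hconstB : ∀ (i : Fin 2) (a : K), a ∈ O → algebraMap K F a ∈ chart O x i := by
    intro i a ha
    exact helper248.algebraMap_mem_chartRing (A0 := O) _ (⟨a, ha⟩ : O)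
  have hqB : ∀ i : Fin 2, (q : F) ∈ chart O x i := fun i => natCast_mem (chart O x i) q
  have hK : ∀ (i : Fin 2) (a : K), ∃ k : ℕ, (q : F) ^ k * algebraMap K F a ∈ chart O x i := by
    intro i a
    obtain ⟨k, hk⟩ := hunif a
    refine ⟨k, ?_⟩
    have := hconstB i _ hk
    simpa using this
  intro i P hPmax hvert n u hn hu huV hhor
  obtain ⟨h1, h2, h3⟩ := hstruct i
  have : P.IsPrime := hPmax.isPrime
  exact lp_field_seed (K := K) (chart O x i) V (hBV i) (q : F) (hqB i) hqF0 hqV (hrad i) (hK i) P
    (hLF i P hPmax hvert) n u hn hu huV hhor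

/-- The same with the base facts bundled as `helper36.BaseDVR O q`. -/
theorem lpProp_of_baseDVR [CharZero K] (O : ValuationSubring K) (q : ℕ)
    (hbase : Fermat.Agent.S36.helper36.BaseDVR O q)
    (x : F) (hx : Transcendental K x)
    [FiniteDimensional (IntermediateField.adjoin K ({x} : Set F)) F]
    {ι : Type*} [Finite ι] (V : ι → ValuationSubring F)
    (hconst : ∀ (c : ι) (a : K), a ∈ O → algebraMap K F a ∈ V c)
    (hxV : ∀ c, x ∈ V c ∧ x⁻¹ ∈ V c)
    (hqV : ∀ c, (q : F) ∈ (V c).nonunits)
    (hrad : ∀ (i : Fin 2) (y : F), y ∈ chart O x i → (∀ c, y ∈ (V c).nonunits) →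
      NilMod (chart O x i) (q : F) y)
    (hLF : ∀ (i : Fin 2) (P : Ideal (chart O x i)), P.IsMaximal →
      (∀ b : chart O x i, (∀ c, (b : F) ∈ (V c).nonunits) → b ∈ P) →
        Fermat.Agent.S36.helper6136.LocFactorial P) :
    LPProp O x V := by
  have := hbase.noeth
  exact lpProp_of_locFactorial O x hx V q hbase.q_ne
    (exists_pow_mul_mem_of_unif O (q : K) hbase.q_mem hbase.q_ne hbase.unif)
    hconst hxV hqV hrad hLF

/-- A nonzero element of a valuation subring whose inverse is not in it is a non-unit. -/
theorem mem_nonunits_of_inv_notMem (V : ValuationSubring F) {y : F} (hy : y ∈ V)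
    (hy' : y⁻¹ ∉ V) : y ∈ V.nonunits := by
  rw [ValuationSubring.mem_nonunits_iff]
  have h1 : V.valuation y ≤ 1 := (V.valuation_le_one_iff y).mpr hy
  rcases lt_or_eq_of_le h1 with h | h
  · exact h
  · exfalso
    apply hy'
    rw [← V.valuation_le_one_iff, map_inv₀, h, inv_one]

end Target

end Fermat.Agent.S36.helper4696
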