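import Fermat.Agent.S29.helper8217_KummerClass
import Fermat.Agent.S29.helper5500_GalHecke
import Fermat.Agent.S37.helper8426_HeckeInputs

/-!
# S36-R1 (helper4856), file 1: the two degeneracy operators on `J₀(M₁ q)`

`Kbar = ℚ̄`, `FN N = modularFunctionFieldBar N`, `JZero N = Pic⁰` of `FN N`.  For a level `M₁` and
`q ≠ 0` the Prelude has the two degeneracy maps of function fields
`α = heckeAlphaBar Kbar M₁ q` (inclusion) and `β = heckeBetaBar Kbar M₁ q` (`t ↦ t^q`),
`FN M₁ → FN (M₁ * q)`.  This file fixes the CANONICAL kernel operators of S36 (Carayol's clause,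
route #3001 / audit #3084 (R1)):

* generic (`Pic⁰` of function fields): `pushPic ψ` (`ψ_*`), `pullPic φ` (`φ^*`), their values on
  Kummer classes (`pushPic_kummerClass`, `pullPic_kummerClass`) and their equivariance under
  intertwined semilinear automorphisms (`pushPic_smul`, `pullPic_smul`);
* `aPush M₁ q`, `bPush M₁ q : JZero (M₁ * q) →+ JZero M₁`   (`α_*`, `β_*`),
  `aPull M₁ q`, `bPull M₁ q : JZero M₁ →+ JZero (M₁ * q)`   (`α^*`, `β^*`),
  `aOp M₁ q = α^* ∘ α_*`, `bOp M₁ q = β^* ∘ β_*`  on `JZero (M₁ * q)`;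
* all of them commute with the Galois action (`galois_smul_aOp`, …);
* on Kummer classes: `aOp [u] = [aFun u]`, `aFun u = α (Norm_α u)`; `bOp [u] = [bFun u]`,
  `bFun u = β (Norm_β u)` (`aOp_kummerClass`, `bOp_kummerClass`; also the push/pull forms);
* the level-general total families `aJ M q`, `bJ M q : JZero M →+ JZero M` (`0` unless `q` is a
  prime with `q² ∣ M`; for `M = M₁ * q`, `q ∣ M₁` they are `aOp M₁ q`, `bOp M₁ q` transported by
  `castEnd`: `aJ_eq`, `bJ_eq`), commuting with Galois (`galois_smul_aJ`, `galois_smul_bJ`).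

Everything holds for every `M₁`, `q` (only `NeZero`); primality of `q` and `q ∣ M₁` are only used
by the analytic side (`helper4856_NormAB`).
-/

set_option autoImplicit false
set_option linter.style.haveILetI false
set_option linter.unusedSectionVars false

open ModularCurve AlgebraicCurve

namespace Fermat.Agent.S36.helper4856

open Fermat.Agent.S29.helper8217

noncomputable section

local notation "Kbar" => AlgebraicClosure ℚ
local notation "GQ" => (AlgebraicClosure ℚ ≃ₐ[ℚ] AlgebraicClosure ℚ)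

/-! ### Generic: push-forward and pull-back on `Pic⁰` along a homomorphism of function fields -/

section Generic

variable {K F F' : Type*} [Field K] [Field F] [Field F'] [Algebra K F] [Algebra K F']

section Push

variable (ψ : F →ₐ[K] F') (hψ : ψ.toRingHom.IsIntegral)

/-- Push-forward of degree-zero divisors along `ψ`. -/
def pushDegZero :
    Divisor.degZero (K := K) (F := F') →+ Divisor.degZero (K := K) (F := F) :=
  ((Divisor.pushforwardAlong ψ hψ).domRestrict (Divisor.degZero (K := K) (F := F'))).codRestrict _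
    (fun D => Divisor.pushforwardAlong_mem_degZero ψ hψ D.2)

@[simp]
theorem coe_pushDegZero (D : Divisor.degZero (K := K) (F := F')) :
    (pushDegZero ψ hψ D : Divisor K F) = Divisor.pushforwardAlong ψ hψ (D : Divisor K F') :=
  rfl

variable (hfin : FiniteAlong K ψ) (hN : NormFormulaAlong K ψ hfin)

/-- **Push-forward on `Pic⁰`** along a finite homomorphism of function fields with the norm
formula. -/
def pushPic : Pic0 K F' →+ Pic0 K F :=
  QuotientAddGroup.map _ _ (pushDegZero ψ hψ) (by
    rintro ⟨D, hD0⟩ hD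
    simp only [AddSubgroup.mem_addSubgroupOf] at hD ⊢
    exact Divisor.isPrincipal_pushforwardAlong ψ hψ hfin hN hD)

theorem pushPic_mk (D : Divisor.degZero (K := K) (F := F')) :
    pushPic ψ hψ hfin hN (Pic0.mk D) = Pic0.mk (pushDegZero ψ hψ D) :=
  rfl

/-- `ψ_*` on Kummer classes: `ψ_* [u] = [Norm_ψ u]`. -/
theorem pushPic_kummerClass [HasPrincipalDivisors K F] [HasPrincipalDivisors K F'] {n : ℕ}
    (hn : n ≠ 0) {u : F'} (h : IsKummer K n u) :
    IsKummer K n (normAlong ψ u) ∧
      pushPic ψ hψ hfin hN (kummerClass K n u) = kummerClass K n (normAlong ψ u) := by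
  obtain ⟨h2, h3⟩ := pushforwardAlong_kummerDivisor ψ hψ hfin hN hn h
  refine ⟨h2, ?_⟩
  rw [kummerClass_eq_mk h, pushPic_mk, kummerClass_eq_mk h2]
  exact mk_eq_mk_of_coe_eq h3

/-- `ψ_*` is equivariant for intertwined semilinear automorphisms. -/
theorem pushPic_smul (g : SemilinearAut K F) (g' : SemilinearAut K F')
    (h : SemilinearAut.IntertwinesAlong (ψ : F →+* F') g g') (x : Pic0 K F') :
    pushPic ψ hψ hfin hN (g' • x) = g • pushPic ψ hψ hfin hN x := by
  obtain ⟨D, rfl⟩ := Pic0.mk_surjective x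
  rw [SemilinearAut.pic0_smul_mk, pushPic_mk, pushPic_mk, SemilinearAut.pic0_smul_mk]
  refine congrArg Pic0.mk (Subtype.ext ?_)
  rw [coe_pushDegZero, SemilinearAut.coe_degZeroSMulHom, SemilinearAut.coe_degZeroSMulHom,
    coe_pushDegZero]
  exact Fermat.Agent.S29.helper5500.pushforwardAlong_smul ψ hψ g g' h (D : Divisor K F')

end Push

section Pull

variable [HasPrincipalDivisors K F'] (φ : F →ₐ[K] F') (hφ : φ.toRingHom.IsIntegral)
  (hFI : FundamentalIdentityAlong K φ hφ)

/-- Pull-back of degree-zero divisors along `φ`. -/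
def pullDegZero :
    Divisor.degZero (K := K) (F := F) →+ Divisor.degZero (K := K) (F := F') :=
  ((Divisor.pullbackAlong φ hφ).domRestrict (Divisor.degZero (K := K) (F := F))).codRestrict _
    (fun D => Divisor.pullbackAlong_mem_degZero φ hφ hFI D.2)

@[simp]
theorem coe_pullDegZero (D : Divisor.degZero (K := K) (F := F)) :
    (pullDegZero φ hφ hFI D : Divisor K F') = Divisor.pullbackAlong φ hφ (D : Divisor K F) :=
  rfl

/-- **Pull-back on `Pic⁰`** along an integral homomorphism of function fields with the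
fundamental identity. -/
def pullPic : Pic0 K F →+ Pic0 K F' :=
  QuotientAddGroup.map _ _ (pullDegZero φ hφ hFI) (by
    rintro ⟨D, hD0⟩ hD
    simp only [AddSubgroup.mem_addSubgroupOf] at hD ⊢
    exact Divisor.isPrincipal_pullbackAlong φ hφ hD)

theorem pullPic_mk (D : Divisor.degZero (K := K) (F := F)) :
    pullPic φ hφ hFI (Pic0.mk D) = Pic0.mk (pullDegZero φ hφ hFI D) :=
  rfl

/-- `φ^*` on Kummer classes: `φ^* [u] = [φ u]`. -/
theorem pullPic_kummerClass [HasPrincipalDivisors K F] {n : ℕ} {u : F} (h : IsKummer K n u) :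
    pullPic φ hφ hFI (kummerClass K n u) = kummerClass K n (φ u) := by
  rw [kummerClass_eq_mk h, pullPic_mk, kummerClass_eq_mk (isKummer_map φ hφ h)]
  exact mk_eq_mk_of_coe_eq (pullbackAlong_kummerDivisor φ hφ h)

/-- `φ^*` is equivariant for intertwined semilinear automorphisms. -/
theorem pullPic_smul (g : SemilinearAut K F) (g' : SemilinearAut K F')
    (h : SemilinearAut.IntertwinesAlong (φ : F →+* F') g g') (x : Pic0 K F) :
    pullPic φ hφ hFI (g • x) = g' • pullPic φ hφ hFI x := by
  obtain ⟨D, rfl⟩ := Pic0.mk_surjective x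
  rw [SemilinearAut.pic0_smul_mk, pullPic_mk, pullPic_mk, SemilinearAut.pic0_smul_mk]
  refine congrArg Pic0.mk (Subtype.ext ?_)
  rw [coe_pullDegZero, SemilinearAut.coe_degZeroSMulHom, SemilinearAut.coe_degZeroSMulHom,
    coe_pullDegZero]
  exact Fermat.Agent.S29.helper5500.pullbackAlong_smul φ hφ g g' h (D : Divisor K F)

end Pull

end Generic

/-! ### The degeneracy operators on `J₀(M₁ q)` -/

section Modular

open Fermat.Agent.S37.helper5162 Fermat.Agent.S37.helper8426

variable (M q : ℕ) [NeZero M] [NeZero q]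

/-- `α_* : J₀(M q) → J₀(M)`, the push-forward along the inclusion `α : F_M → F_{M q}`. -/
def aPush : JZero (M * q) →+ JZero M :=
  pushPic (heckeAlphaBar Kbar M q) (heckeAlphaBarIntegral M q) (finiteAlong_heckeAlphaBar M q)
    (normFormulaAlong_heckeAlphaBar M q)

/-- `β_* : J₀(M q) → J₀(M)`, the push-forward along `β : F_M → F_{M q}`, `t ↦ t^q`. -/
def bPush : JZero (M * q) →+ JZero M :=
  pushPic (heckeBetaBar Kbar M q) (heckeBetaBarIntegral M q) (finiteAlong_heckeBetaBar M q)
    (normFormulaAlong_heckeBetaBar M q)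

/-- `α^* : J₀(M) → J₀(M q)`. -/
def aPull : JZero M →+ JZero (M * q) :=
  pullPic (heckeAlphaBar Kbar M q) (heckeAlphaBarIntegral M q)
    (fundamentalIdentityAlong_heckeAlphaBar M q)

/-- `β^* : J₀(M) → J₀(M q)`. -/
def bPull : JZero M →+ JZero (M * q) :=
  pullPic (heckeBetaBar Kbar M q) (heckeBetaBarIntegral M q)
    (fundamentalIdentityAlong_heckeBetaBar M q)

/-- **The canonical kernel operator `α^* α_*`** on `J₀(M q)`. -/
def aOp : JZero (M * q) →+ JZero (M * q) := (aPull M q).comp (aPush M q)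

/-- **The canonical kernel operator `β^* β_*`** on `J₀(M q)`. -/
def bOp : JZero (M * q) →+ JZero (M * q) := (bPull M q).comp (bPush M q)

theorem aOp_apply (x : JZero (M * q)) : aOp M q x = aPull M q (aPush M q x) := rfl

theorem bOp_apply (x : JZero (M * q)) : bOp M q x = bPull M q (bPush M q x) := rfl

/-- The function `u ↦ α (Norm_α u)` realising `α^* α_*` on Kummer classes. -/
def aFun (u : modularFunctionFieldBar (M * q)) : modularFunctionFieldBar (M * q) :=
  heckeAlphaBar Kbar M q (normAlong (heckeAlphaBar Kbar M q) u)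

/-- The function `u ↦ β (Norm_β u)` realising `β^* β_*` on Kummer classes. -/
def bFun (u : modularFunctionFieldBar (M * q)) : modularFunctionFieldBar (M * q) :=
  heckeBetaBar Kbar M q (normAlong (heckeBetaBar Kbar M q) u)

variable {M q}

/-! #### Galois equivariance -/

theorem galois_smul_aPush (σ : GQ) (x : JZero (M * q)) :
    σ • aPush M q x = aPush M q (σ • x) := by
  rw [galois_smul_pic0_def, galois_smul_pic0_def]
  exact (pushPic_smul _ _ _ _ _ _
    (Fermat.Agent.S29.helper5500.intertwines_heckeAlphaBar M q σ) x).symm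

theorem galois_smul_bPush (σ : GQ) (x : JZero (M * q)) :
    σ • bPush M q x = bPush M q (σ • x) := by
  rw [galois_smul_pic0_def, galois_smul_pic0_def]
  exact (pushPic_smul _ _ _ _ _ _
    (Fermat.Agent.S29.helper5500.intertwines_heckeBetaBar M q σ) x).symm

theorem galois_smul_aPull (σ : GQ) (x : JZero M) :
    σ • aPull M q x = aPull M q (σ • x) := by
  rw [galois_smul_pic0_def, galois_smul_pic0_def]
  exact (pullPic_smul _ _ _ _ _
    (Fermat.Agent.S29.helper5500.intertwines_heckeAlphaBar M q σ) x).symm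

theorem galois_smul_bPull (σ : GQ) (x : JZero M) :
    σ • bPull M q x = bPull M q (σ • x) := by
  rw [galois_smul_pic0_def, galois_smul_pic0_def]
  exact (pullPic_smul _ _ _ _ _
    (Fermat.Agent.S29.helper5500.intertwines_heckeBetaBar M q σ) x).symm

/-- `α^* α_*` commutes with the Galois action on `J₀(M q)`. -/
theorem galois_smul_aOp (σ : GQ) (x : JZero (M * q)) :
    σ • aOp M q x = aOp M q (σ • x) := by
  rw [aOp_apply, aOp_apply, galois_smul_aPull, galois_smul_aPush]

/-- `β^* β_*` commutes with the Galois action on `J₀(M q)`. -/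
theorem galois_smul_bOp (σ : GQ) (x : JZero (M * q)) :
    σ • bOp M q x = bOp M q (σ • x) := by
  rw [bOp_apply, bOp_apply, galois_smul_bPull, galois_smul_bPush]

/-! #### Kummer classes -/

/-- `α_* [u] = [Norm_α u]`. -/
theorem aPush_kummerClass {n : ℕ} (hn : n ≠ 0) {u : modularFunctionFieldBar (M * q)}
    (h : IsKummer Kbar n u) :
    IsKummer Kbar n (normAlong (heckeAlphaBar Kbar M q) u) ∧
      aPush M q (kummerClass Kbar n u)
        = kummerClass Kbar n (normAlong (heckeAlphaBar Kbar M q) u) :=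
  pushPic_kummerClass _ _ _ _ hn h

/-- `β_* [u] = [Norm_β u]`. -/
theorem bPush_kummerClass {n : ℕ} (hn : n ≠ 0) {u : modularFunctionFieldBar (M * q)}
    (h : IsKummer Kbar n u) :
    IsKummer Kbar n (normAlong (heckeBetaBar Kbar M q) u) ∧
      bPush M q (kummerClass Kbar n u)
        = kummerClass Kbar n (normAlong (heckeBetaBar Kbar M q) u) :=
  pushPic_kummerClass _ _ _ _ hn h

/-- `α^* [u] = [α u]`. -/
theorem aPull_kummerClass {n : ℕ} {u : modularFunctionFieldBar M} (h : IsKummer Kbar n u) :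
    IsKummer Kbar n (heckeAlphaBar Kbar M q u) ∧
      aPull M q (kummerClass Kbar n u) = kummerClass Kbar n (heckeAlphaBar Kbar M q u) :=
  ⟨isKummer_map _ (heckeAlphaBarIntegral M q) h, pullPic_kummerClass _ _ _ h⟩

/-- `β^* [u] = [β u]`. -/
theorem bPull_kummerClass {n : ℕ} {u : modularFunctionFieldBar M} (h : IsKummer Kbar n u) :
    IsKummer Kbar n (heckeBetaBar Kbar M q u) ∧
      bPull M q (kummerClass Kbar n u) = kummerClass Kbar n (heckeBetaBar Kbar M q u) :=
  ⟨isKummer_map _ (heckeBetaBarIntegral M q) h, pullPic_kummerClass _ _ _ h⟩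

/-- **`α^* α_*` on Kummer classes**: `α^* α_* [u] = [α (Norm_α u)]`. -/
theorem aOp_kummerClass {n : ℕ} (hn : n ≠ 0) {u : modularFunctionFieldBar (M * q)}
    (h : IsKummer Kbar n u) :
    IsKummer Kbar n (aFun M q u) ∧
      aOp M q (kummerClass Kbar n u) = kummerClass Kbar n (aFun M q u) := by
  obtain ⟨h1, h2⟩ := aPush_kummerClass hn h
  obtain ⟨h3, h4⟩ := aPull_kummerClass (q := q) h1
  exact ⟨h3, by rw [aOp_apply, h2, h4]; rfl⟩

/-- **`β^* β_*` on Kummer classes**: `β^* β_* [u] = [β (Norm_β u)]`. -/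
theorem bOp_kummerClass {n : ℕ} (hn : n ≠ 0) {u : modularFunctionFieldBar (M * q)}
    (h : IsKummer Kbar n u) :
    IsKummer Kbar n (bFun M q u) ∧
      bOp M q (kummerClass Kbar n u) = kummerClass Kbar n (bFun M q u) := by
  obtain ⟨h1, h2⟩ := bPush_kummerClass hn h
  obtain ⟨h3, h4⟩ := bPull_kummerClass (q := q) h1
  exact ⟨h3, by rw [bOp_apply, h2, h4]; rfl⟩

end Modular

/-! ### The level-general total families -/

section General

/-- Transport of an endomorphism of `J₀(M')` along an equality of levels `M = M'`. -/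
def castEnd {M M' : ℕ} (h : M = M') (f : JZero M' →+ JZero M') : JZero M →+ JZero M := by
  subst h
  exact f

@[simp] theorem castEnd_rfl {M : ℕ} (f : JZero M →+ JZero M) : castEnd rfl f = f := rfl

theorem castEnd_galois {M M' : ℕ} (h : M = M') (f : JZero M' →+ JZero M')
    (hf : ∀ (σ : GQ) (x : JZero M'), σ • f x = f (σ • x)) (σ : GQ) (x : JZero M) :
    σ • castEnd h f x = castEnd h f (σ • x) := by
  subst h
  exact hf σ x

theorem ne_zero_div_of_sq_dvd {M q : ℕ} [NeZero M] (h : q ^ 2 ∣ M) : M / q ≠ 0 := by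
  have hqM : q ∣ M := (dvd_pow_self q two_ne_zero).trans h
  intro h0
  have := Nat.div_mul_cancel hqM
  rw [h0, zero_mul] at this
  exact NeZero.ne M this.symm

open Classical in
/-- **The canonical kernel operator `α^* α_*` at a general level**: for a prime `q` with
`q² ∣ M`, the operator `aOp (M / q) q` on `J₀(M)`, `M = (M / q) * q`; `0` otherwise. -/
def aJ (M q : ℕ) [NeZero M] : JZero M →+ JZero M :=
  if h : q.Prime ∧ q ^ 2 ∣ M then
    haveI : NeZero q := ⟨h.1.ne_zero⟩
    haveI : NeZero (M / q) := ⟨ne_zero_div_of_sq_dvd h.2⟩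
    castEnd (Nat.div_mul_cancel ((dvd_pow_self q two_ne_zero).trans h.2)).symm (aOp (M / q) q)
  else 0

open Classical in
/-- **The canonical kernel operator `β^* β_*` at a general level**: for a prime `q` with
`q² ∣ M`, the operator `bOp (M / q) q` on `J₀(M)`, `M = (M / q) * q`; `0` otherwise. -/
def bJ (M q : ℕ) [NeZero M] : JZero M →+ JZero M :=
  if h : q.Prime ∧ q ^ 2 ∣ M then
    haveI : NeZero q := ⟨h.1.ne_zero⟩
    haveI : NeZero (M / q) := ⟨ne_zero_div_of_sq_dvd h.2⟩
    castEnd (Nat.div_mul_cancel ((dvd_pow_self q two_ne_zero).trans h.2)).symm (bOp (M / q) q)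
  else 0

theorem sq_dvd_of_eq_mul {M M₁ q : ℕ} (hM : M = M₁ * q) (hq1 : q ∣ M₁) : q ^ 2 ∣ M := by
  obtain ⟨m, rfl⟩ := hq1
  exact ⟨m, by rw [hM]; ring⟩

/-- At a level `M = M₁ * q` with `q` prime, `q ∣ M₁`, the canonical operator is `aOp M₁ q`. -/
theorem aJ_eq {M M₁ q : ℕ} [NeZero M] [NeZero M₁] [NeZero q] (hq : q.Prime) (hM : M = M₁ * q)
    (hq1 : q ∣ M₁) : aJ M q = castEnd hM (aOp M₁ q) := by
  have h1 : M₁ = M / q := by rw [hM, Nat.mul_div_cancel _ hq.pos]
  subst h1
  unfold aJ
  rw [dif_pos ⟨hq, sq_dvd_of_eq_mul hM hq1⟩]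

/-- At a level `M = M₁ * q` with `q` prime, `q ∣ M₁`, the canonical operator is `bOp M₁ q`. -/
theorem bJ_eq {M M₁ q : ℕ} [NeZero M] [NeZero M₁] [NeZero q] (hq : q.Prime) (hM : M = M₁ * q)
    (hq1 : q ∣ M₁) : bJ M q = castEnd hM (bOp M₁ q) := by
  have h1 : M₁ = M / q := by rw [hM, Nat.mul_div_cancel _ hq.pos]
  subst h1
  unfold bJ
  rw [dif_pos ⟨hq, sq_dvd_of_eq_mul hM hq1⟩]

/-- `aJ M q` commutes with the Galois action (every `M`, `q`). -/
theorem galois_smul_aJ (M q : ℕ) [NeZero M] (σ : GQ) (x : JZero M) :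
    σ • aJ M q x = aJ M q (σ • x) := by
  by_cases h : q.Prime ∧ q ^ 2 ∣ M
  · haveI : NeZero q := ⟨h.1.ne_zero⟩
    haveI : NeZero (M / q) := ⟨ne_zero_div_of_sq_dvd h.2⟩
    unfold aJ
    rw [dif_pos h]
    exact castEnd_galois _ _ (fun σ x => galois_smul_aOp σ x) σ x
  · unfold aJ
    rw [dif_neg h]
    simp

/-- `bJ M q` commutes with the Galois action (every `M`, `q`). -/
theorem galois_smul_bJ (M q : ℕ) [NeZero M] (σ : GQ) (x : JZero M) :
    σ • bJ M q x = bJ M q (σ • x) := by
  by_cases h : q.Prime ∧ q ^ 2 ∣ M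
  · haveI : NeZero q := ⟨h.1.ne_zero⟩
    haveI : NeZero (M / q) := ⟨ne_zero_div_of_sq_dvd h.2⟩
    unfold bJ
    rw [dif_pos h]
    exact castEnd_galois _ _ (fun σ x => galois_smul_bOp σ x) σ x
  · unfold bJ
    rw [dif_neg h]
    simp

end General

end

end Fermat.Agent.S36.helper4856
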