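/-
S36, brick F2-UNIT part (U4) (board row 2453 = the one backup of row 2168; findings 3225 (U)).
Author: helper4857.  Sorry-free; Mathlib + two Prelude definition modules + landed S28 / Lib files.

# The integral structure of the modular unit `Δ(t) / Δ(t^q)` and its reduction modulo `q`

With `E = etaProd = ∏ (1 - tⁿ) ∈ ℤ⟦t⟧` and `Δ = t E²⁴` (`DeltaZ`, `DeltaQ`, `DeltaL`):

* `deltaW q = (E(t^q) / E(t))²⁴` and `deltaWInv q = (E(t) / E(t^q))²⁴` are mutually inverse
  elements of `1 + t ℤ⟦t⟧`;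
* `deltaQuotZ q = t^(q-1) * deltaW q` and `deltaUnitZ q = t^(1-q) * deltaWInv q` are mutually
  inverse integral Laurent series with
  `coeffMap (Int.castRingHom ℚ) (deltaQuotZ q) = qExpand ℚ q DeltaL / DeltaL`   (`Δ(t^q)/Δ(t)`),
  `coeffMap (Int.castRingHom ℚ) (deltaUnitZ q) = DeltaL / qExpand ℚ q DeltaL`   (`Δ(t)/Δ(t^q)`);
* over every commutative ring `k` of characteristic `q` (`q` prime), with
  `φ = Int.castRingHom k`:
  `coeffMap φ (deltaQuotZ q) = (coeffMap φ DeltaLZ) ^ (q - 1)` and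
  `coeffMap φ (deltaUnitZ q) * (coeffMap φ DeltaLZ) ^ (q - 1) = 1`,
  i.e. `Δ(t^q)/Δ(t) ≡ Δ^(q-1)` and `Δ(t)/Δ(t^q) ≡ Δ^(1-q)` modulo `q`.
-/
import Mathlib
import Fermat.Prelude.Def_ModularCurve_X0
import Fermat.Prelude.Def_ModularCurve_LaurentCoeff
import Fermat.Agent.S28.helper4768_DegSturm
import Fermat.Agent.Lib.helper3874_Hauptmodul

set_option autoImplicit false

namespace Fermat.Agent.S36.helper4857

open PowerSeries ModularCurve
open Fermat.Agent.Lib.helper3874 (etaInv etaProd_mul_etaInv constantCoeff_etaInv DeltaZ map_DeltaZ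
  expand_etaProd_mul_expand_etaInv expand_DeltaZ)
open Fermat.Agent.S28.helper4768 (DeltaL DeltaQ ofPS qExpand_ofPS DeltaL_ne_zero)

noncomputable section

/-! ## Generic lemmas -/

section Generic

variable {R S : Type*} [CommRing R] [CommRing S]

/-- `coeffMap` on the image of power series is `PowerSeries.map`. -/
theorem coeffMap_ofPowerSeries' (f : R →+* S) (p : PowerSeries R) :
    coeffMap f (HahnSeries.ofPowerSeries ℤ R p) = HahnSeries.ofPowerSeries ℤ S (p.map f) := by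
  ext n
  rw [coeffMap_coeff, PowerSeries.coeff_coe, PowerSeries.coeff_coe]
  split_ifs with h
  · exact map_zero f
  · rw [PowerSeries.coeff_map]

/-- **Frobenius for integral power series.**  For `g ∈ ℤ⟦t⟧` and a commutative ring `k` of
characteristic `p`, the image of `g(t^p)` in `k⟦t⟧` is the `p`-th power of the image of `g`. -/
theorem map_expand_eq_pow (p : ℕ) (hp : p ≠ 0) (k : Type*) [CommRing k] [ExpChar k p]
    (g : PowerSeries ℤ) :
    (PowerSeries.expand p hp g).map (Int.castRingHom k) = (g.map (Int.castRingHom k)) ^ p := by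
  have h := MvPowerSeries.map_frobenius_expand (R := k) (σ := Unit) p hp
    (f := g.map (Int.castRingHom k))
  have h1 : (PowerSeries.expand p hp g).map (Int.castRingHom k)
      = PowerSeries.expand p hp (g.map (Int.castRingHom k)) :=
    PowerSeries.map_expand p hp (Int.castRingHom k) g
  have h2 : PowerSeries.map (frobenius k p)
        ((PowerSeries.expand p hp g).map (Int.castRingHom k))
      = (PowerSeries.expand p hp g).map (Int.castRingHom k) := by
    ext n
    rw [PowerSeries.coeff_map, PowerSeries.coeff_map]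
    exact map_intCast (frobenius k p) _
  rw [← h2, h1]
  exact h

end Generic

/-! ## The integral unit `(E(t^q)/E(t))²⁴` -/

section Unit

variable (q : ℕ) [NeZero q]

/-- `(E(t^q) / E(t))²⁴ ∈ 1 + t ℤ⟦t⟧`: the unit part of `Δ(t^q) / Δ(t) = t^(q-1) * deltaW q`. -/
def deltaW : PowerSeries ℤ := (PowerSeries.expand q (NeZero.ne q) etaProd * etaInv) ^ 24

/-- `(E(t) / E(t^q))²⁴ ∈ 1 + t ℤ⟦t⟧`: the unit part of `Δ(t) / Δ(t^q) = t^(1-q) * deltaWInv q`. -/
def deltaWInv : PowerSeries ℤ := (etaProd * PowerSeries.expand q (NeZero.ne q) etaInv) ^ 24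

theorem deltaW_mul_deltaWInv : deltaW q * deltaWInv q = 1 := by
  have h1 := etaProd_mul_etaInv
  have h2 := expand_etaProd_mul_expand_etaInv q (NeZero.ne q)
  rw [deltaW, deltaWInv, ← mul_pow]
  calc (PowerSeries.expand q (NeZero.ne q) etaProd * etaInv
          * (etaProd * PowerSeries.expand q (NeZero.ne q) etaInv)) ^ 24
      = ((etaProd * etaInv) * (PowerSeries.expand q (NeZero.ne q) etaProd
          * PowerSeries.expand q (NeZero.ne q) etaInv)) ^ 24 := by ring
    _ = 1 := by rw [h1, h2, one_mul, one_pow]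

theorem deltaWInv_mul_deltaW : deltaWInv q * deltaW q = 1 := by
  rw [mul_comm, deltaW_mul_deltaWInv]

theorem constantCoeff_deltaW : constantCoeff (deltaW q) = 1 := by
  rw [deltaW, map_pow, map_mul, PowerSeries.constantCoeff_expand, constantCoeff_etaProd,
    constantCoeff_etaInv, one_mul, one_pow]

theorem constantCoeff_deltaWInv : constantCoeff (deltaWInv q) = 1 := by
  rw [deltaWInv, map_pow, map_mul, PowerSeries.constantCoeff_expand, constantCoeff_etaProd,
    constantCoeff_etaInv, one_mul, one_pow]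

theorem isUnit_deltaW : IsUnit (deltaW q) :=
  IsUnit.of_mul_eq_one _ (deltaW_mul_deltaWInv q)

theorem isUnit_deltaWInv : IsUnit (deltaWInv q) :=
  IsUnit.of_mul_eq_one _ (deltaWInv_mul_deltaW q)

/-- `deltaW q * E²⁴ = E(t^q)²⁴`. -/
theorem deltaW_mul_etaProd_pow :
    deltaW q * etaProd ^ 24 = PowerSeries.expand q (NeZero.ne q) etaProd ^ 24 := by
  have h1 := etaProd_mul_etaInv
  rw [deltaW, ← mul_pow]
  calc (PowerSeries.expand q (NeZero.ne q) etaProd * etaInv * etaProd) ^ 24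
      = (PowerSeries.expand q (NeZero.ne q) etaProd * (etaProd * etaInv)) ^ 24 := by ring
    _ = _ := by rw [h1, mul_one]

/-- `deltaWInv q * E(t^q)²⁴ = E²⁴`. -/
theorem deltaWInv_mul_expand_etaProd_pow :
    deltaWInv q * PowerSeries.expand q (NeZero.ne q) etaProd ^ 24 = etaProd ^ 24 := by
  have h2 := expand_etaProd_mul_expand_etaInv q (NeZero.ne q)
  rw [deltaWInv, ← mul_pow]
  calc (etaProd * PowerSeries.expand q (NeZero.ne q) etaInv
          * PowerSeries.expand q (NeZero.ne q) etaProd) ^ 24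
      = (etaProd * (PowerSeries.expand q (NeZero.ne q) etaProd
          * PowerSeries.expand q (NeZero.ne q) etaInv)) ^ 24 := by ring
    _ = _ := by rw [h2, mul_one]

/-- `t * Δ(t^q) = t^q * deltaW q * Δ(t)` in `ℤ⟦t⟧`. -/
theorem X_mul_expand_DeltaZ :
    (X : PowerSeries ℤ) * PowerSeries.expand q (NeZero.ne q) DeltaZ = X ^ q * deltaW q * DeltaZ := by
  rw [expand_DeltaZ, DeltaZ]
  calc (X : PowerSeries ℤ) * (X ^ q * PowerSeries.expand q (NeZero.ne q) etaProd ^ 24)
      = X ^ q * X * PowerSeries.expand q (NeZero.ne q) etaProd ^ 24 := by ring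
    _ = X ^ q * X * (deltaW q * etaProd ^ 24) := by rw [deltaW_mul_etaProd_pow]
    _ = _ := by ring

/-- `t^q * Δ(t) = t * deltaWInv q * Δ(t^q)` in `ℤ⟦t⟧`. -/
theorem X_pow_mul_DeltaZ :
    (X : PowerSeries ℤ) ^ q * DeltaZ = X * deltaWInv q * PowerSeries.expand q (NeZero.ne q) DeltaZ := by
  rw [expand_DeltaZ, DeltaZ]
  calc (X : PowerSeries ℤ) ^ q * (X * etaProd ^ 24)
      = X ^ q * X * etaProd ^ 24 := by ring
    _ = X ^ q * X * (deltaWInv q * PowerSeries.expand q (NeZero.ne q) etaProd ^ 24) := by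
        rw [deltaWInv_mul_expand_etaProd_pow]
    _ = _ := by ring

/-! ### Reduction modulo `q` -/

/-- **`(E(t^q)/E(t))²⁴ ≡ (E²⁴)^(q-1)` modulo `q`.** -/
theorem map_deltaW (k : Type*) [CommRing k] [ExpChar k q] :
    (deltaW q).map (Int.castRingHom k) = ((etaProd ^ 24).map (Int.castRingHom k)) ^ (q - 1) := by
  have hq : q - 1 + 1 = q := Nat.sub_add_cancel (Nat.one_le_iff_ne_zero.mpr (NeZero.ne q))
  have h1 : etaProd.map (Int.castRingHom k) * etaInv.map (Int.castRingHom k) = 1 := by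
    rw [← map_mul, etaProd_mul_etaInv, map_one]
  have h2 := map_expand_eq_pow q (NeZero.ne q) k etaProd
  rw [deltaW, map_pow, map_mul, h2, map_pow, ← pow_mul, mul_comm 24 (q - 1), pow_mul]
  congr 1
  calc etaProd.map (Int.castRingHom k) ^ q * etaInv.map (Int.castRingHom k)
      = etaProd.map (Int.castRingHom k) ^ (q - 1 + 1) * etaInv.map (Int.castRingHom k) := by
        rw [hq]
    _ = etaProd.map (Int.castRingHom k) ^ (q - 1)
          * (etaProd.map (Int.castRingHom k) * etaInv.map (Int.castRingHom k)) := by ring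
    _ = _ := by rw [h1, mul_one]

/-- **`(E(t)/E(t^q))²⁴ * (E²⁴)^(q-1) ≡ 1` modulo `q`.** -/
theorem map_deltaWInv_mul (k : Type*) [CommRing k] [ExpChar k q] :
    (deltaWInv q).map (Int.castRingHom k) * ((etaProd ^ 24).map (Int.castRingHom k)) ^ (q - 1)
      = 1 := by
  rw [← map_deltaW, ← map_mul, deltaWInv_mul_deltaW, map_one]

/-- `Δ(t^q) ≡ Δ^q` modulo `q`. -/
theorem map_expand_DeltaZ (k : Type*) [CommRing k] [ExpChar k q] :
    (PowerSeries.expand q (NeZero.ne q) DeltaZ).map (Int.castRingHom k)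
      = (DeltaZ.map (Int.castRingHom k)) ^ q :=
  map_expand_eq_pow q (NeZero.ne q) k DeltaZ

end Unit

/-! ## Integral Laurent series -/

section Laurent

variable (q : ℕ) [NeZero q]

/-- `Δ` as an integral Laurent series. -/
def DeltaLZ : LaurentSeries ℤ := HahnSeries.ofPowerSeries ℤ ℤ DeltaZ

/-- `Δ(t^q) / Δ(t) = t^(q-1) * (E(t^q)/E(t))²⁴` as an integral Laurent series. -/
def deltaQuotZ : LaurentSeries ℤ :=
  HahnSeries.single ((q : ℤ) - 1) (1 : ℤ) * HahnSeries.ofPowerSeries ℤ ℤ (deltaW q)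

/-- `Δ(t) / Δ(t^q) = t^(1-q) * (E(t)/E(t^q))²⁴` as an integral Laurent series. -/
def deltaUnitZ : LaurentSeries ℤ :=
  HahnSeries.single (1 - (q : ℤ)) (1 : ℤ) * HahnSeries.ofPowerSeries ℤ ℤ (deltaWInv q)

theorem coeffMap_DeltaLZ : coeffMap (Int.castRingHom ℚ) DeltaLZ = DeltaL := by
  rw [DeltaLZ, coeffMap_ofPowerSeries', map_DeltaZ]
  rfl

theorem deltaQuotZ_mul_deltaUnitZ : deltaQuotZ q * deltaUnitZ q = 1 := by
  have h1 : HahnSeries.ofPowerSeries ℤ ℤ (deltaW q) * HahnSeries.ofPowerSeries ℤ ℤ (deltaWInv q)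
      = 1 := by
    rw [← map_mul, deltaW_mul_deltaWInv, map_one]
  have h2 : HahnSeries.single ((q : ℤ) - 1) (1 : ℤ) * HahnSeries.single (1 - (q : ℤ)) (1 : ℤ)
      = (1 : LaurentSeries ℤ) := by
    rw [HahnSeries.single_mul_single, mul_one, sub_add_sub_cancel, sub_self]
    rfl
  rw [deltaQuotZ, deltaUnitZ]
  calc HahnSeries.single ((q : ℤ) - 1) (1 : ℤ) * HahnSeries.ofPowerSeries ℤ ℤ (deltaW q)
        * (HahnSeries.single (1 - (q : ℤ)) (1 : ℤ) * HahnSeries.ofPowerSeries ℤ ℤ (deltaWInv q))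
      = (HahnSeries.single ((q : ℤ) - 1) (1 : ℤ) * HahnSeries.single (1 - (q : ℤ)) (1 : ℤ))
        * (HahnSeries.ofPowerSeries ℤ ℤ (deltaW q)
          * HahnSeries.ofPowerSeries ℤ ℤ (deltaWInv q)) := by ring
    _ = 1 := by rw [h1, h2, mul_one]

theorem deltaUnitZ_mul_deltaQuotZ : deltaUnitZ q * deltaQuotZ q = 1 := by
  rw [mul_comm, deltaQuotZ_mul_deltaUnitZ]

theorem isUnit_deltaQuotZ : IsUnit (deltaQuotZ q) :=
  IsUnit.of_mul_eq_one _ (deltaQuotZ_mul_deltaUnitZ q)

theorem isUnit_deltaUnitZ : IsUnit (deltaUnitZ q) :=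
  IsUnit.of_mul_eq_one _ (deltaUnitZ_mul_deltaQuotZ q)

/-- `Δ(t^q) = deltaQuotZ q * Δ(t)` as integral Laurent series. -/
theorem deltaQuotZ_mul_DeltaLZ :
    deltaQuotZ q * DeltaLZ
      = HahnSeries.ofPowerSeries ℤ ℤ (PowerSeries.expand q (NeZero.ne q) DeltaZ) := by
  have hX : HahnSeries.single (1 : ℤ) (1 : ℤ) = HahnSeries.ofPowerSeries ℤ ℤ X :=
    HahnSeries.ofPowerSeries_X.symm
  have hXq : HahnSeries.single (q : ℤ) (1 : ℤ) = HahnSeries.ofPowerSeries ℤ ℤ (X ^ q) := by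
    rw [HahnSeries.ofPowerSeries_X_pow]
  have hu : IsUnit (HahnSeries.single (1 : ℤ) (1 : ℤ) : LaurentSeries ℤ) := by
    refine IsUnit.of_mul_eq_one (HahnSeries.single (-1 : ℤ) (1 : ℤ)) ?_
    rw [HahnSeries.single_mul_single, mul_one, add_neg_cancel]
    rfl
  refine hu.mul_left_cancel ?_
  have key := congrArg (HahnSeries.ofPowerSeries ℤ ℤ) (X_mul_expand_DeltaZ q)
  rw [map_mul, map_mul, map_mul, ← hX, ← hXq] at key
  rw [key, deltaQuotZ, DeltaLZ]
  have hs : HahnSeries.single (1 : ℤ) (1 : ℤ) * HahnSeries.single ((q : ℤ) - 1) (1 : ℤ)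
      = (HahnSeries.single (q : ℤ) (1 : ℤ) : LaurentSeries ℤ) := by
    rw [HahnSeries.single_mul_single, mul_one, add_sub_cancel]
  rw [← hs]
  ring

/-- The rational avatar of `deltaQuotZ q` is `Δ(t^q) / Δ(t)` (helper5460's `deltaQuotQ q`). -/
theorem coeffMap_deltaQuotZ :
    coeffMap (Int.castRingHom ℚ) (deltaQuotZ q) = qExpand ℚ q DeltaL / DeltaL := by
  rw [eq_div_iff DeltaL_ne_zero, ← coeffMap_DeltaLZ, ← map_mul, deltaQuotZ_mul_DeltaLZ,
    coeffMap_ofPowerSeries', PowerSeries.map_expand, map_DeltaZ, coeffMap_DeltaLZ]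
  exact (qExpand_ofPS q DeltaQ).symm

theorem qExpand_DeltaL_ne_zero : qExpand ℚ q DeltaL ≠ 0 := fun h =>
  DeltaL_ne_zero ((map_eq_zero_iff _ (RingHom.injective _)).mp h)

/-- The rational avatar of `deltaUnitZ q` is `Δ(t) / Δ(t^q)`. -/
theorem coeffMap_deltaUnitZ :
    coeffMap (Int.castRingHom ℚ) (deltaUnitZ q) = DeltaL / qExpand ℚ q DeltaL := by
  have h := congrArg (coeffMap (Int.castRingHom ℚ)) (deltaUnitZ_mul_deltaQuotZ q)
  rw [map_mul, map_one, coeffMap_deltaQuotZ] at h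
  rw [eq_div_iff (qExpand_DeltaL_ne_zero q)]
  have h3 : coeffMap (Int.castRingHom ℚ) (deltaUnitZ q) * qExpand ℚ q DeltaL
      = coeffMap (Int.castRingHom ℚ) (deltaUnitZ q) * (qExpand ℚ q DeltaL / DeltaL) * DeltaL := by
    field_simp [DeltaL_ne_zero]
  rw [h3, h, one_mul]

/-- `Δ(t^q)/Δ(t)` and `Δ(t)/Δ(t^q)` with coefficients in any field of characteristic zero
(e.g. `Kbar`) come from the integral Laurent series. -/
theorem coeffEmb_deltaQuot (L : Type*) [Field L] [Algebra ℚ L] :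
    coeffEmb L (qExpand ℚ q DeltaL / DeltaL) = coeffMap (Int.castRingHom L) (deltaQuotZ q) := by
  rw [← coeffMap_deltaQuotZ, coeffEmb, coeffMap_coeffMap]
  exact coeffMap_congr (RingHom.ext_int _ _) _

theorem coeffEmb_deltaUnit (L : Type*) [Field L] [Algebra ℚ L] :
    coeffEmb L (DeltaL / qExpand ℚ q DeltaL) = coeffMap (Int.castRingHom L) (deltaUnitZ q) := by
  rw [← coeffMap_deltaUnitZ, coeffEmb, coeffMap_coeffMap]
  exact coeffMap_congr (RingHom.ext_int _ _) _

/-! ### Reduction modulo `q` -/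

/-- **`Δ(t^q)/Δ(t) ≡ Δ^(q-1)` modulo `q`**, as Laurent series over any commutative ring of
characteristic `q`. -/
theorem coeffMap_deltaQuotZ_char (k : Type*) [CommRing k] [ExpChar k q] :
    coeffMap (Int.castRingHom k) (deltaQuotZ q)
      = (coeffMap (Int.castRingHom k) DeltaLZ) ^ (q - 1) := by
  rw [deltaQuotZ, DeltaLZ, map_mul, coeffMap_single, coeffMap_ofPowerSeries',
    coeffMap_ofPowerSeries', map_deltaW, DeltaZ, map_mul, map_mul, mul_pow, PowerSeries.map_X,
    HahnSeries.ofPowerSeries_X, map_pow, map_one, HahnSeries.single_pow, one_pow]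
  congr 2
  have hq : 1 ≤ q := Nat.one_le_iff_ne_zero.mpr (NeZero.ne q)
  rw [nsmul_eq_mul, mul_one]
  push_cast [hq]
  rfl

/-- **`Δ(t)/Δ(t^q) * Δ^(q-1) ≡ 1` modulo `q`**, as Laurent series over any commutative ring of
characteristic `q`: the reduction of the modular unit `Δ(t)/Δ(t^q)` is `Δ^(1-q)`. -/
theorem coeffMap_deltaUnitZ_mul_pow (k : Type*) [CommRing k] [ExpChar k q] :
    coeffMap (Int.castRingHom k) (deltaUnitZ q)
      * (coeffMap (Int.castRingHom k) DeltaLZ) ^ (q - 1) = 1 := by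
  rw [← coeffMap_deltaQuotZ_char, ← map_mul, deltaUnitZ_mul_deltaQuotZ, map_one]

end Laurent

end

end Fermat.Agent.S36.helper4857
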