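import Fermat.Agent.S36.helper5229_InstCusp

/-!
# S36-CUSP-LP (C2) on the terms of record: a cusp lies on ONE component (helper5229)

On the terms of `helper405_KillTerms`: if `P` is a prime of the chart `BK A M₁ q haux i` which is
a cusp (`1 / j ∈ P B_P`), then at most one of the three vertical valuations `VK 0 = Vinf`,
`VK 1 = Vmid`, `VK 2 = Vzero` passes through `P`.

* `cong_frob_of_series` : the Frobenius congruence `b / a ^ q ≡ 1` from expansions;
* `infSigma`, `zeroSigma` : the expansions at `∞` and (after `W_{q²}`) at `0` on `F_{M₁ q,K}`;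
* `cusp_not_inf_mid`, `cusp_not_mid_zero`, `cusp_not_inf_zero` : the three exclusions
  (`Through` form);
* `cusp_one_component` : the `centre` form, all pairs `c ≠ c'`;
* `cusp_mid_only` : at a cusp of `C_mid`, neither `C_∞` nor `C_0` passes.

Hypotheses: `hA : A.LiesOverPrime q` and the `KillInput` field `x_V`.
-/

set_option autoImplicit false
set_option synthInstance.maxHeartbeats 400000
set_option linter.unusedSectionVars false

noncomputable section

namespace Fermat.Agent.S36.helper5229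

open ModularCurve
open Fermat.Agent.S24.helper24 (Kbar FN jBarD jSeries jBar)
open Fermat.Agent.S36.helper405
open Fermat.Agent.S36.helper36 (chart Through)
open Fermat.Agent.S36.helper4913 (locSubring)
open Fermat.Agent.S28.helper328 (twist)
open Fermat.Agent.S36.helper1280 (centre InP)

/-! ## The Frobenius congruence from expansions -/

section CongFrob

variable {F : Type*} [Field F] {L : Type*} [Field L] (A : ValuationSubring L) {k : Type*}
  [Field k] (π : A →+* k)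

/-- If `σ a = X` and `σ b = X(t^q)` for an integral series `X` with non-zero reduction
satisfying `X̄(t^q) = X̄^q`, and `V` is Gauss along `σ`, then `b / a ^ q ≡ 1` modulo `𝔪(V)`. -/
theorem cong_frob_of_series (q : ℕ) [NeZero q] (σ : F →+* LaurentSeries L)
    (V : ValuationSubring F)
    (hV0 : ∀ (x : F) (X : LaurentSeries A), σ x = coeffMap A.subtype X → coeffMap π X = 0 →
      x ∈ V.nonunits)
    (hV1 : ∀ (x : F) (X : LaurentSeries A), σ x = coeffMap A.subtype X → coeffMap π X ≠ 0 →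
      x ∈ V ∧ x⁻¹ ∈ V)
    {a b : F} (Xa : LaurentSeries A) (ha : σ a = coeffMap A.subtype Xa)
    (hb : σ b = coeffMap A.subtype (qExpand A q Xa))
    (hne : coeffMap π Xa ≠ 0) (hfrob : qExpand k q (coeffMap π Xa) = coeffMap π Xa ^ q) :
    Cong V (b * a⁻¹ ^ q) := by
  have ha0 : a ≠ 0 := by
    rintro rfl
    rw [map_zero] at ha
    apply hne
    have hX : Xa = 0 := by
      ext n
      have h1 := congrArg (fun s : LaurentSeries L => s.coeff n) ha
      simp only [HahnSeries.coeff_zero, coeffMap_coeff] at h1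
      exact h1.symm
    rw [hX, map_zero]
  obtain ⟨-, hainv⟩ := hV1 a Xa ha hne
  have h1 : b - a ^ q ∈ V.nonunits := by
    refine hV0 _ (qExpand A q Xa - Xa ^ q) ?_ ?_
    · rw [map_sub, map_pow, hb, ha, map_sub, map_pow]
    · rw [map_sub, map_pow, Fermat.Agent.S36.helper6020.coeffMap_qExpand, hfrob, sub_self]
  have e : b * a⁻¹ ^ q - 1 = (b - a ^ q) * a⁻¹ ^ q := by
    rw [sub_mul, inv_pow, mul_inv_cancel₀ (pow_ne_zero q ha0)]
  show b * a⁻¹ ^ q - 1 ∈ V.nonunits
  rw [e]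
  exact nonunits_mul_mem V h1 (V.pow_mem hainv q)

end CongFrob

section Inc

variable (A : ValuationSubring (AlgebraicClosure ℚ)) (M₁ q : ℕ) [NeZero M₁] [NeZero q]
  (hq : q.Prime) (hqM : q ∣ M₁) (hq2 : ¬ q ^ 2 ∣ M₁) (haux : Fermat.Agent.S36.helper1335.AuxOK M₁ q)

/-- The expansion at `∞` on `F_{N,K}`, with values in `ℚ̄((t))`. -/
def infSigma (N : ℕ) : FK A N →+* LaurentSeries Kbar :=
  (laurentBaseChange Kbar (modularFunctionFieldFull N)).val.toRingHom.comp (lh A N)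

/-- The expansion at `∞` after `W_{q²}` on `F_{M₁ q,K}`. -/
def zeroSigma : FK A (M₁ * q) →+* LaurentSeries Kbar :=
  (laurentBaseChange Kbar (modularFunctionFieldFull (M₁ * q))).val.toRingHom.comp
    ((Wsq M₁ q hq hqM hq2).toAlgHom.toRingHom.comp (lh A (M₁ * q)))

theorem infSigma_jK (N : ℕ) :
    infSigma A N (Fermat.Agent.S37.helper1588.jK (KI A) N)
      = coeffMap A.subtype (jqModC A) := by
  show coeffMap (algebraMap (KI A) (AlgebraicClosure ℚ)) (jqModC (KI A)) = _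
  rw [coeffMap_jqModC, coeffMap_jqModC]

theorem infSigma_jKd (N d : ℕ) [NeZero d] (hd : d ∣ N) :
    infSigma A N (Fermat.Agent.S37.helper1588.jKd (KI A) N d hd)
      = coeffMap A.subtype (qExpand A d (jqModC A)) := by
  show coeffMap (algebraMap (KI A) (AlgebraicClosure ℚ)) (qExpand (KI A) d (jqModC (KI A))) = _
  rw [Fermat.Agent.S36.helper6020.coeffMap_qExpand, coeffMap_jqModC,
    Fermat.Agent.S36.helper6020.coeffMap_qExpand, coeffMap_jqModC]

theorem coe_jBarD_eq (N d : ℕ) [NeZero d] (hd : d ∣ N) :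
    ((jBarD N d hd : FN N) : LaurentSeries Kbar) = coeffMap A.subtype (qExpand A d (jqModC A)) := by
  show jSeries d = _
  rw [Fermat.Agent.S36.helper987.jSeries_eq_qExpand_jK, Fermat.Agent.S18.helper987.jK_eq,
    Fermat.Agent.S36.helper6020.coeffMap_qExpand, coeffMap_jqModC]

/-- `W_{q²} j = j(t^{q²})`. -/
theorem zeroSigma_jK (hd : q * q ∣ M₁ * q) :
    zeroSigma A M₁ q hq hqM hq2 (Fermat.Agent.S37.helper1588.jK (KI A) (M₁ * q))
      = coeffMap A.subtype (qExpand A (q * q) (jqModC A)) := by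
  show ((Wsq M₁ q hq hqM hq2 (lh A (M₁ * q) _) : FN (M₁ * q)) : LaurentSeries Kbar) = _
  rw [lh_jK]
  have h := Fermat.Agent.S35.helper1219.atkinLehnerHall_jBar (M₁ * q) (q * q) hd
    (coprime_sq_level hq hqM hq2)
  unfold Wsq
  show ((Fermat.Agent.S35.helper1219.atkinLehnerHall (M₁ * q) (q * q) _ _ (jBar (M₁ * q)) :
    FN (M₁ * q)) : LaurentSeries Kbar) = _
  rw [h]
  exact coe_jBarD_eq A (M₁ * q) (q * q) hd

/-- `W_{q²} j_q = j_q`. -/
theorem zeroSigma_jKd_q (hd : q ∣ M₁ * q) :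
    zeroSigma A M₁ q hq hqM hq2 (Fermat.Agent.S37.helper1588.jKd (KI A) (M₁ * q) q hd)
      = coeffMap A.subtype (qExpand A q (jqModC A)) := by
  show ((Wsq M₁ q hq hqM hq2 (lh A (M₁ * q) _) : FN (M₁ * q)) : LaurentSeries Kbar) = _
  rw [lh_jKd]
  have hidx : Fermat.Agent.S35.helper1219.hallIdx (q * q) q = q := by
    rw [Fermat.Agent.S35.helper1219.hallIdx_def, Nat.gcd_mul_left_left,
      Nat.mul_div_cancel _ hq.pos, Nat.div_self hq.pos, mul_one]
  have hne : NeZero (Fermat.Agent.S35.helper1219.hallIdx (q * q) q) := ⟨by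
    rw [hidx]; exact hq.ne_zero⟩
  have hd' : Fermat.Agent.S35.helper1219.hallIdx (q * q) q ∣ M₁ * q := by rw [hidx]; exact hd
  have h := Fermat.Agent.S35.helper1219.atkinLehnerHall_jBarD (M₁ * q) (q * q)
    (sq_dvd_level hqM) (coprime_sq_level hq hqM hq2) q hd hd'
  unfold Wsq
  show ((Fermat.Agent.S35.helper1219.atkinLehnerHall (M₁ * q) (q * q) _ _
    (jBarD (M₁ * q) q hd) : FN (M₁ * q)) : LaurentSeries Kbar) = _
  rw [h, jBarD_congr (M₁ * q) hidx hd' hd]
  exact coe_jBarD_eq A (M₁ * q) q hd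

end Inc

/-! ## The congruences at `Vinf`, `Vmid`, `Vzero` -/

section Cong

variable (A : ValuationSubring (AlgebraicClosure ℚ)) (M₁ q : ℕ) [NeZero M₁] [NeZero q]
  (hq : q.Prime) (hqM : q ∣ M₁) (hq2 : ¬ q ^ 2 ∣ M₁)

theorem jqModC_ne_zero_field (k : Type*) [Field k] : jqModC k ≠ 0 := by
  intro h0
  have h := ModularCurve.coeff_jqModC_neg_one k
  rw [h0, HahnSeries.coeff_zero] at h
  exact zero_ne_one h

include hq in
/-- `j_q / j^q ≡ 1` at `v_∞`. -/
theorem cong_inf_one (hA : A.LiesOverPrime q) (N : ℕ) (hd : q ∣ N) :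
    Cong (VinfAt A N) (Fermat.Agent.S37.helper1588.jKd (KI A) N q hd *
      (Fermat.Agent.S37.helper1588.jK (KI A) N)⁻¹ ^ q) := by
  have hchar : CharP (IsLocalRing.ResidueField A) q := charP_residue_of_mem_nonunits A hq hA
  obtain ⟨hV0, hV1⟩ := hV_of_mem_gaussRing A (IsLocalRing.residue A) (infSigma A N)
    (VinfAt A N) (fun x => Iff.rfl)
  refine cong_frob_of_series A (IsLocalRing.residue A) q (infSigma A N) (VinfAt A N) hV0 hV1
    (jqModC A) (infSigma_jK A N) (infSigma_jKd A N q hd) ?_ ?_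
  · rw [coeffMap_jqModC]
    exact jqModC_ne_zero_field _
  · rw [coeffMap_jqModC]
    exact qExpand_jqModC_eq_pow _ q hq

include hq in
/-- `j_{q²} / j_q^q ≡ 1` at `v_∞`. -/
theorem cong_inf_two (hA : A.LiesOverPrime q) (N : ℕ) (hd : q ∣ N) (hdd : q * q ∣ N) :
    Cong (VinfAt A N) (Fermat.Agent.S37.helper1588.jKd (KI A) N (q * q) hdd *
      (Fermat.Agent.S37.helper1588.jKd (KI A) N q hd)⁻¹ ^ q) := by
  have hchar : CharP (IsLocalRing.ResidueField A) q := charP_residue_of_mem_nonunits A hq hA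
  obtain ⟨hV0, hV1⟩ := hV_of_mem_gaussRing A (IsLocalRing.residue A) (infSigma A N)
    (VinfAt A N) (fun x => Iff.rfl)
  refine cong_frob_of_series A (IsLocalRing.residue A) q (infSigma A N) (VinfAt A N) hV0 hV1
    (qExpand A q (jqModC A)) (infSigma_jKd A N q hd) ?_ ?_ ?_
  · rw [infSigma_jKd, qExpand_qExpand]
  · rw [Fermat.Agent.S36.helper6020.coeffMap_qExpand, coeffMap_jqModC,
      qExpand_jqModC_eq_pow _ q hq]
    exact pow_ne_zero q (jqModC_ne_zero_field _)
  · rw [Fermat.Agent.S36.helper6020.coeffMap_qExpand, coeffMap_jqModC,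
      qExpand_jqModC_eq_pow _ q hq, map_pow, qExpand_jqModC_eq_pow _ q hq]

/-- `j / j_q^q ≡ 1` at `v_0`. -/
theorem cong_zero (hA : A.LiesOverPrime q) (hd : q ∣ M₁ * q) :
    Cong (Vzero A M₁ q hq hqM hq2) (Fermat.Agent.S37.helper1588.jK (KI A) (M₁ * q) *
      (Fermat.Agent.S37.helper1588.jKd (KI A) (M₁ * q) q hd)⁻¹ ^ q) := by
  have hchar : CharP (IsLocalRing.ResidueField A) q := charP_residue_of_mem_nonunits A hq hA
  obtain ⟨hV0, hV1⟩ := hV_of_mem_gaussRing A (IsLocalRing.residue A)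
    (zeroSigma A M₁ q hq hqM hq2) (Vzero A M₁ q hq hqM hq2) (fun x => Iff.rfl)
  refine cong_frob_of_series A (IsLocalRing.residue A) q (zeroSigma A M₁ q hq hqM hq2)
    (Vzero A M₁ q hq hqM hq2) hV0 hV1
    (qExpand A q (jqModC A)) (zeroSigma_jKd_q A M₁ q hq hqM hq2 hd) ?_ ?_ ?_
  · rw [zeroSigma_jK A M₁ q hq hqM hq2 (sq_dvd_level hqM), qExpand_qExpand]
  · rw [Fermat.Agent.S36.helper6020.coeffMap_qExpand, coeffMap_jqModC,
      qExpand_jqModC_eq_pow _ q hq]
    exact pow_ne_zero q (jqModC_ne_zero_field _)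
  · rw [Fermat.Agent.S36.helper6020.coeffMap_qExpand, coeffMap_jqModC,
      qExpand_jqModC_eq_pow _ q hq, map_pow, qExpand_jqModC_eq_pow _ q hq]

/-- `j_q / j^q ≡ 1` and `j_{q²} / j ≡ 1` at `v_mid`. -/
theorem cong_mid (hA : A.LiesOverPrime q) :
    Cong (Vmid A M₁ q hq hqM hq2)
        (Fermat.Agent.S37.helper1588.jKd (KI A) (M₁ * q) q
            ((dvd_mul_left q q).trans (sq_dvd_level hqM)) *
          (Fermat.Agent.S37.helper1588.jK (KI A) (M₁ * q))⁻¹ ^ q) ∧
      Cong (Vmid A M₁ q hq hqM hq2)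
        (Fermat.Agent.S37.helper1588.jKd (KI A) (M₁ * q) (q * q) (sq_dvd_level hqM) *
          (Fermat.Agent.S37.helper1588.jK (KI A) (M₁ * q))⁻¹) := by
  have hchar : CharP (IsLocalRing.ResidueField A) q := charP_residue_of_mem_nonunits A hq hA
  obtain ⟨ζ, hζ1, hζ2⟩ := exists_unit_of_pow_eq_one A q hq (midZeta q)
    ((midZeta_spec q).pow_eq_one)
  obtain ⟨hV0, hV1⟩ := hV_of_mem_gaussRing A (IsLocalRing.residue A)
    (midSigma A M₁ q hq hqM hq2 (midZeta q) (midZeta_spec q)) (Vmid A M₁ q hq hqM hq2)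
    (fun x => Iff.rfl)
  exact cong_mid_of_series A (IsLocalRing.residue A) q hq ζ hζ2
    (midSigma A M₁ q hq hqM hq2 (midZeta q) (midZeta_spec q)) (Vmid A M₁ q hq hqM hq2) hV0 hV1
    (midSigma_jK A M₁ q hq hqM hq2 _ _) (midSigma_jKd_q A M₁ q hq hqM hq2 _ _ _)
    (by rw [hζ1]; exact midSigma_jKd_sq A M₁ q hq hqM hq2 _ _ _)

end Cong

/-! ## (C2) on the terms of record -/

section Excl

variable (A : ValuationSubring (AlgebraicClosure ℚ)) (M₁ q : ℕ) [NeZero M₁] [NeZero q]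
  (hq : q.Prime) (hqM : q ∣ M₁) (hq2 : ¬ q ^ 2 ∣ M₁) (haux : Fermat.Agent.S36.helper1335.AuxOK M₁ q)

/-- The charts lie in the three vertical valuation rings (from the `KillInput` field `x_V`). -/
theorem BK_le_VK
    (hxV : ∀ c : Fin 3, xK A M₁ q haux ∈ VK A M₁ q hq hqM hq2 c ∧
      (xK A M₁ q haux)⁻¹ ∈ VK A M₁ q hq hqM hq2 c) (c : Fin 3) (i : Fin 2) :
    BK A M₁ q haux i ≤ (VK A M₁ q hq hqM hq2 c).toSubring := by
  intro b hb
  refine Fermat.Agent.S36.helper2781.mem_valuationSubring_of_mem_chartRing (OI A)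
    (VK A M₁ q hq hqM hq2 c)
    (fun a ha => (const_mem_VK_iff A M₁ q hq hqM hq2 c a).mpr ha) _ ?_ hb
  intro y hy
  by_cases hi : i = 0
  · rw [if_pos hi, Set.mem_singleton_iff] at hy
    rw [hy]; exact (hxV c).1
  · rw [if_neg hi, Set.mem_singleton_iff] at hy
    rw [hy]; exact (hxV c).2

include hq hqM in
/-- The cusp setting of `CuspKit` at a cuspidal prime of a chart. -/
theorem cuspCore_modular (i : Fin 2) (P : Ideal (BK A M₁ q haux i)) [P.IsPrime]
    (hcusp : NonUnit (locSubring (BK A M₁ q haux i) P)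
      (Fermat.Agent.S37.helper1588.jK (KI A) (M₁ * q))⁻¹) :
    ∃ Φ : Polynomial (Polynomial ℤ), CuspCore q (locSubring (BK A M₁ q haux i) P) Φ
      (Fermat.Agent.S37.helper1588.jK (KI A) (M₁ * q))
      (Fermat.Agent.S37.helper1588.jKd (KI A) (M₁ * q) q
        ((dvd_mul_left q q).trans (sq_dvd_level hqM)))
      (Fermat.Agent.S37.helper1588.jKd (KI A) (M₁ * q) (q * q) (sq_dvd_level hqM)) := by
  obtain ⟨Φ, G, hΦs, -, -, -, r1, r2, r3, r4, hj0, hjq0, hjqq0, -⟩ :=
    exists_kron_core q hq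
      (laurentBaseChange (KI A) (modularFunctionFieldFull (M₁ * q))).val.toRingHom
      (j := Fermat.Agent.S37.helper1588.jK (KI A) (M₁ * q))
      (jq := Fermat.Agent.S37.helper1588.jKd (KI A) (M₁ * q) q
        ((dvd_mul_left q q).trans (sq_dvd_level hqM)))
      (jqq := Fermat.Agent.S37.helper1588.jKd (KI A) (M₁ * q) (q * q) (sq_dvd_level hqM))
      rfl rfl rfl
  exact ⟨Φ, { isLocal := isLocalSub_locSubring (BK A M₁ q haux i) P
              intClosed := intClosedIn_locSubring (BK A M₁ q haux i) P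
                (Fermat.Agent.S36.helper248.intClosedIn_chartRing (A0 := OI A) _)
              shape := hΦs
              j_ne := hj0
              jq_ne := hjq0
              jqq_ne := hjqq0
              rel1 := r1
              rel2 := r2
              rel3 := r3
              rel4 := r4
              cusp := hcusp }⟩

/-- **A cusp does not lie on both `C_∞` and `C_mid`.** -/
theorem cusp_not_inf_mid (hA : A.LiesOverPrime q)
    (hxV : ∀ c : Fin 3, xK A M₁ q haux ∈ VK A M₁ q hq hqM hq2 c ∧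
      (xK A M₁ q haux)⁻¹ ∈ VK A M₁ q hq hqM hq2 c)
    (i : Fin 2) (P : Ideal (BK A M₁ q haux i)) [P.IsPrime]
    (hcusp : NonUnit (locSubring (BK A M₁ q haux i) P)
      (Fermat.Agent.S37.helper1588.jK (KI A) (M₁ * q))⁻¹)
    (h0 : Through (BK A M₁ q haux i) P (Vinf A M₁ q))
    (h1 : Through (BK A M₁ q haux i) P (Vmid A M₁ q hq hqM hq2)) : False := by
  obtain ⟨Φ, hcore⟩ := cuspCore_modular A M₁ q hq hqM haux i P hcusp
  obtain ⟨c1, c2⟩ := cong_mid A M₁ q hq hqM hq2 hA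
  exact hcore.not_le_of_cong_e2 hq.two_le (Vinf A M₁ q) (Vmid A M₁ q hq hqM hq2)
    (locSubring_le_valuationSubring (BK A M₁ q haux i) P _ (BK_le_VK A M₁ q hq hqM hq2 haux hxV 0 i) h0)
    (locSubring_le_valuationSubring (BK A M₁ q haux i) P _ (BK_le_VK A M₁ q hq hqM hq2 haux hxV 1 i) h1)
    (cong_inf_two A q hq hA (M₁ * q) _ _) c1 c2

/-- **A cusp does not lie on both `C_mid` and `C_0`.** -/
theorem cusp_not_mid_zero (hA : A.LiesOverPrime q)
    (hxV : ∀ c : Fin 3, xK A M₁ q haux ∈ VK A M₁ q hq hqM hq2 c ∧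
      (xK A M₁ q haux)⁻¹ ∈ VK A M₁ q hq hqM hq2 c)
    (i : Fin 2) (P : Ideal (BK A M₁ q haux i)) [P.IsPrime]
    (hcusp : NonUnit (locSubring (BK A M₁ q haux i) P)
      (Fermat.Agent.S37.helper1588.jK (KI A) (M₁ * q))⁻¹)
    (h1 : Through (BK A M₁ q haux i) P (Vmid A M₁ q hq hqM hq2))
    (h2 : Through (BK A M₁ q haux i) P (Vzero A M₁ q hq hqM hq2)) : False := by
  obtain ⟨Φ, hcore⟩ := cuspCore_modular A M₁ q hq hqM haux i P hcusp
  obtain ⟨c1, -⟩ := cong_mid A M₁ q hq hqM hq2 hA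
  exact hcore.not_le_of_cong_e1 hq.two_le (Vmid A M₁ q hq hqM hq2) (Vzero A M₁ q hq hqM hq2)
    (locSubring_le_valuationSubring (BK A M₁ q haux i) P _ (BK_le_VK A M₁ q hq hqM hq2 haux hxV 1 i) h1)
    (locSubring_le_valuationSubring (BK A M₁ q haux i) P _ (BK_le_VK A M₁ q hq hqM hq2 haux hxV 2 i) h2)
    c1 (cong_zero A M₁ q hq hqM hq2 hA _)

/-- **A cusp does not lie on both `C_∞` and `C_0`.** -/
theorem cusp_not_inf_zero (hA : A.LiesOverPrime q)
    (hxV : ∀ c : Fin 3, xK A M₁ q haux ∈ VK A M₁ q hq hqM hq2 c ∧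
      (xK A M₁ q haux)⁻¹ ∈ VK A M₁ q hq hqM hq2 c)
    (i : Fin 2) (P : Ideal (BK A M₁ q haux i)) [P.IsPrime]
    (hcusp : NonUnit (locSubring (BK A M₁ q haux i) P)
      (Fermat.Agent.S37.helper1588.jK (KI A) (M₁ * q))⁻¹)
    (h0 : Through (BK A M₁ q haux i) P (Vinf A M₁ q))
    (h2 : Through (BK A M₁ q haux i) P (Vzero A M₁ q hq hqM hq2)) : False := by
  obtain ⟨Φ, hcore⟩ := cuspCore_modular A M₁ q hq hqM haux i P hcusp
  exact hcore.not_le_of_cong_e1 hq.two_le (Vinf A M₁ q) (Vzero A M₁ q hq hqM hq2)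
    (locSubring_le_valuationSubring (BK A M₁ q haux i) P _ (BK_le_VK A M₁ q hq hqM hq2 haux hxV 0 i) h0)
    (locSubring_le_valuationSubring (BK A M₁ q haux i) P _ (BK_le_VK A M₁ q hq hqM hq2 haux hxV 2 i) h2)
    (cong_inf_one A q hq hA (M₁ * q) _) (cong_zero A M₁ q hq hqM hq2 hA _)

/-- **(C2), `centre` form: at most one component passes through a cusp.** -/
theorem cusp_one_component (hA : A.LiesOverPrime q)
    (hxV : ∀ c : Fin 3, xK A M₁ q haux ∈ VK A M₁ q hq hqM hq2 c ∧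
      (xK A M₁ q haux)⁻¹ ∈ VK A M₁ q hq hqM hq2 c)
    (i : Fin 2) (P : Ideal (BK A M₁ q haux i)) [P.IsPrime]
    (hcusp : NonUnit (locSubring (BK A M₁ q haux i) P)
      (Fermat.Agent.S37.helper1588.jK (KI A) (M₁ * q))⁻¹)
    (c c' : Fin 3) (hcc : c ≠ c')
    (h : centre (BK A M₁ q haux i) (VK A M₁ q hq hqM hq2 c) ≤ P)
    (h' : centre (BK A M₁ q haux i) (VK A M₁ q hq hqM hq2 c') ≤ P) : False := by
  have thr : ∀ c'' : Fin 3, centre (BK A M₁ q haux i) (VK A M₁ q hq hqM hq2 c'') ≤ P →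
      Through (BK A M₁ q haux i) P (VK A M₁ q hq hqM hq2 c'') :=
    fun c'' hc b hb => hc (Fermat.Agent.S36.helper1280.subset_centre hb)
  have t := thr c h
  have t' := thr c' h'
  fin_cases c <;> fin_cases c'
  · exact hcc rfl
  · exact cusp_not_inf_mid A M₁ q hq hqM hq2 haux hA hxV i P hcusp t t'
  · exact cusp_not_inf_zero A M₁ q hq hqM hq2 haux hA hxV i P hcusp t t'
  · exact cusp_not_inf_mid A M₁ q hq hqM hq2 haux hA hxV i P hcusp t' t
  · exact hcc rfl
  · exact cusp_not_mid_zero A M₁ q hq hqM hq2 haux hA hxV i P hcusp t t'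
  · exact cusp_not_inf_zero A M₁ q hq hqM hq2 haux hA hxV i P hcusp t' t
  · exact cusp_not_mid_zero A M₁ q hq hqM hq2 haux hA hxV i P hcusp t' t
  · exact hcc rfl

/-- At a cusp of `C_mid`, neither `C_∞` nor `C_0` passes (the `hnoo`, `hn0` inputs of
`helper2844.exists_locGen_of_hMID`, and the two extra premises of `hMID`). -/
theorem cusp_mid_only (hA : A.LiesOverPrime q)
    (hxV : ∀ c : Fin 3, xK A M₁ q haux ∈ VK A M₁ q hq hqM hq2 c ∧
      (xK A M₁ q haux)⁻¹ ∈ VK A M₁ q hq hqM hq2 c)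
    (i : Fin 2) (P : Ideal (BK A M₁ q haux i)) [P.IsPrime]
    (hcusp : NonUnit (locSubring (BK A M₁ q haux i) P)
      (Fermat.Agent.S37.helper1588.jK (KI A) (M₁ * q))⁻¹)
    (h1 : centre (BK A M₁ q haux i) (VK A M₁ q hq hqM hq2 1) ≤ P) :
    ¬ centre (BK A M₁ q haux i) (VK A M₁ q hq hqM hq2 0) ≤ P ∧
      ¬ centre (BK A M₁ q haux i) (VK A M₁ q hq hqM hq2 2) ≤ P :=
  ⟨fun h0 => cusp_one_component A M₁ q hq hqM hq2 haux hA hxV i P hcusp 0 1 (by decide) h0 h1,
   fun h2 => cusp_one_component A M₁ q hq hqM hq2 haux hA hxV i P hcusp 1 2 (by decide) h1 h2⟩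

end Excl

end Fermat.Agent.S36.helper5229
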