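import Fermat.Agent.S36.helper5229_InstCusp

/-!
# S36, block LP, row `mid_cusp` (helper5229)

The body of `hMID` of `helper8039.lpProp_of_cases_baseDVR` at the CUSPIDAL points of `C_mid`, on
the terms of `helper405_KillTerms`, under the four cuspidality predicates which are the literal
complements of the non-cuspidality hypotheses of `helper3919.hMID_t4 / hMID_t9 / hMID_u4 /
hMID_u9`:

* chart `0`, `q ≠ 2` : `τ * (τ + 16) ∈ P`,                `(τ : F) = xK`;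
* chart `0`, `q = 2` : `τ * (τ ^ 2 + 9 * τ + 27) ∈ P`,    `(τ : F) = xK`;
* chart `1`, `q ≠ 2` : `υ * (16 * υ + 1) ∈ P`,            `(υ : F) = xK⁻¹`;
* chart `1`, `q = 2` : `υ * (27 * υ ^ 2 + 9 * υ + 1) ∈ P`, `(υ : F) = xK⁻¹`.

Hypotheses left: `hA : A.LiesOverPrime q`, the `KillInput` fields `x_V` (at `c = 1`) and
`unif_mid`, and (LOC) for `V 1` on the chart.
-/

set_option autoImplicit false
set_option synthInstance.maxHeartbeats 400000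
set_option linter.unusedSectionVars false

noncomputable section

namespace Fermat.Agent.S36.helper5229

open ModularCurve
open Fermat.Agent.S36.helper405
open Fermat.Agent.S36.helper1013 (IsUnifOf UnitOf)
open Fermat.Agent.S36.helper4913 (locSubring)
open Fermat.Agent.S36.helper1280 (centre InP)

theorem inP_of_mem {F : Type*} [Field F] {B : Subring F} {P : Ideal B} (b : B) (hb : b ∈ P)
    {y : F} (hy : (b : F) = y) : InP B P y := by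
  subst hy
  exact ⟨b.2, hb⟩

section Row

variable (A : ValuationSubring (AlgebraicClosure ℚ)) (M₁ q : ℕ) [NeZero M₁] [NeZero q]
  (hq : q.Prime) (hqM : q ∣ M₁) (hq2 : ¬ q ^ 2 ∣ M₁) (haux : Fermat.Agent.S36.helper1335.AuxOK M₁ q)

/-- Chart `1`, `q ≠ 2` (`υ = 1 / t₄`): the points over `υ (16 υ + 1) = 0` are cusps. -/
theorem cusp_chart_one_of_ne_two (h2 : q ≠ 2)
    (P : Ideal (BK A M₁ q haux 1)) [P.IsPrime]
    (hD : InP (BK A M₁ q haux 1) P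
      ((xK A M₁ q haux)⁻¹ * (16 * (xK A M₁ q haux)⁻¹ + 1))) :
    NonUnit (locSubring (BK A M₁ q haux 1) P)
      (Fermat.Agent.S37.helper1588.jK (KI A) (M₁ * q))⁻¹ := by
  have e : (xK A M₁ q haux)⁻¹ * (16 * (xK A M₁ q haux)⁻¹ + 1)
      = (xK A M₁ q haux)⁻¹ * (1 + 16 * (xK A M₁ q haux)⁻¹) := by ring
  rw [e] at hD
  exact nonUnit_inv_jK_t4_inv (BK A M₁ q haux 1) P (xK A M₁ q haux)
    (xK_coe_of_ne_two A M₁ q haux h2) (xK_ne_zero A M₁ q haux) (xK_inv_mem_BK_one A M₁ q haux) hD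

/-- Chart `1`, `q = 2` (`υ = 1 / t₉`): the points over `υ (27 υ² + 9 υ + 1) = 0` are cusps. -/
theorem cusp_chart_one_of_eq_two (hA : A.LiesOverPrime q) (h2 : q = 2)
    (P : Ideal (BK A M₁ q haux 1)) [P.IsPrime]
    (hD : InP (BK A M₁ q haux 1) P
      ((xK A M₁ q haux)⁻¹ * (27 * (xK A M₁ q haux)⁻¹ ^ 2 + 9 * (xK A M₁ q haux)⁻¹ + 1))) :
    NonUnit (locSubring (BK A M₁ q haux 1) P)
      (Fermat.Agent.S37.helper1588.jK (KI A) (M₁ * q))⁻¹ := by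
  have e : (xK A M₁ q haux)⁻¹ * (27 * (xK A M₁ q haux)⁻¹ ^ 2 + 9 * (xK A M₁ q haux)⁻¹ + 1)
      = (xK A M₁ q haux)⁻¹ * (1 + 9 * (xK A M₁ q haux)⁻¹ + 27 * (xK A M₁ q haux)⁻¹ ^ 2) := by
    ring
  rw [e] at hD
  have hinv := natCast_inv_mem_BK A M₁ q haux hA 3 (by rw [h2]; decide) 1
  rw [Nat.cast_ofNat] at hinv
  exact nonUnit_inv_jK_t9_inv (BK A M₁ q haux 1) P (xK A M₁ q haux)
    (xK_coe_of_eq_two A M₁ q haux h2) (xK_ne_zero A M₁ q haux) hinv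
    (xK_inv_mem_BK_one A M₁ q haux) hD

/-- **Row `mid_cusp`, chart `0`, `q ≠ 2`** (complement of `helper3919.hMID_t4`). -/
theorem mid_cusp_t4 (hA : A.LiesOverPrime q) (h2 : q ≠ 2)
    (hxV : xK A M₁ q haux ∈ VK A M₁ q hq hqM hq2 1 ∧
      (xK A M₁ q haux)⁻¹ ∈ VK A M₁ q hq hqM hq2 1)
    (hunif : ∃ T : FK A (M₁ * q), IsUnifOf (Vmid A M₁ q hq hqM hq2) T ∧
      UnitOf (Vmid A M₁ q hq hqM hq2) (T ^ (q - 1) / (q : FK A (M₁ * q))))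
    (hloc : ∀ y ∈ VK A M₁ q hq hqM hq2 1, ∃ a s : BK A M₁ q haux 0,
      (s : FK A (M₁ * q)) ∉ (VK A M₁ q hq hqM hq2 1).nonunits ∧ y * s = a)
    (τ : BK A M₁ q haux 0) (hτ : (τ : FK A (M₁ * q)) = xK A M₁ q haux)
    (P : Ideal (BK A M₁ q haux 0)) [P.IsPrime] (hc : τ * (τ + 16) ∈ P)
    (hcen : centre (BK A M₁ q haux 0) (VK A M₁ q hq hqM hq2 1) ≤ P) :
    ∃ T ∈ centre (BK A M₁ q haux 0) (VK A M₁ q hq hqM hq2 1), T ≠ 0 ∧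
      (∃ m : ℕ, m ≠ 0 ∧ ∃ s, s ∉ P ∧ T ^ m ∣ s * (q : BK A M₁ q haux 0)) ∧
      ∀ a ∈ centre (BK A M₁ q haux 0) (VK A M₁ q hq hqM hq2 1),
        ∃ s, s ∉ centre (BK A M₁ q haux 0) (VK A M₁ q hq hqM hq2 1) ∧ T ∣ s * a :=
  hMID_chart_zero_of_ne_two A M₁ q hq hqM hq2 haux hA h2 hxV hunif hloc P
    (inP_of_mem (τ * (τ + 16)) hc (by
      rw [Subring.coe_mul, Subring.coe_add, hτ]
      rfl)) hcen

/-- **Row `mid_cusp`, chart `0`, `q = 2`** (complement of `helper3919.hMID_t9`). -/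
theorem mid_cusp_t9 (hA : A.LiesOverPrime q) (h2 : q = 2)
    (hxV : xK A M₁ q haux ∈ VK A M₁ q hq hqM hq2 1 ∧
      (xK A M₁ q haux)⁻¹ ∈ VK A M₁ q hq hqM hq2 1)
    (hunif : ∃ T : FK A (M₁ * q), IsUnifOf (Vmid A M₁ q hq hqM hq2) T ∧
      UnitOf (Vmid A M₁ q hq hqM hq2) (T ^ (q - 1) / (q : FK A (M₁ * q))))
    (hloc : ∀ y ∈ VK A M₁ q hq hqM hq2 1, ∃ a s : BK A M₁ q haux 0,
      (s : FK A (M₁ * q)) ∉ (VK A M₁ q hq hqM hq2 1).nonunits ∧ y * s = a)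
    (τ : BK A M₁ q haux 0) (hτ : (τ : FK A (M₁ * q)) = xK A M₁ q haux)
    (P : Ideal (BK A M₁ q haux 0)) [P.IsPrime] (hc : τ * (τ ^ 2 + 9 * τ + 27) ∈ P)
    (hcen : centre (BK A M₁ q haux 0) (VK A M₁ q hq hqM hq2 1) ≤ P) :
    ∃ T ∈ centre (BK A M₁ q haux 0) (VK A M₁ q hq hqM hq2 1), T ≠ 0 ∧
      (∃ m : ℕ, m ≠ 0 ∧ ∃ s, s ∉ P ∧ T ^ m ∣ s * (q : BK A M₁ q haux 0)) ∧
      ∀ a ∈ centre (BK A M₁ q haux 0) (VK A M₁ q hq hqM hq2 1),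
        ∃ s, s ∉ centre (BK A M₁ q haux 0) (VK A M₁ q hq hqM hq2 1) ∧ T ∣ s * a :=
  hMID_chart_zero_of_eq_two A M₁ q hq hqM hq2 haux hA h2 hxV hunif hloc P
    (inP_of_mem (τ * (τ ^ 2 + 9 * τ + 27)) hc (by
      rw [Subring.coe_mul, Subring.coe_add, Subring.coe_add, Subring.coe_mul, Subring.coe_pow, hτ]
      rfl)) hcen

/-- **Row `mid_cusp`, chart `1`, `q ≠ 2`** (complement of `helper3919.hMID_u4`). -/
theorem mid_cusp_u4 (hA : A.LiesOverPrime q) (h2 : q ≠ 2)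
    (hxV : xK A M₁ q haux ∈ VK A M₁ q hq hqM hq2 1 ∧
      (xK A M₁ q haux)⁻¹ ∈ VK A M₁ q hq hqM hq2 1)
    (hunif : ∃ T : FK A (M₁ * q), IsUnifOf (Vmid A M₁ q hq hqM hq2) T ∧
      UnitOf (Vmid A M₁ q hq hqM hq2) (T ^ (q - 1) / (q : FK A (M₁ * q))))
    (hloc : ∀ y ∈ VK A M₁ q hq hqM hq2 1, ∃ a s : BK A M₁ q haux 1,
      (s : FK A (M₁ * q)) ∉ (VK A M₁ q hq hqM hq2 1).nonunits ∧ y * s = a)
    (υ : BK A M₁ q haux 1) (hυ : (υ : FK A (M₁ * q)) = (xK A M₁ q haux)⁻¹)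
    (P : Ideal (BK A M₁ q haux 1)) [P.IsPrime] (hc : υ * (16 * υ + 1) ∈ P)
    (hcen : centre (BK A M₁ q haux 1) (VK A M₁ q hq hqM hq2 1) ≤ P) :
    ∃ T ∈ centre (BK A M₁ q haux 1) (VK A M₁ q hq hqM hq2 1), T ≠ 0 ∧
      (∃ m : ℕ, m ≠ 0 ∧ ∃ s, s ∉ P ∧ T ^ m ∣ s * (q : BK A M₁ q haux 1)) ∧
      ∀ a ∈ centre (BK A M₁ q haux 1) (VK A M₁ q hq hqM hq2 1),
        ∃ s, s ∉ centre (BK A M₁ q haux 1) (VK A M₁ q hq hqM hq2 1) ∧ T ∣ s * a :=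
  hMID_of_cusp A M₁ q hq hqM hq2 haux hA hxV hunif 1 hloc P
    (cusp_chart_one_of_ne_two A M₁ q haux h2 P
      (inP_of_mem (υ * (16 * υ + 1)) hc (by
        rw [Subring.coe_mul, Subring.coe_add, Subring.coe_mul, hυ]
        rfl))) hcen

/-- **Row `mid_cusp`, chart `1`, `q = 2`** (complement of `helper3919.hMID_u9`). -/
theorem mid_cusp_u9 (hA : A.LiesOverPrime q) (h2 : q = 2)
    (hxV : xK A M₁ q haux ∈ VK A M₁ q hq hqM hq2 1 ∧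
      (xK A M₁ q haux)⁻¹ ∈ VK A M₁ q hq hqM hq2 1)
    (hunif : ∃ T : FK A (M₁ * q), IsUnifOf (Vmid A M₁ q hq hqM hq2) T ∧
      UnitOf (Vmid A M₁ q hq hqM hq2) (T ^ (q - 1) / (q : FK A (M₁ * q))))
    (hloc : ∀ y ∈ VK A M₁ q hq hqM hq2 1, ∃ a s : BK A M₁ q haux 1,
      (s : FK A (M₁ * q)) ∉ (VK A M₁ q hq hqM hq2 1).nonunits ∧ y * s = a)
    (υ : BK A M₁ q haux 1) (hυ : (υ : FK A (M₁ * q)) = (xK A M₁ q haux)⁻¹)
    (P : Ideal (BK A M₁ q haux 1)) [P.IsPrime] (hc : υ * (27 * υ ^ 2 + 9 * υ + 1) ∈ P)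
    (hcen : centre (BK A M₁ q haux 1) (VK A M₁ q hq hqM hq2 1) ≤ P) :
    ∃ T ∈ centre (BK A M₁ q haux 1) (VK A M₁ q hq hqM hq2 1), T ≠ 0 ∧
      (∃ m : ℕ, m ≠ 0 ∧ ∃ s, s ∉ P ∧ T ^ m ∣ s * (q : BK A M₁ q haux 1)) ∧
      ∀ a ∈ centre (BK A M₁ q haux 1) (VK A M₁ q hq hqM hq2 1),
        ∃ s, s ∉ centre (BK A M₁ q haux 1) (VK A M₁ q hq hqM hq2 1) ∧ T ∣ s * a :=
  hMID_of_cusp A M₁ q hq hqM hq2 haux hA hxV hunif 1 hloc P
    (cusp_chart_one_of_eq_two A M₁ q haux hA h2 P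
      (inP_of_mem (υ * (27 * υ ^ 2 + 9 * υ + 1)) hc (by
        rw [Subring.coe_mul, Subring.coe_add, Subring.coe_add, Subring.coe_mul, Subring.coe_mul,
          Subring.coe_pow, hυ]
        rfl))) hcen

end Row

end Fermat.Agent.S36.helper5229
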