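import Mathlib
import Fermat.Agent.S30.helper1094_E1
import Fermat.Agent.S30.helper501_Occ
import Fermat.Agent.S30.helper767_TateFin
import Fermat.Agent.S30.helper54_Final
import Fermat.Agent.S36.helper5415_CoreC

/-!
# S36: the C-version of the S30 glue `JDatum → EigenDatum` (helper5415)

`helper5415_CoreC` reduces the frozen statement S36 to `Stmt_EigenC`: an S30 eigen-datum such
that, for every prime `q ≠ p` with `N.factorization q = 2`, the inertia group of some valuation
subring over `q` fixes no nonzero vector.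

This file provides the abstract (geometry-free) step in exactly the shape of the S30 interface
`helper1094.JDatum` (mirror of `Fermat.Agent.S35.helper1307_E1Q`):

* `JDatumC` : `helper1094.JDatum` together with ONE more clause on the `p`-power torsion of `J`,
  the statement (KILL) of findings #3001:

    for every prime `q ≠ p` with `N.factorization q = 2` there are a valuation subring `A` over
    `q` and a natural number `c ≠ 0` such that every `p`-power torsion point of `J` fixed by the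
    inertia group of `A` is killed by `c`;

* `eigenDatumC_of_jDatumC` : `JDatumC → EigenDatumC`, unconditional (Tate module, flat base
  change, eigen-lattice);
* `Stmt_JC`, `stmt_EigenC_of`, `result_of_jc` : the frozen statement S36 from `Stmt_JC` ALONE
  (every newform eigensystem has a `JDatumC`).

Intended instance: `J :=` the `q²`-new SUBGROUP of `J₀(M)`,
`{x | α_{q,*} x = 0 ∧ β_{q,*} x = 0 for all q ≠ p with q² ‖ M}` (`α_q`, `β_q` the two degeneracy
maps `X₀(M) → X₀(M / q)`), with the lattice `Λ' :=` the same kernel in the cocycle lattice.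

The three transport steps:

* `exists_finset_tate_fixed` : (KILL) on the torsion gives a FINITE subset `s` of the inertia
  group such that no nonzero element of the Tate module is fixed by `s`;
* `baseChange_fixed_eq_zero` : for a finite family this property survives a flat base change;
* the eigen-lattice is a submodule of the base change.
-/

set_option autoImplicit false

open scoped TensorProduct

namespace Fermat.Agent.S36.helper5415

open Fermat.Agent.S30.helper54 Fermat.Agent.Lib.helper4786 Fermat.Agent.Lib.helper9377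
  Fermat.Agent.S30.helper4204 Fermat.Agent.S30.helper1094

/-! ### Flat base change of "no common fixed vector" for a finite family -/

section BaseChange

universe u

variable {R : Type*} [CommRing R]
variable {O : Type u} [CommRing O] [Algebra R O]
variable {T : Type u} [AddCommGroup T] [Module R T]

/-- An element of `O ⊗ (ι → T)` all of whose components vanish is zero. -/
theorem eq_zero_of_forall_proj_lTensor {ι : Type*} [Fintype ι] [DecidableEq ι]
    (w : O ⊗[R] (ι → T))
    (h : ∀ i, (LinearMap.proj i : (ι → T) →ₗ[R] T).lTensor O w = 0) : w = 0 := by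
  have key : ∀ (w : O ⊗[R] (ι → T)) (i : ι),
      TensorProduct.piRight R O O (fun _ : ι => T) w i
        = (LinearMap.proj i : (ι → T) →ₗ[R] T).lTensor O w := by
    intro w i
    induction w using TensorProduct.induction_on with
    | zero => simp
    | tmul c f => simp [TensorProduct.piRight_apply, TensorProduct.piRightHom_tmul]
    | add x y hx hy => simp only [map_add, Pi.add_apply, hx, hy]
  apply (TensorProduct.piRight R O O (fun _ : ι => T)).injective
  funext i
  rw [key, h, map_zero]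
  rfl

/-- **Flat base change.**  If no nonzero element of `T` is fixed by the finite family `s`, then
no nonzero element of `O ⊗ T` is fixed by the base change of `s`, for `O` flat over `R`. -/
theorem baseChange_fixed_eq_zero [Module.Flat R O] {G : Type*} [Monoid G]
    (ρ : G →* Module.End R T) (s : Finset G)
    (h : ∀ x : T, (∀ g ∈ s, ρ g x = x) → x = 0)
    (y : O ⊗[R] T) (hy : ∀ g ∈ s, (ρ g).baseChange O y = y) : y = 0 := by
  classical
  let Φ : T →ₗ[R] (s → T) := LinearMap.pi fun g => ρ g.1 - 1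
  have hΦ : Function.Injective Φ := by
    rw [injective_iff_map_eq_zero]
    intro x hx
    apply h
    intro g hg
    have h1 := congrFun hx ⟨g, hg⟩
    simp only [Φ, LinearMap.pi_apply, LinearMap.sub_apply, Module.End.one_apply,
      Pi.zero_apply] at h1
    exact sub_eq_zero.mp h1
  have hinj := Module.Flat.lTensor_preserves_injective_linearMap (M := O) Φ hΦ
  apply hinj
  rw [map_zero]
  apply eq_zero_of_forall_proj_lTensor
  intro g
  rw [← LinearMap.comp_apply, ← LinearMap.lTensor_comp]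
  have h1 : (LinearMap.proj g : (s → T) →ₗ[R] T) ∘ₗ Φ = ρ g.1 - 1 := by
    ext x
    simp [Φ]
  have h2 : (ρ g.1).lTensor O y = y := by
    have := hy g.1 g.2
    rwa [LinearMap.baseChange_eq_ltensor] at this
  rw [h1, LinearMap.lTensor_sub, LinearMap.sub_apply, h2, Module.End.one_eq_id,
    LinearMap.lTensor_id, LinearMap.id_apply, sub_self]

/-- **Eigen-lattice package with the fixed-vector clause.**  The statement of
`helper4204.exists_eigenLattice_rep` with one more inherited property: if no nonzero element of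
`T` is fixed by a finite family `s`, the same holds on the eigen-lattice. -/
theorem exists_eigenLattice_repC [IsDomain O] [IsPrincipalIdealRing O] [Module.Flat R O]
    [Module.Free R T] [Module.Finite R T] {G : Type*} [Monoid G] {ι : Type*}
    (ρ : G →* Module.End R T) (τ : ι → Module.End R T) (hcomm : ∀ g i, Commute (ρ g) (τ i))
    (a : ι → O) (π : R) (hπ : algebraMap R O π ≠ 0) :
    ∃ (M : Type u) (_ : AddCommGroup M) (_ : Module O M) (_ : Module.Free O M)
      (_ : Module.Finite O M) (ρ' : G →* Module.End O M),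
      (Nontrivial M ↔ ∃ x : O ⊗[R] T, x ≠ 0 ∧ ∀ i, (τ i).baseChange O x = a i • x) ∧
      (∀ g, ρ g = 1 → ρ' g = 1) ∧
      (∀ g i (c : R), ρ g * ρ g - τ i * ρ g + c • (1 : Module.End R T) = 0 →
        ρ' g * ρ' g - a i • ρ' g + algebraMap R O c • (1 : Module.End O M) = 0) ∧
      (∀ g (n : ℕ), (∀ t : T, ∃ y : T, ρ g t - t = π ^ n • y) →
        ∀ I : Ideal O, algebraMap R O π ∈ I → ∀ v : M, ρ' g v - v ∈ (I ^ n) • (⊤ : Submodule O M)) ∧
      (∀ s : Finset G, (∀ x : T, (∀ g ∈ s, ρ g x = x) → x = 0) →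
        ∀ v : M, (∀ g ∈ s, ρ' g v = v) → v = 0) := by
  set σ : ι → Module.End O (O ⊗[R] T) := fun i => (τ i).baseChange O with hσ
  have hc : ∀ g i, Commute (baseChangeRep O ρ g) (σ i) := fun g i => commute_baseChange (hcomm g i)
  refine ⟨eigenLattice σ a, inferInstance, inferInstance, inferInstance, inferInstance,
    eigRep σ a (baseChangeRep O ρ) hc, nontrivial_eigenLattice_iff, ?_, ?_, ?_, ?_⟩
  · intro g hg
    exact eigRep_eq_one σ a _ hc (by rw [baseChangeRep_apply, hg, LinearMap.baseChange_one])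
  · intro g i c h
    exact eigRep_quadratic σ a _ hc (i := i) (baseChange_quadratic h)
  · intro g n h I hI v
    exact eigRep_sub_mem σ a _ hc hπ (fun x => exists_baseChange_sub_eq_smul h x) I hI v
  · intro s hs v hv
    apply Subtype.ext
    refine baseChange_fixed_eq_zero ρ s hs (v : O ⊗[R] T) fun g hg => ?_
    have := congrArg (fun w : eigenLattice σ a => (w : O ⊗[R] T)) (hv g hg)
    simpa only [coe_eigRep, baseChangeRep_apply] using this

end BaseChange

/-! ### From the torsion to the Tate module: a finite family -/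

section Tate

variable {J : Type*} [AddCommGroup J] {G : Type*} [Group G] [DistribMulAction G J]

/-- **(KILL) on the Tate module.**  Let `J[p]` be finite and let `H` be a subgroup such that
every `p`-power torsion point of `J` fixed by `H` is killed by `c ≠ 0`.  Then there is a FINITE
subset `s ⊆ H` such that no nonzero element of the Tate module is fixed by `s`. -/
theorem exists_finset_tate_fixed (p : ℕ) [Fact p.Prime]
    (hfin : Set.Finite {x : J | p • x = 0}) (H : Subgroup G) (c : ℕ) (hc : c ≠ 0)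
    (hkill : ∀ x : J, (∃ n : ℕ, p ^ n • x = 0) → (∀ σ ∈ H, σ • x = x) → c • x = 0) :
    ∃ s : Finset G, (∀ g ∈ s, g ∈ H) ∧
      ∀ y : tateModule J p, (∀ g ∈ s, tateRep J p G g y = y) → y = 0 := by
  classical
  have hp : p.Prime := Fact.out
  have hF : Set.Finite {x : J | p ^ c • x = 0} := finite_pow_torsion p hfin c
  -- for every point a witness in `H` moving it, if there is one
  let w : J → G := fun x => if h : ∃ σ ∈ H, σ • x ≠ x then h.choose else 1
  have hwH : ∀ x, w x ∈ H := by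
    intro x
    by_cases h : ∃ σ ∈ H, σ • x ≠ x
    · simp only [w, dif_pos h]
      exact h.choose_spec.1
    · simp only [w, dif_neg h]
      exact H.one_mem
  have hw : ∀ x, w x • x = x → ∀ σ ∈ H, σ • x = x := by
    intro x hx σ hσ
    by_contra hne
    have h : ∃ σ ∈ H, σ • x ≠ x := ⟨σ, hσ, hne⟩
    simp only [w, dif_pos h] at hx
    exact h.choose_spec.2 hx
  let s : Finset G := hF.toFinset.image w
  have hs : ∀ x : J, p ^ c • x = 0 → (∀ g ∈ s, g • x = x) → c • x = 0 := by
    intro x hx hfix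
    refine hkill x ⟨c, hx⟩ (hw x (hfix (w x) ?_))
    exact Finset.mem_image_of_mem w (hF.mem_toFinset.mpr hx)
  refine ⟨s, fun g hg => ?_, ?_⟩
  · obtain ⟨x, -, rfl⟩ := Finset.mem_image.mp hg
    exact hwH x
  -- every fixed element of the Tate module vanishes at level one
  have hc1 : 1 + (c - 1) = c := by omega
  have hstep : ∀ y : tateModule J p, (∀ g ∈ s, tateRep J p G g y = y) → y.1 1 = 0 := by
    intro y hy
    have h1 : c • y.1 c = 0 := by
      refine hs (y.1 c) (tateModule.pow_smul_apply y c) fun g hg => ?_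
      have := congrArg (fun z : tateModule J p => z.1 c) (hy g hg)
      simpa only [tateRep_apply_apply] using this
    have h2 : p ^ c • y.1 c = 0 := tateModule.pow_smul_apply y c
    have hd1 : addOrderOf (y.1 c) ∣ c := addOrderOf_dvd_of_nsmul_eq_zero h1
    have hd2 : addOrderOf (y.1 c) ∣ p ^ c := addOrderOf_dvd_of_nsmul_eq_zero h2
    obtain ⟨j, hj, hj'⟩ := (Nat.dvd_prime_pow hp).mp hd2
    have hjc : j ≠ c := by
      rintro rfl
      rw [hj'] at hd1
      have := Nat.le_of_dvd (Nat.pos_of_ne_zero hc) hd1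
      exact absurd (Nat.lt_pow_self hp.one_lt) (not_lt.mpr this)
    have hj1 : j ≤ c - 1 := by omega
    have h3 : p ^ (c - 1) • y.1 c = 0 := by
      apply addOrderOf_dvd_iff_nsmul_eq_zero.mp
      rw [hj']
      exact pow_dvd_pow p hj1
    have h4 := tateModule.pow_smul_apply_add y 1 (c - 1)
    rw [hc1] at h4
    rw [← h4, h3]
  -- descent
  have hp0 : (p : ℤ_[p]) ≠ 0 := Nat.cast_ne_zero.2 hp.ne_zero
  have htf : Module.IsTorsionFree ℤ_[p] (tateModule J p) := tateModule_isTorsionFree J p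
  have hall : ∀ (k : ℕ) (y : tateModule J p), (∀ g ∈ s, tateRep J p G g y = y) → y.1 k = 0 := by
    intro k
    induction k with
    | zero =>
      intro y _
      have := tateModule.pow_smul_apply y 0
      simpa using this
    | succ k ih =>
      intro y hy
      obtain ⟨z, hz⟩ := (tateModule.apply_eq_zero_iff y 1).mp (hstep y hy)
      rw [pow_one] at hz
      have hzfix : ∀ g ∈ s, tateRep J p G g z = z := by
        intro g hg
        have h1 := hy g hg
        rw [hz, map_smul] at h1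
        exact smul_right_injective _ hp0 h1
      have h5 : y.1 (k + 1) = z.1 k := by
        rw [hz, tateModule.natCast_smul_apply, tateModule.smul_apply_succ]
      rw [h5]
      exact ih z hzfix
  intro y hy
  exact tateModule.ext fun k => hall k y hy

end Tate

/-! ### The interface -/

/-- **Abstract Jacobian datum with the Carayol clause**: the S30 interface `helper1094.JDatum`
together with (KILL): for every prime `q ≠ p` with `N.factorization q = 2` there are a valuation
subring `A` over `q` and `c ≠ 0` such that every `p`-power torsion point fixed by the inertia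
group of `A` is killed by `c`. -/
def JDatumC (p N : ℕ) (S : Finset ℕ) (𝒪' : Type) [CommRing 𝒪'] (a : ℕ → 𝒪') : Prop :=
  ∃ (J : Type) (_ : AddCommGroup J) (_ : DistribMulAction Gal J) (τ : ℕ → J →+ J),
    -- (fin) finitely many `p`-torsion points
    Set.Finite {x : J | p • x = 0} ∧
    -- (lev) open stabilisers on `p`-power torsion
    (∀ x : J, (∃ n : ℕ, p ^ n • x = 0) →
      ∃ L : IntermediateField ℚ (AlgebraicClosure ℚ), FiniteDimensional ℚ L ∧
        ∀ σ : Gal, (∀ y ∈ L, σ y = y) → σ • x = x) ∧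
    -- (comm) the operators commute with the Galois action
    (∀ ℓ : ℕ, ℓ.Prime → ¬ ℓ ∣ N → ℓ ∉ S → ∀ (σ : Gal) (x : J), σ • τ ℓ x = τ ℓ (σ • x)) ∧
    -- (unr) inertia at `q ∤ N p` acts trivially on `p`-power torsion
    (∀ q : ℕ, q.Prime → ¬ q ∣ N → q ≠ p →
      ∀ A : ValuationSubring (AlgebraicClosure ℚ), A.LiesOverPrime q →
        ∀ σ ∈ A.inertiaSubgroupIn ℚ, ∀ x : J, (∃ n : ℕ, p ^ n • x = 0) → σ • x = x) ∧
    -- (frob) Eichler–Shimura relation on `p`-power torsion
    (∀ ℓ : ℕ, ℓ.Prime → ¬ ℓ ∣ N → ℓ ∉ S →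
      ∀ A : ValuationSubring (AlgebraicClosure ℚ), A.LiesOverPrime ℓ →
        ∀ σ : Gal, A.IsFrobeniusAt σ ℓ → ∀ x : J, (∃ n : ℕ, p ^ n • x = 0) →
          σ • σ • x - τ ℓ (σ • x) + ℓ • x = 0) ∧
    -- (kill) inertia-fixed `p`-power torsion is killed by a constant, at the primes `q ≠ p`
    -- with `q² ‖ N`
    (∀ q : ℕ, q.Prime → q ≠ p → N.factorization q = 2 →
      ∃ A : ValuationSubring (AlgebraicClosure ℚ), A.LiesOverPrime q ∧ ∃ c : ℕ, c ≠ 0 ∧
        ∀ x : J, (∃ n : ℕ, p ^ n • x = 0) → (∀ σ ∈ A.inertiaSubgroupIn ℚ, σ • x = x) →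
          c • x = 0) ∧
    -- (occ) a lattice with a faithful ring action and level-wise equivariant injections
    ∃ (Λ : Type) (_ : AddCommGroup Λ) (_ : Module.Free ℤ Λ) (_ : Module.Finite ℤ Λ)
      (R : Type) (_ : CommRing R) (_ : Module R Λ) (t : ℕ → R) (χ : R →+* 𝒪')
      (ι : ℕ → Λ →+ J),
      (∀ r : R, (∀ x : Λ, r • x = 0) → r = 0) ∧
      (∀ ℓ : ℕ, ℓ.Prime → ¬ ℓ ∣ N → ℓ ∉ S → χ (t ℓ) = a ℓ) ∧
      (∀ (n : ℕ) (x : Λ), p ^ n • ι n x = 0) ∧
      (∀ (n : ℕ) (x : Λ), ι n x = 0 → ∃ y : Λ, x = p ^ n • y) ∧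
      (∀ (n : ℕ) (x : Λ), p • ι (n + 1) x = ι n x) ∧
      (∀ ℓ : ℕ, ℓ.Prime → ¬ ℓ ∣ N → ℓ ∉ S → ∀ (n : ℕ) (x : Λ), ι n (t ℓ • x) = τ ℓ (ι n x))

/-- A `JDatumC` is in particular an S30 `JDatum`. -/
theorem JDatumC.jDatum {p N : ℕ} {S : Finset ℕ} {𝒪' : Type} [CommRing 𝒪'] {a : ℕ → 𝒪'}
    (h : JDatumC p N S 𝒪' a) : JDatum p N S 𝒪' a := by
  obtain ⟨J, i1, i2, τ, hfin, hlev, hcomm, hunr, hfrob, -, hocc⟩ := h
  exact ⟨J, i1, i2, τ, hfin, hlev, hcomm, hunr, hfrob, hocc⟩

/-! ### The glue -/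

/-- **E1-C**: an abstract Jacobian datum with the Carayol clause gives an eigen-datum with the
Carayol clause. -/
theorem eigenDatumC_of_jDatumC
    (p : ℕ) [Fact p.Prime] (N : ℕ) (S : Finset ℕ)
    (𝒪' : Type) [CommRing 𝒪'] [IsDomain 𝒪'] [IsDiscreteValuationRing 𝒪']
    [IsAdicComplete (IsLocalRing.maximalIdeal 𝒪') 𝒪'] [Finite (IsLocalRing.ResidueField 𝒪')]
    [CharZero 𝒪'] (hp𝒪' : (p : 𝒪') ∈ IsLocalRing.maximalIdeal 𝒪') (a : ℕ → 𝒪')
    (hJ : JDatumC p N S 𝒪' a) : EigenDatumC p N S 𝒪' a := by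
  obtain ⟨J, iJ1, iJ2, τ, hfin, hlev, hcomm, hunr, hfrob, hkillJ, Λ, iΛ1, iΛ2, iΛ3, R, iR1, iR2, t,
    χ, ι, hfaith, hχ, hι1, hι2, hι3, hι4⟩ := hJ
  have hp : p.Prime := Fact.out
  -- the `ℤ_p`-algebra structure
  let alg𝒪 : Algebra ℤ_[p] 𝒪' := padicIntAlgebra p 𝒪' hp𝒪'
  have hflat : Module.Flat ℤ_[p] 𝒪' := flat_padicIntAlgebra p 𝒪' hp𝒪'
  -- the Tate module
  have hTfin : Module.Finite ℤ_[p] (tateModule J p) :=
    Fermat.Agent.S30.helper767.tateModule_finite_of_finite J p hfin
  have hTtf : Module.IsTorsionFree ℤ_[p] (tateModule J p) :=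
    Fermat.Agent.S30.helper1094.tateModule_isTorsionFree J p
  have hTfree : Module.Free ℤ_[p] (tateModule J p) := Module.free_of_finite_type_torsion_free'
  -- the actions
  let ρ : Gal →* Module.End ℤ_[p] (tateModule J p) := tateRep J p Gal
  let ι' : Type := {ℓ : ℕ // ℓ.Prime ∧ ¬ ℓ ∣ N ∧ ℓ ∉ S}
  let τ' : ι' → Module.End ℤ_[p] (tateModule J p) := fun i => tateEnd J p (τ i.1)
  have hc : ∀ g i, Commute (ρ g) (τ' i) := by
    intro g i
    show ρ g * τ' i = τ' i * ρ g
    ext x n
    exact hcomm i.1 i.2.1 i.2.2.1 i.2.2.2 g (x.1 n)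
  have hp0 : algebraMap ℤ_[p] 𝒪' (p : ℤ_[p]) ≠ 0 := by
    rw [map_natCast]
    exact Nat.cast_ne_zero.2 hp.ne_zero
  obtain ⟨M, iM1, iM2, iM3, iM4, ρ', hnt, h1, hq, hcg, hfixM⟩ :=
    exists_eigenLattice_repC (O := 𝒪') ρ τ' hc (fun i => a i.1) (p : ℤ_[p]) hp0
  refine ⟨M, iM1, iM2, iM3, iM4, ρ', ?_, ?_, ?_, ?_, ?_⟩
  · -- nontriviality: occurrence
    rw [hnt]
    exact Fermat.Agent.S30.helper501.exists_eigenvector_tateModule_of_pred p hfaith
      (algebraMap_padicIntAlgebra_injective p 𝒪' hp𝒪') χ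
      (fun ℓ : ℕ => ℓ.Prime ∧ ¬ ℓ ∣ N ∧ ℓ ∉ S) a t τ ι
      (fun ℓ h => hχ ℓ h.1 h.2.1 h.2.2) hι1 hι2 hι3 (fun ℓ h n x => hι4 ℓ h.1 h.2.1 h.2.2 n x)
  · -- continuity
    intro n
    obtain ⟨L, hL, hLσ⟩ := exists_common_level {x : J | p ^ n • x = 0}
      (finite_pow_torsion p hfin n) (fun x hx => hlev x ⟨n, hx⟩)
    refine ⟨L, hL, fun σ hσ v => ?_⟩
    refine hcg σ n (fun x => ?_) (IsLocalRing.maximalIdeal 𝒪') (by rw [map_natCast]; exact hp𝒪') v
    refine (tateModule.apply_eq_zero_iff (ρ σ x - x) n).mp ?_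
    show σ • x.1 n - x.1 n = 0
    rw [hLσ σ hσ (x.1 n) (tateModule.pow_smul_apply x n), sub_self]
  · -- unramified
    intro q hq' hqN hqp A hA σ hσ
    exact h1 σ (tateRep_eq_one_of_forall σ fun x hx => hunr q hq' hqN hqp A hA σ hσ x hx)
  · -- Frobenius
    intro ℓ hℓ hℓN hℓS A hA σ hσ
    have hrel : ρ σ * ρ σ - τ' ⟨ℓ, hℓ, hℓN, hℓS⟩ * ρ σ
        + (ℓ : ℤ_[p]) • (1 : Module.End ℤ_[p] (tateModule J p)) = 0 := by
      ext x n
      have h2 := hfrob ℓ hℓ hℓN hℓS A hA σ hσ (x.1 n) ⟨n, tateModule.pow_smul_apply x n⟩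
      rw [LinearMap.add_apply, LinearMap.sub_apply, LinearMap.smul_apply, Module.End.one_apply]
      show (σ • σ • x.1 n - τ ℓ (σ • x.1 n)) + ((ℓ : ℤ_[p]) • x).1 n = 0
      rw [tateModule.natCast_smul_apply]
      exact h2
    have := hq σ ⟨ℓ, hℓ, hℓN, hℓS⟩ (ℓ : ℤ_[p]) hrel
    rw [map_natCast] at this
    exact this
  · -- the Carayol clause
    intro q hq' hqp hfac
    obtain ⟨A, hA, c, hc0, hkill⟩ := hkillJ q hq' hqp hfac
    obtain ⟨s, hsH, hs⟩ :=
      exists_finset_tate_fixed p hfin (A.inertiaSubgroupIn ℚ) c hc0 hkill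
    exact ⟨A, hA, fun x hx => hfixM s hs x fun g hg => hx g (hsH g hg)⟩

/-! ### The frozen statement -/

/-- **Geometric side of S36, abstract form**: the eigensystem of a newform has an abstract
Jacobian datum with the Carayol clause. -/
def Stmt_JC : Prop :=
  ∀ {M : ℕ} [NeZero M] {g : CuspForm (CongruenceSubgroup.Gamma0 M) 2} (_hg : g.IsNewform)
    (lam : ℕ) [Fact lam.Prime] (S : Finset ℕ)
    (O' : Type) [CommRing O'] [IsDomain O'] [IsDiscreteValuationRing O']
    [IsAdicComplete (IsLocalRing.maximalIdeal O') O'] [Finite (IsLocalRing.ResidueField O')]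
    [CharZero O'] (_hlamO' : (lam : O') ∈ IsLocalRing.maximalIdeal O')
    (chig : CuspForm.heckeAlgebra M 2 (↑S : Set ℕ) →+* ℂ)
    (_hchig : ∀ (ℓ : ℕ) (hℓ : ℓ.Prime) (hℓM : ¬ ℓ ∣ M) (hℓS : ℓ ∉ (↑S : Set ℕ)),
      chig (CuspForm.heckeAlgebra.T hℓ hℓM hℓS) = ModularFormClass.qCoeff g ℓ)
    (iota : chig.range →+* O')
    (_hlamS : lam ∈ S) (_hMS : ∀ q : ℕ, q.Prime → q ∣ M → q ∈ S),
    JDatumC lam M S O' (eigenvalue (iota.comp chig.rangeRestrict))

/-- `Stmt_EigenC` from `Stmt_JC`. -/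
theorem stmt_EigenC_of (hJ : Stmt_JC) : Stmt_EigenC := by
  intro M _ g hg lam _ S O' _ _ _ _ _ _ hlamO' chig hchig iota hlamS hMS
  exact eigenDatumC_of_jDatumC lam M S O' hlamO' _
    (hJ hg lam S O' hlamO' chig hchig iota hlamS hMS)

open Polynomial in
/-- **The frozen statement S36 from `Stmt_JC` alone** (generator-Chebotarev is the landed
`helper54.stmt_GenCheb`). -/
theorem result_of_jc (hJ : Stmt_JC)
    {M : ℕ} [NeZero M] {g : CuspForm (CongruenceSubgroup.Gamma0 M) 2} (hg : g.IsNewform)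
    (lam : ℕ) [Fact lam.Prime]
    (S : Finset ℕ)
    (O' : Type) [CommRing O'] [IsDomain O'] [IsDiscreteValuationRing O']
    [IsAdicComplete (IsLocalRing.maximalIdeal O') O'] [Finite (IsLocalRing.ResidueField O')]
    [CharZero O'] (hlamO' : (lam : O') ∈ IsLocalRing.maximalIdeal O')
    (hlam2 : lam ≠ 2)
    (chig : CuspForm.heckeAlgebra M 2 (↑S : Set ℕ) →+* ℂ)
    (hchig : ∀ (ℓ : ℕ) (hℓ : ℓ.Prime) (hℓM : ¬ ℓ ∣ M) (hℓS : ℓ ∉ (↑S : Set ℕ)),
      chig (CuspForm.heckeAlgebra.T hℓ hℓM hℓS) = ModularFormClass.qCoeff g ℓ)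
    (iota : chig.range →+* O')
    (hlamS : lam ∈ S) (hMS : ∀ q : ℕ, q.Prime → q ∣ M → q ∈ S)
    (hres : ∀ (O'' : Type) [CommRing O''] [IsDomain O''] [IsDiscreteValuationRing O'']
      [IsAdicComplete (IsLocalRing.maximalIdeal O'') O''] [Finite (IsLocalRing.ResidueField O'')] [CharZero O'']
      [Algebra O' O''] [Module.Finite O' O''] [IsLocalHom (algebraMap O' O'')],
      Function.Injective (algebraMap O' O'') → ∀ (ρ : GaloisRepAdic O''),
      (∀ (ℓ : ℕ) (hℓ : ℓ.Prime) (_hℓlam : ℓ ≠ lam) (hℓM : ¬ ℓ ∣ M) (hℓS : ℓ ∉ (↑S : Set ℕ)),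
        ∀ A : ValuationSubring (AlgebraicClosure ℚ), A.LiesOverPrime ℓ →
          ∀ σ : AlgebraicClosure ℚ ≃ₐ[ℚ] AlgebraicClosure ℚ, A.IsFrobeniusAt σ ℓ →
            LinearMap.charpoly (ρ.ρ σ) =
              X ^ 2 - C (algebraMap O' O'' ((iota.comp chig.rangeRestrict) (CuspForm.heckeAlgebra.T hℓ hℓM hℓS))) * X
                + C ((ℓ : O'')))
      → ρ.residual.IsAbsolutelyIrreducible ∧ ρ.residual.IsOdd)
    :
    ∃ (O'' : Type) (_ : CommRing O'') (_ : IsDomain O'') (_ : IsDiscreteValuationRing O'')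
      (_ : IsAdicComplete (IsLocalRing.maximalIdeal O'') O'') (_ : Finite (IsLocalRing.ResidueField O''))
      (_ : CharZero O'') (_ : Algebra O' O'') (_ : Module.Finite O' O'') (_ : IsLocalHom (algebraMap O' O'')),
      Function.Injective (algebraMap O' O'') ∧
      ∃ ρ : GaloisRepAdic O'',
        (∀ (ℓ : ℕ) (hℓ : ℓ.Prime) (hℓM : ¬ ℓ ∣ M) (hℓS : ℓ ∉ (↑S : Set ℕ)),
          ∀ A : ValuationSubring (AlgebraicClosure ℚ), A.LiesOverPrime ℓ →
            ∀ σ : AlgebraicClosure ℚ ≃ₐ[ℚ] AlgebraicClosure ℚ, A.IsFrobeniusAt σ ℓ →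
              LinearMap.charpoly (ρ.ρ σ) =
                X ^ 2 - C (algebraMap O' O'' ((iota.comp chig.rangeRestrict) (CuspForm.heckeAlgebra.T hℓ hℓM hℓS))) * X
                  + C ((ℓ : O''))) ∧
        (∀ q : ℕ, q.Prime → q ≠ lam → M.factorization q = 2 → ¬ ρ.IsUnipotentOnInertiaAt q) :=
  result_of (stmt_EigenC_of hJ) stmt_GenCheb hg lam S O' hlamO' hlam2 chig hchig iota hlamS hMS hres

end Fermat.Agent.S36.helper5415
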