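import Mathlib

/-!
# S36-UNIT-KVAL, part 0 (helper5460): the abstract table of a unit with `w Y0 * Y0 = cq`

Mathlib only.  `V` a valuation subring of a field `F`.

* `mem_nonunits_iff_inv_not_mem` : for `x ≠ 0`, `x ∈ V.nonunits ↔ x⁻¹ ∉ V`;
* `mem_nonunits_comap_hom_iff` : `x ∈ (V.comap f).nonunits ↔ f x ∈ V.nonunits` for a ring
  homomorphism `f` of fields; `mem_nonunits_comap_iff` : the same for a ring automorphism;
* `unit_table_hom` / `unit_table` : if `Y0` is a unit of `V`, `w` a ring endomorphism of `F`,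
  `w Y0 * Y0 = cq` with `cq ∈ V.nonunits` fixed by `w`, then with `X0 = cq / Y0 = w Y0`:
  `X0 ∈ V.nonunits`, `w Y0 ∈ V.nonunits`, `w X0 = Y0` is a unit of `V`, `X0 * Y0 = cq`.
-/

set_option autoImplicit false

namespace Fermat.Agent.S36.helper5460

section Abstract

variable {F : Type*} [Field F]

theorem mem_nonunits_iff_inv_not_mem (V : ValuationSubring F) {x : F} (hx : x ≠ 0) :
    x ∈ V.nonunits ↔ x⁻¹ ∉ V := by
  have h0 : V.valuation x ≠ 0 := (Valuation.ne_zero_iff _).mpr hx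
  rw [ValuationSubring.mem_nonunits_iff, ← ValuationSubring.valuation_le_one_iff, map_inv₀,
    not_le, one_lt_inv₀ (zero_lt_iff.mpr h0)]

/-- The maximal ideal of the restriction of a valuation ring along a homomorphism of fields. -/
theorem mem_nonunits_comap_hom_iff {F' : Type*} [Field F'] (V : ValuationSubring F)
    (f : F' →+* F) (x : F') : x ∈ (V.comap f).nonunits ↔ f x ∈ V.nonunits := by
  by_cases hx : x = 0
  · subst hx
    rw [map_zero]
    exact ⟨fun _ => (ValuationSubring.mem_nonunits_iff _).mpr (by simp),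
      fun _ => (ValuationSubring.mem_nonunits_iff _).mpr (by simp)⟩
  · have hfx : f x ≠ 0 := (map_ne_zero f).mpr hx
    rw [mem_nonunits_iff_inv_not_mem _ hx, mem_nonunits_iff_inv_not_mem _ hfx,
      ValuationSubring.mem_comap, map_inv₀]

/-- The maximal ideal of the twist of a valuation ring by an automorphism. -/
theorem mem_nonunits_comap_iff (V : ValuationSubring F) (w : F ≃+* F) (x : F) :
    x ∈ (V.comap (w : F →+* F)).nonunits ↔ w x ∈ V.nonunits :=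
  mem_nonunits_comap_hom_iff V (w : F →+* F) x

/-- **The abstract table of a unit with `w Y0 * Y0 = cq`**, homomorphism form. -/
theorem unit_table_hom (V : ValuationSubring F) (w : F →+* F) (Y0 cq : F)
    (hY : Y0 ∈ V) (hYi : Y0⁻¹ ∈ V) (hcq : cq ∈ V.nonunits) (hcq0 : cq ≠ 0) (hwcq : w cq = cq)
    (hW : w Y0 * Y0 = cq) :
    cq * Y0⁻¹ ∈ V.nonunits ∧ w Y0 ∈ V.nonunits ∧ w (cq * Y0⁻¹) ∈ V ∧ w (cq * Y0⁻¹)⁻¹ ∈ V ∧
      cq * Y0⁻¹ * Y0 = cq ∧ w Y0 = cq * Y0⁻¹ ∧ w (cq * Y0⁻¹) = Y0 := by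
  have hY0 : Y0 ≠ 0 := by
    rintro rfl
    rw [mul_zero] at hW
    exact hcq0 hW.symm
  have hwY : w Y0 = cq * Y0⁻¹ := by
    rw [← hW, mul_assoc, mul_inv_cancel₀ hY0, mul_one]
  have hwX : w (cq * Y0⁻¹) = Y0 := by
    rw [map_mul, map_inv₀, hwcq, hwY, mul_inv, inv_inv, ← mul_assoc, mul_inv_cancel₀ hcq0,
      one_mul]
  have hX : cq * Y0⁻¹ ∈ V.nonunits := by
    rw [ValuationSubring.mem_nonunits_iff, map_mul]
    have h1 := (ValuationSubring.mem_nonunits_iff V).mp hcq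
    have h2 := (V.valuation_le_one_iff _).mpr hYi
    calc V.valuation cq * V.valuation Y0⁻¹ ≤ V.valuation cq * 1 := by gcongr
      _ < 1 := by rw [mul_one]; exact h1
  refine ⟨hX, ?_, ?_, ?_, ?_, hwY, hwX⟩
  · rw [hwY]
    exact hX
  · rw [hwX]
    exact hY
  · rw [map_inv₀, hwX]
    exact hYi
  · rw [mul_assoc, inv_mul_cancel₀ hY0, mul_one]

/-- **The abstract table of a unit with `w Y0 * Y0 = cq`**, automorphism / `comap` form. -/
theorem unit_table (V : ValuationSubring F) (w : F ≃+* F) (Y0 cq : F)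
    (hY : Y0 ∈ V) (hYi : Y0⁻¹ ∈ V) (hcq : cq ∈ V.nonunits) (hcq0 : cq ≠ 0) (hwcq : w cq = cq)
    (hW : w Y0 * Y0 = cq) :
    cq * Y0⁻¹ ∈ V.nonunits ∧ Y0 ∈ (V.comap (w : F →+* F)).nonunits ∧
      cq * Y0⁻¹ ∈ V.comap (w : F →+* F) ∧ (cq * Y0⁻¹)⁻¹ ∈ V.comap (w : F →+* F) ∧
      cq * Y0⁻¹ * Y0 = cq ∧ w Y0 = cq * Y0⁻¹ ∧ w (cq * Y0⁻¹) = Y0 := by
  obtain ⟨t1, t2, t3, t4, t5, t6, t7⟩ := unit_table_hom V (w : F →+* F) Y0 cq hY hYi hcq hcq0
    hwcq hW
  refine ⟨t1, ?_, t3, ?_, t5, t6, t7⟩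
  · rw [mem_nonunits_comap_iff]
    exact t2
  · rw [ValuationSubring.mem_comap]
    exact t4

end Abstract

end Fermat.Agent.S36.helper5460
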