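import Mathlib
import Fermat.Agent.S36.helper405_KillTerms
import Fermat.Agent.S36.helper105_ThetaUnit
import Fermat.Agent.S36.helper4474_NineUnit
import Fermat.Agent.S36.helper5460_UnitTable
import Fermat.Agent.S36.helper5460_UnitGauss
import Fermat.Agent.S36.helper5460_UnitClear

/-!
# S36-UNIT-KVAL, part 4 (helper5460): the theta / nine unit ON THE TERMS OF RECORD

Terms of `helper405_KillTerms` (captain ruling #4): `KI A`, `FK A M₁`, `lh A M₁`, `Wq M₁ q ..`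
(`= helper1219.atkinLehnerHall M₁ q ..`), `Vinf' A M₁`, `Vzero' A M₁ q ..`, `xK' A M₁ q haux`
(`t₄` for `q ≠ 2`, `t₉` for `q = 2`).

* `thetaUnit_hall`, `nineUnit_hall` : the Atkin–Lehner relations of the two units for the
  level-general `W_q = atkinLehnerHall N q` (`q ∥ N`), no product decomposition of the level;
* `lh_zElt` : the base change of the `K`-form of an integer series is its `ℚ̄`-form;
* `table_modular` : the `(v'_∞, v'_0)` table of an integer series unit `Y` with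
  `W_q(Y) · Y = c q`, `c = ±1`, for `y = zElt (KI A) M₁ Y hY` and `X = c q / y`:
  `y, y⁻¹ ∈ Vinf'`, `X ∈ Vinf'.nonunits`, `y ∈ Vzero'.nonunits`, `X, X⁻¹ ∈ Vzero'`, `X * y = c q`;
* `theta_table_modular` (`4 q ∣ M₁`), `nine_table_modular` (`9 q ∣ M₁`) : the two instances;
* `exists_unit_modular` : for `AuxOK M₁ q` — ONE statement for both base lines: there are
  `y : FK A M₁` and `c : ℤ`, `c * c = 1`, with the table, `y` and `y⁻¹` integral over `K[j]`,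
  and, with `x' = xK' A M₁ q haux`: for `q ≠ 2` some `m` with
  `(x' (x' + 16)) ^ m * y^(±1)` integral over `K[x']` and
  `(x'⁻¹ (1 + 16 x'⁻¹)) ^ m * y^(±1)` integral over `K[x'⁻¹]`; for `q = 2` the same with the cusp
  polynomials `x' (x'² + 9 x' + 27)` and `x'⁻¹ (1 + 9 x'⁻¹ + 27 x'⁻¹ ²)`.

So in `hTH` (thickness one at the nodes of level `M₁`): `x₀ := s * X`, `y₀ := s * y`,
`x₀ * y₀ = q * (c * s ^ 2)`, `s` a power of the cusp polynomial of the chart.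
-/

set_option autoImplicit false

open ModularCurve HahnSeries

noncomputable section

namespace Fermat.Agent.S36.helper5460

open Fermat.Agent.S36.helper405
open Fermat.Agent.S24.helper24 (Kbar FN)
open Fermat.Agent.S35.helper1219
open Fermat.Agent.S18.helper8991 (gaussF)
open Fermat.Agent.S36.helper1335 (AuxOK)

/-! ## The Atkin–Lehner relations in Hall form -/

section Hall

/-- `W_q(s_q) · s_q = χ₋₄(q) q` for the level-general `W_q`, `q ∥ N`, `4 q ∣ N`. -/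
theorem thetaUnit_hall (q N : ℕ) [NeZero q] [NeZero N] (hqN : q ∣ N)
    (hcop : Nat.Coprime q (N / q)) (hN : 4 * q ∣ N) :
    atkinLehnerHall N q hqN hcop (helper105.thetaUnit q N hN) * helper105.thetaUnit q N hN
      = algebraMap Kbar (FN N) (((helper105.chi4Z q : ℤ) : Kbar) * (q : Kbar)) := by
  obtain ⟨M, rfl⟩ := hqN
  have hq0 : 0 < q := Nat.pos_of_ne_zero (NeZero.ne q)
  have hM0 : M ≠ 0 := by
    rintro rfl
    exact NeZero.ne (q * 0) (by simp)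
  have : NeZero M := ⟨hM0⟩
  have h : Nat.Coprime q M := by rwa [Nat.mul_div_cancel_left M hq0] at hcop
  have h4 : 4 ∣ M := by
    rw [mul_comm 4 q] at hN
    exact (Nat.mul_dvd_mul_iff_left hq0).mp hN
  rw [atkinLehnerHall_eq_atkinLehnerBar q M h]
  exact helper105.thetaUnit_atkinLehner q M h h4

/-- `W_q(y_q) · y_q = χ₋₃(q) q` for the level-general `W_q`, `q ∥ N`, `9 q ∣ N`. -/
theorem nineUnit_hall (q N : ℕ) [NeZero q] [NeZero N] (hqN : q ∣ N)
    (hcop : Nat.Coprime q (N / q)) (hN : 9 * q ∣ N) :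
    atkinLehnerHall N q hqN hcop (helper4474.nineUnit q N hN) * helper4474.nineUnit q N hN
      = algebraMap Kbar (FN N) (((helper4474.chi3Z q : ℤ) : Kbar) * (q : Kbar)) := by
  obtain ⟨M, rfl⟩ := hqN
  have hq0 : 0 < q := Nat.pos_of_ne_zero (NeZero.ne q)
  have hM0 : M ≠ 0 := by
    rintro rfl
    exact NeZero.ne (q * 0) (by simp)
  have : NeZero M := ⟨hM0⟩
  have h : Nat.Coprime q M := by rwa [Nat.mul_div_cancel_left M hq0] at hcop
  have h9 : 9 ∣ M := by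
    rw [mul_comm 9 q] at hN
    exact (Nat.mul_dvd_mul_iff_left hq0).mp hN
  rw [atkinLehnerHall_eq_atkinLehnerBar q M h]
  exact helper4474.nineUnit_atkinLehner q M h h9

end Hall

/-! ## The table on the terms of record -/

section Table

variable (A : ValuationSubring (AlgebraicClosure ℚ)) (M₁ q : ℕ) [NeZero M₁] [NeZero q]

/-- The base change of the `K`-form of an integer series is its `ℚ̄`-form. -/
theorem lh_zElt (N : ℕ) (Y : PowerSeries ℤ)
    (hY : HahnSeries.ofPowerSeries ℤ ℚ (Y.map (Int.castRingHom ℚ)) ∈ modularFunctionFieldFull N) :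
    lh A N (zElt (KI A) N Y hY) = zElt Kbar N Y hY := by
  apply Subtype.ext
  show coeffMap (algebraMap (KI A) (AlgebraicClosure ℚ)) (coeffEmb (KI A) _) = coeffEmb Kbar _
  rw [coeffEmb, coeffEmb, coeffMap_coeffMap]
  exact coeffMap_congr (RingHom.ext fun c => by simp) _

omit [NeZero q] in
/-- `c q`, `c = ±1`, lies in the maximal ideal of the Gauss ring over `(ℚ̄, A)`. -/
theorem const_mem_nonunits_gaussF (hq : q.Prime) (hA : A.LiesOverPrime q) (N : ℕ) (c : ℤ)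
    (hc : c * c = 1) :
    algebraMap Kbar (FN N) ((c : Kbar) * (q : Kbar)) ∈ (gaussF A (IsLocalRing.residue A) N).nonunits
      ∧ algebraMap Kbar (FN N) ((c : Kbar) * (q : Kbar)) ≠ 0 := by
  have hcK : (c : Kbar) * (c : Kbar) = 1 := by exact_mod_cast congrArg (Int.cast : ℤ → Kbar) hc
  have hc0 : (c : Kbar) ≠ 0 := by
    intro h0
    rw [h0, mul_zero] at hcK
    exact zero_ne_one hcK
  have hq0 : (q : Kbar) ≠ 0 := Nat.cast_ne_zero.mpr hq.ne_zero
  have hne : algebraMap Kbar (FN N) ((c : Kbar) * (q : Kbar)) ≠ 0 :=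
    (map_ne_zero _).mpr (mul_ne_zero hc0 hq0)
  refine ⟨?_, hne⟩
  rw [mem_nonunits_iff_inv_not_mem _ hne, ← map_inv₀,
    Fermat.Agent.S18.helper8991.algebraMap_mem_gaussF_iff A (IsLocalRing.residue A) N
      (residue_eq_zero_of_mem A)]
  intro hmem
  have hv : A.valuation (q : Kbar) < 1 := (ValuationSubring.mem_nonunits_iff A).mp hA
  have hcA : (c : Kbar) ∈ A := intCast_mem A c
  have h1 : ((q : Kbar))⁻¹ ∈ A := by
    have e : ((q : Kbar))⁻¹ = (c : Kbar) * ((c : Kbar) * (q : Kbar))⁻¹ := by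
      rw [mul_inv, ← mul_assoc, mul_inv_cancel₀ hc0, one_mul]
    rw [e]
    exact mul_mem hcA hmem
  have h2 := (ValuationSubring.valuation_le_one_iff A _).mpr h1
  rw [map_inv₀] at h2
  have hv0 : A.valuation (q : Kbar) ≠ 0 := (Valuation.ne_zero_iff _).mpr hq0
  exact absurd hv (not_lt.mpr ((inv_le_one₀ (zero_lt_iff.mpr hv0)).mp h2))

/-- **The `(v'_∞, v'_0)` table of an integer series unit with `W_q(Y) · Y = c q`, `c = ±1`, on
the terms of record.** -/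
theorem table_modular (hq : q.Prime) (hqM : q ∣ M₁) (hq2 : ¬ q ^ 2 ∣ M₁)
    (hA : A.LiesOverPrime q) {Y Yi : PowerSeries ℤ} (hYY : Y * Yi = 1)
    (hY : HahnSeries.ofPowerSeries ℤ ℚ (Y.map (Int.castRingHom ℚ)) ∈ modularFunctionFieldFull M₁)
    (c : ℤ) (hc : c * c = 1)
    (hW : Wq M₁ q hq hqM hq2 (zElt Kbar M₁ Y hY) * zElt Kbar M₁ Y hY
      = algebraMap Kbar (FN M₁) ((c : Kbar) * (q : Kbar))) :
    zElt (KI A) M₁ Y hY ∈ Vinf' A M₁ ∧ (zElt (KI A) M₁ Y hY)⁻¹ ∈ Vinf' A M₁ ∧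
    algebraMap (KI A) (FK A M₁) ((c : KI A) * (q : KI A)) * (zElt (KI A) M₁ Y hY)⁻¹
      ∈ (Vinf' A M₁).nonunits ∧
    zElt (KI A) M₁ Y hY ∈ (Vzero' A M₁ q hq hqM hq2).nonunits ∧
    algebraMap (KI A) (FK A M₁) ((c : KI A) * (q : KI A)) * (zElt (KI A) M₁ Y hY)⁻¹
      ∈ Vzero' A M₁ q hq hqM hq2 ∧
    (algebraMap (KI A) (FK A M₁) ((c : KI A) * (q : KI A)) * (zElt (KI A) M₁ Y hY)⁻¹)⁻¹
      ∈ Vzero' A M₁ q hq hqM hq2 ∧
    algebraMap (KI A) (FK A M₁) ((c : KI A) * (q : KI A)) * (zElt (KI A) M₁ Y hY)⁻¹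
        * zElt (KI A) M₁ Y hY = algebraMap (KI A) (FK A M₁) ((c : KI A) * (q : KI A)) := by
  have hYb : zElt Kbar M₁ Y hY ∈ gaussF A (IsLocalRing.residue A) M₁ :=
    zElt_mem_gaussF M₁ A (IsLocalRing.residue A) Y hY
  have hYbi : (zElt Kbar M₁ Y hY)⁻¹ ∈ gaussF A (IsLocalRing.residue A) M₁ :=
    zElt_inv_mem_gaussF M₁ A (IsLocalRing.residue A) hYY hY
  obtain ⟨hcq, hcq0⟩ := const_mem_nonunits_gaussF A q hq hA M₁ c hc
  obtain ⟨t1, t2, t3, t4, -, -, -⟩ := unit_table_hom (gaussF A (IsLocalRing.residue A) M₁)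
    (Wq M₁ q hq hqM hq2).toAlgHom.toRingHom (zElt Kbar M₁ Y hY)
    (algebraMap Kbar (FN M₁) ((c : Kbar) * (q : Kbar))) hYb hYbi hcq hcq0
    ((Wq M₁ q hq hqM hq2).commutes _) hW
  have hlc : lh A M₁ (algebraMap (KI A) (FK A M₁) ((c : KI A) * (q : KI A)))
      = algebraMap Kbar (FN M₁) ((c : Kbar) * (q : Kbar)) := by
    rw [lh_algebraMap]
    rfl
  have hlX : lh A M₁ (algebraMap (KI A) (FK A M₁) ((c : KI A) * (q : KI A))
      * (zElt (KI A) M₁ Y hY)⁻¹)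
      = algebraMap Kbar (FN M₁) ((c : Kbar) * (q : Kbar)) * (zElt Kbar M₁ Y hY)⁻¹ := by
    rw [map_mul, map_inv₀, hlc, lh_zElt]
  have hy0 : zElt (KI A) M₁ Y hY ≠ 0 := zElt_ne_zero (KI A) M₁ hYY hY
  refine ⟨?_, ?_, ?_, ?_, ?_, ?_, ?_⟩
  · show lh A M₁ _ ∈ gaussF A (IsLocalRing.residue A) M₁
    rw [lh_zElt]
    exact hYb
  · show lh A M₁ _ ∈ gaussF A (IsLocalRing.residue A) M₁
    rw [map_inv₀, lh_zElt]
    exact hYbi
  · show _ ∈ ((gaussF A (IsLocalRing.residue A) M₁).comap (lh A M₁)).nonunits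
    rw [mem_nonunits_comap_hom_iff, hlX]
    exact t1
  · show _ ∈ (((gaussF A (IsLocalRing.residue A) M₁).comap
      (Wq M₁ q hq hqM hq2).toAlgHom.toRingHom).comap (lh A M₁)).nonunits
    rw [mem_nonunits_comap_hom_iff, mem_nonunits_comap_hom_iff, lh_zElt]
    exact t2
  · show (Wq M₁ q hq hqM hq2).toAlgHom.toRingHom (lh A M₁ _) ∈ gaussF A (IsLocalRing.residue A) M₁
    rw [hlX]
    exact t3
  · show (Wq M₁ q hq hqM hq2).toAlgHom.toRingHom (lh A M₁ _) ∈ gaussF A (IsLocalRing.residue A) M₁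
    rw [map_inv₀ (lh A M₁), hlX]
    exact t4
  · rw [mul_assoc, inv_mul_cancel₀ hy0, mul_one]

/-- The table of the theta unit (base line `t₄`, `4 q ∣ M₁`). -/
theorem theta_table_modular (hq : q.Prime) (hqM : q ∣ M₁) (hq2 : ¬ q ^ 2 ∣ M₁)
    (hA : A.LiesOverPrime q) (h4q : 4 * q ∣ M₁) :
    zElt (KI A) M₁ (helper105.sZ q) (helper105.thetaUnit_mem_full q M₁ h4q) ∈ Vinf' A M₁ ∧
    (zElt (KI A) M₁ (helper105.sZ q) (helper105.thetaUnit_mem_full q M₁ h4q))⁻¹ ∈ Vinf' A M₁ ∧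
    algebraMap (KI A) (FK A M₁) (((helper105.chi4Z q : ℤ) : KI A) * (q : KI A))
        * (zElt (KI A) M₁ (helper105.sZ q) (helper105.thetaUnit_mem_full q M₁ h4q))⁻¹
      ∈ (Vinf' A M₁).nonunits ∧
    zElt (KI A) M₁ (helper105.sZ q) (helper105.thetaUnit_mem_full q M₁ h4q)
      ∈ (Vzero' A M₁ q hq hqM hq2).nonunits ∧
    algebraMap (KI A) (FK A M₁) (((helper105.chi4Z q : ℤ) : KI A) * (q : KI A))
        * (zElt (KI A) M₁ (helper105.sZ q) (helper105.thetaUnit_mem_full q M₁ h4q))⁻¹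
      ∈ Vzero' A M₁ q hq hqM hq2 ∧
    (algebraMap (KI A) (FK A M₁) (((helper105.chi4Z q : ℤ) : KI A) * (q : KI A))
        * (zElt (KI A) M₁ (helper105.sZ q) (helper105.thetaUnit_mem_full q M₁ h4q))⁻¹)⁻¹
      ∈ Vzero' A M₁ q hq hqM hq2 ∧
    algebraMap (KI A) (FK A M₁) (((helper105.chi4Z q : ℤ) : KI A) * (q : KI A))
        * (zElt (KI A) M₁ (helper105.sZ q) (helper105.thetaUnit_mem_full q M₁ h4q))⁻¹
        * zElt (KI A) M₁ (helper105.sZ q) (helper105.thetaUnit_mem_full q M₁ h4q)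
      = algebraMap (KI A) (FK A M₁) (((helper105.chi4Z q : ℤ) : KI A) * (q : KI A)) :=
  table_modular A M₁ q hq hqM hq2 hA (helper105.sZ_mul_sZinv q) _ _ (helper105.chi4Z_sq q)
    (thetaUnit_hall q M₁ hqM (coprime_level hq hqM hq2) h4q)

/-- The table of the level-`9` unit (base line `t₉`, `9 q ∣ M₁`). -/
theorem nine_table_modular (hq : q.Prime) (hqM : q ∣ M₁) (hq2 : ¬ q ^ 2 ∣ M₁)
    (hA : A.LiesOverPrime q) (h9q : 9 * q ∣ M₁) :
    zElt (KI A) M₁ (helper4474.yZ q) (helper4474.nineUnit_mem_full q M₁ h9q) ∈ Vinf' A M₁ ∧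
    (zElt (KI A) M₁ (helper4474.yZ q) (helper4474.nineUnit_mem_full q M₁ h9q))⁻¹ ∈ Vinf' A M₁ ∧
    algebraMap (KI A) (FK A M₁) (((helper4474.chi3Z q : ℤ) : KI A) * (q : KI A))
        * (zElt (KI A) M₁ (helper4474.yZ q) (helper4474.nineUnit_mem_full q M₁ h9q))⁻¹
      ∈ (Vinf' A M₁).nonunits ∧
    zElt (KI A) M₁ (helper4474.yZ q) (helper4474.nineUnit_mem_full q M₁ h9q)
      ∈ (Vzero' A M₁ q hq hqM hq2).nonunits ∧
    algebraMap (KI A) (FK A M₁) (((helper4474.chi3Z q : ℤ) : KI A) * (q : KI A))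
        * (zElt (KI A) M₁ (helper4474.yZ q) (helper4474.nineUnit_mem_full q M₁ h9q))⁻¹
      ∈ Vzero' A M₁ q hq hqM hq2 ∧
    (algebraMap (KI A) (FK A M₁) (((helper4474.chi3Z q : ℤ) : KI A) * (q : KI A))
        * (zElt (KI A) M₁ (helper4474.yZ q) (helper4474.nineUnit_mem_full q M₁ h9q))⁻¹)⁻¹
      ∈ Vzero' A M₁ q hq hqM hq2 ∧
    algebraMap (KI A) (FK A M₁) (((helper4474.chi3Z q : ℤ) : KI A) * (q : KI A))
        * (zElt (KI A) M₁ (helper4474.yZ q) (helper4474.nineUnit_mem_full q M₁ h9q))⁻¹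
        * zElt (KI A) M₁ (helper4474.yZ q) (helper4474.nineUnit_mem_full q M₁ h9q)
      = algebraMap (KI A) (FK A M₁) (((helper4474.chi3Z q : ℤ) : KI A) * (q : KI A)) :=
  table_modular A M₁ q hq hqM hq2 hA (helper4474.yZ_mul_yZinv q) _ _ (helper4474.chi3Z_sq q)
    (nineUnit_hall q M₁ hqM (coprime_level hq hqM hq2) h9q)

/-- **The unit of the base line, on the terms of record** (`t₄` for `q ≠ 2`, `t₉` for `q = 2`):
table at `(v'_∞, v'_0)`, integrality of `y^(±1)` over `K[j]`, and integrality over `K[x']`,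
`K[x'⁻¹]` after multiplication by a power of the cusp polynomial of the chart. -/
theorem exists_unit_modular (hq : q.Prime) (hqM : q ∣ M₁) (hq2 : ¬ q ^ 2 ∣ M₁)
    (hA : A.LiesOverPrime q) (haux : AuxOK M₁ q) :
    ∃ (y : FK A M₁) (c : ℤ), c * c = 1 ∧
      (y ∈ Vinf' A M₁ ∧ y⁻¹ ∈ Vinf' A M₁ ∧
        algebraMap (KI A) (FK A M₁) ((c : KI A) * (q : KI A)) * y⁻¹ ∈ (Vinf' A M₁).nonunits ∧
        y ∈ (Vzero' A M₁ q hq hqM hq2).nonunits ∧
        algebraMap (KI A) (FK A M₁) ((c : KI A) * (q : KI A)) * y⁻¹ ∈ Vzero' A M₁ q hq hqM hq2 ∧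
        (algebraMap (KI A) (FK A M₁) ((c : KI A) * (q : KI A)) * y⁻¹)⁻¹
          ∈ Vzero' A M₁ q hq hqM hq2 ∧
        algebraMap (KI A) (FK A M₁) ((c : KI A) * (q : KI A)) * y⁻¹ * y
          = algebraMap (KI A) (FK A M₁) ((c : KI A) * (q : KI A))) ∧
      IsIntegral (Algebra.adjoin (KI A) {Fermat.Agent.S37.helper1588.jK (KI A) M₁}) y ∧
      IsIntegral (Algebra.adjoin (KI A) {Fermat.Agent.S37.helper1588.jK (KI A) M₁}) y⁻¹ ∧
      (q ≠ 2 → ∃ m : ℕ,
        IsIntegral (Algebra.adjoin (KI A) {xK' A M₁ q haux})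
          ((xK' A M₁ q haux * (xK' A M₁ q haux + 16)) ^ m * y) ∧
        IsIntegral (Algebra.adjoin (KI A) {xK' A M₁ q haux})
          ((xK' A M₁ q haux * (xK' A M₁ q haux + 16)) ^ m * y⁻¹) ∧
        IsIntegral (Algebra.adjoin (KI A) {(xK' A M₁ q haux)⁻¹})
          (((xK' A M₁ q haux)⁻¹ * (1 + 16 * (xK' A M₁ q haux)⁻¹)) ^ m * y) ∧
        IsIntegral (Algebra.adjoin (KI A) {(xK' A M₁ q haux)⁻¹})
          (((xK' A M₁ q haux)⁻¹ * (1 + 16 * (xK' A M₁ q haux)⁻¹)) ^ m * y⁻¹)) ∧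
      (q = 2 → ∃ m : ℕ,
        IsIntegral (Algebra.adjoin (KI A) {xK' A M₁ q haux})
          ((xK' A M₁ q haux * (xK' A M₁ q haux ^ 2 + 9 * xK' A M₁ q haux + 27)) ^ m * y) ∧
        IsIntegral (Algebra.adjoin (KI A) {xK' A M₁ q haux})
          ((xK' A M₁ q haux * (xK' A M₁ q haux ^ 2 + 9 * xK' A M₁ q haux + 27)) ^ m * y⁻¹) ∧
        IsIntegral (Algebra.adjoin (KI A) {(xK' A M₁ q haux)⁻¹})
          (((xK' A M₁ q haux)⁻¹ * (1 + 9 * (xK' A M₁ q haux)⁻¹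
            + 27 * (xK' A M₁ q haux)⁻¹ ^ 2)) ^ m * y) ∧
        IsIntegral (Algebra.adjoin (KI A) {(xK' A M₁ q haux)⁻¹})
          (((xK' A M₁ q haux)⁻¹ * (1 + 9 * (xK' A M₁ q haux)⁻¹
            + 27 * (xK' A M₁ q haux)⁻¹ ^ 2)) ^ m * y⁻¹)) := by
  by_cases h2 : q = 2
  · -- the base line `t₉`
    have h9 : 9 ∣ M₁ := haux.2 h2
    have h9q : 9 * q ∣ M₁ := by
      refine Nat.Coprime.mul_dvd_of_dvd_of_dvd ?_ h9 hqM
      rw [h2]
      decide
    have hI : IsIntegral (Algebra.adjoin (KI A) {Fermat.Agent.S37.helper1588.jK (KI A) M₁})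
        (zElt (KI A) M₁ (helper4474.yZ q) (helper4474.nineUnit_mem_full q M₁ h9q)) :=
      zElt_isIntegral (KI A) M₁ _ _ (helper4474.nineUnit_isIntegral q)
    have hIi : IsIntegral (Algebra.adjoin (KI A) {Fermat.Agent.S37.helper1588.jK (KI A) M₁})
        (zElt (KI A) M₁ (helper4474.yZ q) (helper4474.nineUnit_mem_full q M₁ h9q))⁻¹ := by
      rw [zElt_inv (KI A) M₁ (helper4474.yZ_mul_yZinv q) _
        (helper4474.nineUnit_inv_mem_full q M₁ h9q)]
      exact zElt_isIntegral (KI A) M₁ _ _ (helper4474.nineUnit_inv_isIntegral q)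
    refine ⟨_, helper4474.chi3Z q, helper4474.chi3Z_sq q,
      nine_table_modular A M₁ q hq hqM hq2 hA h9q, hI, hIi, fun h => absurd h2 h, fun _ => ?_⟩
    have hx : xK' A M₁ q haux = Fermat.Agent.S37.helper530.t9F (KI A) M₁ h9 :=
      baseLine_of_eq (KI A) M₁ q haux.1 haux.2 h2
    rw [hx]
    obtain ⟨m1, hm1⟩ := clear_t9F (KI A) M₁ h9 hI
    obtain ⟨m2, hm2⟩ := clear_t9F (KI A) M₁ h9 hIi
    obtain ⟨m3, hm3⟩ := clear_t9F_inv (KI A) M₁ h9 hI
    obtain ⟨m4, hm4⟩ := clear_t9F_inv (KI A) M₁ h9 hIi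
    have ht := Algebra.self_mem_adjoin_singleton (KI A) (Fermat.Agent.S37.helper530.t9F (KI A) M₁ h9)
    have hti := Algebra.self_mem_adjoin_singleton (KI A)
      (Fermat.Agent.S37.helper530.t9F (KI A) M₁ h9)⁻¹
    have hs : Fermat.Agent.S37.helper530.t9F (KI A) M₁ h9
        * (Fermat.Agent.S37.helper530.t9F (KI A) M₁ h9 ^ 2
          + 9 * Fermat.Agent.S37.helper530.t9F (KI A) M₁ h9 + 27)
        ∈ Algebra.adjoin (KI A) {Fermat.Agent.S37.helper530.t9F (KI A) M₁ h9} :=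
      mul_mem ht (add_mem (add_mem (pow_mem ht 2) (mul_mem (ofNat_mem _ 9) ht)) (ofNat_mem _ 27))
    have hsi : (Fermat.Agent.S37.helper530.t9F (KI A) M₁ h9)⁻¹
        * (1 + 9 * (Fermat.Agent.S37.helper530.t9F (KI A) M₁ h9)⁻¹
          + 27 * (Fermat.Agent.S37.helper530.t9F (KI A) M₁ h9)⁻¹ ^ 2)
        ∈ Algebra.adjoin (KI A) {(Fermat.Agent.S37.helper530.t9F (KI A) M₁ h9)⁻¹} :=
      mul_mem hti (add_mem (add_mem (one_mem _) (mul_mem (ofNat_mem _ 9) hti))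
        (mul_mem (ofNat_mem _ 27) (pow_mem hti 2)))
    refine ⟨m1 + m2 + m3 + m4, ?_, ?_, ?_, ?_⟩
    · exact isIntegral_adjoin_pow_mul_of_le _ hs (by omega) hm1
    · exact isIntegral_adjoin_pow_mul_of_le _ hs (by omega) hm2
    · exact isIntegral_adjoin_pow_mul_of_le _ hsi (by omega) hm3
    · exact isIntegral_adjoin_pow_mul_of_le _ hsi (by omega) hm4
  · -- the base line `t₄`
    have h4 : 4 ∣ M₁ := haux.1 h2
    have h4q : 4 * q ∣ M₁ := by
      refine Nat.Coprime.mul_dvd_of_dvd_of_dvd ?_ h4 hqM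
      have h22 : Nat.Coprime 2 q := by
        rw [Nat.coprime_primes Nat.prime_two hq]
        exact fun h => h2 h.symm
      exact Nat.Coprime.pow_left 2 h22
    have hI : IsIntegral (Algebra.adjoin (KI A) {Fermat.Agent.S37.helper1588.jK (KI A) M₁})
        (zElt (KI A) M₁ (helper105.sZ q) (helper105.thetaUnit_mem_full q M₁ h4q)) :=
      zElt_isIntegral (KI A) M₁ _ _ (helper105.thetaUnit_isIntegral q)
    have hIi : IsIntegral (Algebra.adjoin (KI A) {Fermat.Agent.S37.helper1588.jK (KI A) M₁})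
        (zElt (KI A) M₁ (helper105.sZ q) (helper105.thetaUnit_mem_full q M₁ h4q))⁻¹ := by
      rw [zElt_inv (KI A) M₁ (helper105.sZ_mul_sZinv q) _
        (helper105.thetaUnit_inv_mem_full q M₁ h4q)]
      exact zElt_isIntegral (KI A) M₁ _ _ (helper105.thetaUnit_inv_isIntegral q)
    refine ⟨_, helper105.chi4Z q, helper105.chi4Z_sq q,
      theta_table_modular A M₁ q hq hqM hq2 hA h4q, hI, hIi, fun _ => ?_, fun h => absurd h h2⟩
    have hx : xK' A M₁ q haux = Fermat.Agent.S37.helper530.t4F (KI A) M₁ h4 :=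
      baseLine_of_ne (KI A) M₁ q haux.1 haux.2 h2
    rw [hx]
    obtain ⟨m1, hm1⟩ := clear_t4F (KI A) M₁ h4 hI
    obtain ⟨m2, hm2⟩ := clear_t4F (KI A) M₁ h4 hIi
    obtain ⟨m3, hm3⟩ := clear_t4F_inv (KI A) M₁ h4 hI
    obtain ⟨m4, hm4⟩ := clear_t4F_inv (KI A) M₁ h4 hIi
    have ht := Algebra.self_mem_adjoin_singleton (KI A) (Fermat.Agent.S37.helper530.t4F (KI A) M₁ h4)
    have hti := Algebra.self_mem_adjoin_singleton (KI A)
      (Fermat.Agent.S37.helper530.t4F (KI A) M₁ h4)⁻¹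
    have hs : Fermat.Agent.S37.helper530.t4F (KI A) M₁ h4
        * (Fermat.Agent.S37.helper530.t4F (KI A) M₁ h4 + 16)
        ∈ Algebra.adjoin (KI A) {Fermat.Agent.S37.helper530.t4F (KI A) M₁ h4} :=
      mul_mem ht (add_mem ht (ofNat_mem _ 16))
    have hsi : (Fermat.Agent.S37.helper530.t4F (KI A) M₁ h4)⁻¹
        * (1 + 16 * (Fermat.Agent.S37.helper530.t4F (KI A) M₁ h4)⁻¹)
        ∈ Algebra.adjoin (KI A) {(Fermat.Agent.S37.helper530.t4F (KI A) M₁ h4)⁻¹} :=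
      mul_mem hti (add_mem (one_mem _) (mul_mem (ofNat_mem _ 16) hti))
    refine ⟨m1 + m2 + m3 + m4, ?_, ?_, ?_, ?_⟩
    · exact isIntegral_adjoin_pow_mul_of_le _ hs (by omega) hm1
    · exact isIntegral_adjoin_pow_mul_of_le _ hs (by omega) hm2
    · exact isIntegral_adjoin_pow_mul_of_le _ hsi (by omega) hm3
    · exact isIntegral_adjoin_pow_mul_of_le _ hsi (by omega) hm4

end Table

end Fermat.Agent.S36.helper5460
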