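import Mathlib
import Fermat.Agent.S36.helper405_KillTerms
import Fermat.Agent.S36.helper5460_DeltaInt
import Fermat.Agent.S36.helper4857_DeltaUnitInt
import Fermat.Agent.S36.helper5460_UnitTable
import Fermat.Agent.S36.helper5460_UnitGauss
import Fermat.Agent.S36.helper5460_UnitClear
import Fermat.Agent.S36.helper5460_UnitInst

/-!
# S36-UNIT-KVAL, part 5 (helper5460): the Δ-unit `Δ(z)/Δ(qz)` ON THE TERMS OF RECORD

Terms of `helper405_KillTerms`.  `D₀ = Δ(z)/Δ(qz)` as an element of `FK A M₁` (`q ∥ M₁`):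

* `qElt L N x hx` : the element of `F_L(N)` with expansion the rational series `x`;
  `qElt_mem_gaussF_of_int` (integer Laurent series are Gauss-integral), `lh_qElt`;
* `isIntegral_deltaQuotQ`, `isIntegral_deltaQuotQ_inv` : `Δ(q^d)/Δ(q)` and its inverse are
  integral over `ℚ[j]` (rational form of `helper5460_DeltaInt`);
* `deltaQuot_hall` : `W_q(u) · u = q⁻¹²` for `u = Δ(qz)/Δ(z)` and the level-general `W_q`;
* `exists_delta_modular` : there is `D₀ : FK A M₁` with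
  `lh D₀ = coeffMap ℤ→ℚ̄ (helper4857.deltaUnitZ q)` (the integer series of `Δ(t)/Δ(t^q)`),
  `lh D₀ * Δ(t^q) = Δ(t)`, `D₀` a unit at `Vinf'`, `D₀ ∈ Vzero'.nonunits` (`v'_0 = 12 v(q)`),
  `D₀^(±1)` integral over `K[j]`, and `D₀` integral over `K[x']`, `K[x'⁻¹]` after multiplication
  by a power of the cusp polynomial of the chart (`x' = xK' A M₁ q haux`).
-/

set_option autoImplicit false

open ModularCurve HahnSeries

noncomputable section

namespace Fermat.Agent.S36.helper5460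

open Fermat.Agent.S36.helper405
open Fermat.Agent.S24.helper24 (Kbar FN)
open Fermat.Agent.S24
open Fermat.Agent.S35.helper1219
open Fermat.Agent.S18.helper8991 (gaussF)
open Fermat.Agent.S36.helper1335 (AuxOK)
open Fermat.Agent.S28.helper4768 (DeltaL DeltaL_ne_zero)

/-! ## Elements with a given rational expansion -/

section QElt

variable (L : Type*) [Field L] [Algebra ℚ L] (N : ℕ)

/-- The element of `F_L(N)` whose `q`-expansion is the rational series `x`. -/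
def qElt (x : LaurentSeries ℚ) (hx : x ∈ modularFunctionFieldFull N) :
    ↥(laurentBaseChange L (modularFunctionFieldFull N)) :=
  ⟨coeffEmb L x, coeffEmb_mem_laurentBaseChange L hx⟩

theorem coe_qElt (x : LaurentSeries ℚ) (hx : x ∈ modularFunctionFieldFull N) :
    ((qElt L N x hx : ↥(laurentBaseChange L (modularFunctionFieldFull N))) : LaurentSeries L)
      = coeffEmb L x := rfl

theorem qElt_inv (x : LaurentSeries ℚ) (hx : x ∈ modularFunctionFieldFull N)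
    (hxi : x⁻¹ ∈ modularFunctionFieldFull N) :
    (qElt L N x hx)⁻¹ = qElt L N x⁻¹ hxi := by
  apply Subtype.ext
  rw [IntermediateField.coe_inv, coe_qElt, coe_qElt, map_inv₀]

variable {L}

/-- A rational series with integer coefficients gives a Gauss-integral element. -/
theorem qElt_mem_gaussF_of_int (O : ValuationSubring L) {k : Type*} [Field k] (π : O →+* k)
    (x : LaurentSeries ℚ) (hx : x ∈ modularFunctionFieldFull N) (X : LaurentSeries ℤ)
    (hX : coeffMap (Int.castRingHom ℚ) X = x) :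
    qElt L N x hx ∈ gaussF O π N := by
  have e : ((qElt L N x hx : ↥(laurentBaseChange L (modularFunctionFieldFull N))) :
      LaurentSeries L)
      = Fermat.Agent.S18.helper8991.inc O (coeffMap (Int.castRingHom O) X) := by
    rw [coe_qElt, ← hX, coeffEmb, coeffMap_coeffMap, coeffMap_coeffMap]
    exact coeffMap_congr (RingHom.ext_int _ _) X
  have hmem : Fermat.Agent.S18.helper8991.inc O (coeffMap (Int.castRingHom O) X)
      ∈ laurentBaseChange L (modularFunctionFieldFull N) := by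
    rw [← e]
    exact (qElt L N x hx).2
  have e' : qElt L N x hx = ⟨_, hmem⟩ := Subtype.ext e
  rw [e']
  exact Fermat.Agent.S18.helper8991.inc_mem_gaussF O π N hmem

end QElt

/-! ## Integrality over `ℚ[j]` -/

section RatInt

open Fermat.Agent.S18

/-- `Δ(q^d)/Δ(q)` is integral over `ℚ[j]`. -/
theorem isIntegral_deltaQuotQ (N d : ℕ) [NeZero N] [NeZero d] (hd : d ∣ N) :
    IsIntegral (Algebra.adjoin ℚ {jq}) (deltaQuotQ d) := by
  obtain ⟨χ, hm, h⟩ := exists_monic_etaW N (deltaExp d) (sum_deltaExp N d hd)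
  rw [coeffMap_etaW_deltaExp N d hd] at h
  obtain ⟨χ', hm', h'⟩ := descend_eval₂ (deltaQuotQ d) χ hm h
  exact helper208.isIntegral_adjoin_of_eval₂ jq (deltaQuotQ d) χ' hm' h'

/-- `Δ(q)/Δ(q^d)` is integral over `ℚ[j]`. -/
theorem isIntegral_deltaQuotQ_inv (N d : ℕ) [NeZero N] [NeZero d] (hd : d ∣ N) :
    IsIntegral (Algebra.adjoin ℚ {jq}) (deltaQuotQ d)⁻¹ := by
  obtain ⟨χ, hm, h⟩ := exists_monic_etaW N (fun δ => -deltaExp d δ)
    (by rw [Finset.sum_neg_distrib, sum_deltaExp N d hd, neg_zero])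
  rw [coeffMap_etaW_neg_deltaExp N d hd] at h
  obtain ⟨χ', hm', h'⟩ := descend_eval₂ (deltaQuotQ d)⁻¹ χ hm h
  exact helper208.isIntegral_adjoin_of_eval₂ jq (deltaQuotQ d)⁻¹ χ' hm' h'

end RatInt

/-! ## The Atkin–Lehner relation in Hall form -/

/-- `W_q(u) · u = q⁻¹²` for `u = Δ(q^q)/Δ(q)` and the level-general `W_q`, `q ∥ N`. -/
theorem deltaQuot_hall (q N : ℕ) [NeZero q] [NeZero N] (hqN : q ∣ N)
    (hcop : Nat.Coprime q (N / q)) :
    atkinLehnerHall N q hqN hcop (deltaQuot N q hqN) * deltaQuot N q hqN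
      = algebraMap Kbar (FN N) (((q : Kbar) ^ 12)⁻¹) := by
  obtain ⟨M, rfl⟩ := hqN
  have hq0 : 0 < q := Nat.pos_of_ne_zero (NeZero.ne q)
  have hM0 : M ≠ 0 := by
    rintro rfl
    exact NeZero.ne (q * 0) (by simp)
  have : NeZero M := ⟨hM0⟩
  have h : Nat.Coprime q M := by rwa [Nat.mul_div_cancel_left M hq0] at hcop
  rw [atkinLehnerHall_eq_atkinLehnerBar q M h]
  exact atkinLehnerBar_deltaQuot q M h

/-! ## The Δ-unit on the terms of record -/

section Table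

variable (A : ValuationSubring (AlgebraicClosure ℚ)) (M₁ q : ℕ) [NeZero M₁] [NeZero q]

/-- The base change of the `K`-form of a rational series is its `ℚ̄`-form. -/
theorem lh_qElt (N : ℕ) (x : LaurentSeries ℚ) (hx : x ∈ modularFunctionFieldFull N) :
    lh A N (qElt (KI A) N x hx) = qElt Kbar N x hx := by
  apply Subtype.ext
  show coeffMap (algebraMap (KI A) (AlgebraicClosure ℚ)) (coeffEmb (KI A) x) = coeffEmb Kbar x
  rw [coeffEmb, coeffEmb, coeffMap_coeffMap]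
  exact coeffMap_congr (RingHom.ext fun c => by simp) _

omit [NeZero q] in
/-- `q ^ 12` lies in the maximal ideal of the Gauss ring over `(ℚ̄, A)`. -/
theorem pow_twelve_mem_nonunits_gaussF (hq : q.Prime) (hA : A.LiesOverPrime q) (N : ℕ) :
    algebraMap Kbar (FN N) ((q : Kbar) ^ 12) ∈ (gaussF A (IsLocalRing.residue A) N).nonunits
      ∧ algebraMap Kbar (FN N) ((q : Kbar) ^ 12) ≠ 0 := by
  obtain ⟨h1, h2⟩ := const_mem_nonunits_gaussF A q hq hA N 1 (by norm_num)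
  have e : algebraMap Kbar (FN N) ((q : Kbar) ^ 12)
      = algebraMap Kbar (FN N) (((1 : ℤ) : Kbar) * (q : Kbar)) ^ 12 := by
    rw [Int.cast_one, one_mul, map_pow]
  rw [e]
  refine ⟨?_, pow_ne_zero 12 h2⟩
  rw [ValuationSubring.mem_nonunits_iff, map_pow]
  exact pow_lt_one₀ zero_le ((ValuationSubring.mem_nonunits_iff _).mp h1) (by norm_num)

/-- **The Δ-unit `D₀ = Δ(z)/Δ(qz)` on the terms of record.** -/
theorem exists_delta_modular (hq : q.Prime) (hqM : q ∣ M₁) (hq2 : ¬ q ^ 2 ∣ M₁)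
    (hA : A.LiesOverPrime q) (haux : AuxOK M₁ q) :
    ∃ D₀ : FK A M₁,
      ((lh A M₁ D₀ : FN M₁) : LaurentSeries Kbar)
        = coeffMap (Int.castRingHom Kbar) (helper4857.deltaUnitZ q) ∧
      ((lh A M₁ D₀ : FN M₁) : LaurentSeries Kbar) * qExpand Kbar q (coeffEmb Kbar DeltaL)
        = coeffEmb Kbar DeltaL ∧
      D₀ ∈ Vinf' A M₁ ∧ D₀⁻¹ ∈ Vinf' A M₁ ∧ D₀ ∈ (Vzero' A M₁ q hq hqM hq2).nonunits ∧
      IsIntegral (Algebra.adjoin (KI A) {Fermat.Agent.S37.helper1588.jK (KI A) M₁}) D₀ ∧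
      IsIntegral (Algebra.adjoin (KI A) {Fermat.Agent.S37.helper1588.jK (KI A) M₁}) D₀⁻¹ ∧
      (q ≠ 2 → ∃ m : ℕ,
        IsIntegral (Algebra.adjoin (KI A) {xK' A M₁ q haux})
          ((xK' A M₁ q haux * (xK' A M₁ q haux + 16)) ^ m * D₀) ∧
        IsIntegral (Algebra.adjoin (KI A) {(xK' A M₁ q haux)⁻¹})
          (((xK' A M₁ q haux)⁻¹ * (1 + 16 * (xK' A M₁ q haux)⁻¹)) ^ m * D₀)) ∧
      (q = 2 → ∃ m : ℕ,
        IsIntegral (Algebra.adjoin (KI A) {xK' A M₁ q haux})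
          ((xK' A M₁ q haux * (xK' A M₁ q haux ^ 2 + 9 * xK' A M₁ q haux + 27)) ^ m * D₀) ∧
        IsIntegral (Algebra.adjoin (KI A) {(xK' A M₁ q haux)⁻¹})
          (((xK' A M₁ q haux)⁻¹ * (1 + 9 * (xK' A M₁ q haux)⁻¹
            + 27 * (xK' A M₁ q haux)⁻¹ ^ 2)) ^ m * D₀)) := by
  have hu : deltaQuotQ q ∈ modularFunctionFieldFull M₁ := deltaQuotQ_mem_full M₁ q hqM
  have hui : (deltaQuotQ q)⁻¹ ∈ modularFunctionFieldFull M₁ := inv_mem hu
  -- the rational series and their integer forms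
  have hZ : coeffMap (Int.castRingHom ℚ) (helper4857.deltaQuotZ q) = deltaQuotQ q :=
    helper4857.coeffMap_deltaQuotZ q
  have hZi : coeffMap (Int.castRingHom ℚ) (helper4857.deltaUnitZ q) = (deltaQuotQ q)⁻¹ := by
    rw [helper4857.coeffMap_deltaUnitZ q, deltaQuotQ, inv_div]
  -- over `(ℚ̄, A)`
  have hub : qElt Kbar M₁ (deltaQuotQ q) hu = deltaQuot M₁ q hqM := rfl
  have hYb : qElt Kbar M₁ (deltaQuotQ q)⁻¹ hui ∈ gaussF A (IsLocalRing.residue A) M₁ :=
    qElt_mem_gaussF_of_int M₁ A (IsLocalRing.residue A) _ hui _ hZi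
  have hYbi : (qElt Kbar M₁ (deltaQuotQ q)⁻¹ hui)⁻¹ ∈ gaussF A (IsLocalRing.residue A) M₁ := by
    rw [qElt_inv Kbar M₁ _ hui (by rw [inv_inv]; exact hu)]
    exact qElt_mem_gaussF_of_int M₁ A (IsLocalRing.residue A) _ _ _ (by rw [inv_inv]; exact hZ)
  have hYe : qElt Kbar M₁ (deltaQuotQ q)⁻¹ hui = (deltaQuot M₁ q hqM)⁻¹ := by
    rw [← hub, qElt_inv Kbar M₁ _ hu hui]
  obtain ⟨hcq, hcq0⟩ := pow_twelve_mem_nonunits_gaussF A q hq hA M₁
  have hW : (Wq M₁ q hq hqM hq2).toAlgHom.toRingHom (qElt Kbar M₁ (deltaQuotQ q)⁻¹ hui)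
      * qElt Kbar M₁ (deltaQuotQ q)⁻¹ hui = algebraMap Kbar (FN M₁) ((q : Kbar) ^ 12) := by
    have h1 := deltaQuot_hall q M₁ hqM (coprime_level hq hqM hq2)
    have h2 : (Wq M₁ q hq hqM hq2).toAlgHom.toRingHom ((deltaQuot M₁ q hqM)⁻¹)
        = (atkinLehnerHall M₁ q hqM (coprime_level hq hqM hq2) (deltaQuot M₁ q hqM))⁻¹ :=
      map_inv₀ (atkinLehnerHall M₁ q hqM (coprime_level hq hqM hq2)) _
    rw [hYe, h2, ← mul_inv, h1, ← map_inv₀, inv_inv]
  obtain ⟨-, t2, -, -, -, -, -⟩ := unit_table_hom (gaussF A (IsLocalRing.residue A) M₁)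
    (Wq M₁ q hq hqM hq2).toAlgHom.toRingHom (qElt Kbar M₁ (deltaQuotQ q)⁻¹ hui)
    (algebraMap Kbar (FN M₁) ((q : Kbar) ^ 12)) hYb hYbi hcq hcq0
    ((Wq M₁ q hq hqM hq2).commutes _) hW
  -- integrality over `K[j]`
  have hI : IsIntegral (Algebra.adjoin (KI A) {Fermat.Agent.S37.helper1588.jK (KI A) M₁})
      (qElt (KI A) M₁ (deltaQuotQ q)⁻¹ hui) :=
    isIntegral_of_rat (KI A) M₁ _ _ rfl (isIntegral_deltaQuotQ_inv M₁ q hqM)
  have hIi : IsIntegral (Algebra.adjoin (KI A) {Fermat.Agent.S37.helper1588.jK (KI A) M₁})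
      (qElt (KI A) M₁ (deltaQuotQ q)⁻¹ hui)⁻¹ := by
    rw [qElt_inv (KI A) M₁ _ hui (by rw [inv_inv]; exact hu)]
    refine isIntegral_of_rat (KI A) M₁ (deltaQuotQ q) _ ?_ (isIntegral_deltaQuotQ M₁ q hqM)
    rw [coe_qElt, inv_inv]
  refine ⟨qElt (KI A) M₁ (deltaQuotQ q)⁻¹ hui, ?_, ?_, ?_, ?_, ?_, hI, hIi, ?_, ?_⟩
  · rw [lh_qElt, coe_qElt, ← hZi, coeffEmb, coeffMap_coeffMap]
    exact coeffMap_congr (RingHom.ext_int _ _) _
  · rw [lh_qElt, coe_qElt, deltaQuotQ, inv_div, map_div₀, helper3176.coeffEmb_qExpand]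
    refine div_mul_cancel₀ _ ?_
    intro h0
    have h1 : coeffEmb Kbar DeltaL = 0 := by
      apply qExpand_injective (R := Kbar) q
      rw [h0, map_zero]
    exact DeltaL_ne_zero ((map_eq_zero (coeffEmb Kbar)).mp h1)
  · show lh A M₁ _ ∈ gaussF A (IsLocalRing.residue A) M₁
    rw [lh_qElt]
    exact hYb
  · show lh A M₁ _ ∈ gaussF A (IsLocalRing.residue A) M₁
    rw [map_inv₀, lh_qElt]
    exact hYbi
  · show _ ∈ (((gaussF A (IsLocalRing.residue A) M₁).comap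
      (Wq M₁ q hq hqM hq2).toAlgHom.toRingHom).comap (lh A M₁)).nonunits
    rw [mem_nonunits_comap_hom_iff, mem_nonunits_comap_hom_iff, lh_qElt]
    exact t2
  · intro h2
    have h4 : 4 ∣ M₁ := haux.1 h2
    have hx : xK' A M₁ q haux = Fermat.Agent.S37.helper530.t4F (KI A) M₁ h4 :=
      baseLine_of_ne (KI A) M₁ q haux.1 haux.2 h2
    rw [hx]
    obtain ⟨m1, hm1⟩ := clear_t4F (KI A) M₁ h4 hI
    obtain ⟨m3, hm3⟩ := clear_t4F_inv (KI A) M₁ h4 hI
    have ht := Algebra.self_mem_adjoin_singleton (KI A)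
      (Fermat.Agent.S37.helper530.t4F (KI A) M₁ h4)
    have hti := Algebra.self_mem_adjoin_singleton (KI A)
      (Fermat.Agent.S37.helper530.t4F (KI A) M₁ h4)⁻¹
    have hs : Fermat.Agent.S37.helper530.t4F (KI A) M₁ h4
        * (Fermat.Agent.S37.helper530.t4F (KI A) M₁ h4 + 16)
        ∈ Algebra.adjoin (KI A) {Fermat.Agent.S37.helper530.t4F (KI A) M₁ h4} :=
      mul_mem ht (add_mem ht (ofNat_mem _ 16))
    have hsi : (Fermat.Agent.S37.helper530.t4F (KI A) M₁ h4)⁻¹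
        * (1 + 16 * (Fermat.Agent.S37.helper530.t4F (KI A) M₁ h4)⁻¹)
        ∈ Algebra.adjoin (KI A) {(Fermat.Agent.S37.helper530.t4F (KI A) M₁ h4)⁻¹} :=
      mul_mem hti (add_mem (one_mem _) (mul_mem (ofNat_mem _ 16) hti))
    exact ⟨m1 + m3, isIntegral_adjoin_pow_mul_of_le _ hs (by omega) hm1,
      isIntegral_adjoin_pow_mul_of_le _ hsi (by omega) hm3⟩
  · intro h2
    have h9 : 9 ∣ M₁ := haux.2 h2
    have hx : xK' A M₁ q haux = Fermat.Agent.S37.helper530.t9F (KI A) M₁ h9 :=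
      baseLine_of_eq (KI A) M₁ q haux.1 haux.2 h2
    rw [hx]
    obtain ⟨m1, hm1⟩ := clear_t9F (KI A) M₁ h9 hI
    obtain ⟨m3, hm3⟩ := clear_t9F_inv (KI A) M₁ h9 hI
    have ht := Algebra.self_mem_adjoin_singleton (KI A)
      (Fermat.Agent.S37.helper530.t9F (KI A) M₁ h9)
    have hti := Algebra.self_mem_adjoin_singleton (KI A)
      (Fermat.Agent.S37.helper530.t9F (KI A) M₁ h9)⁻¹
    have hs : Fermat.Agent.S37.helper530.t9F (KI A) M₁ h9
        * (Fermat.Agent.S37.helper530.t9F (KI A) M₁ h9 ^ 2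
          + 9 * Fermat.Agent.S37.helper530.t9F (KI A) M₁ h9 + 27)
        ∈ Algebra.adjoin (KI A) {Fermat.Agent.S37.helper530.t9F (KI A) M₁ h9} :=
      mul_mem ht (add_mem (add_mem (pow_mem ht 2) (mul_mem (ofNat_mem _ 9) ht)) (ofNat_mem _ 27))
    have hsi : (Fermat.Agent.S37.helper530.t9F (KI A) M₁ h9)⁻¹
        * (1 + 9 * (Fermat.Agent.S37.helper530.t9F (KI A) M₁ h9)⁻¹
          + 27 * (Fermat.Agent.S37.helper530.t9F (KI A) M₁ h9)⁻¹ ^ 2)
        ∈ Algebra.adjoin (KI A) {(Fermat.Agent.S37.helper530.t9F (KI A) M₁ h9)⁻¹} :=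
      mul_mem hti (add_mem (add_mem (one_mem _) (mul_mem (ofNat_mem _ 9) hti))
        (mul_mem (ofNat_mem _ 27) (pow_mem hti 2)))
    exact ⟨m1 + m3, isIntegral_adjoin_pow_mul_of_le _ hs (by omega) hm1,
      isIntegral_adjoin_pow_mul_of_le _ hsi (by omega) hm3⟩

end Table

end Fermat.Agent.S36.helper5460
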