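import Fermat.Agent.S35.helper1219_AtkinLehnerFF
import Fermat.Agent.S28.helper2908_Dict

/-!
# S36-F2-UNIT, part 1 (helper5460): the Atkin–Lehner engine for modular units

`N = q * M`, `gcd(q, M) = 1`, `W = helper1219.atkinLehnerBar q M h` the Atkin–Lehner involution
of `FN (q * M)`.  If an element `u` of the function field has an analytic avatar `U : ℍ → ℂ`
(holomorphic on `ℍ`, meromorphic at the cusp, with `q`-expansion the formal series `u`) and the
avatar satisfies `U (w τ) * U τ = c` for the Atkin–Lehner matrix `w = alGL q M h`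
(`τ ↦ γ (q τ)`), then `W u * u = c` in the function field.

This is the `(U3)` step for every "zero-free form" unit `f(z) / f(q z)` (weight `k`: `c = ± q^k`);
no property of `u` other than the existence of the avatar is used.
-/

set_option autoImplicit false

open Complex UpperHalfPlane ModularCurve CongruenceSubgroup
open scoped MatrixGroups

noncomputable section

namespace Fermat.Agent.S36.helper5460

open Fermat.Agent.S24.helper24 Fermat.Agent.S24.helper504 Fermat.Agent.S24
open Fermat.Agent.S35.helper1219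

/-- `U : ℍ → ℂ` is an analytic avatar of `u ∈ F_N`: holomorphic on `ℍ`, `1`-periodic, meromorphic
at the cusp `i∞`, with Laurent expansion the formal series `u` (coefficients sent to `ℂ` by
`helper504.kappa`). -/
def IsAvatar (N : ℕ) (u : FN N) (U : ℍ → ℂ) : Prop :=
  helper315.IsCuspMer 1 U ∧ helper315.cuspExpFun 1 U = formalC N u

theorem isCuspMer_natCast_one {U : ℍ → ℂ} (hU : helper315.IsCuspMer 1 U) :
    helper315.IsCuspMer ((1 : ℕ) : ℝ) U := by
  rwa [Nat.cast_one]

/-- The avatar as an element of the ring `cuspMer 1`. -/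
def IsAvatar.toCuspMer {N : ℕ} {u : FN N} {U : ℍ → ℂ} (hU : IsAvatar N u U) :
    helper315.cuspMer 1 :=
  ⟨U, helper315.mem_cuspMer.mpr (isCuspMer_natCast_one hU.1)⟩

theorem IsAvatar.cuspExp_toCuspMer {N : ℕ} {u : FN N} {U : ℍ → ℂ} (hU : IsAvatar N u U) :
    helper315.cuspExp 1 hU.toCuspMer = formalC N u := by
  rw [helper315.cuspExp_apply]
  show helper315.cuspExpFun ((1 : ℕ) : ℝ) U = _
  rw [Nat.cast_one]
  exact hU.2

/-- The avatar of an element of `A_N` is its analytic model `evFun`. -/
theorem IsAvatar.eq_evFun {N : ℕ} {a : helper3176.AN N} {U : ℍ → ℂ}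
    (hU : IsAvatar N (a : FN N) U) : U = evFun N a := by
  have h1 : evA N a = hU.toCuspMer :=
    evA_eq_of_cuspExp N a hU.toCuspMer hU.cuspExp_toCuspMer
  rw [evFun_apply, h1]
  rfl

/-- Avatars multiply: if `u * b = a` with `a, b ∈ A_N`, then `U * evFun b = evFun a`. -/
theorem IsAvatar.mul_evFun {N : ℕ} {u : FN N} {U : ℍ → ℂ} (hU : IsAvatar N u U)
    (a b : helper3176.AN N) (hab : u * (b : FN N) = (a : FN N)) (τ : ℍ) :
    U τ * evFun N b τ = evFun N a τ := by
  have h1 : evA N a = hU.toCuspMer * evA N b := by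
    refine evA_eq_of_cuspExp N a _ ?_
    rw [map_mul, hU.cuspExp_toCuspMer, cuspExp_evA, ← map_mul, hab]
  have h2 : evFun N a = U * evFun N b := by
    rw [evFun_apply, h1]
    rfl
  rw [h2]
  rfl


/-! ## Closure properties of avatars -/

theorem IsAvatar.mul {N : ℕ} {u v : FN N} {U V : ℍ → ℂ} (hU : IsAvatar N u U)
    (hV : IsAvatar N v V) : IsAvatar N (u * v) (U * V) :=
  ⟨hU.1.mul hV.1, by rw [helper315.cuspExpFun_mul one_pos hU.1 hV.1, hU.2, hV.2, map_mul]⟩

theorem IsAvatar.one (N : ℕ) : IsAvatar N (1 : FN N) 1 :=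
  ⟨(helper315.IsCuspHol.one 1).isCuspMer, by rw [helper315.cuspExpFun_one one_pos, map_one]⟩

theorem IsAvatar.congr {N : ℕ} {u : FN N} {U V : ℍ → ℂ} (hU : IsAvatar N u U)
    (h : ∀ τ, U τ = V τ) : IsAvatar N u V := by
  have : U = V := funext h
  rwa [← this]

/-- The avatar of the inverse: any cusp-meromorphic pointwise inverse. -/
theorem IsAvatar.inv {N : ℕ} {u : FN N} {U V : ℍ → ℂ} (hU : IsAvatar N u U)
    (hV : helper315.IsCuspMer 1 V) (h : ∀ τ, U τ * V τ = 1) : IsAvatar N u⁻¹ V := by
  refine ⟨hV, ?_⟩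
  have h1 : helper315.cuspExpFun 1 (U * V) = 1 := by
    have : U * V = 1 := funext h
    rw [this, helper315.cuspExpFun_one one_pos]
  rw [helper315.cuspExpFun_mul one_pos hU.1 hV, hU.2] at h1
  rw [map_inv₀]
  exact eq_inv_of_mul_eq_one_right h1

theorem IsAvatar.div {N : ℕ} {u v : FN N} {U V V' : ℍ → ℂ} (hU : IsAvatar N u U)
    (hV : IsAvatar N v V) (hV' : helper315.IsCuspMer 1 V') (h : ∀ τ, V τ * V' τ = 1) :
    IsAvatar N (u / v) (U * V') := by
  rw [div_eq_mul_inv]
  exact hU.mul (hV.inv hV' h)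

theorem IsAvatar.pow {N : ℕ} {u : FN N} {U : ℍ → ℂ} (hU : IsAvatar N u U) (n : ℕ) :
    IsAvatar N (u ^ n) (U ^ n) := by
  induction n with
  | zero => simpa using IsAvatar.one N
  | succ n ih => rw [pow_succ, pow_succ]; exact ih.mul hU

/-- An element is determined by its avatar. -/
theorem IsAvatar.unique {N : ℕ} {u v : FN N} {U : ℍ → ℂ} (hU : IsAvatar N u U)
    (hV : IsAvatar N v U) : u = v :=
  formalC_injective N (by rw [← hU.2, ← hV.2])

section Engine

variable (q M : ℕ) [NeZero q] [NeZero M] (h : Nat.Coprime q M)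

/-- **The Atkin–Lehner engine.** If `u ∈ F_{qM}` has the analytic avatar `U` and
`U (w τ) * U τ = c` for all `τ` (`w = alGL q M h`, i.e. `τ ↦ γ (q τ)`), then `W_q u * u = c`. -/
theorem atkinLehnerBar_mul_self_of_avatar (u : FN (q * M)) (U : ℍ → ℂ)
    (hU : IsAvatar (q * M) u U) (c : Kbar)
    (hc : ∀ τ : ℍ, U (alGL q M h • τ) * U τ = kappa c) :
    atkinLehnerBar q M h u * u = algebraMap Kbar (FN (q * M)) c := by
  obtain ⟨a, b, hb, hab⟩ := IsFractionRing.div_surjective (A := helper3176.AN (q * M)) u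
  have hb0 : (b : FN (q * M)) ≠ 0 := by
    intro h0
    have : b = 0 := Subtype.ext h0
    exact (nonZeroDivisors.ne_zero hb) this
  have hab' : u * (b : FN (q * M)) = (a : FN (q * M)) := by
    have : algebraMap (helper3176.AN (q * M)) (FN (q * M)) a /
        algebraMap (helper3176.AN (q * M)) (FN (q * M)) b = u := hab
    rw [← this]
    exact div_mul_cancel₀ _ hb0
  -- the pointwise identity
  have hpt : ∀ τ : ℍ, U τ * evFun (q * M) b τ = evFun (q * M) a τ :=
    hU.mul_evFun a b hab'
  -- the transformed pair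
  set a' := alA q M h a with ha'
  set b' := alA q M h b with hb'
  have hb'0 : (b' : FN (q * M)) ≠ 0 := by
    intro h0
    have h1 : b' = 0 := Subtype.ext h0
    have h2 : b = 0 := alA_injective q M h (by rw [← hb', h1, map_zero])
    exact hb0 (by rw [h2]; rfl)
  have hpt' : ∀ τ : ℍ, evFun (q * M) a' τ * U τ = kappa c * evFun (q * M) b' τ := by
    intro τ
    rw [ha', hb', evFun_alA_apply_alGL, evFun_alA_apply_alGL, ← hpt (alGL q M h • τ), ← hc τ]
    ring
  -- back to formal series
  have hfun : evA (q * M) a' * hU.toCuspMer =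
      evA (q * M) (algebraMap Kbar (helper3176.AN (q * M)) c) * evA (q * M) b' := by
    apply Subtype.ext
    funext τ
    have h1 := hpt' τ
    rw [evFun_apply, evFun_apply] at h1
    have h2 : ((evA (q * M) (algebraMap Kbar (helper3176.AN (q * M)) c) :
        helper315.cuspMer 1) : ℍ → ℂ) τ = kappa c := by
      rw [evA_algebraMap]
    show ((evA (q * M) a' : helper315.cuspMer 1) : ℍ → ℂ) τ * U τ =
      ((evA (q * M) (algebraMap Kbar (helper3176.AN (q * M)) c) : helper315.cuspMer 1) : ℍ → ℂ) τ *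
        ((evA (q * M) b' : helper315.cuspMer 1) : ℍ → ℂ) τ
    rw [h2]
    exact h1
  have hser := congrArg (helper315.cuspExp 1) hfun
  rw [map_mul, map_mul, cuspExp_evA, cuspExp_evA, cuspExp_evA, hU.cuspExp_toCuspMer,
    ← map_mul, ← map_mul] at hser
  have hFN : (a' : FN (q * M)) * u =
      ((algebraMap Kbar (helper3176.AN (q * M)) c : helper3176.AN (q * M)) : FN (q * M)) *
        (b' : FN (q * M)) := formalC_injective (q * M) hser
  have hu : u = (a : FN (q * M)) / (b : FN (q * M)) := by
    rw [← hab', mul_div_assoc, div_self hb0, mul_one]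
  have hW : atkinLehnerBar q M h u = (a' : FN (q * M)) / (b' : FN (q * M)) := by
    rw [hu, map_div₀, atkinLehnerBar_coe, atkinLehnerBar_coe]
  rw [hW, div_mul_eq_mul_div, hFN, mul_div_assoc, div_self hb'0, mul_one]
  rfl


/-- **The Atkin–Lehner engine, transport form.** If `u, v ∈ F_{qM}` have avatars `U, V` and
`U (w τ) = V τ` for all `τ` (`w = alGL q M h`), then `W_q u = v`. -/
theorem atkinLehnerBar_eq_of_avatar (u v : FN (q * M)) (U V : ℍ → ℂ)
    (hU : IsAvatar (q * M) u U) (hV : IsAvatar (q * M) v V)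
    (hc : ∀ τ : ℍ, U (alGL q M h • τ) = V τ) :
    atkinLehnerBar q M h u = v := by
  obtain ⟨a, b, hb, hab⟩ := IsFractionRing.div_surjective (A := helper3176.AN (q * M)) u
  have hb0 : (b : FN (q * M)) ≠ 0 := by
    intro h0
    have : b = 0 := Subtype.ext h0
    exact (nonZeroDivisors.ne_zero hb) this
  have hab' : u * (b : FN (q * M)) = (a : FN (q * M)) := by
    have : algebraMap (helper3176.AN (q * M)) (FN (q * M)) a /
        algebraMap (helper3176.AN (q * M)) (FN (q * M)) b = u := hab
    rw [← this]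
    exact div_mul_cancel₀ _ hb0
  have hpt : ∀ τ : ℍ, U τ * evFun (q * M) b τ = evFun (q * M) a τ :=
    hU.mul_evFun a b hab'
  set a' := alA q M h a with ha'
  set b' := alA q M h b with hb'
  have hb'0 : (b' : FN (q * M)) ≠ 0 := by
    intro h0
    have h1 : b' = 0 := Subtype.ext h0
    have h2 : b = 0 := alA_injective q M h (by rw [← hb', h1, map_zero])
    exact hb0 (by rw [h2]; rfl)
  have hfun : hV.toCuspMer * evA (q * M) b' = evA (q * M) a' := by
    apply Subtype.ext
    funext τ
    show V τ * ((evA (q * M) b' : helper315.cuspMer 1) : ℍ → ℂ) τ =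
      ((evA (q * M) a' : helper315.cuspMer 1) : ℍ → ℂ) τ
    rw [← evFun_apply, ← evFun_apply, ha', hb', evFun_alA_apply_alGL, evFun_alA_apply_alGL,
      ← hc τ]
    exact hpt _
  have hser := congrArg (helper315.cuspExp 1) hfun
  rw [map_mul, cuspExp_evA, cuspExp_evA, hV.cuspExp_toCuspMer, ← map_mul] at hser
  have hFN : v * (b' : FN (q * M)) = (a' : FN (q * M)) := formalC_injective (q * M) hser
  have hu : u = (a : FN (q * M)) / (b : FN (q * M)) := by
    rw [← hab', mul_div_assoc, div_self hb0, mul_one]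
  rw [hu, map_div₀, atkinLehnerBar_coe, atkinLehnerBar_coe, ← hFN, mul_div_assoc, div_self hb'0,
    mul_one]

end Engine

end Fermat.Agent.S36.helper5460
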