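/-
S36-F1-TABLES, part (B) (helper5493): the Gauss valuation ring of level `N q` is the ONLY
valuation ring of `F_L(N q)` lying over the Gauss valuation ring of level `N` along `β^*`
(`f(t) ↦ f(t^q)`), for `q` prime, `q ∣ N`, over an arbitrary constant field `L ⊇ ℚ`.
(Hypotheses `oo_b`, `ext_b` of `helper5493.TableHyp`.)

* `dedekindPsi_mul_finrankAlong_heckeBetaBar` : `ψ(N) * [F_L(N m) : β F_L(N)] = ψ(N m)` for every
  field `L` of characteristic zero (the landed statement `helper6887.finrankAlong_heckeBetaBar` is
  for `L = ℚ̄`; it is transported by `helper1588.finrank_baseChange` and the exchange lemma).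
* `finrankAlong_heckeBetaBar_of_dvd` : `[F_L(N q) : β F_L(N)] = q` for `q` prime, `q ∣ N`.
* `finiteAlong_heckeBetaBar_of_dvd` : `FiniteAlong L (heckeBetaBar L N q)`.
  (The `α`-twins over a general `L` are `helper6184.finrankAlong_heckeAlphaBar_of_dvd` etc.)
* `comap_heckeBetaBar_gaussF`, `comap_heckeAlphaBar_gaussF` : Gauss lies over Gauss (any level,
  any valuation subring `A` of any `L`).
* `resIndep_pow_jK` : `1, j, …, j^(q-1)` are residually independent over `β F_L(N)`
  (order lemma `helper4598.eval_map_qExpand_ne_zero`).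
* `eq_gaussF_of_comap_heckeBetaBar` : the uniqueness (via `helper1024.multiVal_package`).
-/
import Fermat.Agent.S35.helper1024_MultiVal
import Fermat.Agent.S35.helper2736_KronModular
import Fermat.Agent.S28.helper4598_PrimeDegree
import Fermat.Agent.S37.helper1588_FFKDegree
import Fermat.Agent.S37.helper6887_Fricke
import Fermat.Agent.S24.helper2549_Exchange

set_option autoImplicit false

open ModularCurve AlgebraicCurve IntermediateField

noncomputable section

namespace Fermat.Agent.S36.helper5493

open Fermat.Agent.S37.helper1588 Fermat.Agent.S24.helper24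

/-! ## The degree along `β` over an arbitrary constant field -/

section Degree

variable (L : Type) [Field L] [Algebra ℚ L] (N m : ℕ) [NeZero N] [NeZero m]

omit [NeZero N] in
/-- `β j = j(t^m)`. -/
theorem heckeBetaBar_jK :
    heckeBetaBar L N m (jK L N) = jKd L (N * m) m (dvd_mul_left m N) :=
  Subtype.ext rfl

omit [NeZero N] in
/-- `j(t^m)` is transcendental over the constants. -/
theorem transcendental_jKd_self :
    Transcendental L (jKd L (N * m) m (dvd_mul_left m N)) := by
  rw [← heckeBetaBar_jK]
  intro h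
  exact transcendental_jK L N
    ((isAlgebraic_algHom_iff (heckeBetaBar L N m) (heckeBetaBar L N m).toRingHom.injective).mp h)

/-- `F_L(N m)` is finite over the line `L(j(t^m))`. -/
theorem finiteDimensional_jKd_self :
    FiniteDimensional L⟮jKd L (N * m) m (dvd_mul_left m N)⟯
      (laurentBaseChange L (modularFunctionFieldFull (N * m))) :=
  have := finiteDimensional_jK L (N * m)
  Fermat.Agent.S24.helper2549.exchange (jK L (N * m)) _ (transcendental_jKd_self L N m)

/-- The degree of `F_L(N m)` over the line `L(j(t^m))` does not depend on the constant field. -/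
theorem finrank_jKd_self_baseChange (K : Type) [Field K] [Algebra ℚ K] [Algebra K L] :
    Module.finrank L⟮jKd L (N * m) m (dvd_mul_left m N)⟯
        (laurentBaseChange L (modularFunctionFieldFull (N * m)))
      = Module.finrank K⟮jKd K (N * m) m (dvd_mul_left m N)⟯
        (laurentBaseChange K (modularFunctionFieldFull (N * m))) := by
  have := finiteDimensional_jKd_self K N m
  have h := (finrank_baseChange K L (modularFunctionFieldFull (N * m))
    (jKd K (N * m) m (dvd_mul_left m N))).2
  rwa [baseChangeHom_jKd] at h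

omit [NeZero N] in
theorem jBar_eq_jK : jBar N = jK Kbar N :=
  Subtype.ext ((Fermat.Agent.S18.helper8991.coeffEmb_qExpand_jq (L := Kbar) 1).trans
    (qExpand_one_apply _))

/-- Over `ℚ̄` (Fricke involution, `helper6887`): `[F(N m) : ℚ̄(j(t^m))] = ψ(N m)`. -/
theorem finrank_jKd_self_bar :
    Module.finrank Kbar⟮jKd Kbar (N * m) m (dvd_mul_left m N)⟯
        (laurentBaseChange Kbar (modularFunctionFieldFull (N * m))) = dedekindPsi (N * m) := by
  have h1 := Fermat.Agent.S37.helper6887.finrank_mul_finrankAlong (heckeBetaBar Kbar N m) (jBar N)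
  rw [Fermat.Agent.S37.helper6887.finrank_jBar,
    Fermat.Agent.S37.helper6887.finrankAlong_heckeBetaBar, jBar_eq_jK, heckeBetaBar_jK] at h1
  exact h1.symm

/-- `[F_L(N m) : L(j(t^m))] = ψ(N m)` over every constant field of characteristic zero. -/
theorem finrank_jKd_self :
    Module.finrank L⟮jKd L (N * m) m (dvd_mul_left m N)⟯
        (laurentBaseChange L (modularFunctionFieldFull (N * m))) = dedekindPsi (N * m) := by
  rw [finrank_jKd_self_baseChange L N m ℚ, ← finrank_jKd_self_baseChange Kbar N m ℚ,
    finrank_jKd_self_bar]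

/-- **The degree formula along `β` over every constant field of characteristic zero**:
`ψ(N) * [F_L(N m) : β F_L(N)] = ψ(N m)`. -/
theorem dedekindPsi_mul_finrankAlong_heckeBetaBar :
    dedekindPsi N * finrankAlong L (heckeBetaBar L N m) = dedekindPsi (N * m) := by
  have h := Fermat.Agent.S37.helper6887.finrank_mul_finrankAlong (heckeBetaBar L N m) (jK L N)
  rw [heckeBetaBar_jK, finrank_jK, finrank_jKd_self] at h
  exact h

/-- `[F_L(N q) : β F_L(N)] = q` for a prime `q ∣ N`. -/
theorem finrankAlong_heckeBetaBar_of_dvd {q : ℕ} [NeZero q] (hq : q.Prime) (hqN : q ∣ N) :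
    finrankAlong L (heckeBetaBar L N q) = q := by
  have h := dedekindPsi_mul_finrankAlong_heckeBetaBar L N q
  rw [Fermat.Agent.Lib.helper1356.dedekindPsi_mul_prime_of_dvd hq (NeZero.ne N) hqN,
    mul_comm q] at h
  exact Nat.eq_of_mul_eq_mul_left
    (Fermat.Agent.S37.helper6887.dedekindPsi_pos (NeZero.ne N)) h

/-- `F_L(N q)` is finite over `β F_L(N)` for a prime `q ∣ N`. -/
theorem finiteAlong_heckeBetaBar_of_dvd {q : ℕ} [NeZero q] (hq : q.Prime) (hqN : q ∣ N) :
    FiniteAlong L (heckeBetaBar L N q) := by
  let _ := algebraAlong (heckeBetaBar L N q)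
  exact Module.finite_of_finrank_pos (by
    have h := finrankAlong_heckeBetaBar_of_dvd L N hq hqN
    unfold finrankAlong at h
    rw [h]
    exact hq.pos)

end Degree

/-! ## Gauss lies over Gauss -/

section Comap

/-- If `f` maps `V'` into `V` and the maximal ideal of `V'` into the maximal ideal of `V`, then
`V` lies over `V'`. -/
theorem comap_eq_of_mem_of_nonunits {E F : Type*} [Field E] [Field F] (f : E →+* F)
    (V : ValuationSubring F) (V' : ValuationSubring E) (h1 : ∀ x ∈ V', f x ∈ V)
    (h2 : ∀ x ∈ V'.nonunits, f x ∈ V.nonunits) : V.comap f = V' := by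
  ext y
  rw [ValuationSubring.mem_comap]
  refine ⟨fun hy => ?_, h1 y⟩
  by_contra hy'
  have h3 : y⁻¹ ∈ V'.nonunits := (ValuationSubring.inv_mem_nonunits_iff V').mpr (Or.inr hy')
  have h4 := h2 _ h3
  rw [map_inv₀, ValuationSubring.inv_mem_nonunits_iff] at h4
  rcases h4 with h4 | h4
  · rw [map_eq_zero] at h4
    subst h4
    exact hy' (zero_mem _)
  · exact h4 hy

open Fermat.Agent.S18.helper8991 Fermat.Agent.S35.helper2736

variable {L : Type*} [Field L] [Algebra ℚ L] (A : ValuationSubring L) {k : Type*} [Field k]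
  (π : A →+* k)

/-- Nonunits of the Gauss ring: the reduction vanishes. -/
theorem mem_nonunits_gaussF_iff (N : ℕ)
    (y : laurentBaseChange L (modularFunctionFieldFull N)) :
    y ∈ (gaussF A π N).nonunits ↔ ∃ hy : y ∈ gaussF A π N, gaussFRed A π N ⟨y, hy⟩ = 0 := by
  rw [ValuationSubring.mem_nonunits_iff_exists_mem_maximalIdeal]
  exact exists_congr fun hy => (gaussFRed_eq_zero_iff A π N ⟨y, hy⟩).symm

variable (N q : ℕ) [NeZero N] [NeZero q]

omit [NeZero N] in
/-- The Gauss ring of level `N q` lies over the Gauss ring of level `N` along `β`. -/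
theorem comap_heckeBetaBar_gaussF :
    (gaussF A π (N * q)).comap (heckeBetaBar L N q).toRingHom = gaussF A π N := by
  refine comap_eq_of_mem_of_nonunits _ _ _ (fun y hy => heckeBetaBar_mem_gaussF A π N q hy) ?_
  intro y hy
  obtain ⟨hy1, hy2⟩ := (mem_nonunits_gaussF_iff A π N y).mp hy
  refine (mem_nonunits_gaussF_iff A π (N * q) _).mpr ⟨heckeBetaBar_mem_gaussF A π N q hy1, ?_⟩
  exact (gaussFRed_heckeBetaBar A π N q hy1).trans (by rw [hy2, map_zero])

/-- The Gauss ring of level `N q` lies over the Gauss ring of level `N` along `α`. -/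
theorem comap_heckeAlphaBar_gaussF :
    (gaussF A π (N * q)).comap (heckeAlphaBar L N q).toRingHom = gaussF A π N := by
  refine comap_eq_of_mem_of_nonunits _ _ _ (fun y hy => heckeAlphaBar_mem_gaussF A π N q hy) ?_
  intro y hy
  obtain ⟨hy1, hy2⟩ := (mem_nonunits_gaussF_iff A π N y).mp hy
  refine (mem_nonunits_gaussF_iff A π (N * q) _).mpr ⟨heckeAlphaBar_mem_gaussF A π N q hy1, ?_⟩
  exact (gaussFRed_heckeAlphaBar A π N q hy1).trans hy2

end Comap

/-! ## Residual independence of `1, j, …, j^(q-1)` over `β F_L(N)` and the uniqueness -/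

section Unique

open Fermat.Agent.S18.helper8991 Fermat.Agent.S35.helper2736 Fermat.Agent.S35.helper1024

variable {L : Type} [Field L] [Algebra ℚ L] (A : ValuationSubring L) {k : Type*} [Field k]
  (π : A →+* k)

omit [Algebra ℚ L] in
theorem inc_jqModC : inc A (jqModC A) = jqModC L := coeffMap_jqModC _

theorem inc_jqModC_mem (N : ℕ) :
    inc A (jqModC A) ∈ laurentBaseChange L (modularFunctionFieldFull N) := by
  rw [inc_jqModC]
  exact jqModC_mem_laurentBaseChange L N

/-- `j` is Gauss-integral. -/
theorem jK_mem_gaussF (N : ℕ) : jK L N ∈ gaussF A π N := by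
  have h := inc_mem_gaussF A π N (inc_jqModC_mem A N)
  have e : (⟨inc A (jqModC A), inc_jqModC_mem A N⟩ :
      laurentBaseChange L (modularFunctionFieldFull N)) = jK L N := Subtype.ext (inc_jqModC A)
  rwa [e] at h

/-- The reduction of `j` is `j`. -/
theorem gaussFRed_jK (N : ℕ) :
    gaussFRed A π N ⟨jK L N, jK_mem_gaussF A π N⟩ = jqModC k := by
  have h := gaussFRed_eq A π N ⟨jK L N, jK_mem_gaussF A π N⟩ (X := jqModC A) (Y := 1)
    (by rw [map_one]; exact one_ne_zero)
    (by rw [map_one, mul_one, inc_jqModC]; rfl)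
  rw [h, map_one, div_one]
  exact coeffMap_jqModC _

variable (N q : ℕ) [NeZero N] [NeZero q]

omit [NeZero N] in
/-- **Residual independence**: `1, j, …, j^(q-1)` are residually independent at the Gauss ring of
level `N q` over the Gauss ring of level `N` along `β` (their reductions have orders `0, -1, …,
-(q-1)`, and the reductions of `β`-images are series in `t^q`). -/
theorem resIndep_pow_jK :
    letI := algebraAlong (heckeBetaBar L N q)
    ResIndep (gaussF A π N) (gaussF A π (N * q)) (fun i : Fin q => jK L (N * q) ^ (i : ℕ)) := by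
  let _ := algebraAlong (heckeBetaBar L N q)
  refine ⟨fun i => pow_mem (jK_mem_gaussF A π (N * q)) _, ?_⟩
  intro a ha hsum
  obtain ⟨hS, hS0⟩ := (mem_nonunits_gaussF_iff A π (N * q) _).mp hsum
  have key : ∑ i : Fin q, qExpand k q (gaussFRed A π N ⟨a i, ha i⟩) * jqModC k ^ (i : ℕ) = 0 := by
    rw [← hS0]
    have e : (⟨∑ i : Fin q, a i • jK L (N * q) ^ (i : ℕ), hS⟩ : ↥(gaussF A π (N * q)))
        = ∑ i : Fin q, (⟨heckeBetaBar L N q (a i), heckeBetaBar_mem_gaussF A π N q (ha i)⟩ :
              ↥(gaussF A π (N * q))) *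
            (⟨jK L (N * q), jK_mem_gaussF A π (N * q)⟩ : ↥(gaussF A π (N * q))) ^ (i : ℕ) := by
      apply Subtype.ext
      show ∑ i : Fin q, a i • jK L (N * q) ^ (i : ℕ) = (gaussF A π (N * q)).subtype _
      rw [map_sum]
      refine Finset.sum_congr rfl fun i _ => ?_
      rw [Algebra.smul_def]
      rfl
    rw [e, map_sum]
    refine Finset.sum_congr rfl fun i _ => ?_
    rw [map_mul, map_pow, gaussFRed_heckeBetaBar A π N q (ha i), gaussFRed_jK]
  set Q : Polynomial (LaurentSeries k) :=
    ∑ i : Fin q, Polynomial.C (gaussFRed A π N ⟨a i, ha i⟩) * Polynomial.X ^ (i : ℕ) with hQ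
  have hQ0 : Q = 0 := by
    by_contra hne
    have hdeg : Q.natDegree < q :=
      (Polynomial.natDegree_lt_iff_degree_lt hne).mpr (Polynomial.degree_sum_fin_lt _)
    refine Fermat.Agent.S28.helper4598.eval_map_qExpand_ne_zero q Q hne hdeg ?_
    rw [hQ, Polynomial.map_sum, Polynomial.eval_finsetSum, ← key]
    refine Finset.sum_congr rfl fun i _ => ?_
    rw [Polynomial.map_mul, Polynomial.map_C, Polynomial.map_pow, Polynomial.map_X,
      Polynomial.eval_mul, Polynomial.eval_C, Polynomial.eval_pow, Polynomial.eval_X]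
  intro i
  have hi : gaussFRed A π N ⟨a i, ha i⟩ = 0 := by
    have h1 := congrArg (fun p : Polynomial (LaurentSeries k) => p.coeff (i : ℕ)) hQ0
    simp only [hQ, Polynomial.finsetSum_coeff, Polynomial.coeff_C_mul_X_pow,
      Polynomial.coeff_zero] at h1
    rw [Finset.sum_eq_single i] at h1
    · simpa using h1
    · intro j _ hji
      rw [if_neg]
      exact fun h => hji (Fin.ext h.symm)
    · intro h
      exact absurd (Finset.mem_univ i) h
  exact (mem_nonunits_gaussF_iff A π N _).mpr ⟨ha i, hi⟩

/-- **Uniqueness along `β`** (hypothesis `ext_b` of `TableHyp`): for a prime `q ∣ N`, the Gauss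
valuation ring of level `N q` is the only valuation ring of `F_L(N q)` lying over the Gauss
valuation ring of level `N` along `β^*` (`f = q`: the residue extension is the `q`-Frobenius). -/
theorem eq_gaussF_of_comap_heckeBetaBar (hq : q.Prime) (hqN : q ∣ N)
    (V : ValuationSubring (laurentBaseChange L (modularFunctionFieldFull (N * q))))
    (hV : V.comap (heckeBetaBar L N q).toRingHom = gaussF A π N) : V = gaussF A π (N * q) := by
  let _ := algebraAlong (heckeBetaBar L N q)
  have : FiniteDimensional ↥(laurentBaseChange L (modularFunctionFieldFull N))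
      ↥(laurentBaseChange L (modularFunctionFieldFull (N * q))) :=
    finiteAlong_heckeBetaBar_of_dvd L N hq hqN
  have h := multiVal_package (V₀ := gaussF A π N) (ι := Unit)
    (V := fun _ => gaussF A π (N * q)) (σ := Unit)
    (fun _ => comap_heckeBetaBar_gaussF A π N q) (fun _ _ _ => rfl) id (κ := fun _ => Fin q)
    (β := fun _ i => jK L (N * q) ^ (i : ℕ))
    (fun s => by
      have e : {i : Unit | id i = s} = {s} := by
        ext i
        simp
      rw [e]
      exact (jResIndep_singleton_iff s).mpr (resIndep_pow_jK A π N q))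
    (by
      rw [Finset.sum_const, Finset.card_univ, Fintype.card_unit, one_smul, Fintype.card_fin]
      exact (finrankAlong_heckeBetaBar_of_dvd L N hq hqN).symm)
  obtain ⟨_, hW⟩ := h V hV
  exact hW

end Unique

end Fermat.Agent.S36.helper5493
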