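/-
S36 (KILL-INST supplier, helper5493): on the concrete terms of `helper405_KillTerms`,

* `W_{q²}`, `W_q` OVER THE INERTIA FIELD (`WsqK`, `WqK`: the descents of `helper405.Wsq`,
  `helper405.Wq` along `lh`), with `lh ∘ W_K = W ∘ lh`, involutivity, `W_{q²} ∘ α = β ∘ W_q`,
  `W_{q²} ∘ β = α ∘ W_q` over `K`, and `Vzero = Vinf ∘ WsqK`, `Vzero' = Vinf' ∘ WqK`;
* `vinfAt_eq_gaussF` : `v_∞` (defined by restriction from `(ℚ̄, A)`) IS the Gauss ring of
  `F_K(N)` over `O = A ∩ K`;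
* **completeness on the inseparable side**:
  `eq_Vinf_of_comap_βK`  : `v_∞` is the ONLY valuation ring of `F` over `v'_∞` along `β`,
  `eq_Vzero_of_comap_αK` : `v_0` is the ONLY valuation ring of `F` over `v'_0` along `α`
  (= the hypothesis `hinsep` of `helper2587.killData_rad_of_tower`, and the "only extension"
  statement behind `norm_insep` / `ord_insep`).
-/
import Fermat.Agent.S36.helper405_KillTerms
import Fermat.Agent.S36.helper6594_LevelQKInst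
import Fermat.Agent.S36.helper5493_BetaUnique

set_option autoImplicit false

open ModularCurve

noncomputable section

namespace Fermat.Agent.S36.helper5493

open Fermat.Agent.S24.helper24 (Kbar FN)
open Fermat.Agent.S18.helper8991 (gaussF)
open Fermat.Agent.S36.helper405
open Fermat.Agent.S36

local notation "Qb" => AlgebraicClosure ℚ

variable (A : ValuationSubring Qb)

/-! ## `v_∞` is the Gauss ring over `(K, O)` -/

/-- The base change `lh` of `helper405_KillTerms` is the coefficientwise embedding `embK` of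
`helper6594_LevelQK`. -/
theorem lh_eq_embK (N : ℕ) :
    lh A N = helper6594.embK (algebraMap (KI A) Qb) N :=
  (helper6594.embK_eq_layerHom (algebraMap (KI A) Qb) N).symm

/-- `v_∞` at level `N` (restriction of the Gauss ring over `(ℚ̄, A)`) is the Gauss ring of
`F_K(N)` over `O = A ∩ K`. -/
theorem vinfAt_eq_gaussF (N : ℕ) :
    VinfAt A N = gaussF (OI A) (IsLocalRing.residue (OI A)) N := by
  ext x
  rw [mem_VinfAt, lh_eq_embK]
  exact (helper6594.mem_gaussK_iff A (algebraMap (KI A) Qb) N x).symm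

variable (M₁ q : ℕ) [NeZero M₁] [NeZero q]

/-! ## Uniqueness along `β` at `∞` -/

/-- **`v_∞` is the only valuation ring of `F = F_K(M₁ q)` lying over `v'_∞` along `β`.** -/
theorem eq_Vinf_of_comap_βK (hq : q.Prime) (hqM : q ∣ M₁)
    (W : ValuationSubring (FK A (M₁ * q)))
    (hW : W.comap (βK A M₁ q).toRingHom = Vinf' A M₁) : W = Vinf A M₁ q := by
  unfold Vinf' at hW
  unfold Vinf
  rw [vinfAt_eq_gaussF] at hW ⊢
  exact eq_gaussF_of_comap_heckeBetaBar (OI A) _ M₁ q hq hqM W hW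

/-! ## `W_{q²}` and `W_q` over the inertia field -/

variable (hq : q.Prime) (hqM : q ∣ M₁) (hq2 : ¬ q ^ 2 ∣ M₁)

theorem iEquivariantAlg_Wsq : helper6594.IEquivariantAlg A (Wsq M₁ q hq hqM hq2) :=
  fun σ _ z => Fermat.Agent.S35.helper1219.atkinLehnerHall_arithmeticRingAut (M₁ * q) (q * q)
    (sq_dvd_level hqM) (coprime_sq_level hq hqM hq2) σ z

theorem iEquivariantAlg_Wq : helper6594.IEquivariantAlg A (Wq M₁ q hq hqM hq2) :=
  fun σ _ z => Fermat.Agent.S35.helper1219.atkinLehnerHall_arithmeticRingAut M₁ q hqM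
    (coprime_level hq hqM hq2) σ z

/-- `W_{q²}` on `F = F_K(M₁ q)`: the descent of `helper405.Wsq` to the inertia field. -/
def WsqK : FK A (M₁ * q) ≃+* FK A (M₁ * q) :=
  (helper6594.descKAlgEquiv (helper6594.isInertiaField_inertiaFixedField A)
    (Wsq M₁ q hq hqM hq2) (iEquivariantAlg_Wsq A M₁ q hq hqM hq2)).toRingEquiv

/-- `W_q` on `F' = F_K(M₁)`: the descent of `helper405.Wq` to the inertia field. -/
def WqK : FK A M₁ ≃+* FK A M₁ :=
  (helper6594.descKAlgEquiv (helper6594.isInertiaField_inertiaFixedField A)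
    (Wq M₁ q hq hqM hq2) (iEquivariantAlg_Wq A M₁ q hq hqM hq2)).toRingEquiv

theorem lh_WsqK (f : FK A (M₁ * q)) :
    lh A (M₁ * q) (WsqK A M₁ q hq hqM hq2 f) = Wsq M₁ q hq hqM hq2 (lh A (M₁ * q) f) := by
  rw [lh_eq_embK]
  exact helper6594.embK_descKAlgEquiv _ _ _ f

theorem lh_WqK (f : FK A M₁) :
    lh A M₁ (WqK A M₁ q hq hqM hq2 f) = Wq M₁ q hq hqM hq2 (lh A M₁ f) := by
  rw [lh_eq_embK]
  exact helper6594.embK_descKAlgEquiv _ _ _ f

theorem WsqK_algebraMap (c : KI A) :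
    WsqK A M₁ q hq hqM hq2 (algebraMap (KI A) (FK A (M₁ * q)) c)
      = algebraMap (KI A) (FK A (M₁ * q)) c := by
  apply lh_injective A (M₁ * q)
  rw [lh_WsqK, lh_algebraMap, AlgEquiv.commutes]

theorem WqK_algebraMap (c : KI A) :
    WqK A M₁ q hq hqM hq2 (algebraMap (KI A) (FK A M₁) c) = algebraMap (KI A) (FK A M₁) c := by
  apply lh_injective A M₁
  rw [lh_WqK, lh_algebraMap, AlgEquiv.commutes]

/-- `W_{q²}` over `K` is an involution. -/
theorem WsqK_WsqK (f : FK A (M₁ * q)) :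
    WsqK A M₁ q hq hqM hq2 (WsqK A M₁ q hq hqM hq2 f) = f := by
  apply lh_injective A (M₁ * q)
  rw [lh_WsqK, lh_WsqK]
  exact Fermat.Agent.S35.helper1219.atkinLehnerHall_atkinLehnerHall _ _ _ _ _

/-- `W_q` over `K` is an involution. -/
theorem WqK_WqK (f : FK A M₁) : WqK A M₁ q hq hqM hq2 (WqK A M₁ q hq hqM hq2 f) = f := by
  apply lh_injective A M₁
  rw [lh_WqK, lh_WqK]
  exact Fermat.Agent.S35.helper1219.atkinLehnerHall_atkinLehnerHall _ _ _ _ _

theorem WsqK_symm_apply (f : FK A (M₁ * q)) :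
    (WsqK A M₁ q hq hqM hq2).symm f = WsqK A M₁ q hq hqM hq2 f := by
  rw [RingEquiv.symm_apply_eq, WsqK_WsqK]

theorem WqK_symm_apply (f : FK A M₁) :
    (WqK A M₁ q hq hqM hq2).symm f = WqK A M₁ q hq hqM hq2 f := by
  rw [RingEquiv.symm_apply_eq, WqK_WqK]

/-- **`W_{q²} ∘ α = β ∘ W_q` over `K`.** -/
theorem WsqK_αK (a : FK A M₁) :
    WsqK A M₁ q hq hqM hq2 (αK A M₁ q a) = βK A M₁ q (WqK A M₁ q hq hqM hq2 a) := by
  apply lh_injective A (M₁ * q)
  rw [lh_WsqK]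
  have h1 : lh A (M₁ * q) (αK A M₁ q a) = heckeAlphaBar Kbar M₁ q (lh A M₁ a) :=
    Fermat.Agent.S37.helper5651.layerHom_heckeAlphaBar M₁ q (algebraMap (KI A) Qb) a
  have h2 : lh A (M₁ * q) (βK A M₁ q (WqK A M₁ q hq hqM hq2 a))
      = heckeBetaBar Kbar M₁ q (lh A M₁ (WqK A M₁ q hq hqM hq2 a)) :=
    Fermat.Agent.S37.helper5651.layerHom_heckeBetaBar M₁ q (algebraMap (KI A) Qb) _
  rw [h1, h2, lh_WqK]
  exact Fermat.Agent.S35.helper1219.atkinLehnerHall_mul_heckeAlphaBar M₁ q hqM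
    (coprime_level hq hqM hq2) q (coprime_level hq hqM hq2) (sq_dvd_level hqM)
    (coprime_sq_level hq hqM hq2) _

/-- **`W_{q²} ∘ β = α ∘ W_q` over `K`.** -/
theorem WsqK_βK (a : FK A M₁) :
    WsqK A M₁ q hq hqM hq2 (βK A M₁ q a) = αK A M₁ q (WqK A M₁ q hq hqM hq2 a) := by
  have h := WsqK_αK A M₁ q hq hqM hq2 (WqK A M₁ q hq hqM hq2 a)
  rw [WqK_WqK] at h
  rw [← h, WsqK_WsqK]

/-- `v_0 = v_∞ ∘ W_{q²}` over `K`. -/
theorem mem_Vzero_iff_WsqK (f : FK A (M₁ * q)) :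
    f ∈ Vzero A M₁ q hq hqM hq2 ↔ WsqK A M₁ q hq hqM hq2 f ∈ Vinf A M₁ q := by
  unfold Vinf
  rw [mem_Vzero, mem_VinfAt, lh_WsqK]

/-- `v'_0 = v'_∞ ∘ W_q` over `K`. -/
theorem mem_Vzero'_iff_WqK (f : FK A M₁) :
    f ∈ Vzero' A M₁ q hq hqM hq2 ↔ WqK A M₁ q hq hqM hq2 f ∈ Vinf' A M₁ := by
  unfold Vinf'
  rw [mem_Vzero', mem_VinfAt, lh_WqK]

theorem WsqK_mem_Vzero_iff (f : FK A (M₁ * q)) :
    WsqK A M₁ q hq hqM hq2 f ∈ Vzero A M₁ q hq hqM hq2 ↔ f ∈ Vinf A M₁ q := by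
  rw [mem_Vzero_iff_WsqK, WsqK_WsqK]

theorem WqK_mem_Vzero'_iff (f : FK A M₁) :
    WqK A M₁ q hq hqM hq2 f ∈ Vzero' A M₁ q hq hqM hq2 ↔ f ∈ Vinf' A M₁ := by
  rw [mem_Vzero'_iff_WqK, WqK_WqK]

theorem Vzero_eq_comap :
    Vzero A M₁ q hq hqM hq2
      = (Vinf A M₁ q).comap (WsqK A M₁ q hq hqM hq2 : FK A (M₁ * q) →+* FK A (M₁ * q)) := by
  ext f
  exact mem_Vzero_iff_WsqK A M₁ q hq hqM hq2 f

theorem Vzero'_eq_comap :
    Vzero' A M₁ q hq hqM hq2
      = (Vinf' A M₁).comap (WqK A M₁ q hq hqM hq2 : FK A M₁ →+* FK A M₁) := by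
  ext f
  exact mem_Vzero'_iff_WqK A M₁ q hq hqM hq2 f

/-! ## Uniqueness along `α` at `0` -/

/-- **`v_0` is the only valuation ring of `F = F_K(M₁ q)` lying over `v'_0` along `α`.** -/
theorem eq_Vzero_of_comap_αK (W : ValuationSubring (FK A (M₁ * q)))
    (hW : W.comap (αK A M₁ q).toRingHom = Vzero' A M₁ q hq hqM hq2) :
    W = Vzero A M₁ q hq hqM hq2 := by
  have hU : (W.comap (WsqK A M₁ q hq hqM hq2 : FK A (M₁ * q) →+* FK A (M₁ * q))).comap
      (βK A M₁ q).toRingHom = Vinf' A M₁ := by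
    ext a
    rw [ValuationSubring.mem_comap, ValuationSubring.mem_comap]
    have e : (WsqK A M₁ q hq hqM hq2 : FK A (M₁ * q) →+* FK A (M₁ * q))
        ((βK A M₁ q).toRingHom a) = (αK A M₁ q).toRingHom (WqK A M₁ q hq hqM hq2 a) :=
      WsqK_βK A M₁ q hq hqM hq2 a
    rw [e, ← ValuationSubring.mem_comap, hW, WqK_mem_Vzero'_iff]
  have h := eq_Vinf_of_comap_βK A M₁ q hq hqM _ hU
  ext f
  rw [mem_Vzero_iff_WsqK, ← h, ValuationSubring.mem_comap]
  show f ∈ W ↔ WsqK A M₁ q hq hqM hq2 (WsqK A M₁ q hq hqM hq2 f) ∈ W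
  rw [WsqK_WsqK]

end Fermat.Agent.S36.helper5493
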