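/-
S36 (KILL-INST, block RAD — TOWER route, helper5493): the fields `rad`, `rad01` of
`helper405.KillInput`, verbatim, on the terms of record (`helper405_KillTerms`), by completeness
ALONG THE TOWER `K(j) ⊆ F' = F_K(M₁) ⊆ F = F_K(M₁ q)` (no count at level `q²`):

* `levelq_complete_modular` : a valuation ring of `F'` over `O` for which `j` is a Gauss element
  is `v'_∞` or `v'_0`  (`helper3537.levelq_complete` over `(KI A, OI A)` with `w = W_q` over `K`);
* `split_modular` : over `v'_∞` along `α` there are only `v_∞` and `v_mid`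
  (`helper3082.exists_midValuation_residue` + the table `α_mem_mid` + `ne_inf_mid`);
* `eq_Vzero_of_comap_αK` (`helper5493_InsepComplete`) : over `v'_0` along `α` there is only `v_0`;
* `complete_modular` : every Gauss extension of `O` for `j` to `F` is one of `v_∞, v_mid, v_0`;
* `rad_modular_tower` : `rad ∧ rad01` (`helper2587.killData_rad_of_complete_line` with the
  `j`-relation of the base line `t₄` / `t₉`).
-/
import Fermat.Agent.S36.helper5493_InsepComplete
import Fermat.Agent.S36.helper405_KillInst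
import Fermat.Agent.S36.helper412_InstUnif
import Fermat.Agent.S36.helper3537_KLevelQ
import Fermat.Agent.S36.helper2587_GaussBridge

set_option autoImplicit false
set_option linter.style.haveILetI false
set_option linter.unusedSectionVars false

open ModularCurve AlgebraicCurve Polynomial

noncomputable section

namespace Fermat.Agent.S36.helper5493

open Fermat.Agent.S24.helper24 (Kbar FN jBar jBarD)
open Fermat.Agent.S18.helper8991 (gaussF)
open Fermat.Agent.S37.helper1588 (jK jKd)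
open Fermat.Agent.S36.helper405
open Fermat.Agent.S36

local notation "Qb" => AlgebraicClosure ℚ

variable (A : ValuationSubring Qb)

/-! ## `W_q` over `K` on the `j`-generators -/

theorem lh_jKd (N d : ℕ) [NeZero d] (hd : d ∣ N) :
    lh A N (jKd (KI A) N d hd) = jBarD N d hd := by
  apply Subtype.ext
  have h1 : ((lh A N (jKd (KI A) N d hd) : FN N) : LaurentSeries Kbar)
      = coeffMap (algebraMap (KI A) Qb) (qExpand (KI A) d (jqModC (KI A))) :=
    Fermat.Agent.S37.helper5651.coe_layerHom _ _ _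
  rw [h1, coeffMap_qExpand, coeffMap_jqModC]
  exact (Fermat.Agent.S36.helper3082.coe_jBarD_q N d hd).symm

theorem lh_jK_eq_jBar (N : ℕ) : lh A N (jK (KI A) N) = jBar N := by
  apply Subtype.ext
  have h1 : ((lh A N (jK (KI A) N) : FN N) : LaurentSeries Kbar)
      = coeffMap (algebraMap (KI A) Qb) (jqModC (KI A)) :=
    Fermat.Agent.S37.helper5651.coe_layerHom _ _ _
  rw [h1, coeffMap_jqModC]
  exact (Fermat.Agent.S36.helper3082.coe_jBarD_one N).symm

variable (M₁ q : ℕ) [NeZero M₁] [NeZero q] (hq : q.Prime) (hqM : q ∣ M₁) (hq2 : ¬ q ^ 2 ∣ M₁)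

/-- `W_q j = j(t^q)` over `K`. -/
theorem WqK_jK : WqK A M₁ q hq hqM hq2 (jK (KI A) M₁) = jKd (KI A) M₁ q hqM := by
  apply lh_injective A M₁
  rw [lh_WqK, lh_jK_eq_jBar, lh_jKd]
  exact Fermat.Agent.S35.helper1219.atkinLehnerHall_jBar M₁ q hqM (coprime_level hq hqM hq2)

/-- `W_q j(t^q) = j` over `K`. -/
theorem WqK_jKd : WqK A M₁ q hq hqM hq2 (jKd (KI A) M₁ q hqM) = jK (KI A) M₁ := by
  rw [← WqK_jK A M₁ q hq hqM hq2, WqK_WqK]

/-- `W_q` over `K` as a `K`-algebra automorphism of `F' = F_K(M₁)`. -/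
def WqKAlg : FK A M₁ ≃ₐ[KI A] FK A M₁ :=
  AlgEquiv.ofRingEquiv (f := WqK A M₁ q hq hqM hq2) (WqK_algebraMap A M₁ q hq hqM hq2)

theorem WqKAlg_apply (f : FK A M₁) :
    WqKAlg A M₁ q hq hqM hq2 f = WqK A M₁ q hq hqM hq2 f := rfl

/-! ## Level `q`: completeness on the `j`-line -/

/-- **Level-`q` completeness on the terms of record**: a valuation ring of `F' = F_K(M₁)` over
`O` for which `j` is a Gauss element is `v'_∞` or `v'_0`. -/
theorem levelq_complete_modular (hA : A.LiesOverPrime q) (W' : ValuationSubring (FK A M₁))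
    (hW'O : W'.comap (algebraMap (KI A) (FK A M₁)) = OI A)
    (hW'j : Fermat.Agent.S35.helper1024.GaussElt (OI A) W' (jK (KI A) M₁)) :
    W' = Vinf' A M₁ ∨ W' = Vzero' A M₁ q hq hqM hq2 := by
  haveI : Fact q.Prime := ⟨hq⟩
  obtain ⟨-, hq0, hqO, hunif, hnoeth, -⟩ := Fermat.Agent.S36.helper225.baseDVR_facts A hq hA
  haveI := Fermat.Agent.S36.helper3082.charP_residueField_of_mem_nonunits (OI A) q hqO
  haveI : NeZero (M₁ / q) := neZero_div hqM
  have h := Fermat.Agent.S36.helper3537.levelq_complete (OI A) (IsLocalRing.residue (OI A))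
    (fun a ha => (IsLocalRing.residue_eq_zero_iff a).mpr ha) q (M₁ / q) (not_dvd_div hq hqM hq2)
    M₁ (Nat.mul_div_cancel' hqM).symm (jK (KI A) M₁) (jKd (KI A) M₁ q hqM) rfl rfl
    (WqKAlg A M₁ q hq hqM hq2) (WqK_jK A M₁ q hq hqM hq2) (WqK_jKd A M₁ q hq hqM hq2) W' hW'j hW'O
  rcases h with h | h
  · left
    rw [h]
    unfold Vinf'
    rw [vinfAt_eq_gaussF]
  · right
    rw [h, Vzero'_eq_comap]
    unfold Vinf'
    rw [vinfAt_eq_gaussF]
    rfl

/-! ## The split side of `α` -/

/-- **Over `v'_∞` along `α` there are only `v_∞` and `v_mid`.** -/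
theorem split_modular (hA : A.LiesOverPrime q) (W : ValuationSubring (FK A (M₁ * q)))
    (hW : W.comap (αK A M₁ q).toRingHom = Vinf' A M₁) :
    W = Vinf A M₁ q ∨ W = Vmid A M₁ q hq hqM hq2 := by
  haveI : Fact q.Prime := ⟨hq⟩
  obtain ⟨-, hq0, hqO, hunif, hnoeth, -⟩ := Fermat.Agent.S36.helper225.baseDVR_facts A hq hA
  letI := algebraAlong (heckeAlphaBar (KI A) M₁ q)
  obtain ⟨Wmid, -, -, -, hall⟩ := Fermat.Agent.S36.helper3082.exists_midValuation_residue (OI A) q
    (algebraMap (KI A) Qb) hqO hunif hnoeth M₁ hqM hq2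
  have hVm : (Vmid A M₁ q hq hqM hq2).comap (algebraMap (FK A M₁) (FK A (M₁ * q)))
      = gaussF (OI A) (IsLocalRing.residue (OI A)) M₁ := by
    rw [← vinfAt_eq_gaussF]
    ext a
    rw [ValuationSubring.mem_comap]
    exact α_mem_mid A M₁ q hq hqM hq2 a
  have hmid : Vmid A M₁ q hq hqM hq2 = Wmid := by
    rcases hall _ hVm with h | h
    · exact h
    · exfalso
      apply Fermat.Agent.S36.helper412.ne_inf_mid_modular A M₁ q hq hqM hq2 hA
      unfold Vinf
      rw [vinfAt_eq_gaussF]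
      exact h.symm
  have hW' : W.comap (algebraMap (FK A M₁) (FK A (M₁ * q)))
      = gaussF (OI A) (IsLocalRing.residue (OI A)) M₁ := by
    rw [← vinfAt_eq_gaussF]
    exact hW
  rcases hall W hW' with h | h
  · right
    rw [h, hmid]
  · left
    rw [h]
    unfold Vinf
    rw [vinfAt_eq_gaussF]

/-! ## Completeness at level `q²` on the `j`-line, and the radical fields -/

/-- `α j = j`. -/
theorem αK_jK : αK A M₁ q (jK (KI A) M₁) = jK (KI A) (M₁ * q) := Subtype.ext rfl

/-- **Completeness**: every Gauss extension of `O` for `j` to `F = F_K(M₁ q)` is one of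
`v_∞`, `v_mid`, `v_0`. -/
theorem complete_modular (hA : A.LiesOverPrime q) (W : ValuationSubring (FK A (M₁ * q)))
    (hWO : W.comap (algebraMap (KI A) (FK A (M₁ * q))) = OI A)
    (hWj : Fermat.Agent.S35.helper1024.GaussElt (OI A) W (jK (KI A) (M₁ * q))) :
    ∃ c, W = VK A M₁ q hq hqM hq2 c := by
  have h1 : Fermat.Agent.S35.helper1024.GaussElt (OI A)
      (W.comap ((αK A M₁ q : FK A M₁ →ₐ[KI A] FK A (M₁ * q)) : FK A M₁ →+* FK A (M₁ * q)))
      (jK (KI A) M₁) := by
    rw [Fermat.Agent.S36.helper3537.gaussElt_comap_iff, αK_jK]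
    exact hWj
  have h2 : (W.comap ((αK A M₁ q : FK A M₁ →ₐ[KI A] FK A (M₁ * q)) :
      FK A M₁ →+* FK A (M₁ * q))).comap (algebraMap (KI A) (FK A M₁)) = OI A := by
    rw [Fermat.Agent.S36.helper3537.comap_comap_algebraMap]
    exact hWO
  rcases levelq_complete_modular A M₁ q hq hqM hq2 hA _ h2 h1 with h | h
  · rcases split_modular A M₁ q hq hqM hq2 hA W h with h' | h'
    · exact ⟨0, h'⟩
    · exact ⟨1, h'⟩
  · exact ⟨2, eq_Vzero_of_comap_αK A M₁ q hq hqM hq2 W h⟩

/-- The `j`-relation of the base line: `j * b(x) = a(x)` with `a, b ∈ ℤ[X]` monic,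
`deg b < deg a` (`t₄` for `q ≠ 2`, `t₉` for `q = 2`). -/
theorem exists_rel_xK (haux : Fermat.Agent.S36.helper1335.AuxOK M₁ q) :
    ∃ a b : ℤ[X], a.Monic ∧ b.Monic ∧ b.natDegree < a.natDegree ∧
      jK (KI A) (M₁ * q) * aeval (xK A M₁ q haux) b = aeval (xK A M₁ q haux) a := by
  by_cases h2 : q = 2
  · refine ⟨_, _, Fermat.Agent.S36.helper2587.monic_t9_num, Fermat.Agent.S36.helper2587.monic_t9_den,
      by rw [Fermat.Agent.S36.helper2587.natDegree_t9_num,
        Fermat.Agent.S36.helper2587.natDegree_t9_den]; norm_num, ?_⟩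
    unfold xK
    rw [baseLine_of_eq _ _ _ _ _ h2]
    simp only [map_mul, map_pow, map_add, aeval_X, map_ofNat]
    linear_combination Fermat.Agent.S37.helper530.jK_mul_t9F (KI A) (M₁ * q) _
  · refine ⟨_, _, Fermat.Agent.S36.helper2587.monic_t4_num, Fermat.Agent.S36.helper2587.monic_t4_den,
      by rw [Fermat.Agent.S36.helper2587.natDegree_t4_num,
        Fermat.Agent.S36.helper2587.natDegree_t4_den]; norm_num, ?_⟩
    unfold xK
    rw [baseLine_of_ne _ _ _ _ _ h2]
    simp only [map_mul, map_pow, map_add, aeval_X, map_ofNat]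
    linear_combination Fermat.Agent.S37.helper530.jK_mul_t4F (KI A) (M₁ * q) _

/-- **Block RAD, tower route: the fields `rad` and `rad01` of `helper405.KillInput`, verbatim.** -/
theorem rad_modular_tower (haux : Fermat.Agent.S36.helper1335.AuxOK M₁ q)
    (hA : A.LiesOverPrime q) :
    (∀ (i : Fin 2) (y : FK A (M₁ * q)), y ∈ BK A M₁ q haux i →
      (∀ c, y ∈ (VK A M₁ q hq hqM hq2 c).nonunits) →
      Fermat.Agent.S36.helper1730.NilMod (BK A M₁ q haux i) (q : FK A (M₁ * q)) y) ∧
    (∀ y : FK A (M₁ * q), y ∈ Fermat.Agent.S36.helper36.chart01 (OI A) (xK A M₁ q haux) →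
      (∀ c, y ∈ (VK A M₁ q hq hqM hq2 c).nonunits) →
      Fermat.Agent.S36.helper1730.NilMod
        (Fermat.Agent.S36.helper36.chart01 (OI A) (xK A M₁ q haux)) (q : FK A (M₁ * q)) y) := by
  obtain ⟨-, hq0, hqO, hunif, -, -⟩ := Fermat.Agent.S36.helper225.baseDVR_facts A hq hA
  obtain ⟨a, b, ham, hbm, hdeg, hj⟩ := exists_rel_xK A M₁ q haux
  exact Fermat.Agent.S36.helper2587.killData_rad_of_complete_line (OI A) q
    (VK A M₁ q hq hqM hq2) hq0 hqO hunif (xK A M₁ q haux)
    (baseLine_transcendental _ _ _ _ _) (jK (KI A) (M₁ * q)) a b ham hbm hdeg hj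
    (fun W hWO hWj => complete_modular A M₁ q hq hqM hq2 hA W hWO hWj)

/-- The field `rad`. -/
theorem rad_modular (haux : Fermat.Agent.S36.helper1335.AuxOK M₁ q) (hA : A.LiesOverPrime q) :
    ∀ (i : Fin 2) (y : FK A (M₁ * q)), y ∈ BK A M₁ q haux i →
      (∀ c, y ∈ (VK A M₁ q hq hqM hq2 c).nonunits) →
      Fermat.Agent.S36.helper1730.NilMod (BK A M₁ q haux i) (q : FK A (M₁ * q)) y :=
  (rad_modular_tower A M₁ q hq hqM hq2 haux hA).1

/-- The field `rad01`. -/
theorem rad01_modular (haux : Fermat.Agent.S36.helper1335.AuxOK M₁ q) (hA : A.LiesOverPrime q) :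
    ∀ y : FK A (M₁ * q), y ∈ Fermat.Agent.S36.helper36.chart01 (OI A) (xK A M₁ q haux) →
      (∀ c, y ∈ (VK A M₁ q hq hqM hq2 c).nonunits) →
      Fermat.Agent.S36.helper1730.NilMod
        (Fermat.Agent.S36.helper36.chart01 (OI A) (xK A M₁ q haux)) (q : FK A (M₁ * q)) y :=
  (rad_modular_tower A M₁ q hq hqM hq2 haux hA).2

/-- **Seam test**: the two fields of block RAD fill `helper405.KillInput`. -/
example (haux : Fermat.Agent.S36.helper1335.AuxOK M₁ q) (hA : A.LiesOverPrime q)
    (h : KillInput A M₁ q hq hqM hq2 haux) : KillInput A M₁ q hq hqM hq2 haux :=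
  { h with
    rad := rad_modular A M₁ q hq hqM hq2 haux hA
    rad01 := rad01_modular A M₁ q hq hqM hq2 haux hA }

end Fermat.Agent.S36.helper5493
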