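import Fermat.Agent.S36.helper6136_LPGeom

/-!
# S36-F3-LPLOCAL (helper6136): (LP)(b) in local form

Additions to `helper6136_LPGeom` (plan ruling R6): the hypothesis `LocPIRQuot P p` of the
factoriality theorem `locFactorial_of_locGen` is supplied in *local* form.

* `LocDVRQuot P p` : the maximal ideal of `(B ⧸ p)_P` is principal, elementwise
  (`m_P = (g) mod p`).
* `locPIRQuot_of_locDVRQuot` (L1) : `LocDVRQuot P p → LocPIRQuot P p` (`B` noetherian).
* `locDVRQuot_of_dominates` (L2) : the domination lemma.  If `ψ : R →+* B` is a ring hom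
  (the chart ring of the lower level into `B`), the local ring of `R ⧸ ψ⁻¹p` at `ψ⁻¹P` has
  principal maximal ideal, and `B ⧸ p` has the same fraction field as `R ⧸ ψ⁻¹p`
  (residue degree one), then `LocDVRQuot P p`, with generator the image of the lower one.
* `locPIRQuot_of_dominates` : (L2) followed by (L1).
* `locDVRQuot_of_localization` (L3) : transfer of `LocDVRQuot` from a localisation `B_P`
  (any model of it) back to `B`.
-/

set_option autoImplicit false

namespace Fermat.Agent.S36.helper6136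

open IsLocalRing

variable {B : Type*} [CommRing B]

/-- `LocDVRQuot P p`: the maximal ideal of the local ring of `B ⧸ p` at `P` is principal,
written elementwise: there is `g ∈ P` such that every `a ∈ P` is a multiple of `g` modulo `p`,
up to some `s ∉ P`. -/
def LocDVRQuot (P p : Ideal B) : Prop :=
  ∃ g ∈ P, ∀ a ∈ P, ∃ s, s ∉ P ∧ ∃ b, s * a - g * b ∈ p

section QuotLoc

variable (P p : Ideal B) [P.IsPrime] [p.IsPrime]

omit [p.IsPrime] in
/-- The image of `P` in `B ⧸ p` is prime when `p ≤ P`. -/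
theorem map_mk_isPrime (hpP : p ≤ P) : (P.map (Ideal.Quotient.mk p)).IsPrime :=
  Ideal.map_isPrime_of_surjective Ideal.Quotient.mk_surjective (by rw [Ideal.mk_ker]; exact hpP)

variable [hPbar : (P.map (Ideal.Quotient.mk p)).IsPrime]

/-- The canonical map from `B` to the local ring of `B ⧸ p` at `P`. -/
noncomputable def quotLocMap :
    B →+* Localization.AtPrime (P.map (Ideal.Quotient.mk p)) :=
  (algebraMap (B ⧸ p) (Localization.AtPrime (P.map (Ideal.Quotient.mk p)))).comp
    (Ideal.Quotient.mk p)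

omit [P.IsPrime] in
theorem quotLocMap_eq_zero_iff (x : B) : quotLocMap P p x = 0 ↔ x ∈ p := by
  have hinj : Function.Injective
      (algebraMap (B ⧸ p) (Localization.AtPrime (P.map (Ideal.Quotient.mk p)))) :=
    IsLocalization.injective _ (P.map (Ideal.Quotient.mk p)).primeCompl_le_nonZeroDivisors
  unfold quotLocMap
  rw [RingHom.comp_apply, ← Ideal.Quotient.eq_zero_iff_mem, ← map_zero
    (algebraMap (B ⧸ p) (Localization.AtPrime (P.map (Ideal.Quotient.mk p))))]
  exact hinj.eq_iff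

omit [P.IsPrime] [p.IsPrime] in
theorem isUnit_quotLocMap (hpP : p ≤ P) {s : B} (hs : s ∉ P) : IsUnit (quotLocMap P p s) := by
  have hs' : Ideal.Quotient.mk p s ∈ (P.map (Ideal.Quotient.mk p)).primeCompl := by
    intro h
    exact hs ((Ideal.mem_quotient_iff_mem hpP).mp h)
  exact IsLocalization.map_units _ (⟨_, hs'⟩ : (P.map (Ideal.Quotient.mk p)).primeCompl)

omit [P.IsPrime] [p.IsPrime] in
theorem exists_quotLocMap_eq (z : Localization.AtPrime (P.map (Ideal.Quotient.mk p))) :
    ∃ d t : B, t ∉ P ∧ z * quotLocMap P p t = quotLocMap P p d := by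
  obtain ⟨d', t', rfl⟩ := IsLocalization.exists_mk'_eq (P.map (Ideal.Quotient.mk p)).primeCompl z
  obtain ⟨d, rfl⟩ := Ideal.Quotient.mk_surjective d'
  obtain ⟨t, ht⟩ := Ideal.Quotient.mk_surjective (t' : B ⧸ p)
  refine ⟨d, t, fun h => t'.2 (ht ▸ Ideal.mem_map_of_mem _ h), ?_⟩
  unfold quotLocMap
  rw [RingHom.comp_apply, RingHom.comp_apply, ht]
  exact IsLocalization.mk'_spec _ _ _

omit [P.IsPrime] [p.IsPrime] in
theorem maximalIdeal_quotLoc_eq :
    maximalIdeal (Localization.AtPrime (P.map (Ideal.Quotient.mk p)))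
      = Ideal.span (quotLocMap P p '' (P : Set B)) := by
  rw [← IsLocalization.AtPrime.map_eq_maximalIdeal (P.map (Ideal.Quotient.mk p))
    (Localization.AtPrime (P.map (Ideal.Quotient.mk p))), Ideal.map_map]
  rfl

omit [P.IsPrime] in
/-- `LocDVRQuot P p` makes the maximal ideal of the local ring of `B ⧸ p` at `P` principal. -/
theorem maximalIdeal_quotLoc_isPrincipal (hpP : p ≤ P) (h : LocDVRQuot P p) :
    (maximalIdeal (Localization.AtPrime (P.map (Ideal.Quotient.mk p)))).IsPrincipal := by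
  obtain ⟨g, hg, hgen⟩ := h
  refine ⟨⟨quotLocMap P p g, ?_⟩⟩
  rw [maximalIdeal_quotLoc_eq]
  refine le_antisymm ?_ ?_
  · rw [Ideal.span_le]
    rintro _ ⟨a, ha, rfl⟩
    obtain ⟨s, hs, b, hb⟩ := hgen a ha
    have h0 : quotLocMap P p (s * a - g * b) = 0 := (quotLocMap_eq_zero_iff P p _).mpr hb
    rw [map_sub, map_mul, map_mul, sub_eq_zero] at h0
    obtain ⟨u, hu⟩ := isUnit_quotLocMap P p hpP hs
    have ha' : quotLocMap P p a = (↑u⁻¹ * quotLocMap P p b) * quotLocMap P p g := by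
      have h3 : quotLocMap P p a = ↑u⁻¹ * (quotLocMap P p s * quotLocMap P p a) := by
        rw [← hu, ← mul_assoc, Units.inv_mul, one_mul]
      rw [h3, h0]; ring
    show quotLocMap P p a ∈ Submodule.span _ {quotLocMap P p g}
    rw [ha']
    exact Ideal.mul_mem_left _ _ (Ideal.mem_span_singleton_self _)
  · show Submodule.span _ {quotLocMap P p g} ≤ _
    exact (Ideal.span_singleton_le_iff_mem _).mpr (Ideal.subset_span ⟨g, hg, rfl⟩)

end QuotLoc

section L1

variable [IsNoetherianRing B]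

/-- **(L1)** The local form of (LP)(b) gives the hypothesis `LocPIRQuot P p` of
`locFactorial_of_locGen`. -/
theorem locPIRQuot_of_locDVRQuot (P p : Ideal B) [P.IsPrime] [p.IsPrime] (hpP : p ≤ P)
    (h : LocDVRQuot P p) : LocPIRQuot P p := by
  classical
  have hPbar : (P.map (Ideal.Quotient.mk p)).IsPrime := map_mk_isPrime P p hpP
  let S := Localization.AtPrime (P.map (Ideal.Quotient.mk p))
  have hS : IsNoetherianRing S :=
    IsLocalization.isNoetherianRing (P.map (Ideal.Quotient.mk p)).primeCompl S inferInstance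
  have hprin : (maximalIdeal S).IsPrincipal := maximalIdeal_quotLoc_isPrincipal P p hpP h
  have hPIR : IsPrincipalIdealRing S :=
    ((tfae_of_isNoetherianRing_of_isLocalRing_of_isDomain (R := S)).out 4 0).mp hprin
  intro I
  obtain ⟨w, ⟨z, hz, rfl⟩, hspan⟩ := exists_mem_span_eq_of_isLocalRing S
    (quotLocMap P p '' (I : Set B)) ⟨0, I.zero_mem, map_zero _⟩
  refine ⟨z, hz, fun a ha => ?_⟩
  have haS : quotLocMap P p a ∈ Ideal.span {quotLocMap P p z} :=
    hspan ▸ Ideal.subset_span ⟨a, ha, rfl⟩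
  obtain ⟨r, hr⟩ := Ideal.mem_span_singleton'.mp haS
  obtain ⟨d, t, ht, hdt⟩ := exists_quotLocMap_eq P p r
  refine ⟨t, ht, d, ?_⟩
  rw [← quotLocMap_eq_zero_iff P p, map_sub, map_mul, map_mul, sub_eq_zero, ← hdt, ← hr]
  ring

end L1

section L2

variable {R : Type*} [CommRing R] [IsNoetherianRing R]

/-- **(L2) Domination.**  `ψ : R →+* B` a ring hom, `p ≤ P` primes of `B`.  Assume that the
local ring of `R ⧸ ψ⁻¹p` at `ψ⁻¹P` has principal maximal ideal (`LocDVRQuot` downstairs: the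
component below is a normal curve at the point below) and that every element of `B` is, modulo
`p`, a fraction of elements of `ψ(R)` (`B ⧸ p` and `R ⧸ ψ⁻¹p` have the same fraction field:
residue degree one).  Then the local ring of `B ⧸ p` at `P` has principal maximal ideal,
generated by the image of the generator downstairs. -/
theorem locDVRQuot_of_dominates (ψ : R →+* B) (P p : Ideal B) [P.IsPrime] [p.IsPrime]
    (hpP : p ≤ P) (h1 : LocDVRQuot (P.comap ψ) (p.comap ψ))
    (h2 : ∀ b : B, ∃ r s : R, ψ s ∉ p ∧ ψ s * b - ψ r ∈ p) : LocDVRQuot P p := by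
  classical
  have hpP' : p.comap ψ ≤ P.comap ψ := Ideal.comap_mono hpP
  have hPbar : ((P.comap ψ).map (Ideal.Quotient.mk (p.comap ψ))).IsPrime :=
    map_mk_isPrime (P.comap ψ) (p.comap ψ) hpP'
  let S := Localization.AtPrime ((P.comap ψ).map (Ideal.Quotient.mk (p.comap ψ)))
  let φ : R →+* S := quotLocMap (P.comap ψ) (p.comap ψ)
  have hS : IsNoetherianRing S := IsLocalization.isNoetherianRing
    ((P.comap ψ).map (Ideal.Quotient.mk (p.comap ψ))).primeCompl S inferInstance
  have hprin : (maximalIdeal S).IsPrincipal :=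
    maximalIdeal_quotLoc_isPrincipal (P.comap ψ) (p.comap ψ) hpP' h1
  have hVR : ValuationRing S :=
    ((tfae_of_isNoetherianRing_of_isLocalRing_of_isDomain (R := S)).out 4 1).mp hprin
  have hφ0 : ∀ x : R, φ x = 0 ↔ ψ x ∈ p := fun x =>
    quotLocMap_eq_zero_iff (P.comap ψ) (p.comap ψ) x
  obtain ⟨g', hg', hgen⟩ := h1
  refine ⟨ψ g', hg', fun a ha => ?_⟩
  obtain ⟨r, s₀, hs₀, hrs⟩ := h2 a
  obtain ⟨c, hc | hc⟩ := ValuationRing.cond (φ r) (φ s₀)
  · -- `s₀ / r` lies in the valuation ring: impossible for `a ∈ P`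
    exfalso
    obtain ⟨s₁, t, ht, hst⟩ := exists_quotLocMap_eq (P.comap ψ) (p.comap ψ) c
    have h3 : ψ (r * s₁ - s₀ * t) ∈ p := by
      rw [← hφ0, map_sub, map_mul, map_mul, sub_eq_zero]
      show φ r * φ s₁ = φ s₀ * φ t
      rw [← hc]
      have : c * φ t = φ s₁ := hst
      rw [← this]; ring
    rw [map_sub, map_mul, map_mul] at h3
    have h4 : ψ s₀ * (a * ψ s₁ - ψ t) ∈ p := by
      have : ψ s₀ * (a * ψ s₁ - ψ t)
          = ψ s₁ * (ψ s₀ * a - ψ r) + (ψ r * ψ s₁ - ψ s₀ * ψ t) := by ring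
      rw [this]
      exact p.add_mem (p.mul_mem_left _ hrs) h3
    have h5 : a * ψ s₁ - ψ t ∈ p := by
      rcases ‹p.IsPrime›.mem_or_mem h4 with h | h
      · exact absurd h hs₀
      · exact h
    have h6 : ψ t ∈ P := by
      have : ψ t = a * ψ s₁ - (a * ψ s₁ - ψ t) := by ring
      rw [this]
      exact P.sub_mem (P.mul_mem_right _ ha) (hpP h5)
    exact ht h6
  · -- `r / s₀` lies in the valuation ring
    obtain ⟨r₁, t, ht, hrt⟩ := exists_quotLocMap_eq (P.comap ψ) (p.comap ψ) c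
    have h3 : ψ (s₀ * r₁ - r * t) ∈ p := by
      rw [← hφ0, map_sub, map_mul, map_mul, sub_eq_zero]
      show φ s₀ * φ r₁ = φ r * φ t
      rw [← hc]
      have : c * φ t = φ r₁ := hrt
      rw [← this]; ring
    rw [map_sub, map_mul, map_mul] at h3
    have h4 : ψ s₀ * (ψ t * a - ψ r₁) ∈ p := by
      have : ψ s₀ * (ψ t * a - ψ r₁)
          = ψ t * (ψ s₀ * a - ψ r) - (ψ s₀ * ψ r₁ - ψ r * ψ t) := by ring
      rw [this]
      exact p.sub_mem (p.mul_mem_left _ hrs) h3
    have h5 : ψ t * a - ψ r₁ ∈ p := by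
      rcases ‹p.IsPrime›.mem_or_mem h4 with h | h
      · exact absurd h hs₀
      · exact h
    have hr₁ : r₁ ∈ P.comap ψ := by
      rw [Ideal.mem_comap]
      have : ψ r₁ = ψ t * a - (ψ t * a - ψ r₁) := by ring
      rw [this]
      exact P.sub_mem (P.mul_mem_left _ ha) (hpP h5)
    obtain ⟨s₁, hs₁, b₁, hb₁⟩ := hgen r₁ hr₁
    have hb₁' : ψ s₁ * ψ r₁ - ψ g' * ψ b₁ ∈ p := by
      have := Ideal.mem_comap.mp hb₁
      rwa [map_sub, map_mul, map_mul] at this
    refine ⟨ψ s₁ * ψ t, fun h => ?_, ψ b₁, ?_⟩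
    · rcases ‹P.IsPrime›.mem_or_mem h with h | h
      · exact hs₁ h
      · exact ht h
    · have : ψ s₁ * ψ t * a - ψ g' * ψ b₁
          = ψ s₁ * (ψ t * a - ψ r₁) + (ψ s₁ * ψ r₁ - ψ g' * ψ b₁) := by ring
      rw [this]
      exact p.add_mem (p.mul_mem_left _ h5) hb₁'

/-- (L2) followed by (L1): the hypothesis `LocPIRQuot P p` of (F) from the lower level. -/
theorem locPIRQuot_of_dominates [IsNoetherianRing B] (ψ : R →+* B) (P p : Ideal B) [P.IsPrime]
    [p.IsPrime] (hpP : p ≤ P) (h1 : LocDVRQuot (P.comap ψ) (p.comap ψ))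
    (h2 : ∀ b : B, ∃ r s : R, ψ s ∉ p ∧ ψ s * b - ψ r ∈ p) : LocPIRQuot P p :=
  locPIRQuot_of_locDVRQuot P p hpP (locDVRQuot_of_dominates ψ P p hpP h1 h2)

end L2

section L3

/-- **(L3) Transfer from the local ring.**  `ι : B →+* B'` a localisation of `B` at the prime
`P` (elementwise: the `s ∉ P` become units and every element of `B'` is a fraction `a / s`),
`P'`, `p'` ideals of `B'` contracting to `P`, `p`.  Then the local form of (LP)(b) for
`(B', P', p')` gives it for `(B, P, p)`.  (Use with `B' = Localization.AtPrime P` or with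
`helper4913.locSubring B P`, e.g. when the lower-level chart ring only maps into `B_P`.) -/
theorem locDVRQuot_of_localization {B' : Type*} [CommRing B'] (ι : B →+* B') (P p : Ideal B)
    [P.IsPrime] (P' p' : Ideal B') (hP : P'.comap ι = P) (hp : p'.comap ι = p)
    (hunit : ∀ s : B, s ∉ P → IsUnit (ι s))
    (hsurj : ∀ x : B', ∃ a s : B, s ∉ P ∧ x * ι s = ι a)
    (h : LocDVRQuot P' p') : LocDVRQuot P p := by
  obtain ⟨g', hg', hgen⟩ := h
  obtain ⟨g, sg, hsg, hg⟩ := hsurj g'
  have hgP : g ∈ P := by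
    rw [← hP, Ideal.mem_comap, ← hg]
    exact P'.mul_mem_right _ hg'
  refine ⟨g, hgP, fun a ha => ?_⟩
  have ha' : ι a ∈ P' := by
    have : a ∈ P'.comap ι := hP ▸ ha
    exact this
  obtain ⟨s', hs', b', hb'⟩ := hgen (ι a) ha'
  obtain ⟨s₂, s₁, hs₁, hs₂⟩ := hsurj s'
  obtain ⟨b₂, t₁, ht₁, hb₂⟩ := hsurj b'
  have hs₂P : s₂ ∉ P := by
    intro hmem
    have h1 : ι s₂ ∈ P' := by
      have : s₂ ∈ P'.comap ι := hP ▸ hmem
      exact this
    rw [← hs₂] at h1
    obtain ⟨u, hu⟩ := hunit s₁ hs₁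
    have h2 : s' = (s' * ι s₁) * ↑u⁻¹ := by
      rw [← hu, mul_assoc, Units.mul_inv, mul_one]
    exact hs' (h2 ▸ P'.mul_mem_right _ h1)
  refine ⟨s₂ * t₁ * sg, fun hmem => ?_, b₂ * s₁, ?_⟩
  · rcases ‹P.IsPrime›.mem_or_mem hmem with h | h
    · rcases ‹P.IsPrime›.mem_or_mem h with h | h
      · exact hs₂P h
      · exact ht₁ h
    · exact hsg h
  · rw [← hp, Ideal.mem_comap]
    have : ι (s₂ * t₁ * sg * a - g * (b₂ * s₁))
        = (ι s₁ * ι t₁ * ι sg) * (s' * ι a - g' * b') := by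
      simp only [map_sub, map_mul]
      rw [← hs₂, ← hb₂, ← hg]
      ring
    rw [this]
    exact p'.mul_mem_left _ hb'

end L3

end Fermat.Agent.S36.helper6136
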