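/-
S36 (route #3001, step (2) of (KILL)): the ORDER-OF-A-NORM formula
`ord_v (N_{L/K} u) = ∑_{w ∣ v} f(w ∣ v) · ord_w u`.

Part A: Dedekind form over a discrete valuation ring.
Part B: valuation-subring form (consumer shape).

`import Mathlib` only.
-/
import Mathlib

set_option autoImplicit false

namespace Fermat.Agent.S36.helper6205

open Ideal IsDedekindDomain WithZero

/-- `exp` turns finite sums into finite products. -/
theorem exp_sum_eq_prod {ι : Type*} (s : Finset ι) (a : ι → ℤ) :
    (exp (∑ i ∈ s, a i) : ℤᵐ⁰) = ∏ i ∈ s, exp (a i) := by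
  classical
  induction s using Finset.induction_on with
  | empty => simp
  | insert j s hj ih => rw [Finset.sum_insert hj, Finset.prod_insert hj, exp_add, ih]

/-! ## Part A: Dedekind form over a discrete valuation ring -/

section Dedekind

variable {R S : Type*} [CommRing R] [CommRing S] [IsDedekindDomain R] [IsDedekindDomain S]
  [Algebra R S] [Module.Finite R S] [Module.IsTorsionFree R S]

/-- Over a discrete valuation ring, every nonzero prime of a finite torsion-free Dedekind
extension lies over the maximal ideal. -/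
theorem liesOver_maximalIdeal [IsDiscreteValuationRing R] (v : HeightOneSpectrum S) :
    v.asIdeal.LiesOver (IsLocalRing.maximalIdeal R) := by
  have hinj : Function.Injective (algebraMap R S) := FaithfulSMul.algebraMap_injective R S
  have hint : Algebra.IsIntegral R S := inferInstance
  have hne : v.asIdeal.comap (algebraMap R S) ≠ ⊥ := by
    intro h
    exact v.ne_bot (Ideal.eq_bot_of_comap_eq_bot h)
  have hprime : (v.asIdeal.comap (algebraMap R S)).IsPrime := Ideal.comap_isPrime _ _
  have hmax : (v.asIdeal.comap (algebraMap R S)).IsMaximal := hprime.isMaximal hne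
  constructor
  exact (IsLocalRing.eq_maximalIdeal hmax).symm

/-- In a Dedekind domain, an element whose principal ideal is the `n`-th power of the prime of `w`
has `w`-adic valuation `exp (-n)`. -/
theorem intValuation_eq_exp_of_span_eq_pow (w : HeightOneSpectrum R) (x : R) (n : ℕ)
    (h : Ideal.span {x} = w.asIdeal ^ n) : w.intValuation x = exp (-(n : ℤ)) := by
  have hx : x ≠ 0 := by
    rintro rfl
    have h0 : w.asIdeal ^ n = ⊥ := by rw [← h]; simp
    exact w.ne_bot (pow_eq_zero_iff (M₀ := Ideal R) (by
      intro hn; subst hn; simp at h0) |>.mp h0)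
  have h1 : w.intValuation x ≤ exp (-(n : ℤ)) := by
    rw [HeightOneSpectrum.intValuation_le_pow_iff_dvd, h]
  have h2 : ¬ w.intValuation x ≤ exp (-((n + 1 : ℕ) : ℤ)) := by
    rw [HeightOneSpectrum.intValuation_le_pow_iff_dvd, h]
    intro hdvd
    have hle : w.asIdeal ^ n ≤ w.asIdeal ^ (n + 1) := Ideal.le_of_dvd hdvd
    have hprime : Prime w.asIdeal := w.prime
    have : w.asIdeal ^ (n + 1) ∣ w.asIdeal ^ n := hdvd
    rw [pow_dvd_pow_iff (by exact w.ne_bot) hprime.not_isUnit] at this
    omega
  rw [w.intValuation_if_neg hx] at h1 h2 ⊢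
  rw [exp_le_exp] at h1 h2
  rw [exp_inj]
  push_cast at h1 h2 ⊢
  omega

/-- **Order of a norm, Dedekind form.**  `R` a discrete valuation ring, `S` a Dedekind domain,
finite and torsion-free over `R`, with the nonzero primes of `S` enumerated by `vv`.  Then
`w (N u) = ∏ᵢ vᵢ(u) ^ f(vᵢ ∣ w)` for the normalised (`ℤᵐ⁰`-valued) adic valuations. -/
theorem intValuation_intNorm [IsDiscreteValuationRing R] [PerfectField (FractionRing R)]
    {ι : Type*} [Fintype ι] (vv : ι → HeightOneSpectrum S) (hvv : Function.Bijective vv)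
    (w : HeightOneSpectrum R) (u : S) (hu : u ≠ 0) :
    w.intValuation (Algebra.intNorm R S u) =
      ∏ i, (vv i).intValuation u ^ ((vv i).asIdeal.inertiaDeg R) := by
  classical
  set p : Ideal R := IsLocalRing.maximalIdeal R with hp
  have hwp : w.asIdeal = p := by
    have hmax : w.asIdeal.IsMaximal := w.isPrime.isMaximal w.ne_bot
    exact IsLocalRing.eq_maximalIdeal hmax
  have hI : Ideal.span {u} ≠ (0 : Ideal S) := by
    simpa [Ideal.zero_eq_bot, Ideal.span_singleton_eq_bot] using hu
  -- the counts
  set c : ι → ℕ := fun i =>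
    (Associates.mk (vv i).asIdeal).count (Associates.mk (Ideal.span {u} : Ideal S)).factors
    with hc
  have hfact : ∏ i, (vv i).asIdeal ^ c i = Ideal.span {u} := by
    have h1 := Ideal.finprod_heightOneSpectrum_factorization hI
    rw [← finprod_eq_of_bijective vv hvv (fun i => rfl), finprod_eq_prod_of_fintype] at h1
    exact h1
  have hrel : ∀ i, Ideal.relNorm R (vv i).asIdeal = p ^ ((vv i).asIdeal.inertiaDeg R) := by
    intro i
    have : (vv i).asIdeal.LiesOver p := liesOver_maximalIdeal (vv i)
    have : (vv i).asIdeal.IsMaximal := (vv i).isPrime.isMaximal (vv i).ne_bot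
    exact Ideal.relNorm_eq_pow_of_isMaximal (vv i).asIdeal p
  have hspan : Ideal.span {Algebra.intNorm R S u} =
      p ^ (∑ i, (vv i).asIdeal.inertiaDeg R * c i) := by
    rw [← Ideal.relNorm_singleton, ← hfact, map_prod]
    rw [← Finset.prod_pow_eq_pow_sum]
    refine Finset.prod_congr rfl (fun i _ => ?_)
    rw [map_pow, hrel i, pow_mul]
  rw [intValuation_eq_exp_of_span_eq_pow w _ _ (hwp ▸ hspan)]
  have hval : ∀ i, (vv i).intValuation u = exp (-(c i : ℤ)) := fun i =>
    (vv i).intValuation_if_neg hu
  simp_rw [hval, ← exp_nsmul]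
  rw [← exp_sum_eq_prod]
  congr 1
  push_cast
  rw [← Finset.sum_neg_distrib]
  refine Finset.sum_congr rfl (fun i _ => ?_)
  simp

end Dedekind

/-! ## Part B: valuation-subring form -/

section Unif

variable {F : Type*} [Field F]

/-- `π` is a uniformiser of the valuation subring `A`: nonzero, of valuation `< 1`, and every
nonzero element has the valuation of an integral power of `π` (so `A` is a discrete valuation
ring and `π` generates its maximal ideal). -/
structure IsUnif (A : ValuationSubring F) (π : F) : Prop where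
  ne_zero : π ≠ 0
  lt_one : A.valuation π < 1
  disc : ∀ x : F, x ≠ 0 → ∃ n : ℤ, A.valuation x = A.valuation π ^ n

namespace IsUnif

variable {A : ValuationSubring F} {π : F}

theorem val_pos (h : IsUnif A π) : 0 < A.valuation π :=
  zero_lt_iff.mpr ((map_ne_zero _).mpr h.ne_zero)

theorem zpow_inj (h : IsUnif A π) {m n : ℤ} :
    A.valuation π ^ m = A.valuation π ^ n ↔ m = n :=
  zpow_right_inj₀ h.val_pos h.lt_one.ne

theorem zpow_le_one_iff (h : IsUnif A π) {n : ℤ} : A.valuation π ^ n ≤ 1 ↔ 0 ≤ n := by
  have hanti := zpow_right_strictAnti₀ h.val_pos h.lt_one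
  have := hanti.le_iff_ge (a := n) (b := 0)
  simpa using this

theorem zpow_lt_one_iff (h : IsUnif A π) {n : ℤ} : A.valuation π ^ n < 1 ↔ 0 < n := by
  have hanti := zpow_right_strictAnti₀ h.val_pos h.lt_one
  have := hanti.lt_iff_gt (a := n) (b := 0)
  simpa using this

/-- The exponent is unique. -/
theorem exponent_unique (h : IsUnif A π) {x : F} {m n : ℤ}
    (hm : A.valuation x = A.valuation π ^ m) (hn : A.valuation x = A.valuation π ^ n) : m = n :=
  h.zpow_inj.mp (hm.symm.trans hn)

/-- A valuation subring with a uniformiser is a discrete valuation ring. -/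
theorem isDiscreteValuationRing (h : IsUnif A π) : IsDiscreteValuationRing A := by
  have hπA : π ∈ A := (A.valuation_le_one_iff π).mp h.lt_one.le
  have hunit : ∀ x : A, A.valuation (x : F) = 1 → IsUnit x := fun x hx =>
    (ValuationSubring.valuation_eq_one_iff A x).mpr hx
  apply IsDiscreteValuationRing.ofHasUnitMulPowIrreducibleFactorization
  refine ⟨⟨π, hπA⟩, ?_, ?_⟩
  · refine ⟨?_, ?_⟩
    · intro hu
      have := (ValuationSubring.valuation_eq_one_iff A ⟨π, hπA⟩).mp hu
      exact h.lt_one.ne this
    · intro a b hab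
      have hab' : π = (a : F) * (b : F) := congrArg Subtype.val hab
      have ha0 : (a : F) ≠ 0 := by
        rintro h0; rw [h0, zero_mul] at hab'; exact h.ne_zero hab'
      have hb0 : (b : F) ≠ 0 := by
        rintro h0; rw [h0, mul_zero] at hab'; exact h.ne_zero hab'
      obtain ⟨i, hi⟩ := h.disc _ ha0
      obtain ⟨j, hj⟩ := h.disc _ hb0
      have hi0 : 0 ≤ i := h.zpow_le_one_iff.mp (hi ▸ (A.valuation_le_one_iff _).mpr a.2)
      have hj0 : 0 ≤ j := h.zpow_le_one_iff.mp (hj ▸ (A.valuation_le_one_iff _).mpr b.2)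
      have hsum : i + j = 1 := by
        have h1 : A.valuation π ^ (1 : ℤ) = A.valuation π ^ (i + j) := by
          rw [zpow_one, zpow_add₀ ((map_ne_zero _).mpr h.ne_zero), ← hi, ← hj, ← map_mul, ← hab']
        exact (h.zpow_inj.mp h1).symm
      rcases (show i = 0 ∨ j = 0 by omega) with h0 | h0
      · left; apply hunit; rw [hi, h0, zpow_zero]
      · right; apply hunit; rw [hj, h0, zpow_zero]
  · intro x hx
    have hx0 : (x : F) ≠ 0 := fun h0 => hx (Subtype.ext h0)
    obtain ⟨n, hn⟩ := h.disc _ hx0
    have hn0 : 0 ≤ n := h.zpow_le_one_iff.mp (hn ▸ (A.valuation_le_one_iff _).mpr x.2)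
    lift n to ℕ using hn0
    refine ⟨n, ?_⟩
    rw [zpow_natCast] at hn
    -- `x / π^n` is a unit of `A`
    have hπn : ((⟨π, hπA⟩ : A) ^ n : A) ≠ 0 := pow_ne_zero _ (fun h0 => h.ne_zero (congrArg Subtype.val h0))
    have hval : A.valuation ((x : F) / π ^ n) = 1 := by
      rw [map_div₀, map_pow, hn, div_self]
      exact pow_ne_zero _ ((map_ne_zero _).mpr h.ne_zero)
    have hmem : (x : F) / π ^ n ∈ A := (A.valuation_le_one_iff _).mp hval.le
    have hu : IsUnit (⟨(x : F) / π ^ n, hmem⟩ : A) := hunit _ hval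
    obtain ⟨u, hu'⟩ := hu
    refine ⟨u, ?_⟩
    apply Subtype.ext
    rw [hu']
    push_cast
    field_simp [h.ne_zero]

/-- The maximal ideal of a valuation subring with a uniformiser is generated by it. -/
theorem maximalIdeal_eq_span (h : IsUnif A π) (hπA : π ∈ A) :
    IsLocalRing.maximalIdeal A = Ideal.span {(⟨π, hπA⟩ : A)} := by
  ext x
  rw [Ideal.mem_span_singleton]
  constructor
  · intro hx
    have hx1 : A.valuation (x : F) < 1 := (ValuationSubring.valuation_lt_one_iff A x).mp hx
    by_cases hx0 : (x : F) = 0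
    · exact ⟨0, by ext; simp [hx0]⟩
    obtain ⟨n, hn⟩ := h.disc _ hx0
    have hn1 : 0 < n := h.zpow_lt_one_iff.mp (hn ▸ hx1)
    have hmem : (x : F) / π ∈ A := by
      rw [← A.valuation_le_one_iff, map_div₀, hn, div_eq_mul_inv,
        ← zpow_sub_one₀ ((map_ne_zero _).mpr h.ne_zero), h.zpow_le_one_iff]
      omega
    refine ⟨⟨_, hmem⟩, ?_⟩
    ext
    push_cast
    field_simp [h.ne_zero]
  · rintro ⟨y, rfl⟩
    refine (ValuationSubring.valuation_lt_one_iff A _).mpr ?_
    push_cast
    rw [map_mul]
    calc A.valuation π * A.valuation (y : F) ≤ A.valuation π * 1 :=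
          mul_le_mul_right ((A.valuation_le_one_iff _).mpr y.2) _
      _ < 1 := by rw [mul_one]; exact h.lt_one

/-- Membership form of "`x` has order `k`": `x * ϖ ^ (-k)` is a unit of `A`. -/
theorem valuation_eq_zpow_iff_mem {ϖ : F} (hϖ : ϖ ≠ 0) {x : F} (hx : x ≠ 0) (k : ℤ) :
    A.valuation x = A.valuation ϖ ^ k ↔ x * ϖ ^ (-k) ∈ A ∧ (x * ϖ ^ (-k))⁻¹ ∈ A := by
  have hv : A.valuation ϖ ≠ 0 := (map_ne_zero _).mpr hϖ
  have hy0 : A.valuation (x * ϖ ^ (-k)) ≠ 0 :=
    (map_ne_zero _).mpr (mul_ne_zero hx (zpow_ne_zero _ hϖ))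
  have key : A.valuation (x * ϖ ^ (-k)) = A.valuation x / A.valuation ϖ ^ k := by
    rw [map_mul, map_zpow₀, zpow_neg, div_eq_mul_inv]
  rw [← A.valuation_le_one_iff, ← A.valuation_le_one_iff, map_inv₀,
    inv_le_one₀ (zero_lt_iff.mpr hy0), ← le_antisymm_iff, key,
    div_eq_one_iff_eq (zpow_ne_zero _ hv)]

/-- A uniformiser in membership form (`ϖ ∈ A`, `ϖ⁻¹ ∉ A`, every nonzero `x` is `ϖ ^ k` times a
unit of `A`) is a uniformiser in the valuation form. -/
theorem of_mem {ϖ : F} (h1 : ϖ ∈ A) (h2 : ϖ⁻¹ ∉ A)
    (h3 : ∀ x : F, x ≠ 0 → ∃ k : ℤ, x * ϖ ^ (-k) ≠ 0 ∧ x * ϖ ^ (-k) ∈ A ∧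
      (x * ϖ ^ (-k))⁻¹ ∈ A) : IsUnif A ϖ := by
  have hϖ : ϖ ≠ 0 := by
    rintro rfl
    exact h2 (by rw [inv_zero]; exact A.zero_mem)
  refine ⟨hϖ, ?_, fun x hx => ?_⟩
  · have hle : A.valuation ϖ ≤ 1 := (A.valuation_le_one_iff _).mpr h1
    refine lt_of_le_of_ne hle (fun h => h2 ?_)
    rw [← A.valuation_le_one_iff, map_inv₀, h, inv_one]
  · obtain ⟨k, -, hk1, hk2⟩ := h3 x hx
    exact ⟨k, (valuation_eq_zpow_iff_mem hϖ hx k).mpr ⟨hk1, hk2⟩⟩

/-- Conversely, the valuation form gives the membership form. -/
theorem to_mem (h : IsUnif A π) :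
    π ∈ A ∧ π⁻¹ ∉ A ∧ ∀ x : F, x ≠ 0 → ∃ k : ℤ, x * π ^ (-k) ≠ 0 ∧ x * π ^ (-k) ∈ A ∧
      (x * π ^ (-k))⁻¹ ∈ A := by
  refine ⟨(A.valuation_le_one_iff π).mp h.lt_one.le, fun hinv => ?_, fun x hx => ?_⟩
  · have h1 : A.valuation π⁻¹ ≤ 1 := (A.valuation_le_one_iff _).mpr hinv
    rw [map_inv₀, inv_le_one₀ h.val_pos] at h1
    exact absurd h.lt_one (not_lt.mpr h1)
  · obtain ⟨k, hk⟩ := h.disc x hx
    exact ⟨k, mul_ne_zero hx (zpow_ne_zero _ h.ne_zero),
      (valuation_eq_zpow_iff_mem h.ne_zero hx k).mp hk⟩

end IsUnif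

end Unif

/-! ### Comparison of a valuation subring with the adic valuation of its centre -/

section Compare

variable {S L : Type*} [CommRing S] [IsDedekindDomain S] [Field L] [Algebra S L]
  [IsFractionRing S L]

/-- If a valuation subring `W` of the fraction field of a Dedekind domain `S` contains `S` and
its maximal ideal meets `S` in the prime of `v`, then `W` is the valuation subring of the
`v`-adic valuation. -/
theorem valuationSubring_eq_of_center (v : HeightOneSpectrum S) (W : ValuationSubring L)
    (hSW : ∀ x : S, algebraMap S L x ∈ W)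
    (hc : ∀ x : S, W.valuation (algebraMap S L x) < 1 ↔ x ∈ v.asIdeal) :
    (v.valuation L).valuationSubring = W := by
  rw [← HeightOneSpectrum.valuationSubringAtPrime_eq_valuationSubring]
  refine ValuationSubring.eq_of_le_of_ne_top _ ?_ ?_
  · rintro x ⟨a, s, hs, rfl⟩
    have hs' : W.valuation (algebraMap S L s) = 1 := by
      have h1 : W.valuation (algebraMap S L s) ≤ 1 := (W.valuation_le_one_iff _).mpr (hSW s)
      rcases h1.lt_or_eq with h | h
      · exact absurd ((hc s).mp h) hs
      · exact h
    have : W.valuation (algebraMap S L a * (algebraMap S L s)⁻¹) ≤ 1 := by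
      rw [map_mul, map_inv₀, hs', inv_one, mul_one]
      exact (W.valuation_le_one_iff _).mpr (hSW a)
    exact (W.valuation_le_one_iff _).mp this
  · intro htop
    obtain ⟨x, hx, hx0⟩ := Submodule.exists_mem_ne_zero_of_ne_bot v.ne_bot
    have hlt := (hc x).mpr hx
    have hx0' : algebraMap S L x ≠ 0 := by
      rwa [Ne, map_eq_zero_iff _ (IsFractionRing.injective S L)]
    have hinv : (algebraMap S L x)⁻¹ ∈ W := by rw [htop]; trivial
    have h1 : W.valuation (algebraMap S L x)⁻¹ ≤ 1 := (W.valuation_le_one_iff _).mpr hinv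
    rw [map_inv₀] at h1
    have h2 : 1 < (W.valuation (algebraMap S L x))⁻¹ :=
      (one_lt_inv₀ (zero_lt_iff.mpr ((map_ne_zero _).mpr hx0'))).mpr hlt
    exact absurd h1 (not_le.mpr h2)

theorem isEquiv_of_center (v : HeightOneSpectrum S) (W : ValuationSubring L)
    (hSW : ∀ x : S, algebraMap S L x ∈ W)
    (hc : ∀ x : S, W.valuation (algebraMap S L x) < 1 ↔ x ∈ v.asIdeal) :
    (v.valuation L).IsEquiv W.valuation := by
  rw [Valuation.isEquiv_iff_valuationSubring, valuationSubring_eq_of_center v W hSW hc,
    ValuationSubring.valuationSubring_valuation]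

/-- Translation of orders: if `v.valuation L` is equivalent to `W.valuation` and `ϖ` is a
uniformiser of `W`, then `ϖ` has `v`-adic valuation `exp (-1)`. -/
theorem valuation_unif_eq (v : HeightOneSpectrum S) (W : ValuationSubring L)
    (heq : (v.valuation L).IsEquiv W.valuation) {ϖ : L} (hϖ : IsUnif W ϖ) :
    v.valuation L ϖ = exp (-1 : ℤ) := by
  have hlt : v.valuation L ϖ < 1 := (Valuation.IsEquiv.lt_one_iff_lt_one heq).mpr hϖ.lt_one
  have hne : v.valuation L ϖ ≠ 0 := (map_ne_zero _).mpr hϖ.ne_zero
  obtain ⟨t, ht⟩ := v.valuation_exists_uniformizer L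
  have ht0 : t ≠ 0 := by
    rintro rfl
    rw [map_zero] at ht
    exact exp_ne_zero ht.symm
  obtain ⟨n, hn⟩ := hϖ.disc t ht0
  have h1 : W.valuation (t / ϖ ^ n) = 1 := by
    rw [map_div₀, map_zpow₀, hn, div_self]
    exact zpow_ne_zero _ ((map_ne_zero _).mpr hϖ.ne_zero)
  have h2 : v.valuation L (t / ϖ ^ n) = 1 := (Valuation.IsEquiv.eq_one_iff_eq_one heq).mpr h1
  rw [map_div₀, map_zpow₀, div_eq_one_iff_eq (zpow_ne_zero _ hne), ht] at h2
  -- write `v ϖ = exp (-c)`
  obtain ⟨c, hc⟩ : ∃ c : ℤ, v.valuation L ϖ = exp c := ⟨log (v.valuation L ϖ), (exp_log hne).symm⟩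
  rw [hc] at h2 hlt ⊢
  rw [← exp_zsmul, exp_inj] at h2
  rw [← exp_zero, exp_lt_exp] at hlt
  rw [exp_inj]
  have h3 : n * c = -1 := by simpa using h2.symm
  have hc' : c ∣ 1 := ⟨-n, by linarith⟩
  rcases Int.isUnit_iff.mp (isUnit_of_dvd_one hc') with h | h
  · omega
  · exact h

theorem valuation_eq_exp_iff (v : HeightOneSpectrum S) (W : ValuationSubring L)
    (heq : (v.valuation L).IsEquiv W.valuation) {ϖ : L} (hϖ : IsUnif W ϖ) (x : L)
    (m : ℤ) : W.valuation x = W.valuation ϖ ^ m ↔ v.valuation L x = exp (-m) := by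
  have hϖv := valuation_unif_eq v W heq hϖ
  have hW0 : W.valuation ϖ ^ m ≠ 0 := zpow_ne_zero _ ((map_ne_zero _).mpr hϖ.ne_zero)
  have hv0 : v.valuation L ϖ ^ m ≠ 0 := zpow_ne_zero _ ((map_ne_zero _).mpr hϖ.ne_zero)
  have h1 : W.valuation x = W.valuation ϖ ^ m ↔ W.valuation (x / ϖ ^ m) = 1 := by
    rw [map_div₀, map_zpow₀, div_eq_one_iff_eq hW0]
  have h2 : v.valuation L x = exp (-m) ↔ v.valuation L (x / ϖ ^ m) = 1 := by
    rw [map_div₀, map_zpow₀, div_eq_one_iff_eq hv0, hϖv, ← exp_zsmul]
    simp
  rw [h1, h2]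
  exact (Valuation.IsEquiv.eq_one_iff_eq_one heq).symm

end Compare

/-! ### The integral closure of a discrete valuation subring in a finite extension -/

section ValSub

variable {K L : Type*} [Field K] [Field L] [Algebra K L] [FiniteDimensional K L] [CharZero K]
variable (V : ValuationSubring K) [IsDiscreteValuationRing V]

local instance instDedekindIC : IsDedekindDomain (integralClosure (↥V) L) :=
  integralClosure.isDedekindDomain V K L

local instance instFiniteIC : Module.Finite V (integralClosure (↥V) L) :=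
  IsIntegralClosure.finite V K L (integralClosure (↥V) L)

local instance instTorsionFreeIC : Module.IsTorsionFree V (integralClosure (↥V) L) :=
  haveI : Module.IsTorsionFree V L := .trans_faithfulSMul V K L
  IsIntegralClosure.isTorsionFree V L

local instance instFractionIC : IsFractionRing (integralClosure (↥V) L) L :=
  IsIntegralClosure.isFractionRing_of_finite_extension V K L (integralClosure (↥V) L)

variable {V}

omit [FiniteDimensional K L] [CharZero K] [IsDiscreteValuationRing V] in
/-- A valuation subring of `L` lying over `V` contains the integral closure of `V`. -/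
theorem integralClosure_le (W : ValuationSubring L) (hW : W.comap (algebraMap K L) = V)
    (x : integralClosure (↥V) L) : (x : L) ∈ W := by
  have hVW : ∀ a : V, algebraMap K L (a : K) ∈ W := fun a => by
    rw [← ValuationSubring.mem_comap, hW]; exact a.2
  let φ : V →+* W :=
    { toFun := fun a => ⟨algebraMap K L (a : K), hVW a⟩
      map_one' := by ext; simp
      map_mul' := fun a b => by ext; simp
      map_zero' := by ext; simp
      map_add' := fun a b => by ext; simp }
  have hint : IsIntegral W (x : L) :=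
    IsIntegral.map_of_comp_eq φ (RingHom.id L) (by ext a; rfl) x.2
  have hI : W.valuation.Integers W :=
    ⟨Subtype.val_injective, fun r => (W.valuation_le_one_iff r).mpr r.2,
      fun {r} hr => ⟨⟨r, (W.valuation_le_one_iff r).mp hr⟩, rfl⟩⟩
  exact (W.valuation_le_one_iff _).mp (hI.isIntegral_iff_v_le_one.mp hint)

omit [FiniteDimensional K L] [CharZero K] [IsDiscreteValuationRing V] in
/-- For a valuation subring `W` of `L` over `V`, an element of `K` is a non-unit at `W` iff it is
a non-unit at `V`. -/
theorem val_lt_one_iff_of_comap (W : ValuationSubring L) (hW : W.comap (algebraMap K L) = V)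
    (a : K) : W.valuation (algebraMap K L a) < 1 ↔ V.valuation a < 1 := by
  by_cases ha : a = 0
  · subst ha; simp
  have hmem : ∀ b : K, W.valuation (algebraMap K L b) ≤ 1 ↔ V.valuation b ≤ 1 := fun b => by
    rw [W.valuation_le_one_iff, V.valuation_le_one_iff, ← hW, ValuationSubring.mem_comap]
  have ha' : algebraMap K L a ≠ 0 := by simpa using ha
  have h1 : W.valuation (algebraMap K L a) < 1 ↔ ¬ W.valuation (algebraMap K L a⁻¹) ≤ 1 := by
    rw [map_inv₀, map_inv₀, not_le,
      one_lt_inv₀ (zero_lt_iff.mpr ((map_ne_zero _).mpr ha'))]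
  have h2 : V.valuation a < 1 ↔ ¬ V.valuation a⁻¹ ≤ 1 := by
    rw [map_inv₀, not_le, one_lt_inv₀ (zero_lt_iff.mpr ((map_ne_zero _).mpr ha))]
  rw [h1, h2, hmem]

/-- The ring homomorphism from the integral closure of `V` into a valuation subring over `V`. -/
def toValSub (W : ValuationSubring L) (hW : W.comap (algebraMap K L) = V) :
    integralClosure (↥V) L →+* W where
  toFun x := ⟨(x : L), integralClosure_le W hW x⟩
  map_one' := rfl
  map_mul' _ _ := rfl
  map_zero' := rfl
  map_add' _ _ := rfl

/-- The centre on the integral closure of `V` of a valuation subring of `L` over `V`, as a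
nonzero prime of the (Dedekind) integral closure. -/
noncomputable def center (W : ValuationSubring L) (hW : W.comap (algebraMap K L) = V) :
    HeightOneSpectrum (integralClosure (↥V) L) where
  asIdeal := (IsLocalRing.maximalIdeal W).comap (toValSub W hW)
  isPrime := Ideal.comap_isPrime _ _
  ne_bot := by
    obtain ⟨ϖ, hϖ⟩ := IsDiscreteValuationRing.exists_irreducible V
    have hϖV : V.valuation (ϖ : K) < 1 := by
      have h1 : V.valuation (ϖ : K) ≤ 1 := (V.valuation_le_one_iff _).mpr ϖ.2
      rcases h1.lt_or_eq with h | h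
      · exact h
      · exact absurd ((ValuationSubring.valuation_eq_one_iff V ϖ).mpr h) hϖ.not_isUnit
    have hϖW := (val_lt_one_iff_of_comap W hW (ϖ : K)).mpr hϖV
    intro hbot
    have hmem : algebraMap V (integralClosure (↥V) L) ϖ ∈
        (IsLocalRing.maximalIdeal W).comap (toValSub W hW) := by
      rw [Ideal.mem_comap]
      exact (ValuationSubring.valuation_lt_one_iff W _).mpr hϖW
    rw [hbot, Ideal.mem_bot] at hmem
    have hinj : Function.Injective (algebraMap V (integralClosure (↥V) L)) :=
      FaithfulSMul.algebraMap_injective _ _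
    exact hϖ.ne_zero (hinj (by rw [hmem, map_zero]))

theorem mem_center_iff (W : ValuationSubring L) (hW : W.comap (algebraMap K L) = V)
    (x : integralClosure (↥V) L) :
    x ∈ (center W hW).asIdeal ↔ W.valuation (x : L) < 1 := by
  change toValSub W hW x ∈ IsLocalRing.maximalIdeal W ↔ _
  exact ValuationSubring.valuation_lt_one_iff W _

theorem center_isEquiv (W : ValuationSubring L) (hW : W.comap (algebraMap K L) = V) :
    ((center W hW).valuation L).IsEquiv W.valuation :=
  isEquiv_of_center _ W (integralClosure_le W hW) (fun x => (mem_center_iff W hW x).symm)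

theorem center_valuationSubring (W : ValuationSubring L) (hW : W.comap (algebraMap K L) = V) :
    ((center W hW).valuation L).valuationSubring = W :=
  valuationSubring_eq_of_center _ W (integralClosure_le W hW)
    (fun x => (mem_center_iff W hW x).symm)

theorem center_injective {W₁ W₂ : ValuationSubring L} (h₁ : W₁.comap (algebraMap K L) = V)
    (h₂ : W₂.comap (algebraMap K L) = V) (h : center W₁ h₁ = center W₂ h₂) : W₁ = W₂ := by
  rw [← center_valuationSubring W₁ h₁, ← center_valuationSubring W₂ h₂, h]

/-- Every nonzero prime of the integral closure is the centre of a valuation subring over `V`. -/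
theorem exists_center_eq (v : HeightOneSpectrum (integralClosure (↥V) L)) :
    ∃ (W : ValuationSubring L) (hW : W.comap (algebraMap K L) = V), center W hW = v := by
  have hlies : v.asIdeal.LiesOver (IsLocalRing.maximalIdeal V) := liesOver_maximalIdeal v
  have hcomap : (v.valuation L).valuationSubring.comap (algebraMap K L) = V := by
    ext a
    rw [ValuationSubring.mem_comap, Valuation.mem_valuationSubring_iff]
    constructor
    · intro ha
      by_contra haV
      have hinv : a⁻¹ ∈ V := (V.mem_or_inv_mem a).resolve_left haV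
      have hnu : ¬ IsUnit (⟨a⁻¹, hinv⟩ : V) := by
        intro hu
        obtain ⟨u, hu'⟩ := hu
        apply haV
        have : a = ((u⁻¹ : Vˣ) : V) := by
          have h1 : (((u⁻¹ : Vˣ) : V) : K) * ((u : V) : K) = 1 := by
            rw [← MulMemClass.coe_mul, Units.inv_mul]; rfl
          rw [hu'] at h1
          have ha0 : a ≠ 0 := by rintro rfl; exact haV (zero_mem V)
          field_simp at h1
          exact h1.symm
        rw [this]; exact ((u⁻¹ : Vˣ) : V).2
      have hmax : (⟨a⁻¹, hinv⟩ : V) ∈ IsLocalRing.maximalIdeal V := hnu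
      have hmem : algebraMap V (integralClosure (↥V) L) ⟨a⁻¹, hinv⟩ ∈ v.asIdeal := by
        rw [hlies.over] at hmax
        exact hmax
      have hlt : v.valuation L (algebraMap (integralClosure (↥V) L) L
          (algebraMap V (integralClosure (↥V) L) ⟨a⁻¹, hinv⟩)) < 1 :=
        (v.valuation_lt_one_iff_mem (K := L) _).mpr hmem
      have hcoe : algebraMap (integralClosure (↥V) L) L
          (algebraMap V (integralClosure (↥V) L) ⟨a⁻¹, hinv⟩) = (algebraMap K L a)⁻¹ := by
        rw [← map_inv₀]; rfl
      rw [hcoe, map_inv₀] at hlt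
      have ha0 : a ≠ 0 := by rintro rfl; exact haV (zero_mem V)
      have ha0' : algebraMap K L a ≠ 0 := by simpa using ha0
      have := (inv_lt_one₀ (zero_lt_iff.mpr ((map_ne_zero (v.valuation L)).mpr ha0'))).mp hlt
      exact absurd ha (not_le.mpr this)
    · intro ha
      have hcoe : algebraMap K L a =
          algebraMap (integralClosure (↥V) L) L (algebraMap V (integralClosure (↥V) L) ⟨a, ha⟩) :=
        rfl
      rw [hcoe]
      exact v.valuation_le_one _
  refine ⟨(v.valuation L).valuationSubring, hcomap, ?_⟩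
  apply HeightOneSpectrum.eq_of_valuation_isEquiv_valuation (K := L)
  refine (center_isEquiv _ hcomap).trans ?_
  exact (Valuation.isEquiv_valuation_valuationSubring _).symm

variable (V) in
/-- The closed point of a discrete valuation subring. -/
noncomputable def basePoint : HeightOneSpectrum V where
  asIdeal := IsLocalRing.maximalIdeal V
  isPrime := inferInstance
  ne_bot := IsDiscreteValuationRing.not_a_field V

omit [CharZero K] in
theorem basePoint_isEquiv : ((basePoint V).valuation K).IsEquiv V.valuation :=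
  isEquiv_of_center _ V (fun x => x.2)
    (fun x => (ValuationSubring.valuation_lt_one_iff V x).symm)

/-- **Order of a norm** (multiplicative form, all elements of `Lˣ`): if the `W i` are all the
valuation subrings of `L` over the discrete valuation subring `V`, then
`w(N_{L/K} y) = ∏ᵢ vᵢ(y) ^ fᵢ` for the normalised adic valuations. -/
theorem valuation_norm_eq_prod {ι : Type*} [Fintype ι] (W : ι → ValuationSubring L)
    (hWV : ∀ i, (W i).comap (algebraMap K L) = V) (hinj : Function.Injective W)
    (hall : ∀ W' : ValuationSubring L, W'.comap (algebraMap K L) = V → ∃ i, W' = W i)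
    (y : L) (hy : y ≠ 0) :
    (basePoint V).valuation K (Algebra.norm K y) =
      ∏ i, (center (W i) (hWV i)).valuation L y ^
        ((center (W i) (hWV i)).asIdeal.inertiaDeg V) := by
  classical
  set vv : ι → HeightOneSpectrum (integralClosure (↥V) L) := fun i => center (W i) (hWV i)
    with hvv
  have hbij : Function.Bijective vv := by
    constructor
    · intro i j hij
      exact hinj (center_injective (hWV i) (hWV j) hij)
    · intro v
      obtain ⟨W', hW', hc⟩ := exists_center_eq v
      obtain ⟨i, rfl⟩ := hall W' hW'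
      exact ⟨i, hc⟩
  -- integral elements
  have hint : ∀ z : integralClosure (↥V) L, z ≠ 0 →
      (basePoint V).valuation K (Algebra.norm K (algebraMap (integralClosure (↥V) L) L z)) =
        ∏ i, (vv i).valuation L (algebraMap (integralClosure (↥V) L) L z) ^
          ((vv i).asIdeal.inertiaDeg V) := by
    intro z hz
    rw [← Algebra.algebraMap_intNorm (A := V) (K := K) (L := L) (B := integralClosure (↥V) L) z,
      HeightOneSpectrum.valuation_of_algebraMap,
      intValuation_intNorm vv hbij (basePoint V) z hz]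
    refine Finset.prod_congr rfl (fun i _ => ?_)
    rw [HeightOneSpectrum.valuation_of_algebraMap]
  obtain ⟨x, s, hs, rfl⟩ := IsFractionRing.div_surjective (A := integralClosure (↥V) L) y
  have hs0 : s ≠ 0 := nonZeroDivisors.ne_zero hs
  have hx0 : x ≠ 0 := by
    rintro rfl
    simp at hy
  have hs0' : algebraMap (integralClosure (↥V) L) L s ≠ 0 := by
    rwa [Ne, map_eq_zero_iff _ (IsFractionRing.injective (integralClosure (↥V) L) L)]
  have hdiv : Algebra.norm K (algebraMap (integralClosure (↥V) L) L x /
      algebraMap (integralClosure (↥V) L) L s) =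
      Algebra.norm K (algebraMap (integralClosure (↥V) L) L x) /
        Algebra.norm K (algebraMap (integralClosure (↥V) L) L s) := by
    rw [eq_div_iff (Algebra.norm_ne_zero_iff.mpr hs0'), ← map_mul, div_mul_cancel₀ _ hs0']
  rw [hdiv, map_div₀, hint x hx0, hint s hs0, ← Finset.prod_div_distrib]
  refine Finset.prod_congr rfl (fun i _ => ?_)
  rw [map_div₀, div_pow]

/-- **Order of a norm** (additive form, inertia degrees of the centres). -/
theorem ord_norm_eq_sum_inertiaDeg {π : K} (hπ : IsUnif V π)
    {ι : Type*} [Fintype ι] (W : ι → ValuationSubring L)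
    (hWV : ∀ i, (W i).comap (algebraMap K L) = V) (hinj : Function.Injective W)
    (hall : ∀ W' : ValuationSubring L, W'.comap (algebraMap K L) = V → ∃ i, W' = W i)
    {ϖ : ι → L} (hϖ : ∀ i, IsUnif (W i) (ϖ i))
    (u : L) (hu : u ≠ 0) (m : ι → ℤ)
    (hm : ∀ i, (W i).valuation u = (W i).valuation (ϖ i) ^ m i)
    (a : ℤ) (ha : V.valuation (Algebra.norm K u) = V.valuation π ^ a) :
    a = ∑ i, ((center (W i) (hWV i)).asIdeal.inertiaDeg V : ℤ) * m i := by
  have h1 := valuation_norm_eq_prod W hWV hinj hall u hu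
  rw [(valuation_eq_exp_iff (basePoint V) V basePoint_isEquiv hπ (Algebra.norm K u) a).mp ha]
    at h1
  have h2 : ∀ i, (center (W i) (hWV i)).valuation L u = exp (-(m i)) := fun i =>
    (valuation_eq_exp_iff _ (W i) (center_isEquiv (W i) (hWV i)) (hϖ i) u (m i)).mp (hm i)
  simp_rw [h2, ← exp_nsmul] at h1
  rw [← exp_sum_eq_prod, exp_inj] at h1
  have h3 : a = -∑ i, (center (W i) (hWV i)).asIdeal.inertiaDeg V • (-(m i)) := by
    rw [← h1, neg_neg]
  rw [h3, ← Finset.sum_neg_distrib]
  refine Finset.sum_congr rfl (fun i _ => ?_)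
  simp

/-- The inertia degree of the centre of `W` is the degree of the residue extension, computed in
arbitrary residue models `ρ : V ↠ k`, `ρ' : W ↠ k'`. -/
theorem inertiaDeg_center_eq_finrank (W : ValuationSubring L)
    (hW : W.comap (algebraMap K L) = V)
    {k k' : Type*} [Field k] [Field k'] [Algebra k k']
    (ρ : V →+* k) (hρ : Function.Surjective ρ)
    (hρker : ∀ x : V, ρ x = 0 ↔ V.valuation (x : K) < 1)
    (ρ' : W →+* k') (hρ' : Function.Surjective ρ')
    (hρ'ker : ∀ x : W, ρ' x = 0 ↔ W.valuation (x : L) < 1)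
    (hcompat : ∀ (x : V) (hx : algebraMap K L (x : K) ∈ W),
      ρ' ⟨algebraMap K L (x : K), hx⟩ = algebraMap k k' (ρ x)) :
    (center W hW).asIdeal.inertiaDeg V = Module.finrank k k' := by
  set q := (center W hW).asIdeal with hq
  set p := IsLocalRing.maximalIdeal V with hp
  have hlies : q.LiesOver p := liesOver_maximalIdeal (center W hW)
  have hqmax : q.IsMaximal := (center W hW).isPrime.isMaximal (center W hW).ne_bot
  rw [Ideal.inertiaDeg_eq_of_isMaximal p q]
  -- the two residue isomorphisms
  have hkerρ : RingHom.ker ρ = p := by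
    ext x
    rw [RingHom.mem_ker, hρker, hp, ValuationSubring.valuation_lt_one_iff]
  set ψ : integralClosure (↥V) L →+* k' := ρ'.comp (toValSub W hW) with hψ
  have hkerψ : RingHom.ker ψ = q := by
    ext x
    rw [RingHom.mem_ker, hq, mem_center_iff, hψ, RingHom.comp_apply, hρ'ker]
    rfl
  have hψsurj : Function.Surjective ψ := by
    intro y
    obtain ⟨x, rfl⟩ := hρ' y
    have hx1 : (center W hW).valuation L (x : L) ≤ 1 := by
      have : (x : L) ∈ ((center W hW).valuation L).valuationSubring := by
        rw [center_valuationSubring W hW]; exact x.2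
      exact (Valuation.mem_valuationSubring_iff _ _).mp this
    obtain ⟨z, hz⟩ := (center W hW).exists_valuation_sub_lt_of_integer hx1 1
    have hz' : (center W hW).valuation L
        (algebraMap (integralClosure (↥V) L) L z - (x : L)) < 1 := by simpa using hz
    have hzW : W.valuation ((z : L) - (x : L)) < 1 :=
      (Valuation.IsEquiv.lt_one_iff_lt_one (center_isEquiv W hW)).mp hz'
    refine ⟨z, ?_⟩
    have h0 : ρ' (toValSub W hW z - x) = 0 := (hρ'ker _).mpr hzW
    rw [map_sub, sub_eq_zero] at h0
    exact h0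
  let i : V ⧸ p ≃+* k :=
    (Ideal.quotEquivOfEq hkerρ.symm).trans (RingHom.quotientKerEquivOfSurjective hρ)
  let j : integralClosure (↥V) L ⧸ q ≃+* k' :=
    (Ideal.quotEquivOfEq hkerψ.symm).trans (RingHom.quotientKerEquivOfSurjective hψsurj)
  refine Algebra.finrank_eq_of_equiv_equiv i j ?_
  apply Ideal.Quotient.ringHom_ext
  ext x
  simp only [RingHom.comp_apply, RingEquiv.toRingHom_eq_coe, RingEquiv.coe_toRingHom]
  have hi : i (Ideal.Quotient.mk p x) = ρ x := by
    change (RingHom.quotientKerEquivOfSurjective hρ)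
      ((Ideal.quotEquivOfEq hkerρ.symm) (Ideal.Quotient.mk p x)) = _
    rw [Ideal.quotEquivOfEq_mk, RingHom.quotientKerEquivOfSurjective_apply_mk]
  have halg : algebraMap (V ⧸ p) (integralClosure (↥V) L ⧸ q) (Ideal.Quotient.mk p x) =
      Ideal.Quotient.mk q (algebraMap V (integralClosure (↥V) L) x) := rfl
  have hj : j (Ideal.Quotient.mk q (algebraMap V (integralClosure (↥V) L) x)) =
      ψ (algebraMap V (integralClosure (↥V) L) x) := by
    change (RingHom.quotientKerEquivOfSurjective hψsurj)
      ((Ideal.quotEquivOfEq hkerψ.symm) (Ideal.Quotient.mk q _)) = _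
    rw [Ideal.quotEquivOfEq_mk, RingHom.quotientKerEquivOfSurjective_apply_mk]
  rw [hi, halg, hj]
  exact (hcompat x _).symm

/-- The ramification index of the centre of `W`, read off from uniformisers:
`W(π) = W(ϖ) ^ e`. -/
theorem ramificationIdx_center_eq (W : ValuationSubring L)
    (hW : W.comap (algebraMap K L) = V) {π : K} (hπ : IsUnif V π) {ϖ : L} (hϖ : IsUnif W ϖ)
    (e : ℕ) (he : W.valuation (algebraMap K L π) = W.valuation ϖ ^ e) :
    (center W hW).asIdeal.ramificationIdx V = e := by
  classical
  have hπV : π ∈ V := (V.valuation_le_one_iff π).mp hπ.lt_one.le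
  have hlies : (center W hW).asIdeal.LiesOver (IsLocalRing.maximalIdeal V) :=
    liesOver_maximalIdeal (center W hW)
  have hmap : (IsLocalRing.maximalIdeal V).map (algebraMap V (integralClosure (↥V) L)) =
      Ideal.span {algebraMap V (integralClosure (↥V) L) ⟨π, hπV⟩} := by
    rw [hπ.maximalIdeal_eq_span hπV, Ideal.map_span, Set.image_singleton]
  have hinj : Function.Injective (algebraMap V (integralClosure (↥V) L)) :=
    FaithfulSMul.algebraMap_injective _ _
  have hx0 : algebraMap V (integralClosure (↥V) L) ⟨π, hπV⟩ ≠ 0 := by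
    intro h0
    have : (⟨π, hπV⟩ : V) = 0 := hinj (by rw [h0, map_zero])
    exact hπ.ne_zero (congrArg Subtype.val this)
  have hspan0 : (Ideal.span {algebraMap V (integralClosure (↥V) L) ⟨π, hπV⟩} :
      Ideal (integralClosure (↥V) L)) ≠ 0 := by
    simpa [Ideal.zero_eq_bot, Ideal.span_singleton_eq_bot] using hx0
  have hmap0 : (IsLocalRing.maximalIdeal V).map (algebraMap V (integralClosure (↥V) L)) ≠ ⊥ := by
    rw [hmap]; exact hspan0
  rw [Ideal.IsDedekindDomain.ramificationIdx_eq_normalizedFactors_count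
    (IsLocalRing.maximalIdeal V) (center W hW).asIdeal hmap0, hmap]
  have h1 : (center W hW).intValuation (algebraMap V (integralClosure (↥V) L) ⟨π, hπV⟩) =
      exp (-((Multiset.count (center W hW).asIdeal (UniqueFactorizationMonoid.normalizedFactors
        (Ideal.span {algebraMap V (integralClosure (↥V) L) ⟨π, hπV⟩})) : ℕ) : ℤ)) := by
    rw [(center W hW).intValuation_if_neg hx0,
      Ideal.count_associates_factors_eq hspan0 (center W hW).isPrime (center W hW).ne_bot]
  have h2 : (center W hW).valuation L (algebraMap K L π) = exp (-(e : ℤ)) :=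
    (valuation_eq_exp_iff (center W hW) W (center_isEquiv W hW) hϖ _ e).mp
      (by rw [zpow_natCast]; exact he)
  have h3 : (center W hW).valuation L (algebraMap K L π) =
      (center W hW).intValuation (algebraMap V (integralClosure (↥V) L) ⟨π, hπV⟩) := by
    rw [← HeightOneSpectrum.valuation_of_algebraMap (K := L)]
    rfl
  rw [h3, h1, exp_inj] at h2
  exact_mod_cast neg_injective h2

/-! ### The fundamental identity in the valuation-subring vocabulary -/

/-- The centre of a valuation subring over `V`, as a prime over the maximal ideal of `V`. -/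
noncomputable def centerOver (W : ValuationSubring L) (hW : W.comap (algebraMap K L) = V) :
    (IsLocalRing.maximalIdeal V).primesOver (integralClosure (↥V) L) :=
  ⟨(center W hW).asIdeal, (center W hW).isPrime, liesOver_maximalIdeal (center W hW)⟩

theorem centerOver_injective {W₁ W₂ : ValuationSubring L} (h₁ : W₁.comap (algebraMap K L) = V)
    (h₂ : W₂.comap (algebraMap K L) = V) (h : centerOver W₁ h₁ = centerOver W₂ h₂) : W₁ = W₂ :=
  center_injective h₁ h₂ (HeightOneSpectrum.ext (congrArg Subtype.val h))

theorem exists_centerOver_eq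
    (q : (IsLocalRing.maximalIdeal V).primesOver (integralClosure (↥V) L)) :
    ∃ (W : ValuationSubring L) (hW : W.comap (algebraMap K L) = V), centerOver W hW = q := by
  have hq : q.1.IsPrime := q.2.1
  have hlies : q.1.LiesOver (IsLocalRing.maximalIdeal V) := q.2.2
  have hne : q.1 ≠ ⊥ := by
    intro hbot
    have h1 : IsLocalRing.maximalIdeal V = (q.1).under V := hlies.over
    rw [hbot] at h1
    have hinj : Function.Injective (algebraMap V (integralClosure (↥V) L)) :=
      FaithfulSMul.algebraMap_injective _ _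
    have h2 : (⊥ : Ideal (integralClosure (↥V) L)).under V = ⊥ := by
      ext x
      simp only [Ideal.under, Ideal.mem_comap, Ideal.mem_bot]
      exact ⟨fun h => hinj (by rw [h, map_zero]), fun h => by rw [h, map_zero]⟩
    rw [h2] at h1
    exact IsDiscreteValuationRing.not_a_field V h1
  obtain ⟨W, hW, hc⟩ := exists_center_eq (⟨q.1, hq, hne⟩ : HeightOneSpectrum _)
  exact ⟨W, hW, Subtype.ext (congrArg HeightOneSpectrum.asIdeal hc)⟩

variable (V L) in
theorem finite_primesOver :
    Finite ((IsLocalRing.maximalIdeal V).primesOver (integralClosure (↥V) L)) :=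
  Algebra.QuasiFinite.finite_primesOver _

variable (V L) in
/-- The fundamental identity `∑ e f = [L : K]` over the primes of the integral closure. -/
theorem sum_primesOver
    [Fintype ((IsLocalRing.maximalIdeal V).primesOver (integralClosure (↥V) L))] :
    ∑ q : (IsLocalRing.maximalIdeal V).primesOver (integralClosure (↥V) L),
      q.1.ramificationIdx V * q.1.inertiaDeg V = Module.finrank K L := by
  have : Module.IsTorsionFree V L := .trans_faithfulSMul V K L
  have : Module.Free V (integralClosure (↥V) L) :=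
    IsIntegralClosure.module_free V K L (integralClosure (↥V) L)
  rw [Ideal.sum_ramification_inertia_eq_finrank (IsLocalRing.maximalIdeal V)
    (integralClosure (↥V) L), IsIntegralClosure.rank V K L (integralClosure (↥V) L)]

/-- For pairwise distinct valuation subrings over `V`: `∑ e_i f_i ≤ [L : K]`. -/
theorem sum_ramificationIdx_mul_inertiaDeg_le {ι : Type*} [Fintype ι]
    (W : ι → ValuationSubring L)
    (hWV : ∀ i, (W i).comap (algebraMap K L) = V) (hinj : Function.Injective W) :
    ∑ i, (center (W i) (hWV i)).asIdeal.ramificationIdx V *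
      (center (W i) (hWV i)).asIdeal.inertiaDeg V ≤ Module.finrank K L := by
  classical
  have := finite_primesOver (V := V) (L := L)
  let _ : Fintype ((IsLocalRing.maximalIdeal V).primesOver (integralClosure (↥V) L)) :=
    Fintype.ofFinite _
  rw [← sum_primesOver (V := V) (L := L)]
  have hg : Function.Injective (fun i => centerOver (W i) (hWV i)) := fun i j hij =>
    hinj (centerOver_injective (hWV i) (hWV j) hij)
  have h1 : ∑ i, (center (W i) (hWV i)).asIdeal.ramificationIdx V *
      (center (W i) (hWV i)).asIdeal.inertiaDeg V =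
      ∑ q ∈ Finset.univ.image (fun i => centerOver (W i) (hWV i)),
        q.1.ramificationIdx V * q.1.inertiaDeg V := by
    rw [Finset.sum_image (fun i _ j _ h => hg h)]
    rfl
  rw [h1]
  exact Finset.sum_le_sum_of_subset (Finset.subset_univ _)

/-- **Completeness of a table.**  If valuation subrings `W i` of `L` over `V` are pairwise
distinct and satisfy the fundamental identity `∑ e_i f_i = [L : K]`, then they are all the
valuation subrings of `L` over `V`. -/
theorem exists_eq_of_sum_eq_finrank {ι : Type*} [Fintype ι] (W : ι → ValuationSubring L)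
    (hWV : ∀ i, (W i).comap (algebraMap K L) = V) (hinj : Function.Injective W)
    (hsum : ∑ i, (center (W i) (hWV i)).asIdeal.ramificationIdx V *
      (center (W i) (hWV i)).asIdeal.inertiaDeg V = Module.finrank K L)
    (W' : ValuationSubring L) (hW' : W'.comap (algebraMap K L) = V) : ∃ i, W' = W i := by
  classical
  have := finite_primesOver (V := V) (L := L)
  let _ : Fintype ((IsLocalRing.maximalIdeal V).primesOver (integralClosure (↥V) L)) :=
    Fintype.ofFinite _
  have hfund := sum_primesOver (V := V) (L := L)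
  have hg : Function.Injective (fun i => centerOver (W i) (hWV i)) := fun i j hij =>
    hinj (centerOver_injective (hWV i) (hWV j) hij)
  have hFpos : ∀ q : (IsLocalRing.maximalIdeal V).primesOver (integralClosure (↥V) L),
      0 < q.1.ramificationIdx V * q.1.inertiaDeg V := fun q => by
    have : q.1.IsPrime := q.2.1
    exact Nat.mul_pos (Ideal.ramificationIdx_pos q.1 V) (Ideal.inertiaDeg_pos q.1 V)
  have himg : ∑ q ∈ Finset.univ.image (fun i => centerOver (W i) (hWV i)),
      q.1.ramificationIdx V * q.1.inertiaDeg V =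
      ∑ q : (IsLocalRing.maximalIdeal V).primesOver (integralClosure (↥V) L),
        q.1.ramificationIdx V * q.1.inertiaDeg V := by
    rw [Finset.sum_image (fun i _ j _ h => hg h), hfund, ← hsum]
    rfl
  by_contra hcon
  have hnot : centerOver W' hW' ∉ Finset.univ.image (fun i => centerOver (W i) (hWV i)) := by
    intro hin
    obtain ⟨i, -, hi⟩ := Finset.mem_image.mp hin
    exact hcon ⟨i, centerOver_injective hW' (hWV i) hi.symm⟩
  have hlt := Finset.sum_lt_sum_of_subset (Finset.subset_univ _) (Finset.mem_univ _) hnot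
    (hFpos _) (fun q _ _ => (hFpos q).le)
  exact hlt.ne himg

/-- **Fundamental identity** for a complete list of valuation subrings over `V`. -/
theorem sum_ramificationIdx_mul_inertiaDeg {ι : Type*} [Fintype ι]
    (W : ι → ValuationSubring L)
    (hWV : ∀ i, (W i).comap (algebraMap K L) = V) (hinj : Function.Injective W)
    (hall : ∀ W' : ValuationSubring L, W'.comap (algebraMap K L) = V → ∃ i, W' = W i) :
    ∑ i, (center (W i) (hWV i)).asIdeal.ramificationIdx V *
      (center (W i) (hWV i)).asIdeal.inertiaDeg V = Module.finrank K L := by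
  classical
  have := finite_primesOver (V := V) (L := L)
  let _ : Fintype ((IsLocalRing.maximalIdeal V).primesOver (integralClosure (↥V) L)) :=
    Fintype.ofFinite _
  rw [← sum_primesOver (V := V) (L := L)]
  have hbij : Function.Bijective (fun i => centerOver (W i) (hWV i)) := by
    refine ⟨fun i j hij => hinj (centerOver_injective (hWV i) (hWV j) hij), fun q => ?_⟩
    obtain ⟨W', hW', hc⟩ := exists_centerOver_eq q
    obtain ⟨i, rfl⟩ := hall W' hW'
    exact ⟨i, hc⟩
  exact Fintype.sum_bijective _ hbij _ _ (fun i => rfl)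

/-- **A table determines everything.**  Pairwise distinct valuation subrings `W i` over `V`
with ramification indices `e i` (read off from uniformisers), lower bounds `f i` for the residue
degrees and `[L : K] ≤ ∑ e_i f_i`: then the residue degrees are exactly the `f i` and the `W i`
are all the valuation subrings of `L` over `V`. -/
theorem table_complete {π : K} (hπ : IsUnif V π)
    {ι : Type*} [Fintype ι] (W : ι → ValuationSubring L)
    (hWV : ∀ i, (W i).comap (algebraMap K L) = V) (hinj : Function.Injective W)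
    {ϖ : ι → L} (hϖ : ∀ i, IsUnif (W i) (ϖ i)) (e f : ι → ℕ)
    (he : ∀ i, (W i).valuation (algebraMap K L π) = (W i).valuation (ϖ i) ^ e i)
    (hf : ∀ i, f i ≤ (center (W i) (hWV i)).asIdeal.inertiaDeg V)
    (hsum : Module.finrank K L ≤ ∑ i, e i * f i) :
    (∀ i, (center (W i) (hWV i)).asIdeal.inertiaDeg V = f i) ∧
      ∀ W' : ValuationSubring L, W'.comap (algebraMap K L) = V → ∃ i, W' = W i := by
  have hram : ∀ i, (center (W i) (hWV i)).asIdeal.ramificationIdx V = e i := fun i =>
    ramificationIdx_center_eq (W i) (hWV i) hπ (hϖ i) (e i) (he i)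
  have hle := sum_ramificationIdx_mul_inertiaDeg_le W hWV hinj
  simp_rw [hram] at hle
  have hterm : ∀ i, e i * f i ≤ e i * (center (W i) (hWV i)).asIdeal.inertiaDeg V := fun i =>
    Nat.mul_le_mul_left _ (hf i)
  have hsum_le : ∑ i, e i * f i ≤ ∑ i, e i * (center (W i) (hWV i)).asIdeal.inertiaDeg V :=
    Finset.sum_le_sum (fun i _ => hterm i)
  have heq : ∑ i, e i * f i = ∑ i, e i * (center (W i) (hWV i)).asIdeal.inertiaDeg V :=
    le_antisymm hsum_le (hle.trans hsum)
  have hterm_eq : ∀ i, e i * f i = e i * (center (W i) (hWV i)).asIdeal.inertiaDeg V := fun i =>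
    (Finset.sum_eq_sum_iff_of_le (fun i _ => hterm i)).mp heq i (Finset.mem_univ i)
  have hepos : ∀ i, 0 < e i := fun i => by
    rw [← hram i]
    have := (center (W i) (hWV i)).isPrime
    exact Ideal.ramificationIdx_pos _ V
  refine ⟨fun i => (Nat.eq_of_mul_eq_mul_left (hepos i) (hterm_eq i)).symm, ?_⟩
  apply exists_eq_of_sum_eq_finrank W hWV hinj
  simp_rw [hram]
  exact le_antisymm hle (hsum.trans hsum_le)

/-- **Order of a norm from a table** (`e i` from uniformisers, lower bounds `f i` for the
residue degrees, `[L : K] ≤ ∑ e_i f_i`): `ord_V (N u) = ∑ f_i · ord_{W i} u`. -/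
theorem ord_norm_eq_sum_of_table {π : K} (hπ : IsUnif V π)
    {ι : Type*} [Fintype ι] (W : ι → ValuationSubring L)
    (hWV : ∀ i, (W i).comap (algebraMap K L) = V) (hinj : Function.Injective W)
    {ϖ : ι → L} (hϖ : ∀ i, IsUnif (W i) (ϖ i)) (e f : ι → ℕ)
    (he : ∀ i, (W i).valuation (algebraMap K L π) = (W i).valuation (ϖ i) ^ e i)
    (hf : ∀ i, f i ≤ (center (W i) (hWV i)).asIdeal.inertiaDeg V)
    (hsum : Module.finrank K L ≤ ∑ i, e i * f i)
    (u : L) (hu : u ≠ 0) (m : ι → ℤ)
    (hm : ∀ i, (W i).valuation u = (W i).valuation (ϖ i) ^ m i)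
    (a : ℤ) (ha : V.valuation (Algebra.norm K u) = V.valuation π ^ a) :
    a = ∑ i, (f i : ℤ) * m i := by
  obtain ⟨hfeq, hall⟩ := table_complete hπ W hWV hinj hϖ e f he hf hsum
  have h := ord_norm_eq_sum_inertiaDeg hπ W hWV hinj hall hϖ u hu m hm a ha
  simp_rw [hfeq] at h
  exact h

/-- **Residue degree `≥ q` from a `q`-th root** (the purely inseparable legs).  `q` prime,
`a ∈ V` not a `q`-th power modulo the maximal ideal of `V`, and `y ∈ L` with
`y ^ q ≡ a` modulo the maximal ideal of `W`: then the residue degree of `W` over `V` is at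
least `q`.  No residue field appears in the statement. -/
theorem le_inertiaDeg_center_of_pow (W : ValuationSubring L)
    (hW : W.comap (algebraMap K L) = V) (q : ℕ) (hq : q.Prime)
    (a : K) (ha : a ∈ V) (hapow : ∀ b : K, b ∈ V → ¬ V.valuation (b ^ q - a) < 1)
    (y : L) (hya : W.valuation (y ^ q - algebraMap K L a) < 1) :
    q ≤ (center W hW).asIdeal.inertiaDeg V := by
  classical
  set P := (center W hW).asIdeal with hP
  set p := IsLocalRing.maximalIdeal V with hp
  have hlies : P.LiesOver p := liesOver_maximalIdeal (center W hW)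
  have hPmax : P.IsMaximal := (center W hW).isPrime.isMaximal (center W hW).ne_bot
  rw [Ideal.inertiaDeg_eq_of_isMaximal p P]
  let _ : Field (V ⧸ p) := Ideal.Quotient.field p
  let _ : Field (integralClosure (↥V) L ⧸ P) := Ideal.Quotient.field P
  -- `y ∈ W`
  have haW : algebraMap K L a ∈ W := by
    rw [← ValuationSubring.mem_comap, hW]; exact ha
  have hyq : y ^ q ∈ W := by
    have h1 : y ^ q - algebraMap K L a ∈ W := (W.valuation_le_one_iff _).mp hya.le
    have := W.add_mem _ _ h1 haW
    simpa using this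
  have hyW : y ∈ W := by
    rw [← W.valuation_le_one_iff] at hyq ⊢
    rw [map_pow] at hyq
    exact (pow_le_one_iff_of_nonneg zero_le hq.ne_zero).mp hyq
  -- approximate `y` by an integral element `z`
  have hy1 : (center W hW).valuation L y ≤ 1 := by
    have : y ∈ ((center W hW).valuation L).valuationSubring := by
      rw [center_valuationSubring W hW]; exact hyW
    exact (Valuation.mem_valuationSubring_iff _ _).mp this
  obtain ⟨z, hz⟩ := (center W hW).exists_valuation_sub_lt_of_integer hy1 1
  have hz' : (center W hW).valuation L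
      (algebraMap (integralClosure (↥V) L) L z - y) < 1 := by simpa using hz
  have hzW : W.valuation ((z : L) - y) < 1 :=
    (Valuation.IsEquiv.lt_one_iff_lt_one (center_isEquiv W hW)).mp hz'
  have hzmem : (z : L) ∈ W := integralClosure_le W hW z
  -- `z ^ q ≡ a`
  have hzq : W.valuation ((z : L) ^ q - algebraMap K L a) < 1 := by
    obtain ⟨c, hc⟩ := sub_dvd_pow_sub_pow (⟨(z : L), hzmem⟩ : W) ⟨y, hyW⟩ q
    have hc' : (z : L) ^ q - y ^ q = ((z : L) - y) * (c : L) := by
      have := congrArg (Subtype.val : W → L) hc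
      simpa using this
    have h1 : W.valuation ((z : L) ^ q - y ^ q) < 1 := by
      rw [hc', map_mul]
      calc W.valuation ((z : L) - y) * W.valuation (c : L)
          ≤ W.valuation ((z : L) - y) * 1 :=
            mul_le_mul_right ((W.valuation_le_one_iff _).mpr c.2) _
        _ < 1 := by rw [mul_one]; exact hzW
    have h2 : (z : L) ^ q - algebraMap K L a =
        ((z : L) ^ q - y ^ q) + (y ^ q - algebraMap K L a) := by ring
    rw [h2]
    exact lt_of_le_of_lt (W.valuation.map_add _ _) (max_lt h1 hya)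
  have hmemP : z ^ q - algebraMap V (integralClosure (↥V) L) ⟨a, ha⟩ ∈ P := by
    rw [hP, mem_center_iff]
    exact hzq
  -- the residue class of `z` is a `q`-th root of the class of `a`
  set zbar : integralClosure (↥V) L ⧸ P := Ideal.Quotient.mk P z with hzbar
  set abar : V ⧸ p := Ideal.Quotient.mk p ⟨a, ha⟩ with habar
  have hroot : zbar ^ q = algebraMap (V ⧸ p) (integralClosure (↥V) L ⧸ P) abar := by
    have h1 : algebraMap (V ⧸ p) (integralClosure (↥V) L ⧸ P) abar =
        Ideal.Quotient.mk P (algebraMap V (integralClosure (↥V) L) ⟨a, ha⟩) := rfl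
    rw [h1, hzbar, ← map_pow, Ideal.Quotient.eq]
    exact hmemP
  have hnot : ∀ b : V ⧸ p, b ^ q ≠ abar := by
    intro b hb
    obtain ⟨b, rfl⟩ := Ideal.Quotient.mk_surjective b
    rw [habar, ← map_pow, Ideal.Quotient.eq] at hb
    have hb' : V.valuation (((b ^ q - ⟨a, ha⟩ : V) : K)) < 1 :=
      (ValuationSubring.valuation_lt_one_iff V _).mp hb
    exact hapow (b : K) b.2 (by simpa using hb')
  have hirr : Irreducible (Polynomial.X ^ q - Polynomial.C abar : Polynomial (V ⧸ p)) :=
    X_pow_sub_C_irreducible_of_prime hq hnot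
  have hmonic : (Polynomial.X ^ q - Polynomial.C abar : Polynomial (V ⧸ p)).Monic :=
    Polynomial.monic_X_pow_sub_C abar hq.ne_zero
  have heval : Polynomial.aeval zbar
      (Polynomial.X ^ q - Polynomial.C abar : Polynomial (V ⧸ p)) = 0 := by
    simp [hroot]
  have hminpoly : minpoly (V ⧸ p) zbar = Polynomial.X ^ q - Polynomial.C abar :=
    (minpoly.eq_of_irreducible_of_monic hirr heval hmonic).symm
  have hfin : Module.Finite (V ⧸ p) (integralClosure (↥V) L ⧸ P) := inferInstance
  have hdeg := minpoly.natDegree_le (A := V ⧸ p) zbar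
  rw [hminpoly, Polynomial.natDegree_X_pow_sub_C] at hdeg
  exact hdeg

/-- **Residue degree one in lifted form**: if the residue degree of `W` over `V` is `1`, every
element of `W` is congruent modulo the maximal ideal of `W` to an element of `V`. -/
theorem exists_lift_of_inertiaDeg_eq_one (W : ValuationSubring L)
    (hW : W.comap (algebraMap K L) = V)
    (h1 : (center W hW).asIdeal.inertiaDeg V = 1) (x : L) (hx : x ∈ W) :
    ∃ a : K, a ∈ V ∧ W.valuation (x - algebraMap K L a) < 1 := by
  classical
  set P := (center W hW).asIdeal with hP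
  set p := IsLocalRing.maximalIdeal V with hp
  have hlies : P.LiesOver p := liesOver_maximalIdeal (center W hW)
  have hPmax : P.IsMaximal := (center W hW).isPrime.isMaximal (center W hW).ne_bot
  rw [Ideal.inertiaDeg_eq_of_isMaximal p P] at h1
  let _ : Field (V ⧸ p) := Ideal.Quotient.field p
  let _ : Field (integralClosure (↥V) L ⧸ P) := Ideal.Quotient.field P
  have hbij := (Algebra.finrank_eq_one_iff_bijective_algebraMap (F := V ⧸ p)
    (E := integralClosure (↥V) L ⧸ P)).mp h1
  -- approximate `x` by an integral element `z`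
  have hx1 : (center W hW).valuation L x ≤ 1 := by
    have : x ∈ ((center W hW).valuation L).valuationSubring := by
      rw [center_valuationSubring W hW]; exact hx
    exact (Valuation.mem_valuationSubring_iff _ _).mp this
  obtain ⟨z, hz⟩ := (center W hW).exists_valuation_sub_lt_of_integer hx1 1
  have hz' : (center W hW).valuation L
      (algebraMap (integralClosure (↥V) L) L z - x) < 1 := by simpa using hz
  have hzW : W.valuation ((z : L) - x) < 1 :=
    (Valuation.IsEquiv.lt_one_iff_lt_one (center_isEquiv W hW)).mp hz'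
  obtain ⟨abar, habar⟩ := hbij.2 (Ideal.Quotient.mk P z)
  obtain ⟨a, rfl⟩ := Ideal.Quotient.mk_surjective abar
  have hmem : z - algebraMap V (integralClosure (↥V) L) a ∈ P := by
    rw [← Ideal.Quotient.eq]
    exact habar.symm
  have h2 : W.valuation ((z : L) - algebraMap K L (a : K)) < 1 :=
    (mem_center_iff W hW _).mp hmem
  refine ⟨(a : K), a.2, ?_⟩
  have h3 : x - algebraMap K L (a : K) =
      -((z : L) - x) + ((z : L) - algebraMap K L (a : K)) := by ring
  rw [h3]
  refine lt_of_le_of_lt (W.valuation.map_add _ _) (max_lt ?_ h2)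
  rwa [Valuation.map_neg]

theorem one_le_inertiaDeg_center (W : ValuationSubring L)
    (hW : W.comap (algebraMap K L) = V) : 1 ≤ (center W hW).asIdeal.inertiaDeg V := by
  have := (center W hW).isPrime
  exact Ideal.inertiaDeg_pos _ V

end ValSub

/-! ### Consumer forms: no instance argument, no ideal in the statement -/

section Consumer

variable {K L : Type*} [Field K] [Field L] [Algebra K L] [FiniteDimensional K L] [CharZero K]
  {V : ValuationSubring K}

attribute [local instance] instDedekindIC instFiniteIC instTorsionFreeIC instFractionIC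

/-- **Order of a norm, all residue degrees `1`** (the table of `α` over `v'_∞`: `v_∞` with
`e = 1` and `v_mid` with `e = q - 1`).  Pairwise distinct valuation subrings `W i` of `L` over
`V` with ramification indices `e i` and `[L : K] ≤ ∑ e_i`: then
`ord_V (N_{L/K} u) = ∑ ord_{W i} u`. -/
theorem ord_norm_eq_sum_of_ramified {π : K} (hπ : IsUnif V π)
    {ι : Type*} [Fintype ι] (W : ι → ValuationSubring L)
    (hWV : ∀ i, (W i).comap (algebraMap K L) = V) (hinj : Function.Injective W)
    {ϖ : ι → L} (hϖ : ∀ i, IsUnif (W i) (ϖ i)) (e : ι → ℕ)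
    (he : ∀ i, (W i).valuation (algebraMap K L π) = (W i).valuation (ϖ i) ^ e i)
    (hsum : Module.finrank K L ≤ ∑ i, e i)
    (u : L) (hu : u ≠ 0) (m : ι → ℤ)
    (hm : ∀ i, (W i).valuation u = (W i).valuation (ϖ i) ^ m i)
    (a : ℤ) (ha : V.valuation (Algebra.norm K u) = V.valuation π ^ a) :
    a = ∑ i, m i := by
  have := hπ.isDiscreteValuationRing
  have h := ord_norm_eq_sum_of_table hπ W hWV hinj hϖ e (fun _ => 1) he
    (fun i => one_le_inertiaDeg_center (W i) (hWV i)) (by simpa using hsum) u hu m hm a ha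
  simpa using h

/-- **Order of a norm, one valuation above** (the table of `α` over `v'_0`: only `v_0`, with
`e = 1`, so `f = q`).  If `W` is the only valuation subring of `L` over `V` and has ramification
index `e`, then `e · ord_V (N_{L/K} u) = [L : K] · ord_W u`. -/
theorem ord_norm_eq_of_unique {π : K} (hπ : IsUnif V π) (W : ValuationSubring L)
    (hWV : W.comap (algebraMap K L) = V)
    (hall : ∀ W' : ValuationSubring L, W'.comap (algebraMap K L) = V → W' = W)
    {ϖ : L} (hϖ : IsUnif W ϖ) (e : ℕ)
    (he : W.valuation (algebraMap K L π) = W.valuation ϖ ^ e)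
    (u : L) (hu : u ≠ 0) (m : ℤ) (hm : W.valuation u = W.valuation ϖ ^ m)
    (a : ℤ) (ha : V.valuation (Algebra.norm K u) = V.valuation π ^ a) :
    (e : ℤ) * a = (Module.finrank K L : ℤ) * m := by
  have := hπ.isDiscreteValuationRing
  have hinj : Function.Injective (fun _ : Unit => W) := fun _ _ _ => rfl
  have hall' : ∀ W' : ValuationSubring L, W'.comap (algebraMap K L) = V →
      ∃ i : Unit, W' = (fun _ : Unit => W) i := fun W' hW' => ⟨(), hall W' hW'⟩
  have h1 := sum_ramificationIdx_mul_inertiaDeg (fun _ : Unit => W) (fun _ => hWV) hinj hall'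
  have h2 := ord_norm_eq_sum_inertiaDeg hπ (fun _ : Unit => W) (fun _ => hWV) hinj hall'
    (ϖ := fun _ => ϖ) (fun _ => hϖ) u hu (fun _ => m) (fun _ => hm) a ha
  simp only [Finset.univ_unique, Finset.sum_singleton] at h1 h2
  rw [ramificationIdx_center_eq W hWV hπ hϖ e he] at h1
  rw [h2, ← h1]
  push_cast
  ring

/-- **The purely inseparable leg, uniqueness** (the table of `α` over `v'_0` and of `β` over
`v'_∞`).  `W` over `V` with ramification index `e`, `[L : K] ≤ e q` with `q` prime, and a
witness of residue degree `≥ q`: `a ∈ V` not a `q`-th power modulo the maximal ideal of `V`,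
`y ∈ L` with `y ^ q ≡ a` modulo the maximal ideal of `W` (e.g. `a = j_q`, `y = j_{q²}`).
Then `W` is the only valuation subring of `L` over `V`. -/
theorem unique_of_insep {π : K} (hπ : IsUnif V π) (W : ValuationSubring L)
    (hWV : W.comap (algebraMap K L) = V) {ϖ : L} (hϖ : IsUnif W ϖ) (e : ℕ)
    (he : W.valuation (algebraMap K L π) = W.valuation ϖ ^ e)
    (q : ℕ) (hq : q.Prime) (hdeg : Module.finrank K L ≤ e * q)
    (a : K) (ha : a ∈ V) (hapow : ∀ b : K, b ∈ V → ¬ V.valuation (b ^ q - a) < 1)
    (y : L) (hya : W.valuation (y ^ q - algebraMap K L a) < 1)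
    (W' : ValuationSubring L) (hW' : W'.comap (algebraMap K L) = V) : W' = W := by
  have := hπ.isDiscreteValuationRing
  have hinj : Function.Injective (fun _ : Unit => W) := fun _ _ _ => rfl
  obtain ⟨-, hall⟩ := table_complete hπ (fun _ : Unit => W) (fun _ => hWV) hinj
    (ϖ := fun _ => ϖ) (fun _ => hϖ) (fun _ => e) (fun _ => q) (fun _ => he)
    (fun _ => le_inertiaDeg_center_of_pow W hWV q hq a ha hapow y hya) (by simpa using hdeg)
  obtain ⟨-, h⟩ := hall W' hW'
  exact h

/-- **Order of a norm, the purely inseparable leg**: under the hypotheses of `unique_of_insep`,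
`ord_V (N_{L/K} u) = q · ord_W u`. -/
theorem ord_norm_eq_of_insep {π : K} (hπ : IsUnif V π) (W : ValuationSubring L)
    (hWV : W.comap (algebraMap K L) = V) {ϖ : L} (hϖ : IsUnif W ϖ) (e : ℕ)
    (he : W.valuation (algebraMap K L π) = W.valuation ϖ ^ e)
    (q : ℕ) (hq : q.Prime) (hdeg : Module.finrank K L ≤ e * q)
    (a : K) (ha : a ∈ V) (hapow : ∀ b : K, b ∈ V → ¬ V.valuation (b ^ q - a) < 1)
    (y : L) (hya : W.valuation (y ^ q - algebraMap K L a) < 1)
    (u : L) (hu : u ≠ 0) (m : ℤ) (hm : W.valuation u = W.valuation ϖ ^ m)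
    (c : ℤ) (hc : V.valuation (Algebra.norm K u) = V.valuation π ^ c) :
    c = (q : ℤ) * m := by
  have := hπ.isDiscreteValuationRing
  have hinj : Function.Injective (fun _ : Unit => W) := fun _ _ _ => rfl
  have h := ord_norm_eq_sum_of_table hπ (fun _ : Unit => W) (fun _ => hWV) hinj
    (ϖ := fun _ => ϖ) (fun _ => hϖ) (fun _ => e) (fun _ => q) (fun _ => he)
    (fun _ => le_inertiaDeg_center_of_pow W hWV q hq a ha hapow y hya) (by simpa using hdeg)
    u hu (fun _ => m) (fun _ => hm) c hc
  simpa using h

/-- **Order of a norm, residue models.**  Pairwise distinct valuation subrings `W i` of `L`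
over `V`, with ramification indices `e i` and residue fields given by arbitrary models
`ρ : V ↠ k`, `ρ' i : W i ↠ k' i` (kernels = the maximal ideals, compatible with an algebra
structure `k → k' i`), satisfying `[L : K] ≤ ∑ e_i [k' i : k]`.  Then
`ord_V (N_{L/K} u) = ∑ [k' i : k] · ord_{W i} u`; purely inseparable residue extensions are
allowed. -/
theorem ord_norm_eq_sum_of_residue {π : K} (hπ : IsUnif V π)
    {ι : Type*} [Fintype ι] (W : ι → ValuationSubring L)
    (hWV : ∀ i, (W i).comap (algebraMap K L) = V) (hinj : Function.Injective W)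
    {ϖ : ι → L} (hϖ : ∀ i, IsUnif (W i) (ϖ i)) (e : ι → ℕ)
    (he : ∀ i, (W i).valuation (algebraMap K L π) = (W i).valuation (ϖ i) ^ e i)
    {k : Type*} [Field k] (ρ : V →+* k) (hρ : Function.Surjective ρ)
    (hρker : ∀ x : V, ρ x = 0 ↔ V.valuation (x : K) < 1)
    {k' : ι → Type*} [∀ i, Field (k' i)] [∀ i, Algebra k (k' i)]
    (ρ' : ∀ i, W i →+* k' i) (hρ' : ∀ i, Function.Surjective (ρ' i))
    (hρ'ker : ∀ i (x : W i), ρ' i x = 0 ↔ (W i).valuation (x : L) < 1)
    (hcompat : ∀ i (x : V) (hx : algebraMap K L (x : K) ∈ W i),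
      ρ' i ⟨algebraMap K L (x : K), hx⟩ = algebraMap k (k' i) (ρ x))
    (hsum : Module.finrank K L ≤ ∑ i, e i * Module.finrank k (k' i))
    (u : L) (hu : u ≠ 0) (m : ι → ℤ)
    (hm : ∀ i, (W i).valuation u = (W i).valuation (ϖ i) ^ m i)
    (a : ℤ) (ha : V.valuation (Algebra.norm K u) = V.valuation π ^ a) :
    a = ∑ i, (Module.finrank k (k' i) : ℤ) * m i := by
  have := hπ.isDiscreteValuationRing
  exact ord_norm_eq_sum_of_table hπ W hWV hinj hϖ e (fun i => Module.finrank k (k' i)) he
    (fun i => (inertiaDeg_center_eq_finrank (W i) (hWV i) ρ hρ hρker (ρ' i) (hρ' i)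
      (hρ'ker i) (hcompat i)).ge) hsum u hu m hm a ha

/-- Completeness of a table in consumer form: the `W i` are all the valuation subrings of `L`
over `V` as soon as `[L : K] ≤ ∑ e_i` (any residue degrees). -/
theorem exists_eq_of_finrank_le_sum {π : K} (hπ : IsUnif V π)
    {ι : Type*} [Fintype ι] (W : ι → ValuationSubring L)
    (hWV : ∀ i, (W i).comap (algebraMap K L) = V) (hinj : Function.Injective W)
    {ϖ : ι → L} (hϖ : ∀ i, IsUnif (W i) (ϖ i)) (e : ι → ℕ)
    (he : ∀ i, (W i).valuation (algebraMap K L π) = (W i).valuation (ϖ i) ^ e i)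
    (hsum : Module.finrank K L ≤ ∑ i, e i)
    (W' : ValuationSubring L) (hW' : W'.comap (algebraMap K L) = V) : ∃ i, W' = W i := by
  have := hπ.isDiscreteValuationRing
  exact (table_complete hπ W hWV hinj hϖ e (fun _ => 1) he
    (fun i => one_le_inertiaDeg_center (W i) (hWV i)) (by simpa using hsum)).2 W' hW'

/-- **Order of a norm, two valuations above with residue degrees `1`** (explicit form of
`ord_norm_eq_sum_of_ramified`; the legs `α` over `v'_∞` with `(W₀, W₁) = (V_∞, V_mid)` and
`β` over `v'_0` with `(W₀, W₁) = (V_0, V_mid)`, `(e₀, e₁) = (1, q - 1)`). -/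
theorem ord_norm_eq_add_of_ramified {π : K} (hπ : IsUnif V π) (W₀ W₁ : ValuationSubring L)
    (h₀ : W₀.comap (algebraMap K L) = V) (h₁ : W₁.comap (algebraMap K L) = V) (hne : W₀ ≠ W₁)
    {ϖ₀ ϖ₁ : L} (hϖ₀ : IsUnif W₀ ϖ₀) (hϖ₁ : IsUnif W₁ ϖ₁) (e₀ e₁ : ℕ)
    (he₀ : W₀.valuation (algebraMap K L π) = W₀.valuation ϖ₀ ^ e₀)
    (he₁ : W₁.valuation (algebraMap K L π) = W₁.valuation ϖ₁ ^ e₁)
    (hsum : Module.finrank K L ≤ e₀ + e₁)
    (u : L) (hu : u ≠ 0) (m₀ m₁ : ℤ)
    (hm₀ : W₀.valuation u = W₀.valuation ϖ₀ ^ m₀) (hm₁ : W₁.valuation u = W₁.valuation ϖ₁ ^ m₁)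
    (a : ℤ) (ha : V.valuation (Algebra.norm K u) = V.valuation π ^ a) :
    a = m₀ + m₁ := by
  have hinj : Function.Injective (fun b : Bool => cond b W₁ W₀) := by
    intro b b' h
    cases b <;> cases b' <;> first | rfl | exact absurd h hne | exact absurd h.symm hne
  have h := ord_norm_eq_sum_of_ramified hπ (fun b : Bool => cond b W₁ W₀)
    (fun b => by cases b; exacts [h₀, h₁]) hinj (ϖ := fun b => cond b ϖ₁ ϖ₀)
    (fun b => by cases b; exacts [hϖ₀, hϖ₁]) (fun b => cond b e₁ e₀)
    (fun b => by cases b; exacts [he₀, he₁])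
    (by rw [Fintype.sum_bool]; simpa [add_comm] using hsum)
    u hu (fun b => cond b m₁ m₀) (fun b => by cases b; exacts [hm₀, hm₁]) a ha
  rw [h, Fintype.sum_bool]
  simp [add_comm]

/-- Completeness for two valuations above (explicit form of `exists_eq_of_finrank_le_sum`):
`W₀, W₁` are the only valuation subrings of `L` over `V` as soon as `[L : K] ≤ e₀ + e₁`. -/
theorem eq_or_eq_of_finrank_le_add {π : K} (hπ : IsUnif V π) (W₀ W₁ : ValuationSubring L)
    (h₀ : W₀.comap (algebraMap K L) = V) (h₁ : W₁.comap (algebraMap K L) = V) (hne : W₀ ≠ W₁)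
    {ϖ₀ ϖ₁ : L} (hϖ₀ : IsUnif W₀ ϖ₀) (hϖ₁ : IsUnif W₁ ϖ₁) (e₀ e₁ : ℕ)
    (he₀ : W₀.valuation (algebraMap K L π) = W₀.valuation ϖ₀ ^ e₀)
    (he₁ : W₁.valuation (algebraMap K L π) = W₁.valuation ϖ₁ ^ e₁)
    (hsum : Module.finrank K L ≤ e₀ + e₁)
    (W' : ValuationSubring L) (hW' : W'.comap (algebraMap K L) = V) : W' = W₀ ∨ W' = W₁ := by
  have hinj : Function.Injective (fun b : Bool => cond b W₁ W₀) := by
    intro b b' h
    cases b <;> cases b' <;> first | rfl | exact absurd h hne | exact absurd h.symm hne
  obtain ⟨b, hb⟩ := exists_eq_of_finrank_le_sum hπ (fun b : Bool => cond b W₁ W₀)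
    (fun b => by cases b; exacts [h₀, h₁]) hinj (ϖ := fun b => cond b ϖ₁ ϖ₀)
    (fun b => by cases b; exacts [hϖ₀, hϖ₁]) (fun b => cond b e₁ e₀)
    (fun b => by cases b; exacts [he₀, he₁])
    (by rw [Fintype.sum_bool]; simpa [add_comm] using hsum) W' hW'
  cases b
  · exact Or.inl hb
  · exact Or.inr hb

/-- **Residue degree one in lifted form, from a table**: under the hypotheses of
`ord_norm_eq_sum_of_ramified` (`[L : K] ≤ ∑ e_i`), every element of `W i` is congruent modulo
the maximal ideal of `W i` to an element of `V`. -/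
theorem exists_lift_of_ramified {π : K} (hπ : IsUnif V π)
    {ι : Type*} [Fintype ι] (W : ι → ValuationSubring L)
    (hWV : ∀ i, (W i).comap (algebraMap K L) = V) (hinj : Function.Injective W)
    {ϖ : ι → L} (hϖ : ∀ i, IsUnif (W i) (ϖ i)) (e : ι → ℕ)
    (he : ∀ i, (W i).valuation (algebraMap K L π) = (W i).valuation (ϖ i) ^ e i)
    (hsum : Module.finrank K L ≤ ∑ i, e i) (i : ι) (x : L) (hx : x ∈ W i) :
    ∃ a : K, a ∈ V ∧ (W i).valuation (x - algebraMap K L a) < 1 := by
  have := hπ.isDiscreteValuationRing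
  have h := (table_complete hπ W hWV hinj hϖ e (fun _ => 1) he
    (fun i => one_le_inertiaDeg_center (W i) (hWV i)) (by simpa using hsum)).1 i
  exact exists_lift_of_inertiaDeg_eq_one (W i) (hWV i) h x hx

/-- Explicit two-valuation form of `exists_lift_of_ramified` (the fields `lift_a`, `lift_m` of a
degeneracy datum). -/
theorem exists_lift_of_ramified_two {π : K} (hπ : IsUnif V π) (W₀ W₁ : ValuationSubring L)
    (h₀ : W₀.comap (algebraMap K L) = V) (h₁ : W₁.comap (algebraMap K L) = V) (hne : W₀ ≠ W₁)
    {ϖ₀ ϖ₁ : L} (hϖ₀ : IsUnif W₀ ϖ₀) (hϖ₁ : IsUnif W₁ ϖ₁) (e₀ e₁ : ℕ)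
    (he₀ : W₀.valuation (algebraMap K L π) = W₀.valuation ϖ₀ ^ e₀)
    (he₁ : W₁.valuation (algebraMap K L π) = W₁.valuation ϖ₁ ^ e₁)
    (hsum : Module.finrank K L ≤ e₀ + e₁) :
    (∀ x : L, x ∈ W₀ → ∃ a : K, a ∈ V ∧ W₀.valuation (x - algebraMap K L a) < 1) ∧
      (∀ x : L, x ∈ W₁ → ∃ a : K, a ∈ V ∧ W₁.valuation (x - algebraMap K L a) < 1) := by
  have hinj : Function.Injective (fun b : Bool => cond b W₁ W₀) := by
    intro b b' h
    cases b <;> cases b' <;> first | rfl | exact absurd h hne | exact absurd h.symm hne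
  have key := exists_lift_of_ramified hπ (fun b : Bool => cond b W₁ W₀)
    (fun b => by cases b; exacts [h₀, h₁]) hinj (ϖ := fun b => cond b ϖ₁ ϖ₀)
    (fun b => by cases b; exacts [hϖ₀, hϖ₁]) (fun b => cond b e₁ e₀)
    (fun b => by cases b; exacts [he₀, he₁])
    (by rw [Fintype.sum_bool]; simpa [add_comm] using hsum)
  exact ⟨fun x hx => key false x hx, fun x hx => key true x hx⟩

end Consumer

end Fermat.Agent.S36.helper6205
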