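/-
S36 (route #3001): the VALUATION FIELDS of a degeneracy datum (`ord_split`, `ord_insep`, `lift_a`,
`lift_m` of `helper36.DegData`) FROM TABLE DATA, in the order-function vocabulary
(`helper1013.IsOrd` + membership), by the order-of-a-norm formula of `helper6205_OrdNorm`.

No residue field, no completeness hypothesis, no norm-product formula: the inputs are the
incidence (`mem_a`, `mem_m`, `mem_b`), the orders `(1, q - 1, 1)` of the uniformiser, the degree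
`≤ q`, `Va ≠ Vm`, and ONE witness `(a, y)` of the purely inseparable residue extension.
-/
import Fermat.Agent.S36.helper1013_Vertical
import Fermat.Agent.S36.helper6205_OrdNorm

set_option autoImplicit false

namespace Fermat.Agent.S36.helper6205

open Fermat.Agent.S36.helper1013 (IsOrd)

section Bridge

variable {F : Type*} [Field F]

/-- For an order function of a valuation subring and a normalised element `ϖ`, the element
`y * ϖ ^ (-ord y)` is a unit of the subring. -/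
theorem isOrd_unit_mul_zpow (V : ValuationSubring F) (ord : F → ℤ) (hord : IsOrd ord)
    (hmem : ∀ y : F, y ≠ 0 → (y ∈ V ↔ 0 ≤ ord y)) {ϖ : F} (hϖ0 : ϖ ≠ 0) (hϖ : ord ϖ = 1)
    {y : F} (hy : y ≠ 0) :
    y * ϖ ^ (-(ord y)) ∈ V ∧ (y * ϖ ^ (-(ord y)))⁻¹ ∈ V := by
  have hz : ϖ ^ (-(ord y)) ≠ 0 := zpow_ne_zero _ hϖ0
  have hyz : y * ϖ ^ (-(ord y)) ≠ 0 := mul_ne_zero hy hz
  have h0 : ord (y * ϖ ^ (-(ord y))) = 0 := by
    rw [hord.map_mul _ _ hy hz, hord.map_zpow hϖ0, hϖ]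
    ring
  refine ⟨(hmem _ hyz).mpr h0.ge, (hmem _ (inv_ne_zero hyz)).mpr ?_⟩
  rw [hord.map_inv hyz, h0]
  simp

/-- An order function of a valuation subring together with a normalised element is a
uniformiser datum `IsUnif`. -/
theorem isUnif_of_isOrd (V : ValuationSubring F) (ord : F → ℤ) (hord : IsOrd ord)
    (hmem : ∀ y : F, y ≠ 0 → (y ∈ V ↔ 0 ≤ ord y)) {ϖ : F} (hϖ0 : ϖ ≠ 0) (hϖ : ord ϖ = 1) :
    IsUnif V ϖ := by
  refine IsUnif.of_mem ((hmem ϖ hϖ0).mpr (by omega)) (fun h => ?_) (fun x hx => ?_)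
  · have h1 := (hmem ϖ⁻¹ (inv_ne_zero hϖ0)).mp h
    rw [hord.map_inv hϖ0] at h1
    omega
  · obtain ⟨h1, h2⟩ := isOrd_unit_mul_zpow V ord hord hmem hϖ0 hϖ hx
    exact ⟨ord x, mul_ne_zero hx (zpow_ne_zero _ hϖ0), h1, h2⟩

/-- `V.valuation y = V.valuation ϖ ^ ord y`. -/
theorem valuation_eq_zpow_ord (V : ValuationSubring F) (ord : F → ℤ) (hord : IsOrd ord)
    (hmem : ∀ y : F, y ≠ 0 → (y ∈ V ↔ 0 ≤ ord y)) {ϖ : F} (hϖ0 : ϖ ≠ 0) (hϖ : ord ϖ = 1)
    {y : F} (hy : y ≠ 0) : V.valuation y = V.valuation ϖ ^ ord y :=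
  (IsUnif.valuation_eq_zpow_iff_mem hϖ0 hy (ord y)).mpr
    (isOrd_unit_mul_zpow V ord hord hmem hϖ0 hϖ hy)

end Bridge

/-- **The valuation fields of one degeneracy map from table data.**

`ψ : F' → F` of degree `≤ q` (`q` prime) with norm `Nm`; above `V1` lie `Va` (`e = 1`) and `Vm`
(`e = q - 1`), above `V2` lies `Vb` (`e = 1`), in the sense of the incidence fields `mem_a`,
`mem_m`, `mem_b`; all five carry order functions (`IsOrd` + membership, normalised), `π'` is a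
common uniformiser of `V1, V2` whose image has orders `(1, q - 1, 1)`, `Va ≠ Vm`, and `(a, y)`
witnesses the inseparable residue extension of `Vb` over `V2` (`a` is not a `q`-th power modulo
`𝔪(V2)`, `y ^ q ≡ ψ a` modulo `𝔪(Vb)`).  CONCLUSIONS, verbatim the fields `ord_split`,
`ord_insep`, `lift_a`, `lift_m` of `helper36.DegData`. -/
theorem deg_ord_fields {F' F : Type*} [Field F'] [Field F] [CharZero F'] (ψ : F' →+* F)
    (Nm : F →* F') (hNm : ∀ h : F, Nm h = (letI := ψ.toAlgebra; Algebra.norm F' h))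
    (hfin : letI := ψ.toAlgebra; FiniteDimensional F' F) (q : ℕ) (hq : q.Prime)
    (hdeg : letI := ψ.toAlgebra; Module.finrank F' F ≤ q)
    (Va Vm Vb : ValuationSubring F) (V1 V2 : ValuationSubring F')
    (orda ordm ordb : F → ℤ) (ord1 ord2 : F' → ℤ)
    (horda : IsOrd orda) (hordm : IsOrd ordm) (hordb : IsOrd ordb)
    (hord1 : IsOrd ord1) (hord2 : IsOrd ord2)
    (hVa : ∀ y : F, y ≠ 0 → (y ∈ Va ↔ 0 ≤ orda y))
    (hVm : ∀ y : F, y ≠ 0 → (y ∈ Vm ↔ 0 ≤ ordm y))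
    (hVb : ∀ y : F, y ≠ 0 → (y ∈ Vb ↔ 0 ≤ ordb y))
    (hV1 : ∀ y : F', y ≠ 0 → (y ∈ V1 ↔ 0 ≤ ord1 y))
    (hV2 : ∀ y : F', y ≠ 0 → (y ∈ V2 ↔ 0 ≤ ord2 y))
    (hsa : ∃ y : F, y ≠ 0 ∧ orda y = 1) (hsm : ∃ y : F, y ≠ 0 ∧ ordm y = 1)
    (hsb : ∃ y : F, y ≠ 0 ∧ ordb y = 1)
    (mem_a : ∀ a : F', ψ a ∈ Va ↔ a ∈ V1) (mem_m : ∀ a : F', ψ a ∈ Vm ↔ a ∈ V1)
    (mem_b : ∀ a : F', ψ a ∈ Vb ↔ a ∈ V2) (hne : Va ≠ Vm)
    (π' : F') (hπ0 : π' ≠ 0) (hπ1 : ord1 π' = 1) (hπ2 : ord2 π' = 1)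
    (hπa : orda (ψ π') = 1) (hπm : ordm (ψ π') = (q : ℤ) - 1) (hπb : ordb (ψ π') = 1)
    (a : F') (ha : a ∈ V2) (hapow : ∀ b : F', b ∈ V2 → b ^ q - a ∉ V2.nonunits)
    (y : F) (hy : y ^ q - ψ a ∈ Vb.nonunits) :
    (∀ h : F, h ≠ 0 → ord1 (Nm h) = orda h + ordm h) ∧
      (∀ h : F, h ≠ 0 → ord2 (Nm h) = (q : ℤ) * ordb h) ∧
      (∀ h : F, h ∈ Va → ∃ a : F', a ∈ V1 ∧ ψ a - h ∈ Va.nonunits) ∧
      (∀ h : F, h ∈ Vm → ∃ a : F', a ∈ V1 ∧ ψ a - h ∈ Vm.nonunits) := by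
  let _ := ψ.toAlgebra
  have : FiniteDimensional F' F := hfin
  have hψ : algebraMap F' F = ψ := RingHom.algebraMap_toAlgebra ψ
  obtain ⟨ϖa, hϖa0, hϖa⟩ := hsa
  obtain ⟨ϖm, hϖm0, hϖm⟩ := hsm
  obtain ⟨ϖb, hϖb0, hϖb⟩ := hsb
  have hψπ0 : ψ π' ≠ 0 := (map_ne_zero ψ).mpr hπ0
  have hU1 : IsUnif V1 π' := isUnif_of_isOrd V1 ord1 hord1 hV1 hπ0 hπ1
  have hU2 : IsUnif V2 π' := isUnif_of_isOrd V2 ord2 hord2 hV2 hπ0 hπ2
  have hUa : IsUnif Va ϖa := isUnif_of_isOrd Va orda horda hVa hϖa0 hϖa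
  have hUm : IsUnif Vm ϖm := isUnif_of_isOrd Vm ordm hordm hVm hϖm0 hϖm
  have hUb : IsUnif Vb ϖb := isUnif_of_isOrd Vb ordb hordb hVb hϖb0 hϖb
  have hca : Va.comap (algebraMap F' F) = V1 := by
    ext x; rw [ValuationSubring.mem_comap, hψ]; exact mem_a x
  have hcm : Vm.comap (algebraMap F' F) = V1 := by
    ext x; rw [ValuationSubring.mem_comap, hψ]; exact mem_m x
  have hcb : Vb.comap (algebraMap F' F) = V2 := by
    ext x; rw [ValuationSubring.mem_comap, hψ]; exact mem_b x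
  have h1q : 1 ≤ q := hq.one_lt.le
  have hea : Va.valuation (algebraMap F' F π') = Va.valuation ϖa ^ 1 := by
    rw [hψ, valuation_eq_zpow_ord Va orda horda hVa hϖa0 hϖa hψπ0, hπa, zpow_one, pow_one]
  have hem : Vm.valuation (algebraMap F' F π') = Vm.valuation ϖm ^ (q - 1) := by
    rw [hψ, valuation_eq_zpow_ord Vm ordm hordm hVm hϖm0 hϖm hψπ0, hπm, ← zpow_natCast,
      Nat.cast_sub h1q, Nat.cast_one]
  have heb : Vb.valuation (algebraMap F' F π') = Vb.valuation ϖb ^ 1 := by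
    rw [hψ, valuation_eq_zpow_ord Vb ordb hordb hVb hϖb0 hϖb hψπ0, hπb, zpow_one, pow_one]
  have hsum : Module.finrank F' F ≤ 1 + (q - 1) := by omega
  have hN0 : ∀ h : F, h ≠ 0 → Algebra.norm F' h ≠ 0 := fun h hh =>
    Algebra.norm_ne_zero_iff.mpr hh
  have hNm' : ∀ h : F, Nm h = Algebra.norm F' h := hNm
  refine ⟨fun h hh => ?_, fun h hh => ?_, ?_⟩
  · rw [hNm']
    exact ord_norm_eq_add_of_ramified (K := F') (L := F) hU1 Va Vm hca hcm hne hUa hUm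
      1 (q - 1) hea hem hsum h hh (orda h) (ordm h)
      (valuation_eq_zpow_ord Va orda horda hVa hϖa0 hϖa hh)
      (valuation_eq_zpow_ord Vm ordm hordm hVm hϖm0 hϖm hh) _
      (valuation_eq_zpow_ord V1 ord1 hord1 hV1 hπ0 hπ1 (hN0 h hh))
  · rw [hNm']
    exact ord_norm_eq_of_insep (K := F') (L := F) hU2 Vb hcb hUb 1 heb q hq
      (by simpa using hdeg) a ha
      (fun b hb hlt => hapow b hb hlt) y
      (by rw [hψ]; exact hy) h hh (ordb h)
      (valuation_eq_zpow_ord Vb ordb hordb hVb hϖb0 hϖb hh) _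
      (valuation_eq_zpow_ord V2 ord2 hord2 hV2 hπ0 hπ2 (hN0 h hh))
  · obtain ⟨la, lm⟩ := exists_lift_of_ramified_two (K := F') (L := F) hU1 Va Vm hca hcm hne
      hUa hUm 1 (q - 1) hea hem hsum
    constructor
    · intro h hh
      obtain ⟨a, haV, hlt⟩ := la h hh
      refine ⟨a, haV, ?_⟩
      rw [hψ] at hlt
      change Va.valuation (ψ a - h) < 1
      rw [← Valuation.map_neg, neg_sub]
      exact hlt
    · intro h hh
      obtain ⟨a, haV, hlt⟩ := lm h hh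
      refine ⟨a, haV, ?_⟩
      rw [hψ] at hlt
      change Vm.valuation (ψ a - h) < 1
      rw [← Valuation.map_neg, neg_sub]
      exact hlt

/-- **The valuation fields of a degeneracy map, in the indexing of `helper36.KillData`.**

`V : Fin 3 → ValuationSubring F`, `V' : Fin 2 → ValuationSubring F'` with order functions
`ord`, `ord'` as in `KillData` (fields `hord`, `hord'`, `mem_V`, `mem_V'`, `ord_surj`, `ord_ind`,
`ord'_q`); a degeneracy map `ψ` (as a ring homomorphism: coerce the `K`-algebra map) of degree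
`≤ q` with norm `Nm`; indices `(ia, im, ib; i1, i2)` — `(0, 1, 2; 0, 1)` for `α` and
`(2, 1, 0; 1, 0)` for `β` — with the incidence fields `mem_a`, `mem_m`, `mem_b` and the orders
`1, q - 1, 1` of `q` at `V ia, V im, V ib` (fields `ord_q0/1/2`); one witness `(a, y)` of the
inseparable leg.  CONCLUSIONS: the fields `ord_split`, `ord_insep`, `lift_a`, `lift_m` of
`helper36.DegData q ψ Nm (V ia) (V im) (V ib) (V' i1) (V' i2) (ord ia) (ord im) (ord ib)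
(ord' i1) (ord' i2) _ _`, verbatim. -/
theorem deg_ord_fields_fin {F' F : Type*} [Field F'] [Field F] [CharZero F'] (ψ : F' →+* F)
    (Nm : F →* F') (hNm : ∀ h : F, Nm h = (letI := ψ.toAlgebra; Algebra.norm F' h))
    (hfin : letI := ψ.toAlgebra; FiniteDimensional F' F) (q : ℕ) (hq : q.Prime)
    (hdeg : letI := ψ.toAlgebra; Module.finrank F' F ≤ q)
    (V : Fin 3 → ValuationSubring F) (V' : Fin 2 → ValuationSubring F')
    (ord : Fin 3 → F → ℤ) (ord' : Fin 2 → F' → ℤ)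
    (hord : ∀ c, IsOrd (ord c)) (hord' : ∀ c, IsOrd (ord' c))
    (mem_V : ∀ (c : Fin 3) (y : F), y ≠ 0 → (y ∈ V c ↔ 0 ≤ ord c y))
    (mem_V' : ∀ (c : Fin 2) (y : F'), y ≠ 0 → (y ∈ V' c ↔ 0 ≤ ord' c y))
    (ord_surj : ∀ c, ∃ y : F, y ≠ 0 ∧ ord c y = 1)
    (ord_ind : ∀ i j, i ≠ j → ∃ y : F, y ≠ 0 ∧ 0 ≤ ord i y ∧ ord j y < 0)
    (ord'_q : ∀ c, ord' c (q : F') = 1)
    (ia im ib : Fin 3) (i1 i2 : Fin 2) (ham : ia ≠ im)
    (hqa : ord ia (q : F) = 1) (hqm : ord im (q : F) = (q : ℤ) - 1) (hqb : ord ib (q : F) = 1)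
    (mem_a : ∀ a : F', ψ a ∈ V ia ↔ a ∈ V' i1) (mem_m : ∀ a : F', ψ a ∈ V im ↔ a ∈ V' i1)
    (mem_b : ∀ a : F', ψ a ∈ V ib ↔ a ∈ V' i2)
    (a : F') (ha : a ∈ V' i2) (hapow : ∀ b : F', b ∈ V' i2 → b ^ q - a ∉ (V' i2).nonunits)
    (y : F) (hy : y ^ q - ψ a ∈ (V ib).nonunits) :
    (∀ h : F, h ≠ 0 → ord' i1 (Nm h) = ord ia h + ord im h) ∧
      (∀ h : F, h ≠ 0 → ord' i2 (Nm h) = (q : ℤ) * ord ib h) ∧
      (∀ h : F, h ∈ V ia → ∃ a : F', a ∈ V' i1 ∧ ψ a - h ∈ (V ia).nonunits) ∧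
      (∀ h : F, h ∈ V im → ∃ a : F', a ∈ V' i1 ∧ ψ a - h ∈ (V im).nonunits) := by
  have hq0 : (q : F') ≠ 0 := Nat.cast_ne_zero.mpr hq.ne_zero
  have hne : V ia ≠ V im := by
    obtain ⟨z, hz0, hz1, hz2⟩ := ord_ind ia im ham
    intro h
    have h1 : z ∈ V ia := (mem_V ia z hz0).mpr hz1
    rw [h] at h1
    have := (mem_V im z hz0).mp h1
    omega
  exact deg_ord_fields ψ Nm hNm hfin q hq hdeg (V ia) (V im) (V ib) (V' i1) (V' i2)
    (ord ia) (ord im) (ord ib) (ord' i1) (ord' i2) (hord ia) (hord im) (hord ib)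
    (hord' i1) (hord' i2) (mem_V ia) (mem_V im) (mem_V ib) (mem_V' i1) (mem_V' i2)
    (ord_surj ia) (ord_surj im) (ord_surj ib) mem_a mem_m mem_b hne (q : F') hq0
    (ord'_q i1) (ord'_q i2) (by rw [map_natCast]; exact hqa) (by rw [map_natCast]; exact hqm)
    (by rw [map_natCast]; exact hqb) a ha hapow y hy

end Fermat.Agent.S36.helper6205
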