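/-
S36 (route #3001): THE WITNESS OF THE PURELY INSEPARABLE LEG at the Gauss valuation rings of the
modular function fields (any coefficient field `L` with a valuation subring `A` and a reduction
`π : A →+* k`, `char k = q`), and its formal transports (Atkin–Lehner / restriction of scalars).

`β` over `v'_∞`:  `a := j ∈ gaussF N`, `y := j ∈ F(N q)`:
* no `b ∈ gaussF N` has `b ^ q ≡ j` (the reduction of `j` has a simple pole),
* `j ^ q ≡ β j = j(t^q)` modulo the maximal ideal of `gaussF (N q)` (Frobenius).

These are the hypotheses `ha`, `hapow`, `hy` of `helper6205.deg_ord_fields_fin` /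
`ord_norm_eq_of_insep` / `unique_of_insep`.
-/
import Fermat.Agent.S18.helper8991_GaussInst
import Fermat.Agent.Lib.helper7516_LaurentFrob
import Fermat.Prelude.Def_ModularCurve_HeckeOperator

set_option autoImplicit false

namespace Fermat.Agent.S36.helper6205

open ModularCurve

/-! ### Formal transports of a witness -/

section Formal

variable {F' F : Type*} [Field F'] [Field F]

/-- Non-units of a pulled-back valuation subring. -/
theorem mem_nonunits_comap_iff {E : Type*} [Field E] (f : E →+* F) (B : ValuationSubring F)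
    (x : E) : x ∈ (B.comap f).nonunits ↔ f x ∈ B.nonunits := by
  rw [ValuationSubring.mem_nonunits_iff_or, ValuationSubring.mem_nonunits_iff_or,
    ValuationSubring.mem_comap, map_inv₀, map_eq_zero]

/-- **Atkin–Lehner transport of the witness**: from a witness `(a, y)` for `β` at
`(Vinf', Vinf)` to the witness `(W' a, W y)` for `α` at `(Vinf'.comap W', Vinf.comap W)`,
given involutions with `W ∘ α = β ∘ W'`. -/
theorem insep_witness_transport (α β : F' →+* F) (W : F →+* F) (W' : F' →+* F')
    (hW : ∀ x, W (W x) = x) (hW' : ∀ x, W' (W' x) = x) (hWα : ∀ x, W (α x) = β (W' x))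
    (Vinf' : ValuationSubring F') (Vinf : ValuationSubring F) (q : ℕ)
    (a : F') (ha : a ∈ Vinf') (hapow : ∀ b : F', b ∈ Vinf' → b ^ q - a ∉ Vinf'.nonunits)
    (y : F) (hy : y ^ q - β a ∈ Vinf.nonunits) :
    W' a ∈ Vinf'.comap W' ∧
      (∀ b : F', b ∈ Vinf'.comap W' → b ^ q - W' a ∉ (Vinf'.comap W').nonunits) ∧
      (W y) ^ q - α (W' a) ∈ (Vinf.comap W).nonunits := by
  refine ⟨?_, fun b hb h => ?_, ?_⟩
  · rw [ValuationSubring.mem_comap, hW']
    exact ha
  · rw [mem_nonunits_comap_iff, map_sub, map_pow, hW'] at h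
    exact hapow (W' b) (ValuationSubring.mem_comap.mp hb) h
  · rw [mem_nonunits_comap_iff, map_sub, map_pow, hW, hWα, hW']
    exact hy

/-- **Restriction of the witness** along compatible embeddings `ι' : E' → F'`, `ι : E → F`
(e.g. from the function fields over `K = ℚ̄^I` to those over `ℚ̄`): a witness `(ι' a, ι y)` for
`ψ` at `(V', V)` gives the witness `(a, y)` for `φ` at `(V'.comap ι', V.comap ι)`. -/
theorem insep_witness_comap {E' E : Type*} [Field E'] [Field E] (φ : E' →+* E) (ψ : F' →+* F)
    (ι' : E' →+* F') (ι : E →+* F) (hι : ∀ x, ι (φ x) = ψ (ι' x))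
    (V' : ValuationSubring F') (V : ValuationSubring F) (q : ℕ)
    (a : E') (ha : ι' a ∈ V') (hapow : ∀ b : F', b ∈ V' → b ^ q - ι' a ∉ V'.nonunits)
    (y : E) (hy : (ι y) ^ q - ψ (ι' a) ∈ V.nonunits) :
    a ∈ V'.comap ι' ∧
      (∀ b : E', b ∈ V'.comap ι' → b ^ q - a ∉ (V'.comap ι').nonunits) ∧
      y ^ q - φ a ∈ (V.comap ι).nonunits := by
  refine ⟨ValuationSubring.mem_comap.mpr ha, fun b hb h => ?_, ?_⟩
  · rw [mem_nonunits_comap_iff, map_sub, map_pow] at h
    exact hapow (ι' b) (ValuationSubring.mem_comap.mp hb) h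
  · rw [mem_nonunits_comap_iff, map_sub, map_pow, hι]
    exact hy

end Formal

/-! ### The witness at the Gauss rings -/

section Gauss

open Fermat.Agent.S18.helper8991

variable {L : Type*} [Field L] [Algebra ℚ L] (A : ValuationSubring L) {k : Type*} [Field k]
  (π : A →+* k)

/-- The order of `j` in `k((t))` is `-1`. -/
theorem order_jqModC_eq (κ : Type*) [Field κ] : (jqModC κ).order = -1 := by
  have h1 : (jqModC κ).coeff (-1) ≠ 0 := by rw [coeff_jqModC_neg_one]; exact one_ne_zero
  refine le_antisymm (HahnSeries.order_le_of_coeff_ne_zero h1) ?_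
  rw [HahnSeries.le_order_iff_forall (jqModC_ne_zero_of_nontrivial κ)]
  intro i hi
  exact coeff_jqModC_of_lt κ hi

/-- `j` is not a `q`-th power in `k((t))` for `q ≥ 2`. -/
theorem pow_ne_jqModC (κ : Type*) [Field κ] (q : ℕ) (hq : 2 ≤ q) (x : LaurentSeries κ) :
    x ^ q ≠ jqModC κ := by
  intro h
  have h1 := congrArg HahnSeries.order h
  rw [HahnSeries.order_pow, order_jqModC_eq, nsmul_eq_mul] at h1
  have h2 : (q : ℤ) ∣ 1 := ⟨-x.order, by linarith⟩
  have h3 := Int.le_of_dvd one_pos h2
  omega

variable (L) in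
/-- `j` lies in the function field of every level. -/
theorem jqModC_mem_laurentBaseChange_full (N : ℕ) [NeZero N] :
    jqModC L ∈ laurentBaseChange L (modularFunctionFieldFull N) :=
  (mem_laurentBaseChange_full_iff N).mpr (jqModC_mem_full L N)

variable (L) in
/-- `j` as an element of the function field of level `N` over `L`. -/
noncomputable def jElt (N : ℕ) [NeZero N] : ↥(laurentBaseChange L (modularFunctionFieldFull N)) :=
  ⟨jqModC L, jqModC_mem_laurentBaseChange_full L N⟩

omit [Algebra ℚ L] in
theorem inc_jqModC : inc A (jqModC A) = jqModC L := coeffMap_jqModC _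

omit [Algebra ℚ L] in
theorem red_jqModC : red A π (jqModC A) = jqModC k := coeffMap_jqModC _

/-- `j` is Gauss-integral. -/
theorem jElt_mem_gaussF (N : ℕ) [NeZero N] : jElt L N ∈ gaussF A π N := by
  have h : inc A (jqModC A) ∈ laurentBaseChange L (modularFunctionFieldFull N) := by
    rw [inc_jqModC A]; exact jqModC_mem_laurentBaseChange_full L N
  have h2 := inc_mem_gaussF A π N h
  have h3 : (⟨inc A (jqModC A), h⟩ : ↥(laurentBaseChange L (modularFunctionFieldFull N))) =
      jElt L N := Subtype.ext (inc_jqModC A)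
  rwa [h3] at h2

/-- The reduction of `j` is `j`. -/
theorem gaussFRed_jElt (N : ℕ) [NeZero N] :
    gaussFRed A π N ⟨jElt L N, jElt_mem_gaussF A π N⟩ = jqModC k := by
  have h : inc A (jqModC A) ∈ laurentBaseChange L (modularFunctionFieldFull N) := by
    rw [inc_jqModC A]; exact jqModC_mem_laurentBaseChange_full L N
  have h2 := gaussFRed_inc A π N h
  rw [red_jqModC A π] at h2
  rw [← h2]
  congr 1
  exact Subtype.ext (Subtype.ext (inc_jqModC A).symm)

/-- Membership in the non-units of `gaussF` in terms of the reduction. -/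
theorem mem_nonunits_gaussF_iff (N : ℕ) (f : ↥(gaussF A π N)) :
    (f : ↥(laurentBaseChange L (modularFunctionFieldFull N))) ∈ (gaussF A π N).nonunits ↔
      gaussFRed A π N f = 0 := by
  rw [gaussFRed_eq_zero_iff, ValuationSubring.mem_nonunits_iff_exists_mem_maximalIdeal]
  exact ⟨fun ⟨_, h⟩ => h, fun h => ⟨f.2, h⟩⟩

/-- **(W1)** `j` is not a `q`-th power modulo the maximal ideal of the Gauss ring. -/
theorem not_pow_sub_jElt_mem_nonunits (N : ℕ) [NeZero N] (q : ℕ) (hq : 2 ≤ q)
    (b : ↥(laurentBaseChange L (modularFunctionFieldFull N))) (hb : b ∈ gaussF A π N) :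
    b ^ q - jElt L N ∉ (gaussF A π N).nonunits := by
  intro h
  have h1 := (mem_nonunits_gaussF_iff A π N
    ((⟨b, hb⟩ : ↥(gaussF A π N)) ^ q - ⟨jElt L N, jElt_mem_gaussF A π N⟩)).mp h
  rw [map_sub, map_pow, gaussFRed_jElt, sub_eq_zero] at h1
  exact pow_ne_jqModC k q hq _ h1

/-- **(W2)** `j ^ q ≡ β j = j(t ^ q)` modulo the maximal ideal of the Gauss ring of level `N q`,
when the residue field has characteristic `q`. -/
theorem jElt_pow_sub_beta_mem_nonunits (N q : ℕ) [NeZero N] [NeZero q] [ExpChar k q] :
    jElt L (N * q) ^ q - heckeBetaBar L N q (jElt L N) ∈ (gaussF A π (N * q)).nonunits := by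
  -- the integral series `Z = j ^ q - j(t ^ q)`
  set Z : LaurentSeries A := jqModC A ^ q - qExpand A q (jqModC A) with hZ
  have hincZ : inc A Z = jqModC L ^ q - qExpand L q (jqModC L) := by
    rw [hZ, map_sub, map_pow, inc_jqModC A, coeffMap_qExpand, inc_jqModC A]
  have hcoe : ((jElt L (N * q) ^ q - heckeBetaBar L N q (jElt L N) :
      ↥(laurentBaseChange L (modularFunctionFieldFull (N * q)))) : LaurentSeries L) =
      jqModC L ^ q - qExpand L q (jqModC L) := rfl
  have hmem : inc A Z ∈ laurentBaseChange L (modularFunctionFieldFull (N * q)) := by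
    rw [hincZ, ← hcoe]
    exact SetLike.coe_mem _
  have heq : (⟨inc A Z, hmem⟩ : ↥(laurentBaseChange L (modularFunctionFieldFull (N * q)))) =
      jElt L (N * q) ^ q - heckeBetaBar L N q (jElt L N) := Subtype.ext (hincZ.trans hcoe.symm)
  have hredZ : red A π Z = 0 := by
    rw [hZ, map_sub, map_pow, red_jqModC A π, coeffMap_qExpand, red_jqModC A π]
    have h := Fermat.Agent.Lib.helper7516.qExpand_coeffMap_frobenius q (jqModC k)
    rw [coeffMap_jqModC] at h
    rw [h, sub_self]
  have h1 := (mem_nonunits_gaussF_iff A π (N * q)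
    ⟨⟨inc A Z, hmem⟩, inc_mem_gaussF A π (N * q) hmem⟩).mpr
    (by rw [gaussFRed_inc A π (N * q) hmem, hredZ])
  rw [← heq]
  exact h1

/-- **The witness of the purely inseparable leg of `β` over the Gauss ring**, packaged:
`a := jElt L N`, `y := jElt L (N q)`. -/
theorem gauss_beta_witness (N q : ℕ) [NeZero N] [NeZero q] [ExpChar k q] (hq : 2 ≤ q) :
    jElt L N ∈ gaussF A π N ∧
      (∀ b : ↥(laurentBaseChange L (modularFunctionFieldFull N)), b ∈ gaussF A π N →
        b ^ q - jElt L N ∉ (gaussF A π N).nonunits) ∧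
      jElt L (N * q) ^ q - heckeBetaBar L N q (jElt L N) ∈ (gaussF A π (N * q)).nonunits :=
  ⟨jElt_mem_gaussF A π N, not_pow_sub_jElt_mem_nonunits A π N q hq,
    jElt_pow_sub_beta_mem_nonunits A π N q⟩

end Gauss

section CharZero

/-- A field with a `ℚ`-algebra structure has characteristic zero. -/
theorem charZero_of_algebraRat (L : Type*) [Field L] [Algebra ℚ L] : CharZero L :=
  charZero_of_injective_algebraMap (algebraMap ℚ L).injective

/-- The function field `laurentBaseChange L F₀` has characteristic zero (the instance argument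
`[CharZero F']` of `helper6205.deg_ord_fields_fin` at the modular function fields). -/
theorem charZero_laurentBaseChange (L : Type*) [Field L] [Algebra ℚ L]
    (F₀ : IntermediateField ℚ (LaurentSeries ℚ)) :
    CharZero ↥(laurentBaseChange L F₀) := by
  have h : CharZero L := charZero_of_algebraRat L
  exact charZero_of_injective_algebraMap (algebraMap L ↥(laurentBaseChange L F₀)).injective

end CharZero

end Fermat.Agent.S36.helper6205
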