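/-
S36-LPB-LIFT (helper6292): the S18 export consumed by (LP)(b) of the S36 route.

LIFTING ALONG THE GAUSS REDUCTION at a level prime to the residue characteristic: every element of
the special-fibre function field that is integral over `k[x̄]` is the reduction of a Gauss-integral
function with poles only at the poles of `x`.  Hence the image of the chart ring in the residue
field is the integral closure of `k[x̄]`: an integrally closed domain.

* `surj_finrank_chartSpace` (A): the abstract squeeze of S18 track A with NO Kummer datum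
  (`helper2030.FFDataG` at `D0 = 0`, `u = 1`, `w = 1`, `m = 1`): in the Riemann range the
  reduction `L(a X∞ + b X₀) ∩ O → chartSpace k x̄ a b` is onto and the dimension of the chart space
  is `(a + b) d + 1 - γ`;
* `finrank_rr_eq` (A'): `dim_L L(a X∞ + b X₀) = (a + b) d + 1 - γ` in the same range;
  `red_mem_chartSpace`: containment `red (chartSpace L x a b ∩ O) ⊆ chartSpace k x̄ a b`;
* `exists_lift_of_isIntegral` (B): the integral-closure form on the chart `x`;
  `exists_lift_of_isIntegral_inv`: the chart `x⁻¹`;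
* `gauss_surj_finrank_chartSpace`, `gauss_surj_chartSpace`, `gauss_red_mem_chartSpace`,
  `gauss_exists_lift_of_isIntegral` (+ `_inv`), `gauss_isIntegral_iff_exists_lift` (+ `_inv`) (C):
  the modular instance for the landed Gauss valuation ring `helper2030.gaussO` / residue map
  `helper2030.gaussRed` of `F̄_N` at a place `A` of `ℚ̄` over `ℓ ∤ N`, on any base line `x` with
  `helper2030.LineData`;
* `gauss_isIntegralElem_of_isIntegral`, `gauss_exists_lift_isIntegralElem` (D): the lift is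
  integral over `A[x]`;
* `t2_exists_lift`, `t3_exists_lift`, `t2_surj_chartSpace`, `t3_surj_chartSpace`: the named
  instances on the Hauptmodul lines `t_2` (`2 ∣ N`, `ℓ ∤ N`) and `t_3` (`3 ∣ N`, `ℓ ∤ N`).
-/
import Fermat.Agent.S18.helper789_LineInst
import Fermat.Agent.S18.helper4005_GapTrace

set_option autoImplicit false
set_option synthInstance.maxHeartbeats 400000

noncomputable section

namespace Fermat.Agent.S36.helper6292

open AlgebraicCurve ModularCurve IntermediateField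
open Fermat.Agent.S18
open Fermat.Agent.S18.helper6292 Fermat.Agent.S18.helper8566 Fermat.Agent.S18.helper2030

/-! ## (A), (B): the abstract squeeze without a Kummer datum -/

section Abstract

variable {L F k Fk : Type*} [Field L] [Field F] [Algebra L F] [Field k] [Field Fk] [Algebra k Fk]

/-- **(A) The squeeze without Kummer datum.**  Setting of `helper2030.kummer_ff_chart`: a
valuation subring `O` of the function field `F / L` with the value group of `L`, of rank one,
with reduction map `red : O → Fk` of kernel the maximal ideal and onto the constants; a unit `x`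
of `O` with pole divisor `Xinf` and zero divisor `X0` of degree `d > 0`; integrality transfer on
the two charts; orthonormal bases of the Riemann–Roch spaces; ONE integer `γ` with Riemann's
inequality on `F` and the reverse inequality for the chart spaces of the special fibre in the range
`cK ≤ (a + b) d`.

Then, in that range, the chart space `x̄⁻ᵇ B̄₁ ⊓ x̄ᵃ B̄₂` of the special fibre has dimension exactly
`(a + b) d + 1 - γ` and every element of it is the reduction of an element of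
`L(a X∞ + b X₀) ∩ O`. -/
theorem surj_finrank_chartSpace
    (O : ValuationSubring F)
    (hVG : ∀ f : F, f ≠ 0 → ∃ c : L, O.valuation (algebraMap L F c) = O.valuation f)
    (harch : ∀ ε κ : O.ValueGroup, ε < 1 → κ ≠ 0 → ∃ n : ℕ, ε ^ n < κ)
    (red : O →+* Fk)
    (hred : ∀ f : O, red f = 0 ↔ O.valuation (f : F) < 1)
    (hredk_surj : ∀ c' : k, ∃ (c : L) (hc : algebraMap L F c ∈ O),
      red ⟨algebraMap L F c, hc⟩ = algebraMap k Fk c')
    (x : F) (hx0 : x ≠ 0) (hx : x ∈ O) (hxi : x⁻¹ ∈ O)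
    (Xinf X0 : Divisor L F) (hXinf : IsPoleDivisor x Xinf) (hX0 : IsZeroDivisor x X0)
    (hC : ChartIntegral L x) (hC' : ChartIntegral L x⁻¹)
    (hIT : IntegralityTransfer L k O red x (red ⟨x, hx⟩))
    (hIT' : IntegralityTransfer L k O red x⁻¹ (red ⟨x, hx⟩)⁻¹)
    (d : ℤ) (hdpos : 0 < d)
    (hdX : Divisor.degree Xinf = d) (hdX0 : Divisor.degree X0 = d)
    (hcart : ∀ E : Divisor L F, ∃ (r : ℕ) (e : Fin r → F), LinearIndependent L e ∧
      Submodule.span L (Set.range e) = riemannRochSpace E ∧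
      ∀ c : Fin r → L, (∑ i, c i • e i ∈ O ↔ ∀ i, algebraMap L F (c i) ∈ O))
    (γ : ℤ)
    (hRiemF : ∀ D : Divisor L F,
      Divisor.degree D + 1 - γ ≤ (Module.finrank L (riemannRochSpace D) : ℤ))
    (hfink : ∀ a b : ℕ, Module.Finite k (chartSpace k (red ⟨x, hx⟩) a b))
    (cK : ℤ)
    (hGapk : ∀ a b : ℕ, cK ≤ ((a : ℤ) + b) * d →
      (Module.finrank k (chartSpace k (red ⟨x, hx⟩) a b) : ℤ) ≤ ((a : ℤ) + b) * d + 1 - γ)
    (a b : ℕ) (hab : cK ≤ ((a : ℤ) + b) * d) :
    (Module.finrank k (chartSpace k (red ⟨x, hx⟩) a b) : ℤ) = ((a : ℤ) + b) * d + 1 - γ ∧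
      ∀ g ∈ chartSpace k (red ⟨x, hx⟩) a b,
        ∃ f ∈ riemannRochSpace (a • Xinf + b • X0), ∃ hf : f ∈ O, red ⟨f, hf⟩ = g := by
  have h1O : (1 : F) ∈ O := O.one_mem
  have hordu : ∀ P : Place L F, P.ord (1 : F) = ((1 : ℕ) : ℤ) * (0 : Divisor L F) P := by
    intro P
    rw [P.ord_one]
    simp
  have hredu : red ⟨1, h1O⟩ = (1 : Fk) ^ 1 := by
    have : (⟨1, h1O⟩ : O) = 1 := rfl
    rw [this, map_one, pow_one]
  let S : FFDataG L F k Fk :=
    { O := O, red := red, hVG := hVG, harch := harch, hred := hred, hredk_surj := hredk_surj,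
      Xinf := Xinf, X0 := X0,
      hXinf := Finsupp.le_def.mpr fun v => by simpa using hXinf.nonneg v,
      hX0 := Finsupp.le_def.mpr fun v => by simpa using hX0.nonneg v,
      hdisj := fun P => by
        rw [hXinf P, hX0 P]
        rcases le_total 0 (P.ord x) with h | h
        · left; exact max_eq_left (by omega)
        · right; exact max_eq_left h
      d := d, hdpos := hdpos, hdX := hdX, hdX0 := hdX0, D0 := 0, hD0 := map_zero _,
      hcart := fun a b => hcart _, γ := γ, hRiemF := fun a b => hRiemF _,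
      w := 1, hw := one_ne_zero,
      Nk := fun a b => chartSpace k (red ⟨x, hx⟩) a b,
      hNmono := fun a a' b b' ha hb => chartSpace_mono _ ha hb,
      hNinf := fun a a' b b' _ _ => chartSpace_inf_le _ a a' b b',
      hNone := fun a b => one_mem_chartSpace _ a b,
      hNred := fun a b f hf hfL =>
        red_mul_w_mem_chartSpace O red hx0 hx hxi hXinf hX0 hC hC' hIT hIT' one_ne_zero h1O
          one_ne_zero hordu hredu a b hf hfL,
      hfink := hfink, cK := cK, hRiemk := hGapk,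
      m := 1, hm := by simp, u := 1, hu := h1O, hordu := hordu, hredu := hredu }
  obtain ⟨hfin, hsurj⟩ := S.surj_and_finrank a b hab
  refine ⟨hfin, fun g hg => ?_⟩
  obtain ⟨f, hfL, hf, hfg⟩ := hsurj g hg
  refine ⟨f, ?_, hf, ?_⟩
  · have h0 : (0 : Divisor L F) + twoDiv Xinf X0 a b = a • Xinf + b • X0 := by
      rw [zero_add]; rfl
    rw [← h0]
    exact hfL
  · have : S.red ⟨f, hf⟩ * S.w = red ⟨f, hf⟩ := mul_one _
    rw [← this]
    exact hfg

/-- **(A') Both fibres have the same Riemann–Roch dimension.**  In the setting and range of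
`surj_finrank_chartSpace`: `dim_L L(a X∞ + b X₀) = (a + b) d + 1 - γ` as well. -/
theorem finrank_rr_eq
    (O : ValuationSubring F)
    (hVG : ∀ f : F, f ≠ 0 → ∃ c : L, O.valuation (algebraMap L F c) = O.valuation f)
    (red : O →+* Fk)
    (hred : ∀ f : O, red f = 0 ↔ O.valuation (f : F) < 1)
    (hredk_surj : ∀ c' : k, ∃ (c : L) (hc : algebraMap L F c ∈ O),
      red ⟨algebraMap L F c, hc⟩ = algebraMap k Fk c')
    (x : F) (hx0 : x ≠ 0) (hx : x ∈ O) (hxi : x⁻¹ ∈ O)
    (Xinf X0 : Divisor L F) (hXinf : IsPoleDivisor x Xinf) (hX0 : IsZeroDivisor x X0)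
    (hC : ChartIntegral L x) (hC' : ChartIntegral L x⁻¹)
    (hIT : IntegralityTransfer L k O red x (red ⟨x, hx⟩))
    (hIT' : IntegralityTransfer L k O red x⁻¹ (red ⟨x, hx⟩)⁻¹)
    (d : ℤ) (hdX : Divisor.degree Xinf = d) (hdX0 : Divisor.degree X0 = d)
    (hcart : ∀ E : Divisor L F, ∃ (r : ℕ) (e : Fin r → F), LinearIndependent L e ∧
      Submodule.span L (Set.range e) = riemannRochSpace E ∧
      ∀ c : Fin r → L, (∑ i, c i • e i ∈ O ↔ ∀ i, algebraMap L F (c i) ∈ O))
    (γ : ℤ)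
    (hRiemF : ∀ D : Divisor L F,
      Divisor.degree D + 1 - γ ≤ (Module.finrank L (riemannRochSpace D) : ℤ))
    (hfink : ∀ a b : ℕ, Module.Finite k (chartSpace k (red ⟨x, hx⟩) a b))
    (cK : ℤ)
    (hGapk : ∀ a b : ℕ, cK ≤ ((a : ℤ) + b) * d →
      (Module.finrank k (chartSpace k (red ⟨x, hx⟩) a b) : ℤ) ≤ ((a : ℤ) + b) * d + 1 - γ)
    (a b : ℕ) (hab : cK ≤ ((a : ℤ) + b) * d) :
    (Module.finrank L (riemannRochSpace (a • Xinf + b • X0)) : ℤ) = ((a : ℤ) + b) * d + 1 - γ := by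
  classical
  obtain ⟨r, e, he_li, he_span, he_orth⟩ := hcart (a • Xinf + b • X0)
  have := hfink a b
  have hr : Module.finrank L (riemannRochSpace (a • Xinf + b • X0)) = r := by
    rw [← he_span, finrank_span_eq_card he_li, Fintype.card_fin]
  have hmem : ∀ i, e i ∈ riemannRochSpace (a • Xinf + b • X0) := fun i => by
    rw [← he_span]; exact Submodule.subset_span (Set.mem_range_self i)
  have heO : ∀ i, e i ∈ O := by
    intro i
    have h := (he_orth (Pi.single i 1)).mpr (fun j => by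
      by_cases hj : j = i
      · subst hj; rw [Pi.single_eq_same, map_one]; exact O.one_mem
      · rw [Pi.single_eq_of_ne hj, map_zero]; exact O.zero_mem)
    have h2 : ∑ j, (Pi.single i (1 : L) : Fin r → L) j • e j = e i := by
      rw [Finset.sum_eq_single i]
      · rw [Pi.single_eq_same, one_smul]
      · intro j _ hj
        rw [Pi.single_eq_of_ne hj, zero_smul]
      · intro h; exact absurd (Finset.mem_univ i) h
    rwa [h2] at h
  -- reductions of the orthonormal basis lie in the chart space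
  have h1O : (1 : F) ∈ O := O.one_mem
  have hordu : ∀ P : Place L F, P.ord (1 : F) = ((1 : ℕ) : ℤ) * (0 : Divisor L F) P := by
    intro P
    rw [P.ord_one]
    simp
  have hredu : red ⟨1, h1O⟩ = (1 : Fk) ^ 1 := by
    have : (⟨1, h1O⟩ : O) = 1 := rfl
    rw [this, map_one, pow_one]
  have hredmem : ∀ i, red ⟨e i, heO i⟩ ∈ chartSpace k (red ⟨x, hx⟩) a b := by
    intro i
    have hfL : e i ∈ riemannRochSpace ((0 : Divisor L F) + twoDiv Xinf X0 a b) := by
      have h0 : (0 : Divisor L F) + twoDiv Xinf X0 a b = a • Xinf + b • X0 := by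
        rw [zero_add]; rfl
      rw [h0]
      exact hmem i
    have := red_mul_w_mem_chartSpace O red hx0 hx hxi hXinf hX0 hC hC' hIT hIT' one_ne_zero h1O
      one_ne_zero hordu hredu a b (heO i) hfL
    rwa [mul_one] at this
  -- they are linearly independent over `k`
  have hli : LinearIndependent k (fun i => red ⟨e i, heO i⟩) := by
    rw [Fintype.linearIndependent_iff]
    intro g hg i
    choose c hc hcred using fun i => hredk_surj (g i)
    have hfO : ∑ i, c i • e i ∈ O := (he_orth c).mpr hc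
    have hsum : (⟨∑ i, c i • e i, hfO⟩ : O) =
        ∑ i, (⟨algebraMap L F (c i), hc i⟩ : O) * ⟨e i, heO i⟩ := by
      apply Subtype.ext
      show ∑ i, c i • e i =
        O.subtype (∑ i, (⟨algebraMap L F (c i), hc i⟩ : O) * ⟨e i, heO i⟩)
      rw [map_sum]
      refine Finset.sum_congr rfl fun i _ => ?_
      rw [Algebra.smul_def]
      rfl
    have hredf : red ⟨∑ i, c i • e i, hfO⟩ = ∑ i, g i • red ⟨e i, heO i⟩ := by
      rw [hsum, map_sum]
      refine Finset.sum_congr rfl fun i _ => ?_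
      rw [map_mul, hcred i, Algebra.smul_def]
    rw [hg] at hredf
    have hlt : O.valuation (∑ i, c i • e i) < 1 := (hred _).mp hredf
    -- orthonormality: coordinates are bounded by the norm
    have hci : O.valuation (algebraMap L F (c i)) < 1 := by
      by_cases hf0 : ∑ i, c i • e i = 0
      · have := Fintype.linearIndependent_iff.mp he_li c hf0 i
        rw [this, map_zero, map_zero]
        exact zero_lt_one
      · obtain ⟨l, hl⟩ := hVG _ hf0
        have hl0 : l ≠ 0 := by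
          intro h
          rw [h, map_zero, map_zero] at hl
          exact hf0 ((map_eq_zero _).mp hl.symm)
        have hlF : algebraMap L F l ≠ 0 := (map_ne_zero _).mpr hl0
        have hvl : O.valuation (algebraMap L F l) ≠ 0 := (map_ne_zero _).mpr hlF
        have key : ∑ i, (l⁻¹ * c i) • e i ∈ O := by
          have h1 : ∑ i, (l⁻¹ * c i) • e i = algebraMap L F l⁻¹ * ∑ i, c i • e i := by
            rw [Finset.mul_sum]
            refine Finset.sum_congr rfl fun i _ => ?_
            rw [mul_smul, Algebra.smul_def]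
          rw [h1, ← O.valuation_le_one_iff, map_mul, map_inv₀, map_inv₀, hl, inv_mul_cancel₀]
          rw [← hl]; exact hvl
        have h2 := (he_orth _).mp key i
        rw [← O.valuation_le_one_iff, map_mul, map_mul, map_inv₀, map_inv₀] at h2
        have h3 : O.valuation (algebraMap L F (c i)) ≤ O.valuation (algebraMap L F l) := by
          calc O.valuation (algebraMap L F (c i))
              = O.valuation (algebraMap L F l) *
                ((O.valuation (algebraMap L F l))⁻¹ * O.valuation (algebraMap L F (c i))) := by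
                rw [← mul_assoc, mul_inv_cancel₀ hvl, one_mul]
            _ ≤ O.valuation (algebraMap L F l) * 1 := mul_le_mul' le_rfl h2
            _ = O.valuation (algebraMap L F l) := mul_one _
        rw [hl] at h3
        exact lt_of_le_of_lt h3 hlt
    have h1 : red ⟨algebraMap L F (c i), hc i⟩ = 0 := (hred _).mpr hci
    rw [hcred i] at h1
    exact (map_eq_zero (algebraMap k Fk)).mp h1
  let e' : Fin r → chartSpace k (red ⟨x, hx⟩) a b := fun i => ⟨red ⟨e i, heO i⟩, hredmem i⟩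
  have hli' : LinearIndependent k e' :=
    LinearIndependent.of_comp (chartSpace k (red ⟨x, hx⟩) a b).subtype hli
  have h1 : r ≤ Module.finrank k (chartSpace k (red ⟨x, hx⟩) a b) := by
    have := hli'.fintype_card_le_finrank
    rwa [Fintype.card_fin] at this
  have h2 := hGapk a b hab
  have h3 := hRiemF (a • Xinf + b • X0)
  have hdeg : Divisor.degree (a • Xinf + b • X0) = ((a : ℤ) + b) * d := by
    rw [map_add, map_nsmul, map_nsmul, hdX, hdX0]
    simp only [nsmul_eq_mul]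
    ring
  rw [hdeg, hr] at h3
  rw [hr]
  have h4 : (r : ℤ) ≤ (Module.finrank k (chartSpace k (red ⟨x, hx⟩) a b) : ℤ) := by
    exact_mod_cast h1
  linarith

/-- **Reduction containment, chart form** (no divisors): the reduction of an element of
`chartSpace L x a b ∩ O` lies in `chartSpace k x̄ a b`. -/
theorem red_mem_chartSpace (O : ValuationSubring F) (red : O →+* Fk)
    {x : F} (hx0 : x ≠ 0) (hx : x ∈ O) (hxi : x⁻¹ ∈ O)
    (hIT : IntegralityTransfer L k O red x (red ⟨x, hx⟩))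
    (hIT' : IntegralityTransfer L k O red x⁻¹ (red ⟨x, hx⟩)⁻¹)
    (a b : ℕ) {f : F} (hf : f ∈ O) (hfc : f ∈ chartSpace L x a b) :
    red ⟨f, hf⟩ ∈ chartSpace k (red ⟨x, hx⟩) a b := by
  obtain ⟨h1, h2⟩ := hfc
  refine ⟨?_, ?_⟩
  · have hO : x ^ b * f ∈ O := O.mul_mem _ _ (O.pow_mem hx _) hf
    have h3 := hIT _ hO h1
    have h4 : (⟨x ^ b * f, hO⟩ : O) = ⟨x, hx⟩ ^ b * ⟨f, hf⟩ := rfl
    rwa [h4, map_mul, map_pow] at h3
  · have hO : x⁻¹ ^ a * f ∈ O := O.mul_mem _ _ (O.pow_mem hxi _) hf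
    have h3 := hIT' _ hO h2
    have h4 : (⟨x⁻¹ ^ a * f, hO⟩ : O) = ⟨x⁻¹, hxi⟩ ^ a * ⟨f, hf⟩ := rfl
    rwa [h4, map_mul, map_pow, red_inv O red hx0 hx hxi] at h3

/-- An element integral over `k[x̄]` lies in the chart space `chartSpace k x̄ a 0` for all large
`a`. -/
theorem mem_chartSpace_of_isIntegral {xb : Fk} (hxb : xb ≠ 0) {g : Fk}
    (hg : IsIntegral (Algebra.adjoin k {xb}) g) :
    ∃ M : ℕ, ∀ a : ℕ, M ≤ a → g ∈ chartSpace k xb a 0 := by
  obtain ⟨M, hM⟩ := Fermat.Agent.S18.helper4005.exists_inv_pow_mul_isIntegral hxb hg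
  refine ⟨M, fun a ha => ?_⟩
  rw [mem_chartSpace]
  refine ⟨?_, hM a ha⟩
  rw [pow_zero, one_mul]
  exact hg

/-- An element integral over `k[x̄⁻¹]` lies in the chart space `chartSpace k x̄ 0 b` for all large
`b`. -/
theorem mem_chartSpace_of_isIntegral_inv {xb : Fk} (hxb : xb ≠ 0) {g : Fk}
    (hg : IsIntegral (Algebra.adjoin k {xb⁻¹}) g) :
    ∃ M : ℕ, ∀ b : ℕ, M ≤ b → g ∈ chartSpace k xb 0 b := by
  obtain ⟨M, hM⟩ :=
    Fermat.Agent.S18.helper4005.exists_inv_pow_mul_isIntegral (inv_ne_zero hxb) hg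
  refine ⟨M, fun b hb => ?_⟩
  rw [mem_chartSpace]
  refine ⟨?_, ?_⟩
  · have := hM b hb
    rwa [inv_inv] at this
  · rw [pow_zero, one_mul]
    exact hg

/-- **(B) Lifting of the integral closure, chart `x`.**  In the setting of
`surj_finrank_chartSpace`: every `g` of the special-fibre field that is integral over `k[x̄]` is
the reduction of some `f ∈ L(a X∞) ∩ O` (for every large `a`). -/
theorem exists_lift_of_isIntegral
    (O : ValuationSubring F)
    (hVG : ∀ f : F, f ≠ 0 → ∃ c : L, O.valuation (algebraMap L F c) = O.valuation f)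
    (harch : ∀ ε κ : O.ValueGroup, ε < 1 → κ ≠ 0 → ∃ n : ℕ, ε ^ n < κ)
    (red : O →+* Fk)
    (hred : ∀ f : O, red f = 0 ↔ O.valuation (f : F) < 1)
    (hredk_surj : ∀ c' : k, ∃ (c : L) (hc : algebraMap L F c ∈ O),
      red ⟨algebraMap L F c, hc⟩ = algebraMap k Fk c')
    (x : F) (hx0 : x ≠ 0) (hx : x ∈ O) (hxi : x⁻¹ ∈ O)
    (Xinf X0 : Divisor L F) (hXinf : IsPoleDivisor x Xinf) (hX0 : IsZeroDivisor x X0)
    (hC : ChartIntegral L x) (hC' : ChartIntegral L x⁻¹)
    (hIT : IntegralityTransfer L k O red x (red ⟨x, hx⟩))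
    (hIT' : IntegralityTransfer L k O red x⁻¹ (red ⟨x, hx⟩)⁻¹)
    (d : ℤ) (hdpos : 0 < d)
    (hdX : Divisor.degree Xinf = d) (hdX0 : Divisor.degree X0 = d)
    (hcart : ∀ E : Divisor L F, ∃ (r : ℕ) (e : Fin r → F), LinearIndependent L e ∧
      Submodule.span L (Set.range e) = riemannRochSpace E ∧
      ∀ c : Fin r → L, (∑ i, c i • e i ∈ O ↔ ∀ i, algebraMap L F (c i) ∈ O))
    (γ : ℤ)
    (hRiemF : ∀ D : Divisor L F,
      Divisor.degree D + 1 - γ ≤ (Module.finrank L (riemannRochSpace D) : ℤ))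
    (hfink : ∀ a b : ℕ, Module.Finite k (chartSpace k (red ⟨x, hx⟩) a b))
    (cK : ℤ)
    (hGapk : ∀ a b : ℕ, cK ≤ ((a : ℤ) + b) * d →
      (Module.finrank k (chartSpace k (red ⟨x, hx⟩) a b) : ℤ) ≤ ((a : ℤ) + b) * d + 1 - γ)
    (g : Fk) (hg : IsIntegral (Algebra.adjoin k {red ⟨x, hx⟩}) g) :
    ∃ M : ℕ, ∀ a : ℕ, M ≤ a →
      ∃ f ∈ riemannRochSpace (a • Xinf), ∃ hf : f ∈ O, red ⟨f, hf⟩ = g := by
  have hxb : red ⟨x, hx⟩ ≠ 0 := by
    intro h0
    have h1 := (hred ⟨x, hx⟩).mp h0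
    have h2 := valuation_eq_one_of_mem_of_inv_mem O hx0 hx hxi
    rw [h2] at h1
    exact lt_irrefl _ h1
  obtain ⟨M, hM⟩ := mem_chartSpace_of_isIntegral (k := k) hxb hg
  refine ⟨max M cK.toNat, fun a ha => ?_⟩
  have haM : M ≤ a := (le_max_left _ _).trans ha
  have hacK : cK ≤ ((a : ℤ) + (0 : ℕ)) * d := by
    have h1 : cK ≤ (a : ℤ) := by
      have : cK.toNat ≤ a := (le_max_right _ _).trans ha
      have h2 : cK ≤ (cK.toNat : ℤ) := Int.self_le_toNat cK
      exact h2.trans (by exact_mod_cast this)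
    have h3 : (a : ℤ) ≤ (a : ℤ) * d := by
      have : (a : ℤ) * 1 ≤ (a : ℤ) * d :=
        mul_le_mul_of_nonneg_left (by omega) (by positivity)
      simpa using this
    simpa using h1.trans h3
  obtain ⟨f, hfL, hf, hfg⟩ :=
    (surj_finrank_chartSpace O hVG harch red hred hredk_surj x hx0 hx hxi Xinf X0 hXinf hX0 hC hC'
      hIT hIT' d hdpos hdX hdX0 hcart γ hRiemF hfink cK hGapk a 0 hacK).2 g (hM a haM)
  refine ⟨f, ?_, hf, hfg⟩
  simpa using hfL

/-- **(B') Lifting of the integral closure, chart `x⁻¹`.**  Every `g` integral over `k[x̄⁻¹]` is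
the reduction of some `f ∈ L(b X₀) ∩ O` (for every large `b`). -/
theorem exists_lift_of_isIntegral_inv
    (O : ValuationSubring F)
    (hVG : ∀ f : F, f ≠ 0 → ∃ c : L, O.valuation (algebraMap L F c) = O.valuation f)
    (harch : ∀ ε κ : O.ValueGroup, ε < 1 → κ ≠ 0 → ∃ n : ℕ, ε ^ n < κ)
    (red : O →+* Fk)
    (hred : ∀ f : O, red f = 0 ↔ O.valuation (f : F) < 1)
    (hredk_surj : ∀ c' : k, ∃ (c : L) (hc : algebraMap L F c ∈ O),
      red ⟨algebraMap L F c, hc⟩ = algebraMap k Fk c')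
    (x : F) (hx0 : x ≠ 0) (hx : x ∈ O) (hxi : x⁻¹ ∈ O)
    (Xinf X0 : Divisor L F) (hXinf : IsPoleDivisor x Xinf) (hX0 : IsZeroDivisor x X0)
    (hC : ChartIntegral L x) (hC' : ChartIntegral L x⁻¹)
    (hIT : IntegralityTransfer L k O red x (red ⟨x, hx⟩))
    (hIT' : IntegralityTransfer L k O red x⁻¹ (red ⟨x, hx⟩)⁻¹)
    (d : ℤ) (hdpos : 0 < d)
    (hdX : Divisor.degree Xinf = d) (hdX0 : Divisor.degree X0 = d)
    (hcart : ∀ E : Divisor L F, ∃ (r : ℕ) (e : Fin r → F), LinearIndependent L e ∧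
      Submodule.span L (Set.range e) = riemannRochSpace E ∧
      ∀ c : Fin r → L, (∑ i, c i • e i ∈ O ↔ ∀ i, algebraMap L F (c i) ∈ O))
    (γ : ℤ)
    (hRiemF : ∀ D : Divisor L F,
      Divisor.degree D + 1 - γ ≤ (Module.finrank L (riemannRochSpace D) : ℤ))
    (hfink : ∀ a b : ℕ, Module.Finite k (chartSpace k (red ⟨x, hx⟩) a b))
    (cK : ℤ)
    (hGapk : ∀ a b : ℕ, cK ≤ ((a : ℤ) + b) * d →
      (Module.finrank k (chartSpace k (red ⟨x, hx⟩) a b) : ℤ) ≤ ((a : ℤ) + b) * d + 1 - γ)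
    (g : Fk) (hg : IsIntegral (Algebra.adjoin k {(red ⟨x, hx⟩)⁻¹}) g) :
    ∃ M : ℕ, ∀ b : ℕ, M ≤ b →
      ∃ f ∈ riemannRochSpace (b • X0), ∃ hf : f ∈ O, red ⟨f, hf⟩ = g := by
  have hxb : red ⟨x, hx⟩ ≠ 0 := by
    intro h0
    have h1 := (hred ⟨x, hx⟩).mp h0
    have h2 := valuation_eq_one_of_mem_of_inv_mem O hx0 hx hxi
    rw [h2] at h1
    exact lt_irrefl _ h1
  obtain ⟨M, hM⟩ := mem_chartSpace_of_isIntegral_inv (k := k) hxb hg
  refine ⟨max M cK.toNat, fun b hb => ?_⟩
  have hbM : M ≤ b := (le_max_left _ _).trans hb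
  have hbcK : cK ≤ (((0 : ℕ) : ℤ) + (b : ℤ)) * d := by
    have h1 : cK ≤ (b : ℤ) := by
      have : cK.toNat ≤ b := (le_max_right _ _).trans hb
      have h2 : cK ≤ (cK.toNat : ℤ) := Int.self_le_toNat cK
      exact h2.trans (by exact_mod_cast this)
    have h3 : (b : ℤ) ≤ (b : ℤ) * d := by
      have : (b : ℤ) * 1 ≤ (b : ℤ) * d :=
        mul_le_mul_of_nonneg_left (by omega) (by positivity)
      simpa using this
    simpa using h1.trans h3
  obtain ⟨f, hfL, hf, hfg⟩ :=
    (surj_finrank_chartSpace O hVG harch red hred hredk_surj x hx0 hx hxi Xinf X0 hXinf hX0 hC hC'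
      hIT hIT' d hdpos hdX hdX0 hcart γ hRiemF hfink cK hGapk 0 b hbcK).2 g (hM b hbM)
  refine ⟨f, ?_, hf, hfg⟩
  simpa using hfL

end Abstract

/-! ## (C): the modular instance (Gauss valuation of `F̄_N` at a place over `ℓ ∤ N`) -/

section Modular

variable (N : ℕ) [NeZero N] (ℓ : ℕ) [Fact ℓ.Prime] (hℓN : ¬ ℓ ∣ N)
  (A : ValuationSubring (AlgebraicClosure ℚ)) (hA : A.LiesOverPrime ℓ)

/-- **(C) The squeeze for the Gauss valuation of `F̄_N`.**  On a base line `x` with
`helper2030.LineData` (and (CART), which is landed: `helper789.stmt_Cart_gauss`) there are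
`d > 0`, `γ`, `cK` such that for all pole / zero divisors `Xinf`, `X0` of `x` and all
`cK ≤ (a + b) d`: the chart space `chartSpace k x̄ a b` of the special fibre has dimension
`(a + b) d + 1 - γ` and every element of it is the Gauss reduction of an element of
`L(a X∞ + b X₀) ∩ O`. -/
theorem gauss_surj_finrank_chartSpace (hcart : Stmt_Cart N ℓ hℓN A hA)
    {x : modularFunctionFieldBar N} (hL : LineData N ℓ hℓN A hA x) :
    ∃ (d : ℕ) (γ cK : ℤ), 0 < d ∧
      ∀ (Xinf X0 : Divisor (AlgebraicClosure ℚ) (modularFunctionFieldBar N)),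
        IsPoleDivisor x Xinf → IsZeroDivisor x X0 →
        ∀ a b : ℕ, cK ≤ ((a : ℤ) + b) * d →
          (Module.finrank (IsLocalRing.ResidueField A)
            (chartSpace (IsLocalRing.ResidueField A) (gaussRed N ℓ hℓN A hA ⟨x, hL.hx⟩) a b) : ℤ)
              = ((a : ℤ) + b) * d + 1 - γ ∧
          ∀ g ∈ chartSpace (IsLocalRing.ResidueField A) (gaussRed N ℓ hℓN A hA ⟨x, hL.hx⟩) a b,
            ∃ f ∈ riemannRochSpace (a • Xinf + b • X0), ∃ hf : f ∈ gaussO N ℓ hℓN A hA,
              gaussRed N ℓ hℓN A hA ⟨f, hf⟩ = g := by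
  obtain ⟨d, γ, hdpos, hdeg, hRiemF, hfink, cK, hGapk⟩ := hL.genus
  have hx0 : x ≠ 0 := fun h => hL.htr (h ▸ isAlgebraic_zero)
  have := helper4226.hasPrincipalDivisors_FN N
  have := helper4226.finiteDimensional_jBar_FN N
  have : FiniteDimensional (AlgebraicClosure ℚ)⟮x⟯ (modularFunctionFieldBar N) :=
    helper7885.finiteDimensional_adjoin_of_transcendental (Fermat.Agent.S24.helper24.jBar N) hL.htr
  refine ⟨d, γ, cK, hdpos, fun Xinf X0 hXinf hX0 a b hab => ?_⟩
  have hdX : Divisor.degree Xinf = (d : ℤ) := hdeg Xinf hXinf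
  have hdX0 : Divisor.degree X0 = (d : ℤ) := by
    rw [degree_zero_eq_degree_pole hx0 hXinf hX0, hdX]
  exact surj_finrank_chartSpace (gaussO N ℓ hℓN A hA) (gaussO_hVG N ℓ hℓN A hA)
    (gaussO_harch N ℓ hℓN A hA) (gaussRed N ℓ hℓN A hA) (gaussRed_eq_zero_iff N ℓ hℓN A hA)
    (gaussRed_const_surj N ℓ hℓN A hA) x hx0 hL.hx hL.hxi Xinf X0 hXinf hX0
    (chartIntegral_of_charZero x) (chartIntegral_inv_of_charZero x) hL.hIT hL.hIT'
    (d : ℤ) (by exact_mod_cast hdpos) hdX hdX0 hcart γ hRiemF hfink cK hGapk a b hab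

/-- **(C) Lifting of the integral closure, chart `x`** (the S18 export of (LP)(b)).  Level `N`,
`ℓ ∤ N`, `A` a place of `ℚ̄` over `ℓ`, `x` a base line with `LineData`: every element `g` of the
special-fibre function field integral over `k[x̄]` is the Gauss reduction of a Gauss-integral
function `f ∈ F̄_N` that is integral over `ℚ̄[x]` (regular off the poles of `x`). -/
theorem gauss_exists_lift_of_isIntegral (hcart : Stmt_Cart N ℓ hℓN A hA)
    {x : modularFunctionFieldBar N} (hL : LineData N ℓ hℓN A hA x)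
    (g : modularFunctionFieldFullC (IsLocalRing.ResidueField A) N)
    (hg : IsIntegral (Algebra.adjoin (IsLocalRing.ResidueField A)
      {gaussRed N ℓ hℓN A hA ⟨x, hL.hx⟩}) g) :
    ∃ (f : modularFunctionFieldBar N) (hf : f ∈ gaussO N ℓ hℓN A hA),
      IsIntegral (Algebra.adjoin (AlgebraicClosure ℚ) {x}) f ∧
        gaussRed N ℓ hℓN A hA ⟨f, hf⟩ = g := by
  obtain ⟨d, γ, hdpos, hdeg, hRiemF, hfink, cK, hGapk⟩ := hL.genus
  have hx0 : x ≠ 0 := fun h => hL.htr (h ▸ isAlgebraic_zero)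
  have := helper4226.hasPrincipalDivisors_FN N
  have := helper4226.finiteDimensional_jBar_FN N
  have : FiniteDimensional (AlgebraicClosure ℚ)⟮x⟯ (modularFunctionFieldBar N) :=
    helper7885.finiteDimensional_adjoin_of_transcendental (Fermat.Agent.S24.helper24.jBar N) hL.htr
  obtain ⟨Xinf, X0, hXinf, hX0⟩ := exists_pole_zero_divisor (K := AlgebraicClosure ℚ) hx0
  have hdX : Divisor.degree Xinf = (d : ℤ) := hdeg Xinf hXinf
  have hdX0 : Divisor.degree X0 = (d : ℤ) := by
    rw [degree_zero_eq_degree_pole hx0 hXinf hX0, hdX]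
  obtain ⟨M, hM⟩ := exists_lift_of_isIntegral (gaussO N ℓ hℓN A hA) (gaussO_hVG N ℓ hℓN A hA)
    (gaussO_harch N ℓ hℓN A hA) (gaussRed N ℓ hℓN A hA) (gaussRed_eq_zero_iff N ℓ hℓN A hA)
    (gaussRed_const_surj N ℓ hℓN A hA) x hx0 hL.hx hL.hxi Xinf X0 hXinf hX0
    (chartIntegral_of_charZero x) (chartIntegral_inv_of_charZero x) hL.hIT hL.hIT'
    (d : ℤ) (by exact_mod_cast hdpos) hdX hdX0 hcart γ hRiemF hfink cK hGapk g hg
  obtain ⟨f, hfL, hf, hfg⟩ := hM M le_rfl
  exact ⟨f, hf, ((mem_riemannRochSpace_iff_isIntegral_of_charZero hx0 hXinf M f).mp hfL).1, hfg⟩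

/-- **(C) Lifting of the integral closure, chart `x⁻¹`.**  Every `g` integral over `k[x̄⁻¹]` is
the Gauss reduction of a Gauss-integral `f ∈ F̄_N` integral over `ℚ̄[x⁻¹]` (regular off the zeros
of `x`). -/
theorem gauss_exists_lift_of_isIntegral_inv (hcart : Stmt_Cart N ℓ hℓN A hA)
    {x : modularFunctionFieldBar N} (hL : LineData N ℓ hℓN A hA x)
    (g : modularFunctionFieldFullC (IsLocalRing.ResidueField A) N)
    (hg : IsIntegral (Algebra.adjoin (IsLocalRing.ResidueField A)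
      {(gaussRed N ℓ hℓN A hA ⟨x, hL.hx⟩)⁻¹}) g) :
    ∃ (f : modularFunctionFieldBar N) (hf : f ∈ gaussO N ℓ hℓN A hA),
      IsIntegral (Algebra.adjoin (AlgebraicClosure ℚ) {x⁻¹}) f ∧
        gaussRed N ℓ hℓN A hA ⟨f, hf⟩ = g := by
  obtain ⟨d, γ, hdpos, hdeg, hRiemF, hfink, cK, hGapk⟩ := hL.genus
  have hx0 : x ≠ 0 := fun h => hL.htr (h ▸ isAlgebraic_zero)
  have := helper4226.hasPrincipalDivisors_FN N
  have := helper4226.finiteDimensional_jBar_FN N
  have : FiniteDimensional (AlgebraicClosure ℚ)⟮x⟯ (modularFunctionFieldBar N) :=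
    helper7885.finiteDimensional_adjoin_of_transcendental (Fermat.Agent.S24.helper24.jBar N) hL.htr
  obtain ⟨Xinf, X0, hXinf, hX0⟩ := exists_pole_zero_divisor (K := AlgebraicClosure ℚ) hx0
  have hdX : Divisor.degree Xinf = (d : ℤ) := hdeg Xinf hXinf
  have hdX0 : Divisor.degree X0 = (d : ℤ) := by
    rw [degree_zero_eq_degree_pole hx0 hXinf hX0, hdX]
  obtain ⟨M, hM⟩ := exists_lift_of_isIntegral_inv (gaussO N ℓ hℓN A hA)
    (gaussO_hVG N ℓ hℓN A hA)
    (gaussO_harch N ℓ hℓN A hA) (gaussRed N ℓ hℓN A hA) (gaussRed_eq_zero_iff N ℓ hℓN A hA)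
    (gaussRed_const_surj N ℓ hℓN A hA) x hx0 hL.hx hL.hxi Xinf X0 hXinf hX0
    (chartIntegral_of_charZero x) (chartIntegral_inv_of_charZero x) hL.hIT hL.hIT'
    (d : ℤ) (by exact_mod_cast hdpos) hdX hdX0 hcart γ hRiemF hfink cK hGapk g hg
  obtain ⟨f, hfL, hf, hfg⟩ := hM M le_rfl
  have hC' : ChartIntegral (AlgebraicClosure ℚ) x⁻¹ := chartIntegral_inv_of_charZero x
  have hC'' : ChartIntegral (AlgebraicClosure ℚ) x⁻¹⁻¹ := by
    rw [inv_inv]; exact chartIntegral_of_charZero x
  exact ⟨f, hf,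
    ((mem_riemannRochSpace_iff_isIntegral (inv_ne_zero hx0) hX0.isPoleDivisor_inv hC' hC'' M
      f).mp hfL).1, hfg⟩

/-- **(C') The squeeze in chart-space form on BOTH fibres** (no divisors in the statement).  On a
base line `x` with `LineData` there are `d > 0`, `γ`, `cK` such that for `cK ≤ (a + b) d` the chart
spaces `chartSpace ℚ̄ x a b` and `chartSpace k x̄ a b` have the same dimension `(a + b) d + 1 - γ`
and the Gauss reduction maps `chartSpace ℚ̄ x a b ∩ O` ONTO `chartSpace k x̄ a b`. -/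
theorem gauss_surj_chartSpace (hcart : Stmt_Cart N ℓ hℓN A hA)
    {x : modularFunctionFieldBar N} (hL : LineData N ℓ hℓN A hA x) :
    ∃ (d : ℕ) (γ cK : ℤ), 0 < d ∧
      ∀ a b : ℕ, cK ≤ ((a : ℤ) + b) * d →
        (Module.finrank (IsLocalRing.ResidueField A)
          (chartSpace (IsLocalRing.ResidueField A) (gaussRed N ℓ hℓN A hA ⟨x, hL.hx⟩) a b) : ℤ)
            = ((a : ℤ) + b) * d + 1 - γ ∧
        (Module.finrank (AlgebraicClosure ℚ) (chartSpace (AlgebraicClosure ℚ) x a b) : ℤ)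
            = ((a : ℤ) + b) * d + 1 - γ ∧
        ∀ g ∈ chartSpace (IsLocalRing.ResidueField A) (gaussRed N ℓ hℓN A hA ⟨x, hL.hx⟩) a b,
          ∃ f ∈ chartSpace (AlgebraicClosure ℚ) x a b, ∃ hf : f ∈ gaussO N ℓ hℓN A hA,
            gaussRed N ℓ hℓN A hA ⟨f, hf⟩ = g := by
  obtain ⟨d, γ, hdpos, hdeg, hRiemF, hfink, cK, hGapk⟩ := hL.genus
  have hx0 : x ≠ 0 := fun h => hL.htr (h ▸ isAlgebraic_zero)
  have := helper4226.hasPrincipalDivisors_FN N
  have := helper4226.finiteDimensional_jBar_FN N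
  have : FiniteDimensional (AlgebraicClosure ℚ)⟮x⟯ (modularFunctionFieldBar N) :=
    helper7885.finiteDimensional_adjoin_of_transcendental (Fermat.Agent.S24.helper24.jBar N) hL.htr
  obtain ⟨Xinf, X0, hXinf, hX0⟩ := exists_pole_zero_divisor (K := AlgebraicClosure ℚ) hx0
  have hdX : Divisor.degree Xinf = (d : ℤ) := hdeg Xinf hXinf
  have hdX0 : Divisor.degree X0 = (d : ℤ) := by
    rw [degree_zero_eq_degree_pole hx0 hXinf hX0, hdX]
  refine ⟨d, γ, cK, hdpos, fun a b hab => ?_⟩
  have hdict := riemannRochSpace_eq_chartSpace hx0 hXinf hX0 (chartIntegral_of_charZero x)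
    (chartIntegral_inv_of_charZero x) a b
  obtain ⟨h1, h2⟩ := surj_finrank_chartSpace (gaussO N ℓ hℓN A hA) (gaussO_hVG N ℓ hℓN A hA)
    (gaussO_harch N ℓ hℓN A hA) (gaussRed N ℓ hℓN A hA) (gaussRed_eq_zero_iff N ℓ hℓN A hA)
    (gaussRed_const_surj N ℓ hℓN A hA) x hx0 hL.hx hL.hxi Xinf X0 hXinf hX0
    (chartIntegral_of_charZero x) (chartIntegral_inv_of_charZero x) hL.hIT hL.hIT'
    (d : ℤ) (by exact_mod_cast hdpos) hdX hdX0 hcart γ hRiemF hfink cK hGapk a b hab
  have h3 := finrank_rr_eq (gaussO N ℓ hℓN A hA) (gaussO_hVG N ℓ hℓN A hA)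
    (gaussRed N ℓ hℓN A hA) (gaussRed_eq_zero_iff N ℓ hℓN A hA)
    (gaussRed_const_surj N ℓ hℓN A hA) x hx0 hL.hx hL.hxi Xinf X0 hXinf hX0
    (chartIntegral_of_charZero x) (chartIntegral_inv_of_charZero x) hL.hIT hL.hIT'
    (d : ℤ) hdX hdX0 hcart γ hRiemF hfink cK hGapk a b hab
  rw [hdict] at h3
  refine ⟨h1, h3, fun g hg => ?_⟩
  obtain ⟨f, hfL, hf, hfg⟩ := h2 g hg
  exact ⟨f, hdict ▸ hfL, hf, hfg⟩

/-- **Containment** (all `a`, `b`): the Gauss reduction of `chartSpace ℚ̄ x a b ∩ O` lies in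
`chartSpace k x̄ a b`. -/
theorem gauss_red_mem_chartSpace {x : modularFunctionFieldBar N} (hL : LineData N ℓ hℓN A hA x)
    (a b : ℕ) {f : modularFunctionFieldBar N} (hf : f ∈ gaussO N ℓ hℓN A hA)
    (hfc : f ∈ chartSpace (AlgebraicClosure ℚ) x a b) :
    gaussRed N ℓ hℓN A hA ⟨f, hf⟩ ∈
      chartSpace (IsLocalRing.ResidueField A) (gaussRed N ℓ hℓN A hA ⟨x, hL.hx⟩) a b := by
  have hx0 : x ≠ 0 := fun h => hL.htr (h ▸ isAlgebraic_zero)
  exact red_mem_chartSpace (gaussO N ℓ hℓN A hA) (gaussRed N ℓ hℓN A hA)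
    hx0 hL.hx hL.hxi hL.hIT hL.hIT' a b hf hfc

/-- **(C) The image of the chart ring is the integral closure.**  For a base line `x` with
`LineData`: an element `g` of the special-fibre function field is integral over `k[x̄]` if and
only if it is the Gauss reduction of a Gauss-integral `f ∈ F̄_N` integral over `ℚ̄[x]`.  So the
image of `{f ∈ O : f integral over ℚ̄[x]}` under the reduction is the integral closure of `k[x̄]`
in the residue function field — an integrally closed domain. -/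
theorem gauss_isIntegral_iff_exists_lift (hcart : Stmt_Cart N ℓ hℓN A hA)
    {x : modularFunctionFieldBar N} (hL : LineData N ℓ hℓN A hA x)
    (g : modularFunctionFieldFullC (IsLocalRing.ResidueField A) N) :
    IsIntegral (Algebra.adjoin (IsLocalRing.ResidueField A)
      {gaussRed N ℓ hℓN A hA ⟨x, hL.hx⟩}) g ↔
    ∃ (f : modularFunctionFieldBar N) (hf : f ∈ gaussO N ℓ hℓN A hA),
      IsIntegral (Algebra.adjoin (AlgebraicClosure ℚ) {x}) f ∧
        gaussRed N ℓ hℓN A hA ⟨f, hf⟩ = g := by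
  refine ⟨gauss_exists_lift_of_isIntegral N ℓ hℓN A hA hcart hL g, ?_⟩
  rintro ⟨f, hf, hfi, rfl⟩
  exact hL.hIT f hf hfi

/-- The same on the chart `x⁻¹`. -/
theorem gauss_isIntegral_inv_iff_exists_lift (hcart : Stmt_Cart N ℓ hℓN A hA)
    {x : modularFunctionFieldBar N} (hL : LineData N ℓ hℓN A hA x)
    (g : modularFunctionFieldFullC (IsLocalRing.ResidueField A) N) :
    IsIntegral (Algebra.adjoin (IsLocalRing.ResidueField A)
      {(gaussRed N ℓ hℓN A hA ⟨x, hL.hx⟩)⁻¹}) g ↔
    ∃ (f : modularFunctionFieldBar N) (hf : f ∈ gaussO N ℓ hℓN A hA),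
      IsIntegral (Algebra.adjoin (AlgebraicClosure ℚ) {x⁻¹}) f ∧
        gaussRed N ℓ hℓN A hA ⟨f, hf⟩ = g := by
  refine ⟨gauss_exists_lift_of_isIntegral_inv N ℓ hℓN A hA hcart hL g, ?_⟩
  rintro ⟨f, hf, hfi, rfl⟩
  exact hL.hIT' f hf hfi

/-! ## (D): the lift is integral over `A[x]` -/

/-- The ring hom `A[X] → F̄_N`, `X ↦ t` (its range is the chart coordinate ring `A[t]`). -/
def evalInt (t : modularFunctionFieldBar N) : Polynomial A →+* modularFunctionFieldBar N :=
  Polynomial.eval₂RingHom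
    ((algebraMap (AlgebraicClosure ℚ) (modularFunctionFieldBar N)).comp A.subtype) t

/-- **(D) Chart integrality at the Gauss valuation.**  `t` residually transcendental with
`j ∈ ℚ̄(t)` (a Hauptmodul line, or `t = j`): a Gauss-integral `f ∈ F̄_N` that is integral over
`ℚ̄[t]` is integral over `A[t]` (a root of a monic polynomial with coefficients in the range of
`evalInt A t : A[X] → F̄_N`). -/
theorem gauss_isIntegralElem_of_isIntegral {t : modularFunctionFieldBar N}
    (ht : helper1733.ResTranscendental (gaussO N ℓ hℓN A hA).valuation (AlgebraicClosure ℚ) t)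
    (hj : helper1733.gaussJ (AlgebraicClosure ℚ) N ∈ (AlgebraicClosure ℚ)⟮t⟯)
    {f : modularFunctionFieldBar N} (hf : f ∈ gaussO N ℓ hℓN A hA)
    (hfi : IsIntegral (Algebra.adjoin (AlgebraicClosure ℚ) {t}) f) :
    (evalInt N A t).IsIntegralElem f := by
  classical
  obtain ⟨e, -, he, hspan⟩ := helper1733.gauss_exists_orthoSys_of_mem_adjoin N ℓ hℓN A hA ht hj
  set bb : Module.Basis _ (AlgebraicClosure ℚ)⟮t⟯ (modularFunctionFieldBar N) :=
    Module.Basis.mk he.linearIndependent hspan.ge with hbb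
  have hbb' : helper1733.IsOrtho (gaussO N ℓ hℓN A hA).valuation (AlgebraicClosure ℚ)⟮t⟯ bb := by
    have : (bb : _ → modularFunctionFieldBar N) = e := Module.Basis.coe_mk _ _
    rw [this]
    exact he
  obtain ⟨P, hPmonic, hPcoeff, hProot⟩ := helper1733.exists_monic_of_isIntegral ht bb hbb' hfi
    (((gaussO N ℓ hℓN A hA).valuation_le_one_iff f).mpr hf)
  have hPlift : P ∈ Polynomial.lifts (Polynomial.mapRingHom A.subtype) := by
    rw [Polynomial.lifts_iff_coeff_lifts]
    intro i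
    have : P.coeff i ∈ Polynomial.lifts A.subtype := by
      rw [Polynomial.lifts_iff_coeff_lifts]
      intro n
      have h2 : (P.coeff i).coeff n ∈ A :=
        (gaussO_algebraMap_mem_iff N ℓ hℓN A hA _).mp
          (((gaussO N ℓ hℓN A hA).valuation_le_one_iff _).mp (hPcoeff i n))
      exact ⟨⟨_, h2⟩, rfl⟩
    obtain ⟨q, hq⟩ := (Polynomial.mem_lifts _).mp this
    exact ⟨q, hq⟩
  obtain ⟨PA, hPA, -, hPAmonic⟩ := Polynomial.lifts_and_degree_eq_and_monic hPlift hPmonic
  refine ⟨PA, hPAmonic, ?_⟩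
  have hcomp : evalInt N A t =
      (((Polynomial.aeval t : Polynomial (AlgebraicClosure ℚ) →ₐ[AlgebraicClosure ℚ]
        modularFunctionFieldBar N) : Polynomial (AlgebraicClosure ℚ) →+*
          modularFunctionFieldBar N)).comp (Polynomial.mapRingHom A.subtype) := by
    refine Polynomial.ringHom_ext (fun a => ?_) ?_
    · simp [evalInt]
    · simp [evalInt]
  rw [hcomp, ← Polynomial.eval₂_map, hPA, ← Polynomial.eval_map]
  exact hProot

/-- **(C)+(D) The S18 export of (LP)(b), final form.**  `t` residually transcendental with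
`j ∈ ℚ̄(t)` and `LineData`: every element `g` of the special-fibre function field integral over
`k[t̄]` is the Gauss reduction of some `f ∈ F̄_N` integral over `A[t]`. -/
theorem gauss_exists_lift_isIntegralElem (hcart : Stmt_Cart N ℓ hℓN A hA)
    {t : modularFunctionFieldBar N}
    (ht : helper1733.ResTranscendental (gaussO N ℓ hℓN A hA).valuation (AlgebraicClosure ℚ) t)
    (hj : helper1733.gaussJ (AlgebraicClosure ℚ) N ∈ (AlgebraicClosure ℚ)⟮t⟯)
    (hL : LineData N ℓ hℓN A hA t)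
    (g : modularFunctionFieldFullC (IsLocalRing.ResidueField A) N)
    (hg : IsIntegral (Algebra.adjoin (IsLocalRing.ResidueField A)
      {gaussRed N ℓ hℓN A hA ⟨t, hL.hx⟩}) g) :
    ∃ (f : modularFunctionFieldBar N) (hf : f ∈ gaussO N ℓ hℓN A hA),
      (evalInt N A t).IsIntegralElem f ∧ gaussRed N ℓ hℓN A hA ⟨f, hf⟩ = g := by
  obtain ⟨f, hf, hfi, hfg⟩ := gauss_exists_lift_of_isIntegral N ℓ hℓN A hA hcart hL g hg
  exact ⟨f, hf, gauss_isIntegralElem_of_isIntegral N ℓ hℓN A hA ht hj hf hfi, hfg⟩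

/-! ## Named instances: the Hauptmodul lines `t_2`, `t_3` -/

/-- **The `t_2`-line** (`2 ∣ N`, `ℓ ∤ N`): every `g` integral over `k[t̄_2]` is the Gauss reduction
of some `f ∈ F̄_N` integral over `A[t_2]`. -/
theorem t2_exists_lift (h2N : 2 ∣ N)
    (g : modularFunctionFieldFullC (IsLocalRing.ResidueField A) N)
    (hg : IsIntegral (Algebra.adjoin (IsLocalRing.ResidueField A)
      {gaussRed N ℓ hℓN A hA ⟨helper4665.gaussT2 (AlgebraicClosure ℚ) N h2N,
        helper4665.gaussT2_mem N ℓ hℓN A hA h2N⟩}) g) :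
    ∃ (f : modularFunctionFieldBar N) (hf : f ∈ gaussO N ℓ hℓN A hA),
      (evalInt N A (helper4665.gaussT2 (AlgebraicClosure ℚ) N h2N)).IsIntegralElem f ∧
        gaussRed N ℓ hℓN A hA ⟨f, hf⟩ = g :=
  gauss_exists_lift_isIntegralElem N ℓ hℓN A hA (helper789.stmt_Cart_gauss N ℓ hℓN A hA)
    (helper4665.gauss_resTranscendental_t2 N ℓ hℓN A hA h2N)
    (helper4665.gaussJ_mem_adjoin_gaussT2 N h2N) (helper789.lineData_t2 N ℓ hℓN A hA h2N) g hg

/-- **The `t_3`-line** (`3 ∣ N`, `ℓ ∤ N`): every `g` integral over `k[t̄_3]` is the Gauss reduction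
of some `f ∈ F̄_N` integral over `A[t_3]`. -/
theorem t3_exists_lift (h3N : 3 ∣ N)
    (g : modularFunctionFieldFullC (IsLocalRing.ResidueField A) N)
    (hg : IsIntegral (Algebra.adjoin (IsLocalRing.ResidueField A)
      {gaussRed N ℓ hℓN A hA ⟨helper4665.gaussT3 (AlgebraicClosure ℚ) N h3N,
        helper4665.gaussT3_mem N ℓ hℓN A hA h3N⟩}) g) :
    ∃ (f : modularFunctionFieldBar N) (hf : f ∈ gaussO N ℓ hℓN A hA),
      (evalInt N A (helper4665.gaussT3 (AlgebraicClosure ℚ) N h3N)).IsIntegralElem f ∧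
        gaussRed N ℓ hℓN A hA ⟨f, hf⟩ = g :=
  gauss_exists_lift_isIntegralElem N ℓ hℓN A hA (helper789.stmt_Cart_gauss N ℓ hℓN A hA)
    (helper4665.gauss_resTranscendental_t3 N ℓ hℓN A hA h3N)
    (helper4665.gaussJ_mem_adjoin_gaussT3 N h3N) (helper789.lineData_t3 N ℓ hℓN A hA h3N) g hg

/-- **The `t_2`-line, chart-space form** (`2 ∣ N`, `ℓ ∤ N`), unconditional. -/
theorem t2_surj_chartSpace (h2N : 2 ∣ N) :
    ∃ (d : ℕ) (γ cK : ℤ), 0 < d ∧
      ∀ a b : ℕ, cK ≤ ((a : ℤ) + b) * d →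
        (Module.finrank (IsLocalRing.ResidueField A)
          (chartSpace (IsLocalRing.ResidueField A)
            (gaussRed N ℓ hℓN A hA ⟨helper4665.gaussT2 (AlgebraicClosure ℚ) N h2N,
              helper4665.gaussT2_mem N ℓ hℓN A hA h2N⟩) a b) : ℤ)
            = ((a : ℤ) + b) * d + 1 - γ ∧
        (Module.finrank (AlgebraicClosure ℚ) (chartSpace (AlgebraicClosure ℚ)
            (helper4665.gaussT2 (AlgebraicClosure ℚ) N h2N) a b) : ℤ)
            = ((a : ℤ) + b) * d + 1 - γ ∧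
        ∀ g ∈ chartSpace (IsLocalRing.ResidueField A)
            (gaussRed N ℓ hℓN A hA ⟨helper4665.gaussT2 (AlgebraicClosure ℚ) N h2N,
              helper4665.gaussT2_mem N ℓ hℓN A hA h2N⟩) a b,
          ∃ f ∈ chartSpace (AlgebraicClosure ℚ) (helper4665.gaussT2 (AlgebraicClosure ℚ) N h2N) a b,
            ∃ hf : f ∈ gaussO N ℓ hℓN A hA, gaussRed N ℓ hℓN A hA ⟨f, hf⟩ = g :=
  gauss_surj_chartSpace N ℓ hℓN A hA (helper789.stmt_Cart_gauss N ℓ hℓN A hA)
    (helper789.lineData_t2 N ℓ hℓN A hA h2N)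

/-- **The `t_3`-line, chart-space form** (`3 ∣ N`, `ℓ ∤ N`), unconditional. -/
theorem t3_surj_chartSpace (h3N : 3 ∣ N) :
    ∃ (d : ℕ) (γ cK : ℤ), 0 < d ∧
      ∀ a b : ℕ, cK ≤ ((a : ℤ) + b) * d →
        (Module.finrank (IsLocalRing.ResidueField A)
          (chartSpace (IsLocalRing.ResidueField A)
            (gaussRed N ℓ hℓN A hA ⟨helper4665.gaussT3 (AlgebraicClosure ℚ) N h3N,
              helper4665.gaussT3_mem N ℓ hℓN A hA h3N⟩) a b) : ℤ)
            = ((a : ℤ) + b) * d + 1 - γ ∧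
        (Module.finrank (AlgebraicClosure ℚ) (chartSpace (AlgebraicClosure ℚ)
            (helper4665.gaussT3 (AlgebraicClosure ℚ) N h3N) a b) : ℤ)
            = ((a : ℤ) + b) * d + 1 - γ ∧
        ∀ g ∈ chartSpace (IsLocalRing.ResidueField A)
            (gaussRed N ℓ hℓN A hA ⟨helper4665.gaussT3 (AlgebraicClosure ℚ) N h3N,
              helper4665.gaussT3_mem N ℓ hℓN A hA h3N⟩) a b,
          ∃ f ∈ chartSpace (AlgebraicClosure ℚ) (helper4665.gaussT3 (AlgebraicClosure ℚ) N h3N) a b,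
            ∃ hf : f ∈ gaussO N ℓ hℓN A hA, gaussRed N ℓ hℓN A hA ⟨f, hf⟩ = g :=
  gauss_surj_chartSpace N ℓ hℓN A hA (helper789.stmt_Cart_gauss N ℓ hℓN A hA)
    (helper789.lineData_t3 N ℓ hℓN A hA h3N)

end Modular

end Fermat.Agent.S36.helper6292
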