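import Fermat.Agent.S36.helper6414_PhiShapeInst

/-!
# S36-PHISHAPE, twisted relations (helper6414)

The modular equation of level `p` with its Kronecker shape, for the pairs
`(j(q^d), j(q^(d p)))`, every `d ≥ 1`, over every commutative ring: the `V_d`-translates of
`Φ(j, j_p) = 0 = Φ(j_p, j)`.  (`d = 1, 2, 4` resp. `d = 1, 3, 9` are the relations between the
`j`-invariants attached to a Hauptmodul of level `4` resp. `9` and its `V_p`-translate.)

* `exists_primeRel_shape_twist` : one `Φ` (monic, degree `p + 1`, Kronecker shape) with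
  `Φ(j_d, j_{d p}) = 0 = Φ(j_{d p}, j_d)` for every `R` and every `d`.
-/

set_option autoImplicit false

open ModularCurve Polynomial

namespace Fermat.Agent.S36.helper6414

open Fermat.Agent.S37.helper9343 (evalZ map_eval_map_evalZ)

noncomputable section

/-- **The modular equation of level `p` for the pairs `(j_d, j_{d p})`**, with the Kronecker
shape. -/
theorem exists_primeRel_shape_twist (p : ℕ) [NeZero p] (hp : p.Prime) :
    ∃ Φ : Polynomial (Polynomial ℤ), Φ.Monic ∧ Φ.natDegree = p + 1 ∧ KroneckerShape p Φ ∧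
      ∀ (R : Type) [CommRing R] (d : ℕ) [NeZero d],
        (Φ.map (Fermat.Agent.S28.helper328.evalJ (qExpand R d (jqModC R)))).eval
            (qExpand R (d * p) (jqModC R)) = 0 ∧
        (Φ.map (Fermat.Agent.S28.helper328.evalJ (qExpand R (d * p) (jqModC R)))).eval
            (qExpand R d (jqModC R)) = 0 := by
  have : Fact p.Prime := ⟨hp⟩
  obtain ⟨Φ, hΦm, hΦdeg, hrel, hshape⟩ := exists_primeRel_shape p
  refine ⟨Φ, hΦm, hΦdeg, hshape, fun R _ d _ => ?_⟩
  obtain ⟨hF1, hF2⟩ := hrel R
  have h1 : (Φ.map (evalZ (jqModC R))).eval (qExpand R p (jqModC R)) = 0 := hF1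
  have h2 : (Φ.map (evalZ (qExpand R p (jqModC R)))).eval (jqModC R) = 0 := hF2
  have h3 := congrArg (qExpand R d) h1
  have h4 := congrArg (qExpand R d) h2
  rw [map_eval_map_evalZ, map_zero, qExpand_qExpand] at h3 h4
  exact ⟨h3, h4⟩

end

end Fermat.Agent.S36.helper6414
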