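import Fermat.Agent.S37.helper1588_FFK
import Fermat.Agent.S36.helper6414_KronBox
import Fermat.Agent.S36.helper6414_PhiShapeTwist

/-!
# S36-PHISHAPE, the relations in `F_{M,K}` (helper6414)

The modular equation of level `p` (with its Kronecker shape) and the Kronecker relations with
remainder in the box, between the elements `j(q^d)`, `j(q^(d p))` of
`F_{M,K} = laurentBaseChange K (modularFunctionFieldFull M)`, for EVERY field `K ⊇ ℚ`
(e.g. `K = ℚ̄^I`) and every `d` with `d * p ∣ M`.  Vocabulary: `S37.helper1588.jK`, `jKd`.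

* `eval_eq_zero_of_coe_FK`, `kronRel_FK_iff` : relations in `F_{M,K}` can be checked on
  `q`-expansions;
* `jKd_one` : `jKd K M 1 _ = jK K M`;
* `exists_modularEquation_shape_FK` : one `Φ` (monic, degree `p + 1`, Kronecker shape) with
  `Φ(j_d, j_{d p}) = 0 = Φ(j_{d p}, j_d)` in every `F_{M,K}`;
* `exists_kronRemainder_FK` : one `G` (box bounds, vanishing `X ^ p * Y ^ p` coefficient) with
  `KronRel p G.coeff j_{d p} j_d` and `KronRel p G.coeff j_d j_{d p}` in every `F_{M,K}`.
-/

set_option autoImplicit false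

open ModularCurve Polynomial

namespace Fermat.Agent.S36.helper6414

open Fermat.Agent.S37.helper1588 (jK jKd)
open Fermat.Agent.S37.helper9343 (evalZ map_eval_map_evalZ)

noncomputable section

section Generic

variable (K : Type*) [Field K] [Algebra ℚ K] (M : ℕ)

/-- A two-variable integer relation between elements of `F_{M,K}` can be checked on
`q`-expansions. -/
theorem eval_eq_zero_of_coe_FK (Φ : Polynomial (Polynomial ℤ))
    (a b : laurentBaseChange K (modularFunctionFieldFull M))
    (h : (Φ.map (evalZ (a : LaurentSeries K))).eval (b : LaurentSeries K) = 0) :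
    (Φ.map (evalZ a)).eval b = 0 := by
  apply Subtype.ext
  have h1 := map_eval_map_evalZ
    ((laurentBaseChange K (modularFunctionFieldFull M)).val :
      laurentBaseChange K (modularFunctionFieldFull M) →+* LaurentSeries K) Φ a b
  exact h1.trans h

/-- A Kronecker relation between elements of `F_{M,K}` can be checked on `q`-expansions. -/
theorem kronRel_FK_iff (p : ℕ) (g : ℕ → Polynomial ℤ)
    (a b : laurentBaseChange K (modularFunctionFieldFull M)) :
    KronRel p g a b ↔ KronRel p g (a : LaurentSeries K) (b : LaurentSeries K) :=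
  ⟨fun h => h.map ((laurentBaseChange K (modularFunctionFieldFull M)).val :
      laurentBaseChange K (modularFunctionFieldFull M) →+* LaurentSeries K),
    fun h => KronRel.of_map ((laurentBaseChange K (modularFunctionFieldFull M)).val :
      laurentBaseChange K (modularFunctionFieldFull M) →+* LaurentSeries K)
      Subtype.val_injective h⟩

/-- `j(q^1) = j`. -/
theorem jKd_one (h : 1 ∣ M) : jKd K M 1 h = jK K M :=
  Subtype.ext (qExpand_one_apply (jqModC K))

end Generic

/-- **The modular equation of level `p` in `F_{M,K}`, with the Kronecker shape**: one `Φ` with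
`Φ(j_d, j_{d p}) = 0 = Φ(j_{d p}, j_d)` for every field `K ⊇ ℚ`, every level `M` and every `d`
with `d * p ∣ M`. -/
theorem exists_modularEquation_shape_FK (p : ℕ) [NeZero p] (hp : p.Prime) :
    ∃ Φ : Polynomial (Polynomial ℤ), Φ.Monic ∧ Φ.natDegree = p + 1 ∧ KroneckerShape p Φ ∧
      ∀ (K : Type) [Field K] [Algebra ℚ K] (M d : ℕ) [NeZero d] (hd : d * p ∣ M),
        (Φ.map (evalZ (jKd K M d ((dvd_mul_right d p).trans hd)))).eval (jKd K M (d * p) hd) = 0 ∧
        (Φ.map (evalZ (jKd K M (d * p) hd))).eval (jKd K M d ((dvd_mul_right d p).trans hd)) = 0 := by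
  obtain ⟨Φ, hΦm, hΦdeg, hshape, hrel⟩ := exists_primeRel_shape_twist p hp
  refine ⟨Φ, hΦm, hΦdeg, hshape, fun K _ _ M d _ hd => ?_⟩
  obtain ⟨h1, h2⟩ := hrel K d
  exact ⟨eval_eq_zero_of_coe_FK K M Φ _ _ h1, eval_eq_zero_of_coe_FK K M Φ _ _ h2⟩

/-- **The Kronecker relations with remainder in the box, in `F_{M,K}`**: one `G ∈ ℤ[X][Y]` of
degree `≤ p` in `Y`, with coefficients of degree `≤ p` in `X` and vanishing coefficient of
`X ^ p * Y ^ p`, such that `(y ^ p - x) * (y - x ^ p) + p * G(x, y) = 0` for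
`(y, x) = (j_{d p}, j_d)` and `(j_d, j_{d p})`, for every field `K ⊇ ℚ`, every level `M` and
every `d` with `d * p ∣ M`. -/
theorem exists_kronRemainder_FK (p : ℕ) [NeZero p] (hp : p.Prime) :
    ∃ G : Polynomial (Polynomial ℤ), G.natDegree ≤ p ∧ (∀ a, (G.coeff a).natDegree ≤ p) ∧
      (G.coeff p).coeff p = 0 ∧
      ∀ (K : Type) [Field K] [Algebra ℚ K] (M d : ℕ) [NeZero d] (hd : d * p ∣ M),
        KronRel p (fun a => G.coeff a) (jKd K M (d * p) hd)
          (jKd K M d ((dvd_mul_right d p).trans hd)) ∧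
        KronRel p (fun a => G.coeff a) (jKd K M d ((dvd_mul_right d p).trans hd))
          (jKd K M (d * p) hd) := by
  obtain ⟨G, hGd, hGc, hpp, hrel⟩ := exists_kronRemainder_twist p hp
  refine ⟨G, hGd, hGc, hpp, fun K _ _ M d _ hd => ?_⟩
  obtain ⟨k1, k2⟩ := hrel K d
  exact ⟨(kronRel_FK_iff K M p _ _ _).mpr k1, (kronRel_FK_iff K M p _ _ _).mpr k2⟩

end

end Fermat.Agent.S36.helper6414
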