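import Fermat.Agent.S36.helper5229_CuspKit
import Fermat.Agent.S36.helper6414_KronFK

/-!
# S36-PHISHAPE → CUSP-LP seam (helper6414): `helper5229.CuspCore` in `F_{M,K}`

The hypotheses `shape`, `j_ne`, `jq_ne`, `jqq_ne`, `rel1` … `rel4` of `helper5229.CuspCore` hold
for `j = jK K M`, `jq = jKd K M q`, `jqq = jKd K M (q * q)` in
`F_{M,K} = laurentBaseChange K (modularFunctionFieldFull M)`, every field `K ⊇ ℚ`, `q² ∣ M`: what
is left of `CuspCore` is the local ring (`isLocal`, `intClosed`) and the cusp condition.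

* `kronShape_of_kroneckerShape` : `helper6414.KroneckerShape` gives `helper5229.KronShape`;
* `jK_ne_zero`, `jKd_ne_zero`, `jKd_congr`;
* `exists_cuspCore_FK` : one `Φ` for all `K`, `M`, `O`;
* `exists_cuspCore_FK_both` : the same `Φ` also at level `q` (`CuspCore q O Φ j j_q j`, `q ∣ M`).
-/

set_option autoImplicit false

open ModularCurve Polynomial

namespace Fermat.Agent.S36.helper6414

open Fermat.Agent.S37.helper1588 (jK jKd)
open Fermat.Agent.S37.helper9343 (evalZ)
open Fermat.Agent.S36.helper5229 (KronShape CuspCore NonUnit IsLocalSub IntClosedIn)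

noncomputable section

/-- The shape proved in `helper6414_PhiShape` implies the weighted shape of `helper5229_CuspKit`. -/
theorem kronShape_of_kroneckerShape {p : ℕ} (hp : 1 ≤ p) {Φ : Polynomial (Polynomial ℤ)}
    (hm : Φ.Monic) (hd : Φ.natDegree = p + 1) (hs : KroneckerShape p Φ) : KronShape p Φ := by
  obtain ⟨-, h0d, hmid, -⟩ := hs
  refine ⟨hm, hd, fun k hk => ?_⟩
  by_cases hk0 : k = 0
  · subst hk0
    rw [h0d, Nat.sub_zero]
    exact Nat.le_mul_of_pos_left _ (by omega)
  · exact (hmid k (by omega) hk).trans (Nat.le_mul_of_pos_right _ (by omega))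

section Elements

variable (K : Type*) [Field K] [Algebra ℚ K] (M : ℕ)

theorem jK_ne_zero : jK K M ≠ 0 := by
  intro h
  have h1 := congrArg (Subtype.val) h
  exact jqModC_ne_zero_of_nontrivial K h1

theorem jKd_ne_zero (d : ℕ) [NeZero d] (hd : d ∣ M) : jKd K M d hd ≠ 0 := by
  intro h
  have h1 : qExpand K d (jqModC K) = 0 := congrArg (Subtype.val) h
  rw [← map_zero (qExpand K d)] at h1
  exact jqModC_ne_zero_of_nontrivial K (qExpand_injective d h1)

theorem jKd_congr {d d' : ℕ} [NeZero d] [NeZero d'] (h : d = d') (hd : d ∣ M) (hd' : d' ∣ M) :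
    jKd K M d hd = jKd K M d' hd' := by
  subst h
  rfl

end Elements

/-- **`helper5229.CuspCore` in `F_{M,K}`**: one `Φ` of Kronecker shape such that, for every field
`K ⊇ ℚ`, every `M` with `q² ∣ M` and every local subring `O` of `F_{M,K}`, integrally closed in
`F_{M,K}`, in which `1/j` is a non-unit, `CuspCore q O Φ j j_q j_{q²}` holds. -/
theorem exists_cuspCore_FK (q : ℕ) [NeZero q] (hq : q.Prime) :
    ∃ Φ : Polynomial (Polynomial ℤ), KronShape q Φ ∧
      ∀ (K : Type) [Field K] [Algebra ℚ K] (M : ℕ) (hM : q * q ∣ M)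
        (O : Subring (laurentBaseChange K (modularFunctionFieldFull M))),
        IsLocalSub O → IntClosedIn O → NonUnit O (jK K M)⁻¹ →
        CuspCore q O Φ (jK K M) (jKd K M q ((dvd_mul_left q q).trans hM))
          (jKd K M (q * q) hM) := by
  obtain ⟨Φ, hΦm, hΦd, hs, hrel⟩ := exists_modularEquation_shape_FK q hq
  have hshape := kronShape_of_kroneckerShape hq.one_le hΦm hΦd hs
  refine ⟨Φ, hshape, fun K _ _ M hM O hloc hic hcusp => ?_⟩
  have hqM : q ∣ M := (dvd_mul_left q q).trans hM
  obtain ⟨r1, r2⟩ := hrel K M 1 (by rw [one_mul]; exact hqM)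
  obtain ⟨r3, r4⟩ := hrel K M q hM
  rw [jKd_one, jKd_congr K M (one_mul q) _ hqM] at r1 r2
  exact
    { isLocal := hloc
      intClosed := hic
      shape := hshape
      j_ne := jK_ne_zero K M
      jq_ne := jKd_ne_zero K M q hqM
      jqq_ne := jKd_ne_zero K M (q * q) hM
      rel1 := r1
      rel2 := r2
      rel3 := r3
      rel4 := r4
      cusp := hcusp }

/-- **`helper5229.CuspCore` in `F_{M,K}`, levels `q` and `q²` with the same `Φ`**: the level-`q²`
statement of `exists_cuspCore_FK` together with its level-`q` form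
`CuspCore q O Φ j j_q j` (`jqq := j`; only `q ∣ M` is needed), which feeds the incidence lemmas
of `helper5229_CuspKit` at the cusps of level `q M''`. -/
theorem exists_cuspCore_FK_both (q : ℕ) [NeZero q] (hq : q.Prime) :
    ∃ Φ : Polynomial (Polynomial ℤ), KronShape q Φ ∧
      (∀ (K : Type) [Field K] [Algebra ℚ K] (M : ℕ) (hM : q * q ∣ M)
        (O : Subring (laurentBaseChange K (modularFunctionFieldFull M))),
        IsLocalSub O → IntClosedIn O → NonUnit O (jK K M)⁻¹ →
        CuspCore q O Φ (jK K M) (jKd K M q ((dvd_mul_left q q).trans hM))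
          (jKd K M (q * q) hM)) ∧
      ∀ (K : Type) [Field K] [Algebra ℚ K] (M : ℕ) (hM : q ∣ M)
        (O : Subring (laurentBaseChange K (modularFunctionFieldFull M))),
        IsLocalSub O → IntClosedIn O → NonUnit O (jK K M)⁻¹ →
        CuspCore q O Φ (jK K M) (jKd K M q hM) (jK K M) := by
  obtain ⟨Φ, hΦm, hΦd, hs, hrel⟩ := exists_modularEquation_shape_FK q hq
  have hshape := kronShape_of_kroneckerShape hq.one_le hΦm hΦd hs
  refine ⟨Φ, hshape, fun K _ _ M hM O hloc hic hcusp => ?_,
    fun K _ _ M hM O hloc hic hcusp => ?_⟩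
  · have hqM : q ∣ M := (dvd_mul_left q q).trans hM
    obtain ⟨r1, r2⟩ := hrel K M 1 (by rw [one_mul]; exact hqM)
    obtain ⟨r3, r4⟩ := hrel K M q hM
    rw [jKd_one, jKd_congr K M (one_mul q) _ hqM] at r1 r2
    exact
      { isLocal := hloc
        intClosed := hic
        shape := hshape
        j_ne := jK_ne_zero K M
        jq_ne := jKd_ne_zero K M q hqM
        jqq_ne := jKd_ne_zero K M (q * q) hM
        rel1 := r1
        rel2 := r2
        rel3 := r3
        rel4 := r4
        cusp := hcusp }
  · obtain ⟨r1, r2⟩ := hrel K M 1 (by rw [one_mul]; exact hM)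
    rw [jKd_one, jKd_congr K M (one_mul q) _ hM] at r1 r2
    exact
      { isLocal := hloc
        intClosed := hic
        shape := hshape
        j_ne := jK_ne_zero K M
        jq_ne := jKd_ne_zero K M q hM
        jqq_ne := jK_ne_zero K M
        rel1 := r1
        rel2 := r2
        rel3 := r2
        rel4 := r1
        cusp := hcusp }

end

end Fermat.Agent.S36.helper6414
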