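/-
S36-F2-DERIV (helper6739): thickness one at the nodes of level `p * M`, ABSTRACT CORE.

Mathlib only.  `Ω` is a field containing a field `k` of characteristic `p` (in the application
`Ω = k((x))`, the target of the reduction of `q`-expansions at the cusp `∞`), `D` a `k`-derivation
of `Ω` with `D J = 1` (`D = (θ J)⁻¹ θ`, `J` the reduction of the Hauptmodul), and

* `H`  = the reduction of `h = (t ^ p - t (x ^ p)) / p`, so `D H = J ^ (p - 1) - T⁻¹`;
* `T`  = the reduction of `c = θ t / (θ t)(x ^ p)`, i.e. `T = (θ J) ^ (1 - p)`;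
* `H ∈ k(J)`, in the form `b(J) * H = a(J)`.

`O` is the image of the local ring of a closed point of the special fibre, `I` the image of its
maximal ideal.  If `T ∈ I` (the point lies on the second component and `c` is regular there),
then the reduction `H * (J - J ^ (p ^ 2))` of `g₀ = (t ^ p - t_p) (t - t_p ^ p) / p` is NOT in `I`:
`g₀` is a unit at the point (thickness one).
-/
import Mathlib

set_option autoImplicit false

namespace Fermat.Agent.S36.helper6739

open Polynomial

section Core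

variable {k Ω : Type*} [Field k] [Field Ω] [Algebra k Ω]

/-- Reduction of a fraction to lowest terms. -/
theorem exists_coprime_fraction {J H : Ω} (hJ : Transcendental k J) {a b : k[X]} (hb : b ≠ 0)
    (hH : aeval J b * H = aeval J a) :
    ∃ a' b' : k[X], b' ≠ 0 ∧ IsCoprime a' b' ∧ aeval J b' * H = aeval J a' := by
  classical
  let _ := EuclideanDomain.gcdMonoid k[X]
  have hinj : Function.Injective (aeval J : k[X] →ₐ[k] Ω) := transcendental_iff_injective.mp hJ
  set g : k[X] := GCDMonoid.gcd a b with hg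
  have hg0 : g ≠ 0 := gcd_ne_zero_of_right hb
  have ha' : g * (a / g) = a := EuclideanDomain.mul_div_cancel' hg0 (GCDMonoid.gcd_dvd_left a b)
  have hb' : g * (b / g) = b := EuclideanDomain.mul_div_cancel' hg0 (GCDMonoid.gcd_dvd_right a b)
  refine ⟨a / g, b / g, right_div_gcd_ne_zero hb, isCoprime_div_gcd_div_gcd hb, ?_⟩
  have hgJ : aeval J g ≠ 0 := fun h => hg0 (hinj (by rw [h, map_zero]))
  apply mul_left_cancel₀ hgJ
  rw [← mul_assoc, ← map_mul, ← map_mul, ha', hb']
  exact hH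

variable (O : Subring Ω) (I : Set Ω)

/-- The data "`I` is (the image of) a proper ideal of `O`". -/
structure IsProperIdealSet : Prop where
  add_mem : ∀ x y, x ∈ I → y ∈ I → x + y ∈ I
  mul_mem : ∀ x y, x ∈ O → y ∈ I → x * y ∈ I
  one_notMem : (1 : Ω) ∉ I

variable {O I}

theorem IsProperIdealSet.neg_mem (hI : IsProperIdealSet O I) {x : Ω} (hx : x ∈ I) : -x ∈ I := by
  have h := hI.mul_mem (-1) x (O.neg_mem O.one_mem) hx
  rwa [neg_one_mul] at h

theorem IsProperIdealSet.sub_mem (hI : IsProperIdealSet O I) {x y : Ω} (hx : x ∈ I) (hy : y ∈ I) :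
    x - y ∈ I := by
  rw [sub_eq_add_neg]
  exact hI.add_mem _ _ hx (hI.neg_mem hy)

theorem aeval_mem_subring (hk : ∀ c : k, algebraMap k Ω c ∈ O) {J : Ω} (hJO : J ∈ O) (f : k[X]) :
    aeval J f ∈ O := by
  induction f using Polynomial.induction_on' with
  | add f g hf hg => rw [map_add]; exact O.add_mem hf hg
  | monomial n c =>
    rw [aeval_monomial]
    exact O.mul_mem (hk c) (O.pow_mem hJO n)

/-- A polynomial in `J` lying in `I` vanishes at the centre `j₀`. -/
theorem eval_eq_zero_of_aeval_mem (hI : IsProperIdealSet O I)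
    (hk : ∀ c : k, algebraMap k Ω c ∈ O) {J : Ω} (hJO : J ∈ O) {j0 : k}
    (hj0 : J - algebraMap k Ω j0 ∈ I) {f : k[X]} (hf : aeval J f ∈ I) : f.eval j0 = 0 := by
  by_contra hne
  obtain ⟨q, hq⟩ : X - C j0 ∣ f - C (f.eval j0) := X_sub_C_dvd_sub_C_eval
  have h1 : aeval J f - algebraMap k Ω (f.eval j0) = (J - algebraMap k Ω j0) * aeval J q := by
    have := congrArg (aeval J) hq
    rw [map_sub, map_mul, map_sub, aeval_X, aeval_C, aeval_C] at this
    exact this
  have h2 : aeval J f - algebraMap k Ω (f.eval j0) ∈ I := by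
    rw [h1, mul_comm]
    exact hI.mul_mem _ _ (aeval_mem_subring hk hJO q) hj0
  have h3 : algebraMap k Ω (f.eval j0) ∈ I := by
    have := hI.sub_mem hf h2
    rwa [sub_sub_cancel] at this
  have h4 : (1 : Ω) ∈ I := by
    have := hI.mul_mem (algebraMap k Ω (f.eval j0)⁻¹) _ (hk _) h3
    rwa [← map_mul, inv_mul_cancel₀ hne, map_one] at this
  exact hI.one_notMem h4

/-- **Abstract core of S36-F2-DERIV**, general form: it is enough that `T ^ m * s(J) ∈ I` for some
`m ≠ 0` and a polynomial `s` with `s(j₀) ≠ 0` (e.g. `m = 6`, `T ^ 6 * P(J) ^ (p - 1)` = the reduction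
of the `Δ`-quotient unit, `P` vanishing only at cusp values).  See the file header. -/
theorem not_mem_of_deriv_pow (p : ℕ) [Fact p.Prime] [CharP k p] (D : Derivation k Ω Ω)
    {J H T : Ω} (hJ : Transcendental k J) (hDJ : D J = 1) (hT : T ≠ 0)
    (hDH : D H = J ^ (p - 1) - T⁻¹)
    {a b : k[X]} (hb : b ≠ 0) (hH : aeval J b * H = aeval J a)
    (hI : IsProperIdealSet O I) (hk : ∀ c : k, algebraMap k Ω c ∈ O) (hJO : J ∈ O)
    {j0 : k} (hj0 : J - algebraMap k Ω j0 ∈ I) {m : ℕ} (hm : m ≠ 0) {s : k[X]}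
    (hs : s.eval j0 ≠ 0) (hTI : T ^ m * aeval J s ∈ I) :
    H * (J - J ^ (p ^ 2)) ∉ I := by
  intro hg
  obtain ⟨a, b, hb, hab, hH⟩ := exists_coprime_fraction hJ hb hH
  have hinj : Function.Injective (aeval J : k[X] →ₐ[k] Ω) := transcendental_iff_injective.mp hJ
  have hev := fun {f : k[X]} (hf : aeval J f ∈ I) =>
    eval_eq_zero_of_aeval_mem hI hk hJO hj0 hf
  have hmemO := aeval_mem_subring (O := O) hk hJO
  -- the polynomial `V = X - X ^ (p ^ 2)`
  set V : k[X] := X - X ^ (p ^ 2) with hV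
  have hVJ : aeval J V = J - J ^ (p ^ 2) := by rw [hV, map_sub, map_pow, aeval_X]
  have hVder : derivative V = 1 := by
    rw [hV, derivative_sub, derivative_X, derivative_X_pow]
    have h0 : ((p ^ 2 : ℕ) : k) = 0 := by
      rw [Nat.cast_pow, CharP.cast_eq_zero k p]
      simp
    rw [h0, C_0, zero_mul, sub_zero]
  -- the key equation `b(J) * g = a(J) * V(J)`
  have hkey : aeval J b * (H * (J - J ^ (p ^ 2))) = aeval J (a * V) := by
    rw [map_mul, hVJ, ← hH]
    ring
  -- step 1: `b(j₀) ≠ 0`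
  have hb0 : b.eval j0 ≠ 0 := by
    intro hb0
    have ha0 : a.eval j0 ≠ 0 := by
      intro ha0
      obtain ⟨u, v, huv⟩ := hab
      have := congrArg (eval j0) huv
      rw [eval_add, eval_mul, eval_mul, ha0, hb0, mul_zero, mul_zero, add_zero, eval_one] at this
      exact zero_ne_one this
    by_cases hV0 : V.eval j0 = 0
    · -- both `b` and `V` are divisible by `X - j₀`; cancel
      obtain ⟨b1, hb1⟩ := dvd_iff_isRoot.mpr hb0
      obtain ⟨V1, hV1⟩ := dvd_iff_isRoot.mpr hV0
      have hV1' : V1.eval j0 = 1 := by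
        have := congrArg (fun f => (derivative f).eval j0) hV1
        simp only [derivative_mul, derivative_sub, derivative_X, derivative_C, sub_zero, one_mul,
          eval_add, eval_mul, eval_sub, eval_X, eval_C, sub_self, zero_mul, add_zero] at this
        rw [hVder, eval_one] at this
        exact this.symm
      have hJ0 : aeval J (X - C j0 : k[X]) ≠ 0 := by
        intro h
        have := hinj (by rw [h, map_zero] : aeval J (X - C j0 : k[X]) = aeval J (0 : k[X]))
        exact X_sub_C_ne_zero j0 this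
      have hkey' : aeval J b1 * (H * (J - J ^ (p ^ 2))) = aeval J (a * V1) := by
        apply mul_left_cancel₀ hJ0
        rw [← mul_assoc, ← map_mul, ← hb1, hkey, ← map_mul, hV1]
        congr 1
        ring
      have hmem : aeval J (a * V1) ∈ I := by
        rw [← hkey']
        exact hI.mul_mem _ _ (hmemO b1) hg
      have := hev hmem
      rw [eval_mul, hV1', mul_one] at this
      exact ha0 this
    · have hmem : aeval J (a * V) ∈ I := by
        rw [← hkey]
        exact hI.mul_mem _ _ (hmemO b) hg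
      have := hev hmem
      rw [eval_mul] at this
      rcases mul_eq_zero.mp this with h | h
      · exact ha0 h
      · exact hV0 h
  -- step 2: differentiate `b(J) * H = a(J)`
  have hD := congrArg D hH
  rw [Derivation.leibniz, D.map_aeval, D.map_aeval, hDJ, hDH, smul_eq_mul, smul_eq_mul,
    smul_eq_mul, smul_eq_mul, mul_one, mul_one] at hD
  -- hD : b(J) * (J^(p-1) - T⁻¹) + H * b'(J) = a'(J)
  have hbJ : aeval J b ≠ 0 := fun h => hb (hinj (by rw [h, map_zero]))
  have hfinal : aeval J (b ^ 2) =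
      aeval J (derivative b * a + b ^ 2 * X ^ (p - 1) - derivative a * b) * T := by
    simp only [map_sub, map_add, map_mul, map_pow, aeval_X]
    have e1 : aeval J (derivative a) =
        aeval J b * (J ^ (p - 1) - T⁻¹) + H * aeval J (derivative b) := hD.symm
    rw [e1, ← hH]
    field_simp
    ring
  have hmem : aeval J ((b ^ 2) ^ m * s) ∈ I := by
    rw [map_mul, map_pow, hfinal, mul_pow, mul_assoc]
    exact hI.mul_mem _ _ (O.pow_mem (hmemO _) m) hTI
  have := hev hmem
  rw [eval_mul, eval_pow, eval_pow] at this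
  rcases mul_eq_zero.mp this with h | h
  · exact hb0 (pow_eq_zero_iff (two_ne_zero) |>.mp (pow_eq_zero_iff hm |>.mp h))
  · exact hs h

/-- **Abstract core of S36-F2-DERIV**: the case `T ∈ I`. -/
theorem not_mem_of_deriv (p : ℕ) [Fact p.Prime] [CharP k p] (D : Derivation k Ω Ω)
    {J H T : Ω} (hJ : Transcendental k J) (hDJ : D J = 1) (hT : T ≠ 0)
    (hDH : D H = J ^ (p - 1) - T⁻¹)
    {a b : k[X]} (hb : b ≠ 0) (hH : aeval J b * H = aeval J a)
    (hI : IsProperIdealSet O I) (hk : ∀ c : k, algebraMap k Ω c ∈ O) (hJO : J ∈ O)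
    {j0 : k} (hj0 : J - algebraMap k Ω j0 ∈ I) (hTI : T ∈ I) :
    H * (J - J ^ (p ^ 2)) ∉ I := by
  refine not_mem_of_deriv_pow p D hJ hDJ hT hDH hb hH hI hk hJO hj0 one_ne_zero
    (s := 1) (by rw [eval_one]; exact one_ne_zero) ?_
  rwa [pow_one, map_one, mul_one]

/-- The image of a proper ideal `P ⊇ ker ρ` under a ring hom `ρ` is a proper ideal set of the
range of `ρ`. -/
theorem isProperIdealSet_map {B : Type*} [CommRing B] (ρ : B →+* Ω) (P : Ideal B) (hP : P ≠ ⊤)
    (hker : RingHom.ker ρ ≤ P) : IsProperIdealSet ρ.range (ρ '' (P : Set B)) := by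
  refine ⟨?_, ?_, ?_⟩
  · rintro _ _ ⟨x, hx, rfl⟩ ⟨y, hy, rfl⟩
    exact ⟨x + y, P.add_mem hx hy, map_add ρ x y⟩
  · rintro _ _ ⟨x, rfl⟩ ⟨y, hy, rfl⟩
    exact ⟨x * y, P.mul_mem_left x hy, map_mul ρ x y⟩
  · rintro ⟨x, hx, hx1⟩
    apply hP
    rw [Ideal.eq_top_iff_one]
    have h1 : x - 1 ∈ P := hker (by rw [RingHom.mem_ker, map_sub, hx1, map_one, sub_self])
    have := P.sub_mem hx h1
    rwa [sub_sub_cancel] at this

/-- Membership in the image of an ideal `P ⊇ ker ρ` is membership in `P`. -/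
theorem mem_of_map_mem_image {B : Type*} [CommRing B] (ρ : B →+* Ω) (P : Ideal B)
    (hker : RingHom.ker ρ ≤ P) {g : B} (hg : ρ g ∈ ρ '' (P : Set B)) : g ∈ P := by
  obtain ⟨x, hx, hxg⟩ := hg
  have h1 : g - x ∈ P := hker (by rw [RingHom.mem_ker, map_sub, hxg, sub_self])
  have := P.add_mem h1 hx
  rwa [sub_add_cancel] at this

/-- **Consumer form** (`g ∉ P` of `(G4)` thickness one): `ρ : B → Ω` the reduction of the chart
ring at the component `C_∞` (`Ω = k((x))`), `P` a closed point with `ker ρ ≤ P` (`P ∈ C_∞`), `t`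
the Hauptmodul with `t - c₀ ∈ P`, `ρ c₀ = j₀`; `w ∈ P` with `ρ w = T ^ m * s(J)`
(`w = θt / (θt)(x^p)` with `m = 1`, `s = 1`, or `w = Δ(z)/Δ(pz)` with `m = 6`);
`g = (t ^ p - t_p) (t - t_p ^ p) / p`, `ρ g = H * (J - J ^ (p ^ 2))`.  Then `g ∉ P`. -/
theorem not_mem_of_deriv_hom (p : ℕ) [Fact p.Prime] [CharP k p] (D : Derivation k Ω Ω)
    {B : Type*} [CommRing B] (ρ : B →+* Ω) (P : Ideal B) (hP : P ≠ ⊤)
    (hker : RingHom.ker ρ ≤ P) (hk : ∀ c : k, algebraMap k Ω c ∈ ρ.range)
    {t c0 w g : B} {j0 : k} (hc0 : ρ c0 = algebraMap k Ω j0) (htP : t - c0 ∈ P)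
    (hJ : Transcendental k (ρ t)) (hDJ : D (ρ t) = 1) {H T : Ω} (hT : T ≠ 0)
    (hDH : D H = ρ t ^ (p - 1) - T⁻¹)
    {a b : k[X]} (hb : b ≠ 0) (hH : aeval (ρ t) b * H = aeval (ρ t) a)
    {m : ℕ} (hm : m ≠ 0) {s : k[X]} (hs : s.eval j0 ≠ 0) (hwP : w ∈ P)
    (hw : ρ w = T ^ m * aeval (ρ t) s) (hg : ρ g = H * (ρ t - ρ t ^ (p ^ 2))) : g ∉ P := by
  intro hgP
  have hI := isProperIdealSet_map ρ P hP hker
  refine not_mem_of_deriv_pow p D hJ hDJ hT hDH hb hH hI hk ⟨t, rfl⟩ (j0 := j0) ?_ hm hs ?_ ?_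
  · exact ⟨t - c0, htP, by rw [map_sub, hc0]⟩
  · exact ⟨w, hwP, hw⟩
  · exact ⟨g, hgP, hg⟩

end Core

end Fermat.Agent.S36.helper6739
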