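/-
S36-F4-DESCENT, part (H90) (helper6961): Hilbert 90 through a finite quotient, without topology.

`G` acts on a field `E` by ring automorphisms (`φ : G →* RingAut E`); `b : G → E` is a 1-cocycle
with nonzero values which is trivial on a subgroup `H` of finite index, and `H` is "Galois-closed"
(an element of `G` fixing every `H`-fixed element of `E` lies in `H`).  Then `b` is a coboundary:
there is `w ≠ 0` with `b σ * σ w = w` for all `σ`.

Mathlib-only.
-/
import Mathlib

set_option autoImplicit false

namespace Fermat.Agent.S36.helper6961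

open Finset

section Hilbert90

variable {G E : Type*} [Group G] [Field E]

/-- **Hilbert 90 through a finite quotient.**  No normality of `H` and no topology is needed. -/
theorem exists_ne_zero_cocycle_mul_eq (φ : G →* RingAut E) (H : Subgroup G) [Finite (G ⧸ H)]
    (hsep : ∀ σ : G, (∀ c : E, (∀ h ∈ H, φ h c = c) → φ σ c = c) → σ ∈ H)
    (b : G → E) (hb0 : ∀ σ, b σ ≠ 0) (hb : ∀ σ τ, b (σ * τ) = b σ * φ σ (b τ))
    (hH : ∀ h ∈ H, b h = 1) :
    ∃ w : E, w ≠ 0 ∧ ∀ σ, b σ * φ σ w = w := by
  classical
  let _ : Fintype (G ⧸ H) := Fintype.ofFinite _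
  -- the multiplicative monoid of `H`-fixed elements
  let M : Submonoid E :=
    { carrier := {c | ∀ h ∈ H, φ h c = c}
      one_mem' := fun h _ => map_one _
      mul_mem' := fun {x y} hx hy h hh => by rw [map_mul, hx h hh, hy h hh] }
  -- the characters `c ↦ (out q) c`
  let χ : G ⧸ H → (M →* E) := fun q =>
    { toFun := fun c => φ (Quotient.out q) (c : E)
      map_one' := by simp
      map_mul' := fun x y => by simp }
  have hχ : Function.Injective χ := by
    intro q q' hqq'
    have h1 : ∀ c : E, (∀ h ∈ H, φ h c = c) →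
        φ ((Quotient.out q)⁻¹ * Quotient.out q') c = c := by
      intro c hc
      have h2 : φ (Quotient.out q) c = φ (Quotient.out q') c :=
        congrArg (fun f : M →* E => f ⟨c, hc⟩) hqq'
      rw [map_mul, RingAut.mul_apply, ← h2, map_inv]
      exact (φ (Quotient.out q)).symm_apply_apply c
    have h3 := hsep _ h1
    have h4 : (QuotientGroup.mk (Quotient.out q) : G ⧸ H) = QuotientGroup.mk (Quotient.out q') :=
      QuotientGroup.eq.mpr h3
    rwa [QuotientGroup.out_eq', QuotientGroup.out_eq'] at h4
  have hli : LinearIndependent E (fun q : G ⧸ H => ((χ q : M →* E) : M → E)) :=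
    (linearIndependent_monoidHom M E).comp χ hχ
  -- the Poincaré series does not vanish identically
  obtain ⟨c, hc⟩ : ∃ c : M, ∑ q : G ⧸ H, b (Quotient.out q) * φ (Quotient.out q) (c : E) ≠ 0 := by
    by_contra hcon
    push Not at hcon
    have h0 : ∑ q : G ⧸ H, b (Quotient.out q) • ((χ q : M →* E) : M → E) = 0 := by
      funext c
      simp only [Finset.sum_apply, Pi.smul_apply, smul_eq_mul, Pi.zero_apply]
      exact hcon c
    have := Fintype.linearIndependent_iff.mp hli (fun q => b (Quotient.out q)) h0
      (QuotientGroup.mk 1)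
    exact hb0 _ this
  refine ⟨_, hc, fun τ => ?_⟩
  -- `b` and the action on `c` only depend on left cosets
  have hcoset : ∀ ρ ρ' : G, ρ⁻¹ * ρ' ∈ H → b ρ' * φ ρ' (c : E) = b ρ * φ ρ (c : E) := by
    intro ρ ρ' hρ
    have e : ρ' = ρ * (ρ⁻¹ * ρ') := by group
    rw [e, hb, hH _ hρ, map_one, mul_one, map_mul, RingAut.mul_apply, c.2 _ hρ]
  have hterm : ∀ q : G ⧸ H,
      b τ * φ τ (b (Quotient.out q) * φ (Quotient.out q) (c : E)) =
        b (Quotient.out (τ • q)) * φ (Quotient.out (τ • q)) (c : E) := by
    intro q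
    have h1 : b τ * φ τ (b (Quotient.out q) * φ (Quotient.out q) (c : E)) =
        b (τ * Quotient.out q) * φ (τ * Quotient.out q) (c : E) := by
      rw [hb, map_mul, map_mul, RingAut.mul_apply, mul_assoc]
    rw [h1]
    refine hcoset _ _ ?_
    have h2 : (QuotientGroup.mk (Quotient.out (τ • q)) : G ⧸ H) =
        QuotientGroup.mk (τ * Quotient.out q) := by
      rw [QuotientGroup.out_eq']
      conv_lhs => rw [← QuotientGroup.out_eq' q]
      rfl
    exact QuotientGroup.eq.mp h2
  rw [map_sum, Finset.mul_sum]
  rw [Finset.sum_congr rfl fun q _ => hterm q]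
  exact Equiv.sum_comp (MulAction.toPerm τ)
    (fun q : G ⧸ H => b (Quotient.out q) * φ (Quotient.out q) (c : E))

end Hilbert90

end Fermat.Agent.S36.helper6961
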