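/-
S36, step (1) FINAL of captain's rulings #3 (c) / #4 (b) (helper6961, wiring only):
`helper1335.Stmt_KillFFAux` from the concrete geometric datum.

  `helper6961.stmt_KillFFAux_of_killShape'`  (KILL-WRAP, on main)
  + `helper36.KillData.kill`                 (abstract (KILL) theorem)
  + `helper1359.normKα_eq_normAlong`, `normKβ_eq_normAlong`  (the descended norm maps are the
    genuine `K`-level norms)
  + `helper405.nonempty_killData`            (`KillInput` gives `KillData` at the concrete terms).

* `killShape_of_killData` : `KillData.kill` at the concrete terms proves `KillShape`;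
* `stmt_KillFFAux_of_killData` : for the norm maps `normKα`, `normKβ`;
* `stmt_KillFFAux_of_killData_normAlong` : for the genuine norms
  `S29.helper36.normAlong (heckeAlphaBar K M₁ q)`, `… (heckeBetaBar K M₁ q)`;
* `stmt_KillFFAux_of_killInput` : from `helper405.KillInput` (+ `helper36.BaseDVR`) at every
  auxiliary level — the ONE Prop of S36 (ruling #4).
-/
import Fermat.Agent.S36.helper36_KillAsm
import Fermat.Agent.S36.helper6961_KillFinal
import Fermat.Agent.S36.helper1359_NormLayerWrap
import Fermat.Agent.S36.helper405_KillTerms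

set_option autoImplicit false

noncomputable section

namespace Fermat.Agent.S36.helper6961

open ModularCurve AlgebraicCurve
open Fermat.Agent.S36.helper36

/-- `KillData.kill` at the concrete terms proves `KillShape` (any norm maps). -/
theorem killShape_of_killData (N q : ℕ) [NeZero N] [NeZero q] (I : Subgroup GQ)
    (O : ValuationSubring (KI I)) (Nα Nβ : FKI I (N * q) →* FKI I N)
    (D : KillData O q (heckeAlphaBar (KI I) N q) (heckeBetaBar (KI I) N q) Nα Nβ)
    (hO : BaseDVR O q) :
    KillShape N q I Nα Nβ ((q + 1) * ((q - 1) * (q ^ 2 - 1))) :=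
  fun hn hnq u hu hhor a a' w w' h h' => D.kill hO hn hnq u hu hhor a a' w w' h h'

/-- **Step (1) FINAL, norm maps `normKα`, `normKβ`.** -/
theorem stmt_KillFFAux_of_killData
    (H : ∀ (M₁ q : ℕ) [NeZero M₁] [NeZero q], q.Prime → q ∣ M₁ → ¬ q ^ 2 ∣ M₁ →
      Fermat.Agent.S36.helper1335.AuxOK M₁ q →
      ∀ A : ValuationSubring Qb, A.LiesOverPrime q →
        BaseDVR (Fermat.Agent.S58.helper6024.inertiaValuationSubring A) q ∧
        Nonempty (KillData (Fermat.Agent.S58.helper6024.inertiaValuationSubring A) q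
          (heckeAlphaBar (Fermat.Agent.S58.helper6024.inertiaFixedField A) M₁ q)
          (heckeBetaBar (Fermat.Agent.S58.helper6024.inertiaFixedField A) M₁ q)
          (normKα (A.inertiaSubgroupIn ℚ) M₁ q) (normKβ (A.inertiaSubgroupIn ℚ) M₁ q))) :
    Fermat.Agent.S36.helper1335.Stmt_KillFFAux :=
  stmt_KillFFAux_of_killShape' fun M₁ q _ _ hq hqM hq2 haux A hA =>
    let ⟨hO, ⟨D⟩⟩ := H M₁ q hq hqM hq2 haux A hA
    killShape_of_killData M₁ q (A.inertiaSubgroupIn ℚ) _ _ _ D hO

/-- **Step (1) FINAL, genuine `K`-level norms.** -/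
theorem stmt_KillFFAux_of_killData_normAlong
    (H : ∀ (M₁ q : ℕ) [NeZero M₁] [NeZero q], q.Prime → q ∣ M₁ → ¬ q ^ 2 ∣ M₁ →
      Fermat.Agent.S36.helper1335.AuxOK M₁ q →
      ∀ A : ValuationSubring Qb, A.LiesOverPrime q →
        BaseDVR (Fermat.Agent.S58.helper6024.inertiaValuationSubring A) q ∧
        Nonempty (KillData (Fermat.Agent.S58.helper6024.inertiaValuationSubring A) q
          (heckeAlphaBar (Fermat.Agent.S58.helper6024.inertiaFixedField A) M₁ q)
          (heckeBetaBar (Fermat.Agent.S58.helper6024.inertiaFixedField A) M₁ q)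
          (Fermat.Agent.S29.helper36.normAlong
            (heckeAlphaBar (Fermat.Agent.S58.helper6024.inertiaFixedField A) M₁ q))
          (Fermat.Agent.S29.helper36.normAlong
            (heckeBetaBar (Fermat.Agent.S58.helper6024.inertiaFixedField A) M₁ q)))) :
    Fermat.Agent.S36.helper1335.Stmt_KillFFAux :=
  stmt_KillFFAux_of_killShape' fun M₁ q _ _ hq hqM hq2 haux A hA => by
    obtain ⟨hO, ⟨D⟩⟩ := H M₁ q hq hqM hq2 haux A hA
    rw [Fermat.Agent.S36.helper1359.normKα_eq_normAlong,
      Fermat.Agent.S36.helper1359.normKβ_eq_normAlong]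
    exact killShape_of_killData M₁ q (A.inertiaSubgroupIn ℚ) _ _ _ D hO

/-- **Step (1) FINAL from `helper405.KillInput`** (ruling #4): the 43 fields on the concrete
terms, at every auxiliary level and every `A` over `q`, give `helper1335.Stmt_KillFFAux`. -/
theorem stmt_KillFFAux_of_killInput
    (H : ∀ (M₁ q : ℕ) [NeZero M₁] [NeZero q] (hq : q.Prime) (hqM : q ∣ M₁)
      (hq2 : ¬ q ^ 2 ∣ M₁) (haux : Fermat.Agent.S36.helper1335.AuxOK M₁ q)
      (A : ValuationSubring Qb), A.LiesOverPrime q →
        BaseDVR (Fermat.Agent.S36.helper405.OI A) q ∧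
        Fermat.Agent.S36.helper405.KillInput A M₁ q hq hqM hq2 haux) :
    Fermat.Agent.S36.helper1335.Stmt_KillFFAux :=
  stmt_KillFFAux_of_killData_normAlong fun M₁ q _ _ hq hqM hq2 haux A hA =>
    ⟨(H M₁ q hq hqM hq2 haux A hA).1,
      Fermat.Agent.S36.helper405.nonempty_killData (H M₁ q hq hqM hq2 haux A hA).2⟩

end Fermat.Agent.S36.helper6961
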