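/-
S36-F4-DESCENT (helper6961): step (1) of (KILL) in route #3001 (= the "inertia-fixed class is
rational over the fixed field" step of every filed design for the Carayol clause of S36).

Setting: `Qb = ℚ̄`, `E = laurentBaseChange Qb F₀` (for `F₀ = modularFunctionFieldFull N` this is
`modularFunctionFieldBar N`, and `Pic0 Qb E = JZero N`), `I` ANY subgroup of `Gal(ℚ̄/ℚ)`
(in the application: the inertia group of a valuation ring of `ℚ̄`).

* `exists_const_mul_pow_fixed` : pure field theory (no divisors): if `σ u₀ = c * u₀ * w ^ n`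
  (`c` constant) for every `σ ∈ I`, then some `a * u₀ * w ^ n` is fixed by `I` and has leading
  coefficient `1`.
* `exists_fixed_of_kummer` : if the Kummer class of `u₀` is fixed by `I`, there is a Kummer
  function `u = a * u₀ * w ^ n` with the same class, leading coefficient `1`, and `σ u = u` for
  all `σ ∈ I` (coefficientwise action on `q`-expansions).
* `exists_fixed_kummer_of_torsion` : every `I`-fixed `n`-torsion point of `JZero N` is the Kummer
  class of such a `u`.
* `exists_rational_kummer_of_torsion` : moreover `u` is the coefficientwise image of an element of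
  `laurentBaseChange K (modularFunctionFieldFull N)` for every intermediate field `K` containing
  the `I`-fixed elements of `ℚ̄` (e.g. `K = ℚ̄^I`), and its Kummer divisor is `I`-stable.

Proof: normalise the leading coefficient of `u₀` to `1`; for `σ ∈ I` the normalised `n`-th root
`b σ` of `σ u / u` is unique, hence an honest 1-cocycle, trivial on the open subgroup fixing `u`;
Hilbert 90 through the finite quotient (`helper6961_Hilbert90`) gives `b σ = w / σ w`, and
`u * w ^ n` is fixed.  The passage to `K` is the landed coefficient descent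
`S29.helper6961.exists_mem_laurentBaseChange_coeffMap_eq`.
-/
import Fermat.Agent.S36.helper6961_Hilbert90
import Fermat.Agent.S29.helper8217_KummerClass
import Fermat.Agent.S29.helper36_FunctionFieldL
import Fermat.Agent.S29.helper8527_FiniteLevel
import Fermat.Agent.S29.helper6961_CoeffDescent

set_option autoImplicit false

noncomputable section

namespace Fermat.Agent.S36.helper6961

open ModularCurve AlgebraicCurve HahnSeries
open Fermat.Agent.S29.helper8217

/-- `ℚ̄`. -/
abbrev Qb : Type := AlgebraicClosure ℚ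

/-- The absolute Galois group of `ℚ`. -/
abbrev GQ : Type := Qb ≃ₐ[ℚ] Qb

/-! ### Leading coefficients of Laurent series under coefficient maps -/

section Lead

variable {k L : Type*} [Field k] [Field L]

theorem order_coeffMap (f : k →+* L) (x : LaurentSeries k) :
    (coeffMap f x).order = x.order := by
  rcases eq_or_ne x 0 with rfl | hx
  · simp
  have hx0 : x.coeff x.order ≠ 0 := fun h => hx (coeff_order_eq_zero.mp h)
  have hy : coeffMap f x ≠ 0 := by
    intro h
    have h1 := congrArg (fun y : LaurentSeries L => y.coeff x.order) h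
    simp only [coeffMap_coeff, HahnSeries.coeff_zero] at h1
    exact hx0 ((map_eq_zero f).mp h1)
  refine le_antisymm (order_le_of_coeff_ne_zero ?_) (order_le_of_coeff_ne_zero ?_)
  · rw [coeffMap_coeff]
    exact fun h => hx0 ((map_eq_zero f).mp h)
  · have h1 : (coeffMap f x).coeff (coeffMap f x).order ≠ 0 :=
      fun h => hy (coeff_order_eq_zero.mp h)
    rw [coeffMap_coeff] at h1
    exact fun h => h1 (by rw [h, map_zero])

theorem leadingCoeff_coeffMap (f : k →+* L) (x : LaurentSeries k) :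
    (coeffMap f x).leadingCoeff = f x.leadingCoeff := by
  rw [leadingCoeff_eq, leadingCoeff_eq, order_coeffMap, coeffMap_coeff]

theorem leadingCoeff_algebraMap (c : L) :
    (algebraMap L (LaurentSeries L) c).leadingCoeff = c := by
  rw [algebraMap_laurentSeries_eq_single, leadingCoeff_of_single]

end Lead

/-! ### The leading coefficient on the function field -/

section FunctionField

variable (F₀ : IntermediateField ℚ (LaurentSeries ℚ))

/-- Leading coefficient of the `q`-expansion. -/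
def lc (x : laurentBaseChange Qb F₀) : Qb := (x : LaurentSeries Qb).leadingCoeff

theorem lc_mul (x y : laurentBaseChange Qb F₀) : lc F₀ (x * y) = lc F₀ x * lc F₀ y :=
  HahnSeries.leadingCoeff_mul _ _

theorem lc_one : lc F₀ 1 = 1 := HahnSeries.leadingCoeff_one

theorem lc_pow (x : laurentBaseChange Qb F₀) (n : ℕ) : lc F₀ (x ^ n) = lc F₀ x ^ n := by
  induction n with
  | zero => rw [pow_zero, pow_zero, lc_one]
  | succ k ih => rw [pow_succ, pow_succ, lc_mul, ih]

theorem lc_eq_zero_iff {x : laurentBaseChange Qb F₀} : lc F₀ x = 0 ↔ x = 0 := by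
  unfold lc
  rw [HahnSeries.leadingCoeff_eq_zero]
  exact ⟨fun h => Subtype.ext h, fun h => by rw [h]; rfl⟩

theorem lc_ne_zero {x : laurentBaseChange Qb F₀} (hx : x ≠ 0) : lc F₀ x ≠ 0 :=
  fun h => hx ((lc_eq_zero_iff F₀).mp h)

theorem lc_algebraMap (c : Qb) : lc F₀ (algebraMap Qb (laurentBaseChange Qb F₀) c) = c :=
  leadingCoeff_algebraMap c

theorem lc_arithmeticRingAut (σ : GQ) (x : laurentBaseChange Qb F₀) :
    lc F₀ (arithmeticRingAut F₀ σ x) = σ (lc F₀ x) :=
  leadingCoeff_coeffMap (σ : Qb →+* Qb) (x : LaurentSeries Qb)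

theorem lc_inv (x : laurentBaseChange Qb F₀) : lc F₀ x⁻¹ = (lc F₀ x)⁻¹ := by
  rcases eq_or_ne x 0 with rfl | hx
  · rw [inv_zero, (lc_eq_zero_iff F₀).mpr rfl, inv_zero]
  · refine eq_inv_of_mul_eq_one_left ?_
    rw [← lc_mul, inv_mul_cancel₀ hx, lc_one]

/-- Normalised `n`-th roots are unique: the only `n`-th root of unity with leading coefficient
`1` is `1` (an `n`-th root of unity is algebraic over `ℚ̄`, hence a constant). -/
theorem eq_one_of_pow_eq_one {n : ℕ} (hn : n ≠ 0) {z : laurentBaseChange Qb F₀}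
    (hz : z ^ n = 1) (hlc : lc F₀ z = 1) : z = 1 := by
  have hint : IsIntegral Qb z :=
    IsIntegral.of_pow (Nat.pos_of_ne_zero hn) (hz ▸ isIntegral_one)
  obtain ⟨c, rfl⟩ := Fermat.Agent.S29.helper6961.mem_range_of_isAlgebraic hint.isAlgebraic
  rw [lc_algebraMap] at hlc
  rw [hlc, map_one]

theorem eq_of_pow_eq_of_lc_eq {n : ℕ} (hn : n ≠ 0) {x y : laurentBaseChange Qb F₀}
    (hy : y ≠ 0) (h : x ^ n = y ^ n) (hlc : lc F₀ x = lc F₀ y) : x = y := by
  have h1 : x * y⁻¹ = 1 := by
    refine eq_one_of_pow_eq_one F₀ hn ?_ ?_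
    · rw [mul_pow, inv_pow, h, mul_inv_cancel₀ (pow_ne_zero n hy)]
    · rw [lc_mul, lc_inv, hlc, mul_inv_cancel₀ (lc_ne_zero F₀ hy)]
  calc x = x * y⁻¹ * y := by rw [inv_mul_cancel_right₀ hy]
    _ = y := by rw [h1, one_mul]

/-- The coefficientwise Galois action on the function field, as a homomorphism to ring
automorphisms. -/
def ringAutHom : GQ →* RingAut (laurentBaseChange Qb F₀) where
  toFun σ := arithmeticRingAut F₀ σ
  map_one' := congrArg SemilinearAut.toRingAut (map_one (arithmeticGalois F₀))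
  map_mul' σ τ := congrArg SemilinearAut.toRingAut (map_mul (arithmeticGalois F₀) σ τ)

@[simp]
theorem ringAutHom_apply (σ : GQ) (x : laurentBaseChange Qb F₀) :
    ringAutHom F₀ σ x = arithmeticRingAut F₀ σ x := rfl

theorem arithmeticRingAut_mul (σ τ : GQ) (x : laurentBaseChange Qb F₀) :
    arithmeticRingAut F₀ (σ * τ) x = arithmeticRingAut F₀ σ (arithmeticRingAut F₀ τ x) := by
  rw [← ringAutHom_apply, map_mul]
  rfl

theorem arithmeticRingAut_algebraMap' (σ : GQ) (a : Qb) :
    arithmeticRingAut F₀ σ (algebraMap Qb (laurentBaseChange Qb F₀) a)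
      = algebraMap Qb (laurentBaseChange Qb F₀) (σ a) :=
  arithmeticRingAut_algebraMap F₀ σ a

/-- The subgroup of `I` fixing a finite extension `L` pointwise has finite index in `I`. -/
theorem finite_quotient_fixing (I : Subgroup GQ) (L : IntermediateField ℚ Qb)
    [FiniteDimensional ℚ L] : Finite (↥I ⧸ (L.fixingSubgroup.subgroupOf I)) := by
  let f : ↥I → (↥L →ₐ[ℚ] Qb) := fun σ => ((σ : GQ) : Qb →ₐ[ℚ] Qb).comp L.val
  have hf : ∀ σ τ : ↥I, f σ = f τ → σ⁻¹ * τ ∈ L.fixingSubgroup.subgroupOf I := by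
    intro σ τ h
    rw [Subgroup.mem_subgroupOf, IntermediateField.mem_fixingSubgroup_iff]
    intro y hy
    have h1 : (σ : GQ) y = (τ : GQ) y := congrArg (fun g : ↥L →ₐ[ℚ] Qb => g ⟨y, hy⟩) h
    show ((σ : GQ)⁻¹ * (τ : GQ)) y = y
    rw [AlgEquiv.mul_apply, ← h1]
    exact (σ : GQ).symm_apply_apply y
  let g : ↥I ⧸ (L.fixingSubgroup.subgroupOf I) → (↥L →ₐ[ℚ] Qb) :=
    fun q => f (Quotient.out q)
  have hg : Function.Injective g := by
    intro q q' h
    have h1 := hf _ _ h
    have h2 : (QuotientGroup.mk (Quotient.out q) : ↥I ⧸ (L.fixingSubgroup.subgroupOf I))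
        = QuotientGroup.mk (Quotient.out q') := QuotientGroup.eq.mpr h1
    rwa [QuotientGroup.out_eq', QuotientGroup.out_eq'] at h2
  exact Finite.of_injective g hg

end FunctionField

/-! ### The descent -/

section Descent

variable (F₀ : IntermediateField ℚ (LaurentSeries ℚ))

/-- **Fixed Kummer functions, function-level form (pure field theory, no divisors).**
If for every `σ` in the subgroup `I` of the Galois group `σ u₀ = c * u₀ * w ^ n` for a constant
`c` and a function `w`, then some `a * u₀ * w ^ n` (`a` a nonzero constant, `w ≠ 0`) is fixed by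
`I` on the nose and has leading coefficient `1`. -/
theorem exists_const_mul_pow_fixed {n : ℕ} (hn : n ≠ 0) (I : Subgroup GQ)
    {u₀ : laurentBaseChange Qb F₀} (hu₀ : u₀ ≠ 0)
    (hI : ∀ σ ∈ I, ∃ (c : Qb) (w : laurentBaseChange Qb F₀),
      arithmeticRingAut F₀ σ u₀ = algebraMap Qb (laurentBaseChange Qb F₀) c * u₀ * w ^ n) :
    ∃ (a : Qb) (w : laurentBaseChange Qb F₀), a ≠ 0 ∧ w ≠ 0 ∧
      lc F₀ (algebraMap Qb (laurentBaseChange Qb F₀) a * u₀ * w ^ n) = 1 ∧
      ∀ σ ∈ I, arithmeticRingAut F₀ σ (algebraMap Qb (laurentBaseChange Qb F₀) a * u₀ * w ^ n)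
        = algebraMap Qb (laurentBaseChange Qb F₀) a * u₀ * w ^ n := by
  classical
  -- Step 1: normalise the leading coefficient.
  have hlc0 : lc F₀ u₀ ≠ 0 := lc_ne_zero F₀ hu₀
  set c₀ : laurentBaseChange Qb F₀ := algebraMap Qb (laurentBaseChange Qb F₀) (lc F₀ u₀)⁻¹
    with hc₀
  have hc₀0 : c₀ ≠ 0 := by
    rw [hc₀]
    exact (map_ne_zero _).mpr (inv_ne_zero hlc0)
  set u₁ : laurentBaseChange Qb F₀ := c₀ * u₀ with hu₁def
  have hu₁0 : u₁ ≠ 0 := mul_ne_zero hc₀0 hu₀
  have hlc₁ : lc F₀ u₁ = 1 := by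
    rw [hu₁def, lc_mul, hc₀, lc_algebraMap, inv_mul_cancel₀ hlc0]
  -- Step 2: normalised `n`-th roots of `σ u₁ / u₁`.
  have key : ∀ σ : ↥I, ∃ b : laurentBaseChange Qb F₀, lc F₀ b = 1 ∧
      arithmeticRingAut F₀ (σ : GQ) u₁ = u₁ * b ^ n := by
    intro σ
    obtain ⟨c, w, hcw⟩ := hI σ σ.2
    have hσu₁ : arithmeticRingAut F₀ (σ : GQ) u₁ ≠ 0 := (map_ne_zero _).mpr hu₁0
    -- `σ u₁ = u₁ * (a * w ^ n)` for a constant `a`
    obtain ⟨a, heq'⟩ : ∃ a : Qb, arithmeticRingAut F₀ (σ : GQ) u₁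
        = u₁ * (algebraMap Qb (laurentBaseChange Qb F₀) a * w ^ n) := by
      refine ⟨((σ : GQ) (lc F₀ u₀))⁻¹ * c * lc F₀ u₀, ?_⟩
      rw [hu₁def, map_mul, hcw, hc₀, arithmeticRingAut_algebraMap', map_inv₀, map_mul, map_mul,
        map_inv₀, map_inv₀]
      have h1 : algebraMap Qb (laurentBaseChange Qb F₀) (lc F₀ u₀) ≠ 0 :=
        (map_ne_zero _).mpr hlc0
      field_simp
    have hw : w ≠ 0 := by
      rintro rfl
      rw [zero_pow hn, mul_zero, mul_zero] at heq'
      exact hσu₁ heq'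
    have hlcw : lc F₀ w ≠ 0 := lc_ne_zero F₀ hw
    have h1 : a * lc F₀ w ^ n = 1 := by
      have h2 := congrArg (lc F₀) heq'
      rw [lc_arithmeticRingAut, hlc₁, map_one, lc_mul, hlc₁, one_mul, lc_mul, lc_algebraMap,
        lc_pow] at h2
      exact h2.symm
    refine ⟨w * algebraMap Qb (laurentBaseChange Qb F₀) (lc F₀ w)⁻¹, ?_, ?_⟩
    · rw [lc_mul, lc_algebraMap, mul_inv_cancel₀ hlcw]
    · rw [heq', mul_pow, ← map_pow]
      have h3 : ((lc F₀ w)⁻¹) ^ n = a := by
        rw [inv_pow]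
        exact inv_eq_of_mul_eq_one_left h1
      rw [h3, mul_comm (w ^ n)]
  choose b hb1 hb2 using key
  have hb0 : ∀ σ : ↥I, b σ ≠ 0 := fun σ h => by
    have := hb1 σ
    rw [h, (lc_eq_zero_iff F₀).mpr rfl] at this
    exact zero_ne_one this
  -- Step 3: `b` is a cocycle.
  let φ : ↥I →* RingAut (laurentBaseChange Qb F₀) := (ringAutHom F₀).comp I.subtype
  have hφ : ∀ (σ : ↥I) (x : laurentBaseChange Qb F₀), φ σ x = arithmeticRingAut F₀ (σ : GQ) x :=
    fun _ _ => rfl
  have hcoc : ∀ σ τ : ↥I, b (σ * τ) = b σ * φ σ (b τ) := by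
    intro σ τ
    refine eq_of_pow_eq_of_lc_eq F₀ hn (mul_ne_zero (hb0 σ) ?_) ?_ ?_
    · rw [hφ]
      exact (map_ne_zero _).mpr (hb0 τ)
    · have h1 : u₁ * b (σ * τ) ^ n = u₁ * (b σ * φ σ (b τ)) ^ n := by
        rw [← hb2 (σ * τ), Subgroup.coe_mul, arithmeticRingAut_mul, hb2 τ, map_mul, hb2 σ,
          map_pow, mul_pow, hφ, mul_assoc]
      exact mul_left_cancel₀ hu₁0 h1
    · rw [lc_mul, hφ, lc_arithmeticRingAut, hb1, hb1, hb1, map_one, mul_one]
  -- Step 4: the open subgroup fixing `u₁`.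
  obtain ⟨L, hL, hLfix⟩ := Fermat.Agent.S29.helper8527.hasFiniteLevel_smul_elt F₀ u₁
  have : FiniteDimensional ℚ L := hL
  let H : Subgroup ↥I := L.fixingSubgroup.subgroupOf I
  have : Finite (↥I ⧸ H) := finite_quotient_fixing I L
  have hHmem : ∀ h : ↥I, h ∈ H ↔ ∀ y ∈ L, (h : GQ) y = y := fun h => by
    show (h : GQ) ∈ L.fixingSubgroup ↔ _
    rw [IntermediateField.mem_fixingSubgroup_iff]
  have hHb : ∀ h ∈ H, b h = 1 := by
    intro h hh
    refine eq_of_pow_eq_of_lc_eq F₀ hn one_ne_zero ?_ ?_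
    · have h1 : arithmeticRingAut F₀ (h : GQ) u₁ = u₁ := hLfix _ ((hHmem h).mp hh)
      have h2 : u₁ * b h ^ n = u₁ * 1 ^ n := by
        rw [← hb2 h, h1, one_pow, mul_one]
      exact mul_left_cancel₀ hu₁0 h2
    · rw [hb1, lc_one]
  have hsep : ∀ σ : ↥I, (∀ c : laurentBaseChange Qb F₀, (∀ h ∈ H, φ h c = c) → φ σ c = c) →
      σ ∈ H := by
    intro σ hσ
    rw [hHmem]
    intro y hy
    have h1 := hσ (algebraMap Qb (laurentBaseChange Qb F₀) y) (fun h hh => by
      rw [hφ, arithmeticRingAut_algebraMap', (hHmem h).mp hh y hy])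
    rw [hφ, arithmeticRingAut_algebraMap'] at h1
    exact (algebraMap Qb (laurentBaseChange Qb F₀)).injective h1
  -- Step 5: Hilbert 90.
  obtain ⟨w, hw0, hw⟩ := exists_ne_zero_cocycle_mul_eq φ H hsep b hb0 hcoc hHb
  have hlcw : lc F₀ w ≠ 0 := lc_ne_zero F₀ hw0
  have hlcfix : ∀ σ : ↥I, (σ : GQ) (lc F₀ w) = lc F₀ w := by
    intro σ
    have h1 := congrArg (lc F₀) (hw σ)
    rwa [lc_mul, hb1, one_mul, hφ, lc_arithmeticRingAut] at h1
  set w' : laurentBaseChange Qb F₀ :=
    w * algebraMap Qb (laurentBaseChange Qb F₀) (lc F₀ w)⁻¹ with hw'def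
  have hw'0 : w' ≠ 0 := mul_ne_zero hw0 ((map_ne_zero _).mpr (inv_ne_zero hlcw))
  have hw'lc : lc F₀ w' = 1 := by
    rw [hw'def, lc_mul, lc_algebraMap, mul_inv_cancel₀ hlcw]
  have hw' : ∀ σ : ↥I, b σ * arithmeticRingAut F₀ (σ : GQ) w' = w' := by
    intro σ
    rw [hw'def, map_mul, arithmeticRingAut_algebraMap', map_inv₀, hlcfix σ, ← mul_assoc]
    congr 1
    exact hw σ
  -- Step 6: the fixed function.
  refine ⟨(lc F₀ u₀)⁻¹, w', inv_ne_zero hlc0, hw'0, ?_, ?_⟩
  · show lc F₀ (u₁ * w' ^ n) = 1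
    rw [lc_mul, lc_pow, hlc₁, hw'lc, one_pow, one_mul]
  · intro σ hσ
    show arithmeticRingAut F₀ σ (u₁ * w' ^ n) = u₁ * w' ^ n
    have h1 := hw' ⟨σ, hσ⟩
    have h2 := hb2 ⟨σ, hσ⟩
    simp only at h1 h2
    rw [map_mul, map_pow, h2, mul_assoc, ← mul_pow, h1]

/-- **Fixed Kummer functions, class form.**  If the Kummer class of `u₀` is fixed by the
subgroup `I` of the Galois group, then there is a Kummer function `u = a * u₀ * w ^ n` with the
same class, normalised leading coefficient `1`, which is fixed by `I` on the nose. -/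
theorem exists_fixed_of_kummer [HasPrincipalDivisors Qb (laurentBaseChange Qb F₀)]
    (hconst : ∀ f : laurentBaseChange Qb F₀,
      (∀ v : Place Qb (laurentBaseChange Qb F₀), v.ord f = 0) →
        ∃ c : Qb, f = algebraMap Qb (laurentBaseChange Qb F₀) c)
    {n : ℕ} (hn : n ≠ 0) (I : Subgroup GQ)
    {u₀ : laurentBaseChange Qb F₀} (hu₀ : IsKummer Qb n u₀)
    (hI : ∀ σ ∈ I, σ • kummerClass Qb n u₀ = kummerClass Qb n u₀) :
    ∃ u : laurentBaseChange Qb F₀, IsKummer Qb n u ∧
      kummerClass Qb n u = kummerClass Qb n u₀ ∧ lc F₀ u = 1 ∧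
      (∀ σ ∈ I, arithmeticRingAut F₀ σ u = u) ∧
      ∃ (a : Qb) (w : laurentBaseChange Qb F₀), a ≠ 0 ∧ w ≠ 0 ∧
        u = algebraMap Qb (laurentBaseChange Qb F₀) a * u₀ * w ^ n := by
  have hfun : ∀ σ ∈ I, ∃ (c : Qb) (w : laurentBaseChange Qb F₀),
      arithmeticRingAut F₀ σ u₀ = algebraMap Qb (laurentBaseChange Qb F₀) c * u₀ * w ^ n := by
    intro σ hσ
    have h1 : arithmeticGalois F₀ σ • kummerClass Qb n u₀ = kummerClass Qb n u₀ := hI σ hσ
    rw [smul_kummerClass] at h1
    obtain ⟨w, c, -, -, hcv, heq⟩ :=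
      (kummerClass_eq_iff hn ((isKummer_smul_iff _).mpr hu₀) hu₀).mp h1
    obtain ⟨a, rfl⟩ := hconst c hcv
    refine ⟨a, w, ?_⟩
    have heq' : arithmeticRingAut F₀ σ u₀
        = u₀ * (algebraMap Qb (laurentBaseChange Qb F₀) a * w ^ n) := heq
    rw [heq']
    ring
  obtain ⟨a, w, ha, hw, hlc, hfix⟩ := exists_const_mul_pow_fixed F₀ hn I hu₀.ne_zero hfun
  have ha0 : algebraMap Qb (laurentBaseChange Qb F₀) a ≠ 0 := (map_ne_zero _).mpr ha
  have hav : ∀ v : Place Qb (laurentBaseChange Qb F₀),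
      v.ord (algebraMap Qb (laurentBaseChange Qb F₀) a) = 0 := fun v => ord_algebraMap v a
  have hk1 : IsKummer Qb n (algebraMap Qb (laurentBaseChange Qb F₀) a * u₀) :=
    (isKummer_of_ord_eq_zero n ha0 hav).mul hu₀
  refine ⟨_, hk1.mul (isKummer_pow_self n hw), ?_, hlc, hfix, a, w, ha, hw, rfl⟩
  rw [kummerClass_mul_pow_self hn hw hk1, kummerClass_mul_of_ord_eq_zero ha0 hav hu₀]

end Descent

/-! ### The modular instance: inertia-fixed torsion points of `JZero N` -/

section Modular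

variable (N : ℕ) [NeZero N]

/-- **S36-F4-DESCENT, point form.**  An `n`-torsion point of `JZero N` fixed by a subgroup `I` of
the Galois group is the Kummer class of a function `u` that is fixed by `I` (coefficientwise on
the `q`-expansion) and has leading coefficient `1`. -/
theorem exists_fixed_kummer_of_torsion {n : ℕ} (hn : n ≠ 0) (I : Subgroup GQ)
    {x : JZero N} (hx : x ∈ Pic0.torsion Qb (modularFunctionFieldBar N) n)
    (hI : ∀ σ ∈ I, σ • x = x) :
    ∃ u : modularFunctionFieldBar N, IsKummer Qb n u ∧ kummerClass Qb n u = x ∧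
      lc (modularFunctionFieldFull N) u = 1 ∧
      ∀ σ ∈ I, arithmeticRingAut (modularFunctionFieldFull N) σ u = u := by
  have hP : HasPrincipalDivisors Qb (modularFunctionFieldBar N) :=
    Fermat.Agent.S29.helper36.hasPrincipalDivisors_L Qb N
  obtain ⟨u₀, hu₀, rfl⟩ := exists_kummerClass_eq hn hx
  obtain ⟨u, hu, hcl, hlc, hfix, -⟩ := exists_fixed_of_kummer (modularFunctionFieldFull N)
    (fun f hf => Fermat.Agent.S29.helper36.exists_algebraMap_eq_of_ord_eq_zero Qb N hf)
    hn I hu₀ hI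
  exact ⟨u, hu, hcl, hlc, hfix⟩

/-- **S36-F4-DESCENT, rational form (general coefficient field).**  If `ι : k →+* ℚ̄` is a field
embedding whose range contains every `I`-fixed element of `ℚ̄`, the fixed Kummer function is the
coefficientwise image of an element `y` of the function field over `k`; its Kummer divisor is
`I`-stable. -/
theorem exists_rational_kummer_of_torsion' {k : Type*} [Field k] [Algebra ℚ k] (ι : k →+* Qb)
    {n : ℕ} (hn : n ≠ 0) (I : Subgroup GQ)
    (hι : ∀ a : Qb, (∀ σ ∈ I, σ a = a) → a ∈ Set.range ι)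
    {x : JZero N} (hx : x ∈ Pic0.torsion Qb (modularFunctionFieldBar N) n)
    (hI : ∀ σ ∈ I, σ • x = x) :
    ∃ y ∈ laurentBaseChange k (modularFunctionFieldFull N), ∃ u : modularFunctionFieldBar N,
      (u : LaurentSeries Qb) = coeffMap ι y ∧ IsKummer Qb n u ∧ kummerClass Qb n u = x ∧
      y.leadingCoeff = 1 ∧
      (∀ σ ∈ I, arithmeticRingAut (modularFunctionFieldFull N) σ u = u) ∧
      ∀ σ ∈ I, arithmeticGalois (modularFunctionFieldFull N) σ • kummerDivisor Qb n u
        = kummerDivisor Qb n u := by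
  have hP : HasPrincipalDivisors Qb (modularFunctionFieldBar N) :=
    Fermat.Agent.S29.helper36.hasPrincipalDivisors_L Qb N
  obtain ⟨u, hu, hcl, hlc, hfix⟩ := exists_fixed_kummer_of_torsion N hn I hx hI
  have hcoeff : ∀ m : ℤ, (u : LaurentSeries Qb).coeff m ∈ Set.range ι := by
    intro m
    refine hι _ fun σ hσ => ?_
    have h1 := congrArg (fun z : modularFunctionFieldBar N => (z : LaurentSeries Qb).coeff m)
      (hfix σ hσ)
    simpa using h1
  obtain ⟨y, hy, hyu⟩ :=
    Fermat.Agent.S29.helper6961.exists_mem_laurentBaseChange_coeffMap_eq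
      (modularFunctionFieldFull N) ι u.2 hcoeff
  refine ⟨y, hy, u, hyu.symm, hu, hcl, ?_, hfix, fun σ hσ => ?_⟩
  · have h1 : ι y.leadingCoeff = 1 := by
      rw [← leadingCoeff_coeffMap, hyu]
      exact hlc
    exact ι.injective (by rw [h1, map_one])
  · rw [smul_kummerDivisor]
    exact congrArg (kummerDivisor Qb n) (hfix σ hσ)

/-- **S36-F4-DESCENT, rational form over an intermediate field** `K ⊇ ℚ̄^I` (in particular
`K = IntermediateField.fixedField I`). -/
theorem exists_rational_kummer_of_torsion {n : ℕ} (hn : n ≠ 0) (I : Subgroup GQ)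
    (K : IntermediateField ℚ Qb) (hK : ∀ a : Qb, (∀ σ ∈ I, σ a = a) → a ∈ K)
    {x : JZero N} (hx : x ∈ Pic0.torsion Qb (modularFunctionFieldBar N) n)
    (hI : ∀ σ ∈ I, σ • x = x) :
    ∃ y ∈ laurentBaseChange K (modularFunctionFieldFull N), ∃ u : modularFunctionFieldBar N,
      (u : LaurentSeries Qb) = coeffMap (algebraMap K Qb) y ∧ IsKummer Qb n u ∧
      kummerClass Qb n u = x ∧ y.leadingCoeff = 1 ∧
      (∀ σ ∈ I, arithmeticRingAut (modularFunctionFieldFull N) σ u = u) ∧
      ∀ σ ∈ I, arithmeticGalois (modularFunctionFieldFull N) σ • kummerDivisor Qb n u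
        = kummerDivisor Qb n u :=
  exists_rational_kummer_of_torsion' N (algebraMap K Qb) hn I
    (fun a ha => ⟨⟨a, hK a ha⟩, rfl⟩) hx hI

/-- The fixed field of `I` satisfies the hypothesis of `exists_rational_kummer_of_torsion`. -/
theorem mem_fixedField_of_forall (I : Subgroup GQ) (a : Qb) (ha : ∀ σ ∈ I, σ a = a) :
    a ∈ IntermediateField.fixedField I :=
  fun σ => ha σ.1 σ.2

end Modular

end Fermat.Agent.S36.helper6961
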