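/-
S36-F4-DESCENT, place form (helper6961): the output of `helper6961_KummerDescent` in the exact
hypothesis shape of the (LP) consumers (`∀ P₀ : Place K F_K, n ∣ P₀.ord y`).

Setting: `Qb = ℚ̄`, `K : IntermediateField ℚ Qb` (in the application `K = ℚ̄^I`), `F₀` an
intermediate field of `LaurentSeries ℚ`, `F_K := laurentBaseChange K F₀`,
`F_Qb := laurentBaseChange Qb F₀`, joined by the landed coefficientwise layer map
`S37.helper5651.layerHom F₀ (algebraMap K Qb) : F_K →+* F_Qb`.

* `dvd_ord_layer_of_forall` : if `m ∣ v.ord (layerHom y)` for every place `v` of `F_Qb / Qb`, then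
  `m ∣ P₀.ord y` for every place `P₀` of `F_K / K` (constant field extensions are unramified:
  landed `Lib.helper1998.dvd_ord_of_forall_place_dvd` at the landed instance data of
  `S37.helper5651`).
* `isKummer_layer_of_isKummer` : `IsKummer Qb n (layerHom y) → IsKummer K n y`.
* `exists_rational_kummer_places` : an `n`-torsion point `x` of `JZero N` fixed by a subgroup `I`
  of the Galois group is the Kummer class of `layerHom y` for a `y : F_K` with leading coefficient
  `1` which is a Kummer function ALREADY OVER `K` (`n ∣ P₀.ord y` at every place of `F_K / K`),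
  for every intermediate field `K` containing the `I`-fixed elements of `ℚ̄`.
-/
import Fermat.Agent.S36.helper6961_KummerDescent
import Fermat.Agent.S37.helper5651_FFK
import Fermat.Agent.Lib.helper1998_PlaceRestrict

set_option autoImplicit false
set_option linter.style.haveILetI false

noncomputable section

namespace Fermat.Agent.S36.helper6961

open ModularCurve AlgebraicCurve HahnSeries
open Fermat.Agent.S29.helper8217
open Fermat.Agent.S37.helper5651

section Layer

variable (F₀ : IntermediateField ℚ (LaurentSeries ℚ)) (K : IntermediateField ℚ Qb)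

/-- **Constant field extensions are unramified, layer form.**  Divisibility of the orders of
`layerHom y` at all places of `F_Qb / Qb` gives divisibility of the orders of `y` at all places of
`F_K / K`. -/
theorem dvd_ord_layer_of_forall (m : ℤ) (y : laurentBaseChange K F₀)
    (h : ∀ v : Place Qb (laurentBaseChange Qb F₀),
      m ∣ v.ord (layerHom F₀ (algebraMap K Qb) y))
    (P₀ : Place K (laurentBaseChange K F₀)) : m ∣ P₀.ord y := by
  letI := layerAlgebra K Qb F₀
  letI := layerAlgebraBase K Qb F₀
  haveI := layer_isScalarTower_left (K := K) (L := Qb) F₀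
  haveI := layer_isScalarTower_right (K := K) (L := Qb) F₀
  haveI : Algebra.IsAlgebraic ℚ Qb := isAlgebraic_Qbar
  haveI : Algebra.IsAlgebraic K Qb := isAlgebraic_layer K
  exact Fermat.Agent.Lib.helper1998.dvd_ord_of_forall_place_dvd (K₀ := K) (K := Qb)
    (F₀ := laurentBaseChange K F₀) (F := laurentBaseChange Qb F₀)
    (adjoin_range_algebraMap_eq_top (K := K) (L := Qb) F₀) m y h P₀

/-- The converse transfer: divisibility at all places of `F_K / K` gives divisibility at all
places of `F_Qb / Qb`. -/
theorem dvd_ord_layerHom_of_forall (m : ℤ) (y : laurentBaseChange K F₀)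
    (h : ∀ P₀ : Place K (laurentBaseChange K F₀), m ∣ P₀.ord y)
    (v : Place Qb (laurentBaseChange Qb F₀)) :
    m ∣ v.ord (layerHom F₀ (algebraMap K Qb) y) := by
  letI := layerAlgebra K Qb F₀
  letI := layerAlgebraBase K Qb F₀
  haveI := layer_isScalarTower_left (K := K) (L := Qb) F₀
  haveI := layer_isScalarTower_right (K := K) (L := Qb) F₀
  haveI : Algebra.IsAlgebraic ℚ Qb := isAlgebraic_Qbar
  haveI : Algebra.IsAlgebraic K Qb := isAlgebraic_layer K
  exact Fermat.Agent.Lib.helper1998.dvd_ord_algebraMap_of_forall_place_dvd (K₀ := K) (K := Qb)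
    (F₀ := laurentBaseChange K F₀) (F := laurentBaseChange Qb F₀)
    (adjoin_range_algebraMap_eq_top (K := K) (L := Qb) F₀) m y h v

/-- A function over `K` whose image over `ℚ̄` is a Kummer function is a Kummer function over
`K`. -/
theorem isKummer_layer_of_isKummer {n : ℕ} (y : laurentBaseChange K F₀)
    (h : IsKummer Qb n (layerHom F₀ (algebraMap K Qb) y)) : IsKummer K n y := by
  refine ⟨fun hy => h.1 (by rw [hy, map_zero]), fun P₀ => ?_⟩
  exact dvd_ord_layer_of_forall F₀ K n y h.2 P₀

/-- ... and conversely. -/
theorem isKummer_layerHom_of_isKummer {n : ℕ} (y : laurentBaseChange K F₀)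
    (h : IsKummer K n y) : IsKummer Qb n (layerHom F₀ (algebraMap K Qb) y) := by
  refine ⟨fun hy => h.1 ?_, fun v => ?_⟩
  · exact layerHom_injective F₀ (algebraMap K Qb) (by rw [hy, map_zero])
  · exact dvd_ord_layerHom_of_forall F₀ K n y h.2 v

end Layer

section Modular

variable (N : ℕ) [NeZero N]

/-- **S36-F4-DESCENT, place form.**  An `n`-torsion point `x` of `JZero N` fixed by a subgroup
`I` of the Galois group is the Kummer class of (the image over `ℚ̄` of) a function `y` over `K`
(any intermediate field containing the `I`-fixed elements of `ℚ̄`, e.g. `K = ℚ̄^I`) with leading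
coefficient `1` such that `n ∣ P₀.ord y` at EVERY place `P₀` of the function field over `K`; the
image is fixed by `I` and its Kummer divisor is `I`-stable. -/
theorem exists_rational_kummer_places {n : ℕ} (hn : n ≠ 0) (I : Subgroup GQ)
    (K : IntermediateField ℚ Qb) (hK : ∀ a : Qb, (∀ σ ∈ I, σ a = a) → a ∈ K)
    {x : JZero N} (hx : x ∈ Pic0.torsion Qb (modularFunctionFieldBar N) n)
    (hI : ∀ σ ∈ I, σ • x = x) :
    ∃ y : laurentBaseChange K (modularFunctionFieldFull N),
      y ≠ 0 ∧ (y : LaurentSeries K).leadingCoeff = 1 ∧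
      (∀ P₀ : Place K (laurentBaseChange K (modularFunctionFieldFull N)), (n : ℤ) ∣ P₀.ord y) ∧
      IsKummer Qb n (layerHom (modularFunctionFieldFull N) (algebraMap K Qb) y) ∧
      kummerClass Qb n (layerHom (modularFunctionFieldFull N) (algebraMap K Qb) y) = x ∧
      (∀ σ ∈ I, arithmeticRingAut (modularFunctionFieldFull N) σ
        (layerHom (modularFunctionFieldFull N) (algebraMap K Qb) y)
          = layerHom (modularFunctionFieldFull N) (algebraMap K Qb) y) ∧
      ∀ σ ∈ I, arithmeticGalois (modularFunctionFieldFull N) σ •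
        kummerDivisor Qb n (layerHom (modularFunctionFieldFull N) (algebraMap K Qb) y)
          = kummerDivisor Qb n (layerHom (modularFunctionFieldFull N) (algebraMap K Qb) y) := by
  obtain ⟨y, hy, u, huy, hu, hcl, hlc, hfix, hdiv⟩ :=
    exists_rational_kummer_of_torsion N hn I K hK hx hI
  have hu' : layerHom (modularFunctionFieldFull N) (algebraMap K Qb) ⟨y, hy⟩ = u :=
    Subtype.ext huy.symm
  have hkum : IsKummer Qb n (layerHom (modularFunctionFieldFull N) (algebraMap K Qb) ⟨y, hy⟩) := by
    rw [hu']
    exact hu
  have hkumK := isKummer_layer_of_isKummer (modularFunctionFieldFull N) K ⟨y, hy⟩ hkum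
  refine ⟨⟨y, hy⟩, hkumK.1, hlc, hkumK.2, hkum, ?_, ?_, ?_⟩
  · rw [hu']
    exact hcl
  · rw [hu']
    exact hfix
  · rw [hu']
    exact hdiv

end Modular

end Fermat.Agent.S36.helper6961
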