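/-
S36-KILL-WRAP (helper6961): the wrapper between the captain's canonical (KILL) Prop
`helper1335.KillFFAt` (everything over `ℚ̄`, inertia hypothesis on the CLASS, norm relations with
`ℚ̄`-constants) and the `K`-level statement proved by the geometric core (a function `y` of the
function field over `K = ℚ̄^I`, divisibility of its orders at the places over `K`, `K`-level norms
with `K`-constants).

Notation: `Qb = ℚ̄`, `I` a subgroup of `Gal(ℚ̄/ℚ)` (in the application the inertia group of a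
valuation ring of `ℚ̄`), `KI I = ℚ̄^I`, `FKI I N = laurentBaseChange (KI I) (modularFunctionFieldFull N)`
(the function field of `X₀(N)` over `K`), `lh = S37.helper5651.layerHom` the coefficientwise
embedding into `modularFunctionFieldBar N`.

* `horDiv_of_forall_place` : divisibility of the orders at all Prelude places gives the
  valuation-subring form (`∀ W ⊇ K`, `W ≠ ⊤`, `W` principal: `u = g ^ n * unit`).
* `arithmeticRingAut_normAlong`, `arithmeticRingAut_normAlong_alpha/beta` : norms along the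
  degeneracy maps commute with the coefficientwise Galois action.
* `exists_rational_pair` : if the image over `ℚ̄` of `v : FKI I N` is `constant * n-th power`, then
  `v = κ * w ^ n` with `κ ∈ K` and `w` in the function field over `K`.
* `kill_of_killK` : the wrapper for one exponent `n`.
* `killFFAt_of_killK` : the wrapper in the captain's vocabulary.

The maps `Nα`, `Nβ` are ARBITRARY functions `FKI I (M₁ * q) → FKI I M₁` compatible with the norms
over `ℚ̄` through `lh` (the genuine `K`-level norms are such maps: `helper6961_NormBC`).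
-/
import Fermat.Agent.S36.helper6961_KummerPlaces
import Fermat.Agent.S36.helper1335_KillFF

set_option autoImplicit false
set_option linter.style.haveILetI false
set_option linter.unusedSectionVars false

noncomputable section

namespace Fermat.Agent.S36.helper6961

open ModularCurve AlgebraicCurve HahnSeries
open Fermat.Agent.S29.helper8217
open Fermat.Agent.S37.helper5651

/-! ### Places versus valuation subrings -/

section Hor

variable {K F : Type*} [Field K] [Field F] [Algebra K F]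

/-- Divisibility of the orders of `u` at all places gives, at every valuation subring `W` of `F`
containing `K`, different from `F` and principal, an element `g` with `u = g ^ n * (unit of W)`. -/
theorem horDiv_of_forall_place (n : ℕ) (u : F) (hu : u ≠ 0)
    (h : ∀ P : Place K F, (n : ℤ) ∣ P.ord u) (W : ValuationSubring F)
    (hK : ∀ a : K, algebraMap K F a ∈ W) (hW : W ≠ ⊤) (hpir : IsPrincipalIdealRing W) :
    ∃ g : F, g ≠ 0 ∧ u / g ^ n ∈ W ∧ g ^ n / u ∈ W := by
  obtain ⟨P, rfl⟩ : ∃ P : Place K F, P.toValuationSubring = W := ⟨⟨W, hK, hW, hpir⟩, rfl⟩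
  obtain ⟨τ, hτ⟩ := Fermat.Agent.Lib.helper1998.exists_isUnif P.toValuationSubring
  obtain ⟨m, ε, hε, hε', hueq⟩ := hτ.2.2 u hu
  have hε0 : ε ≠ 0 := by
    rintro rfl
    exact hu (by rw [hueq, mul_zero])
  have hord : P.ord u = m :=
    Fermat.Agent.Lib.helper1998.ord_eq_of_isUnif P hτ hε hε' hε0 hueq
  obtain ⟨k, hk⟩ := h P
  rw [hord] at hk
  have hτ0 : τ ≠ 0 := hτ.ne_zero
  have hpow : (τ ^ k) ^ n = τ ^ m := by
    rw [← zpow_natCast, ← zpow_mul, hk, mul_comm]
  have hτm : τ ^ m ≠ 0 := zpow_ne_zero m hτ0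
  refine ⟨τ ^ k, zpow_ne_zero k hτ0, ?_, ?_⟩
  · have h1 : u / (τ ^ k) ^ n = ε := by
      rw [hpow, hueq]
      field_simp
    rw [h1]
    exact hε
  · have h1 : (τ ^ k) ^ n / u = ε⁻¹ := by
      rw [hpow, hueq]
      field_simp
    rw [h1]
    exact hε'

end Hor

/-! ### Norms commute with the coefficientwise Galois action -/

section NormGalois

variable (F₀ F₀' : IntermediateField ℚ (LaurentSeries ℚ))

/-- The norm along a `ℚ̄`-algebra map commuting with the coefficientwise Galois action commutes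
with that action. -/
theorem arithmeticRingAut_normAlong
    (ψ : laurentBaseChange Qb F₀ →ₐ[Qb] laurentBaseChange Qb F₀')
    (hψ : ∀ (σ : GQ) (x : laurentBaseChange Qb F₀),
      arithmeticRingAut F₀' σ (ψ x) = ψ (arithmeticRingAut F₀ σ x))
    (σ : GQ) (x : laurentBaseChange Qb F₀') :
    arithmeticRingAut F₀ σ (normAlong ψ x) = normAlong ψ (arithmeticRingAut F₀' σ x) := by
  letI := algebraAlong ψ
  have he : RingHom.comp (algebraMap (laurentBaseChange Qb F₀) (laurentBaseChange Qb F₀'))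
      ((arithmeticRingAut F₀ σ : laurentBaseChange Qb F₀ ≃+* laurentBaseChange Qb F₀) :
        laurentBaseChange Qb F₀ →+* laurentBaseChange Qb F₀)
      = RingHom.comp
        ((arithmeticRingAut F₀' σ : laurentBaseChange Qb F₀' ≃+* laurentBaseChange Qb F₀') :
          laurentBaseChange Qb F₀' →+* laurentBaseChange Qb F₀')
        (algebraMap (laurentBaseChange Qb F₀) (laurentBaseChange Qb F₀')) := by
    refine RingHom.ext fun y => ?_
    exact (hψ σ y).symm
  have h := Algebra.norm_eq_of_equiv_equiv (arithmeticRingAut F₀ σ) (arithmeticRingAut F₀' σ) he x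
  show arithmeticRingAut F₀ σ (Algebra.norm (laurentBaseChange Qb F₀) x)
    = Algebra.norm (laurentBaseChange Qb F₀) (arithmeticRingAut F₀' σ x)
  rw [h, RingEquiv.apply_symm_apply]

/-- The norm of a nonzero element is nonzero (finite or not). -/
theorem normAlong_ne_zero (ψ : laurentBaseChange Qb F₀ →ₐ[Qb] laurentBaseChange Qb F₀')
    {x : laurentBaseChange Qb F₀'} (hx : x ≠ 0) : normAlong ψ x ≠ 0 := by
  letI := algebraAlong ψ
  show Algebra.norm (laurentBaseChange Qb F₀) x ≠ 0
  by_cases hfin : Module.Finite (laurentBaseChange Qb F₀) (laurentBaseChange Qb F₀')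
  · exact Algebra.norm_ne_zero_iff.mpr hx
  · rw [Algebra.norm_eq_one_of_not_module_finite hfin]
    exact one_ne_zero

/-- The norm of a constant is a constant. -/
theorem normAlong_algebraMap (ψ : laurentBaseChange Qb F₀ →ₐ[Qb] laurentBaseChange Qb F₀')
    (a : Qb) : ∃ b : Qb, normAlong ψ (algebraMap Qb (laurentBaseChange Qb F₀') a)
      = algebraMap Qb (laurentBaseChange Qb F₀) b := by
  letI := algebraAlong ψ
  refine ⟨a ^ Module.finrank (laurentBaseChange Qb F₀) (laurentBaseChange Qb F₀'), ?_⟩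
  have h1 : algebraMap Qb (laurentBaseChange Qb F₀') a
      = algebraMap (laurentBaseChange Qb F₀) (laurentBaseChange Qb F₀')
        (algebraMap Qb (laurentBaseChange Qb F₀) a) := (ψ.commutes a).symm
  show Algebra.norm (laurentBaseChange Qb F₀) (algebraMap Qb (laurentBaseChange Qb F₀') a) = _
  rw [h1, Algebra.norm_algebraMap, map_pow]

theorem normAlong_mul (ψ : laurentBaseChange Qb F₀ →ₐ[Qb] laurentBaseChange Qb F₀')
    (x y : laurentBaseChange Qb F₀') : normAlong ψ (x * y) = normAlong ψ x * normAlong ψ y := by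
  letI := algebraAlong ψ
  exact map_mul (Algebra.norm (laurentBaseChange Qb F₀)) x y

theorem normAlong_pow (ψ : laurentBaseChange Qb F₀ →ₐ[Qb] laurentBaseChange Qb F₀')
    (x : laurentBaseChange Qb F₀') (n : ℕ) : normAlong ψ (x ^ n) = normAlong ψ x ^ n := by
  letI := algebraAlong ψ
  exact map_pow (Algebra.norm (laurentBaseChange Qb F₀)) x n

end NormGalois

section Degeneracy

variable (N ℓ : ℕ) [NeZero N] [NeZero ℓ]

theorem arithmeticRingAut_heckeAlphaBar (σ : GQ) (x : modularFunctionFieldBar N) :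
    arithmeticRingAut (modularFunctionFieldFull (N * ℓ)) σ (heckeAlphaBar Qb N ℓ x)
      = heckeAlphaBar Qb N ℓ (arithmeticRingAut (modularFunctionFieldFull N) σ x) := by
  apply Subtype.ext
  show coeffMap (σ : Qb →+* Qb) ((heckeAlphaBar Qb N ℓ x : _) : LaurentSeries Qb)
    = ((heckeAlphaBar Qb N ℓ (arithmeticRingAut (modularFunctionFieldFull N) σ x) : _) :
      LaurentSeries Qb)
  rw [coe_heckeAlphaBar, coe_heckeAlphaBar]
  rfl

theorem arithmeticRingAut_heckeBetaBar (σ : GQ) (x : modularFunctionFieldBar N) :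
    arithmeticRingAut (modularFunctionFieldFull (N * ℓ)) σ (heckeBetaBar Qb N ℓ x)
      = heckeBetaBar Qb N ℓ (arithmeticRingAut (modularFunctionFieldFull N) σ x) := by
  apply Subtype.ext
  show coeffMap (σ : Qb →+* Qb) (qExpand Qb ℓ (x : LaurentSeries Qb))
    = qExpand Qb ℓ (coeffMap (σ : Qb →+* Qb) (x : LaurentSeries Qb))
  exact ModularCurve.coeffMap_qExpand (σ : Qb →+* Qb) ℓ _

/-- Norms along `α` commute with the coefficientwise Galois action. -/
theorem arithmeticRingAut_normAlong_alpha (σ : GQ) (x : modularFunctionFieldBar (N * ℓ)) :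
    arithmeticRingAut (modularFunctionFieldFull N) σ (normAlong (heckeAlphaBar Qb N ℓ) x)
      = normAlong (heckeAlphaBar Qb N ℓ)
        (arithmeticRingAut (modularFunctionFieldFull (N * ℓ)) σ x) :=
  arithmeticRingAut_normAlong _ _ (heckeAlphaBar Qb N ℓ)
    (fun σ y => arithmeticRingAut_heckeAlphaBar N ℓ σ y) σ x

/-- Norms along `β` commute with the coefficientwise Galois action. -/
theorem arithmeticRingAut_normAlong_beta (σ : GQ) (x : modularFunctionFieldBar (N * ℓ)) :
    arithmeticRingAut (modularFunctionFieldFull N) σ (normAlong (heckeBetaBar Qb N ℓ) x)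
      = normAlong (heckeBetaBar Qb N ℓ)
        (arithmeticRingAut (modularFunctionFieldFull (N * ℓ)) σ x) :=
  arithmeticRingAut_normAlong _ _ (heckeBetaBar Qb N ℓ)
    (fun σ y => arithmeticRingAut_heckeBetaBar N ℓ σ y) σ x

end Degeneracy

/-! ### The function field over `K = ℚ̄^I` -/

/-- The fixed field of a subgroup `I` of the Galois group. -/
abbrev KI (I : Subgroup GQ) : IntermediateField ℚ Qb := IntermediateField.fixedField I

/-- The function field of `X₀(N)` over `ℚ̄^I`. -/
abbrev FKI (I : Subgroup GQ) (N : ℕ) : Type :=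
  ↥(laurentBaseChange (KI I) (modularFunctionFieldFull N))

section Rational

variable (I : Subgroup GQ)

theorem apply_algebraMap_KI {σ : GQ} (hσ : σ ∈ I) (c : KI I) :
    σ (algebraMap (KI I) Qb c) = algebraMap (KI I) Qb c :=
  c.2 ⟨σ, hσ⟩

variable (F₀ : IntermediateField ℚ (LaurentSeries ℚ))

/-- An `I`-fixed element of the function field over `ℚ̄` comes from the function field over
`ℚ̄^I`. -/
theorem exists_layerHom_eq_of_fixed (w : laurentBaseChange Qb F₀)
    (hw : ∀ σ ∈ I, arithmeticRingAut F₀ σ w = w) :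
    ∃ y : laurentBaseChange (KI I) F₀, layerHom F₀ (algebraMap (KI I) Qb) y = w := by
  have hcoeff : ∀ m : ℤ, (w : LaurentSeries Qb).coeff m ∈ Set.range (algebraMap (KI I) Qb) := by
    intro m
    refine ⟨⟨_, mem_fixedField_of_forall I _ fun σ hσ => ?_⟩, rfl⟩
    have h1 := congrArg (fun z : laurentBaseChange Qb F₀ => (z : LaurentSeries Qb).coeff m)
      (hw σ hσ)
    simpa using h1
  obtain ⟨y, hy, hyw⟩ :=
    Fermat.Agent.S29.helper6961.exists_mem_laurentBaseChange_coeffMap_eq F₀
      (algebraMap (KI I) Qb) w.2 hcoeff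
  exact ⟨⟨y, hy⟩, Subtype.ext hyw⟩

/-- **Rational pairs.**  If the image over `ℚ̄` of a nonzero `v` of the function field over
`K = ℚ̄^I` is `constant * n-th power`, then `v = κ * w ^ n` with `κ ∈ K` and `w` in the function
field over `K` (normalise the leading coefficient of the root; the normalised root is unique,
hence `I`-fixed). -/
theorem exists_rational_pair {n : ℕ} (hn : n ≠ 0) (v : laurentBaseChange (KI I) F₀) (hv : v ≠ 0)
    (h : ∃ (a : Qb) (w : laurentBaseChange Qb F₀),
      layerHom F₀ (algebraMap (KI I) Qb) v = algebraMap Qb (laurentBaseChange Qb F₀) a * w ^ n) :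
    ∃ (κ : KI I) (w : laurentBaseChange (KI I) F₀), κ ≠ 0 ∧ w ≠ 0 ∧
      v = algebraMap (KI I) (laurentBaseChange (KI I) F₀) κ * w ^ n := by
  obtain ⟨a, w, haw⟩ := h
  set ι : KI I →+* Qb := algebraMap (KI I) Qb with hι
  have hV0 : layerHom F₀ ι v ≠ 0 := fun h0 =>
    hv (layerHom_injective F₀ ι (by rw [h0, map_zero]))
  have ha0 : a ≠ 0 := by
    rintro rfl
    exact hV0 (by rw [haw, map_zero, zero_mul])
  have hw0 : w ≠ 0 := by
    rintro rfl
    exact hV0 (by rw [haw, zero_pow hn, mul_zero])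
  -- the leading coefficient of `v`
  set κ : KI I := (v : LaurentSeries (KI I)).leadingCoeff with hκ
  have hκ0 : κ ≠ 0 := by
    rw [hκ, Ne, HahnSeries.leadingCoeff_eq_zero]
    exact fun h0 => hv (Subtype.ext h0)
  have hlcV : lc F₀ (layerHom F₀ ι v) = ι κ := leadingCoeff_coeffMap ι (v : LaurentSeries (KI I))
  have hlcw : lc F₀ w ≠ 0 := lc_ne_zero F₀ hw0
  have hrel : ι κ = a * lc F₀ w ^ n := by
    rw [← hlcV, haw, lc_mul, lc_algebraMap, lc_pow]
  -- the normalised root
  set w₂ : laurentBaseChange Qb F₀ :=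
    w * algebraMap Qb (laurentBaseChange Qb F₀) (lc F₀ w)⁻¹ with hw₂
  have hw₂0 : w₂ ≠ 0 := mul_ne_zero hw0 ((map_ne_zero _).mpr (inv_ne_zero hlcw))
  have hw₂lc : lc F₀ w₂ = 1 := by
    rw [hw₂, lc_mul, lc_algebraMap, mul_inv_cancel₀ hlcw]
  have hικ0 : ι κ ≠ 0 := (map_ne_zero ι).mpr hκ0
  have hw₂pow : algebraMap Qb (laurentBaseChange Qb F₀) (ι κ) * w₂ ^ n = layerHom F₀ ι v := by
    rw [haw, hw₂, mul_pow, ← map_pow, hrel, map_mul, inv_pow, map_pow, map_inv₀, map_pow]
    have hne : (algebraMap Qb (laurentBaseChange Qb F₀) (lc F₀ w)) ^ n ≠ 0 :=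
      pow_ne_zero n ((map_ne_zero _).mpr hlcw)
    field_simp
  have hw₂pow' : w₂ ^ n = layerHom F₀ ι
      (algebraMap (KI I) (laurentBaseChange (KI I) F₀) κ⁻¹ * v) := by
    rw [map_mul, layerHom_algebraMap, ← hw₂pow, ← mul_assoc,
      ← map_mul (algebraMap Qb (laurentBaseChange Qb F₀)), map_inv₀ ι, inv_mul_cancel₀ hικ0,
      map_one, one_mul]
  -- the normalised root is fixed by `I`
  have hfix : ∀ σ ∈ I, arithmeticRingAut F₀ σ w₂ = w₂ := by
    intro σ hσ
    refine eq_of_pow_eq_of_lc_eq F₀ hn hw₂0 ?_ ?_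
    · rw [← map_pow, hw₂pow']
      exact arithmeticRingAut_layerHom_of_fix F₀ ι σ (fun c => apply_algebraMap_KI I hσ c) _
    · rw [lc_arithmeticRingAut, hw₂lc, map_one]
  obtain ⟨y, hy⟩ := exists_layerHom_eq_of_fixed I F₀ w₂ hfix
  refine ⟨κ, y, hκ0, fun h0 => hw₂0 (by rw [← hy, h0, map_zero]), ?_⟩
  apply layerHom_injective F₀ ι
  rw [map_mul, map_pow, layerHom_algebraMap, hy, hw₂pow]

end Rational

/-! ### The wrapper -/

section Wrap

variable (M₁ q : ℕ) [NeZero M₁] [NeZero q] (I : Subgroup GQ)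

/-- **S36-KILL-WRAP, one exponent.**  Suppose that for the function fields over `K = ℚ̄^I`, with
maps `Nα`, `Nβ` compatible with the norms over `ℚ̄`, every nonzero `y` of level `M₁ * q` whose
orders at all places over `K` are divisible by `n` and whose two norms are `κ * w ^ n`
(`κ ∈ K`) satisfies `y ^ c = κ * h ^ n`.  Then every `n`-Kummer function `u` over `ℚ̄` of level
`M₁ * q` whose class is fixed by `I` and whose two norms are `constant * n-th power` satisfies
`u ^ c = constant * n-th power`. -/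
theorem kill_of_killK {n : ℕ} (hn : n ≠ 0) (c : ℕ)
    (Nα Nβ : FKI I (M₁ * q) → FKI I M₁)
    (hNα : ∀ y : FKI I (M₁ * q),
      layerHom (modularFunctionFieldFull M₁) (algebraMap (KI I) Qb) (Nα y)
        = normAlong (heckeAlphaBar Qb M₁ q)
          (layerHom (modularFunctionFieldFull (M₁ * q)) (algebraMap (KI I) Qb) y))
    (hNβ : ∀ y : FKI I (M₁ * q),
      layerHom (modularFunctionFieldFull M₁) (algebraMap (KI I) Qb) (Nβ y)
        = normAlong (heckeBetaBar Qb M₁ q)
          (layerHom (modularFunctionFieldFull (M₁ * q)) (algebraMap (KI I) Qb) y))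
    (hkill : ∀ y : FKI I (M₁ * q), y ≠ 0 → (y : LaurentSeries (KI I)).leadingCoeff = 1 →
      (∀ P₀ : Place (KI I) (FKI I (M₁ * q)), (n : ℤ) ∣ P₀.ord y) →
      (∃ (κ : KI I) (w : FKI I M₁), κ ≠ 0 ∧ w ≠ 0 ∧
        Nα y = algebraMap (KI I) (FKI I M₁) κ * w ^ n) →
      (∃ (κ : KI I) (w : FKI I M₁), κ ≠ 0 ∧ w ≠ 0 ∧
        Nβ y = algebraMap (KI I) (FKI I M₁) κ * w ^ n) →
      ∃ (κ : KI I) (h : FKI I (M₁ * q)),
        y ^ c = algebraMap (KI I) (FKI I (M₁ * q)) κ * h ^ n)
    (u : modularFunctionFieldBar (M₁ * q)) (hu : IsKummer Qb n u)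
    (hI : ∀ σ ∈ I, σ • kummerClass Qb n u = kummerClass Qb n u)
    (hα : ∃ (a : Qb) (w : modularFunctionFieldBar M₁),
      normAlong (heckeAlphaBar Qb M₁ q) u
        = algebraMap Qb (modularFunctionFieldBar M₁) a * w ^ n)
    (hβ : ∃ (a : Qb) (w : modularFunctionFieldBar M₁),
      normAlong (heckeBetaBar Qb M₁ q) u
        = algebraMap Qb (modularFunctionFieldBar M₁) a * w ^ n) :
    ∃ (a : Qb) (w : modularFunctionFieldBar (M₁ * q)),
      u ^ c = algebraMap Qb (modularFunctionFieldBar (M₁ * q)) a * w ^ n := by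
  haveI : HasPrincipalDivisors Qb (modularFunctionFieldBar (M₁ * q)) :=
    Fermat.Agent.S29.helper36.hasPrincipalDivisors_L Qb (M₁ * q)
  set ι : KI I →+* Qb := algebraMap (KI I) Qb with hι
  -- Step 1: the fixed representative `u' = a * u * w ^ n`.
  obtain ⟨u', hu', -, hlc, hfix, a, w, ha, hw, hform⟩ :=
    exists_fixed_of_kummer (modularFunctionFieldFull (M₁ * q))
      (fun f hf => Fermat.Agent.S29.helper36.exists_algebraMap_eq_of_ord_eq_zero Qb (M₁ * q) hf)
      hn I hu hI
  obtain ⟨y, hy⟩ := exists_layerHom_eq_of_fixed I (modularFunctionFieldFull (M₁ * q)) u' hfix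
  have hy0 : y ≠ 0 := fun h0 => hu'.ne_zero (by rw [← hy, h0, map_zero])
  have hylc : (y : LaurentSeries (KI I)).leadingCoeff = 1 := by
    have h1 : ι (y : LaurentSeries (KI I)).leadingCoeff = 1 := by
      rw [← leadingCoeff_coeffMap]
      have h2 : lc (modularFunctionFieldFull (M₁ * q))
          (layerHom (modularFunctionFieldFull (M₁ * q)) ι y) = 1 := by
        rw [hy]
        exact hlc
      exact h2
    exact ι.injective (by rw [h1, map_one])
  -- Step 2: places over `K`.
  have hplaces : ∀ P₀ : Place (KI I) (FKI I (M₁ * q)), (n : ℤ) ∣ P₀.ord y := by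
    intro P₀
    refine dvd_ord_layer_of_forall (modularFunctionFieldFull (M₁ * q)) (KI I) n y ?_ P₀
    intro v
    rw [hy]
    exact hu'.2 v
  -- Step 3: the norm relations for `u'`, then over `K`.
  have hnorm : ∀ ψ : modularFunctionFieldBar M₁ →ₐ[Qb] modularFunctionFieldBar (M₁ * q),
      (∃ (a : Qb) (w : modularFunctionFieldBar M₁),
        normAlong ψ u = algebraMap Qb (modularFunctionFieldBar M₁) a * w ^ n) →
      ∃ (a : Qb) (w : modularFunctionFieldBar M₁),
        normAlong ψ u' = algebraMap Qb (modularFunctionFieldBar M₁) a * w ^ n := by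
    rintro ψ ⟨a₀, w₀, h0⟩
    obtain ⟨b, hb⟩ := normAlong_algebraMap (modularFunctionFieldFull M₁)
      (modularFunctionFieldFull (M₁ * q)) ψ a
    refine ⟨b * a₀, w₀ * normAlong ψ w, ?_⟩
    rw [hform, normAlong_mul, normAlong_mul, normAlong_pow, hb, h0, map_mul, mul_pow]
    ring
  have hrat : ∀ (ψ : modularFunctionFieldBar M₁ →ₐ[Qb] modularFunctionFieldBar (M₁ * q))
      (Nψ : FKI I (M₁ * q) → FKI I M₁),
      (∀ y : FKI I (M₁ * q),
        layerHom (modularFunctionFieldFull M₁) ι (Nψ y)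
          = normAlong ψ (layerHom (modularFunctionFieldFull (M₁ * q)) ι y)) →
      (∃ (a : Qb) (w : modularFunctionFieldBar M₁),
        normAlong ψ u = algebraMap Qb (modularFunctionFieldBar M₁) a * w ^ n) →
      ∃ (κ : KI I) (w : FKI I M₁), κ ≠ 0 ∧ w ≠ 0 ∧
        Nψ y = algebraMap (KI I) (FKI I M₁) κ * w ^ n := by
    intro ψ Nψ hNψ hψ
    have h1 : layerHom (modularFunctionFieldFull M₁) ι (Nψ y) = normAlong ψ u' := by
      rw [hNψ, hy]
    have hv0 : Nψ y ≠ 0 := by
      intro h0
      have h2 := normAlong_ne_zero (modularFunctionFieldFull M₁)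
        (modularFunctionFieldFull (M₁ * q)) ψ hu'.ne_zero
      rw [← h1, h0, map_zero] at h2
      exact h2 rfl
    refine exists_rational_pair I (modularFunctionFieldFull M₁) hn (Nψ y) hv0 ?_
    rw [h1]
    exact hnorm ψ hψ
  -- Step 4: the `K`-level statement.
  obtain ⟨κ, h, hκh⟩ := hkill y hy0 hylc hplaces
    (hrat (heckeAlphaBar Qb M₁ q) Nα hNα hα) (hrat (heckeBetaBar Qb M₁ q) Nβ hNβ hβ)
  -- Step 5: back to `u`.
  have hu'c : u' ^ c = algebraMap Qb (modularFunctionFieldBar (M₁ * q)) (ι κ)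
      * layerHom (modularFunctionFieldFull (M₁ * q)) ι h ^ n := by
    rw [← hy, ← map_pow, hκh, map_mul, map_pow, layerHom_algebraMap]
  have ha0 : algebraMap Qb (modularFunctionFieldBar (M₁ * q)) a ≠ 0 := (map_ne_zero _).mpr ha
  refine ⟨ι κ * (a⁻¹) ^ c,
    layerHom (modularFunctionFieldFull (M₁ * q)) ι h * (w⁻¹) ^ c, ?_⟩
  have hu0 : u ≠ 0 := hu.ne_zero
  have key : u ^ c = u' ^ c * (algebraMap Qb (modularFunctionFieldBar (M₁ * q)) a)⁻¹ ^ c
      * ((w⁻¹) ^ c) ^ n := by
    rw [hform, mul_pow, mul_pow, ← pow_mul, ← pow_mul, inv_pow, inv_pow, mul_comm n c]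
    field_simp
  rw [key, hu'c, map_mul, map_pow, map_inv₀, mul_pow]
  ring

/-- **S36-KILL-WRAP** in the captain's vocabulary: the `K`-level statement over
`K = ℚ̄^I`, `I` the inertia group of `A`, gives `helper1335.KillFFAt M₁ q lam A c`. -/
theorem killFFAt_of_killK (lam : ℕ) (hlam : lam ≠ 0) (A : ValuationSubring Qb) (c : ℕ)
    (Nα Nβ : FKI (A.inertiaSubgroupIn ℚ) (M₁ * q) → FKI (A.inertiaSubgroupIn ℚ) M₁)
    (hNα : ∀ y : FKI (A.inertiaSubgroupIn ℚ) (M₁ * q),
      layerHom (modularFunctionFieldFull M₁) (algebraMap (KI (A.inertiaSubgroupIn ℚ)) Qb) (Nα y)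
        = normAlong (heckeAlphaBar Qb M₁ q)
          (layerHom (modularFunctionFieldFull (M₁ * q))
            (algebraMap (KI (A.inertiaSubgroupIn ℚ)) Qb) y))
    (hNβ : ∀ y : FKI (A.inertiaSubgroupIn ℚ) (M₁ * q),
      layerHom (modularFunctionFieldFull M₁) (algebraMap (KI (A.inertiaSubgroupIn ℚ)) Qb) (Nβ y)
        = normAlong (heckeBetaBar Qb M₁ q)
          (layerHom (modularFunctionFieldFull (M₁ * q))
            (algebraMap (KI (A.inertiaSubgroupIn ℚ)) Qb) y))
    (hkill : ∀ (n : ℕ) (y : FKI (A.inertiaSubgroupIn ℚ) (M₁ * q)), y ≠ 0 →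
      (y : LaurentSeries (KI (A.inertiaSubgroupIn ℚ))).leadingCoeff = 1 →
      (∀ P₀ : Place (KI (A.inertiaSubgroupIn ℚ)) (FKI (A.inertiaSubgroupIn ℚ) (M₁ * q)),
        ((lam ^ n : ℕ) : ℤ) ∣ P₀.ord y) →
      (∃ (κ : KI (A.inertiaSubgroupIn ℚ)) (w : FKI (A.inertiaSubgroupIn ℚ) M₁), κ ≠ 0 ∧ w ≠ 0 ∧
        Nα y = algebraMap (KI (A.inertiaSubgroupIn ℚ)) (FKI (A.inertiaSubgroupIn ℚ) M₁) κ
          * w ^ (lam ^ n)) →
      (∃ (κ : KI (A.inertiaSubgroupIn ℚ)) (w : FKI (A.inertiaSubgroupIn ℚ) M₁), κ ≠ 0 ∧ w ≠ 0 ∧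
        Nβ y = algebraMap (KI (A.inertiaSubgroupIn ℚ)) (FKI (A.inertiaSubgroupIn ℚ) M₁) κ
          * w ^ (lam ^ n)) →
      ∃ (κ : KI (A.inertiaSubgroupIn ℚ)) (h : FKI (A.inertiaSubgroupIn ℚ) (M₁ * q)),
        y ^ c = algebraMap (KI (A.inertiaSubgroupIn ℚ))
          (FKI (A.inertiaSubgroupIn ℚ) (M₁ * q)) κ * h ^ (lam ^ n)) :
    Fermat.Agent.S36.helper1335.KillFFAt M₁ q lam A c := by
  intro n u hu hI hα hβ
  exact kill_of_killK M₁ q (A.inertiaSubgroupIn ℚ) (pow_ne_zero n hlam) c Nα Nβ hNα hNβ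
    (hkill n) u hu hI hα hβ

end Wrap

end Fermat.Agent.S36.helper6961
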