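import Fermat.Agent.S36.helper7249_ThetaQ2
import Fermat.Agent.S36.helper105_ThetaUnit
import Fermat.Agent.S36.helper4474_NineUnit
import Fermat.Agent.S36.helper1257_BaseLineTheta

/-!
# S36-THETA-Q2, closed instances (helper7249): level 4 and level 9

The hypotheses of `helper7249_ThetaQ2` are discharged for the two theta units on main:

* **level 4** (`4 ∣ M'`, `q ∤ M'`): `Y₀ = y4 q h4 = helper105.thetaUnit` (`Θ²(z)/Θ²(qz)`),
  constant `c4 q = χ₋₄(q)`, base line `τ = t4Bar M' h4`, `θ t₄ = -(Θ²)² t₄`, so `u = t₄`;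
* **level 9** (`9 ∣ M'`, `q ∤ M'`): `Y₀ = y9 q h9 = helper4474.nineUnit` (`b(z)/b(qz)`,
  `b = η(z)³/η(3z)`), constant `c9 q = χ₋₃(q)`, base line `τ = t9Bar M' h9`,
  `θ t₉ = -b² u₉`, `u₉ = t₉ + 9 + 27/t₉`.

For each: the law `W_q(Y₀) Y₀ = c q` (`y4_law`, `y9_law`), `c ≠ 0`, `c * c = 1`, the expansion
`Y₀ = f · g(x^q)` with `f g = 1` (`coe_y4`, `coe_y9`), and the closed certificates

* `exists_midExp_four`, `exists_midExp_nine` :
  `midExp ζ (T^(q-1) X Y) = q (-(u^(q-1)) + (ζ - 1) E)`, `E` over any ring `R → ℚ̄` containing `ζ`;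
* `coe_pow_mul_four`, `coe_pow_mul_nine` : the expansion at `∞` of `T^(q-1) X Y` is `c q` times an
  integral series;
* `four_mul`, `nine_mul` : `X Y Z = c q`.

Every other statement of `helper7249_ThetaQ2` (`hall_*`, `midExp_el*`) applies with
`hW := y4_law ..` / `y9_law ..` and `hc := c4_ne_zero q` / `c9_ne_zero q`.
-/

set_option autoImplicit false
set_option linter.style.haveILetI false
set_option linter.unusedSectionVars false

open ModularCurve

noncomputable section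

namespace Fermat.Agent.S36.helper7249

open Fermat.Agent.S24 Fermat.Agent.S24.helper24 Fermat.Agent.S24.helper504
open Fermat.Agent.S36.helper987
open Fermat.Agent.S37.helper5666
open Fermat.Agent.S35.helper1219
open Fermat.Agent.Lib.helper3874 (toL t4C t9C)
open Fermat.Agent.Lib.helper9242 (thetaFun)

/-! ### Bridges between the series vocabularies -/

section Bridge

/-- `ofZQ W` with coefficients in `ℚ̄` is `toL ℚ̄ W`. -/
theorem coeffEmb_ofZQ (W : PowerSeries ℤ) :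
    coeffEmb Kbar (Fermat.Agent.S36.helper105.ofZQ W) = toL Kbar W :=
  Fermat.Agent.Lib.helper3874.coeffMap_toL (R := ℚ) (algebraMap ℚ Kbar) W

/-- `toL ℤ W` with coefficients in `ℚ̄` is `toL ℚ̄ W`. -/
theorem ofZ_toL (W : PowerSeries ℤ) : ofZ (toL ℤ W) = toL Kbar W :=
  Fermat.Agent.Lib.helper3874.coeffMap_toL (R := ℤ) (Int.castRingHom Kbar) W

/-- A series `y` with `y · f(x^q) = f`, `f(0) = 1`, is `f · g(x^q)` with `g = 1/f`. -/
theorem eq_mul_expand_invOfUnit (q : ℕ) [NeZero q] {f y : PowerSeries ℤ}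
    (hf : PowerSeries.constantCoeff f = 1)
    (hy : y * PowerSeries.expand q (NeZero.ne q) f = f) :
    y = f * PowerSeries.expand q (NeZero.ne q) (PowerSeries.invOfUnit f 1) := by
  have h1 : f * PowerSeries.invOfUnit f 1 = 1 :=
    PowerSeries.mul_invOfUnit f 1 (by simpa using hf)
  have h2 : PowerSeries.expand q (NeZero.ne q) f *
      PowerSeries.expand q (NeZero.ne q) (PowerSeries.invOfUnit f 1) = 1 := by
    rw [← map_mul, h1, map_one]
  calc y = y * (PowerSeries.expand q (NeZero.ne q) f *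
        PowerSeries.expand q (NeZero.ne q) (PowerSeries.invOfUnit f 1)) := by rw [h2, mul_one]
    _ = (y * PowerSeries.expand q (NeZero.ne q) f) *
        PowerSeries.expand q (NeZero.ne q) (PowerSeries.invOfUnit f 1) := by ring
    _ = _ := by rw [hy]

/-- `f · (1/f) = 1` as integral Laurent series. -/
theorem toL_mul_invOfUnit {f : PowerSeries ℤ} (hf : PowerSeries.constantCoeff f = 1) :
    toL ℤ f * toL ℤ (PowerSeries.invOfUnit f 1) = 1 := by
  rw [← map_mul, PowerSeries.mul_invOfUnit f 1 (by simpa using hf), map_one]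

/-- The expansion hypothesis `hY0` of `helper7249_ThetaQ2` from `y · f(x^q) = f`. -/
theorem coe_eq_of_mul_expand (q : ℕ) [NeZero q] {f y : PowerSeries ℤ}
    (hf : PowerSeries.constantCoeff f = 1)
    (hy : y * PowerSeries.expand q (NeZero.ne q) f = f) :
    coeffEmb Kbar (Fermat.Agent.S36.helper105.ofZQ y) =
      ofZ (toL ℤ f) * qExpand Kbar q (ofZ (toL ℤ (PowerSeries.invOfUnit f 1))) := by
  rw [coeffEmb_ofZQ, ofZ_toL, ofZ_toL, Fermat.Agent.Lib.helper3874.qExpand_toL, ← map_mul,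
    ← eq_mul_expand_invOfUnit q hf hy]

end Bridge

variable {q M' N : ℕ} [Fact q.Prime] [NeZero M'] [NeZero N] [NeZero q]

/-! ### Level 4 -/

section Four

open Fermat.Agent.S36.helper105 (thetaUnit chi4Z)
open Fermat.Agent.S36.helper1257 (theta2Z)
open Fermat.Agent.S37.helper9536 (t4Bar)

/-- The theta unit `Θ²(z)/Θ²(qz)` at level `q M'`, `4 ∣ M'`. -/
def y4 (q : ℕ) [NeZero q] {M' : ℕ} [NeZero M'] (h4 : 4 ∣ M') : FN (q * M') :=
  thetaUnit q (q * M') (Fermat.Agent.S36.helper105.four_mul_dvd_of_dvd h4)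

/-- The constant `χ₋₄(q)`. -/
def c4 (q : ℕ) : Kbar := ((chi4Z q : ℤ) : Kbar)

theorem c4_mul_self (q : ℕ) : c4 q * c4 q = 1 := by
  unfold c4
  exact_mod_cast congrArg (Int.cast : ℤ → Kbar) (Fermat.Agent.S36.helper105.chi4Z_sq q)

theorem c4_ne_zero (q : ℕ) : c4 q ≠ 0 := fun h0 => by
  have h := c4_mul_self q
  rw [h0, mul_zero] at h
  exact zero_ne_one h

/-- `W_q(Y₀) Y₀ = χ₋₄(q) q`. -/
theorem y4_law (h : Nat.Coprime q M') (h4 : 4 ∣ M') :
    atkinLehnerBar q M' h (y4 q h4) * y4 q h4 = algebraMap Kbar (FN (q * M')) (c4 q * q) :=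
  Fermat.Agent.S36.helper105.thetaUnit_atkinLehner q M' h h4

theorem y4_ne_zero (h : Nat.Coprime q M') (h4 : 4 ∣ M') : y4 q h4 ≠ 0 :=
  ne_zero_of_law h (y4_law h h4) (c4_ne_zero q)

/-- `Y₀ = Θ² · (1/Θ²)(x^q)` at `∞`. -/
theorem coe_y4 (h4 : 4 ∣ M') :
    ((y4 q h4 : FN (q * M')) : LaurentSeries Kbar) =
      ofZ (toL ℤ theta2Z) * qExpand Kbar q (ofZ (toL ℤ (PowerSeries.invOfUnit theta2Z 1))) := by
  have hs : Fermat.Agent.S36.helper105.sZ q * PowerSeries.expand q (NeZero.ne q) theta2Z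
      = theta2Z := by
    have h1 := Fermat.Agent.S36.helper105.sZ_mul_expand q
    have h2 : Fermat.Agent.S36.helper105.thetaZ = theta2Z :=
      Fermat.Agent.S36.helper1257.theta2Z_eq_invOfUnit.symm
    rw [h2] at h1
    exact h1
  unfold y4
  rw [Fermat.Agent.S36.helper105.coe_thetaUnit]
  exact coe_eq_of_mul_expand q Fermat.Agent.S36.helper1257.constantCoeff_theta2Z hs

theorem coe_t4Bar_int (h4 : 4 ∣ M') :
    ((t4Bar M' h4 : FN M') : LaurentSeries Kbar) = ofZ (t4C ℤ) := by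
  rw [Fermat.Agent.S37.helper9536.coe_t4Bar]
  exact (Fermat.Agent.Lib.helper3874.coeffMap_t4C (R := ℤ) (Int.castRingHom Kbar)).symm

/-- **`X Y Z = χ₋₄(q) q`** at level `q² M'`. -/
theorem four_mul (hN : N = q ^ 2 * M') (h : Nat.Coprime q M') (h4 : 4 ∣ M') :
    elX hN (c4 q) (y4 q h4) * elY hN (y4 q h4) * elZ hN (y4 q h4) =
      algebraMap Kbar (FN N) (c4 q * q) :=
  elX_mul_elY_mul_elZ hN (c4 q) (y4_ne_zero h h4)

/-- **The expansion at `∞` of `T^(q-1) X Y`**, level 4. -/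
theorem coe_pow_mul_four (hN : N = q ^ 2 * M') (h4 : 4 ∣ M') :
    ((elT hN (t4Bar M' h4) ^ (q - 1) * elX hN (c4 q) (y4 q h4) * elY hN (y4 q h4) : FN N) :
        LaurentSeries Kbar) =
      HahnSeries.C (c4 q * q) * ofZ ((qExpand ℤ (q ^ 2) (t4C ℤ) - t4C ℤ) ^ (q - 1) *
        (qExpand ℤ q (toL ℤ (PowerSeries.invOfUnit theta2Z 1)) *
          qExpand ℤ q (qExpand ℤ q (toL ℤ theta2Z))) *
        (toL ℤ theta2Z * qExpand ℤ q (toL ℤ (PowerSeries.invOfUnit theta2Z 1)))) :=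
  coe_pow_mul hN _ _ (toL_mul_invOfUnit Fermat.Agent.S36.helper1257.constantCoeff_theta2Z)
    (coe_y4 h4) _ _ (coe_t4Bar_int h4)

/-- **The mid-cusp certificate, level 4**: for every primitive `q`-th root of unity `ζ` and
every ring `R → ℚ̄` with a lift `ζR` of `ζ`,
`midExp ζ (T^(q-1) X Y) = q (-(t₄^(q-1)) + (ζ - 1) E)`, `E ∈ R((x))`. -/
theorem exists_midExp_four [NeZero (q ^ 2)] (hN : N = q ^ 2 * M') (hqM : ¬ q ∣ M')
    (h4 : 4 ∣ M') (ζ : Kbarˣ) (hζ : IsPrimitiveRoot (ζ : Kbar) q)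
    {R : Type*} [CommRing R] (φ : R →+* Kbar) (ζR : Rˣ)
    (hζR : ∑ i ∈ Finset.range q, (ζR : R) ^ i = 0) (hφ : φ (ζR : R) = (ζ : Kbar)) :
    ∃ E : LaurentSeries R,
      midExp hqM hN ζ hζ
          (elT hN (t4Bar M' h4) ^ (q - 1) * elX hN (c4 q) (y4 q h4) * elY hN (y4 q h4)) =
        coeffMap φ (HahnSeries.C (q : R) * (-(t4C R ^ (q - 1)) +
          HahnSeries.C ((ζR : R) - 1) * E)) := by
  have hq : q.Prime := Fact.out
  have h : Nat.Coprime q M' := (Nat.Prime.coprime_iff_not_dvd hq).mpr hqM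
  obtain ⟨E, hE⟩ := exists_midExp_pow_mul hN _ _
    (toL_mul_invOfUnit Fermat.Agent.S36.helper1257.constantCoeff_theta2Z) (coe_y4 h4)
    hqM ζ hζ h (y4_law h h4) (c4_ne_zero q) (t4Bar M' h4) (t4C ℤ) (t4C ℤ) (coe_t4Bar_int h4)
    (Fermat.Agent.S36.helper1257.thetaFun_t4C_u4 ℤ) φ ζR hζR hφ
  refine ⟨E, ?_⟩
  rw [hE, Fermat.Agent.Lib.helper3874.coeffMap_t4C]

end Four

/-! ### Level 9 -/

section Nine

open Fermat.Agent.S36.helper4474 (nineUnit chi3Z)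
open Fermat.Agent.S36.helper1257 (b9Z u9C)
open Fermat.Agent.S37.helper9536 (t9Bar)

/-- The level-9 unit `b(z)/b(qz)`, `b = η(z)³/η(3z)`, at level `q M'`, `9 ∣ M'`. -/
def y9 (q : ℕ) [NeZero q] {M' : ℕ} [NeZero M'] (h9 : 9 ∣ M') : FN (q * M') :=
  nineUnit q (q * M') (Fermat.Agent.S36.helper4474.nine_mul_dvd_of_dvd h9)

/-- The constant `χ₋₃(q)`. -/
def c9 (q : ℕ) : Kbar := ((chi3Z q : ℤ) : Kbar)

theorem c9_mul_self (q : ℕ) : c9 q * c9 q = 1 := by
  unfold c9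
  exact_mod_cast congrArg (Int.cast : ℤ → Kbar) (Fermat.Agent.S36.helper4474.chi3Z_sq q)

theorem c9_ne_zero (q : ℕ) : c9 q ≠ 0 := fun h0 => by
  have h := c9_mul_self q
  rw [h0, mul_zero] at h
  exact zero_ne_one h

/-- `W_q(Y₀) Y₀ = χ₋₃(q) q`. -/
theorem y9_law (h : Nat.Coprime q M') (h9 : 9 ∣ M') :
    atkinLehnerBar q M' h (y9 q h9) * y9 q h9 = algebraMap Kbar (FN (q * M')) (c9 q * q) :=
  Fermat.Agent.S36.helper4474.nineUnit_atkinLehner q M' h h9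

theorem y9_ne_zero (h : Nat.Coprime q M') (h9 : 9 ∣ M') : y9 q h9 ≠ 0 :=
  ne_zero_of_law h (y9_law h h9) (c9_ne_zero q)

/-- `Y₀ = b · (1/b)(x^q)` at `∞`. -/
theorem coe_y9 (h9 : 9 ∣ M') :
    ((y9 q h9 : FN (q * M')) : LaurentSeries Kbar) =
      ofZ (toL ℤ b9Z) * qExpand Kbar q (ofZ (toL ℤ (PowerSeries.invOfUnit b9Z 1))) := by
  have hs : Fermat.Agent.S36.helper4474.yZ q * PowerSeries.expand q (NeZero.ne q) b9Z
      = b9Z := by
    have h1 := Fermat.Agent.S36.helper4474.yZ_mul_expand q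
    have h2 : Fermat.Agent.S36.helper4474.bZ = b9Z :=
      Fermat.Agent.S36.helper1257.eq_b9Z_of_mul Fermat.Agent.S36.helper4474.bZ_mul
    rw [h2] at h1
    exact h1
  unfold y9
  rw [Fermat.Agent.S36.helper4474.coe_nineUnit]
  exact coe_eq_of_mul_expand q Fermat.Agent.S36.helper1257.constantCoeff_b9Z hs

theorem coe_t9Bar_int (h9 : 9 ∣ M') :
    ((t9Bar M' h9 : FN M') : LaurentSeries Kbar) = ofZ (t9C ℤ) := by
  rw [Fermat.Agent.S37.helper9536.coe_t9Bar]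
  exact (Fermat.Agent.Lib.helper3874.coeffMap_t9C (R := ℤ) (Int.castRingHom Kbar)).symm

/-- **`X Y Z = χ₋₃(q) q`** at level `q² M'`. -/
theorem nine_mul (hN : N = q ^ 2 * M') (h : Nat.Coprime q M') (h9 : 9 ∣ M') :
    elX hN (c9 q) (y9 q h9) * elY hN (y9 q h9) * elZ hN (y9 q h9) =
      algebraMap Kbar (FN N) (c9 q * q) :=
  elX_mul_elY_mul_elZ hN (c9 q) (y9_ne_zero h h9)

/-- **The expansion at `∞` of `T^(q-1) X Y`**, level 9. -/
theorem coe_pow_mul_nine (hN : N = q ^ 2 * M') (h9 : 9 ∣ M') :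
    ((elT hN (t9Bar M' h9) ^ (q - 1) * elX hN (c9 q) (y9 q h9) * elY hN (y9 q h9) : FN N) :
        LaurentSeries Kbar) =
      HahnSeries.C (c9 q * q) * ofZ ((qExpand ℤ (q ^ 2) (t9C ℤ) - t9C ℤ) ^ (q - 1) *
        (qExpand ℤ q (toL ℤ (PowerSeries.invOfUnit b9Z 1)) *
          qExpand ℤ q (qExpand ℤ q (toL ℤ b9Z))) *
        (toL ℤ b9Z * qExpand ℤ q (toL ℤ (PowerSeries.invOfUnit b9Z 1)))) :=
  coe_pow_mul hN _ _ (toL_mul_invOfUnit Fermat.Agent.S36.helper1257.constantCoeff_b9Z)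
    (coe_y9 h9) _ _ (coe_t9Bar_int h9)

/-- **The mid-cusp certificate, level 9**: for every primitive `q`-th root of unity `ζ` and
every ring `R → ℚ̄` with a lift `ζR` of `ζ`,
`midExp ζ (T^(q-1) X Y) = q (-(u₉^(q-1)) + (ζ - 1) E)`, `u₉ = t₉ + 9 + 27/t₉`, `E ∈ R((x))`. -/
theorem exists_midExp_nine [NeZero (q ^ 2)] (hN : N = q ^ 2 * M') (hqM : ¬ q ∣ M')
    (h9 : 9 ∣ M') (ζ : Kbarˣ) (hζ : IsPrimitiveRoot (ζ : Kbar) q)
    {R : Type*} [CommRing R] (φ : R →+* Kbar) (ζR : Rˣ)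
    (hζR : ∑ i ∈ Finset.range q, (ζR : R) ^ i = 0) (hφ : φ (ζR : R) = (ζ : Kbar)) :
    ∃ E : LaurentSeries R,
      midExp hqM hN ζ hζ
          (elT hN (t9Bar M' h9) ^ (q - 1) * elX hN (c9 q) (y9 q h9) * elY hN (y9 q h9)) =
        coeffMap φ (HahnSeries.C (q : R) * (-(u9C R ^ (q - 1)) +
          HahnSeries.C ((ζR : R) - 1) * E)) := by
  have hq : q.Prime := Fact.out
  have h : Nat.Coprime q M' := (Nat.Prime.coprime_iff_not_dvd hq).mpr hqM
  obtain ⟨E, hE⟩ := exists_midExp_pow_mul hN _ _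
    (toL_mul_invOfUnit Fermat.Agent.S36.helper1257.constantCoeff_b9Z) (coe_y9 h9)
    hqM ζ hζ h (y9_law h h9) (c9_ne_zero q) (t9Bar M' h9) (t9C ℤ) (u9C ℤ) (coe_t9Bar_int h9)
    (Fermat.Agent.S36.helper1257.thetaFun_t9C_u9 ℤ) φ ζR hζR hφ
  refine ⟨E, ?_⟩
  rw [hE, Fermat.Agent.S36.helper1257.coeffMap_u9C]

end Nine

end Fermat.Agent.S36.helper7249
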