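import Mathlib
import Fermat.Agent.S36.helper36_KillData

/-!
# S36-U3 (helper7871): the trichotomy is a formal consequence of the degeneracy data

Plan #3449, seam U3 = the field `dich` of `helper36.KillData` (datum v2, origin/helper36 55170aa8):

> a closed point of a chart lying on two different components `v_∞, v_mid, v_0` lies on all
> three.

This file shows that **no instance work is needed for it**: it follows formally from the other
fields of `KillData` (`degα`, `degβ`, `const_V`, `x_V`, `mem_V`, `mem_V'`, `hord`, `hord'`), by a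
*norm trick*.  For one degeneracy datum `(ψ, Nm; Va, Vm, Vb; V1, V2)`, a prime `P` of the chart
`B` through `Vb`, and `y ∈ B ∩ 𝔪(Va)`, `y ≠ 0`:

* `ord₁ (Nm y) = ordₐ y + ordₘ y > 0`, so `Nm y ∈ 𝔪(V1) ∩ B'` and `ψ (Nm y) ∈ 𝔪(Vm) ∩ B`;
* if `y ∈ 𝔪(Vb)` then `y ∈ P`; otherwise `y` is a unit at `Vb` and
  `ψ (Nm y) - y ^ q ∈ 𝔪(Vb) ∩ B ⊆ P`  (`norm_insep`).

Hence a prime `P` through `Vb` and `Vm` contains `y ^ q`, i.e. `P` is through `Va`; symmetrically
a prime through `Vb` and `Va` is through `Vm`.  Applied to `β` (`(Va, Vm, Vb) = (v_0, v_mid, v_∞)`)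
and `α` (`(Va, Vm, Vb) = (v_∞, v_mid, v_0)`) this gives: two components through `P` ⟹ all three.

Main results:

* `chart_le_V` : the charts lie in the three valuation rings (from `const_V`, `x_V`);
* `mem_of_norm_mem`, `through_of_insep_of_split` : the norm trick with explicit hypotheses;
* `degData_through_a`, `degData_through_m` : the two implications for one degeneracy datum;
* `through_all_of_two_of_fields` : two components ⟹ all three, from the eleven facts used;
* `through_all_of_two` : two components ⟹ all three, for arbitrary chart rings `B i ⊆ V c`;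
* `dich_of_degData` : the field `dich` of `KillData` from the other fields, verbatim;
* `exists_through_of_vertical`, `one_or_all_of_degData` : every prime containing the vertical
  ideal lies on exactly one component or on all three.
-/

set_option autoImplicit false

namespace Fermat.Agent.S36.helper7871

open Fermat.Agent.S36.helper36
open Fermat.Agent.S36.helper1013 (IsOrd)
open Fermat.Agent.S36.helper248 (chartRing)

/-! ### Non-units of valuation subrings -/

section Nonunits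

variable {F : Type*} [Field F]

theorem mem_nonunits_of_mem_of_inv_notMem (V : ValuationSubring F) {y : F} (hy : y ∈ V)
    (hinv : y⁻¹ ∉ V) : y ∈ V.nonunits := by
  rw [ValuationSubring.mem_nonunits_iff]
  have h1 : V.valuation y ≤ 1 := (ValuationSubring.valuation_le_one_iff V y).mpr hy
  rcases lt_or_eq_of_le h1 with h | h
  · exact h
  · exfalso
    apply hinv
    rw [← ValuationSubring.valuation_le_one_iff, map_inv₀, h, inv_one]

theorem inv_mem_of_mem_of_notMem_nonunits (V : ValuationSubring F) {y : F} (hy : y ∈ V)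
    (hy' : y ∉ V.nonunits) : y⁻¹ ∈ V := by
  by_contra h
  exact hy' (mem_nonunits_of_mem_of_inv_notMem V hy h)

theorem mem_of_mem_nonunits (V : ValuationSubring F) {y : F} (hy : y ∈ V.nonunits) : y ∈ V := by
  rw [ValuationSubring.mem_nonunits_iff] at hy
  exact (ValuationSubring.valuation_le_one_iff V y).mp hy.le

theorem inv_notMem_of_mem_nonunits (V : ValuationSubring F) {y : F} (hy : y ∈ V.nonunits)
    (hy0 : y ≠ 0) : y⁻¹ ∉ V := by
  rw [ValuationSubring.mem_nonunits_iff] at hy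
  intro h
  rw [← ValuationSubring.valuation_le_one_iff, map_inv₀] at h
  have hne : V.valuation y ≠ 0 := (Valuation.ne_zero_iff _).mpr hy0
  have h2 : 1 ≤ V.valuation y := by
    have := mul_le_mul_right h (V.valuation y)
    rwa [mul_inv_cancel₀ hne, mul_one] at this
  exact absurd hy (not_lt.mpr h2)

theorem zero_mem_nonunits (V : ValuationSubring F) : (0 : F) ∈ V.nonunits := by
  rw [ValuationSubring.mem_nonunits_iff, map_zero]
  exact zero_lt_one

theorem mul_mem_nonunits_left (V : ValuationSubring F) {x y : F} (hx : x ∈ V.nonunits)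
    (hy : y ∈ V) : x * y ∈ V.nonunits := by
  rw [ValuationSubring.mem_nonunits_iff] at hx ⊢
  have hy1 : V.valuation y ≤ 1 := (ValuationSubring.valuation_le_one_iff V y).mpr hy
  rw [map_mul]
  calc V.valuation x * V.valuation y ≤ V.valuation x * 1 := mul_le_mul_right hy1 _
    _ = V.valuation x := mul_one _
    _ < 1 := hx

theorem mul_mem_nonunits_right (V : ValuationSubring F) {x y : F} (hx : x ∈ V)
    (hy : y ∈ V.nonunits) : x * y ∈ V.nonunits := by
  rw [mul_comm]
  exact mul_mem_nonunits_left V hy hx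

/-- Positive order ⟹ non-unit. -/
theorem mem_nonunits_of_ord_pos {V : ValuationSubring F} {ord : F → ℤ} (hord : IsOrd ord)
    (hV : ∀ y : F, y ≠ 0 → (y ∈ V ↔ 0 ≤ ord y)) {y : F} (hy0 : y ≠ 0) (hy : 0 < ord y) :
    y ∈ V.nonunits := by
  refine mem_nonunits_of_mem_of_inv_notMem V ((hV y hy0).mpr hy.le) ?_
  intro h
  have h2 := (hV y⁻¹ (inv_ne_zero hy0)).mp h
  rw [hord.map_inv hy0] at h2
  omega

/-- Non-unit ⟹ positive order. -/
theorem ord_pos_of_mem_nonunits {V : ValuationSubring F} {ord : F → ℤ} (hord : IsOrd ord)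
    (hV : ∀ y : F, y ≠ 0 → (y ∈ V ↔ 0 ≤ ord y)) {y : F} (hy0 : y ≠ 0) (hy : y ∈ V.nonunits) :
    0 < ord y := by
  have h1 : 0 ≤ ord y := (hV y hy0).mp (mem_of_mem_nonunits V hy)
  have h2 : y⁻¹ ∉ V := inv_notMem_of_mem_nonunits V hy hy0
  have h3 : ¬ 0 ≤ ord y⁻¹ := fun h => h2 ((hV y⁻¹ (inv_ne_zero hy0)).mpr h)
  rw [hord.map_inv hy0] at h3
  omega

/-- A restriction table `ψ a ∈ W ↔ a ∈ V` transports non-units upwards. -/
theorem map_mem_nonunits {F' : Type*} [Field F'] (ψ : F' →+* F) {W : ValuationSubring F}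
    {V : ValuationSubring F'} (h : ∀ a : F', ψ a ∈ W ↔ a ∈ V) {a : F'} (ha : a ∈ V.nonunits) :
    ψ a ∈ W.nonunits := by
  rcases eq_or_ne a 0 with rfl | ha0
  · rw [map_zero]
    exact zero_mem_nonunits W
  · refine mem_nonunits_of_mem_of_inv_notMem W ((h a).mpr (mem_of_mem_nonunits V ha)) ?_
    intro hinv
    rw [← map_inv₀] at hinv
    exact inv_notMem_of_mem_nonunits V ha ha0 ((h a⁻¹).mp hinv)

/-- An element integral over a ring mapping into a valuation subring lies in it. -/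
theorem mem_valuationSubring_of_isIntegral {R : Type*} [CommRing R] [Algebra R F]
    (W : ValuationSubring F) (hR : ∀ r : R, algebraMap R F r ∈ W) {y : F}
    (hy : IsIntegral R y) : y ∈ W := by
  have h1 : IsIntegral W y := by
    obtain ⟨p, hp, hpx⟩ := hy
    let f : R →+* W := (algebraMap R F).codRestrict W.toSubring hR
    refine ⟨p.map f, hp.map f, ?_⟩
    rw [Polynomial.eval₂_map]
    have : (algebraMap W F).comp f = algebraMap R F := by ext; rfl
    rw [this]
    exact hpx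
  obtain ⟨w, hw⟩ := IsIntegrallyClosed.isIntegral_iff.mp h1
  rw [← hw]
  exact w.2

end Nonunits

/-! ### The charts lie in the vertical valuation rings -/

section Chart

variable {K F : Type*} [Field K] [Field F] [Algebra K F]

/-- A chart ring is contained in every valuation subring containing `O` and the coordinates. -/
theorem chartRing_le_valuationSubring (O : ValuationSubring K) (s : Set F)
    (W : ValuationSubring F) (hO : ∀ a : K, a ∈ O → algebraMap K F a ∈ W)
    (hs : ∀ y ∈ s, y ∈ W) : ∀ y : F, y ∈ chartRing O s → y ∈ W := by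
  intro y hy
  rw [Fermat.Agent.S36.helper248.mem_chartRing] at hy
  refine mem_valuationSubring_of_isIntegral W ?_ hy
  rintro ⟨r, hr⟩
  show r ∈ W
  refine Algebra.adjoin_induction (p := fun z _ => z ∈ W) ?_ ?_ ?_ ?_ hr
  · intro z hz
    exact hs z hz
  · intro a
    exact hO a.1 a.2
  · intro a b _ _ ha hb
    exact W.add_mem _ _ ha hb
  · intro a b _ _ ha hb
    exact W.mul_mem _ _ ha hb

/-- The two charts of the base line `x` lie in every valuation subring which contains `O` and at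
which `x` is a unit (`KillData` fields `const_V`, `x_V`). -/
theorem chart_le_valuationSubring (O : ValuationSubring K) (x : F) (W : ValuationSubring F)
    (hO : ∀ a : K, a ∈ O → algebraMap K F a ∈ W) (hx : x ∈ W ∧ x⁻¹ ∈ W) (i : Fin 2) :
    ∀ y : F, y ∈ chart O x i → y ∈ W := by
  refine chartRing_le_valuationSubring O _ W hO ?_
  intro y hy
  by_cases hi : i = 0
  · rw [if_pos hi] at hy
    rw [Set.mem_singleton_iff.mp hy]
    exact hx.1
  · rw [if_neg hi] at hy
    rw [Set.mem_singleton_iff.mp hy]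
    exact hx.2

/-- `B_le_V` for the charts of a `KillData` (from the fields `const_V`, `x_V`). -/
theorem chart_le_V {O : ValuationSubring K} {x : F} {V : Fin 3 → ValuationSubring F}
    (const_V : ∀ (c : Fin 3) (a : K), a ∈ O → algebraMap K F a ∈ V c)
    (x_V : ∀ c : Fin 3, x ∈ V c ∧ x⁻¹ ∈ V c) :
    ∀ (i : Fin 2) (c : Fin 3) (b : F), b ∈ chart O x i → b ∈ V c :=
  fun i c => chart_le_valuationSubring O x (V c) (const_V c) (x_V c) i

end Chart

/-! ### The norm trick for one degeneracy map -/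

section Core

variable {K F F' : Type*} [Field K] [Field F] [Field F'] [Algebra K F] [Algebra K F']
  {q : ℕ} {ψ : F' →ₐ[K] F} {Nm : F →* F'}
  {Va Vm Vb : ValuationSubring F} {V1 : ValuationSubring F'}
  {orda ordm : F → ℤ} {ord1 : F' → ℤ} {B : Subring F} {B' : Subring F'}

theorem norm_ne_zero (Nm : F →* F') {y : F} (hy : y ≠ 0) : Nm y ≠ 0 := by
  intro h
  have h1 : Nm y * Nm y⁻¹ = 1 := by rw [← map_mul, mul_inv_cancel₀ hy, map_one]
  rw [h, zero_mul] at h1
  exact zero_ne_one h1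

/-- **Core of the norm trick** (explicit hypotheses: `map_chart`, `norm_chart`, `norm_insep`).
Let `P` be a prime of the chart `B` through `Vb` (the inseparable side).  If the pulled-back norm
`ψ (Nm y)` of `y ∈ B` lies in `P`, then `y ∈ P`. -/
theorem mem_of_norm_mem
    (hmap : ∀ b : F', b ∈ B' → ψ b ∈ B) (hnorm : ∀ b : F, b ∈ B → Nm b ∈ B')
    (hinsep : ∀ h : F, h ∈ Vb → h⁻¹ ∈ Vb → ψ (Nm h) - h ^ q ∈ Vb.nonunits)
    (hBb : ∀ b : F, b ∈ B → b ∈ Vb)
    (P : Ideal B) [P.IsPrime] (hb : Through B P Vb) (y : B)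
    (hN : (⟨ψ (Nm (y : F)), hmap _ (hnorm _ y.2)⟩ : B) ∈ P) : y ∈ P := by
  by_cases hyb : (y : F) ∈ Vb.nonunits
  · exact hb y hyb
  · have hyV : (y : F) ∈ Vb := hBb _ y.2
    have hyinv : (y : F)⁻¹ ∈ Vb := inv_mem_of_mem_of_notMem_nonunits Vb hyV hyb
    have h1 : ψ (Nm (y : F)) - (y : F) ^ q ∈ Vb.nonunits := hinsep _ hyV hyinv
    have h2 : (⟨ψ (Nm (y : F)), hmap _ (hnorm _ y.2)⟩ : B) - y ^ q ∈ P := hb _ h1
    have h3 : y ^ q ∈ P := by
      have := P.sub_mem hN h2
      rwa [sub_sub_cancel] at this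
    exact Ideal.IsPrime.mem_of_pow_mem ‹P.IsPrime› q h3

/-- **Norm trick** (explicit hypotheses: `map_chart`, `norm_chart`, `norm_insep`, `ord_split`,
one restriction table).  A prime of the chart through `Vb` (the inseparable side) and through
`Vm` is through `Va`.  The roles of `Va` and `Vm` are symmetric. -/
theorem through_of_insep_of_split
    (hmap : ∀ b : F', b ∈ B' → ψ b ∈ B) (hnorm : ∀ b : F, b ∈ B → Nm b ∈ B')
    (hinsep : ∀ h : F, h ∈ Vb → h⁻¹ ∈ Vb → ψ (Nm h) - h ^ q ∈ Vb.nonunits)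
    (hsplit : ∀ h : F, h ≠ 0 → ord1 (Nm h) = orda h + ordm h)
    (hmem : ∀ a : F', ψ a ∈ Vm ↔ a ∈ V1)
    (horda : IsOrd orda) (hord1 : IsOrd ord1)
    (hVa : ∀ y : F, y ≠ 0 → (y ∈ Va ↔ 0 ≤ orda y))
    (hVm : ∀ y : F, y ≠ 0 → (y ∈ Vm ↔ 0 ≤ ordm y))
    (hV1 : ∀ y : F', y ≠ 0 → (y ∈ V1 ↔ 0 ≤ ord1 y))
    (hBm : ∀ b : F, b ∈ B → b ∈ Vm) (hBb : ∀ b : F, b ∈ B → b ∈ Vb)
    (P : Ideal B) [P.IsPrime]
    (hb : Through B P Vb) (hm : Through B P Vm) : Through B P Va := by
  intro y hyVa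
  rcases eq_or_ne (y : F) 0 with hy0 | hy0
  · have : y = 0 := Subtype.ext hy0
    rw [this]
    exact P.zero_mem
  refine mem_of_norm_mem hmap hnorm hinsep hBb P hb y (hm _ ?_)
  show ψ (Nm (y : F)) ∈ Vm.nonunits
  have hN0 : Nm (y : F) ≠ 0 := norm_ne_zero Nm hy0
  have h1 : 0 < ord1 (Nm (y : F)) := by
    rw [hsplit _ hy0]
    have ha : 0 < orda (y : F) := ord_pos_of_mem_nonunits horda hVa hy0 hyVa
    have hm' : 0 ≤ ordm (y : F) := (hVm _ hy0).mp (hBm _ y.2)
    omega
  exact map_mem_nonunits (ψ : F' →+* F) hmem (mem_nonunits_of_ord_pos hord1 hV1 hN0 h1)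

end Core

section DegData

variable {K F F' : Type*} [Field K] [Field F] [Field F'] [Algebra K F] [Algebra K F']
  {q : ℕ} {ψ : F' →ₐ[K] F} {Nm : F →* F'}
  {Va Vm Vb : ValuationSubring F} {V1 V2 : ValuationSubring F'}
  {orda ordm ordb : F → ℤ} {ord1 ord2 : F' → ℤ}
  {B : Fin 2 → Subring F} {B' : Fin 2 → Subring F'}

/-- `mem_of_norm_mem` for a `DegData`. -/
theorem degData_mem_of_norm_mem
    (D : DegData q ψ Nm Va Vm Vb V1 V2 orda ordm ordb ord1 ord2 B B')
    (i : Fin 2) (hBb : ∀ b : F, b ∈ B i → b ∈ Vb)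
    (P : Ideal (B i)) [P.IsPrime] (hb : Through (B i) P Vb) (y : B i)
    (hN : (⟨ψ (Nm (y : F)), D.map_chart i _ (D.norm_chart i _ y.2)⟩ : B i) ∈ P) : y ∈ P :=
  mem_of_norm_mem (D.map_chart i) (D.norm_chart i) D.norm_insep hBb P hb y hN

/-- **Norm trick, first form.**  A prime of the chart through `Vb` (the inseparable side) and
through `Vm` is through `Va`. -/
theorem degData_through_a
    (D : DegData q ψ Nm Va Vm Vb V1 V2 orda ordm ordb ord1 ord2 B B')
    (horda : IsOrd orda) (hord1 : IsOrd ord1)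
    (hVa : ∀ y : F, y ≠ 0 → (y ∈ Va ↔ 0 ≤ orda y))
    (hVm : ∀ y : F, y ≠ 0 → (y ∈ Vm ↔ 0 ≤ ordm y))
    (hV1 : ∀ y : F', y ≠ 0 → (y ∈ V1 ↔ 0 ≤ ord1 y))
    (i : Fin 2) (hBm : ∀ b : F, b ∈ B i → b ∈ Vm) (hBb : ∀ b : F, b ∈ B i → b ∈ Vb)
    (P : Ideal (B i)) [P.IsPrime]
    (hb : Through (B i) P Vb) (hm : Through (B i) P Vm) : Through (B i) P Va :=
  through_of_insep_of_split (D.map_chart i) (D.norm_chart i) D.norm_insep D.ord_split D.mem_m
    horda hord1 hVa hVm hV1 hBm hBb P hb hm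

/-- **Norm trick, second form.**  A prime of the chart through `Vb` (the inseparable side) and
through `Va` is through `Vm`. -/
theorem degData_through_m
    (D : DegData q ψ Nm Va Vm Vb V1 V2 orda ordm ordb ord1 ord2 B B')
    (hordm : IsOrd ordm) (hord1 : IsOrd ord1)
    (hVa : ∀ y : F, y ≠ 0 → (y ∈ Va ↔ 0 ≤ orda y))
    (hVm : ∀ y : F, y ≠ 0 → (y ∈ Vm ↔ 0 ≤ ordm y))
    (hV1 : ∀ y : F', y ≠ 0 → (y ∈ V1 ↔ 0 ≤ ord1 y))
    (i : Fin 2) (hBa : ∀ b : F, b ∈ B i → b ∈ Va) (hBb : ∀ b : F, b ∈ B i → b ∈ Vb)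
    (P : Ideal (B i)) [P.IsPrime]
    (hb : Through (B i) P Vb) (ha : Through (B i) P Va) : Through (B i) P Vm :=
  through_of_insep_of_split (D.map_chart i) (D.norm_chart i) D.norm_insep
    (fun h hh => by rw [D.ord_split h hh, add_comm]) D.mem_a
    hordm hord1 hVm hVa hV1 hBa hBb P hb ha

end DegData

/-! ### The trichotomy -/

section Trichotomy

variable {K F F' : Type*} [Field K] [Field F] [Field F'] [Algebra K F] [Algebra K F']

/-- Two components through a point ⟹ all three (pure logic on `Fin 3`). -/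
theorem all_of_two {T : Fin 3 → Prop} (h012 : T 0 → T 1 → T 2) (h021 : T 0 → T 2 → T 1)
    (h120 : T 1 → T 2 → T 0) {a b : Fin 3} (hab : a ≠ b) (ha : T a) (hb : T b) : ∀ c, T c := by
  have key : T 0 ∧ T 1 ∧ T 2 := by
    have h0 : a = 0 ∨ a = 1 ∨ a = 2 := by fin_cases a <;> simp
    have h1 : b = 0 ∨ b = 1 ∨ b = 2 := by fin_cases b <;> simp
    rcases h0 with rfl | rfl | rfl <;> rcases h1 with rfl | rfl | rfl
    · exact absurd rfl hab
    · exact ⟨ha, hb, h012 ha hb⟩
    · exact ⟨ha, h021 ha hb, hb⟩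
    · exact ⟨hb, ha, h012 hb ha⟩
    · exact absurd rfl hab
    · exact ⟨h120 ha hb, ha, hb⟩
    · exact ⟨hb, h021 hb ha, ha⟩
    · exact ⟨h120 hb ha, hb, ha⟩
    · exact absurd rfl hab
  intro c
  have h0 : c = 0 ∨ c = 1 ∨ c = 2 := by fin_cases c <;> simp
  rcases h0 with rfl | rfl | rfl
  · exact key.1
  · exact key.2.1
  · exact key.2.2

/-- **Two components through a prime of a chart ⟹ all three**, with the eleven facts about the
two degeneracy maps that are actually used as explicit hypotheses (one chart `B`, `B'`):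
for `α` the table `mem_m`, `norm_insep`, `ord_split`, `map_chart`, `norm_chart`; for `β` the
tables `mem_a`, `mem_m`, and `norm_insep`, `ord_split`, `map_chart`, `norm_chart`. -/
theorem through_all_of_two_of_fields {q : ℕ} {α β : F' →ₐ[K] F} {Nα Nβ : F →* F'}
    {V : Fin 3 → ValuationSubring F} {V' : Fin 2 → ValuationSubring F'}
    {ord : Fin 3 → F → ℤ} {ord' : Fin 2 → F' → ℤ} {B : Subring F} {B' : Subring F'}
    (hord : ∀ c, IsOrd (ord c)) (hord' : ∀ c, IsOrd (ord' c))
    (mem_V : ∀ (c : Fin 3) (y : F), y ≠ 0 → (y ∈ V c ↔ 0 ≤ ord c y))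
    (mem_V' : ∀ (c : Fin 2) (y : F'), y ≠ 0 → (y ∈ V' c ↔ 0 ≤ ord' c y))
    (B_le_V : ∀ (c : Fin 3) (b : F), b ∈ B → b ∈ V c)
    (α_mem_m : ∀ a : F', α a ∈ V 1 ↔ a ∈ V' 0)
    (α_norm_insep : ∀ h : F, h ∈ V 2 → h⁻¹ ∈ V 2 → α (Nα h) - h ^ q ∈ (V 2).nonunits)
    (α_ord_split : ∀ h : F, h ≠ 0 → ord' 0 (Nα h) = ord 0 h + ord 1 h)
    (α_map_chart : ∀ b : F', b ∈ B' → α b ∈ B) (α_norm_chart : ∀ b : F, b ∈ B → Nα b ∈ B')
    (β_mem_a : ∀ a : F', β a ∈ V 2 ↔ a ∈ V' 1) (β_mem_m : ∀ a : F', β a ∈ V 1 ↔ a ∈ V' 1)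
    (β_norm_insep : ∀ h : F, h ∈ V 0 → h⁻¹ ∈ V 0 → β (Nβ h) - h ^ q ∈ (V 0).nonunits)
    (β_ord_split : ∀ h : F, h ≠ 0 → ord' 1 (Nβ h) = ord 2 h + ord 1 h)
    (β_map_chart : ∀ b : F', b ∈ B' → β b ∈ B) (β_norm_chart : ∀ b : F, b ∈ B → Nβ b ∈ B')
    (P : Ideal B) [P.IsPrime] {a b : Fin 3} (hab : a ≠ b)
    (ha : Through B P (V a)) (hb : Through B P (V b)) : ∀ c, Through B P (V c) := by
  refine all_of_two (T := fun c => Through B P (V c)) ?_ ?_ ?_ hab ha hb
  · -- `{∞, mid} ⟹ 0` : `β`, `(Va, Vm, Vb) = (V 2, V 1, V 0)`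
    intro h0 h1
    exact through_of_insep_of_split β_map_chart β_norm_chart β_norm_insep β_ord_split β_mem_m
      (hord 2) (hord' 1) (mem_V 2) (mem_V 1) (mem_V' 1) (B_le_V 1) (B_le_V 0) P h0 h1
  · -- `{∞, 0} ⟹ mid` : `β`, roles of `Va`, `Vm` exchanged
    intro h0 h2
    exact through_of_insep_of_split β_map_chart β_norm_chart β_norm_insep
      (fun h hh => by rw [β_ord_split h hh, add_comm]) β_mem_a
      (hord 1) (hord' 1) (mem_V 1) (mem_V 2) (mem_V' 1) (B_le_V 2) (B_le_V 0) P h0 h2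
  · -- `{mid, 0} ⟹ ∞` : `α`, `(Va, Vm, Vb) = (V 0, V 1, V 2)`
    intro h1 h2
    exact through_of_insep_of_split α_map_chart α_norm_chart α_norm_insep α_ord_split α_mem_m
      (hord 0) (hord' 0) (mem_V 0) (mem_V 1) (mem_V' 0) (B_le_V 1) (B_le_V 2) P h2 h1

/-- **Two components through a prime of a chart ⟹ all three**, from the two degeneracy data;
arbitrary chart rings `B i ⊆ V c`, arbitrary prime `P`. -/
theorem through_all_of_two {q : ℕ} {α β : F' →ₐ[K] F} {Nα Nβ : F →* F'}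
    {V : Fin 3 → ValuationSubring F} {V' : Fin 2 → ValuationSubring F'}
    {ord : Fin 3 → F → ℤ} {ord' : Fin 2 → F' → ℤ}
    {B : Fin 2 → Subring F} {B' : Fin 2 → Subring F'}
    (hord : ∀ c, IsOrd (ord c)) (hord' : ∀ c, IsOrd (ord' c))
    (mem_V : ∀ (c : Fin 3) (y : F), y ≠ 0 → (y ∈ V c ↔ 0 ≤ ord c y))
    (mem_V' : ∀ (c : Fin 2) (y : F'), y ≠ 0 → (y ∈ V' c ↔ 0 ≤ ord' c y))
    (B_le_V : ∀ (i : Fin 2) (c : Fin 3) (b : F), b ∈ B i → b ∈ V c)
    (degα : DegData q α Nα (V 0) (V 1) (V 2) (V' 0) (V' 1) (ord 0) (ord 1) (ord 2) (ord' 0)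
      (ord' 1) B B')
    (degβ : DegData q β Nβ (V 2) (V 1) (V 0) (V' 1) (V' 0) (ord 2) (ord 1) (ord 0) (ord' 1)
      (ord' 0) B B')
    (i : Fin 2) (P : Ideal (B i)) [P.IsPrime] {a b : Fin 3} (hab : a ≠ b)
    (ha : Through (B i) P (V a)) (hb : Through (B i) P (V b)) :
    ∀ c, Through (B i) P (V c) := by
  refine all_of_two (T := fun c => Through (B i) P (V c)) ?_ ?_ ?_ hab ha hb
  · -- `{∞, mid} ⟹ 0` : `β`, first form
    intro h0 h1
    exact degData_through_a degβ (hord 2) (hord' 1) (mem_V 2) (mem_V 1) (mem_V' 1) i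
      (B_le_V i 1) (B_le_V i 0) P h0 h1
  · -- `{∞, 0} ⟹ mid` : `β`, second form
    intro h0 h2
    exact degData_through_m degβ (hord 1) (hord' 1) (mem_V 2) (mem_V 1) (mem_V' 1) i
      (B_le_V i 2) (B_le_V i 0) P h0 h2
  · -- `{mid, 0} ⟹ ∞` : `α`, first form
    intro h1 h2
    exact degData_through_a degα (hord 0) (hord' 0) (mem_V 0) (mem_V 1) (mem_V' 0) i
      (B_le_V i 1) (B_le_V i 2) P h2 h1

/-- **U3 = the field `dich` of `helper36.KillData` (datum v2), from the other fields, with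
verbatim binders**: a closed point of a chart lying on two different components lies on all
three. -/
theorem dich_of_degData {O : ValuationSubring K} {q : ℕ} {α β : F' →ₐ[K] F} {Nα Nβ : F →* F'}
    {V : Fin 3 → ValuationSubring F} {V' : Fin 2 → ValuationSubring F'}
    {ord : Fin 3 → F → ℤ} {ord' : Fin 2 → F' → ℤ} {x : F} {x' : F'}
    (hord : ∀ c, IsOrd (ord c)) (hord' : ∀ c, IsOrd (ord' c))
    (mem_V : ∀ (c : Fin 3) (y : F), y ≠ 0 → (y ∈ V c ↔ 0 ≤ ord c y))
    (mem_V' : ∀ (c : Fin 2) (y : F'), y ≠ 0 → (y ∈ V' c ↔ 0 ≤ ord' c y))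
    (const_V : ∀ (c : Fin 3) (a : K), a ∈ O → algebraMap K F a ∈ V c)
    (x_V : ∀ c : Fin 3, x ∈ V c ∧ x⁻¹ ∈ V c)
    (degα : DegData q α Nα (V 0) (V 1) (V 2) (V' 0) (V' 1) (ord 0) (ord 1) (ord 2) (ord' 0)
      (ord' 1) (chart O x) (chart O x'))
    (degβ : DegData q β Nβ (V 2) (V 1) (V 0) (V' 1) (V' 0) (ord 2) (ord 1) (ord 0) (ord' 1)
      (ord' 0) (chart O x) (chart O x')) :
    ∀ (i : Fin 2) (P : Ideal (chart O x i)), P.IsMaximal → ∀ c c' : Fin 3, c ≠ c' →
      Through (chart O x i) P (V c) → Through (chart O x i) P (V c') →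
        ∀ c'', Through (chart O x i) P (V c'') := by
  intro i P hP c c' hcc' hc hc'
  have : P.IsPrime := hP.isPrime
  exact through_all_of_two hord hord' mem_V mem_V' (chart_le_V const_V x_V) degα degβ i P hcc'
    hc hc'

/-- At least one component passes through every prime containing the vertical ideal. -/
theorem exists_through_of_vertical {V : Fin 3 → ValuationSubring F} {B : Subring F}
    (B_le_V : ∀ (c : Fin 3) (b : F), b ∈ B → b ∈ V c)
    (P : Ideal B) [P.IsPrime]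
    (hvert : ∀ b : B, (∀ c, (b : F) ∈ (V c).nonunits) → b ∈ P) :
    ∃ c, Through B P (V c) := by
  by_contra hcon
  have hcon' : ∀ c, ∃ b : B, (b : F) ∈ (V c).nonunits ∧ b ∉ P := by
    intro c
    by_contra hc
    apply hcon
    refine ⟨c, fun b hbV => ?_⟩
    by_contra hb
    exact hc ⟨b, hbV, hb⟩
  choose b hbV hbP using hcon'
  have hall : ∀ c, ((b 0 * b 1 * b 2 : B) : F) ∈ (V c).nonunits := by
    intro c
    have h0 : c = 0 ∨ c = 1 ∨ c = 2 := by fin_cases c <;> simp
    show (b 0 : F) * (b 1 : F) * (b 2 : F) ∈ (V c).nonunits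
    rcases h0 with rfl | rfl | rfl
    · exact mul_mem_nonunits_left _ (mul_mem_nonunits_left _ (hbV 0) (B_le_V 0 _ (b 1).2))
        (B_le_V 0 _ (b 2).2)
    · exact mul_mem_nonunits_left _ (mul_mem_nonunits_right _ (B_le_V 1 _ (b 0).2) (hbV 1))
        (B_le_V 1 _ (b 2).2)
    · exact mul_mem_nonunits_right _ (B_le_V 2 _ (B.mul_mem (b 0).2 (b 1).2)) (hbV 2)
  have h1 : b 0 * b 1 * b 2 ∈ P := hvert _ hall
  rcases Ideal.IsPrime.mem_or_mem ‹P.IsPrime› h1 with h | h
  · rcases Ideal.IsPrime.mem_or_mem ‹P.IsPrime› h with h | h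
    · exact hbP 0 h
    · exact hbP 1 h
  · exact hbP 2 h

/-- **Exhaustiveness of the point types** (datum v2 vocabulary): a closed point of the special
fibre of a chart (maximal ideal containing the vertical ideal, as in `LPProp`) lies on all three
components or on exactly one. -/
theorem one_or_all_of_degData {O : ValuationSubring K} {q : ℕ} {α β : F' →ₐ[K] F}
    {Nα Nβ : F →* F'}
    {V : Fin 3 → ValuationSubring F} {V' : Fin 2 → ValuationSubring F'}
    {ord : Fin 3 → F → ℤ} {ord' : Fin 2 → F' → ℤ} {x : F} {x' : F'}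
    (hord : ∀ c, IsOrd (ord c)) (hord' : ∀ c, IsOrd (ord' c))
    (mem_V : ∀ (c : Fin 3) (y : F), y ≠ 0 → (y ∈ V c ↔ 0 ≤ ord c y))
    (mem_V' : ∀ (c : Fin 2) (y : F'), y ≠ 0 → (y ∈ V' c ↔ 0 ≤ ord' c y))
    (const_V : ∀ (c : Fin 3) (a : K), a ∈ O → algebraMap K F a ∈ V c)
    (x_V : ∀ c : Fin 3, x ∈ V c ∧ x⁻¹ ∈ V c)
    (degα : DegData q α Nα (V 0) (V 1) (V 2) (V' 0) (V' 1) (ord 0) (ord 1) (ord 2) (ord' 0)
      (ord' 1) (chart O x) (chart O x'))
    (degβ : DegData q β Nβ (V 2) (V 1) (V 0) (V' 1) (V' 0) (ord 2) (ord 1) (ord 0) (ord' 1)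
      (ord' 0) (chart O x) (chart O x'))
    (i : Fin 2) (P : Ideal (chart O x i)) (hP : P.IsMaximal)
    (hvert : ∀ b : chart O x i, (∀ c, (b : F) ∈ (V c).nonunits) → b ∈ P) :
    (∀ c, Through (chart O x i) P (V c)) ∨
      ∃ c, Through (chart O x i) P (V c) ∧ ∀ c', Through (chart O x i) P (V c') → c' = c := by
  have : P.IsPrime := hP.isPrime
  by_cases hall : ∀ c, Through (chart O x i) P (V c)
  · exact Or.inl hall
  · right
    obtain ⟨c, hc⟩ := exists_through_of_vertical (chart_le_V const_V x_V i) P hvert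
    refine ⟨c, hc, fun c' hc' => ?_⟩
    by_contra hne
    exact hall (dich_of_degData hord hord' mem_V mem_V' const_V x_V degα degβ i P hP c' c hne
      hc' hc)

/-- Sanity check of the binders: `dich` re-derived from the other fields of a `KillData`. -/
theorem killData_dich {O : ValuationSubring K} {q : ℕ} {α β : F' →ₐ[K] F} {Nα Nβ : F →* F'}
    (D : KillData O q α β Nα Nβ) :
    ∀ (i : Fin 2) (P : Ideal (chart O D.x i)), P.IsMaximal → ∀ c c' : Fin 3, c ≠ c' →
      Through (chart O D.x i) P (D.V c) → Through (chart O D.x i) P (D.V c') →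
        ∀ c'', Through (chart O D.x i) P (D.V c'') :=
  dich_of_degData D.hord D.hord' D.mem_V D.mem_V' D.const_V D.x_V D.degα D.degβ

end Trichotomy

end Fermat.Agent.S36.helper7871
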