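import Fermat.Agent.S36.helper405_KillTerms
import Fermat.Agent.S36.helper7871_Trichotomy

/-!
# S36-U3 (helper7871): the field `dich` of `helper405.KillInput`, exact target

`helper405.KillInput` (file `helper405_KillTerms`) lists the geometric inputs of the modular
instance of `helper36.KillData` on the concrete terms of captain ruling #3.  Its field `dich`

> a closed point of a chart lying on two different components lies on all three

is a formal consequence of seventeen other fields (`helper7871_Trichotomy`, the norm trick):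
the five uniformiser fields, `x_V`, and for the two degeneracy maps the fields
`α_mem_mid`, `α_norm_insep`, `α_ord_split`, `α_map_chart`, `α_norm_chart`,
`β_mem_zero`, `β_mem_mid`, `β_norm_insep`, `β_ord_split`, `β_map_chart`, `β_norm_chart`.

* `dich_killInput` : the statement of the field `dich`, verbatim, from those fields (verbatim);
* `through_one_or_all_killInput` : every closed point of the special fibre lies on exactly one
  component or on all three (exhaustiveness of the point types), from the same fields.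
-/

set_option autoImplicit false

namespace Fermat.Agent.S36.helper7871

open ModularCurve
open Fermat.Agent.S36.helper405
open Fermat.Agent.S36.helper1013 (IsOrd IsUnifOf UnitOf)
open Fermat.Agent.S36.helper36 (chart Through)
open Fermat.Agent.S36.helper1335 (AuxOK)

section

variable (A : ValuationSubring (AlgebraicClosure ℚ)) (M₁ q : ℕ) [NeZero M₁] [NeZero q]
  (hq : q.Prime) (hqM : q ∣ M₁) (hq2 : ¬ q ^ 2 ∣ M₁) (haux : AuxOK M₁ q)

/-- The three vertical valuations have uniformisers (from the fields `unif_inf`, `unif_mid`,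
`unif_zero`). -/
theorem exists_unif_VK
    (unif_inf : IsUnifOf (Vinf A M₁ q) (q : FK A (M₁ * q)))
    (unif_mid : ∃ T : FK A (M₁ * q), IsUnifOf (Vmid A M₁ q hq hqM hq2) T ∧
      UnitOf (Vmid A M₁ q hq hqM hq2) (T ^ (q - 1) / (q : FK A (M₁ * q))))
    (unif_zero : IsUnifOf (Vzero A M₁ q hq hqM hq2) (q : FK A (M₁ * q))) (c : Fin 3) :
    ∃ ϖ : FK A (M₁ * q), IsUnifOf (VK A M₁ q hq hqM hq2 c) ϖ := by
  fin_cases c
  · exact ⟨_, unif_inf⟩
  · obtain ⟨T, hT, -⟩ := unif_mid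
    exact ⟨T, hT⟩
  · exact ⟨_, unif_zero⟩

/-- The two vertical valuations of level `M₁` have the uniformiser `q`. -/
theorem unif_VK'
    (unif_inf' : IsUnifOf (Vinf' A M₁) (q : FK A M₁))
    (unif_zero' : IsUnifOf (Vzero' A M₁ q hq hqM hq2) (q : FK A M₁)) (c : Fin 2) :
    IsUnifOf (VK' A M₁ q hq hqM hq2 c) (q : FK A M₁) := by
  fin_cases c
  · exact unif_inf'
  · exact unif_zero'

/-- The charts of `F` lie in the three vertical valuation rings (from the field `x_V`). -/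
theorem BK_le_VK
    (x_V : ∀ c : Fin 3, xK A M₁ q haux ∈ VK A M₁ q hq hqM hq2 c ∧
      (xK A M₁ q haux)⁻¹ ∈ VK A M₁ q hq hqM hq2 c) :
    ∀ (i : Fin 2) (c : Fin 3) (b : FK A (M₁ * q)), b ∈ BK A M₁ q haux i →
      b ∈ VK A M₁ q hq hqM hq2 c :=
  chart_le_V (fun c a ha => (const_mem_VK_iff A M₁ q hq hqM hq2 c a).mpr ha) x_V

/-- **Exact target: the field `dich` of `helper405.KillInput`, verbatim, from seventeen other
fields (verbatim).**  Two components through a prime of a chart ⟹ all three; here for every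
prime `P`, maximal or not. -/
theorem through_all_of_two_killInput
    (unif_inf : IsUnifOf (Vinf A M₁ q) (q : FK A (M₁ * q)))
    (unif_mid : ∃ T : FK A (M₁ * q), IsUnifOf (Vmid A M₁ q hq hqM hq2) T ∧
      UnitOf (Vmid A M₁ q hq hqM hq2) (T ^ (q - 1) / (q : FK A (M₁ * q))))
    (unif_zero : IsUnifOf (Vzero A M₁ q hq hqM hq2) (q : FK A (M₁ * q)))
    (unif_inf' : IsUnifOf (Vinf' A M₁) (q : FK A M₁))
    (unif_zero' : IsUnifOf (Vzero' A M₁ q hq hqM hq2) (q : FK A M₁))
    (x_V : ∀ c : Fin 3, xK A M₁ q haux ∈ VK A M₁ q hq hqM hq2 c ∧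
      (xK A M₁ q haux)⁻¹ ∈ VK A M₁ q hq hqM hq2 c)
    (α_mem_mid : Deg.MemOver (αK A M₁ q) (Vmid A M₁ q hq hqM hq2) (Vinf' A M₁))
    (α_norm_insep : Deg.NormInsep q (αK A M₁ q) (NαK A M₁ q) (Vzero A M₁ q hq hqM hq2))
    (α_ord_split : Deg.OrdSplit (NαK A M₁ q) (ordOf (Vinf A M₁ q))
      (ordOf (Vmid A M₁ q hq hqM hq2)) (ordOf (Vinf' A M₁)))
    (α_map_chart : Deg.MapChart (αK A M₁ q) (BK A M₁ q haux) (BK' A M₁ q haux))
    (α_norm_chart : Deg.NormChart (NαK A M₁ q) (BK A M₁ q haux) (BK' A M₁ q haux))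
    (β_mem_zero : Deg.MemOver (βK A M₁ q) (Vzero A M₁ q hq hqM hq2) (Vzero' A M₁ q hq hqM hq2))
    (β_mem_mid : Deg.MemOver (βK A M₁ q) (Vmid A M₁ q hq hqM hq2) (Vzero' A M₁ q hq hqM hq2))
    (β_norm_insep : Deg.NormInsep q (βK A M₁ q) (NβK A M₁ q) (Vinf A M₁ q))
    (β_ord_split : Deg.OrdSplit (NβK A M₁ q) (ordOf (Vzero A M₁ q hq hqM hq2))
      (ordOf (Vmid A M₁ q hq hqM hq2)) (ordOf (Vzero' A M₁ q hq hqM hq2)))
    (β_map_chart : Deg.MapChart (βK A M₁ q) (BK A M₁ q haux) (BK' A M₁ q haux))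
    (β_norm_chart : Deg.NormChart (NβK A M₁ q) (BK A M₁ q haux) (BK' A M₁ q haux))
    (i : Fin 2) (P : Ideal (BK A M₁ q haux i)) [P.IsPrime] {c c' : Fin 3} (hcc' : c ≠ c')
    (hc : Through (BK A M₁ q haux i) P (VK A M₁ q hq hqM hq2 c))
    (hc' : Through (BK A M₁ q haux i) P (VK A M₁ q hq hqM hq2 c')) :
    ∀ c'', Through (BK A M₁ q haux i) P (VK A M₁ q hq hqM hq2 c'') := by
  have hex := exists_unif_VK A M₁ q hq hqM hq2 unif_inf unif_mid unif_zero
  have hun' := unif_VK' A M₁ q hq hqM hq2 unif_inf' unif_zero'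
  have hord : ∀ c, IsOrd (ordK A M₁ q hq hqM hq2 c) := fun c => by
    obtain ⟨ϖ, hϖ⟩ := hex c
    exact isOrd_ordOf hϖ
  have hord' : ∀ c, IsOrd (ordK' A M₁ q hq hqM hq2 c) := fun c => isOrd_ordOf (hun' c)
  have mem_V : ∀ (c : Fin 3) (y : FK A (M₁ * q)), y ≠ 0 →
      (y ∈ VK A M₁ q hq hqM hq2 c ↔ 0 ≤ ordK A M₁ q hq hqM hq2 c y) := fun c y hy => by
    obtain ⟨ϖ, hϖ⟩ := hex c
    exact mem_iff_ordOf_nonneg hϖ hy
  have mem_V' : ∀ (c : Fin 2) (y : FK A M₁), y ≠ 0 →
      (y ∈ VK' A M₁ q hq hqM hq2 c ↔ 0 ≤ ordK' A M₁ q hq hqM hq2 c y) :=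
    fun c y hy => mem_iff_ordOf_nonneg (hun' c) hy
  exact through_all_of_two_of_fields (V := VK A M₁ q hq hqM hq2) (V' := VK' A M₁ q hq hqM hq2)
    (ord := ordK A M₁ q hq hqM hq2) (ord' := ordK' A M₁ q hq hqM hq2)
    hord hord' mem_V mem_V' (BK_le_VK A M₁ q hq hqM hq2 haux x_V i)
    α_mem_mid α_norm_insep α_ord_split (α_map_chart i) (α_norm_chart i)
    β_mem_zero β_mem_mid β_norm_insep β_ord_split (β_map_chart i) (β_norm_chart i)
    P hcc' hc hc'

/-- **Exact target: the field `dich` of `helper405.KillInput`, verbatim**, from seventeen other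
fields of `KillInput` (verbatim, in the order of the structure). -/
theorem dich_killInput
    (unif_inf : IsUnifOf (Vinf A M₁ q) (q : FK A (M₁ * q)))
    (unif_mid : ∃ T : FK A (M₁ * q), IsUnifOf (Vmid A M₁ q hq hqM hq2) T ∧
      UnitOf (Vmid A M₁ q hq hqM hq2) (T ^ (q - 1) / (q : FK A (M₁ * q))))
    (unif_zero : IsUnifOf (Vzero A M₁ q hq hqM hq2) (q : FK A (M₁ * q)))
    (unif_inf' : IsUnifOf (Vinf' A M₁) (q : FK A M₁))
    (unif_zero' : IsUnifOf (Vzero' A M₁ q hq hqM hq2) (q : FK A M₁))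
    (x_V : ∀ c : Fin 3, xK A M₁ q haux ∈ VK A M₁ q hq hqM hq2 c ∧
      (xK A M₁ q haux)⁻¹ ∈ VK A M₁ q hq hqM hq2 c)
    (α_mem_mid : Deg.MemOver (αK A M₁ q) (Vmid A M₁ q hq hqM hq2) (Vinf' A M₁))
    (α_norm_insep : Deg.NormInsep q (αK A M₁ q) (NαK A M₁ q) (Vzero A M₁ q hq hqM hq2))
    (α_ord_split : Deg.OrdSplit (NαK A M₁ q) (ordOf (Vinf A M₁ q))
      (ordOf (Vmid A M₁ q hq hqM hq2)) (ordOf (Vinf' A M₁)))
    (α_map_chart : Deg.MapChart (αK A M₁ q) (BK A M₁ q haux) (BK' A M₁ q haux))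
    (α_norm_chart : Deg.NormChart (NαK A M₁ q) (BK A M₁ q haux) (BK' A M₁ q haux))
    (β_mem_zero : Deg.MemOver (βK A M₁ q) (Vzero A M₁ q hq hqM hq2) (Vzero' A M₁ q hq hqM hq2))
    (β_mem_mid : Deg.MemOver (βK A M₁ q) (Vmid A M₁ q hq hqM hq2) (Vzero' A M₁ q hq hqM hq2))
    (β_norm_insep : Deg.NormInsep q (βK A M₁ q) (NβK A M₁ q) (Vinf A M₁ q))
    (β_ord_split : Deg.OrdSplit (NβK A M₁ q) (ordOf (Vzero A M₁ q hq hqM hq2))
      (ordOf (Vmid A M₁ q hq hqM hq2)) (ordOf (Vzero' A M₁ q hq hqM hq2)))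
    (β_map_chart : Deg.MapChart (βK A M₁ q) (BK A M₁ q haux) (BK' A M₁ q haux))
    (β_norm_chart : Deg.NormChart (NβK A M₁ q) (BK A M₁ q haux) (BK' A M₁ q haux)) :
    ∀ (i : Fin 2) (P : Ideal (BK A M₁ q haux i)), P.IsMaximal → ∀ c c' : Fin 3, c ≠ c' →
      Through (BK A M₁ q haux i) P (VK A M₁ q hq hqM hq2 c) →
      Through (BK A M₁ q haux i) P (VK A M₁ q hq hqM hq2 c') →
      ∀ c'', Through (BK A M₁ q haux i) P (VK A M₁ q hq hqM hq2 c'') := by
  intro i P hP c c' hcc' hc hc'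
  have : P.IsPrime := hP.isPrime
  exact through_all_of_two_killInput A M₁ q hq hqM hq2 haux unif_inf unif_mid unif_zero
    unif_inf' unif_zero' x_V α_mem_mid α_norm_insep α_ord_split α_map_chart α_norm_chart
    β_mem_zero β_mem_mid β_norm_insep β_ord_split β_map_chart β_norm_chart i P hcc' hc hc'

/-- **Exhaustiveness of the point types**: a closed point of the special fibre of a chart
(maximal ideal containing the vertical ideal, as in `helper36.LPProp`) lies on all three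
components or on exactly one. -/
theorem through_one_or_all_killInput
    (x_V : ∀ c : Fin 3, xK A M₁ q haux ∈ VK A M₁ q hq hqM hq2 c ∧
      (xK A M₁ q haux)⁻¹ ∈ VK A M₁ q hq hqM hq2 c)
    (dich : ∀ (i : Fin 2) (P : Ideal (BK A M₁ q haux i)), P.IsMaximal → ∀ c c' : Fin 3,
      c ≠ c' → Through (BK A M₁ q haux i) P (VK A M₁ q hq hqM hq2 c) →
      Through (BK A M₁ q haux i) P (VK A M₁ q hq hqM hq2 c') →
      ∀ c'', Through (BK A M₁ q haux i) P (VK A M₁ q hq hqM hq2 c''))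
    (i : Fin 2) (P : Ideal (BK A M₁ q haux i)) (hP : P.IsMaximal)
    (hvert : ∀ b : BK A M₁ q haux i,
      (∀ c, (b : FK A (M₁ * q)) ∈ (VK A M₁ q hq hqM hq2 c).nonunits) → b ∈ P) :
    (∀ c, Through (BK A M₁ q haux i) P (VK A M₁ q hq hqM hq2 c)) ∨
      ∃ c, Through (BK A M₁ q haux i) P (VK A M₁ q hq hqM hq2 c) ∧
        ∀ c', Through (BK A M₁ q haux i) P (VK A M₁ q hq hqM hq2 c') → c' = c := by
  have : P.IsPrime := hP.isPrime
  by_cases hall : ∀ c, Through (BK A M₁ q haux i) P (VK A M₁ q hq hqM hq2 c)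
  · exact Or.inl hall
  · right
    obtain ⟨c, hc⟩ := exists_through_of_vertical
      (fun c b hb => BK_le_VK A M₁ q hq hqM hq2 haux x_V i c b hb) P hvert
    refine ⟨c, hc, fun c' hc' => ?_⟩
    by_contra hne
    exact hall (dich i P hP c' c hne hc' hc)

/-- Check against the structure: for `h : KillInput …`, the field `h.dich` is the theorem
`dich_killInput` applied to the other fields of `h`. -/
theorem dich_killInput_eq (h : KillInput A M₁ q hq hqM hq2 haux) :
    h.dich = dich_killInput A M₁ q hq hqM hq2 haux h.unif_inf h.unif_mid h.unif_zero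
      h.unif_inf' h.unif_zero' h.x_V h.α_mem_mid h.α_norm_insep h.α_ord_split h.α_map_chart
      h.α_norm_chart h.β_mem_zero h.β_mem_mid h.β_norm_insep h.β_ord_split h.β_map_chart
      h.β_norm_chart := rfl

end

end Fermat.Agent.S36.helper7871
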