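/-
helper8523 — S36: the frozen statement from the captain's (KILL) alone (the machine side of
S36, deliverable (3) of captain ruling #2 in `team_s36_chat`; board row S36-MACHINE-UF).

Kernel operators on `J₀(M)` (design "no new kernel operator": everything is a landed S35 object):
  `Ba M q = U_q`          (`helper2039.uJ M q = helper1687.uOp M q`, transposed correspondence),
  `Bb M q = U_q ∘ W_M`    (`helper3353.uwJ M q`; `W_M` = the Fricke involution on `Pic⁰`).

CHAIN, all on main:

  frozen S36 ⟸ `helper1195.result_of_ops Ba Bb hgal hkill hlat`         (top wire; (U), (ES) from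
                                                                         the landed S18 export)
      hgal := `helper3353.galOps_uf`              (landed)
      hlat := `helper3353.latOps_uf`              (landed: `Lam M`, twins `latUAll`,
                                                   `latUAll * latW (frickeData M)`, occurrence)
      hkill := `killOps_uf_of_killFF`             (THIS FILE)  ⟸ `helper1335.Stmt_KillFF`
                                                   via the seam `helper253.killJ_of_stmt_KillFF`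
                                                   (`U_q = α'^* β'_*`, Fricke exchange, norm trick)
      `helper1335.Stmt_KillFF` ⟸ `helper1335.Stmt_KillFFAux`   (`helper3495.stmt_KillFF_of_aux`).

RESULTS (this file):
* `killOps_uf_of_killFF`      : `Stmt_KillFF → KillOps M lam (uJ M) (uwJ M)`;
* `stmt_KerOpsC_of_killFF`    : `helper1335.Stmt_KillFF → helper1195.Stmt_KerOpsC`;
* `stmt_KerOpsC_of_killFFAux` : `helper1335.Stmt_KillFFAux → helper1195.Stmt_KerOpsC`;
* `result_of_killFF`, `result_of_killFFAux` : the frozen statement S36 (binders verbatim) from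
  `Stmt_KillFF`, resp. from `Stmt_KillFFAux` — the ONLY open input of S36.
-/
import Fermat.Agent.S36.helper3353_LatOps
import Fermat.Agent.S36.helper253_UKillSeam
import Fermat.Agent.S36.helper1195_Closed
import Fermat.Agent.S36.helper3495_AuxKill

set_option autoImplicit false
set_option linter.style.haveILetI false
set_option linter.unusedVariables false

namespace Fermat.Agent.S36.helper8523

open ModularCurve AlgebraicCurve
open Fermat.Agent.S36.helper1195 Fermat.Agent.S36.helper3353

/-- **(hkill) for the kernel operators `U_q`, `U_q ∘ W_M`** from the captain's function-field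
statement `helper1335.Stmt_KillFF`: for every prime `q ≠ lam` with `q² ∥ M` and every valuation
subring `A` of `ℚ̄` over `q` there is `c ≠ 0` killing every point of `lam`-power order of `J₀(M)`
which is killed by `U_q` and `U_q ∘ W_M` and fixed by the inertia group of `A`. -/
theorem killOps_uf_of_killFF (hFF : Fermat.Agent.S36.helper1335.Stmt_KillFF)
    (M : ℕ) [NeZero M] (lam : ℕ) [Fact lam.Prime] :
    KillOps M lam (fun q => Fermat.Agent.S35.helper2039.uJ M q) (uwJ M) := by
  intro q hq A hA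
  haveI : NeZero q := ⟨hq.1.ne_zero⟩
  obtain ⟨c, hc0, hc⟩ := Fermat.Agent.S36.helper253.killJ_of_stmt_KillFF hFF M q hq.1 hq.2.2
    lam Fact.out (Ne.symm hq.2.1) A hA
  refine ⟨c, hc0, fun x hx h1 h2 hI => hc x hx ?_ ?_ hI⟩
  · have h1' : Fermat.Agent.S35.helper2039.uJ M q x = 0 := h1
    rw [Fermat.Agent.S35.helper2039.uJ_eq M q] at h1'
    exact h1'
  · have h2' : Fermat.Agent.S35.helper2039.uJ M q (frickeJ M x) = 0 := h2
    rw [Fermat.Agent.S35.helper2039.uJ_eq M q] at h2'
    exact h2'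

/-- **`helper1195.Stmt_KerOpsC` from the captain's (KILL)** `helper1335.Stmt_KillFF`. -/
theorem stmt_KerOpsC_of_killFF (hFF : Fermat.Agent.S36.helper1335.Stmt_KillFF) :
    Stmt_KerOpsC :=
  stmt_KerOpsC_of_ops (fun M _ q => Fermat.Agent.S35.helper2039.uJ M q) (fun M _ => uwJ M)
    (fun M _ lam => galOps_uf M lam)
    (fun M _ lam _ => killOps_uf_of_killFF hFF M lam)
    (fun M _ lam _ S _ _ => latOps_uf M lam S)

/-- **`helper1195.Stmt_KerOpsC` from (KILL) at auxiliary level** `helper1335.Stmt_KillFFAux`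
(what the geometry proves). -/
theorem stmt_KerOpsC_of_killFFAux (hAux : Fermat.Agent.S36.helper1335.Stmt_KillFFAux) :
    Stmt_KerOpsC :=
  stmt_KerOpsC_of_killFF (Fermat.Agent.S36.helper3495.stmt_KillFF_of_aux hAux)

open Polynomial in
/-- **The frozen statement S36 from the captain's (KILL)** `helper1335.Stmt_KillFF` alone.
Binders and conclusion are the frozen statement's, verbatim. -/
theorem result_of_killFF (hFF : Fermat.Agent.S36.helper1335.Stmt_KillFF)
    {M : ℕ} [NeZero M] {g : CuspForm (CongruenceSubgroup.Gamma0 M) 2} (hg : g.IsNewform)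
    (lam : ℕ) [Fact lam.Prime]
    (S : Finset ℕ)
    (O' : Type) [CommRing O'] [IsDomain O'] [IsDiscreteValuationRing O']
    [IsAdicComplete (IsLocalRing.maximalIdeal O') O'] [Finite (IsLocalRing.ResidueField O')]
    [CharZero O'] (hlamO' : (lam : O') ∈ IsLocalRing.maximalIdeal O')
    (hlam2 : lam ≠ 2)
    (chig : CuspForm.heckeAlgebra M 2 (↑S : Set ℕ) →+* ℂ)
    (hchig : ∀ (ℓ : ℕ) (hℓ : ℓ.Prime) (hℓM : ¬ ℓ ∣ M) (hℓS : ℓ ∉ (↑S : Set ℕ)),
      chig (CuspForm.heckeAlgebra.T hℓ hℓM hℓS) = ModularFormClass.qCoeff g ℓ)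
    (iota : chig.range →+* O')
    (hlamS : lam ∈ S) (hMS : ∀ q : ℕ, q.Prime → q ∣ M → q ∈ S)
    (hres : ∀ (O'' : Type) [CommRing O''] [IsDomain O''] [IsDiscreteValuationRing O'']
      [IsAdicComplete (IsLocalRing.maximalIdeal O'') O''] [Finite (IsLocalRing.ResidueField O'')] [CharZero O'']
      [Algebra O' O''] [Module.Finite O' O''] [IsLocalHom (algebraMap O' O'')],
      Function.Injective (algebraMap O' O'') → ∀ (ρ : GaloisRepAdic O''),
      (∀ (ℓ : ℕ) (hℓ : ℓ.Prime) (hℓlam : ℓ ≠ lam) (hℓM : ¬ ℓ ∣ M) (hℓS : ℓ ∉ (↑S : Set ℕ)),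
        ∀ A : ValuationSubring (AlgebraicClosure ℚ), A.LiesOverPrime ℓ →
          ∀ σ : AlgebraicClosure ℚ ≃ₐ[ℚ] AlgebraicClosure ℚ, A.IsFrobeniusAt σ ℓ →
            LinearMap.charpoly (ρ.ρ σ) =
              X ^ 2 - C (algebraMap O' O'' ((iota.comp chig.rangeRestrict) (CuspForm.heckeAlgebra.T hℓ hℓM hℓS))) * X
                + C ((ℓ : O'')))
      → ρ.residual.IsAbsolutelyIrreducible ∧ ρ.residual.IsOdd)
    :
    ∃ (O'' : Type) (_ : CommRing O'') (_ : IsDomain O'') (_ : IsDiscreteValuationRing O'')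
      (_ : IsAdicComplete (IsLocalRing.maximalIdeal O'') O'') (_ : Finite (IsLocalRing.ResidueField O''))
      (_ : CharZero O'') (_ : Algebra O' O'') (_ : Module.Finite O' O'') (_ : IsLocalHom (algebraMap O' O'')),
      Function.Injective (algebraMap O' O'') ∧
      ∃ ρ : GaloisRepAdic O'',
        (∀ (ℓ : ℕ) (hℓ : ℓ.Prime) (hℓM : ¬ ℓ ∣ M) (hℓS : ℓ ∉ (↑S : Set ℕ)),
          ∀ A : ValuationSubring (AlgebraicClosure ℚ), A.LiesOverPrime ℓ →
            ∀ σ : AlgebraicClosure ℚ ≃ₐ[ℚ] AlgebraicClosure ℚ, A.IsFrobeniusAt σ ℓ →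
              LinearMap.charpoly (ρ.ρ σ) =
                X ^ 2 - C (algebraMap O' O'' ((iota.comp chig.rangeRestrict) (CuspForm.heckeAlgebra.T hℓ hℓM hℓS))) * X
                  + C ((ℓ : O''))) ∧
        (∀ q : ℕ, q.Prime → q ≠ lam → M.factorization q = 2 → ¬ ρ.IsUnipotentOnInertiaAt q) :=
  result_of_ops (fun M _ q => Fermat.Agent.S35.helper2039.uJ M q) (fun M _ => uwJ M)
    (fun M _ lam => galOps_uf M lam)
    (fun M _ lam _ => killOps_uf_of_killFF hFF M lam)
    (fun M _ lam _ S _ _ => latOps_uf M lam S)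
    hg lam S O' hlamO' hlam2 chig hchig iota hlamS hMS hres

open Polynomial in
/-- **The frozen statement S36 from (KILL) at auxiliary level** `helper1335.Stmt_KillFFAux`
(what the geometry proves).  Binders and conclusion are the frozen statement's, verbatim. -/
theorem result_of_killFFAux (hAux : Fermat.Agent.S36.helper1335.Stmt_KillFFAux)
    {M : ℕ} [NeZero M] {g : CuspForm (CongruenceSubgroup.Gamma0 M) 2} (hg : g.IsNewform)
    (lam : ℕ) [Fact lam.Prime]
    (S : Finset ℕ)
    (O' : Type) [CommRing O'] [IsDomain O'] [IsDiscreteValuationRing O']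
    [IsAdicComplete (IsLocalRing.maximalIdeal O') O'] [Finite (IsLocalRing.ResidueField O')]
    [CharZero O'] (hlamO' : (lam : O') ∈ IsLocalRing.maximalIdeal O')
    (hlam2 : lam ≠ 2)
    (chig : CuspForm.heckeAlgebra M 2 (↑S : Set ℕ) →+* ℂ)
    (hchig : ∀ (ℓ : ℕ) (hℓ : ℓ.Prime) (hℓM : ¬ ℓ ∣ M) (hℓS : ℓ ∉ (↑S : Set ℕ)),
      chig (CuspForm.heckeAlgebra.T hℓ hℓM hℓS) = ModularFormClass.qCoeff g ℓ)
    (iota : chig.range →+* O')
    (hlamS : lam ∈ S) (hMS : ∀ q : ℕ, q.Prime → q ∣ M → q ∈ S)
    (hres : ∀ (O'' : Type) [CommRing O''] [IsDomain O''] [IsDiscreteValuationRing O'']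
      [IsAdicComplete (IsLocalRing.maximalIdeal O'') O''] [Finite (IsLocalRing.ResidueField O'')] [CharZero O'']
      [Algebra O' O''] [Module.Finite O' O''] [IsLocalHom (algebraMap O' O'')],
      Function.Injective (algebraMap O' O'') → ∀ (ρ : GaloisRepAdic O''),
      (∀ (ℓ : ℕ) (hℓ : ℓ.Prime) (hℓlam : ℓ ≠ lam) (hℓM : ¬ ℓ ∣ M) (hℓS : ℓ ∉ (↑S : Set ℕ)),
        ∀ A : ValuationSubring (AlgebraicClosure ℚ), A.LiesOverPrime ℓ →
          ∀ σ : AlgebraicClosure ℚ ≃ₐ[ℚ] AlgebraicClosure ℚ, A.IsFrobeniusAt σ ℓ →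
            LinearMap.charpoly (ρ.ρ σ) =
              X ^ 2 - C (algebraMap O' O'' ((iota.comp chig.rangeRestrict) (CuspForm.heckeAlgebra.T hℓ hℓM hℓS))) * X
                + C ((ℓ : O'')))
      → ρ.residual.IsAbsolutelyIrreducible ∧ ρ.residual.IsOdd)
    :
    ∃ (O'' : Type) (_ : CommRing O'') (_ : IsDomain O'') (_ : IsDiscreteValuationRing O'')
      (_ : IsAdicComplete (IsLocalRing.maximalIdeal O'') O'') (_ : Finite (IsLocalRing.ResidueField O''))
      (_ : CharZero O'') (_ : Algebra O' O'') (_ : Module.Finite O' O'') (_ : IsLocalHom (algebraMap O' O'')),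
      Function.Injective (algebraMap O' O'') ∧
      ∃ ρ : GaloisRepAdic O'',
        (∀ (ℓ : ℕ) (hℓ : ℓ.Prime) (hℓM : ¬ ℓ ∣ M) (hℓS : ℓ ∉ (↑S : Set ℕ)),
          ∀ A : ValuationSubring (AlgebraicClosure ℚ), A.LiesOverPrime ℓ →
            ∀ σ : AlgebraicClosure ℚ ≃ₐ[ℚ] AlgebraicClosure ℚ, A.IsFrobeniusAt σ ℓ →
              LinearMap.charpoly (ρ.ρ σ) =
                X ^ 2 - C (algebraMap O' O'' ((iota.comp chig.rangeRestrict) (CuspForm.heckeAlgebra.T hℓ hℓM hℓS))) * X
                  + C ((ℓ : O''))) ∧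
        (∀ q : ℕ, q.Prime → q ≠ lam → M.factorization q = 2 → ¬ ρ.IsUnipotentOnInertiaAt q) :=
  result_of_killFF (Fermat.Agent.S36.helper3495.stmt_KillFF_of_aux hAux)
    hg lam S O' hlamO' hlam2 chig hchig iota hlamS hMS hres

end Fermat.Agent.S36.helper8523
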