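/-
S36-TQ-INT (helper8566): CHART STABILITY UNDER `β` on the Hauptmodul lines `t4` / `t9`.

For `t = t4` (level 4) resp. `t = t9` (level 9) and `t' = t(qz)`: `t'` is integral over every
subring containing `t` and `1/2` (resp. `1/3`), and conversely; the same for `1/t'`, `1/t`.
Hence the integral closures of `O[t]`, `O[t(qz)]`, `O[t(q²z)]` in the function field coincide
(both charts), which is what `DegData.map_chart` / `norm_chart` need for the degeneracy map `β`.

Design: valuative criterion (`iInf_valuationSubring_superset`) + the Newton polygon of the three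
Kronecker relations `Φ_q(j, j_q) = Φ_q(j_2, j_2q) = Φ_q(j_4, j_4q) = 0` at an ARBITRARY valuation.
No cusp analysis, no modular equation for `t`, no count of extensions.  `import Mathlib` only.
-/
import Mathlib

set_option autoImplicit false

open Polynomial

namespace Fermat.Agent.S36.helper8566

/-! ## 0. Exponent clashes in a linearly ordered group with zero -/

section Clash

variable {Γ₀ : Type*} [LinearOrderedCommGroupWithZero Γ₀]

theorem pow_ne_pow_of_one_lt {g : Γ₀} (hg : 1 < g) {a b : ℕ} (hab : a ≠ b) : g ^ a ≠ g ^ b := by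
  intro h
  exact hab (pow_right_injective₀ (zero_lt_one.trans hg) hg.ne' h)

/-- **Exponent clash.**  Two "Kronecker dichotomies" between powers of `τ, σ > 1` are incompatible
unless the exponent vectors are proportional in the way allowed by `q`. -/
theorem kron_clash {τ σ : Γ₀} (hτ : 1 < τ) (hσ : 1 < σ) {a b a' b' q : ℕ} (hq : q ≠ 0)
    (h1 : τ ^ a = σ ^ (a' * q) ∨ σ ^ a' = τ ^ (a * q))
    (h2 : τ ^ b = σ ^ (b' * q) ∨ σ ^ b' = τ ^ (b * q))
    (hAA : a' * b ≠ b' * a) (hAB : a' * b * q ^ 2 ≠ b' * a) (hBA : b' * a * q ^ 2 ≠ a' * b) :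
    False := by
  rcases h1 with h1 | h1 <;> rcases h2 with h2 | h2
  · -- τ^a = σ^(a'q), τ^b = σ^(b'q)
    have e1 : τ ^ (a * b) = σ ^ (a' * q * b) := by rw [pow_mul, h1, ← pow_mul]
    have e2 : τ ^ (a * b) = σ ^ (b' * q * a) := by rw [mul_comm a b, pow_mul, h2, ← pow_mul]
    have := e1.symm.trans e2
    apply pow_ne_pow_of_one_lt hσ _ this
    intro h
    apply hAA
    have h' : q * (a' * b) = q * (b' * a) := by
      calc q * (a' * b) = a' * q * b := by ring
        _ = b' * q * a := h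
        _ = q * (b' * a) := by ring
    exact Nat.eq_of_mul_eq_mul_left (Nat.pos_of_ne_zero hq) h'
  · -- τ^a = σ^(a'q), σ^b' = τ^(bq)
    have e1 : τ ^ (a * (b * q)) = σ ^ (a' * q * (b * q)) := by rw [pow_mul, h1, ← pow_mul]
    have e2 : τ ^ (a * (b * q)) = σ ^ (b' * a) := by
      rw [mul_comm a (b * q), pow_mul, ← h2, ← pow_mul]
    have := e1.symm.trans e2
    apply pow_ne_pow_of_one_lt hσ _ this
    intro h
    apply hAB
    rw [← h]; ring
  · -- σ^a' = τ^(aq), τ^b = σ^(b'q)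
    have e1 : τ ^ (b * (a * q)) = σ ^ (b' * q * (a * q)) := by rw [pow_mul, h2, ← pow_mul]
    have e2 : τ ^ (b * (a * q)) = σ ^ (a' * b) := by
      rw [mul_comm b (a * q), pow_mul, ← h1, ← pow_mul]
    have := e1.symm.trans e2
    apply pow_ne_pow_of_one_lt hσ _ this
    intro h
    apply hBA
    rw [← h]; ring
  · -- σ^a' = τ^(aq), σ^b' = τ^(bq)
    have e1 : σ ^ (a' * b') = τ ^ (a * q * b') := by rw [pow_mul, h1, ← pow_mul]
    have e2 : σ ^ (a' * b') = τ ^ (b * q * a') := by rw [mul_comm a' b', pow_mul, h2, ← pow_mul]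
    have := e1.symm.trans e2
    apply pow_ne_pow_of_one_lt hτ _ this
    intro h
    apply hAA
    have h' : q * (a' * b) = q * (b' * a) := by
      calc q * (a' * b) = b * q * a' := by ring
        _ = a * q * b' := h.symm
        _ = q * (b' * a) := by ring
    exact Nat.eq_of_mul_eq_mul_left (Nat.pos_of_ne_zero hq) h'

end Clash

/-! ## 1. Valuations of integer polynomials -/

section Eval

variable {F : Type*} [Field F] {Γ₀ : Type*} [LinearOrderedCommGroupWithZero Γ₀]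
  (v : Valuation F Γ₀)

/-- Evaluation of an integer polynomial at `a` (same body as `S37.helper9343.evalZ`). -/
noncomputable def evZ {S : Type*} [CommRing S] (a : S) : ℤ[X] →+* S :=
  Polynomial.eval₂RingHom (Int.castRingHom S) a

theorem val_natCast_le_one (n : ℕ) : v (n : F) ≤ 1 := by
  induction n with
  | zero => simp
  | succ n ih =>
    rw [Nat.cast_succ]
    exact v.map_add_le ih (by rw [v.map_one])

theorem val_intCast_le_one (n : ℤ) : v (n : F) ≤ 1 := by
  rcases Int.eq_nat_or_neg n with ⟨m, rfl | rfl⟩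
  · simpa using val_natCast_le_one v m
  · simpa using val_natCast_le_one v m

theorem evZ_eq_sum (P : ℤ[X]) (x : F) {N : ℕ} (hN : P.natDegree < N) :
    evZ x P = ∑ i ∈ Finset.range N, ((P.coeff i : ℤ) : F) * x ^ i := by
  have := Polynomial.eval₂_eq_sum_range' (Int.castRingHom F) hN x
  simpa [evZ] using this

theorem val_evZ_le_one (P : ℤ[X]) {x : F} (hx : v x ≤ 1) : v (evZ x P) ≤ 1 := by
  rw [evZ_eq_sum P x (Nat.lt_succ_self _)]
  apply v.map_sum_le
  intro i _
  rw [v.map_mul, v.map_pow]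
  exact mul_le_one' (val_intCast_le_one v _) (pow_le_one' hx i)

theorem val_evZ_le (P : ℤ[X]) {x : F} (hx : 1 ≤ v x) {d : ℕ} (hd : P.natDegree ≤ d) :
    v (evZ x P) ≤ v x ^ d := by
  rw [evZ_eq_sum P x (Nat.lt_succ_of_le hd)]
  apply v.map_sum_le
  intro i hi
  rw [v.map_mul, v.map_pow]
  have hi' : i ≤ d := Nat.lt_succ_iff.mp (Finset.mem_range.mp hi)
  calc v ((P.coeff i : ℤ) : F) * v x ^ i ≤ 1 * v x ^ d :=
        mul_le_mul' (val_intCast_le_one v _) (pow_le_pow_right' hx hi')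
    _ = v x ^ d := one_mul _

theorem val_evZ_eq (P : ℤ[X]) {x : F} (hx : 1 < v x) {d : ℕ} (hd : P.natDegree ≤ d)
    (hlead : v ((P.coeff d : ℤ) : F) = 1) : v (evZ x P) = v x ^ d := by
  classical
  rw [evZ_eq_sum P x (Nat.lt_succ_of_le hd)]
  have hd' : d ∈ Finset.range (d + 1) := Finset.self_mem_range_succ d
  have key : v (((P.coeff d : ℤ) : F) * x ^ d) = v x ^ d := by
    rw [v.map_mul, v.map_pow, hlead, one_mul]
  rw [v.map_sum_eq_of_lt hd', key]
  intro i hi
  rw [key, v.map_mul, v.map_pow]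
  have hi' : i < d := by
    rcases Finset.mem_sdiff.mp hi with ⟨h1, h2⟩
    have h3 : i ≤ d := Nat.lt_succ_iff.mp (Finset.mem_range.mp h1)
    have h4 : i ≠ d := by simpa using h2
    omega
  calc v ((P.coeff i : ℤ) : F) * v x ^ i ≤ 1 * v x ^ i :=
        mul_le_mul' (val_intCast_le_one v _) le_rfl
    _ = v x ^ i := one_mul _
    _ < v x ^ d := pow_lt_pow_right₀ hx hi'

theorem val_evZ_eq_of_monic (P : ℤ[X]) (hP : P.Monic) {x : F} (hx : 1 < v x) :
    v (evZ x P) = v x ^ P.natDegree := by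
  apply val_evZ_eq v P hx le_rfl
  rw [Polynomial.coeff_natDegree, hP.leadingCoeff]
  simp

end Eval

/-! ## 2. The Kronecker dichotomy at an arbitrary valuation -/

section Kron

variable {F : Type*} [Field F] {Γ₀ : Type*} [LinearOrderedCommGroupWithZero Γ₀]
  (v : Valuation F Γ₀)

/-- **Kronecker shape** of a modular polynomial `Φ ∈ ℤ[X][Y]` of prime level `q`:
`Φ = Y^(q+1) + X^(q+1) - X^q Y^q + (terms X^m Y^n with m, n ≤ q, (m, n) ≠ (q, q))`.
(These six clauses are the conclusion of S36-PHISHAPE, helper6414.) -/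
structure KronShape (q : ℕ) (Φ : Polynomial ℤ[X]) : Prop where
  monic : Φ.Monic
  natDegree_eq : Φ.natDegree = q + 1
  coeff_zero_monic : (Φ.coeff 0).Monic
  coeff_zero_natDegree : (Φ.coeff 0).natDegree = q + 1
  coeff_natDegree_le : ∀ n, 1 ≤ n → n ≤ q → (Φ.coeff n).natDegree ≤ q
  coeff_coeff : (Φ.coeff q).coeff q = -1

/-- The valuation-theoretic content of a Kronecker relation `Φ_q(x, y) = 0`: `x` is integral at
`v` iff `y` is, and at a pole the pole orders differ by the factor `q` (one way or the other). -/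
def KronPair (q : ℕ) (x y : F) : Prop :=
  (v x ≤ 1 ↔ v y ≤ 1) ∧ (1 < v x → v y = v x ^ q ∨ v x = v y ^ q)

variable {v}

theorem kronPair_iff {q : ℕ} {x y : F} :
    KronPair v q x y ↔ (v x ≤ 1 ↔ v y ≤ 1) ∧ (1 < v x → v y = v x ^ q ∨ v x = v y ^ q) := by
  rw [KronPair]

theorem KronPair.symm {q : ℕ} {x y : F} (h : KronPair v q x y) : KronPair v q y x := by
  refine ⟨h.1.symm, fun hy => ?_⟩
  have hx : 1 < v x := by
    by_contra hx
    exact absurd (h.1.mp (not_lt.mp hx)) (not_le.mpr hy)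
  rcases h.2 hx with h' | h'
  · exact Or.inr h'
  · exact Or.inl h'

variable (v)

theorem eval_map_evZ_eq_sum (Φ : Polynomial ℤ[X]) (x y : F) {N : ℕ} (hN : Φ.natDegree < N) :
    (Φ.map (evZ x)).eval y = ∑ n ∈ Finset.range N, evZ x (Φ.coeff n) * y ^ n := by
  rw [Polynomial.eval_map, Polynomial.eval₂_eq_sum_range' _ hN]

/-- **The Kronecker dichotomy**: a relation `Φ(x, y) = 0` with `Φ` of Kronecker shape gives a
`KronPair` at EVERY valuation of the field (any rank, any residue characteristic). -/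
theorem kronPair_of_shape {q : ℕ} (hq : 1 ≤ q) {Φ : Polynomial ℤ[X]} (hΦ : KronShape q Φ)
    {x y : F} (h : (Φ.map (evZ x)).eval y = 0) : KronPair v q x y := by
  classical
  rw [eval_map_evZ_eq_sum Φ x y (N := q + 2) (by rw [hΦ.natDegree_eq]; omega)] at h
  have hv0 : v (∑ n ∈ Finset.range (q + 2), evZ x (Φ.coeff n) * y ^ n) = 0 := by
    rw [h, v.map_zero]
  -- the three distinguished terms
  have vtop : v (evZ x (Φ.coeff (q + 1)) * y ^ (q + 1)) = v y ^ (q + 1) := by
    have h1 : Φ.coeff (q + 1) = 1 := by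
      rw [← hΦ.natDegree_eq]; exact hΦ.monic.coeff_natDegree
    rw [h1, map_one, one_mul, v.map_pow]
  have vzero : 1 < v x → v (evZ x (Φ.coeff 0) * y ^ 0) = v x ^ (q + 1) := by
    intro hx
    rw [pow_zero, mul_one, val_evZ_eq_of_monic v _ hΦ.coeff_zero_monic hx,
      hΦ.coeff_zero_natDegree]
  have vq : 1 < v x → v (evZ x (Φ.coeff q) * y ^ q) = v x ^ q * v y ^ q := by
    intro hx
    rw [v.map_mul, v.map_pow, val_evZ_eq v _ hx (hΦ.coeff_natDegree_le q hq le_rfl)]
    rw [hΦ.coeff_coeff]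
    simp
  have vmid : 1 ≤ v x → ∀ n, 1 ≤ n → n ≤ q →
      v (evZ x (Φ.coeff n) * y ^ n) ≤ v x ^ q * v y ^ n := by
    intro hx n h1 h2
    rw [v.map_mul, v.map_pow]
    exact mul_le_mul' (val_evZ_le v _ hx (hΦ.coeff_natDegree_le n h1 h2)) le_rfl
  have hmemtop : q + 1 ∈ Finset.range (q + 2) := Finset.mem_range.mpr (by omega)
  have hmem0 : 0 ∈ Finset.range (q + 2) := Finset.mem_range.mpr (by omega)
  have hmemq : q ∈ Finset.range (q + 2) := Finset.mem_range.mpr (by omega)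
  -- a strictly dominant term is impossible
  have dom : ∀ n₀ ∈ Finset.range (q + 2), v (evZ x (Φ.coeff n₀) * y ^ n₀) ≠ 0 →
      (∀ n ∈ Finset.range (q + 2) \ {n₀},
        v (evZ x (Φ.coeff n) * y ^ n) < v (evZ x (Φ.coeff n₀) * y ^ n₀)) → False := by
    intro n₀ hn₀ hne hlt
    have := v.map_sum_eq_of_lt (f := fun n => evZ x (Φ.coeff n) * y ^ n) hn₀ hlt
    rw [hv0] at this
    exact hne this.symm
  have cases3 : ∀ n ∈ Finset.range (q + 2), n = 0 ∨ (1 ≤ n ∧ n ≤ q) ∨ n = q + 1 := by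
    intro n hn
    have := Finset.mem_range.mp hn
    omega
  -- (K1), first direction
  have K1a : v x ≤ 1 → v y ≤ 1 := by
    intro hx
    by_contra hy
    rw [not_le] at hy
    have hy0 : (0 : Γ₀) < v y := zero_lt_one.trans hy
    refine dom (q + 1) hmemtop ?_ ?_
    · rw [vtop]; exact (pow_pos hy0 _).ne'
    · intro n hn
      rw [vtop, v.map_mul, v.map_pow]
      have hn' : n < q + 1 := by
        rcases Finset.mem_sdiff.mp hn with ⟨h1, h2⟩
        have h3 := Finset.mem_range.mp h1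
        have h4 : n ≠ q + 1 := by simpa using h2
        omega
      calc v (evZ x (Φ.coeff n)) * v y ^ n ≤ 1 * v y ^ n :=
            mul_le_mul' (val_evZ_le_one v _ hx) le_rfl
        _ = v y ^ n := one_mul _
        _ < v y ^ (q + 1) := pow_lt_pow_right₀ hy hn'
  -- (K1), second direction
  have K1b : v y ≤ 1 → v x ≤ 1 := by
    intro hy
    by_contra hx
    rw [not_le] at hx
    have hx0 : (0 : Γ₀) < v x := zero_lt_one.trans hx
    refine dom 0 hmem0 ?_ ?_
    · rw [vzero hx]; exact (pow_pos hx0 _).ne'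
    · intro n hn
      rw [vzero hx]
      rcases Finset.mem_sdiff.mp hn with ⟨h1, h2⟩
      have h4 : n ≠ 0 := by simpa using h2
      rcases cases3 n h1 with h | ⟨h5, h6⟩ | h
      · exact absurd h h4
      · calc v (evZ x (Φ.coeff n) * y ^ n) ≤ v x ^ q * v y ^ n := vmid hx.le n h5 h6
          _ ≤ v x ^ q * 1 := mul_le_mul' le_rfl (pow_le_one' hy n)
          _ = v x ^ q := mul_one _
          _ < v x ^ (q + 1) := pow_lt_pow_right₀ hx (Nat.lt_succ_self q)
      · rw [h, vtop]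
        calc v y ^ (q + 1) ≤ 1 := pow_le_one' hy _
          _ < v x ^ (q + 1) := one_lt_pow₀ hx (by omega)
  refine ⟨⟨K1a, K1b⟩, fun hx => ?_⟩
  have hy : 1 < v y := by
    by_contra hy
    exact absurd (K1b (not_lt.mp hy)) (not_le.mpr hx)
  have hx0 : (0 : Γ₀) < v x := zero_lt_one.trans hx
  have hy0 : (0 : Γ₀) < v y := zero_lt_one.trans hy
  have hxq0 : (0 : Γ₀) < v x ^ q := pow_pos hx0 q
  have hyq0 : (0 : Γ₀) < v y ^ q := pow_pos hy0 q
  have hq0 : q ≠ 0 := by omega
  by_contra hne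
  rw [not_or] at hne
  obtain ⟨hne1, hne2⟩ := hne
  rcases lt_trichotomy (v x) (v y ^ q) with hA | hA | hA
  · rcases lt_trichotomy (v y) (v x ^ q) with hB | hB | hB
    · -- the middle term `X^q Y^q` dominates
      refine dom q hmemq ?_ ?_
      · rw [vq hx]; exact (mul_pos hxq0 hyq0).ne'
      · intro n hn
        rw [vq hx]
        rcases Finset.mem_sdiff.mp hn with ⟨h1, h2⟩
        have h4 : n ≠ q := by simpa using h2
        rcases cases3 n h1 with h | ⟨h5, h6⟩ | h
        · rw [h, vzero hx, pow_succ]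
          exact mul_lt_mul_of_pos_left hA hxq0
        · have h7 : n < q := lt_of_le_of_ne h6 h4
          calc v (evZ x (Φ.coeff n) * y ^ n) ≤ v x ^ q * v y ^ n := vmid hx.le n h5 h6
            _ < v x ^ q * v y ^ q := mul_lt_mul_of_pos_left (pow_lt_pow_right₀ hy h7) hxq0
        · rw [h, vtop, pow_succ, mul_comm (v y ^ q) (v y)]
          exact mul_lt_mul_of_pos_right hB hyq0
    · exact hne1 hB
    · -- the top term `Y^(q+1)` dominates
      have hxy : v x < v y := lt_of_le_of_lt (le_self_pow₀ hx.le hq0) hB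
      refine dom (q + 1) hmemtop ?_ ?_
      · rw [vtop]; exact (pow_pos hy0 _).ne'
      · intro n hn
        rw [vtop]
        rcases Finset.mem_sdiff.mp hn with ⟨h1, h2⟩
        have h4 : n ≠ q + 1 := by simpa using h2
        rcases cases3 n h1 with h | ⟨h5, h6⟩ | h
        · rw [h, vzero hx]
          exact pow_lt_pow_left₀ hxy hx0.le (by omega)
        · calc v (evZ x (Φ.coeff n) * y ^ n) ≤ v x ^ q * v y ^ n := vmid hx.le n h5 h6
            _ < v y * v y ^ n := mul_lt_mul_of_pos_right hB (pow_pos hy0 n)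
            _ = v y ^ (n + 1) := (pow_succ' (v y) n).symm
            _ ≤ v y ^ (q + 1) := pow_le_pow_right' hy.le (by omega)
        · exact absurd h h4
  · exact hne2 hA
  · -- the term `X^(q+1)` dominates
    have hyx : v y < v x := lt_of_le_of_lt (le_self_pow₀ hy.le hq0) hA
    refine dom 0 hmem0 ?_ ?_
    · rw [vzero hx]; exact (pow_pos hx0 _).ne'
    · intro n hn
      rw [vzero hx]
      rcases Finset.mem_sdiff.mp hn with ⟨h1, h2⟩
      have h4 : n ≠ 0 := by simpa using h2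
      rcases cases3 n h1 with h | ⟨h5, h6⟩ | h
      · exact absurd h h4
      · calc v (evZ x (Φ.coeff n) * y ^ n) ≤ v x ^ q * v y ^ n := vmid hx.le n h5 h6
          _ ≤ v x ^ q * v y ^ q := mul_le_mul' le_rfl (pow_le_pow_right' hy.le h6)
          _ < v x ^ q * v x := mul_lt_mul_of_pos_left hA hxq0
          _ = v x ^ (q + 1) := (pow_succ (v x) q).symm
      · rw [h, vtop]
        exact pow_lt_pow_left₀ hyx hy0.le (by omega)

end Kron

/-! ## 3. Pole vectors on a Hauptmodul line and their transfer along Kronecker pairs -/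

section Transfer

variable {F : Type*} [Field F] {Γ₀ : Type*} [LinearOrderedCommGroupWithZero Γ₀]
  (v : Valuation F Γ₀)

/-- The "pole vector" `(v j₁, v j₂, v j₃)` of the three `j`-functions `j(z), j(ℓz), j(ℓ²z)` on a
Hauptmodul line of level `ℓ²` in terms of the Hauptmodul `t`:
`(s, s^ℓ, s^(ℓ²))` at a pole of `t`, `(s^(ℓ²), s^ℓ, s)` at a zero of `t`, and `(s, s^ℓ, s)` or
integral when `t` is a unit. -/
structure HauptVal (ℓ : ℕ) (t j₁ j₂ j₃ : F) : Prop where
  inf : 1 < v t → v j₁ = v t ∧ v j₂ = v t ^ ℓ ∧ v j₃ = v t ^ (ℓ ^ 2)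
  zero : v t < 1 → ∃ τ : Γ₀, 1 < τ ∧ v j₁ = τ ^ (ℓ ^ 2) ∧ v j₂ = τ ^ ℓ ∧ v j₃ = τ
  mid : v t = 1 → (v j₁ ≤ 1 ∧ v j₂ ≤ 1 ∧ v j₃ ≤ 1) ∨
    ∃ τ : Γ₀, 1 < τ ∧ v j₁ = τ ∧ v j₂ = τ ^ ℓ ∧ v j₃ = τ

variable {v}

/-- **Transfer.** If `t`, `t'` are Hauptmoduln with pole vectors as above and the three pairs
`(j₁, j₁')`, `(j₂, j₂')`, `(j₃, j₃')` are Kronecker pairs of level `q ≠ ℓ`, then `t'` is integral
at `v` when `t` is, and `1/t'` is integral at `v` when `1/t` is. -/
theorem haupt_transfer {ℓ q : ℕ} (hℓ : 2 ≤ ℓ) (hq : 1 ≤ q) (hqℓ : q ≠ ℓ)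
    {t j₁ j₂ j₃ t' j₁' j₂' j₃' : F}
    (H : HauptVal v ℓ t j₁ j₂ j₃) (H' : HauptVal v ℓ t' j₁' j₂' j₃')
    (K₁ : KronPair v q j₁ j₁') (K₂ : KronPair v q j₂ j₂') (K₃ : KronPair v q j₃ j₃') :
    (v t ≤ 1 → v t' ≤ 1) ∧ (1 ≤ v t → 1 ≤ v t') := by
  have hq0 : q ≠ 0 := by omega
  have hℓ0 : ℓ ≠ 0 := by omega
  have hℓ1 : 1 < ℓ := by omega
  have hℓℓ : ℓ < ℓ * ℓ ^ 2 := by
    calc ℓ = ℓ * 1 := (mul_one ℓ).symm
      _ < ℓ * ℓ ^ 2 := Nat.mul_lt_mul_of_pos_left (Nat.one_lt_pow (by norm_num) hℓ1) (by omega)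
  have hqq : 1 ≤ q ^ 2 := Nat.one_le_pow _ _ (by omega)
  have hqℓ2 : q ^ 2 ≠ ℓ ^ 2 := fun h => hqℓ (Nat.pow_left_injective (by norm_num) h)
  constructor
  · intro ht
    by_contra ht'
    rw [not_le] at ht'
    obtain ⟨e1, e2, e3⟩ := H'.inf ht'
    set σ := v t' with hσ
    have hj1 : 1 < v j₁ := by
      by_contra hcon
      have := K₁.1.mp (not_lt.mp hcon)
      rw [e1] at this
      exact absurd this (not_le.mpr ht')
    rcases ht.lt_or_eq with ht0 | ht1
    · obtain ⟨τ, hτ, f1, f2, f3⟩ := H.zero ht0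
      have hj2 : 1 < v j₂ := by rw [f2]; exact one_lt_pow₀ hτ hℓ0
      have k1 := K₁.2 hj1
      have k2 := K₂.2 hj2
      rw [e1, f1] at k1
      rw [e2, f2] at k2
      refine kron_clash hτ ht' (a := ℓ ^ 2) (a' := 1) (b := ℓ) (b' := ℓ) hq0 ?_ ?_ ?_ ?_ ?_
      · rcases k1 with k | k
        · right; rw [pow_one, k, ← pow_mul]
        · left; rw [k, one_mul]
      · rcases k2 with k | k
        · right; rw [k, ← pow_mul]
        · left; rw [k, ← pow_mul]
      · rw [one_mul]; exact hℓℓ.ne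
      · rw [one_mul]
        intro h
        exact hqℓ2 (Nat.eq_of_mul_eq_mul_left (by omega) h)
      · intro h
        have : ℓ * ℓ ^ 2 * 1 ≤ ℓ * ℓ ^ 2 * q ^ 2 := Nat.mul_le_mul_left _ hqq
        rw [h, mul_one, one_mul] at this
        exact absurd this (not_le.mpr hℓℓ)
    · rcases H.mid ht1 with ⟨g1, -, -⟩ | ⟨τ, hτ, f1, f2, f3⟩
      · exact absurd g1 (not_le.mpr hj1)
      · have hj3 : 1 < v j₃ := by rw [f3]; exact hτ
        have k1 := K₁.2 hj1
        have k3 := K₃.2 hj3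
        rw [e1, f1] at k1
        rw [e3, f3] at k3
        refine kron_clash hτ ht' (a := 1) (a' := 1) (b := 1) (b' := ℓ ^ 2) hq0 ?_ ?_ ?_ ?_ ?_
        · rcases k1 with k | k
          · right; rw [pow_one, one_mul, k]
          · left; rw [pow_one, one_mul, k]
        · rcases k3 with k | k
          · right; rw [one_mul, k]
          · left; rw [pow_one, k, ← pow_mul]
        · rw [mul_one, mul_one]
          exact (Nat.one_lt_pow (by norm_num) hℓ1).ne
        · rw [mul_one, mul_one, one_mul]; exact hqℓ2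
        · rw [mul_one, mul_one]
          intro h
          have h1 : 1 < ℓ ^ 2 := Nat.one_lt_pow (by norm_num) hℓ1
          have h2 : ℓ ^ 2 * 1 ≤ ℓ ^ 2 * q ^ 2 := Nat.mul_le_mul_left _ hqq
          omega
  · intro ht
    by_contra ht'
    rw [not_le] at ht'
    obtain ⟨σ, hσ, e1, e2, e3⟩ := H'.zero ht'
    have hj1 : 1 < v j₁ := by
      by_contra hcon
      have := K₁.1.mp (not_lt.mp hcon)
      rw [e1] at this
      exact absurd this (not_le.mpr (one_lt_pow₀ hσ (pow_ne_zero 2 hℓ0)))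
    -- in both remaining cases the pole vector of `t` starts with `(τ, τ^ℓ, _)`
    have key : ∀ τ : Γ₀, 1 < τ → v j₁ = τ → v j₂ = τ ^ ℓ → False := by
      intro τ hτ f1 f2
      have hj2 : 1 < v j₂ := by rw [f2]; exact one_lt_pow₀ hτ hℓ0
      have k1 := K₁.2 hj1
      have k2 := K₂.2 hj2
      rw [e1, f1] at k1
      rw [e2, f2] at k2
      refine kron_clash hτ hσ (a := 1) (a' := ℓ ^ 2) (b := ℓ) (b' := ℓ) hq0 ?_ ?_ ?_ ?_ ?_
      · rcases k1 with k | k
        · right; rw [one_mul, k]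
        · left; rw [pow_one, k, ← pow_mul]
      · rcases k2 with k | k
        · right; rw [k, ← pow_mul]
        · left; rw [k, ← pow_mul]
      · rw [mul_one, mul_comm]; exact hℓℓ.ne'
      · rw [mul_one, mul_comm (ℓ ^ 2) ℓ]
        intro h
        have : ℓ * ℓ ^ 2 * 1 ≤ ℓ * ℓ ^ 2 * q ^ 2 := Nat.mul_le_mul_left _ hqq
        rw [h, mul_one] at this
        exact absurd this (not_le.mpr hℓℓ)
      · rw [mul_one, mul_comm (ℓ ^ 2) ℓ]
        intro h
        exact hqℓ2 (Nat.eq_of_mul_eq_mul_left (by omega) h)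
    rcases ht.lt_or_eq with ht0 | ht1
    · obtain ⟨f1, f2, -⟩ := H.inf ht0
      exact key (v t) ht0 f1 f2
    · rcases H.mid ht1.symm with ⟨g1, -, -⟩ | ⟨τ, hτ, f1, f2, -⟩
      · exact absurd g1 (not_le.mpr hj1)
      · exact key τ hτ f1 f2

end Transfer

/-! ## 4. The two Hauptmodul lines -/

section Lines

variable {F : Type*} [Field F] {Γ₀ : Type*} [LinearOrderedCommGroupWithZero Γ₀]
  (v : Valuation F Γ₀)

theorem val_lin_of_one_lt {t c : F} (ht : 1 < v t) (hc : v c ≤ 1) : v (t + c) = v t :=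
  v.map_add_eq_of_lt_left (lt_of_le_of_lt hc ht)

theorem val_lin_of_lt_one {t c : F} (ht : v t < 1) (hc : v c = 1) : v (t + c) = 1 := by
  rw [v.map_add_eq_of_lt_right (by rw [hc]; exact ht), hc]

theorem val_quad_of_one_lt {t b c : F} (ht : 1 < v t) (hb : v b ≤ 1) (hc : v c ≤ 1) :
    v (t ^ 2 + b * t + c) = v t ^ 2 := by
  have h1 : v t < v t ^ 2 := by
    calc v t = v t ^ 1 := (pow_one _).symm
      _ < v t ^ 2 := pow_lt_pow_right₀ ht (by norm_num)
  rw [add_assoc, v.map_add_eq_of_lt_left, v.map_pow]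
  rw [v.map_pow]
  apply v.map_add_lt
  · rw [v.map_mul]
    calc v b * v t ≤ 1 * v t := mul_le_mul' hb le_rfl
      _ = v t := one_mul _
      _ < v t ^ 2 := h1
  · exact lt_of_le_of_lt hc (one_lt_pow₀ ht (by norm_num))

theorem val_quad_of_lt_one {t b c : F} (ht : v t < 1) (hb : v b ≤ 1) (hc : v c = 1) :
    v (t ^ 2 + b * t + c) = 1 := by
  rw [v.map_add_eq_of_lt_right, hc]
  rw [hc]
  apply v.map_add_lt
  · rw [v.map_pow]
    calc v t ^ 2 ≤ v t ^ 1 := pow_le_pow_right_of_le_one' ht.le (by norm_num)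
      _ = v t := pow_one _
      _ < 1 := ht
  · rw [v.map_mul]
    calc v b * v t ≤ 1 * v t := mul_le_mul' hb le_rfl
      _ = v t := one_mul _
      _ < 1 := ht

theorem val_cubic_of_one_lt {t a b c : F} (ht : 1 < v t) (ha : v a ≤ 1) (hb : v b ≤ 1)
    (hc : v c ≤ 1) : v (t ^ 3 + a * t ^ 2 + b * t + c) = v t ^ 3 := by
  have h1 : v t < v t ^ 3 := by
    calc v t = v t ^ 1 := (pow_one _).symm
      _ < v t ^ 3 := pow_lt_pow_right₀ ht (by norm_num)
  have h2 : v t ^ 2 < v t ^ 3 := pow_lt_pow_right₀ ht (by norm_num)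
  rw [add_assoc, add_assoc, v.map_add_eq_of_lt_left, v.map_pow]
  rw [v.map_pow]
  apply v.map_add_lt
  · rw [v.map_mul, v.map_pow]
    calc v a * v t ^ 2 ≤ 1 * v t ^ 2 := mul_le_mul' ha le_rfl
      _ = v t ^ 2 := one_mul _
      _ < v t ^ 3 := h2
  · apply v.map_add_lt
    · rw [v.map_mul]
      calc v b * v t ≤ 1 * v t := mul_le_mul' hb le_rfl
        _ = v t := one_mul _
        _ < v t ^ 3 := h1
    · exact lt_of_le_of_lt hc (one_lt_pow₀ ht (by norm_num))

theorem val_cubic_of_lt_one {t a b c : F} (ht : v t < 1) (ha : v a ≤ 1) (hb : v b ≤ 1)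
    (hc : v c = 1) : v (t ^ 3 + a * t ^ 2 + b * t + c) = 1 := by
  have hpow : ∀ n : ℕ, n ≠ 0 → v t ^ n < 1 := by
    intro n hn
    calc v t ^ n ≤ v t ^ 1 := pow_le_pow_right_of_le_one' ht.le (Nat.one_le_iff_ne_zero.mpr hn)
      _ = v t := pow_one _
      _ < 1 := ht
  rw [v.map_add_eq_of_lt_right, hc]
  rw [hc]
  apply v.map_add_lt
  · apply v.map_add_lt
    · rw [v.map_pow]; exact hpow 3 (by norm_num)
    · rw [v.map_mul, v.map_pow]
      calc v a * v t ^ 2 ≤ 1 * v t ^ 2 := mul_le_mul' ha le_rfl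
        _ = v t ^ 2 := one_mul _
        _ < 1 := hpow 2 (by norm_num)
  · rw [v.map_mul]
    calc v b * v t ≤ 1 * v t := mul_le_mul' hb le_rfl
      _ = v t := one_mul _
      _ < 1 := ht

theorem eq_pow_of_mul_pow_eq {x s : Γ₀} (hs : s ≠ 0) {a : ℕ} (b : ℕ)
    (h : x * s ^ a = s ^ (b + a)) : x = s ^ b := by
  rw [pow_add] at h; exact mul_right_cancel₀ (pow_ne_zero a hs) h

theorem eq_inv_pow_of_mul_pow_eq_one {x s : Γ₀} {a : ℕ} (h : x * s ^ a = 1) : x = s⁻¹ ^ a := by
  rw [inv_pow]; exact eq_inv_of_mul_eq_one_left h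

theorem one_lt_inv_of_lt_one {s : Γ₀} (hs0 : s ≠ 0) (hs : s < 1) : 1 < s⁻¹ :=
  (one_lt_inv₀ (zero_lt_iff.mpr hs0)).mpr hs

/-- **Level 4.**  The pole vector of `(j(z), j(2z), j(4z))` on the `t4`-line, from the three landed
identities; `2` must be a unit at `v`. -/
theorem hauptVal_four (h2 : v (2 : F) = 1) {t j j2 j4 : F}
    (hj : j * t ^ 4 * (t + 16) = (t ^ 2 + 256 * t + 4096) ^ 3)
    (hj2 : j2 * t ^ 2 * (t + 16) ^ 2 = (t ^ 2 + 16 * t + 256) ^ 3)
    (hj4 : j4 * t * (t + 16) = (t ^ 2 + 16 * t + 16) ^ 3) : HauptVal v 2 t j j2 j4 := by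
  have u16 : v (16 : F) = 1 := by
    rw [show (16 : F) = 2 ^ 4 by norm_num, v.map_pow, h2, one_pow]
  have u256 : v (256 : F) = 1 := by
    rw [show (256 : F) = 2 ^ 8 by norm_num, v.map_pow, h2, one_pow]
  have u4096 : v (4096 : F) = 1 := by
    rw [show (4096 : F) = 2 ^ 12 by norm_num, v.map_pow, h2, one_pow]
  have l224 : v (224 : F) ≤ 1 := by simpa using val_natCast_le_one v 224
  have Vj := congrArg v hj
  have Vj2 := congrArg v hj2
  have Vj4 := congrArg v hj4
  simp only [v.map_mul, v.map_pow] at Vj Vj2 Vj4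
  refine ⟨fun ht => ?_, fun ht => ?_, fun ht => ?_⟩
  · -- a pole of `t`
    have hs0 : v t ≠ 0 := (zero_lt_one.trans ht).ne'
    have a1 : v (t + 16) = v t := val_lin_of_one_lt v ht u16.le
    have a2 : v (t ^ 2 + 256 * t + 4096) = v t ^ 2 := val_quad_of_one_lt v ht u256.le u4096.le
    have a3 : v (t ^ 2 + 16 * t + 256) = v t ^ 2 := val_quad_of_one_lt v ht u16.le u256.le
    have a4 : v (t ^ 2 + 16 * t + 16) = v t ^ 2 := val_quad_of_one_lt v ht u16.le u16.le
    rw [a1, a2] at Vj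
    rw [a1, a3] at Vj2
    rw [a1, a4] at Vj4
    refine ⟨?_, ?_, ?_⟩
    · have h5 : v t ^ 5 = v t ^ 4 * v t := pow_succ (v t) 4
      have h6 : (v t ^ 2) ^ 3 = v t ^ (1 + 5) := (pow_mul (v t) 2 3).symm
      have := eq_pow_of_mul_pow_eq hs0 1 (x := v j) (a := 5) (by rw [h5, ← mul_assoc, Vj, h6])
      rwa [pow_one] at this
    · have h4 : v t ^ 4 = v t ^ 2 * v t ^ 2 := pow_add (v t) 2 2
      have h6 : (v t ^ 2) ^ 3 = v t ^ (2 + 4) := (pow_mul (v t) 2 3).symm
      exact eq_pow_of_mul_pow_eq hs0 2 (x := v j2) (a := 4) (by rw [h4, ← mul_assoc, Vj2, h6])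
    · have h2' : v t ^ 2 = v t * v t := pow_two (v t)
      have h6 : (v t ^ 2) ^ 3 = v t ^ (2 ^ 2 + 2) := (pow_mul (v t) 2 3).symm
      exact eq_pow_of_mul_pow_eq hs0 (2 ^ 2) (x := v j4) (a := 2)
        (by rw [h2', ← mul_assoc, Vj4, h6])
  · -- a zero of `t`
    have a1 : v (t + 16) = 1 := val_lin_of_lt_one v ht u16
    have a2 : v (t ^ 2 + 256 * t + 4096) = 1 := val_quad_of_lt_one v ht u256.le u4096
    have a3 : v (t ^ 2 + 16 * t + 256) = 1 := val_quad_of_lt_one v ht u16.le u256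
    have a4 : v (t ^ 2 + 16 * t + 16) = 1 := val_quad_of_lt_one v ht u16.le u16
    rw [a1, a2, one_pow, mul_one] at Vj
    rw [a1, a3, one_pow, one_pow, mul_one] at Vj2
    rw [a1, a4, one_pow, mul_one] at Vj4
    have hs0 : v t ≠ 0 := by
      intro h0
      rw [h0, mul_zero] at Vj4
      exact zero_ne_one Vj4
    refine ⟨(v t)⁻¹, one_lt_inv_of_lt_one hs0 ht, ?_, ?_, ?_⟩
    · exact eq_inv_pow_of_mul_pow_eq_one Vj
    · exact eq_inv_pow_of_mul_pow_eq_one Vj2
    · have := eq_inv_pow_of_mul_pow_eq_one (x := v j4) (s := v t) (a := 1) (by rwa [pow_one])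
      rwa [pow_one] at this
  · -- `t` a unit
    have hd : v (t + 16) ≤ 1 := v.map_add_le ht.le u16.le
    have b2 : v (t ^ 2 + 256 * t + 4096) ≤ 1 :=
      v.map_add_le (v.map_add_le (by rw [v.map_pow, ht, one_pow])
        (by rw [v.map_mul, ht, u256, one_mul])) u4096.le
    have b3 : v (t ^ 2 + 16 * t + 256) ≤ 1 :=
      v.map_add_le (v.map_add_le (by rw [v.map_pow, ht, one_pow])
        (by rw [v.map_mul, ht, u16, one_mul])) u256.le
    have b4 : v (t ^ 2 + 16 * t + 16) ≤ 1 :=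
      v.map_add_le (v.map_add_le (by rw [v.map_pow, ht, one_pow])
        (by rw [v.map_mul, ht, u16, one_mul])) u16.le
    rw [ht, one_pow, mul_one] at Vj Vj2
    rw [ht, mul_one] at Vj4
    rcases hd.lt_or_eq with hd1 | hd1
    · right
      have c2 : v (t ^ 2 + 256 * t + 4096) = 1 := by
        have e : t ^ 2 + 256 * t + 4096 = (t + 16) ^ 2 + 224 * (t + 16) + 256 := by ring
        rw [e]; exact val_quad_of_lt_one v hd1 l224 u256
      have c3 : v (t ^ 2 + 16 * t + 256) = 1 := by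
        have e : t ^ 2 + 16 * t + 256 = (t + 16) ^ 2 + (-16) * (t + 16) + 256 := by ring
        rw [e]; exact val_quad_of_lt_one v hd1 (by rw [v.map_neg, u16]) u256
      have c4 : v (t ^ 2 + 16 * t + 16) = 1 := by
        have e : t ^ 2 + 16 * t + 16 = (t + 16) ^ 2 + (-16) * (t + 16) + 16 := by ring
        rw [e]; exact val_quad_of_lt_one v hd1 (by rw [v.map_neg, u16]) u16
      rw [c2, one_pow] at Vj
      rw [c3, one_pow] at Vj2
      rw [c4, one_pow] at Vj4
      have hd0 : v (t + 16) ≠ 0 := by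
        intro h0
        rw [h0, mul_zero] at Vj
        exact zero_ne_one Vj
      refine ⟨(v (t + 16))⁻¹, one_lt_inv_of_lt_one hd0 hd1, ?_, ?_, ?_⟩
      · have := eq_inv_pow_of_mul_pow_eq_one (x := v j) (s := v (t + 16)) (a := 1)
          (by rwa [pow_one])
        rwa [pow_one] at this
      · exact eq_inv_pow_of_mul_pow_eq_one Vj2
      · have := eq_inv_pow_of_mul_pow_eq_one (x := v j4) (s := v (t + 16)) (a := 1)
          (by rwa [pow_one])
        rwa [pow_one] at this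
    · left
      rw [hd1, mul_one] at Vj Vj4
      rw [hd1, one_pow, mul_one] at Vj2
      exact ⟨Vj ▸ pow_le_one' b2 3, Vj2 ▸ pow_le_one' b3 3, Vj4 ▸ pow_le_one' b4 3⟩

theorem eq_one_of_mul_eq_one_of_le {a b : Γ₀} (ha : a ≤ 1) (hb : b ≤ 1) (h : a * b = 1) :
    a = 1 := by
  apply le_antisymm ha
  calc (1 : Γ₀) = a * b := h.symm
    _ ≤ a * 1 := mul_le_mul' le_rfl hb
    _ = a := mul_one a

theorem eq_one_of_sq_eq_one {a : Γ₀} (h : a ^ 2 = 1) : a = 1 := by
  rcases lt_trichotomy a 1 with h1 | h1 | h1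
  · exfalso
    have : a ^ 2 ≤ a ^ 1 := pow_le_pow_right_of_le_one' h1.le (by norm_num)
    rw [h, pow_one] at this
    exact absurd this (not_le.mpr h1)
  · exact h1
  · exfalso
    have : 1 < a ^ 2 := one_lt_pow₀ h1 (by norm_num)
    rw [h] at this
    exact lt_irrefl _ this

/-- **Level 9.**  The pole vector of `(j(z), j(3z), j(9z))` on the `t9`-line, from the three landed
identities; `3` must be a unit at `v`. -/
theorem hauptVal_nine (h3 : v (3 : F) = 1) {t j j3 j9 : F}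
    (hj : j * t ^ 9 * (t ^ 2 + 9 * t + 27)
      = (t + 9) ^ 3 * (t ^ 3 + 243 * t ^ 2 + 2187 * t + 6561) ^ 3)
    (hj3 : j3 * t ^ 3 * (t ^ 2 + 9 * t + 27) ^ 3 = (t + 9) ^ 3 * (t + 3) ^ 3 * (t ^ 2 + 27) ^ 3)
    (hj9 : j9 * t * (t ^ 2 + 9 * t + 27) = (t + 3) ^ 3 * (t ^ 3 + 9 * t ^ 2 + 27 * t + 3) ^ 3) :
    HauptVal v 3 t j j3 j9 := by
  have u9 : v (9 : F) = 1 := by
    rw [show (9 : F) = 3 ^ 2 by norm_num, v.map_pow, h3, one_pow]
  have u27 : v (27 : F) = 1 := by
    rw [show (27 : F) = 3 ^ 3 by norm_num, v.map_pow, h3, one_pow]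
  have u243 : v (243 : F) = 1 := by
    rw [show (243 : F) = 3 ^ 5 by norm_num, v.map_pow, h3, one_pow]
  have u2187 : v (2187 : F) = 1 := by
    rw [show (2187 : F) = 3 ^ 7 by norm_num, v.map_pow, h3, one_pow]
  have u6561 : v (6561 : F) = 1 := by
    rw [show (6561 : F) = 3 ^ 8 by norm_num, v.map_pow, h3, one_pow]
  have l0 : v (0 : F) ≤ 1 := by rw [v.map_zero]; exact zero_le
  have l4 : v (4 : F) ≤ 1 := by simpa using val_natCast_le_one v 4
  have l6 : v (6 : F) ≤ 1 := by simpa using val_natCast_le_one v 6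
  have l234 : v (234 : F) ≤ 1 := by simpa using val_natCast_le_one v 234
  have e27 : t ^ 2 + 27 = t ^ 2 + 0 * t + 27 := by ring
  have Vj := congrArg v hj
  have Vj3 := congrArg v hj3
  have Vj9 := congrArg v hj9
  simp only [v.map_mul, v.map_pow] at Vj Vj3 Vj9
  refine ⟨fun ht => ?_, fun ht => ?_, fun ht => ?_⟩
  · -- a pole of `t`
    have hs0 : v t ≠ 0 := (zero_lt_one.trans ht).ne'
    have a1 : v (t ^ 2 + 9 * t + 27) = v t ^ 2 := val_quad_of_one_lt v ht u9.le u27.le
    have a2 : v (t + 9) = v t := val_lin_of_one_lt v ht u9.le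
    have a3 : v (t ^ 3 + 243 * t ^ 2 + 2187 * t + 6561) = v t ^ 3 :=
      val_cubic_of_one_lt v ht u243.le u2187.le u6561.le
    have a4 : v (t + 3) = v t := val_lin_of_one_lt v ht h3.le
    have a5 : v (t ^ 2 + 27) = v t ^ 2 := by
      rw [e27]; exact val_quad_of_one_lt v ht l0 u27.le
    have a6 : v (t ^ 3 + 9 * t ^ 2 + 27 * t + 3) = v t ^ 3 :=
      val_cubic_of_one_lt v ht u9.le u27.le h3.le
    rw [a1, a2, a3] at Vj
    rw [a1, a2, a4, a5] at Vj3
    rw [a1, a4, a6] at Vj9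
    refine ⟨?_, ?_, ?_⟩
    · have e : v j * v t ^ (9 + 2) = v t ^ (3 + 3 * 3) := by
        rw [pow_add (v t) 9 2, ← mul_assoc, Vj, ← pow_mul, ← pow_add]
      have := eq_pow_of_mul_pow_eq hs0 1 (x := v j) (a := 9 + 2) e
      rwa [pow_one] at this
    · have e : v j3 * v t ^ (3 + 2 * 3) = v t ^ (3 + 3 + 2 * 3) := by
        rw [pow_add (v t) 3 (2 * 3), ← mul_assoc, pow_mul (v t) 2 3, Vj3, ← pow_add,
          ← pow_mul, ← pow_add]
      exact eq_pow_of_mul_pow_eq hs0 3 (x := v j3) (a := 3 + 2 * 3) e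
    · have e : v j9 * v t ^ (1 + 2) = v t ^ (3 + 3 * 3) := by
        rw [pow_add (v t) 1 2, pow_one, ← mul_assoc, Vj9, ← pow_mul, ← pow_add]
      exact eq_pow_of_mul_pow_eq hs0 (3 ^ 2) (x := v j9) (a := 1 + 2) e
  · -- a zero of `t`
    have a1 : v (t ^ 2 + 9 * t + 27) = 1 := val_quad_of_lt_one v ht u9.le u27
    have a2 : v (t + 9) = 1 := val_lin_of_lt_one v ht u9
    have a3 : v (t ^ 3 + 243 * t ^ 2 + 2187 * t + 6561) = 1 :=
      val_cubic_of_lt_one v ht u243.le u2187.le u6561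
    have a4 : v (t + 3) = 1 := val_lin_of_lt_one v ht h3
    have a5 : v (t ^ 2 + 27) = 1 := by
      rw [e27]; exact val_quad_of_lt_one v ht l0 u27
    have a6 : v (t ^ 3 + 9 * t ^ 2 + 27 * t + 3) = 1 :=
      val_cubic_of_lt_one v ht u9.le u27.le h3
    simp only [a1, a2, a3, one_pow, mul_one] at Vj
    simp only [a1, a2, a4, a5, one_pow, mul_one] at Vj3
    simp only [a1, a4, a6, one_pow, mul_one] at Vj9
    have hs0 : v t ≠ 0 := by
      intro h0
      rw [h0, mul_zero] at Vj9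
      exact zero_ne_one Vj9
    refine ⟨(v t)⁻¹, one_lt_inv_of_lt_one hs0 ht, ?_, ?_, ?_⟩
    · exact eq_inv_pow_of_mul_pow_eq_one (a := 3 ^ 2) Vj
    · exact eq_inv_pow_of_mul_pow_eq_one Vj3
    · have := eq_inv_pow_of_mul_pow_eq_one (x := v j9) (s := v t) (a := 1) (by rwa [pow_one])
      rwa [pow_one] at this
  · -- `t` a unit
    have hD : v (t ^ 2 + 9 * t + 27) ≤ 1 :=
      v.map_add_le (v.map_add_le (by rw [v.map_pow, ht, one_pow])
        (by rw [v.map_mul, ht, u9, one_mul])) u27.le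
    have b2 : v (t + 9) ≤ 1 := v.map_add_le ht.le u9.le
    have b3 : v (t ^ 3 + 243 * t ^ 2 + 2187 * t + 6561) ≤ 1 :=
      v.map_add_le (v.map_add_le (v.map_add_le (by rw [v.map_pow, ht, one_pow])
        (by rw [v.map_mul, v.map_pow, ht, u243, one_pow, one_mul]))
        (by rw [v.map_mul, ht, u2187, one_mul])) u6561.le
    have b4 : v (t + 3) ≤ 1 := v.map_add_le ht.le h3.le
    have b5 : v (t ^ 2 + 27) ≤ 1 := v.map_add_le (by rw [v.map_pow, ht, one_pow]) u27.le
    have b6 : v (t ^ 3 + 9 * t ^ 2 + 27 * t + 3) ≤ 1 :=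
      v.map_add_le (v.map_add_le (v.map_add_le (by rw [v.map_pow, ht, one_pow])
        (by rw [v.map_mul, v.map_pow, ht, u9, one_pow, one_mul]))
        (by rw [v.map_mul, ht, u27, one_mul])) h3.le
    rw [ht, one_pow, mul_one] at Vj Vj3
    rw [ht, mul_one] at Vj9
    rcases hD.lt_or_eq with hD1 | hD1
    · right
      have c2 : v (t + 9) = 1 := by
        have e : (t + 9) * t = (t ^ 2 + 9 * t + 27) - 27 := by ring
        have h1 : v ((t + 9) * t) = 1 := by
          rw [e, v.map_sub_eq_of_lt_right (by rw [u27]; exact hD1), u27]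
        rwa [v.map_mul, ht, mul_one] at h1
      have c3 : v (t ^ 3 + 243 * t ^ 2 + 2187 * t + 6561) = 1 := by
        have e1 : (2 * t + 9) ^ 2 = 4 * (t ^ 2 + 9 * t + 27) - 27 := by ring
        have h1 : v (2 * t + 9) = 1 := by
          apply eq_one_of_sq_eq_one
          rw [← v.map_pow, e1, v.map_sub_eq_of_lt_right, u27]
          rw [u27, v.map_mul]
          calc v 4 * v (t ^ 2 + 9 * t + 27) ≤ 1 * v (t ^ 2 + 9 * t + 27) :=
                mul_le_mul' l4 le_rfl
            _ = v (t ^ 2 + 9 * t + 27) := one_mul _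
            _ < 1 := hD1
        have e2 : t ^ 3 + 243 * t ^ 2 + 2187 * t + 6561
            = (t + 234) * (t ^ 2 + 9 * t + 27) + 27 * (2 * t + 9) := by ring
        have h2 : v (27 * (2 * t + 9)) = 1 := by rw [v.map_mul, u27, h1, one_mul]
        rw [e2, v.map_add_eq_of_lt_right, h2]
        rw [h2, v.map_mul]
        calc v (t + 234) * v (t ^ 2 + 9 * t + 27) ≤ 1 * v (t ^ 2 + 9 * t + 27) :=
              mul_le_mul' (v.map_add_le ht.le l234) le_rfl
          _ = v (t ^ 2 + 9 * t + 27) := one_mul _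
          _ < 1 := hD1
      have c4 : v (t + 3) = 1 := by
        have e : (t + 3) * (t + 6) = (t ^ 2 + 9 * t + 27) - 9 := by ring
        have h1 : v ((t + 3) * (t + 6)) = 1 := by
          rw [e, v.map_sub_eq_of_lt_right (by rw [u9]; exact hD1), u9]
        rw [v.map_mul] at h1
        exact eq_one_of_mul_eq_one_of_le b4 (v.map_add_le ht.le l6) h1
      have c5 : v (t ^ 2 + 27) = 1 := by
        have e : t ^ 2 + 27 = (t ^ 2 + 9 * t + 27) - 9 * t := by ring
        have h9t : v (9 * t) = 1 := by rw [v.map_mul, u9, ht, one_mul]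
        rw [e, v.map_sub_eq_of_lt_right (by rw [h9t]; exact hD1), h9t]
      have c6 : v (t ^ 3 + 9 * t ^ 2 + 27 * t + 3) = 1 := by
        have e : t ^ 3 + 9 * t ^ 2 + 27 * t + 3 = t * (t ^ 2 + 9 * t + 27) + 3 := by ring
        rw [e, v.map_add_eq_of_lt_right, h3]
        rw [h3, v.map_mul, ht, one_mul]
        exact hD1
      simp only [c2, c3, one_pow, mul_one] at Vj
      simp only [c2, c4, c5, one_pow, mul_one] at Vj3
      simp only [c4, c6, one_pow, mul_one] at Vj9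
      have hD0 : v (t ^ 2 + 9 * t + 27) ≠ 0 := by
        intro h0
        rw [h0, mul_zero] at Vj
        exact zero_ne_one Vj
      refine ⟨(v (t ^ 2 + 9 * t + 27))⁻¹, one_lt_inv_of_lt_one hD0 hD1, ?_, ?_, ?_⟩
      · have := eq_inv_pow_of_mul_pow_eq_one (x := v j) (s := v (t ^ 2 + 9 * t + 27)) (a := 1)
          (by rwa [pow_one])
        rwa [pow_one] at this
      · exact eq_inv_pow_of_mul_pow_eq_one Vj3
      · have := eq_inv_pow_of_mul_pow_eq_one (x := v j9) (s := v (t ^ 2 + 9 * t + 27)) (a := 1)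
          (by rwa [pow_one])
        rwa [pow_one] at this
    · left
      rw [hD1, mul_one] at Vj Vj9
      rw [hD1, one_pow, mul_one] at Vj3
      refine ⟨?_, ?_, ?_⟩
      · rw [Vj]; exact mul_le_one' (pow_le_one' b2 3) (pow_le_one' b3 3)
      · rw [Vj3]
        exact mul_le_one' (mul_le_one' (pow_le_one' b2 3) (pow_le_one' b4 3)) (pow_le_one' b5 3)
      · rw [Vj9]; exact mul_le_one' (pow_le_one' b4 3) (pow_le_one' b6 3)

end Lines

/-! ## 5. Valuation subrings, integrality, chart rings -/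

section Integral

variable {F : Type*} [Field F]

/-- Valuative criterion for integrality over `A0[s]` inside a field. -/
theorem isIntegral_adjoin_iff_forall_valuationSubring (A0 : Type*) [CommRing A0] [Algebra A0 F]
    (s : Set F) (x : F) :
    IsIntegral (Algebra.adjoin A0 s) x ↔
      ∀ V : ValuationSubring F, (∀ a : A0, algebraMap A0 F a ∈ V) → (∀ y ∈ s, y ∈ V) → x ∈ V := by
  constructor
  · intro hx V hA hs
    have hSV : ∀ y ∈ Algebra.adjoin A0 s, y ∈ V := by
      intro y hy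
      induction hy using Algebra.adjoin_induction with
      | mem y hy => exact hs y hy
      | algebraMap a => exact hA a
      | add y z _ _ hy hz => exact V.add_mem _ _ hy hz
      | mul y z _ _ hy hz => exact V.mul_mem _ _ hy hz
    have : IsIntegrallyClosedIn V.toSubring F := inferInstanceAs (IsIntegrallyClosedIn V F)
    have hle : (integralClosure (Algebra.adjoin A0 s) F).toSubring ≤ V.toSubring :=
      Subring.integralClosure_le_iff.mpr fun r => hSV r r.2
    exact hle hx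
  · intro h
    by_contra hx
    have hx' : x ∉ (integralClosure (Algebra.adjoin A0 s) F).toSubring := hx
    obtain ⟨V, hV, hxV⟩ := Subring.exists_le_valuationSubring_of_isIntegrallyClosedIn hx'
    have hmem : ∀ y ∈ Algebra.adjoin A0 s, y ∈ V := fun y hy =>
      hV (isIntegral_algebraMap (R := Algebra.adjoin A0 s) (A := F) (x := ⟨y, hy⟩))
    exact hxV (h V (fun a => hmem _ (Subalgebra.algebraMap_mem _ a))
      (fun y hy => hmem y (Algebra.subset_adjoin hy)))

/-- `t` and `t'` have the same centres on every valuation ring in which `c` is invertible: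
`t ∈ V ↔ t' ∈ V` and `t⁻¹ ∈ V ↔ t'⁻¹ ∈ V`.  (For `t = t4(z)`, `t' = t4(qz)`, `c = 2`; for
`t = t9(z)`, `t' = t9(qz)`, `c = 3`.) -/
def HauptLinked (c t t' : F) : Prop :=
  ∀ V : ValuationSubring F, c⁻¹ ∈ V → (t ∈ V ↔ t' ∈ V) ∧ (t⁻¹ ∈ V ↔ t'⁻¹ ∈ V)

theorem hauptLinked_iff {c t t' : F} :
    HauptLinked c t t' ↔
      ∀ V : ValuationSubring F, c⁻¹ ∈ V → (t ∈ V ↔ t' ∈ V) ∧ (t⁻¹ ∈ V ↔ t'⁻¹ ∈ V) := by
  rw [HauptLinked]

theorem HauptLinked.symm {c t t' : F} (h : HauptLinked c t t') : HauptLinked c t' t :=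
  fun V hc => ⟨(h V hc).1.symm, (h V hc).2.symm⟩

theorem HauptLinked.trans {c t t' t'' : F} (h : HauptLinked c t t') (h' : HauptLinked c t' t'') :
    HauptLinked c t t'' :=
  fun V hc => ⟨(h V hc).1.trans (h' V hc).1, (h V hc).2.trans (h' V hc).2⟩

/-- Linked Hauptmoduln define the same chart rings: the integral closures of `A0[t]` and
`A0[t']` in `F` coincide (any base ring `A0` whose image contains `c⁻¹`), and likewise for the
charts `A0[t⁻¹]` and `A0[t, t⁻¹]`. -/
theorem HauptLinked.isIntegral_adjoin_iff {c t t' : F} (h : HauptLinked c t t')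
    (A0 : Type*) [CommRing A0] [Algebra A0 F] (hc : ∃ a : A0, algebraMap A0 F a = c⁻¹) (x : F) :
    (IsIntegral (Algebra.adjoin A0 ({t} : Set F)) x ↔
        IsIntegral (Algebra.adjoin A0 ({t'} : Set F)) x) ∧
    (IsIntegral (Algebra.adjoin A0 ({t⁻¹} : Set F)) x ↔
        IsIntegral (Algebra.adjoin A0 ({t'⁻¹} : Set F)) x) ∧
    (IsIntegral (Algebra.adjoin A0 ({t, t⁻¹} : Set F)) x ↔
        IsIntegral (Algebra.adjoin A0 ({t', t'⁻¹} : Set F)) x) := by
  obtain ⟨a, ha⟩ := hc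
  simp only [isIntegral_adjoin_iff_forall_valuationSubring]
  refine ⟨?_, ?_, ?_⟩
  · constructor
    · intro H V hA hs
      have hcV : c⁻¹ ∈ V := ha ▸ hA a
      exact H V hA fun y hy => by
        rw [Set.mem_singleton_iff] at hy
        rw [hy]; exact ((h V hcV).1).mpr (hs _ rfl)
    · intro H V hA hs
      have hcV : c⁻¹ ∈ V := ha ▸ hA a
      exact H V hA fun y hy => by
        rw [Set.mem_singleton_iff] at hy
        rw [hy]; exact ((h V hcV).1).mp (hs _ rfl)
  · constructor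
    · intro H V hA hs
      have hcV : c⁻¹ ∈ V := ha ▸ hA a
      exact H V hA fun y hy => by
        rw [Set.mem_singleton_iff] at hy
        rw [hy]; exact ((h V hcV).2).mpr (hs _ rfl)
    · intro H V hA hs
      have hcV : c⁻¹ ∈ V := ha ▸ hA a
      exact H V hA fun y hy => by
        rw [Set.mem_singleton_iff] at hy
        rw [hy]; exact ((h V hcV).2).mp (hs _ rfl)
  · constructor
    · intro H V hA hs
      have hcV : c⁻¹ ∈ V := ha ▸ hA a
      exact H V hA fun y hy => by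
        rcases hy with hy | hy
        · rw [hy]; exact ((h V hcV).1).mpr (hs _ (Or.inl rfl))
        · rw [Set.mem_singleton_iff] at hy
          rw [hy]; exact ((h V hcV).2).mpr (hs _ (Or.inr rfl))
    · intro H V hA hs
      have hcV : c⁻¹ ∈ V := ha ▸ hA a
      exact H V hA fun y hy => by
        rcases hy with hy | hy
        · rw [hy]; exact ((h V hcV).1).mp (hs _ (Or.inl rfl))
        · rw [Set.mem_singleton_iff] at hy
          rw [hy]; exact ((h V hcV).2).mp (hs _ (Or.inr rfl))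

/-- Linked Hauptmoduln are integral over each other's rings (subring form). -/
theorem HauptLinked.isIntegral {c t t' : F} (h : HauptLinked c t t') (R : Subring F)
    (hc : c⁻¹ ∈ R) :
    (t ∈ R → IsIntegral R t') ∧ (t⁻¹ ∈ R → IsIntegral R t'⁻¹) := by
  have key : ∀ x : F, (∀ V : ValuationSubring F, R ≤ V.toSubring → x ∈ V) → IsIntegral R x := by
    intro x hx
    by_contra hcon
    have hx' : x ∉ (integralClosure R F).toSubring := hcon
    obtain ⟨V, hV, hxV⟩ := Subring.exists_le_valuationSubring_of_isIntegrallyClosedIn hx'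
    exact hxV (hx V fun r hr =>
      hV (isIntegral_algebraMap (R := R) (A := F) (x := ⟨r, hr⟩)))
  exact ⟨fun ht => key _ fun V hV => ((h V (hV hc)).1).mp (hV ht),
    fun ht => key _ fun V hV => ((h V (hV hc)).2).mp (hV ht)⟩

end Integral

/-! ## 6. The two lines: `t(z)` and `t(qz)` are linked -/

section Linked

variable {F : Type*} [Field F]

theorem valuation_eq_one_of_inv_mem (V : ValuationSubring F) {n : ℕ} (hn : (n : F) ≠ 0)
    (hV : (n : F)⁻¹ ∈ V) : V.valuation (n : F) = 1 := by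
  apply eq_one_of_mul_eq_one_of_le (val_natCast_le_one V.valuation n)
    ((V.valuation_le_one_iff _).mpr hV)
  rw [← V.valuation.map_mul, mul_inv_cancel₀ hn, V.valuation.map_one]

theorem inv_mem_iff_one_le (V : ValuationSubring F) {x : F} (hx : x ≠ 0) :
    x⁻¹ ∈ V ↔ 1 ≤ V.valuation x := by
  rw [← V.valuation_le_one_iff, map_inv₀]
  exact inv_le_one₀ (zero_lt_iff.mpr ((V.valuation.ne_zero_iff).mpr hx))

/-- Abstract linking: pole vectors on both sides + three Kronecker pairs at every valuation. -/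
theorem hauptLinked_of_hauptVal {c : ℕ} (hc : (c : F) ≠ 0) {ℓ q : ℕ} (hℓ : 2 ≤ ℓ) (hq : 1 ≤ q)
    (hqℓ : q ≠ ℓ) {t t' j₁ j₂ j₃ j₁' j₂' j₃' : F} (ht : t ≠ 0) (ht' : t' ≠ 0)
    (H : ∀ V : ValuationSubring F, V.valuation (c : F) = 1 →
      HauptVal V.valuation ℓ t j₁ j₂ j₃ ∧ HauptVal V.valuation ℓ t' j₁' j₂' j₃')
    (K : ∀ V : ValuationSubring F, KronPair V.valuation q j₁ j₁' ∧
      KronPair V.valuation q j₂ j₂' ∧ KronPair V.valuation q j₃ j₃') :
    HauptLinked (c : F) t t' := by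
  intro V hcV
  have hvc := valuation_eq_one_of_inv_mem V hc hcV
  obtain ⟨H1, H2⟩ := H V hvc
  obtain ⟨K1, K2, K3⟩ := K V
  have T := haupt_transfer hℓ hq hqℓ H1 H2 K1 K2 K3
  have T' := haupt_transfer hℓ hq hqℓ H2 H1 K1.symm K2.symm K3.symm
  refine ⟨?_, ?_⟩
  · rw [← V.valuation_le_one_iff, ← V.valuation_le_one_iff]
    exact ⟨T.1, T'.1⟩
  · rw [inv_mem_iff_one_le V ht, inv_mem_iff_one_le V ht']
    exact ⟨T.2, T'.2⟩

/-- **Level 4, `q ≠ 2`.**  `t4(z)` and `t4(qz)` are linked: same centres on every valuation ring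
in which `2` is invertible.  Hypotheses: the three landed `j`-identities for `t` and for `t'`, and
the Kronecker relations `Φ(j, j') = Φ(j₂, j₂') = Φ(j₄, j₄') = 0` for a `Φ` of Kronecker shape. -/
theorem hauptLinked_four {q : ℕ} (hq : 1 ≤ q) (hq2 : q ≠ 2) {Φ : Polynomial ℤ[X]}
    (hΦ : KronShape q Φ) (h2 : (2 : F) ≠ 0) {t j j2 j4 t' j' j2' j4' : F}
    (hj : j * t ^ 4 * (t + 16) = (t ^ 2 + 256 * t + 4096) ^ 3)
    (hj2 : j2 * t ^ 2 * (t + 16) ^ 2 = (t ^ 2 + 16 * t + 256) ^ 3)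
    (hj4 : j4 * t * (t + 16) = (t ^ 2 + 16 * t + 16) ^ 3)
    (hj' : j' * t' ^ 4 * (t' + 16) = (t' ^ 2 + 256 * t' + 4096) ^ 3)
    (hj2' : j2' * t' ^ 2 * (t' + 16) ^ 2 = (t' ^ 2 + 16 * t' + 256) ^ 3)
    (hj4' : j4' * t' * (t' + 16) = (t' ^ 2 + 16 * t' + 16) ^ 3)
    (r1 : (Φ.map (evZ j)).eval j' = 0) (r2 : (Φ.map (evZ j2)).eval j2' = 0)
    (r4 : (Φ.map (evZ j4)).eval j4' = 0) : HauptLinked (2 : F) t t' := by
  have h16 : (16 : F) ≠ 0 := by
    rw [show (16 : F) = 2 ^ 4 by norm_num]; exact pow_ne_zero _ h2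
  have ne0 : ∀ {s j4 : F}, j4 * s * (s + 16) = (s ^ 2 + 16 * s + 16) ^ 3 → s ≠ 0 := by
    intro s j4 h hs
    rw [hs] at h
    have : (16 : F) ^ 3 = 0 := by
      have e : ((0 : F) ^ 2 + 16 * 0 + 16) ^ 3 = 16 ^ 3 := by ring
      rw [← e, ← h]; ring
    exact h16 (pow_eq_zero_iff (by norm_num) |>.mp this)
  have h2' : ((2 : ℕ) : F) ≠ 0 := by exact_mod_cast h2
  have := hauptLinked_of_hauptVal (F := F) (c := 2) h2' (ℓ := 2) le_rfl hq hq2 (ne0 hj4) (ne0 hj4')
    (fun V hV => by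
      have hV' : V.valuation (2 : F) = 1 := by exact_mod_cast hV
      exact ⟨hauptVal_four _ hV' hj hj2 hj4, hauptVal_four _ hV' hj' hj2' hj4'⟩)
    (fun V => ⟨kronPair_of_shape _ hq hΦ r1, kronPair_of_shape _ hq hΦ r2,
      kronPair_of_shape _ hq hΦ r4⟩)
  exact_mod_cast this

/-- **Level 9, `q ≠ 3`.**  `t9(z)` and `t9(qz)` are linked: same centres on every valuation ring
in which `3` is invertible. -/
theorem hauptLinked_nine {q : ℕ} (hq : 1 ≤ q) (hq3 : q ≠ 3) {Φ : Polynomial ℤ[X]}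
    (hΦ : KronShape q Φ) (h3 : (3 : F) ≠ 0) {t j j3 j9 t' j' j3' j9' : F}
    (hj : j * t ^ 9 * (t ^ 2 + 9 * t + 27)
      = (t + 9) ^ 3 * (t ^ 3 + 243 * t ^ 2 + 2187 * t + 6561) ^ 3)
    (hj3 : j3 * t ^ 3 * (t ^ 2 + 9 * t + 27) ^ 3 = (t + 9) ^ 3 * (t + 3) ^ 3 * (t ^ 2 + 27) ^ 3)
    (hj9 : j9 * t * (t ^ 2 + 9 * t + 27) = (t + 3) ^ 3 * (t ^ 3 + 9 * t ^ 2 + 27 * t + 3) ^ 3)
    (hj' : j' * t' ^ 9 * (t' ^ 2 + 9 * t' + 27)
      = (t' + 9) ^ 3 * (t' ^ 3 + 243 * t' ^ 2 + 2187 * t' + 6561) ^ 3)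
    (hj3' : j3' * t' ^ 3 * (t' ^ 2 + 9 * t' + 27) ^ 3
      = (t' + 9) ^ 3 * (t' + 3) ^ 3 * (t' ^ 2 + 27) ^ 3)
    (hj9' : j9' * t' * (t' ^ 2 + 9 * t' + 27)
      = (t' + 3) ^ 3 * (t' ^ 3 + 9 * t' ^ 2 + 27 * t' + 3) ^ 3)
    (r1 : (Φ.map (evZ j)).eval j' = 0) (r3 : (Φ.map (evZ j3)).eval j3' = 0)
    (r9 : (Φ.map (evZ j9)).eval j9' = 0) : HauptLinked (3 : F) t t' := by
  have h729 : (729 : F) ≠ 0 := by
    rw [show (729 : F) = 3 ^ 6 by norm_num]; exact pow_ne_zero _ h3
  have ne0 : ∀ {s j9 : F}, j9 * s * (s ^ 2 + 9 * s + 27)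
      = (s + 3) ^ 3 * (s ^ 3 + 9 * s ^ 2 + 27 * s + 3) ^ 3 → s ≠ 0 := by
    intro s j9 h hs
    rw [hs] at h
    have : (729 : F) = 0 := by
      have e : ((0 : F) + 3) ^ 3 * (0 ^ 3 + 9 * 0 ^ 2 + 27 * 0 + 3) ^ 3 = 729 := by ring
      rw [← e, ← h]; ring
    exact h729 this
  have h3' : ((3 : ℕ) : F) ≠ 0 := by exact_mod_cast h3
  have := hauptLinked_of_hauptVal (F := F) (c := 3) h3' (ℓ := 3) (by norm_num) hq hq3
    (ne0 hj9) (ne0 hj9')
    (fun V hV => by
      have hV' : V.valuation (3 : F) = 1 := by exact_mod_cast hV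
      exact ⟨hauptVal_nine _ hV' hj hj3 hj9, hauptVal_nine _ hV' hj' hj3' hj9'⟩)
    (fun V => ⟨kronPair_of_shape _ hq hΦ r1, kronPair_of_shape _ hq hΦ r3,
      kronPair_of_shape _ hq hΦ r9⟩)
  exact_mod_cast this

end Linked

/-! ## 7. `map_chart` for the second degeneracy map -/

section MapChart

variable {F F' : Type*} [Field F] [Field F']

/-- Linked Hauptmoduln stay linked under a field homomorphism. -/
theorem HauptLinked.map {c t t' : F'} (h : HauptLinked c t t') (ψ : F' →+* F) :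
    HauptLinked (ψ c) (ψ t) (ψ t') := by
  intro V hc
  have hc' : c⁻¹ ∈ V.comap ψ := by
    rw [ValuationSubring.mem_comap, map_inv₀]; exact hc
  obtain ⟨h1, h2⟩ := h (V.comap ψ) hc'
  simp only [ValuationSubring.mem_comap, map_inv₀] at h1 h2
  exact ⟨h1, h2⟩

/-- **`map_chart` for `β`.**  Let `φ ψ : F' → F` be two `A0`-algebra homomorphisms (the two
degeneracy maps `α`, `β`), `x' ∈ F'` the chart coordinate of the lower level, and suppose `φ x'`
and `ψ x'` are linked.  Then `ψ` maps the chart rings of `F'` for the coordinate `x'` into the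
chart rings of `F` for the coordinate `φ x'` (all three charts: `A0[x']`, `A0[x'⁻¹]`,
`A0[x', x'⁻¹]`). -/
theorem HauptLinked.isIntegral_adjoin_map {c : F} {x' : F'} (A0 : Type*) [CommRing A0]
    [Algebra A0 F] [Algebra A0 F'] (φ ψ : F' →ₐ[A0] F) (h : HauptLinked c (φ x') (ψ x'))
    (hc : ∃ a : A0, algebraMap A0 F a = c⁻¹) (b : F') :
    (IsIntegral (Algebra.adjoin A0 ({x'} : Set F')) b →
        IsIntegral (Algebra.adjoin A0 ({φ x'} : Set F)) (ψ b)) ∧
    (IsIntegral (Algebra.adjoin A0 ({x'⁻¹} : Set F')) b →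
        IsIntegral (Algebra.adjoin A0 ({(φ x')⁻¹} : Set F)) (ψ b)) ∧
    (IsIntegral (Algebra.adjoin A0 ({x', x'⁻¹} : Set F')) b →
        IsIntegral (Algebra.adjoin A0 ({φ x', (φ x')⁻¹} : Set F)) (ψ b)) := by
  obtain ⟨a, ha⟩ := hc
  simp only [isIntegral_adjoin_iff_forall_valuationSubring]
  have hA' : ∀ V : ValuationSubring F, (∀ a : A0, algebraMap A0 F a ∈ V) →
      ∀ a : A0, algebraMap A0 F' a ∈ V.comap (ψ : F' →+* F) := by
    intro V hA a
    rw [ValuationSubring.mem_comap]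
    simpa using hA a
  refine ⟨?_, ?_, ?_⟩
  · intro H V hA hs
    have hcV : c⁻¹ ∈ V := ha ▸ hA a
    have := H (V.comap (ψ : F' →+* F)) (hA' V hA) fun y hy => by
      rw [Set.mem_singleton_iff] at hy
      rw [hy, ValuationSubring.mem_comap]
      exact ((h V hcV).1).mp (hs _ rfl)
    exact this
  · intro H V hA hs
    have hcV : c⁻¹ ∈ V := ha ▸ hA a
    have := H (V.comap (ψ : F' →+* F)) (hA' V hA) fun y hy => by
      rw [Set.mem_singleton_iff] at hy
      rw [hy, ValuationSubring.mem_comap, map_inv₀]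
      exact ((h V hcV).2).mp (hs _ rfl)
    exact this
  · intro H V hA hs
    have hcV : c⁻¹ ∈ V := ha ▸ hA a
    have := H (V.comap (ψ : F' →+* F)) (hA' V hA) fun y hy => by
      rcases hy with hy | hy
      · rw [hy, ValuationSubring.mem_comap]
        exact ((h V hcV).1).mp (hs _ (Or.inl rfl))
      · rw [Set.mem_singleton_iff] at hy
        rw [hy, ValuationSubring.mem_comap, map_inv₀]
        exact ((h V hcV).2).mp (hs _ (Or.inr rfl))
    exact this

end MapChart

end Fermat.Agent.S36.helper8566
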