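/-
S36-TQ-INT (helper8566), instance file: `t4(z)` and `t4(qz)` (resp. `t9(z)`, `t9(qz)`) are LINKED
in the Prelude function fields `F_{N,L} = laurentBaseChange L (modularFunctionFieldFull N)` over
ANY field `L ⊇ ℚ` (so `L = ℚ̄`, `L = ℚ̄^I`, number fields alike), for the Prelude degeneracy maps
`heckeAlphaBar L N q`, `heckeBetaBar L N q`.

Inputs: the landed `j`-identities of `S37/helper9536_Haupt49Inst` (`t4K_spec`, `t9K_spec`), the
elements `jK`, `jKd` of `S37/helper1588_FFK`, and the Kronecker SHAPE of the modular polynomial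
(`KronShape q Φ` + the series relation `Φ(j, j(q^q)) = 0`; supplier: S36-PHISHAPE, helper6414).
-/
import Fermat.Agent.S36.helper8566_HauptIntegral
import Fermat.Agent.S37.helper9536_Haupt49Inst
import Fermat.Agent.S37.helper1588_FFK
import Fermat.Prelude.Def_ModularCurve_HeckeOperator

set_option autoImplicit false

open Polynomial ModularCurve

namespace Fermat.Agent.S36.helper8566

open Fermat.Agent.S37.helper9536 (t4K t9K t4K_spec t9K_spec)
open Fermat.Agent.S37.helper1588 (jK jKd coe_jK coe_jKd)

noncomputable section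

/-! ## Generic transport -/

section Transport

variable {F F' : Type*} [Field F] [Field F']

/-- Ring homs commute with two-variable evaluation. -/
theorem map_eval_map_evZ {S S' : Type*} [CommRing S] [CommRing S'] (g : S →+* S')
    (Φ : Polynomial ℤ[X]) (a b : S) :
    g ((Φ.map (evZ a)).eval b) = (Φ.map (evZ (g a))).eval (g b) := by
  have hcomp : g.comp (evZ a) = evZ (g a) := by
    apply Polynomial.ringHom_ext
    · intro n; simp [evZ]
    · simp [evZ]
  rw [← Polynomial.eval_map_apply, Polynomial.map_map, hcomp]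

end Transport

/-! ## The modular instance -/

section Modular

variable (L : Type*) [Field L] [Algebra ℚ L] (N q : ℕ) [NeZero N] [NeZero q]

/-- A two-variable integer relation between elements of `F_{M,L}` can be checked on
`q`-expansions. -/
theorem eval_evZ_eq_zero_of_coe (M : ℕ) (Φ : Polynomial ℤ[X])
    (a b : laurentBaseChange L (modularFunctionFieldFull M))
    (h : (Φ.map (evZ (a : LaurentSeries L))).eval (b : LaurentSeries L) = 0) :
    (Φ.map (evZ a)).eval b = 0 := by
  apply Subtype.ext
  have h1 := map_eval_map_evZ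
    ((laurentBaseChange L (modularFunctionFieldFull M)).val :
      laurentBaseChange L (modularFunctionFieldFull M) →+* LaurentSeries L) Φ a b
  exact h1.trans h

omit [Algebra ℚ L] in
/-- The Kronecker relation between `j(q^d)` and `j(q^(q d))`, from the one between `j` and
`j(q^q)`. -/
theorem kron_rel_qExpand (d : ℕ) [NeZero d] {Φ : Polynomial ℤ[X]}
    (hrel : (Φ.map (evZ (jqModC L))).eval (qExpand L q (jqModC L)) = 0) :
    (Φ.map (evZ (qExpand L d (jqModC L)))).eval (qExpand L (q * d) (jqModC L)) = 0 := by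
  have h := congrArg (qExpand L d) hrel
  rw [map_eval_map_evZ, map_zero, qExpand_qExpand] at h
  rw [← qExpand_congr (mul_comm d q)]
  exact h

/-- **Level 4, cast-free.**  In `F_{N', L}` (`4 q ∣ N'`, `q ≠ 2`) two functions `t`, `t'` with
`q`-expansions `t4(z)` and `t4(qz)` are linked: they have the same centres on every valuation
ring of the function field in which `2` is invertible. -/
theorem hauptLinked_four_of_coe (N' : ℕ) [NeZero N'] (hq2 : q ≠ 2) (h4q : 4 * q ∣ N')
    {Φ : Polynomial ℤ[X]} (hΦ : KronShape q Φ)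
    (hrel : (Φ.map (evZ (jqModC L))).eval (qExpand L q (jqModC L)) = 0)
    (t t' : laurentBaseChange L (modularFunctionFieldFull N'))
    (ht : (t : LaurentSeries L) = t4K L)
    (ht' : (t' : LaurentSeries L) = qExpand L q (t4K L)) :
    HauptLinked (2 : laurentBaseChange L (modularFunctionFieldFull N')) t t' := by
  have : CharZero L := algebraRat.charZero L
  have h2L : (2 : L) ≠ 0 := two_ne_zero
  obtain ⟨-, -, -, s1, s2, s4, -⟩ := t4K_spec (K := L) h2L
  have d4 : 4 ∣ N' := (Dvd.intro q rfl).trans h4q
  have d2 : 2 ∣ N' := (by norm_num : 2 ∣ 4).trans d4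
  have dq : q ∣ N' := (Dvd.intro_left 4 rfl).trans h4q
  have dq2 : q * 2 ∣ N' :=
    (show q * 2 ∣ 4 * q from ⟨2, by ring⟩).trans h4q
  have dq4 : q * 4 ∣ N' := by rw [mul_comm q 4]; exact h4q
  have s1' := congrArg (qExpand L q) s1
  have s2' := congrArg (qExpand L q) s2
  have s4' := congrArg (qExpand L q) s4
  simp only [map_mul, map_pow, map_add, map_ofNat, qExpand_qExpand] at s1' s2' s4'
  have h2F : (2 : laurentBaseChange L (modularFunctionFieldFull N')) ≠ 0 := by
    intro h
    have := congrArg (fun x : laurentBaseChange L (modularFunctionFieldFull N') =>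
      (x : LaurentSeries L)) h
    simp at this
  refine hauptLinked_four (NeZero.one_le) hq2 hΦ h2F
    (j := jK L N') (j2 := jKd L N' 2 d2) (j4 := jKd L N' 4 d4)
    (j' := jKd L N' q dq) (j2' := jKd L N' (q * 2) dq2)
    (j4' := jKd L N' (q * 4) dq4) ?_ ?_ ?_ ?_ ?_ ?_ ?_ ?_ ?_
  · apply Subtype.ext
    push_cast
    rw [coe_jK, ht]
    exact s1
  · apply Subtype.ext
    push_cast
    rw [coe_jKd, ht]
    exact s2
  · apply Subtype.ext
    push_cast
    rw [coe_jKd, ht]
    exact s4
  · apply Subtype.ext
    push_cast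
    rw [coe_jKd, ht']
    exact s1'
  · apply Subtype.ext
    push_cast
    rw [coe_jKd, ht']
    exact s2'
  · apply Subtype.ext
    push_cast
    rw [coe_jKd, ht']
    exact s4'
  · apply eval_evZ_eq_zero_of_coe
    rw [coe_jK, coe_jKd]
    exact hrel
  · apply eval_evZ_eq_zero_of_coe
    rw [coe_jKd, coe_jKd]
    exact kron_rel_qExpand L q 2 hrel
  · apply eval_evZ_eq_zero_of_coe
    rw [coe_jKd, coe_jKd]
    exact kron_rel_qExpand L q 4 hrel

/-- **Level 4.**  In `F_{N q, L}` (`4 ∣ N`, `q ≠ 2`) the functions `t4(z) = α t` and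
`t4(qz) = β t` are linked: they have the same centres on every valuation ring of the function
field in which `2` is invertible. -/
theorem hauptLinked_four_heckeBeta (hq2 : q ≠ 2) (h4 : 4 ∣ N) {Φ : Polynomial ℤ[X]}
    (hΦ : KronShape q Φ)
    (hrel : (Φ.map (evZ (jqModC L))).eval (qExpand L q (jqModC L)) = 0)
    (t : laurentBaseChange L (modularFunctionFieldFull N))
    (ht : (t : LaurentSeries L) = t4K L) :
    HauptLinked (2 : laurentBaseChange L (modularFunctionFieldFull (N * q)))
      (heckeAlphaBar L N q t) (heckeBetaBar L N q t) :=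
  hauptLinked_four_of_coe L q (N * q) hq2 (Nat.mul_dvd_mul h4 dvd_rfl) hΦ hrel _ _
    (by rw [coe_heckeAlphaBar, ht]) (by rw [coe_heckeBetaBar, ht])

/-- **Level 9, cast-free.**  In `F_{N', L}` (`9 q ∣ N'`, `q ≠ 3`) two functions `t`, `t'` with
`q`-expansions `t9(z)` and `t9(qz)` are linked: they have the same centres on every valuation
ring of the function field in which `3` is invertible. -/
theorem hauptLinked_nine_of_coe (N' : ℕ) [NeZero N'] (hq3 : q ≠ 3) (h9q : 9 * q ∣ N')
    {Φ : Polynomial ℤ[X]} (hΦ : KronShape q Φ)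
    (hrel : (Φ.map (evZ (jqModC L))).eval (qExpand L q (jqModC L)) = 0)
    (t t' : laurentBaseChange L (modularFunctionFieldFull N'))
    (ht : (t : LaurentSeries L) = t9K L)
    (ht' : (t' : LaurentSeries L) = qExpand L q (t9K L)) :
    HauptLinked (3 : laurentBaseChange L (modularFunctionFieldFull N')) t t' := by
  have : CharZero L := algebraRat.charZero L
  have h3L : (3 : L) ≠ 0 := three_ne_zero
  obtain ⟨-, -, -, s1, s3, s9, -⟩ := t9K_spec (K := L) h3L
  have d9 : 9 ∣ N' := (Dvd.intro q rfl).trans h9q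
  have d3 : 3 ∣ N' := (by norm_num : 3 ∣ 9).trans d9
  have dq : q ∣ N' := (Dvd.intro_left 9 rfl).trans h9q
  have dq3 : q * 3 ∣ N' :=
    (show q * 3 ∣ 9 * q from ⟨3, by ring⟩).trans h9q
  have dq9 : q * 9 ∣ N' := by rw [mul_comm q 9]; exact h9q
  have s1' := congrArg (qExpand L q) s1
  have s3' := congrArg (qExpand L q) s3
  have s9' := congrArg (qExpand L q) s9
  simp only [map_mul, map_pow, map_add, map_ofNat, qExpand_qExpand] at s1' s3' s9'
  have h3F : (3 : laurentBaseChange L (modularFunctionFieldFull N')) ≠ 0 := by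
    intro h
    have := congrArg (fun x : laurentBaseChange L (modularFunctionFieldFull N') =>
      (x : LaurentSeries L)) h
    simp at this
  refine hauptLinked_nine (NeZero.one_le) hq3 hΦ h3F
    (j := jK L N') (j3 := jKd L N' 3 d3) (j9 := jKd L N' 9 d9)
    (j' := jKd L N' q dq) (j3' := jKd L N' (q * 3) dq3)
    (j9' := jKd L N' (q * 9) dq9) ?_ ?_ ?_ ?_ ?_ ?_ ?_ ?_ ?_
  · apply Subtype.ext
    push_cast
    rw [coe_jK, ht]
    exact s1
  · apply Subtype.ext
    push_cast
    rw [coe_jKd, ht]
    exact s3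
  · apply Subtype.ext
    push_cast
    rw [coe_jKd, ht]
    exact s9
  · apply Subtype.ext
    push_cast
    rw [coe_jKd, ht']
    exact s1'
  · apply Subtype.ext
    push_cast
    rw [coe_jKd, ht']
    exact s3'
  · apply Subtype.ext
    push_cast
    rw [coe_jKd, ht']
    exact s9'
  · apply eval_evZ_eq_zero_of_coe
    rw [coe_jK, coe_jKd]
    exact hrel
  · apply eval_evZ_eq_zero_of_coe
    rw [coe_jKd, coe_jKd]
    exact kron_rel_qExpand L q 3 hrel
  · apply eval_evZ_eq_zero_of_coe
    rw [coe_jKd, coe_jKd]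
    exact kron_rel_qExpand L q 9 hrel

/-- **Level 9.**  In `F_{N q, L}` (`9 ∣ N`, `q ≠ 3`) the functions `t9(z) = α t` and
`t9(qz) = β t` are linked: they have the same centres on every valuation ring of the function
field in which `3` is invertible. -/
theorem hauptLinked_nine_heckeBeta (hq3 : q ≠ 3) (h9 : 9 ∣ N) {Φ : Polynomial ℤ[X]}
    (hΦ : KronShape q Φ)
    (hrel : (Φ.map (evZ (jqModC L))).eval (qExpand L q (jqModC L)) = 0)
    (t : laurentBaseChange L (modularFunctionFieldFull N))
    (ht : (t : LaurentSeries L) = t9K L) :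
    HauptLinked (3 : laurentBaseChange L (modularFunctionFieldFull (N * q)))
      (heckeAlphaBar L N q t) (heckeBetaBar L N q t) :=
  hauptLinked_nine_of_coe L q (N * q) hq3 (Nat.mul_dvd_mul h9 dvd_rfl) hΦ hrel _ _
    (by rw [coe_heckeAlphaBar, ht]) (by rw [coe_heckeBetaBar, ht])

end Modular

end

end Fermat.Agent.S36.helper8566
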