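/-
helper8619 — S36-QNEW2 (forms side of the occurrence step at a prime `q` with `q ^ 2 ∣ M`).

The S36 twin of the landed S35 leaf `helper1462_NewQ` (which treats `q ∥ M`).

Setting: `q` prime, `q ∣ M1`, level `q * M1` (so `q ^ 2 ∣ q * M1`).

* `lowRep c`            : the lower unipotent matrix `(1, 0; c, 1)`;
* `cosetEquivA`         : the `q` matrices `(1, 0; M1 j, 1)⁻¹`, `j < q`, represent
                          `Γ₀(M1) ⧸ Γ₀(q M1)`;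
* `coe_trace_eq_sum_lowRep` : Mathlib's trace from level `q M1` to level `M1` is
                          `F ↦ ∑ j < q, F ∣[2] (1, 0; M1 j, 1)`;
* `heckeT_sum_slash_lowRep` : this sum commutes with the Prelude `T_ℓ`, `ℓ ∤ q M1`;
* `trAlpha`, `trBeta`   : the two degeneracy traces `S₂(Γ₀(q M1)) → S₂(Γ₀(M1))`
                          (forms twins of `α_*` and `β_*`; `trBeta = U_q`), `ℂ`-linear, commuting
                          with `T_ℓ`;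
* `trAlpha_eq_zero_of_isNewform`, `trBeta_eq_zero_of_isNewform` : both kill every Prelude
                          newform of level `q M1`;
* function-level forms at a general level `M` with `q ^ 2 ∣ M`.
-/
import Mathlib
import Fermat.Prelude.Def_ModularForm_HeckeOperatorForms
import Fermat.Prelude.Def_CuspForm_Newforms
import Fermat.Prelude.Thm_ModularFormClass_heckeT_heckeU_comm
import Fermat.Prelude.Thm_CongruenceSubgroup_one_mem_strictPeriods_Gamma0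
import Fermat.Agent.S35.helper1462_NewQ
import Fermat.Agent.S35.helper1159_NewQB
import Fermat.Agent.S58.helper706_LowerU

set_option autoImplicit false

noncomputable section

namespace Fermat.Agent.S36.helper8619

open scoped MatrixGroups ModularForm Pointwise
open UpperHalfPlane ModularForm CongruenceSubgroup Matrix.SpecialLinearGroup
open Fermat.Agent.S35.helper1462

/-! ### The lower unipotent matrices -/

/-- The lower unipotent matrix `(1, 0; c, 1)`. -/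
def lowRep (c : ℤ) : SL(2, ℤ) := mkSL 1 0 c 1 (by ring)

@[simp] theorem lowRep_apply_zero_zero (c : ℤ) : (lowRep c) 0 0 = 1 := rfl

@[simp] theorem lowRep_apply_zero_one (c : ℤ) : (lowRep c) 0 1 = 0 := rfl

@[simp] theorem lowRep_apply_one_zero (c : ℤ) : (lowRep c) 1 0 = c := rfl

@[simp] theorem lowRep_apply_one_one (c : ℤ) : (lowRep c) 1 1 = 1 := rfl

theorem lowRep_mem {N : ℕ} {c : ℤ} (h : (N : ℤ) ∣ c) : lowRep c ∈ Gamma0 N :=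
  (mem_Gamma0_iff_dvd _).mpr h

theorem lowRep_mem_mul (M1 : ℕ) (j : ℤ) : lowRep ((M1 : ℤ) * j) ∈ Gamma0 M1 :=
  lowRep_mem (Dvd.intro _ rfl)

variable {q M1 : ℕ}

/-- Every element of `Γ₀(M1)` becomes an element of `Γ₀(q M1)` after left multiplication by one
of the `q` matrices `(1, 0; M1 j, 1)` (`q` prime, `q ∣ M1`). -/
theorem exists_lowRep_mul_mem (hq : q.Prime) (hqM1 : q ∣ M1) (g : SL(2, ℤ))
    (hg : g ∈ Gamma0 M1) :
    ∃ j : Fin q, lowRep ((M1 : ℤ) * (j : ℕ)) * g ∈ Gamma0 (q * M1) := by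
  have : Fact q.Prime := ⟨hq⟩
  have : NeZero q := ⟨hq.ne_zero⟩
  obtain ⟨c₁, hc₁⟩ : (M1 : ℤ) ∣ g 1 0 := (mem_Gamma0_iff_dvd g).mp hg
  have hq10 : ((g 1 0 : ℤ) : ZMod q) = 0 := by
    rw [ZMod.intCast_zmod_eq_zero_iff_dvd]
    exact (Int.natCast_dvd_natCast.mpr hqM1).trans ⟨c₁, hc₁⟩
  have hdetZ : ((g 0 0 : ℤ) : ZMod q) * ((g 1 1 : ℤ) : ZMod q) = 1 := by
    have h := congrArg (Int.cast : ℤ → ZMod q) (SL_det_eq g)
    push_cast at h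
    rw [hq10, mul_zero, sub_zero] at h
    exact h
  let jz : ZMod q := -((c₁ : ℤ) : ZMod q) * ((g 1 1 : ℤ) : ZMod q)
  obtain ⟨e, he⟩ : (q : ℤ) ∣ (jz.val : ℤ) * g 0 0 + c₁ := by
    rw [← ZMod.intCast_zmod_eq_zero_iff_dvd]
    push_cast
    rw [ZMod.natCast_zmod_val]
    show -((c₁ : ℤ) : ZMod q) * ((g 1 1 : ℤ) : ZMod q) * ((g 0 0 : ℤ) : ZMod q) +
      ((c₁ : ℤ) : ZMod q) = 0
    rw [mul_assoc, mul_comm ((g 1 1 : ℤ) : ZMod q), hdetZ]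
    ring
  refine ⟨⟨jz.val, ZMod.val_lt jz⟩, ?_⟩
  rw [mem_Gamma0_iff_dvd, SL_mul_apply]
  simp only [lowRep_apply_one_zero, lowRep_apply_one_one]
  refine ⟨e, ?_⟩
  push_cast
  rw [hc₁]
  linear_combination (M1 : ℤ) * he

/-- The right-coset form: every `g ∈ Γ₀(M1)` is `δ * (1, 0; M1 j, 1)` with `δ ∈ Γ₀(q M1)`. -/
theorem exists_mul_lowRep_eq (hq : q.Prime) (hqM1 : q ∣ M1) (g : SL(2, ℤ))
    (hg : g ∈ Gamma0 M1) :
    ∃ (j : Fin q) (δ : SL(2, ℤ)), δ ∈ Gamma0 (q * M1) ∧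
      g = δ * lowRep ((M1 : ℤ) * (j : ℕ)) := by
  obtain ⟨j, hj⟩ := exists_lowRep_mul_mem hq hqM1 g⁻¹ (inv_mem hg)
  refine ⟨j, (lowRep ((M1 : ℤ) * (j : ℕ)) * g⁻¹)⁻¹, inv_mem hj, ?_⟩
  rw [mul_inv_rev, inv_inv, inv_mul_cancel_right]

/-- Two of the matrices `(1, 0; M1 j, 1)`, `j < q`, in the same coset of `Γ₀(q M1)` coincide. -/
theorem eq_of_lowRep_mul_inv_mem (hM1 : M1 ≠ 0) (i j : Fin q)
    (h : lowRep ((M1 : ℤ) * (i : ℕ)) * (lowRep ((M1 : ℤ) * (j : ℕ)))⁻¹ ∈ Gamma0 (q * M1)) :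
    i = j := by
  rw [mem_Gamma0_iff_dvd, SL_mul_apply, (SL_inv_apply _).1, (SL_inv_apply _).2.2.1] at h
  simp only [lowRep_apply_one_zero, lowRep_apply_one_one] at h
  obtain ⟨t, ht⟩ := h
  push_cast at ht
  have hM1' : (M1 : ℤ) ≠ 0 := by exact_mod_cast hM1
  have h1 : (q : ℤ) ∣ ((i : ℕ) : ℤ) - ((j : ℕ) : ℤ) := by
    refine ⟨t, ?_⟩
    apply mul_left_cancel₀ hM1'
    linear_combination ht
  have h5 : ((j : ℕ) : ℤ) ≡ ((i : ℕ) : ℤ) [ZMOD (q : ℤ)] := Int.modEq_iff_dvd.mpr h1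
  exact Fin.ext (Nat.ModEq.eq_of_lt_of_lt (Int.natCast_modEq_iff.mp h5) j.2 i.2).symm

/-! ### Coset representatives of `Γ₀(q M1)` in `Γ₀(M1)` for `q ∣ M1` -/

/-- Coset representatives of `Γ₀(q M1)` in `Γ₀(M1)` (left cosets `g Γ₀(q M1)`), `q ∣ M1`:
the inverses of the `(1, 0; M1 j, 1)`, `j < q`. -/
def cosetRepA (q M1 : ℕ) (j : Fin q) : SL(2, ℤ) := (lowRep ((M1 : ℤ) * (j : ℕ)))⁻¹

theorem cosetRepA_mem (q M1 : ℕ) (j : Fin q) : cosetRepA q M1 j ∈ Gamma0 M1 :=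
  inv_mem (lowRep_mem_mul M1 _)

theorem cosetRepA_injective (hM1 : M1 ≠ 0) :
    Function.Injective (fun j : Fin q =>
      toQuot q M1 (cosetRepA q M1 j) (cosetRepA_mem q M1 j)) := by
  intro i j h
  rw [toQuot_eq_iff] at h
  simp only [cosetRepA, inv_inv] at h
  exact eq_of_lowRep_mul_inv_mem hM1 i j h

theorem cosetRepA_surjective (hq : q.Prime) (hqM1 : q ∣ M1) :
    Function.Surjective (fun j : Fin q =>
      toQuot q M1 (cosetRepA q M1 j) (cosetRepA_mem q M1 j)) := by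
  intro c
  obtain ⟨g, hg, rfl⟩ := toQuot_surjective q M1 c
  obtain ⟨j, hj⟩ := exists_lowRep_mul_mem hq hqM1 g hg
  refine ⟨j, ?_⟩
  show toQuot q M1 (cosetRepA q M1 j) (cosetRepA_mem q M1 j) = toQuot q M1 g hg
  rw [toQuot_eq_iff]
  simpa only [cosetRepA, inv_inv] using hj

/-- The explicit coset system `{(1, 0; M1 j, 1)⁻¹ : j < q}` of `Γ₀(q M1)` in `Γ₀(M1)`
(`q` prime, `q ∣ M1`), as an equivalence with the quotient used by Mathlib's trace. -/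
def cosetEquivA (hq : q.Prime) (hqM1 : q ∣ M1) (hM1 : M1 ≠ 0) : Fin q ≃ LevelQuot q M1 :=
  Equiv.ofBijective
    (fun j : Fin q => toQuot q M1 (cosetRepA q M1 j) (cosetRepA_mem q M1 j))
    ⟨cosetRepA_injective hM1, cosetRepA_surjective hq hqM1⟩

theorem cosetEquivA_apply (hq : q.Prime) (hqM1 : q ∣ M1) (hM1 : M1 ≠ 0) (j : Fin q) :
    cosetEquivA hq hqM1 hM1 j = toQuot q M1 (cosetRepA q M1 j) (cosetRepA_mem q M1 j) := rfl

/-- The index of `Γ₀(q M1)` in `Γ₀(M1)` is `q` when `q ∣ M1`. -/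
theorem card_levelQuot_of_dvd (hq : q.Prime) (hqM1 : q ∣ M1) (hM1 : M1 ≠ 0) :
    Nat.card (LevelQuot q M1) = q := by
  rw [← Nat.card_congr (cosetEquivA hq hqM1 hM1)]
  simp

/-- **Explicit trace formula** (`q ∣ M1`).  The Mathlib trace from level `Γ₀(q M1)` to level
`Γ₀(M1)` of a weight-2 cusp form is `F ↦ ∑ j < q, F ∣[2] (1, 0; M1 j, 1)`. -/
theorem coe_trace_eq_sum_lowRep (hq : q.Prime) (hqM1 : q ∣ M1) (hM1 : M1 ≠ 0)
    [((Gamma0 (q * M1) : Subgroup SL(2, ℤ)).map (mapGL ℝ)).IsFiniteRelIndex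
      ((Gamma0 M1 : Subgroup SL(2, ℤ)).map (mapGL ℝ))]
    (F : CuspForm (Gamma0 (q * M1)) 2) :
    (⇑(CuspForm.trace ((Gamma0 M1 : Subgroup SL(2, ℤ)).map (mapGL ℝ)) F) : ℍ → ℂ) =
      ∑ j : Fin q, ⇑F ∣[(2 : ℤ)] (mapGL ℝ (lowRep ((M1 : ℤ) * (j : ℕ))) : GL (Fin 2) ℝ) := by
  rw [CuspForm.coe_trace]
  let : Fintype (LevelQuot q M1) := Fintype.ofFinite _
  rw [← (cosetEquivA hq hqM1 hM1).sum_comp]
  refine Finset.sum_congr rfl fun j _ => ?_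
  rw [cosetEquivA_apply, quotientFunc_toQuot]
  simp only [cosetRepA, inv_inv]

/-! ### The `α`-trace commutes with `T_ℓ` -/

/-- The product of a standard representative of `T_ℓ` with a lower unipotent matrix, as an
integer matrix. -/
theorem tRep_mul_lowRep {ℓ : ℕ} (o : Option (Fin ℓ)) (c : ℤ) {a b d : ℤ} (had : a * d ≠ 0)
    (h00 : ((tRep ℓ o : GL (Fin 2) ℝ) : Matrix (Fin 2) (Fin 2) ℝ) 0 0 = (a : ℝ))
    (h01 : ((tRep ℓ o : GL (Fin 2) ℝ) : Matrix (Fin 2) (Fin 2) ℝ) 0 1 = (b : ℝ))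
    (h10 : ((tRep ℓ o : GL (Fin 2) ℝ) : Matrix (Fin 2) (Fin 2) ℝ) 1 0 = 0)
    (h11 : ((tRep ℓ o : GL (Fin 2) ℝ) : Matrix (Fin 2) (Fin 2) ℝ) 1 1 = (d : ℝ)) :
    tRep ℓ o * (mapGL ℝ (lowRep c) : GL (Fin 2) ℝ) = intGL (a + b * c) b (d * c) d := by
  have hne : (a + b * c) * d - b * (d * c) ≠ 0 := by
    have h : (a + b * c) * d - b * (d * c) = a * d := by ring
    rw [h]
    exact had
  obtain ⟨i00, i01, i10, i11⟩ := intGL_apply hne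
  apply Matrix.GeneralLinearGroup.ext
  intro i k
  rw [Matrix.GeneralLinearGroup.coe_mul, Matrix.mul_apply, Fin.sum_univ_two, val_mapGL_apply,
    val_mapGL_apply]
  fin_cases i <;> fin_cases k <;>
    simp only [h00, h01, h10, h11, i00, i01, i10, i11, lowRep_apply_zero_zero,
      lowRep_apply_zero_one, lowRep_apply_one_zero, lowRep_apply_one_one, Fin.zero_eta,
      Fin.mk_one] <;> push_cast <;> ring

/-- **The `α`-trace commutes with `T_ℓ`** (function level): for a `Γ₀(q M1)`-invariant function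
`f` (`q` prime, `q ∣ M1`) and a prime `ℓ ∤ q M1`,
`∑ j < q, (T_ℓ f) ∣ (1, 0; M1 j, 1) = T_ℓ (∑ j < q, f ∣ (1, 0; M1 j, 1))`. -/
theorem heckeT_sum_slash_lowRep {ℓ : ℕ} (hℓ : ℓ.Prime) (hℓN : ¬ ℓ ∣ q * M1) (hq : q.Prime)
    (hqM1 : q ∣ M1) (hM1 : M1 ≠ 0) {f : ℍ → ℂ}
    (hf : ∀ γ ∈ Gamma0 (q * M1), f ∣[(2 : ℤ)] (mapGL ℝ γ : GL (Fin 2) ℝ) = f) :
    ∑ j : Fin q, heckeT 2 ℓ f ∣[(2 : ℤ)]
        (mapGL ℝ (lowRep ((M1 : ℤ) * (j : ℕ))) : GL (Fin 2) ℝ) =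
      heckeT 2 ℓ (∑ j : Fin q, f ∣[(2 : ℤ)]
        (mapGL ℝ (lowRep ((M1 : ℤ) * (j : ℕ))) : GL (Fin 2) ℝ)) := by
  have hℓM1 : ¬ ℓ ∣ M1 := fun h => hℓN (Dvd.dvd.mul_left h q)
  have hℓ0 : (ℓ : ℤ) ≠ 0 := by exact_mod_cast hℓ.ne_zero
  have hM1' : (M1 : ℤ) ≠ 0 := by exact_mod_cast hM1
  have hqZ : Prime (q : ℤ) := Nat.prime_iff_prime_int.mp hq
  -- the exchange step
  have step : ∀ p : Option (Fin ℓ) × Fin q, ∃ (p' : Option (Fin ℓ) × Fin q) (δ : SL(2, ℤ)),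
      δ ∈ Gamma0 (q * M1) ∧
      tRep ℓ p.1 * (mapGL ℝ (lowRep ((M1 : ℤ) * (p.2 : ℕ))) : GL (Fin 2) ℝ) =
        mapGL ℝ δ * ((mapGL ℝ (lowRep ((M1 : ℤ) * (p'.2 : ℕ))) : GL (Fin 2) ℝ) *
          tRep ℓ p'.1) := by
    rintro ⟨o, j⟩
    obtain ⟨a, b, d, had, t00, t01, t10, t11⟩ := tRep_apply hℓ.ne_zero o
    have had' : a * d ≠ 0 := by rw [had]; exact hℓ0
    have hA := tRep_mul_lowRep o ((M1 : ℤ) * (j : ℕ)) had' t00 t01 t10 t11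
    have hdet : (a + b * ((M1 : ℤ) * (j : ℕ))) * d - b * (d * ((M1 : ℤ) * (j : ℕ))) = ℓ := by
      rw [← had]; ring
    obtain ⟨o', γ, hγ, hγeq⟩ := exists_tRep_of_det hℓ hℓM1 _ _ _ _ hdet
      (⟨d * (j : ℕ), by ring⟩ : (M1 : ℤ) ∣ d * ((M1 : ℤ) * (j : ℕ)))
    obtain ⟨j', δ, hδ, hγδ⟩ := exists_mul_lowRep_eq hq hqM1 γ hγ
    refine ⟨(o', j'), δ, hδ, ?_⟩
    show tRep ℓ o * (mapGL ℝ (lowRep ((M1 : ℤ) * (j : ℕ))) : GL (Fin 2) ℝ) =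
      mapGL ℝ δ * ((mapGL ℝ (lowRep ((M1 : ℤ) * (j' : ℕ))) : GL (Fin 2) ℝ) * tRep ℓ o')
    rw [hA, hγeq, hγδ, map_mul, mul_assoc]
  choose σ δ hδ hσ using step
  -- injectivity of the exchange map
  have hσinj : Function.Injective σ := by
    rintro ⟨o₁, j₁⟩ ⟨o₂, j₂⟩ h12
    have h1 := hσ (o₁, j₁)
    have h2 := hσ (o₂, j₂)
    rw [← h12] at h2
    simp only at h1 h2
    set X : GL (Fin 2) ℝ := (mapGL ℝ (lowRep ((M1 : ℤ) * ((σ (o₁, j₁)).2 : ℕ))) : GL (Fin 2) ℝ) *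
      tRep ℓ (σ (o₁, j₁)).1 with hX
    set ε : SL(2, ℤ) := δ (o₂, j₂) * (δ (o₁, j₁))⁻¹ with hε
    have hεmem : ε ∈ Gamma0 (q * M1) := mul_mem (hδ _) (inv_mem (hδ _))
    -- `t₂ L₂ = ε (t₁ L₁)`
    have h3 : tRep ℓ o₂ * (mapGL ℝ (lowRep ((M1 : ℤ) * (j₂ : ℕ))) : GL (Fin 2) ℝ) =
        mapGL ℝ ε * (tRep ℓ o₁ * (mapGL ℝ (lowRep ((M1 : ℤ) * (j₁ : ℕ))) : GL (Fin 2) ℝ)) := by
      rw [h2, h1, hε, map_mul, map_inv]
      simp only [mul_assoc, inv_mul_cancel_left]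
    obtain ⟨a₁, b₁, d₁, had₁, s00, s01, s10, s11⟩ := tRep_apply hℓ.ne_zero o₁
    obtain ⟨a₂, b₂, d₂, had₂, u00, u01, u10, u11⟩ := tRep_apply hℓ.ne_zero o₂
    have had₁' : a₁ * d₁ ≠ 0 := by rw [had₁]; exact hℓ0
    have had₂' : a₂ * d₂ ≠ 0 := by rw [had₂]; exact hℓ0
    have hA₁ := tRep_mul_lowRep o₁ ((M1 : ℤ) * (j₁ : ℕ)) had₁' s00 s01 s10 s11
    have hA₂ := tRep_mul_lowRep o₂ ((M1 : ℤ) * (j₂ : ℕ)) had₂' u00 u01 u10 u11
    have hne₁ : (a₁ + b₁ * ((M1 : ℤ) * (j₁ : ℕ))) * d₁ - b₁ * (d₁ * ((M1 : ℤ) * (j₁ : ℕ))) ≠ 0 := by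
      have h : (a₁ + b₁ * ((M1 : ℤ) * (j₁ : ℕ))) * d₁ - b₁ * (d₁ * ((M1 : ℤ) * (j₁ : ℕ))) =
          a₁ * d₁ := by ring
      rw [h]; exact had₁'
    have hne₂ : (a₂ + b₂ * ((M1 : ℤ) * (j₂ : ℕ))) * d₂ - b₂ * (d₂ * ((M1 : ℤ) * (j₂ : ℕ))) ≠ 0 := by
      have h : (a₂ + b₂ * ((M1 : ℤ) * (j₂ : ℕ))) * d₂ - b₂ * (d₂ * ((M1 : ℤ) * (j₂ : ℕ))) =
          a₂ * d₂ := by ring
      rw [h]; exact had₂'
    obtain ⟨-, p01, p10, p11⟩ := intGL_apply hne₁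
    obtain ⟨p00, -, -, -⟩ := intGL_apply hne₁
    obtain ⟨-, -, r10, r11⟩ := intGL_apply hne₂
    rw [hA₁, hA₂] at h3
    have key : ∀ i k, ((intGL (a₂ + b₂ * ((M1 : ℤ) * (j₂ : ℕ))) b₂ (d₂ * ((M1 : ℤ) * (j₂ : ℕ))) d₂ :
        GL (Fin 2) ℝ) : Matrix (Fin 2) (Fin 2) ℝ) i k =
        ((ε i 0 : ℤ) : ℝ) * ((intGL (a₁ + b₁ * ((M1 : ℤ) * (j₁ : ℕ))) b₁
          (d₁ * ((M1 : ℤ) * (j₁ : ℕ))) d₁ : GL (Fin 2) ℝ) : Matrix (Fin 2) (Fin 2) ℝ) 0 k +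
        ((ε i 1 : ℤ) : ℝ) * ((intGL (a₁ + b₁ * ((M1 : ℤ) * (j₁ : ℕ))) b₁
          (d₁ * ((M1 : ℤ) * (j₁ : ℕ))) d₁ : GL (Fin 2) ℝ) : Matrix (Fin 2) (Fin 2) ℝ) 1 k := by
      intro i k
      rw [h3, Matrix.GeneralLinearGroup.coe_mul, Matrix.mul_apply, Fin.sum_univ_two,
        val_mapGL_apply, val_mapGL_apply]
    have e10 := key 1 0
    have e11 := key 1 1
    rw [r10, p00, p10] at e10
    rw [r11, p01, p11] at e11
    have E1 : d₂ * ((M1 : ℤ) * (j₂ : ℕ)) =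
        ε 1 0 * (a₁ + b₁ * ((M1 : ℤ) * (j₁ : ℕ))) + ε 1 1 * (d₁ * ((M1 : ℤ) * (j₁ : ℕ))) := by
      exact_mod_cast e10
    have E2 : d₂ = ε 1 0 * b₁ + ε 1 1 * d₁ := by exact_mod_cast e11
    obtain ⟨e, he⟩ := (mem_Gamma0_iff_dvd ε).mp hεmem
    have he' : ε 1 0 = (q : ℤ) * (M1 : ℤ) * e := by rw [he]; push_cast; ring
    -- `q ∣ ε₁₁ d₁ (j₂ - j₁)`
    have hdvd : (q : ℤ) ∣ ε 1 1 * d₁ * (((j₂ : ℕ) : ℤ) - ((j₁ : ℕ) : ℤ)) := by
      refine ⟨e * (a₁ + b₁ * ((M1 : ℤ) * (j₁ : ℕ)) - b₁ * ((M1 : ℤ) * (j₂ : ℕ))), ?_⟩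
      apply mul_left_cancel₀ hM1'
      rw [E2, he'] at E1
      linear_combination E1
    have hε11 : ¬ (q : ℤ) ∣ ε 1 1 := by
      intro h
      have hdet := SL_det_eq ε
      have h1 : (q : ℤ) ∣ 1 := by
        rw [← hdet]
        exact dvd_sub (Dvd.dvd.mul_left h _) (Dvd.dvd.mul_left ⟨(M1 : ℤ) * e, by rw [he']; ring⟩ _)
      have h2 := Int.le_of_dvd one_pos h1
      have h3 := hq.one_lt
      omega
    have hd₁ : ¬ (q : ℤ) ∣ d₁ := by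
      intro h
      have h1 : (q : ℤ) ∣ (ℓ : ℤ) := by rw [← had₁]; exact Dvd.dvd.mul_left h _
      have h2 : q ∣ ℓ := Int.natCast_dvd_natCast.mp h1
      have h3 : q = ℓ := (Nat.prime_dvd_prime_iff_eq hq hℓ).mp h2
      exact hℓN (h3 ▸ dvd_mul_right q M1)
    have hj : (q : ℤ) ∣ ((j₂ : ℕ) : ℤ) - ((j₁ : ℕ) : ℤ) := by
      rcases hqZ.dvd_or_dvd hdvd with h | h
      · rcases hqZ.dvd_or_dvd h with h' | h'
        · exact absurd h' hε11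
        · exact absurd h' hd₁
      · exact h
    have h5 : ((j₁ : ℕ) : ℤ) ≡ ((j₂ : ℕ) : ℤ) [ZMOD (q : ℤ)] := Int.modEq_iff_dvd.mpr hj
    have hjj : j₁ = j₂ := Fin.ext (Nat.ModEq.eq_of_lt_of_lt (Int.natCast_modEq_iff.mp h5) j₁.2 j₂.2)
    subst hjj
    rw [← hA₁, ← hA₂, ← mul_assoc] at h3
    have h4 : tRep ℓ o₂ = mapGL ℝ ε * tRep ℓ o₁ := mul_right_cancel h3
    rw [tRep_eq_of_mul hℓ.one_lt o₁ o₂ ε h4]
  have hσbij : Function.Bijective σ := Finite.injective_iff_bijective.mp hσinj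
  -- the sums
  have hL : ∑ j : Fin q, heckeT 2 ℓ f ∣[(2 : ℤ)]
        (mapGL ℝ (lowRep ((M1 : ℤ) * (j : ℕ))) : GL (Fin 2) ℝ) =
      ∑ p : Option (Fin ℓ) × Fin q, (f ∣[(2 : ℤ)] tRep ℓ p.1) ∣[(2 : ℤ)]
        (mapGL ℝ (lowRep ((M1 : ℤ) * (p.2 : ℕ))) : GL (Fin 2) ℝ) := by
    rw [Fintype.sum_prod_type_right]
    refine Finset.sum_congr rfl fun j _ => ?_
    rw [heckeT_eq_sum_tRep, SlashAction.sum_slash]
  have hR : heckeT 2 ℓ (∑ j : Fin q, f ∣[(2 : ℤ)]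
        (mapGL ℝ (lowRep ((M1 : ℤ) * (j : ℕ))) : GL (Fin 2) ℝ)) =
      ∑ p : Option (Fin ℓ) × Fin q, (f ∣[(2 : ℤ)]
        (mapGL ℝ (lowRep ((M1 : ℤ) * (p.2 : ℕ))) : GL (Fin 2) ℝ)) ∣[(2 : ℤ)] tRep ℓ p.1 := by
    rw [heckeT_eq_sum_tRep, Fintype.sum_prod_type]
    refine Finset.sum_congr rfl fun o _ => ?_
    rw [SlashAction.sum_slash]
  rw [hL, hR, ← (Equiv.ofBijective σ hσbij).sum_comp
    (fun p : Option (Fin ℓ) × Fin q => (f ∣[(2 : ℤ)]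
        (mapGL ℝ (lowRep ((M1 : ℤ) * (p.2 : ℕ))) : GL (Fin 2) ℝ)) ∣[(2 : ℤ)] tRep ℓ p.1)]
  refine Finset.sum_congr rfl fun p _ => ?_
  rw [← SlashAction.slash_mul, hσ p, SlashAction.slash_mul, SlashAction.slash_mul, hf _ (hδ p)]
  rfl

/-! ### The two degeneracy traces as linear maps `S₂(Γ₀(q M1)) → S₂(Γ₀(M1))` -/

theorem σ_mapGL (γ : SL(2, ℤ)) : UpperHalfPlane.σ (mapGL ℝ γ : GL (Fin 2) ℝ) = .refl ℝ ℂ := by
  rw [UpperHalfPlane.σ, if_pos]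
  simp

theorem sq_dvd_mul_of_dvd (hqM1 : q ∣ M1) : q ^ 2 ∣ q * M1 := by
  rw [pow_two]
  exact Nat.mul_dvd_mul_left q hqM1

theorem ne_mul_of_prime (hq : q.Prime) (hM1 : M1 ≠ 0) : M1 ≠ q * M1 := by
  have h1 := hq.one_lt
  intro h
  have h2 : 1 * M1 < q * M1 := Nat.mul_lt_mul_of_pos_right h1 (Nat.pos_of_ne_zero hM1)
  omega

/-- **The `α`-trace** `S₂(Γ₀(q M1)) → S₂(Γ₀(M1))` for a prime `q ∣ M1` (Mathlib's
`CuspForm.trace` along the inclusion `Γ₀(q M1) ≤ Γ₀(M1)`), as a linear map.  It is the forms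
twin of the push-forward `α_*` along the degeneracy map `α : X₀(q M1) → X₀(M1)`. -/
def trAlpha (hq : q.Prime) (hqM1 : q ∣ M1) (hM1 : M1 ≠ 0) :
    CuspForm (Gamma0 (q * M1)) 2 →ₗ[ℂ] CuspForm (Gamma0 M1) 2 :=
  haveI : NeZero (q * M1) := ⟨Nat.mul_ne_zero hq.ne_zero hM1⟩
  haveI := isFiniteRelIndex_Gamma0 (q * M1) M1
  { toFun := fun F => CuspForm.trace ((Gamma0 M1 : Subgroup SL(2, ℤ)).map (mapGL ℝ)) F
    map_add' := fun F G => DFunLike.coe_injective <| by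
      rw [FunLike.coe_add, coe_trace_eq_sum_lowRep hq hqM1 hM1,
        coe_trace_eq_sum_lowRep hq hqM1 hM1, coe_trace_eq_sum_lowRep hq hqM1 hM1,
        FunLike.coe_add, ← Finset.sum_add_distrib]
      refine Finset.sum_congr rfl fun j _ => ?_
      rw [SlashAction.add_slash]
    map_smul' := fun c F => DFunLike.coe_injective <| by
      rw [RingHom.id_apply, FunLike.coe_smul, coe_trace_eq_sum_lowRep hq hqM1 hM1,
        coe_trace_eq_sum_lowRep hq hqM1 hM1, FunLike.coe_smul, Finset.smul_sum]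
      refine Finset.sum_congr rfl fun j _ => ?_
      rw [ModularForm.smul_slash, σ_mapGL, ContinuousAlgEquiv.refl_apply] }

/-- **Trace formula**: `trAlpha F = ∑ j < q, F ∣[2] (1, 0; M1 j, 1)` as functions on the upper
half plane. -/
theorem coe_trAlpha (hq : q.Prime) (hqM1 : q ∣ M1) (hM1 : M1 ≠ 0)
    (F : CuspForm (Gamma0 (q * M1)) 2) :
    ⇑(trAlpha hq hqM1 hM1 F) =
      ∑ j : Fin q, ⇑F ∣[(2 : ℤ)] (mapGL ℝ (lowRep ((M1 : ℤ) * (j : ℕ))) : GL (Fin 2) ℝ) := by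
  have : NeZero (q * M1) := ⟨Nat.mul_ne_zero hq.ne_zero hM1⟩
  have := isFiniteRelIndex_Gamma0 (q * M1) M1
  exact coe_trace_eq_sum_lowRep hq hqM1 hM1 F

/-- The trace formula as a sum over `Finset.range q`. -/
theorem coe_trAlpha_range (hq : q.Prime) (hqM1 : q ∣ M1) (hM1 : M1 ≠ 0)
    (F : CuspForm (Gamma0 (q * M1)) 2) :
    ⇑(trAlpha hq hqM1 hM1 F) =
      ∑ j ∈ Finset.range q, ⇑F ∣[(2 : ℤ)] (mapGL ℝ (lowRep ((M1 : ℤ) * j)) : GL (Fin 2) ℝ) := by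
  rw [coe_trAlpha]
  exact Fin.sum_univ_eq_sum_range
    (fun j => ⇑F ∣[(2 : ℤ)] (mapGL ℝ (lowRep ((M1 : ℤ) * j)) : GL (Fin 2) ℝ)) q

/-- **The `α`-trace commutes with `T_ℓ`** for primes `ℓ ∤ q M1`. -/
theorem trAlpha_heckeTLin (hq : q.Prime) (hqM1 : q ∣ M1) (hM1 : M1 ≠ 0) {ℓ : ℕ} (hℓ : ℓ.Prime)
    (hℓN : ¬ ℓ ∣ q * M1) (hℓM1 : ¬ ℓ ∣ M1) (F : CuspForm (Gamma0 (q * M1)) 2) :
    trAlpha hq hqM1 hM1 (CuspForm.heckeTLin 2 hℓ hℓN F) =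
      CuspForm.heckeTLin 2 hℓ hℓM1 (trAlpha hq hqM1 hM1 F) :=
  DFunLike.coe_injective <| by
    rw [coe_trAlpha, CuspForm.coe_heckeTLin_apply, CuspForm.coe_heckeTLin_apply, coe_trAlpha]
    exact heckeT_sum_slash_lowRep hℓ hℓN hq hqM1 hM1 (cuspForm_slash_eq F)

/-- **The `β`-trace** `S₂(Γ₀(q M1)) → S₂(Γ₀(M1))` for a prime `q ∣ M1`: the operator `U_q`,
which lowers the level when `q ^ 2` divides it.  Underlying function: the Prelude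
`heckeU 2 q ⇑F`.  It is the forms twin of the push-forward `β_*` along the second degeneracy
map `β : X₀(q M1) → X₀(M1)`, `z ↦ q z`. -/
def trBeta (hq : q.Prime) (hqM1 : q ∣ M1) (hM1 : M1 ≠ 0) :
    CuspForm (Gamma0 (q * M1)) 2 →ₗ[ℂ] CuspForm (Gamma0 M1) 2 :=
  haveI : NeZero (q * M1) := ⟨Nat.mul_ne_zero hq.ne_zero hM1⟩
  haveI : NeZero M1 := ⟨hM1⟩
  { toFun := fun F =>
      { toFun := heckeU 2 q ⇑F
        slash_action_eq' := fun γ hγ =>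
          Fermat.Agent.S58.helper706.heckeU_slash_eq_self_of_mem_Gamma0_div 2
            (sq_dvd_mul_of_dvd hqM1)
            (fun γ hγ => SlashInvariantFormClass.slash_action_eq F γ hγ) γ
            (by rw [Nat.mul_div_cancel_left M1 hq.pos]; exact hγ)
        holo' := ModularForm.mdifferentiable_heckeU (CuspFormClass.holo F) 2 q
        zero_at_cusps' := fun hc => CuspFormClass.isZeroAt_heckeU F q
          (Fermat.Agent.S58.helper706.isCusp_Gamma0_of_isCusp_Gamma0 hc) }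
    map_add' := fun F G => DFunLike.coe_injective <|
      show heckeU 2 q ⇑(F + G) = heckeU 2 q ⇑F + heckeU 2 q ⇑G by
        rw [FunLike.coe_add, heckeU_add]
    map_smul' := fun c F => DFunLike.coe_injective <|
      show heckeU 2 q ⇑(c • F) = c • heckeU 2 q ⇑F by
        rw [FunLike.coe_smul, heckeU_smul] }

@[simp] theorem coe_trBeta (hq : q.Prime) (hqM1 : q ∣ M1) (hM1 : M1 ≠ 0)
    (F : CuspForm (Gamma0 (q * M1)) 2) :
    ⇑(trBeta hq hqM1 hM1 F) = heckeU 2 q ⇑F := rfl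

/-- `trBeta F` and `U_q F` (the Prelude operator at level `q M1`) are the same function. -/
theorem coe_trBeta_eq_heckeULin (hq : q.Prime) (hqM1 : q ∣ M1) (hM1 : M1 ≠ 0) [NeZero (q * M1)]
    (F : CuspForm (Gamma0 (q * M1)) 2) :
    (⇑(trBeta hq hqM1 hM1 F) : ℍ → ℂ) = ⇑(CuspForm.heckeULin 2 (dvd_mul_right q M1) F) := rfl

/-- **The `β`-trace commutes with `T_ℓ`** for primes `ℓ ∤ q M1`. -/
theorem trBeta_heckeTLin (hq : q.Prime) (hqM1 : q ∣ M1) (hM1 : M1 ≠ 0) {ℓ : ℕ} (hℓ : ℓ.Prime)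
    (hℓN : ¬ ℓ ∣ q * M1) (hℓM1 : ¬ ℓ ∣ M1) (F : CuspForm (Gamma0 (q * M1)) 2) :
    trBeta hq hqM1 hM1 (CuspForm.heckeTLin 2 hℓ hℓN F) =
      CuspForm.heckeTLin 2 hℓ hℓM1 (trBeta hq hqM1 hM1 F) :=
  DFunLike.coe_injective <| by
    have hcopℓ : Nat.Coprime ℓ q :=
      (Nat.Prime.coprime_iff_not_dvd hℓ).mpr fun h => hℓN (Dvd.dvd.mul_right h M1)
    rw [coe_trBeta, CuspForm.coe_heckeTLin_apply, CuspForm.coe_heckeTLin_apply, coe_trBeta]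
    exact (ModularFormClass.heckeT_heckeU_comm F (one_mem_strictPeriods_Gamma0 (q * M1))
      hcopℓ).symm

/-! ### Newforms are killed by both traces -/

/-- Eigenspace form: a cusp form `h` of level `q M1` with the good Hecke eigenvalues of a
Prelude newform `g` of the same level has `α`-trace zero. -/
theorem trAlpha_eq_zero_of_eigen (hq : q.Prime) (hqM1 : q ∣ M1) (hM1 : M1 ≠ 0)
    {g : CuspForm (Gamma0 (q * M1)) 2} (hg : g.IsNewform) (h : CuspForm (Gamma0 (q * M1)) 2)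
    (heig : ∀ (ℓ : ℕ) (hℓ : ℓ.Prime) (hℓN : ¬ ℓ ∣ q * M1),
      CuspForm.heckeTLin 2 hℓ hℓN h = ModularFormClass.qCoeff g ℓ • h) :
    trAlpha hq hqM1 hM1 h = 0 := by
  have : NeZero M1 := ⟨hM1⟩
  refine Fermat.Agent.S35.helper1159.eq_zero_of_isNewform_of_eigen (Dvd.intro_left q rfl)
    (ne_mul_of_prime hq hM1) hg (trAlpha hq hqM1 hM1 h) (fun ℓ hℓ hℓN hℓM1 => ?_)
  rw [← trAlpha_heckeTLin hq hqM1 hM1 hℓ hℓN hℓM1, heig ℓ hℓ hℓN, map_smul]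

/-- Eigenspace form: a cusp form `h` of level `q M1` with the good Hecke eigenvalues of a
Prelude newform `g` of the same level has `β`-trace zero, i.e. `U_q h = 0`. -/
theorem trBeta_eq_zero_of_eigen (hq : q.Prime) (hqM1 : q ∣ M1) (hM1 : M1 ≠ 0)
    {g : CuspForm (Gamma0 (q * M1)) 2} (hg : g.IsNewform) (h : CuspForm (Gamma0 (q * M1)) 2)
    (heig : ∀ (ℓ : ℕ) (hℓ : ℓ.Prime) (hℓN : ¬ ℓ ∣ q * M1),
      CuspForm.heckeTLin 2 hℓ hℓN h = ModularFormClass.qCoeff g ℓ • h) :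
    trBeta hq hqM1 hM1 h = 0 := by
  have : NeZero M1 := ⟨hM1⟩
  refine Fermat.Agent.S35.helper1159.eq_zero_of_isNewform_of_eigen (Dvd.intro_left q rfl)
    (ne_mul_of_prime hq hM1) hg (trBeta hq hqM1 hM1 h) (fun ℓ hℓ hℓN hℓM1 => ?_)
  rw [← trBeta_heckeTLin hq hqM1 hM1 hℓ hℓN hℓM1, heig ℓ hℓ hℓN, map_smul]

/-- **The `α`-trace of a newform of level `q M1`, `q ∣ M1`, vanishes.** -/
theorem trAlpha_eq_zero_of_isNewform (hq : q.Prime) (hqM1 : q ∣ M1) (hM1 : M1 ≠ 0)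
    {g : CuspForm (Gamma0 (q * M1)) 2} (hg : g.IsNewform) : trAlpha hq hqM1 hM1 g = 0 :=
  trAlpha_eq_zero_of_eigen hq hqM1 hM1 hg g fun _ hℓ hℓN =>
    Fermat.Agent.S29.helper7617.heckeTLin_apply_eq_smul hg.1 hℓ hℓN

/-- **The `β`-trace of a newform of level `q M1`, `q ∣ M1`, vanishes** (`U_q g = 0`). -/
theorem trBeta_eq_zero_of_isNewform (hq : q.Prime) (hqM1 : q ∣ M1) (hM1 : M1 ≠ 0)
    {g : CuspForm (Gamma0 (q * M1)) 2} (hg : g.IsNewform) : trBeta hq hqM1 hM1 g = 0 :=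
  trBeta_eq_zero_of_eigen hq hqM1 hM1 hg g fun _ hℓ hℓN =>
    Fermat.Agent.S29.helper7617.heckeTLin_apply_eq_smul hg.1 hℓ hℓN

/-- Function form: `∑ j < q, g ∣[2] (1, 0; M1 j, 1) = 0` for a newform `g` of level `q M1`,
`q ∣ M1`. -/
theorem sum_slash_lowRep_eq_zero_of_isNewform (hq : q.Prime) (hqM1 : q ∣ M1) (hM1 : M1 ≠ 0)
    {g : CuspForm (Gamma0 (q * M1)) 2} (hg : g.IsNewform) :
    ∑ j ∈ Finset.range q, ⇑g ∣[(2 : ℤ)] (mapGL ℝ (lowRep ((M1 : ℤ) * j)) : GL (Fin 2) ℝ) = 0 := by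
  rw [← coe_trAlpha_range hq hqM1 hM1, trAlpha_eq_zero_of_isNewform hq hqM1 hM1 hg]
  rfl

/-- Function form: `U_q g = 0` for a newform `g` of level `q M1`, `q ∣ M1`. -/
theorem heckeU_eq_zero_of_isNewform (hq : q.Prime) (hqM1 : q ∣ M1) (hM1 : M1 ≠ 0)
    {g : CuspForm (Gamma0 (q * M1)) 2} (hg : g.IsNewform) : heckeU 2 q ⇑g = 0 := by
  rw [← coe_trBeta hq hqM1 hM1, trBeta_eq_zero_of_isNewform hq hqM1 hM1 hg]
  rfl

/-! ### General level `M` with `q ^ 2 ∣ M` (no literal product in the types) -/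

/-- **Newform ⇒ killed by the `α`-trace, general level, function form.**  For a Prelude newform
`g` of level `M` and a prime `q` with `q ^ 2 ∣ M`:
`∑ j < q, g ∣[2] (1, 0; (M / q) j, 1) = 0`. -/
theorem sum_slash_lowRep_eq_zero_of_isNewform_of_sq_dvd {M q : ℕ} (hM : M ≠ 0) (hq : q.Prime)
    (h2 : q ^ 2 ∣ M) {g : CuspForm (Gamma0 M) 2} (hg : g.IsNewform) :
    ∑ j ∈ Finset.range q,
      ⇑g ∣[(2 : ℤ)] (mapGL ℝ (lowRep (((M / q : ℕ) : ℤ) * j)) : GL (Fin 2) ℝ) = 0 := by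
  obtain ⟨M1, rfl⟩ : ∃ M1, M = q * M1 := (dvd_trans (dvd_pow_self q two_ne_zero) h2)
  have hqM1 : q ∣ M1 := by
    rw [pow_two] at h2
    exact Nat.dvd_of_mul_dvd_mul_left hq.pos h2
  have hM1 : M1 ≠ 0 := fun h => hM (by rw [h, mul_zero])
  rw [Nat.mul_div_cancel_left M1 hq.pos]
  exact sum_slash_lowRep_eq_zero_of_isNewform hq hqM1 hM1 hg

/-- **Newform ⇒ killed by `U_q`, general level, function form**: `U_q g = 0` for a Prelude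
newform `g` of level `M` and a prime `q` with `q ^ 2 ∣ M`. -/
theorem heckeU_eq_zero_of_isNewform_of_sq_dvd {M q : ℕ} (hM : M ≠ 0) (hq : q.Prime)
    (h2 : q ^ 2 ∣ M) {g : CuspForm (Gamma0 M) 2} (hg : g.IsNewform) : heckeU 2 q ⇑g = 0 := by
  obtain ⟨M1, rfl⟩ : ∃ M1, M = q * M1 := (dvd_trans (dvd_pow_self q two_ne_zero) h2)
  have hqM1 : q ∣ M1 := by
    rw [pow_two] at h2
    exact Nat.dvd_of_mul_dvd_mul_left hq.pos h2
  have hM1 : M1 ≠ 0 := fun h => hM (by rw [h, mul_zero])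
  exact heckeU_eq_zero_of_isNewform hq hqM1 hM1 hg

/-- Reindexing a sum over `ZMod q` by the values `j.val`. -/
theorem sum_zmod_val {A : Type*} [AddCommMonoid A] (q : ℕ) [NeZero q] (f : ℕ → A) :
    ∑ j : ZMod q, f j.val = ∑ j ∈ Finset.range q, f j := by
  have h : ∑ i : Fin q, f (i : ℕ) = ∑ i ∈ Finset.range q, f i := Fin.sum_univ_eq_sum_range f q
  rw [← h]
  let e : ZMod q ≃ Fin q :=
    { toFun := fun j => ⟨j.val, ZMod.val_lt j⟩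
      invFun := fun i => ((i : ℕ) : ZMod q)
      left_inv := fun j => ZMod.natCast_zmod_val j
      right_inv := fun i => Fin.ext (ZMod.val_cast_of_lt i.2) }
  exact Fintype.sum_equiv e (fun j : ZMod q => f j.val) (fun i : Fin q => f (i : ℕ))
    (fun _ => rfl)

/-- The `ZMod q`-indexed form of `sum_slash_lowRep_eq_zero_of_isNewform_of_sq_dvd`. -/
theorem sum_zmod_slash_lowRep_eq_zero_of_isNewform_of_sq_dvd {M q : ℕ} [NeZero q] (hM : M ≠ 0)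
    (hq : q.Prime) (h2 : q ^ 2 ∣ M) {g : CuspForm (Gamma0 M) 2} (hg : g.IsNewform) :
    ∑ j : ZMod q,
      ⇑g ∣[(2 : ℤ)] (mapGL ℝ (lowRep (((M / q : ℕ) : ℤ) * (j.val : ℕ))) : GL (Fin 2) ℝ) = 0 := by
  rw [sum_zmod_val q (fun j : ℕ =>
    ⇑g ∣[(2 : ℤ)] (mapGL ℝ (lowRep (((M / q : ℕ) : ℤ) * (j : ℕ))) : GL (Fin 2) ℝ))]
  exact sum_slash_lowRep_eq_zero_of_isNewform_of_sq_dvd hM hq h2 hg

/-- A `GL(2,ℝ)` element with matrix `(1, 0; m j, 1)` is `mapGL ℝ (lowRep (m j))`. -/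
theorem eq_mapGL_lowRep (γ : GL (Fin 2) ℝ) (m j : ℕ)
    (hγ : (γ : Matrix (Fin 2) (Fin 2) ℝ) = !![(1 : ℝ), 0; (m : ℝ) * (j : ℝ), 1]) :
    γ = (mapGL ℝ (lowRep ((m : ℤ) * (j : ℕ))) : GL (Fin 2) ℝ) := by
  apply Matrix.GeneralLinearGroup.ext
  intro i k
  rw [hγ, val_mapGL_apply]
  fin_cases i <;> fin_cases k <;> simp

/-- The same statement for ANY `GL(2,ℝ)`-valued family `γ j` whose matrices are
`(1, 0; (M / q) j, 1)`: a consumer may use its own term for the lower unipotent matrices. -/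
theorem sum_zmod_slash_eq_zero_of_isNewform_of_sq_dvd {M q : ℕ} [NeZero q] (hM : M ≠ 0)
    (hq : q.Prime) (h2 : q ^ 2 ∣ M) {g : CuspForm (Gamma0 M) 2} (hg : g.IsNewform)
    (γ : ZMod q → GL (Fin 2) ℝ)
    (hγ : ∀ j : ZMod q, (γ j : Matrix (Fin 2) (Fin 2) ℝ) =
      !![(1 : ℝ), 0; ((M / q : ℕ) : ℝ) * (j.val : ℝ), 1]) :
    ∑ j : ZMod q, ⇑g ∣[(2 : ℤ)] γ j = 0 := by
  have h := sum_zmod_slash_lowRep_eq_zero_of_isNewform_of_sq_dvd hM hq h2 hg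
  have hterm : ∀ j : ZMod q, ⇑g ∣[(2 : ℤ)] γ j =
      ⇑g ∣[(2 : ℤ)] (mapGL ℝ (lowRep (((M / q : ℕ) : ℤ) * (j.val : ℕ))) : GL (Fin 2) ℝ) :=
    fun j => by rw [eq_mapGL_lowRep (γ j) (M / q) j.val (hγ j)]
  rw [Finset.sum_congr rfl fun j _ => hterm j]
  exact h

/-- A `GL(2,ℝ)` element with matrix `(q, j; 0, q)` is `heckeMatrix q j * heckeDiagMatrix q`. -/
theorem eq_heckeMatrix_mul_heckeDiagMatrix (γ : GL (Fin 2) ℝ) {q : ℕ} (hq : q ≠ 0) (j : ℕ)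
    (hγ : (γ : Matrix (Fin 2) (Fin 2) ℝ) = !![(q : ℝ), (j : ℝ); 0, (q : ℝ)]) :
    γ = heckeMatrix q j * heckeDiagMatrix q := by
  apply Matrix.GeneralLinearGroup.ext
  intro i k
  rw [hγ, Matrix.GeneralLinearGroup.coe_mul, val_heckeMatrix hq, val_heckeDiagMatrix hq]
  fin_cases i <;> fin_cases k <;> simp [Matrix.mul_apply, Fin.sum_univ_two]

/-- **Newform ⇒ killed by the translation trace** (`β^* β_*` on forms): for a Prelude newform `g`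
of level `M`, a prime `q` with `q ^ 2 ∣ M` and ANY family `γ j ∈ GL(2, ℝ)` with matrices
`(q, j; 0, q)` (i.e. `τ ↦ τ + j / q`): `∑ j : ZMod q, g ∣[2] γ j = 0`. -/
theorem sum_zmod_slash_transl_eq_zero_of_isNewform_of_sq_dvd {M q : ℕ} [NeZero q] (hM : M ≠ 0)
    (hq : q.Prime) (h2 : q ^ 2 ∣ M) {g : CuspForm (Gamma0 M) 2} (hg : g.IsNewform)
    (γ : ZMod q → GL (Fin 2) ℝ)
    (hγ : ∀ j : ZMod q, (γ j : Matrix (Fin 2) (Fin 2) ℝ) =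
      !![(q : ℝ), (j.val : ℝ); 0, (q : ℝ)]) :
    ∑ j : ZMod q, ⇑g ∣[(2 : ℤ)] γ j = 0 := by
  have hU : heckeU 2 q ⇑g = 0 := heckeU_eq_zero_of_isNewform_of_sq_dvd hM hq h2 hg
  have hterm : ∀ j : ZMod q, ⇑g ∣[(2 : ℤ)] γ j =
      (⇑g ∣[(2 : ℤ)] heckeMatrix q j.val) ∣[(2 : ℤ)] heckeDiagMatrix q := fun j => by
    rw [eq_heckeMatrix_mul_heckeDiagMatrix (γ j) hq.ne_zero j.val (hγ j), SlashAction.slash_mul]
  rw [Finset.sum_congr rfl fun j _ => hterm j,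
    sum_zmod_val q (fun j : ℕ => (⇑g ∣[(2 : ℤ)] heckeMatrix q j) ∣[(2 : ℤ)] heckeDiagMatrix q),
    ← SlashAction.sum_slash, ← heckeU_def, hU, SlashAction.zero_slash]

/-! ### Consumer shapes (level written `M = M1 * q`; `heckeULin` form) -/

/-- An element of `SL(2, ℤ)` with matrix `(1, 0; c, 1)` is `lowRep c`. -/
theorem eq_lowRep_of_val (γ : SL(2, ℤ)) (c : ℤ)
    (hγ : (γ : Matrix (Fin 2) (Fin 2) ℤ) = !![1, 0; c, 1]) : γ = lowRep c := by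
  apply Subtype.ext
  rw [hγ]
  rfl

/-- **(TR-A), level written `M = M1 * q`**: for a Prelude newform `g` of level `M = M1 * q`,
`q` prime, `q ∣ M1`, and ANY family `γ j ∈ SL(2, ℤ)` with matrices `(1, 0; M1 j, 1)`:
`∑ j < q, g ∣[2] γ j = 0`. -/
theorem sum_range_slash_eq_zero_of_isNewform_of_eq {M M1 q : ℕ} (hM0 : M ≠ 0) (hq : q.Prime)
    (hM : M = M1 * q) (hq1 : q ∣ M1) {g : CuspForm (Gamma0 M) 2} (hg : g.IsNewform)
    (γ : ℕ → SL(2, ℤ))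
    (hγ : ∀ j : ℕ, ((γ j : SL(2, ℤ)) : Matrix (Fin 2) (Fin 2) ℤ) = !![1, 0; (M1 : ℤ) * j, 1]) :
    ∑ j ∈ Finset.range q, ⇑g ∣[(2 : ℤ)] (mapGL ℝ (γ j) : GL (Fin 2) ℝ) = 0 := by
  have h2 : q ^ 2 ∣ M := by
    rw [hM, pow_two]
    exact Nat.mul_dvd_mul hq1 dvd_rfl
  have hdiv : M / q = M1 := by rw [hM]; exact Nat.mul_div_cancel M1 hq.pos
  have h := sum_slash_lowRep_eq_zero_of_isNewform_of_sq_dvd hM0 hq h2 hg
  rw [hdiv] at h
  rw [Finset.sum_congr rfl fun j _ => by rw [eq_lowRep_of_val (γ j) _ (hγ j)]]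
  exact h

/-- **(TR-B), level written `M = M1 * q`**: `U_q g = 0` for a Prelude newform `g` of level
`M = M1 * q`, `q` prime, `q ∣ M1`. -/
theorem heckeU_eq_zero_of_isNewform_of_eq {M M1 q : ℕ} (hM0 : M ≠ 0) (hq : q.Prime)
    (hM : M = M1 * q) (hq1 : q ∣ M1) {g : CuspForm (Gamma0 M) 2} (hg : g.IsNewform) :
    heckeU 2 q ⇑g = 0 :=
  heckeU_eq_zero_of_isNewform_of_sq_dvd hM0 hq
    (by rw [hM, pow_two]; exact Nat.mul_dvd_mul hq1 dvd_rfl) hg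

/-- `CuspForm.heckeULin` form of `heckeU_eq_zero_of_isNewform_of_sq_dvd`. -/
theorem heckeULin_eq_zero_of_isNewform_of_sq_dvd {M q : ℕ} [NeZero M] (hq : q.Prime)
    (h2 : q ^ 2 ∣ M) (hqM : q ∣ M) {g : CuspForm (Gamma0 M) 2} (hg : g.IsNewform) :
    CuspForm.heckeULin 2 hqM g = 0 :=
  DFunLike.coe_injective (heckeU_eq_zero_of_isNewform_of_sq_dvd (NeZero.ne M) hq h2 hg)

end Fermat.Agent.S36.helper8619
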