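/-
helper8619 — S36-QNEW2, part W (eigenspace forms at a general level + Atkin–Lehner twists).

Complements `helper8619_NewQ2` for consumers that use the operators `U_q` and `U_q ∘ W` instead
of the two degeneracy traces:

* `heckeU_eq_zero_of_eigen_of_sq_dvd`, `sum_slash_lowRep_eq_zero_of_eigen_of_sq_dvd` : for a
  Prelude newform `g` of level `M`, a prime `q` with `q ^ 2 ∣ M` and ANY cusp form `h` of level `M`
  with the good Hecke eigenvalues of `g`: `U_q h = 0` and `∑ j < q, h ∣[2] (1, 0; (M / q) j, 1) = 0`;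
* `heckeTLin_wLin` : the landed Atkin–Lehner operator `S35.helper3353.wLin N d` (any exact divisor
  `Q ∥ N`, in particular the Fricke involution `Q = N`) commutes with `T_ℓ`, `ℓ ∤ N`;
* `heckeULin_wLin_eq_zero_of_isNewform` : `U_q (W_Q g) = 0` for a newform `g`, `q ^ 2 ∣ M`;
* `heckeULin_eq_zero_of_isNewform` : `U_q g = 0`, `heckeULin` form.
-/
import Fermat.Agent.S36.helper8619_NewQ2
import Fermat.Agent.S35.helper3353_Occ

set_option autoImplicit false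

noncomputable section

namespace Fermat.Agent.S36.helper8619

open scoped MatrixGroups ModularForm Pointwise
open UpperHalfPlane ModularForm CongruenceSubgroup Matrix.SpecialLinearGroup
open Fermat.Agent.S35.helper1462 Fermat.Agent.S35.helper3353

/-! ### Eigenspace forms at a general level -/

/-- **Eigenspace form of `U_q = 0`, general level**: a cusp form `h` of level `M` with the good
Hecke eigenvalues of a Prelude newform `g` of level `M` satisfies `U_q h = 0` for every prime `q`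
with `q ^ 2 ∣ M`. -/
theorem heckeU_eq_zero_of_eigen_of_sq_dvd {M q : ℕ} (hM : M ≠ 0) (hq : q.Prime) (h2 : q ^ 2 ∣ M)
    {g : CuspForm (Gamma0 M) 2} (hg : g.IsNewform) (h : CuspForm (Gamma0 M) 2)
    (heig : ∀ (ℓ : ℕ) (hℓ : ℓ.Prime) (hℓN : ¬ ℓ ∣ M),
      CuspForm.heckeTLin 2 hℓ hℓN h = ModularFormClass.qCoeff g ℓ • h) :
    heckeU 2 q ⇑h = 0 := by
  obtain ⟨M1, rfl⟩ : ∃ M1, M = q * M1 := (dvd_trans (dvd_pow_self q two_ne_zero) h2)
  have hqM1 : q ∣ M1 := by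
    rw [pow_two] at h2
    exact Nat.dvd_of_mul_dvd_mul_left hq.pos h2
  have hM1 : M1 ≠ 0 := fun h => hM (by rw [h, mul_zero])
  rw [← coe_trBeta hq hqM1 hM1, trBeta_eq_zero_of_eigen hq hqM1 hM1 hg h heig]
  rfl

/-- **Eigenspace form of the vanishing `α`-trace, general level.** -/
theorem sum_slash_lowRep_eq_zero_of_eigen_of_sq_dvd {M q : ℕ} (hM : M ≠ 0) (hq : q.Prime)
    (h2 : q ^ 2 ∣ M) {g : CuspForm (Gamma0 M) 2} (hg : g.IsNewform) (h : CuspForm (Gamma0 M) 2)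
    (heig : ∀ (ℓ : ℕ) (hℓ : ℓ.Prime) (hℓN : ¬ ℓ ∣ M),
      CuspForm.heckeTLin 2 hℓ hℓN h = ModularFormClass.qCoeff g ℓ • h) :
    ∑ j ∈ Finset.range q,
      ⇑h ∣[(2 : ℤ)] (mapGL ℝ (lowRep (((M / q : ℕ) : ℤ) * j)) : GL (Fin 2) ℝ) = 0 := by
  obtain ⟨M1, rfl⟩ : ∃ M1, M = q * M1 := (dvd_trans (dvd_pow_self q two_ne_zero) h2)
  have hqM1 : q ∣ M1 := by
    rw [pow_two] at h2
    exact Nat.dvd_of_mul_dvd_mul_left hq.pos h2
  have hM1 : M1 ≠ 0 := fun h => hM (by rw [h, mul_zero])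
  rw [Nat.mul_div_cancel_left M1 hq.pos, ← coe_trAlpha_range hq hqM1 hM1,
    trAlpha_eq_zero_of_eigen hq hqM1 hM1 hg h heig]
  rfl

/-! ### The Atkin–Lehner operators `wLin N d` commute with `T_ℓ` -/

/-- The Atkin–Lehner matrix of `S35.helper3353.ALData` is the matrix `atkinGL` of
`S35.helper1462`. -/
theorem gl_mk_eq_atkinGL {Q N' : ℕ} [NeZero (Q * N')] (x y : ℤ)
    (bez : (Q : ℤ) * x - (N' : ℤ) * y = 1) :
    (⟨N', x, y, rfl, bez⟩ : ALData (Q * N') Q).gl = atkinGL Q N' x y 1 1 := by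
  have hQ : Q ≠ 0 := fun h => NeZero.ne (Q * N') (by rw [h, zero_mul])
  have hdet : (Q : ℤ) * x * 1 - (N' : ℤ) * y * 1 = 1 := by linear_combination bez
  apply Matrix.GeneralLinearGroup.ext
  intro i k
  rw [ALData.gl, intGL_val, val_atkinGL hQ hdet]
  fin_cases i <;> fin_cases k <;> simp [ALData.mat]

/-- **`T_ℓ` commutes with the Atkin–Lehner operator `W_Q`** (any exact divisor `Q ∥ N`,
e.g. the Fricke involution `Q = N`), for primes `ℓ ∤ N`. -/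
theorem heckeTLin_wLin {N Q : ℕ} [NeZero N] (d : ALData N Q) {ℓ : ℕ} (hℓ : ℓ.Prime)
    (hℓN : ¬ ℓ ∣ N) (f : CuspForm (Gamma0 N) 2) :
    CuspForm.heckeTLin 2 hℓ hℓN (wLin N d f) = wLin N d (CuspForm.heckeTLin 2 hℓ hℓN f) := by
  obtain ⟨N', x, y, rfl, bez⟩ := d
  have hQ : Q ≠ 0 := fun h => NeZero.ne (Q * N') (by rw [h, zero_mul])
  have hdet : (Q : ℤ) * x * 1 - (N' : ℤ) * y * 1 = 1 := by linear_combination bez
  apply DFunLike.coe_injective
  show heckeT 2 ℓ (⇑f ∣[(2 : ℤ)] (⟨N', x, y, rfl, bez⟩ : ALData (Q * N') Q).gl)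
    = heckeT 2 ℓ ⇑f ∣[(2 : ℤ)] (⟨N', x, y, rfl, bez⟩ : ALData (Q * N') Q).gl
  rw [gl_mk_eq_atkinGL x y bez]
  exact (heckeT_slash_atkinGL hℓ hℓN hQ hdet (fun γ hγ =>
    SlashInvariantFormClass.slash_action_eq f _ (Subgroup.mem_map_of_mem _ hγ))).symm

/-- `W_Q` preserves the good Hecke eigenvalues. -/
theorem heckeTLin_wLin_of_eigen {N Q : ℕ} [NeZero N] (d : ALData N Q) {ℓ : ℕ} (hℓ : ℓ.Prime)
    (hℓN : ¬ ℓ ∣ N) {f : CuspForm (Gamma0 N) 2} {a : ℂ}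
    (hf : CuspForm.heckeTLin 2 hℓ hℓN f = a • f) :
    CuspForm.heckeTLin 2 hℓ hℓN (wLin N d f) = a • wLin N d f := by
  rw [heckeTLin_wLin, hf, map_smul]

/-! ### `U_q g = 0` and `U_q (W g) = 0` for newforms, `q ^ 2 ∣ M` -/

/-- **`U_q g = 0`** for a Prelude newform `g` of level `M` and a prime `q` with `q ^ 2 ∣ M`
(`heckeULin` form). -/
theorem heckeULin_eq_zero_of_isNewform {M q : ℕ} [NeZero M] (hq : q.Prime) (h2 : q ^ 2 ∣ M)
    (hqM : q ∣ M) {g : CuspForm (Gamma0 M) 2} (hg : g.IsNewform) :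
    CuspForm.heckeULin 2 hqM g = 0 :=
  DFunLike.coe_injective (heckeU_eq_zero_of_isNewform_of_sq_dvd (NeZero.ne M) hq h2 hg)

/-- **`U_q (W_Q g) = 0`** for a Prelude newform `g` of level `M`, a prime `q` with `q ^ 2 ∣ M`
and ANY Atkin–Lehner operator `W_Q = wLin M d` (`Q ∥ M`; `Q = M` is the Fricke involution). -/
theorem heckeULin_wLin_eq_zero_of_isNewform {M Q q : ℕ} [NeZero M] (d : ALData M Q)
    (hq : q.Prime) (h2 : q ^ 2 ∣ M) (hqM : q ∣ M) {g : CuspForm (Gamma0 M) 2}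
    (hg : g.IsNewform) :
    CuspForm.heckeULin 2 hqM (wLin M d g) = 0 :=
  DFunLike.coe_injective (heckeU_eq_zero_of_eigen_of_sq_dvd (NeZero.ne M) hq h2 hg (wLin M d g)
    fun _ hℓ hℓN => heckeTLin_wLin_of_eigen d hℓ hℓN
      (Fermat.Agent.S29.helper7617.heckeTLin_apply_eq_smul hg.1 hℓ hℓN))

/-- Function form of `heckeULin_wLin_eq_zero_of_isNewform`: `U_q (g ∣[2] W_Q) = 0`. -/
theorem heckeU_slash_gl_eq_zero_of_isNewform {M Q q : ℕ} [NeZero M] (d : ALData M Q)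
    (hq : q.Prime) (h2 : q ^ 2 ∣ M) {g : CuspForm (Gamma0 M) 2} (hg : g.IsNewform) :
    heckeU 2 q (⇑g ∣[(2 : ℤ)] d.gl) = 0 :=
  heckeU_eq_zero_of_eigen_of_sq_dvd (NeZero.ne M) hq h2 hg (wLin M d g)
    fun _ hℓ hℓN => heckeTLin_wLin_of_eigen d hℓ hℓN
      (Fermat.Agent.S29.helper7617.heckeTLin_apply_eq_smul hg.1 hℓ hℓN)

/-- The `α`-trace of `W_Q g` vanishes as well. -/
theorem sum_slash_lowRep_wLin_eq_zero_of_isNewform {M Q q : ℕ} [NeZero M] (d : ALData M Q)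
    (hq : q.Prime) (h2 : q ^ 2 ∣ M) {g : CuspForm (Gamma0 M) 2} (hg : g.IsNewform) :
    ∑ j ∈ Finset.range q, (⇑g ∣[(2 : ℤ)] d.gl) ∣[(2 : ℤ)]
      (mapGL ℝ (lowRep (((M / q : ℕ) : ℤ) * j)) : GL (Fin 2) ℝ) = 0 :=
  sum_slash_lowRep_eq_zero_of_eigen_of_sq_dvd (NeZero.ne M) hq h2 hg (wLin M d g)
    fun _ hℓ hℓN => heckeTLin_wLin_of_eigen d hℓ hℓN
      (Fermat.Agent.S29.helper7617.heckeTLin_apply_eq_smul hg.1 hℓ hℓN)

end Fermat.Agent.S36.helper8619
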