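/-
S36, leaf F6-NORMRES (helper8998): the residue of a norm.

Abstract, Mathlib-only.  For a Dedekind domain `S`, finite free over a local ring `R` with
maximal ideal `p`, and `x : S`:

  `(Algebra.norm R x) mod p = ∏ over the primes P above p of  N_{(S/P)/(R/p)}(x mod P) ^ e(P)`.

The proof is "determinant of multiplication by `x` on `S / pS`, filtered by the ideals
`P₁ ⋯ Pᵢ`, every graded piece being one copy of `S / Pᵢ`".
-/
import Mathlib

set_option autoImplicit false

noncomputable section

namespace Fermat.Agent.S36.helper8998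

open Module

/-! ### Determinant of a scalar action -/

section DetSmul

variable (k : Type*) [Field k] {A : Type*} [CommRing A] [Algebra k A]

/-- The determinant over `k` of `m ↦ x • m` on an `A`-module `M`. -/
def detSmul (M : Type*) [AddCommGroup M] [Module k M] [Module A M] [IsScalarTower k A M]
    (x : A) : k :=
  LinearMap.det (Algebra.lsmul k k M x)

variable {k}
variable {M N : Type*} [AddCommGroup M] [Module k M] [Module A M] [IsScalarTower k A M]
  [AddCommGroup N] [Module k N] [Module A N] [IsScalarTower k A N]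

theorem detSmul_congr (e : M ≃ₗ[A] N) (x : A) : detSmul k M x = detSmul k N x := by
  unfold detSmul
  rw [← LinearMap.det_conj (Algebra.lsmul k k M x) (e.restrictScalars k)]
  congr 1
  ext n
  simp

theorem detSmul_of_subsingleton [Subsingleton M] (x : A) : detSmul k M x = 1 := by
  unfold detSmul
  have : Algebra.lsmul k k M x = 1 := Subsingleton.elim _ _
  rw [this, map_one]

theorem detSmul_eq_mul [Module.Finite k M] (W : Submodule A M) (x : A) :
    detSmul k M x = detSmul k W x * detSmul k (M ⧸ W) x := by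
  unfold detSmul
  have he : W.restrictScalars k ≤ (W.restrictScalars k).comap (Algebra.lsmul k k M x) := by
    intro w hw
    exact W.smul_mem x hw
  rw [LinearMap.det_eq_det_mul_det (W.restrictScalars k) (Algebra.lsmul k k M x) he]
  rfl

theorem detSmul_self (x : A) : detSmul k A x = Algebra.norm k x := by
  unfold detSmul
  rw [Algebra.norm_apply]
  congr 1

theorem detSmul_quotient (I : Ideal A) (x : A) :
    detSmul k (A ⧸ I) x = Algebra.norm k (Ideal.Quotient.mk I x) := by
  unfold detSmul
  rw [Algebra.norm_apply]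
  congr 1

/-- **One graded piece.**  If `𝔞 / 𝔞𝔮` is generated by the class of `a ∉ 𝔞𝔮` and `𝔮` is
maximal, then the determinant of `x` on `A / 𝔞𝔮` is the product of its determinants on `A / 𝔞`
and on `A / 𝔮`. -/
theorem detSmul_quotient_mul [Module.Finite k A] (𝔞 𝔮 : Ideal A) [h𝔮 : 𝔮.IsMaximal] (a : A)
    (ha : a ∈ 𝔞) (hgen : 𝔞 ≤ Ideal.span {a} ⊔ 𝔞 * 𝔮) (hna : a ∉ 𝔞 * 𝔮) (x : A) :
    detSmul k (A ⧸ (𝔞 * 𝔮)) x = detSmul k (A ⧸ 𝔞) x * detSmul k (A ⧸ 𝔮) x := by
  have hle : 𝔞 * 𝔮 ≤ 𝔞 := Ideal.mul_le_left
  set W : Submodule A (A ⧸ (𝔞 * 𝔮)) := Submodule.map (Submodule.mkQ (𝔞 * 𝔮)) 𝔞 with hW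
  rw [detSmul_eq_mul W x, mul_comm]
  congr 1
  · exact detSmul_congr (Submodule.quotientQuotientEquivQuotient (𝔞 * 𝔮) 𝔞 hle) x
  · -- `W ≃ A ⧸ 𝔮`
    have hw₀ : Submodule.mkQ (𝔞 * 𝔮) a ∈ W := Submodule.mem_map_of_mem ha
    set f : A →ₗ[A] W := LinearMap.toSpanSingleton A W ⟨_, hw₀⟩ with hf
    have hfa : ∀ y : A, ((f y : W) : A ⧸ (𝔞 * 𝔮)) = Submodule.mkQ (𝔞 * 𝔮) (y * a) := by
      intro y
      rfl
    have hsurj : Function.Surjective f := by
      rintro ⟨w, hw⟩
      obtain ⟨b, hb, rfl⟩ := Submodule.mem_map.mp hw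
      obtain ⟨c, hc, d, hd, rfl⟩ := Submodule.mem_sup.mp (hgen hb)
      obtain ⟨c, rfl⟩ := Ideal.mem_span_singleton'.mp hc
      refine ⟨c, Subtype.ext ?_⟩
      rw [hfa]
      simp only [Submodule.mkQ_apply]
      rw [eq_comm, ← sub_eq_zero, ← Submodule.Quotient.mk_sub, Submodule.Quotient.mk_eq_zero]
      simpa using hd
    have hker : LinearMap.ker f = 𝔮 := by
      symm
      apply h𝔮.eq_of_le
      · intro h
        have h1 : (1 : A) ∈ LinearMap.ker f := by rw [h]; trivial
        rw [LinearMap.mem_ker] at h1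
        have h2 := congrArg (fun w : W => (w : A ⧸ (𝔞 * 𝔮))) h1
        simp only [hfa, one_mul, Submodule.mkQ_apply, Submodule.coe_zero,
          Submodule.Quotient.mk_eq_zero] at h2
        exact hna h2
      · intro y hy
        rw [LinearMap.mem_ker]
        apply Subtype.ext
        rw [hfa]
        simp only [Submodule.mkQ_apply, Submodule.coe_zero, Submodule.Quotient.mk_eq_zero]
        rw [mul_comm y a]
        exact Ideal.mul_mem_mul ha hy
    exact (detSmul_congr ((Submodule.quotEquivOfEq _ _ hker).symm.trans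
      (f.quotKerEquivOfSurjective hsurj)) x).symm

end DetSmul

/-! ### Reduction of the norm modulo the maximal ideal of a local base -/

section Local

variable {R S : Type*} [CommRing R] [CommRing S] [Algebra R S] [IsLocalRing R]
  [Module.Free R S] [Module.Finite R S]

open IsLocalRing

local notation "p" => maximalIdeal R
local notation "pS" => Ideal.map (algebraMap R S) (maximalIdeal R)

attribute [local instance] Ideal.Quotient.field

/-- **(N1)** The norm commutes with reduction modulo the maximal ideal of a local base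
(norm twin of Mathlib's `Algebra.trace_quotient_mk`). -/
theorem norm_quotient_mk (x : S) :
    Algebra.norm (R ⧸ p) (Ideal.Quotient.mk pS x) = Ideal.Quotient.mk p (Algebra.norm R x) := by
  classical
  let ι := Module.Free.ChooseBasisIndex R S
  let b : Module.Basis ι R S := Module.Free.chooseBasis R S
  rw [Algebra.norm_eq_matrix_det b, Algebra.norm_eq_matrix_det (basisQuotient b),
    RingHom.map_det]
  congr 1
  ext i j
  simp only [Algebra.leftMulMatrix_apply, Algebra.coe_lmul_eq_mul, LinearMap.toMatrix_apply,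
    basisQuotient_apply, LinearMap.mul_apply', RingHom.mapMatrix_apply, Matrix.map_apply,
    ← map_mul, basisQuotient_repr]

/-- The determinant over `R ⧸ p` of multiplication by `x` on `S ⧸ I`, written inside
`S ⧸ pS` (meaningful for `pS ≤ I`). -/
def detQuot (x : S) (I : Ideal S) : R ⧸ p :=
  detSmul (R ⧸ p) ((S ⧸ pS) ⧸ I.map (Ideal.Quotient.mk pS)) (Ideal.Quotient.mk pS x)

omit [Module.Free R S] [Module.Finite R S] in
theorem detQuot_top (x : S) : detQuot (R := R) x ⊤ = 1 := by
  unfold detQuot
  have : Subsingleton ((S ⧸ pS) ⧸ (⊤ : Ideal S).map (Ideal.Quotient.mk pS)) := by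
    rw [Ideal.map_top]
    exact Ideal.Quotient.subsingleton_iff.mpr rfl
  exact detSmul_of_subsingleton _

theorem detQuot_self (x : S) :
    detQuot (R := R) x pS = Ideal.Quotient.mk p (Algebra.norm R x) := by
  unfold detQuot
  rw [← norm_quotient_mk, ← detSmul_self]
  have h : (pS).map (Ideal.Quotient.mk pS) = ⊥ := Ideal.map_quotient_self _
  exact detSmul_congr (Submodule.quotEquivOfEqBot _ h) _

section Dedekind

variable [IsDedekindDomain S]

theorem detQuot_mul (hpS : pS ≠ ⊥) (x : S) (I P : Ideal S) [hP : P.IsMaximal]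
    (hle : pS ≤ I * P) : detQuot (R := R) x (I * P) = detQuot x I * detQuot x P := by
  have hIP0 : I * P ≠ ⊥ := fun h => hpS (le_bot_iff.mp (h ▸ hle))
  have hI0 : I ≠ ⊥ := by
    rintro rfl
    exact hIP0 (by simp)
  obtain ⟨a, ha⟩ := IsDedekindDomain.exists_sup_span_eq (Ideal.mul_le_left : I * P ≤ I) hIP0
  have haI : a ∈ I := by
    rw [← ha]
    exact Ideal.mem_sup_right (Ideal.subset_span rfl)
  have hna : a ∉ I * P := by
    intro h
    have h1 : I * P = I := by
      apply le_antisymm Ideal.mul_le_left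
      calc I = I * P ⊔ Ideal.span {a} := ha.symm
        _ ≤ I * P := sup_le le_rfl ((Ideal.span_singleton_le_iff_mem _).mpr h)
    have h2 : P = ⊤ := by
      have h3 : I * P = I * ⊤ := by rw [h1, Ideal.mul_top]
      exact mul_left_cancel₀ hI0 h3
    exact hP.ne_top h2
  have hsurj : Function.Surjective (Ideal.Quotient.mk pS) := Ideal.Quotient.mk_surjective
  have hPmax : (P.map (Ideal.Quotient.mk pS)).IsMaximal := by
    refine (Ideal.map_eq_top_or_isMaximal_of_surjective _ hsurj hP).resolve_left ?_
    intro h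
    have h1 : (1 : S ⧸ pS) ∈ P.map (Ideal.Quotient.mk pS) := by rw [h]; trivial
    rw [← map_one (Ideal.Quotient.mk pS), Ideal.mem_quotient_iff_mem_sup] at h1
    have h2 : P ⊔ pS = P := sup_eq_left.mpr (hle.trans Ideal.mul_le_right)
    rw [h2] at h1
    exact hP.ne_top ((Ideal.eq_top_iff_one _).mpr h1)
  have : Module.Finite (R ⧸ p) (S ⧸ pS) :=
    Module.Finite.of_basis (basisQuotient (Module.Free.chooseBasis R S))
  unfold detQuot
  have hmul : (I * P).map (Ideal.Quotient.mk pS) =
      I.map (Ideal.Quotient.mk pS) * P.map (Ideal.Quotient.mk pS) := Ideal.map_mul _ _ _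
  rw [detSmul_congr (Submodule.quotEquivOfEq _ _ hmul)]
  refine detSmul_quotient_mul (k := R ⧸ p) (I.map (Ideal.Quotient.mk pS))
    (P.map (Ideal.Quotient.mk pS)) (Ideal.Quotient.mk pS a) (Ideal.mem_map_of_mem _ haI) ?_ ?_ _
  · rw [← hmul, ← Set.image_singleton, ← Ideal.map_span, ← Ideal.map_sup, sup_comm, ha]
  · rw [← hmul, Ideal.mem_quotient_iff_mem_sup, sup_eq_left.mpr hle]
    exact hna

theorem detQuot_multiset_prod (hpS : pS ≠ ⊥) (x : S) (s : Multiset (Ideal S))
    (hs : ∀ P ∈ s, P.IsMaximal) (hle : pS ≤ s.prod) :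
    detQuot (R := R) x s.prod = (s.map (detQuot x)).prod := by
  induction s using Multiset.induction with
  | empty =>
    simp only [Multiset.prod_zero, Multiset.map_zero]
    rw [Ideal.one_eq_top]
    exact detQuot_top x
  | cons P s ih =>
    have hP : P.IsMaximal := hs P (Multiset.mem_cons_self P s)
    rw [Multiset.prod_cons] at hle
    rw [Multiset.prod_cons, Multiset.map_cons, Multiset.prod_cons, mul_comm P,
      detQuot_mul hpS x s.prod P (by rwa [mul_comm]),
      ih (fun Q hQ => hs Q (Multiset.mem_cons_of_mem hQ)) (hle.trans Ideal.mul_le_right), mul_comm]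

theorem detQuot_prod_pow (hpS : pS ≠ ⊥) (x : S) {ι : Type*} [Fintype ι] (P : ι → Ideal S)
    (e : ι → ℕ) (hP : ∀ i, (P i).IsMaximal) (hfac : pS = ∏ i, P i ^ e i) :
    Ideal.Quotient.mk p (Algebra.norm R x) = ∏ i, detQuot (R := R) x (P i) ^ e i := by
  classical
  set s : Multiset (Ideal S) :=
    (Finset.univ : Finset ι).val.bind (fun i => Multiset.replicate (e i) (P i)) with hs
  have hprod : s.prod = ∏ i, P i ^ e i := by
    rw [hs, Multiset.prod_bind]
    simp only [Multiset.prod_replicate]
    rfl
  have hmem : ∀ Q ∈ s, Q.IsMaximal := by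
    intro Q hQ
    rw [hs, Multiset.mem_bind] at hQ
    obtain ⟨i, -, hi⟩ := hQ
    rw [Multiset.eq_of_mem_replicate hi]
    exact hP i
  have h1 := detQuot_multiset_prod hpS x s hmem (by rw [hprod, ← hfac])
  rw [hprod, ← hfac, detQuot_self] at h1
  rw [h1, hs, Multiset.map_bind, Multiset.prod_bind]
  simp only [Multiset.map_replicate, Multiset.prod_replicate]
  rfl

/-- **(N3b) Residue of the norm, for arbitrary residue models.**
`R` local, `S` a Dedekind domain finite free over `R`, `pS = ∏ Pᵢ ^ eᵢ` (the `Pᵢ` need not be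
distinct), `ρ : R → k` and `ρP i : S → κ i` surjections onto fields with kernels `p` and `Pᵢ`,
compatible with the algebra structures.  Then
`ρ (N_{S/R} x) = ∏ᵢ N_{κᵢ/k}(ρPᵢ x) ^ eᵢ`. -/
theorem residue_norm_eq_prod (hpS : pS ≠ ⊥) {k : Type*} [Field k] (ρ : R →+* k)
    (hρ : Function.Surjective ρ) {ι : Type*} [Fintype ι] (P : ι → Ideal S) (e : ι → ℕ)
    (hfac : pS = ∏ i, P i ^ e i) (κ : ι → Type*) [∀ i, Field (κ i)] [∀ i, Algebra k (κ i)]
    (ρP : ∀ i, S →+* κ i) (hsurj : ∀ i, Function.Surjective (ρP i))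
    (hker : ∀ i, RingHom.ker (ρP i) = P i)
    (hcompat : ∀ i (r : R), ρP i (algebraMap R S r) = algebraMap k (κ i) (ρ r)) (x : S) :
    ρ (Algebra.norm R x) = ∏ i, Algebra.norm k (ρP i x) ^ e i := by
  have hPmax : ∀ i, (P i).IsMaximal := fun i => by
    rw [← hker i]
    exact RingHom.ker_isMaximal_of_surjective _ (hsurj i)
  have hkρ : RingHom.ker ρ = p :=
    IsLocalRing.eq_maximalIdeal (RingHom.ker_isMaximal_of_surjective _ hρ)
  let e₁ : R ⧸ p ≃+* k :=
    (Ideal.quotEquivOfEq hkρ.symm).trans (RingHom.quotientKerEquivOfSurjective hρ)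
  have he₁ : ∀ r : R, e₁ (Ideal.Quotient.mk p r) = ρ r := fun r => rfl
  have hmain := detQuot_prod_pow hpS x P e hPmax hfac
  have hleP : ∀ i, pS ≤ P i := by
    intro i
    rw [Ideal.map_le_iff_le_comap]
    intro r hr
    rw [Ideal.mem_comap, ← hker i, RingHom.mem_ker, hcompat]
    have : ρ r = 0 := by
      rw [← RingHom.mem_ker, hkρ]
      exact hr
    rw [this, map_zero]
  have hdet : ∀ i, e₁ (detQuot (R := R) x (P i)) = Algebra.norm k (ρP i x) := by
    intro i
    let e₂ : ((S ⧸ pS) ⧸ (P i).map (Ideal.Quotient.mk pS)) ≃+* κ i :=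
      (DoubleQuot.quotQuotEquivQuotOfLE (hleP i)).trans
        ((Ideal.quotEquivOfEq (hker i).symm).trans
          (RingHom.quotientKerEquivOfSurjective (hsurj i)))
    have he₂ : ∀ y : S, e₂ (Ideal.Quotient.mk _ (Ideal.Quotient.mk pS y)) = ρP i y :=
      fun y => rfl
    have hcomm : (algebraMap k (κ i)).comp (e₁ : R ⧸ p →+* k) =
        (e₂ : _ →+* κ i).comp (algebraMap (R ⧸ p) ((S ⧸ pS) ⧸ (P i).map (Ideal.Quotient.mk pS))) := by
      apply Ideal.Quotient.ringHom_ext
      ext r
      simp only [RingHom.coe_comp, RingHom.coe_coe, Function.comp_apply, he₁]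
      rw [← hcompat]
      rfl
    unfold detQuot
    rw [detSmul_quotient, Algebra.norm_eq_of_equiv_equiv e₁ e₂ hcomm, RingEquiv.apply_symm_apply,
      he₂]
  rw [← he₁, hmain, map_prod]
  simp only [map_pow, hdet]

end Dedekind

omit [Module.Free R S] [Module.Finite R S] in
/-- The hypothesis `pS ≠ ⊥` of the formulas above: automatic when `R` is not a field and
`R → S` is injective. -/
theorem map_maximalIdeal_ne_bot (hp : p ≠ ⊥) (hinj : Function.Injective (algebraMap R S)) :
    pS ≠ ⊥ := by
  intro h
  apply hp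
  rw [eq_bot_iff]
  intro r hr
  have h1 : algebraMap R S r ∈ pS := Ideal.mem_map_of_mem _ hr
  rw [h, Ideal.mem_bot] at h1
  exact (Ideal.mem_bot).mpr (hinj (by rw [h1, map_zero]))

end Local

/-! ### Purely inseparable norms -/

section PurelyInseparable

/-- **(N4)** In a finite purely inseparable extension the norm is the `[L : K]`-th power. -/
theorem algebraMap_norm_eq_pow_of_isPurelyInseparable (K L : Type*) [Field K] [Field L]
    [Algebra K L] [FiniteDimensional K L] [IsPurelyInseparable K L] (y : L) :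
    algebraMap K L (Algebra.norm K y) = y ^ Module.finrank K L := by
  have hint : IsIntegral K y := IsIntegral.of_finite K y
  have h1 : (minpoly K y).natSepDegree = 1 :=
    (isPurelyInseparable_iff_natSepDegree_eq_one K).mp inferInstance y
  obtain ⟨n, hn⟩ := (minpoly.natSepDegree_eq_one_iff_eq_X_sub_C_pow (ringExpChar K)).mp h1
  have hdeg : (minpoly K y).natDegree = ringExpChar K ^ n := by
    rw [← Polynomial.natDegree_map (algebraMap K L), hn, Polynomial.natDegree_pow,
      Polynomial.natDegree_X_sub_C, mul_one]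
  have hsplit : ((minpoly K y).map (algebraMap K L)).Splits := by
    rw [hn]
    exact (Polynomial.Splits.X_sub_C y).pow _
  rw [Algebra.norm_eq_prod_roots L hsplit, Polynomial.aroots_def, hn, Polynomial.roots_pow,
    Polynomial.roots_X_sub_C, Multiset.prod_nsmul, Multiset.prod_singleton, ← pow_mul, ← hdeg,
    ← IntermediateField.adjoin.finrank hint, Module.finrank_mul_finrank]

end PurelyInseparable

/-! ### Fraction-field form -/

section FractionField

variable {A K L B : Type*} [CommRing A] [CommRing B] [Algebra A B] [Field K] [Field L]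
  [Algebra A K] [IsFractionRing A K] [Algebra K L] [Algebra A L] [IsScalarTower A K L]
  [Algebra B L] [IsScalarTower A B L] [IsIntegralClosure B A L] [FiniteDimensional K L]
  [IsDomain A] [IsIntegrallyClosed A] [IsDomain B] [IsIntegrallyClosed B]
  [Module.Free A B] [Module.Finite A B]

/-- **(N5)** For `B` the integral closure of `A` in `L`, finite free over `A`: the field norm
`N_{L/K}` of an element of `B` is the image of its norm over `A`. -/
theorem norm_algebraMap_eq (x : B) :
    Algebra.norm K (algebraMap B L x) = algebraMap A K (Algebra.norm A x) := by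
  have : Module.IsTorsionFree A B := inferInstance
  rw [← Algebra.algebraMap_intNorm (A := A) (K := K) (L := L) x, Algebra.intNorm_eq_norm]

end FractionField

end Fermat.Agent.S36.helper8998
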