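import Mathlib
import Fermat.Agent.S36.helper8998_NormResidue

/-!
# S36-F6-LIFT: the norm-residue formula in the LIFTED (valuation subring) vocabulary

Seat helper8998, board row S36-F6-LIFT (#2383).  Mathlib + `helper8998_NormResidue` only.

Setting: `V` a discrete valuation ring with fraction field `K` (uniformiser `π`), `L / K` a finite
separable extension, `W i` (`i : ι`, finite) pairwise distinct valuation subrings of `L` containing
`V`, numbers `e i ≥ 1` and elements `y i ∈ 𝔪(W i)` with `π ∈ y i ^ e i · W i`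
("`π` vanishes to order at least `e i` along `W i`"), and the count `[L : K] ≤ ∑ i, e i`.

Then (table data only, no residue field and no explicit conjugates are needed):

* `COMPLETE`: the `W i` are ALL the proper valuation subrings of `L` containing `V`;
* `INT`: an element lying in every `W i` is integral over `V`;
* `RES`: every residue extension is trivial: `W i = V + 𝔪(W i)`;
* `NR1`: if `x - a i ∈ 𝔪(W i)` with `a i ∈ V` for all `i`, then `N_{L/K}(x) ∈ V` and
  `N_{L/K}(x) - ∏ i, a i ^ e i ∈ 𝔪(V)`.

The proof: the integral closure `S` of `V` in `L` is a Dedekind domain, finite free over `V`;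
`W i = S_{P i}` for distinct maximal ideals `P i`; `π ∈ P i ^ e i`; the fundamental identity
`∑ e(P) f(P) = [L : K]` squeezes `e(P i) = e i`, `f(P i) = 1` and leaves no other prime; then
the norm formula for reductions `residue_norm_eq_prod` (N3b) and `norm_algebraMap_eq` (N5).
-/

set_option autoImplicit false

namespace Fermat.Agent.S36.helper8998

open IsLocalRing IsDedekindDomain

/-! ### Dictionary: valuation subrings of `L` over a Dedekind domain `S` and primes of `S` -/

section Dict

variable {S L : Type*} [CommRing S] [IsDedekindDomain S] [Field L] [Algebra S L]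
  [IsFractionRing S L]

/-- Membership in the localisation of a Dedekind domain at a prime, as a valuation subring. -/
theorem mem_valuationSubringAtPrime_iff (v : HeightOneSpectrum S) (x : L) :
    x ∈ v.valuationSubringAtPrime L ↔ v.valuation L x ≤ 1 := by
  rw [HeightOneSpectrum.valuationSubringAtPrime_eq_valuationSubring]
  exact Valuation.mem_valuationSubring_iff _ _

/-- The non-units of the localisation at a prime are the elements of valuation `< 1`. -/
theorem mem_nonunits_valuationSubringAtPrime_iff (v : HeightOneSpectrum S) (x : L) :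
    x ∈ (v.valuationSubringAtPrime L).nonunits ↔ v.valuation L x < 1 := by
  rw [HeightOneSpectrum.valuationSubringAtPrime_eq_valuationSubring,
    ValuationSubring.mem_nonunits_iff]
  exact ((Valuation.isEquiv_valuation_valuationSubring (v.valuation L)).lt_one_iff_lt_one).symm

/-- A proper valuation subring of the fraction field of a Dedekind domain `S` that contains `S`
is the localisation of `S` at a height-one prime. -/
theorem exists_valuationSubringAtPrime_eq_of_le (O : ValuationSubring L) (hO : O ≠ ⊤)
    (hS : ∀ s : S, algebraMap S L s ∈ O) :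
    ∃ v : HeightOneSpectrum S, v.valuationSubringAtPrime L = O := by
  let φ : S →+* O :=
    { toFun := fun c => ⟨algebraMap S L c, hS c⟩
      map_one' := Subtype.ext (map_one _)
      map_mul' := fun _ _ => Subtype.ext (map_mul _ _ _)
      map_zero' := Subtype.ext (map_zero _)
      map_add' := fun _ _ => Subtype.ext (map_add _ _ _) }
  have hinv : ∀ c : S, φ c ∉ maximalIdeal O → (algebraMap S L c)⁻¹ ∈ O := by
    intro c hc
    rw [IsLocalRing.mem_maximalIdeal, mem_nonunits_iff, not_not] at hc
    obtain ⟨u, hu⟩ := hc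
    have h1 : ((u⁻¹ : Oˣ) : O) * φ c = 1 := by rw [← hu]; simp
    have h2 := congrArg (fun z : O => (z : L)) h1
    simp only [MulMemClass.coe_mul, OneMemClass.coe_one] at h2
    have h3 : ((φ c : O) : L) = algebraMap S L c := rfl
    rw [h3] at h2
    have h4 : (algebraMap S L c)⁻¹ = ((u⁻¹ : Oˣ) : O) := (eq_inv_of_mul_eq_one_left h2).symm
    rw [h4]
    exact SetLike.coe_mem _
  let P₀ : Ideal S := Ideal.comap φ (maximalIdeal O)
  have hP₀ : P₀.IsPrime := Ideal.comap_isPrime φ _
  have hne : P₀ ≠ ⊥ := by
    intro hbot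
    apply hO
    rw [eq_top_iff]
    intro f _
    obtain ⟨a, b, hb, rfl⟩ := IsFractionRing.div_surjective (A := S) f
    have hb0 : b ≠ 0 := nonZeroDivisors.ne_zero hb
    have hbP : φ b ∉ maximalIdeal O := by
      intro hmem
      have : b ∈ P₀ := hmem
      rw [hbot] at this
      exact hb0 this
    rw [div_eq_mul_inv]
    exact mul_mem (hS a) (hinv b hbP)
  refine ⟨⟨P₀, hP₀, hne⟩, ?_⟩
  refine ValuationSubring.eq_of_le_of_ne_top _ ?_ hO
  rintro x ⟨a, s, hs, rfl⟩
  exact mul_mem (hS a) (hinv s hs)

/-- Elements of valuation `< 1` have valuation `≤ exp (-1)`; the power form. -/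
theorem valuation_pow_le_exp_neg (v : HeightOneSpectrum S) {y : L} (hy : v.valuation L y < 1)
    (e : ℕ) : v.valuation L y ^ e ≤ WithZero.exp (-(e : ℤ)) := by
  by_cases h0 : v.valuation L y = 0
  · rcases Nat.eq_zero_or_pos e with rfl | he
    · simp
    · rw [h0, zero_pow he.ne']; exact zero_le
  · have h1 : WithZero.log (v.valuation L y) < 0 := by
      rw [WithZero.log_lt_iff_lt_exp h0]; simpa using hy
    have h2 : v.valuation L y ≤ WithZero.exp (-1 : ℤ) :=
      WithZero.le_exp_of_log_le (by omega)
    calc v.valuation L y ^ e ≤ WithZero.exp (-1 : ℤ) ^ e := pow_le_pow_left₀ zero_le h2 e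
      _ = WithZero.exp (-(e : ℤ)) := by
        rw [← WithZero.exp_nsmul]; simp

end Dict

/-- An element integral over `R` lies in every valuation subring containing the image of `R`. -/
theorem mem_valuationSubring_of_isIntegral_of_forall_mem {R L : Type*} [CommRing R] [Field L]
    [Algebra R L] (W : ValuationSubring L) (hW : ∀ r : R, algebraMap R L r ∈ W) {x : L}
    (hx : IsIntegral R x) : x ∈ W := by
  let φ : R →+* W := (algebraMap R L).codRestrict W.toSubring hW
  obtain ⟨p, hp, hpx⟩ := hx
  have h1 : IsIntegral W x := by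
    refine ⟨p.map φ, hp.map φ, ?_⟩
    rw [Polynomial.eval₂_map]
    exact hpx
  obtain ⟨z, hz⟩ := IsIntegrallyClosed.algebraMap_eq_of_integral h1
  rw [← hz]
  exact z.2

/-! ### The structure theorem over an abstract integral closure -/

section Structure

variable {R K L S : Type*} [CommRing R] [IsDomain R] [IsDiscreteValuationRing R] [Field K]
  [Field L] [Algebra R K] [IsFractionRing R K] [Algebra K L] [Algebra R L] [IsScalarTower R K L]
  [CommRing S] [IsDedekindDomain S] [Algebra R S] [Algebra S L] [IsScalarTower R S L]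
  [IsIntegralClosure S R L] [IsFractionRing S L] [Module.Finite R S]

set_option linter.deprecated false in
/-- **Structure theorem.**  Distinct valuation subrings `W i` of `L` over the DVR `R` along which
the uniformiser `π` vanishes to order `≥ e i`, with `[L : K] ≤ ∑ e i`, are the localisations of
the integral closure `S` at ALL its maximal ideals `P i`, with `𝔭 S = ∏ P i ^ e i` and trivial
residue extensions. -/
theorem exists_primes_of_valuationSubrings {ι : Type*} [Fintype ι] (W : ι → ValuationSubring L)
    (hW : ∀ i (r : R), algebraMap R L r ∈ W i) (hinj : Function.Injective W)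
    (π : R) (hπ : maximalIdeal R = Ideal.span {π})
    (e : ι → ℕ) (he : ∀ i, 0 < e i) (y : ι → L) (hy : ∀ i, y i ∈ (W i).nonunits)
    (hyπ : ∀ i, ∃ w ∈ W i, algebraMap R L π = y i ^ e i * w)
    (hsum : Module.finrank K L ≤ ∑ i, e i) :
    ∃ v : ι → HeightOneSpectrum S,
      (∀ i, (v i).valuationSubringAtPrime L = W i) ∧
      (∀ Q : HeightOneSpectrum S, ∃ i, Q = v i) ∧
      (maximalIdeal R).map (algebraMap R S) = ∏ i, (v i).asIdeal ^ e i ∧
      (∀ i (s : S), ∃ r : R, s - algebraMap R S r ∈ (v i).asIdeal) := by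
  classical
  have hfaith : FaithfulSMul R L := FaithfulSMul.trans R K L
  have hfaithS : FaithfulSMul R S := by
    rw [faithfulSMul_iff_algebraMap_injective]
    intro a b hab
    apply FaithfulSMul.algebraMap_injective R L
    rw [IsScalarTower.algebraMap_apply R S L, hab, ← IsScalarTower.algebraMap_apply R S L]
  have htf : Module.IsTorsionFree R S := inferInstance
  have hint : Algebra.IsIntegral R S := IsIntegralClosure.isIntegral_algebra R L
  have hp0 : maximalIdeal R ≠ ⊥ := IsDiscreteValuationRing.not_a_field R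
  have hπ0 : π ≠ 0 := by
    rintro rfl
    apply hp0
    rw [hπ]
    exact Ideal.span_singleton_eq_bot.mpr rfl
  have hπL : algebraMap R L π ≠ 0 := by
    rwa [Ne, FaithfulSMul.algebraMap_eq_zero_iff]
  have hy0 : ∀ i, y i ≠ 0 := by
    intro i h0
    obtain ⟨w, -, hw⟩ := hyπ i
    rw [h0, zero_pow (he i).ne', zero_mul] at hw
    exact hπL hw
  have hWtop : ∀ i, W i ≠ ⊤ := by
    intro i htop
    have h1 := ((W i).mem_nonunits_iff_or.mp (hy i)).resolve_left (hy0 i)
    exact h1 (htop ▸ ValuationSubring.mem_top _)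
  have hSW : ∀ i (s : S), algebraMap S L s ∈ W i := fun i s =>
    mem_valuationSubring_of_isIntegral_of_forall_mem (W i) (hW i)
      ((IsIntegralClosure.isIntegral R L s).map (IsScalarTower.toAlgHom R S L))
  choose v hv using fun i => exists_valuationSubringAtPrime_eq_of_le (W i) (hWtop i) (hSW i)
  have hvinj : Function.Injective v := fun i j h => hinj (by rw [← hv i, ← hv j, h])
  have hvinj' : Function.Injective fun i => (v i).asIdeal := fun i j h =>
    hvinj (HeightOneSpectrum.ext h)
  -- the uniformiser vanishes to order `≥ e i` at `v i`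
  have hπpow : ∀ i, algebraMap R S π ∈ (v i).asIdeal ^ e i := by
    intro i
    rw [← HeightOneSpectrum.intValuation_le_pow_iff_mem,
      ← HeightOneSpectrum.valuation_of_algebraMap (K := L)]
    obtain ⟨w, hw, hπw⟩ := hyπ i
    show (v i).valuation L (algebraMap S L (algebraMap R S π)) ≤ WithZero.exp (-(e i : ℤ))
    rw [← IsScalarTower.algebraMap_apply R S L, hπw, map_mul, map_pow]
    have h1 : (v i).valuation L (y i) < 1 :=
      (mem_nonunits_valuationSubringAtPrime_iff (v i) _).mp (by rw [hv i]; exact hy i)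
    have h2 : (v i).valuation L w ≤ 1 :=
      (mem_valuationSubringAtPrime_iff (v i) _).mp (by rw [hv i]; exact hw)
    calc (v i).valuation L (y i) ^ e i * (v i).valuation L w
        ≤ (v i).valuation L (y i) ^ e i * 1 := mul_le_mul' le_rfl h2
      _ = (v i).valuation L (y i) ^ e i := mul_one _
      _ ≤ WithZero.exp (-(e i : ℤ)) := valuation_pow_le_exp_neg (v i) h1 (e i)
  have hπmem : ∀ i, algebraMap R S π ∈ (v i).asIdeal := fun i =>
    Ideal.pow_le_self (he i).ne' (hπpow i)
  have hpSspan : (maximalIdeal R).map (algebraMap R S) = Ideal.span {algebraMap R S π} := by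
    rw [hπ, Ideal.map_span, Set.image_singleton]
  have hpS : (maximalIdeal R).map (algebraMap R S) ≠ ⊥ := by
    rw [hpSspan, Ne, Ideal.span_singleton_eq_bot, FaithfulSMul.algebraMap_eq_zero_iff]
    exact hπ0
  have hle : ∀ i, maximalIdeal R ≤ (v i).asIdeal.comap (algebraMap R S) := by
    intro i
    rw [hπ, Ideal.span_le, Set.singleton_subset_iff]
    exact hπmem i
  have hlies : ∀ i, (v i).asIdeal.LiesOver (maximalIdeal R) := fun i =>
    ⟨(maximalIdeal.isMaximal R).eq_of_le
      (Ideal.IsPrime.ne_top (Ideal.comap_isPrime _ _)) (hle i)⟩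
  have hmemT : ∀ i, (v i).asIdeal ∈ IsDedekindDomain.primesOverFinset (maximalIdeal R) S :=
    fun i => (IsDedekindDomain.mem_primesOverFinset_iff hp0 S).mpr ⟨(v i).isPrime, hlies i⟩
  have hram : ∀ i, e i ≤ Ideal.ramificationIdx' (maximalIdeal R) (v i).asIdeal := by
    intro i
    rw [Ideal.IsDedekindDomain.ramificationIdx'_eq_multiplicity hpS (v i).isPrime]
    have hfin : FiniteMultiplicity (v i).asIdeal ((maximalIdeal R).map (algebraMap R S)) :=
      FiniteMultiplicity.of_not_isUnit
        (by rw [Ideal.isUnit_iff]; exact (v i).isPrime.ne_top) hpS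
    rw [← hfin.pow_dvd_iff_le_multiplicity, Ideal.dvd_iff_le, hpSspan, Ideal.span_le,
      Set.singleton_subset_iff]
    exact hπpow i
  have hinert : ∀ i, 0 < Ideal.inertiaDeg' (maximalIdeal R) (v i).asIdeal := fun i =>
    have := hlies i
    Ideal.inertiaDeg'_pos _ _
  -- the count
  set T := IsDedekindDomain.primesOverFinset (maximalIdeal R) S with hT
  set F : Ideal S → ℕ := fun Q =>
    Ideal.ramificationIdx' (maximalIdeal R) Q * Ideal.inertiaDeg' (maximalIdeal R) Q with hF
  have hfund : ∑ Q ∈ T, F Q = Module.finrank K L := Ideal.sum_ramification_inertia S K L hp0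
  set I : Finset (Ideal S) := Finset.univ.image fun i => (v i).asIdeal with hI
  have hIT : I ⊆ T := by
    intro Q hQ
    obtain ⟨i, -, rfl⟩ := Finset.mem_image.mp hQ
    exact hmemT i
  have hsumI : ∑ Q ∈ I, F Q = ∑ i, F (v i).asIdeal :=
    Finset.sum_image fun i _ j _ h => hvinj' h
  have hterm : ∀ i, e i ≤ F (v i).asIdeal := fun i =>
    (hram i).trans (Nat.le_mul_of_pos_right _ (hinert i))
  have h1 : ∑ i, e i ≤ ∑ i, F (v i).asIdeal := Finset.sum_le_sum fun i _ => hterm i
  have h2 : ∑ Q ∈ I, F Q ≤ ∑ Q ∈ T, F Q := Finset.sum_le_sum_of_subset hIT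
  have h3 : ∑ i, e i = ∑ i, F (v i).asIdeal := by omega
  have h4 : ∑ Q ∈ I, F Q = ∑ Q ∈ T, F Q := by omega
  have hFpos : ∀ Q ∈ T, 0 < F Q := by
    intro Q hQ
    obtain ⟨hQp, hQl⟩ := (IsDedekindDomain.mem_primesOverFinset_iff hp0 S).mp hQ
    have := hQp
    have := hQl
    exact Nat.mul_pos (Nat.pos_of_ne_zero
      (Ideal.IsDedekindDomain.ramificationIdx'_ne_zero_of_liesOver Q hp0))
      (Ideal.inertiaDeg'_pos _ _)
  have hTI : T ⊆ I := by
    intro Q hQ
    by_contra hQI
    have h5 : ∑ Q ∈ T \ I, F Q + ∑ Q ∈ I, F Q = ∑ Q ∈ T, F Q := Finset.sum_sdiff hIT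
    have h6 : F Q ≤ ∑ Q ∈ T \ I, F Q :=
      Finset.single_le_sum (f := F) (fun _ _ => Nat.zero_le _)
        (Finset.mem_sdiff.mpr ⟨hQ, hQI⟩)
    have := hFpos Q hQ
    omega
  have hterm_eq : ∀ i, e i = F (v i).asIdeal := fun i =>
    (Finset.sum_eq_sum_iff_of_le fun i _ => hterm i).mp h3 i (Finset.mem_univ i)
  have hram_eq : ∀ i, Ideal.ramificationIdx' (maximalIdeal R) (v i).asIdeal = e i := by
    intro i
    have h5 := hterm_eq i
    have h6 := hram i
    have h7 : Ideal.ramificationIdx' (maximalIdeal R) (v i).asIdeal ≤ F (v i).asIdeal :=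
      Nat.le_mul_of_pos_right _ (hinert i)
    omega
  have hinert_eq : ∀ i, Ideal.inertiaDeg' (maximalIdeal R) (v i).asIdeal = 1 := by
    intro i
    have h5 := hterm_eq i
    rw [hF] at h5
    simp only at h5
    rw [hram_eq i] at h5
    exact (Nat.eq_of_mul_eq_mul_left (he i) (by omega)).symm
  refine ⟨v, hv, ?_, ?_, ?_⟩
  · -- all primes
    intro Q
    have : Q.asIdeal.IsMaximal := Q.isMaximal
    have hQm : (Q.asIdeal.comap (algebraMap R S)).IsMaximal :=
      Ideal.isMaximal_comap_of_isIntegral_of_isMaximal Q.asIdeal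
    have hQT : Q.asIdeal ∈ T :=
      (IsDedekindDomain.mem_primesOverFinset_iff hp0 S).mpr
        ⟨Q.isPrime, ⟨(IsLocalRing.eq_maximalIdeal hQm).symm⟩⟩
    obtain ⟨i, -, hi⟩ := Finset.mem_image.mp (hTI hQT)
    exact ⟨i, HeightOneSpectrum.ext hi.symm⟩
  · -- factorisation
    have h5 : (maximalIdeal R).map (algebraMap R S)
        = (UniqueFactorizationMonoid.factors ((maximalIdeal R).map (algebraMap R S))).prod :=
      (associated_iff_eq.mp (UniqueFactorizationMonoid.factors_prod hpS)).symm
    have hTI' : T = I := Finset.Subset.antisymm hTI hIT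
    calc (maximalIdeal R).map (algebraMap R S)
        = (UniqueFactorizationMonoid.factors ((maximalIdeal R).map (algebraMap R S))).prod := h5
      _ = ∏ Q ∈ T, Q ^ (UniqueFactorizationMonoid.factors
            ((maximalIdeal R).map (algebraMap R S))).count Q := Finset.prod_multiset_count _
      _ = ∏ Q ∈ I, Q ^ (UniqueFactorizationMonoid.factors
            ((maximalIdeal R).map (algebraMap R S))).count Q := by rw [hTI']
      _ = ∏ i, (v i).asIdeal ^ (UniqueFactorizationMonoid.factors
            ((maximalIdeal R).map (algebraMap R S))).count (v i).asIdeal :=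
          Finset.prod_image fun i _ j _ h => hvinj' h
      _ = ∏ i, (v i).asIdeal ^ e i := by
          refine Finset.prod_congr rfl fun i _ => ?_
          rw [← Ideal.IsDedekindDomain.ramificationIdx'_eq_factors_count hpS (v i).isPrime
            (v i).ne_bot, hram_eq i]
  · -- trivial residue extensions
    intro i s
    have := hlies i
    let _ : Field (R ⧸ maximalIdeal R) := Ideal.Quotient.field _
    have : Nontrivial (S ⧸ (v i).asIdeal) := Ideal.Quotient.nontrivial_iff.mpr (v i).isPrime.ne_top
    have h5 : Module.finrank (R ⧸ maximalIdeal R) (S ⧸ (v i).asIdeal) = 1 := by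
      rw [← Ideal.inertiaDeg'_algebraMap]
      exact hinert_eq i
    have h6 : Function.Surjective (algebraMap (R ⧸ maximalIdeal R) (S ⧸ (v i).asIdeal)) :=
      Algebra.surjective_algebraMap_iff.mpr (Subalgebra.bot_eq_top_of_finrank_eq_one h5).symm
    obtain ⟨rbar, hr⟩ := h6 (Ideal.Quotient.mk _ s)
    obtain ⟨r, rfl⟩ := Ideal.Quotient.mk_surjective rbar
    refine ⟨r, ?_⟩
    rw [Ideal.Quotient.algebraMap_mk_of_liesOver] at hr
    exact Ideal.Quotient.eq.mp hr.symm

end Structure

/-! ### The lifted norm-residue formula over a DVR -/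

section Main

variable {R K L : Type*} [CommRing R] [IsDomain R] [IsDiscreteValuationRing R] [Field K] [Field L]
  [Algebra R K] [IsFractionRing R K] [Algebra K L] [Algebra R L] [IsScalarTower R K L]
  [FiniteDimensional K L] [Algebra.IsSeparable K L]

/-- **(F6-LIFT, DVR form).**  `R` a discrete valuation ring with uniformiser `π` and fraction field
`K`, `L / K` finite separable, `W i` pairwise distinct valuation subrings of `L` containing `R`
along which `π` vanishes to order `≥ e i ≥ 1` (`π ∈ y i ^ e i · W i`, `y i ∈ 𝔪(W i)`), and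
`[L : K] ≤ ∑ e i`.  Then:
* (COMPLETE) the `W i` are all the proper valuation subrings of `L` containing `R`;
* (INT) an element of all the `W i` is integral over `R`;
* (RES) `W i = R + 𝔪(W i)` (trivial residue extensions);
* (NR1) if `x - a i ∈ 𝔪(W i)` for all `i` (`a i ∈ R`), then `N_{L/K} x` is (the image of) an
  element `r` of `R` with `r - ∏ a i ^ e i ∈ 𝔪(R)`. -/
theorem norm_lift_dvr {ι : Type*} [Fintype ι] (W : ι → ValuationSubring L)
    (hW : ∀ i (r : R), algebraMap R L r ∈ W i) (hinj : Function.Injective W)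
    (π : R) (hπ : maximalIdeal R = Ideal.span {π})
    (e : ι → ℕ) (he : ∀ i, 0 < e i) (y : ι → L) (hy : ∀ i, y i ∈ (W i).nonunits)
    (hyπ : ∀ i, ∃ w ∈ W i, algebraMap R L π = y i ^ e i * w)
    (hsum : Module.finrank K L ≤ ∑ i, e i) :
    (∀ W' : ValuationSubring L, (∀ r : R, algebraMap R L r ∈ W') → W' ≠ ⊤ → ∃ i, W' = W i) ∧
    (∀ x : L, (∀ i, x ∈ W i) → IsIntegral R x) ∧
    (∀ i, ∀ x ∈ W i, ∃ a : R, x - algebraMap R L a ∈ (W i).nonunits) ∧
    (∀ (x : L) (a : ι → R), (∀ i, x - algebraMap R L (a i) ∈ (W i).nonunits) →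
      ∃ r : R, algebraMap R K r = Algebra.norm K x ∧ r - ∏ i, a i ^ e i ∈ maximalIdeal R) := by
  classical
  have _ : IsDedekindDomain (integralClosure R L) := integralClosure.isDedekindDomain R K L
  have _ : IsFractionRing (integralClosure R L) L :=
    integralClosure.isFractionRing_of_finite_extension K L
  have _ : Module.Finite R (integralClosure R L) := IsIntegralClosure.finite R K L _
  have hfaith : FaithfulSMul R L := FaithfulSMul.trans R K L
  have _ : Module.Free R (integralClosure R L) := inferInstance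
  obtain ⟨v, hv, hall, hfac, hres⟩ := exists_primes_of_valuationSubrings (K := K)
    (S := integralClosure R L) W hW hinj π hπ e he y hy hyπ hsum
  have hp0 : maximalIdeal R ≠ ⊥ := IsDiscreteValuationRing.not_a_field R
  have hinjS : Function.Injective (algebraMap R (integralClosure R L)) := by
    intro a b hab
    apply FaithfulSMul.algebraMap_injective R L
    rw [IsScalarTower.algebraMap_apply R (integralClosure R L) L, hab,
      ← IsScalarTower.algebraMap_apply R (integralClosure R L) L]
  have hpS : (maximalIdeal R).map (algebraMap R (integralClosure R L)) ≠ ⊥ :=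
    map_maximalIdeal_ne_bot hp0 hinjS
  have hpP : ∀ i, (maximalIdeal R).map (algebraMap R (integralClosure R L)) ≤ (v i).asIdeal :=
    fun i => by
      rw [hfac]
      exact (Ideal.prod_le_inf.trans (Finset.inf_le (Finset.mem_univ i))).trans
        (Ideal.pow_le_self (he i).ne')
  have hINT : ∀ x : L, (∀ i, x ∈ W i) →
      ∃ s : integralClosure R L, algebraMap (integralClosure R L) L s = x := by
    intro x hx
    exact HeightOneSpectrum.mem_integers_of_valuation_le_one L x fun Q => by
      obtain ⟨i, rfl⟩ := hall Q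
      exact (mem_valuationSubringAtPrime_iff (v i) x).mp (by rw [hv i]; exact hx i)
  refine ⟨?_, ?_, ?_, ?_⟩
  · -- (COMPLETE)
    intro W' hW' htop
    have hSW' : ∀ s : integralClosure R L, algebraMap (integralClosure R L) L s ∈ W' :=
      fun s => mem_valuationSubring_of_isIntegral_of_forall_mem W' hW' s.2
    obtain ⟨Q, hQ⟩ := exists_valuationSubringAtPrime_eq_of_le W' htop hSW'
    obtain ⟨i, rfl⟩ := hall Q
    exact ⟨i, by rw [← hQ, hv i]⟩
  · -- (INT)
    intro x hx
    obtain ⟨s, rfl⟩ := hINT x hx
    exact s.2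
  · -- (RES)
    intro i x hx
    have hx' : x ∈ (v i).valuationSubringAtPrime L := by rw [hv i]; exact hx
    obtain ⟨⟨a, s⟩, has⟩ := IsLocalization.surj (v i).asIdeal.primeCompl
      (⟨x, hx'⟩ : (v i).valuationSubringAtPrime L)
    have has' : x * algebraMap (integralClosure R L) L s
        = algebraMap (integralClosure R L) L a := by
      have h1 := congrArg (fun z : (v i).valuationSubringAtPrime L => (z : L)) has
      exact h1
    obtain ⟨ra, hra⟩ := hres i a
    obtain ⟨rs, hrs⟩ := hres i s
    have hrs_unit : IsUnit rs := by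
      by_contra hnu
      have h1 : rs ∈ maximalIdeal R := (IsLocalRing.mem_maximalIdeal rs).mpr hnu
      have h2 : algebraMap R (integralClosure R L) rs ∈ (v i).asIdeal :=
        hpP i (Ideal.mem_map_of_mem _ h1)
      have h3 : (s : integralClosure R L) ∈ (v i).asIdeal := by
        have h4 := (v i).asIdeal.add_mem hrs h2
        rwa [sub_add_cancel] at h4
      exact s.2 h3
    obtain ⟨u, hu⟩ := hrs_unit.exists_left_inv
    refine ⟨ra * u, ?_⟩
    rw [← hv i, mem_nonunits_valuationSubringAtPrime_iff]
    have hs1 : (v i).valuation L (algebraMap (integralClosure R L) L s) = 1 :=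
      (HeightOneSpectrum.valuation_eq_one_iff_notMem (v i)).mpr s.2
    have key : (x - algebraMap R L (ra * u)) * algebraMap (integralClosure R L) L s
        = algebraMap (integralClosure R L) L
            (a - algebraMap R (integralClosure R L) (ra * u) * s) := by
      rw [sub_mul, has', map_sub, map_mul (algebraMap (integralClosure R L) L),
        ← IsScalarTower.algebraMap_apply R (integralClosure R L) L]
    have hmem : a - algebraMap R (integralClosure R L) (ra * u) * s ∈ (v i).asIdeal := by
      have h1 : algebraMap R (integralClosure R L) (ra * u)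
          * algebraMap R (integralClosure R L) rs = algebraMap R (integralClosure R L) ra := by
        rw [← map_mul, mul_assoc, hu, mul_one]
      have h2 : a - algebraMap R (integralClosure R L) (ra * u) * s
          = (a - algebraMap R (integralClosure R L) ra)
            - algebraMap R (integralClosure R L) (ra * u)
              * (s - algebraMap R (integralClosure R L) rs) := by
        rw [mul_sub, h1]; ring
      rw [h2]
      exact Ideal.sub_mem _ hra (Ideal.mul_mem_left _ _ hrs)
    calc (v i).valuation L (x - algebraMap R L (ra * u))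
        = (v i).valuation L ((x - algebraMap R L (ra * u))
            * algebraMap (integralClosure R L) L s) := by
          rw [Valuation.map_mul, hs1, mul_one]
      _ = (v i).valuation L (algebraMap (integralClosure R L) L
            (a - algebraMap R (integralClosure R L) (ra * u) * s)) := by rw [key]
      _ < 1 := (HeightOneSpectrum.valuation_lt_one_iff_mem (v i) _).mpr hmem
  · -- (NR1)
    intro x a hxa
    have hxW : ∀ i, x ∈ W i := fun i => by
      have h1 : x - algebraMap R L (a i) ∈ W i := (W i).nonunits_subset (hxa i)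
      have h2 := hW i (a i)
      have h3 : x = (x - algebraMap R L (a i)) + algebraMap R L (a i) := by ring
      rw [h3]; exact add_mem h1 h2
    obtain ⟨s, rfl⟩ := hINT x hxW
    have hsP : ∀ i, s - algebraMap R (integralClosure R L) (a i) ∈ (v i).asIdeal := fun i => by
      rw [← HeightOneSpectrum.valuation_lt_one_iff_mem (K := L)]
      have h1 := (mem_nonunits_valuationSubringAtPrime_iff (v i) _).mp
        (by rw [hv i]; exact hxa i)
      rw [IsScalarTower.algebraMap_apply R (integralClosure R L) L, ← map_sub] at h1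
      exact h1
    let _ : Field (R ⧸ maximalIdeal R) := Ideal.Quotient.field _
    have hle : ∀ i, maximalIdeal R ≤ (v i).asIdeal.comap (algebraMap R (integralClosure R L)) :=
      fun i => Ideal.map_le_iff_le_comap.mp (hpP i)
    have hψbij : ∀ i, Function.Bijective
        (Ideal.quotientMap (v i).asIdeal (algebraMap R (integralClosure R L)) (hle i)) := by
      intro i
      have : Nontrivial (integralClosure R L ⧸ (v i).asIdeal) :=
        Ideal.Quotient.nontrivial_iff.mpr (v i).isPrime.ne_top
      refine ⟨RingHom.injective _, ?_⟩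
      intro z
      obtain ⟨s', rfl⟩ := Ideal.Quotient.mk_surjective z
      obtain ⟨r, hr⟩ := hres i s'
      exact ⟨Ideal.Quotient.mk _ r, by
        rw [Ideal.quotientMap_mk]; exact (Ideal.Quotient.eq.mpr hr).symm⟩
    let ρP : ∀ i, integralClosure R L →+* R ⧸ maximalIdeal R := fun i =>
      ((RingEquiv.ofBijective _ (hψbij i)).symm :
        integralClosure R L ⧸ (v i).asIdeal →+* R ⧸ maximalIdeal R).comp
        (Ideal.Quotient.mk (v i).asIdeal)
    have hcompat : ∀ i (r : R), ρP i (algebraMap R (integralClosure R L) r)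
        = Ideal.Quotient.mk (maximalIdeal R) r := fun i r => by
      show (RingEquiv.ofBijective _ (hψbij i)).symm
        (Ideal.Quotient.mk _ (algebraMap R (integralClosure R L) r)) = _
      rw [RingEquiv.symm_apply_eq, RingEquiv.ofBijective_apply, Ideal.quotientMap_mk]
    have hker : ∀ i, RingHom.ker (ρP i) = (v i).asIdeal := fun i => by
      show RingHom.ker (RingHom.comp _ _) = _
      rw [RingHom.ker_comp_of_injective _ (RingEquiv.injective _), Ideal.mk_ker]
    have hsurj : ∀ i, Function.Surjective (ρP i) := fun i => by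
      intro z
      obtain ⟨t, ht⟩ := Ideal.Quotient.mk_surjective ((RingEquiv.ofBijective _ (hψbij i)) z)
      exact ⟨t, by
        show (RingEquiv.ofBijective _ (hψbij i)).symm (Ideal.Quotient.mk _ t) = z
        rw [ht, RingEquiv.symm_apply_apply]⟩
    have key := residue_norm_eq_prod (R := R) (S := integralClosure R L) hpS
      (Ideal.Quotient.mk (maximalIdeal R)) Ideal.Quotient.mk_surjective
      (fun i => (v i).asIdeal) e hfac (fun _ => R ⧸ maximalIdeal R) ρP hsurj hker
      (fun i r => by rw [hcompat]; rfl) s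
    refine ⟨Algebra.norm R s,
      (norm_algebraMap_eq (A := R) (K := K) (L := L) (B := integralClosure R L) s).symm, ?_⟩
    rw [← Ideal.Quotient.eq, key, map_prod]
    refine Finset.prod_congr rfl fun i _ => ?_
    rw [map_pow, Algebra.norm_self, MonoidHom.id_apply]
    congr 1
    rw [← hcompat i (a i)]
    have h1 : s - algebraMap R (integralClosure R L) (a i) ∈ RingHom.ker (ρP i) := by
      rw [hker]; exact hsP i
    exact sub_eq_zero.mp (by rw [← map_sub]; exact h1)

end Main

/-! ### The lifted norm-residue formula for valuation subrings -/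

section VS

variable {K L : Type*} [Field K] [Field L] [Algebra K L] [FiniteDimensional K L]
  [Algebra.IsSeparable K L]

/-- **(F6-LIFT).**  `V` a discrete valuation subring of `K` with uniformiser `π`
(`𝔪(V) = π V`), `L / K` finite separable, `W i` pairwise distinct valuation subrings of `L`
containing `V` with `π ∈ y i ^ e i · W i` for some `y i ∈ 𝔪(W i)`, `e i ≥ 1`, and
`[L : K] ≤ ∑ e i`.  Then
* (COMPLETE) the `W i` are all the proper valuation subrings of `L` containing `V`;
* (INT) an element of all the `W i` is integral over `V`;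
* (RES) `W i ⊆ V + 𝔪(W i)`;
* (NR1) if `x - a i ∈ 𝔪(W i)` with `a i ∈ V` for all `i`, then `N_{L/K} x ∈ V` and
  `N_{L/K} x - ∏ i, a i ^ e i ∈ 𝔪(V)`. -/
theorem norm_lift (V : ValuationSubring K) [IsDiscreteValuationRing V] (π : K)
    (hπ : π ∈ V.nonunits) (hgen : ∀ a ∈ V.nonunits, ∃ b ∈ V, a = π * b)
    {ι : Type*} [Fintype ι] (W : ι → ValuationSubring L)
    (hWV : ∀ i, ∀ a ∈ V, algebraMap K L a ∈ W i) (hinj : Function.Injective W)
    (e : ι → ℕ) (he : ∀ i, 0 < e i) (y : ι → L) (hy : ∀ i, y i ∈ (W i).nonunits)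
    (hyπ : ∀ i, ∃ w ∈ W i, algebraMap K L π = y i ^ e i * w)
    (hsum : Module.finrank K L ≤ ∑ i, e i) :
    (∀ W' : ValuationSubring L, (∀ a ∈ V, algebraMap K L a ∈ W') → W' ≠ ⊤ → ∃ i, W' = W i) ∧
    (∀ x : L, (∀ i, x ∈ W i) → IsIntegral V x) ∧
    (∀ i, ∀ x ∈ W i, ∃ a ∈ V, x - algebraMap K L a ∈ (W i).nonunits) ∧
    (∀ (x : L) (a : ι → K), (∀ i, a i ∈ V) →
      (∀ i, x - algebraMap K L (a i) ∈ (W i).nonunits) →
      Algebra.norm K x ∈ V ∧ Algebra.norm K x - ∏ i, a i ^ e i ∈ V.nonunits) := by
  have hπV : π ∈ V := V.nonunits_subset hπ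
  have hmax : maximalIdeal V = Ideal.span {(⟨π, hπV⟩ : V)} := by
    ext a
    rw [Ideal.mem_span_singleton]
    constructor
    · intro ha
      obtain ⟨b, hb, hab⟩ := hgen _ (V.coe_mem_nonunits_iff.mpr ha)
      exact ⟨⟨b, hb⟩, Subtype.ext hab⟩
    · rintro ⟨b, rfl⟩
      exact Ideal.mul_mem_right _ _ (V.coe_mem_nonunits_iff.mp hπ)
  have hcoe : ∀ r : V, algebraMap V L r = algebraMap K L (r : K) := fun r => rfl
  obtain ⟨h1, h2, h3, h4⟩ := norm_lift_dvr (R := V) (K := K) (L := L) W
    (fun i r => by rw [hcoe]; exact hWV i r r.2) hinj ⟨π, hπV⟩ hmax e he y hy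
    (fun i => by simpa only [hcoe] using hyπ i) hsum
  refine ⟨?_, h2, ?_, ?_⟩
  · intro W' hW' htop
    exact h1 W' (fun r => by rw [hcoe]; exact hW' r r.2) htop
  · intro i x hx
    obtain ⟨a, ha⟩ := h3 i x hx
    exact ⟨a, a.2, ha⟩
  · intro x a ha hxa
    obtain ⟨r, hr, hr'⟩ := h4 x (fun i => ⟨a i, ha i⟩) hxa
    have hr2 : Algebra.norm K x = (r : K) := hr.symm
    refine ⟨hr2 ▸ r.2, ?_⟩
    have h5 := V.coe_mem_nonunits_iff.mpr hr'
    rw [hr2]
    convert h5 using 1
    push_cast
    rfl

/-- **(NR1) + (RES) for a split pair** — the shape consumed by the glueing step of S36: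
two distinct valuation subrings `Wa`, `Wm` of `L` over the discrete valuation subring `V` of `K`
(uniformiser `π`), `π ∈ 𝔪(Wa)`, `π ∈ T ^ (q - 1) · Wm` with `T ∈ 𝔪(Wm)`, and `[L : K] ≤ q`.
Then `Wa`, `Wm` are all the extensions of `V`, both residue extensions are trivial, and
`N_{L/K} f ≡ a₁ · a₂ ^ (q - 1)` modulo `𝔪(V)` whenever `f ≡ a₁` along `Wa` and `f ≡ a₂` along
`Wm`. -/
theorem norm_lift_pair (V : ValuationSubring K) [IsDiscreteValuationRing V] (π : K)
    (hπ : π ∈ V.nonunits) (hgen : ∀ a ∈ V.nonunits, ∃ b ∈ V, a = π * b)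
    (Wa Wm : ValuationSubring L) (hWa : ∀ a ∈ V, algebraMap K L a ∈ Wa)
    (hWm : ∀ a ∈ V, algebraMap K L a ∈ Wm) (hne : Wa ≠ Wm) (q : ℕ) (hq : 2 ≤ q)
    (hπa : algebraMap K L π ∈ Wa.nonunits) (T : L) (hT : T ∈ Wm.nonunits)
    (hTπ : ∃ w ∈ Wm, algebraMap K L π = T ^ (q - 1) * w) (hdeg : Module.finrank K L ≤ q) :
    (∀ W' : ValuationSubring L, (∀ a ∈ V, algebraMap K L a ∈ W') → W' ≠ ⊤ →
      W' = Wa ∨ W' = Wm) ∧
    (∀ x : L, x ∈ Wa → x ∈ Wm → IsIntegral V x) ∧
    (∀ x ∈ Wa, ∃ a ∈ V, x - algebraMap K L a ∈ Wa.nonunits) ∧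
    (∀ x ∈ Wm, ∃ a ∈ V, x - algebraMap K L a ∈ Wm.nonunits) ∧
    (∀ (f : L) (a₁ a₂ : K), a₁ ∈ V → a₂ ∈ V → f - algebraMap K L a₁ ∈ Wa.nonunits →
      f - algebraMap K L a₂ ∈ Wm.nonunits →
      Algebra.norm K f ∈ V ∧ Algebra.norm K f - a₁ * a₂ ^ (q - 1) ∈ V.nonunits) := by
  have hinj : Function.Injective (![Wa, Wm] : Fin 2 → ValuationSubring L) := by
    intro i j hij
    fin_cases i <;> fin_cases j
    · rfl
    · exact absurd hij hne
    · exact absurd hij.symm hne
    · rfl
  obtain ⟨h1, h2, h3, h4⟩ := norm_lift V π hπ hgen (![Wa, Wm] : Fin 2 → ValuationSubring L)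
    (fun i => by fin_cases i; exacts [hWa, hWm]) hinj ![1, q - 1]
    (fun i => by fin_cases i; exacts [Nat.one_pos, Nat.sub_pos_of_lt hq])
    ![algebraMap K L π, T]
    (fun i => by fin_cases i; exacts [hπa, hT])
    (fun i => by
      fin_cases i
      · exact ⟨1, Wa.one_mem, by simp⟩
      · exact hTπ)
    (by rw [Fin.sum_univ_two]; simp; omega)
  refine ⟨?_, ?_, ?_, ?_, ?_⟩
  · intro W' hW' htop
    obtain ⟨i, hi⟩ := h1 W' hW' htop
    fin_cases i
    · exact Or.inl hi
    · exact Or.inr hi
  · intro x hxa hxm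
    exact h2 x (fun i => by fin_cases i; exacts [hxa, hxm])
  · exact h3 0
  · exact h3 1
  · intro f a₁ a₂ ha₁ ha₂ hf₁ hf₂
    have h5 := h4 f ![a₁, a₂] (fun i => by fin_cases i; exacts [ha₁, ha₂])
      (fun i => by fin_cases i; exacts [hf₁, hf₂])
    rw [Fin.prod_univ_two] at h5
    simpa using h5

end VS

end Fermat.Agent.S36.helper8998
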