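import Mathlib
import Fermat.Agent.S36.helper1013_Vertical
import Fermat.Agent.S36.helper8998_NormLift

/-!
# S36-DEG-NORM: the two norm fields of a degeneracy datum from table data

Seat helper8998, board row S36-DEG-NORM.  Imports: the landed `helper1013_Vertical` (`IsOrd`) and
`helper8998_NormLift` / `helper8998_NormResidue` (Mathlib-only).

* `norm_insep_dvr`, `norm_insep_vs` — **(NR2), inseparable leg, table form**: `V` a discrete
  valuation subring of `K` whose residue characteristic is the prime `q`, `L / K` finite separable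
  of degree `≤ q`, `W` a valuation subring of `L` over `V`, and ONE witness `(a, y)`:
  `a ∈ V` is not a `q`-th power modulo `𝔪(V)` and `y ^ q ≡ a` modulo `𝔪(W)`.  Then `W` is the
  ONLY valuation subring of `L` over `V`, and `N_{L/K} h ∈ V`, `N_{L/K} h ≡ h ^ q` modulo `𝔪(W)`
  for every `h ∈ W`.
* `deg_norm_fields`, `deg_norm_fields_fin` — the fields `norm_split` and `norm_insep` of
  `helper36.DegData` (datum v2), VERBATIM, from the argument list of
  `helper6205.deg_ord_fields` / `deg_ord_fields_fin` (which gives `ord_split`, `ord_insep`,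
  `lift_a`, `lift_m`).

Proof of (NR2): the integral closure `S` of `V` in `L` is a Dedekind domain, `W = S_P`; the
witness gives an element `t` of `S / P` with `t ^ q = ā`, and `X ^ q - ā` is irreducible, so
`f(P) ≥ q`; `∑ e f = [L : K] ≤ q` leaves the single prime `P` with `e = 1`, `f = q`, and
`S / P = k(t)` is purely inseparable over `k`.  Then `residue_norm_eq_prod` (N3b) and
`algebraMap_norm_eq_pow_of_isPurelyInseparable` (N4) give `N s ≡ s ^ q` modulo `P` on `S`, and a
unit denominator carries this to `W`.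
-/

set_option autoImplicit false

namespace Fermat.Agent.S36.helper8998

open IsLocalRing IsDedekindDomain

/-! ### Field-level lemmas -/

section FieldLevel

open Polynomial IntermediateField

/-- An element whose `q`-th power is a non-`q`-th-power of the base field generates an extension
of degree `q`. -/
theorem le_finrank_of_pow_eq {k κ : Type*} [Field k] [Field κ] [Algebra k κ]
    [FiniteDimensional k κ] {q : ℕ} (hq : q.Prime) {c : k} (hc : ∀ b : k, b ^ q ≠ c)
    {t : κ} (ht : t ^ q = algebraMap k κ c) : q ≤ Module.finrank k κ := by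
  have hirr : Irreducible (X ^ q - C c : k[X]) := X_pow_sub_C_irreducible_of_prime hq hc
  have hmin : (X ^ q - C c : k[X]) = minpoly k t :=
    minpoly.eq_of_irreducible_of_monic hirr (by simp [ht]) (monic_X_pow_sub_C c hq.ne_zero)
  have h1 : (minpoly k t).natDegree ≤ Module.finrank k κ := minpoly.natDegree_le t
  rwa [← hmin, natDegree_X_pow_sub_C] at h1

/-- In characteristic `q`, an extension of degree `≤ q` containing a `q`-th root of a
non-`q`-th-power is purely inseparable. -/
theorem isPurelyInseparable_of_pow_eq {k κ : Type*} [Field k] [Field κ] [Algebra k κ]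
    [FiniteDimensional k κ] {q : ℕ} (hq : q.Prime) [ExpChar k q] {c : k}
    (hc : ∀ b : k, b ^ q ≠ c) {t : κ} (ht : t ^ q = algebraMap k κ c)
    (hfin : Module.finrank k κ ≤ q) : IsPurelyInseparable k κ := by
  have hirr : Irreducible (X ^ q - C c : k[X]) := X_pow_sub_C_irreducible_of_prime hq hc
  have hmin : (X ^ q - C c : k[X]) = minpoly k t :=
    minpoly.eq_of_irreducible_of_monic hirr (by simp [ht]) (monic_X_pow_sub_C c hq.ne_zero)
  have hint : IsIntegral k t := IsIntegral.of_finite k t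
  have hdeg : Module.finrank k k⟮t⟯ = q := by
    rw [IntermediateField.adjoin.finrank hint, ← hmin, natDegree_X_pow_sub_C]
  have htop : k⟮t⟯ = ⊤ :=
    IntermediateField.eq_of_le_of_finrank_le le_top
      (by rw [IntermediateField.finrank_top', hdeg]; exact hfin)
  have hpi : IsPurelyInseparable k k⟮t⟯ :=
    (IntermediateField.isPurelyInseparable_adjoin_simple_iff_pow_mem k κ q).mpr
      ⟨1, by rw [pow_one, ht]; exact ⟨c, rfl⟩⟩
  rw [isPurelyInseparable_iff_pow_mem k q]
  intro x
  have hx : x ∈ k⟮t⟯ := htop ▸ IntermediateField.mem_top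
  obtain ⟨n, b, hb⟩ := IsPurelyInseparable.pow_mem k q (⟨x, hx⟩ : k⟮t⟯)
  refine ⟨n, b, ?_⟩
  have := congrArg (Subtype.val) hb
  simpa using this

end FieldLevel

/-! ### (NR2) over a discrete valuation ring -/

section InsepMain

variable {R K L : Type*} [CommRing R] [IsDomain R] [IsDiscreteValuationRing R] [Field K] [Field L]
  [Algebra R K] [IsFractionRing R K] [Algebra K L] [Algebra R L] [IsScalarTower R K L]
  [FiniteDimensional K L] [Algebra.IsSeparable K L]

set_option linter.deprecated false in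
/-- **(NR2, DVR form).**  `R` a discrete valuation ring with uniformiser `π`, fraction field `K`
and residue characteristic the prime `q`; `L / K` finite separable of degree `≤ q`; `W` a
valuation subring of `L` containing `R` with `π ∈ 𝔪(W)`; `a ∈ R` not a `q`-th power modulo
`𝔪(R)` and `y ∈ L` with `y ^ q - a ∈ 𝔪(W)`.  Then
* (COMPLETE) `W` is the only proper valuation subring of `L` containing `R`;
* (NR2) for `h ∈ W`, `N_{L/K} h` is (the image of) an element `r` of `R` with
  `r - h ^ q ∈ 𝔪(W)`. -/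
theorem norm_insep_dvr (W : ValuationSubring L) (hW : ∀ r : R, algebraMap R L r ∈ W)
    (π : R) (hπ : maximalIdeal R = Ideal.span {π}) (hπW : algebraMap R L π ∈ W.nonunits)
    (q : ℕ) (hq : q.Prime) (hqR : (q : R) ∈ maximalIdeal R)
    (hdeg : Module.finrank K L ≤ q)
    (a : R) (hapow : ∀ b : R, b ^ q - a ∉ maximalIdeal R)
    (y : L) (hy : y ^ q - algebraMap R L a ∈ W.nonunits) :
    (∀ W' : ValuationSubring L, (∀ r : R, algebraMap R L r ∈ W') → W' ≠ ⊤ → W' = W) ∧
    (∀ h ∈ W, ∃ r : R, algebraMap R K r = Algebra.norm K h ∧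
      algebraMap R L r - h ^ q ∈ W.nonunits) := by
  classical
  have _ : IsDedekindDomain (integralClosure R L) := integralClosure.isDedekindDomain R K L
  have _ : IsFractionRing (integralClosure R L) L :=
    integralClosure.isFractionRing_of_finite_extension K L
  have _ : Module.Finite R (integralClosure R L) := IsIntegralClosure.finite R K L _
  have hfaith : FaithfulSMul R L := FaithfulSMul.trans R K L
  have _ : Module.Free R (integralClosure R L) := inferInstance
  have hp0 : maximalIdeal R ≠ ⊥ := IsDiscreteValuationRing.not_a_field R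
  have hinjS : Function.Injective (algebraMap R (integralClosure R L)) := by
    intro a b hab
    apply FaithfulSMul.algebraMap_injective R L
    rw [IsScalarTower.algebraMap_apply R (integralClosure R L) L, hab,
      ← IsScalarTower.algebraMap_apply R (integralClosure R L) L]
  have hfaithS : FaithfulSMul R (integralClosure R L) :=
    (faithfulSMul_iff_algebraMap_injective R (integralClosure R L)).mpr hinjS
  have htf : Module.IsTorsionFree R (integralClosure R L) := inferInstance
  have hpS : (maximalIdeal R).map (algebraMap R (integralClosure R L)) ≠ ⊥ :=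
    map_maximalIdeal_ne_bot hp0 hinjS
  have hπ0 : π ≠ 0 := by
    rintro rfl
    apply hp0
    rw [hπ]
    exact Ideal.span_singleton_eq_bot.mpr rfl
  have hπL : algebraMap R L π ≠ 0 := by
    rwa [Ne, FaithfulSMul.algebraMap_eq_zero_iff]
  have hWtop : W ≠ ⊤ := by
    intro htop
    have h1 := (W.mem_nonunits_iff_or.mp hπW).resolve_left hπL
    exact h1 (htop ▸ ValuationSubring.mem_top _)
  have hSW : ∀ s : integralClosure R L, algebraMap (integralClosure R L) L s ∈ W :=
    fun s => mem_valuationSubring_of_isIntegral_of_forall_mem W hW s.2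
  obtain ⟨v, hv⟩ := exists_valuationSubringAtPrime_eq_of_le W hWtop hSW
  -- dictionary for `W`
  have hmemW : ∀ x : L, x ∈ W ↔ v.valuation L x ≤ 1 := fun x => by
    rw [← hv]; exact mem_valuationSubringAtPrime_iff v x
  have hnuW : ∀ x : L, x ∈ W.nonunits ↔ v.valuation L x < 1 := fun x => by
    rw [← hv]; exact mem_nonunits_valuationSubringAtPrime_iff v x
  have hvalP : ∀ s : integralClosure R L,
      v.valuation L (algebraMap (integralClosure R L) L s) < 1 ↔ s ∈ v.asIdeal :=
    fun s => HeightOneSpectrum.valuation_lt_one_iff_mem v s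
  have hval1 : ∀ s : integralClosure R L, s ∉ v.asIdeal →
      v.valuation L (algebraMap (integralClosure R L) L s) = 1 :=
    fun s hs => (HeightOneSpectrum.valuation_eq_one_iff_notMem v).mpr hs
  have hπP : algebraMap R (integralClosure R L) π ∈ v.asIdeal := by
    rw [← hvalP, ← IsScalarTower.algebraMap_apply R (integralClosure R L) L]
    exact (hnuW _).mp hπW
  have hle : maximalIdeal R ≤ v.asIdeal.comap (algebraMap R (integralClosure R L)) := by
    rw [hπ, Ideal.span_le, Set.singleton_subset_iff]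
    exact hπP
  have hlies : v.asIdeal.LiesOver (maximalIdeal R) :=
    ⟨(maximalIdeal.isMaximal R).eq_of_le
      (Ideal.IsPrime.ne_top (Ideal.comap_isPrime _ _)) hle⟩
  have hPmax : v.asIdeal.IsMaximal := v.isMaximal
  let _ : Field (R ⧸ maximalIdeal R) := Ideal.Quotient.field _
  let _ : Field (integralClosure R L ⧸ v.asIdeal) := Ideal.Quotient.field _
  have hmk : ∀ r : R, algebraMap (R ⧸ maximalIdeal R) (integralClosure R L ⧸ v.asIdeal)
      (Ideal.Quotient.mk _ r) = Ideal.Quotient.mk _ (algebraMap R (integralClosure R L) r) :=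
    fun r => Ideal.Quotient.algebraMap_mk_of_liesOver _ _ r
  have hint : Algebra.IsIntegral R (integralClosure R L) :=
    IsIntegralClosure.isIntegral_algebra R L
  -- elements of `W` as fractions with denominator outside `P`
  have hfrac : ∀ x : L, x ∈ W → ∃ s₁ s₂ : integralClosure R L, s₂ ∉ v.asIdeal ∧
      x * algebraMap (integralClosure R L) L s₂ = algebraMap (integralClosure R L) L s₁ := by
    intro x hx
    have hx' : x ∈ v.valuationSubringAtPrime L := by rw [hv]; exact hx
    obtain ⟨⟨s₁, s₂⟩, has⟩ := IsLocalization.surj v.asIdeal.primeCompl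
      (⟨x, hx'⟩ : v.valuationSubringAtPrime L)
    exact ⟨s₁, s₂, s₂.2, congrArg (fun z : v.valuationSubringAtPrime L => (z : L)) has⟩
  -- the witness lies in `W`
  have hyW : y ∈ W := by
    rw [hmemW]
    by_contra hlt
    rw [not_le] at hlt
    have h1 : 1 < v.valuation L y ^ q := one_lt_pow₀ hlt hq.ne_zero
    have h2 : v.valuation L (y ^ q) ≤ 1 := by
      rw [← hmemW]
      have h3 : y ^ q = (y ^ q - algebraMap R L a) + algebraMap R L a := by ring
      rw [h3]
      exact add_mem (W.nonunits_subset hy) (hW a)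
    rw [map_pow] at h2
    exact absurd h2 (not_le.mpr h1)
  obtain ⟨s₁, s₂, hs₂, hys⟩ := hfrac y hyW
  have hkey : s₁ ^ q - algebraMap R (integralClosure R L) a * s₂ ^ q ∈ v.asIdeal := by
    rw [← hvalP]
    have h1 : algebraMap (integralClosure R L) L
        (s₁ ^ q - algebraMap R (integralClosure R L) a * s₂ ^ q)
        = (y ^ q - algebraMap R L a) * algebraMap (integralClosure R L) L s₂ ^ q := by
      rw [map_sub, map_mul, map_pow, map_pow, ← hys,
        ← IsScalarTower.algebraMap_apply R (integralClosure R L) L]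
      ring
    rw [h1, Valuation.map_mul, Valuation.map_pow, hval1 s₂ hs₂, one_pow, mul_one]
    exact (hnuW _).mp hy
  have hs₂0 : (Ideal.Quotient.mk v.asIdeal s₂) ≠ 0 := by
    rw [Ne, Ideal.Quotient.eq_zero_iff_mem]
    exact hs₂
  set t : integralClosure R L ⧸ v.asIdeal :=
    Ideal.Quotient.mk _ s₁ * (Ideal.Quotient.mk _ s₂)⁻¹ with ht
  have htq : t ^ q = algebraMap (R ⧸ maximalIdeal R) (integralClosure R L ⧸ v.asIdeal)
      (Ideal.Quotient.mk _ a) := by
    have h1 : Ideal.Quotient.mk v.asIdeal s₁ ^ q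
        = Ideal.Quotient.mk v.asIdeal (algebraMap R (integralClosure R L) a)
          * Ideal.Quotient.mk v.asIdeal s₂ ^ q := by
      rw [← map_pow, ← map_pow, ← map_mul]
      exact Ideal.Quotient.eq.mpr hkey
    rw [ht, mul_pow, h1, hmk, inv_pow, mul_assoc, mul_inv_cancel₀ (pow_ne_zero _ hs₂0), mul_one]
  have hc : ∀ b : R ⧸ maximalIdeal R, b ^ q ≠ Ideal.Quotient.mk _ a := by
    intro b hb
    obtain ⟨b₀, rfl⟩ := Ideal.Quotient.mk_surjective b
    rw [← map_pow] at hb
    exact hapow b₀ (Ideal.Quotient.eq.mp hb)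
  have hfq : q ≤ Module.finrank (R ⧸ maximalIdeal R) (integralClosure R L ⧸ v.asIdeal) :=
    le_finrank_of_pow_eq hq hc htq
  -- the count
  set T := IsDedekindDomain.primesOverFinset (maximalIdeal R) (integralClosure R L) with hT
  set F : Ideal (integralClosure R L) → ℕ := fun Q =>
    Ideal.ramificationIdx' (maximalIdeal R) Q * Ideal.inertiaDeg' (maximalIdeal R) Q with hF
  have hfund : ∑ Q ∈ T, F Q = Module.finrank K L :=
    Ideal.sum_ramification_inertia (integralClosure R L) K L hp0
  have hPT : v.asIdeal ∈ T :=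
    (IsDedekindDomain.mem_primesOverFinset_iff hp0 _).mpr ⟨v.isPrime, hlies⟩
  have hram1 : 1 ≤ Ideal.ramificationIdx' (maximalIdeal R) v.asIdeal :=
    Nat.pos_of_ne_zero (Ideal.IsDedekindDomain.ramificationIdx'_ne_zero_of_liesOver v.asIdeal hp0)
  have hinert : Ideal.inertiaDeg' (maximalIdeal R) v.asIdeal
      = Module.finrank (R ⧸ maximalIdeal R) (integralClosure R L ⧸ v.asIdeal) :=
    Ideal.inertiaDeg'_algebraMap _ _
  have hFP : F v.asIdeal = Ideal.ramificationIdx' (maximalIdeal R) v.asIdeal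
      * Module.finrank (R ⧸ maximalIdeal R) (integralClosure R L ⧸ v.asIdeal) := by
    rw [← hinert]
  have hFPq : q ≤ F v.asIdeal := by
    rw [hFP]
    calc q ≤ Module.finrank (R ⧸ maximalIdeal R) (integralClosure R L ⧸ v.asIdeal) := hfq
      _ = 1 * Module.finrank (R ⧸ maximalIdeal R) (integralClosure R L ⧸ v.asIdeal) :=
        (one_mul _).symm
      _ ≤ _ := Nat.mul_le_mul_right _ hram1
  have hFle : F v.asIdeal ≤ ∑ Q ∈ T, F Q :=
    Finset.single_le_sum (f := F) (fun _ _ => Nat.zero_le _) hPT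
  have hFeq : F v.asIdeal = q := by omega
  have hFpos : ∀ Q ∈ T, 0 < F Q := by
    intro Q hQ
    obtain ⟨hQp, hQl⟩ := (IsDedekindDomain.mem_primesOverFinset_iff hp0 _).mp hQ
    have := hQp
    have := hQl
    exact Nat.mul_pos (Nat.pos_of_ne_zero
      (Ideal.IsDedekindDomain.ramificationIdx'_ne_zero_of_liesOver Q hp0))
      (Ideal.inertiaDeg'_pos _ _)
  have hTsub : ∀ Q ∈ T, Q = v.asIdeal := by
    intro Q hQ
    by_contra hne
    have hsub : ({Q, v.asIdeal} : Finset (Ideal (integralClosure R L))) ⊆ T := by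
      intro x hx
      rcases Finset.mem_insert.mp hx with rfl | hx
      · exact hQ
      · rw [Finset.mem_singleton.mp hx]; exact hPT
    have h5 : F Q + F v.asIdeal ≤ ∑ Q ∈ T, F Q :=
      calc F Q + F v.asIdeal
          = ∑ x ∈ ({Q, v.asIdeal} : Finset (Ideal (integralClosure R L))), F x :=
            (Finset.sum_pair hne).symm
        _ ≤ ∑ x ∈ T, F x := Finset.sum_le_sum_of_subset hsub
    have := hFpos Q hQ
    omega
  have hram_eq : Ideal.ramificationIdx' (maximalIdeal R) v.asIdeal = 1 := by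
    have h5 : Ideal.ramificationIdx' (maximalIdeal R) v.asIdeal * q ≤ 1 * q := by
      calc Ideal.ramificationIdx' (maximalIdeal R) v.asIdeal * q
          ≤ Ideal.ramificationIdx' (maximalIdeal R) v.asIdeal
            * Module.finrank (R ⧸ maximalIdeal R) (integralClosure R L ⧸ v.asIdeal) :=
            Nat.mul_le_mul_left _ hfq
        _ = q := by rw [← hFP, hFeq]
        _ = 1 * q := (one_mul q).symm
    have h6 := Nat.le_of_mul_le_mul_right h5 hq.pos
    omega
  have hfeq : Module.finrank (R ⧸ maximalIdeal R) (integralClosure R L ⧸ v.asIdeal) = q := by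
    rw [hFP, hram_eq, one_mul] at hFeq
    exact hFeq
  have hall : ∀ Q : HeightOneSpectrum (integralClosure R L), Q = v := by
    intro Q
    have : Q.asIdeal.IsMaximal := Q.isMaximal
    have hQm : (Q.asIdeal.comap (algebraMap R (integralClosure R L))).IsMaximal :=
      Ideal.isMaximal_comap_of_isIntegral_of_isMaximal Q.asIdeal
    have hQT : Q.asIdeal ∈ T :=
      (IsDedekindDomain.mem_primesOverFinset_iff hp0 _).mpr
        ⟨Q.isPrime, ⟨(IsLocalRing.eq_maximalIdeal hQm).symm⟩⟩
    exact HeightOneSpectrum.ext (hTsub _ hQT)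
  have hTeq : T = {v.asIdeal} := Finset.eq_singleton_iff_unique_mem.mpr ⟨hPT, hTsub⟩
  have hfac : (maximalIdeal R).map (algebraMap R (integralClosure R L)) = v.asIdeal := by
    have h5 : (maximalIdeal R).map (algebraMap R (integralClosure R L))
        = (UniqueFactorizationMonoid.factors
            ((maximalIdeal R).map (algebraMap R (integralClosure R L)))).prod :=
      (associated_iff_eq.mp (UniqueFactorizationMonoid.factors_prod hpS)).symm
    calc (maximalIdeal R).map (algebraMap R (integralClosure R L))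
        = (UniqueFactorizationMonoid.factors
            ((maximalIdeal R).map (algebraMap R (integralClosure R L)))).prod := h5
      _ = ∏ Q ∈ T, Q ^ (UniqueFactorizationMonoid.factors
            ((maximalIdeal R).map (algebraMap R (integralClosure R L)))).count Q :=
          Finset.prod_multiset_count _
      _ = v.asIdeal ^ (UniqueFactorizationMonoid.factors
            ((maximalIdeal R).map (algebraMap R (integralClosure R L)))).count v.asIdeal := by
          rw [hTeq, Finset.prod_singleton]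
      _ = v.asIdeal := by
          rw [← Ideal.IsDedekindDomain.ramificationIdx'_eq_factors_count hpS v.isPrime v.ne_bot,
            hram_eq, pow_one]
  -- the residue extension is purely inseparable of degree `q`
  have hchar : CharP (R ⧸ maximalIdeal R) q := by
    refine (CharP.charP_iff_prime_eq_zero hq).mpr ?_
    have h1 : Ideal.Quotient.mk (maximalIdeal R) (q : R) = 0 :=
      Ideal.Quotient.eq_zero_iff_mem.mpr hqR
    rwa [map_natCast] at h1
  have hexp : ExpChar (R ⧸ maximalIdeal R) q := ExpChar.prime hq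
  have hpi : IsPurelyInseparable (R ⧸ maximalIdeal R) (integralClosure R L ⧸ v.asIdeal) :=
    isPurelyInseparable_of_pow_eq hq hc htq hfeq.le
  -- the norm is the `q`-th power modulo `P` on the integral closure
  have hres : ∀ s : integralClosure R L,
      algebraMap R (integralClosure R L) (Algebra.norm R s) - s ^ q ∈ v.asIdeal := by
    intro s
    have key := residue_norm_eq_prod (R := R) (S := integralClosure R L) hpS
      (Ideal.Quotient.mk (maximalIdeal R)) Ideal.Quotient.mk_surjective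
      (fun _ : Unit => v.asIdeal) (fun _ => 1) (by simp [hfac])
      (fun _ => integralClosure R L ⧸ v.asIdeal)
      (fun _ => Ideal.Quotient.mk v.asIdeal) (fun _ => Ideal.Quotient.mk_surjective)
      (fun _ => Ideal.mk_ker) (fun _ r => (hmk r).symm) s
    rw [Finset.prod_const, Finset.card_univ, Fintype.card_unit, pow_one, pow_one] at key
    have hN4 := algebraMap_norm_eq_pow_of_isPurelyInseparable (R ⧸ maximalIdeal R)
      (integralClosure R L ⧸ v.asIdeal) (Ideal.Quotient.mk v.asIdeal s)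
    rw [← key, hmk, hfeq, ← map_pow] at hN4
    exact Ideal.Quotient.eq.mp hN4
  refine ⟨?_, ?_⟩
  · -- (COMPLETE)
    intro W' hW' htop
    have hSW' : ∀ s : integralClosure R L, algebraMap (integralClosure R L) L s ∈ W' :=
      fun s => mem_valuationSubring_of_isIntegral_of_forall_mem W' hW' s.2
    obtain ⟨Q, hQ⟩ := exists_valuationSubringAtPrime_eq_of_le W' htop hSW'
    rw [← hQ, hall Q, hv]
  · -- (NR2)
    intro h hh
    obtain ⟨n₁, n₂, hn₂, hhs⟩ := hfrac h hh
    have hunit : IsUnit (Algebra.norm R n₂) := by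
      by_contra hnu
      have hmem : Algebra.norm R n₂ ∈ maximalIdeal R := (IsLocalRing.mem_maximalIdeal _).mpr hnu
      have h2 : algebraMap R (integralClosure R L) (Algebra.norm R n₂) ∈ v.asIdeal := hle hmem
      have h3 : n₂ ^ q ∈ v.asIdeal := by
        have h4 := v.asIdeal.sub_mem h2 (hres n₂)
        rwa [sub_sub_cancel] at h4
      exact hn₂ (v.isPrime.mem_of_pow_mem q h3)
    obtain ⟨u, hu⟩ := hunit.exists_right_inv
    refine ⟨Algebra.norm R n₁ * u, ?_, ?_⟩
    · have h1 : Algebra.norm K (algebraMap (integralClosure R L) L n₁)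
          = algebraMap R K (Algebra.norm R n₁) :=
        norm_algebraMap_eq (A := R) (K := K) (L := L) (B := integralClosure R L) n₁
      have h2 : Algebra.norm K (algebraMap (integralClosure R L) L n₂)
          = algebraMap R K (Algebra.norm R n₂) :=
        norm_algebraMap_eq (A := R) (K := K) (L := L) (B := integralClosure R L) n₂
      have h3 : Algebra.norm K h * Algebra.norm K (algebraMap (integralClosure R L) L n₂)
          = Algebra.norm K (algebraMap (integralClosure R L) L n₁) := by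
        rw [← map_mul, hhs]
      rw [h1, h2] at h3
      have h4 : algebraMap R K (Algebra.norm R n₂) * algebraMap R K u = 1 := by
        rw [← map_mul, hu, map_one]
      calc algebraMap R K (Algebra.norm R n₁ * u)
          = algebraMap R K (Algebra.norm R n₁) * algebraMap R K u := map_mul _ _ _
        _ = Algebra.norm K h * (algebraMap R K (Algebra.norm R n₂) * algebraMap R K u) := by
            rw [← h3, mul_assoc]
        _ = Algebra.norm K h := by rw [h4, mul_one]
    · rw [hnuW]
      have hz : algebraMap R (integralClosure R L) (Algebra.norm R n₁) * n₂ ^ q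
          - n₁ ^ q * algebraMap R (integralClosure R L) (Algebra.norm R n₂) ∈ v.asIdeal := by
        have e1 : algebraMap R (integralClosure R L) (Algebra.norm R n₁) * n₂ ^ q
            - n₁ ^ q * algebraMap R (integralClosure R L) (Algebra.norm R n₂)
            = (algebraMap R (integralClosure R L) (Algebra.norm R n₁) - n₁ ^ q) * n₂ ^ q
              - n₁ ^ q * (algebraMap R (integralClosure R L) (Algebra.norm R n₂) - n₂ ^ q) := by
          ring
        rw [e1]
        exact Ideal.sub_mem _ (Ideal.mul_mem_right _ _ (hres n₁))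
          (Ideal.mul_mem_left _ _ (hres n₂))
      have hden : algebraMap R (integralClosure R L) (Algebra.norm R n₂) * n₂ ^ q
          ∉ v.asIdeal := by
        intro hmem
        rcases v.isPrime.mem_or_mem hmem with h1 | h1
        · have h2 := Ideal.mul_mem_right (algebraMap R (integralClosure R L) u) _ h1
          rw [← map_mul, hu, map_one] at h2
          exact v.isPrime.ne_top ((Ideal.eq_top_iff_one _).mpr h2)
        · exact hn₂ (v.isPrime.mem_of_pow_mem q h1)
      have hid : (algebraMap R L (Algebra.norm R n₁ * u) - h ^ q)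
          * algebraMap (integralClosure R L) L
            (algebraMap R (integralClosure R L) (Algebra.norm R n₂) * n₂ ^ q)
          = algebraMap (integralClosure R L) L
            (algebraMap R (integralClosure R L) (Algebra.norm R n₁) * n₂ ^ q
              - n₁ ^ q * algebraMap R (integralClosure R L) (Algebra.norm R n₂)) := by
        have hA : algebraMap R L (Algebra.norm R n₂) * algebraMap R L u = 1 := by
          rw [← map_mul, hu, map_one]
        simp only [map_sub, map_mul, map_pow,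
          ← IsScalarTower.algebraMap_apply R (integralClosure R L) L]
        rw [← hhs]
        linear_combination (algebraMap R L (Algebra.norm R n₁)
          * algebraMap (integralClosure R L) L n₂ ^ q) * hA
      calc v.valuation L (algebraMap R L (Algebra.norm R n₁ * u) - h ^ q)
          = v.valuation L ((algebraMap R L (Algebra.norm R n₁ * u) - h ^ q)
            * algebraMap (integralClosure R L) L
              (algebraMap R (integralClosure R L) (Algebra.norm R n₂) * n₂ ^ q)) := by
            rw [Valuation.map_mul, hval1 _ hden, mul_one]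
        _ = v.valuation L (algebraMap (integralClosure R L) L
            (algebraMap R (integralClosure R L) (Algebra.norm R n₁) * n₂ ^ q
              - n₁ ^ q * algebraMap R (integralClosure R L) (Algebra.norm R n₂))) := by rw [hid]
        _ < 1 := (hvalP _).mpr hz

end InsepMain

/-! ### (NR2) for valuation subrings -/

section VSInsep

variable {K L : Type*} [Field K] [Field L] [Algebra K L] [FiniteDimensional K L]
  [Algebra.IsSeparable K L]

/-- **(NR2), inseparable leg, table form.**  `V` a discrete valuation subring of `K` with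
uniformiser `π` (`𝔪(V) = π V`) and residue characteristic the prime `q`; `L / K` finite separable
of degree `≤ q`; `W` a valuation subring of `L` containing `V` with `π ∈ 𝔪(W)`; ONE witness
`(a, y)`: `a ∈ V` is not a `q`-th power modulo `𝔪(V)` and `y ^ q - a ∈ 𝔪(W)`.  Then
* (COMPLETE) `W` is the only proper valuation subring of `L` containing `V`;
* (NR2) for every `h ∈ W`: `N_{L/K} h ∈ V` and `N_{L/K} h - h ^ q ∈ 𝔪(W)`. -/
theorem norm_insep_vs (V : ValuationSubring K) [IsDiscreteValuationRing V] (π : K)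
    (hπ : π ∈ V.nonunits) (hgen : ∀ a ∈ V.nonunits, ∃ b ∈ V, a = π * b)
    (W : ValuationSubring L) (hWV : ∀ a ∈ V, algebraMap K L a ∈ W)
    (hπW : algebraMap K L π ∈ W.nonunits) (q : ℕ) (hq : q.Prime) (hqV : (q : K) ∈ V.nonunits)
    (hdeg : Module.finrank K L ≤ q) (a : K) (ha : a ∈ V)
    (hapow : ∀ b ∈ V, b ^ q - a ∉ V.nonunits) (y : L)
    (hy : y ^ q - algebraMap K L a ∈ W.nonunits) :
    (∀ W' : ValuationSubring L, (∀ a ∈ V, algebraMap K L a ∈ W') → W' ≠ ⊤ → W' = W) ∧
    (∀ h ∈ W, Algebra.norm K h ∈ V ∧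
      algebraMap K L (Algebra.norm K h) - h ^ q ∈ W.nonunits) := by
  have hπV : π ∈ V := V.nonunits_subset hπ
  have hmax : maximalIdeal V = Ideal.span {(⟨π, hπV⟩ : V)} := by
    ext a
    rw [Ideal.mem_span_singleton]
    constructor
    · intro ha
      obtain ⟨b, hb, hab⟩ := hgen _ (V.coe_mem_nonunits_iff.mpr ha)
      exact ⟨⟨b, hb⟩, Subtype.ext hab⟩
    · rintro ⟨b, rfl⟩
      exact Ideal.mul_mem_right _ _ (V.coe_mem_nonunits_iff.mp hπ)
  have hcoe : ∀ r : V, algebraMap V L r = algebraMap K L (r : K) := fun r => rfl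
  have hqm : ((q : ℕ) : V) ∈ maximalIdeal V := by
    apply V.coe_mem_nonunits_iff.mp
    have h1 : (((q : ℕ) : V) : K) = (q : K) := by push_cast; rfl
    rw [h1]
    exact hqV
  obtain ⟨h1, h2⟩ := norm_insep_dvr (R := V) (K := K) (L := L) W
    (fun r => by rw [hcoe]; exact hWV r r.2) ⟨π, hπV⟩ hmax (by rw [hcoe]; exact hπW) q hq hqm
    hdeg ⟨a, ha⟩
    (fun b hb => hapow b b.2 (by
      have h3 := V.coe_mem_nonunits_iff.mpr hb
      have h4 : ((b ^ q - ⟨a, ha⟩ : V) : K) = (b : K) ^ q - a := by push_cast; rfl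
      rwa [h4] at h3))
    y (by rw [hcoe]; exact hy)
  refine ⟨?_, ?_⟩
  · intro W' hW' htop
    exact h1 W' (fun r => by rw [hcoe]; exact hW' r r.2) htop
  · intro h hh
    obtain ⟨r, hr, hr'⟩ := h2 h hh
    have hr2 : Algebra.norm K h = (r : K) := hr.symm
    refine ⟨hr2 ▸ r.2, ?_⟩
    rw [hr2]
    exact hr'

end VSInsep

/-! ### The norm fields of a degeneracy datum from table data -/

section DegFields

open Fermat.Agent.S36.helper1013 (IsOrd)

variable {F : Type*} [Field F]

/-- The non-units of a valuation subring are closed under negation. -/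
theorem neg_mem_nonunits {V : ValuationSubring F} {x : F} (hx : x ∈ V.nonunits) :
    -x ∈ V.nonunits := by
  rw [ValuationSubring.mem_nonunits_iff] at hx ⊢
  rwa [Valuation.map_neg]

/-- Non-units of a valuation subring with an order function are the elements of positive order. -/
theorem mem_nonunits_iff_ord_pos (V : ValuationSubring F) (ord : F → ℤ) (hord : IsOrd ord)
    (hmem : ∀ y : F, y ≠ 0 → (y ∈ V ↔ 0 ≤ ord y)) {y : F} (hy : y ≠ 0) :
    y ∈ V.nonunits ↔ 0 < ord y := by
  rw [V.mem_nonunits_iff_or]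
  constructor
  · intro h
    have h1 := h.resolve_left hy
    rw [hmem _ (inv_ne_zero hy), hord.map_inv hy] at h1
    omega
  · intro h
    right
    rw [hmem _ (inv_ne_zero hy), hord.map_inv hy]
    omega

/-- A normalised element generates the maximal ideal. -/
theorem exists_mul_of_mem_nonunits (V : ValuationSubring F) (ord : F → ℤ) (hord : IsOrd ord)
    (hmem : ∀ y : F, y ≠ 0 → (y ∈ V ↔ 0 ≤ ord y)) {ϖ : F} (hϖ0 : ϖ ≠ 0) (hϖ : ord ϖ = 1) :
    ∀ a ∈ V.nonunits, ∃ b ∈ V, a = ϖ * b := by
  intro a ha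
  by_cases ha0 : a = 0
  · exact ⟨0, V.zero_mem, by rw [ha0, mul_zero]⟩
  · have h1 := (mem_nonunits_iff_ord_pos V ord hord hmem ha0).mp ha
    have hb0 : ϖ⁻¹ * a ≠ 0 := mul_ne_zero (inv_ne_zero hϖ0) ha0
    refine ⟨ϖ⁻¹ * a, (hmem _ hb0).mpr ?_, ?_⟩
    · rw [hord.map_mul _ _ (inv_ne_zero hϖ0) ha0, hord.map_inv hϖ0, hϖ]
      omega
    · rw [← mul_assoc, mul_inv_cancel₀ hϖ0, one_mul]

/-- A valuation subring with a normalised order function is a discrete valuation ring. -/
theorem isDiscreteValuationRing_of_isOrd (V : ValuationSubring F) (ord : F → ℤ) (hord : IsOrd ord)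
    (hmem : ∀ y : F, y ≠ 0 → (y ∈ V ↔ 0 ≤ ord y)) {ϖ : F} (hϖ0 : ϖ ≠ 0) (hϖ : ord ϖ = 1) :
    IsDiscreteValuationRing V := by
  have hϖV : ϖ ∈ V := (hmem ϖ hϖ0).mpr (by omega)
  have hunit : ∀ x : V, (x : F) ≠ 0 → ord (x : F) = 0 → IsUnit x := by
    intro x hx0 hx
    have hinv : (x : F)⁻¹ ∈ V := (hmem _ (inv_ne_zero hx0)).mpr (by rw [hord.map_inv hx0]; omega)
    exact IsUnit.of_mul_eq_one ⟨(x : F)⁻¹, hinv⟩ (Subtype.ext (mul_inv_cancel₀ hx0))
  have hnn : ∀ x : V, (x : F) ≠ 0 → 0 ≤ ord (x : F) := fun x hx0 => (hmem _ hx0).mp x.2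
  refine IsDiscreteValuationRing.ofHasUnitMulPowIrreducibleFactorization
    ⟨⟨ϖ, hϖV⟩, ?_, ?_⟩
  · refine ⟨?_, ?_⟩
    · intro hu
      obtain ⟨b, hb⟩ := hu.exists_right_inv
      have hb' : ϖ * (b : F) = 1 := congrArg (fun z : V => (z : F)) hb
      have hb0 : (b : F) ≠ 0 := by
        rintro h0
        rw [h0, mul_zero] at hb'
        exact zero_ne_one hb'
      have h1 := hord.map_mul ϖ (b : F) hϖ0 hb0
      rw [hb', hord.map_one, hϖ] at h1
      have h2 := hnn b hb0
      omega
    · intro x z hxz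
      have hxz' : ϖ = (x : F) * (z : F) := congrArg (fun w : V => (w : F)) hxz
      have hx0 : (x : F) ≠ 0 := by
        rintro h0
        rw [h0, zero_mul] at hxz'
        exact hϖ0 hxz'
      have hz0 : (z : F) ≠ 0 := by
        rintro h0
        rw [h0, mul_zero] at hxz'
        exact hϖ0 hxz'
      have h1 := hord.map_mul (x : F) (z : F) hx0 hz0
      rw [← hxz', hϖ] at h1
      have h2 := hnn x hx0
      have h3 := hnn z hz0
      rcases Nat.lt_or_ge 0 (ord (x : F)).toNat with h4 | h4
      · right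
        exact hunit z hz0 (by omega)
      · left
        exact hunit x hx0 (by omega)
  · intro x hx
    have hx0 : (x : F) ≠ 0 := fun h0 => hx (Subtype.ext h0)
    have h2 := hnn x hx0
    set n : ℕ := (ord (x : F)).toNat with hn
    have hpow0 : ϖ ^ n ≠ 0 := pow_ne_zero n hϖ0
    have hu0 : (x : F) * (ϖ ^ n)⁻¹ ≠ 0 := mul_ne_zero hx0 (inv_ne_zero hpow0)
    have hord0 : ord ((x : F) * (ϖ ^ n)⁻¹) = 0 := by
      rw [hord.map_mul _ _ hx0 (inv_ne_zero hpow0), hord.map_inv hpow0, hord.map_pow hϖ0, hϖ]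
      omega
    have huV : (x : F) * (ϖ ^ n)⁻¹ ∈ V := (hmem _ hu0).mpr hord0.ge
    obtain ⟨u, hu⟩ := hunit ⟨(x : F) * (ϖ ^ n)⁻¹, huV⟩ hu0 hord0
    refine ⟨n, u, ?_⟩
    rw [hu]
    apply Subtype.ext
    push_cast
    field_simp

/-- **The norm fields of one degeneracy map from table data** — the companion of
`helper6205.deg_ord_fields` (same argument list plus `hq2`: the residue characteristic of `V2`
is `q`).

`ψ : F' → F` of degree `≤ q` (`q` prime) with norm `Nm`; above `V1` lie `Va` (`e = 1`) and `Vm`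
(`e = q - 1`), above `V2` lies `Vb` (`e = 1`), in the sense of the incidence fields `mem_a`,
`mem_m`, `mem_b`; all five carry order functions (`IsOrd` + membership, normalised), `π'` is a
common uniformiser of `V1, V2` whose image has orders `(1, q - 1, 1)`, `Va ≠ Vm`, and `(a, y)`
witnesses the inseparable residue extension of `Vb` over `V2` (`a` is not a `q`-th power modulo
`𝔪(V2)`, `y ^ q ≡ ψ a` modulo `𝔪(Vb)`).  CONCLUSIONS, verbatim the fields `norm_split` and
`norm_insep` of `helper36.DegData` (datum v2). -/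
theorem deg_norm_fields {F' F : Type*} [Field F'] [Field F] [CharZero F'] (ψ : F' →+* F)
    (Nm : F →* F') (hNm : ∀ h : F, Nm h = (letI := ψ.toAlgebra; Algebra.norm F' h))
    (hfin : letI := ψ.toAlgebra; FiniteDimensional F' F) (q : ℕ) (hq : q.Prime)
    (hdeg : letI := ψ.toAlgebra; Module.finrank F' F ≤ q)
    (Va Vm Vb : ValuationSubring F) (V1 V2 : ValuationSubring F')
    (orda ordm ordb : F → ℤ) (ord1 ord2 : F' → ℤ)
    (horda : IsOrd orda) (hordm : IsOrd ordm) (hordb : IsOrd ordb)
    (hord1 : IsOrd ord1) (hord2 : IsOrd ord2)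
    (hVa : ∀ y : F, y ≠ 0 → (y ∈ Va ↔ 0 ≤ orda y))
    (hVm : ∀ y : F, y ≠ 0 → (y ∈ Vm ↔ 0 ≤ ordm y))
    (hVb : ∀ y : F, y ≠ 0 → (y ∈ Vb ↔ 0 ≤ ordb y))
    (hV1 : ∀ y : F', y ≠ 0 → (y ∈ V1 ↔ 0 ≤ ord1 y))
    (hV2 : ∀ y : F', y ≠ 0 → (y ∈ V2 ↔ 0 ≤ ord2 y))
    (hsa : ∃ y : F, y ≠ 0 ∧ orda y = 1) (hsm : ∃ y : F, y ≠ 0 ∧ ordm y = 1)
    (hsb : ∃ y : F, y ≠ 0 ∧ ordb y = 1)
    (mem_a : ∀ a : F', ψ a ∈ Va ↔ a ∈ V1) (mem_m : ∀ a : F', ψ a ∈ Vm ↔ a ∈ V1)
    (mem_b : ∀ a : F', ψ a ∈ Vb ↔ a ∈ V2) (hne : Va ≠ Vm)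
    (π' : F') (hπ0 : π' ≠ 0) (hπ1 : ord1 π' = 1) (hπ2 : ord2 π' = 1)
    (hπa : orda (ψ π') = 1) (hπm : ordm (ψ π') = (q : ℤ) - 1) (hπb : ordb (ψ π') = 1)
    (hq2 : 0 < ord2 (q : F'))
    (a : F') (ha : a ∈ V2) (hapow : ∀ b : F', b ∈ V2 → b ^ q - a ∉ V2.nonunits)
    (y : F) (hy : y ^ q - ψ a ∈ Vb.nonunits) :
    (∀ h : F, h ∈ Va → h⁻¹ ∈ Va → h ∈ Vm → h⁻¹ ∈ Vm → ∀ a b : F', a ∈ V1 → b ∈ V1 →
        ψ a - h ∈ Va.nonunits → ψ b - h ∈ Vm.nonunits →
        Nm h - a * b ^ (q - 1) ∈ V1.nonunits) ∧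
      (∀ h : F, h ∈ Vb → h⁻¹ ∈ Vb → ψ (Nm h) - h ^ q ∈ Vb.nonunits) := by
  have _ := hsa
  have _ := hsb
  let _ := ψ.toAlgebra
  have : FiniteDimensional F' F := hfin
  have hψ : algebraMap F' F = ψ := RingHom.algebraMap_toAlgebra ψ
  have hNm' : ∀ h : F, Nm h = Algebra.norm F' h := hNm
  obtain ⟨ϖm, hϖm0, hϖm⟩ := hsm
  have hψπ0 : ψ π' ≠ 0 := (map_ne_zero ψ).mpr hπ0
  have hq0 : (q : F') ≠ 0 := Nat.cast_ne_zero.mpr hq.ne_zero
  have hdvr1 : IsDiscreteValuationRing V1 :=
    isDiscreteValuationRing_of_isOrd V1 ord1 hord1 hV1 hπ0 hπ1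
  have hdvr2 : IsDiscreteValuationRing V2 :=
    isDiscreteValuationRing_of_isOrd V2 ord2 hord2 hV2 hπ0 hπ2
  have hπV1 : π' ∈ V1.nonunits :=
    (mem_nonunits_iff_ord_pos V1 ord1 hord1 hV1 hπ0).mpr (by omega)
  have hπV2 : π' ∈ V2.nonunits :=
    (mem_nonunits_iff_ord_pos V2 ord2 hord2 hV2 hπ0).mpr (by omega)
  have hgen1 := exists_mul_of_mem_nonunits V1 ord1 hord1 hV1 hπ0 hπ1
  have hgen2 := exists_mul_of_mem_nonunits V2 ord2 hord2 hV2 hπ0 hπ2
  -- the split side
  have hTm : ϖm ∈ Vm.nonunits :=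
    (mem_nonunits_iff_ord_pos Vm ordm hordm hVm hϖm0).mpr (by omega)
  have hTπ : ∃ w ∈ Vm, algebraMap F' F π' = ϖm ^ (q - 1) * w := by
    have hpow0 : ϖm ^ (q - 1) ≠ 0 := pow_ne_zero _ hϖm0
    have hw0 : ψ π' * (ϖm ^ (q - 1))⁻¹ ≠ 0 := mul_ne_zero hψπ0 (inv_ne_zero hpow0)
    refine ⟨ψ π' * (ϖm ^ (q - 1))⁻¹, (hVm _ hw0).mpr ?_, ?_⟩
    · rw [hordm.map_mul _ _ hψπ0 (inv_ne_zero hpow0), hordm.map_inv hpow0,
        hordm.map_pow hϖm0, hϖm, hπm, Nat.cast_sub hq.one_le]
      simp
    · rw [hψ]
      field_simp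
  have hsplit := norm_lift_pair (K := F') (L := F) V1 π' hπV1 hgen1 Va Vm
    (fun a ha => by rw [hψ]; exact (mem_a a).mpr ha)
    (fun a ha => by rw [hψ]; exact (mem_m a).mpr ha) hne q hq.two_le
    (by rw [hψ]; exact (mem_nonunits_iff_ord_pos Va orda horda hVa hψπ0).mpr (by omega))
    ϖm hTm hTπ hdeg
  -- the inseparable side
  have hinsep := norm_insep_vs (K := F') (L := F) V2 π' hπV2 hgen2 Vb
    (fun a ha => by rw [hψ]; exact (mem_b a).mpr ha)
    (by rw [hψ]; exact (mem_nonunits_iff_ord_pos Vb ordb hordb hVb hψπ0).mpr (by omega))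
    q hq ((mem_nonunits_iff_ord_pos V2 ord2 hord2 hV2 hq0).mpr hq2) hdeg a ha hapow y
    (by rw [hψ]; exact hy)
  refine ⟨?_, ?_⟩
  · intro h _ _ _ _ a b haV hbV hah hbh
    have h1 := (hsplit.2.2.2.2 h a b haV hbV
      (by rw [hψ, ← neg_sub]; exact neg_mem_nonunits hah)
      (by rw [hψ, ← neg_sub]; exact neg_mem_nonunits hbh)).2
    rw [hNm']
    exact h1
  · intro h hh _
    have h1 := (hinsep.2 h hh).2
    rw [hψ] at h1
    rw [hNm']
    exact h1

/-- **The norm fields of a degeneracy map, in the indexing of `helper36.KillData`** — the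
companion of `helper6205.deg_ord_fields_fin`, with EXACTLY the same argument list.

`V : Fin 3 → ValuationSubring F`, `V' : Fin 2 → ValuationSubring F'` with order functions
`ord`, `ord'` as in `KillData` (fields `hord`, `hord'`, `mem_V`, `mem_V'`, `ord_surj`, `ord_ind`,
`ord'_q`); a degeneracy map `ψ` of degree `≤ q` with norm `Nm`; indices `(ia, im, ib; i1, i2)` —
`(0, 1, 2; 0, 1)` for `α` and `(2, 1, 0; 1, 0)` for `β` — with the incidence fields `mem_a`,
`mem_m`, `mem_b` and the orders `1, q - 1, 1` of `q` at `V ia, V im, V ib`; one witness `(a, y)`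
of the inseparable leg.  CONCLUSIONS: the fields `norm_split` and `norm_insep` of
`helper36.DegData q ψ Nm (V ia) (V im) (V ib) (V' i1) (V' i2) ..`, verbatim. -/
theorem deg_norm_fields_fin {F' F : Type*} [Field F'] [Field F] [CharZero F'] (ψ : F' →+* F)
    (Nm : F →* F') (hNm : ∀ h : F, Nm h = (letI := ψ.toAlgebra; Algebra.norm F' h))
    (hfin : letI := ψ.toAlgebra; FiniteDimensional F' F) (q : ℕ) (hq : q.Prime)
    (hdeg : letI := ψ.toAlgebra; Module.finrank F' F ≤ q)
    (V : Fin 3 → ValuationSubring F) (V' : Fin 2 → ValuationSubring F')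
    (ord : Fin 3 → F → ℤ) (ord' : Fin 2 → F' → ℤ)
    (hord : ∀ c, IsOrd (ord c)) (hord' : ∀ c, IsOrd (ord' c))
    (mem_V : ∀ (c : Fin 3) (y : F), y ≠ 0 → (y ∈ V c ↔ 0 ≤ ord c y))
    (mem_V' : ∀ (c : Fin 2) (y : F'), y ≠ 0 → (y ∈ V' c ↔ 0 ≤ ord' c y))
    (ord_surj : ∀ c, ∃ y : F, y ≠ 0 ∧ ord c y = 1)
    (ord_ind : ∀ i j, i ≠ j → ∃ y : F, y ≠ 0 ∧ 0 ≤ ord i y ∧ ord j y < 0)
    (ord'_q : ∀ c, ord' c (q : F') = 1)
    (ia im ib : Fin 3) (i1 i2 : Fin 2) (ham : ia ≠ im)
    (hqa : ord ia (q : F) = 1) (hqm : ord im (q : F) = (q : ℤ) - 1) (hqb : ord ib (q : F) = 1)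
    (mem_a : ∀ a : F', ψ a ∈ V ia ↔ a ∈ V' i1) (mem_m : ∀ a : F', ψ a ∈ V im ↔ a ∈ V' i1)
    (mem_b : ∀ a : F', ψ a ∈ V ib ↔ a ∈ V' i2)
    (a : F') (ha : a ∈ V' i2) (hapow : ∀ b : F', b ∈ V' i2 → b ^ q - a ∉ (V' i2).nonunits)
    (y : F) (hy : y ^ q - ψ a ∈ (V ib).nonunits) :
    (∀ h : F, h ∈ V ia → h⁻¹ ∈ V ia → h ∈ V im → h⁻¹ ∈ V im → ∀ a b : F', a ∈ V' i1 →
        b ∈ V' i1 → ψ a - h ∈ (V ia).nonunits → ψ b - h ∈ (V im).nonunits →
        Nm h - a * b ^ (q - 1) ∈ (V' i1).nonunits) ∧
      (∀ h : F, h ∈ V ib → h⁻¹ ∈ V ib → ψ (Nm h) - h ^ q ∈ (V ib).nonunits) := by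
  have hq0 : (q : F') ≠ 0 := Nat.cast_ne_zero.mpr hq.ne_zero
  have hne : V ia ≠ V im := by
    obtain ⟨z, hz0, hz1, hz2⟩ := ord_ind ia im ham
    intro h
    have h1 : z ∈ V ia := (mem_V ia z hz0).mpr hz1
    rw [h] at h1
    have := (mem_V im z hz0).mp h1
    omega
  exact deg_norm_fields ψ Nm hNm hfin q hq hdeg (V ia) (V im) (V ib) (V' i1) (V' i2)
    (ord ia) (ord im) (ord ib) (ord' i1) (ord' i2) (hord ia) (hord im) (hord ib)
    (hord' i1) (hord' i2) (mem_V ia) (mem_V im) (mem_V ib) (mem_V' i1) (mem_V' i2)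
    (ord_surj ia) (ord_surj im) (ord_surj ib) mem_a mem_m mem_b hne (q : F') hq0
    (ord'_q i1) (ord'_q i2) (by rw [map_natCast]; exact hqa) (by rw [map_natCast]; exact hqm)
    (by rw [map_natCast]; exact hqb) (by rw [ord'_q i2]; exact Int.one_pos) a ha hapow y hy

end DegFields

end Fermat.Agent.S36.helper8998
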