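import Fermat.Agent.S36.helper405_KillTerms
import Fermat.Agent.S36.helper6205_DegOrd
import Fermat.Agent.S36.helper6205_GaussWitness
import Fermat.Agent.S36.helper1359_NormLayer
import Fermat.Agent.S36.helper8998_DegNorm

/-!
# S36 KILL-INST, block DEG-VAL β (helper8998, sub-integrator)

On the concrete terms of `helper405_KillTerms`:

* `degVal_of_unif` — GENERIC, in the vocabulary of `helper405` (`IsUnifOf`, `UnitOf`, `ordOf`,
  `Deg.*`): for a degeneracy map `ψ` of degree `≤ q` whose norm is `Nm`, the uniformiser data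
  (`q` at `Va`, `Vb`, `V1`, `V2`; `T` with `T ^ (q - 1) / q` a unit at `Vm`), `Va ≠ Vm`, the three
  incidence tables and ONE witness of the inseparable leg give the six fields
  `Lift` (×2), `NormSplit`, `NormInsep`, `OrdSplit`, `OrdInsep`.
  (= `helper6205.deg_ord_fields` + `helper8998.deg_norm_fields`; serves `α` and `β`.)
* `beta_witness` — the witness `(j, j)` of the inseparable leg of `β` on `Vinf'`, `Vinf`
  (restriction to `K = ℚ̄^I` of `helper6205.gauss_beta_witness`).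
* `degVal_β_modular` — the seven `β`-fields `β_norm_map`, `β_lift_zero`, `β_lift_mid`,
  `β_norm_split`, `β_norm_insep`, `β_ord_split`, `β_ord_insep` of `helper405.KillInput`, from the
  ORD fields and the three `β` incidence tables of `KillInput` (hypotheses verbatim).
-/

set_option autoImplicit false

namespace Fermat.Agent.S36.helper8998

open ModularCurve AlgebraicCurve
open Fermat.Agent.S36.helper1013 (IsOrd IsUnifOf UnitOf)
open Fermat.Agent.S36.helper405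

/-! ### The generic six fields -/

/-- **The six valuation/norm fields of a degeneracy map from uniformiser data**, in the
vocabulary of `helper405_KillTerms`. -/
theorem degVal_of_unif {K F F' : Type*} [Field K] [Field F] [Field F'] [Algebra K F]
    [Algebra K F'] [CharZero F'] (q : ℕ) (hq : q.Prime) (ψ : F' →ₐ[K] F) (Nm : F →* F')
    (hNm : ∀ h : F, Nm h = (letI := (ψ : F' →+* F).toAlgebra; Algebra.norm F' h))
    (hfin : letI := (ψ : F' →+* F).toAlgebra; FiniteDimensional F' F)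
    (hdeg : letI := (ψ : F' →+* F).toAlgebra; Module.finrank F' F ≤ q)
    (Va Vm Vb : ValuationSubring F) (V1 V2 : ValuationSubring F')
    (hua : IsUnifOf Va (q : F))
    (hum : ∃ T : F, IsUnifOf Vm T ∧ UnitOf Vm (T ^ (q - 1) / (q : F)))
    (hub : IsUnifOf Vb (q : F)) (hu1 : IsUnifOf V1 (q : F')) (hu2 : IsUnifOf V2 (q : F'))
    (hne : Va ≠ Vm) (mem_a : Deg.MemOver ψ Va V1) (mem_m : Deg.MemOver ψ Vm V1)
    (mem_b : Deg.MemOver ψ Vb V2)
    (a : F') (ha : a ∈ V2) (hapow : ∀ b : F', b ∈ V2 → b ^ q - a ∉ V2.nonunits)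
    (y : F) (hy : y ^ q - ψ a ∈ Vb.nonunits) :
    Deg.Lift ψ Va V1 ∧ Deg.Lift ψ Vm V1 ∧ Deg.NormSplit q ψ Nm Va Vm V1 ∧
      Deg.NormInsep q ψ Nm Vb ∧ Deg.OrdSplit Nm (ordOf Va) (ordOf Vm) (ordOf V1) ∧
      Deg.OrdInsep q Nm (ordOf Vb) (ordOf V2) := by
  obtain ⟨T, hT, hTu⟩ := hum
  have hq0 : (q : F') ≠ 0 := Nat.cast_ne_zero.mpr hq.ne_zero
  have hq0F : (q : F) ≠ 0 := hua.ne_zero
  have hψq : (ψ : F' →+* F) (q : F') = (q : F) := map_natCast _ q
  have hπm : ordOf Vm ((ψ : F' →+* F) (q : F')) = (q : ℤ) - 1 := by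
    rw [hψq, ordOf_of_pow_div_unit hT (q - 1) hq0F hTu, Nat.cast_sub hq.one_le, Nat.cast_one]
  have hord := Fermat.Agent.S36.helper6205.deg_ord_fields (ψ : F' →+* F) Nm hNm hfin q hq hdeg
    Va Vm Vb V1 V2 (ordOf Va) (ordOf Vm) (ordOf Vb) (ordOf V1) (ordOf V2)
    (isOrd_ordOf hua) (isOrd_ordOf hT) (isOrd_ordOf hub) (isOrd_ordOf hu1) (isOrd_ordOf hu2)
    (fun _ hy => mem_iff_ordOf_nonneg hua hy) (fun _ hy => mem_iff_ordOf_nonneg hT hy)
    (fun _ hy => mem_iff_ordOf_nonneg hub hy) (fun _ hy => mem_iff_ordOf_nonneg hu1 hy)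
    (fun _ hy => mem_iff_ordOf_nonneg hu2 hy)
    ⟨(q : F), hq0F, ordOf_unif hua⟩ ⟨T, hT.ne_zero, ordOf_unif hT⟩ ⟨(q : F), hq0F, ordOf_unif hub⟩
    mem_a mem_m mem_b hne (q : F') hq0 (ordOf_unif hu1) (ordOf_unif hu2)
    (by rw [hψq]; exact ordOf_unif hua) hπm (by rw [hψq]; exact ordOf_unif hub)
    a ha hapow y hy
  have hnorm := deg_norm_fields (ψ : F' →+* F) Nm hNm hfin q hq hdeg
    Va Vm Vb V1 V2 (ordOf Va) (ordOf Vm) (ordOf Vb) (ordOf V1) (ordOf V2)
    (isOrd_ordOf hua) (isOrd_ordOf hT) (isOrd_ordOf hub) (isOrd_ordOf hu1) (isOrd_ordOf hu2)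
    (fun _ hy => mem_iff_ordOf_nonneg hua hy) (fun _ hy => mem_iff_ordOf_nonneg hT hy)
    (fun _ hy => mem_iff_ordOf_nonneg hub hy) (fun _ hy => mem_iff_ordOf_nonneg hu1 hy)
    (fun _ hy => mem_iff_ordOf_nonneg hu2 hy)
    ⟨(q : F), hq0F, ordOf_unif hua⟩ ⟨T, hT.ne_zero, ordOf_unif hT⟩ ⟨(q : F), hq0F, ordOf_unif hub⟩
    mem_a mem_m mem_b hne (q : F') hq0 (ordOf_unif hu1) (ordOf_unif hu2)
    (by rw [hψq]; exact ordOf_unif hua) hπm (by rw [hψq]; exact ordOf_unif hub)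
    (by rw [ordOf_unif hu2]; exact Int.one_pos) a ha hapow y hy
  exact ⟨hord.2.2.1, hord.2.2.2, hnorm.1, hnorm.2, hord.1, hord.2.1⟩

/-! ### The witness of the inseparable leg of `β` on the concrete terms -/

section Beta

variable (A : ValuationSubring (AlgebraicClosure ℚ)) (M₁ q : ℕ) [NeZero M₁] [NeZero q]

/-- `j` in the function field of level `N` over `K = ℚ̄^I`. -/
noncomputable abbrev jK (N : ℕ) [NeZero N] : FK A N :=
  Fermat.Agent.S36.helper6205.jElt (KI A) N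

theorem lh_jK (N : ℕ) [NeZero N] :
    lh A N (jK A N) = Fermat.Agent.S36.helper6205.jElt (AlgebraicClosure ℚ) N :=
  Subtype.ext (coeffMap_jqModC _)

omit [NeZero q] in
/-- The residue field of `A` has characteristic `q` when `A` lies over `q`. -/
theorem expChar_residueField (hq : q.Prime) (hA : A.LiesOverPrime q) :
    ExpChar (IsLocalRing.ResidueField A) q := by
  have hqm : ((q : ℕ) : A) ∈ IsLocalRing.maximalIdeal A := by
    apply A.coe_mem_nonunits_iff.mp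
    have h1 : (((q : ℕ) : A) : AlgebraicClosure ℚ) = (q : AlgebraicClosure ℚ) := by
      push_cast; rfl
    rw [h1]
    exact hA
  have hchar : CharP (IsLocalRing.ResidueField A) q := by
    refine (CharP.charP_iff_prime_eq_zero hq).mpr ?_
    have h1 : IsLocalRing.residue A ((q : ℕ) : A) = 0 :=
      (IsLocalRing.residue_eq_zero_iff _).mpr hqm
    rwa [map_natCast] at h1
  exact ExpChar.prime hq

/-- **The witness of the inseparable leg of `β`** on the concrete terms: `a := j ∈ v'_∞`,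
`y := j`: `j` is not a `q`-th power modulo `𝔪(v'_∞)` and `j ^ q ≡ β j` modulo `𝔪(v_∞)`. -/
theorem beta_witness (hq : q.Prime) (hA : A.LiesOverPrime q) :
    jK A M₁ ∈ Vinf' A M₁ ∧
      (∀ b : FK A M₁, b ∈ Vinf' A M₁ → b ^ q - jK A M₁ ∉ (Vinf' A M₁).nonunits) ∧
      jK A (M₁ * q) ^ q - βK A M₁ q (jK A M₁) ∈ (Vinf A M₁ q).nonunits := by
  have hexp : ExpChar (IsLocalRing.ResidueField A) q := expChar_residueField A q hq hA
  obtain ⟨w1, w2, w3⟩ := Fermat.Agent.S36.helper6205.gauss_beta_witness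
    (L := AlgebraicClosure ℚ) A (IsLocalRing.residue A) M₁ q hq.two_le
  exact Fermat.Agent.S36.helper6205.insep_witness_comap
    (βK A M₁ q : FK A M₁ →+* FK A (M₁ * q))
    (heckeBetaBar (AlgebraicClosure ℚ) M₁ q :
      ↥(laurentBaseChange (AlgebraicClosure ℚ) (modularFunctionFieldFull M₁)) →+*
        ↥(laurentBaseChange (AlgebraicClosure ℚ) (modularFunctionFieldFull (M₁ * q))))
    (lh A M₁) (lh A (M₁ * q))
    (fun x => Fermat.Agent.S37.helper5651.layerHom_heckeBetaBar M₁ q _ x)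
    (Fermat.Agent.S18.helper8991.gaussF A (IsLocalRing.residue A) M₁)
    (Fermat.Agent.S18.helper8991.gaussF A (IsLocalRing.residue A) (M₁ * q)) q
    (jK A M₁) (by rw [lh_jK]; exact w1) (by rw [lh_jK]; exact w2)
    (jK A (M₁ * q)) (by rw [lh_jK, lh_jK]; exact w3)

/-- **Block DEG-VAL β of `helper405.KillInput`**: the seven fields `β_norm_map`, `β_lift_zero`,
`β_lift_mid`, `β_norm_split`, `β_norm_insep`, `β_ord_split`, `β_ord_insep` (verbatim), from the
ORD fields `unif_zero`, `unif_mid`, `unif_inf`, `unif_zero'`, `unif_inf'`, `ne_mid_zero` and the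
incidence tables `β_mem_zero`, `β_mem_mid`, `β_mem_inf` (verbatim).  Discharged inside:
`N_β` is the field norm, `β` is finite of degree `q` over `K = ℚ̄^I`, and the witness `(j, j)` of
the inseparable leg. -/
theorem degVal_β_modular (hq : q.Prime) (hqM : q ∣ M₁) (hq2 : ¬ q ^ 2 ∣ M₁)
    (hA : A.LiesOverPrime q)
    (unif_zero : IsUnifOf (Vzero A M₁ q hq hqM hq2) (q : FK A (M₁ * q)))
    (unif_mid : ∃ T : FK A (M₁ * q), IsUnifOf (Vmid A M₁ q hq hqM hq2) T ∧
      UnitOf (Vmid A M₁ q hq hqM hq2) (T ^ (q - 1) / (q : FK A (M₁ * q))))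
    (unif_inf : IsUnifOf (Vinf A M₁ q) (q : FK A (M₁ * q)))
    (unif_zero' : IsUnifOf (Vzero' A M₁ q hq hqM hq2) (q : FK A M₁))
    (unif_inf' : IsUnifOf (Vinf' A M₁) (q : FK A M₁))
    (ne_mid_zero : Vmid A M₁ q hq hqM hq2 ≠ Vzero A M₁ q hq hqM hq2)
    (β_mem_zero : Deg.MemOver (βK A M₁ q) (Vzero A M₁ q hq hqM hq2)
      (Vzero' A M₁ q hq hqM hq2))
    (β_mem_mid : Deg.MemOver (βK A M₁ q) (Vmid A M₁ q hq hqM hq2) (Vzero' A M₁ q hq hqM hq2))
    (β_mem_inf : Deg.MemOver (βK A M₁ q) (Vinf A M₁ q) (Vinf' A M₁)) :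
    Deg.NormMap q (βK A M₁ q) (NβK A M₁ q) ∧
      Deg.Lift (βK A M₁ q) (Vzero A M₁ q hq hqM hq2) (Vzero' A M₁ q hq hqM hq2) ∧
      Deg.Lift (βK A M₁ q) (Vmid A M₁ q hq hqM hq2) (Vzero' A M₁ q hq hqM hq2) ∧
      Deg.NormSplit q (βK A M₁ q) (NβK A M₁ q) (Vzero A M₁ q hq hqM hq2)
        (Vmid A M₁ q hq hqM hq2) (Vzero' A M₁ q hq hqM hq2) ∧
      Deg.NormInsep q (βK A M₁ q) (NβK A M₁ q) (Vinf A M₁ q) ∧
      Deg.OrdSplit (NβK A M₁ q) (ordOf (Vzero A M₁ q hq hqM hq2))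
        (ordOf (Vmid A M₁ q hq hqM hq2)) (ordOf (Vzero' A M₁ q hq hqM hq2)) ∧
      Deg.OrdInsep q (NβK A M₁ q) (ordOf (Vinf A M₁ q)) (ordOf (Vinf' A M₁)) := by
  have hchar0 : CharZero (FK A M₁) :=
    Fermat.Agent.S36.helper6205.charZero_laurentBaseChange (KI A) (modularFunctionFieldFull M₁)
  obtain ⟨w1, w2, w3⟩ := beta_witness A M₁ q hq hA
  have hdegq := Fermat.Agent.S36.helper1359.finrankAlong_heckeBetaBar_of_dvd_layer
    (algebraMap (KI A) (AlgebraicClosure ℚ)) M₁ q hq hqM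
  have hfin := Fermat.Agent.S36.helper1359.finiteAlong_heckeBetaBar_of_dvd_layer
    (algebraMap (KI A) (AlgebraicClosure ℚ)) M₁ q hq hqM
  have h6 := degVal_of_unif q hq (βK A M₁ q) (NβK A M₁ q) (fun _ => rfl) hfin hdegq.le
    (Vzero A M₁ q hq hqM hq2) (Vmid A M₁ q hq hqM hq2) (Vinf A M₁ q)
    (Vzero' A M₁ q hq hqM hq2) (Vinf' A M₁) unif_zero unif_mid unif_inf unif_zero' unif_inf'
    ne_mid_zero.symm β_mem_zero β_mem_mid β_mem_inf (jK A M₁) w1 w2 (jK A (M₁ * q)) w3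
  refine ⟨fun a => ?_, h6⟩
  exact Fermat.Agent.S36.helper1359.normAlong_heckeBetaBar_apply_self
    (algebraMap (KI A) (AlgebraicClosure ℚ)) M₁ q hq hqM a

end Beta

end Fermat.Agent.S36.helper8998
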