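import Fermat.Agent.S36.helper412_InstUnif
import Fermat.Agent.S36.helper8998_DegValAlpha

/-!
# S36 KILL-INST: the fourteen DEG-VAL fields of `helper405.KillInput`, hypothesis-free (helper8998)

`helper8998.degVal_α_modular` / `degVal_β_modular` applied to the landed block UNIF
(`helper412_InstUnif`) and the landed incidence tables (`helper405_KillInst`): for every
`A` lying over `q` the fields

* `α_norm_map`, `α_lift_inf`, `α_lift_mid`, `α_norm_split`, `α_norm_insep`, `α_ord_split`,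
  `α_ord_insep`,
* `β_norm_map`, `β_lift_zero`, `β_lift_mid`, `β_norm_split`, `β_norm_insep`, `β_ord_split`,
  `β_ord_insep`

of `helper405.KillInput`, verbatim, one theorem per field (`<field>_modular`), with no hypothesis
besides `hA : A.LiesOverPrime q`.
-/

set_option autoImplicit false

namespace Fermat.Agent.S36.helper8998

open ModularCurve AlgebraicCurve
open Fermat.Agent.S36.helper1013 (IsOrd IsUnifOf UnitOf)
open Fermat.Agent.S36.helper405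

section Inst

variable (A : ValuationSubring (AlgebraicClosure ℚ)) (M₁ q : ℕ) [NeZero M₁] [NeZero q]

/-- The seven valuation/norm fields of `α`, hypothesis-free. -/
theorem degVal_α_closed (hq : q.Prime) (hqM : q ∣ M₁) (hq2 : ¬ q ^ 2 ∣ M₁)
    (hA : A.LiesOverPrime q) :
    Deg.NormMap q (αK A M₁ q) (NαK A M₁ q) ∧
      Deg.Lift (αK A M₁ q) (Vinf A M₁ q) (Vinf' A M₁) ∧
      Deg.Lift (αK A M₁ q) (Vmid A M₁ q hq hqM hq2) (Vinf' A M₁) ∧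
      Deg.NormSplit q (αK A M₁ q) (NαK A M₁ q) (Vinf A M₁ q)
        (Vmid A M₁ q hq hqM hq2) (Vinf' A M₁) ∧
      Deg.NormInsep q (αK A M₁ q) (NαK A M₁ q) (Vzero A M₁ q hq hqM hq2) ∧
      Deg.OrdSplit (NαK A M₁ q) (ordOf (Vinf A M₁ q))
        (ordOf (Vmid A M₁ q hq hqM hq2)) (ordOf (Vinf' A M₁)) ∧
      Deg.OrdInsep q (NαK A M₁ q) (ordOf (Vzero A M₁ q hq hqM hq2))
        (ordOf (Vzero' A M₁ q hq hqM hq2)) :=
  degVal_α_modular A M₁ q hq hqM hq2 hA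
    (Fermat.Agent.S36.helper412.unif_inf_modular A M₁ q hq hqM hq2 hA)
    (Fermat.Agent.S36.helper412.unif_mid_modular A M₁ q hq hqM hq2 hA)
    (Fermat.Agent.S36.helper412.unif_zero_modular A M₁ q hq hqM hq2 hA)
    (Fermat.Agent.S36.helper412.unif_inf'_modular A M₁ q hq hqM hq2 hA)
    (Fermat.Agent.S36.helper412.unif_zero'_modular A M₁ q hq hqM hq2 hA)
    (Fermat.Agent.S36.helper412.ne_inf_mid_modular A M₁ q hq hqM hq2 hA)
    (α_mem_inf A M₁ q) (α_mem_mid A M₁ q hq hqM hq2) (α_mem_zero A M₁ q hq hqM hq2)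

/-- The seven valuation/norm fields of `β`, hypothesis-free. -/
theorem degVal_β_closed (hq : q.Prime) (hqM : q ∣ M₁) (hq2 : ¬ q ^ 2 ∣ M₁)
    (hA : A.LiesOverPrime q) :
    Deg.NormMap q (βK A M₁ q) (NβK A M₁ q) ∧
      Deg.Lift (βK A M₁ q) (Vzero A M₁ q hq hqM hq2) (Vzero' A M₁ q hq hqM hq2) ∧
      Deg.Lift (βK A M₁ q) (Vmid A M₁ q hq hqM hq2) (Vzero' A M₁ q hq hqM hq2) ∧
      Deg.NormSplit q (βK A M₁ q) (NβK A M₁ q) (Vzero A M₁ q hq hqM hq2)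
        (Vmid A M₁ q hq hqM hq2) (Vzero' A M₁ q hq hqM hq2) ∧
      Deg.NormInsep q (βK A M₁ q) (NβK A M₁ q) (Vinf A M₁ q) ∧
      Deg.OrdSplit (NβK A M₁ q) (ordOf (Vzero A M₁ q hq hqM hq2))
        (ordOf (Vmid A M₁ q hq hqM hq2)) (ordOf (Vzero' A M₁ q hq hqM hq2)) ∧
      Deg.OrdInsep q (NβK A M₁ q) (ordOf (Vinf A M₁ q)) (ordOf (Vinf' A M₁)) :=
  degVal_β_modular A M₁ q hq hqM hq2 hA
    (Fermat.Agent.S36.helper412.unif_zero_modular A M₁ q hq hqM hq2 hA)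
    (Fermat.Agent.S36.helper412.unif_mid_modular A M₁ q hq hqM hq2 hA)
    (Fermat.Agent.S36.helper412.unif_inf_modular A M₁ q hq hqM hq2 hA)
    (Fermat.Agent.S36.helper412.unif_zero'_modular A M₁ q hq hqM hq2 hA)
    (Fermat.Agent.S36.helper412.unif_inf'_modular A M₁ q hq hqM hq2 hA)
    (Fermat.Agent.S36.helper412.ne_mid_zero_modular A M₁ q hq hqM hq2 hA)
    (β_mem_zero A M₁ q hq hqM hq2) (β_mem_mid A M₁ q hq hqM hq2) (β_mem_inf A M₁ q)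

/-! ### One theorem per field -/

/-- **`α_norm_map`**. -/
theorem α_norm_map_modular (hq : q.Prime) (hqM : q ∣ M₁) (hq2 : ¬ q ^ 2 ∣ M₁)
    (hA : A.LiesOverPrime q) : Deg.NormMap q (αK A M₁ q) (NαK A M₁ q) :=
  (degVal_α_closed A M₁ q hq hqM hq2 hA).1

/-- **`α_lift_inf`**. -/
theorem α_lift_inf_modular (hq : q.Prime) (hqM : q ∣ M₁) (hq2 : ¬ q ^ 2 ∣ M₁)
    (hA : A.LiesOverPrime q) : Deg.Lift (αK A M₁ q) (Vinf A M₁ q) (Vinf' A M₁) :=
  (degVal_α_closed A M₁ q hq hqM hq2 hA).2.1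

/-- **`α_lift_mid`**. -/
theorem α_lift_mid_modular (hq : q.Prime) (hqM : q ∣ M₁) (hq2 : ¬ q ^ 2 ∣ M₁)
    (hA : A.LiesOverPrime q) :
    Deg.Lift (αK A M₁ q) (Vmid A M₁ q hq hqM hq2) (Vinf' A M₁) :=
  (degVal_α_closed A M₁ q hq hqM hq2 hA).2.2.1

/-- **`α_norm_split`**. -/
theorem α_norm_split_modular (hq : q.Prime) (hqM : q ∣ M₁) (hq2 : ¬ q ^ 2 ∣ M₁)
    (hA : A.LiesOverPrime q) :
    Deg.NormSplit q (αK A M₁ q) (NαK A M₁ q) (Vinf A M₁ q)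
      (Vmid A M₁ q hq hqM hq2) (Vinf' A M₁) :=
  (degVal_α_closed A M₁ q hq hqM hq2 hA).2.2.2.1

/-- **`α_norm_insep`**. -/
theorem α_norm_insep_modular (hq : q.Prime) (hqM : q ∣ M₁) (hq2 : ¬ q ^ 2 ∣ M₁)
    (hA : A.LiesOverPrime q) :
    Deg.NormInsep q (αK A M₁ q) (NαK A M₁ q) (Vzero A M₁ q hq hqM hq2) :=
  (degVal_α_closed A M₁ q hq hqM hq2 hA).2.2.2.2.1

/-- **`α_ord_split`**. -/
theorem α_ord_split_modular (hq : q.Prime) (hqM : q ∣ M₁) (hq2 : ¬ q ^ 2 ∣ M₁)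
    (hA : A.LiesOverPrime q) :
    Deg.OrdSplit (NαK A M₁ q) (ordOf (Vinf A M₁ q))
      (ordOf (Vmid A M₁ q hq hqM hq2)) (ordOf (Vinf' A M₁)) :=
  (degVal_α_closed A M₁ q hq hqM hq2 hA).2.2.2.2.2.1

/-- **`α_ord_insep`**. -/
theorem α_ord_insep_modular (hq : q.Prime) (hqM : q ∣ M₁) (hq2 : ¬ q ^ 2 ∣ M₁)
    (hA : A.LiesOverPrime q) :
    Deg.OrdInsep q (NαK A M₁ q) (ordOf (Vzero A M₁ q hq hqM hq2))
      (ordOf (Vzero' A M₁ q hq hqM hq2)) :=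
  (degVal_α_closed A M₁ q hq hqM hq2 hA).2.2.2.2.2.2

/-- **`β_norm_map`**. -/
theorem β_norm_map_modular (hq : q.Prime) (hqM : q ∣ M₁) (hq2 : ¬ q ^ 2 ∣ M₁)
    (hA : A.LiesOverPrime q) : Deg.NormMap q (βK A M₁ q) (NβK A M₁ q) :=
  (degVal_β_closed A M₁ q hq hqM hq2 hA).1

/-- **`β_lift_zero`**. -/
theorem β_lift_zero_modular (hq : q.Prime) (hqM : q ∣ M₁) (hq2 : ¬ q ^ 2 ∣ M₁)
    (hA : A.LiesOverPrime q) :
    Deg.Lift (βK A M₁ q) (Vzero A M₁ q hq hqM hq2) (Vzero' A M₁ q hq hqM hq2) :=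
  (degVal_β_closed A M₁ q hq hqM hq2 hA).2.1

/-- **`β_lift_mid`**. -/
theorem β_lift_mid_modular (hq : q.Prime) (hqM : q ∣ M₁) (hq2 : ¬ q ^ 2 ∣ M₁)
    (hA : A.LiesOverPrime q) :
    Deg.Lift (βK A M₁ q) (Vmid A M₁ q hq hqM hq2) (Vzero' A M₁ q hq hqM hq2) :=
  (degVal_β_closed A M₁ q hq hqM hq2 hA).2.2.1

/-- **`β_norm_split`**. -/
theorem β_norm_split_modular (hq : q.Prime) (hqM : q ∣ M₁) (hq2 : ¬ q ^ 2 ∣ M₁)
    (hA : A.LiesOverPrime q) :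
    Deg.NormSplit q (βK A M₁ q) (NβK A M₁ q) (Vzero A M₁ q hq hqM hq2)
      (Vmid A M₁ q hq hqM hq2) (Vzero' A M₁ q hq hqM hq2) :=
  (degVal_β_closed A M₁ q hq hqM hq2 hA).2.2.2.1

/-- **`β_norm_insep`**. -/
theorem β_norm_insep_modular (hq : q.Prime) (hqM : q ∣ M₁) (hq2 : ¬ q ^ 2 ∣ M₁)
    (hA : A.LiesOverPrime q) :
    Deg.NormInsep q (βK A M₁ q) (NβK A M₁ q) (Vinf A M₁ q) :=
  (degVal_β_closed A M₁ q hq hqM hq2 hA).2.2.2.2.1

/-- **`β_ord_split`**. -/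
theorem β_ord_split_modular (hq : q.Prime) (hqM : q ∣ M₁) (hq2 : ¬ q ^ 2 ∣ M₁)
    (hA : A.LiesOverPrime q) :
    Deg.OrdSplit (NβK A M₁ q) (ordOf (Vzero A M₁ q hq hqM hq2))
      (ordOf (Vmid A M₁ q hq hqM hq2)) (ordOf (Vzero' A M₁ q hq hqM hq2)) :=
  (degVal_β_closed A M₁ q hq hqM hq2 hA).2.2.2.2.2.1

/-- **`β_ord_insep`**. -/
theorem β_ord_insep_modular (hq : q.Prime) (hqM : q ∣ M₁) (hq2 : ¬ q ^ 2 ∣ M₁)
    (hA : A.LiesOverPrime q) :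
    Deg.OrdInsep q (NβK A M₁ q) (ordOf (Vinf A M₁ q)) (ordOf (Vinf' A M₁)) :=
  (degVal_β_closed A M₁ q hq hqM hq2 hA).2.2.2.2.2.2

/-- **Seam test**: the fourteen fields fill `helper405.KillInput` (the other fields from any
given term). -/
example (hq : q.Prime) (hqM : q ∣ M₁) (hq2 : ¬ q ^ 2 ∣ M₁) (hA : A.LiesOverPrime q)
    (haux : Fermat.Agent.S36.helper1335.AuxOK M₁ q)
    (h : KillInput A M₁ q hq hqM hq2 haux) : KillInput A M₁ q hq hqM hq2 haux :=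
  { h with
    α_norm_map := α_norm_map_modular A M₁ q hq hqM hq2 hA
    α_lift_inf := α_lift_inf_modular A M₁ q hq hqM hq2 hA
    α_lift_mid := α_lift_mid_modular A M₁ q hq hqM hq2 hA
    α_norm_split := α_norm_split_modular A M₁ q hq hqM hq2 hA
    α_norm_insep := α_norm_insep_modular A M₁ q hq hqM hq2 hA
    α_ord_split := α_ord_split_modular A M₁ q hq hqM hq2 hA
    α_ord_insep := α_ord_insep_modular A M₁ q hq hqM hq2 hA
    β_norm_map := β_norm_map_modular A M₁ q hq hqM hq2 hA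
    β_lift_zero := β_lift_zero_modular A M₁ q hq hqM hq2 hA
    β_lift_mid := β_lift_mid_modular A M₁ q hq hqM hq2 hA
    β_norm_split := β_norm_split_modular A M₁ q hq hqM hq2 hA
    β_norm_insep := β_norm_insep_modular A M₁ q hq hqM hq2 hA
    β_ord_split := β_ord_split_modular A M₁ q hq hqM hq2 hA
    β_ord_insep := β_ord_insep_modular A M₁ q hq hqM hq2 hA }

end Inst

end Fermat.Agent.S36.helper8998
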