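/-
S36-TH-INST, part (a), on the concrete terms of KILL-INST (helper9080): NODE-NONCUSP at level
`M₁` (`q ∥ M₁`) for the terms of `helper405_KillTerms`:
`F' = FK A M₁`, `O = OI A`, `x' = xK' A M₁ q haux` (`t₄` for `q ≠ 2`, `t₉` for `q = 2`),
charts `BK' A M₁ q haux i = chart (OI A) x' i`, `V' = VK' A M₁ q hq hqM hq2 = ![v'_∞, v'_0]`.

A prime `P'` of a chart containing the centres of BOTH vertical valuation subrings is not a cusp:

* `node_noncusp_modular_odd` (`q ≠ 2`): `t ∉ P'`, `t + 16 ∉ P'` for `(t : F') = x'`;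
  `u ∉ P'`, `1 + 16 u ∉ P'` for `(u : F') = x'⁻¹`;
* `node_noncusp_modular_two` (`q = 2`): `t ∉ P'`, `t² + 9 t + 27 ∉ P'`;
  `u ∉ P'`, `1 + 9 u + 27 u² ∉ P'`.

The only hypothesis besides the terms is `hxV'` (the base line is a unit at `v'_∞`, `v'_0`), which
is also an argument of `helper8039.lpProp_of_cases`.
-/
import Fermat.Agent.S36.helper9080_NodeNonCuspFK
import Fermat.Agent.S36.helper405_KillTerms

set_option autoImplicit false

namespace Fermat.Agent.S36.helper9080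

open ModularCurve
open Fermat.Agent.S36.helper405
open Fermat.Agent.S36.helper1335 (AuxOK)
open Fermat.Agent.S36.helper8039 (centre)

variable (A : ValuationSubring (AlgebraicClosure ℚ)) (M₁ q : ℕ) [NeZero M₁] [NeZero q]
  (hq : q.Prime) (hqM : q ∣ M₁) (hq2 : ¬ q ^ 2 ∣ M₁) (haux : AuxOK M₁ q)

/-- **NODE-NONCUSP at level `M₁`, `q` odd** (base line `t₄`). -/
theorem node_noncusp_modular_odd (hA : A.LiesOverPrime q) (hodd : q ≠ 2)
    (hxV' : ∀ c, xK' A M₁ q haux ∈ VK' A M₁ q hq hqM hq2 c ∧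
      (xK' A M₁ q haux)⁻¹ ∈ VK' A M₁ q hq hqM hq2 c)
    (i : Fin 2) (P' : Ideal (BK' A M₁ q haux i)) [P'.IsPrime]
    (h0 : centre (BK' A M₁ q haux i) (VK' A M₁ q hq hqM hq2 0) ≤ P')
    (h1 : centre (BK' A M₁ q haux i) (VK' A M₁ q hq hqM hq2 1) ≤ P') :
    (∀ t : BK' A M₁ q haux i, (t : FK A M₁) = xK' A M₁ q haux → t ∉ P' ∧ t + 16 ∉ P') ∧
    (∀ u : BK' A M₁ q haux i, (u : FK A M₁) = (xK' A M₁ q haux)⁻¹ →
      u ∉ P' ∧ 1 + 16 * u ∉ P') :=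
  node_noncusp_chart_t4 (algebraMap (KI A) (AlgebraicClosure ℚ)) hq hodd hqM
    (coprime_level hq hqM hq2) (haux.1 hodd) A hA (VK' A M₁ q hq hqM hq2)
    (fun _ => Iff.rfl) (fun _ => Iff.rfl) (OI A) (xK' A M₁ q haux)
    (baseLine_of_ne _ _ _ _ _ hodd)
    (fun c a ha => (const_mem_VK'_iff A M₁ q hq hqM hq2 c a).mpr ha) hxV' i P' h0 h1

/-- **NODE-NONCUSP at level `M₁`, `q = 2`** (base line `t₉`). -/
theorem node_noncusp_modular_two (hA : A.LiesOverPrime q) (htwo : q = 2)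
    (hxV' : ∀ c, xK' A M₁ q haux ∈ VK' A M₁ q hq hqM hq2 c ∧
      (xK' A M₁ q haux)⁻¹ ∈ VK' A M₁ q hq hqM hq2 c)
    (i : Fin 2) (P' : Ideal (BK' A M₁ q haux i)) [P'.IsPrime]
    (h0 : centre (BK' A M₁ q haux i) (VK' A M₁ q hq hqM hq2 0) ≤ P')
    (h1 : centre (BK' A M₁ q haux i) (VK' A M₁ q hq hqM hq2 1) ≤ P') :
    (∀ t : BK' A M₁ q haux i, (t : FK A M₁) = xK' A M₁ q haux →
      t ∉ P' ∧ t ^ 2 + 9 * t + 27 ∉ P') ∧
    (∀ u : BK' A M₁ q haux i, (u : FK A M₁) = (xK' A M₁ q haux)⁻¹ →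
      u ∉ P' ∧ 1 + 9 * u + 27 * u ^ 2 ∉ P') :=
  node_noncusp_chart_t9 (algebraMap (KI A) (AlgebraicClosure ℚ)) hq (by omega) hqM
    (coprime_level hq hqM hq2) (haux.2 htwo) A hA (VK' A M₁ q hq hqM hq2)
    (fun _ => Iff.rfl) (fun _ => Iff.rfl) (OI A) (xK' A M₁ q haux)
    (baseLine_of_eq _ _ _ _ _ htwo)
    (fun c a ha => (const_mem_VK'_iff A M₁ q hq hqM hq2 c a).mpr ha) hxV' i P' h0 h1

end Fermat.Agent.S36.helper9080
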