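import Fermat.Agent.S36.helper987_MidNorm
import Fermat.Agent.S35.helper1024_MultiVal

/-!
# S36-F1 (EXT) (helper987): completeness of a list of valuation rings from a full set of embeddings

Abstract core (`section ExtCore`): `L / K` finite separable, `Ω` a field, `G` a subring of `Ω`,
`e0 : K → Ω`, and `[L : K]` pairwise distinct ring homs `τ i : L → Ω` restricting to `e0` on `K`.
If `V₀ = e0⁻¹ G` and the `V i = (τ i)⁻¹ G` are valuation rings, then

* `exists_monic_of_forall_mem` : an `x ∈ L` with `τ i x ∈ G` for all `i` is a root of a monic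
  polynomial with coefficients in `V₀` (its characteristic polynomial);
* `exists_eq_of_comap_eq_of_embeddings` : EVERY valuation ring `W` of `L` with `W ∩ K = V₀` is one
  of the `V i`.

No cartesian / orthonormal basis, no count `∑ e f`, no discreteness.

Modular instance (`section Alpha`): for `q` prime, `q ∤ M'`, every valuation subring `W` of
`F_{(qM')q}` lying over the Gauss valuation subring `gaussF A res (q M')` of `F_{qM'}` along the
inclusion `α` is the pull-back of the Gauss ring along one of the `q` embeddings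
`midExpPow ζ B`, `B < q` (`B = 0`: the Gauss valuation at `∞`; `B ≠ 0`: the mid-cusp valuations).
-/

set_option autoImplicit false
set_option linter.style.haveILetI false
set_option linter.unusedSectionVars false

open Polynomial

namespace Fermat.Agent.S36.helper987

noncomputable section

/-! ## The abstract core -/

section ExtCore

variable {K L Ω : Type*} [Field K] [Field L] [Field Ω] [Algebra K L]
  [FiniteDimensional K L] [Algebra.IsSeparable K L]

/-- The characteristic polynomial of multiplication by `x` maps to `∏ i, (X - τ i x)` for a full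
set of embeddings `τ i`. -/
theorem charpoly_lmul_map_eq_prod [Infinite K] (e0 : K →+* Ω) {ι : Type*} [Fintype ι]
    (hcard : Fintype.card ι = Module.finrank K L) (τ : ι → (L →+* Ω))
    (hτ : ∀ i (a : K), τ i (algebraMap K L a) = e0 a) (hinj : Function.Injective τ) (x : L) :
    (LinearMap.charpoly (Algebra.lmul K L x)).map e0 = ∏ i, (X - C (τ i x)) := by
  apply Polynomial.eq_of_infinite_eval_eq
  refine Set.Infinite.mono ?_ (Set.infinite_range_of_injective e0.injective)
  rintro _ ⟨c, rfl⟩
  show eval (e0 c) _ = eval (e0 c) _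
  rw [Polynomial.eval_map_apply, LinearMap.eval_charpoly, Polynomial.eval_prod]
  have h1 : algebraMap K (Module.End K L) c - Algebra.lmul K L x
      = Algebra.lmul K L (algebraMap K L c - x) := by
    rw [map_sub, AlgHom.commutes]
  rw [h1, ← Algebra.norm_apply, norm_eq_prod_of_ringHoms e0 hcard τ hτ hinj]
  refine Finset.prod_congr rfl fun i _ => ?_
  rw [map_sub, hτ, Polynomial.eval_sub, Polynomial.eval_X, Polynomial.eval_C]

/-- An element all of whose conjugates `τ i x` lie in the subring `G` is a root of a monic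
polynomial over `K` whose coefficients are mapped into `G` by `e0`. -/
theorem exists_monic_of_forall_mem [Infinite K] (G : Subring Ω) (e0 : K →+* Ω) {ι : Type*}
    [Fintype ι] (hcard : Fintype.card ι = Module.finrank K L) (τ : ι → (L →+* Ω))
    (hτ : ∀ i (a : K), τ i (algebraMap K L a) = e0 a) (hinj : Function.Injective τ) (x : L)
    (hx : ∀ i, τ i x ∈ G) :
    ∃ p : K[X], p.Monic ∧ (∀ n, e0 (p.coeff n) ∈ G) ∧ aeval x p = 0 := by
  refine ⟨LinearMap.charpoly (Algebra.lmul K L x), LinearMap.charpoly_monic _, fun n => ?_, ?_⟩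
  · have h := charpoly_lmul_map_eq_prod e0 hcard τ hτ hinj x
    have h2 : (∏ i, (X - C (τ i x)) : Polynomial Ω)
        = (∏ i, (X - C (⟨τ i x, hx i⟩ : G)) : G[X]).map G.subtype := by
      rw [Polynomial.map_prod]
      refine Finset.prod_congr rfl fun i _ => ?_
      rw [Polynomial.map_sub, Polynomial.map_X, Polynomial.map_C]
      rfl
    rw [← Polynomial.coeff_map, h, h2, Polynomial.coeff_map]
    exact (coeff (∏ i, (X - C (⟨τ i x, hx i⟩ : G)) : G[X]) n).2
  · have h := LinearMap.aeval_self_charpoly (Algebra.lmul K L x)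
    rw [Polynomial.aeval_algHom_apply] at h
    have h3 := congrArg (fun f : Module.End K L => f 1) h
    simpa using h3

/-- **(EXT) Completeness from a full set of embeddings.**  Every valuation ring `W` of `L` lying
over `V₀ = e0⁻¹ G` is one of the `V i = (τ i)⁻¹ G`. -/
theorem exists_eq_of_comap_eq_of_embeddings [Infinite K] (G : Subring Ω) (e0 : K →+* Ω)
    {ι : Type*} [Fintype ι] (hcard : Fintype.card ι = Module.finrank K L) (τ : ι → (L →+* Ω))
    (hτ : ∀ i (a : K), τ i (algebraMap K L a) = e0 a) (hinj : Function.Injective τ)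
    (V₀ : ValuationSubring K) (hV₀ : ∀ a, a ∈ V₀ ↔ e0 a ∈ G)
    (V : ι → ValuationSubring L) (hV : ∀ i x, x ∈ V i ↔ τ i x ∈ G)
    (W : ValuationSubring L) (hW : W.comap (algebraMap K L) = V₀) :
    ∃ i, W = V i := by
  classical
  by_contra hcon
  push Not at hcon
  have hVcomap : ∀ i, (V i).comap (algebraMap K L) = V₀ := by
    intro i
    ext a
    rw [ValuationSubring.mem_comap, hV, hτ, hV₀]
  -- the finite set of valuation rings `W, V i`
  let S : Finset (ValuationSubring L) := insert W (Finset.univ.image V)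
  let fam : S → ValuationSubring L := fun U => U.1
  have hfam₀ : ∀ U : S, (fam U).comap (algebraMap K L) = V₀ := by
    rintro ⟨U, hU⟩
    rcases Finset.mem_insert.mp hU with rfl | hU
    · exact hW
    · obtain ⟨i, -, rfl⟩ := Finset.mem_image.mp hU
      exact hVcomap i
  have hfaminj : Function.Injective fam := Subtype.val_injective
  have hincomp : ∀ U U' : S, U ≠ U' → ¬ fam U ≤ fam U' :=
    Fermat.Agent.S35.helper1024.not_le_of_injective hfam₀ hfaminj
  obtain ⟨z, -, hz⟩ := Fermat.Agent.S35.helper1024.exists_approx_family fam hincomp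
    (fun U => if U.1 = W then 0 else 1) (fun U => by
      by_cases h : U.1 = W
      · rw [if_pos h]; exact (fam U).zero_mem
      · rw [if_neg h]; exact (fam U).one_mem)
  have hzW : z ∈ W.nonunits := by
    have h := hz ⟨W, Finset.mem_insert_self _ _⟩
    rw [if_pos rfl, sub_zero] at h
    exact h
  have hzV : ∀ i, z - 1 ∈ (V i).nonunits := by
    intro i
    have h := hz ⟨V i, Finset.mem_insert_of_mem (Finset.mem_image_of_mem V (Finset.mem_univ i))⟩
    rw [if_neg (fun h' : V i = W => hcon i h'.symm)] at h
    exact h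
  have hval : ∀ i, (V i).valuation z = 1 := by
    intro i
    have h1 : (V i).valuation (z - 1) < 1 := (ValuationSubring.mem_nonunits_iff _).mp (hzV i)
    have h2 : z = 1 + (z - 1) := by ring
    rw [h2]
    exact (V i).valuation.map_one_add_of_lt h1
  have hinv : ∀ i, τ i z⁻¹ ∈ G := by
    intro i
    rw [← hV, ← (V i).valuation_le_one_iff, map_inv₀, hval i, inv_one]
  obtain ⟨p, hp, hpc, hpz⟩ := exists_monic_of_forall_mem G e0 hcard τ hτ hinj z⁻¹ hinv
  have hzinv : z⁻¹ ∈ W :=
    Fermat.Agent.S35.helper1024.mem_of_monic_root hW hp (fun n => (hV₀ _).mpr (hpc n)) hpz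
  have h1 : W.valuation z < 1 := (ValuationSubring.mem_nonunits_iff _).mp hzW
  have h2 : W.valuation z⁻¹ ≤ 1 := (W.valuation_le_one_iff _).mpr hzinv
  have hι : Nonempty ι := by
    rw [← Fintype.card_pos_iff, hcard]
    exact Module.finrank_pos
  obtain ⟨i₀⟩ := hι
  have hz0 : z ≠ 0 := by
    rintro rfl
    have := hval i₀
    rw [map_zero] at this
    exact zero_ne_one this
  have h3 : W.valuation z * W.valuation z⁻¹ = 1 := by
    rw [← map_mul, mul_inv_cancel₀ hz0, map_one]
  have h4 : W.valuation z * W.valuation z⁻¹ < 1 := by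
    calc W.valuation z * W.valuation z⁻¹ ≤ W.valuation z * 1 := mul_le_mul' le_rfl h2
      _ = W.valuation z := mul_one _
      _ < 1 := h1
  exact h4.ne h3

end ExtCore

/-! ## The modular instance along `α` -/

section Alpha

open ModularCurve AlgebraicCurve
open Fermat.Agent.S24 Fermat.Agent.S24.helper24
open Fermat.Agent.S18.helper8991 (gaussRing gaussF IsNormalizable)

variable {q M' N : ℕ} [Fact q.Prime] [NeZero M'] [NeZero N]

/-- Every nonzero value of every member of the family `midExpPow ζ B` is normalisable. -/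
theorem midExpPow_isNormalizable (hqM : ¬ q ∣ M') (hN : N = q ^ 2 * M') (ζ : Kbarˣ)
    (hζ : IsPrimitiveRoot (ζ : Kbar) q) (A : ValuationSubring Kbar) {k : Type*} [Field k]
    (res : A →+* k) (B : ℕ) (x : FN N) (hx : x ≠ 0) :
    IsNormalizable A res (midExpPow hqM hN ζ hζ B x) := by
  by_cases h : q ∣ B
  · rw [midExpPow_of_dvd hqM hN ζ hζ h]
    exact Fermat.Agent.S18.helper8991.isNormalizable_of_mem_full A res N x.2
      (fun h0 => hx (Subtype.ext h0))
  · rw [midExpPow_of_not_dvd hqM hN ζ hζ h]
    exact midExp_isNormalizable hqM hN _ _ A res x hx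

/-- The pull-back of the Gauss ring along `midExpPow ζ B`, as a valuation subring of `F_N`
(`B = 0`: the Gauss valuation subring `gaussF A res N`; `q ∤ B`: the mid-cusp valuation subring
attached to `ζ ^ B`). -/
def midGauss (hqM : ¬ q ∣ M') (hN : N = q ^ 2 * M') (ζ : Kbarˣ)
    (hζ : IsPrimitiveRoot (ζ : Kbar) q) (A : ValuationSubring Kbar) {k : Type*} [Field k]
    (res : A →+* k) (B : ℕ) : ValuationSubring (FN N) where
  toSubring := (gaussRing A res).comap (midExpPow hqM hN ζ hζ B)
  mem_or_inv_mem' := fun x => by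
    by_cases hx : x = 0
    · left
      rw [hx]
      exact Subring.zero_mem _
    · rcases (midExpPow_isNormalizable hqM hN ζ hζ A res B x hx).mem_or_inv_mem with h | h
      · left
        exact h
      · right
        show midExpPow hqM hN ζ hζ B x⁻¹ ∈ gaussRing A res
        rw [map_inv₀]
        exact h

theorem mem_midGauss_iff (hqM : ¬ q ∣ M') (hN : N = q ^ 2 * M') (ζ : Kbarˣ)
    (hζ : IsPrimitiveRoot (ζ : Kbar) q) (A : ValuationSubring Kbar) {k : Type*} [Field k]
    (res : A →+* k) (B : ℕ) (x : FN N) :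
    x ∈ midGauss hqM hN ζ hζ A res B ↔ midExpPow hqM hN ζ hζ B x ∈ gaussRing A res :=
  Iff.rfl

/-- For `q ∣ B` (e.g. `B = 0`) the member `B` is the Gauss valuation subring at `∞`. -/
theorem midGauss_of_dvd (hqM : ¬ q ∣ M') (hN : N = q ^ 2 * M') (ζ : Kbarˣ)
    (hζ : IsPrimitiveRoot (ζ : Kbar) q) (A : ValuationSubring Kbar) {k : Type*} [Field k]
    (res : A →+* k) {B : ℕ} (h : q ∣ B) :
    midGauss hqM hN ζ hζ A res B = gaussF A res N := by
  ext x
  rw [mem_midGauss_iff, midExpPow_of_dvd hqM hN ζ hζ h]
  rfl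

/-- Every member of the family lies over the Gauss valuation subring of `F_{qM'}` along `α`
(series form): for `y ∈ F_N` whose expansion lies in `F_{qM'}`, `y ∈ midGauss B` iff `y` is
Gauss-integral. -/
theorem mem_midGauss_iff_of_mem (hqM : ¬ q ∣ M') (hN : N = q ^ 2 * M') (ζ : Kbarˣ)
    (hζ : IsPrimitiveRoot (ζ : Kbar) q) (A : ValuationSubring Kbar) {k : Type*} [Field k]
    (res : A →+* k) (B : ℕ) (x : FN N)
    (hx : (x : LaurentSeries Kbar) ∈ modularFunctionFieldBar (q * M')) :
    x ∈ midGauss hqM hN ζ hζ A res B ↔ (x : LaurentSeries Kbar) ∈ gaussRing A res := by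
  rw [mem_midGauss_iff, midExpPow_of_mem hqM hN ζ hζ B x hx]

variable [NeZero q]

/-- Every member of the family lies over the Gauss valuation subring of `F_{qM'}` along `α`. -/
theorem midGauss_comap_heckeAlphaBar (hqM : ¬ q ∣ M') (ζ : Kbarˣ)
    (hζ : IsPrimitiveRoot (ζ : Kbar) q) (A : ValuationSubring Kbar) {k : Type*} [Field k]
    (res : A →+* k) (B : ℕ) :
    (midGauss hqM (level_mul_eq q M') ζ hζ A res B).comap
        (heckeAlphaBar Kbar (q * M') q).toRingHom = gaussF A res (q * M') := by
  ext y
  rw [ValuationSubring.mem_comap]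
  have h := mem_midGauss_iff_of_mem hqM (level_mul_eq q M') ζ hζ A res B
    (heckeAlphaBar Kbar (q * M') q y) (by rw [coe_heckeAlphaBar]; exact y.2)
  rw [coe_heckeAlphaBar] at h
  exact h

/-- **(EXT-α) Completeness along `α`.**  For `q` prime, `q ∤ M'`: every valuation subring `W` of
`F_{(qM')q}` lying over the Gauss valuation subring of `F_{qM'}` along the inclusion `α` is one of
the `q` valuation subrings `midGauss B`, `B < q`: the Gauss valuation subring at `∞` (`B = 0`) or
a mid-cusp valuation subring (`0 < B < q`). -/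
theorem exists_eq_midGauss_of_comap_heckeAlphaBar (hqM : ¬ q ∣ M') (ζ : Kbarˣ)
    (hζ : IsPrimitiveRoot (ζ : Kbar) q) (A : ValuationSubring Kbar) {k : Type*} [Field k]
    (res : A →+* k) (W : ValuationSubring (FN (q * M' * q)))
    (hW : W.comap (heckeAlphaBar Kbar (q * M') q).toRingHom = gaussF A res (q * M')) :
    ∃ B < q, W = midGauss hqM (level_mul_eq q M') ζ hζ A res B := by
  classical
  have hq : q.Prime := Fact.out
  letI := algebraAlong (heckeAlphaBar Kbar (q * M') q)
  have hfr : Module.finrank (FN (q * M')) (FN (q * M' * q)) = q :=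
    Fermat.Agent.S37.helper9342.finrankAlong_heckeAlphaBar_of_dvd (q * M') hq (dvd_mul_right q M')
  haveI : Module.Finite (FN (q * M')) (FN (q * M' * q)) :=
    Module.finite_of_finrank_pos (by rw [hfr]; exact hq.pos)
  haveI : CharZero (FN (q * M')) :=
    charZero_of_injective_algebraMap (algebraMap Kbar (FN (q * M'))).injective
  have hcard : Fintype.card (Fin q) = Module.finrank (FN (q * M')) (FN (q * M' * q)) := by
    rw [Fintype.card_fin, hfr]
  obtain ⟨B, hB⟩ := exists_eq_of_comap_eq_of_embeddings (gaussRing A res)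
    (modularFunctionFieldBar (q * M')).val.toRingHom hcard
    (fun B : Fin q => midExpPow hqM (level_mul_eq q M') ζ hζ (B : ℕ))
    (fun B a => by
      show midExpPow hqM (level_mul_eq q M') ζ hζ (B : ℕ) (heckeAlphaBar Kbar (q * M') q a) = _
      rw [midExpPow_of_mem hqM (level_mul_eq q M') ζ hζ (B : ℕ) _
        (by rw [coe_heckeAlphaBar]; exact a.2), coe_heckeAlphaBar]
      rfl)
    (midExpPow_injective hqM (level_mul_eq q M') ζ hζ)
    (gaussF A res (q * M')) (fun a => Iff.rfl)
    (fun B : Fin q => midGauss hqM (level_mul_eq q M') ζ hζ A res (B : ℕ))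
    (fun B x => Iff.rfl) W hW
  exact ⟨(B : ℕ), B.2, hB⟩

/-- **(EXT-α), two-case form**: `W` is the Gauss valuation subring at `∞` of level `(qM')q` or
the mid-cusp valuation subring attached to a primitive `q`-th root of unity `ζ ^ B`. -/
theorem eq_gaussF_or_exists_midGauss_of_comap_heckeAlphaBar (hqM : ¬ q ∣ M') (ζ : Kbarˣ)
    (hζ : IsPrimitiveRoot (ζ : Kbar) q) (A : ValuationSubring Kbar) {k : Type*} [Field k]
    (res : A →+* k) (W : ValuationSubring (FN (q * M' * q)))
    (hW : W.comap (heckeAlphaBar Kbar (q * M') q).toRingHom = gaussF A res (q * M')) :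
    W = gaussF A res (q * M' * q) ∨
      ∃ B, 0 < B ∧ B < q ∧ W = midGauss hqM (level_mul_eq q M') ζ hζ A res B := by
  obtain ⟨B, hBq, hB⟩ := exists_eq_midGauss_of_comap_heckeAlphaBar hqM ζ hζ A res W hW
  rcases Nat.eq_zero_or_pos B with rfl | hpos
  · left
    rw [hB]
    exact midGauss_of_dvd hqM (level_mul_eq q M') ζ hζ A res (dvd_zero q)
  · exact Or.inr ⟨B, hpos, hBq, hB⟩

end Alpha

end

end Fermat.Agent.S36.helper987
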