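import Fermat.Agent.S36.helper987_MidCuspExp
import Fermat.Agent.S36.helper2106_NormBeta
import Fermat.Agent.S37.helper9342_NormTrickMod

/-!
# S36-F1-MIDEMB (Nα) (helper987): the norm along `α` at level `q² M'` in `t`-expansions

`Kbar = ℚ̄`, `q` prime, `q ∤ M'`, `α = heckeAlphaBar Kbar (q M') q : F_{qM'} → F_{qM'·q}` (the
inclusion).  The extension `F_{q²M'} / α F_{qM'}` has degree `q`, and its `q` embeddings into
`ℚ̄((t))` over `F_{qM'}` are the inclusion (expansion at `∞`) and the `q - 1` mid-cusp embeddings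
`midExp (ζ^B)`, `B = 1, …, q - 1` (`helper987_MidCuspExp`).  Hence, for EVERY `x ∈ F_{q²M'}`,

  `N_α x = x · ∏_{B=1}^{q-1} midExp (ζ^B) x`     in `ℚ̄((t))`.

* `midExpPow ζ B` : the family (`B` with `q ∣ B` gives the inclusion);
* `coe_normAlong_heckeAlphaBar_eq_prod` : `N_α x = ∏_{B < q} midExpPow ζ B x`;
* `coe_normAlong_heckeAlphaBar_eq_mul_prod` : `N_α x = x · ∏_{1 ≤ B < q} midExp (ζ^B) x`.

The companion formula along `β` is the landed `Fermat.Agent.S36.helper2106.coe_normAlong_heckeBetaBar`.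
-/

set_option autoImplicit false
set_option linter.style.haveILetI false
set_option linter.unusedSectionVars false

open ModularCurve AlgebraicCurve

namespace Fermat.Agent.S36.helper987

open Fermat.Agent.S24 Fermat.Agent.S24.helper24
open Fermat.Agent.S37.helper5666
open Fermat.Agent.S29.helper36 (normAlong)

noncomputable section

/-! ## Generic: norm as a product over sufficiently many embeddings -/

/-- If `τ i`, `i : ι`, are `[L : K]` pairwise distinct ring homs `L → E` (fields) all restricting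
to the same `e0 : K → E`, then `e0 (Norm_{L/K} x) = ∏ i, τ i x`. -/
theorem norm_eq_prod_of_ringHoms {K L E : Type*} [Field K] [Field L] [Field E] [Algebra K L]
    [FiniteDimensional K L] [Algebra.IsSeparable K L] (e0 : K →+* E) {ι : Type*} [Fintype ι]
    (hcard : Fintype.card ι = Module.finrank K L) (τ : ι → (L →+* E))
    (hτ : ∀ i (a : K), τ i (algebraMap K L a) = e0 a) (hinj : Function.Injective τ) (x : L) :
    e0 (Algebra.norm K x) = ∏ i, τ i x := by
  classical
  letI : Algebra K E := e0.toAlgebra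
  let σ : ι → (L →ₐ[K] AlgebraicClosure E) := fun i =>
    { toRingHom := (algebraMap E (AlgebraicClosure E)).comp (τ i)
      commutes' := fun a => by
        show algebraMap E (AlgebraicClosure E) (τ i (algebraMap K L a))
          = algebraMap K (AlgebraicClosure E) a
        rw [hτ i a, IsScalarTower.algebraMap_apply K E (AlgebraicClosure E)]
        rfl }
  have hσ : Function.Injective σ := by
    intro i j hij
    apply hinj
    ext y
    have := congrArg (fun f : L →ₐ[K] AlgebraicClosure E => f y) hij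
    exact (algebraMap E (AlgebraicClosure E)).injective this
  have hbij : Function.Bijective σ :=
    (Fintype.bijective_iff_injective_and_card σ).mpr ⟨hσ, by rw [hcard, AlgHom.card]⟩
  have h := Algebra.norm_eq_prod_embeddings K (AlgebraicClosure E) x
  rw [← Fintype.prod_bijective σ hbij (fun i => σ i x) (fun f => f x) (fun i => rfl)] at h
  apply (algebraMap E (AlgebraicClosure E)).injective
  rw [map_prod]
  rw [IsScalarTower.algebraMap_apply K E (AlgebraicClosure E)] at h
  exact h

/-! ## The family of the `q` embeddings over `F_{qM'}` -/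

section Family

variable {q M' N : ℕ} [Fact q.Prime] [NeZero M'] [NeZero N]
variable (hqM : ¬ q ∣ M') (hN : N = q ^ 2 * M') (ζ : Kbarˣ) (hζ : IsPrimitiveRoot (ζ : Kbar) q)

omit [NeZero M'] [NeZero N] in
include hζ in
/-- `ζ^B` is again a primitive `q`-th root of unity for `q ∤ B`. -/
theorem isPrimitiveRoot_pow_of_not_dvd {B : ℕ} (hB : ¬ q ∣ B) :
    IsPrimitiveRoot ((ζ ^ B : Kbarˣ) : Kbar) q := by
  have hq : q.Prime := Fact.out
  rw [Units.val_pow_eq_pow_val]
  exact hζ.pow_of_coprime B ((Nat.Prime.coprime_iff_not_dvd hq).mpr hB).symm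

/-- **The `q` embeddings of `F_{q²M'}` over `F_{qM'}`**, indexed by `B` (mod `q`): the inclusion
for `q ∣ B`, the mid-cusp embedding `midExp (ζ^B)` otherwise. -/
def midExpPow (B : ℕ) : FN N →+* LaurentSeries Kbar :=
  if h : q ∣ B then (modularFunctionFieldBar N).val.toRingHom
  else midExp hqM hN (ζ ^ B) (isPrimitiveRoot_pow_of_not_dvd ζ hζ h)

theorem midExpPow_of_dvd {B : ℕ} (h : q ∣ B) (x : FN N) :
    midExpPow hqM hN ζ hζ B x = (x : LaurentSeries Kbar) := by
  unfold midExpPow
  rw [dif_pos h]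
  rfl

theorem midExpPow_zero (x : FN N) :
    midExpPow hqM hN ζ hζ 0 x = (x : LaurentSeries Kbar) :=
  midExpPow_of_dvd hqM hN ζ hζ (dvd_zero q) x

theorem midExpPow_of_not_dvd {B : ℕ} (h : ¬ q ∣ B) :
    midExpPow hqM hN ζ hζ B =
      midExp hqM hN (ζ ^ B) (isPrimitiveRoot_pow_of_not_dvd ζ hζ h) := by
  unfold midExpPow
  rw [dif_neg h]

/-- Every member of the family is the identity on the `α`-subfield `F_{qM'}`. -/
theorem midExpPow_of_mem (B : ℕ) (x : FN N)
    (hx : (x : LaurentSeries Kbar) ∈ modularFunctionFieldBar (q * M')) :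
    midExpPow hqM hN ζ hζ B x = (x : LaurentSeries Kbar) := by
  by_cases h : q ∣ B
  · exact midExpPow_of_dvd hqM hN ζ hζ h x
  · rw [midExpPow_of_not_dvd hqM hN ζ hζ h]
    exact midExp_of_mem hqM hN _ _ x hx

/-- On `V_{q²} F_{M'}` the member `B` (`q ∤ B`) is `y(t^{q²}) ↦ y(ζ^B t)`. -/
theorem midExpPow_of_eq_qExpand [NeZero (q ^ 2)] {B : ℕ} (h : ¬ q ∣ B) (x : FN N) (y : FN M')
    (hxy : (x : LaurentSeries Kbar) = qExpand Kbar (q ^ 2) (y : LaurentSeries Kbar)) :
    midExpPow hqM hN ζ hζ B x = rot (ζ ^ B) (y : LaurentSeries Kbar) := by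
  rw [midExpPow_of_not_dvd hqM hN ζ hζ h]
  exact midExp_of_eq_qExpand hqM hN _ _ x y hxy

theorem midExpPow_algebraMap (B : ℕ) (c : Kbar) :
    midExpPow hqM hN ζ hζ B (algebraMap Kbar (FN N) c) = HahnSeries.C c := by
  by_cases h : q ∣ B
  · rw [midExpPow_of_dvd hqM hN ζ hζ h]
    exact coe_algebraMap_FN N c
  · rw [midExpPow_of_not_dvd hqM hN ζ hζ h]
    exact midExp_algebraMap hqM hN _ _ c

/-- The `q` members `B < q` of the family are pairwise distinct. -/
theorem midExpPow_injective :
    Function.Injective (fun B : Fin q => midExpPow hqM hN ζ hζ (B : ℕ)) := by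
  have hq : q.Prime := Fact.out
  intro B B' hBB
  have hBB' : midExpPow hqM hN ζ hζ (B : ℕ) = midExpPow hqM hN ζ hζ (B' : ℕ) := hBB
  have hzero : ∀ C : Fin q, q ∣ (C : ℕ) → (C : ℕ) = 0 := fun C hC =>
    Nat.eq_zero_of_dvd_of_lt hC C.2
  by_cases h : q ∣ (B : ℕ)
  · by_cases h' : q ∣ (B' : ℕ)
    · exact Fin.ext ((hzero B h).trans (hzero B' h').symm)
    · exfalso
      have e1 : midExpPow hqM hN ζ hζ (B : ℕ) = (modularFunctionFieldBar N).val.toRingHom := by
        unfold midExpPow
        rw [dif_pos h]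
      rw [e1, midExpPow_of_not_dvd hqM hN ζ hζ h'] at hBB'
      exact midExp_ne_val hqM hN _ _ hBB'.symm
  · by_cases h' : q ∣ (B' : ℕ)
    · exfalso
      have e1 : midExpPow hqM hN ζ hζ (B' : ℕ) = (modularFunctionFieldBar N).val.toRingHom := by
        unfold midExpPow
        rw [dif_pos h']
      rw [e1, midExpPow_of_not_dvd hqM hN ζ hζ h] at hBB'
      exact midExp_ne_val hqM hN _ _ hBB'
    · rw [midExpPow_of_not_dvd hqM hN ζ hζ h, midExpPow_of_not_dvd hqM hN ζ hζ h'] at hBB'
      have h1 : ζ ^ (B : ℕ) = ζ ^ (B' : ℕ) := midExp_inj hqM hN _ _ _ hBB'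
      have h2 : (ζ : Kbar) ^ (B : ℕ) = (ζ : Kbar) ^ (B' : ℕ) := by
        rw [← Units.val_pow_eq_pow_val, ← Units.val_pow_eq_pow_val, h1]
      exact Fin.ext (hζ.pow_inj B.2 B'.2 h2)

end Family

/-! ## The norm formula along `α` -/

section Norm

variable {q M' : ℕ} [Fact q.Prime] [NeZero q] [NeZero M']

/-- The level identity `(q M') q = q² M'`. -/
theorem level_mul_eq (q M' : ℕ) : q * M' * q = q ^ 2 * M' := by ring

/-- **The norm along `α` in `t`-expansions.**  For `q` prime, `q ∤ M'`, and EVERY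
`x ∈ F_{(qM')q}`, the `t`-expansion of the norm of `x` from `F_{(qM')q}` down to `F_{qM'}` along
the inclusion `α` is the product of the `q` conjugates `midExpPow ζ B x`, `B < q`. -/
theorem coe_normAlong_heckeAlphaBar_eq_prod (hqM : ¬ q ∣ M') (ζ : Kbarˣ)
    (hζ : IsPrimitiveRoot (ζ : Kbar) q) (x : FN (q * M' * q)) :
    ((normAlong (heckeAlphaBar Kbar (q * M') q) x : FN (q * M')) : LaurentSeries Kbar)
      = ∏ B ∈ Finset.range q, midExpPow hqM (level_mul_eq q M') ζ hζ B x := by
  classical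
  have hq : q.Prime := Fact.out
  letI := algebraAlong (heckeAlphaBar Kbar (q * M') q)
  have hfr : Module.finrank (FN (q * M')) (FN (q * M' * q)) = q :=
    Fermat.Agent.S37.helper9342.finrankAlong_heckeAlphaBar_of_dvd (q * M') hq (dvd_mul_right q M')
  haveI : Module.Finite (FN (q * M')) (FN (q * M' * q)) :=
    Module.finite_of_finrank_pos (by rw [hfr]; exact hq.pos)
  haveI : CharZero (FN (q * M')) :=
    charZero_of_injective_algebraMap (algebraMap Kbar (FN (q * M'))).injective
  have hcard : Fintype.card (Fin q) = Module.finrank (FN (q * M')) (FN (q * M' * q)) := by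
    rw [Fintype.card_fin, hfr]
  have key := norm_eq_prod_of_ringHoms (modularFunctionFieldBar (q * M')).val.toRingHom hcard
    (fun B : Fin q => midExpPow hqM (level_mul_eq q M') ζ hζ (B : ℕ))
    (fun B a => by
      show midExpPow hqM (level_mul_eq q M') ζ hζ (B : ℕ) (heckeAlphaBar Kbar (q * M') q a) = _
      rw [midExpPow_of_mem hqM (level_mul_eq q M') ζ hζ (B : ℕ) _
        (by rw [coe_heckeAlphaBar]; exact a.2), coe_heckeAlphaBar]
      rfl)
    (midExpPow_injective hqM (level_mul_eq q M') ζ hζ) x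
  rw [Fin.prod_univ_eq_prod_range
    (fun B => midExpPow hqM (level_mul_eq q M') ζ hζ B x) q] at key
  exact key

/-- **`N_α x = x · ∏_{B=1}^{q-1} midExp (ζ^B) x`** in `ℚ̄((t))`. -/
theorem coe_normAlong_heckeAlphaBar_eq_mul_prod (hqM : ¬ q ∣ M') (ζ : Kbarˣ)
    (hζ : IsPrimitiveRoot (ζ : Kbar) q) (x : FN (q * M' * q)) :
    ((normAlong (heckeAlphaBar Kbar (q * M') q) x : FN (q * M')) : LaurentSeries Kbar)
      = (x : LaurentSeries Kbar)
        * ∏ B ∈ Finset.Ico 1 q, midExpPow hqM (level_mul_eq q M') ζ hζ B x := by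
  have hq : q.Prime := Fact.out
  rw [coe_normAlong_heckeAlphaBar_eq_prod hqM ζ hζ x, Finset.range_eq_Ico,
    Finset.prod_eq_prod_Ico_succ_bot hq.pos, midExpPow_zero]

end Norm

end

end Fermat.Agent.S36.helper987
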