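import Fermat.Agent.S36.helper987_MidComplete
import Fermat.Agent.S36.helper3919_MidGauss
import Fermat.Agent.S35.helper1219_AtkinLehnerHall
import Fermat.Agent.S35.helper2736_KronModular
import Fermat.Prelude.Thm_ModularCurve_coeff_jqModC_neg_one

/-!
# S36-F1 (helper987): the mid-cusp valuation subrings — tables, `T`, `W`

`Kbar = ℚ̄`, `q` prime, `q ∤ M'`, `N = q² M'`, `ζ` a primitive `q`-th root of unity, `A` a valuation
subring of `ℚ̄`, `res : A →+* k` with `res q = 0`.  `midGauss ζ A res B` (`helper987_MidComplete`)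
is the pull-back of the Gauss ring along `midExpPow ζ B` (`q ∣ B`: the Gauss valuation subring at
`∞`; `q ∤ B`: the mid-cusp valuation subring attached to `ζ ^ B`).

* generic kit: roots of unity are units of `A`; the rotation `t ↦ u t` by a root of unity preserves
  the Gauss ring and (for `res u = 1`) the reduction; `t ↦ t ^ n` reflects the Gauss ring on
  normalisable series;
* `midRho` : the reduction map of `midGauss B`, `mem_nonunits_midGauss_iff`;
* the element `T = x(t^{q²}) - x(t)` (`x ∈ F_{M'}` with integral expansion `X`):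
  `T ∈ 𝔪(midGauss B)`, `T^(q-1) / q` is a unit of `midGauss B` with reduction `-(θ X̄)^(q-1)`
  when `θ X̄ ≠ 0`, and `T` is a unit at `∞` — in particular for `T = j(t^{q²}) - j(t)`;
* the `β`-row: `(midGauss B).comap β = (gaussF A res (q M')).comap W_q`,
  `(gaussF A res (N q)).comap β = gaussF A res N`;
* the `W_{q²}`-row: `midExp ζ ∘ W_{q²} = rot ζ ∘ midExp ζ⁻¹`, hence
  `(midGauss B).comap W_{q²} = midGauss (B (q - 1))`.
-/

set_option autoImplicit false
set_option linter.style.haveILetI false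
set_option linter.unusedSectionVars false

open ModularCurve AlgebraicCurve

namespace Fermat.Agent.S36.helper987

open Fermat.Agent.S24 Fermat.Agent.S24.helper24
open Fermat.Agent.S37.helper5666
open Fermat.Agent.S18.helper8991 (gaussRing gaussRho gaussF inc red IsNormalizable)

noncomputable section

/-! ## Generic kit on the Gauss ring -/

section Kit

variable {L : Type*} [Field L] (A : ValuationSubring L) {k : Type*} [Field k] (res : A →+* k)

/-- Roots of unity lie in every valuation subring. -/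
theorem mem_of_pow_eq_one_of_pos {u : L} {n : ℕ} (hn : 0 < n) (hu : u ^ n = 1) : u ∈ A := by
  rcases A.mem_or_inv_mem u with h | h
  · exact h
  · have h1 : u = u⁻¹ ^ (n - 1) := by
      have hu0 : u ≠ 0 := by
        rintro rfl
        rw [zero_pow hn.ne'] at hu
        exact zero_ne_one hu
      have h2 : u * u ^ (n - 1) = 1 := by
        rw [← pow_succ', Nat.sub_add_cancel hn, hu]
      rw [inv_pow]
      exact eq_inv_of_mul_eq_one_left h2
    rw [h1]
    exact pow_mem h _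

/-- A root of unity of `L` is the image of a unit of `A`. -/
theorem exists_unit_of_pow_eq_one (u : Lˣ) {n : ℕ} (hn : 0 < n) (hu : u ^ n = 1) :
    ∃ uA : Aˣ, Units.map (A.subtype : A →* L) uA = u := by
  have h1 : ((u : Lˣ) : L) ^ n = 1 := by
    rw [← Units.val_pow_eq_pow_val, hu, Units.val_one]
  have h2 : ((u⁻¹ : Lˣ) : L) ^ n = 1 := by
    rw [← Units.val_pow_eq_pow_val, inv_pow, hu, inv_one, Units.val_one]
  refine ⟨⟨⟨(u : L), mem_of_pow_eq_one_of_pos A hn h1⟩,
    ⟨((u⁻¹ : Lˣ) : L), mem_of_pow_eq_one_of_pos A hn h2⟩, ?_, ?_⟩, ?_⟩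
  · apply Subtype.ext
    show (u : L) * ((u⁻¹ : Lˣ) : L) = 1
    rw [← Units.val_mul, mul_inv_cancel, Units.val_one]
  · apply Subtype.ext
    show ((u⁻¹ : Lˣ) : L) * (u : L) = 1
    rw [← Units.val_mul, inv_mul_cancel, Units.val_one]
  · ext
    rfl

/-- The rotation by a unit of `A` preserves the Gauss ring. -/
theorem rot_mem_gaussRing (uA : Aˣ) {f : LaurentSeries L} (hf : f ∈ gaussRing A res) :
    rot (Units.map (A.subtype : A →* L) uA) f ∈ gaussRing A res := by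
  obtain ⟨X, Y, hY, h⟩ := hf
  refine ⟨rot uA X, rot uA Y, ?_, ?_⟩
  · show coeffMap res (rot uA Y) ≠ 0
    rw [coeffMap_rot]
    exact fun h0 => hY ((rot _).injective (by rw [h0, map_zero]))
  · show _ * coeffMap A.subtype (rot uA Y) = coeffMap A.subtype (rot uA X)
    rw [coeffMap_rot, coeffMap_rot, ← map_mul]
    exact congrArg _ h

/-- Reduction commutes with the rotation by a unit of `A`. -/
theorem gaussRho_rot (uA : Aˣ) {f : LaurentSeries L} (hf : f ∈ gaussRing A res) :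
    gaussRho A res ⟨rot (Units.map (A.subtype : A →* L) uA) f, rot_mem_gaussRing A res uA hf⟩ =
      rot (Units.map (res : A →* k) uA) (gaussRho A res ⟨f, hf⟩) := by
  obtain ⟨X, Y, hY, h⟩ := id hf
  have hY' : red A res (rot uA Y) ≠ 0 := by
    show coeffMap res (rot uA Y) ≠ 0
    rw [coeffMap_rot]
    exact fun h0 => hY ((rot _).injective (by rw [h0, map_zero]))
  have h' : rot (Units.map (A.subtype : A →* L) uA) f * inc A (rot uA Y) = inc A (rot uA X) := by
    show _ * coeffMap A.subtype (rot uA Y) = coeffMap A.subtype (rot uA X)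
    rw [coeffMap_rot, coeffMap_rot, ← map_mul]
    exact congrArg _ h
  rw [Fermat.Agent.S18.helper8991.gaussRho_eq A res ⟨f, hf⟩ hY h,
    Fermat.Agent.S18.helper8991.gaussRho_eq A res ⟨_, _⟩ hY' h', map_div₀]
  show coeffMap res (rot uA X) / coeffMap res (rot uA Y) = _
  rw [coeffMap_rot, coeffMap_rot]

/-- For a unit `uA` of `A` with `res uA = 1` the rotation does not change the reduction. -/
theorem gaussRho_rot_of_map_eq_one (uA : Aˣ) (hu : res (uA : A) = 1) {f : LaurentSeries L}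
    (hf : f ∈ gaussRing A res) :
    gaussRho A res ⟨rot (Units.map (A.subtype : A →* L) uA) f, rot_mem_gaussRing A res uA hf⟩ =
      gaussRho A res ⟨f, hf⟩ := by
  rw [gaussRho_rot]
  have h1 : Units.map (res : A →* k) uA = 1 := by
    ext
    simpa using hu
  rw [h1, rot_one]

/-- The rotation by a root of unity preserves and reflects the Gauss ring. -/
theorem rot_mem_gaussRing_iff (u : Lˣ) {n : ℕ} (hn : 0 < n) (hu : u ^ n = 1)
    (f : LaurentSeries L) : rot u f ∈ gaussRing A res ↔ f ∈ gaussRing A res := by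
  obtain ⟨uA, huA⟩ := exists_unit_of_pow_eq_one A u hn hu
  have hu' : u⁻¹ ^ n = 1 := by rw [inv_pow, hu, inv_one]
  obtain ⟨vA, hvA⟩ := exists_unit_of_pow_eq_one A u⁻¹ hn hu'
  constructor
  · intro h
    have h1 := rot_mem_gaussRing A res vA h
    rw [hvA, rot_rot, inv_mul_cancel, rot_one] at h1
    exact h1
  · intro h
    have h1 := rot_mem_gaussRing A res uA h
    rw [huA] at h1
    exact h1

/-- If `f` and `f⁻¹` both lie in the Gauss ring (`f ≠ 0`), the reduction of `f` is nonzero. -/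
theorem gaussRho_ne_zero_of_inv_mem {f : LaurentSeries L} (hf : f ∈ gaussRing A res)
    (hf' : f⁻¹ ∈ gaussRing A res) (hf0 : f ≠ 0) : gaussRho A res ⟨f, hf⟩ ≠ 0 := by
  intro h0
  have h1 : (⟨f, hf⟩ : ↥(gaussRing A res)) * ⟨f⁻¹, hf'⟩ = 1 :=
    Subtype.ext (mul_inv_cancel₀ hf0)
  have h2 := congrArg (gaussRho A res) h1
  rw [map_mul, h0, zero_mul, map_one] at h2
  exact zero_ne_one h2

/-- `t ↦ t ^ n` reflects the Gauss ring on normalisable series. -/
theorem mem_gaussRing_of_qExpand_mem (n : ℕ) [NeZero n] {f : LaurentSeries L}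
    (hf : IsNormalizable A res f) (h : qExpand L n f ∈ gaussRing A res) :
    f ∈ gaussRing A res := by
  rcases hf.mem_or_inv_mem with h1 | h1
  · exact h1
  · have hf0 : f ≠ 0 := hf.ne_zero
    have h2 : qExpand L n f⁻¹ ∈ gaussRing A res :=
      Fermat.Agent.S35.helper2736.qExpand_mem_gaussRing A res n h1
    have h3 : (qExpand L n f⁻¹)⁻¹ ∈ gaussRing A res := by
      rw [map_inv₀, inv_inv]
      exact h
    have h4 : qExpand L n f⁻¹ ≠ 0 := (map_ne_zero _).mpr (inv_ne_zero hf0)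
    have h5 := gaussRho_ne_zero_of_inv_mem A res h2 h3 h4
    rw [Fermat.Agent.S35.helper2736.gaussRho_qExpand A res n h1] at h5
    have h6 : gaussRho A res ⟨f⁻¹, h1⟩ ≠ 0 := fun h0 => h5 (by rw [h0, map_zero])
    have h7 := Fermat.Agent.S18.helper8991.inv_mem_gaussRing_of_gaussRho_ne_zero A res ⟨f⁻¹, h1⟩ h6
    rw [inv_inv] at h7
    exact h7

/-- Membership in the maximal ideal of a valuation subring cut out by the Gauss ring along a ring
homomorphism `σ`: the reduction vanishes. -/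
theorem mem_nonunits_iff_gaussRho_eq_zero {F : Type*} [Field F] (σ : F →+* LaurentSeries L)
    (V : ValuationSubring F) (hV : ∀ x : F, x ∈ V ↔ σ x ∈ gaussRing A res) (x : F) :
    x ∈ V.nonunits ↔ ∃ h : σ x ∈ gaussRing A res, gaussRho A res ⟨σ x, h⟩ = 0 := by
  rw [ValuationSubring.mem_nonunits_iff]
  constructor
  · intro hx
    have hxV : x ∈ V := (V.valuation_le_one_iff x).mp hx.le
    refine ⟨(hV x).mp hxV, ?_⟩
    by_contra h0
    have h1 := Fermat.Agent.S18.helper8991.inv_mem_gaussRing_of_gaussRho_ne_zero A res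
      ⟨σ x, (hV x).mp hxV⟩ h0
    have h2 : x⁻¹ ∈ V := (hV x⁻¹).mpr (by rw [map_inv₀]; exact h1)
    have h3 : V.valuation x⁻¹ ≤ 1 := (V.valuation_le_one_iff _).mpr h2
    have hx0 : x ≠ 0 := by
      rintro rfl
      apply h0
      have e : (⟨σ 0, (hV 0).mp hxV⟩ : ↥(gaussRing A res)) = 0 := Subtype.ext (map_zero σ)
      rw [e, map_zero]
    rw [map_inv₀, inv_le_one₀ (by rw [zero_lt_iff]; exact (map_ne_zero _).mpr hx0)] at h3
    exact not_lt.mpr h3 hx
  · rintro ⟨h, h0⟩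
    have hxV : x ∈ V := (hV x).mpr h
    have h1 : V.valuation x ≤ 1 := (V.valuation_le_one_iff x).mpr hxV
    rcases h1.lt_or_eq with h2 | h2
    · exact h2
    · exfalso
      have hx0 : x ≠ 0 := by
        rintro rfl
        rw [map_zero] at h2
        exact zero_ne_one h2
      have h3 : x⁻¹ ∈ V := by
        rw [← V.valuation_le_one_iff, map_inv₀, h2, inv_one]
      have h4 : (σ x)⁻¹ ∈ gaussRing A res := by
        rw [← map_inv₀]
        exact (hV _).mp h3
      exact gaussRho_ne_zero_of_inv_mem A res h h4 ((map_ne_zero σ).mpr hx0) h0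

end Kit

/-! ## The mid-cusp valuation subrings: reduction map -/

section Mid

open Fermat.Agent.Lib.helper9242 (thetaFun)

variable {q M' N : ℕ} [Fact q.Prime] [NeZero M'] [NeZero N]
variable (hqM : ¬ q ∣ M') (hN : N = q ^ 2 * M') (ζ : Kbarˣ) (hζ : IsPrimitiveRoot (ζ : Kbar) q)
variable (A : ValuationSubring Kbar) {k : Type*} [Field k] (res : A →+* k)

/-- The reduction map of the valuation subring `midGauss B` (`gaussRho ∘ midExpPow B`). -/
def midRho (B : ℕ) : ↥(midGauss hqM hN ζ hζ A res B) →+* LaurentSeries k :=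
  (gaussRho A res).comp ((midExpPow hqM hN ζ hζ B).restrict
    (midGauss hqM hN ζ hζ A res B).toSubring (gaussRing A res) (fun _ hx => hx))

theorem midRho_apply (B : ℕ) (x : ↥(midGauss hqM hN ζ hζ A res B)) :
    midRho hqM hN ζ hζ A res B x = gaussRho A res ⟨midExpPow hqM hN ζ hζ B x, x.2⟩ := rfl

/-- The maximal ideal of `midGauss B` is the kernel of the reduction map. -/
theorem mem_nonunits_midGauss_iff (B : ℕ) (x : FN N) :
    x ∈ (midGauss hqM hN ζ hζ A res B).nonunits ↔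
      ∃ h : x ∈ midGauss hqM hN ζ hζ A res B, midRho hqM hN ζ hζ A res B ⟨x, h⟩ = 0 :=
  mem_nonunits_iff_gaussRho_eq_zero A res (midExpPow hqM hN ζ hζ B) _ (fun _ => Iff.rfl) x

theorem midRho_eq (B : ℕ) (x : ↥(midGauss hqM hN ζ hζ A res B)) {X Y : LaurentSeries A}
    (hY : red A res Y ≠ 0) (h : midExpPow hqM hN ζ hζ B x * inc A Y = inc A X) :
    midRho hqM hN ζ hζ A res B x = red A res X / red A res Y :=
  Fermat.Agent.S18.helper8991.gaussRho_eq A res ⟨_, x.2⟩ hY h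

theorem mem_midGauss_of_inc (B : ℕ) {x : FN N} {X : LaurentSeries A}
    (h : midExpPow hqM hN ζ hζ B x = inc A X) : x ∈ midGauss hqM hN ζ hζ A res B := by
  show midExpPow hqM hN ζ hζ B x ∈ gaussRing A res
  rw [h]
  exact Fermat.Agent.S18.helper8991.inc_mem_gaussRing A res X

theorem midRho_of_inc (B : ℕ) {x : FN N} {X : LaurentSeries A}
    (h : midExpPow hqM hN ζ hζ B x = inc A X) :
    midRho hqM hN ζ hζ A res B ⟨x, mem_midGauss_of_inc hqM hN ζ hζ A res B h⟩ = red A res X := by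
  rw [midRho_eq hqM hN ζ hζ A res B _ (X := X) (Y := 1) (by simp) (by simp [h])]
  simp

/-- Elements of `midGauss B` with nonzero reduction are units. -/
theorem inv_mem_midGauss (B : ℕ) (x : ↥(midGauss hqM hN ζ hζ A res B))
    (hx : midRho hqM hN ζ hζ A res B x ≠ 0) :
    (x : FN N)⁻¹ ∈ midGauss hqM hN ζ hζ A res B := by
  show midExpPow hqM hN ζ hζ B (x : FN N)⁻¹ ∈ gaussRing A res
  rw [map_inv₀]
  exact Fermat.Agent.S18.helper8991.inv_mem_gaussRing_of_gaussRho_ne_zero A res ⟨_, x.2⟩ hx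

/-- Constants of `A` lie in every `midGauss B`. -/
theorem algebraMap_mem_midGauss (B : ℕ) {c : Kbar} (hc : c ∈ A) :
    algebraMap Kbar (FN N) c ∈ midGauss hqM hN ζ hζ A res B := by
  apply mem_midGauss_of_inc hqM hN ζ hζ A res B (X := HahnSeries.C (⟨c, hc⟩ : A))
  rw [midExpPow_algebraMap, Fermat.Agent.S18.helper8991.inc_C]

/-- On the `α`-subfield `F_{qM'}` the maximal ideal of `midGauss B` is that of the Gauss
valuation subring at `∞`. -/
theorem mem_nonunits_midGauss_iff_of_mem (B : ℕ) (x : FN N)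
    (hx : (x : LaurentSeries Kbar) ∈ modularFunctionFieldBar (q * M')) :
    x ∈ (midGauss hqM hN ζ hζ A res B).nonunits ↔ x ∈ (gaussF A res N).nonunits := by
  rw [mem_nonunits_iff_gaussRho_eq_zero A res (midExpPow hqM hN ζ hζ B) _ (fun _ => Iff.rfl) x,
    mem_nonunits_iff_gaussRho_eq_zero A res (modularFunctionFieldBar N).val.toRingHom
      (gaussF A res N) (fun _ => Iff.rfl) x]
  have e : midExpPow hqM hN ζ hζ B x = (modularFunctionFieldBar N).val.toRingHom x :=
    midExpPow_of_mem hqM hN ζ hζ B x hx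
  rw [e]

/-! ### The root of unity -/

omit [NeZero M'] [NeZero N] in
include hζ in
/-- `ζ ^ B` (`q ∤ B`) is the image of a unit `u` of `A` with `1 + u + ⋯ + u^(q-1) = 0` and
`res u = 1` (if `res q = 0`). -/
theorem exists_zeta_unit (hres : res (q : A) = 0) {B : ℕ} (hB : ¬ q ∣ B) :
    ∃ u : Aˣ, Units.map (A.subtype : A →* Kbar) u = ζ ^ B ∧
      ∑ i ∈ Finset.range q, (u : A) ^ i = 0 ∧ res (u : A) = 1 := by
  have hq : q.Prime := Fact.out
  have hprim : IsPrimitiveRoot ((ζ ^ B : Kbarˣ) : Kbar) q :=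
    isPrimitiveRoot_pow_of_not_dvd ζ hζ hB
  have hpow : (ζ ^ B) ^ q = 1 := Units.ext (by
    rw [Units.val_pow_eq_pow_val, Units.val_one]
    exact hprim.pow_eq_one)
  obtain ⟨u, hu⟩ := exists_unit_of_pow_eq_one A (ζ ^ B) hq.pos hpow
  have hu' : ((u : A) : Kbar) = ((ζ ^ B : Kbarˣ) : Kbar) := by
    rw [← hu]
    rfl
  have hsum : ∑ i ∈ Finset.range q, (u : A) ^ i = 0 := by
    apply Subtype.ext
    have h1 := hprim.geom_sum_eq_zero hq.one_lt
    rw [← hu'] at h1
    have h4 : ((∑ i ∈ Finset.range q, (u : A) ^ i : A) : Kbar) =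
        ∑ i ∈ Finset.range q, ((u : A) : Kbar) ^ i := by
      push_cast
      rfl
    rw [h4, h1]
    rfl
  refine ⟨u, hu, hsum, ?_⟩
  obtain ⟨c, hc⟩ := Fermat.Agent.S36.helper3919.exists_pi_pow_eq hq (u : A) hsum
  have h2 := congrArg res hc
  rw [map_pow, map_sub, map_one, map_mul, map_natCast] at h2
  have h3 : (res (q : A) : k) = 0 := hres
  rw [map_natCast] at h3
  rw [h3, zero_mul] at h2
  exact sub_eq_zero.mp (pow_eq_zero_iff (Nat.sub_ne_zero_of_lt hq.one_lt) |>.mp h2)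

/-! ### The element `T = x(t^{q²}) - x(t)` -/

omit [Fact q.Prime] [NeZero M'] [NeZero N] in
/-- The rotation of S37 is the twist of S28 (any coefficient ring). -/
theorem rot_eq_twist_gen {R : Type*} [CommRing R] (u : Rˣ) (x : LaurentSeries R) :
    rot u x = Fermat.Agent.S28.helper328.twist u x := by
  ext n
  rfl

/-- `midExpPow B (x(t^{q²}) - x(t)) = x(ζ^B t) - x(t)` for `x ∈ F_{M'}`, `q ∤ B`. -/
theorem midExpPow_vHom_sub_inclHom [NeZero (q ^ 2)] {B : ℕ} (hB : ¬ q ∣ B) (hM : M' ∣ N)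
    (x : FN M') :
    midExpPow hqM hN ζ hζ B (vHom hN x - inclHom hM x) =
      rot (ζ ^ B) (x : LaurentSeries Kbar) - (x : LaurentSeries Kbar) := by
  rw [map_sub, midExpPow_of_eq_qExpand hqM hN ζ hζ hB (vHom hN x) x (coe_vHom hN x),
    midExpPow_of_mem hqM hN ζ hζ B (inclHom hM x)
      (by rw [coe_inclHom]; exact fnBar_mono (Dvd.intro_left q rfl) x.2), coe_inclHom]

/-- **Integral form of `T` at the mid cusp**: for `x ∈ F_{M'}` with integral expansion `X` and a
unit `u` of `A` lifting `ζ ^ B`, `midExpPow B (x(t^{q²}) - x(t)) = X(u t) - X(t)`. -/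
theorem midExpPow_vHom_sub_inclHom_inc [NeZero (q ^ 2)] {B : ℕ} (hB : ¬ q ∣ B) (hM : M' ∣ N)
    (x : FN M') (X : LaurentSeries A) (hxX : (x : LaurentSeries Kbar) = inc A X) (u : Aˣ)
    (hu : Units.map (A.subtype : A →* Kbar) u = ζ ^ B) :
    midExpPow hqM hN ζ hζ B (vHom hN x - inclHom hM x) = inc A (rot u X - X) := by
  rw [midExpPow_vHom_sub_inclHom hqM hN ζ hζ hB hM x, hxX, ← hu, map_sub]
  congr 1
  exact (coeffMap_rot A.subtype u X).symm

/-- **`T ∈ 𝔪(v_mid,B)`**: for `x ∈ F_{M'}` with integral expansion, `T = x(t^{q²}) - x(t)` lies in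
the maximal ideal of every mid-cusp valuation subring. -/
theorem vHom_sub_inclHom_mem_nonunits [NeZero (q ^ 2)] (hres : res (q : A) = 0) {B : ℕ}
    (hB : ¬ q ∣ B) (hM : M' ∣ N) (x : FN M') (X : LaurentSeries A)
    (hxX : (x : LaurentSeries Kbar) = inc A X) :
    vHom hN x - inclHom hM x ∈ (midGauss hqM hN ζ hζ A res B).nonunits := by
  obtain ⟨u, hu, -, hu1⟩ := exists_zeta_unit ζ hζ A res hres hB
  have h1 := midExpPow_vHom_sub_inclHom_inc hqM hN ζ hζ A hB hM x X hxX u hu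
  rw [mem_nonunits_midGauss_iff]
  refine ⟨mem_midGauss_of_inc hqM hN ζ hζ A res B h1, ?_⟩
  rw [midRho_of_inc hqM hN ζ hζ A res B h1, map_sub]
  show coeffMap res (rot u X) - coeffMap res X = 0
  rw [coeffMap_rot_of_map_eq_one res u hu1, sub_self]

/-- **`T^(q-1) = q · ε` at the mid cusp**, with `ε` integral and `red ε = -(θ X̄)^(q-1)`. -/
theorem exists_midExpPow_pow_eq [NeZero (q ^ 2)] (hres : res (q : A) = 0) {B : ℕ}
    (hB : ¬ q ∣ B) (hM : M' ∣ N) (x : FN M') (X : LaurentSeries A)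
    (hxX : (x : LaurentSeries Kbar) = inc A X) :
    ∃ ε : LaurentSeries A,
      midExpPow hqM hN ζ hζ B ((vHom hN x - inclHom hM x) ^ (q - 1)) =
        HahnSeries.C (q : Kbar) * inc A ε ∧
      red A res ε = -(thetaFun k (red A res X)) ^ (q - 1) := by
  have hq : q.Prime := Fact.out
  obtain ⟨u, hu, hsum, hu1⟩ := exists_zeta_unit ζ hζ A res hres hB
  have h1 := midExpPow_vHom_sub_inclHom_inc hqM hN ζ hζ A hB hM x X hxX u hu
  have hord : Fermat.Agent.S36.helper3919.OrdGE X.order X := fun n hn =>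
    HahnSeries.coeff_eq_zero_of_lt_order hn
  obtain ⟨ε, -, hε, hεred⟩ :=
    Fermat.Agent.S36.helper3919.exists_twist_sub_self_pow_red hq u hsum X hord res hu1
  refine ⟨ε, ?_, hεred⟩
  rw [map_pow, h1, ← map_pow, rot_eq_twist_gen, hε, map_mul]
  congr 1
  rw [Fermat.Agent.S18.helper8991.inc_C]
  exact congrArg HahnSeries.C (map_natCast A.subtype q)

theorem midExpPow_natCast (B : ℕ) (n : ℕ) :
    midExpPow hqM hN ζ hζ B (n : FN N) = HahnSeries.C (n : Kbar) := by
  rw [map_natCast, map_natCast]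

/-- **`T^(q-1) / q ∈ v_mid,B`**, with reduction `-(θ X̄)^(q-1)`. -/
theorem exists_midRho_pow_div [NeZero (q ^ 2)] (hres : res (q : A) = 0) {B : ℕ}
    (hB : ¬ q ∣ B) (hM : M' ∣ N) (x : FN M') (X : LaurentSeries A)
    (hxX : (x : LaurentSeries Kbar) = inc A X) :
    ∃ h : (vHom hN x - inclHom hM x) ^ (q - 1) / (q : FN N) ∈ midGauss hqM hN ζ hζ A res B,
      midRho hqM hN ζ hζ A res B ⟨_, h⟩ = -(thetaFun k (red A res X)) ^ (q - 1) := by
  have hq : q.Prime := Fact.out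
  obtain ⟨ε, hε, hεred⟩ := exists_midExpPow_pow_eq hqM hN ζ hζ A res hres hB hM x X hxX
  have hq0 : (HahnSeries.C (q : Kbar) : LaurentSeries Kbar) ≠ 0 :=
    HahnSeries.C_ne_zero (by exact_mod_cast hq.ne_zero)
  have h1 : midExpPow hqM hN ζ hζ B ((vHom hN x - inclHom hM x) ^ (q - 1) / (q : FN N)) =
      inc A ε := by
    rw [map_div₀, hε, midExpPow_natCast, mul_div_cancel_left₀ _ hq0]
  exact ⟨mem_midGauss_of_inc hqM hN ζ hζ A res B h1,
    (midRho_of_inc hqM hN ζ hζ A res B h1).trans hεred⟩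

/-- **`T^(q-1) / q` is a unit of `v_mid,B`** when `θ X̄ ≠ 0`: the mid-cusp valuation of `q` is
`q - 1` times that of `T`. -/
theorem pow_div_unit_midGauss [NeZero (q ^ 2)] (hres : res (q : A) = 0) {B : ℕ}
    (hB : ¬ q ∣ B) (hM : M' ∣ N) (x : FN M') (X : LaurentSeries A)
    (hxX : (x : LaurentSeries Kbar) = inc A X) (hθ : thetaFun k (red A res X) ≠ 0) :
    (vHom hN x - inclHom hM x) ^ (q - 1) / (q : FN N) ∈ midGauss hqM hN ζ hζ A res B ∧
      ((vHom hN x - inclHom hM x) ^ (q - 1) / (q : FN N))⁻¹ ∈ midGauss hqM hN ζ hζ A res B := by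
  obtain ⟨h, hred⟩ := exists_midRho_pow_div hqM hN ζ hζ A res hres hB hM x X hxX
  refine ⟨h, inv_mem_midGauss hqM hN ζ hζ A res B ⟨_, h⟩ ?_⟩
  rw [hred]
  exact neg_ne_zero.mpr (pow_ne_zero _ hθ)

omit [NeZero N] in
/-- **`T` is a unit at `∞`** when `θ X̄ ≠ 0`. -/
theorem vHom_sub_inclHom_unit_gaussF [NeZero (q ^ 2)] (hres : res (q : A) = 0) (hM : M' ∣ N)
    (x : FN M') (X : LaurentSeries A) (hxX : (x : LaurentSeries Kbar) = inc A X)
    (hθ : thetaFun k (red A res X) ≠ 0) :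
    vHom hN x - inclHom hM x ∈ gaussF A res N ∧ (vHom hN x - inclHom hM x)⁻¹ ∈ gaussF A res N := by
  have hq : q.Prime := Fact.out
  have h1 : ((vHom hN x - inclHom hM x : FN N) : LaurentSeries Kbar) =
      inc A (qExpand A (q ^ 2) X - X) := by
    show ((vHom hN x : FN N) : LaurentSeries Kbar) - ((inclHom hM x : FN N) : LaurentSeries Kbar)
      = _
    rw [coe_vHom, coe_inclHom, hxX, map_sub]
    congr 1
    exact (coeffMap_qExpand A.subtype (q ^ 2) X).symm
  have hmem : ((vHom hN x - inclHom hM x : FN N) : LaurentSeries Kbar) ∈ gaussRing A res := by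
    rw [h1]
    exact Fermat.Agent.S18.helper8991.inc_mem_gaussRing A res _
  refine ⟨hmem, ?_⟩
  have hred : gaussRho A res ⟨_, hmem⟩ = qExpand k (q ^ 2) (red A res X) - red A res X := by
    have e : (⟨((vHom hN x - inclHom hM x : FN N) : LaurentSeries Kbar), hmem⟩ :
        ↥(gaussRing A res)) = ⟨inc A (qExpand A (q ^ 2) X - X),
          Fermat.Agent.S18.helper8991.inc_mem_gaussRing A res _⟩ := Subtype.ext h1
    rw [e, Fermat.Agent.S18.helper8991.gaussRho_inc, map_sub]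
    congr 1
    exact coeffMap_qExpand res (q ^ 2) X
  have hne : gaussRho A res ⟨_, hmem⟩ ≠ 0 := by
    rw [hred]
    intro h0
    apply hθ
    ext n
    rw [Fermat.Agent.Lib.helper9242.thetaFun_coeff, HahnSeries.coeff_zero]
    by_cases hn : (q : ℤ) ∣ n
    · obtain ⟨m, rfl⟩ := hn
      have h3 : (res (q : A) : k) = 0 := hres
      rw [map_natCast] at h3
      push_cast
      rw [h3, zero_mul, zero_mul]
    · have h2 : ¬ ((q ^ 2 : ℕ) : ℤ) ∣ n := fun h => hn (Dvd.dvd.trans ⟨q, by push_cast; ring⟩ h)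
      have h3 := congrArg (fun y : LaurentSeries k => y.coeff n) h0
      simp only [HahnSeries.coeff_sub, HahnSeries.coeff_zero] at h3
      rw [qExpand_coeff_of_not_dvd (q ^ 2) _ h2, zero_sub, neg_eq_zero] at h3
      rw [h3, mul_zero]
  have h2 := Fermat.Agent.S18.helper8991.inv_mem_gaussRing_of_gaussRho_ne_zero A res ⟨_, hmem⟩ hne
  exact h2

/-! ### The instance `T = j(t^{q²}) - j(t)` -/

omit [Fact q.Prime] [NeZero M'] [NeZero N] in
/-- `θ(j̄) ≠ 0` over every field. -/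
theorem thetaFun_red_jqNModC_one_ne_zero :
    thetaFun k (red A res (jqNModC A 1)) ≠ 0 := by
  rw [Fermat.Agent.S18.helper8991.red_jqNModC]
  intro h0
  have h1 := congrArg (fun y : LaurentSeries k => y.coeff (-1)) h0
  simp only [Fermat.Agent.Lib.helper9242.thetaFun_coeff, HahnSeries.coeff_zero] at h1
  rw [jqNModC_one, coeff_jqModC_neg_one] at h1
  simp at h1

omit [Fact q.Prime] [NeZero N] in
/-- The expansion of `j ∈ F_{M'}` is integral. -/
theorem coe_jBarD_one_eq_inc :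
    ((jBarD M' 1 (one_dvd M') : FN M') : LaurentSeries Kbar) = inc A (jqNModC A 1) := by
  rw [helper3176.coe_jBarD, Fermat.Agent.S18.helper8991.inc_jqNModC]
  exact coeffMap_jqNModC (algebraMap ℚ Kbar) 1

omit [Fact q.Prime] in
/-- `j(t^{q²}) - j(t)` is `x(t^{q²}) - x(t)` for `x = j ∈ F_{M'}`. -/
theorem jBarD_sq_sub_eq [NeZero (q ^ 2)] (h2 : q ^ 2 ∣ N) (h1 : 1 ∣ N) (hM : M' ∣ N) :
    jBarD N (q ^ 2) h2 - jBarD N 1 h1 =
      vHom hN (jBarD M' 1 (one_dvd M')) - inclHom hM (jBarD M' 1 (one_dvd M')) := by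
  apply Subtype.ext
  show ((jBarD N (q ^ 2) h2 : FN N) : LaurentSeries Kbar) - ((jBarD N 1 h1 : FN N) :
      LaurentSeries Kbar) = ((vHom hN (jBarD M' 1 (one_dvd M')) : FN N) : LaurentSeries Kbar) -
        ((inclHom hM (jBarD M' 1 (one_dvd M')) : FN N) : LaurentSeries Kbar)
  rw [coe_vHom, coe_inclHom, helper3176.coe_jBarD, helper3176.coe_jBarD, helper3176.coe_jBarD,
    jSeries_eq_qExpand_jK (q ^ 2), jSeries_eq_qExpand_jK 1, qExpand_one_apply]

/-- **`j(t^{q²}) - j(t) ∈ 𝔪(v_mid,B)`.** -/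
theorem jBarD_sq_sub_mem_nonunits_midGauss [NeZero (q ^ 2)] (hres : res (q : A) = 0) {B : ℕ}
    (hB : ¬ q ∣ B) (h2 : q ^ 2 ∣ N) (h1 : 1 ∣ N) :
    jBarD N (q ^ 2) h2 - jBarD N 1 h1 ∈ (midGauss hqM hN ζ hζ A res B).nonunits := by
  have hM : M' ∣ N := hN ▸ Dvd.intro_left _ rfl
  rw [jBarD_sq_sub_eq hN h2 h1 hM]
  exact vHom_sub_inclHom_mem_nonunits hqM hN ζ hζ A res hres hB hM _ _
    (coe_jBarD_one_eq_inc A)

/-- **`(j(t^{q²}) - j(t))^(q-1) / q` is a unit of `v_mid,B`** (`e = q - 1` witness). -/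
theorem jBarD_sq_sub_pow_div_unit_midGauss [NeZero (q ^ 2)] (hres : res (q : A) = 0) {B : ℕ}
    (hB : ¬ q ∣ B) (h2 : q ^ 2 ∣ N) (h1 : 1 ∣ N) :
    (jBarD N (q ^ 2) h2 - jBarD N 1 h1) ^ (q - 1) / (q : FN N) ∈ midGauss hqM hN ζ hζ A res B ∧
      ((jBarD N (q ^ 2) h2 - jBarD N 1 h1) ^ (q - 1) / (q : FN N))⁻¹ ∈
        midGauss hqM hN ζ hζ A res B := by
  have hM : M' ∣ N := hN ▸ Dvd.intro_left _ rfl
  rw [jBarD_sq_sub_eq hN h2 h1 hM]
  exact pow_div_unit_midGauss hqM hN ζ hζ A res hres hB hM _ _ (coe_jBarD_one_eq_inc A)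
    (thetaFun_red_jqNModC_one_ne_zero A res)

include hN in
/-- **`j(t^{q²}) - j(t)` is a unit at `∞`.** -/
theorem jBarD_sq_sub_unit_gaussF [NeZero (q ^ 2)] (hres : res (q : A) = 0) (h2 : q ^ 2 ∣ N)
    (h1 : 1 ∣ N) :
    jBarD N (q ^ 2) h2 - jBarD N 1 h1 ∈ gaussF A res N ∧
      (jBarD N (q ^ 2) h2 - jBarD N 1 h1)⁻¹ ∈ gaussF A res N := by
  have hM : M' ∣ N := hN ▸ Dvd.intro_left _ rfl
  rw [jBarD_sq_sub_eq hN h2 h1 hM]
  exact vHom_sub_inclHom_unit_gaussF hN A res hres hM _ _ (coe_jBarD_one_eq_inc A)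
    (thetaFun_red_jqNModC_one_ne_zero A res)

/-- **A mid-cusp valuation subring is not the Gauss valuation subring at `∞`.** -/
theorem midGauss_ne_gaussF (hres : res (q : A) = 0) {B : ℕ} (hB : ¬ q ∣ B) :
    midGauss hqM hN ζ hζ A res B ≠ gaussF A res N := by
  have hq : q.Prime := Fact.out
  haveI : NeZero (q ^ 2) := ⟨pow_ne_zero 2 hq.ne_zero⟩
  intro h
  have h1 := jBarD_sq_sub_mem_nonunits_midGauss hqM hN ζ hζ A res hres hB (sq_dvd_level hN)
    (one_dvd N)
  have h2 := (jBarD_sq_sub_unit_gaussF hN A res hres (sq_dvd_level hN) (one_dvd N)).2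
  rw [h, ValuationSubring.mem_nonunits_iff] at h1
  have h3 : (gaussF A res N).valuation
      (jBarD N (q ^ 2) (sq_dvd_level hN) - jBarD N 1 (one_dvd N))⁻¹ ≤ 1 :=
    ((gaussF A res N).valuation_le_one_iff _).mpr h2
  have hne : jBarD N (q ^ 2) (sq_dvd_level hN) - jBarD N 1 (one_dvd N) ≠ 0 := by
    intro h0
    have h5 : ((jBarD N (q ^ 2) (sq_dvd_level hN) : FN N) : LaurentSeries Kbar) =
        ((jBarD N 1 (one_dvd N) : FN N) : LaurentSeries Kbar) :=
      congrArg Subtype.val (sub_eq_zero.mp h0)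
    rw [helper3176.coe_jBarD, helper3176.coe_jBarD] at h5
    have h6 : (jSeries (q ^ 2)).coeff (-1) = (jSeries 1).coeff (-1) := by rw [h5]
    have hnd : ¬ ((q ^ 2 : ℕ) : ℤ) ∣ -1 := by
      intro hdvd
      have h7 : ((q ^ 2 : ℕ) : ℤ) ∣ 1 := (Int.dvd_neg).mp hdvd
      have h8 : q ^ 2 ∣ 1 := by exact_mod_cast h7
      have h9 : q ∣ 1 := (Dvd.intro _ (sq q).symm).trans h8
      exact hq.one_lt.ne' (Nat.dvd_one.mp h9)
    rw [jSeries_one_coeff_neg_one, jSeries_eq_qExpand_jK,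
      qExpand_coeff_of_not_dvd (q ^ 2) _ hnd] at h6
    exact zero_ne_one h6
  rw [map_inv₀, inv_le_one₀ (by rw [zero_lt_iff]; exact (map_ne_zero _).mpr hne)] at h3
  exact not_lt.mpr h3 h1

/-! ### The `β`-row -/

section Beta

variable [NeZero q]

/-- `β y = V_q y` in `F_{(qM')q}`. -/
theorem heckeBetaBar_eq_vHom (hN2 : q * M' * q = q * (q * M')) (y : FN (q * M')) :
    heckeBetaBar Kbar (q * M') q y = vHom hN2 y :=
  Subtype.ext (by rw [coe_heckeBetaBar, coe_vHom])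

/-- **The `β`-row of the mid-cusp table** (elementwise): `β y ∈ v_mid,B ⟺ W_q y ∈ v'_∞`, i.e.
`v_mid,B` lies over `v'_0 = v'_∞ ∘ W_q` along `β`. -/
theorem heckeBetaBar_mem_midGauss_iff (h : Nat.Coprime q M') {B : ℕ} (hB : ¬ q ∣ B)
    (y : FN (q * M')) :
    heckeBetaBar Kbar (q * M') q y ∈ midGauss hqM (level_mul_eq q M') ζ hζ A res B ↔
      Fermat.Agent.S35.helper1219.atkinLehnerBar q M' h y ∈ gaussF A res (q * M') := by
  have hq : q.Prime := Fact.out
  have hprim : IsPrimitiveRoot ((ζ ^ B : Kbarˣ) : Kbar) q :=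
    isPrimitiveRoot_pow_of_not_dvd ζ hζ hB
  have hpow : (ζ ^ B) ^ q = 1 := Units.ext (by
    rw [Units.val_pow_eq_pow_val, Units.val_one]
    exact hprim.pow_eq_one)
  have hN2 : q * M' * q = q * (q * M') := by ring
  rw [heckeBetaBar_eq_vHom hN2, mem_midGauss_iff, midExpPow_of_not_dvd hqM _ ζ hζ hB,
    midExp_vHom_of_atkinLehner hqM (level_mul_eq q M') (ζ ^ B) hprim hN2
      ((Fermat.Agent.S35.helper1219.atkinLehnerBar q M' h : FN (q * M') ≃ₐ[Kbar] FN (q * M')) :
        FN (q * M') →+* FN (q * M'))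
      (fun c => (Fermat.Agent.S35.helper1219.atkinLehnerBar q M' h).commutes c)
      (fun {d} _ _ hd => Fermat.Agent.S35.helper1219.atkinLehnerBar_jBarD_cofactor q M' h hd)
      (fun {d} _ _ hd => Fermat.Agent.S35.helper1219.atkinLehnerBar_jBarD_mul_cofactor q M' h hd)
      y,
    rot_mem_gaussRing_iff A res (ζ ^ B) hq.pos hpow]
  rfl

/-- **The `β`-row of the mid-cusp table** (`comap` form). -/
theorem midGauss_comap_heckeBetaBar (h : Nat.Coprime q M') {B : ℕ} (hB : ¬ q ∣ B) :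
    (midGauss hqM (level_mul_eq q M') ζ hζ A res B).comap
        (heckeBetaBar Kbar (q * M') q).toRingHom =
      (gaussF A res (q * M')).comap
        ((Fermat.Agent.S35.helper1219.atkinLehnerBar q M' h : FN (q * M') ≃ₐ[Kbar] FN (q * M')) :
          FN (q * M') →+* FN (q * M')) := by
  ext y
  rw [ValuationSubring.mem_comap, ValuationSubring.mem_comap]
  exact heckeBetaBar_mem_midGauss_iff hqM ζ hζ A res h hB y

end Beta

/-! ### The `W_{q²}`-row -/

section AtkinLehnerSq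

open Fermat.Agent.S35.helper1219 (hallIdx)

theorem midExp_congr {ζ₁ ζ₂ : Kbarˣ} (h : ζ₁ = ζ₂) (hζ₁ : IsPrimitiveRoot (ζ₁ : Kbar) q)
    (hζ₂ : IsPrimitiveRoot (ζ₂ : Kbar) q) :
    midExp hqM hN ζ₁ hζ₁ = midExp hqM hN ζ₂ hζ₂ := by
  subst h
  rfl

/-- **`midExp ζ ∘ W_{q²} = rot ζ ∘ midExp ζ⁻¹`**, for any ring endomorphism `W` of `F_N` with the
values of the Atkin–Lehner involution `W_{q²}` on the generators: `j(t^d) ↦ j(t^{q² d})`,
`j(t^{q d}) ↦ j(t^{q d})`, `j(t^{q² d}) ↦ j(t^d)` (`d ∣ M'`). -/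
theorem midExp_atkinLehnerSq (hζ' : IsPrimitiveRoot ((ζ⁻¹ : Kbarˣ) : Kbar) q)
    (W : FN N →+* FN N)
    (hwc : ∀ c : Kbar, W (algebraMap Kbar (FN N) c) = algebraMap Kbar (FN N) c)
    (hw1 : ∀ (d : ℕ) [NeZero d] [NeZero (q ^ 2 * d)] (h1 : d ∣ N) (h2 : q ^ 2 * d ∣ N),
      d ∣ M' → W (jBarD N d h1) = jBarD N (q ^ 2 * d) h2)
    (hw2 : ∀ (d : ℕ) [NeZero (q * d)] (h1 : q * d ∣ N), d ∣ M' →
      W (jBarD N (q * d) h1) = jBarD N (q * d) h1)
    (hw3 : ∀ (d : ℕ) [NeZero d] [NeZero (q ^ 2 * d)] (h1 : d ∣ N) (h2 : q ^ 2 * d ∣ N),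
      d ∣ M' → W (jBarD N (q ^ 2 * d) h2) = jBarD N d h1)
    (x : FN N) :
    midExp hqM hN ζ hζ (W x) = rot ζ (midExp hqM hN ζ⁻¹ hζ' x) := by
  have hq : q.Prime := Fact.out
  haveI : NeZero q := ⟨hq.ne_zero⟩
  have hζq : ζ⁻¹ ^ q = 1 := Units.ext (by
    rw [Units.val_pow_eq_pow_val, Units.val_one]
    exact hζ'.pow_eq_one)
  have key : (rot ζ⁻¹).comp ((midExp hqM hN ζ hζ).comp W) = midExp hqM hN ζ⁻¹ hζ' := by
    apply eq_midExp hqM hN ζ⁻¹ hζ'
    · intro c
      simp only [RingHom.comp_apply]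
      rw [hwc, midExp_algebraMap, HahnSeries.C_apply, rot_single, zpow_zero, Units.val_one,
        one_mul]
    · intro d _ hd hdq
      simp only [RingHom.comp_apply]
      rcases dvd_mul_cases hq hdq with hdM | ⟨d', hd'M, rfl⟩
      · haveI : NeZero (q ^ 2 * d) := ⟨Nat.mul_ne_zero (pow_ne_zero 2 hq.ne_zero) (NeZero.ne d)⟩
        have h2 : q ^ 2 * d ∣ N := by
          rw [hN]
          exact Nat.mul_dvd_mul_left _ hdM
        rw [hw1 d hd h2 hdM, midExp_jBarD_sq hqM hN ζ hζ (q ^ 2 * d) h2 d hdM rfl, rot_rot,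
          inv_mul_cancel, rot_one]
      · haveI : NeZero d' := ⟨by
          rintro rfl
          exact (NeZero.ne (q * 0)) (mul_zero q)⟩
        rw [hw2 d' hd hd'M, midExp_jBarD_of_dvd hqM hN ζ hζ (q * d') hd hdq, jSeries_mul q d',
          rot_qExpand_of_pow_eq_one q ζ⁻¹ hζq]
    · intro d _ hd d'' _ hd'' hdd
      subst hdd
      simp only [RingHom.comp_apply]
      have h1 : d'' ∣ N := by
        rw [hN]
        exact hd''.mul_left _
      rw [hw3 d'' h1 hd hd'', midExp_jBarD_of_dvd hqM hN ζ hζ d'' h1 (hd''.mul_left q)]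
  have h := congrArg (fun f : FN N →+* LaurentSeries Kbar => rot ζ (f x)) key
  simp only [RingHom.comp_apply] at h
  rw [rot_rot, mul_inv_cancel, rot_one] at h
  exact h

omit [NeZero M'] [NeZero N] in
include hqM in
theorem hallIdx_sq_of_dvd {d : ℕ} (hd : d ∣ M') : hallIdx (q ^ 2) d = q ^ 2 * d := by
  have hq : q.Prime := Fact.out
  have hcop : Nat.Coprime (q ^ 2) d := by
    apply Nat.Coprime.pow_left
    rw [Nat.Prime.coprime_iff_not_dvd hq]
    exact fun h => hqM (h.trans hd)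
  rw [Fermat.Agent.S35.helper1219.hallIdx_def, hcop.gcd_eq_one, Nat.div_one, Nat.div_one]

omit [NeZero M'] [NeZero N] in
include hqM in
theorem hallIdx_sq_mul_of_dvd {d : ℕ} (hd : d ∣ M') : hallIdx (q ^ 2) (q * d) = q * d := by
  have hq : q.Prime := Fact.out
  have hcop : Nat.Coprime q d := by
    rw [Nat.Prime.coprime_iff_not_dvd hq]
    exact fun h => hqM (h.trans hd)
  have hg : Nat.gcd (q ^ 2) (q * d) = q := by
    rw [sq, Nat.gcd_mul_left, hcop.gcd_eq_one, mul_one]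
  rw [Fermat.Agent.S35.helper1219.hallIdx_def, hg, sq, Nat.mul_div_cancel _ hq.pos,
    Nat.mul_div_cancel_left _ hq.pos]

omit [NeZero M'] [NeZero N] in
theorem hallIdx_sq_sq_mul (d : ℕ) : hallIdx (q ^ 2) (q ^ 2 * d) = d := by
  have hq : q.Prime := Fact.out
  have hpos : 0 < q ^ 2 := pow_pos hq.pos 2
  have hg : Nat.gcd (q ^ 2) (q ^ 2 * d) = q ^ 2 := Nat.gcd_eq_left (Dvd.intro d rfl)
  rw [Fermat.Agent.S35.helper1219.hallIdx_def, hg, Nat.div_self hpos,
    Nat.mul_div_cancel_left _ hpos, one_mul]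

/-- **The `W_{q²}`-row** (`hallIdx` form of the hypothesis = the shape of
`Fermat.Agent.S35.helper1219.atkinLehnerHall_jBarD` / `atkinLehnerBar_jBarD_hall`). -/
theorem midExp_atkinLehnerSq_hall (hζ' : IsPrimitiveRoot ((ζ⁻¹ : Kbarˣ) : Kbar) q)
    (W : FN N →+* FN N)
    (hwc : ∀ c : Kbar, W (algebraMap Kbar (FN N) c) = algebraMap Kbar (FN N) c)
    (hW : ∀ (d : ℕ) [NeZero d] [NeZero (hallIdx (q ^ 2) d)] (hd : d ∣ N)
      (hd' : hallIdx (q ^ 2) d ∣ N), W (jBarD N d hd) = jBarD N (hallIdx (q ^ 2) d) hd')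
    (x : FN N) :
    midExp hqM hN ζ hζ (W x) = rot ζ (midExp hqM hN ζ⁻¹ hζ' x) := by
  have hq : q.Prime := Fact.out
  apply midExp_atkinLehnerSq hqM hN ζ hζ hζ' W hwc
  · intro d _ _ h1 h2 hdM
    have e := hallIdx_sq_of_dvd hqM hdM
    haveI : NeZero (hallIdx (q ^ 2) d) := ⟨by rw [e]; exact NeZero.ne _⟩
    have hd' : hallIdx (q ^ 2) d ∣ N := by
      rw [e]
      exact h2
    rw [hW d h1 hd']
    exact Fermat.Agent.S35.helper1219.jBarD_congr N e _ _
  · intro d _ h1 hdM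
    have e := hallIdx_sq_mul_of_dvd hqM hdM
    haveI : NeZero (hallIdx (q ^ 2) (q * d)) := ⟨by rw [e]; exact NeZero.ne _⟩
    have hd' : hallIdx (q ^ 2) (q * d) ∣ N := by
      rw [e]
      exact h1
    rw [hW (q * d) h1 hd']
    exact Fermat.Agent.S35.helper1219.jBarD_congr N e _ _
  · intro d _ _ h1 h2 hdM
    have e := hallIdx_sq_sq_mul (q := q) d
    haveI : NeZero (hallIdx (q ^ 2) (q ^ 2 * d)) := ⟨by rw [e]; exact NeZero.ne _⟩
    have hd' : hallIdx (q ^ 2) (q ^ 2 * d) ∣ N := by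
      rw [e]
      exact h1
    rw [hW (q ^ 2 * d) h2 hd']
    exact Fermat.Agent.S35.helper1219.jBarD_congr N e _ _

omit [NeZero M'] [NeZero N] in
include hζ in
theorem zeta_pow_inv_eq (B : ℕ) : (ζ ^ B)⁻¹ = ζ ^ (B * (q - 1)) := by
  have hq : q.Prime := Fact.out
  have hζq : ζ ^ q = 1 := Units.ext (by
    rw [Units.val_pow_eq_pow_val, Units.val_one]
    exact hζ.pow_eq_one)
  apply inv_eq_of_mul_eq_one_right
  rw [← pow_add]
  have e : B + B * (q - 1) = q * B := by
    have := hq.pos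
    cases q with
    | zero => omega
    | succ n => simp only [Nat.add_sub_cancel]; ring
  rw [e, pow_mul, hζq, one_pow]

omit [NeZero M'] [NeZero N] in
theorem not_dvd_mul_pred {B : ℕ} (hB : ¬ q ∣ B) : ¬ q ∣ B * (q - 1) := by
  have hq : q.Prime := Fact.out
  intro h
  rcases (Nat.Prime.dvd_mul hq).mp h with h1 | h1
  · exact hB h1
  · have h2 := Nat.le_of_dvd (Nat.sub_pos_of_lt hq.one_lt) h1
    have := hq.pos
    omega

/-- **`W_{q²}` permutes the mid-cusp valuation subrings**: `W x ∈ v_mid,B ⟺ x ∈ v_mid,-B`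
(`-B ≡ B (q - 1)` modulo `q`). -/
theorem atkinLehnerSq_mem_midGauss_iff (W : FN N →+* FN N)
    (hwc : ∀ c : Kbar, W (algebraMap Kbar (FN N) c) = algebraMap Kbar (FN N) c)
    (hW : ∀ (d : ℕ) [NeZero d] [NeZero (hallIdx (q ^ 2) d)] (hd : d ∣ N)
      (hd' : hallIdx (q ^ 2) d ∣ N), W (jBarD N d hd) = jBarD N (hallIdx (q ^ 2) d) hd')
    {B : ℕ} (hB : ¬ q ∣ B) (x : FN N) :
    W x ∈ midGauss hqM hN ζ hζ A res B ↔ x ∈ midGauss hqM hN ζ hζ A res (B * (q - 1)) := by
  have hq : q.Prime := Fact.out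
  have hB' : ¬ q ∣ B * (q - 1) := not_dvd_mul_pred hB
  have hprim : IsPrimitiveRoot ((ζ ^ B : Kbarˣ) : Kbar) q :=
    isPrimitiveRoot_pow_of_not_dvd ζ hζ hB
  have hprim' : IsPrimitiveRoot ((ζ ^ (B * (q - 1)) : Kbarˣ) : Kbar) q :=
    isPrimitiveRoot_pow_of_not_dvd ζ hζ hB'
  have hinv : (ζ ^ B)⁻¹ = ζ ^ (B * (q - 1)) := zeta_pow_inv_eq ζ hζ B
  have hprim'' : IsPrimitiveRoot (((ζ ^ B)⁻¹ : Kbarˣ) : Kbar) q := by
    rw [hinv]
    exact hprim'
  have hpow : (ζ ^ B) ^ q = 1 := Units.ext (by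
    rw [Units.val_pow_eq_pow_val, Units.val_one]
    exact hprim.pow_eq_one)
  rw [mem_midGauss_iff, mem_midGauss_iff, midExpPow_of_not_dvd hqM hN ζ hζ hB,
    midExpPow_of_not_dvd hqM hN ζ hζ hB',
    midExp_atkinLehnerSq_hall hqM hN (ζ ^ B) hprim hprim'' W hwc hW x,
    rot_mem_gaussRing_iff A res (ζ ^ B) hq.pos hpow,
    midExp_congr hqM hN hinv hprim'' hprim']

/-- **The `W_{q²}`-row for the level-general Atkin–Lehner involution**
`Fermat.Agent.S35.helper1219.atkinLehnerHall N Q` with `Q = q²`. -/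
theorem atkinLehnerHall_mem_midGauss_iff (Q : ℕ) (hQ2 : Q = q ^ 2) (hQ : Q ∣ N)
    (hcop : Nat.Coprime Q (N / Q)) {B : ℕ} (hB : ¬ q ∣ B) (x : FN N) :
    Fermat.Agent.S35.helper1219.atkinLehnerHall N Q hQ hcop x ∈ midGauss hqM hN ζ hζ A res B ↔
      x ∈ midGauss hqM hN ζ hζ A res (B * (q - 1)) := by
  subst hQ2
  exact atkinLehnerSq_mem_midGauss_iff hqM hN ζ hζ A res
    ((Fermat.Agent.S35.helper1219.atkinLehnerHall N (q ^ 2) hQ hcop : FN N ≃ₐ[Kbar] FN N) :
      FN N →+* FN N)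
    (fun c => (Fermat.Agent.S35.helper1219.atkinLehnerHall N (q ^ 2) hQ hcop).commutes c)
    (fun d _ _ hd hd' =>
      Fermat.Agent.S35.helper1219.atkinLehnerHall_jBarD N (q ^ 2) hQ hcop d hd hd') hB x

/-- **The `W_{q²}`-row for `Fermat.Agent.S35.helper1219.atkinLehnerBar (q ^ 2) M'`** (literal level
`q ^ 2 * M'`). -/
theorem atkinLehnerBar_mem_midGauss_iff [NeZero (q ^ 2)] (h : Nat.Coprime (q ^ 2) M')
    (hN' : q ^ 2 * M' = q ^ 2 * M') {B : ℕ} (hB : ¬ q ∣ B) (x : FN (q ^ 2 * M')) :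
    Fermat.Agent.S35.helper1219.atkinLehnerBar (q ^ 2) M' h x ∈ midGauss hqM hN' ζ hζ A res B ↔
      x ∈ midGauss hqM hN' ζ hζ A res (B * (q - 1)) :=
  atkinLehnerSq_mem_midGauss_iff hqM hN' ζ hζ A res
    ((Fermat.Agent.S35.helper1219.atkinLehnerBar (q ^ 2) M' h :
      FN (q ^ 2 * M') ≃ₐ[Kbar] FN (q ^ 2 * M')) : FN (q ^ 2 * M') →+* FN (q ^ 2 * M'))
    (fun c => (Fermat.Agent.S35.helper1219.atkinLehnerBar (q ^ 2) M' h).commutes c)
    (fun d _ _ hd hd' =>
      Fermat.Agent.S35.helper1219.atkinLehnerBar_jBarD_hall (q ^ 2) M' h d hd hd') hB x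

end AtkinLehnerSq

end Mid

/-! ## The `β`-row at `∞` (any coefficient field) -/

section BetaInf

variable {L : Type*} [Field L] [Algebra ℚ L] (A : ValuationSubring L) {k : Type*} [Field k]
  (π : A →+* k) (N q : ℕ) [NeZero N] [NeZero q]

/-- **`v_∞` lies over `v'_∞` along `β`** (elementwise): `β y ∈ v_∞ ⟺ y ∈ v'_∞`. -/
theorem heckeBetaBar_mem_gaussF_iff (y : laurentBaseChange L (modularFunctionFieldFull N)) :
    heckeBetaBar L N q y ∈ gaussF A π (N * q) ↔ y ∈ gaussF A π N := by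
  constructor
  · intro h
    by_cases hy : y = 0
    · rw [hy]
      exact zero_mem _
    · have h' : qExpand L q (y : LaurentSeries L) ∈ gaussRing A π := by
        have h1 : ((heckeBetaBar L N q y : laurentBaseChange L (modularFunctionFieldFull (N * q))) :
            LaurentSeries L) ∈ gaussRing A π := h
        rw [coe_heckeBetaBar] at h1
        exact h1
      exact mem_gaussRing_of_qExpand_mem A π q
        (Fermat.Agent.S18.helper8991.isNormalizable_of_mem_full A π N y.2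
          (fun h0 => hy (Subtype.ext h0))) h'
  · exact Fermat.Agent.S35.helper2736.heckeBetaBar_mem_gaussF A π N q

/-- **`v_∞` lies over `v'_∞` along `β`** (`comap` form). -/
theorem gaussF_comap_heckeBetaBar :
    (gaussF A π (N * q)).comap (heckeBetaBar L N q).toRingHom = gaussF A π N := by
  ext y
  rw [ValuationSubring.mem_comap]
  exact heckeBetaBar_mem_gaussF_iff A π N q y

end BetaInf

end

end Fermat.Agent.S36.helper987
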